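import Mathlib

/-!
# P7 (wave 7, row 38), block (A) route DLOG, leaf DL4 GAP, abstract core (helper26)

`k` a field, `V` a `k`-subspace of `k((q))` (the expansions at the cusp `∞` of the functions
of the special fibre which are regular off `∞`), and

`Ω(V) = {w ∈ q k[[q]] : a₀(f w) = 0 for all f ∈ V}`

(`h26gOmega V`).  If all but `g` of the integers `n ≥ 1` are pole orders of `V` (there is
`f ∈ V` with `f = c q^(-n) + ...`, `c ≠ 0`), then `Ω(V)` is finite-dimensional of dimension
`≤ g`: an element `w` of `Ω(V)` is determined by its coefficients `w_m`, `m` a gap.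

* `h26g_coeff_mul_zero` : `a₀(f w) = f_(-n) w_n` if `f` starts at `q^(-n)`, `w` at `q^n`;
* `h26g_eq_zero_of_gaps`, `h26g_gap_le` : the bound, for a finite set of gaps `G`;
* `h26g_exists_gaps` : the set of gaps from the count `n ≤ #{pole orders ≤ n} + g`;
* `h26g_gap_le_of_count` : the bound from the count.
-/

set_option autoImplicit false

open Module

noncomputable section

namespace Fermat.Agent.P7

variable {k : Type*} [Field k]

/-- `Ω(V)`: the series `w` without terms of degree `≤ 0` with `a₀(f w) = 0` for `f ∈ V`. -/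
def h26gOmega (V : Submodule k (LaurentSeries k)) : Submodule k (LaurentSeries k) where
  carrier := {w | (∀ m : ℤ, m ≤ 0 → w.coeff m = 0) ∧ ∀ f ∈ V, (f * w).coeff 0 = 0}
  add_mem' := by
    rintro a b ⟨ha1, ha2⟩ ⟨hb1, hb2⟩
    refine ⟨fun m hm => ?_, fun f hf => ?_⟩
    · rw [HahnSeries.coeff_add, ha1 m hm, hb1 m hm, add_zero]
    · rw [mul_add, HahnSeries.coeff_add, ha2 f hf, hb2 f hf, add_zero]
  zero_mem' := ⟨fun m _ => rfl, fun f _ => by rw [mul_zero]; rfl⟩
  smul_mem' := by
    rintro c a ⟨ha1, ha2⟩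
    refine ⟨fun m hm => ?_, fun f hf => ?_⟩
    · rw [HahnSeries.coeff_smul, ha1 m hm, smul_zero]
    · rw [← HahnSeries.C_mul_eq_smul, mul_left_comm, HahnSeries.C_mul_eq_smul,
        HahnSeries.coeff_smul, ha2 f hf, smul_zero]

theorem h26g_mem_omega {V : Submodule k (LaurentSeries k)} {w : LaurentSeries k} :
    w ∈ h26gOmega V ↔
      (∀ m : ℤ, m ≤ 0 → w.coeff m = 0) ∧ ∀ f ∈ V, (f * w).coeff 0 = 0 :=
  Iff.rfl

/-- the constant coefficient of a product `f w`, `f` starting at `q^(-n)`, `w` at `q^n`. -/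
theorem h26g_coeff_mul_zero {f w : LaurentSeries k} {n : ℤ}
    (hf : ∀ i : ℤ, i < -n → f.coeff i = 0) (hw : ∀ j : ℤ, j < n → w.coeff j = 0) :
    (f * w).coeff 0 = f.coeff (-n) * w.coeff n := by
  rw [HahnSeries.coeff_mul]
  refine Finset.sum_eq_single (⟨-n, n⟩ : ℤ × ℤ) ?_ ?_
  · rintro ⟨i, j⟩ hb hne
    rw [Finset.mem_addAntidiagonal] at hb
    obtain ⟨hi, hj, hij⟩ := hb
    simp only at hi hj hij
    exfalso
    have hi' : -n ≤ i := by
      by_contra h
      exact hi (hf i (not_le.mp h))
    have hj' : n ≤ j := by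
      by_contra h
      exact hj (hw j (not_le.mp h))
    apply hne
    have e1 : i = -n := by omega
    have e2 : j = n := by omega
    rw [e1, e2]
  · intro hb
    rw [Finset.mem_addAntidiagonal] at hb
    simp only [HahnSeries.mem_support, ne_eq, neg_add_cancel, and_true, not_and, not_not] at hb
    by_cases h : f.coeff (-n) = 0
    · rw [h, zero_mul]
    · rw [hb h, mul_zero]

/-- `n` is a pole order of `V`. -/
def h26gIsPole (V : Submodule k (LaurentSeries k)) (n : ℕ) : Prop :=
  ∃ f ∈ V, (∀ i : ℤ, i < -(n : ℤ) → f.coeff i = 0) ∧ f.coeff (-(n : ℤ)) ≠ 0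

/-- an element of `Ω(V)` whose coefficients at the gaps vanish is zero. -/
theorem h26g_eq_zero_of_gaps (V : Submodule k (LaurentSeries k)) (G : Finset ℕ)
    (hG : ∀ n : ℕ, 1 ≤ n → n ∉ G → h26gIsPole V n)
    {w : LaurentSeries k} (hw : w ∈ h26gOmega V) (h0 : ∀ m ∈ G, w.coeff (m : ℤ) = 0) :
    w = 0 := by
  obtain ⟨hw1, hw2⟩ := hw
  have key : ∀ n : ℕ, w.coeff (n : ℤ) = 0 := by
    intro n
    induction n using Nat.strong_induction_on with
    | _ n ih =>
      rcases Nat.eq_zero_or_pos n with rfl | hn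
      · exact hw1 _ (by simp)
      by_cases hnG : n ∈ G
      · exact h0 n hnG
      obtain ⟨f, hfV, hf1, hf2⟩ := hG n hn hnG
      have h1 := hw2 f hfV
      have hw' : ∀ j : ℤ, j < (n : ℤ) → w.coeff j = 0 := by
        intro j hj
        rcases le_or_gt j 0 with hj0 | hj0
        · exact hw1 j hj0
        · lift j to ℕ using hj0.le
          exact ih j (by exact_mod_cast hj)
      rw [h26g_coeff_mul_zero hf1 hw'] at h1
      exact (mul_eq_zero.mp h1).resolve_left hf2
  ext m
  rcases le_or_gt m 0 with hm | hm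
  · simpa using hw1 m hm
  · lift m to ℕ using hm.le
    simpa using key m

/-- **DL4, abstract core**: `dim Ω(V) ≤ #G` for a finite set `G` containing the gaps. -/
theorem h26g_gap_le (V : Submodule k (LaurentSeries k)) (G : Finset ℕ)
    (hG : ∀ n : ℕ, 1 ≤ n → n ∉ G → h26gIsPole V n) :
    Module.Finite k (h26gOmega V) ∧ finrank k (h26gOmega V) ≤ G.card := by
  classical
  let Φ : h26gOmega V →ₗ[k] (G → k) :=
    { toFun := fun w m => (w : LaurentSeries k).coeff ((m : ℕ) : ℤ)
      map_add' := fun a b => by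
        funext m
        simp only [Submodule.coe_add, HahnSeries.coeff_add, Pi.add_apply]
      map_smul' := fun c a => by
        funext m
        simp only [Submodule.coe_smul, HahnSeries.coeff_smul, RingHom.id_apply, Pi.smul_apply] }
  have hinj : Function.Injective Φ := by
    rw [injective_iff_map_eq_zero]
    intro w hw
    apply Subtype.ext
    apply h26g_eq_zero_of_gaps V G hG w.2
    intro m hm
    exact congrFun hw ⟨m, hm⟩
  have : Module.Finite k (h26gOmega V) := Module.Finite.of_injective Φ hinj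
  refine ⟨inferInstance, ?_⟩
  calc finrank k (h26gOmega V) ≤ finrank k (G → k) :=
        LinearMap.finrank_le_finrank_of_injective hinj
    _ = G.card := by
        rw [Module.finrank_fintype_fun_eq_card, Fintype.card_coe]

/-- the finite set of gaps, from the count of the pole orders. -/
theorem h26g_exists_gaps (V : Submodule k (LaurentSeries k)) (g : ℕ)
    (hcount : ∀ n : ℕ, ∃ S : Finset ℕ, (∀ m ∈ S, 1 ≤ m ∧ m ≤ n ∧ h26gIsPole V m) ∧
      n ≤ S.card + g) :
    ∃ G : Finset ℕ, G.card ≤ g ∧ ∀ n : ℕ, 1 ≤ n → n ∉ G → h26gIsPole V n := by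
  classical
  have hT : ∀ T : Finset ℕ, (∀ m ∈ T, 1 ≤ m ∧ ¬ h26gIsPole V m) → T.card ≤ g := by
    intro T hT
    rcases T.eq_empty_or_nonempty with rfl | hne
    · simp
    set n := T.max' hne with hn
    obtain ⟨S, hS, hSn⟩ := hcount n
    have hdisj : Disjoint S T := by
      rw [Finset.disjoint_left]
      intro m hmS hmT
      exact (hT m hmT).2 (hS m hmS).2.2
    have hsub : S ∪ T ⊆ Finset.Icc 1 n := by
      intro m hm
      rw [Finset.mem_Icc]
      rcases Finset.mem_union.mp hm with h | h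
      · exact ⟨(hS m h).1, (hS m h).2.1⟩
      · exact ⟨(hT m h).1, Finset.le_max' T m h⟩
    have hc := Finset.card_le_card hsub
    rw [Finset.card_union_of_disjoint hdisj, Nat.card_Icc] at hc
    omega
  have hfin : {m : ℕ | 1 ≤ m ∧ ¬ h26gIsPole V m}.Finite := by
    by_contra hinf
    obtain ⟨T, hTs, hTc⟩ := Set.Infinite.exists_subset_card_eq hinf (g + 1)
    have := hT T (fun m hm => hTs hm)
    omega
  refine ⟨hfin.toFinset, hT _ (fun m hm => (Set.Finite.mem_toFinset hfin).mp hm), ?_⟩
  intro n hn hnG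
  by_contra hp
  exact hnG ((Set.Finite.mem_toFinset hfin).mpr ⟨hn, hp⟩)

/-- **DL4, abstract core, count form**: if for every `n` at least `n - g` of the integers
`1, …, n` are pole orders of `V`, then `dim Ω(V) ≤ g`. -/
theorem h26g_gap_le_of_count (V : Submodule k (LaurentSeries k)) (g : ℕ)
    (hcount : ∀ n : ℕ, ∃ S : Finset ℕ, (∀ m ∈ S, 1 ≤ m ∧ m ≤ n ∧ h26gIsPole V m) ∧
      n ≤ S.card + g) :
    Module.Finite k (h26gOmega V) ∧ finrank k (h26gOmega V) ≤ g := by
  obtain ⟨G, hGc, hG⟩ := h26g_exists_gaps V g hcount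
  obtain ⟨h1, h2⟩ := h26g_gap_le V G hG
  exact ⟨h1, h2.trans hGc⟩

end Fermat.Agent.P7
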