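import Fermat.Agent.P7.H37Gap
import Fermat.Agent.P5.H26GenusFinal
import Fermat.Prelude.Thm_ModularCurve_coeff_jqModC_neg_one
import Fermat.Prelude.Thm_ModularCurve_coeff_jqModC_pow_of_lt

/-!
# Wave 7 (S44), block (A) route DLOG, leaf DL4 GAP, level instance (helper37, prefix `h37g_`)

`kC = h13sFt A M` (function field of the special fibre of `X₀(M)` at `A` over `p`, `p ∤ M`,
`auxLevel p ∣ M`), inside `k((q))`, `k = h13sK A`.

* `h37g_place_infty` : the place `Q∞` of `kC` with `Q∞.ord f = q`-order of `f` (the cusp `∞`).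
* `h37g_gap_level` : **DL4.**  There are `g` (the common weak genus of the two fibres) and `Q∞`
  such that every `k`-subspace `Ω` of `q k[[q]]` orthogonal (`a₀(f w) = 0`) to the expansions of
  all functions of `kC` regular off `Q∞` is finite-dimensional of dimension `≤ g`.
-/

set_option autoImplicit false
set_option linter.style.haveILetI false

open AlgebraicCurve ModularCurve

noncomputable section

namespace Fermat.Agent.P7

open Fermat.Agent.P5 Fermat.Agent.S37 Fermat.Agent.Red.GV

/-- the `q`-order of `j` over any field is `-1`. -/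
theorem h37g_order_jqModC (k : Type) [Field k] : (jqModC k).order = -1 := by
  have h1 : (jqModC k).coeff (-1 : ℤ) = 1 := ModularCurve.coeff_jqModC_neg_one k
  have hne : jqModC k ≠ 0 := by
    intro h
    rw [h, HahnSeries.coeff_zero] at h1
    exact zero_ne_one h1
  refine le_antisymm (HahnSeries.order_le_of_coeff_ne_zero (by rw [h1]; exact one_ne_zero)) ?_
  by_contra hlt
  rw [not_le] at hlt
  have h2 := ModularCurve.coeff_jqModC_pow_of_lt k (b := 1) (m := (jqModC k).order)
    (by simpa using hlt)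
  rw [pow_one] at h2
  exact hne (HahnSeries.coeff_order_eq_zero.mp h2)

/-- **the place at the cusp `∞` of the special fibre**: its order function is the `q`-order. -/
theorem h37g_place_infty (A : ValuationSubring Kbar) (M : ℕ) [NeZero M] :
    ∃ Q : Place (h13sK A) (h13sFt A M), ∀ f : h13sFt A M, f ≠ 0 →
      (h13sIncl A M f).order = Q.ord f := by
  refine h37g_exists_place (K := h13sK A) (F := h13sFt A M) (h26sJ A M)⁻¹
    (RingHom.id (h13sK A)) (h13sIncl A M).toRingHom ?_ ?_
  · intro a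
    show h13sIncl A M (algebraMap (h13sK A) (h13sFt A M) a) = _
    rw [AlgHom.commutes, algebraMap_laurentSeries_eq_single]
    rfl
  · show (h13sIncl A M (h26sJ A M)⁻¹).order = 1
    rw [map_inv₀]
    have h1 : h13sIncl A M (h26sJ A M) = jqModC (h13sK A) := by
      show gaussR A M ⟨jB M, jB_mem_gaussV A M⟩ = _
      exact gaussR_jB A M
    rw [h1]
    have h2 := h37g_pe_order_map_inv (RingHom.id (LaurentSeries (h13sK A))) (jqModC (h13sK A))
    simp only [RingHom.id_apply] at h2
    rw [h2, h37g_order_jqModC]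
    norm_num

/-- **DL4 GAP, level instance.** -/
theorem h37g_gap_level {ℓ : ℕ} (hℓ : ℓ.Prime) (M : ℕ) [NeZero M] (hM : ¬ ℓ ∣ M)
    (haux : auxLevel ℓ ∣ M) (A : ValuationSubring Kbar) (hA : A.LiesOverPrime ℓ) :
    ∃ (g : ℕ) (Q : Place (h13sK A) (h13sFt A M)),
      H13rIsGenus Kbar (FF M) g ∧ H13rIsGenus (h13sK A) (h13sFt A M) g ∧
      (∀ f : h13sFt A M, f ≠ 0 → (h13sIncl A M f).order = Q.ord f) ∧
      ∀ Ω : Submodule (h13sK A) (LaurentSeries (h13sK A)),
        (∀ w ∈ Ω, (∀ i : ℤ, i ≤ 0 → w.coeff i = 0) ∧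
          ∀ f : h13sFt A M, (∀ v : Place (h13sK A) (h13sFt A M), v ≠ Q → 0 ≤ v.ord f) →
            (h13sIncl A M f * w).coeff 0 = 0) →
        Module.Finite (h13sK A) Ω ∧ Module.finrank (h13sK A) Ω ≤ g := by
  obtain ⟨g, hgG, hgS⟩ := h26s_genus ℓ hℓ M hM haux A hA
  obtain ⟨Q, hQ⟩ := h37g_place_infty A M
  have hB : H13rBase (h13sK A) (h13sFt A M) := h26s_base ℓ hℓ M hM haux A hA
  refine ⟨g, Q, hgG, hgS, hQ, fun Ω hΩ => ?_⟩
  refine h37g_gap_dim hB g hgS (h13sIncl A M).toRingHom Q hQ Ω (fun w hw => ?_)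
  refine ⟨(hΩ w hw).1, fun n f hf => ?_⟩
  refine (hΩ w hw).2 f (fun v hv => ?_)
  rcases eq_or_ne f 0 with rfl | hf0
  · simp
  have h1 := (mem_riemannRochSpace_iff.mp hf) v
  rcases h1 with h1 | h1
  · exact absurd h1 hf0
  · rw [Finsupp.single_eq_of_ne (fun h => hv h)] at h1
    simpa using h1

end Fermat.Agent.P7
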