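import Fermat.Agent.P7.H37LatRed
import Fermat.Agent.P5.H58DictG
import Fermat.Agent.P5.H55Semi
import Fermat.Agent.P5.H68RRFin
import Fermat.Agent.P7.H37GapLevel
import Fermat.Agent.P7.H26DlogGap

/-!
# Wave 7, block (A), route DLOG: DL4 (GAP) at the NON-good level `M` (helper37, prefix `h37n_`)

`ℓ` a prime, `M` ANY level prime to `ℓ`, `A` a valuation subring of `ℚ̄` over `ℓ`, `k` its
residue field, `Q` the place `∞` of `FF M` (`ord_Q = q`-order).

* `h37nLL M A Q` : the `k`-span of the reductions `gaussR f` of the Gauss-integral functions `f`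
  of level `M` which are regular off `Q`;
* `H37nConst M A Q` : **CONST(M)** (a `Prop`, NOT proved here; hole (H1) of finding 1447): such
  an `f` whose reduction has no negative term has constant reduction;
* `h37n_red_modelInf` : the reduction of an element of the chart at infinity has no negative
  term (integrality over `k[1/j] ⊆ k[[q]]`);
* `h37n_red_pole` : the reduction of a Gauss-integral `f ∈ L(n Q)` has a pole of order `≤ n`;
* `h37n_gap` : **DL4 at level `M`**: CONST(M) ⟹ `Ω(LL)` is finite-dimensional of dimension `≤ g`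
  for every weak genus `g` of `FF M` (char-0 Riemann inequality + LATTICE-RED `h37l_latRed` +
  the abstract count `h26g_gap_le_of_count`);
* `h37n_place_infty` : the place `Q`.
-/

set_option autoImplicit false
set_option linter.unusedSectionVars false
set_option linter.style.haveILetI false

open AlgebraicCurve ModularCurve IsLocalRing

noncomputable section

namespace Fermat.Agent.P7

open Fermat.Agent.S37 Fermat.Agent.Red.GV Fermat.Agent.Red.GV.Soft Fermat.Agent.P5
  Fermat.Agent.Red.Nz

variable {ℓ : ℕ} (M : ℕ) [NeZero M] (A : ValuationSubring Kbar)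

/-- a Laurent series without negative terms is a valuation integer. -/
theorem h37n_mem_integer_iff {k : Type*} [Field k] (f : LaurentSeries k) :
    f ∈ (Valued.v : Valuation (LaurentSeries k) _).integer ↔ ∀ n : ℤ, n < 0 → f.coeff n = 0 := by
  rw [Valuation.mem_integer_iff]
  have h := LaurentSeries.valuation_le_iff_coeff_lt_eq_zero (K := k) (D := 0) (f := f)
  simpa using h

/-- an element of `k((q))` which is integral over a subring of `k[[q]]`-elements has no negative
terms. -/
theorem h37n_integral {k : Type*} [Field k] {R : Type*} [CommRing R]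
    (ψ : R →+* LaurentSeries k) (hψ : ∀ r, ∀ n : ℤ, n < 0 → (ψ r).coeff n = 0)
    (x : LaurentSeries k) (hx : ψ.IsIntegralElem x) : ∀ n : ℤ, n < 0 → x.coeff n = 0 := by
  rw [← h37n_mem_integer_iff]
  obtain ⟨p, hp, hpx⟩ := hx
  set O := (Valued.v : Valuation (LaurentSeries k) _).integer with hO
  let ψ' : R →+* O := ψ.codRestrict O (fun r => (h37n_mem_integer_iff (ψ r)).mpr (hψ r))
  have hint : IsIntegral O x := by
    refine ⟨p.map ψ', hp.map _, ?_⟩
    rw [Polynomial.eval₂_map]
    exact hpx
  exact (Valuation.integer.integers (v := (Valued.v : Valuation (LaurentSeries k) _))).mem_of_integral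
    hint

/-- the reduction of `1 / j`. -/
theorem h37n_gaussR_jinv (hℓ : ℓ.Prime) (hM : ¬ ℓ ∣ M) (hA : A.LiesOverPrime ℓ) :
    gaussR A M ⟨(jB M)⁻¹, jB_inv_mem_gaussV A M hℓ hM hA⟩ = (jqModC (ResidueField A))⁻¹ := by
  have h1 : (⟨(jB M)⁻¹, jB_inv_mem_gaussV A M hℓ hM hA⟩ : gaussV A M) *
      ⟨jB M, jB_mem_gaussV A M⟩ = 1 := by
    apply Subtype.ext
    show (jB M)⁻¹ * jB M = 1
    exact inv_mul_cancel₀ (Fermat.Agent.Red.ModelO.h85_jB_ne_zero M)
  have h2 := congrArg (gaussR A M) h1
  rw [map_mul, map_one, gaussR_jB] at h2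
  exact eq_inv_of_mul_eq_one_left h2

/-- `1 / j` has no negative terms. -/
theorem h37n_jinv_coeff (k : Type) [Field k] (n : ℤ) (hn : n < 0) :
    ((jqModC k)⁻¹).coeff n = 0 := by
  have h2 := h37g_pe_order_map_inv (RingHom.id (LaurentSeries k)) (jqModC k)
  simp only [RingHom.id_apply] at h2
  rw [h37g_order_jqModC] at h2
  apply HahnSeries.coeff_eq_zero_of_lt_order
  rw [h2]
  omega

/-- **(N2)** the reduction of an element of the chart at infinity has no negative terms. -/
theorem h37n_red_modelInf (hℓ : ℓ.Prime) (hM : ¬ ℓ ∣ M) (hA : A.LiesOverPrime ℓ)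
    (x : FF M) (hx : x ∈ modelInf M A) (hxV : x ∈ gaussV A M) :
    ∀ i : ℤ, i < 0 → (gaussR A M ⟨x, hxV⟩).coeff i = 0 := by
  have htV : (jB M)⁻¹ ∈ gaussV A M := jB_inv_mem_gaussV A M hℓ hM hA
  let c : A →+* gaussV A M :=
    ((algebraMap Kbar (FF M)).comp A.subtype).codRestrict (gaussV A M)
      (fun a => h89_cst_mem_gaussV a)
  let E : Polynomial A →+* gaussV A M := Polynomial.eval₂RingHom c ⟨(jB M)⁻¹, htV⟩
  let ι : gaussV A M →+* LaurentSeries Kbar :=
    ((modularFunctionFieldBar M).val.toRingHom).comp (gaussV A M).subtype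
  have hι : Function.Injective ι := by
    intro a b hab
    apply Subtype.ext
    exact Subtype.ext hab
  have hιE : ι.comp E = evalA A (jK Kbar)⁻¹ := by
    apply Polynomial.ringHom_ext
    · intro a
      show ι (E (Polynomial.C a)) = evalA A (jK Kbar)⁻¹ (Polynomial.C a)
      have e1 : E (Polynomial.C a) = c a := Polynomial.eval₂_C _ _
      have e2 : evalA A (jK Kbar)⁻¹ (Polynomial.C a) = HahnSeries.C (a : Kbar) :=
        Polynomial.eval₂_C _ _
      rw [e1, e2]
      exact coe_cst M (a : Kbar)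
    · show ι (E Polynomial.X) = evalA A (jK Kbar)⁻¹ Polynomial.X
      have e1 : E Polynomial.X = ⟨(jB M)⁻¹, htV⟩ := Polynomial.eval₂_X _ _
      have e2 : evalA A (jK Kbar)⁻¹ Polynomial.X = (jK Kbar)⁻¹ := Polynomial.eval₂_X _ _
      rw [e1, e2, ← coe_jB M]
      rfl
  obtain ⟨p, hp, hpx⟩ := (mem_modelInf_iff M A x).mp hx
  have h1 : p.eval₂ E (⟨x, hxV⟩ : gaussV A M) = 0 := by
    apply hι
    rw [Polynomial.hom_eval₂, hιE, map_zero]
    exact hpx
  have h2 : p.eval₂ ((gaussR A M).comp E) (gaussR A M ⟨x, hxV⟩) = 0 := by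
    rw [← Polynomial.hom_eval₂, h1, map_zero]
  refine h37n_integral ((gaussR A M).comp E) ?_ _ ⟨p, hp, h2⟩
  intro q
  rw [← h37n_mem_integer_iff]
  induction q using Polynomial.induction_on with
  | C a =>
    rw [h37n_mem_integer_iff]
    intro n hn
    have e1 : E (Polynomial.C a) = c a := Polynomial.eval₂_C _ _
    show (gaussR A M (E (Polynomial.C a))).coeff n = 0
    rw [e1]
    have e3 : gaussR A M (c a) = HahnSeries.C (residue A a) :=
      h89_gaussR_cst a (h89_cst_mem_gaussV a)
    rw [e3, HahnSeries.C_apply, HahnSeries.coeff_single_of_ne hn.ne]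
  | add p q hp hq =>
    rw [map_add]
    exact add_mem hp hq
  | monomial n a h =>
    rw [pow_succ, ← mul_assoc, map_mul]
    refine mul_mem h ?_
    rw [h37n_mem_integer_iff]
    intro m hm
    have e1 : E Polynomial.X = ⟨(jB M)⁻¹, htV⟩ := Polynomial.eval₂_X _ _
    show (gaussR A M (E Polynomial.X)).coeff m = 0
    rw [e1, h37n_gaussR_jinv M A hℓ hM hA]
    exact h37n_jinv_coeff _ m hm

/-- the order of a power. -/
theorem h37n_order_pow {k : Type*} [Field k] (s : LaurentSeries k) (n : ℕ) :
    (s ^ n).order = n * s.order := by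
  induction n with
  | zero => simp
  | succ n ih =>
    by_cases hs : s = 0
    · subst hs
      simp
    · rw [pow_succ, HahnSeries.order_mul (pow_ne_zero n hs) hs, ih]
      push_cast
      ring

/-- a nonzero series without negative terms has nonnegative order. -/
theorem h37n_order_nonneg {k : Type*} [Field k] {s : LaurentSeries k} (hs : s ≠ 0)
    (h : ∀ i : ℤ, i < 0 → s.coeff i = 0) : 0 ≤ s.order := by
  by_contra hlt
  rw [not_le] at hlt
  exact hs (HahnSeries.coeff_order_eq_zero.mp (h _ hlt))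

/-- the place `∞` of `FF M`. -/
theorem h37n_place_infty :
    ∃ Q : Place Kbar (FF M), ∀ f : FF M, f ≠ 0 →
      ((f : FF M) : LaurentSeries Kbar).order = Q.ord f := by
  refine h37g_exists_place (K := Kbar) (F := FF M) (jB M)⁻¹ (RingHom.id Kbar)
    (modularFunctionFieldBar M).val.toRingHom ?_ ?_
  · intro a
    exact coe_cst M a
  · show ((((jB M)⁻¹ : FF M)) : LaurentSeries Kbar).order = 1
    have e : ((((jB M)⁻¹ : FF M)) : LaurentSeries Kbar) = (jqModC Kbar)⁻¹ := by
      show _ = (jK Kbar)⁻¹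
      rw [← coe_jB M]
      rfl
    rw [e]
    have h2 := h37g_pe_order_map_inv (RingHom.id (LaurentSeries Kbar)) (jqModC Kbar)
    simp only [RingHom.id_apply] at h2
    rw [h2, h37g_order_jqModC]
    norm_num

section Level

variable (Q : Place Kbar (FF M))

/-- **the pole-order bound**: the reduction of a Gauss-integral function which is regular off
`Q` with a pole of order `≤ n` at `Q` has a pole of order `≤ n`. -/
theorem h37n_red_pole (hℓ : ℓ.Prime) (hM : ¬ ℓ ∣ M) (hA : A.LiesOverPrime ℓ)
    (hQ : ∀ f : FF M, f ≠ 0 → ((f : FF M) : LaurentSeries Kbar).order = Q.ord f)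
    (n : ℕ) (f : FF M) (hfV : f ∈ gaussV A M)
    (hf : ∀ v : Place Kbar (FF M), v ≠ Q → 0 ≤ v.ord f) (hfQ : -(n : ℤ) ≤ Q.ord f) :
    ∀ i : ℤ, i < -(n : ℤ) → (gaussR A M ⟨f, hfV⟩).coeff i = 0 := by
  have hj0 : jB M ≠ 0 := Fermat.Agent.Red.ModelO.h85_jB_ne_zero M
  have htV : (jB M)⁻¹ ∈ gaussV A M := jB_inv_mem_gaussV A M hℓ hM hA
  rcases eq_or_ne f 0 with rfl | hf0
  · intro i _
    have : (⟨0, hfV⟩ : gaussV A M) = 0 := rfl
    rw [this, map_zero, HahnSeries.coeff_zero]
  have hgV : (jB M)⁻¹ ^ n * f ∈ gaussV A M := Subring.mul_mem _ (Subring.pow_mem _ htV n) hfV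
  have hQt : Q.ord (jB M)⁻¹ = 1 := by
    rw [← hQ _ (inv_ne_zero hj0)]
    have e : ((((jB M)⁻¹ : FF M)) : LaurentSeries Kbar) = (jqModC Kbar)⁻¹ := by
      show _ = (jK Kbar)⁻¹
      rw [← coe_jB M]
      rfl
    rw [e]
    have h2 := h37g_pe_order_map_inv (RingHom.id (LaurentSeries Kbar)) (jqModC Kbar)
    simp only [RingHom.id_apply] at h2
    rw [h2, h37g_order_jqModC]
    norm_num
  have hgInf : (jB M)⁻¹ ^ n * f ∈ modelInf M A := by
    refine h58h_mem_modelInf_of_top M A hℓ hM hA hgV (h58h_regular_inf M _ (fun v hv => ?_))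
    apply Fermat.Agent.S24.DiffPlace.mem_of_ord_nonneg v
    rw [h58h_ord_pow_mul M v n (inv_ne_zero hj0) hf0]
    have h1 : 0 ≤ v.ord (jB M)⁻¹ := Fermat.Agent.S24.DiffPlace.ord_nonneg_of_mem v hv
    by_cases hvQ : v = Q
    · subst hvQ
      rw [hQt]
      omega
    · have h2 := hf v hvQ
      have h3 : 0 ≤ (n : ℤ) * v.ord (jB M)⁻¹ := mul_nonneg (Int.natCast_nonneg n) h1
      omega
  have hred := h37n_red_modelInf M A hℓ hM hA _ hgInf hgV
  -- `red f = j ^ n * red g`
  have e1 : gaussR A M ⟨f, hfV⟩ =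
      jqModC (ResidueField A) ^ n * gaussR A M ⟨(jB M)⁻¹ ^ n * f, hgV⟩ := by
    have h1 : (⟨f, hfV⟩ : gaussV A M) =
        (⟨jB M, jB_mem_gaussV A M⟩ : gaussV A M) ^ n * ⟨(jB M)⁻¹ ^ n * f, hgV⟩ := by
      apply Subtype.ext
      show f = jB M ^ n * ((jB M)⁻¹ ^ n * f)
      rw [← mul_assoc, ← mul_pow, mul_inv_cancel₀ hj0, one_pow, one_mul]
    rw [h1, map_mul, map_pow, gaussR_jB]
  intro i hi
  rw [e1]
  set y := gaussR A M ⟨(jB M)⁻¹ ^ n * f, hgV⟩ with hy
  rcases eq_or_ne y 0 with h0 | h0
  · rw [h0, mul_zero, HahnSeries.coeff_zero]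
  · have hjq : jqModC (ResidueField A) ≠ 0 := by
      intro h
      have := h37g_order_jqModC (ResidueField A)
      rw [h, HahnSeries.order_zero] at this
      omega
    apply HahnSeries.coeff_eq_zero_of_lt_order
    rw [HahnSeries.order_mul (pow_ne_zero n hjq) h0, h37n_order_pow, h37g_order_jqModC]
    have := h37n_order_nonneg h0 hred
    omega

/-- the `k`-span of the reductions of the Gauss-integral functions regular off `Q`. -/
def h37nLL : Submodule (ResidueField A) (LaurentSeries (ResidueField A)) :=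
  Submodule.span (ResidueField A)
    {y | ∃ (f : FF M) (hf : f ∈ gaussV A M),
      (∀ v : Place Kbar (FF M), v ≠ Q → 0 ≤ v.ord f) ∧ y = gaussR A M ⟨f, hf⟩}

/-- **CONST(M)** (hypothesis of `h37n_gap`; hole (H1) of finding 1447): a Gauss-integral
function of level `M`, regular off `Q`, whose reduction has no negative term, has constant
reduction. -/
def H37nConst : Prop :=
  ∀ (f : FF M) (hf : f ∈ gaussV A M), (∀ v : Place Kbar (FF M), v ≠ Q → 0 ≤ v.ord f) →
    (∀ i : ℤ, i < 0 → (gaussR A M ⟨f, hf⟩).coeff i = 0) →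
      ∃ c : ResidueField A, gaussR A M ⟨f, hf⟩ = HahnSeries.C c

/-- **DL4 at the level `M`**: CONST(M) ⟹ `dim Ω ≤ g`. -/
theorem h37n_gap (hℓ : ℓ.Prime) (hM : ¬ ℓ ∣ M) (hA : A.LiesOverPrime ℓ)
    (hQ : ∀ f : FF M, f ≠ 0 → ((f : FF M) : LaurentSeries Kbar).order = Q.ord f)
    (hC : H37nConst M A Q) (g : ℕ) (hg : H13rIsGenus Kbar (FF M) g) :
    Module.Finite (ResidueField A) (h26gOmega (h37nLL M A Q)) ∧
      Module.finrank (ResidueField A) (h26gOmega (h37nLL M A Q)) ≤ g := by
  classical
  have hB : H13rBase Kbar (FF M) := h40r_base_FF M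
  refine h26g_gap_le_of_count (h37nLL M A Q) g (fun n => ?_)
  -- the Riemann-Roch space
  set D : Divisor Kbar (FF M) := n • Finsupp.single Q (1 : ℤ) with hD
  have hDv : ∀ v : Place Kbar (FF M), D v = if v = Q then (n : ℤ) else 0 := by
    intro v
    rw [hD, Finsupp.smul_apply, Finsupp.single_apply, nsmul_eq_mul]
    by_cases h : Q = v
    · rw [if_pos h, if_pos h.symm, mul_one]
    · rw [if_neg h, if_neg (fun h' => h h'.symm), mul_zero]
  have hdeg : Divisor.degree D = n := by
    rw [hD, map_nsmul, Divisor.degree_single, hB.deg_one Q, nsmul_eq_mul]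
    simp
  haveI : Module.Finite Kbar ↥(riemannRochSpace D) := h68r_finite hB D
  have hfg : (riemannRochSpace D).FG := Module.Finite.iff_fg.mp inferInstance
  obtain ⟨N, w, hwV, hwW, hspan, hli⟩ := h37l_latRed M A hℓ hM hA (riemannRochSpace D) hfg
  -- the count `n + 1 ≤ N + g`
  have hN : (n : ℤ) + 1 ≤ (N : ℤ) + g := by
    have h1 := hg.1 D
    rw [hdeg] at h1
    have h2 : h13rL Kbar (FF M) D ≤ N := by
      have h3 := finrank_range_le_card (R := Kbar) w
      rw [Fintype.card_fin] at h3
      have h4 : Module.finrank Kbar ↥(riemannRochSpace D) =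
          Module.finrank Kbar ↥(Submodule.span Kbar (Set.range w)) := by rw [hspan]
      show Module.finrank Kbar ↥(riemannRochSpace D) ≤ N
      rw [h4]
      exact h3
    have h5 : (h13rL Kbar (FF M) D : ℤ) ≤ N := by exact_mod_cast h2
    linarith
  -- the members of `L(D)`
  have hreg : ∀ f ∈ riemannRochSpace D, (∀ v : Place Kbar (FF M), v ≠ Q → 0 ≤ v.ord f) ∧
      -(n : ℤ) ≤ Q.ord f := by
    intro f hf
    rw [mem_riemannRochSpace_iff] at hf
    constructor
    · intro v hv
      rcases hf v with h0 | h1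
      · rw [h0]; simp
      · rw [hDv, if_neg hv] at h1
        simpa using h1
    · rcases hf Q with h0 | h1
      · rw [h0]; simp
      · rw [hDv, if_pos rfl] at h1
        exact h1
  -- the reductions
  set wb : Fin N → LaurentSeries (ResidueField A) := fun i => gaussR A M ⟨w i, hwV i⟩ with hwb
  have hwbLL : ∀ i, wb i ∈ h37nLL M A Q := fun i =>
    Submodule.subset_span ⟨w i, hwV i, (hreg _ (hwW i)).1, rfl⟩
  have hwbpole : ∀ i, ∀ j : ℤ, j < -(n : ℤ) → (wb i).coeff j = 0 := fun i =>
    h37n_red_pole M A Q hℓ hM hA hQ n (w i) (hwV i) (hreg _ (hwW i)).1 (hreg _ (hwW i)).2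
  -- combinations
  have hcomb : ∀ a : Fin N → ResidueField A,
      (∑ i, a i • wb i ∈ h37nLL M A Q) ∧
      (∀ j : ℤ, j < -(n : ℤ) → (∑ i, a i • wb i).coeff j = 0) ∧
      ((∀ j : ℤ, j < 0 → (∑ i, a i • wb i).coeff j = 0) →
        ∃ c : ResidueField A, ∑ i, a i • wb i = HahnSeries.C c) := by
    intro a
    refine ⟨Submodule.sum_mem _ (fun i _ => Submodule.smul_mem _ _ (hwbLL i)), ?_, ?_⟩
    · intro j hj
      rw [HahnSeries.coeff_sum]
      refine Finset.sum_eq_zero (fun i _ => ?_)
      rw [HahnSeries.coeff_smul, hwbpole i j hj, smul_zero]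
    · intro hneg
      choose α hα using fun i => residue_surjective (a i)
      have hfW : ∑ i, cst M ((α i : A) : Kbar) * w i ∈ riemannRochSpace D := by
        refine Submodule.sum_mem _ (fun i _ => ?_)
        rw [h55o_cst_mul_eq_smul]
        exact Submodule.smul_mem _ _ (hwW i)
      have hfV : ∑ i, cst M ((α i : A) : Kbar) * w i ∈ gaussV A M :=
        Subring.sum_mem _ (fun i _ => Subring.mul_mem _ (h89_cst_mem_gaussV (α i)) (hwV i))
      have hsum := h55s_gaussR_sum w hwV α hfV
      have e : gaussR A M ⟨∑ i, cst M ((α i : A) : Kbar) * w i, hfV⟩ = ∑ i, a i • wb i := by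
        rw [hsum]
        refine Finset.sum_congr rfl (fun i _ => ?_)
        rw [hα i, HahnSeries.C_mul_eq_smul]
      have h1 := hC _ hfV (hreg _ hfW).1 (by rw [e]; exact hneg)
      rw [e] at h1
      exact h1
  -- the set of pole orders
  set U : Submodule (ResidueField A) (LaurentSeries (ResidueField A)) :=
    Submodule.span (ResidueField A) (Set.range wb) with hU
  have hUrep : ∀ u ∈ U, ∃ a : Fin N → ResidueField A, ∑ i, a i • wb i = u := fun u hu =>
    (Submodule.mem_span_range_iff_exists_fun _).mp hu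
  set S : Finset ℕ := (Finset.Icc 1 n).filter (fun m => h26gIsPole (h37nLL M A Q) m) with hS
  refine ⟨S, fun m hm => ?_, ?_⟩
  · rw [hS, Finset.mem_filter, Finset.mem_Icc] at hm
    exact ⟨hm.1.1, hm.1.2, hm.2⟩
  -- the injection
  have hUfin : Module.finrank (ResidueField A) U = N := by
    have := finrank_span_eq_card hli
    rw [Fintype.card_fin] at this
    exact this
  let T : Finset ℕ := insert 0 S
  let φ : U →ₗ[ResidueField A] (T → ResidueField A) :=
    { toFun := fun u m => (u : LaurentSeries (ResidueField A)).coeff (-((m : ℕ) : ℤ))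
      map_add' := fun u v => by
        funext m
        simp [HahnSeries.coeff_add]
      map_smul' := fun c u => by
        funext m
        simp [HahnSeries.coeff_smul] }
  have hφ : Function.Injective φ := by
    rw [← LinearMap.ker_eq_bot, LinearMap.ker_eq_bot']
    intro u hu
    by_contra hne
    have hu0 : (u : LaurentSeries (ResidueField A)) ≠ 0 := fun h => hne (Subtype.ext h)
    obtain ⟨a, ha⟩ := hUrep u u.2
    obtain ⟨h1, h2, h3⟩ := hcomb a
    rw [ha] at h1 h2 h3
    have hφm : ∀ m ∈ T, (u : LaurentSeries (ResidueField A)).coeff (-((m : ℕ) : ℤ)) = 0 := by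
      intro m hm
      exact congrFun hu ⟨m, hm⟩
    have hord : (u : LaurentSeries (ResidueField A)).coeff
        (u : LaurentSeries (ResidueField A)).order ≠ 0 :=
      fun h => hu0 (HahnSeries.coeff_order_eq_zero.mp h)
    have hlow : -(n : ℤ) ≤ (u : LaurentSeries (ResidueField A)).order := by
      by_contra hlt
      rw [not_le] at hlt
      exact hord (h2 _ hlt)
    rcases lt_or_ge (u : LaurentSeries (ResidueField A)).order 0 with hneg | hpos
    · -- a pole
      obtain ⟨m, hm⟩ : ∃ m : ℕ, (u : LaurentSeries (ResidueField A)).order = -(m : ℤ) :=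
        ⟨(-(u : LaurentSeries (ResidueField A)).order).toNat, by
          rw [Int.toNat_of_nonneg (by omega)]; ring⟩
      have hmS : m ∈ S := by
        rw [hS, Finset.mem_filter, Finset.mem_Icc]
        refine ⟨⟨by omega, by omega⟩, (u : LaurentSeries (ResidueField A)), h1, ?_, ?_⟩
        · intro i hi
          apply HahnSeries.coeff_eq_zero_of_lt_order
          rw [hm]
          exact hi
        · rw [← hm]
          exact hord
      apply hord
      rw [hm]
      exact hφm m (Finset.mem_insert_of_mem hmS)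
    · -- no pole: a constant
      obtain ⟨c, hc⟩ := h3 (fun j hj => HahnSeries.coeff_eq_zero_of_lt_order (by omega))
      have h0 := hφm 0 (Finset.mem_insert_self 0 S)
      rw [hc] at h0
      simp only [Nat.cast_zero, neg_zero, HahnSeries.C_apply, HahnSeries.coeff_single_same] at h0
      apply hu0
      rw [hc, h0, map_zero]
  have hle := LinearMap.finrank_le_finrank_of_injective hφ
  rw [hUfin, Module.finrank_fintype_fun_eq_card, Fintype.card_coe] at hle
  have hT : T.card ≤ S.card + 1 := Finset.card_insert_le 0 S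
  have h6 : (N : ℤ) ≤ S.card + 1 := by exact_mod_cast hle.trans hT
  have h7 : (n : ℤ) ≤ (S.card : ℤ) + g := by linarith
  exact_mod_cast h7

end Level

end Fermat.Agent.P7
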