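import Fermat.Agent.P7.H10CuspOrthRed
import Fermat.Agent.P7.H37GapM

/-!
# Wave 7, block (A), DLOG: CUSP-ORTH-RED in the consumer shape (helper10, prefix `h10x_`)

`h10x_hcusp` : the hypothesis `hcusp` of helper72's `h72w_omega_eq_sbar` / `h72w_om_mem_sbar` /
`h72w_theta_zero` for helper37's `V = h37nLL M A Q`: the reductions of the cusp forms with
integral `q`-expansion lie in `Ω(V) = h26gOmega (h37nLL M A Q)`.  UNCONDITIONAL.
-/

set_option autoImplicit false
set_option linter.style.haveILetI false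
set_option linter.unusedSectionVars false

open ModularCurve AlgebraicCurve UpperHalfPlane CongruenceSubgroup ModularFormClass
open scoped MatrixGroups Manifold

noncomputable section

namespace Fermat.Agent.P7

open Fermat.Agent.S24 (Kbar FF embC)
open Fermat.Agent.Red.GV (embA redA gaussV gaussR)
open Fermat.Agent.Red.GV.Soft

/-- regular off a place `Q` computing the `q`-order ⟹ regular off the `q`-place. -/
theorem h10x_regOff_of_place (M : ℕ) (Q : Place Kbar (FF M))
    (hQ : ∀ f : FF M, f ≠ 0 → ((f : FF M) : LaurentSeries Kbar).order = Q.ord f)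
    (f : FF M) (hf : ∀ v : Place Kbar (FF M), v ≠ Q → 0 ≤ v.ord f) : H10xRegOff M f := by
  intro w hw
  apply hf w
  rintro rfl
  obtain ⟨g, hg0, hg⟩ := hw
  exact hg (hQ g hg0).symm

/-- **`hcusp`** of `h72w_theta_zero` for `V = h37nLL M A Q`: the reductions of the cusp forms
with integral `q`-expansion lie in `Ω(V)`. -/
theorem h10x_hcusp {ℓ : ℕ} (hℓ : ℓ.Prime) (A : ValuationSubring Kbar)
    (hA : A.LiesOverPrime ℓ) (M : ℕ) [NeZero M] (hM : ¬ ℓ ∣ M) (Q : Place Kbar (FF M))
    (hQ : ∀ f : FF M, f ≠ 0 → ((f : FF M) : LaurentSeries Kbar).order = Q.ord f) :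
    ∀ w ∈ h10wSbarGen M (IsLocalRing.ResidueField A),
      h72wSer w ∈ h26gOmega (h37nLL M A Q) := by
  rintro w ⟨h, c, hc, rfl⟩
  refine ⟨fun m hm => ?_, fun f hf => ?_⟩
  · rcases lt_or_eq_of_le hm with hm | rfl
    · exact h72w_ser_coeff_neg _ hm
    · have h0 : c 0 = 0 := by
        have h1 := hc 0
        rw [Fermat.Agent.S49.qCoeff_zero_index] at h1
        exact_mod_cast h1.symm
      have h2 := h72w_ser_coeff_nat (fun n => ((c n : ℤ) : IsLocalRing.ResidueField A)) 0
      rw [Nat.cast_zero] at h2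
      rw [h2, h0, Int.cast_zero]
  · induction hf using Submodule.span_induction with
    | mem x hx =>
      obtain ⟨f, hf, hreg, rfl⟩ := hx
      exact h10x_cuspOrthRed_gauss hℓ A hA M hM f (h10x_regOff_of_place M Q hQ f hreg) hf h c hc
    | zero => rw [zero_mul]; rfl
    | add x y _ _ hx hy => rw [add_mul, HahnSeries.coeff_add, hx, hy, add_zero]
    | smul a x _ hx =>
      rw [← HahnSeries.C_mul_eq_smul, mul_assoc, HahnSeries.C_mul_eq_smul, HahnSeries.coeff_smul,
        hx, smul_zero]

end Fermat.Agent.P7
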