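import Fermat.Agent.P7.H10Lattice
import Fermat.Agent.S49.QCoeff
import Fermat.Agent.S23
import Fermat.Prelude.Thm_CuspForm_intLattice_fg

/-!
# Wave 7, block (A) by DLOG, leaf DL6 LATTICE: the instance for cusp forms (helper10)

`Sbar = h10wSbar M k` : the `k`-span, inside the coefficient sequences `ℕ → k`, of the reductions
of the weight-2 cusp forms of level `Γ₀(M)` with integral `q`-expansion.

* `h10w_sbar_basis` : `Sbar` is spanned by the reductions of finitely many integral cusp forms,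
  which are `k`-linearly independent and span `S₂(Γ₀(M))` over `ℂ`.
* `h10w_sbar_finite` : `Sbar` is finite-dimensional.
* `h10w_sbar_finrank` : `dim_ℂ S₂(Γ₀(M)) ≤ dim_k Sbar`.

Inputs: the prelude lemma `CuspForm.intLattice_fg` (Sturm bound) and the landed S23 (integral
structure).  `k` is any field of characteristic `p`.
-/

set_option autoImplicit false
set_option linter.style.haveILetI false
set_option linter.unusedSectionVars false

open ModularFormClass CongruenceSubgroup

noncomputable section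

namespace Fermat.Agent.P7

/-- the `q`-expansion coefficients as a linear map to sequences. -/
def h10wQ (M : ℕ) : CuspForm (Gamma0 M) 2 →ₗ[ℂ] (ℕ → ℂ) :=
  LinearMap.pi fun n => Fermat.Agent.S49.qCoeffLin M 2 n

theorem h10wQ_apply (M : ℕ) (f : CuspForm (Gamma0 M) 2) (n : ℕ) :
    h10wQ M f n = qCoeff ⇑f n := rfl

theorem h10w_int_eq (M : ℕ) : h10wInt (h10wQ M) = CuspForm.intLattice M 2 := by
  have h : CuspForm.intLattice M 2 = Submodule.span ℤ (h10wInt (h10wQ M) : Set _) := rfl
  rw [h, Submodule.span_eq]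

/-- the reductions to `k` of the integral weight-2 cusp forms of level `M`, as coefficient
sequences. -/
def h10wSbarGen (M : ℕ) (k : Type*) [Field k] : Set (ℕ → k) :=
  {w | ∃ (h : CuspForm (Gamma0 M) 2) (c : ℕ → ℤ),
    (∀ n, qCoeff ⇑h n = ((c n : ℤ) : ℂ)) ∧ w = fun n => ((c n : ℤ) : k)}

/-- `Sbar` : the `k`-span of the reductions of the integral cusp forms. -/
def h10wSbar (M : ℕ) (k : Type*) [Field k] : Submodule k (ℕ → k) :=
  Submodule.span k (h10wSbarGen M k)

theorem h10w_mem_sbar (M : ℕ) (k : Type*) [Field k] (h : CuspForm (Gamma0 M) 2) (c : ℕ → ℤ)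
    (hc : ∀ n, qCoeff ⇑h n = ((c n : ℤ) : ℂ)) :
    (fun n => ((c n : ℤ) : k)) ∈ h10wSbar M k :=
  Submodule.subset_span ⟨h, c, hc, rfl⟩

/-- **DL6, basis form.** -/
theorem h10w_sbar_basis (M : ℕ) [NeZero M] (p : ℕ) [Fact p.Prime] (k : Type*) [Field k]
    [CharP k p] :
    ∃ (r : ℕ) (h : Fin r → CuspForm (Gamma0 M) 2) (c : Fin r → ℕ → ℤ),
      (∀ i n, qCoeff ⇑(h i) n = ((c i n : ℤ) : ℂ)) ∧
      LinearIndependent k (fun i => fun n => ((c i n : ℤ) : k)) ∧
      h10wSbar M k = Submodule.span k (Set.range fun i => fun n => ((c i n : ℤ) : k)) ∧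
      Submodule.span ℂ (Set.range h) = ⊤ := by
  have hFG : (h10wInt (h10wQ M)).FG := by
    rw [h10w_int_eq]
    exact CuspForm.intLattice_fg M 2
  obtain ⟨r, h, c, hc, hli, hsp, hK⟩ := h10w_core (h10wQ M) hFG p k
  refine ⟨r, h, c, hc, hli, ?_, ?_⟩
  · apply le_antisymm
    · rw [h10wSbar, Submodule.span_le]
      rintro w ⟨f, d, hd, rfl⟩
      exact hsp f d hd
    · rw [Submodule.span_le]
      rintro _ ⟨i, rfl⟩
      exact h10w_mem_sbar M k (h i) (c i) (hc i)
  · rw [hK, h10w_int_eq]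
    exact Fermat.Agent.S23.result M

theorem h10w_sbar_finite (M : ℕ) [NeZero M] (p : ℕ) [Fact p.Prime] (k : Type*) [Field k]
    [CharP k p] : FiniteDimensional k (h10wSbar M k) := by
  obtain ⟨r, h, c, -, -, hS, -⟩ := h10w_sbar_basis M p k
  rw [hS]
  exact FiniteDimensional.span_of_finite k (Set.finite_range _)

/-- **DL6.**  `dim_ℂ S₂(Γ₀(M)) ≤ dim_k Sbar`. -/
theorem h10w_sbar_finrank (M : ℕ) [NeZero M] (p : ℕ) [Fact p.Prime] (k : Type*) [Field k]
    [CharP k p] :
    Module.finrank ℂ (CuspForm (Gamma0 M) 2) ≤ Module.finrank k (h10wSbar M k) := by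
  obtain ⟨r, h, c, -, hli, hS, hK⟩ := h10w_sbar_basis M p k
  have h1 : Module.finrank k (h10wSbar M k) = r := by
    rw [hS, finrank_span_eq_card hli, Fintype.card_fin]
  have h2 : Module.finrank ℂ (CuspForm (Gamma0 M) 2) ≤ r := by
    have h3 := finrank_range_le_card (R := ℂ) h
    rw [Set.finrank, hK, finrank_top, Fintype.card_fin] at h3
    exact h3
  rw [h1]
  exact h2

end Fermat.Agent.P7
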