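import Fermat.Agent.Jac.FinalHK
import Fermat.Agent.Jac.DictCFinal
import Fermat.Agent.Jac.Desc0
import Fermat.Agent.Jac.BaseChangeOrd
import Fermat.Agent.S24.LemmaE
import Fermat.Agent.S24.PlaceOfEmb
import Fermat.Agent.S24.H46Emb
import Fermat.Agent.S24.OrbitPlacesCore
import Fermat.Agent.S24.EmbCusp
import Fermat.Agent.P5.H13GBase
import Fermat.Agent.S28.Cusp

/-!
# Wave 7, block (A), DLOG leaf DL5 (CUSP-ORTH), DICTIONARY: the adapter `ℚ̄ → ℂ`
(helper39, prefix `h39b_`)

`h39b_adapter` : if `F₀ ∈ FF N` (the function field over `ℚ̄`) is regular at every place of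
`FF N` other than the `q`-order place, then its base change `F ∈ FC N` is regular at every place
of `FC N` other than the `q`-order place.

Route: `Jac.dictC` (every place `v` of `FC N` is induced by an embedding `E`), restriction of `E`
to `FF N`, `S24.exists_place_of_emb`; if the restricted place is the `q`-place then
`S24.card_le_ord_of_induce_same_place` (Lemma E) forces `E` to be the expansion in
`exp (2πiτ/N)`, so `v` is the `q`-place of `FC N`.
-/

set_option autoImplicit false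
set_option linter.style.haveILetI false
set_option linter.unusedSectionVars false

open ModularCurve AlgebraicCurve UpperHalfPlane CongruenceSubgroup
open scoped MatrixGroups Manifold

noncomputable section

namespace Fermat.Agent.P7

open Fermat.Agent.S28 (HasTExp cEmb)
open Fermat.Agent.S24 (Kbar FF jBar embC tayAt)
open Fermat.Agent.Jac

/-- the base change `FF N → FC N` (coefficientwise embedding `ℚ̄ → ℂ`). -/
def h39bBC (N : ℕ) [NeZero N] : FF N →+* FC N where
  toFun x := ⟨coeffMap embC (x : LaurentSeries Kbar), baseChange N _ x.2⟩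
  map_zero' := Subtype.ext (by simp)
  map_one' := Subtype.ext (by simp)
  map_add' x y := Subtype.ext (by simp)
  map_mul' x y := Subtype.ext (by simp)

@[simp] theorem h39b_coe_BC (N : ℕ) [NeZero N] (x : FF N) :
    ((h39bBC N x : FC N) : LaurentSeries ℂ) = coeffMap embC (x : LaurentSeries Kbar) := rfl

theorem h39b_BC_algebraMap (N : ℕ) [NeZero N] (a : Kbar) :
    h39bBC N (algebraMap Kbar (FF N) a) = algebraMap ℂ (FC N) (embC a) := by
  apply Subtype.ext
  rw [h39b_coe_BC]
  have h1 : ((algebraMap Kbar (FF N) a : FF N) : LaurentSeries Kbar)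
      = algebraMap Kbar (LaurentSeries Kbar) a := rfl
  have h2 : ((algebraMap ℂ (FC N) (embC a) : FC N) : LaurentSeries ℂ)
      = algebraMap ℂ (LaurentSeries ℂ) (embC a) := rfl
  rw [h1, h2, Fermat.Agent.S24.h23_coeffMap_embC_algebraMap,
    algebraMap_laurentSeries_eq_single]
  rfl

theorem h39b_BC_jBar (N : ℕ) [NeZero N] : h39bBC N (jBar N) = jC N := by
  apply Subtype.ext
  rw [h39b_coe_BC, Fermat.Agent.Jac.coe_jC]
  have h := Fermat.Agent.S24.h23_coeffMap_embC_coeffEmb jq
  exact h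

theorem h39b_order_BC (N : ℕ) [NeZero N] (x : FF N) :
    ((h39bBC N x : FC N) : LaurentSeries ℂ).order = (x : LaurentSeries Kbar).order := by
  rw [h39b_coe_BC, h56_order_coeffMap]

/-- the expansion in `𝕋 = exp (2πiτ/N)` at the cusp `∞`, as a ring homomorphism on `FC N`
(`q ↦ 𝕋 ^ N`). -/
def h39bE1 (N : ℕ) [NeZero N] : FC N →+* LaurentSeries ℂ :=
  (qExpand ℂ N).comp (laurentBaseChange ℂ (modularFunctionFieldFull N)).val.toRingHom

@[simp] theorem h39b_E1_apply (N : ℕ) [NeZero N] (f : FC N) :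
    h39bE1 N f = qExpand ℂ N (f : LaurentSeries ℂ) := rfl

theorem h39b_E1_const (N : ℕ) [NeZero N] (a : ℂ) :
    h39bE1 N (algebraMap ℂ (FC N) a) = HahnSeries.C a := by
  rw [h39b_E1_apply]
  have h2 : ((algebraMap ℂ (FC N) a : FC N) : LaurentSeries ℂ)
      = algebraMap ℂ (LaurentSeries ℂ) a := rfl
  rw [h2, algebraMap_laurentSeries_eq_single]
  exact qExpand_C N a

theorem h39b_E1_order (N : ℕ) [NeZero N] (f : FC N) :
    (h39bE1 N f).order = (N : ℤ) * (f : LaurentSeries ℂ).order := by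
  rw [h39b_E1_apply, Fermat.Agent.S28.order_qExpand]

theorem h39b_E1_jC (N : ℕ) [NeZero N] : h39bE1 N (jC N) = Fermat.Agent.S24.h84_p0 N := by
  rw [h39b_E1_apply, Fermat.Agent.Jac.coe_jC]
  rfl

/-- an embedding of the dictionary which has a pole at `j` sends `j` to its expansion at the
cusp. -/
theorem h39b_E_jC (N : ℕ) [NeZero N] (E : FC N →+* LaurentSeries ℂ)
    (hcase : (∃ (τ₀ : ℍ) (g : SL(2, ℤ)), IsGermEmbC N E τ₀ g) ∨
      (∃ g : SL(2, ℤ), IsCuspEmbC N E g))
    (hneg : (E (jC N)).order < 0) : E (jC N) = Fermat.Agent.S24.h84_p0 N := by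
  have hone : ∀ g : SL(2, ℤ), HasTExp N (fun τ => (1 : ℍ → ℂ) (g • τ)) 1 := fun g =>
    (Fermat.Agent.S28.HasTExp.one N).congr (fun _ => rfl)
  rcases hcase with ⟨τ₀, g, hgerm⟩ | ⟨g, hcuspE⟩
  · exfalso
    have h1 := hgerm.2 (jC N) Fermat.Agent.S28.jAn 1 (h27_isAnC_jC anC N)
    have h2 : tayAt τ₀ (fun τ => (1 : ℍ → ℂ) (g⁻¹ • τ)) = 1 := by
      have : (fun τ : ℍ => (1 : ℍ → ℂ) (g⁻¹ • τ)) = fun _ => (1 : ℂ) := rfl
      rw [this, Fermat.Agent.S24.tayAt_const]
      simp
    rw [h2, map_one, mul_one] at h1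
    by_cases hT0 : tayAt τ₀ (fun τ => Fermat.Agent.S28.jAn (g⁻¹ • τ)) = 0
    · rw [hT0, map_zero] at h1
      rw [h1, HahnSeries.order_zero] at hneg
      exact lt_irrefl _ hneg
    · rw [h1, h11_order_ofPowerSeries hT0] at hneg
      have : (0 : ℤ) ≤ ((tayAt τ₀ (fun τ => Fermat.Agent.S28.jAn (g⁻¹ • τ))).order.toNat : ℤ) := by
        positivity
      omega
  · have hj1 := hcuspE.2 (jC N) Fermat.Agent.S28.jAn 1 (Fermat.Agent.S24.h84_p0 N) 1
      (h27_isAnC_jC anC N)
      ((Fermat.Agent.S28.Cusp.hasTExp_jAn'.of_one (N := N)).congr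
        (fun τ => (Fermat.Agent.S28.jAn_smul g⁻¹ τ).symm))
      (hone g⁻¹)
    rw [mul_one] at hj1
    exact hj1

theorem h39b_order_jBar (N : ℕ) [NeZero N] :
    ((jBar N : FF N) : LaurentSeries Kbar).order = -1 := by
  have h := h39b_order_BC N (jBar N)
  rw [h39b_BC_jBar, Fermat.Agent.Jac.coe_jC] at h
  rw [← h]
  exact Fermat.Agent.S28.Cusp.order_cEmb_jq

theorem h39b_jBar_ne_zero (N : ℕ) [NeZero N] : jBar N ≠ 0 := by
  intro h
  have h1 := h39b_order_jBar N
  rw [h] at h1
  simp at h1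

/-- **Lemma E at the `q`-place.**  An embedding of `FC N`, trivial on constants, sending `j` to
its expansion at the cusp and inducing (a multiple of) the `q`-order place on `FF N`, is the
expansion `q ↦ 𝕋 ^ N`. -/
theorem h39b_E_eq_E1 (N : ℕ) [NeZero N] (E : FC N →+* LaurentSeries ℂ)
    (hconst : ∀ a : ℂ, E (algebraMap ℂ (FC N) a) = HahnSeries.C a)
    (hj : E (jC N) = Fermat.Agent.S24.h84_p0 N)
    (w : Place Kbar (FF N)) (m' : ℕ) (hm' : 0 < m')
    (hw : ∀ f : FF N, f ≠ 0 → (E (h39bBC N f)).order = m' * w.ord f)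
    (hq : ∀ f : FF N, f ≠ 0 → w.ord f = (f : LaurentSeries Kbar).order) :
    E = h39bE1 N := by
  classical
  have hN : 0 < N := Nat.pos_of_ne_zero (NeZero.ne N)
  -- step 1: the restrictions to `FF N` agree
  have hres : E.comp (h39bBC N) = (h39bE1 N).comp (h39bBC N) := by
    by_contra hne
    let ι : Bool → (FF N →+* LaurentSeries ℂ) := fun b =>
      cond b (E.comp (h39bBC N)) ((h39bE1 N).comp (h39bBC N))
    have hinj : Function.Injective ι := by
      intro a b hab
      cases a <;> cases b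
      · rfl
      · exact absurd hab.symm hne
      · exact absurd hab hne
      · rfl
    have hcst : ∀ (y : Bool) (a : Kbar),
        ι y (algebraMap Kbar (FF N) a) = HahnSeries.C (embC a) := by
      intro y a
      cases y
      · show h39bE1 N (h39bBC N (algebraMap Kbar (FF N) a)) = _
        rw [h39b_BC_algebraMap, h39b_E1_const]
      · show E (h39bBC N (algebraMap Kbar (FF N) a)) = _
        rw [h39b_BC_algebraMap, hconst]
    have hval : ∀ y : Bool, ι y (jBar N)⁻¹ = (Fermat.Agent.S24.h84_p0 N)⁻¹ := by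
      intro y
      cases y
      · show h39bE1 N (h39bBC N (jBar N)⁻¹) = _
        rw [map_inv₀, map_inv₀, h39b_BC_jBar, h39b_E1_jC]
      · show E (h39bBC N (jBar N)⁻¹) = _
        rw [map_inv₀, map_inv₀, h39b_BC_jBar, hj]
    have hind : ∀ y : Bool, ∃ m : ℕ, 0 < m ∧
        ∀ f : FF N, f ≠ 0 → (ι y f).order = m * w.ord f := by
      intro y
      cases y
      · refine ⟨N, hN, fun f hf => ?_⟩
        show (h39bE1 N (h39bBC N f)).order = _
        rw [h39b_E1_order, h39b_order_BC, hq f hf]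
      · exact ⟨m', hm', hw⟩
    have hordt : w.ord (jBar N)⁻¹ = 1 := by
      rw [Place.ord_inv, hq _ (h39b_jBar_ne_zero N), h39b_order_jBar]
      norm_num
    have hdeg : w.deg = 1 := (Fermat.Agent.P5.h13g_gBase N).deg_one w
    have h := Fermat.Agent.S24.card_le_ord_of_induce_same_place (jBar N)⁻¹ w
      (by rw [hordt]; norm_num) embC ι hcst (fun y y' => by rw [hval y, hval y']) hinj hdeg hind
    rw [hordt, Fintype.card_bool] at h
    norm_num at h
  -- step 2: `FC N` is generated by `ℂ` and the image of `FF N`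
  refine Fermat.Agent.S24.h46_ringHom_ext (K := ℂ)
    (S₀ := ⇑(coeffEmb ℂ) '' ((modularFunctionFieldFull N : IntermediateField ℚ (LaurentSeries ℚ))
      : Set (LaurentSeries ℚ))) E (h39bE1 N) (fun a => ?_) (fun x hx => ?_)
  · exact (hconst a).trans (h39b_E1_const N a).symm
  · obtain ⟨z, hz, rfl⟩ := hx
    have hmem : coeffEmb Kbar z ∈ modularFunctionFieldBar N :=
      coeffEmb_mem_laurentBaseChange Kbar hz
    have hb : (⟨coeffEmb ℂ z, IntermediateField.subset_adjoin ℂ _ ⟨z, hz, rfl⟩⟩ : FC N)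
        = h39bBC N ⟨coeffEmb Kbar z, hmem⟩ := by
      apply Subtype.ext
      rw [h39b_coe_BC]
      exact (Fermat.Agent.S24.h23_coeffMap_embC_coeffEmb z).symm
    have h1 := congrArg (fun φ : FF N →+* LaurentSeries ℂ => φ ⟨coeffEmb Kbar z, hmem⟩) hres
    simp only [RingHom.comp_apply] at h1
    rw [← hb] at h1
    exact h1

/-- a place of `FC N` induced by the expansion `q ↦ 𝕋 ^ N` is the `q`-order place. -/
theorem h39b_qplace_of_E1 (N : ℕ) [NeZero N] (v : Place ℂ (FC N)) (m : ℕ) (hm : 0 < m)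
    (hord : ∀ f : FC N, f ≠ 0 → (h39bE1 N f).order = m * v.ord f) :
    ∀ f : FC N, f ≠ 0 → v.ord f = (f : LaurentSeries ℂ).order := by
  have hN : 0 < N := Nat.pos_of_ne_zero (NeZero.ne N)
  have hN' : (0 : ℤ) < (N : ℤ) := by exact_mod_cast hN
  have hm' : (0 : ℤ) < (m : ℤ) := by exact_mod_cast hm
  have hrel : ∀ f : FC N, f ≠ 0 → (N : ℤ) * (f : LaurentSeries ℂ).order = m * v.ord f :=
    fun f hf => by rw [← h39b_E1_order, hord f hf]
  -- `m ∣ N`
  have hj0 : jC N ≠ 0 := by
    intro h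
    have := h39b_E1_jC N
    rw [h, map_zero] at this
    exact Fermat.Agent.S24.h84_p0_ne_zero N this.symm
  have h1 := hrel (jC N) hj0
  rw [Fermat.Agent.Jac.coe_jC] at h1
  have hjord : (coeffEmb ℂ jq).order = -1 := Fermat.Agent.S28.Cusp.order_cEmb_jq
  rw [hjord] at h1
  -- `N ∣ m`
  obtain ⟨π, hπ0, hπ⟩ := Fermat.Agent.S24.OrbitPlaces.exists_ord_eq_one v
  have h2 := hrel π hπ0
  rw [hπ, mul_one] at h2
  have hmN : (m : ℤ) = (N : ℤ) := by
    have hd1 : (m : ℤ) ∣ (N : ℤ) := ⟨-v.ord (jC N), by linarith⟩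
    have hd2 : (N : ℤ) ∣ (m : ℤ) := ⟨(π : LaurentSeries ℂ).order, h2.symm⟩
    exact Int.dvd_antisymm hm'.le hN'.le hd1 hd2
  intro f hf
  have h3 := hrel f hf
  rw [hmN] at h3
  exact (mul_left_cancel₀ hN'.ne' h3).symm

/-- **DL5, DICTIONARY, adapter `ℚ̄ → ℂ`.**  If `F₀ ∈ FF N` is regular at every place of `FF N`
other than the `q`-order place, then its base change `F ∈ FC N` is regular at every place of
`FC N` other than the `q`-order place. -/
theorem h39b_adapter (N : ℕ) [NeZero N] (F0 : FF N) (F : FC N)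
    (hF : (F : LaurentSeries ℂ) = coeffMap embC (F0 : LaurentSeries Kbar))
    (hreg0 : ∀ w : Place Kbar (FF N),
      (∃ f : FF N, f ≠ 0 ∧ w.ord f ≠ (f : LaurentSeries Kbar).order) → 0 ≤ w.ord F0) :
    ∀ v : Place ℂ (FC N),
      (∃ f : FC N, f ≠ 0 ∧ v.ord f ≠ (f : LaurentSeries ℂ).order) → 0 ≤ v.ord F := by
  intro v hv
  have hFB : F = h39bBC N F0 := Subtype.ext hF
  by_cases hF0 : F = 0
  · rw [hF0, Place.ord_zero]
  have hF00 : F0 ≠ 0 := by
    intro h
    apply hF0
    rw [hFB, h, map_zero]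
  obtain ⟨E, m, hm, hord, hcase⟩ := dictC N v
  have hm' : (0 : ℤ) < (m : ℤ) := by exact_mod_cast hm
  have hcase' : (∃ (τ₀ : ℍ) (g : SL(2, ℤ)), IsGermEmbC N E τ₀ g) ∨
      (∃ g : SL(2, ℤ), IsCuspEmbC N E g) := by
    rcases hcase with ⟨τ₀, g, h, -⟩ | ⟨g, h, -⟩
    · exact Or.inl ⟨τ₀, g, h⟩
    · exact Or.inr ⟨g, h⟩
  have hconst : ∀ a : ℂ, E (algebraMap ℂ (FC N) a) = HahnSeries.C a := by
    rcases hcase' with ⟨τ₀, g, h⟩ | ⟨g, h⟩
    · exact h.1
    · exact h.1
  have hEF : (E F).order = (m : ℤ) * v.ord F := hord F hF0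
  -- the restriction of `E` to `FF N`
  set E' : FF N →+* LaurentSeries ℂ := E.comp (h39bBC N) with hE'
  have hconst' : ∀ a : Kbar, E' (algebraMap Kbar (FF N) a) = HahnSeries.C (embC a) := by
    intro a
    show E (h39bBC N (algebraMap Kbar (FF N) a)) = _
    rw [h39b_BC_algebraMap, hconst]
  have hE'F : E' F0 = E F := by
    show E (h39bBC N F0) = E F
    rw [hFB]
  by_cases ht : ∃ t : FF N, 0 < (E' t).order
  · obtain ⟨t, ht⟩ := ht
    obtain ⟨w, m', hm'0, hw⟩ :=
      Fermat.Agent.S24.exists_place_of_emb (K := Kbar) t embC E' hconst' ht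
    have hm'' : (0 : ℤ) < (m' : ℤ) := by exact_mod_cast hm'0
    by_cases hq : ∃ f : FF N, f ≠ 0 ∧ w.ord f ≠ (f : LaurentSeries Kbar).order
    · have h1 := hreg0 w hq
      have h2 : (E F).order = (m' : ℤ) * w.ord F0 := by rw [← hE'F, hw F0 hF00]
      rw [hEF] at h2
      have h3 : 0 ≤ (m : ℤ) * v.ord F := by
        rw [h2]
        exact mul_nonneg hm''.le h1
      exact (mul_nonneg_iff_of_pos_left hm').mp h3
    · exfalso
      push Not at hq
      -- `w` is the `q`-place of `FF N`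
      have hjneg : (E (jC N)).order < 0 := by
        have h1 := hw (jBar N) (h39b_jBar_ne_zero N)
        rw [hq _ (h39b_jBar_ne_zero N), h39b_order_jBar] at h1
        have h2 : E' (jBar N) = E (jC N) := by
          show E (h39bBC N (jBar N)) = _
          rw [h39b_BC_jBar]
        rw [h2] at h1
        rw [h1]
        linarith
      have hj := h39b_E_jC N E hcase' hjneg
      have hEE := h39b_E_eq_E1 N E hconst hj w m' hm'0 hw hq
      rw [hEE] at hord
      obtain ⟨f, hf0, hf⟩ := hv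
      exact hf (h39b_qplace_of_E1 N v m hm hord f hf0)
  · push Not at ht
    have h1 := h11_order_eq_zero_of_forall_le E' ht F0
    rw [hE'F, hEF] at h1
    have h2 : v.ord F = 0 := by
      rcases mul_eq_zero.mp h1 with h | h
      · exact absurd h hm'.ne'
      · exact h
    rw [h2]

end Fermat.Agent.P7
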