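import Fermat.Agent.S24.Tay
import Fermat.Agent.S28.TExp
import Fermat.Agent.S21.E.Div
import Fermat.Agent.Jac.CuspRoot

/-!
# Wave 7, DLOG leaf DL5 (CUSP-ORTH), DICTIONARY: analytic lemmas (helper7, prefix `h7co_`)

* `h7co_exists_quotient` : `P`, `Q` holomorphic on `ℍ`, `Q ≠ 0`, and the order of `Q` at every
  point is at most the order of `P`; then `P = Q * A` with `A` holomorphic.
* `h7co_lead` : a function with a Laurent expansion in `𝕋 = exp (2πiτ/N)` is `𝕋 ^ m * φ(𝕋)` with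
  `φ` continuous at `0`.
* `h7co_quot_exp` : the quotient of two functions with Laurent expansions in `𝕋`, if holomorphic
  on `ℍ` and `N`-periodic, has a Laurent expansion in `𝕋`.
* `h7co_bdd_of_order_nonneg` : an expansion of nonnegative order is bounded at `i∞`.
-/

set_option autoImplicit false

open UpperHalfPlane Filter Topology
open scoped MatrixGroups Manifold

noncomputable section

namespace Fermat.Agent.P7

open Fermat.Agent.S28 (HasTExp tParam)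
open Fermat.Agent.S24 (tayAt)

/-- local bound from the comparison of analytic orders. -/
theorem h7co_local_bound {f g : ℂ → ℂ} {z₀ : ℂ} (hf : AnalyticAt ℂ f z₀) (hg : AnalyticAt ℂ g z₀)
    (hg0 : analyticOrderAt g z₀ ≠ ⊤) (hle : analyticOrderAt g z₀ ≤ analyticOrderAt f z₀) :
    ∃ C : ℝ, ∀ᶠ z in 𝓝 z₀, ‖f z‖ ≤ C * ‖g z‖ := by
  obtain ⟨n, hn⟩ := ENat.ne_top_iff_exists.mp hg0
  obtain ⟨g₁, hg₁a, hg₁0, hg₁⟩ := (hg.analyticOrderAt_eq_natCast).mp hn.symm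
  have hnf : (n : ℕ∞) ≤ analyticOrderAt f z₀ := by rw [hn]; exact hle
  obtain ⟨f₁, hf₁a, hf₁⟩ := (natCast_le_analyticOrderAt hf).mp hnf
  have hpos : 0 < ‖g₁ z₀‖ := norm_pos_iff.mpr hg₁0
  refine ⟨2 * (‖f₁ z₀‖ + 1) / ‖g₁ z₀‖, ?_⟩
  have h1 : ∀ᶠ z in 𝓝 z₀, ‖f₁ z‖ < ‖f₁ z₀‖ + 1 :=
    (hf₁a.continuousAt.norm).eventually_lt continuousAt_const (by linarith)
  have h2 : ∀ᶠ z in 𝓝 z₀, ‖g₁ z₀‖ / 2 < ‖g₁ z‖ :=
    (continuousAt_const).eventually_lt (hg₁a.continuousAt.norm) (by linarith)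
  filter_upwards [hf₁, hg₁, h1, h2] with z hfz hgz h1z h2z
  rw [hfz, hgz]
  simp only [smul_eq_mul, norm_mul, norm_pow]
  have hz : 0 ≤ ‖z - z₀‖ ^ n := by positivity
  have e : 2 * (‖f₁ z₀‖ + 1) / ‖g₁ z₀‖ * (‖z - z₀‖ ^ n * ‖g₁ z‖)
      = ‖z - z₀‖ ^ n * (2 * (‖f₁ z₀‖ + 1) * (‖g₁ z‖ / ‖g₁ z₀‖)) := by
    field_simp
  rw [e]
  apply mul_le_mul_of_nonneg_left _ hz
  have h3 : (1 : ℝ) / 2 ≤ ‖g₁ z‖ / ‖g₁ z₀‖ := by
    rw [div_le_div_iff₀ (by norm_num) hpos]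
    linarith
  have h4 : 0 ≤ ‖f₁ z₀‖ + 1 := by positivity
  nlinarith

/-- **quotient of holomorphic functions on `ℍ`** from the comparison of the Taylor orders. -/
theorem h7co_exists_quotient {P Q : ℍ → ℂ} (hP : MDiff P) (hQ : MDiff Q) (hQ0 : Q ≠ 0)
    (hord : ∀ τ₀ : ℍ, (tayAt τ₀ Q).order ≤ (tayAt τ₀ P).order) :
    ∃ A : ℍ → ℂ, MDiff A ∧ ∀ z, P z = Q z * A z := by
  have hex : ∃ z, Q z ≠ 0 := by
    by_contra h
    exact hQ0 (funext fun z => by_contra fun hz => h ⟨z, hz⟩)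
  refine Fermat.Agent.S21.E.exists_mdiff_quotient hP hQ hex (fun z₀ _ => ?_)
  have hfa := Fermat.Agent.S24.h58_analyticAt hP z₀
  have hga := Fermat.Agent.S24.h58_analyticAt hQ z₀
  have hle := hord z₀
  rw [Fermat.Agent.S24.h58_order_tayAt hQ z₀, Fermat.Agent.S24.h58_order_tayAt hP z₀] at hle
  have hg0 : analyticOrderAt (Q ∘ UpperHalfPlane.ofComplex) (z₀ : ℂ) ≠ ⊤ := by
    rw [← Fermat.Agent.S24.h58_order_tayAt hQ z₀]
    intro h
    rw [PowerSeries.order_eq_top] at h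
    exact hQ0 ((Fermat.Agent.S24.tayAt_eq_zero_iff hQ z₀).mp h)
  obtain ⟨C, hC⟩ := h7co_local_bound hfa hga hg0 hle
  refine ⟨C, ?_⟩
  have hcont : Tendsto (fun z : ℍ => (z : ℂ)) (𝓝 z₀) (𝓝 (z₀ : ℂ)) :=
    UpperHalfPlane.continuous_coe.continuousAt
  filter_upwards [hcont.eventually hC] with z hz
  simpa using hz

/-! ## expansions at a cusp -/

/-- a function with a Laurent expansion `s` in `𝕋 = exp (2πiτ/N)` is `φ(𝕋) * 𝕋 ^ ord s` with `φ`
continuous at `0` and `φ 0` the leading coefficient. -/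
theorem h7co_lead {N : ℕ} (hN : 0 < N) {g : ℍ → ℂ} {s : LaurentSeries ℂ} (hs : HasTExp N g s) :
    ∃ φ : ℂ → ℂ, ContinuousAt φ 0 ∧ φ 0 = s.coeff s.order ∧
      ∀ τ : ℍ, g τ = φ (tParam N τ) * tParam N τ ^ s.order := by
  rw [Fermat.Agent.S28.hasTExp_iff] at hs
  have hM : ∀ n : ℤ, n < s.order → s.coeff n = 0 :=
    fun n hn => HahnSeries.coeff_eq_zero_of_lt_order hn
  have key : ∀ τ : ℍ, HasSum (fun k : ℕ => s.coeff (s.order + k) * tParam N τ ^ k)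
      (g τ * (tParam N τ ^ s.order)⁻¹) := by
    intro τ
    have ht := Fermat.Agent.S28.tParam_ne_zero N τ
    have hz : tParam N τ ^ s.order ≠ 0 := zpow_ne_zero _ ht
    have h1 := hs τ
    have e : g τ = (g τ * (tParam N τ ^ s.order)⁻¹) * tParam N τ ^ s.order := by
      field_simp
    rw [e] at h1
    exact (Fermat.Agent.S28.hasSum_laurent_iff ht s.order hM _).mp h1
  have hsum : ∀ t : ℂ, t ≠ 0 → ‖t‖ < 1 →
      Summable (fun k : ℕ => s.coeff (s.order + k) * t ^ k) := by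
    intro t ht0 ht1
    obtain ⟨τ, rfl⟩ := Fermat.Agent.S28.exists_tParam_eq hN ht0 ht1
    exact (key τ).summable
  refine ⟨fun t => ∑' k : ℕ, s.coeff (s.order + k) * t ^ k, ?_, ?_, ?_⟩
  · exact ((Fermat.Agent.S28.differentiableOn_tsum_pow hsum).continuousOn).continuousAt
      (Metric.ball_mem_nhds 0 one_pos)
  · show (∑' k : ℕ, s.coeff (s.order + k) * (0 : ℂ) ^ k) = s.coeff s.order
    rw [Fermat.Agent.S28.tsum_pow_zero (fun k : ℕ => s.coeff (s.order + k))]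
    simp
  · intro τ
    have ht := Fermat.Agent.S28.tParam_ne_zero N τ
    have hz : tParam N τ ^ s.order ≠ 0 := zpow_ne_zero _ ht
    show g τ = (∑' k : ℕ, s.coeff (s.order + k) * tParam N τ ^ k) * tParam N τ ^ s.order
    rw [(key τ).tsum_eq]
    field_simp

theorem h7co_tParam_tendsto {N : ℕ} (hN : 0 < N) :
    Tendsto (fun τ : ℍ => tParam N τ) atImInfty (𝓝 0) := by
  have hNr : (0 : ℝ) < (N : ℝ) := by exact_mod_cast hN
  exact UpperHalfPlane.qParam_tendsto_atImInfty hNr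

theorem h7co_norm_tParam_zpow_le {N : ℕ} (hN : 0 < N) (τ : ℍ) {e : ℤ} (he : 0 ≤ e) :
    ‖tParam N τ ^ e‖ ≤ 1 := by
  obtain ⟨k, rfl⟩ := Int.eq_ofNat_of_zero_le he
  rw [zpow_natCast, norm_pow]
  exact pow_le_one₀ (norm_nonneg _) (Fermat.Agent.S28.norm_tParam_lt_one hN τ).le

/-- an expansion of nonnegative order is bounded at `i∞`. -/
theorem h7co_bdd_of_order_nonneg {N : ℕ} (hN : 0 < N) {g : ℍ → ℂ} {s : LaurentSeries ℂ}
    (hs : HasTExp N g s) (h0 : 0 ≤ s.order) : IsBoundedAtImInfty g := by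
  obtain ⟨φ, hφc, -, hφ⟩ := h7co_lead hN hs
  have h1 : ∀ᶠ τ in atImInfty, ‖φ (tParam N τ)‖ < ‖φ 0‖ + 1 :=
    (h7co_tParam_tendsto hN).eventually
      ((hφc.norm).eventually_lt continuousAt_const (by linarith))
  refine Asymptotics.IsBigO.of_bound (‖φ 0‖ + 1) ?_
  filter_upwards [h1] with τ hτ
  rw [hφ τ, norm_mul]
  simp only [Pi.one_apply, norm_one, mul_one]
  have h2 := h7co_norm_tParam_zpow_le hN τ h0
  have h3 : 0 ≤ ‖φ (tParam N τ)‖ := norm_nonneg _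
  nlinarith

/-- **quotient expansions.** -/
theorem h7co_quot_exp {N : ℕ} (hN : 0 < N) {P Q G : ℍ → ℂ} {p q : LaurentSeries ℂ}
    (hG : MDiff G) (hper : ∀ τ : ℍ, G ((N : ℝ) +ᵥ τ) = G τ) (hPQ : ∀ τ, P τ = Q τ * G τ)
    (hp : HasTExp N P p) (hq : HasTExp N Q q) (hq0 : q ≠ 0) :
    ∃ s : LaurentSeries ℂ, HasTExp N G s ∧ s * q = p := by
  have hNr : (0 : ℝ) < (N : ℝ) := by exact_mod_cast hN
  obtain ⟨φp, hφpc, -, hφp⟩ := h7co_lead hN hp
  obtain ⟨φq, hφqc, hφq0, hφq⟩ := h7co_lead hN hq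
  have hc : φq 0 ≠ 0 := by
    rw [hφq0]
    exact fun h => hq0 (HahnSeries.coeff_order_eq_zero.mp h)
  have hcpos : 0 < ‖φq 0‖ := norm_pos_iff.mpr hc
  set M : ℕ := (q.order - p.order).toNat with hMdef
  have hM : 0 ≤ p.order - q.order + (M : ℤ) := by
    have := Int.self_le_toNat (q.order - p.order)
    omega
  have hB : IsBoundedAtImInfty (fun τ : ℍ => G τ * tParam N τ ^ M) := by
    have h1 : ∀ᶠ τ in atImInfty, ‖φp (tParam N τ)‖ < ‖φp 0‖ + 1 :=
      (h7co_tParam_tendsto hN).eventually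
        ((hφpc.norm).eventually_lt continuousAt_const (by linarith))
    have h2 : ∀ᶠ τ in atImInfty, ‖φq 0‖ / 2 < ‖φq (tParam N τ)‖ :=
      (h7co_tParam_tendsto hN).eventually
        ((continuousAt_const).eventually_lt (hφqc.norm) (by linarith))
    refine Asymptotics.IsBigO.of_bound (2 * (‖φp 0‖ + 1) / ‖φq 0‖) ?_
    filter_upwards [h1, h2] with τ h1τ h2τ
    simp only [Pi.one_apply, norm_one, mul_one]
    have ht := Fermat.Agent.S28.tParam_ne_zero N τ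
    have hφqne : φq (tParam N τ) ≠ 0 := by
      intro h
      rw [h, norm_zero] at h2τ
      linarith
    have hQne : Q τ ≠ 0 := by
      rw [hφq τ]
      exact mul_ne_zero hφqne (zpow_ne_zero _ ht)
    have hGe : G τ * tParam N τ ^ M
        = φp (tParam N τ) / φq (tParam N τ) * tParam N τ ^ (p.order - q.order + (M : ℤ)) := by
      have hG1 : G τ = P τ / Q τ := by
        rw [hPQ τ]
        field_simp
      rw [hG1, hφp τ, hφq τ, zpow_add₀ ht, zpow_sub₀ ht, zpow_natCast]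
      field_simp
    rw [hGe, norm_mul, norm_div]
    have h3 := h7co_norm_tParam_zpow_le hN τ hM
    have h4 : ‖φp (tParam N τ)‖ / ‖φq (tParam N τ)‖ ≤ 2 * (‖φp 0‖ + 1) / ‖φq 0‖ := by
      rw [div_le_div_iff₀ (lt_trans (by positivity) h2τ) hcpos]
      have h5 : 0 ≤ ‖φp (tParam N τ)‖ := norm_nonneg _
      nlinarith
    have h6 : 0 ≤ ‖φp (tParam N τ)‖ / ‖φq (tParam N τ)‖ := by positivity
    calc ‖φp (tParam N τ)‖ / ‖φq (tParam N τ)‖ * ‖tParam N τ ^ (p.order - q.order + (M : ℤ))‖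
        ≤ ‖φp (tParam N τ)‖ / ‖φq (tParam N τ)‖ * 1 := by gcongr
      _ ≤ 2 * (‖φp 0‖ + 1) / ‖φq 0‖ := by rw [mul_one]; exact h4
  have hBper := Fermat.Agent.Jac.h72_periodic_mul_tParam hN hper M
  have hBhol : MDiff (fun τ : ℍ => G τ * tParam N τ ^ M) :=
    hG.mul ((Fermat.Agent.Jac.h72_mdiff_tParam N).pow M)
  have hs : HasTExp N G (HahnSeries.single (-(M : ℤ)) 1 * HahnSeries.ofPowerSeries ℤ ℂ
      (UpperHalfPlane.qExpansion (N : ℝ) (fun τ : ℍ => G τ * tParam N τ ^ M))) := by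
    refine ⟨M, UpperHalfPlane.qExpansion (N : ℝ) (fun τ : ℍ => G τ * tParam N τ ^ M), rfl,
      fun τ => ?_⟩
    have := UpperHalfPlane.hasSum_qExpansion hNr hBper hBhol hB τ
    simpa [smul_eq_mul, tParam] using this
  refine ⟨_, hs, ?_⟩
  have h1 := (hs.mul hN hq).congr (g₂ := P) (fun τ => by
    show G τ * Q τ = P τ
    rw [hPQ τ, mul_comm])
  exact Fermat.Agent.S28.HasTExp.unique hN h1 hp

end Fermat.Agent.P7
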