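import Fermat.Agent.P7.H7CuspOrth
import Fermat.Agent.P7.H7CuspOrthAn
import Fermat.Agent.Jac.DictCFinal
import Fermat.Agent.Jac.POrd
import Fermat.Agent.S24.LemmaE
import Fermat.Agent.S24.DiffPlace

/-!
# Wave 7, DLOG leaf DL5 (CUSP-ORTH): the DICTIONARY over `ℂ` (helper7, prefix `h7co_`)

`F ∈ FC N` (the function field of `X₀(N)` over `ℂ`, inside `ℂ((q))`) which is regular at every
place except the place `∞` (the place whose order is the `q`-order) is the expansion of a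
holomorphic `Γ₀(N)`-invariant function `A` on `ℍ`, bounded at all cusps different from `∞`:

* `h7co_dict` : `∃ A, H7coAn N F A ∧ IsAnC N F A 1`;
* `h7co_cuspOrth_alg` : hence `a₀(F · h) = 0` for every weight two cusp form `h` on `Γ₀(N)`.
-/

set_option autoImplicit false
set_option linter.style.haveILetI false
set_option linter.unusedSectionVars false

open ModularCurve AlgebraicCurve UpperHalfPlane CongruenceSubgroup IntermediateField
open scoped MatrixGroups Manifold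

noncomputable section

namespace Fermat.Agent.P7

open Fermat.Agent.S28 (HasTExp tParam jAn)
open Fermat.Agent.S24 (tayAt)
open Fermat.Agent.Jac

/-- `F` is regular at every place of `FC N` except the place `∞` of the `q`-expansion. -/
def H7coRegOff (N : ℕ) (F : FC N) : Prop :=
  ∀ v : Place ℂ (FC N),
    (∃ f : FC N, f ≠ 0 ∧ v.ord f ≠ ((f : FC N) : LaurentSeries ℂ).order) → 0 ≤ v.ord F

theorem h7co_order_jC (N : ℕ) [NeZero N] : ((jC N : FC N) : LaurentSeries ℂ).order = -1 := by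
  rw [coe_jC]
  exact Fermat.Agent.S28.Cusp.order_cEmb_jq

theorem h7co_jC_ne_zero (N : ℕ) [NeZero N] : jC N ≠ 0 := by
  intro h
  have h1 := h7co_order_jC N
  rw [h] at h1
  simp at h1

/-- regular off `∞` implies regular at the places over finite values of `j`. -/
theorem h7co_regOff_fin {N : ℕ} [NeZero N] {F : FC N} (hF : H7coRegOff N F)
    (v : Place ℂ (FC N)) (hv : 0 ≤ v.ord (jC N)) : 0 ≤ v.ord F := by
  refine hF v ⟨jC N, h7co_jC_ne_zero N, ?_⟩
  rw [h7co_order_jC]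
  omega

/-- a function with expansion `0` vanishes. -/
theorem h7co_eq_zero_of_hasTExp_zero {N : ℕ} {G : ℍ → ℂ} (h : HasTExp N G 0) (τ : ℍ) :
    G τ = 0 := by
  rw [Fermat.Agent.S28.hasTExp_iff] at h
  have h1 := h τ
  simp only [HahnSeries.coeff_zero, zero_mul] at h1
  exact h1.unique hasSum_zero

/-- the product of two holomorphic functions on `ℍ` vanishes only if one of them does. -/
theorem h7co_eq_zero_of_mul {Q D : ℍ → ℂ} (hQ : MDiff Q) (hD : MDiff D) (hQ0 : Q ≠ 0)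
    (h : ∀ τ, Q τ * D τ = 0) : D = 0 := by
  have h1 : tayAt UpperHalfPlane.I (Q * D) = 0 := by
    rw [Fermat.Agent.S24.tayAt_eq_zero_iff (hQ.mul hD)]
    funext τ
    exact h τ
  rw [Fermat.Agent.S24.tayAt_mul hQ hD] at h1
  rcases mul_eq_zero.mp h1 with h2 | h2
  · exact absurd ((Fermat.Agent.S24.tayAt_eq_zero_iff hQ _).mp h2) hQ0
  · exact (Fermat.Agent.S24.tayAt_eq_zero_iff hD _).mp h2

/-- invariance under `Γ₀(N)` gives `N`-periodicity of all translates. -/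
theorem h7co_comp_smul_periodic {N : ℕ} {f : ℍ → ℂ}
    (hinv : ∀ γ ∈ Gamma0 N, ∀ z : ℍ, f (γ • z) = f z) (g : SL(2, ℤ)) (τ : ℍ) :
    f (g • ((N : ℝ) +ᵥ τ)) = f (g • τ) := by
  have h1 : ((N : ℝ) +ᵥ τ) = ModularGroup.T ^ (N : ℤ) • τ := by
    rw [UpperHalfPlane.modular_T_zpow_smul]
    simp
  have h2 : g • (ModularGroup.T ^ (N : ℤ) • τ) =
      (g * ModularGroup.T ^ (N : ℤ) * g⁻¹) • (g • τ) := by
    rw [mul_smul, mul_smul, inv_smul_smul]
  rw [h1, h2]
  exact hinv _ (h72_conj_T_pow_mem N g) (g • τ)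

/-- **germ step**: the Taylor order of the denominator is at most that of the numerator. -/
theorem h7co_germ_le {N : ℕ} [NeZero N] {F : FC N} (hF : H7coRegOff N F) {P Q : ℍ → ℂ}
    (hAn : IsAnC N F P Q) (τ₀ : ℍ) : (tayAt τ₀ Q).order ≤ (tayAt τ₀ P).order := by
  by_cases hF0 : F = 0
  · have hP0 : P = 0 := ((anC N).2.2.1 F P Q hAn).mp hF0
    have : tayAt τ₀ P = 0 := (Fermat.Agent.S24.tayAt_eq_zero_iff hAn.holoP τ₀).mpr hP0
    rw [this, PowerSeries.order_zero]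
    exact le_top
  obtain ⟨E, hE⟩ := (embC anC N).1 τ₀ 1
  have hord := h11_order_germEmbC hE hF0 hAn
  have hnn : 0 ≤ (E F).order := by
    by_cases ht : ∃ t : FC N, 0 < (E t).order
    · obtain ⟨t, ht⟩ := ht
      obtain ⟨v, m, hm, hv⟩ :=
        Fermat.Agent.S24.exists_place_of_emb (K := ℂ) t (RingHom.id ℂ) E hE.1 ht
      have hm' : (0 : ℤ) < (m : ℤ) := by exact_mod_cast hm
      have hj := h11_order_germEmbC hE (h7co_jC_ne_zero N) (h27_isAnC_jC anC N) (τ₀ := τ₀)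
      have hone : tayAt τ₀ (1 : ℍ → ℂ) = 1 := by
        have : (1 : ℍ → ℂ) = fun _ => (1 : ℂ) := rfl
        rw [this, Fermat.Agent.S24.tayAt_const]
        simp
      rw [hone, PowerSeries.order_one] at hj
      simp only [ENat.toNat_zero, Nat.cast_zero, sub_zero] at hj
      have hjnn : 0 ≤ (E (jC N)).order := by
        rw [hj]
        positivity
      rw [hv (jC N) (h7co_jC_ne_zero N)] at hjnn
      have hvj : 0 ≤ v.ord (jC N) := (mul_nonneg_iff_of_pos_left hm').mp hjnn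
      rw [hv F hF0]
      exact mul_nonneg hm'.le (h7co_regOff_fin hF v hvj)
    · rw [not_exists] at ht
      rw [h11_order_eq_zero_of_forall_le E (fun t => not_lt.mp (ht t)) F]
  rw [hord] at hnn
  have hP0 : P ≠ 0 := fun h => hF0 (((anC N).2.2.1 F P Q hAn).mpr h)
  have htP : tayAt τ₀ P ≠ 0 := fun h =>
    hP0 ((Fermat.Agent.S24.tayAt_eq_zero_iff hAn.holoP τ₀).mp h)
  have htQ : tayAt τ₀ Q ≠ 0 := fun h =>
    hAn.Q_ne ((Fermat.Agent.S24.tayAt_eq_zero_iff hAn.holoQ τ₀).mp h)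
  have hfP : (tayAt τ₀ P).order ≠ ⊤ := fun h => htP (PowerSeries.order_eq_top.mp h)
  have hfQ : (tayAt τ₀ Q).order ≠ ⊤ := fun h => htQ (PowerSeries.order_eq_top.mp h)
  rw [← ENat.natCast_toNat hfP, ← ENat.natCast_toNat hfQ]
  have : (tayAt τ₀ Q).order.toNat ≤ (tayAt τ₀ P).order.toNat := by omega
  exact_mod_cast this

/-- translates of the analytic quotient have expansions at every cusp. -/
theorem h7co_cusp_exp {N : ℕ} [NeZero N] {P Q A : ℍ → ℂ} (hQ0 : Q ≠ 0) (hA : MDiff A)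
    (hPQ : ∀ z, P z = Q z * A z) (hinvA : ∀ γ ∈ Gamma0 N, ∀ τ : ℍ, A (γ • τ) = A τ)
    (g : SL(2, ℤ)) {p q : LaurentSeries ℂ} (hp : HasTExp N (fun τ => P (g • τ)) p)
    (hq : HasTExp N (fun τ => Q (g • τ)) q) :
    q ≠ 0 ∧ ∃ s : LaurentSeries ℂ, HasTExp N (fun τ => A (g • τ)) s ∧ s * q = p := by
  have hN : 0 < N := Nat.pos_of_ne_zero (NeZero.ne N)
  have hq0 : q ≠ 0 := by
    rintro rfl
    apply hQ0
    funext τ
    have := h7co_eq_zero_of_hasTExp_zero hq (g⁻¹ • τ)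
    simpa using this
  refine ⟨hq0, ?_⟩
  exact h7co_quot_exp hN (h72_mdiff_comp_smul hA g)
    (fun τ => h7co_comp_smul_periodic hinvA g τ) (fun τ => hPQ (g • τ)) hp hq hq0

theorem h7co_T_mem_Gamma0 (N : ℕ) : ModularGroup.T ∈ Gamma0 N := by
  rw [Gamma0_mem]
  simp [ModularGroup.T]

/-- the analytic representative of a function which is regular at the places over finite
values of `j`. -/
theorem h7co_exists_an {N : ℕ} [NeZero N] {F : FC N} (hF : H7coRegOff N F) :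
    ∃ A : ℍ → ℂ, MDiff A ∧ (∀ γ ∈ Gamma0 N, ∀ τ : ℍ, A (γ • τ) = A τ) ∧
      HasTExp 1 A (F : LaurentSeries ℂ) ∧ IsAnC N F A 1 := by
  have hN : 0 < N := Nat.pos_of_ne_zero (NeZero.ne N)
  obtain ⟨P, Q, hAn⟩ := (anC N).1 F
  obtain ⟨A, hA, hPQ⟩ := h7co_exists_quotient hAn.holoP hAn.holoQ hAn.Q_ne
    (fun τ₀ => h7co_germ_le hF hAn τ₀)
  -- invariance
  have hinvA : ∀ γ ∈ Gamma0 N, ∀ τ : ℍ, A (γ • τ) = A τ := by
    intro γ hγ
    have hD : MDiff (fun τ : ℍ => A (γ • τ) - A τ) := (h72_mdiff_comp_smul hA γ).sub hA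
    have h0 := h7co_eq_zero_of_mul hAn.holoQ hD hAn.Q_ne (fun τ => by
      have h1 := hPQ (γ • τ)
      rw [hAn.invP γ hγ τ, hAn.invQ γ hγ τ, hPQ τ] at h1
      show Q τ * (A (γ • τ) - A τ) = 0
      rw [mul_sub, ← h1, sub_self])
    intro τ
    have := congrFun h0 τ
    exact sub_eq_zero.mp this
  -- expansion at `∞`
  obtain ⟨p, q, hp, hq, hrel⟩ := hAn.rel
  have hper1 : ∀ τ : ℍ, A ((((1 : ℕ) : ℝ)) +ᵥ τ) = A τ := by
    intro τ
    have h1 := hinvA ModularGroup.T (h7co_T_mem_Gamma0 N) τ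
    rw [UpperHalfPlane.modular_T_smul] at h1
    rw [Nat.cast_one]
    exact h1
  have hq0 : q ≠ 0 := by
    rintro rfl
    exact hAn.Q_ne (funext fun τ => h7co_eq_zero_of_hasTExp_zero hq τ)
  obtain ⟨s, hs, hsq⟩ := h7co_quot_exp one_pos hA hper1 hPQ hp hq hq0
  have hsF : s = (F : LaurentSeries ℂ) := by
    rw [← hrel] at hsq
    exact mul_right_cancel₀ hq0 hsq
  rw [hsF] at hs
  -- expansions at all cusps
  have hcusp : ∀ g : SL(2, ℤ), ∃ s : LaurentSeries ℂ, HasTExp N (fun τ => A (g • τ)) s := by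
    intro g
    obtain ⟨pg, hpg⟩ := hAn.expP g
    obtain ⟨qg, hqg⟩ := hAn.expQ g
    obtain ⟨-, sg, hsg, -⟩ := h7co_cusp_exp hAn.Q_ne hA hPQ hinvA g hpg hqg
    exact ⟨sg, hsg⟩
  refine ⟨A, hA, hinvA, hs, ?_⟩
  exact
    { holoP := hA
      holoQ := mdifferentiable_const
      Q_ne := by
        intro h
        have := congrFun h UpperHalfPlane.I
        simp at this
      invP := hinvA
      invQ := fun _ _ _ => rfl
      expP := hcusp
      expQ := fun g => ⟨1, (Fermat.Agent.S28.HasTExp.one N).congr (fun _ => rfl)⟩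
      rel := ⟨(F : LaurentSeries ℂ), 1, hs, (Fermat.Agent.S28.HasTExp.one 1).congr (fun _ => rfl),
        by rw [mul_one]⟩ }

/-- the cusp embedding at the trivial coset is the `q`-expansion in the variable `q ^ N`. -/
theorem h7co_iota_one {N : ℕ} [NeZero N] {E : FC N →+* LaurentSeries ℂ} {γ₀ : SL(2, ℤ)}
    (hγ₀ : γ₀ ∈ Gamma0 N) (hE : IsCuspEmbC N E γ₀) (f : FC N) :
    E f = qExpand ℂ N (f : LaurentSeries ℂ) := by
  obtain ⟨P, Q, hAn⟩ := (anC N).1 f
  obtain ⟨p, q, hp, hq, hrel⟩ := hAn.rel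
  have hγ : γ₀⁻¹ ∈ Gamma0 N := inv_mem hγ₀
  have hp' : HasTExp N (fun τ => P (γ₀⁻¹ • τ)) (qExpand ℂ N p) :=
    (hp.of_one (N := N)).congr (fun τ => (hAn.invP _ hγ τ).symm)
  have hq' : HasTExp N (fun τ => Q (γ₀⁻¹ • τ)) (qExpand ℂ N q) :=
    (hq.of_one (N := N)).congr (fun τ => (hAn.invQ _ hγ τ).symm)
  have h1 := hE.2 f P Q _ _ hAn hp' hq'
  have hq0 : q ≠ 0 := by
    rintro rfl
    exact hAn.Q_ne (funext fun τ => h7co_eq_zero_of_hasTExp_zero hq τ)
  have hq0' : qExpand ℂ N q ≠ 0 := (map_ne_zero (qExpand ℂ N)).mpr hq0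
  rw [← hrel, map_mul] at h1
  exact mul_right_cancel₀ hq0' h1

/-- **cusp step**: the translates of `A` by elements outside `Γ₀(N)` are bounded at `i∞`. -/
theorem h7co_bdd {N : ℕ} [NeZero N] {F : FC N} (hF : H7coRegOff N F) {A : ℍ → ℂ}
    (hAn : IsAnC N F A 1) (g : SL(2, ℤ)) (hg : g ∉ Gamma0 N) :
    IsBoundedAtImInfty (fun τ : ℍ => A (g • τ)) := by
  classical
  have hN : 0 < N := Nat.pos_of_ne_zero (NeZero.ne N)
  have hNZ : (0 : ℤ) < (N : ℤ) := by exact_mod_cast hN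
  obtain ⟨htr, hfd, hle⟩ := degC N
  haveI := hfd
  have halg : Algebra.IsAlgebraic ℂ⟮jC N⟯ (FC N) := Algebra.IsAlgebraic.of_finite _ _
  obtain ⟨E, hE⟩ := cuspFamC anC (embC anC) N
  set x : SL(2, ℤ) ⧸ Gamma0 N := ((g⁻¹ : SL(2, ℤ)) : SL(2, ℤ) ⧸ Gamma0 N) with hxdef
  set x₀ : SL(2, ℤ) ⧸ Gamma0 N := ((1 : SL(2, ℤ)) : SL(2, ℤ) ⧸ Gamma0 N) with hx₀def
  have hx : x ≠ x₀ := by
    intro h
    have h1 := QuotientGroup.eq.mp h
    simp only [inv_inv, mul_one] at h1
    exact hg h1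
  -- representatives
  obtain ⟨γ, hγ⟩ := QuotientGroup.mk_out_eq_mul (Gamma0 N) (g⁻¹ : SL(2, ℤ))
  obtain ⟨γ₀, hγ₀⟩ := QuotientGroup.mk_out_eq_mul (Gamma0 N) (1 : SL(2, ℤ))
  have hout : ∀ τ : ℍ, A ((Quotient.out x : SL(2, ℤ))⁻¹ • τ) = A (g • τ) := by
    intro τ
    have e : (Quotient.out x : SL(2, ℤ))⁻¹ = (γ : SL(2, ℤ))⁻¹ * g := by
      rw [hxdef, hγ]
      group
    rw [e, mul_smul]
    exact hAn.invP _ (inv_mem γ.2) _
  have hout₀ : (Quotient.out x₀ : SL(2, ℤ)) ∈ Gamma0 N := by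
    rw [hx₀def, hγ₀, one_mul]
    exact γ₀.2
  -- the expansion of `A` at this cusp
  obtain ⟨a, ha⟩ := hAn.expP (Quotient.out x : SL(2, ℤ))⁻¹
  have hEa : E.ι x F = a := by
    have := (hE x).2 F A 1 a 1 hAn ha ((Fermat.Agent.S28.HasTExp.one N).congr (fun _ => rfl))
    rwa [mul_one] at this
  -- the place
  have htord : 0 < (E.ι x (jC N)⁻¹).order := by
    rw [E.order_t x]
    exact hNZ
  obtain ⟨v, m, hm, hv⟩ := Fermat.Agent.S24.exists_place_of_emb (K := ℂ) (jC N)⁻¹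
    (RingHom.id ℂ) (E.ι x) (hE x).1 htord
  have hm' : (0 : ℤ) < (m : ℤ) := by exact_mod_cast hm
  -- it is not the place `∞`
  have hne : ∃ f : FC N, f ≠ 0 ∧ v.ord f ≠ ((f : FC N) : LaurentSeries ℂ).order := by
    by_contra hcon
    have hcon' : ∀ f : FC N, f ≠ 0 → v.ord f = ((f : FC N) : LaurentSeries ℂ).order := by
      intro f hf
      by_contra h
      exact hcon ⟨f, hf, h⟩
    have hvt : v.ord (jC N)⁻¹ = 1 := by
      rw [Place.ord_inv, hcon' _ (h7co_jC_ne_zero N), h7co_order_jC]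
      norm_num
    have h0 : ∀ f : FC N, f ≠ 0 → (E.ι x₀ f).order = (N : ℤ) * v.ord f := by
      intro f hf
      rw [h7co_iota_one hout₀ (hE x₀) f, Fermat.Agent.S28.order_qExpand, hcon' f hf]
    have hcard := Fermat.Agent.S24.card_le_ord_of_induce_same_place (K := ℂ) (jC N)⁻¹ v
      (by rw [hvt]; exact one_pos) (RingHom.id ℂ) (Y := Bool)
      (fun b => if b then E.ι x else E.ι x₀)
      (fun b a => by
        cases b
        · exact (hE x₀).1 a
        · exact (hE x).1 a)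
      (fun b b' => by
        cases b <;> cases b' <;> simp only [Bool.false_eq_true, if_false, if_true]
        · exact E.map_t _ _
        · exact E.map_t _ _)
      (fun b b' hbb' => by
        cases b <;> cases b' <;> simp only [Bool.false_eq_true, if_false, if_true] at hbb'
        · rfl
        · exact absurd (E.inj hbb').symm hx
        · exact absurd (E.inj hbb') hx
        · rfl)
      (Fermat.Agent.S24.DiffPlace.place_deg_eq_one (jC N) halg v)
      (fun b => by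
        cases b
        · exact ⟨N, hN, h0⟩
        · exact ⟨m, hm, hv⟩)
    rw [hvt, Fintype.card_bool] at hcard
    norm_num at hcard
  have hreg : 0 ≤ v.ord F := hF v hne
  have ha0 : 0 ≤ a.order := by
    by_cases hF0 : F = 0
    · rw [← hEa, hF0, map_zero, HahnSeries.order_zero]
    · rw [← hEa, hv F hF0]
      exact mul_nonneg hm'.le hreg
  have hb := h7co_bdd_of_order_nonneg hN ha ha0
  have e : (fun τ : ℍ => A ((Quotient.out x : SL(2, ℤ))⁻¹ • τ)) = fun τ : ℍ => A (g • τ) :=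
    funext hout
  rwa [e] at hb

/-- **DL5, DICTIONARY over `ℂ`.** -/
theorem h7co_dict (N : ℕ) [NeZero N] (F : FC N) (hF : H7coRegOff N F) :
    ∃ A : ℍ → ℂ, H7coAn N (F : LaurentSeries ℂ) A ∧ IsAnC N F A 1 := by
  obtain ⟨A, hA, hinvA, hexp, hAn⟩ := h7co_exists_an hF
  exact ⟨A, ⟨hA, hinvA, hexp, fun g hg => h7co_bdd hF hAn g hg⟩, hAn⟩

/-- **DL5 (CUSP-ORTH) over `ℂ`, algebraic form**: the constant term of `F · h` vanishes for every
weight two cusp form `h` on `Γ₀(N)` and every `F` in the function field of `X₀(N)` over `ℂ` which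
is regular at all places except the place `∞`. -/
theorem h7co_cuspOrth_alg (N : ℕ) [NeZero N] (h : CuspForm (Gamma0 N) 2) (F : FC N)
    (hF : H7coRegOff N F) :
    ((F : LaurentSeries ℂ) * HahnSeries.ofPowerSeries ℤ ℂ (qExpansion 1 h)).coeff 0 = 0 := by
  obtain ⟨A, hA, -⟩ := h7co_dict N F hF
  exact h7co_cuspOrth N h _ A hA

end Fermat.Agent.P7
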