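import Fermat.Agent.S23.Main

/-!
# Wave 7, block (A) by DLOG, GENUS-MATCH leaf GM2: rational basis of `M_k(Γ₀(N))`
(helper10, prefix `h10w_`)

The space of `q`-expansions of the modular forms of weight `k` on `Γ₀(N)` is stable under every
ring homomorphism `σ : ℂ →+* ℂ` acting on the coefficients (`h10w_galois_stable_M`, the proof of
`S23.galois_stable` with `S23.converse` and `S23.exists_monic_relation` in place of their cusp
form versions).  By the Sturm bound and the landed descent `S23.rational_span_of_stable` the space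
`ModularForm (G0 N) k` is finite-dimensional and has a basis of forms with rational
`q`-expansions (`h10w_ratBasis`).
-/

set_option autoImplicit false
set_option linter.style.haveILetI false
set_option linter.unusedSectionVars false

open UpperHalfPlane
open scoped MatrixGroups

noncomputable section

namespace Fermat.Agent.P7

open Fermat.Agent.S23

/-- `q`-expansion as a linear map on modular forms. -/
def h10wQExpM (N : ℕ) (k : ℤ) : ModularForm (G0 N) k →ₗ[ℂ] PowerSeries ℂ where
  toFun f := qExpansion 1 f
  map_add' f g := ModularForm.qExpansion_add one_pos (one_mem_strictPeriods_G0 N) f g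
  map_smul' c f := ModularForm.qExpansion_smul one_pos (one_mem_strictPeriods_G0 N) c f

@[simp] theorem h10wQExpM_apply (N : ℕ) (k : ℤ) (f : ModularForm (G0 N) k) :
    h10wQExpM N k f = qExpansion 1 f := rfl

/-- the Sturm bound of level `N` and weight `k`. -/
def h10wSturm (N : ℕ) (k : ℤ) : ℕ := (k * ↑(CongruenceSubgroup.Gamma0 N).index).toNat / 12

theorem h10w_qExpM_sturm (N : ℕ) [NeZero N] (k : ℤ) (f : ModularForm (G0 N) k)
    (h : ∀ n ≤ h10wSturm N k, PowerSeries.coeff n (qExpansion 1 f) = 0) : f = 0 :=
  ModularForm.sturm_bound_Gamma0 N f h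

theorem h10w_qExpM_injective (N : ℕ) [NeZero N] (k : ℤ) :
    Function.Injective (h10wQExpM N k) := by
  rw [← LinearMap.ker_eq_bot, LinearMap.ker_eq_bot']
  intro f hf
  refine h10w_qExpM_sturm N k f fun n _ => ?_
  rw [← h10wQExpM_apply, hf]
  simp

theorem h10w_mem_range_qExpM (N : ℕ) (k : ℤ) (h : PowerSeries ℂ) :
    h ∈ LinearMap.range (h10wQExpM N k) ↔ IsQM (G0 N) k h := Iff.rfl

/-- **Galois stability** of the space of `q`-expansions of modular forms. -/
theorem h10w_galois_stable_M (N : ℕ) [NeZero N] (k : ℤ) (σ : ℂ →+* ℂ)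
    (f : ModularForm (G0 N) k) :
    IsQM (G0 N) k (PowerSeries.map σ (qExpansion 1 f)) := by
  obtain ⟨w, D, hD0, hDs, hmul⟩ := exists_denominator N
  obtain ⟨m, r, hr, hrel⟩ := exists_monic_relation N k f
  refine converse N k w (PowerSeries.map σ D) (PowerSeries.map σ (qExpansion 1 f * D))
    ?_ ?_ ?_ m (fun i => PowerSeries.map σ (r i)) ?_ _ ?_ ?_
  · exact isQM_of_mem_intSpanM N w (intSpanM_map _ _ σ hDs)
  · intro h0
    apply hD0
    ext n
    have := congrArg (PowerSeries.coeff n) h0
    simpa using this
  · exact isQM_of_mem_intSpanM N (k + w) (intSpanM_map _ _ σ (hmul k f))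
  · intro i hi
    obtain ⟨R, hR⟩ := hr i hi
    have h1 := levelOne_intSpan _ R
    rw [hR] at h1
    exact isQM_of_mem_intSpanM_levelOne _ (intSpanM_map _ _ σ h1)
  · simp [map_mul]
  · have := congrArg (PowerSeries.map σ) hrel
    simpa [map_add, map_sum, map_mul, map_pow] using this

/-- the space of `q`-expansions is spanned by its rational elements. -/
theorem h10w_rational_span (N : ℕ) [NeZero N] (k : ℤ) :
    LinearMap.range (h10wQExpM N k) ≤
      Submodule.span ℂ {v | v ∈ LinearMap.range (h10wQExpM N k) ∧ IsRatSeries v} :=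
  rational_span_of_stable (LinearMap.range (h10wQExpM N k)) (h10wSturm N k)
    (by
      rintro v ⟨g, rfl⟩ hv
      rw [h10w_qExpM_sturm N k g hv, map_zero])
    (by
      rintro σ v ⟨g, rfl⟩
      exact h10w_galois_stable_M N k σ g)

theorem h10w_range_finite (N : ℕ) [NeZero N] (k : ℤ) :
    FiniteDimensional ℂ (LinearMap.range (h10wQExpM N k)) :=
  finiteDimensional_of_bound (LinearMap.range (h10wQExpM N k)) (h10wSturm N k)
    (by
      rintro v ⟨g, rfl⟩ hv
      rw [h10w_qExpM_sturm N k g hv, map_zero])

/-- `M_k(Γ₀(N))` is finite-dimensional. -/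
theorem h10w_modularForm_finite (N : ℕ) [NeZero N] (k : ℤ) :
    FiniteDimensional ℂ (ModularForm (G0 N) k) := by
  haveI := h10w_range_finite N k
  have hinj : Function.Injective (h10wQExpM N k).rangeRestrict := by
    intro f g h
    apply h10w_qExpM_injective N k
    have := congrArg (Subtype.val) h
    simpa using this
  exact Module.Finite.of_injective (h10wQExpM N k).rangeRestrict hinj

/-- **GM2.**  `M_k(Γ₀(N))` has a basis of forms with rational `q`-expansions. -/
theorem h10w_ratBasis (N : ℕ) [NeZero N] (k : ℤ) :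
    ∃ (r : ℕ) (b : Fin r → ModularForm (G0 N) k),
      r = Module.finrank ℂ (ModularForm (G0 N) k) ∧ LinearIndependent ℂ b ∧
      Submodule.span ℂ (Set.range b) = ⊤ ∧
      ∀ i, IsRatSeries (qExpansion 1 (b i)) := by
  classical
  haveI := h10w_range_finite N k
  haveI := h10w_modularForm_finite N k
  set V := LinearMap.range (h10wQExpM N k) with hV
  set S : Set (PowerSeries ℂ) := {v | v ∈ V ∧ IsRatSeries v} with hS
  have hspan : Submodule.span ℂ S = V := by
    apply le_antisymm
    · rw [Submodule.span_le]
      exact fun v hv => hv.1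
    · exact h10w_rational_span N k
  obtain ⟨B, hBS, hBspan, hBli⟩ := exists_linearIndependent ℂ S
  -- `B` is finite
  have hBV : ∀ v ∈ B, v ∈ V := fun v hv => (hBS hv).1
  have hBrat : ∀ v ∈ B, IsRatSeries v := fun v hv => (hBS hv).2
  -- preimages
  have hpre : ∀ v : B, ∃ f : ModularForm (G0 N) k, h10wQExpM N k f = (v : PowerSeries ℂ) :=
    fun v => hBV v v.2
  choose F hF using hpre
  have hFli : LinearIndependent ℂ F := by
    refine LinearIndependent.of_comp (h10wQExpM N k) ?_
    have : (h10wQExpM N k) ∘ F = (Subtype.val : B → PowerSeries ℂ) := funext hF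
    rw [this]
    exact hBli
  haveI : Finite B := hFli.finite
  haveI : Fintype B := Fintype.ofFinite B
  have hFspan : Submodule.span ℂ (Set.range F) = ⊤ := by
    rw [eq_top_iff]
    intro f _
    have hf : h10wQExpM N k f ∈ Submodule.span ℂ B := by
      rw [hBspan, hspan]
      exact ⟨f, rfl⟩
    have hBimg : (B : Set (PowerSeries ℂ)) = (h10wQExpM N k) '' (Set.range F) := by
      ext v
      constructor
      · intro hv
        exact ⟨F ⟨v, hv⟩, ⟨⟨v, hv⟩, rfl⟩, hF ⟨v, hv⟩⟩
      · rintro ⟨_, ⟨w, rfl⟩, rfl⟩
        rw [hF w]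
        exact w.2
    rw [hBimg, ← Submodule.map_span] at hf
    obtain ⟨g, hg, hgf⟩ := hf
    rwa [← h10w_qExpM_injective N k hgf]
  -- reindex by `Fin r`
  set r := Fintype.card B with hr
  let e : Fin r ≃ B := (Fintype.equivFin B).symm
  refine ⟨r, F ∘ e, ?_, ?_, ?_, ?_⟩
  · have h1 := finrank_span_eq_card hFli
    rw [hFspan, finrank_top] at h1
    rw [hr, h1]
  · exact hFli.comp e e.injective
  · rw [Set.range_comp, e.range_eq_univ, Set.image_univ]
    exact hFspan
  · intro i
    have h1 := hF (e i)
    rw [h10wQExpM_apply] at h1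
    show IsRatSeries (qExpansion 1 (F (e i)))
    rw [h1]
    exact hBrat _ (e i).2

end Fermat.Agent.P7
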