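import Fermat.Agent.P7.H28GenusMatch
import Fermat.Agent.P7.H10RatBasis
import Fermat.Agent.S21.E.Main

/-!
# Wave 7, route DLOG, leaf GENUS-MATCH, GM1-B (helper95): from weakly holomorphic functions to
modular forms of weight `12 n`

* `h95w_exists_modularForm_of` : packaging of a modular form for `Γ ≤ SL(2,ℤ)` of finite index.
* `h95w_form_of_wh` : for `w` weakly holomorphic of degree `≤ n` for `Γ` (`S21.E.IsWH Γ n w`) the
  function `Δ ^ n * w` is a modular form of weight `12 n` for `Γ`.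
* `h95w_card_le_finrank` : `r` linearly independent weakly holomorphic functions of degree `≤ n`
  for `Γ₀(M)` give `r ≤ dim M_{12 n}(Γ₀(M))`.
* `h95w_count_of` : the frozen `H28gCount` of `P7/H28GenusMatch.lean` from the count of weakly
  holomorphic functions (`H95wWHCount`, the shape of the leaf GM1 / COUNT).
-/

set_option autoImplicit false
set_option linter.unusedSectionVars false
set_option linter.style.haveILetI false

open UpperHalfPlane hiding I
open Complex Filter Function Topology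
open scoped Manifold MatrixGroups ModularForm Real

noncomputable section

namespace Fermat.Agent.P7

open Fermat.Agent.S21.E

local notation "Δ" => ModularForm.discriminant

/-- Packaging: a holomorphic function, weight-`k` invariant under `Γ`, all of whose `SL(2,ℤ)`
translates are bounded at `i∞`, is a modular form. -/
theorem h95w_exists_modularForm_of (Γ : Subgroup SL(2, ℤ)) [Γ.FiniteIndex] (k : ℤ) (f : ℍ → ℂ)
    (hf : MDiff f) (hinv : ∀ γ ∈ Γ, f ∣[k] γ = f)
    (hbdd : ∀ g : SL(2, ℤ), IsBoundedAtImInfty (f ∣[k] g)) :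
    ∃ ω : ModularForm (Γ.map (Matrix.SpecialLinearGroup.mapGL ℝ)) k, (ω : ℍ → ℂ) = f := by
  refine ⟨{ toFun := f, slash_action_eq' := ?_, holo' := hf, bdd_at_cusps' := ?_ }, rfl⟩
  · rintro A ⟨γ, hγ, rfl⟩
    exact hinv γ hγ
  · intro c hc
    rw [Subgroup.IsArithmetic.isCusp_iff_isCusp_SL2Z] at hc
    rw [OnePoint.isBoundedAt_iff_forall_SL2Z hc]
    intro γ _
    exact hbdd γ

/-- the slash of `Δ ^ n * w` in weight `12 n`. -/
theorem h95w_slash_disc_pow_mul (n : ℕ) (w : ℍ → ℂ) (g : SL(2, ℤ)) :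
    (fun z : ℍ => Δ z ^ n * w z) ∣[(12 * (n : ℤ))] g = fun z : ℍ => Δ z ^ n * w (g • z) := by
  funext z
  rw [ModularForm.SL_slash_apply]
  have hd : denom g z ≠ 0 := denom_ne_zero g z
  have h1 : Δ (g • z) = (denom g z) ^ (12 : ℤ) * Δ z :=
    Fermat.Agent.S21.J1.discriminant_smul_apply g z
  show Δ (g • z) ^ n * w (g • z) * denom g z ^ (-(12 * (n : ℤ))) = Δ z ^ n * w (g • z)
  rw [h1, mul_pow]
  have h2 : ((denom g z) ^ (12 : ℤ)) ^ n * denom g z ^ (-(12 * (n : ℤ))) = 1 := by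
    rw [← zpow_natCast, ← zpow_mul, ← zpow_add₀ hd]
    have : (12 : ℤ) * (n : ℤ) + -(12 * (n : ℤ)) = 0 := by ring
    rw [this, zpow_zero]
  calc (denom g z ^ (12 : ℤ)) ^ n * Δ z ^ n * w (g • z) * denom g z ^ (-(12 * (n : ℤ)))
      = ((denom g z ^ (12 : ℤ)) ^ n * denom g z ^ (-(12 * (n : ℤ)))) * (Δ z ^ n * w (g • z)) := by
        ring
    _ = Δ z ^ n * w (g • z) := by rw [h2, one_mul]

theorem h95w_mdiff_disc : MDiff (Δ : ℍ → ℂ) := ModularFormClass.holo CuspForm.discriminant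

theorem h95w_mdiff_disc_pow_mul (n : ℕ) {w : ℍ → ℂ} (hw : MDiff w) :
    MDiff (fun z : ℍ => Δ z ^ n * w z) := by
  rw [mdifferentiable_iff]
  have hΔ : DifferentiableOn ℂ ((Δ : ℍ → ℂ) ∘ ofComplex) {z | 0 < z.im} :=
    mdifferentiable_iff.1 h95w_mdiff_disc
  have hw' : DifferentiableOn ℂ (w ∘ ofComplex) {z | 0 < z.im} := mdifferentiable_iff.1 hw
  exact (hΔ.pow n).mul hw'

/-- **WH → form**: for `w` weakly holomorphic of degree `≤ n` the function `Δ ^ n * w` is a
modular form of weight `12 n`. -/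
theorem h95w_form_of_wh (Γ : Subgroup SL(2, ℤ)) [Γ.FiniteIndex] (n : ℕ) {w : ℍ → ℂ}
    (hw : IsWH Γ n w) :
    ∃ ω : ModularForm (Γ.map (Matrix.SpecialLinearGroup.mapGL ℝ)) (12 * (n : ℤ)),
      (ω : ℍ → ℂ) = fun z : ℍ => Δ z ^ n * w z := by
  refine h95w_exists_modularForm_of Γ _ _ (h95w_mdiff_disc_pow_mul n hw.holo) ?_ ?_
  · intro γ hγ
    rw [h95w_slash_disc_pow_mul]
    funext z
    rw [hw.inv γ hγ z]
  · intro g
    rw [h95w_slash_disc_pow_mul]
    exact hw.bdd g

/-- linear independence is preserved by `w ↦ Δ ^ n * w`. -/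
theorem h95w_indep_forms (Γ : Subgroup SL(2, ℤ)) [Γ.FiniteIndex] (n r : ℕ) (w : Fin r → ℍ → ℂ)
    (hw : ∀ i, IsWH Γ n (w i)) (hli : LinearIndependent ℂ w) :
    ∃ ω : Fin r → ModularForm (Γ.map (Matrix.SpecialLinearGroup.mapGL ℝ)) (12 * (n : ℤ)),
      LinearIndependent ℂ ω := by
  classical
  choose ω hω using fun i => h95w_form_of_wh Γ n (hw i)
  refine ⟨ω, ?_⟩
  rw [Fintype.linearIndependent_iff] at hli ⊢
  intro c hc i
  apply hli c _ i
  funext z
  have h1 : (⇑(∑ j, c j • ω j) : ℍ → ℂ) z = 0 := by rw [hc]; rfl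
  have h2 : (⇑(∑ j, c j • ω j) : ℍ → ℂ) z = ∑ j, c j * (Δ z ^ n * w j z) := by
    have h3 : ∀ (s : Finset (Fin r)), (⇑(∑ j ∈ s, c j • ω j) : ℍ → ℂ) z =
        ∑ j ∈ s, c j * (Δ z ^ n * w j z) := by
      intro s
      induction s using Finset.induction_on with
      | empty => simp
      | insert a s ha ih =>
        rw [Finset.sum_insert ha, Finset.sum_insert ha, FunLike.coe_add, Pi.add_apply, ih,
          FunLike.coe_smul, Pi.smul_apply, hω a, smul_eq_mul]
    exact h3 Finset.univ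
  rw [h2] at h1
  have hΔ : Δ z ^ n ≠ 0 := pow_ne_zero n (ModularForm.discriminant_ne_zero z)
  have h4 : Δ z ^ n * ∑ j, c j * w j z = 0 := by
    rw [Finset.mul_sum, ← h1]
    exact Finset.sum_congr rfl fun j _ => by ring
  have h5 := (mul_eq_zero.mp h4).resolve_left hΔ
  simpa [Finset.sum_apply, Pi.smul_apply, smul_eq_mul] using h5


/-! ## The count -/

/-- **The count of weakly holomorphic functions** (the shape of the leaf GM1 / COUNT): for every
admissible family `t` for `Γ₀(M)` and every `n` above all degrees of `t` there are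
`(n + 1) μ - t.total` linearly independent weakly holomorphic functions of degree `≤ n`
(`μ` the index; the functions `j ^ a * v_k`, `a + d_k ≤ n`). -/
def H95wWHCount : Prop :=
  ∀ (M : ℕ) [NeZero M] [Fintype (SL(2, ℤ) ⧸ CongruenceSubgroup.Gamma0 M)]
    [DecidableEq (SL(2, ℤ) ⧸ CongruenceSubgroup.Gamma0 M)]
    (t : Tuple (CongruenceSubgroup.Gamma0 M)) (n : ℕ), (∀ k, t.d k ≤ n) →
    ∃ (r : ℕ) (w : Fin r → ℍ → ℂ),
      r + t.total = (n + 1) * (CongruenceSubgroup.Gamma0 M).index ∧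
      (∀ i, IsWH (CongruenceSubgroup.Gamma0 M) n (w i)) ∧ LinearIndependent ℂ w

/-- `r` linearly independent weakly holomorphic functions of degree `≤ n` for `Γ₀(M)` give
`r ≤ dim M_{12 n}(Γ₀(M))`. -/
theorem h95w_card_le_finrank (M : ℕ) [NeZero M] (n r : ℕ) (w : Fin r → ℍ → ℂ)
    (hw : ∀ i, IsWH (CongruenceSubgroup.Gamma0 M) n (w i)) (hli : LinearIndependent ℂ w) :
    r ≤ Module.finrank ℂ (ModularForm ((CongruenceSubgroup.Gamma0 M).map
      (Matrix.SpecialLinearGroup.mapGL ℝ)) (12 * (n : ℤ))) := by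
  obtain ⟨ω, hω⟩ := h95w_indep_forms (CongruenceSubgroup.Gamma0 M) n r w hw hli
  haveI : FiniteDimensional ℂ (ModularForm ((CongruenceSubgroup.Gamma0 M).map
      (Matrix.SpecialLinearGroup.mapGL ℝ)) (12 * (n : ℤ))) :=
    h10w_modularForm_finite M (12 * (n : ℤ))
  have h := hω.fintype_card_le_finrank
  rwa [Fintype.card_fin] at h

/-- **GM1-B**: the frozen `H28gCount` from the count of weakly holomorphic functions. -/
theorem h95w_count_of (h : H95wWHCount) : H28gCount := by
  intro M _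
  classical
  letI : Fintype (SL(2, ℤ) ⧸ CongruenceSubgroup.Gamma0 M) :=
    Subgroup.fintypeQuotientOfFiniteIndex
  have hneg : (-1 : SL(2, ℤ)) ∈ CongruenceSubgroup.Gamma0 M := by
    rw [CongruenceSubgroup.Gamma0_mem]; simp
  obtain ⟨t, ht⟩ := exists_isMin (nonempty_tuple_Gamma0 M)
  obtain ⟨ω, hω⟩ := exists_linearIndependent_cuspForms hneg ht.saturated ht.reduced
  haveI : FiniteDimensional ℂ (CuspForm ((CongruenceSubgroup.Gamma0 M).map
      (Matrix.SpecialLinearGroup.mapGL ℝ)) 2) :=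
    Fermat.Agent.S49.finiteDimensional_cuspForm M 2
  have hG := hω.fintype_card_le_finrank
  rw [Fintype.card_fin] at hG
  refine ⟨t.total + 1 - (CongruenceSubgroup.Gamma0 M).index, t.total, hG, fun n hn => ?_⟩
  have hd : ∀ k, t.d k ≤ n := fun k =>
    (Finset.single_le_sum (f := t.d) (fun _ _ => Nat.zero_le _) (Finset.mem_univ k)).trans hn
  obtain ⟨r, w, hr, hw, hli⟩ := h M t n hd
  have h1 := h95w_card_le_finrank M n r w hw hli
  have h2 : (n + 1) * (CongruenceSubgroup.Gamma0 M).index =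
      n * (CongruenceSubgroup.Gamma0 M).index + (CongruenceSubgroup.Gamma0 M).index := by ring
  rw [h2] at hr
  have h3 : r ≤ Module.finrank ℂ (ModularForm (CongruenceSubgroup.Gamma0 M) (12 * (n : ℤ))) := h1
  omega

end Fermat.Agent.P7
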