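import Fermat.Agent.P7.H10IntQIface
import Fermat.Agent.P7.H95CountForms
import Fermat.Agent.P7.H7CuspOrthDict
import Fermat.Agent.P7.H39DictBar
import Fermat.Agent.S28.Bridge
import Fermat.Agent.S49.QCoeff

/-!
# Wave 7 (row 38), DLOG, INT-Q leaf (Q1) = `H10xForm` (helper24, prefix `h24q_`)

A function `f ∈ FF M` which is regular off the `q`-order place and has `q`-order `≥ -n` is
`Δ(q) ^ (-n)` times the `q`-expansion of a modular form of weight `12 n` and level `M`:
`f` has an analytic representative `A` (helper39's adapter + helper7's dictionary), `A` is weakly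
holomorphic of degree `≤ n`, and `Δ ^ n · A` is a modular form (helper95).
-/

set_option autoImplicit false
set_option linter.unusedSectionVars false
set_option linter.style.haveILetI false

open ModularCurve AlgebraicCurve UpperHalfPlane CongruenceSubgroup ModularForm
open scoped MatrixGroups Manifold ModularForm

noncomputable section

namespace Fermat.Agent.P7

open Fermat.Agent.S28 (HasTExp tParam deltaAn cEmb)
open Fermat.Agent.S24 (Kbar FF embC)

/-- the `q`-expansion of a form on `Γ₀(M)` is its `𝕋`-expansion at level one. -/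
theorem h24q_hasTExp_form (M : ℕ) [NeZero M] (k : ℤ) (h : ModularForm (Gamma0 M) k) :
    HasTExp 1 (fun τ => h τ) (HahnSeries.ofPowerSeries ℤ ℂ (qExpansion 1 h)) := by
  refine ⟨0, qExpansion 1 h, ?_, fun τ => ?_⟩
  · simp
  · have hs := ModularForm.hasSum_qExpansion (f := h) one_pos
      (Fermat.Agent.S49.one_mem_strictPeriods M) τ
    simpa [tParam] using hs

/-- powers of `Δ` are bounded at `i∞`. -/
theorem h24q_bdd_disc_pow (n : ℕ) :
    IsBoundedAtImInfty (fun z : ℍ => ModularForm.discriminant z ^ n) := by
  have h1 : IsBoundedAtImInfty (fun z : ℍ => ModularForm.discriminant z) :=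
    ModularFormClass.bdd_at_infty CuspForm.discriminant
  induction n with
  | zero =>
    simp only [pow_zero]
    exact Filter.const_boundedAtFilter _ (1 : ℂ)
  | succ n ih =>
    have e : (fun z : ℍ => ModularForm.discriminant z ^ (n + 1)) =
        (fun z : ℍ => ModularForm.discriminant z ^ n) *
          (fun z : ℍ => ModularForm.discriminant z) := by
      funext z
      simp [pow_succ]
    rw [e]
    exact ih.mul h1

/-- **INT-Q (Q1)**: the frozen Prop `H10xForm` of `P7/H10IntQIface`. -/
theorem h24q_form : H10xForm := by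
  intro M _ n f hreg hord
  have hF : H7coRegOff M (h39bBC M f) := h39b_adapter M f (h39bBC M f) rfl hreg
  obtain ⟨A, hA, -⟩ := h7co_dict M _ hF
  have hΔ : HasTExp 1 (fun z : ℍ => ModularForm.discriminant z ^ n) (cEmb deltaSeries ^ n) :=
    (Fermat.Agent.S28.hasTExp_deltaAn.pow one_pos n).congr (fun τ => by simp [deltaAn])
  have hprod : HasTExp 1 (fun z : ℍ => ModularForm.discriminant z ^ n * A z)
      (cEmb deltaSeries ^ n * coeffMap embC (f : LaurentSeries Kbar)) :=
    (hΔ.mul one_pos hA.exp).congr (fun _ => rfl)
  have hord0 : 0 ≤ (cEmb deltaSeries ^ n * coeffMap embC (f : LaurentSeries Kbar)).order := by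
    by_cases hf0 : coeffMap embC (f : LaurentSeries Kbar) = 0
    · rw [hf0, mul_zero, HahnSeries.order_zero]
    · have hd0 : cEmb deltaSeries ≠ 0 := by
        intro h
        have := Fermat.Agent.S28.Cusp.order_cEmb_deltaSeries
        rw [h, HahnSeries.order_zero] at this
        exact zero_ne_one this
      rw [HahnSeries.order_mul (pow_ne_zero n hd0) hf0, HahnSeries.order_pow,
        Fermat.Agent.S28.Cusp.order_cEmb_deltaSeries]
      have h1 := h39b_order_BC M f
      rw [h39b_coe_BC] at h1
      rw [h1]
      simp only [nsmul_eq_mul, mul_one]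
      linarith
  have hwh : Fermat.Agent.S21.E.IsWH (Gamma0 M) n A := by
    refine ⟨hA.holo, hA.inv, fun g => ?_⟩
    by_cases hg : g ∈ Gamma0 M
    · have e : (fun z : ℍ => ModularForm.discriminant z ^ n * A (g • z)) =
          fun z : ℍ => ModularForm.discriminant z ^ n * A z :=
        funext (fun z => by rw [hA.inv g hg z])
      rw [e]
      exact h7co_bdd_of_order_nonneg one_pos hprod hord0
    · exact (h24q_bdd_disc_pow n).mul (hA.bdd g hg)
  obtain ⟨ω, hω⟩ := h95w_form_of_wh (Gamma0 M) n hwh
  refine ⟨ω, ?_⟩
  have h1 := h24q_hasTExp_form M _ ω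
  have h2 : HasTExp 1 (fun τ => ω τ)
      (cEmb deltaSeries ^ n * coeffMap embC (f : LaurentSeries Kbar)) :=
    hprod.congr (fun τ => by rw [hω])
  exact Fermat.Agent.S28.HasTExp.unique one_pos h1 h2

end Fermat.Agent.P7
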