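import Fermat.Agent.P7.H10IntQIface

/-!
# Wave 7, block (A), DLOG: INT-Q leaf (Q2) LATTICE (helper3, prefix `h3q_`)

`H10xLat` (frozen in `P7/H10IntQIface.lean`): for every level `M` and weight `k` the modular
forms of weight `k` on `Γ₀(M)` with integral `q`-expansion form a finitely generated
`ℤ`-module which spans `M_k(Γ₀(M))` over `ℂ`.

* `h3q_bdd_of_rat` : a modular form with rational `q`-expansion has bounded denominators
  (the proof of `S23.bdd_of_rat` with `S23.exists_monic_relation`);
* `h3q_int_fg` : finite generation (Sturm bound: the first coefficients give an injective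
  `ℤ`-linear map into `Fin (B + 1) → ℤ`);
* `h3q_int_span` : the span is everything (rational basis `h10w_ratBasis`);
* `h3q_lat : H10xLat`.

Every declaration is a proved theorem; nothing is assumed.
-/

set_option autoImplicit false
set_option linter.style.haveILetI false
set_option linter.unusedSectionVars false
set_option linter.unusedVariables false

open UpperHalfPlane ModularFormClass
open scoped MatrixGroups

noncomputable section

namespace Fermat.Agent.P7

open Fermat.Agent.S23

/-- A modular form with rational `q`-expansion has bounded denominators. -/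
theorem h3q_bdd_of_rat (N : ℕ) [NeZero N] (k : ℤ) (f : ModularForm (G0 N) k)
    (hf : IsRatSeries (qExpansion 1 f)) :
    ∃ M : ℤ, M ≠ 0 ∧ IsIntSeries ((M : ℂ) • qExpansion 1 f) := by
  choose a ha using hf
  set x : PowerSeries ℚ := PowerSeries.mk a with hx
  have hxf : x.map (algebraMap ℚ ℂ) = qExpansion 1 f := by
    ext n; simp [hx, ha]
  obtain ⟨w, D, hD0, hDs, hmul⟩ := exists_denominator N
  obtain ⟨m, r, hr, hrel⟩ := exists_monic_relation N k f
  obtain ⟨l₁, hl₁⟩ := exists_retraction
  obtain ⟨l₂, hl₂⟩ := exists_coeffMap_ne_zero hD0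
  have hG := hmul k f
  have key : HasBddDenom x := by
    refine bddDenom_of_frac_of_integral x (coeffMap l₂ D) (coeffMap l₂ (qExpansion 1 f * D)) hl₂
      (coeffMap_mem_intSpanM l₂ _ _ hDs) (coeffMap_mem_intSpanM l₂ _ _ hG) ?_ m
      (fun i => coeffMap l₁ (r i)) ?_ ?_
    · rw [← hxf, coeffMap_rat_mul]
    · intro i hi
      obtain ⟨R, hR⟩ := hr i hi
      have h1 := levelOne_intSpan _ R
      rw [hR] at h1
      exact coeffMap_mem_intSpanM l₁ _ _ h1
    · have h0 := congrArg (coeffMap l₁) hrel
      rw [coeffMap_zero, coeffMap_add, coeffMap_sum, ← hxf] at h0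
      rw [← map_pow, coeffMap_rat l₁ hl₁] at h0
      rw [← h0]
      congr 1
      refine Finset.sum_congr rfl fun i _ => ?_
      rw [← map_pow, coeffMap_mul_rat]
  obtain ⟨M, hM, hMx⟩ := key
  refine ⟨M, hM, fun n => ?_⟩
  obtain ⟨b, hb⟩ := hMx n
  refine ⟨b, ?_⟩
  have h2 : PowerSeries.coeff n (qExpansion 1 f) = ((PowerSeries.coeff n x : ℚ) : ℂ) := by
    rw [← hxf]; simp
  rw [PowerSeries.coeff_smul, h2, smul_eq_mul]
  have := congrArg (fun t : ℚ => (t : ℂ)) hb
  simpa using this

/-- the integer coefficients are `ℤ`-linear: scalar multiplication. -/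
theorem h3q_coef_zsmul {K : Type*} [Field K] [CharZero K] {V : Type*} [AddCommGroup V]
    [Module K V] (a : V →ₗ[K] (ℕ → K)) (z : ℤ) (v : h10wInt a) (n : ℕ) :
    h10wCoef a (z • v) n = z * h10wCoef a v n := by
  apply h10w_coef_unique
  rw [Submodule.coe_smul_of_tower, map_zsmul, Pi.smul_apply, h10w_coef_spec, zsmul_eq_mul]
  push_cast
  ring

/-- the first `B + 1` integer coefficients, as a `ℤ`-linear map. -/
def h3qTrunc {K : Type*} [Field K] [CharZero K] {V : Type*} [AddCommGroup V]
    [Module K V] (a : V →ₗ[K] (ℕ → K)) (B : ℕ) : h10wInt a →ₗ[ℤ] (Fin (B + 1) → ℤ) where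
  toFun v i := h10wCoef a v (i : ℕ)
  map_add' v w := by
    funext i
    exact h10w_coef_add a v w i
  map_smul' z v := by
    funext i
    simp only [RingHom.id_apply, Pi.smul_apply, smul_eq_mul]
    exact h3q_coef_zsmul a z v i

/-- abstract finite generation: if the first `B + 1` coefficients determine the elements, the
integral elements are a finitely generated `ℤ`-module. -/
theorem h3q_fg_of_bound {K : Type*} [Field K] [CharZero K] {V : Type*} [AddCommGroup V]
    [Module K V] (a : V →ₗ[K] (ℕ → K)) (B : ℕ)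
    (hB : ∀ v : V, (∀ n ≤ B, a v n = 0) → v = 0) : (h10wInt a).FG := by
  have hinj : Function.Injective (h3qTrunc a B) := by
    rw [← LinearMap.ker_eq_bot, LinearMap.ker_eq_bot']
    intro v hv
    apply Subtype.ext
    refine hB (v : V) fun n hn => ?_
    have h1 := congrFun hv (⟨n, Nat.lt_succ_of_le hn⟩ : Fin (B + 1))
    have h2 : h10wCoef a v n = 0 := h1
    rw [h10w_coef_spec, h2, Int.cast_zero]
  haveI : Module.Finite ℤ (h10wInt a) := Module.Finite.of_injective (h3qTrunc a B) hinj
  exact Module.Finite.iff_fg.mp inferInstance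

/-- finite generation of the integral modular forms. -/
theorem h3q_int_fg (M : ℕ) [NeZero M] (k : ℤ) : (h10wInt (h10xQM M k)).FG := by
  refine h3q_fg_of_bound (h10xQM M k) (h10wSturm M k) fun f hf => ?_
  exact h10w_qExpM_sturm M k f fun n hn => by
    rw [← h10xQM_apply]
    exact hf n hn

/-- the integral modular forms span `M_k(Γ₀(M))` over `ℂ`. -/
theorem h3q_int_span (M : ℕ) [NeZero M] (k : ℤ) :
    Submodule.span ℂ (h10wInt (h10xQM M k) : Set (ModularForm (G0 M) k)) = ⊤ := by
  obtain ⟨r, b, -, -, hspan, hrat⟩ := h10w_ratBasis M k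
  rw [eq_top_iff, ← hspan, Submodule.span_le]
  rintro _ ⟨i, rfl⟩
  obtain ⟨D, hD, hint⟩ := h3q_bdd_of_rat M k (b i) (hrat i)
  have hDC : (D : ℂ) ≠ 0 := by exact_mod_cast hD
  have hmem : (D : ℂ) • b i ∈ h10wInt (h10xQM M k) := by
    intro n
    obtain ⟨c, hc⟩ := hint n
    refine ⟨c, ?_⟩
    rw [← hc, h10xQM_apply]
    show PowerSeries.coeff n (h10wQExpM M k ((D : ℂ) • b i)) = _
    rw [map_smul]
    rfl
  have h1 : b i = (D : ℂ)⁻¹ • ((D : ℂ) • b i) := by
    rw [smul_smul, inv_mul_cancel₀ hDC, one_smul]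
  rw [SetLike.mem_coe, h1]
  exact Submodule.smul_mem _ _ (Submodule.subset_span hmem)

/-- **INT-Q leaf (Q2)**: the lattice of integral modular forms. -/
theorem h3q_lat : H10xLat := fun M _ k => ⟨h3q_int_fg M k, h3q_int_span M k⟩

end Fermat.Agent.P7
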