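import Fermat.Agent.P7.H26DlogGap

/-!
# Wave 7 (S44), block (A) by DLOG: the MID assembly, abstract core (helper72, prefix `h72w_`)

`k` a field, `V` a subspace of `k((q))` (the expansions of the functions regular off `∞̄`),
`Ω(V) = h26gOmega V` (helper26), `S` a subspace of the coefficient sequences `ℕ → k`
(the reductions of the integral cusp forms).

* `h72wSer w` : the Laurent series `∑_{n ≥ 0} w n q ^ n`; `h72wSerLin` the linear map;
  `h72w_ser_eq` : a Laurent series without terms of negative degree is `h72wSer` of its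
  coefficient sequence.
* `h72w_mid` : if `Ω(V)` is finite-dimensional, `dim Ω(V) ≤ dim S` and the series of the
  elements of `S` lie in `Ω(V)`, then `Ω(V)` is EXACTLY the set of the series of the elements of
  `S`.
* `h72w_mid_mem` : hence every `t ∈ Ω(V)` has its coefficient sequence in `S`.
* `h72w_ser_mem_of_gen` : it suffices to check `S ⊆ Ω(V)` on a spanning set.

Mathlib + `P7/H26DlogGap` (Mathlib only).
-/

set_option autoImplicit false

noncomputable section

namespace Fermat.Agent.P7

variable {k : Type*} [Field k]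

/-- the Laurent series `∑_{n ≥ 0} w n q ^ n` of a coefficient sequence. -/
def h72wSer (w : ℕ → k) : LaurentSeries k :=
  HahnSeries.ofPowerSeries ℤ k (PowerSeries.mk w)

theorem h72w_ser_coeff_nat (w : ℕ → k) (n : ℕ) : (h72wSer w).coeff (n : ℤ) = w n := by
  unfold h72wSer
  rw [HahnSeries.ofPowerSeries_apply_coeff, PowerSeries.coeff_mk]

theorem h72w_ser_coeff_neg (w : ℕ → k) {m : ℤ} (hm : m < 0) : (h72wSer w).coeff m = 0 := by
  unfold h72wSer
  have h := PowerSeries.coeff_coe (R := k) (PowerSeries.mk w) m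
  rw [if_pos hm] at h
  exact h

/-- a Laurent series without terms of negative degree is the series of its coefficients. -/
theorem h72w_ser_eq {t : LaurentSeries k} {w : ℕ → k} (h1 : ∀ n : ℕ, t.coeff (n : ℤ) = w n)
    (h2 : ∀ m : ℤ, m < 0 → t.coeff m = 0) : t = h72wSer w := by
  ext m
  rcases lt_or_ge m 0 with hm | hm
  · rw [h2 m hm, h72w_ser_coeff_neg w hm]
  · obtain ⟨n, rfl⟩ := Int.eq_ofNat_of_zero_le hm
    rw [h1 n, h72w_ser_coeff_nat]

/-- `h72wSer` as a linear map. -/
def h72wSerLin : (ℕ → k) →ₗ[k] LaurentSeries k where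
  toFun := h72wSer
  map_add' x y := by
    symm
    apply h72w_ser_eq
    · intro n
      rw [HahnSeries.coeff_add, h72w_ser_coeff_nat, h72w_ser_coeff_nat, Pi.add_apply]
    · intro m hm
      rw [HahnSeries.coeff_add, h72w_ser_coeff_neg x hm, h72w_ser_coeff_neg y hm, add_zero]
  map_smul' c x := by
    symm
    apply h72w_ser_eq
    · intro n
      rw [RingHom.id_apply, HahnSeries.coeff_smul, h72w_ser_coeff_nat, Pi.smul_apply]
    · intro m hm
      rw [RingHom.id_apply, HahnSeries.coeff_smul, h72w_ser_coeff_neg x hm, smul_zero]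

@[simp] theorem h72w_serLin_apply (w : ℕ → k) : h72wSerLin w = h72wSer w := rfl

theorem h72w_ser_injective : Function.Injective (h72wSerLin (k := k)) := by
  intro x y hxy
  funext n
  have h := congrArg (fun t : LaurentSeries k => t.coeff (n : ℤ)) hxy
  simpa only [h72w_serLin_apply, h72w_ser_coeff_nat] using h

/-- membership in `Ω(V)` for the series of a coefficient sequence. -/
theorem h72w_ser_mem_omega {V : Submodule k (LaurentSeries k)} {w : ℕ → k} :
    h72wSer w ∈ h26gOmega V ↔ w 0 = 0 ∧ ∀ f ∈ V, (f * h72wSer w).coeff 0 = 0 := by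
  constructor
  · rintro ⟨h1, h2⟩
    refine ⟨?_, h2⟩
    have h := h1 0 le_rfl
    have h' := h72w_ser_coeff_nat w 0
    rw [Nat.cast_zero] at h'
    rw [← h', h]
  · rintro ⟨h1, h2⟩
    refine ⟨fun m hm => ?_, h2⟩
    rcases lt_or_eq_of_le hm with hm | rfl
    · exact h72w_ser_coeff_neg w hm
    · have h' := h72w_ser_coeff_nat w 0
      rw [Nat.cast_zero] at h'
      rw [h', h1]

/-- it suffices to check `S ⊆ Ω(V)` on a spanning set. -/
theorem h72w_ser_mem_of_gen (V : Submodule k (LaurentSeries k)) (G : Set (ℕ → k))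
    (hG : ∀ w ∈ G, h72wSer w ∈ h26gOmega V) :
    ∀ w ∈ Submodule.span k G, h72wSer w ∈ h26gOmega V := by
  intro w hw
  have h : Submodule.span k G ≤ (h26gOmega V).comap h72wSerLin := by
    rw [Submodule.span_le]
    intro x hx
    exact hG x hx
  exact h hw

/-- **MID, abstract core.**  `Ω(V)` finite-dimensional, `dim Ω(V) ≤ dim S`, `S ⊆ Ω(V)`:
then `Ω(V) = S` (as series). -/
theorem h72w_mid (V : Submodule k (LaurentSeries k)) (S : Submodule k (ℕ → k))
    (hfin : Module.Finite k (h26gOmega V))
    (hdim : Module.finrank k (h26gOmega V) ≤ Module.finrank k S)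
    (hS : ∀ w ∈ S, h72wSer w ∈ h26gOmega V) :
    S.map h72wSerLin = h26gOmega V := by
  have hle : S.map h72wSerLin ≤ h26gOmega V := by
    rintro t ⟨w, hw, rfl⟩
    exact hS w hw
  have heq : Module.finrank k (S.map h72wSerLin) = Module.finrank k S :=
    (LinearEquiv.finrank_eq (Submodule.equivMapOfInjective h72wSerLin h72w_ser_injective S)).symm
  exact Submodule.eq_of_le_of_finrank_le hle (by rw [heq]; exact hdim)

/-- **MID, abstract core, membership form.**  Every `t ∈ Ω(V)` has its coefficient sequence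
in `S`. -/
theorem h72w_mid_mem (V : Submodule k (LaurentSeries k)) (S : Submodule k (ℕ → k))
    (hfin : Module.Finite k (h26gOmega V))
    (hdim : Module.finrank k (h26gOmega V) ≤ Module.finrank k S)
    (hS : ∀ w ∈ S, h72wSer w ∈ h26gOmega V)
    {t : LaurentSeries k} (ht : t ∈ h26gOmega V) {ω : ℕ → k}
    (hω : ∀ n : ℕ, t.coeff (n : ℤ) = ω n) : ω ∈ S := by
  have h := h72w_mid V S hfin hdim hS
  rw [← h] at ht
  obtain ⟨w, hw, hwt⟩ := ht
  have h1 : w = ω := by
    funext n
    rw [← hω n, ← hwt, h72w_serLin_apply, h72w_ser_coeff_nat]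
  rw [← h1]
  exact hw

end Fermat.Agent.P7
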