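import Fermat.Agent.P7.H7CuspOrthDict
import Fermat.Agent.P7.H39DictBar

/-!
# Wave 7, DLOG leaf DL5 (CUSP-ORTH) over `ℚ̄`: final form (helper7, prefix `h7co_`)

`F₀ ∈ FF N` (the function field of `X₀(N)` over `ℚ̄`, inside `ℚ̄((q))`), regular at every place
of `FF N` other than the `q`-order place; `h` a weight two cusp form on `Γ₀(N)`.  Then the constant
term of `F₀ · h` vanishes (`h7co_cuspOrth_bar`, `h7co_cuspOrth_place`, sum form
`h7co_cuspOrth_sum`), and `F₀` has an analytic representative `A` with `H7coAn` (`h7co_an_bar`).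

Glue of `h7co_dict` / `h7co_cuspOrth_alg` (P7/H7CuspOrthDict) and of the adapter `h39b_adapter`
(helper39, P7/H39DictBar).
-/

set_option autoImplicit false

open ModularCurve AlgebraicCurve UpperHalfPlane CongruenceSubgroup
open scoped MatrixGroups Manifold

noncomputable section

namespace Fermat.Agent.P7

open Fermat.Agent.S24 (Kbar FF embC)
open Fermat.Agent.Jac

/-- `F₀` is regular at every place of `FF N` except the place `∞` of the `q`-expansion. -/
def H7coRegOffBar (N : ℕ) (F₀ : FF N) : Prop :=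
  ∀ w : Place Kbar (FF N),
    (∃ f : FF N, f ≠ 0 ∧ w.ord f ≠ ((f : FF N) : LaurentSeries Kbar).order) → 0 ≤ w.ord F₀

/-- regularity off a place `Q` whose order is the `q`-order. -/
theorem h7co_regOffBar_of_place {N : ℕ} {F₀ : FF N} (Q : Place Kbar (FF N))
    (hQ : ∀ f : FF N, f ≠ 0 → Q.ord f = ((f : FF N) : LaurentSeries Kbar).order)
    (hreg : ∀ w : Place Kbar (FF N), w ≠ Q → 0 ≤ w.ord F₀) : H7coRegOffBar N F₀ := by
  rintro w ⟨f, hf0, hf⟩
  apply hreg w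
  rintro rfl
  exact hf (hQ f hf0)

/-- the base change of a function regular off `∞` is regular off `∞`. -/
theorem h7co_regOff_bc {N : ℕ} [NeZero N] {F₀ : FF N} (hF₀ : H7coRegOffBar N F₀) :
    H7coRegOff N (h39bBC N F₀) :=
  h39b_adapter N F₀ (h39bBC N F₀) rfl hF₀

/-- **DICTIONARY over `ℚ̄`.** -/
theorem h7co_an_bar (N : ℕ) [NeZero N] (F₀ : FF N) (hF₀ : H7coRegOffBar N F₀) :
    ∃ A : ℍ → ℂ, H7coAn N (coeffMap embC (F₀ : LaurentSeries Kbar)) A := by
  obtain ⟨A, hA, -⟩ := h7co_dict N (h39bBC N F₀) (h7co_regOff_bc hF₀)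
  exact ⟨A, hA⟩

/-- **DL5 (CUSP-ORTH) over `ℚ̄`.** -/
theorem h7co_cuspOrth_bar (N : ℕ) [NeZero N] (h : CuspForm (Gamma0 N) 2) (F₀ : FF N)
    (hF₀ : H7coRegOffBar N F₀) :
    (coeffMap embC (F₀ : LaurentSeries Kbar)
      * HahnSeries.ofPowerSeries ℤ ℂ (qExpansion 1 h)).coeff 0 = 0 :=
  h7co_cuspOrth_alg N h (h39bBC N F₀) (h7co_regOff_bc hF₀)

/-- **DL5 (CUSP-ORTH) over `ℚ̄`**, with the place `∞` given. -/
theorem h7co_cuspOrth_place (N : ℕ) [NeZero N] (h : CuspForm (Gamma0 N) 2) (F₀ : FF N)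
    (Q : Place Kbar (FF N))
    (hQ : ∀ f : FF N, f ≠ 0 → Q.ord f = ((f : FF N) : LaurentSeries Kbar).order)
    (hreg : ∀ w : Place Kbar (FF N), w ≠ Q → 0 ≤ w.ord F₀) :
    (coeffMap embC (F₀ : LaurentSeries Kbar)
      * HahnSeries.ofPowerSeries ℤ ℂ (qExpansion 1 h)).coeff 0 = 0 :=
  h7co_cuspOrth_bar N h F₀ (h7co_regOffBar_of_place Q hQ hreg)

end Fermat.Agent.P7
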