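import Fermat.Agent.P7.H10IntQ
import Fermat.Agent.P7.H24IntQForm
import Fermat.Agent.P7.H3IntQLat
import Fermat.Agent.P7.H7CuspOrthBar
import Fermat.Agent.P7.H72DlogMid
import Fermat.Agent.P7.H10LatticeCusp
import Fermat.Agent.Red.GV.SoftGal

/-!
# Wave 7, block (A), DLOG: INT-Q (unconditional) and CUSP-ORTH-RED (helper10, prefix `h10x_`)

* `h10x_intQ_final` : a Gauss-integral function of level `M` (ANY level), regular off the
  `q`-place, has a `q`-expansion with coefficients in `A`, and `softR f` is its coefficientwise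
  reduction (leaves: `h24q_form` helper24, `h3q_lat` helper3).
* `h10x_cuspOrthRed_soft` / `h10x_cuspOrthRed_gauss` : **CUSP-ORTH-RED**, for such `f` and a cusp
  form `h` of weight 2 and level `M` with integral `q`-coefficients `c`:
  `a₀(red f · ∑ c̄ₙ qⁿ) = 0`.
(`h10x_hcusp`, the hypothesis `hcusp` of helper72's `h72w_theta_zero` for helper37's
`V = h37nLL M A Q`, is in `P7/H10CuspOrthHcusp.lean`.)
-/

set_option autoImplicit false
set_option linter.style.haveILetI false
set_option linter.unusedSectionVars false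

open ModularCurve AlgebraicCurve UpperHalfPlane CongruenceSubgroup ModularFormClass
open scoped MatrixGroups Manifold

noncomputable section

namespace Fermat.Agent.P7

open Fermat.Agent.S24 (Kbar FF embC)
open Fermat.Agent.Red.GV (embA redA gaussV gaussR)
open Fermat.Agent.Red.GV.Soft

/-- **INT-Q** (unconditional). -/
theorem h10x_intQ_final (A : ValuationSubring Kbar) (p : ℕ)
    [Fact p.Prime] [CharP (IsLocalRing.ResidueField A) p] (M : ℕ) [NeZero M] (f : FF M)
    (hreg : H10xRegOff M f) (hf : f ∈ softV A M) :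
    ∃ y : LaurentSeries A, embA A y = (f : LaurentSeries Kbar) ∧
      softR A M ⟨f, hf⟩ = redA (IsLocalRing.residue A) y :=
  h10x_softR h24q_form h3q_lat A p M f hreg hf

/-- **INT-Q, scaled form** (unconditional). -/
theorem h10x_intQ_scaled_final (A : ValuationSubring Kbar) (p : ℕ)
    [Fact p.Prime] [CharP (IsLocalRing.ResidueField A) p] (M : ℕ) [NeZero M] (f : FF M)
    (hreg : H10xRegOff M f) (hf0 : f ≠ 0) :
    ∃ t : Kbar, t ≠ 0 ∧ ∃ y : LaurentSeries A,
      embA A y = HahnSeries.C t * (f : LaurentSeries Kbar) ∧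
      redA (IsLocalRing.residue A) y ≠ 0 :=
  h10x_intQ_scaled h24q_form h3q_lat A p M f hreg hf0

/-- **CUSP-ORTH-RED**, integral series form. -/
theorem h10x_cuspOrthRed_series (A : ValuationSubring Kbar) (M : ℕ) [NeZero M] (f : FF M)
    (hreg : H10xRegOff M f) (y : LaurentSeries A) (hy : embA A y = (f : LaurentSeries Kbar))
    (h : CuspForm (Gamma0 M) 2) (c : ℕ → ℤ) (hc : ∀ n, qCoeff ⇑h n = ((c n : ℤ) : ℂ)) :
    (redA (IsLocalRing.residue A) y *
      h72wSer (fun n => ((c n : ℤ) : IsLocalRing.ResidueField A))).coeff 0 = 0 := by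
  set sA : LaurentSeries A :=
    HahnSeries.ofPowerSeries ℤ A (PowerSeries.mk fun n => ((c n : ℤ) : A)) with hsA
  have h1 : redA (IsLocalRing.residue A) sA =
      h72wSer (fun n => ((c n : ℤ) : IsLocalRing.ResidueField A)) := by
    unfold h72wSer
    rw [hsA, redA, coeffMap_ofPowerSeries]
    congr 1
  have h2 : coeffMap embC (embA A sA) = HahnSeries.ofPowerSeries ℤ ℂ (qExpansion 1 h) := by
    rw [hsA, embA, coeffMap_ofPowerSeries, coeffMap_ofPowerSeries]
    congr 1
    ext n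
    rw [PowerSeries.coeff_map, PowerSeries.coeff_map, PowerSeries.coeff_mk]
    have := hc n
    rw [ModularFormClass.qCoeff] at this
    rw [this]
    simp
  have h3 := h7co_cuspOrth_bar M h f hreg
  rw [← hy, ← h2, ← map_mul, ← map_mul, coeffMap_coeff, embA, coeffMap_coeff] at h3
  have h4 : (y * sA).coeff 0 = 0 := by
    have h5 := (map_eq_zero embC).mp h3
    exact Subtype.ext h5
  rw [← h1, ← map_mul, redA, coeffMap_coeff, h4, map_zero]

/-- **CUSP-ORTH-RED** (`softV` form, ANY level `M`). -/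
theorem h10x_cuspOrthRed_soft (A : ValuationSubring Kbar) (p : ℕ)
    [Fact p.Prime] [CharP (IsLocalRing.ResidueField A) p] (M : ℕ) [NeZero M] (f : FF M)
    (hreg : H10xRegOff M f) (hf : f ∈ softV A M)
    (h : CuspForm (Gamma0 M) 2) (c : ℕ → ℤ) (hc : ∀ n, qCoeff ⇑h n = ((c n : ℤ) : ℂ)) :
    (softR A M ⟨f, hf⟩ *
      h72wSer (fun n => ((c n : ℤ) : IsLocalRing.ResidueField A))).coeff 0 = 0 := by
  obtain ⟨y, hy, hR⟩ := h10x_intQ_final A p M f hreg hf
  rw [hR]
  exact h10x_cuspOrthRed_series A M f hreg y hy h c hc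

/-- **CUSP-ORTH-RED** (`gaussV` form, level `M` prime to `ℓ`). -/
theorem h10x_cuspOrthRed_gauss {ℓ : ℕ} (hℓ : ℓ.Prime) (A : ValuationSubring Kbar)
    (hA : A.LiesOverPrime ℓ) (M : ℕ) [NeZero M] (hM : ¬ ℓ ∣ M) (f : FF M)
    (hreg : H10xRegOff M f) (hf : f ∈ gaussV A M)
    (h : CuspForm (Gamma0 M) 2) (c : ℕ → ℤ) (hc : ∀ n, qCoeff ⇑h n = ((c n : ℤ) : ℂ)) :
    (gaussR A M ⟨f, hf⟩ *
      h72wSer (fun n => ((c n : ℤ) : IsLocalRing.ResidueField A))).coeff 0 = 0 := by
  haveI : Fact ℓ.Prime := ⟨hℓ⟩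
  haveI : CharP (IsLocalRing.ResidueField A) ℓ := h10x_charP A hℓ hA
  have hf' : f ∈ softV A M := by
    rw [softV_eq_gaussV A M hℓ hM hA]
    exact hf
  rw [← softR_eq_gaussR A M f hf' hf]
  exact h10x_cuspOrthRed_soft A ℓ M f hreg hf' h c hc

end Fermat.Agent.P7
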