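import Mathlib

/-!
# Wave 7, block (A) by DLOG, GENUS-LINK leaf (K2): abstract Galois descent of a
finite-dimensional space of coefficient sequences (helper10, prefix `h10w_`)

`L` a field, `U` a finite-dimensional `L`-subspace of the sequences `ι → L`, stable under the
coefficientwise action of a set `S` of ring automorphisms of `L`.  Then `U` has a basis whose
members have all their coefficients fixed by every `σ ∈ S`.

Proof: there are `d = dim U` coordinates on which `U` injects (`h10w_coords`, induction on the
dimension); the coordinate map `U → L ^ d` is then bijective and the preimages of the standard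
basis vectors are fixed by every `σ`, because `σ` fixes `0` and `1`.

Mathlib only.
-/

set_option autoImplicit false
set_option linter.style.haveILetI false
set_option linter.unusedSectionVars false

namespace Fermat.Agent.P7

section Coords

variable {L : Type*} [Field L] {ι : Type*}

/-- a subspace of dimension `d` of the sequences injects into `L ^ d` by `d` coordinates. -/
theorem h10w_coords : ∀ (d : ℕ) (U : Submodule L (ι → L)) [FiniteDimensional L U],
    Module.finrank L U = d →
      ∃ c : Fin d → ι, ∀ u ∈ U, (∀ k, u (c k) = 0) → u = 0 := by
  intro d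
  induction d with
  | zero =>
    intro U _ hU
    refine ⟨Fin.elim0, fun u hu _ => ?_⟩
    have h1 : U = ⊥ := Submodule.finrank_eq_zero.mp hU
    rw [h1] at hu
    exact (Submodule.mem_bot L).mp hu
  | succ d ih =>
    intro U _ hU
    -- a nonzero element and a coordinate where it does not vanish
    have hne : U ≠ ⊥ := by
      intro h
      rw [h, finrank_bot] at hU
      exact Nat.succ_ne_zero d hU.symm
    obtain ⟨u0, hu0, hu0ne⟩ := (Submodule.ne_bot_iff U).mp hne
    have hex : ∃ i0, u0 i0 ≠ 0 := by
      by_contra h
      exact hu0ne (funext fun i => by_contra fun hi => h ⟨i, hi⟩)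
    obtain ⟨i0, hi0⟩ := hex
    -- the evaluation at `i0` on `U`
    set ev : U →ₗ[L] L := (LinearMap.proj i0).comp U.subtype with hev
    have hev_apply : ∀ u : U, ev u = (u : ι → L) i0 := fun u => rfl
    have hsurj : Function.Surjective ev := by
      intro a
      refine ⟨(a * (u0 i0)⁻¹) • ⟨u0, hu0⟩, ?_⟩
      rw [map_smul, hev_apply, smul_eq_mul, mul_assoc, inv_mul_cancel₀ hi0, mul_one]
    have hrk := LinearMap.finrank_range_add_finrank_ker ev
    rw [LinearMap.range_eq_top.mpr hsurj, finrank_top, Module.finrank_self, hU] at hrk
    have hker : Module.finrank L (LinearMap.ker ev) = d := by omega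
    -- the subspace `U'` of the elements vanishing at `i0`
    set U' : Submodule L (ι → L) := (LinearMap.ker ev).map U.subtype with hU'
    have hfin' : Module.finrank L U' = d := by
      rw [hU', ← hker]
      exact (Submodule.equivMapOfInjective U.subtype U.injective_subtype
        (LinearMap.ker ev)).finrank_eq.symm
    haveI : FiniteDimensional L U' := by
      rw [hU']
      infer_instance
    obtain ⟨c', hc'⟩ := ih U' hfin'
    refine ⟨Fin.cons i0 c', fun u hu hz => ?_⟩
    have h0 : u i0 = 0 := by
      have := hz 0
      simpa using this
    have huU' : u ∈ U' := by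
      rw [hU']
      exact ⟨⟨u, hu⟩, by rw [SetLike.mem_coe, LinearMap.mem_ker, hev_apply]; exact h0, rfl⟩
    refine hc' u huU' fun k => ?_
    have := hz k.succ
    simpa using this

end Coords

section Descent

variable {L : Type*} [Field L] {ι : Type*}

/-- **abstract Galois descent.**  A finite-dimensional space of sequences, stable under the
coefficientwise action of the automorphisms in `S`, has a basis of sequences with coefficients
fixed by every `σ ∈ S`. -/
theorem h10w_descent (U : Submodule L (ι → L)) [FiniteDimensional L U] (S : Set (L ≃+* L))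
    (hS : ∀ σ ∈ S, ∀ u ∈ U, (fun i => σ (u i)) ∈ U) :
    ∃ b : Fin (Module.finrank L U) → (ι → L),
      (∀ k, b k ∈ U) ∧ LinearIndependent L b ∧ ∀ σ ∈ S, ∀ k i, σ (b k i) = b k i := by
  classical
  obtain ⟨c, hc⟩ := h10w_coords (Module.finrank L U) U rfl
  -- the coordinate map
  set Φ : U →ₗ[L] (Fin (Module.finrank L U) → L) :=
    LinearMap.pi fun k => (LinearMap.proj (c k)).comp U.subtype with hΦ
  have hΦ_apply : ∀ (u : U) k, Φ u k = (u : ι → L) (c k) := fun u k => rfl
  have hinj : Function.Injective Φ := by
    rw [← LinearMap.ker_eq_bot, LinearMap.ker_eq_bot']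
    intro u hu
    apply Subtype.ext
    refine hc u u.2 fun k => ?_
    have := congrFun hu k
    simpa [hΦ_apply] using this
  have hdim : Module.finrank L U = Module.finrank L (Fin (Module.finrank L U) → L) := by
    rw [Module.finrank_fin_fun]
  have hsurj : Function.Surjective Φ :=
    (LinearMap.injective_iff_surjective_of_finrank_eq_finrank hdim).mp hinj
  -- the dual basis
  have hex : ∀ k, ∃ u : U, Φ u = Pi.single k 1 := fun k => hsurj _
  choose b hb using hex
  refine ⟨fun k => (b k : ι → L), fun k => (b k).2, ?_, ?_⟩
  · -- linear independence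
    have h1 : LinearIndependent L (fun k => Φ (b k)) := by
      have h2 : (fun k => Φ (b k)) = ⇑(Pi.basisFun L (Fin (Module.finrank L U))) := by
        funext k
        rw [hb, Pi.basisFun_apply]
      rw [h2]
      exact (Pi.basisFun L (Fin (Module.finrank L U))).linearIndependent
    have h3 : LinearIndependent L b := LinearIndependent.of_comp Φ h1
    exact h3.map' U.subtype (LinearMap.ker_eq_bot.mpr U.injective_subtype)
  · intro σ hσ k i
    have hmem : (fun i => σ ((b k : ι → L) i)) ∈ U := hS σ hσ _ (b k).2
    have hΦσ : Φ ⟨_, hmem⟩ = Φ (b k) := by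
      funext l
      rw [hΦ_apply, hb k]
      show σ ((b k : ι → L) (c l)) = _
      rw [← hΦ_apply, hb k]
      by_cases hkl : l = k
      · subst hkl
        simp
      · simp [Pi.single_eq_of_ne hkl]
    have := congrArg (fun u : U => (u : ι → L) i) (hinj hΦσ)
    exact this

end Descent

end Fermat.Agent.P7
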