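import Fermat.Agent.P5.H40RRInst
import Fermat.Agent.P5.H68RRLarge
import Fermat.Agent.P5.H68RRFin
import Fermat.Agent.S24.DegLe
import Fermat.Prelude.Def_FLTPrelim_Modularity

/-!
# Wave 7, route DLOG, leaf GENUS-MATCH (helper28): the weak genus is at most `dim S₂`

The P5 weak genus `g` of `FF M` (`H13rIsGenus Kbar (FF M) g`, Riemann's theorem without duality)
is bounded by `dim S₂(Γ₀(M))`.  This is the missing link between the algebraic curve and the
cusp forms (the tree has no Riemann–Roch duality).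

Frozen leaves (every one a `Prop`; nothing is assumed):

* `H28gCount` (GM1, analytic Dedekind–Weber, `S21/E`): there is `G ≤ dim S₂(Γ₀(M))` with
  `n μ + 1 - G ≤ dim M_{12 n}(Γ₀(M))` for all large `n` (`μ` the index).
* `H28gRat` (GM2, Galois descent, `S23`): `M_k(Γ₀(M))` has a basis with rational `q`-expansions.
* `H28gAlg` (GM3, `Jac` dictionary): linearly independent forms of weight `12 n` with rational
  `q`-expansions give (dividing by `Δ ^ n`) `ℚ̄`-linearly independent elements of `L(n (j)_∞)`.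

Assembly (proved here): `h28g_genus_le`.
-/

set_option autoImplicit false
set_option linter.unusedSectionVars false
set_option linter.style.haveILetI false

open AlgebraicCurve ModularCurve CongruenceSubgroup IntermediateField

noncomputable section

namespace Fermat.Agent.P7

open Fermat.Agent.S37 Fermat.Agent.P5

/-- **GM1** (analytic count): there is `G ≤ dim S₂(Γ₀(M))` such that
`n μ + 1 ≤ dim M_{12 n}(Γ₀(M)) + G` for all large `n`. -/
def H28gCount : Prop :=
  ∀ (M : ℕ) [NeZero M], ∃ G n₀ : ℕ,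
    G ≤ Module.finrank ℂ (CuspForm (Gamma0 M) 2) ∧
    ∀ n : ℕ, n₀ ≤ n →
      n * (Gamma0 M).index + 1 ≤
        Module.finrank ℂ (ModularForm (Gamma0 M) (12 * (n : ℤ))) + G

/-- **GM2** (rational structure): `M_k(Γ₀(M))` has a basis with rational `q`-expansions. -/
def H28gRat : Prop :=
  ∀ (M : ℕ) [NeZero M] (k : ℤ),
    ∃ h : Fin (Module.finrank ℂ (ModularForm (Gamma0 M) k)) → ModularForm (Gamma0 M) k,
      LinearIndependent ℂ h ∧
      ∀ i (m : ℕ), ∃ r : ℚ, ModularFormClass.qCoeff (⇑(h i)) m = (r : ℂ)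

/-- **GM3** (algebraicity): linearly independent modular forms of weight `12 n` with rational
`q`-expansions give `ℚ̄`-linearly independent functions `y_i = h_i / Δ ^ n` in `L(n (j)_∞)`. -/
def H28gAlg : Prop :=
  ∀ (M : ℕ) [NeZero M] (n d : ℕ) (h : Fin d → ModularForm (Gamma0 M) (12 * (n : ℤ))),
    LinearIndependent ℂ h →
    (∀ i (m : ℕ), ∃ r : ℚ, ModularFormClass.qCoeff (⇑(h i)) m = (r : ℂ)) →
    ∃ y : Fin d → FF M, LinearIndependent Kbar y ∧
      ∀ i, ∀ v : Place Kbar (FF M), (n : ℤ) * min 0 (v.ord (jB M)) ≤ v.ord (y i)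

/-- **GENUS-MATCH, assembly**: the weak genus of `FF M` is at most `dim S₂(Γ₀(M))`. -/
theorem h28g_genus_le (hC : H28gCount) (hR : H28gRat) (hA : H28gAlg) (M : ℕ) [NeZero M]
    (g : ℕ) (hg : H13rIsGenus Kbar (FF M) g) :
    g ≤ Module.finrank ℂ (CuspForm (Gamma0 M) 2) := by
  classical
  obtain ⟨G, n₀, hG, hcount⟩ := hC M
  have hB : H13rBase Kbar (FF M) := h40r_base_FF M
  obtain ⟨⟨c, hc⟩, -⟩ := h68r_large Kbar (FF M) hB g hg
  obtain ⟨s, hs, hsum⟩ := h40r_zeros_FF M (jB M)⁻¹ (Or.inr rfl)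
  obtain ⟨hfd, hδμ⟩ := Fermat.Agent.S24.finrank_le_index M
  haveI := hfd
  have hδ1 : 0 < Module.finrank Kbar⟮jB M⟯ (FF M) := Module.finrank_pos
  set δ : ℕ := Module.finrank Kbar⟮jB M⟯ (FF M) with hδ
  -- the pole divisor of `j`
  let P : Divisor Kbar (FF M) := ∑ v ∈ s, Finsupp.single v (v.ord (jB M)⁻¹)
  have hPv : ∀ v : Place Kbar (FF M), P v = max 0 (v.ord (jB M)⁻¹) := by
    intro v
    show (∑ w ∈ s, Finsupp.single w (w.ord (jB M)⁻¹)) v = _
    rw [Finsupp.finsetSum_apply]
    by_cases hv : v ∈ s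
    · rw [Finset.sum_eq_single_of_mem v hv (fun w _ hw => Finsupp.single_eq_of_ne' hw),
        Finsupp.single_eq_same, max_eq_right ((hs v).1 hv).le]
    · rw [Finset.sum_eq_zero (fun w hw => Finsupp.single_eq_of_ne'
        (fun h : w = v => hv (by rw [← h]; exact hw)))]
      have : ¬ 0 < v.ord (jB M)⁻¹ := fun h => hv ((hs v).2 h)
      rw [max_eq_left (not_lt.mp this)]
  have hdegP : Divisor.degree P = (δ : ℤ) := by
    show Divisor.degree (∑ v ∈ s, Finsupp.single v (v.ord (jB M)⁻¹)) = _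
    rw [map_sum, ← hsum]
    refine Finset.sum_congr rfl (fun v _ => ?_)
    rw [Divisor.degree_single, hB.deg_one v, Nat.cast_one, mul_one]
  -- the level `n`
  set n : ℕ := max n₀ c.toNat with hn
  have hn0 : n₀ ≤ n := le_max_left _ _
  have hnc : c ≤ (n : ℤ) := by
    have h1 : c ≤ (c.toNat : ℤ) := Int.self_le_toNat c
    have h2 : (c.toNat : ℤ) ≤ (n : ℤ) := by exact_mod_cast le_max_right n₀ c.toNat
    exact h1.trans h2
  have hdegD : Divisor.degree (n • P) = (n : ℤ) * δ := by
    rw [map_nsmul, hdegP, nsmul_eq_mul]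
  have hcD : c ≤ Divisor.degree (n • P) := by
    rw [hdegD]
    have h1 : (n : ℤ) * 1 ≤ (n : ℤ) * δ :=
      mul_le_mul_of_nonneg_left (by exact_mod_cast hδ1) (Int.natCast_nonneg n)
    rw [mul_one] at h1
    exact hnc.trans h1
  have hlarge := hc (n • P) hcD
  rw [hdegD] at hlarge
  -- the functions
  obtain ⟨h, hli, hrat⟩ := hR M (12 * (n : ℤ))
  obtain ⟨y, hyli, hyord⟩ := hA M n _ h hli hrat
  have hmem : ∀ i, y i ∈ riemannRochSpace (n • P) := by
    intro i
    rw [mem_riemannRochSpace_iff]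
    intro v
    right
    have h1 := hyord i v
    have h2 : (n • P) v = (n : ℤ) * max 0 (v.ord (jB M)⁻¹) := by
      rw [Finsupp.smul_apply, hPv, nsmul_eq_mul]
    rw [h2, v.ord_inv]
    have h3 : -((n : ℤ) * max 0 (-v.ord (jB M))) = (n : ℤ) * min 0 (v.ord (jB M)) := by
      rcases le_total 0 (v.ord (jB M)) with h | h
      · rw [min_eq_left h, max_eq_left (by linarith)]
        ring
      · rw [min_eq_right h, max_eq_right (by linarith)]
        ring
    rw [h3]
    exact h1
  haveI : Module.Finite Kbar ↥(riemannRochSpace (n • P)) := h68r_finite hB _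
  have hle : Module.finrank ℂ (ModularForm (Gamma0 M) (12 * (n : ℤ))) ≤
      h13rL Kbar (FF M) (n • P) := by
    let y' : Fin (Module.finrank ℂ (ModularForm (Gamma0 M) (12 * (n : ℤ)))) →
        ↥(riemannRochSpace (n • P)) := fun i => ⟨y i, hmem i⟩
    have hli' : LinearIndependent Kbar y' := by
      refine LinearIndependent.of_comp (riemannRochSpace (n • P)).subtype ?_
      exact hyli
    have := hli'.fintype_card_le_finrank
    rw [Fintype.card_fin] at this
    exact this
  have hcnt := hcount n hn0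
  -- arithmetic
  have h1 : ((Module.finrank ℂ (ModularForm (Gamma0 M) (12 * (n : ℤ))) : ℕ) : ℤ) ≤
      (h13rL Kbar (FF M) (n • P) : ℤ) := by exact_mod_cast hle
  have h2 : ((n * (Gamma0 M).index + 1 : ℕ) : ℤ) ≤
      ((Module.finrank ℂ (ModularForm (Gamma0 M) (12 * (n : ℤ))) + G : ℕ) : ℤ) := by
    exact_mod_cast hcnt
  have h3 : (n : ℤ) * δ ≤ (n : ℤ) * ((Gamma0 M).index : ℤ) :=
    mul_le_mul_of_nonneg_left (by exact_mod_cast hδμ) (Int.natCast_nonneg n)
  push_cast at h2
  have h4 : (g : ℤ) ≤ (G : ℤ) := by linarith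
  have h5 : g ≤ G := by exact_mod_cast h4
  exact h5.trans hG

end Fermat.Agent.P7
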