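import Fermat.Agent.P7.H10RatBasis
import Fermat.Agent.P7.H28GenusMatch

/-!
# Wave 7, route DLOG, GENUS-MATCH leaf GM2 in the frozen shape `H28gRat` (helper10)

`h10w_gRat : H28gRat` : `M_k(Γ₀(M))` has a basis (indexed by `Fin (finrank …)`) of forms with
rational `q`-expansions.  Unconditional (from `h10w_ratBasis`).
-/

set_option autoImplicit false
set_option linter.style.haveILetI false
set_option linter.unusedSectionVars false

open UpperHalfPlane CongruenceSubgroup
open scoped MatrixGroups

noncomputable section

namespace Fermat.Agent.P7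

open Fermat.Agent.S23

/-- **GM2**, frozen shape of `P7/H28GenusMatch.lean`. -/
theorem h10w_gRat : H28gRat := by
  intro M _ k
  obtain ⟨r, b, hr, hli, -, hrat⟩ := h10w_ratBasis M k
  subst hr
  refine ⟨b, hli, fun i m => ?_⟩
  obtain ⟨q, hq⟩ := hrat i m
  exact ⟨q, hq⟩

end Fermat.Agent.P7
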