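import Mathlib

/-!
# Wave 7, block (A), DLOG, INT-Q leaf (Q3): scaling (helper10, prefix `h10x_`; Mathlib only)

`A` a valuation subring of a field `K`, `ι : K →+* L` a field extension, `c i` integer sequences
whose reductions to the residue field of `A` are linearly independent.  If a sequence `G` over
`K` is, after `ι`, an `L`-linear combination of the `c i`, then a nonzero `K`-multiple of `G` has
all its terms in `A` and a nonzero reduction.
-/

set_option autoImplicit false
set_option linter.style.haveILetI false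

noncomputable section

namespace Fermat.Agent.P7

/-- a sequence over `K` which is an `L`-combination of integer sequences is a `K`-combination of
them. -/
theorem h10x_descend {K : Type*} [Field K] {L : Type*} [Field L] (ι : K →+* L)
    {r : ℕ} (c : Fin r → ℕ → ℤ) (G : ℕ → K) (α : Fin r → L)
    (hG : ∀ n, ι (G n) = ∑ i, α i * ((c i n : ℤ) : L)) :
    ∃ β : Fin r → K, ∀ n, G n = ∑ i, β i * ((c i n : ℤ) : K) := by
  letI : Algebra K L := ι.toAlgebra
  have hinj : Function.Injective (Algebra.linearMap K L) := by
    intro x y h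
    exact ι.injective h
  obtain ⟨ρ, hρ⟩ := LinearMap.exists_leftInverse_of_injective (Algebra.linearMap K L)
    (LinearMap.ker_eq_bot.mpr hinj)
  have hρ' : ∀ x : K, ρ (ι x) = x := fun x => by
    have := congrArg (fun f => f x) hρ
    simp only [LinearMap.comp_apply, Algebra.linearMap_apply, LinearMap.id_apply] at this
    exact this
  refine ⟨fun i => ρ (α i), fun n => ?_⟩
  rw [← hρ' (G n), hG n, map_sum]
  refine Finset.sum_congr rfl fun i _ => ?_
  have h1 : α i * ((c i n : ℤ) : L) = ((c i n : ℤ) : K) • α i := by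
    rw [Algebra.smul_def, mul_comm]
    congr 1
    exact (map_intCast (algebraMap K L) (c i n)).symm
  rw [h1, map_smul, smul_eq_mul, mul_comm]

/-- **(Q3), scaling.** -/
theorem h10x_scale {K : Type*} [Field K] (A : ValuationSubring K) {L : Type*} [Field L]
    (ι : K →+* L) {r : ℕ} (c : Fin r → ℕ → ℤ)
    (hli : LinearIndependent (IsLocalRing.ResidueField A)
      (fun i => fun n => ((c i n : ℤ) : IsLocalRing.ResidueField A)))
    (G : ℕ → K) (α : Fin r → L) (hG : ∀ n, ι (G n) = ∑ i, α i * ((c i n : ℤ) : L))
    (hG0 : G ≠ 0) :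
    ∃ t : K, t ≠ 0 ∧ ∃ y : ℕ → A, (∀ n, ((y n : A) : K) = t * G n) ∧
      ∃ n, IsLocalRing.residue A (y n) ≠ 0 := by
  classical
  obtain ⟨β, hβ⟩ := h10x_descend ι c G α hG
  -- some `β i` is nonzero
  have hne : ∃ j, β j ≠ 0 := by
    by_contra hcon
    have hcon' : ∀ j, β j = 0 := fun j => by
      by_contra h
      exact hcon ⟨j, h⟩
    apply hG0
    funext n
    rw [hβ n]
    simp [hcon']
  obtain ⟨j, hj⟩ := hne
  obtain ⟨i₀, -, hmax⟩ := Finset.exists_max_image Finset.univ (fun i => A.valuation (β i))
    ⟨j, Finset.mem_univ j⟩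
  have hi₀ : β i₀ ≠ 0 := by
    intro h0
    have h1 := hmax j (Finset.mem_univ j)
    rw [h0, map_zero] at h1
    exact hj ((map_eq_zero A.valuation).mp (le_antisymm h1 zero_le'))
  have hγ : ∀ i, β i / β i₀ ∈ A := by
    intro i
    rw [← ValuationSubring.valuation_le_one_iff, map_div₀]
    have hv : A.valuation (β i₀) ≠ 0 := (map_ne_zero A.valuation).mpr hi₀
    exact (div_le_one₀ (zero_lt_iff.mpr hv)).mpr (hmax i (Finset.mem_univ i))
  set γ : Fin r → A := fun i => ⟨β i / β i₀, hγ i⟩ with hγdef
  refine ⟨(β i₀)⁻¹, inv_ne_zero hi₀, fun n => ∑ i, γ i * ((c i n : ℤ) : A), fun n => ?_, ?_⟩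
  · rw [hβ n, Finset.mul_sum]
    push_cast
    refine Finset.sum_congr rfl fun i _ => ?_
    simp only [hγdef]
    field_simp
  · by_contra hcon
    have hall : ∀ n, IsLocalRing.residue A (∑ i, γ i * ((c i n : ℤ) : A)) = 0 := fun n => by
      by_contra h
      exact hcon ⟨n, h⟩
    have hsum : ∑ i, IsLocalRing.residue A (γ i) •
        (fun n => ((c i n : ℤ) : IsLocalRing.ResidueField A)) = 0 := by
      funext n
      have := hall n
      rw [map_sum] at this
      rw [Finset.sum_apply, Pi.zero_apply, ← this]
      refine Finset.sum_congr rfl fun i _ => ?_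
      rw [Pi.smul_apply, smul_eq_mul, map_mul, map_intCast]
    have h0 := (Fintype.linearIndependent_iff.mp hli) _ hsum i₀
    have h1 : γ i₀ = 1 := by
      apply Subtype.ext
      simp only [hγdef]
      exact div_self hi₀
    rw [h1, map_one] at h0
    exact one_ne_zero h0

end Fermat.Agent.P7
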