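import Fermat.Agent.P7.H10IntQIface
import Fermat.Agent.P7.H10IntQScale
import Fermat.Agent.S28.H52Formal
import Fermat.Agent.Red.GV.Bar

/-!
# Wave 7, block (A), DLOG: INT-Q, assembly (helper10, prefix `h10x_`)

From the frozen leaves `H10xForm` (Q1) and `H10xLat` (Q2) of `P7/H10IntQIface.lean`:

* `h10x_intQ_scaled` : a nonzero `f ∈ FF M` regular off the `q`-place has a nonzero constant
  multiple `t f` whose `q`-expansion has coefficients in `A` and nonzero reduction;
* `h10x_intQ` : if moreover `f ∈ softV A M`, the `q`-expansion of `f` itself has coefficients in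
  `A` (and `softR f` is its coefficientwise reduction, `h10x_softR`).
-/

set_option autoImplicit false
set_option linter.style.haveILetI false
set_option linter.unusedSectionVars false

open ModularCurve AlgebraicCurve UpperHalfPlane CongruenceSubgroup ModularFormClass
open scoped MatrixGroups Manifold

noncomputable section

namespace Fermat.Agent.P7

open Fermat.Agent.S28 (cEmb h52_IntMonic h52_intMonic_deltaSeries)
open Fermat.Agent.S24 (Kbar FF embC)
open Fermat.Agent.S23 (G0)
open Fermat.Agent.Red.GV (embA redA)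
open Fermat.Agent.Red.GV.Soft

/-- `Δ(q) ^ (-n)` has integral coefficients and a nonzero reduction. -/
theorem h10x_delta_inv (A : ValuationSubring Kbar) (n : ℕ) :
    ∃ D : LaurentSeries A, embA A D = (coeffEmb Kbar deltaSeries)⁻¹ ^ n ∧
      redA (IsLocalRing.residue A) D ≠ 0 := by
  obtain ⟨P, hP, hs⟩ := (h52_intMonic_deltaSeries.inv.pow n)
  refine ⟨HahnSeries.single ((n : ℤ) * -1) (1 : A) *
    HahnSeries.ofPowerSeries ℤ A (P.map (Int.castRingHom A)), ?_, ?_⟩
  · have e1 : (coeffEmb Kbar deltaSeries)⁻¹ ^ n = coeffEmb Kbar (deltaSeries⁻¹ ^ n) := by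
      rw [map_pow, map_inv₀]
    have e2 : (A.subtype : A →+* Kbar) 1 = 1 := map_one _
    have e3 : (algebraMap ℚ Kbar) 1 = 1 := map_one _
    have e4 : (P.map (Int.castRingHom A)).map A.subtype =
        (P.map (Int.castRingHom ℚ)).map (algebraMap ℚ Kbar) := by
      ext m
      simp
    rw [e1, hs, embA, map_mul, coeffMap_single, coeffMap_ofPowerSeries, e2, coeffEmb, map_mul,
      coeffMap_single, coeffMap_ofPowerSeries, e3, e4]
  · have e2 : (IsLocalRing.residue A) 1 = 1 := map_one _
    rw [redA, map_mul, coeffMap_single, coeffMap_ofPowerSeries, e2]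
    refine mul_ne_zero (HahnSeries.single_ne_zero one_ne_zero) ?_
    intro h0
    have h1 : (P.map (Int.castRingHom A)).map (IsLocalRing.residue A) = 0 :=
      HahnSeries.ofPowerSeries_injective (h0.trans (map_zero _).symm)
    have h2 := congrArg (PowerSeries.constantCoeff) h1
    rw [← PowerSeries.coeff_zero_eq_constantCoeff, PowerSeries.coeff_map, PowerSeries.coeff_map,
      PowerSeries.coeff_zero_eq_constantCoeff, hP] at h2
    simp at h2

/-- **INT-Q, scaled form.**  A nonzero function regular off the `q`-place has a nonzero constant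
multiple whose `q`-expansion has coefficients in `A` and a nonzero reduction. -/
theorem h10x_intQ_scaled (hF : H10xForm) (hL : H10xLat) (A : ValuationSubring Kbar) (p : ℕ)
    [Fact p.Prime] [CharP (IsLocalRing.ResidueField A) p] (M : ℕ) [NeZero M] (f : FF M)
    (hreg : H10xRegOff M f) (hf0 : f ≠ 0) :
    ∃ t : Kbar, t ≠ 0 ∧ ∃ y : LaurentSeries A,
      embA A y = HahnSeries.C t * (f : LaurentSeries Kbar) ∧
      redA (IsLocalRing.residue A) y ≠ 0 := by
  classical
  have hfK0 : (f : LaurentSeries Kbar) ≠ 0 := fun h => hf0 (Subtype.ext h)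
  set n : ℕ := (-((f : LaurentSeries Kbar).order)).toNat with hn_def
  have hn : -(n : ℤ) ≤ (f : LaurentSeries Kbar).order := by
    have := Int.self_le_toNat (-((f : LaurentSeries Kbar).order))
    rw [← hn_def] at this
    linarith
  obtain ⟨ω, hω⟩ := hF M n f hreg hn
  obtain ⟨r, h, c, hc, hli, -, hK⟩ := h10w_core (h10xQM M (12 * (n : ℤ))) (hL M _).1 p
    (IsLocalRing.ResidueField A)
  rw [(hL M _).2] at hK
  have hωmem : ω ∈ Submodule.span ℂ (Set.range h) := by
    rw [hK]
    trivial
  obtain ⟨α, hα⟩ := (Submodule.mem_span_range_iff_exists_fun ℂ).mp hωmem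
  have hδ0 : coeffEmb Kbar deltaSeries ≠ 0 :=
    (map_ne_zero (coeffEmb Kbar)).mpr deltaSeries_ne_zero
  set g : LaurentSeries Kbar := coeffEmb Kbar deltaSeries ^ n * (f : LaurentSeries Kbar)
    with hg_def
  have hg0 : g ≠ 0 := mul_ne_zero (pow_ne_zero n hδ0) hfK0
  have hgC : coeffMap embC g = HahnSeries.ofPowerSeries ℤ ℂ (qExpansion 1 ω) := by
    rw [hω, hg_def, map_mul, map_pow, ← Fermat.Agent.Jac.h49_coeffEmb_eq]
    rfl
  have hcoef : ∀ k : ℤ, embC (g.coeff k) =
      (HahnSeries.ofPowerSeries ℤ ℂ (qExpansion 1 ω)).coeff k := by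
    intro k
    rw [← hgC, coeffMap_coeff]
  have hneg : ∀ k : ℤ, k < 0 → g.coeff k = 0 := by
    intro k hk
    have h1 := hcoef k
    rw [ofPowerSeries_coeff_of_neg _ hk] at h1
    exact (map_eq_zero embC).mp h1
  set G : ℕ → Kbar := fun m => g.coeff (m : ℤ) with hG_def
  have hG : ∀ m, embC (G m) = ∑ i, α i * ((c i m : ℤ) : ℂ) := by
    intro m
    rw [hG_def]
    simp only
    rw [hcoef, HahnSeries.ofPowerSeries_apply_coeff, ← h10xQM_apply, ← hα, map_sum,
      Finset.sum_apply]
    refine Finset.sum_congr rfl fun i _ => ?_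
    rw [map_smul, Pi.smul_apply, smul_eq_mul, hc i m]
  have hG0 : G ≠ 0 := by
    intro h0
    apply hg0
    ext k
    rcases lt_or_ge k 0 with hk | hk
    · rw [hneg k hk]
      rfl
    · lift k to ℕ using hk
      have := congrFun h0 k
      rw [hG_def] at this
      simpa using this
  obtain ⟨t, ht, y₀, hy₀, m₀, hm₀⟩ := h10x_scale A embC c hli G α hG hG0
  obtain ⟨D, hD, hDred⟩ := h10x_delta_inv A n
  have hY₀ : embA A (HahnSeries.ofPowerSeries ℤ A (PowerSeries.mk y₀)) = HahnSeries.C t * g := by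
    rw [embA, coeffMap_ofPowerSeries]
    ext k
    rw [HahnSeries.C_mul_eq_smul, HahnSeries.coeff_smul, smul_eq_mul]
    rcases lt_or_ge k 0 with hk | hk
    · rw [ofPowerSeries_coeff_of_neg _ hk, hneg k hk, mul_zero]
    · lift k to ℕ using hk
      rw [HahnSeries.ofPowerSeries_apply_coeff, PowerSeries.coeff_map, PowerSeries.coeff_mk]
      exact hy₀ k
  refine ⟨t, ht, D * HahnSeries.ofPowerSeries ℤ A (PowerSeries.mk y₀), ?_, ?_⟩
  · rw [map_mul, hD, hY₀, hg_def, inv_pow]
    have hpow : coeffEmb Kbar deltaSeries ^ n ≠ 0 := pow_ne_zero n hδ0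
    field_simp
  · rw [map_mul]
    refine mul_ne_zero hDred ?_
    intro h0
    apply hm₀
    have h1 := congrArg (fun s : LaurentSeries (IsLocalRing.ResidueField A) =>
      s.coeff (m₀ : ℤ)) h0
    simp only [redA, coeffMap_coeff, HahnSeries.ofPowerSeries_apply_coeff, PowerSeries.coeff_mk,
      HahnSeries.coeff_zero] at h1
    exact h1

/-- **INT-Q.**  A Gauss-integral function which is regular off the `q`-place has a `q`-expansion
with coefficients in `A`. -/
theorem h10x_intQ (hF : H10xForm) (hL : H10xLat) (A : ValuationSubring Kbar) (p : ℕ)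
    [Fact p.Prime] [CharP (IsLocalRing.ResidueField A) p] (M : ℕ) [NeZero M] (f : FF M)
    (hreg : H10xRegOff M f) (hf : f ∈ softV A M) :
    ∃ y : LaurentSeries A, embA A y = (f : LaurentSeries Kbar) := by
  by_cases hf0 : f = 0
  · refine ⟨0, ?_⟩
    rw [map_zero, hf0]
    rfl
  obtain ⟨t, ht, y, hy, hred⟩ := h10x_intQ_scaled hF hL A p M f hreg hf0
  have hcoe : ((Fermat.Agent.S37.cst M t * f : FF M) : LaurentSeries Kbar) =
      HahnSeries.C t * (f : LaurentSeries Kbar) := by
    have h1 : ((Fermat.Agent.S37.cst M t * f : FF M) : LaurentSeries Kbar) =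
        ((Fermat.Agent.S37.cst M t : FF M) : LaurentSeries Kbar) * (f : LaurentSeries Kbar) := rfl
    rw [h1, soft_coe_cst]
  have hy' : embA A y = ((Fermat.Agent.S37.cst M t * f : FF M) : LaurentSeries Kbar) := by
    rw [hcoe, hy]
  have hmem : Fermat.Agent.S37.cst M t * f ∈ softV A M := mem_softV_of_embA A M _ y hy'
  have hsR : softR A M ⟨_, hmem⟩ = redA (IsLocalRing.residue A) y :=
    softR_of_embA A M ⟨_, hmem⟩ y hy'
  have hunit : (Fermat.Agent.S37.cst M t * f : FF M)⁻¹ ∈ softV A M := by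
    have h1 : softR A M ⟨_, hmem⟩ ≠ 0 := by
      rw [hsR]
      exact hred
    exact ((softR_ne_zero_iff A M ⟨_, hmem⟩).mp h1).2
  have hcst0 : Fermat.Agent.S37.cst M t ≠ 0 :=
    (map_ne_zero (algebraMap Kbar (FF M))).mpr ht
  have hinv : Fermat.Agent.S37.cst M t⁻¹ ∈ softV A M := by
    have h1 : Fermat.Agent.S37.cst M t⁻¹ = f * (Fermat.Agent.S37.cst M t * f)⁻¹ := by
      rw [mul_inv, mul_comm (Fermat.Agent.S37.cst M t)⁻¹, ← mul_assoc, mul_inv_cancel₀ hf0,
        one_mul]
      exact map_inv₀ (algebraMap Kbar (FF M)) t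
    rw [h1]
    exact (softV A M).mul_mem hf hunit
  have htA : t⁻¹ ∈ A := (cst_mem_softV_iff A M t⁻¹).mp hinv
  refine ⟨HahnSeries.C (⟨t⁻¹, htA⟩ : A) * y, ?_⟩
  rw [map_mul, Fermat.Agent.Red.GV.Asm.embA_C, hy, ← mul_assoc, ← map_mul]
  have : t⁻¹ * t = 1 := inv_mul_cancel₀ ht
  simp only [this, map_one, one_mul]

/-- **INT-Q, reduction form**: `softR f` is the coefficientwise reduction of the `q`-expansion
of `f`. -/
theorem h10x_softR (hF : H10xForm) (hL : H10xLat) (A : ValuationSubring Kbar) (p : ℕ)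
    [Fact p.Prime] [CharP (IsLocalRing.ResidueField A) p] (M : ℕ) [NeZero M] (f : FF M)
    (hreg : H10xRegOff M f) (hf : f ∈ softV A M) :
    ∃ y : LaurentSeries A, embA A y = (f : LaurentSeries Kbar) ∧
      softR A M ⟨f, hf⟩ = redA (IsLocalRing.residue A) y := by
  obtain ⟨y, hy⟩ := h10x_intQ hF hL A p M f hreg hf
  exact ⟨y, hy, softR_of_embA A M ⟨f, hf⟩ y hy⟩

/-- the residue field of a valuation subring over `p` has characteristic `p`. -/
theorem h10x_charP (A : ValuationSubring Kbar) {p : ℕ} (hp : p.Prime) (hA : A.LiesOverPrime p) :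
    CharP (IsLocalRing.ResidueField A) p :=
  haveI : Fact p.Prime := ⟨hp⟩
  Fermat.Agent.Red.GV.Base.h80_charP A (IsLocalRing.residue A) p
    (Fermat.Agent.Red.GV.isResidueMap_residue A p hA)

end Fermat.Agent.P7
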