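import Fermat.Agent.P7.H10Lattice
import Fermat.Agent.P7.H10RatBasis
import Fermat.Agent.P7.H39DictBar
import Fermat.Agent.Red.GV.SoftBar

/-!
# Wave 7, block (A), DLOG: INT-Q (the `q`-expansion principle for functions regular off `∞`)
— interface (helper10, prefix `h10x_`)

`f ∈ FF M` regular at every place other than the `q`-order place and Gauss-integral
(`f ∈ softV A M`) has a `q`-expansion with coefficients in `A`, and `softR f` is its
coefficientwise reduction.  Consequence (CUSP-ORTH-RED): `a₀(softR f · h̄) = 0` for every cusp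
form `h` of weight 2 and level `M` with integral `q`-expansion.

Frozen leaves:
* `H10xForm` (Q1, analytic): `f` regular off the `q`-place with `q`-order `≥ -n` is
  `Δ(q) ^ (-n)` times the `q`-expansion of a modular form of weight `12 n` and level `M`;
* `H10xLat` (Q2, lattice): the forms of weight `k` and level `M` with integral `q`-expansion
  form a finitely generated `ℤ`-module which spans `M_k(Γ₀(M))` over `ℂ`.
-/

set_option autoImplicit false
set_option linter.style.haveILetI false
set_option linter.unusedSectionVars false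

open ModularCurve AlgebraicCurve UpperHalfPlane CongruenceSubgroup ModularFormClass
open scoped MatrixGroups Manifold

noncomputable section

namespace Fermat.Agent.P7

open Fermat.Agent.S28 (HasTExp cEmb)
open Fermat.Agent.S24 (Kbar FF embC)
open Fermat.Agent.S23 (G0)

/-- `f` is regular at every place of `FF M` other than the `q`-order place (the hypothesis
`hreg0` of `h39b_adapter`). -/
def H10xRegOff (M : ℕ) (f : FF M) : Prop :=
  ∀ w : Place Kbar (FF M),
    (∃ g : FF M, g ≠ 0 ∧ w.ord g ≠ (g : LaurentSeries Kbar).order) → 0 ≤ w.ord f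

/-- the `q`-expansion coefficients of the modular forms of weight `k` and level `M`, as a linear
map to sequences. -/
def h10xQM (M : ℕ) (k : ℤ) : ModularForm (G0 M) k →ₗ[ℂ] (ℕ → ℂ) :=
  LinearMap.pi fun n => (PowerSeries.coeff (R := ℂ) n) ∘ₗ (h10wQExpM M k)

theorem h10xQM_apply (M : ℕ) (k : ℤ) (f : ModularForm (G0 M) k) (n : ℕ) :
    h10xQM M k f n = PowerSeries.coeff n (qExpansion 1 f) := rfl

/-- **(Q1), analytic leaf.**  A function of level `M` over `ℚ̄` which is regular off the
`q`-place and has `q`-order `≥ -n` is `Δ(q) ^ (-n)` times the `q`-expansion of a modular form of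
weight `12 n`. -/
def H10xForm : Prop :=
  ∀ (M : ℕ) [NeZero M] (n : ℕ) (f : FF M), H10xRegOff M f →
    -(n : ℤ) ≤ (f : LaurentSeries Kbar).order →
    ∃ ω : ModularForm (G0 M) (12 * (n : ℤ)),
      HahnSeries.ofPowerSeries ℤ ℂ (qExpansion 1 ω) =
        cEmb deltaSeries ^ n * coeffMap embC (f : LaurentSeries Kbar)

/-- **(Q2), lattice leaf.**  The modular forms of weight `k` and level `M` with integral
`q`-expansion form a finitely generated `ℤ`-module, and span `M_k(Γ₀(M))` over `ℂ`. -/
def H10xLat : Prop :=
  ∀ (M : ℕ) [NeZero M] (k : ℤ),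
    (h10wInt (h10xQM M k)).FG ∧
      Submodule.span ℂ (h10wInt (h10xQM M k) : Set (ModularForm (G0 M) k)) = ⊤

end Fermat.Agent.P7
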