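import Mathlib

/-!
# Wave 7, block (A) by DLOG, leaf DL6 LATTICE: abstract core (helper10, prefix `h10w_`)

`K` a field of characteristic `0`, `V` a `K`-vector space, `a : V →ₗ[K] (ℕ → K)` an injective
"coefficient map" (`q`-expansion).  The integral elements `h10wInt a` (all coefficients are
integers) form a `ℤ`-submodule; assume it is finitely generated (for cusp forms: the prelude
lemma `CuspForm.intLattice_fg`).  Then for every prime `p` and every field `k` of characteristic
`p` there is a finite family of integral elements whose coefficient sequences reduce to a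
`k`-linearly independent family in `ℕ → k`, which spans the reductions of all integral elements
and spans over `K` the same subspace as the integral elements.

The point is the saturation of the lattice: an integral element all of whose coefficients are
divisible by `p` is `p` times an integral element.

Mathlib only.
-/

set_option autoImplicit false
set_option linter.style.haveILetI false
set_option linter.unusedSectionVars false

namespace Fermat.Agent.P7

section Core

variable {K : Type*} [Field K] [CharZero K] {V : Type*} [AddCommGroup V] [Module K V]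

/-- the integral elements for the coefficient map `a`. -/
def h10wInt (a : V →ₗ[K] (ℕ → K)) : Submodule ℤ V where
  carrier := {v | ∀ n : ℕ, ∃ m : ℤ, a v n = (m : K)}
  add_mem' := by
    intro v w hv hw n
    obtain ⟨x, hx⟩ := hv n
    obtain ⟨y, hy⟩ := hw n
    exact ⟨x + y, by rw [map_add, Pi.add_apply, hx, hy]; push_cast; ring⟩
  zero_mem' := fun n => ⟨0, by simp⟩
  smul_mem' := by
    intro c v hv n
    obtain ⟨x, hx⟩ := hv n
    refine ⟨c * x, ?_⟩
    rw [map_zsmul, Pi.smul_apply, hx, zsmul_eq_mul]
    push_cast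
    ring

theorem h10w_mem_int (a : V →ₗ[K] (ℕ → K)) (v : V) :
    v ∈ h10wInt a ↔ ∀ n : ℕ, ∃ m : ℤ, a v n = (m : K) := Iff.rfl

/-- the integer coefficients of an integral element. -/
noncomputable def h10wCoef (a : V →ₗ[K] (ℕ → K)) (v : h10wInt a) (n : ℕ) : ℤ :=
  (v.2 n).choose

theorem h10w_coef_spec (a : V →ₗ[K] (ℕ → K)) (v : h10wInt a) (n : ℕ) :
    a (v : V) n = (h10wCoef a v n : K) :=
  (v.2 n).choose_spec

theorem h10w_coef_unique (a : V →ₗ[K] (ℕ → K)) (v : h10wInt a) (n : ℕ) (m : ℤ)
    (h : a (v : V) n = (m : K)) : h10wCoef a v n = m := by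
  have h1 := h10w_coef_spec a v n
  rw [h] at h1
  exact (Int.cast_injective h1).symm

theorem h10w_coef_add (a : V →ₗ[K] (ℕ → K)) (v w : h10wInt a) (n : ℕ) :
    h10wCoef a (v + w) n = h10wCoef a v n + h10wCoef a w n := by
  apply h10w_coef_unique
  rw [Submodule.coe_add, map_add, Pi.add_apply, h10w_coef_spec, h10w_coef_spec]
  push_cast
  ring

theorem h10w_coef_zero (a : V →ₗ[K] (ℕ → K)) (n : ℕ) :
    h10wCoef a (0 : h10wInt a) n = 0 := by
  apply h10w_coef_unique
  simp

/-- reduction of the coefficient sequence to a ring `k`, as an additive map. -/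
noncomputable def h10wRed (a : V →ₗ[K] (ℕ → K)) (k : Type*) [Ring k] :
    h10wInt a →+ (ℕ → k) where
  toFun v n := ((h10wCoef a v n : ℤ) : k)
  map_zero' := by
    funext n
    simp [h10w_coef_zero]
  map_add' v w := by
    funext n
    simp [h10w_coef_add]

theorem h10w_red_apply (a : V →ₗ[K] (ℕ → K)) (k : Type*) [Ring k] (v : h10wInt a) (n : ℕ) :
    h10wRed a k v n = ((h10wCoef a v n : ℤ) : k) := rfl

/-- **saturation**: an integral element whose coefficients are all divisible by `p` is `p`
times an integral element. -/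
theorem h10w_saturated (a : V →ₗ[K] (ℕ → K)) (p : ℕ) (hp : p ≠ 0) (w : h10wInt a)
    (hw : ∀ n, (p : ℤ) ∣ h10wCoef a w n) : ∃ v : h10wInt a, p • v = w := by
  have hpK : (p : K) ≠ 0 := Nat.cast_ne_zero.mpr hp
  have hv : ((p : K)⁻¹ • (w : V)) ∈ h10wInt a := by
    intro n
    obtain ⟨d, hd⟩ := hw n
    refine ⟨d, ?_⟩
    rw [map_smul, Pi.smul_apply, h10w_coef_spec, hd, smul_eq_mul]
    push_cast
    field_simp
  refine ⟨⟨_, hv⟩, ?_⟩
  apply Subtype.ext
  rw [Submodule.coe_smul_of_tower]
  show p • ((p : K)⁻¹ • (w : V)) = w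
  rw [← Nat.cast_smul_eq_nsmul K, smul_smul, mul_inv_cancel₀ hpK, one_smul]

end Core

end Fermat.Agent.P7

namespace Fermat.Agent.P7

section Main

variable {K : Type*} [Field K] [CharZero K] {V : Type*} [AddCommGroup V] [Module K V]

theorem h10w_torsionFree (a : V →ₗ[K] (ℕ → K)) : Module.IsTorsionFree ℤ (h10wInt a) := by
  rw [Module.isTorsionFree_iff_smul_eq_zero]
  intro z v h
  by_cases hz : z = 0
  · exact Or.inl hz
  · right
    have h1 : (z • (v : V)) = 0 := by
      have := congrArg (Subtype.val) h
      simpa using this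
    rw [← Int.cast_smul_eq_zsmul K] at h1
    have hzK : (z : K) ≠ 0 := Int.cast_ne_zero.mpr hz
    have h2 : (v : V) = 0 := by
      have := congrArg (fun x => (z : K)⁻¹ • x) h1
      simpa [smul_smul, inv_mul_cancel₀ hzK] using this
    exact Subtype.ext h2

/-- the reduction of a `ℤ`-combination. -/
theorem h10w_red_sum (a : V →ₗ[K] (ℕ → K)) (k : Type*) [Ring k] {ι : Type*} (s : Finset ι)
    (m : ι → ℤ) (b : ι → h10wInt a) :
    h10wRed a k (∑ j ∈ s, m j • b j) = ∑ j ∈ s, ((m j : ℤ) : k) • h10wRed a k (b j) := by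
  rw [map_sum]
  refine Finset.sum_congr rfl fun j _ => ?_
  rw [map_zsmul, Int.cast_smul_eq_zsmul]

/-- reductions of a `ℤ`-basis of the integral elements are independent over `ZMod p`. -/
theorem h10w_indep_zmod (a : V →ₗ[K] (ℕ → K)) (p : ℕ) [Fact p.Prime] {ι : Type*} [Fintype ι]
    (b : Module.Basis ι ℤ (h10wInt a)) :
    LinearIndependent (ZMod p) (fun i => h10wRed a (ZMod p) (b i)) := by
  classical
  rw [Fintype.linearIndependent_iff]
  intro μ hμ i
  have hp : p.Prime := Fact.out
  set m : ι → ℤ := fun j => ((μ j).val : ℤ) with hm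
  have hmμ : ∀ j, ((m j : ℤ) : ZMod p) = μ j := by
    intro j
    simp [hm]
  set w : h10wInt a := ∑ j, m j • b j with hw
  have hred : h10wRed a (ZMod p) w = 0 := by
    rw [hw, h10w_red_sum]
    simp only [hmμ]
    exact hμ
  have hdiv : ∀ n, (p : ℤ) ∣ h10wCoef a w n := by
    intro n
    rw [← ZMod.intCast_zmod_eq_zero_iff_dvd]
    have := congrFun hred n
    simpa [h10w_red_apply] using this
  obtain ⟨v, hv⟩ := h10w_saturated a p hp.ne_zero w hdiv
  have h2 : (p : ℤ) * b.repr v i = m i := by
    have h3 : b.repr (p • v) i = b.repr w i := by rw [hv]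
    rw [hw] at h3
    rw [map_nsmul, map_sum] at h3
    simp only [map_zsmul, Module.Basis.repr_self, Finsupp.coe_smul, Finsupp.coe_finsetSum,
      Pi.smul_apply, Finset.sum_apply, smul_eq_mul, Finsupp.single_apply, mul_ite, mul_one,
      mul_zero, Finset.sum_ite_eq', Finset.mem_univ, if_true, nsmul_eq_mul] at h3
    exact_mod_cast h3
  rw [← hmμ i, ← h2]
  push_cast
  simp

/-- linear independence of reduced integer sequences passes from `ZMod p` to any field of
characteristic `p`. -/
theorem h10w_indep_field (p : ℕ) [Fact p.Prime] (k : Type*) [Field k] [CharP k p] {ι : Type*}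
    [Fintype ι] (c : ι → ℕ → ℤ)
    (h : LinearIndependent (ZMod p) (fun i => fun n => ((c i n : ℤ) : ZMod p))) :
    LinearIndependent k (fun i => fun n => ((c i n : ℤ) : k)) := by
  classical
  letI := ZMod.algebra k p
  rw [Fintype.linearIndependent_iff] at h ⊢
  intro lam hlam i
  set B := Module.Basis.ofVectorSpace (ZMod p) k with hB
  have key : ∀ α, ∀ j, B.repr (lam j) α = 0 := by
    intro α
    apply h (fun j => B.repr (lam j) α)
    funext n
    have h1 := congrFun hlam n
    simp only [Finset.sum_apply, Pi.smul_apply, smul_eq_mul, Pi.zero_apply] at h1 ⊢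
    have h2 : ∀ j, lam j * ((c j n : ℤ) : k) = ((c j n : ℤ) : ZMod p) • lam j := by
      intro j
      rw [Algebra.smul_def, map_intCast, mul_comm]
    have h3 := congrArg (fun x => B.repr x α) h1
    simp only [h2, map_sum, map_smul, Finsupp.coe_finsetSum, Finset.sum_apply, Finsupp.coe_smul,
      Pi.smul_apply, smul_eq_mul, map_zero, Finsupp.coe_zero, Pi.zero_apply] at h3
    rw [← h3]
    exact Finset.sum_congr rfl fun j _ => mul_comm _ _
  have h4 : B.repr (lam i) = 0 := Finsupp.ext fun α => key α i
  exact (LinearEquiv.map_eq_zero_iff B.repr).mp h4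

/-- **DL6, abstract core.**  If the integral elements form a finitely generated `ℤ`-module, there
is a finite family of integral elements whose reductions modulo `p` are linearly independent over
any field `k` of characteristic `p`, span the reductions of all integral elements, and which spans
over `K` the same subspace as the integral elements. -/
theorem h10w_core (a : V →ₗ[K] (ℕ → K)) (hFG : (h10wInt a).FG) (p : ℕ) [Fact p.Prime]
    (k : Type*) [Field k] [CharP k p] :
    ∃ (r : ℕ) (h : Fin r → V) (c : Fin r → ℕ → ℤ),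
      (∀ i n, a (h i) n = (c i n : K)) ∧
      LinearIndependent k (fun i => fun n => ((c i n : ℤ) : k)) ∧
      (∀ (v : V) (d : ℕ → ℤ), (∀ n, a v n = (d n : K)) →
        (fun n => ((d n : ℤ) : k)) ∈
          Submodule.span k (Set.range fun i => fun n => ((c i n : ℤ) : k))) ∧
      Submodule.span K (Set.range h) = Submodule.span K (h10wInt a : Set V) := by
  classical
  haveI : Module.Finite ℤ (h10wInt a) := Module.Finite.iff_fg.mpr hFG
  haveI : Module.IsTorsionFree ℤ (h10wInt a) := h10w_torsionFree a
  haveI : Module.Free ℤ (h10wInt a) := Module.free_of_finite_type_torsion_free'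
  set b := Module.finBasis ℤ (h10wInt a) with hb
  refine ⟨Module.finrank ℤ (h10wInt a), fun i => ((b i : h10wInt a) : V),
    fun i => h10wCoef a (b i), fun i n => h10w_coef_spec a (b i) n, ?_, ?_, ?_⟩
  · exact h10w_indep_field p k _ (h10w_indep_zmod a p b)
  · intro v d hd
    have hv : v ∈ h10wInt a := fun n => ⟨d n, hd n⟩
    have hdn : ∀ n, h10wCoef a ⟨v, hv⟩ n = d n := fun n =>
      h10w_coef_unique a ⟨v, hv⟩ n (d n) (hd n)
    have h1 : (fun n => ((d n : ℤ) : k)) = h10wRed a k ⟨v, hv⟩ := by
      funext n
      rw [h10w_red_apply, hdn]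
    rw [h1, ← b.sum_repr ⟨v, hv⟩, h10w_red_sum]
    refine Submodule.sum_mem _ fun j _ => Submodule.smul_mem _ _ (Submodule.subset_span ⟨j, ?_⟩)
    rfl
  · apply le_antisymm
    · rw [Submodule.span_le]
      rintro _ ⟨i, rfl⟩
      exact Submodule.subset_span (b i).2
    · rw [Submodule.span_le]
      intro v hv
      have h1 : (⟨v, hv⟩ : h10wInt a) = ∑ j, b.repr ⟨v, hv⟩ j • b j := (b.sum_repr ⟨v, hv⟩).symm
      have h2 : v = ∑ j, ((b.repr ⟨v, hv⟩ j : ℤ) : K) • ((b j : h10wInt a) : V) := by
        have := congrArg (Subtype.val) h1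
        simp only [AddSubmonoidClass.coe_finsetSum, Submodule.coe_smul_of_tower] at this
        refine this.trans ?_
        exact Finset.sum_congr rfl fun j _ => (Int.cast_smul_eq_zsmul K _ _).symm
      rw [SetLike.mem_coe, h2]
      exact Submodule.sum_mem _ fun j _ =>
        Submodule.smul_mem _ _ (Submodule.subset_span ⟨j, rfl⟩)

end Main

end Fermat.Agent.P7
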