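import Fermat.Agent.S49.QCoeff
import Fermat.Agent.S30.Skeleton

/-!
# Wave 7 (row 38), block (A), DLOG route, leaf DL7b: formal Hecke operators (helper3)

Vocabulary-free form, on coefficient sequences `ℕ → R` (`R` any commutative ring).

* `h3fT R ℓ` : the formal Hecke operator of weight two,
  `(h3fT R ℓ a) n = a (n * ℓ) + (if ℓ ∣ n then ℓ * a (n / ℓ) else 0)`;
* `h3f_T_comm` : the operators at two primes commute;
* `h3fGenM M ℓ` : `h3fT R ℓ` if `ℓ ∤ M`, and `0` otherwise (the formal twin of `heckeTAll M`);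
* `h3fEvalM R M` / `h3fEval R` : the algebra homomorphisms
  `MvPolynomial Nat.Primes ℤ →ₐ[ℤ] Module.End R (ℕ → R)`, `X ℓ ↦ h3fGenM M ℓ` resp. `h3fT R ℓ`;
* `h3f_eval_map` : naturality in `R`;
* `h3f_qCoeff_aeval` : for a cusp form `h` of weight two and level `M`,
  `qCoeff (P(T) h) = P(T^fml) (qCoeff h)`;
* `h3f_kills_C`, `h3f_kills_int`, `h3f_kills` : if `P(T) = 0` on the cusp forms of level `M`
  (`H99wKillsCusp M P`), then `P(T^fml)` kills the coefficient sequence of every cusp form, the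
  integer coefficient sequence of every cusp form with integral `q`-expansion, and its image
  under every ring homomorphism `ℤ →+* k` (the reductions modulo `p`).

Every declaration is a definition or a proved theorem; nothing is assumed.
-/

set_option autoImplicit false
set_option linter.unusedSectionVars false
set_option linter.unusedVariables false
set_option linter.style.haveILetI false

open ModularFormClass CongruenceSubgroup

noncomputable section

namespace Fermat.Agent.P7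

section H3fFormal

variable (R : Type*) [CommRing R]

/-- the formal Hecke operator `T_ℓ` of weight two on coefficient sequences. -/
def h3fT (ℓ : ℕ) : (ℕ → R) →ₗ[R] (ℕ → R) where
  toFun a n := a (n * ℓ) + if ℓ ∣ n then (ℓ : R) * a (n / ℓ) else 0
  map_add' a b := by
    funext n
    by_cases h : ℓ ∣ n
    · simp only [Pi.add_apply, if_pos h]; ring
    · simp only [Pi.add_apply, if_neg h]; ring
  map_smul' c a := by
    funext n
    by_cases h : ℓ ∣ n
    · simp only [Pi.smul_apply, smul_eq_mul, RingHom.id_apply, if_pos h]; ring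
    · simp only [Pi.smul_apply, smul_eq_mul, RingHom.id_apply, if_neg h]; ring

theorem h3f_T_apply (ℓ : ℕ) (a : ℕ → R) (n : ℕ) :
    h3fT R ℓ a n = a (n * ℓ) + if ℓ ∣ n then (ℓ : R) * a (n / ℓ) else 0 := rfl

theorem h3f_T_of_dvd {ℓ n : ℕ} (h : ℓ ∣ n) (a : ℕ → R) :
    h3fT R ℓ a n = a (n * ℓ) + (ℓ : R) * a (n / ℓ) := by
  rw [h3f_T_apply, if_pos h]

theorem h3f_T_of_not_dvd {ℓ n : ℕ} (h : ¬ ℓ ∣ n) (a : ℕ → R) :
    h3fT R ℓ a n = a (n * ℓ) := by
  rw [h3f_T_apply, if_neg h, add_zero]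

/-- the formal Hecke operators at two primes commute. -/
theorem h3f_T_comm {ℓ ℓ' : ℕ} (hℓ : ℓ.Prime) (hℓ' : ℓ'.Prime) :
    h3fT R ℓ * h3fT R ℓ' = h3fT R ℓ' * h3fT R ℓ := by
  by_cases hne : ℓ = ℓ'
  · subst hne; rfl
  have hcop : Nat.Coprime ℓ ℓ' := (Nat.coprime_primes hℓ hℓ').mpr hne
  have key : ∀ {p q : ℕ}, p.Prime → q.Prime → Nat.Coprime p q → ∀ (a : ℕ → R) (n : ℕ),
      (h3fT R p (h3fT R q a)) n =
        a (n * p * q) + (if q ∣ n then (q : R) * a (n / q * p) else 0) +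
          (if p ∣ n then (p : R) * a (n / p * q) else 0) +
          (if p * q ∣ n then (p : R) * (q : R) * a (n / (p * q)) else 0) := by
    intro p q hp hq hpq a n
    have h1 : (q ∣ n * p) ↔ q ∣ n := by
      constructor
      · intro h
        exact (Nat.Coprime.dvd_mul_right hpq.symm).mp h
      · intro h
        exact Dvd.dvd.mul_right h p
    have h2 : q ∣ n → n * p / q = n / q * p := by
      intro h
      obtain ⟨m, rfl⟩ := h
      rw [Nat.mul_div_cancel_left _ hq.pos, mul_assoc, Nat.mul_div_cancel_left _ hq.pos]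
    have h3 : p ∣ n → ((q ∣ n / p) ↔ p * q ∣ n) := by
      intro h
      obtain ⟨m, rfl⟩ := h
      rw [Nat.mul_div_cancel_left _ hp.pos]
      constructor
      · intro h'
        exact Nat.mul_dvd_mul_left p h'
      · intro h'
        exact (Nat.mul_dvd_mul_iff_left hp.pos).mp h'
    have h4 : p * q ∣ n → p ∣ n := fun h => (Dvd.intro _ rfl).trans h
    by_cases hq' : q ∣ n
    · by_cases hp' : p ∣ n
      · have hpq' : p * q ∣ n := Nat.Coprime.mul_dvd_of_dvd_of_dvd hpq hp' hq'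
        simp only [h3f_T_apply, h1, h3 hp', hq', hp', hpq', if_true, h2 hq',
          Nat.div_div_eq_div_mul]
        ring
      · have hpq' : ¬ p * q ∣ n := fun h => hp' (h4 h)
        simp only [h3f_T_apply, h1, hq', hp', hpq', if_true, if_false, h2 hq']
        ring
    · by_cases hp' : p ∣ n
      · have hpq' : ¬ p * q ∣ n := fun h => hq' ((Dvd.intro_left _ rfl).trans h)
        simp only [h3f_T_apply, h1, h3 hp', hq', hp', hpq', if_true, if_false]
        ring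
      · have hpq' : ¬ p * q ∣ n := fun h => hp' (h4 h)
        simp only [h3f_T_apply, h1, hq', hp', hpq', if_false]
        ring
  refine LinearMap.ext fun a => funext fun n => ?_
  show (h3fT R ℓ (h3fT R ℓ' a)) n = (h3fT R ℓ' (h3fT R ℓ a)) n
  rw [key hℓ hℓ' hcop, key hℓ' hℓ hcop.symm, mul_comm ℓ' ℓ, mul_right_comm n ℓ ℓ']
  ring_nf

end H3fFormal

section H3fEval

variable (R : Type*) [CommRing R]

/-- the formal twin of `heckeTAll M`: `T_ℓ` for `ℓ ∤ M`, and `0` for `ℓ ∣ M`. -/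
def h3fGenM (M : ℕ) (ℓ : Nat.Primes) : Module.End R (ℕ → R) :=
  if (ℓ : ℕ) ∣ M then 0 else h3fT R ℓ

theorem h3f_genM_of_not_dvd {M : ℕ} {ℓ : Nat.Primes} (h : ¬ (ℓ : ℕ) ∣ M) :
    h3fGenM R M ℓ = h3fT R ℓ := if_neg h

theorem h3f_genM_of_dvd {M : ℕ} {ℓ : Nat.Primes} (h : (ℓ : ℕ) ∣ M) :
    h3fGenM R M ℓ = 0 := if_pos h

theorem h3f_genM_one (ℓ : Nat.Primes) : h3fGenM R 1 ℓ = h3fT R ℓ :=
  h3f_genM_of_not_dvd R (fun h => ℓ.2.one_lt.ne' (Nat.dvd_one.mp h))

theorem h3f_genM_comm (M : ℕ) (ℓ ℓ' : Nat.Primes) :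
    h3fGenM R M ℓ * h3fGenM R M ℓ' = h3fGenM R M ℓ' * h3fGenM R M ℓ := by
  unfold h3fGenM
  by_cases h : (ℓ : ℕ) ∣ M
  · rw [if_pos h, zero_mul, mul_zero]
  · by_cases h' : (ℓ' : ℕ) ∣ M
    · rw [if_pos h', zero_mul, mul_zero]
    · rw [if_neg h, if_neg h']
      exact h3f_T_comm R ℓ.2 ℓ'.2

theorem h3f_isMulCommutative (M : ℕ) :
    IsMulCommutative (Algebra.adjoin ℤ (Set.range (h3fGenM R M))) :=
  Algebra.isMulCommutative_adjoin ℤ (by
    rintro _ ⟨ℓ, rfl⟩ _ ⟨ℓ', rfl⟩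
    exact h3f_genM_comm R M ℓ ℓ')

open scoped IsMulCommutative in
/-- evaluation of Hecke polynomials at the formal Hecke operators, with values in the
commutative algebra generated by them. -/
def h3fEvalAux (M : ℕ) :
    MvPolynomial Nat.Primes ℤ →ₐ[ℤ] (Algebra.adjoin ℤ (Set.range (h3fGenM R M)) :
      Subalgebra ℤ (Module.End R (ℕ → R))) :=
  haveI := h3f_isMulCommutative R M
  MvPolynomial.aeval fun ℓ =>
    (⟨h3fGenM R M ℓ, Algebra.subset_adjoin (Set.mem_range_self ℓ)⟩ :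
      Algebra.adjoin ℤ (Set.range (h3fGenM R M)))

/-- **`P ↦ P(T^fml)`** at level `M` (`T_ℓ ↦ 0` for `ℓ ∣ M`), as an algebra homomorphism into the
endomorphisms of the coefficient sequences. -/
def h3fEvalM (M : ℕ) : MvPolynomial Nat.Primes ℤ →ₐ[ℤ] Module.End R (ℕ → R) :=
  (Algebra.adjoin ℤ (Set.range (h3fGenM R M))).val.comp (h3fEvalAux R M)

/-- **`P ↦ P(T^fml)`**, all primes allowed. -/
def h3fEval : MvPolynomial Nat.Primes ℤ →ₐ[ℤ] Module.End R (ℕ → R) := h3fEvalM R 1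

open scoped IsMulCommutative in
theorem h3f_evalAux_X (M : ℕ) (ℓ : Nat.Primes) :
    h3fEvalAux R M (MvPolynomial.X ℓ) =
      ⟨h3fGenM R M ℓ, Algebra.subset_adjoin (Set.mem_range_self ℓ)⟩ :=
  haveI := h3f_isMulCommutative R M
  MvPolynomial.aeval_X _ ℓ

theorem h3f_evalM_X (M : ℕ) (ℓ : Nat.Primes) :
    h3fEvalM R M (MvPolynomial.X ℓ) = h3fGenM R M ℓ := by
  show ((h3fEvalAux R M (MvPolynomial.X ℓ) :
    Algebra.adjoin ℤ (Set.range (h3fGenM R M))) : Module.End R (ℕ → R)) = _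
  rw [h3f_evalAux_X]

theorem h3f_eval_X (ℓ : Nat.Primes) : h3fEval R (MvPolynomial.X ℓ) = h3fT R ℓ := by
  rw [h3fEval, h3f_evalM_X, h3f_genM_one]

theorem h3f_evalM_C (M : ℕ) (z : ℤ) :
    h3fEvalM R M (MvPolynomial.C z) = (z : Module.End R (ℕ → R)) := by
  rw [← MvPolynomial.algebraMap_eq, eq_intCast, map_intCast]

theorem h3f_evalM_C_apply (M : ℕ) (z : ℤ) (a : ℕ → R) :
    h3fEvalM R M (MvPolynomial.C z) a = z • a := by
  rw [h3f_evalM_C]
  rfl

theorem h3f_evalM_mul_X_apply (M : ℕ) (P : MvPolynomial Nat.Primes ℤ) (ℓ : Nat.Primes)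
    (a : ℕ → R) :
    h3fEvalM R M (P * MvPolynomial.X ℓ) a = h3fEvalM R M P (h3fGenM R M ℓ a) := by
  rw [map_mul, h3f_evalM_X]
  rfl

/-- on polynomials whose variables are prime to `M`, the evaluations at level `M` and at
level `1` agree. -/
theorem h3f_evalM_eq_eval (M : ℕ) (P : MvPolynomial Nat.Primes ℤ)
    (hP : ∀ ℓ ∈ P.vars, ¬ (ℓ : ℕ) ∣ M) : h3fEvalM R M P = h3fEval R P := by
  have hsup : P ∈ MvPolynomial.supported ℤ {ℓ : Nat.Primes | ¬ (ℓ : ℕ) ∣ M} := by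
    rw [MvPolynomial.mem_supported]
    intro ℓ hℓ
    exact hP ℓ (by simpa using hℓ)
  have hle : MvPolynomial.supported ℤ {ℓ : Nat.Primes | ¬ (ℓ : ℕ) ∣ M} ≤
      AlgHom.equalizer (h3fEvalM R M) (h3fEval R) := by
    rw [MvPolynomial.supported]
    refine Algebra.adjoin_le ?_
    rintro _ ⟨ℓ, hℓ, rfl⟩
    show h3fEvalM R M (MvPolynomial.X ℓ) = h3fEval R (MvPolynomial.X ℓ)
    rw [h3f_evalM_X, h3f_eval_X, h3f_genM_of_not_dvd R hℓ]
  exact hle hsup

end H3fEval

section H3fNat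

variable {R S : Type*} [CommRing R] [CommRing S]

/-- the formal Hecke operators are natural in the coefficient ring. -/
theorem h3f_T_map (φ : R →+* S) (ℓ : ℕ) (a : ℕ → R) :
    h3fT S ℓ (fun n => φ (a n)) = fun n => φ (h3fT R ℓ a n) := by
  funext n
  by_cases h : ℓ ∣ n
  · rw [h3f_T_of_dvd S h, h3f_T_of_dvd R h, map_add, map_mul, map_natCast]
  · rw [h3f_T_of_not_dvd S h, h3f_T_of_not_dvd R h]

theorem h3f_genM_map (φ : R →+* S) (M : ℕ) (ℓ : Nat.Primes) (a : ℕ → R) :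
    h3fGenM S M ℓ (fun n => φ (a n)) = fun n => φ (h3fGenM R M ℓ a n) := by
  by_cases h : (ℓ : ℕ) ∣ M
  · rw [h3f_genM_of_dvd S h, h3f_genM_of_dvd R h]
    funext n
    simp
  · rw [h3f_genM_of_not_dvd S h, h3f_genM_of_not_dvd R h]
    exact h3f_T_map φ ℓ a

/-- **naturality of `P(T^fml)`** in the coefficient ring. -/
theorem h3f_evalM_map (φ : R →+* S) (M : ℕ) (P : MvPolynomial Nat.Primes ℤ) (a : ℕ → R) :
    h3fEvalM S M P (fun n => φ (a n)) = fun n => φ (h3fEvalM R M P a n) := by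
  induction P using MvPolynomial.induction_on generalizing a with
  | C z =>
    rw [h3f_evalM_C_apply, h3f_evalM_C_apply]
    funext n
    simp
  | add P Q hP hQ =>
    rw [map_add, map_add, LinearMap.add_apply, LinearMap.add_apply, hP, hQ]
    funext n
    simp
  | mul_X P ℓ hP =>
    rw [h3f_evalM_mul_X_apply, h3f_evalM_mul_X_apply, h3f_genM_map, hP]

theorem h3f_eval_map (φ : R →+* S) (P : MvPolynomial Nat.Primes ℤ) (a : ℕ → R) :
    h3fEval S P (fun n => φ (a n)) = fun n => φ (h3fEval R P a n) :=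
  h3f_evalM_map φ 1 P a

end H3fNat

section H3fCusp

open Fermat.Agent.S30 (heckeTAll)

variable (M : ℕ) [NeZero M]

/-- the coefficient sequence of the `q`-expansion of a cusp form. -/
def h3fQ (h : CuspForm (Gamma0 M) 2) : ℕ → ℂ := fun n => qCoeff ⇑h n

theorem h3f_Q_apply (h : CuspForm (Gamma0 M) 2) (n : ℕ) : h3fQ M h n = qCoeff ⇑h n := rfl

theorem h3f_Q_add (h h' : CuspForm (Gamma0 M) 2) : h3fQ M (h + h') = h3fQ M h + h3fQ M h' := by
  funext n
  exact Fermat.Agent.S49.qCoeff_add_cusp h h' n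

theorem h3f_Q_smul (c : ℂ) (h : CuspForm (Gamma0 M) 2) : h3fQ M (c • h) = c • h3fQ M h := by
  funext n
  exact Fermat.Agent.S49.qCoeff_smul_cusp c h n

theorem h3f_Q_zsmul (z : ℤ) (h : CuspForm (Gamma0 M) 2) : h3fQ M (z • h) = z • h3fQ M h := by
  have e : z • h = (z : ℂ) • h := by
    rw [Int.cast_smul_eq_zsmul]
  rw [e, h3f_Q_smul]
  funext n
  simp

theorem h3f_Q_zero : h3fQ M (0 : CuspForm (Gamma0 M) 2) = 0 := by
  have := h3f_Q_smul M 0 (0 : CuspForm (Gamma0 M) 2)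
  rw [zero_smul, zero_smul] at this
  exact this

/-- the `q`-expansion of `T_ℓ h` (`ℓ ∤ M`). -/
theorem h3f_Q_heckeTLin {ℓ : ℕ} (hℓ : ℓ.Prime) (hℓM : ¬ ℓ ∣ M) (h : CuspForm (Gamma0 M) 2) :
    h3fQ M (CuspForm.heckeTLin 2 hℓ hℓM h) = h3fT ℂ ℓ (h3fQ M h) := by
  funext n
  rw [h3f_Q_apply, Fermat.Agent.S49.qCoeff_heckeTLin hℓ hℓM h n, h3f_T_apply]
  have e : ((ℓ : ℂ)) ^ ((2 : ℤ) - 1) = (ℓ : ℂ) := by
    norm_num
  rw [e]
  rfl

theorem h3f_Q_heckeTAll (ℓ : Nat.Primes) (h : CuspForm (Gamma0 M) 2) :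
    h3fQ M (((heckeTAll M ℓ : CuspForm.heckeAlgebra M 2 (∅ : Set ℕ)) :
      Module.End ℂ (CuspForm (Gamma0 M) 2)) h) = h3fGenM ℂ M ℓ (h3fQ M h) := by
  by_cases hℓ : (ℓ : ℕ) ∣ M
  · rw [h3f_genM_of_dvd ℂ hℓ]
    have e : heckeTAll M ℓ = 0 := dif_pos hℓ
    rw [e]
    exact h3f_Q_zero M
  · rw [h3f_genM_of_not_dvd ℂ hℓ]
    have e : heckeTAll M ℓ = CuspForm.heckeAlgebra.T ℓ.2 hℓ (Set.notMem_empty _) := dif_neg hℓ
    rw [e, CuspForm.heckeAlgebra.coe_T]
    exact h3f_Q_heckeTLin M ℓ.2 hℓ h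

/-- **`q`-expansions and Hecke polynomials**: `qCoeff (P(T) h) = P(T^fml) (qCoeff h)`. -/
theorem h3f_qCoeff_aeval (P : MvPolynomial Nat.Primes ℤ) (h : CuspForm (Gamma0 M) 2) :
    h3fQ M (((MvPolynomial.aeval (R := ℤ) (heckeTAll M) P :
      CuspForm.heckeAlgebra M 2 (∅ : Set ℕ)) :
        Module.End ℂ (CuspForm (Gamma0 M) 2)) h) = h3fEvalM ℂ M P (h3fQ M h) := by
  induction P using MvPolynomial.induction_on generalizing h with
  | C z =>
    rw [MvPolynomial.aeval_C, Subalgebra.coe_algebraMap, Module.algebraMap_end_apply,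
      h3f_Q_zsmul, h3f_evalM_C_apply]
  | add P Q hP hQ =>
    rw [map_add, Subalgebra.coe_add, LinearMap.add_apply, h3f_Q_add, hP, hQ, map_add,
      LinearMap.add_apply]
  | mul_X P ℓ hP =>
    rw [map_mul, MvPolynomial.aeval_X, Subalgebra.coe_mul, Module.End.mul_apply, hP,
      h3f_Q_heckeTAll, h3f_evalM_mul_X_apply]

/-- **DL7b, complex form**: a Hecke polynomial which vanishes on the cusp forms of level `M`
kills, formally, the `q`-expansion of every cusp form of level `M`. -/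
theorem h3f_kills_C (P : MvPolynomial Nat.Primes ℤ)
    (hP : ((MvPolynomial.aeval (R := ℤ) (heckeTAll M) P :
      CuspForm.heckeAlgebra M 2 (∅ : Set ℕ)) :
        Module.End ℂ (CuspForm (Gamma0 M) 2)) = 0)
    (h : CuspForm (Gamma0 M) 2) : h3fEvalM ℂ M P (h3fQ M h) = 0 := by
  rw [← h3f_qCoeff_aeval, hP, LinearMap.zero_apply]
  exact h3f_Q_zero M

/-- **DL7b, integral form**: the same for the integer coefficient sequence of a cusp form with
integral `q`-expansion. -/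
theorem h3f_kills_int (P : MvPolynomial Nat.Primes ℤ)
    (hP : ((MvPolynomial.aeval (R := ℤ) (heckeTAll M) P :
      CuspForm.heckeAlgebra M 2 (∅ : Set ℕ)) :
        Module.End ℂ (CuspForm (Gamma0 M) 2)) = 0)
    (h : CuspForm (Gamma0 M) 2) (c : ℕ → ℤ) (hc : ∀ n, qCoeff ⇑h n = (c n : ℂ)) :
    h3fEvalM ℤ M P c = 0 := by
  have h1 := h3f_kills_C M P hP h
  have h2 : h3fQ M h = fun n => Int.castRingHom ℂ (c n) := by
    funext n
    rw [h3f_Q_apply, hc n]
    rfl
  rw [h2, h3f_evalM_map (Int.castRingHom ℂ) M P c] at h1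
  funext n
  have h3 := congrFun h1 n
  simp only [Pi.zero_apply, eq_intCast, Int.cast_eq_zero] at h3
  exact h3

/-- **DL7b, reduced form**: `P(T^fml)` kills the reduction (along any ring homomorphism
`ℤ →+* k`) of the `q`-expansion of every cusp form of level `M` with integral `q`-expansion. -/
theorem h3f_kills {k : Type*} [CommRing k] (φ : ℤ →+* k) (P : MvPolynomial Nat.Primes ℤ)
    (hP : ((MvPolynomial.aeval (R := ℤ) (heckeTAll M) P :
      CuspForm.heckeAlgebra M 2 (∅ : Set ℕ)) :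
        Module.End ℂ (CuspForm (Gamma0 M) 2)) = 0)
    (h : CuspForm (Gamma0 M) 2) (c : ℕ → ℤ) (hc : ∀ n, qCoeff ⇑h n = (c n : ℂ)) :
    h3fEvalM k M P (fun n => φ (c n)) = 0 := by
  rw [h3f_evalM_map φ M P c, h3f_kills_int M P hP h c hc]
  funext n
  simp

/-- the same with the evaluation at all primes, for `P` with variables prime to `M`. -/
theorem h3f_kills_eval {k : Type*} [CommRing k] (φ : ℤ →+* k) (P : MvPolynomial Nat.Primes ℤ)
    (hvars : ∀ ℓ ∈ P.vars, ¬ (ℓ : ℕ) ∣ M)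
    (hP : ((MvPolynomial.aeval (R := ℤ) (heckeTAll M) P :
      CuspForm.heckeAlgebra M 2 (∅ : Set ℕ)) :
        Module.End ℂ (CuspForm (Gamma0 M) 2)) = 0)
    (h : CuspForm (Gamma0 M) 2) (c : ℕ → ℤ) (hc : ∀ n, qCoeff ⇑h n = (c n : ℂ)) :
    h3fEval k P (fun n => φ (c n)) = 0 := by
  rw [← h3f_evalM_eq_eval k M P hvars]
  exact h3f_kills M φ P hP h c hc

end H3fCusp

end Fermat.Agent.P7
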