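import Fermat.Agent.P7.H10LatticeCusp
import Fermat.Agent.P7.H3HeckeFml

/-!
# Wave 7, block (A), DLOG: a Hecke polynomial which kills `S₂(Γ₀(M))` kills `S̄(M)`

`h10wSbar M k : Submodule k (ℕ → k)` is the `k`-span of the reductions of the coefficient
sequences of the weight-2 cusp forms of level `M` with integral `q`-expansion
(`P7/H10LatticeCusp.lean`).  If the Hecke polynomial `P` (variables prime to `M`) acts as `0`
on `S₂(Γ₀(M))`, then the formal operator `h3fEval k P` kills `h10wSbar M k`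
(span induction on helper3's `h3f_kills_eval`).
-/

open ModularFormClass CongruenceSubgroup

open Fermat.Agent.S30 (heckeTAll)

noncomputable section

namespace Fermat.Agent.P7

/-- **DL7b on `S̄`**: a Hecke polynomial killing `S₂(Γ₀(M))` kills `h10wSbar M k`. -/
theorem h10w_sbar_kill (M : ℕ) [NeZero M] (k : Type*) [Field k]
    (P : MvPolynomial Nat.Primes ℤ) (hvars : ∀ ℓ ∈ P.vars, ¬ (ℓ : ℕ) ∣ M)
    (hP : ((MvPolynomial.aeval (R := ℤ) (heckeTAll M) P :
      CuspForm.heckeAlgebra M 2 (∅ : Set ℕ)) :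
        Module.End ℂ (CuspForm (Gamma0 M) 2)) = 0)
    {w : ℕ → k} (hw : w ∈ h10wSbar M k) : h3fEval k P w = 0 := by
  induction hw using Submodule.span_induction with
  | mem x hx =>
    obtain ⟨h, c, hc, rfl⟩ := hx
    exact h3f_kills_eval M (Int.castRingHom k) P hvars hP h c hc
  | zero => exact map_zero _
  | add x y _ _ hx hy => rw [map_add, hx, hy, add_zero]
  | smul a x _ hx => rw [map_smul, hx, smul_zero]

/-- the same, as an inclusion of submodules. -/
theorem h10w_sbar_le_ker (M : ℕ) [NeZero M] (k : Type*) [Field k]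
    (P : MvPolynomial Nat.Primes ℤ) (hvars : ∀ ℓ ∈ P.vars, ¬ (ℓ : ℕ) ∣ M)
    (hP : ((MvPolynomial.aeval (R := ℤ) (heckeTAll M) P :
      CuspForm.heckeAlgebra M 2 (∅ : Set ℕ)) :
        Module.End ℂ (CuspForm (Gamma0 M) 2)) = 0) :
    h10wSbar M k ≤ LinearMap.ker (h3fEval k P) :=
  fun _ hw => LinearMap.mem_ker.mpr (h10w_sbar_kill M k P hvars hP hw)

end Fermat.Agent.P7
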