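import Mathlib

/-!
# Wave 7 (S44), block (A), route DLOG, leaf DL4 GAP: abstract core (helper11)

`k` a field, `L` a `k`-subspace of `k((q))` (the `q`-expansions of the functions regular away
from the cusp `∞`).  The residue pairing is `⟨f, w⟩ = a₀(f w)`.

* `h11dOmega L` : the orthogonal of `L` inside `q k[[q]]`.
* `h11dGap L`   : the gaps of `L`: the `n ≥ 1` such that no `f ∈ L` has order exactly `-n`.
* `h11d_order_mem_gap` : the order of a nonzero element of `h11dOmega L` is a gap.
* `h11d_finrank_le_card` : a subspace all of whose nonzero elements have their order in a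
  finite set `G` is finite-dimensional of dimension `≤ #G`.
* `h11dTrunc L N` : the elements of `L` with a pole of order `≤ N`.
* `h11d_gap_count` : Riemann's inequality `N + 1 ≤ dim L_N + g` (for all `N`) and
  "`L₀` = constants" bound the number of gaps by `g`.
* `h11d_omega_finrank_le` : under the same hypotheses `dim_k (h11dOmega L) ≤ g`.

Everything is Mathlib only; nothing is assumed.
-/

set_option autoImplicit false
set_option linter.style.haveILetI false

noncomputable section

namespace Fermat.Agent.P7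

open HahnSeries

variable {k : Type*} [Field k]

/-- the orthogonal of `L` in `q k[[q]]` for the residue pairing `⟨f, w⟩ = a₀(f w)`. -/
def h11dOmega (L : Submodule k (LaurentSeries k)) : Submodule k (LaurentSeries k) where
  carrier := {w | (∀ n : ℤ, n ≤ 0 → w.coeff n = 0) ∧ ∀ f ∈ L, (f * w).coeff 0 = 0}
  add_mem' := by
    rintro a b ⟨ha1, ha2⟩ ⟨hb1, hb2⟩
    refine ⟨fun n hn => ?_, fun f hf => ?_⟩
    · rw [HahnSeries.coeff_add, ha1 n hn, hb1 n hn, add_zero]
    · rw [mul_add, HahnSeries.coeff_add, ha2 f hf, hb2 f hf, add_zero]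
  zero_mem' := by
    refine ⟨fun n _ => rfl, fun f _ => ?_⟩
    rw [mul_zero]
    rfl
  smul_mem' := by
    rintro c a ⟨ha1, ha2⟩
    refine ⟨fun n hn => ?_, fun f hf => ?_⟩
    · rw [HahnSeries.coeff_smul, ha1 n hn, smul_zero]
    · rw [← HahnSeries.C_mul_eq_smul, mul_left_comm, HahnSeries.C_mul_eq_smul,
        HahnSeries.coeff_smul, ha2 f hf, smul_zero]

theorem h11d_mem_omega {L : Submodule k (LaurentSeries k)} {w : LaurentSeries k} :
    w ∈ h11dOmega L ↔
      (∀ n : ℤ, n ≤ 0 → w.coeff n = 0) ∧ ∀ f ∈ L, (f * w).coeff 0 = 0 := Iff.rfl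

/-- the gaps of `L`: the `n ≥ 1` such that no nonzero `f ∈ L` has order exactly `-n`. -/
def h11dGap (L : Submodule k (LaurentSeries k)) : Set ℤ :=
  {n | 1 ≤ n ∧ ∀ f ∈ L, f ≠ 0 → f.order ≠ -n}

/-- **the order of a nonzero element of the orthogonal is a gap.** -/
theorem h11d_order_mem_gap {L : Submodule k (LaurentSeries k)} {w : LaurentSeries k}
    (hw : w ∈ h11dOmega L) (h0 : w ≠ 0) : w.order ∈ h11dGap L := by
  obtain ⟨h1, h2⟩ := hw
  have hc : w.coeff w.order ≠ 0 := fun h => h0 (HahnSeries.coeff_order_eq_zero.mp h)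
  refine ⟨?_, fun f hf hf0 hord => ?_⟩
  · by_contra hlt
    exact hc (h1 _ (by omega))
  · have h3 := HahnSeries.coeff_mul_order_add_order f w
    rw [hord, neg_add_cancel, h2 f hf] at h3
    have h4 : f.leadingCoeff * w.leadingCoeff ≠ 0 :=
      mul_ne_zero (HahnSeries.leadingCoeff_ne_zero.mpr hf0)
        (HahnSeries.leadingCoeff_ne_zero.mpr h0)
    exact h4 h3.symm

/-- **a subspace whose nonzero elements have their orders in a finite set `G` has dimension
`≤ #G`.** -/
theorem h11d_finrank_le_card (Ω : Submodule k (LaurentSeries k)) (G : Finset ℤ)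
    (h : ∀ w ∈ Ω, w ≠ 0 → w.order ∈ G) :
    Module.Finite k Ω ∧ Module.finrank k Ω ≤ G.card := by
  let φ : Ω →ₗ[k] (G → k) :=
    { toFun := fun w n => (w : LaurentSeries k).coeff (n : ℤ)
      map_add' := by
        intro a b
        funext n
        simp [HahnSeries.coeff_add]
      map_smul' := by
        intro c a
        funext n
        simp [HahnSeries.coeff_smul] }
  have hinj : Function.Injective φ := by
    rw [← LinearMap.ker_eq_bot, LinearMap.ker_eq_bot']
    intro w hw
    by_contra h0
    have h0' : (w : LaurentSeries k) ≠ 0 := fun h' => h0 (Subtype.ext h')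
    have hm := h w w.2 h0'
    have hc : (w : LaurentSeries k).coeff (w : LaurentSeries k).order ≠ 0 :=
      fun h' => h0' (HahnSeries.coeff_order_eq_zero.mp h')
    have := congrFun hw ⟨_, hm⟩
    exact hc this
  haveI : Module.Finite k Ω := Module.Finite.of_injective φ hinj
  refine ⟨inferInstance, ?_⟩
  have h1 := LinearMap.finrank_le_finrank_of_injective hinj
  have h2 : Module.finrank k (G → k) = G.card := by
    rw [Module.finrank_fintype_fun_eq_card, Fintype.card_coe]
  omega

/-- the elements of `L` with a pole of order at most `N` at `q = 0`. -/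
def h11dTrunc (L : Submodule k (LaurentSeries k)) (N : ℤ) : Submodule k (LaurentSeries k) where
  carrier := {f | f ∈ L ∧ ∀ m : ℤ, m < -N → f.coeff m = 0}
  add_mem' := by
    rintro a b ⟨ha1, ha2⟩ ⟨hb1, hb2⟩
    refine ⟨L.add_mem ha1 hb1, fun m hm => ?_⟩
    rw [HahnSeries.coeff_add, ha2 m hm, hb2 m hm, add_zero]
  zero_mem' := ⟨L.zero_mem, fun _ _ => rfl⟩
  smul_mem' := by
    rintro c a ⟨ha1, ha2⟩
    refine ⟨L.smul_mem c ha1, fun m hm => ?_⟩
    rw [HahnSeries.coeff_smul, ha2 m hm, smul_zero]

theorem h11d_mem_trunc {L : Submodule k (LaurentSeries k)} {N : ℤ} {f : LaurentSeries k} :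
    f ∈ h11dTrunc L N ↔ f ∈ L ∧ ∀ m : ℤ, m < -N → f.coeff m = 0 := Iff.rfl

theorem h11d_trunc_mono (L : Submodule k (LaurentSeries k)) {N N' : ℤ} (h : N ≤ N') :
    h11dTrunc L N ≤ h11dTrunc L N' := by
  rintro f ⟨hf1, hf2⟩
  exact ⟨hf1, fun m hm => hf2 m (by omega)⟩

/-- if `n` is a gap, the truncation does not grow at `n`. -/
theorem h11d_trunc_eq_of_gap (L : Submodule k (LaurentSeries k)) {n : ℤ}
    (hn : n ∈ h11dGap L) : h11dTrunc L n = h11dTrunc L (n - 1) := by
  refine le_antisymm ?_ (h11d_trunc_mono L (by omega))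
  rintro f ⟨hf1, hf2⟩
  refine ⟨hf1, fun m hm => ?_⟩
  rcases lt_or_eq_of_le (show m ≤ -n by omega) with h | h
  · exact hf2 m h
  · subst h
    by_contra hc
    have hf0 : f ≠ 0 := by
      rintro rfl
      exact hc rfl
    have hle : f.order ≤ -n := HahnSeries.order_le_of_coeff_ne_zero hc
    have hge : -n ≤ f.order := by
      by_contra hlt
      push Not at hlt
      exact hf0 (HahnSeries.coeff_order_eq_zero.mp (hf2 _ hlt))
    exact hn.2 f hf1 hf0 (le_antisymm hle hge)

/-- one step: the truncation grows by at most one dimension. -/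
theorem h11d_trunc_step (L : Submodule k (LaurentSeries k)) (n : ℤ)
    [Module.Finite k (h11dTrunc L (n - 1))] :
    Module.Finite k (h11dTrunc L n) ∧
      Module.finrank k (h11dTrunc L n) ≤ Module.finrank k (h11dTrunc L (n - 1)) + 1 := by
  -- the coefficient map at `-n`, with kernel the smaller truncation
  let c : h11dTrunc L n →ₗ[k] k :=
    { toFun := fun f => (f : LaurentSeries k).coeff (-n)
      map_add' := by intro a b; simp [HahnSeries.coeff_add]
      map_smul' := by intro r a; simp [HahnSeries.coeff_smul] }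
  let ι : h11dTrunc L (n - 1) →ₗ[k] h11dTrunc L n :=
    Submodule.inclusion (h11d_trunc_mono L (by omega))
  have hι : Function.Injective ι := Submodule.inclusion_injective _
  have hex : LinearMap.ker c ≤ LinearMap.range ι := by
    intro f hf
    rw [LinearMap.mem_ker] at hf
    have hf' : (f : LaurentSeries k) ∈ h11dTrunc L (n - 1) := by
      refine ⟨f.2.1, fun m hm => ?_⟩
      rcases lt_or_eq_of_le (show m ≤ -n by omega) with h | h
      · exact f.2.2 m h
      · subst h
        exact hf
    exact ⟨⟨f, hf'⟩, Subtype.ext rfl⟩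
  -- the map `f ↦ (c f, …)`: use rank-nullity through an injection into `L_{n-1} × k`
  -- choose a complement: we inject `L_n` into `L_{n-1} × k` when `c` is onto, else `L_n = L_{n-1}`
  by_cases hc : ∀ f : h11dTrunc L n, c f = 0
  · -- then `ι` is onto
    have hsurj : Function.Surjective ι := by
      intro f
      exact hex (by rw [LinearMap.mem_ker]; exact hc f)
    haveI : Module.Finite k (h11dTrunc L n) := Module.Finite.of_surjective ι hsurj
    refine ⟨inferInstance, ?_⟩
    have := LinearMap.finrank_le_finrank_of_injective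
      (f := (LinearEquiv.ofBijective ι ⟨hι, hsurj⟩).symm.toLinearMap)
      (LinearEquiv.injective _)
    omega
  · push Not at hc
    obtain ⟨f₀, hf₀⟩ := hc
    -- `f ↦ (f - (c f / c f₀) f₀, c f)` is injective into `L_{n-1} × k`
    have hmem : ∀ f : h11dTrunc L n,
        ((f : LaurentSeries k) - (c f / c f₀) • (f₀ : LaurentSeries k)) ∈ h11dTrunc L (n - 1) := by
      intro f
      have h1 : f - (c f / c f₀) • f₀ ∈ LinearMap.ker c := by
        rw [LinearMap.mem_ker, map_sub, map_smul, smul_eq_mul, div_mul_cancel₀ _ hf₀, sub_self]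
      obtain ⟨g, hg⟩ := hex h1
      have : (g : LaurentSeries k) = (f : LaurentSeries k) - (c f / c f₀) • (f₀ : LaurentSeries k) := by
        have := congrArg (fun x : h11dTrunc L n => (x : LaurentSeries k)) hg
        simpa [ι] using this
      rw [← this]
      exact g.2
    let ψ : h11dTrunc L n →ₗ[k] (h11dTrunc L (n - 1) × k) :=
      { toFun := fun f => (⟨_, hmem f⟩, c f)
        map_add' := by
          intro a b
          refine Prod.ext (Subtype.ext ?_) (map_add c a b)
          simp only [map_add, Submodule.coe_add, Prod.fst_add]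
          rw [add_div, add_smul]
          abel
        map_smul' := by
          intro r a
          refine Prod.ext (Subtype.ext ?_) (map_smul c r a)
          simp only [map_smul, smul_eq_mul, Submodule.coe_smul, Prod.smul_fst, RingHom.id_apply]
          rw [mul_div_assoc, mul_smul, smul_sub] }
    have hψ : Function.Injective ψ := by
      rw [← LinearMap.ker_eq_bot, LinearMap.ker_eq_bot']
      intro f hf
      have h1 : c f = 0 := congrArg Prod.snd hf
      have h2 := congrArg (fun x : h11dTrunc L (n - 1) × k => ((x.1 : LaurentSeries k))) hf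
      simp only [ψ, LinearMap.coe_mk, AddHom.coe_mk, Prod.fst_zero, Submodule.coe_zero] at h2
      rw [h1, zero_div, zero_smul, sub_zero] at h2
      exact Subtype.ext h2
    haveI : Module.Finite k (h11dTrunc L n) := Module.Finite.of_injective ψ hψ
    refine ⟨inferInstance, ?_⟩
    have h1 := LinearMap.finrank_le_finrank_of_injective hψ
    rw [Module.finrank_prod, Module.finrank_self] at h1
    exact h1

open Classical in
/-- **the count**: `dim L_N + #(gaps in [1, N]) ≤ N + 1` as soon as `dim L₀ ≤ 1`. -/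
theorem h11d_trunc_finrank_add_gaps (L : Submodule k (LaurentSeries k))
    (h0fin : Module.Finite k (h11dTrunc L 0)) (h0 : Module.finrank k (h11dTrunc L 0) ≤ 1)
    (N : ℕ) :
    Module.Finite k (h11dTrunc L (N : ℤ)) ∧
      Module.finrank k (h11dTrunc L (N : ℤ)) +
        ((Finset.Icc (1 : ℤ) N).filter (· ∈ h11dGap L)).card ≤ N + 1 := by
  induction N with
  | zero =>
    refine ⟨by simpa using h0fin, ?_⟩
    have hE : (Finset.Icc (1 : ℤ) ((0 : ℕ) : ℤ)) = ∅ := by
      ext x
      simp only [Finset.mem_Icc, Finset.notMem_empty, iff_false, not_and, not_le]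
      intro _
      push_cast
      omega
    rw [hE, Finset.filter_empty, Finset.card_empty]
    simpa using h0
  | succ N ih =>
    obtain ⟨hfin, hle⟩ := ih
    have hcast : (((N + 1 : ℕ) : ℤ)) - 1 = (N : ℤ) := by push_cast; ring
    haveI : Module.Finite k (h11dTrunc L ((((N + 1 : ℕ) : ℤ)) - 1)) := by
      rw [hcast]; exact hfin
    obtain ⟨hfin', hstep⟩ := h11d_trunc_step L (((N + 1 : ℕ) : ℤ))
    rw [hcast] at hstep
    refine ⟨hfin', ?_⟩
    have hI : Finset.Icc (1 : ℤ) ((N + 1 : ℕ) : ℤ) =
        insert (((N + 1 : ℕ) : ℤ)) (Finset.Icc (1 : ℤ) (N : ℤ)) := by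
      ext x
      simp only [Finset.mem_Icc, Finset.mem_insert]
      push_cast
      omega
    have hnot : (((N + 1 : ℕ) : ℤ)) ∉ Finset.Icc (1 : ℤ) (N : ℤ) := by
      simp only [Finset.mem_Icc, not_and, not_le]
      intro _
      push_cast
      omega
    rw [hI, Finset.filter_insert]
    by_cases hg : (((N + 1 : ℕ) : ℤ)) ∈ h11dGap L
    · rw [if_pos hg, Finset.card_insert_of_notMem
        (fun h => hnot (Finset.mem_of_mem_filter _ h))]
      have heq := h11d_trunc_eq_of_gap L hg
      rw [hcast] at heq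
      rw [heq]
      omega
    · rw [if_neg hg]
      omega

/-- **the number of gaps is at most `g`**, from Riemann's inequality at `∞`:
`N + 1 ≤ dim L_N + g` for all `N`, and `dim L₀ ≤ 1`. -/
theorem h11d_gap_count (L : Submodule k (LaurentSeries k)) (g : ℕ)
    (h0fin : Module.Finite k (h11dTrunc L 0)) (h0 : Module.finrank k (h11dTrunc L 0) ≤ 1)
    (hR : ∀ N : ℕ, N + 1 ≤ Module.finrank k (h11dTrunc L (N : ℤ)) + g) :
    (h11dGap L).Finite ∧ ∀ G : Finset ℤ, (↑G : Set ℤ) ⊆ h11dGap L → G.card ≤ g := by
  classical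
  have key : ∀ G : Finset ℤ, (↑G : Set ℤ) ⊆ h11dGap L → G.card ≤ g := by
    intro G hG
    -- a bound for the elements of `G`
    obtain ⟨N, hN⟩ : ∃ N : ℕ, ∀ x ∈ G, x ≤ (N : ℤ) := by
      refine ⟨(G.sup fun x => x.toNat), fun x hx => ?_⟩
      have h1 : x.toNat ≤ G.sup fun x => x.toNat := Finset.le_sup (f := fun x => x.toNat) hx
      have h2 : x ≤ (x.toNat : ℤ) := Int.self_le_toNat x
      exact le_trans h2 (by exact_mod_cast h1)
    have hsub : G ⊆ (Finset.Icc (1 : ℤ) N).filter (· ∈ h11dGap L) := by
      intro x hx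
      rw [Finset.mem_filter, Finset.mem_Icc]
      exact ⟨⟨(hG hx).1, hN x hx⟩, hG hx⟩
    have h1 := Finset.card_le_card hsub
    have h2 := (h11d_trunc_finrank_add_gaps L h0fin h0 N).2
    have h3 := hR N
    omega
  refine ⟨?_, key⟩
  by_contra hinf
  obtain ⟨t, ht, hcard⟩ := Set.Infinite.exists_subset_card_eq hinf (g + 1)
  have := key t ht
  omega

/-- **DL4 GAP, abstract form**: under Riemann's inequality at `∞` (`N + 1 ≤ dim L_N + g`) and
`dim L₀ ≤ 1`, the orthogonal of `L` in `q k[[q]]` has dimension at most `g`. -/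
theorem h11d_omega_finrank_le (L : Submodule k (LaurentSeries k)) (g : ℕ)
    (h0fin : Module.Finite k (h11dTrunc L 0)) (h0 : Module.finrank k (h11dTrunc L 0) ≤ 1)
    (hR : ∀ N : ℕ, N + 1 ≤ Module.finrank k (h11dTrunc L (N : ℤ)) + g) :
    Module.Finite k (h11dOmega L) ∧ Module.finrank k (h11dOmega L) ≤ g := by
  obtain ⟨hfin, hcard⟩ := h11d_gap_count L g h0fin h0 hR
  obtain ⟨h1, h2⟩ := h11d_finrank_le_card (h11dOmega L) hfin.toFinset
    (fun w hw h0' => by
      rw [Set.Finite.mem_toFinset]
      exact h11d_order_mem_gap hw h0')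
  refine ⟨h1, le_trans h2 (hcard _ ?_)⟩
  intro x hx
  rwa [Finset.mem_coe, Set.Finite.mem_toFinset] at hx

/-- variant with a lower bound by subspaces: it is enough to have, for every `N`, SOME
finite-dimensional subspace `V ≤ L_N` with `N + 1 ≤ dim V + g` (e.g. the image of the
Riemann–Roch space `L(N ∞)`). -/
theorem h11d_omega_finrank_le_of_sub (L : Submodule k (LaurentSeries k)) (g : ℕ)
    (h0fin : Module.Finite k (h11dTrunc L 0)) (h0 : Module.finrank k (h11dTrunc L 0) ≤ 1)
    (hR : ∀ N : ℕ, ∃ V : Submodule k (LaurentSeries k), V ≤ h11dTrunc L (N : ℤ) ∧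
      N + 1 ≤ Module.finrank k V + g) :
    Module.Finite k (h11dOmega L) ∧ Module.finrank k (h11dOmega L) ≤ g := by
  refine h11d_omega_finrank_le L g h0fin h0 (fun N => ?_)
  obtain ⟨V, hV, hle⟩ := hR N
  haveI := (h11d_trunc_finrank_add_gaps L h0fin h0 N).1
  have := Submodule.finrank_mono hV
  omega

end Fermat.Agent.P7
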