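import Mathlib
import Fermat.Agent.P5.H68RRLarge
import Fermat.Agent.P5.H68RRFin

/-!
# Wave 7, block (A), DLOG at the non-good level, leaf H2-EXACT, step GENERIC (helper11)

Abstract function field `F / k` in the Prelude vocabulary with the weak Riemann–Roch package
of P5 (`H13rBase`, `H13rIsGenus`), `k` infinite.

* `h11e_generic` : for every place `Q₀` and every finite set `S` of places with `Q₀ ∉ S` there is
  `m₀` such that for all `m ≥ m₀`: `ℓ(m Q₀) + g = m + 1` and there is `G ∈ L(m Q₀)` with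
  `ord_{Q₀} G = - m` EXACTLY, `G` regular off `Q₀`, and `ord_Q G = 0` for every `Q ∈ S`.
* `h11e_generic_one` : the same for one `m` (existence form, with `m ≥ 1` and `m ≥ n`).

Mathlib + Prelude + the landed RR leaves of P5 only.
-/

set_option autoImplicit false
set_option linter.style.haveILetI false
set_option linter.unusedSectionVars false

open AlgebraicCurve

noncomputable section

namespace Fermat.Agent.P7

open Fermat.Agent.P5

variable {k F : Type*} [Field k] [Field F] [Algebra k F]

/-- a proper inclusion of dimensions gives a proper comap. -/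
theorem h11e_comap_ne_top (hB : H13rBase k F) {D E : Divisor k F}
    (hlt : h13rL k F E < h13rL k F D) :
    (riemannRochSpace E).comap (riemannRochSpace D).subtype ≠ ⊤ := by
  intro htop
  have hle : riemannRochSpace D ≤ riemannRochSpace E := by
    intro x hx
    have h1 : (⟨x, hx⟩ : ↥(riemannRochSpace D)) ∈
        (riemannRochSpace E).comap (riemannRochSpace D).subtype := by
      rw [htop]
      exact Submodule.mem_top
    exact h1
  haveI : Module.Finite k ↥(riemannRochSpace E) := h68r_finite hB E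
  have h2 := Submodule.finrank_mono hle
  unfold h13rL at hlt
  omega

/-- **GENERIC**: functions with an exact pole at `Q₀`, regular elsewhere, without zero on a
finite set `S`. -/
theorem h11e_generic [Infinite k] (hB : H13rBase k F) {g : ℕ} (hg : H13rIsGenus k F g)
    (Q₀ : Place k F) (S : Finset (Place k F)) (hS : Q₀ ∉ S) :
    ∃ m₀ : ℕ, ∀ m : ℕ, m₀ ≤ m →
      (h13rL k F (Finsupp.single Q₀ (m : ℤ)) : ℤ) + g = m + 1 ∧
      ∃ G : F, G ≠ 0 ∧ G ∈ riemannRochSpace (Finsupp.single Q₀ (m : ℤ)) ∧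
        (∀ v : Place k F, v ≠ Q₀ → 0 ≤ v.ord G) ∧ Q₀.ord G = -(m : ℤ) ∧
        ∀ Q ∈ S, Q.ord G = 0 := by
  classical
  obtain ⟨⟨c, hc⟩, -⟩ := h68r_large k F hB g hg
  refine ⟨(c + 1).toNat, fun m hm => ?_⟩
  have hmc : c + 1 ≤ (m : ℤ) := by
    have h1 : c + 1 ≤ ((c + 1).toNat : ℤ) := Int.self_le_toNat (c + 1)
    have h2 : (((c + 1).toNat : ℕ) : ℤ) ≤ (m : ℤ) := by exact_mod_cast hm
    exact h1.trans h2
  obtain ⟨D, hD⟩ : ∃ D : Divisor k F, D = Finsupp.single Q₀ (m : ℤ) := ⟨_, rfl⟩
  rw [← hD]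
  have hDQ₀ : D Q₀ = (m : ℤ) := by rw [hD, Finsupp.single_eq_same]
  have hDv : ∀ v : Place k F, v ≠ Q₀ → D v = 0 := by
    intro v hv
    rw [hD, Finsupp.single_apply, if_neg (Ne.symm hv)]
  have hdegD : Divisor.degree D = m := by
    rw [hD, Divisor.degree_single, hB.deg_one Q₀]
    simp
  have hlD : (h13rL k F D : ℤ) + g = m + 1 := by
    have := hc D (by rw [hdegD]; omega)
    rw [hdegD] at this
    exact this
  refine ⟨hlD, ?_⟩
  -- the subspaces to avoid
  let P : Option {Q // Q ∈ S} → Place k F := fun i =>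
    match i with
    | none => Q₀
    | some Q => Q.1
  have hdegE : ∀ i, Divisor.degree (D - Finsupp.single (P i) 1) = (m : ℤ) - 1 := by
    intro i
    rw [map_sub, hdegD, Divisor.degree_single, hB.deg_one (P i)]
    simp
  have hlE : ∀ i, (h13rL k F (D - Finsupp.single (P i) 1) : ℤ) + g = m := by
    intro i
    have := hc (D - Finsupp.single (P i) 1) (by rw [hdegE i]; omega)
    rw [hdegE i] at this
    omega
  have hlt : ∀ i, h13rL k F (D - Finsupp.single (P i) 1) < h13rL k F D := by
    intro i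
    have := hlE i
    omega
  obtain ⟨x, hx⟩ := Submodule.exists_forall_notMem_of_forall_ne_top
    (fun i => (riemannRochSpace (D - Finsupp.single (P i) 1)).comap (riemannRochSpace D).subtype)
    (fun i => h11e_comap_ne_top hB (hlt i))
  have hxD : (x : F) ∈ riemannRochSpace D := x.2
  have hxE : ∀ i, (x : F) ∉ riemannRochSpace (D - Finsupp.single (P i) 1) := fun i h => hx i h
  have hx0 : (x : F) ≠ 0 := by
    intro h0
    apply hxE none
    rw [h0]
    exact Submodule.zero_mem _
  have hmem := mem_riemannRochSpace_iff.1 hxD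
  have hord : ∀ v : Place k F, -D v ≤ v.ord (x : F) := by
    intro v
    rcases hmem v with h | h
    · exact absurd h hx0
    · exact h
  have hreg : ∀ v : Place k F, v ≠ Q₀ → 0 ≤ v.ord (x : F) := by
    intro v hv
    have := hord v
    rw [hDv v hv] at this
    simpa using this
  have hQ₀ : -(m : ℤ) ≤ Q₀.ord (x : F) := by
    have := hord Q₀
    rw [hDQ₀] at this
    exact this
  -- membership criterion for the smaller spaces
  have hcrit : ∀ Q : Place k F, (∀ v : Place k F, v ≠ Q → -D v ≤ v.ord (x : F)) →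
      -D Q + 1 ≤ Q.ord (x : F) → (x : F) ∈ riemannRochSpace (D - Finsupp.single Q 1) := by
    intro Q h1 h2
    rw [mem_riemannRochSpace_iff]
    intro v
    right
    by_cases hv : v = Q
    · subst hv
      rw [Finsupp.sub_apply, Finsupp.single_eq_same]
      omega
    · rw [Finsupp.sub_apply, Finsupp.single_apply, if_neg (Ne.symm hv), sub_zero]
      exact h1 v hv
  refine ⟨x, hx0, hxD, hreg, ?_, ?_⟩
  · -- exact order at `Q₀`
    by_contra hne
    have hgt : -(m : ℤ) + 1 ≤ Q₀.ord (x : F) := by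
      rcases lt_or_eq_of_le hQ₀ with h | h
      · omega
      · exact absurd h.symm hne
    apply hxE none
    show (x : F) ∈ riemannRochSpace (D - Finsupp.single Q₀ 1)
    exact hcrit Q₀ (fun v _ => hord v) (by rw [hDQ₀]; exact hgt)
  · -- no zero on `S`
    intro Q hQ
    have hQne : Q ≠ Q₀ := fun h => hS (h ▸ hQ)
    have h0 : 0 ≤ Q.ord (x : F) := hreg Q hQne
    by_contra hne
    have hpos : 1 ≤ Q.ord (x : F) := by
      rcases lt_or_eq_of_le h0 with h | h
      · omega
      · exact absurd h.symm hne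
    apply hxE (some ⟨Q, hQ⟩)
    show (x : F) ∈ riemannRochSpace (D - Finsupp.single Q 1)
    exact hcrit Q (fun v _ => hord v) (by rw [hDv Q hQne]; simpa using hpos)

/-- **GENERIC**, existence form: one `m ≥ max 1 n`. -/
theorem h11e_generic_one [Infinite k] (hB : H13rBase k F) {g : ℕ} (hg : H13rIsGenus k F g)
    (Q₀ : Place k F) (S : Finset (Place k F)) (hS : Q₀ ∉ S) (n : ℕ) :
    ∃ m : ℕ, 1 ≤ m ∧ n ≤ m ∧
      (h13rL k F (Finsupp.single Q₀ (m : ℤ)) : ℤ) + g = m + 1 ∧
      ∃ G : F, G ≠ 0 ∧ G ∈ riemannRochSpace (Finsupp.single Q₀ (m : ℤ)) ∧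
        (∀ v : Place k F, v ≠ Q₀ → 0 ≤ v.ord G) ∧ Q₀.ord G = -(m : ℤ) ∧
        ∀ Q ∈ S, Q.ord G = 0 := by
  obtain ⟨m₀, h⟩ := h11e_generic hB hg Q₀ S hS
  refine ⟨max m₀ (max 1 n), ?_, ?_, h _ (le_max_left _ _)⟩
  · exact (le_max_left 1 n).trans (le_max_right _ _)
  · exact (le_max_right 1 n).trans (le_max_right _ _)

end Fermat.Agent.P7
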