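import Fermat.Agent.P7.H99W7Iface
import Fermat.Agent.S30.Inputs
import Fermat.Agent.Cheb.WeakChebotarev
import Fermat.Agent.EFrob.Main
import Fermat.Agent.EFrob.DetCyc

/-!
# Wave 7 (S40): **(G2) CHAR** — the frozen Prop `H99wChar` (helper12)

`h12c_char : H99wChar` (unconditional): if `g ∈ G_ℚ` acts on `μ_p` by `μ ↦ μ ^ e` and satisfies
`g² - t g + e = 0` on `W[p]`, then `g² - t g + e = 0` on every `p`-torsion point of `J₀(N)` which
is an eigenvector of the good Hecke operators with the eigenvalues `a_ℓ(W)`.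

Proof: weak Chebotarev on the compositum of the fields of `J₀(N)[p]`, `W[p]` and `μ_p`:
`g = f ^ n` there, `f` a Frobenius at a good prime `ℓ ∤ N p`.  Eichler–Shimura on `J₀(N)[p]`
(`f² - T_ℓ f + ℓ = 0`) and on `W[p]` (`EFrob.finalRelU`) give `g² - t_n g + ℓ ^ n = 0` on both
(`t_n` the `n`-th power sum of the roots of `X² - a_ℓ X + ℓ`).  The action on `μ_p` gives
`ℓ ^ n ≡ e (mod p)`, and comparing the two relations on a nonzero point of `W[p]` gives
`t_n ≡ t (mod p)`.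
-/

set_option autoImplicit false
set_option linter.style.haveILetI false
set_option linter.unusedSectionVars false

open ModularCurve WeierstrassCurve WeierstrassCurve.Affine

noncomputable section

namespace Fermat.Agent.P7

open Fermat.Agent.S37
open Fermat.Agent.S30 (acTrace)

/-- **power relation**: if `x² - a x + ℓ = 0` in a ring then `x ^ k` satisfies
`X² - t_k X + ℓ ^ k`, `t_k` the `k`-th power sum of the roots of `X² - a X + ℓ`. -/
theorem h12c_pow_rel {E : Type*} [Ring E] (x : E) (a ℓ : ℤ)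
    (h : x * x - (a : E) * x + (ℓ : E) = 0) (k : ℕ) :
    x ^ k * x ^ k - ((acTrace a ℓ k : ℤ) : E) * x ^ k + ((ℓ ^ k : ℤ) : E) = 0 := by
  have hax : Commute (a : E) x := Int.cast_commute a x
  have hc : Commute x ((a : E) - x) := (hax.symm).sub_right (Commute.refl x)
  have hxy : x * ((a : E) - x) = (ℓ : E) := by
    have h1 : x * ((a : E) - x) = -(x * x - (a : E) * x) := by
      rw [mul_sub, ← hax.eq]
      abel
    rw [h1, eq_neg_of_add_eq_zero_left h, neg_neg]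
  have hsum : x + ((a : E) - x) = (a : E) := by abel
  have hpow : x ^ k + ((a : E) - x) ^ k = ((acTrace a ℓ k : ℤ) : E) := by
    refine Fermat.Agent.S31.TI_pow_add_pow hc (fun j => ((acTrace a ℓ j : ℤ) : E)) ?_ ?_ ?_ k
    · show ((acTrace a ℓ 0 : ℤ) : E) = 2
      rw [Fermat.Agent.S30.acTrace_zero]
      norm_num
    · show ((acTrace a ℓ 1 : ℤ) : E) = x + ((a : E) - x)
      rw [Fermat.Agent.S30.acTrace_one, hsum]
    · intro i
      show ((acTrace a ℓ (i + 2) : ℤ) : E) = (x + ((a : E) - x)) * ((acTrace a ℓ (i + 1) : ℤ) : E)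
        - (x * ((a : E) - x)) * ((acTrace a ℓ i : ℤ) : E)
      rw [Fermat.Agent.S30.acTrace_add_two, hsum, hxy]
      push_cast
      rfl
  have hprod : ((a : E) - x) ^ k * x ^ k = ((ℓ ^ k : ℤ) : E) := by
    rw [← (hc.symm).mul_pow, (hc.symm).eq, hxy]
    push_cast
    rfl
  rw [← hpow, add_mul, hprod]
  abel

/-- **power relation on a stable subgroup**, elementwise. -/
theorem h12c_pow_rel_on {X : Type*} [AddCommGroup X] (φ : AddMonoid.End X) (Y : AddSubgroup X)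
    (hY : ∀ y ∈ Y, φ y ∈ Y) (a ℓ : ℤ)
    (h : ∀ y ∈ Y, φ (φ y) - a • φ y + ℓ • y = 0) (k : ℕ) (y : X) (hy : y ∈ Y) :
    (φ ^ k) ((φ ^ k) y) - acTrace a ℓ k • (φ ^ k) y + (ℓ ^ k) • y = 0 := by
  let ψ : AddMonoid.End Y :=
    AddMonoidHom.codRestrict ((φ : X →+ X).comp Y.subtype) Y (fun z => hY z z.2)
  have hψ : ∀ z : Y, ((ψ z : Y) : X) = φ z := fun z => rfl
  have hrel : ψ * ψ - ((a : ℤ) : AddMonoid.End Y) * ψ + ((ℓ : ℤ) : AddMonoid.End Y) = 0 := by
    refine AddMonoidHom.ext fun z => Subtype.ext ?_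
    have e1 : (((a : ℤ) : AddMonoid.End Y) * ψ) z = a • ψ z :=
      AddMonoid.End.intCast_apply a (ψ z)
    have e2 : (((ℓ : ℤ) : AddMonoid.End Y)) z = ℓ • z := AddMonoid.End.intCast_apply ℓ z
    show (((ψ * ψ) z - (((a : ℤ) : AddMonoid.End Y) * ψ) z + (((ℓ : ℤ) : AddMonoid.End Y)) z : Y) :
      X) = 0
    rw [e1, e2]
    exact h z z.2
  have hk := h12c_pow_rel ψ a ℓ hrel k
  have hpow : ∀ (j : ℕ) (z : Y), (((ψ ^ j) z : Y) : X) = (φ ^ j) z := by
    intro j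
    induction j with
    | zero => intro z; rfl
    | succ j ih =>
      intro z
      rw [pow_succ, pow_succ]
      show (((ψ ^ j) (ψ z) : Y) : X) = (φ ^ j) (φ z)
      rw [ih (ψ z), hψ]
  have h3 := congrArg (fun F : AddMonoid.End Y => ((F ⟨y, hy⟩ : Y) : X)) hk
  have e1 : (((acTrace a ℓ k : ℤ) : AddMonoid.End Y) * ψ ^ k) ⟨y, hy⟩ =
      acTrace a ℓ k • (ψ ^ k) ⟨y, hy⟩ := AddMonoid.End.intCast_apply _ _
  have e2 : (((ℓ ^ k : ℤ) : AddMonoid.End Y)) ⟨y, hy⟩ = (ℓ ^ k) • (⟨y, hy⟩ : Y) :=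
    AddMonoid.End.intCast_apply _ _
  have h4 : (((ψ ^ k) ((ψ ^ k) ⟨y, hy⟩) - acTrace a ℓ k • (ψ ^ k) ⟨y, hy⟩
      + (ℓ ^ k) • (⟨y, hy⟩ : Y) : Y) : X) = 0 := by
    rw [← e1, ← e2]
    exact h3
  rw [AddSubgroup.coe_add, AddSubgroup.coe_sub, hpow, AddSubgroup.coe_zsmul,
    AddSubgroup.coe_zsmul, hpow] at h4
  exact h4

/-- a power of the endomorphism of a group element. -/
theorem h12c_toEnd_pow {G X : Type*} [Group G] [AddCommGroup X] [DistribMulAction G X] (f : G)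
    (n : ℕ) (y : X) : ((DistribMulAction.toAddMonoidEnd G X f) ^ n) y = (f ^ n) • y := by
  rw [← map_pow]
  rfl

/-- An integer killing a nonzero element of prime order `p` is divisible by `p`. -/
theorem h12c_dvd_of_zsmul_eq_zero {X : Type*} [AddCommGroup X] {p : ℕ} (hp : p.Prime) {x : X}
    (hx : x ≠ 0) (hpx : p • x = 0) {m : ℤ} (hm : m • x = 0) : (p : ℤ) ∣ m := by
  by_contra hnd
  have hcop : IsCoprime m (p : ℤ) := by
    rw [isCoprime_comm]
    exact (Nat.prime_iff_prime_int.mp hp).coprime_iff_not_dvd.mpr hnd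
  obtain ⟨u, v, huv⟩ := hcop
  apply hx
  have h1 : (u * m + v * (p : ℤ)) • x = x := by rw [huv, one_smul]
  rw [add_smul, mul_smul, mul_smul, hm, smul_zero, natCast_zsmul, hpx, smul_zero, add_zero] at h1
  exact h1.symm

/-- **the abstract transfer on the eigenspace**: `T` commutes with the action of `G`, a Frobenius
`f` satisfies `f² - T f + ℓ = 0` on the `p`-torsion, `g = f ^ n` on the `p`-torsion, and `(t, e)`
is congruent to `(t_n, ℓ ^ n)` modulo `p`; then `g² - t g + e = 0` on the `a`-eigenvectors of `T`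
in the `p`-torsion. -/
theorem h12c_transfer {G X : Type*} [Group G] [AddCommGroup X] [DistribMulAction G X]
    (T : X →+ X) (hT : ∀ (σ : G) (x : X), T (σ • x) = σ • T x)
    (p : ℕ) (a : ℤ) (ℓ : ℕ) (f g : G) (n : ℕ) (t : ℤ) (e : ℕ)
    (hES : ∀ y : X, p • y = 0 → f • f • y - T (f • y) + ℓ • y = 0)
    (hg : ∀ y : X, p • y = 0 → g • y = (f ^ n) • y)
    (ht : (p : ℤ) ∣ acTrace a (ℓ : ℤ) n - t) (he : (p : ℤ) ∣ (ℓ : ℤ) ^ n - (e : ℤ))
    (x : X) (hx : p • x = 0) (hTx : T x = a • x) :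
    g • g • x - t • g • x + e • x = 0 := by
  let YV : AddSubgroup X :=
    { carrier := {y | p • y = 0 ∧ T y = a • y}
      zero_mem' := ⟨smul_zero _, by rw [map_zero, smul_zero]⟩
      add_mem' := fun {u v} hu hv => ⟨by rw [smul_add, hu.1, hv.1, add_zero],
        by rw [map_add, hu.2, hv.2, smul_add]⟩
      neg_mem' := fun {u} hu => ⟨by rw [smul_neg, hu.1, neg_zero],
        by rw [map_neg, hu.2, smul_neg]⟩ }
  have hstab : ∀ (σ : G) (y : X), y ∈ YV → σ • y ∈ YV := by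
    intro σ y hy
    refine ⟨?_, ?_⟩
    · show p • σ • y = 0
      rw [smul_comm, hy.1, smul_zero]
    · show T (σ • y) = a • σ • y
      rw [hT, hy.2, smul_comm]
  have hxY : x ∈ YV := ⟨hx, hTx⟩
  have hVrel0 : ∀ y ∈ YV, f • f • y - a • f • y + (ℓ : ℤ) • y = 0 := by
    intro y hy
    have h := hES y hy.1
    rw [(hstab f y hy).2] at h
    rw [natCast_zsmul]
    exact h
  have hVrel := h12c_pow_rel_on (DistribMulAction.toAddMonoidEnd G X f) YV
      (fun y hy => hstab f y hy) a (ℓ : ℤ) hVrel0 n x hxY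
  rw [h12c_toEnd_pow, h12c_toEnd_pow] at hVrel
  rw [← hg x hx, ← hg (g • x) (hstab g x hxY).1] at hVrel
  obtain ⟨c, hc⟩ := ht
  obtain ⟨d, hd⟩ := he
  have e1 : acTrace a (ℓ : ℤ) n = t + (p : ℤ) * c := by linarith
  have e2 : (ℓ : ℤ) ^ n = (e : ℤ) + (p : ℤ) * d := by linarith
  have hpx : (p : ℤ) • x = 0 := by rw [natCast_zsmul]; exact hx
  have hpgx : (p : ℤ) • (g • x) = 0 := by rw [natCast_zsmul]; exact (hstab g x hxY).1
  rw [e1, e2, add_smul, add_smul, mul_smul, mul_smul, smul_comm (p : ℤ) c, hpgx, smul_zero,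
    smul_comm (p : ℤ) d, hpx, smul_zero, add_zero, add_zero, natCast_zsmul] at hVrel
  exact hVrel

set_option maxHeartbeats 1600000 in
/-- **(G2) CHAR** (frozen Prop `H99wChar` of `P7/H99W7Iface.lean`). -/
theorem h12c_char : H99wChar := by
  intro W hΔ p hp N _ hpN g t e hcyc hrelW x hx heig
  classical
  have hΔ' : (W.map (Int.castRingHom ℚ)).Δ ≠ 0 := by
    rw [WeierstrassCurve.map_Δ]
    simpa using hΔ
  haveI : Finite (Fermat.Agent.S13.Tors (W.map (Int.castRingHom ℚ)) p) :=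
    Fermat.Agent.Tors.finite_torsionBy_qbar (W.map (Int.castRingHom ℚ)) hΔ' p hp.ne_zero
  obtain ⟨S₁, hS₁⟩ :=
    Fermat.Agent.S13.Asm.exists_finset_fix (W := W.map (Int.castRingHom ℚ)) (p := p)
  have hHG := Fermat.Agent.S30.geometricInputsFull.1 N
  have hES := Fermat.Agent.S30.geometricInputsFull.2.1 N p hp
  have hTF := Fermat.Agent.S30.geometricInputsFull.2.2.1 N p hp.pos
  obtain ⟨L₁, hL₁, h₁⟩ := hTF.2
  haveI : NeZero p := ⟨hp.ne_zero⟩
  haveI : NeZero (p : Kbar) := ⟨Nat.cast_ne_zero.mpr hp.ne_zero⟩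
  obtain ⟨ζ, hζ⟩ := HasEnoughRootsOfUnity.exists_primitiveRoot Kbar p
  let L₂ : IntermediateField ℚ Kbar :=
    IntermediateField.adjoin ℚ ((insert ζ S₁ : Finset Kbar) : Set Kbar)
  have hAlg : Algebra.IsAlgebraic ℚ Kbar := AlgebraicClosure.isAlgebraic ℚ
  have hL₂ : FiniteDimensional ℚ L₂ :=
    IntermediateField.finiteDimensional_adjoin
      (fun x _ => (Algebra.IsAlgebraic.isAlgebraic (R := ℚ) x).isIntegral)
  have hfd : FiniteDimensional ℚ ↥(L₁ ⊔ L₂) := IntermediateField.finiteDimensional_sup L₁ L₂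
  obtain ⟨ℓ, hℓ, hℓS, A, hA, f, hf, n, hn⟩ := Fermat.Agent.Cheb.weakChebotarev (L₁ ⊔ L₂) hfd g
    (N.primeFactors ∪ W.Δ.natAbs.primeFactors)
  simp only [Finset.mem_union, Nat.mem_primeFactors, not_or, not_and, ne_eq,
    Int.natAbs_eq_zero] at hℓS
  obtain ⟨hℓN', hℓΔ⟩ := hℓS
  have hN0 : N ≠ 0 := NeZero.ne N
  have hℓN : ¬ ℓ ∣ N := fun h => hℓN' hℓ h hN0
  have hgood : W.IsGoodPrimeFor ℓ := by
    intro hdvd
    exact hℓΔ hℓ (Int.natCast_dvd.1 hdvd) hΔ
  have hℓp : ℓ ≠ p := fun h => hℓN (h ▸ hpN)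
  have hℓNp : ¬ ℓ ∣ N * p := by
    intro h
    rcases (Nat.Prime.dvd_mul hℓ).mp h with h | h
    · exact hℓN h
    · exact hℓp ((Nat.prime_dvd_prime_iff_eq hℓ hp).mp h)
  -- `(f ^ n)⁻¹ * g` fixes the compositum
  have hσ : ∀ y ∈ L₁ ⊔ L₂, ((f ^ n)⁻¹ * g) y = y := fun y hy => by
    rw [AlgEquiv.mul_apply, hn y hy]
    exact (f ^ n).symm_apply_apply y
  have hS₁L : ∀ s ∈ insert ζ S₁, s ∈ L₁ ⊔ L₂ := fun s hs =>
    (le_sup_right : L₂ ≤ L₁ ⊔ L₂) (IntermediateField.subset_adjoin ℚ _ (Finset.mem_coe.2 hs))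
  -- `g = f ^ n` on `W[p]`
  have hgW : ∀ P : H99wTors W p, g • P = (f ^ n) • P := by
    intro P
    have h1 : ((f ^ n)⁻¹ * g) • P = P :=
      hS₁ _ (fun s hs => hσ s (hS₁L s (Finset.mem_insert_of_mem hs))) P
    rw [mul_smul, inv_smul_eq_iff] at h1
    exact h1
  -- `g = f ^ n` on `J₀(N)[p]`
  have hgV : ∀ y : JZero N, p • y = 0 → g • y = (f ^ n) • y := by
    intro y hy
    have h1 : ((f ^ n)⁻¹ * g) • y = y :=
      h₁ _ (fun z hz => hσ z ((le_sup_left : L₁ ≤ L₁ ⊔ L₂) hz)) y hy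
    rw [mul_smul, inv_smul_eq_iff] at h1
    exact h1
  -- the cyclotomic exponent
  have hmod : ℓ ^ n ≡ e [MOD p] := by
    have hζ1 : g ζ = (f ^ n) ζ := hn ζ (hS₁L ζ (Finset.mem_insert_self _ _))
    have h2 : ζ ^ (ℓ ^ n) = ζ ^ e := by
      rw [← Fermat.Agent.EFrob.DC_frob_pow_zeta hp hℓ hℓp A hA f hf hζ.pow_eq_one n, ← hζ1,
        hcyc ζ hζ.pow_eq_one]
    exact Fermat.Agent.S29.CycChar.modEq_of_pow_eq hζ hp.pos h2
  have hdvd_e : (p : ℤ) ∣ ((ℓ : ℤ) ^ n - (e : ℤ)) := by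
    have h3 : ((ℓ ^ n : ℕ) : ℤ) ≡ (e : ℤ) [ZMOD (p : ℤ)] := Int.natCast_modEq_iff.mpr hmod
    have h4 := (Int.modEq_iff_dvd.mp h3.symm)
    push_cast at h4
    exact h4
  -- the power relation on `W[p]`
  have hWrel : ∀ P : H99wTors W p,
      (f ^ n) • (f ^ n) • P - acTrace (W.apOfModel ℓ) (ℓ : ℤ) n • (f ^ n) • P
        + ((ℓ : ℤ) ^ n) • P = 0 := by
    intro P
    have h := h12c_pow_rel_on (DistribMulAction.toAddMonoidEnd GQ (H99wTors W p) f) ⊤
      (fun _ _ => AddSubgroup.mem_top _) (W.apOfModel ℓ) (ℓ : ℤ) (fun y _ => ?_) n P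
      (AddSubgroup.mem_top _)
    · rw [h12c_toEnd_pow, h12c_toEnd_pow] at h
      exact h
    · show f • f • y - (W.apOfModel ℓ) • f • y + (ℓ : ℤ) • y = 0
      apply Subtype.ext
      have hy : (p : ℤ) • (y : ((W.map (Int.castRingHom ℚ))⁄Kbar).Point) = 0 :=
        (Submodule.mem_torsionBy_iff _ _).mp y.2
      exact Fermat.Agent.EFrob.finalRelU W ℓ p hℓ hp hℓp hgood A hA f hf _ hy
  -- `t` is the trace modulo `p`
  have hdvd_t : (p : ℤ) ∣ (acTrace (W.apOfModel ℓ) (ℓ : ℤ) n - t) := by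
    haveI : Nontrivial (H99wTors W p) :=
      Fermat.Agent.Tors.nontrivial_torsionBy_qbar (W.map (Int.castRingHom ℚ)) hΔ' p hp.two_le
    obtain ⟨P, hP⟩ := exists_ne (0 : H99wTors W p)
    have hpP : ∀ Q : H99wTors W p, (p : ℤ) • Q = 0 := fun Q => by
      apply Subtype.ext
      exact (Submodule.mem_torsionBy_iff _ _).mp Q.2
    have hgP : g • P ≠ 0 := by
      intro h0
      apply hP
      have := congrArg (fun Q => g⁻¹ • Q) h0
      simpa using this
    have h1 := hrelW P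
    have h2 := hWrel P
    rw [← hgW P, ← hgW (g • P)] at h2
    have h3 : (acTrace (W.apOfModel ℓ) (ℓ : ℤ) n - t) • g • P = ((ℓ : ℤ) ^ n - (e : ℤ)) • P := by
      have e3 : (e : ℕ) • P = (e : ℤ) • P := (natCast_zsmul P e).symm
      rw [e3] at h1
      rw [sub_smul, sub_smul]
      have h5 : g • g • P = t • g • P - (e : ℤ) • P := by
        rw [← sub_eq_zero, ← h1]; abel
      have h6 : g • g • P = acTrace (W.apOfModel ℓ) (ℓ : ℤ) n • g • P - ((ℓ : ℤ) ^ n) • P := by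
        rw [← sub_eq_zero, ← h2]; abel
      rw [h5] at h6
      rw [← sub_eq_zero]
      have h7 := sub_eq_zero.mpr h6
      rw [← neg_eq_zero, ← h7]
      abel
    obtain ⟨c, hc⟩ := hdvd_e
    rw [hc, mul_smul, hpP, ] at h3
    have hpgP : p • (g • P) = 0 := by
      have := hpP (g • P)
      rwa [natCast_zsmul] at this
    exact h12c_dvd_of_zsmul_eq_zero hp hgP hpgP h3
  -- the `V` side: the abstract transfer on the `T_ℓ`-eigenspace in `J₀(N)[p]`
  exact h12c_transfer (heckeOperatorBar N ⟨ℓ, hℓ⟩).toAddMonoidHom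
    (fun σ y => hHG.2 ⟨ℓ, hℓ⟩ σ y) p (W.apOfModel ℓ) ℓ f g n t e
    (fun y hy => hES.2 ℓ hℓ hℓNp A hA f hf y ⟨1, by rw [pow_one]; exact hy⟩)
    hgV hdvd_t hdvd_e x hx (heig ⟨ℓ, hℓ⟩ ⟨hgood, hℓN⟩)

end Fermat.Agent.P7
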