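import Fermat.Agent.P7.H12Transport
import Fermat.Agent.S05.FreyArith

/-!
# Wave 7 (S44), Frey bridge for LOCAL-MULT (helper12, prefix `h12t_` / `H12t`)

`H77mLocalFrey` (the frozen Prop of the local leaf of S44) is reduced to the local statement for
the SHORT NODAL models of the Frey curve at `p ∣ a b c` (the pattern of `S05/Bridge81.lean`):

* `H12tLocalQ E p A` : the body of `H99wLocal` for a curve `E / ℚ` at ONE place `A`;
* `H12tNodalQ` : the local statement for every short nodal model over `ℚ`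
  (`S05.IsShortNodal A p E`), at the place `A`;
* `h12t_localFrey_of_nodalQ : H12tNodalQ → H77mLocalFrey`;
* `H12tNodalZ` : the local statement for every short nodal INTEGER model
  (`a₁ = a₃ = a₆ = 0`, `p ∤ a₂`, `a₄ = u π ^ p`, `p ∣ π`, `π ≠ 0`, `p ∤ u`);
* `h12t_localFrey_of_nodalZ : H12tNodalZ → H77mLocalFrey`;
* the integer short models `h12tShortZ P`, `h12tShortCZ P` are integral models of `P.freyCurve`.
-/

set_option autoImplicit false
set_option linter.unusedSectionVars false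
set_option linter.style.haveILetI false

open WeierstrassCurve WeierstrassCurve.Affine

noncomputable section

namespace Fermat.Agent.P7

open Fermat.Agent.S37 Fermat.Agent.S05

/-- the body of `H99wLocal` for a curve `E` over `ℚ` at ONE place `A`. -/
def H12tLocalQ (E : WeierstrassCurve ℚ) (p : ℕ) (A : ValuationSubring Kbar) : Prop :=
  (∀ a ∈ A.inertiaSubgroupIn ℚ, ∀ e : ℕ, (∀ μ : Kbar, μ ^ p = 1 → a μ = μ ^ e) →
    ∀ P : Submodule.torsionBy ℤ (E⁄Kbar).Point p,
      a • a • P - ((1 : ℤ) + e) • a • P + e • P = 0) →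
  ∃ β : Kbar, β ∈ A ∧ β⁻¹ ∈ A ∧
    (∀ a ∈ A.inertiaSubgroupIn ℚ, H99wFixMu p a → a (β ^ p) = β ^ p) ∧
    ∀ a ∈ A.inertiaSubgroupIn ℚ, H99wFixMu p a → a β = β →
      ∀ P : Submodule.torsionBy ℤ (E⁄Kbar).Point p, a • P = P

/-- `H77mLocalAt W p` is the local statement for `W_ℚ` at every place over `p`. -/
theorem h12t_localAt_iff_Q (W : WeierstrassCurve ℤ) (p : ℕ) :
    H77mLocalAt W p ↔
      ∀ A : ValuationSubring Kbar, A.LiesOverPrime p →
        H12tLocalQ (W.map (Int.castRingHom ℚ)) p A :=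
  Iff.rfl

/-- **transport of the local statement at one place along a variable change over `ℚ`.** -/
theorem h12t_localQ_of_vc (E₁ E₂ : WeierstrassCurve ℚ) (C : VariableChange ℚ)
    (hC : C • E₁ = E₂) (p : ℕ) (A : ValuationSubring Kbar) (h : H12tLocalQ E₁ p A) :
    H12tLocalQ E₂ p A := by
  obtain ⟨r, hr, he⟩ := Fermat.Agent.EFrob.CG_transport E₁ E₂ C hC p
  obtain ⟨r', hr', he'⟩ := Fermat.Agent.EFrob.CG_transport' E₁ E₂ C hC p
  intro hord
  obtain ⟨β, hβ, hβ', hβp, hfix⟩ := h (fun a ha e hcyc P₀ => by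
    apply hr'
    have h1 := hord a ha e hcyc (r' P₀)
    rw [← he', ← he', ← map_zsmul, ← map_nsmul, ← map_sub, ← map_add] at h1
    rw [h1, map_zero])
  exact ⟨β, hβ, hβ', hβp, fun a ha hmu haβ P => hr (by rw [he]; exact hfix a ha hmu haβ (r P))⟩

/-- **the local statement for the short nodal models over `ℚ`** (frozen shape of the input). -/
def H12tNodalQ : Prop :=
  ∀ (p : ℕ), p.Prime → 5 ≤ p → ∀ A : ValuationSubring Kbar, A.LiesOverPrime p →
    ∀ E : WeierstrassCurve ℚ, E.Δ ≠ 0 → IsShortNodal A p E → H12tLocalQ E p A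

/-- **LOCAL-MULT from the short nodal models over `ℚ`.** -/
theorem h12t_localFrey_of_nodalQ (h : H12tNodalQ) : H77mLocalFrey := by
  intro P W hW hdvd
  obtain ⟨C, hC⟩ := hW
  have hΔE : P.freyCurve.Δ ≠ 0 := Fermat.Agent.S13.freyCurve_Δ_ne_zero P
  have hΔS : (freyShort P).Δ ≠ 0 := by
    intro h0
    apply hΔE
    rw [freyCurve_eq_smul_short P, WeierstrassCurve.variableChange_Δ, h0, mul_zero]
  have hΔC : (freyShortC P).Δ ≠ 0 := by
    intro h0
    apply hΔE
    rw [freyCurve_eq_smul_shortC P, WeierstrassCurve.variableChange_Δ, h0, mul_zero]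
  have hpr : Prime (P.p : ℤ) := Nat.prime_iff_prime_int.mp P.pp
  rw [h12t_localAt_iff_Q]
  intro A hA
  have hAq : ((P.p : ℕ) : Kbar) ∈ A.nonunits := hA
  rcases hpr.dvd_or_dvd hdvd with hab | hc
  · have hS : H12tLocalQ (freyShort P) P.p A := by
      rcases hpr.dvd_or_dvd hab with ha | hb
      · exact h P.p P.pp P.hp5 A hA _ hΔS (freyShort_isShortNodal_of_dvd_a P P.pp hAq ha)
      · exact h P.p P.pp P.hp5 A hA _ hΔS (freyShort_isShortNodal_of_dvd_b P P.pp hAq hb)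
    refine h12t_localQ_of_vc (freyShort P) _ (C * freyVC) ?_ P.p A hS
    rw [mul_smul, ← freyCurve_eq_smul_short P, hC]
  · have hS : H12tLocalQ (freyShortC P) P.p A :=
      h P.p P.pp P.hp5 A hA _ hΔC (freyShortC_isShortNodal_of_dvd_c P P.pp hAq hc)
    refine h12t_localQ_of_vc (freyShortC P) _ (C * freyVCC P) ?_ P.p A hS
    rw [mul_smul, ← freyCurve_eq_smul_shortC P, hC]

/-! ### integer short models -/

/-- the integer short model `Y² = X³ + (b^p - a^p) X² - (ab)^p X`. -/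
def h12tShortZ (P : FreyPackage) : WeierstrassCurve ℤ :=
  ⟨0, P.b ^ P.p - P.a ^ P.p, 0, -(P.a ^ P.p * P.b ^ P.p), 0⟩

/-- the integer short model `Y² = X³ + (a^p + c^p) X² + (ac)^p X`. -/
def h12tShortCZ (P : FreyPackage) : WeierstrassCurve ℤ :=
  ⟨0, P.a ^ P.p + P.c ^ P.p, 0, P.a ^ P.p * P.c ^ P.p, 0⟩

theorem h12t_shortZ_map (P : FreyPackage) :
    (h12tShortZ P).map (Int.castRingHom ℚ) = freyShort P := by
  ext <;> simp [h12tShortZ, freyShort, WeierstrassCurve.map]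

theorem h12t_shortCZ_map (P : FreyPackage) :
    (h12tShortCZ P).map (Int.castRingHom ℚ) = freyShortC P := by
  ext <;> simp [h12tShortCZ, freyShortC, WeierstrassCurve.map]

theorem h12t_shortZ_model (P : FreyPackage) : (h12tShortZ P).IsIntegralModelOf P.freyCurve :=
  ⟨freyVC⁻¹, by rw [h12t_shortZ_map, freyCurve_eq_smul_short P, inv_smul_smul]⟩

theorem h12t_shortCZ_model (P : FreyPackage) : (h12tShortCZ P).IsIntegralModelOf P.freyCurve :=
  ⟨(freyVCC P)⁻¹, by rw [h12t_shortCZ_map, freyCurve_eq_smul_shortC P, inv_smul_smul]⟩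

/-- **the local statement for the short nodal integer models** (frozen shape of the input). -/
def H12tNodalZ : Prop :=
  ∀ (W : WeierstrassCurve ℤ), W.Δ ≠ 0 → ∀ (p : ℕ), p.Prime → 5 ≤ p →
    W.a₁ = 0 → W.a₃ = 0 → W.a₆ = 0 → ¬ (p : ℤ) ∣ W.a₂ →
    ∀ π u : ℤ, W.a₄ = u * π ^ p → (p : ℤ) ∣ π → π ≠ 0 → ¬ (p : ℤ) ∣ u →
    H77mLocalAt W p

/-- **LOCAL-MULT from the short nodal integer models.** -/
theorem h12t_localFrey_of_nodalZ (h : H12tNodalZ) : H77mLocalFrey := by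
  refine h12t_localFrey_of_model fun P hdvd => ?_
  have hΔE : P.freyCurve.Δ ≠ 0 := Fermat.Agent.S13.freyCurve_Δ_ne_zero P
  have hpr : Prime (P.p : ℤ) := Nat.prime_iff_prime_int.mp P.pp
  have hpow : ∀ {x : ℤ}, ¬ (P.p : ℤ) ∣ x → ¬ (P.p : ℤ) ∣ x ^ P.p :=
    fun hx hd => hx (hpr.dvd_of_dvd_pow hd)
  rcases hpr.dvd_or_dvd hdvd with hab | hc
  · refine ⟨h12tShortZ P, h12t_shortZ_model P, ?_⟩
    have hΔ : (h12tShortZ P).Δ ≠ 0 := h41w_disc_of_model _ (h12t_shortZ_model P) hΔE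
    rcases hpr.dvd_or_dvd hab with ha | hb
    · have hb : ¬ (P.p : ℤ) ∣ P.b := not_dvd_b_of_dvd_a P P.pp ha
      refine h _ hΔ P.p P.pp P.hp5 rfl rfl rfl ?_ P.a (-(P.b ^ P.p)) ?_ ha P.ha0 ?_
      · intro hd
        have h1 : (P.p : ℤ) ∣ P.a ^ P.p := dvd_pow ha P.hp0
        have h2 : (P.p : ℤ) ∣ P.b ^ P.p := by
          have := dvd_add hd h1
          simpa [h12tShortZ] using this
        exact hpow hb h2
      · show -(P.a ^ P.p * P.b ^ P.p) = -(P.b ^ P.p) * P.a ^ P.p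
        ring
      · rw [dvd_neg]
        exact hpow hb
    · have ha : ¬ (P.p : ℤ) ∣ P.a := not_dvd_a_of_dvd_b P P.pp hb
      refine h _ hΔ P.p P.pp P.hp5 rfl rfl rfl ?_ P.b (-(P.a ^ P.p)) ?_ hb P.hb0 ?_
      · intro hd
        have h1 : (P.p : ℤ) ∣ P.b ^ P.p := dvd_pow hb P.hp0
        have h2 : (P.p : ℤ) ∣ P.a ^ P.p := by
          have := dvd_sub h1 hd
          simpa [h12tShortZ] using this
        exact hpow ha h2
      · show -(P.a ^ P.p * P.b ^ P.p) = -(P.a ^ P.p) * P.b ^ P.p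
        ring
      · rw [dvd_neg]
        exact hpow ha
  · refine ⟨h12tShortCZ P, h12t_shortCZ_model P, ?_⟩
    have hΔ : (h12tShortCZ P).Δ ≠ 0 := h41w_disc_of_model _ (h12t_shortCZ_model P) hΔE
    have ha : ¬ (P.p : ℤ) ∣ P.a := not_dvd_a_of_dvd_c P P.pp hc
    refine h _ hΔ P.p P.pp P.hp5 rfl rfl rfl ?_ P.c (P.a ^ P.p) ?_ hc P.hc0 (hpow ha)
    · intro hd
      have h1 : (P.p : ℤ) ∣ P.c ^ P.p := dvd_pow hc P.hp0
      have h2 : (P.p : ℤ) ∣ P.a ^ P.p := by
        have := dvd_sub hd h1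
        simpa [h12tShortCZ] using this
      exact hpow ha h2
    · show P.a ^ P.p * P.c ^ P.p = P.a ^ P.p * P.c ^ P.p
      rfl

end Fermat.Agent.P7
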