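import Fermat.Agent.S05.Kernel
import Fermat.Agent.S05.H86Good
import Fermat.Agent.P5.H80Hensel
import Fermat.Agent.LGC.H57Teich

/-!
# P7 (wave 7, S40), block (4) LOCAL-W, leaf INERT (helper34)

`W'` a Weierstrass curve over `R`, `K` a field over `S` over `R`, `A` a valuation subring of `K`
containing the coefficients of `W'⁄K`, with unit discriminant (good reduction at `A`);
`I ⊆ D` the inertia and decomposition groups of `A` in `K ≃ₐ[S] K`; `E¹ = InE1 A` the kernel of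
reduction (landed S05 vocabulary), `z = K56.zcoord` the chart coordinate `-x / y`.

* `h34i_smul_some`, `h34i_zcoord_smul` : the Galois action in coordinates, `z (σ P) = σ (z P)`;
* `h34i_mem_of_decomp`, `h34i_mem_iff_of_decomp`, `h34i_nonunits_of_decomp`,
  `h34i_inertia_le_decomp`, `h34i_nonunits_of_inertia` : `D` preserves `A` and `𝔪_A`;
* `h34i_inE1_smul` : **(ii)** `E¹` is stable under `D`;
* `h34i_inertia_sub_inE1` : **(i)** `σ P - P ∈ E¹` for every point `P` and every `σ ∈ I`;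
* `h34i_zcoord_inj` : **(iii)** `z` is injective on `E¹`;
* `h34i_zcoord_eq_zero_iff` : `z P = 0 ↔ P = 0` on `E¹`;
* `h34i_unram_lift_of` : **(iv)** every point is congruent modulo `E¹` to an `I`-fixed point
  (Hensel in `A`, given `I`-fixed representatives of the residues);
* `h34i_unram_lift` : (iv) for `K = ℚ̄`, `S = ℚ`, `A` over a prime `ℓ`;
* `h34i_int_a₁` ... `h34i_int_a₆`, `h34i_int_Δ` : the hypotheses for the curve
  `W.map (Int.castRingHom ℚ)` of S40 (`W` over `ℤ`, good at `p`, `A` over `p`);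
* `h34i_localW_inert` : everything packaged in the S40 vocabulary.
-/

set_option autoImplicit false
set_option linter.style.haveILetI false

namespace Fermat.Agent.P7

open WeierstrassCurve Fermat.Agent.S05
open scoped WeierstrassCurve.Affine

/-! ## The decomposition group preserves `A` and its maximal ideal -/

section Decomp

variable {k L : Type*} [Field k] [Field L] [Algebra k L] (A : ValuationSubring L)

theorem h34i_mem_of_decomp {τ : L ≃ₐ[k] L} (hτ : τ ∈ A.decompositionSubgroup k) {a : L}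
    (ha : a ∈ A) : τ a ∈ A :=
  ((⟨τ, hτ⟩ : A.decompositionSubgroup k) • (⟨a, ha⟩ : A) : A).2

theorem h34i_mem_iff_of_decomp {τ : L ≃ₐ[k] L} (hτ : τ ∈ A.decompositionSubgroup k) {a : L} :
    τ a ∈ A ↔ a ∈ A := by
  refine ⟨fun h => ?_, h34i_mem_of_decomp A hτ⟩
  have h1 := h34i_mem_of_decomp A (inv_mem hτ) h
  have h2 : τ⁻¹ (τ a) = a := τ.symm_apply_apply a
  rwa [h2] at h1

theorem h34i_nonunits_of_decomp {τ : L ≃ₐ[k] L} (hτ : τ ∈ A.decompositionSubgroup k) {a : L}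
    (ha : a ∈ A.nonunits) : τ a ∈ A.nonunits := by
  by_cases h0 : a = 0
  · rw [h0, map_zero]; exact K56.zero_mem_nonunits A
  have hinv : a⁻¹ ∉ A := by
    apply K56.not_mem_of_inv_mem_nonunits A (inv_ne_zero h0)
    rwa [inv_inv]
  have h1 : τ a⁻¹ ∉ A := fun h => hinv ((h34i_mem_iff_of_decomp A hτ).1 h)
  have h2 := K56.inv_mem_nonunits_of_not_mem A h1
  rwa [map_inv₀, inv_inv] at h2

theorem h34i_nonunits_iff_of_decomp {τ : L ≃ₐ[k] L} (hτ : τ ∈ A.decompositionSubgroup k)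
    {a : L} : τ a ∈ A.nonunits ↔ a ∈ A.nonunits := by
  refine ⟨fun h => ?_, h34i_nonunits_of_decomp A hτ⟩
  have h1 := h34i_nonunits_of_decomp A (inv_mem hτ) h
  have h2 : τ⁻¹ (τ a) = a := τ.symm_apply_apply a
  rwa [h2] at h1

theorem h34i_inertia_le_decomp {σ : L ≃ₐ[k] L} (hσ : σ ∈ A.inertiaSubgroupIn k) :
    σ ∈ A.decompositionSubgroup k := by
  obtain ⟨τ, -, rfl⟩ := hσ
  exact τ.2

theorem h34i_nonunits_of_inertia {σ : L ≃ₐ[k] L} (hσ : σ ∈ A.inertiaSubgroupIn k) {a : L}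
    (ha : a ∈ A.nonunits) : σ a ∈ A.nonunits :=
  h34i_nonunits_of_decomp A (h34i_inertia_le_decomp A hσ) ha

/-- the inertia group is normalised by the decomposition group. -/
theorem h34i_conj_mem_inertia {σ τ : L ≃ₐ[k] L} (hσ : σ ∈ A.inertiaSubgroupIn k)
    (hτ : τ ∈ A.decompositionSubgroup k) : τ * σ * τ⁻¹ ∈ A.inertiaSubgroupIn k := by
  obtain ⟨σ', hσ', rfl⟩ := hσ
  have hn : (A.inertiaSubgroup k).Normal := by
    unfold ValuationSubring.inertiaSubgroup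
    exact MonoidHom.normal_ker _
  exact ⟨(⟨τ, hτ⟩ : A.decompositionSubgroup k) * σ' * (⟨τ, hτ⟩ : A.decompositionSubgroup k)⁻¹,
    hn.conj_mem σ' hσ' _, rfl⟩

end Decomp

/-! ## The Galois action in coordinates -/

section Action

variable {R : Type*} {S : Type*} {K : Type*} [CommRing R] [Field S] [Field K]
  [DecidableEq K] [Algebra R S] [Algebra R K] [Algebra S K] [IsScalarTower R S K]

theorem h34i_smul_zero (W' : Affine R) (σ : K ≃ₐ[S] K) :
    σ • (0 : (W'⁄K).Point) = 0 := smul_zero σ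

theorem h34i_smul_some (W' : Affine R) (σ : K ≃ₐ[S] K) {x y : K}
    (h : (W'⁄K).Nonsingular x y) :
    ∃ h' : (W'⁄K).Nonsingular (σ x) (σ y),
      σ • (Affine.Point.some x y h : (W'⁄K).Point) = Affine.Point.some (σ x) (σ y) h' := by
  have hsmul : σ • (Affine.Point.some x y h : (W'⁄K).Point) =
      Affine.Point.map (W' := W') σ.toAlgHom (Affine.Point.some x y h) := rfl
  have hmap := Affine.Point.map_some (W' := W') (f := σ.toAlgHom) h
  have hnsσ : (W'⁄K).Nonsingular (σ x) (σ y) := by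
    have := (Affine.baseChange_nonsingular (W := W') σ.toAlgHom.injective x y).2 h
    simpa using this
  refine ⟨hnsσ, ?_⟩
  rw [hsmul, hmap]; rfl

/-- the chart coordinate is Galois equivariant. -/
theorem h34i_zcoord_smul (W' : Affine R) (σ : K ≃ₐ[S] K) (P : (W'⁄K).Point) :
    K56.zcoord (σ • P) = σ (K56.zcoord P) := by
  rcases P with _ | ⟨x, y, h⟩
  · have h0 : σ • (Affine.Point.zero : (W'⁄K).Point) = 0 := h34i_smul_zero W' σ
    rw [h0]
    change (0 : K) = σ 0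
    rw [map_zero]
  · obtain ⟨h', e⟩ := h34i_smul_some W' σ h
    rw [e, K56.zcoord_some, K56.zcoord_some, map_div₀, map_neg]

omit [DecidableEq K] in
/-- the coefficients of the base change are Galois fixed. -/
theorem h34i_algebraMap_fixed (σ : K ≃ₐ[S] K) (r : R) :
    σ (algebraMap R K r) = algebraMap R K r := by
  rw [IsScalarTower.algebraMap_apply R S K, σ.commutes]

/-- **(ii)** the kernel of reduction is stable under the decomposition group. -/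
theorem h34i_inE1_smul (W' : Affine R) (A : ValuationSubring K) {τ : K ≃ₐ[S] K}
    (hτ : τ ∈ A.decompositionSubgroup S) {P : (W'⁄K).Point} (hP : InE1 A P) :
    InE1 A (τ • P) := by
  rcases hP with rfl | ⟨x, y, h, rfl, hx⟩
  · rw [h34i_smul_zero]; exact inE1_zero A
  · obtain ⟨h', e⟩ := h34i_smul_some W' τ h
    rw [e]
    exact (inE1_some A h').2 fun hh => hx ((h34i_mem_iff_of_decomp A hτ).1 hh)

theorem h34i_inE1_smul_iff (W' : Affine R) (A : ValuationSubring K) {τ : K ≃ₐ[S] K}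
    (hτ : τ ∈ A.decompositionSubgroup S) {P : (W'⁄K).Point} :
    InE1 A (τ • P) ↔ InE1 A P := by
  refine ⟨fun h => ?_, h34i_inE1_smul W' A hτ⟩
  have h1 := h34i_inE1_smul W' A (inv_mem hτ) h
  rwa [inv_smul_smul] at h1

/-- **(i)** inertia acts trivially modulo the kernel of reduction, on ALL points. -/
theorem h34i_inertia_sub_inE1 (W' : Affine R) (A : ValuationSubring K)
    (ha₁ : (W'⁄K).a₁ ∈ A) (ha₂ : (W'⁄K).a₂ ∈ A) (ha₃ : (W'⁄K).a₃ ∈ A) (ha₄ : (W'⁄K).a₄ ∈ A)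
    (ha₆ : (W'⁄K).a₆ ∈ A) (hΔ : (W'⁄K).Δ ∉ A.nonunits)
    {σ : K ≃ₐ[S] K} (hσ : σ ∈ A.inertiaSubgroupIn S) (P : (W'⁄K).Point) :
    InE1 A (σ • P - P) := by
  have hσD := h34i_inertia_le_decomp A hσ
  by_cases hP : InE1 A P
  · exact inE1_sub A ha₁ ha₂ ha₃ ha₄ ha₆ (h34i_inE1_smul W' A hσD hP) hP
  rcases P with _ | ⟨x, y, h⟩
  · exact absurd (inE1_zero A) hP
  · have hx : x ∈ A := by
      by_contra hx
      exact hP ((inE1_some A h).2 hx)
    have hy : y ∈ A := H86.y_mem_of_x_mem ha₁ ha₂ ha₃ ha₄ ha₆ h.1 hx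
    obtain ⟨hσx, hσx'⟩ := H86.inertia_apply_mem A hσ hx
    obtain ⟨hσy, hσy'⟩ := H86.inertia_apply_mem A hσ hy
    obtain ⟨hnsσ, e⟩ := h34i_smul_some W' σ h
    have hns := H86.partials_not_both_nonunits (A := A) (W := W'⁄K) ha₁ ha₂ hΔ h.1 hx
    have hxm : x - σ x ∈ A.nonunits := by
      have := neg_mem hσx'
      simpa using this
    have hym : y - σ y ∈ A.nonunits := by
      have := neg_mem hσy'
      simpa using this
    have hIII : InE1 A ((Affine.Point.some x y h : (W'⁄K).Point) -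
        Affine.Point.some (σ x) (σ y) hnsσ) :=
      H86.sub_inE1_of_same_reduction (A := A) (W := W'⁄K) ha₁ ha₂ ha₃ ha₄ h hnsσ
        hx hy hσx hσy hxm hym hns
    rw [e]
    have := inE1_neg A hIII
    rwa [neg_sub] at this

end Action

/-! ## The chart coordinate on the kernel of reduction -/

section Chart

variable {K : Type*} [Field K] (A : ValuationSubring K) (W : Affine K)

theorem h34i_zcoord_eq_zero_iff (ha₁ : W.a₁ ∈ A) (ha₂ : W.a₂ ∈ A) (ha₃ : W.a₃ ∈ A)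
    (ha₄ : W.a₄ ∈ A) (ha₆ : W.a₆ ∈ A) {P : W.Point} (hP : InE1 A P) :
    K56.zcoord P = 0 ↔ P = 0 := by
  refine ⟨fun h => ?_, fun h => by rw [h]; exact K56.zcoord_zero⟩
  by_contra hP0
  exact K56.zcoord_ne_zero A W ha₁ ha₂ ha₃ ha₄ ha₆ hP hP0 h

/-- `zg2` is small on small arguments. -/
theorem h34i_zg2_mem_nonunits (ha₁ : W.a₁ ∈ A) (ha₂ : W.a₂ ∈ A) (ha₃ : W.a₃ ∈ A)
    (ha₄ : W.a₄ ∈ A) (ha₆ : W.a₆ ∈ A) {z₁ w₁ w₂ : K} (hz₁ : z₁ ∈ A.nonunits)
    (hw₁ : w₁ ∈ A.nonunits) (hw₂ : w₂ ∈ A.nonunits) : K56.zg2 W z₁ w₁ w₂ ∈ A.nonunits := by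
  have hz₁A := K56.mem_of_mem_nonunits A hz₁
  have hw₁A := K56.mem_of_mem_nonunits A hw₁
  have hw₂A := K56.mem_of_mem_nonunits A hw₂
  have hww : w₂ + w₁ ∈ A.nonunits := K56.nonunits_add_mem A hw₂ hw₁
  unfold K56.zg2
  refine K56.nonunits_add_mem A (K56.nonunits_add_mem A (K56.nonunits_add_mem A
    (K56.nonunits_add_mem A ?_ ?_) ?_) ?_) ?_
  · exact K56.mem_mul_nonunits A ha₁ hz₁
  · exact K56.mem_mul_nonunits A ha₂ (K56.nonunits_pow_mem A hz₁ two_ne_zero)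
  · exact K56.mem_mul_nonunits A ha₃ hww
  · exact K56.mem_mul_nonunits A (mul_mem ha₄ hz₁A) hww
  · refine K56.mem_mul_nonunits A ha₆ ?_
    refine K56.nonunits_add_mem A (K56.nonunits_add_mem A
      (K56.nonunits_pow_mem A hw₂ two_ne_zero) (K56.nonunits_mul_mem A hw₂ hw₁A))
      (K56.nonunits_pow_mem A hw₁ two_ne_zero)

/-- in the kernel of reduction, `w` is determined by `z`. -/
theorem h34i_w_unique (ha₁ : W.a₁ ∈ A) (ha₂ : W.a₂ ∈ A) (ha₃ : W.a₃ ∈ A)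
    (ha₄ : W.a₄ ∈ A) (ha₆ : W.a₆ ∈ A) {z w₁ w₂ : K} (hz : z ∈ A.nonunits)
    (hw₁ : w₁ ∈ A.nonunits) (hw₂ : w₂ ∈ A.nonunits) (E₁ : w₁ = K56.fzw W z w₁)
    (E₂ : w₂ = K56.fzw W z w₂) : w₁ = w₂ := by
  have hch := K56.chord_eq W E₁ E₂
  rw [sub_self, zero_mul] at hch
  have hne := K56.one_sub_ne_zero A (h34i_zg2_mem_nonunits A W ha₁ ha₂ ha₃ ha₄ ha₆ hz hw₁ hw₂)
  rcases mul_eq_zero.1 hch with h | h
  · exact (sub_eq_zero.1 h).symm
  · exact absurd h hne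

/-- **(iii)** the chart coordinate is injective on the kernel of reduction. -/
theorem h34i_zcoord_inj (ha₁ : W.a₁ ∈ A) (ha₂ : W.a₂ ∈ A) (ha₃ : W.a₃ ∈ A)
    (ha₄ : W.a₄ ∈ A) (ha₆ : W.a₆ ∈ A) {P Q : W.Point} (hP : InE1 A P) (hQ : InE1 A Q)
    (h : K56.zcoord P = K56.zcoord Q) : P = Q := by
  by_cases hP0 : P = 0
  · rw [hP0, K56.zcoord_zero] at h
    rw [hP0]
    exact ((h34i_zcoord_eq_zero_iff A W ha₁ ha₂ ha₃ ha₄ ha₆ hQ).1 h.symm).symm
  by_cases hQ0 : Q = 0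
  · rw [hQ0, K56.zcoord_zero] at h
    rw [hQ0]
    exact (h34i_zcoord_eq_zero_iff A W ha₁ ha₂ ha₃ ha₄ ha₆ hP).1 h
  rcases hP with rfl | ⟨x₁, y₁, h₁, rfl, hx₁⟩
  · exact absurd rfl hP0
  rcases hQ with rfl | ⟨x₂, y₂, h₂, rfl, hx₂⟩
  · exact absurd rfl hQ0
  rw [K56.zcoord_some, K56.zcoord_some] at h
  obtain ⟨hy₁0, hzm₁, hwm₁⟩ := K56.formal_coords_of_not_mem A W ha₁ ha₂ ha₃ ha₄ ha₆ h₁.1 hx₁
  obtain ⟨hy₂0, hzm₂, hwm₂⟩ := K56.formal_coords_of_not_mem A W ha₁ ha₂ ha₃ ha₄ ha₆ h₂.1 hx₂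
  have hw₁0 : -1 / y₁ ≠ 0 := div_ne_zero (neg_ne_zero.2 one_ne_zero) hy₁0
  have hw₂0 : -1 / y₂ ≠ 0 := div_ne_zero (neg_ne_zero.2 one_ne_zero) hy₂0
  have hxe₁ : x₁ = (-x₁ / y₁) / (-1 / y₁) := by field_simp
  have hye₁ : y₁ = -1 / (-1 / y₁) := by field_simp
  have hxe₂ : x₂ = (-x₂ / y₂) / (-1 / y₂) := by field_simp
  have hye₂ : y₂ = -1 / (-1 / y₂) := by field_simp
  have E₁ : -1 / y₁ = K56.fzw W (-x₁ / y₁) (-1 / y₁) :=
    K56.fzw_of_equation W hw₁0 (by rw [← hxe₁, ← hye₁]; exact h₁.1)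
  have E₂ : -1 / y₂ = K56.fzw W (-x₂ / y₂) (-1 / y₂) :=
    K56.fzw_of_equation W hw₂0 (by rw [← hxe₂, ← hye₂]; exact h₂.1)
  rw [← h] at E₂
  have hw := h34i_w_unique A W ha₁ ha₂ ha₃ ha₄ ha₆ hzm₁ hwm₁ hwm₂ E₁ E₂
  have hy : y₁ = y₂ := by
    rw [hye₁, hye₂, hw]
  have hx : x₁ = x₂ := by
    rw [hxe₁, hxe₂, h, hw]
  subst hx
  subst hy
  rfl

end Chart

/-! ## Unramified lifts -/

section Hensel

open Polynomial

variable {S : Type*} {K : Type*} [Field S] [Field K] [Algebra S K]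

/-- Hensel with inertia: the simple root of an `I`-fixed integral polynomial is `I`-fixed. -/
theorem h34i_hensel_fixed [IsAlgClosed K] (A : ValuationSubring K) (q : K[X])
    (hqA : q ∈ lifts (algebraMap A K))
    (hqσ : ∀ σ ∈ A.inertiaSubgroupIn S, q.map ((σ : K ≃ₐ[S] K) : K →+* K) = q)
    (a₀ : K) (ha₀ : a₀ ∈ A) (h0 : q.eval a₀ ∈ A.nonunits)
    (h1 : q.derivative.eval a₀ ∉ A.nonunits) :
    ∃ r : K, r ∈ A ∧ q.eval r = 0 ∧ r - a₀ ∈ A.nonunits ∧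
      ∀ σ ∈ A.inertiaSubgroupIn S, σ r = r := by
  have hqA' : ∀ i, q.coeff i ∈ A := fun i => by
    obtain ⟨a, ha⟩ := (lifts_iff_coeff_lifts q).1 hqA i
    rw [← ha]
    exact a.2
  obtain ⟨r, hrA, hr0, hra, -, hfix⟩ :=
    Fermat.Agent.P5.h80h_exists_root_fixed A q hqA' a₀ ha₀ h0 h1
  refine ⟨r, hrA, hr0, hra, fun σ hσ => ?_⟩
  have hσD := h34i_inertia_le_decomp A hσ
  refine hfix ((σ : K ≃ₐ[S] K) : K →+* K) (fun x hx => h34i_mem_of_decomp A hσD hx)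
    (fun x hx => h34i_nonunits_of_decomp A hσD hx) (fun i => ?_)
    (H86.inertia_apply_mem A hσ ha₀).2
  have h2 := congrArg (fun f : K[X] => f.coeff i) (hqσ σ hσ)
  simp only [coeff_map] at h2
  exact h2

theorem h34i_C_mem_lifts (A : ValuationSubring K) {a : K} (ha : a ∈ A) :
    (C a : K[X]) ∈ lifts (algebraMap A K) :=
  C'_mem_lifts ⟨⟨a, ha⟩, rfl⟩

end Hensel

section Lift

open Polynomial

variable {R : Type*} {S : Type*} {K : Type*} [CommRing R] [Field S] [Field K]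
  [DecidableEq K] [Algebra R S] [Algebra R K] [Algebra S K] [IsScalarTower R S K]

/-- an `I`-fixed point: both coordinates are `I`-fixed. -/
theorem h34i_smul_some_of_fixed (W' : Affine R) (σ : K ≃ₐ[S] K) {x y : K}
    (h : (W'⁄K).Nonsingular x y) (hx : σ x = x) (hy : σ y = y) :
    σ • (Affine.Point.some x y h : (W'⁄K).Point) = Affine.Point.some x y h := by
  obtain ⟨h', e⟩ := h34i_smul_some W' σ h
  rw [e, Affine.Point.some.injEq]
  exact ⟨hx, hy⟩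

/-- **(iv), abstract form**: given `I`-fixed representatives of the residues of `A`, every point
is congruent modulo the kernel of reduction to an `I`-fixed point. -/
theorem h34i_unram_lift_of [IsAlgClosed K] (W' : Affine R) (A : ValuationSubring K)
    (ha₁ : (W'⁄K).a₁ ∈ A) (ha₂ : (W'⁄K).a₂ ∈ A) (ha₃ : (W'⁄K).a₃ ∈ A) (ha₄ : (W'⁄K).a₄ ∈ A)
    (ha₆ : (W'⁄K).a₆ ∈ A) (hΔ : (W'⁄K).Δ ∉ A.nonunits)
    (hres : ∀ a ∈ A, ∃ a' ∈ A, (∀ σ ∈ A.inertiaSubgroupIn S, σ a' = a') ∧ a - a' ∈ A.nonunits)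
    (P : (W'⁄K).Point) :
    ∃ c₀ : (W'⁄K).Point, (∀ σ ∈ A.inertiaSubgroupIn S, σ • c₀ = c₀) ∧ InE1 A (P - c₀) := by
  by_cases hP : InE1 A P
  · exact ⟨0, fun σ _ => h34i_smul_zero W' σ, by rwa [sub_zero]⟩
  rcases P with _ | ⟨x, y, h⟩
  · exact absurd (inE1_zero A) hP
  have hx : x ∈ A := by
    by_contra hx
    exact hP ((inE1_some A h).2 hx)
  have hy : y ∈ A := H86.y_mem_of_x_mem ha₁ ha₂ ha₃ ha₄ ha₆ h.1 hx
  have hns := H86.partials_not_both_nonunits (A := A) (W := W'⁄K) ha₁ ha₂ hΔ h.1 hx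
  have hΔ0 : (W'⁄K).Δ ≠ 0 := fun h0 => hΔ (by rw [h0]; exact K56.zero_mem_nonunits A)
  have heq := (Affine.equation_iff x y).1 h.1
  have h2A : (2 : K) ∈ A := H86.two_mem A
  have h3A : (3 : K) ∈ A := by
    have : (3 : K) = 2 + 1 := by norm_num
    rw [this]; exact add_mem h2A (one_mem A)
  -- the coefficients are Galois fixed
  have hf₁ : ∀ σ : K ≃ₐ[S] K, σ (W'⁄K).a₁ = (W'⁄K).a₁ := fun σ => by
    simp only [WeierstrassCurve.baseChange, WeierstrassCurve.map_a₁]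
    exact h34i_algebraMap_fixed σ _
  have hf₂ : ∀ σ : K ≃ₐ[S] K, σ (W'⁄K).a₂ = (W'⁄K).a₂ := fun σ => by
    simp only [WeierstrassCurve.baseChange, WeierstrassCurve.map_a₂]
    exact h34i_algebraMap_fixed σ _
  have hf₃ : ∀ σ : K ≃ₐ[S] K, σ (W'⁄K).a₃ = (W'⁄K).a₃ := fun σ => by
    simp only [WeierstrassCurve.baseChange, WeierstrassCurve.map_a₃]
    exact h34i_algebraMap_fixed σ _
  have hf₄ : ∀ σ : K ≃ₐ[S] K, σ (W'⁄K).a₄ = (W'⁄K).a₄ := fun σ => by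
    simp only [WeierstrassCurve.baseChange, WeierstrassCurve.map_a₄]
    exact h34i_algebraMap_fixed σ _
  have hf₆ : ∀ σ : K ≃ₐ[S] K, σ (W'⁄K).a₆ = (W'⁄K).a₆ := fun σ => by
    simp only [WeierstrassCurve.baseChange, WeierstrassCurve.map_a₆]
    exact h34i_algebraMap_fixed σ _
  -- the conclusion from an `I`-fixed integral point with the same reduction
  have key : ∀ x₀ y₀ : K, x₀ ∈ A → y₀ ∈ A → (W'⁄K).Equation x₀ y₀ →
      (∀ σ ∈ A.inertiaSubgroupIn S, σ x₀ = x₀) → (∀ σ ∈ A.inertiaSubgroupIn S, σ y₀ = y₀) →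
      x - x₀ ∈ A.nonunits → y - y₀ ∈ A.nonunits →
      ∃ c₀ : (W'⁄K).Point, (∀ σ ∈ A.inertiaSubgroupIn S, σ • c₀ = c₀) ∧
        InE1 A ((Affine.Point.some x y h : (W'⁄K).Point) - c₀) := by
    intro x₀ y₀ hx₀ hy₀ he hσx hσy hxm hym
    have h₀ : (W'⁄K).Nonsingular x₀ y₀ :=
      ((W'⁄K).equation_iff_nonsingular_of_Δ_ne_zero hΔ0).1 he
    refine ⟨Affine.Point.some x₀ y₀ h₀, fun σ hσ =>
      h34i_smul_some_of_fixed W' σ h₀ (hσx σ hσ) (hσy σ hσ), ?_⟩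
    exact H86.sub_inE1_of_same_reduction (A := A) (W := W'⁄K) ha₁ ha₂ ha₃ ha₄ h h₀
      hx hy hx₀ hy₀ hxm hym hns
  by_cases hdY : 2 * y + (W'⁄K).a₁ * x + (W'⁄K).a₃ ∈ A.nonunits
  · -- the `X`-partial is a unit: lift `y`, solve the cubic in `X`
    have hdX : (W'⁄K).a₁ * y - (3 * x ^ 2 + 2 * (W'⁄K).a₂ * x + (W'⁄K).a₄) ∉ A.nonunits := by
      rcases hns with h' | h'
      · exact h'
      · exact absurd hdY h'
    obtain ⟨y₀, hy₀, hσy₀, hym⟩ := hres y hy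
    set b : K := (W'⁄K).a₄ - (W'⁄K).a₁ * y₀ with hb
    set c : K := (W'⁄K).a₆ - y₀ ^ 2 - (W'⁄K).a₃ * y₀ with hc
    have hbA : b ∈ A := sub_mem ha₄ (mul_mem ha₁ hy₀)
    have hcA : c ∈ A := sub_mem (sub_mem ha₆ (pow_mem hy₀ 2)) (mul_mem ha₃ hy₀)
    set q : K[X] := X ^ 3 + C (W'⁄K).a₂ * X ^ 2 + C b * X + C c with hq
    have hqA : q ∈ lifts (algebraMap A K) :=
      add_mem (add_mem (add_mem (X_pow_mem_lifts _ 3)
        (mul_mem (h34i_C_mem_lifts A ha₂) (X_pow_mem_lifts _ 2)))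
        (mul_mem (h34i_C_mem_lifts A hbA) (X_mem_lifts _))) (h34i_C_mem_lifts A hcA)
    have hqσ : ∀ σ ∈ A.inertiaSubgroupIn S, q.map ((σ : K ≃ₐ[S] K) : K →+* K) = q := by
      intro σ hσ
      have e1 : σ b = b := by
        rw [hb, map_sub, map_mul, hf₄, hf₁, hσy₀ σ hσ]
      have e2 : σ c = c := by
        rw [hc, map_sub, map_sub, map_mul, map_pow, hf₆, hf₃, hσy₀ σ hσ]
      simp only [hq, Polynomial.map_add, Polynomial.map_mul, Polynomial.map_pow, map_X, map_C,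
        RingHom.coe_coe, e1, e2, hf₂]
    have hev : ∀ t : K, q.eval t = t ^ 3 + (W'⁄K).a₂ * t ^ 2 + b * t + c := fun t => by
      simp only [hq, eval_add, eval_mul, eval_pow, eval_X, eval_C]
    have hdev : ∀ t : K, q.derivative.eval t = 3 * t ^ 2 + 2 * (W'⁄K).a₂ * t + b := fun t => by
      simp only [hq, derivative_add, derivative_mul, derivative_X_pow, derivative_C, derivative_X,
        eval_add, eval_mul, eval_pow, eval_X, eval_C, zero_mul, zero_add, mul_one, add_zero,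
        Nat.cast_ofNat]
      norm_num
      ring
    have h0 : q.eval x ∈ A.nonunits := by
      have e : q.eval x = (y - y₀) * (y + y₀ + (W'⁄K).a₁ * x + (W'⁄K).a₃) := by
        rw [hev, hb, hc]
        linear_combination -heq
      rw [e]
      exact K56.nonunits_mul_mem A hym (add_mem (add_mem (add_mem hy hy₀) (mul_mem ha₁ hx)) ha₃)
    have h1 : q.derivative.eval x ∉ A.nonunits := by
      have e : q.derivative.eval x =
          -((W'⁄K).a₁ * y - (3 * x ^ 2 + 2 * (W'⁄K).a₂ * x + (W'⁄K).a₄)) +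
            (W'⁄K).a₁ * (y - y₀) := by
        rw [hdev, hb]; ring
      rw [e]
      refine H86.add_not_mem_nonunits A (neg_mem (sub_mem (mul_mem ha₁ hy) (add_mem (add_mem
        (mul_mem h3A (pow_mem hx 2)) (mul_mem (mul_mem h2A ha₂) hx)) ha₄))) ?_
        (K56.mem_mul_nonunits A ha₁ hym)
      intro hh
      apply hdX
      have := K56.nonunits_neg_mem A hh
      rwa [neg_neg] at this
    obtain ⟨x₀, hx₀, hx₀0, hx₀m, hσx₀⟩ := h34i_hensel_fixed (S := S) A q hqA hqσ x hx h0 h1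
    refine key x₀ y₀ hx₀ hy₀ ?_ hσx₀ hσy₀ ?_ hym
    · rw [Affine.equation_iff]
      rw [hev, hb, hc] at hx₀0
      linear_combination -hx₀0
    · have := K56.nonunits_neg_mem A hx₀m
      rwa [neg_sub] at this
  · -- the `Y`-partial is a unit: lift `x`, solve the quadratic in `Y`
    obtain ⟨x₀, hx₀, hσx₀, hxm⟩ := hres x hx
    set b : K := (W'⁄K).a₁ * x₀ + (W'⁄K).a₃ with hb
    set c : K := -(x₀ ^ 3 + (W'⁄K).a₂ * x₀ ^ 2 + (W'⁄K).a₄ * x₀ + (W'⁄K).a₆) with hc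
    have hbA : b ∈ A := add_mem (mul_mem ha₁ hx₀) ha₃
    have hcA : c ∈ A := neg_mem (add_mem (add_mem (add_mem (pow_mem hx₀ 3)
      (mul_mem ha₂ (pow_mem hx₀ 2))) (mul_mem ha₄ hx₀)) ha₆)
    set q : K[X] := X ^ 2 + C b * X + C c with hq
    have hqA : q ∈ lifts (algebraMap A K) :=
      add_mem (add_mem (X_pow_mem_lifts _ 2)
        (mul_mem (h34i_C_mem_lifts A hbA) (X_mem_lifts _))) (h34i_C_mem_lifts A hcA)
    have hqσ : ∀ σ ∈ A.inertiaSubgroupIn S, q.map ((σ : K ≃ₐ[S] K) : K →+* K) = q := by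
      intro σ hσ
      have e1 : σ b = b := by
        rw [hb, map_add, map_mul, hf₁, hf₃, hσx₀ σ hσ]
      have e2 : σ c = c := by
        rw [hc, map_neg, map_add, map_add, map_add, map_mul, map_mul, map_pow, map_pow, hf₂,
          hf₄, hf₆, hσx₀ σ hσ]
      simp only [hq, Polynomial.map_add, Polynomial.map_mul, Polynomial.map_pow, map_X, map_C,
        RingHom.coe_coe, e1, e2]
    have hev : ∀ t : K, q.eval t = t ^ 2 + b * t + c := fun t => by
      simp only [hq, eval_add, eval_mul, eval_pow, eval_X, eval_C]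
    have hdev : ∀ t : K, q.derivative.eval t = 2 * t + b := fun t => by
      simp only [hq, derivative_add, derivative_mul, derivative_X_pow, derivative_C, derivative_X,
        eval_add, eval_mul, eval_pow, eval_X, eval_C, zero_mul, zero_add, mul_one, add_zero,
        Nat.cast_ofNat]
      norm_num
    have h0 : q.eval y ∈ A.nonunits := by
      have e : q.eval y = (x - x₀) * (x ^ 2 + x * x₀ + x₀ ^ 2 + (W'⁄K).a₂ * (x + x₀) +
          (W'⁄K).a₄ - (W'⁄K).a₁ * y) := by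
        rw [hev, hb, hc]
        linear_combination heq
      rw [e]
      exact K56.nonunits_mul_mem A hxm (sub_mem (add_mem (add_mem (add_mem (add_mem
        (pow_mem hx 2) (mul_mem hx hx₀)) (pow_mem hx₀ 2)) (mul_mem ha₂ (add_mem hx hx₀))) ha₄)
        (mul_mem ha₁ hy))
    have h1 : q.derivative.eval y ∉ A.nonunits := by
      have e : q.derivative.eval y = (2 * y + (W'⁄K).a₁ * x + (W'⁄K).a₃) +
          -((W'⁄K).a₁ * (x - x₀)) := by
        rw [hdev, hb]; ring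
      rw [e]
      exact H86.add_not_mem_nonunits A (add_mem (add_mem (mul_mem h2A hy) (mul_mem ha₁ hx)) ha₃)
        hdY (K56.nonunits_neg_mem A (K56.mem_mul_nonunits A ha₁ hxm))
    obtain ⟨y₀, hy₀, hy₀0, hy₀m, hσy₀⟩ := h34i_hensel_fixed (S := S) A q hqA hqσ y hy h0 h1
    refine key x₀ y₀ hx₀ hy₀ ?_ hσx₀ hσy₀ hxm ?_
    · rw [Affine.equation_iff]
      rw [hev, hb, hc] at hy₀0
      linear_combination hy₀0
    · have := K56.nonunits_neg_mem A hy₀m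
      rwa [neg_sub] at this

end Lift

/-! ## The curve of S40 -/

section QbarCase

local notation "Qbar" => AlgebraicClosure ℚ

/-- **(iv)** for `ℚ̄`: every point is congruent modulo the kernel of reduction to an
inertia-fixed point. -/
theorem h34i_unram_lift (W' : Affine ℚ) (A : ValuationSubring Qbar) {ℓ : ℕ}
    (hℓ : ℓ.Prime) (hA : A.LiesOverPrime ℓ)
    (ha₁ : (W'⁄Qbar).a₁ ∈ A) (ha₂ : (W'⁄Qbar).a₂ ∈ A) (ha₃ : (W'⁄Qbar).a₃ ∈ A)
    (ha₄ : (W'⁄Qbar).a₄ ∈ A) (ha₆ : (W'⁄Qbar).a₆ ∈ A) (hΔ : (W'⁄Qbar).Δ ∉ A.nonunits)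
    (P : (W'⁄Qbar).Point) :
    ∃ c₀ : (W'⁄Qbar).Point, (∀ σ ∈ A.inertiaSubgroupIn ℚ, σ • c₀ = c₀) ∧ InE1 A (P - c₀) :=
  h34i_unram_lift_of (R := ℚ) (S := ℚ) (K := Qbar) W' A ha₁ ha₂ ha₃ ha₄ ha₆ hΔ
    (fun _ ha => Fermat.Agent.LGC.h57_exists_inertia_fixed Fermat.Agent.LGC.h57_isAlgebraic_int
      A hℓ hA ha) P

variable (W : WeierstrassCurve ℤ) (A : ValuationSubring Qbar)

theorem h34i_intCast_mem (n : ℤ) : ((n : ℚ) : Qbar) ∈ A := by
  have h : ((n : ℚ) : Qbar) = ((n : ℤ) : Qbar) := by push_cast; rfl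
  rw [h]
  exact intCast_mem A n

theorem h34i_int_a₁ : ((W.map (Int.castRingHom ℚ))⁄Qbar).a₁ ∈ A := by
  have h : ((W.map (Int.castRingHom ℚ))⁄Qbar).a₁ = ((W.a₁ : ℚ) : Qbar) := by
    simp [WeierstrassCurve.baseChange]
  rw [h]; exact h34i_intCast_mem A _

theorem h34i_int_a₂ : ((W.map (Int.castRingHom ℚ))⁄Qbar).a₂ ∈ A := by
  have h : ((W.map (Int.castRingHom ℚ))⁄Qbar).a₂ = ((W.a₂ : ℚ) : Qbar) := by
    simp [WeierstrassCurve.baseChange]
  rw [h]; exact h34i_intCast_mem A _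

theorem h34i_int_a₃ : ((W.map (Int.castRingHom ℚ))⁄Qbar).a₃ ∈ A := by
  have h : ((W.map (Int.castRingHom ℚ))⁄Qbar).a₃ = ((W.a₃ : ℚ) : Qbar) := by
    simp [WeierstrassCurve.baseChange]
  rw [h]; exact h34i_intCast_mem A _

theorem h34i_int_a₄ : ((W.map (Int.castRingHom ℚ))⁄Qbar).a₄ ∈ A := by
  have h : ((W.map (Int.castRingHom ℚ))⁄Qbar).a₄ = ((W.a₄ : ℚ) : Qbar) := by
    simp [WeierstrassCurve.baseChange]
  rw [h]; exact h34i_intCast_mem A _

theorem h34i_int_a₆ : ((W.map (Int.castRingHom ℚ))⁄Qbar).a₆ ∈ A := by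
  have h : ((W.map (Int.castRingHom ℚ))⁄Qbar).a₆ = ((W.a₆ : ℚ) : Qbar) := by
    simp [WeierstrassCurve.baseChange]
  rw [h]; exact h34i_intCast_mem A _

/-- good reduction at `p`: the discriminant is a unit at every place over `p`. -/
theorem h34i_int_Δ {p : ℕ} (hp : p.Prime) (hA : A.LiesOverPrime p)
    (hgood : ¬ (p : ℤ) ∣ W.Δ) : ((W.map (Int.castRingHom ℚ))⁄Qbar).Δ ∉ A.nonunits := by
  have h : ((W.map (Int.castRingHom ℚ))⁄Qbar).Δ = ((W.Δ : ℤ) : Qbar) := by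
    simp [WeierstrassCurve.baseChange, WeierstrassCurve.map_Δ]
  rw [h]
  intro hmem
  have hcop : IsCoprime (p : ℤ) W.Δ :=
    (Nat.prime_iff_prime_int.1 hp).coprime_iff_not_dvd.2 hgood
  obtain ⟨u, v, huv⟩ := hcop
  have hpm : ((p : ℕ) : Qbar) ∈ A.nonunits := hA
  have h1 : (1 : Qbar) = (u : Qbar) * ((p : ℕ) : Qbar) + (v : Qbar) * ((W.Δ : ℤ) : Qbar) := by
    have := congrArg (fun n : ℤ => (n : Qbar)) huv
    push_cast at this
    exact this.symm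
  apply K56.one_not_mem_nonunits A
  rw [h1]
  exact K56.nonunits_add_mem A (K56.mem_mul_nonunits A (intCast_mem A u) hpm)
    (K56.mem_mul_nonunits A (intCast_mem A v) hmem)

/-- **LOCAL-W, leaf INERT, packaged for S40**: `W` over `ℤ` with good reduction at `p`, `A` a
valuation subring of `ℚ̄` over `p`, `I ⊆ D` its inertia and decomposition groups, `E¹ = InE1 A`
the kernel of reduction, `z = K56.zcoord`:
1. `σ P - P ∈ E¹` for all points `P` and `σ ∈ I`;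
2. `E¹` is stable under `D`;
3. `z (τ P) = τ (z P)` for every `τ`;
4. `z` maps `E¹` into the maximal ideal of `A`;
5. `z` is injective on `E¹`;
6. every point is congruent modulo `E¹` to an `I`-fixed point;
7. `E¹` is a subgroup. -/
theorem h34i_localW_inert {p : ℕ} (hp : p.Prime) (hA : A.LiesOverPrime p)
    (hgood : ¬ (p : ℤ) ∣ W.Δ) :
    (∀ σ ∈ A.inertiaSubgroupIn ℚ, ∀ P : ((W.map (Int.castRingHom ℚ))⁄Qbar).Point,
      InE1 A (σ • P - P)) ∧
    (∀ τ ∈ A.decompositionSubgroup ℚ, ∀ P : ((W.map (Int.castRingHom ℚ))⁄Qbar).Point,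
      InE1 A P → InE1 A (τ • P)) ∧
    (∀ (τ : Qbar ≃ₐ[ℚ] Qbar) (P : ((W.map (Int.castRingHom ℚ))⁄Qbar).Point),
      K56.zcoord (τ • P) = τ (K56.zcoord P)) ∧
    (∀ P : ((W.map (Int.castRingHom ℚ))⁄Qbar).Point, InE1 A P → K56.zcoord P ∈ A.nonunits) ∧
    (∀ P Q : ((W.map (Int.castRingHom ℚ))⁄Qbar).Point, InE1 A P → InE1 A Q →
      K56.zcoord P = K56.zcoord Q → P = Q) ∧
    (∀ P : ((W.map (Int.castRingHom ℚ))⁄Qbar).Point,
      ∃ c₀ : ((W.map (Int.castRingHom ℚ))⁄Qbar).Point,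
        (∀ σ ∈ A.inertiaSubgroupIn ℚ, σ • c₀ = c₀) ∧ InE1 A (P - c₀)) ∧
    (∀ P Q : ((W.map (Int.castRingHom ℚ))⁄Qbar).Point, InE1 A P → InE1 A Q →
      InE1 A (P + Q) ∧ InE1 A (P - Q) ∧ InE1 A (-P)) := by
  have ha₁ := h34i_int_a₁ W A
  have ha₂ := h34i_int_a₂ W A
  have ha₃ := h34i_int_a₃ W A
  have ha₄ := h34i_int_a₄ W A
  have ha₆ := h34i_int_a₆ W A
  have hΔ := h34i_int_Δ W A hp hA hgood
  refine ⟨fun σ hσ P => h34i_inertia_sub_inE1 (R := ℚ) (S := ℚ) (K := Qbar) _ A ha₁ ha₂ ha₃ ha₄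
      ha₆ hΔ hσ P,
    fun τ hτ P hP => h34i_inE1_smul (R := ℚ) (S := ℚ) (K := Qbar) _ A hτ hP,
    fun τ P => h34i_zcoord_smul (R := ℚ) (S := ℚ) (K := Qbar) _ τ P,
    fun P hP => K56.zcoord_mem_nonunits A _ ha₁ ha₂ ha₃ ha₄ ha₆ hP,
    fun P Q hP hQ h => h34i_zcoord_inj A _ ha₁ ha₂ ha₃ ha₄ ha₆ hP hQ h,
    fun P => h34i_unram_lift _ A hp hA ha₁ ha₂ ha₃ ha₄ ha₆ hΔ P,
    fun P Q hP hQ => ⟨inE1_add A ha₁ ha₂ ha₃ ha₄ ha₆ hP hQ,
      inE1_sub A ha₁ ha₂ ha₃ ha₄ ha₆ hP hQ, inE1_neg A hP⟩⟩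

end QbarCase

end Fermat.Agent.P7
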