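import Fermat.Agent.P7.H58Law
import Fermat.Agent.P7.H34LocInert
import Fermat.Agent.P5.H75NewtonFix
import Fermat.Agent.P5.H72Arch

/-!
# P7 (wave 7, S40), block (4) LOCAL-W, leaf CLOS (helper34, twin): the field `add` of `H8wKer`

`K` a field, `A` an archimedean valuation subring, `W` a Weierstrass curve over `K` with
coefficients in `A`, `E¹ = InE1 A` the kernel of reduction, `z = K56.zcoord`, `w = h58wWc`.

* `h34j_lawZ_mem` : ABSTRACT closure: in an integral-valued `A`-algebra `P` of functions on a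
  finite type, `h58wZ W z₁ w₁ z₂ w₂` and `h58wW W z₁ w₁ z₂ w₂` lie in `P` as soon as
  `z₁, w₁, z₂, w₂ ∈ P` have values in the maximal ideal (three inverses, landed `h75c_inv`);
* `h34j_w_mem` : for a finite `S ⊆ E¹` the function `w` on `S` lies in `A[z]` (landed
  corrected Newton `h75c_newtonFix`, exact cubic `w = fzw z w`);
* `h34j_add` : **the field `add`**: for finite `S, S' ⊆ E¹` the function
  `(x, y) ↦ z (x + y)` lies in `h96c_prod A A[z|S] A[z|S']`;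
* `h34j_add_qbar` : the same for `K = ℚ̄`, `A` over a prime (archimedean by `h72a_archQbar`).
-/

set_option autoImplicit false
set_option linter.style.haveILetI false

namespace Fermat.Agent.P7

open WeierstrassCurve WeierstrassCurve.Affine Fermat.Agent.S05 Fermat.Agent.S05.K56
open Fermat.Agent.P5

section Abs

variable {K : Type} [Field K] (A : ValuationSubring K) {T : Type}

/-- the constant function. -/
def h34jC (T : Type) {K : Type} (a : K) : T → K := fun _ => a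

theorem h34j_cst_mem (P : Subalgebra A (T → K)) {a : K} (ha : a ∈ A) : h34jC T a ∈ P := by
  have e : h34jC T a = algebraMap A (T → K) ⟨a, ha⟩ := rfl
  rw [e]
  exact P.algebraMap_mem _

/-- elements of the algebra generated by integral-valued functions are integral-valued. -/
theorem h34j_adjoin_int (G : Set (T → K)) (hG : ∀ f ∈ G, ∀ t, f t ∈ A) :
    ∀ f ∈ Algebra.adjoin A G, ∀ t, f t ∈ A := by
  intro f hf
  induction hf using Algebra.adjoin_induction with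
  | mem f hf => exact hG f hf
  | algebraMap r => exact fun _ => r.2
  | add f g _ _ hf hg => exact fun t => add_mem (hf t) (hg t)
  | mul f g _ _ hf hg => exact fun t => mul_mem (hf t) (hg t)

/-- **abstract closure under the addition law.** -/
theorem h34j_lawZ_mem [Finite T] (W : Affine K) (ha₁ : W.a₁ ∈ A) (ha₂ : W.a₂ ∈ A)
    (ha₃ : W.a₃ ∈ A) (ha₄ : W.a₄ ∈ A) (ha₆ : W.a₆ ∈ A) (P : Subalgebra A (T → K))
    (hint : ∀ f ∈ P, ∀ t, f t ∈ A) {z₁ w₁ z₂ w₂ : T → K}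
    (hz₁ : z₁ ∈ P) (hw₁ : w₁ ∈ P) (hz₂ : z₂ ∈ P) (hw₂ : w₂ ∈ P)
    (hz₁m : ∀ t, z₁ t ∈ A.nonunits) (hw₁m : ∀ t, w₁ t ∈ A.nonunits)
    (hz₂m : ∀ t, z₂ t ∈ A.nonunits) (hw₂m : ∀ t, w₂ t ∈ A.nonunits) :
    (fun t => h58wZ W (z₁ t) (w₁ t) (z₂ t) (w₂ t)) ∈ P ∧
      (fun t => h58wW W (z₁ t) (w₁ t) (z₂ t) (w₂ t)) ∈ P := by
  have hc₁ : h34jC T W.a₁ ∈ P := h34j_cst_mem A P ha₁
  have hc₂ : h34jC T W.a₂ ∈ P := h34j_cst_mem A P ha₂
  have hc₃ : h34jC T W.a₃ ∈ P := h34j_cst_mem A P ha₃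
  have hc₄ : h34jC T W.a₄ ∈ P := h34j_cst_mem A P ha₄
  have hc₆ : h34jC T W.a₆ ∈ P := h34j_cst_mem A P ha₆
  have hn2 : h34jC T (2 : K) ∈ P := h34j_cst_mem A P (ofNat_mem A 2)
  have hn3 : h34jC T (3 : K) ∈ P := h34j_cst_mem A P (ofNat_mem A 3)
  have h1P : (1 : T → K) ∈ P := P.one_mem
  -- `zg1`, `zg2`
  have hG1 : (fun t => zg1 W (z₁ t) (z₂ t) (w₂ t)) ∈ P := by
    have e : (fun t => zg1 W (z₁ t) (z₂ t) (w₂ t)) =
        z₂ ^ 2 + z₁ * z₂ + z₁ ^ 2 + h34jC T W.a₁ * w₂ + h34jC T W.a₂ * (z₂ + z₁) * w₂ +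
          h34jC T W.a₄ * w₂ ^ 2 := rfl
    rw [e]
    repeat' (first | assumption | apply Subalgebra.add_mem | apply Subalgebra.mul_mem |
      apply Subalgebra.pow_mem)
  have hG2 : (fun t => 1 - zg2 W (z₁ t) (w₁ t) (w₂ t)) ∈ P := by
    have e : (fun t => 1 - zg2 W (z₁ t) (w₁ t) (w₂ t)) =
        1 - (h34jC T W.a₁ * z₁ + h34jC T W.a₂ * z₁ ^ 2 + h34jC T W.a₃ * (w₂ + w₁) +
          h34jC T W.a₄ * z₁ * (w₂ + w₁) +
            h34jC T W.a₆ * (w₂ ^ 2 + w₂ * w₁ + w₁ ^ 2)) := rfl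
    rw [e]
    repeat' (first | assumption | apply Subalgebra.sub_mem | apply Subalgebra.add_mem |
      apply Subalgebra.mul_mem | apply Subalgebra.pow_mem)
  have hI1 : (fun t => (1 - zg2 W (z₁ t) (w₁ t) (w₂ t))⁻¹) ∈ P :=
    h75c_inv K A T P hint _ hG2 fun t =>
      ⟨one_sub_ne_zero A (h58w_zg2_mem A W ha₁ ha₂ ha₃ ha₄ ha₆ (hz₁m t) (hw₁m t) (hw₂m t)),
        inv_one_sub_mem A (h58w_zg2_mem A W ha₁ ha₂ ha₃ ha₄ ha₆ (hz₁m t) (hw₁m t) (hw₂m t))⟩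
  -- the slope and the intercept
  obtain ⟨Lam, hLamdef⟩ : ∃ Lam : T → K,
      Lam = fun t => h58wLam W (z₁ t) (w₁ t) (z₂ t) (w₂ t) := ⟨_, rfl⟩
  have hLam : Lam ∈ P := by
    have e : Lam = (fun t => zg1 W (z₁ t) (z₂ t) (w₂ t)) *
        (fun t => (1 - zg2 W (z₁ t) (w₁ t) (w₂ t))⁻¹) := by rw [hLamdef]; rfl
    rw [e]
    exact P.mul_mem hG1 hI1
  have hLamm : ∀ t, Lam t ∈ A.nonunits := fun t => by
    rw [hLamdef]
    exact h58w_lam_mem A W ha₁ ha₂ ha₃ ha₄ ha₆ (hz₁m t) (hw₁m t) (hz₂m t) (hw₂m t)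
  obtain ⟨Nu, hNudef⟩ : ∃ Nu : T → K, Nu = w₁ - Lam * z₁ := ⟨_, rfl⟩
  have hNu : Nu ∈ P := by
    rw [hNudef]; exact P.sub_mem hw₁ (P.mul_mem hLam hz₁)
  have hNue : ∀ t, Nu t = h58wNu W (z₁ t) (w₁ t) (z₂ t) (w₂ t) := fun t => by
    rw [hNudef, hLamdef]; rfl
  -- the third root
  have hC3 : (fun t => zc3 W (Lam t)) ∈ P := by
    have e : (fun t => zc3 W (Lam t)) =
        1 + h34jC T W.a₂ * Lam + h34jC T W.a₄ * Lam ^ 2 + h34jC T W.a₆ * Lam ^ 3 := rfl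
    rw [e]
    repeat' (first | assumption | apply Subalgebra.add_mem | apply Subalgebra.mul_mem |
      apply Subalgebra.pow_mem)
  have hI3 : (fun t => (zc3 W (Lam t))⁻¹) ∈ P :=
    h75c_inv K A T P hint _ hC3 fun t =>
      ⟨h58w_zc3_ne_zero A W ha₂ ha₄ ha₆ (hLamm t), h58w_zc3_inv_mem A W ha₂ ha₄ ha₆ (hLamm t)⟩
  have hC2 : (fun t => zc2 W (Lam t) (Nu t)) ∈ P := by
    have e : (fun t => zc2 W (Lam t) (Nu t)) =
        h34jC T W.a₁ * Lam + h34jC T W.a₂ * Nu + h34jC T W.a₃ * Lam ^ 2 +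
          h34jC T 2 * h34jC T W.a₄ * Lam * Nu + h34jC T 3 * h34jC T W.a₆ * Lam ^ 2 * Nu := rfl
    rw [e]
    repeat' (first | assumption | apply Subalgebra.add_mem | apply Subalgebra.mul_mem |
      apply Subalgebra.pow_mem)
  obtain ⟨Z3, hZ3def⟩ : ∃ Z3 : T → K,
      Z3 = -z₁ - z₂ - (fun t => zc2 W (Lam t) (Nu t)) * (fun t => (zc3 W (Lam t))⁻¹) := ⟨_, rfl⟩
  have hZ3 : Z3 ∈ P := by
    rw [hZ3def]
    exact P.sub_mem (P.sub_mem (P.neg_mem hz₁) hz₂) (P.mul_mem hC2 hI3)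
  have hZ3e : ∀ t, Z3 t = h58wZ3 W (z₁ t) (w₁ t) (z₂ t) (w₂ t) := fun t => by
    have h1 : Z3 t = -z₁ t - z₂ t - zc2 W (Lam t) (Nu t) * (zc3 W (Lam t))⁻¹ := by
      rw [hZ3def]; rfl
    rw [h1, hNue t, hLamdef]
    rfl
  obtain ⟨W3, hW3def⟩ : ∃ W3 : T → K, W3 = Lam * Z3 + Nu := ⟨_, rfl⟩
  have hW3 : W3 ∈ P := by
    rw [hW3def]; exact P.add_mem (P.mul_mem hLam hZ3) hNu
  have hW3e : ∀ t, W3 t = h58wW3 W (z₁ t) (w₁ t) (z₂ t) (w₂ t) := fun t => by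
    have h1 : W3 t = Lam t * Z3 t + Nu t := by rw [hW3def]; rfl
    rw [h1, hZ3e t, hNue t, hLamdef]
    rfl
  -- the denominator
  obtain ⟨Den, hDendef⟩ : ∃ Den : T → K,
      Den = 1 - h34jC T W.a₁ * Z3 - h34jC T W.a₃ * W3 := ⟨_, rfl⟩
  have hDen : Den ∈ P := by
    rw [hDendef]
    exact P.sub_mem (P.sub_mem h1P (P.mul_mem hc₁ hZ3)) (P.mul_mem hc₃ hW3)
  have hDene : ∀ t, Den t = h58wDen W (z₁ t) (w₁ t) (z₂ t) (w₂ t) := fun t => by
    have h1 : Den t = 1 - W.a₁ * Z3 t - W.a₃ * W3 t := by rw [hDendef]; rfl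
    rw [h1, hZ3e t, hW3e t]
    rfl
  have hID : (fun t => (Den t)⁻¹) ∈ P :=
    h75c_inv K A T P hint _ hDen fun t => by
      rw [hDene t]
      exact ⟨h58w_den_ne_zero A W ha₁ ha₂ ha₃ ha₄ ha₆ (hz₁m t) (hw₁m t) (hz₂m t) (hw₂m t),
        h58w_den_inv_mem A W ha₁ ha₂ ha₃ ha₄ ha₆ (hz₁m t) (hw₁m t) (hz₂m t) (hw₂m t)⟩
  constructor
  · have e : (fun t => h58wZ W (z₁ t) (w₁ t) (z₂ t) (w₂ t)) = -Z3 * (fun t => (Den t)⁻¹) := by
      funext t
      have h1 : (-Z3 * (fun t => (Den t)⁻¹)) t = -Z3 t * (Den t)⁻¹ := rfl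
      rw [h1, hZ3e t, hDene t]
      rfl
    rw [e]
    exact P.mul_mem (P.neg_mem hZ3) hID
  · have e : (fun t => h58wW W (z₁ t) (w₁ t) (z₂ t) (w₂ t)) = -W3 * (fun t => (Den t)⁻¹) := by
      funext t
      have h1 : (-W3 * (fun t => (Den t)⁻¹)) t = -W3 t * (Den t)⁻¹ := rfl
      rw [h1, hW3e t, hDene t]
      rfl
    rw [e]
    exact P.mul_mem (P.neg_mem hW3) hID

end Abs

section Curve

variable {K : Type} [Field K] (A : ValuationSubring K) (W : Affine K)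

/-- the coefficients of the cubic `z ^ 3 + (a₁ z + a₂ z ^ 2 - 1) Y + (a₃ + a₄ z) Y ^ 2 +
a₆ Y ^ 3` satisfied by `w`. -/
def h34jCoef {T : Type} (W : Affine K) (zS : T → K) : ℕ → T → K
  | 0 => zS ^ 3
  | 1 => h34jC T W.a₁ * zS + h34jC T W.a₂ * zS ^ 2 - 1
  | 2 => h34jC T W.a₃ + h34jC T W.a₄ * zS
  | 3 => h34jC T W.a₆
  | _ + 4 => 0

/-- **Newton**: on a finite subset of the kernel of reduction, `w` is a polynomial in `z` with
coefficients in `A`. -/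
theorem h34j_w_mem (hArch : H96Arch A) (ha₁ : W.a₁ ∈ A) (ha₂ : W.a₂ ∈ A) (ha₃ : W.a₃ ∈ A)
    (ha₄ : W.a₄ ∈ A) (ha₆ : W.a₆ ∈ A) (S : Set W.Point) (hS : S.Finite)
    (hSE : ∀ P ∈ S, InE1 A P) :
    (fun x : ↥S => h58wWc (x : W.Point)) ∈
      Algebra.adjoin A {fun x : ↥S => zcoord (x : W.Point)} := by
  haveI : Finite ↥S := hS.to_subtype
  set R : Subalgebra A (↥S → K) := Algebra.adjoin A {fun x : ↥S => zcoord (x : W.Point)} with hR
  have hzR : (fun x : ↥S => zcoord (x : W.Point)) ∈ R :=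
    Algebra.subset_adjoin (Set.mem_singleton _)
  have hzm : ∀ x : ↥S, zcoord (x : W.Point) ∈ A.nonunits := fun x =>
    zcoord_mem_nonunits A W ha₁ ha₂ ha₃ ha₄ ha₆ (hSE x x.2)
  have hwm : ∀ x : ↥S, h58wWc (x : W.Point) ∈ A.nonunits := fun x =>
    h58w_wc_mem A W ha₁ ha₂ ha₃ ha₄ ha₆ (hSE x x.2)
  have hint : ∀ f ∈ R, ∀ s, f s ∈ A := by
    refine h34j_adjoin_int A _ ?_
    intro f hf t
    rw [Set.mem_singleton_iff] at hf
    rw [hf]
    exact mem_of_mem_nonunits A (hzm t)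
  have hsep : ∀ s s' : ↥S, (∀ f ∈ R, f s = f s') → s = s' := by
    intro s s' h
    have h1 := h _ hzR
    exact Subtype.ext (h34i_zcoord_inj A W ha₁ ha₂ ha₃ ha₄ ha₆ (hSE s s.2) (hSE s' s'.2) h1)
  refine h75c_newtonFix K A hArch ↥S R hint hsep _ hwm fun n => ?_
  have hc₁ : h34jC ↥S W.a₁ ∈ R := h34j_cst_mem A R ha₁
  have hc₂ : h34jC ↥S W.a₂ ∈ R := h34j_cst_mem A R ha₂
  have hc₃ : h34jC ↥S W.a₃ ∈ R := h34j_cst_mem A R ha₃
  have hc₄ : h34jC ↥S W.a₄ ∈ R := h34j_cst_mem A R ha₄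
  have hc₆ : h34jC ↥S W.a₆ ∈ R := h34j_cst_mem A R ha₆
  have h1R : (1 : ↥S → K) ∈ R := R.one_mem
  refine ⟨2, h34jCoef W (fun x : ↥S => zcoord (x : W.Point)), ?_, ?_, ?_⟩
  · intro k
    match k with
    | 0 => exact R.pow_mem hzR 3
    | 1 => exact R.sub_mem (R.add_mem (R.mul_mem hc₁ hzR) (R.mul_mem hc₂ (R.pow_mem hzR 2))) h1R
    | 2 => exact R.add_mem hc₃ (R.mul_mem hc₄ hzR)
    | 3 => exact hc₆
    | _ + 4 => exact R.zero_mem
  · intro s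
    have hm : W.a₁ * zcoord (s : W.Point) + W.a₂ * zcoord (s : W.Point) ^ 2 ∈ A.nonunits :=
      nonunits_add_mem A (mem_mul_nonunits A ha₁ (hzm s))
        (mem_mul_nonunits A ha₂ (nonunits_pow_mem A (hzm s) two_ne_zero))
    have e : h34jCoef W (fun x : ↥S => zcoord (x : W.Point)) 1 s =
        -(1 - (W.a₁ * zcoord (s : W.Point) + W.a₂ * zcoord (s : W.Point) ^ 2)) := by
      have h1 : h34jCoef W (fun x : ↥S => zcoord (x : W.Point)) 1 s =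
          W.a₁ * zcoord (s : W.Point) + W.a₂ * zcoord (s : W.Point) ^ 2 - 1 := rfl
      rw [h1]; ring
    rw [e]
    refine ⟨neg_ne_zero.2 (one_sub_ne_zero A hm), ?_⟩
    rw [inv_neg]
    exact neg_mem (inv_one_sub_mem A hm)
  · intro s
    refine ⟨0, zero_mem _, ?_⟩
    have E := h58w_wc_eq A W ha₁ ha₂ ha₃ ha₄ ha₆ (hSE s s.2)
    rw [zero_mul]
    have h0 : h34jCoef W (fun x : ↥S => zcoord (x : W.Point)) 0 s =
        zcoord (s : W.Point) ^ 3 := rfl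
    have h1 : h34jCoef W (fun x : ↥S => zcoord (x : W.Point)) 1 s =
        W.a₁ * zcoord (s : W.Point) + W.a₂ * zcoord (s : W.Point) ^ 2 - 1 := rfl
    have h2 : h34jCoef W (fun x : ↥S => zcoord (x : W.Point)) 2 s =
        W.a₃ + W.a₄ * zcoord (s : W.Point) := rfl
    have h3 : h34jCoef W (fun x : ↥S => zcoord (x : W.Point)) 3 s = W.a₆ := rfl
    rw [Finset.sum_range_succ, Finset.sum_range_succ, Finset.sum_range_succ,
      Finset.sum_range_succ, Finset.sum_range_zero, h0, h1, h2, h3]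
    simp only [fzw] at E
    linear_combination -E

/-- **the field `add` of `H8wKer`**: for finite `S, S'` inside the kernel of reduction, the
function `(x, y) ↦ z (x + y)` lies in the product algebra `A[z|S] ⊗ A[z|S']`.  The coordinate
`z` is any function which agrees with `zcoord` on the kernel of reduction. -/
theorem h34j_add [DecidableEq K] (hArch : H96Arch A) (ha₁ : W.a₁ ∈ A) (ha₂ : W.a₂ ∈ A)
    (ha₃ : W.a₃ ∈ A) (ha₄ : W.a₄ ∈ A) (ha₆ : W.a₆ ∈ A)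
    (z : W.Point → K) (hz : ∀ P, InE1 A P → z P = zcoord P)
    (S S' : Set W.Point) (hS : S.Finite) (hS' : S'.Finite)
    (hSE : ∀ P ∈ S, InE1 A P) (hSE' : ∀ P ∈ S', InE1 A P) :
    (fun p : ↥S × ↥S' => z ((p.1 : W.Point) + (p.2 : W.Point))) ∈
      h96c_prod A (Algebra.adjoin A {fun x : ↥S => z (x : W.Point)})
        (Algebra.adjoin A {fun x : ↥S' => z (x : W.Point)}) := by
  haveI : Finite ↥S := hS.to_subtype
  haveI : Finite ↥S' := hS'.to_subtype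
  have ezS : (fun x : ↥S => z (x : W.Point)) = fun x : ↥S => zcoord (x : W.Point) :=
    funext fun x => hz _ (hSE x x.2)
  have ezS' : (fun x : ↥S' => z (x : W.Point)) = fun x : ↥S' => zcoord (x : W.Point) :=
    funext fun x => hz _ (hSE' x x.2)
  rw [ezS, ezS']
  set R : Subalgebra A (↥S → K) := Algebra.adjoin A {fun x : ↥S => zcoord (x : W.Point)} with hR
  set R' : Subalgebra A (↥S' → K) :=
    Algebra.adjoin A {fun x : ↥S' => zcoord (x : W.Point)} with hR'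
  have hzR : (fun x : ↥S => zcoord (x : W.Point)) ∈ R :=
    Algebra.subset_adjoin (Set.mem_singleton _)
  have hzR' : (fun x : ↥S' => zcoord (x : W.Point)) ∈ R' :=
    Algebra.subset_adjoin (Set.mem_singleton _)
  have hwR := h34j_w_mem A W hArch ha₁ ha₂ ha₃ ha₄ ha₆ S hS hSE
  have hwR' := h34j_w_mem A W hArch ha₁ ha₂ ha₃ ha₄ ha₆ S' hS' hSE'
  rw [← hR] at hwR
  rw [← hR'] at hwR'
  have hzm : ∀ x : ↥S, zcoord (x : W.Point) ∈ A.nonunits := fun x =>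
    zcoord_mem_nonunits A W ha₁ ha₂ ha₃ ha₄ ha₆ (hSE x x.2)
  have hwm : ∀ x : ↥S, h58wWc (x : W.Point) ∈ A.nonunits := fun x =>
    h58w_wc_mem A W ha₁ ha₂ ha₃ ha₄ ha₆ (hSE x x.2)
  have hzm' : ∀ x : ↥S', zcoord (x : W.Point) ∈ A.nonunits := fun x =>
    zcoord_mem_nonunits A W ha₁ ha₂ ha₃ ha₄ ha₆ (hSE' x x.2)
  have hwm' : ∀ x : ↥S', h58wWc (x : W.Point) ∈ A.nonunits := fun x =>
    h58w_wc_mem A W ha₁ ha₂ ha₃ ha₄ ha₆ (hSE' x x.2)
  have hintR : ∀ f ∈ R, ∀ s, f s ∈ A := by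
    refine h34j_adjoin_int A _ ?_
    intro f hf t
    rw [Set.mem_singleton_iff] at hf
    rw [hf]
    exact mem_of_mem_nonunits A (hzm t)
  have hintR' : ∀ f ∈ R', ∀ s, f s ∈ A := by
    refine h34j_adjoin_int A _ ?_
    intro f hf t
    rw [Set.mem_singleton_iff] at hf
    rw [hf]
    exact mem_of_mem_nonunits A (hzm' t)
  -- the product algebra
  set P : Subalgebra A (↥S × ↥S' → K) := h96c_prod A R R' with hP
  have hint : ∀ f ∈ P, ∀ t, f t ∈ A := by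
    refine h34j_adjoin_int A _ ?_
    rintro f (⟨g, hg, rfl⟩ | ⟨g, hg, rfl⟩) t
    · exact hintR g hg _
    · exact hintR' g hg _
  have hfst : ∀ f ∈ R, (fun p : ↥S × ↥S' => f p.1) ∈ P := fun f hf =>
    Algebra.subset_adjoin (Or.inl ⟨f, hf, rfl⟩)
  have hsnd : ∀ f ∈ R', (fun p : ↥S × ↥S' => f p.2) ∈ P := fun f hf =>
    Algebra.subset_adjoin (Or.inr ⟨f, hf, rfl⟩)
  have key := (h34j_lawZ_mem A W ha₁ ha₂ ha₃ ha₄ ha₆ P hint
    (hfst _ hzR) (hfst _ hwR) (hsnd _ hzR') (hsnd _ hwR')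
    (fun t => hzm t.1) (fun t => hwm t.1) (fun t => hzm' t.2) (fun t => hwm' t.2)).1
  have e : (fun p : ↥S × ↥S' => z ((p.1 : W.Point) + (p.2 : W.Point))) =
      fun t : ↥S × ↥S' => h58wZ W (zcoord (t.1 : W.Point)) (h58wWc (t.1 : W.Point))
        (zcoord (t.2 : W.Point)) (h58wWc (t.2 : W.Point)) := by
    funext p
    rw [hz _ (inE1_add A ha₁ ha₂ ha₃ ha₄ ha₆ (hSE p.1 p.1.2) (hSE' p.2 p.2.2))]
    exact (h58w_law A W ha₁ ha₂ ha₃ ha₄ ha₆ (hSE p.1 p.1.2) (hSE' p.2 p.2.2)).1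
  rw [e]
  exact key

end Curve

section QbarCase

/-- the field `add` for `ℚ̄`. -/
theorem h34j_add_qbar (A : ValuationSubring (AlgebraicClosure ℚ)) {ℓ : ℕ} (hℓ : ℓ.Prime)
    (hA : A.LiesOverPrime ℓ) (W : Affine (AlgebraicClosure ℚ))
    (ha₁ : W.a₁ ∈ A) (ha₂ : W.a₂ ∈ A) (ha₃ : W.a₃ ∈ A) (ha₄ : W.a₄ ∈ A) (ha₆ : W.a₆ ∈ A)
    (z : W.Point → AlgebraicClosure ℚ) (hz : ∀ P, InE1 A P → z P = zcoord P)
    (S S' : Set W.Point) (hS : S.Finite) (hS' : S'.Finite)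
    (hSE : ∀ P ∈ S, InE1 A P) (hSE' : ∀ P ∈ S', InE1 A P) :
    (fun p : ↥S × ↥S' => z ((p.1 : W.Point) + (p.2 : W.Point))) ∈
      h96c_prod A (Algebra.adjoin A {fun x : ↥S => z (x : W.Point)})
        (Algebra.adjoin A {fun x : ↥S' => z (x : W.Point)}) :=
  h34j_add A W (h72a_archQbar A ℓ hℓ hA) ha₁ ha₂ ha₃ ha₄ ha₆ z hz S S' hS hS' hSE hSE'

end QbarCase

end Fermat.Agent.P7
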