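import Fermat.Agent.P5.H97DescTop
import Fermat.Agent.P5.H87Adapter
import Fermat.Agent.P5.H97Subquot
import Fermat.Agent.S56F.FinalAsm
import Fermat.Agent.Tors.Qbar
import Fermat.Agent.S13.AsmGroups
import Fermat.Prelude.Def_EllipticCurve_FrobeniusTrace

/-!
# Wave 7 (S40), block (4) LOCAL-W, leaf TOP (helper47, prefix `h47w`): FIN + wiring

For `W : WeierstrassCurve ℤ` with `W.Δ ≠ 0` and `X = W[n](ℚ̄)` (the Prelude's torsion module
`Submodule.torsionBy ℤ (W_ℚ ⁄ ℚ̄).Point n`) with the Galois action `h47wAct W n σ x = σ • x`: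

* (FIN) `h47w_finite`, `h47w_isGalAct : H98pIsGalAct (h47wAct W n)`;
* (WIRE) `h47w_flat_of_order` : a local order (`H96LocOrder`) at ONE valuation subring over `p`
  gives `h97c_Flat p X act` (the Prelude's flatness), by the landed `h97d_descent` and
  `h87x_adapter`;
* (LOCAL) `h47w_locFlat_of_order` : hence `S56F.LocFlat p X (act ∘ ιp)`, by the landed
  `h97_niceExists`; `h47w_locFlat_rho_of_order` : the same for the representation
  `h47wRho W p : Gq p →* Module.End (ZMod p) W[p]` (the input shape of `h4o_ordPeuRep`);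
* (SUBQUOT) `h47w_locFlat_subquot` : the same for every Galois-subquotient `V` of a finite
  power of `X` (landed `h97c_subquot`), e.g. `V = W[p] ⊗ k`.
-/

set_option autoImplicit false
set_option linter.style.haveILetI false

open WeierstrassCurve WeierstrassCurve.Affine.Point
open scoped WeierstrassCurve.Affine

noncomputable section

namespace Fermat.Agent.P7

/-- `ℚ̄`. -/
abbrev H47wQb : Type := AlgebraicClosure ℚ

/-- `G_ℚ`. -/
abbrev H47wGQ : Type := AlgebraicClosure ℚ ≃ₐ[ℚ] AlgebraicClosure ℚ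

/-- `X = W[n](ℚ̄)`, the torsion module of the Prelude. -/
abbrev H47wX (W : WeierstrassCurve ℤ) (n : ℕ) : Type :=
  Submodule.torsionBy ℤ ((W.map (Int.castRingHom ℚ))⁄(AlgebraicClosure ℚ)).Point n

/-- The Galois action on `W[n](ℚ̄)`. -/
def h47wAct (W : WeierstrassCurve ℤ) (n : ℕ) (σ : H47wGQ) (x : H47wX W n) : H47wX W n :=
  σ • x

@[simp]
theorem h47wAct_apply (W : WeierstrassCurve ℤ) (n : ℕ) (σ : H47wGQ) (x : H47wX W n) :
    h47wAct W n σ x = σ • x := rfl

theorem h47w_Δ_ne (W : WeierstrassCurve ℤ) (hΔ : W.Δ ≠ 0) :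
    (W.map (Int.castRingHom ℚ)).Δ ≠ 0 := by
  rw [WeierstrassCurve.map_Δ]
  simpa using hΔ

/-- (FIN) `W[n](ℚ̄)` is finite. -/
theorem h47w_finite (W : WeierstrassCurve ℤ) (hΔ : W.Δ ≠ 0) (n : ℕ) (hn : n ≠ 0) :
    Finite (H47wX W n) :=
  Tors.finite_torsionBy_qbar (W.map (Int.castRingHom ℚ)) (h47w_Δ_ne W hΔ) n hn

/-- (FIN) the Galois action on `W[n](ℚ̄)` is a continuous action by automorphisms. -/
theorem h47w_isGalAct (W : WeierstrassCurve ℤ) (hΔ : W.Δ ≠ 0) (n : ℕ) (hn : n ≠ 0) :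
    P5.H98pIsGalAct (h47wAct W n) := by
  haveI : Finite (S13.Tors (W.map (Int.castRingHom ℚ)) n) := h47w_finite W hΔ n hn
  obtain ⟨S₁, hS₁⟩ := S13.Asm.exists_finset_fix (W := W.map (Int.castRingHom ℚ)) (p := n)
  haveI : Algebra.IsAlgebraic ℚ (AlgebraicClosure ℚ) := AlgebraicClosure.isAlgebraic ℚ
  refine ⟨fun x => one_smul _ x, fun σ τ x => mul_smul σ τ x, fun σ x y => smul_add σ x y,
    IntermediateField.adjoin ℚ ((S₁ : Finset (AlgebraicClosure ℚ)) : Set (AlgebraicClosure ℚ)),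
    IntermediateField.finiteDimensional_adjoin (fun x _ => Algebra.IsIntegral.isIntegral x), ?_⟩
  intro σ hσ x
  exact hS₁ σ (fun s hs => hσ s (IntermediateField.subset_adjoin ℚ _ hs)) x

/-- (FIN) the local form of the action is an action. -/
theorem h47w_isAct (W : WeierstrassCurve ℤ) (n : ℕ) :
    S56F.IsAct (h47wAct W n) :=
  ⟨fun x => one_smul _ x, fun σ τ x => mul_smul σ τ x, fun σ x y => smul_add σ x y⟩

/-- (WIRE) a local order at one valuation subring over `p` gives a function order over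
`ℤ_(p)` on `W[n](ℚ̄)`. -/
theorem h47w_hasOrder_of_order (W : WeierstrassCurve ℤ) (hΔ : W.Δ ≠ 0) (p : ℕ) [Fact p.Prime]
    (n : ℕ) (hn : n ≠ 0) (A : ValuationSubring H47wQb) (hA : A.LiesOverPrime p)
    (G : Set (H47wX W n → H47wQb)) (hG : P5.H96LocOrder A (h47wAct W n) G) :
    P5.h97c_HasOrder p (H47wX W n) (h47wAct W n) := by
  haveI : Finite (H47wX W n) := h47w_finite W hΔ n hn
  exact P5.h97d_descent p (H47wX W n) (h47wAct W n) (h47w_isGalAct W hΔ n hn) A hA G hG

/-- (WIRE) a local order at one valuation subring over `p` gives the Prelude's flatness of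
`W[n](ℚ̄)` at `p`. -/
theorem h47w_flat_of_order (W : WeierstrassCurve ℤ) (hΔ : W.Δ ≠ 0) (p : ℕ) [Fact p.Prime]
    (n : ℕ) (hn : n ≠ 0) (A : ValuationSubring H47wQb) (hA : A.LiesOverPrime p)
    (G : Set (H47wX W n → H47wQb)) (hG : P5.H96LocOrder A (h47wAct W n) G) :
    P5.h97c_Flat p (H47wX W n) (h47wAct W n) := by
  haveI : Finite (H47wX W n) := h47w_finite W hΔ n hn
  exact P5.h87x_adapter p (H47wX W n) (h47wAct W n)
    (h47w_hasOrder_of_order W hΔ p n hn A hA G hG)

/-- (LOCAL) the Prelude's flatness gives the local necessary condition `LocFlat`. -/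
theorem h47w_locFlat_of_flat (p : ℕ) [Fact p.Prime] (M : Type) [AddCommGroup M] [Finite M]
    (act : H47wGQ → M → M) (hact : S56F.IsAct act) (hfl : P5.h97c_Flat p M act) :
    S56F.LocFlat p M (fun τ => act (S56F.ιp p τ)) :=
  fun Γ => S56F.h97_niceExists p M act hact hfl Γ

/-- (LOCAL) a local order at one valuation subring over `p` gives `LocFlat` for `W[n](ℚ̄)`. -/
theorem h47w_locFlat_of_order (W : WeierstrassCurve ℤ) (hΔ : W.Δ ≠ 0) (p : ℕ) [Fact p.Prime]
    (n : ℕ) (hn : n ≠ 0) (A : ValuationSubring H47wQb) (hA : A.LiesOverPrime p)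
    (G : Set (H47wX W n → H47wQb)) (hG : P5.H96LocOrder A (h47wAct W n) G) :
    S56F.LocFlat p (H47wX W n) (fun τ => h47wAct W n (S56F.ιp p τ)) := by
  haveI : Finite (H47wX W n) := h47w_finite W hΔ n hn
  exact h47w_locFlat_of_flat p (H47wX W n) (h47wAct W n) (h47w_isAct W n)
    (h47w_flat_of_order W hΔ p n hn A hA G hG)

/-- The local mod-`p` representation of `W` at `p`. -/
def h47wRho (W : WeierstrassCurve ℤ) (p : ℕ) [Fact p.Prime] :
    PT.Loc.Gq p →* Module.End (ZMod p) (H47wX W p) :=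
  (galoisRepModuleEnd ℚ (W.map (Int.castRingHom ℚ)) p).comp (S56F.ιp p)

@[simp]
theorem h47wRho_apply (W : WeierstrassCurve ℤ) (p : ℕ) [Fact p.Prime] (τ : PT.Loc.Gq p)
    (x : H47wX W p) : h47wRho W p τ x = S56F.ιp p τ • x := rfl

/-- (LOCAL) the input shape of `h4o_ordPeuRep` for the local mod-`p` representation of `W`. -/
theorem h47w_locFlat_rho_of_order (W : WeierstrassCurve ℤ) (hΔ : W.Δ ≠ 0) (p : ℕ)
    [Fact p.Prime] (A : ValuationSubring H47wQb) (hA : A.LiesOverPrime p)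
    (G : Set (H47wX W p → H47wQb)) (hG : P5.H96LocOrder A (h47wAct W p) G) :
    S56F.LocFlat p (H47wX W p) (fun σ v => h47wRho W p σ v) :=
  h47w_locFlat_of_order W hΔ p p (Fact.out : p.Prime).ne_zero A hA G hG

/-- (SUBQUOT) `LocFlat` for every Galois-subquotient `V` of a finite power of a flat module
(for instance `V = W[p] ⊗ k`, or a Hecke-eigenspace in a power of `W[p]`). -/
theorem h47w_locFlat_subquot (p : ℕ) [Fact p.Prime] (M V : Type) [AddCommGroup M]
    [AddCommGroup V] [Finite M] [Finite V] (actM : H47wGQ → M → M) (actV : H47wGQ → V → V)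
    (hM : P5.H98pIsGalAct actM) (hV : P5.H98pIsGalAct actV) (hfl : P5.h97c_Flat p M actM)
    (r : ℕ) (X : AddSubgroup (Fin r → M)) (φ : X →+ V)
    (hX : ∀ σ, ∀ x ∈ X, (fun i => actM σ (x i)) ∈ X)
    (hφ : ∀ σ (x y : X), (∀ i, (y : Fin r → M) i = actM σ ((x : Fin r → M) i)) →
        φ y = actV σ (φ x))
    (hsurj : Function.Surjective φ) :
    S56F.LocFlat p V (fun τ => actV (S56F.ιp p τ)) :=
  h47w_locFlat_of_flat p V actV ⟨hV.one, hV.mul, hV.add⟩
    (P5.h97c_subquot p M V actM actV hM hV hfl r X φ hX hφ hsurj)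

end Fermat.Agent.P7
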