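import Fermat.Agent.P7.H8LocWInst
import Fermat.Agent.P7.H47LocTop
import Fermat.Agent.P7.H34LocInert
import Fermat.Agent.P7.H34LocAdd
import Fermat.Agent.S54.Frobenius

/-!
# P7 (wave 7, S40), block (4) LOCAL-W, the unconditional statement (helper34)

The two frozen inputs of helper8's `h8w_flat_of` (`P7/H8LocWInst.lean`) are proved from the
landed leaves INERT (`P7/H34LocInert.lean`) and LAW + CLOS (`P7/H58Law.lean`,
`P7/H34LocAdd.lean`):

* `h34m_inertW : H8wInertW W A` for `W` over `ℤ` good at `p`, `A` over `p`;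
* `h34m_addW : H8wAddW W A` for `A` over a prime;
* `h34m_ker : H8wKer A (h8wE1 W A) (h8wZ W A)`;
* `h34m_flat` : **LOCAL-W**: `W` over `ℤ` with good reduction at `p` ⟹
  `h97c_Flat p W[n]` for every `n ≠ 0`;
* `h34m_locOrder47`, `h34m_flat47`, `h34m_locFlat47`, `h34m_locFlat_rho` : the same in the
  vocabulary of helper47's `P7/H47LocTop.lean`; `h34m_locFlat_rho` is the input shape of the
  landed S56F `h4o_ordPeuRep` for the local mod-`p` representation `h47wRho W p`.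
-/

set_option autoImplicit false
set_option linter.style.haveILetI false

namespace Fermat.Agent.P7

open WeierstrassCurve Fermat.Agent.S05 Fermat.Agent.S37 Fermat.Agent.P5

/-- leaf INERT in helper8's frozen shape. -/
theorem h34m_inertW (W : WeierstrassCurve ℤ) (A : ValuationSubring Kbar) {p : ℕ}
    (hp : p.Prime) (hA : A.LiesOverPrime p) (hgood : ¬ (p : ℤ) ∣ W.Δ) : H8wInertW W A := by
  obtain ⟨h1, -, -, -, h5, h6, -⟩ := h34i_localW_inert W A hp hA hgood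
  exact ⟨fun P Q hP hQ h => h5 P Q hP hQ h, h1, h6⟩

/-- leaves LAW + CLOS in helper8's frozen shape. -/
theorem h34m_addW (W : WeierstrassCurve ℤ) (A : ValuationSubring Kbar) {p : ℕ}
    (hp : p.Prime) (hA : A.LiesOverPrime p) : H8wAddW W A := by
  intro S S' hS hS' hSE hSE'
  exact h34j_add_qbar A hp hA _ (h8w_a₁_mem W A) (h8w_a₂_mem W A) (h8w_a₃_mem W A)
    (h8w_a₄_mem W A) (h8w_a₆_mem W A) K56.zcoord (fun _ _ => rfl) S S' hS hS' hSE hSE'

/-- the inputs of the abstract order step for `W`, unconditionally. -/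
theorem h34m_ker (W : WeierstrassCurve ℤ) (A : ValuationSubring Kbar) {p : ℕ}
    (hp : p.Prime) (hA : A.LiesOverPrime p) (hgood : ¬ (p : ℤ) ∣ W.Δ) :
    H8wKer A (h8wE1 W A) (h8wZ W A) :=
  h8w_ker_of W A (h34m_inertW W A hp hA hgood) (h34m_addW W A hp hA)

/-- the local order on `W[n]` at every place over a prime of good reduction. -/
theorem h34m_locOrder (W : WeierstrassCurve ℤ) (hΔ : W.Δ ≠ 0) (A : ValuationSubring Kbar)
    {p : ℕ} (hp : p.Prime) (hA : A.LiesOverPrime p) (hgood : ¬ (p : ℤ) ∣ W.Δ)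
    (n : ℕ) (hn : n ≠ 0) :
    ∃ G : Set (h8wT (h8wPt W) (n : ℤ) → Kbar),
      H96LocOrder A (h8wAct (𝔾 := h8wPt W) (n : ℤ)) G := by
  haveI : Finite (h8wT (h8wPt W) (n : ℤ)) := h8w_finite W hΔ n hn
  exact ⟨_, h8w_locOrder (h34m_ker W A hp hA hgood) (n : ℤ)⟩

/-- **LOCAL-W**: for `W` over `ℤ` with good reduction at `p`, the Galois module `W[n]` is flat
at `p`. -/
theorem h34m_flat (W : WeierstrassCurve ℤ) (hΔ : W.Δ ≠ 0) (p : ℕ) [hp : Fact p.Prime]
    (hgood : ¬ (p : ℤ) ∣ W.Δ) (n : ℕ) (hn : n ≠ 0) :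
    h97c_Flat p (h8wT (h8wPt W) (n : ℤ)) (h8wAct (𝔾 := h8wPt W) (n : ℤ)) := by
  obtain ⟨A, hA⟩ := Fermat.Agent.S54.exists_liesOverPrime hp.out
  exact h8w_flat_of W hΔ p n hn A hA (h34m_inertW W A hp.out hA hgood)
    (h34m_addW W A hp.out hA)

/-- the two actions on `W[n]` agree. -/
theorem h34m_act_eq (W : WeierstrassCurve ℤ) (n : ℕ) :
    h8wAct (𝔾 := h8wPt W) (n : ℤ) = h47wAct W n := rfl

/-- the local order in the vocabulary of `P7/H47LocTop.lean`. -/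
theorem h34m_locOrder47 (W : WeierstrassCurve ℤ) (hΔ : W.Δ ≠ 0) (A : ValuationSubring Kbar)
    {p : ℕ} (hp : p.Prime) (hA : A.LiesOverPrime p) (hgood : ¬ (p : ℤ) ∣ W.Δ)
    (n : ℕ) (hn : n ≠ 0) :
    ∃ G : Set (H47wX W n → H47wQb), H96LocOrder A (h47wAct W n) G := by
  obtain ⟨G, hG⟩ := h34m_locOrder W hΔ A hp hA hgood n hn
  rw [h34m_act_eq] at hG
  exact ⟨G, hG⟩

/-- **LOCAL-W** in the vocabulary of `P7/H47LocTop.lean`. -/
theorem h34m_flat47 (W : WeierstrassCurve ℤ) (hΔ : W.Δ ≠ 0) (p : ℕ) [hp : Fact p.Prime]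
    (hgood : ¬ (p : ℤ) ∣ W.Δ) (n : ℕ) (hn : n ≠ 0) :
    h97c_Flat p (H47wX W n) (h47wAct W n) := by
  obtain ⟨A, hA⟩ := Fermat.Agent.S54.exists_liesOverPrime hp.out
  obtain ⟨G, hG⟩ := h34m_locOrder47 W hΔ A hp.out hA hgood n hn
  exact h47w_flat_of_order W hΔ p n hn A hA G hG

/-- **LOCAL-W, local form**: `W[n]` is `LocFlat` at a prime `p` of good reduction. -/
theorem h34m_locFlat47 (W : WeierstrassCurve ℤ) (hΔ : W.Δ ≠ 0) (p : ℕ) [hp : Fact p.Prime]
    (hgood : ¬ (p : ℤ) ∣ W.Δ) (n : ℕ) (hn : n ≠ 0) :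
    Fermat.Agent.S56F.LocFlat p (H47wX W n)
      (fun τ => h47wAct W n (Fermat.Agent.S56F.ιp p τ)) := by
  obtain ⟨A, hA⟩ := Fermat.Agent.S54.exists_liesOverPrime hp.out
  obtain ⟨G, hG⟩ := h34m_locOrder47 W hΔ A hp.out hA hgood n hn
  exact h47w_locFlat_of_order W hΔ p n hn A hA G hG

/-- **LOCAL-W for the mod-`p` representation**: the local representation `h47wRho W p` on
`W[p]` is `LocFlat` when `W` has good reduction at `p` (input of S56F `h4o_ordPeuRep`). -/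
theorem h34m_locFlat_rho (W : WeierstrassCurve ℤ) (hΔ : W.Δ ≠ 0) (p : ℕ) [hp : Fact p.Prime]
    (hgood : ¬ (p : ℤ) ∣ W.Δ) :
    Fermat.Agent.S56F.LocFlat p (H47wX W p) (fun σ v => h47wRho W p σ v) := by
  obtain ⟨A, hA⟩ := Fermat.Agent.S54.exists_liesOverPrime hp.out
  obtain ⟨G, hG⟩ := h34m_locOrder47 W hΔ A hp.out hA hgood p hp.out.ne_zero
  exact h47w_locFlat_rho_of_order W hΔ p A hA G hG

end Fermat.Agent.P7
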