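import Fermat.Agent.P7.H24Peu
import Fermat.Agent.PT.Bridge.LocGrpA
import Fermat.Agent.PT.Bridge.LocGrpE
import Fermat.Agent.S56F.FLC1_helper7

/-!
# Wave 7 (S40), row L-PEU, TRANSPORT of the Kummer generator to `ℚ̄` (helper24, prefix `h24q_`)

* `h24q_exists_alg_near` : every `x : Om p` is approximated by algebraic numbers `ι y`
  (`ι = padicEmbedding p`) lying in `ℚ_p(x)` (Krasner + degree count).
* `h24q_transport` : a unit `β` of `Om p` on which `I₁ = {g ∈ inertia, g = 1 on μ_p}` acts through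
  `p`-th roots of unity can be replaced by `ι β₀`, `β₀ : ℚ̄`, with the same Kummer character:
  `g (ι β₀) / ι β₀ = g β / β` for all `g ∈ I₁`.
-/

set_option autoImplicit false
set_option linter.unusedSectionVars false
set_option linter.style.haveILetI false

open Fermat.Agent.PT.Loc Fermat.Agent.S56F Fermat.Agent.PT.Bridge Polynomial IntermediateField

noncomputable section

namespace Fermat.Agent.P7

variable {p : ℕ} [Fact p.Prime]

/-- **Approximation inside `ℚ_p(x)`**: algebraic numbers of `ℚ_p(x)` are dense in it. -/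
theorem h24q_exists_alg_near (x : PadicAlgCl p) {δ₀ : ℝ} (hδ₀ : 0 < δ₀) :
    ∃ y : AlgebraicClosure ℚ, ‖x - padicEmbedding p y‖ < δ₀ ∧
      padicEmbedding p y ∈ ℚ_[p]⟮x⟯ := by
  classical
  have hx : IsIntegral ℚ_[p] x := Algebra.IsIntegral.isIntegral x
  set f := minpoly ℚ_[p] x with hf
  have fmon : f.Monic := minpoly.monic hx
  have fa0 : Polynomial.aeval x f = 0 := minpoly.aeval _ _
  have fnatdeg0 : f.natDegree ≠ 0 := (minpoly.natDegree_pos hx).ne'
  -- the Krasner bound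
  let S : Finset (PadicAlgCl p) := {z ∈ (f.rootSet (PadicAlgCl p)).toFinset | z ≠ x}
  let δK : ℝ := if hS : S.Nonempty then Finset.min' (S.image fun z => ‖x - z‖)
      (Finset.image_nonempty.mpr hS) else 1
  have norm_sub_le : ∀ a' : PadicAlgCl p, IsConjRoot ℚ_[p] x a' → x ≠ a' → δK ≤ ‖x - a'‖ := by
    intro a' conj ne
    by_cases hS : S.Nonempty <;> simp only [hS, ↓reduceDIte, δK]
    · apply Finset.min'_le (S.image fun z => ‖x - z‖) (‖x - a'‖)
      apply Finset.mem_image_of_mem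
      simp only [Finset.mem_filter, Set.mem_toFinset, S]
      rw [← (isConjRoot_iff_mem_minpoly_rootSet hx)]
      exact ⟨conj, ne.symm⟩
    · simp only [ne_eq, Finset.not_nonempty_iff_eq_empty, Finset.filter_eq_empty_iff,
        Set.mem_toFinset, not_not, S] at hS
      rw [isConjRoot_iff_mem_minpoly_rootSet hx] at conj
      exact (ne (hS conj).symm).elim
  have δKpos : δK > 0 := by
    by_cases hS : S.Nonempty <;> simp only [hS, ↓reduceDIte, δK]
    · simp only [gt_iff_lt, Finset.lt_min'_iff, Finset.mem_image, forall_exists_index, and_imp,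
        forall_apply_eq_imp_iff₂]
      rintro a' ha'
      simp only [Finset.mem_filter, Set.mem_toFinset, S] at ha'
      rw [norm_pos_iff, sub_ne_zero]
      exact ha'.2.symm
    · linarith
  obtain ⟨δ, hδ, hδ1, hδ2⟩ : ∃ δ : ℝ, 0 < δ ∧ δ ≤ δ₀ ∧ δ ≤ δK :=
    ⟨min δ₀ δK, lt_min hδ₀ δKpos, min_le_left _ _, min_le_right _ _⟩
  -- a root of a rational polynomial of the same degree, close to `x`
  have hε : (δ / (max ‖x‖ 1)) ^ f.natDegree / (f.natDegree + 1) > 0 := by positivity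
  obtain ⟨g, gmon, gdeg, gcoeff⟩ :=
    exists_monic_and_natDegree_eq_and_norm_map_algebraMap_coeff_sub_lt
      (h23b_denseRange_algebraMap p) fmon hε
  obtain ⟨b, hb, hab⟩ := exists_aroots_norm_sub_lt_of_norm_coeff_sub_lt
      hε fa0 fmon (gmon.map _) (gdeg ▸ (g.natDegree_map _)) gcoeff
      (IsAlgClosed.splits _)
  have hab : ‖x - b‖ < δ := by
    rw [← Real.rpow_natCast, ← mul_comm_div, div_self, one_mul,
        ← Real.rpow_mul (div_pos hδ (by positivity)).le, mul_inv_cancel₀] at hab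
    · simpa [mul_assoc, div_mul_cancel₀ _ (by positivity : (max ‖x‖ 1) > 0).ne'] using hab
    · simp [fnatdeg0]
    · positivity
  have hbroot : Polynomial.aeval b (g.map (algebraMap ℚ ℚ_[p])) = 0 := by
    rw [Polynomial.mem_aroots] at hb
    exact hb.2
  have hbalg : IsAlgebraic ℚ b := by
    refine ⟨g, gmon.ne_zero, ?_⟩
    rwa [Polynomial.aeval_map_algebraMap] at hbroot
  obtain ⟨y, rfl⟩ := h23b_exists_padicEmbedding_eq_of_isAlgebraic p hbalg
  refine ⟨y, lt_of_lt_of_le hab hδ1, ?_⟩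
  -- Krasner: `x ∈ ℚ_p(ι y)`
  have hbint : IsIntegral ℚ_[p] (padicEmbedding p y) := h23b_isIntegral_padicEmbedding p y
  have hkr : x ∈ ℚ_[p]⟮padicEmbedding p y⟯ :=
    IsKrasner.krasner (minpoly.irreducible hx).separable (IsAlgClosed.splits _) hbint
      (fun a' h1 h2 ↦ lt_of_lt_of_le (lt_of_lt_of_le hab hδ2) (norm_sub_le a' h1 h2))
  -- degree count
  have hle : ℚ_[p]⟮x⟯ ≤ ℚ_[p]⟮padicEmbedding p y⟯ := by
    rw [IntermediateField.adjoin_simple_le_iff]
    exact hkr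
  have hdeg : (minpoly ℚ_[p] (padicEmbedding p y)).natDegree ≤ f.natDegree := by
    have h1 : minpoly ℚ_[p] (padicEmbedding p y) ∣ g.map (algebraMap ℚ ℚ_[p]) :=
      minpoly.dvd _ _ hbroot
    have h2 := Polynomial.natDegree_le_of_dvd h1 (gmon.map _).ne_zero
    rw [g.natDegree_map] at h2
    rw [gdeg]
    exact h2
  haveI : FiniteDimensional ℚ_[p] ℚ_[p]⟮padicEmbedding p y⟯ :=
    IntermediateField.adjoin.finiteDimensional hbint
  have hfin : Module.finrank ℚ_[p] ℚ_[p]⟮padicEmbedding p y⟯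
      ≤ Module.finrank ℚ_[p] ℚ_[p]⟮x⟯ := by
    rw [IntermediateField.adjoin.finrank hbint, IntermediateField.adjoin.finrank hx]
    exact hdeg
  have heq : ℚ_[p]⟮x⟯ = ℚ_[p]⟮padicEmbedding p y⟯ :=
    IntermediateField.eq_of_le_of_finrank_le hle hfin
  rw [heq]
  exact IntermediateField.mem_adjoin_simple_self _ _

/-- an automorphism fixing `x` fixes `ℚ_p(x)`. -/
theorem h24q_fix_adjoin {g : Gq p} {x : Om p} (hg : g x = x) {z : Om p}
    (hz : z ∈ ℚ_[p]⟮x⟯) : g z = z := by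
  induction hz using IntermediateField.adjoin_induction with
  | mem z hz =>
    rw [Set.mem_singleton_iff] at hz
    rw [hz]
    exact hg
  | algebraMap c => exact g.commutes c
  | add a b _ _ ha hb => rw [map_add, ha, hb]
  | inv a _ ha => rw [map_inv₀, ha]
  | mul a b _ _ ha hb => rw [map_mul, ha, hb]

/-- ultrametric: an element at distance `< 1` from `1` is a unit. -/
theorem h24q_norm_eq_one {c : Om p} (h : ‖c - 1‖ < 1) : ‖c‖ = 1 := by
  apply le_antisymm
  · have h1 : c = (c - 1) + 1 := by ring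
    rw [h1]
    refine (IsUltrametricDist.norm_add_le_max _ _).trans (max_le h.le ?_)
    rw [norm_one]
  · by_contra hlt
    rw [not_le] at hlt
    have h1 : (1 : Om p) = c - (c - 1) := by ring
    have h2 : ‖(1 : Om p)‖ ≤ max ‖c‖ ‖c - 1‖ := by
      conv_lhs => rw [h1]
      rw [sub_eq_add_neg]
      refine (IsUltrametricDist.norm_add_le_max _ _).trans ?_
      rw [norm_neg]
    rw [norm_one] at h2
    exact absurd (lt_of_le_of_lt h2 (max_lt hlt h)) (lt_irrefl _)

/-- **TRANSPORT**: a Kummer generator of `Om p` can be chosen algebraic over `ℚ`, with the same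
Kummer character on `I₁`. -/
theorem h24q_transport {ζ β : Om p} (hζ : IsPrimitiveRoot ζ p) (hβ : ‖β‖ = 1)
    (hkum : ∀ g ∈ inertia p, cycExp p g 1 → ∃ j : ℕ, g β = ζ ^ j * β) :
    ∃ β₀ : AlgebraicClosure ℚ, ‖padicEmbedding p β₀‖ = 1 ∧
      (∀ g ∈ inertia p, cycExp p g 1 →
        g (padicEmbedding p β₀ ^ p) = padicEmbedding p β₀ ^ p) ∧
      (∀ g ∈ inertia p, cycExp p g 1 →
        g (padicEmbedding p β₀) * β = padicEmbedding p β₀ * g β) := by
  classical
  have hp : p.Prime := Fact.out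
  have hβ0 : β ≠ 0 := by
    intro h
    rw [h, norm_zero] at hβ
    exact zero_ne_one hβ
  -- the radius `t = ‖ζ - 1‖`
  have ht : ‖ζ - 1‖ ^ (p - 1) = ‖((p : ℕ) : Om p)‖ := h7g_norm_zeta_sub_one hζ
  have hζ1 : ζ ≠ 1 := hζ.ne_one hp.one_lt
  have htpos : 0 < ‖ζ - 1‖ := norm_pos_iff.mpr (sub_ne_zero.mpr hζ1)
  have hp1 : p - 1 ≠ 0 := by
    have := hp.two_le
    omega
  have hpnorm : ‖((p : ℕ) : Om p)‖ < 1 := (h45f_inertiaDiscrete p).2.1
  have htlt : ‖ζ - 1‖ < 1 := by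
    by_contra h
    rw [not_lt] at h
    have h1 : 1 ≤ ‖ζ - 1‖ ^ (p - 1) := one_le_pow₀ h
    rw [ht] at h1
    exact absurd (lt_of_le_of_lt h1 hpnorm) (lt_irrefl _)
  -- `u = β ^ p` is fixed by `I₁`
  have hu : ∀ g ∈ inertia p, cycExp p g 1 → g (β ^ p) = β ^ p := by
    intro g hg hg1
    obtain ⟨j, hj⟩ := hkum g hg hg1
    rw [map_pow, hj, mul_pow, ← pow_mul, mul_comm j p, pow_mul, hζ.pow_eq_one, one_pow, one_mul]
  have hunorm : ‖β ^ p‖ = 1 := by rw [norm_pow, hβ, one_pow]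
  obtain ⟨y₀, hy₀, hy₀mem⟩ := h24q_exists_alg_near (p := p) (β ^ p) (pow_pos htpos p)
  have hy₀fix : ∀ g ∈ inertia p, cycExp p g 1 → g (padicEmbedding p y₀) = padicEmbedding p y₀ :=
    fun g hg hg1 => h24q_fix_adjoin (hu g hg hg1) hy₀mem
  obtain ⟨β₁, hβ₁⟩ := IsAlgClosed.exists_pow_nat_eq y₀ hp.pos
  -- `c = ι β₁ / β`
  have hcp : (padicEmbedding p β₁ / β) ^ p - 1 = (padicEmbedding p y₀ - β ^ p) / β ^ p := by
    rw [div_pow, ← map_pow, hβ₁]
    field_simp
  have hcpn : ‖(padicEmbedding p β₁ / β) ^ p - 1‖ < ‖ζ - 1‖ ^ p := by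
    rw [hcp, norm_div, hunorm, div_one, ← norm_neg, neg_sub]
    exact hy₀
  -- a `p`-th root of unity close to `c`
  have hprod : (padicEmbedding p β₁ / β) ^ p - 1
      = ∏ ω ∈ Polynomial.nthRootsFinset p (1 : Om p), (padicEmbedding p β₁ / β - ω) := by
    have h1 := congrArg (Polynomial.eval (padicEmbedding p β₁ / β))
      (Polynomial.X_pow_sub_one_eq_prod hp.pos hζ)
    rw [Polynomial.eval_prod] at h1
    simpa using h1
  obtain ⟨ω, hω, hωc⟩ : ∃ ω ∈ Polynomial.nthRootsFinset p (1 : Om p),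
      ‖padicEmbedding p β₁ / β - ω‖ < ‖ζ - 1‖ := by
    by_contra hcon
    push Not at hcon
    have h1 : ‖ζ - 1‖ ^ p ≤ ‖(padicEmbedding p β₁ / β) ^ p - 1‖ := by
      rw [hprod, norm_prod]
      calc ‖ζ - 1‖ ^ p = ∏ _ω ∈ Polynomial.nthRootsFinset p (1 : Om p), ‖ζ - 1‖ := by
            rw [Finset.prod_const, hζ.card_nthRootsFinset]
        _ ≤ ∏ ω ∈ Polynomial.nthRootsFinset p (1 : Om p), ‖padicEmbedding p β₁ / β - ω‖ :=
            Finset.prod_le_prod (fun _ _ => htpos.le) (fun ω hω => hcon ω hω)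
    exact absurd (lt_of_le_of_lt h1 hcpn) (lt_irrefl _)
  have hωp : ω ^ p = 1 := (Polynomial.mem_nthRootsFinset hp.pos 1).mp hω
  have hωn : ‖ω‖ = 1 := h7g_norm_root_of_unity hp.ne_zero hωp
  have hω0 : ω ≠ 0 := by
    intro h
    rw [h, norm_zero] at hωn
    exact zero_ne_one hωn
  obtain ⟨ω₀, hω₀, hω₀p, -⟩ := h23b_exists_padicEmbedding_eq_of_pow_eq_one p hp.pos hωp
  -- `β₀ = β₁ / ω₀`, `c' = ι β₀ / β`
  have hιβ₀ : padicEmbedding p (β₁ * ω₀⁻¹) = padicEmbedding p β₁ / ω := by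
    rw [map_mul, map_inv₀, hω₀, div_eq_mul_inv]
  obtain ⟨c', hc'⟩ : ∃ c' : Om p, c' = padicEmbedding p (β₁ * ω₀⁻¹) / β := ⟨_, rfl⟩
  have hc'1 : ‖c' - 1‖ < ‖ζ - 1‖ := by
    have h1 : c' - 1 = (padicEmbedding p β₁ / β - ω) / ω := by
      rw [hc', hιβ₀]
      field_simp
    rw [h1, norm_div, hωn, div_one]
    exact hωc
  have hc'n : ‖c'‖ = 1 := h24q_norm_eq_one (lt_trans hc'1 htlt)
  have hc'0 : c' ≠ 0 := by
    intro h
    rw [h, norm_zero] at hc'n
    exact zero_ne_one hc'n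
  have hιc : padicEmbedding p (β₁ * ω₀⁻¹) = c' * β := by
    rw [hc']
    field_simp
  have hpow : padicEmbedding p (β₁ * ω₀⁻¹) ^ p = padicEmbedding p y₀ := by
    rw [hιβ₀, div_pow, hωp, div_one, ← map_pow, hβ₁]
  -- `c'` is fixed by `I₁`
  have hc'fix : ∀ g ∈ inertia p, cycExp p g 1 → g c' = c' := by
    intro g hg hg1
    have h1 : (g c') ^ p = c' ^ p := by
      have h2 : c' ^ p = padicEmbedding p y₀ / β ^ p := by
        rw [hc', div_pow, hpow]
      rw [← map_pow, h2, map_div₀, hy₀fix g hg hg1, hu g hg hg1]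
    by_contra hne
    have hω' : (g c' / c') ^ p = 1 := by
      rw [div_pow, h1, div_self (pow_ne_zero _ hc'0)]
    have hω'1 : g c' / c' ≠ 1 := fun h => hne ((div_eq_one_iff_eq hc'0).mp h)
    have hprim : IsPrimitiveRoot (g c' / c') p := by
      have h4 := orderOf_eq_prime hω' hω'1
      refine ⟨hω', fun l hl => ?_⟩
      have h5 := orderOf_dvd_of_pow_eq_one hl
      rw [h4] at h5
      exact h5
    have h3 : ‖g c' / c' - 1‖ ^ (p - 1) = ‖((p : ℕ) : Om p)‖ := h7g_norm_zeta_sub_one hprim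
    have h4 : ‖g c' / c' - 1‖ = ‖ζ - 1‖ :=
      (pow_left_inj₀ (norm_nonneg _) (norm_nonneg _) hp1).mp (h3.trans ht.symm)
    have h5 : g c' / c' - 1 = (g (c' - 1) - (c' - 1)) / c' := by
      rw [map_sub, map_one]
      field_simp
      ring
    have h6 : ‖g (c' - 1) - (c' - 1)‖ ≤ ‖c' - 1‖ := by
      rw [sub_eq_add_neg]
      refine (IsUltrametricDist.norm_add_le_max _ _).trans (max_le ?_ ?_)
      · rw [h87f_norm_map]
      · rw [norm_neg]
    rw [h5, norm_div, hc'n, div_one] at h4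
    rw [h4] at h6
    exact absurd (lt_of_le_of_lt h6 hc'1) (lt_irrefl _)
  refine ⟨β₁ * ω₀⁻¹, ?_, fun g hg hg1 => ?_, fun g hg hg1 => ?_⟩
  · rw [hιc, norm_mul, hc'n, hβ, one_mul]
  · rw [hpow]
    exact hy₀fix g hg hg1
  · rw [hιc, map_mul, hc'fix g hg hg1]
    ring

/-- **TRANSPORT, stabiliser form** (the exact local statement needed for `H99wLocal`):
hypotheses `ζ ^ p = 1`, `ζ ≠ 1`; the stabiliser of `ι β₀` in `I₁` is the stabiliser of `β`. -/
theorem h24q_transport_stab {ζ β : Om p} (hζ : ζ ^ p = 1) (hζ1 : ζ ≠ 1) (hβ : ‖β‖ = 1)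
    (hkum : ∀ g ∈ inertia p, cycExp p g 1 → ∃ j : ℕ, g β = ζ ^ j * β) :
    ∃ β₀ : AlgebraicClosure ℚ, ‖padicEmbedding p β₀‖ = 1 ∧
      (∀ g ∈ inertia p, cycExp p g 1 →
        g (padicEmbedding p β₀ ^ p) = padicEmbedding p β₀ ^ p) ∧
      (∀ g ∈ inertia p, cycExp p g 1 →
        g (padicEmbedding p β₀) = padicEmbedding p β₀ → g β = β) := by
  have hp : p.Prime := Fact.out
  have hprim : IsPrimitiveRoot ζ p := by
    have h4 := orderOf_eq_prime hζ hζ1
    refine ⟨hζ, fun l hl => ?_⟩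
    have h5 := orderOf_dvd_of_pow_eq_one hl
    rw [h4] at h5
    exact h5
  obtain ⟨β₀, h1, h2, h3⟩ := h24q_transport hprim hβ hkum
  refine ⟨β₀, h1, h2, fun g hg hg1 hfix => ?_⟩
  have h4 := h3 g hg hg1
  rw [hfix] at h4
  have h0 : padicEmbedding p β₀ ≠ 0 := by
    intro h
    rw [h, norm_zero] at h1
    exact zero_ne_one h1
  exact (mul_left_cancel₀ h0 h4).symm

end Fermat.Agent.P7
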