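import Fermat.Agent.P7.H47Local
import Fermat.Agent.P7.H24PeuTr

/-!
# Wave 7 (S40), row L-PEU CLOSED: `h47l_local : H99wLocal` (helper47 + helper24 + helper61)

`H99wLocal` (exact frozen Prop of `P7/H99W7Iface.lean`), UNCONDITIONAL:
`W / ℤ` good at the odd prime `p`, elementwise ordinary on the inertia group at `A`
⟹ `W[p]` is peu ramifié at `A` (a unit `β` of `A` with `β ^ p ∈ Fix(I₁)` whose stabiliser in
`I₁` acts trivially on `W[p]`).

Assembly: `h47l_local_of` (`P7/H47Local.lean`: local core `h24p_core` at `ρ = h47wRho W p`,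
flatness `h61w_flat`, place bridge) applied to the transport leaf `h24q_transport_stab`
(`P7/H24PeuTr.lean`, helper24).
-/

set_option autoImplicit false

open Fermat.Agent.PT.Loc Fermat.Agent.S56F Fermat.Agent.PT.Bridge

noncomputable section

namespace Fermat.Agent.P7

/-- **(C) TRANSPORT**, unconditional (helper24's `h24q_transport_stab`). -/
theorem h47l_transport : H47lTransport := by
  intro p _ _ ζ β hζ hζ1 hβ hkum
  obtain ⟨β₀, h1, h2, h3⟩ := h24q_transport_stab hζ hζ1 hβ hkum
  exact ⟨padicEmbedding p β₀, h23b_isAlgebraic_padicEmbedding p β₀, h1, h2, h3⟩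

/-- **(L) LOCAL**, unconditional: the exact frozen Prop `H99wLocal`. -/
theorem h47l_local : H99wLocal :=
  h47l_local_of h47l_transport

end Fermat.Agent.P7
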