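import Fermat.Agent.P7.H34MultAbs
import Fermat.Agent.P7.H34LocFlat
import Fermat.Agent.P7.H47LocalFinal

/-!
# P7 (wave 7, row 38, target S44), leaf L-MULT, the curve-generic part (helper34, `h34n_`)

`W : WeierstrassCurve ℤ` with `W.Δ ≠ 0`, NO hypothesis on the reduction type at `p`.

* `H34nInertT W A m` : the inertia group at `A` moves the `m`-torsion points inside their
  residue classes modulo the kernel of reduction `E¹`;
* `H34nLiftT W A m` : every `m`-torsion point is congruent modulo `E¹` to an inertia-fixed point;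
* `h34n_ker` : these two give `H34nKer` (the other fields are the landed generic facts);
* `h34n_locOrder_of`, `h34n_flat_of`, `h34n_locFlat_rho_of` : the local order on `W[n]`,
  `h97c_Flat p W[n]`, `LocFlat` for the local mod-`p` representation `h47wRho W p`;
* `H34nLocalAt W p` : the body of the frozen `H99wLocal` for the single curve `W` (elementwise
  ordinary on inertia at `A` ⟹ `W[p]` is peu ramifié at `A`);
* `h34n_localAt_of_locFlat` : `LocFlat` for `h47wRho W p` ⟹ `H34nLocalAt W p`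
  (landed `h24p_core` + `h47l_transport`, assembly of helper47's `h47l_local_of`);
* `h34n_localAt_of_tors` : `H34nInertT` + `H34nLiftT` at ONE `A₀` over `p` ⟹ `H34nLocalAt W p`;
* `h34n_local_iff` : `H99wLocal` is `H34nLocalAt` at the primes of good reduction.
-/

set_option autoImplicit false
set_option linter.style.haveILetI false
set_option linter.unusedSectionVars false

open WeierstrassCurve WeierstrassCurve.Affine.Point
open Fermat.Agent.PT.Loc Fermat.Agent.S56F Fermat.Agent.PT.Bridge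
open scoped WeierstrassCurve.Affine Pointwise

noncomputable section

namespace Fermat.Agent.P7

open Fermat.Agent.S05 Fermat.Agent.S37 Fermat.Agent.P5

/-- the inertia group at `A` moves the `m`-torsion inside the classes modulo `E¹`. -/
def H34nInertT (W : WeierstrassCurve ℤ) (A : ValuationSubring Kbar) (m : ℤ) : Prop :=
  ∀ σ ∈ A.inertiaSubgroupIn ℚ, ∀ P : h8wPt W, m • P = 0 → InE1 A (σ • P - P)

/-- every `m`-torsion point has an inertia-fixed lift modulo `E¹`. -/
def H34nLiftT (W : WeierstrassCurve ℤ) (A : ValuationSubring Kbar) (m : ℤ) : Prop :=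
  ∀ P : h8wPt W, m • P = 0 →
    ∃ c₀ : h8wPt W, (∀ σ ∈ A.inertiaSubgroupIn ℚ, σ • c₀ = c₀) ∧ InE1 A (P - c₀)

/-- the inputs of the abstract order step (torsion form) for `W`. -/
theorem h34n_ker (W : WeierstrassCurve ℤ) (A : ValuationSubring Kbar) {p : ℕ}
    (hp : p.Prime) (hA : A.LiesOverPrime p) (m : ℤ)
    (hI : H34nInertT W A m) (hL : H34nLiftT W A m) :
    H34nKer A (h8wE1 W A) (h8wZ W A) m where
  z_out := fun _ hx => h8wZ_neg W A hx
  z_int := fun x => by
    by_cases hx : InE1 A x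
    · rw [h8wZ_pos W A hx]
      exact K56.mem_of_mem_nonunits A (K56.zcoord_mem_nonunits A _ (h8w_a₁_mem W A)
        (h8w_a₂_mem W A) (h8w_a₃_mem W A) (h8w_a₄_mem W A) (h8w_a₆_mem W A) hx)
    · rw [h8wZ_neg W A hx]
      exact zero_mem A
  z_inj := fun x hx y hy h => by
    rw [h8wZ_pos W A hx, h8wZ_pos W A hy] at h
    exact h34i_zcoord_inj A _ (h8w_a₁_mem W A) (h8w_a₂_mem W A) (h8w_a₃_mem W A)
      (h8w_a₄_mem W A) (h8w_a₆_mem W A) hx hy h
  z_decomp := fun τ hτ x => h8wZ_smul W A hτ x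
  E_decomp := fun τ hτ x hx => h8w_inE1_smul W A hτ hx
  inert := hI
  lift := hL
  add := fun S S' hS hS' hSE hS'E => by
    have hSE' : ∀ P ∈ S, InE1 A P := fun P hP => hSE hP
    have hS'E' : ∀ P ∈ S', InE1 A P := fun P hP => hS'E hP
    have h1 := h34m_addW W A hp hA S S' hS hS' hSE' hS'E'
    rw [h8wR_eq W A hSE', h8wR_eq W A hS'E']
    have h2 : (fun q : ↥S × ↥S' => h8wZ W A ((q.1 : h8wPt W) + (q.2 : h8wPt W))) =
        fun q : ↥S × ↥S' => K56.zcoord ((q.1 : h8wPt W) + (q.2 : h8wPt W)) := by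
      funext q
      exact h8wZ_pos W A ((h8wE1 W A).add_mem (hSE q.1.2) (hS'E q.2.2))
    rw [h2]
    exact h1

/-- the local order on `W[n]` from the torsion inputs. -/
theorem h34n_locOrder_of (W : WeierstrassCurve ℤ) (hΔ : W.Δ ≠ 0) (A : ValuationSubring Kbar)
    {p : ℕ} (hp : p.Prime) (hA : A.LiesOverPrime p) (n : ℕ) (hn : n ≠ 0)
    (hI : H34nInertT W A (n : ℤ)) (hL : H34nLiftT W A (n : ℤ)) :
    ∃ G : Set (H47wX W n → H47wQb), H96LocOrder A (h47wAct W n) G := by
  haveI : Finite (h8wT (h8wPt W) (n : ℤ)) := h8w_finite W hΔ n hn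
  have hO := h34n_locOrder (h34n_ker W A hp hA (n : ℤ) hI hL)
  rw [h34m_act_eq] at hO
  exact ⟨_, hO⟩

/-- `W[n]` is flat at `p`, from the torsion inputs at one place over `p`. -/
theorem h34n_flat_of (W : WeierstrassCurve ℤ) (hΔ : W.Δ ≠ 0) (p : ℕ) [hp : Fact p.Prime]
    (A : ValuationSubring Kbar) (hA : A.LiesOverPrime p) (n : ℕ) (hn : n ≠ 0)
    (hI : H34nInertT W A (n : ℤ)) (hL : H34nLiftT W A (n : ℤ)) :
    h97c_Flat p (H47wX W n) (h47wAct W n) := by
  obtain ⟨G, hG⟩ := h34n_locOrder_of W hΔ A hp.out hA n hn hI hL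
  exact h47w_flat_of_order W hΔ p n hn A hA G hG

/-- `LocFlat` for the local mod-`p` representation, from the torsion inputs. -/
theorem h34n_locFlat_rho_of (W : WeierstrassCurve ℤ) (hΔ : W.Δ ≠ 0) (p : ℕ)
    [hp : Fact p.Prime] (A : ValuationSubring Kbar) (hA : A.LiesOverPrime p)
    (hI : H34nInertT W A (p : ℤ)) (hL : H34nLiftT W A (p : ℤ)) :
    LocFlat p (H47wX W p) (fun σ v => h47wRho W p σ v) := by
  obtain ⟨G, hG⟩ := h34n_locOrder_of W hΔ A hp.out hA p hp.out.ne_zero hI hL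
  exact h47w_locFlat_rho_of_order W hΔ p A hA G hG

/-- the body of the frozen `H99wLocal` for the single curve `W` and the prime `p`. -/
def H34nLocalAt (W : WeierstrassCurve ℤ) (p : ℕ) : Prop :=
  ∀ A : ValuationSubring Kbar, A.LiesOverPrime p →
    (∀ a ∈ A.inertiaSubgroupIn ℚ, ∀ e : ℕ, (∀ μ : Kbar, μ ^ p = 1 → a μ = μ ^ e) →
      ∀ P : H99wTors W p, a • a • P - ((1 : ℤ) + e) • a • P + e • P = 0) →
    ∃ β : Kbar, β ∈ A ∧ β⁻¹ ∈ A ∧
      (∀ a ∈ A.inertiaSubgroupIn ℚ, H99wFixMu p a → a (β ^ p) = β ^ p) ∧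
      ∀ a ∈ A.inertiaSubgroupIn ℚ, H99wFixMu p a → a β = β →
        ∀ P : H99wTors W p, a • P = P

/-- the frozen `H99wLocal` is `H34nLocalAt` at the odd primes of good reduction. -/
theorem h34n_local_iff :
    H99wLocal ↔ ∀ (W : WeierstrassCurve ℤ) (p : ℕ), p.Prime → p ≠ 2 → W.IsGoodPrimeFor p →
      H34nLocalAt W p :=
  Iff.rfl

/-- **L-PEU for a flat `W[p]`**: `LocFlat` for the local mod-`p` representation of `W` gives the
body of `H99wLocal` for `W` (no hypothesis on the reduction type). -/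
theorem h34n_localAt_of_locFlat (W : WeierstrassCurve ℤ) (hΔ : W.Δ ≠ 0) {p : ℕ}
    (hp : p.Prime) (hp2 : p ≠ 2)
    (hflat : haveI : Fact p.Prime := ⟨hp⟩
      LocFlat p (H47wX W p) (fun σ v => h47wRho W p σ v)) :
    H34nLocalAt W p := by
  intro A hA hord
  haveI : Fact p.Prime := ⟨hp⟩
  -- the global hypothesis in the shape `H47vOrdGlob`
  have hglob : H47vOrdGlob W p A := by
    intro σ hσ a ha x
    have h1 := hord σ hσ a ha x
    have h2 : σ • σ • x = ((1 : ℤ) + a) • σ • x - a • x := by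
      rw [sub_add_eq_add_sub, sub_eq_zero] at h1
      rw [← h1, add_sub_cancel_right]
    have h3 : ((1 : ℤ) + a) • σ • x = σ • x + a • σ • x := by
      rw [add_smul, one_smul, natCast_zsmul]
    show σ • (σ • x - x) = a • (σ • x - x)
    rw [smul_sub σ, h2, h3, smul_sub]
    abel
  obtain ⟨g, hg⟩ := h23b_exists_smul_padicPlace p hA
  subst hg
  haveI : Module.Finite (ZMod p) (H47wX W p) := h47v_moduleFinite W p hΔ
  obtain ⟨ζ, hζ, hζ1⟩ := h47l_exists_primitive (p := p)
  obtain ⟨β, hβ1, hβK, hβtriv⟩ := h24p_core hp2 (h47v_rank W p hΔ) (h47wRho W p)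
    (h47v_det W p hΔ) hflat (fun s hs a ha v => h47u_hord g hglob s hs a ha v) ζ hζ hζ1
  obtain ⟨b, hbalg, hb1, hbp, hbfix⟩ := h47l_transport p hp2 ζ β hζ hζ1 hβ1 hβK
  obtain ⟨y, rfl⟩ := h23b_exists_padicEmbedding_eq_of_isAlgebraic p hbalg
  have hy0 : y ≠ 0 := by
    rintro rfl
    rw [_root_.map_zero, norm_zero] at hb1
    exact zero_ne_one hb1
  -- local elements of the inertia group
  have hI : ∀ a ∈ (g⁻¹ • padicPlace p).inertiaSubgroupIn ℚ, H99wFixMu p a →
      ∃ s : Gq p, s ∈ inertia p ∧ cycExp p s 1 ∧ a = g⁻¹ * ιp p s * g := by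
    intro a ha hmu
    obtain ⟨s, hs, rfl⟩ := h47v_inertia_of_conj g ha
    refine ⟨s, hs, ?_, rfl⟩
    exact (h47v_cyc_iff g s p hp.pos 1).mp (fun ζ' hζ' => by rw [pow_one]; exact hmu ζ' hζ')
  have hconj : ∀ (s : Gq p) (x : H47wQb), (g⁻¹ * ιp p s * g) (g⁻¹ x) = g⁻¹ (ιp p s x) := by
    intro s x
    simp only [AlgEquiv.mul_apply]
    rw [← AlgEquiv.mul_apply g g⁻¹, mul_inv_cancel, AlgEquiv.one_apply]
  refine ⟨g⁻¹ y, ?_, ?_, ?_, ?_⟩
  · exact (h47l_mem_conj_iff g y).mpr hb1.le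
  · rw [← map_inv₀]
    refine (h47l_mem_conj_iff g y⁻¹).mpr ?_
    rw [map_inv₀, norm_inv, hb1, inv_one]
  · intro a ha hmu
    obtain ⟨s, hs, hs1, rfl⟩ := hI a ha hmu
    rw [← map_pow, hconj]
    congr 1
    apply h23b_padicEmbedding_injective p
    rw [padicEmbedding_localGaloisToGlobal, map_pow]
    exact hbp s hs hs1
  · intro a ha hmu hfix P
    obtain ⟨s, hs, hs1, rfl⟩ := hI a ha hmu
    rw [hconj] at hfix
    have h1 : ιp p s y = y := g⁻¹.injective hfix
    have h2 : s (padicEmbedding p y) = padicEmbedding p y := by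
      rw [← padicEmbedding_localGaloisToGlobal, h1]
    have h3 := hβtriv s hs hs1 (hbfix s hs hs1 h2) (g • P)
    rw [h47wRho_apply] at h3
    show (g⁻¹ * ιp p s * g) • P = P
    rw [mul_smul, mul_smul, h3, inv_smul_smul]

/-- **L-MULT, curve-generic form**: the torsion inputs `H34nInertT`, `H34nLiftT` for `W[p]` at
ONE place `A₀` over the odd prime `p` give the body of `H99wLocal` for `W` at every place. -/
theorem h34n_localAt_of_tors (W : WeierstrassCurve ℤ) (hΔ : W.Δ ≠ 0) {p : ℕ}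
    (hp : p.Prime) (hp2 : p ≠ 2) (A₀ : ValuationSubring Kbar) (hA₀ : A₀.LiesOverPrime p)
    (hI : H34nInertT W A₀ (p : ℤ)) (hL : H34nLiftT W A₀ (p : ℤ)) :
    H34nLocalAt W p := by
  haveI : Fact p.Prime := ⟨hp⟩
  exact h34n_localAt_of_locFlat W hΔ hp hp2 (h34n_locFlat_rho_of W hΔ p A₀ hA₀ hI hL)

end Fermat.Agent.P7
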