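import Fermat.Agent.P7.H34LocInert
import Fermat.Agent.S13.H4AtP

/-!
# P7 (row 38 via S44), block LOCAL-MULT, leaf NODE-LIFT (helper83)

`A` a valuation subring of an algebraically closed field `K` over `ℚ`, `I` its inertia group,
`E¹ = InE1 A` the kernel of reduction (landed S05 vocabulary).

* `h83n_lift_of_partials` : an integral point whose reduction is a nonsingular point of the
  reduced curve is congruent modulo `E¹` to an `I`-fixed point (no hypothesis on the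
  discriminant; generalises `h34i_unram_lift_of`);
* `h83n_lift_node` : on the short nodal model `y² = x³ + a₂ x² + a₄ x` (`a₂`, `2` units, `a₄` a
  non-unit), a point reducing to the node strictly inside the annulus, with `v(x) ∈ v(ℚˣ)`, is
  congruent modulo `E¹` to an `I`-fixed point (Hensel for the slope `y / x` in the fixed field
  of `I`);
* `h83n_lift_core` : every point killed by `n` is congruent modulo `E¹` to an `I`-fixed point,
  given the valuation statement (IV-cor) of S05 for the `n`-torsion at the node;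
* `h83n_nodal_lift` : the same for `K = ℚ̄` and a short nodal model `IsShortNodal A n W`, `n`
  odd, `A` over a prime `ℓ` (`ℓ = n` allowed).
-/

set_option autoImplicit false
set_option linter.style.haveILetI false
set_option linter.unusedSectionVars false

namespace Fermat.Agent.P7

open WeierstrassCurve Fermat.Agent.S05 Fermat.Agent.S13 Polynomial
open scoped WeierstrassCurve.Affine

section Core

variable {K : Type*} [Field K] [DecidableEq K] [Algebra ℚ K]

/-- **Lift at a point with nonsingular reduction**: an integral point at which the two partial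
derivatives are not both non-units is congruent modulo the kernel of reduction to an `I`-fixed
point. -/
theorem h83n_lift_of_partials [IsAlgClosed K] (W' : WeierstrassCurve ℚ) (A : ValuationSubring K)
    (ha₁ : (W'⁄K).a₁ ∈ A) (ha₂ : (W'⁄K).a₂ ∈ A) (ha₃ : (W'⁄K).a₃ ∈ A) (ha₄ : (W'⁄K).a₄ ∈ A)
    (ha₆ : (W'⁄K).a₆ ∈ A)
    (hres : ∀ a ∈ A, ∃ a' ∈ A, (∀ σ ∈ A.inertiaSubgroupIn ℚ, σ a' = a') ∧ a - a' ∈ A.nonunits)
    {x y : K} (h : (W'⁄K).Nonsingular x y) (hx : x ∈ A)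
    (hns : (W'⁄K).a₁ * y - (3 * x ^ 2 + 2 * (W'⁄K).a₂ * x + (W'⁄K).a₄) ∉ A.nonunits ∨
      2 * y + (W'⁄K).a₁ * x + (W'⁄K).a₃ ∉ A.nonunits) :
    ∃ c₀ : (W'⁄K).Point, (∀ σ ∈ A.inertiaSubgroupIn ℚ, σ • c₀ = c₀) ∧
      InE1 A ((Affine.Point.some x y h : (W'⁄K).Point) - c₀) := by
  have hy : y ∈ A := H86.y_mem_of_x_mem ha₁ ha₂ ha₃ ha₄ ha₆ h.1 hx
  have heq := (Affine.equation_iff x y).1 h.1
  have h2A : (2 : K) ∈ A := H86.two_mem A
  have h3A : (3 : K) ∈ A := by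
    have : (3 : K) = 2 + 1 := by norm_num
    rw [this]; exact add_mem h2A (one_mem A)
  -- the coefficients are Galois fixed
  have hf₁ : ∀ σ : K ≃ₐ[ℚ] K, σ (W'⁄K).a₁ = (W'⁄K).a₁ := fun σ => by
    simp only [WeierstrassCurve.baseChange, WeierstrassCurve.map_a₁]
    exact h34i_algebraMap_fixed σ _
  have hf₂ : ∀ σ : K ≃ₐ[ℚ] K, σ (W'⁄K).a₂ = (W'⁄K).a₂ := fun σ => by
    simp only [WeierstrassCurve.baseChange, WeierstrassCurve.map_a₂]
    exact h34i_algebraMap_fixed σ _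
  have hf₃ : ∀ σ : K ≃ₐ[ℚ] K, σ (W'⁄K).a₃ = (W'⁄K).a₃ := fun σ => by
    simp only [WeierstrassCurve.baseChange, WeierstrassCurve.map_a₃]
    exact h34i_algebraMap_fixed σ _
  have hf₄ : ∀ σ : K ≃ₐ[ℚ] K, σ (W'⁄K).a₄ = (W'⁄K).a₄ := fun σ => by
    simp only [WeierstrassCurve.baseChange, WeierstrassCurve.map_a₄]
    exact h34i_algebraMap_fixed σ _
  have hf₆ : ∀ σ : K ≃ₐ[ℚ] K, σ (W'⁄K).a₆ = (W'⁄K).a₆ := fun σ => by
    simp only [WeierstrassCurve.baseChange, WeierstrassCurve.map_a₆]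
    exact h34i_algebraMap_fixed σ _
  -- the conclusion from an `I`-fixed integral point with the same reduction
  have key : ∀ x₀ y₀ : K, x₀ ∈ A → y₀ ∈ A → (W'⁄K).Equation x₀ y₀ →
      (∀ σ ∈ A.inertiaSubgroupIn ℚ, σ x₀ = x₀) → (∀ σ ∈ A.inertiaSubgroupIn ℚ, σ y₀ = y₀) →
      x - x₀ ∈ A.nonunits → y - y₀ ∈ A.nonunits →
      ∃ c₀ : (W'⁄K).Point, (∀ σ ∈ A.inertiaSubgroupIn ℚ, σ • c₀ = c₀) ∧
        InE1 A ((Affine.Point.some x y h : (W'⁄K).Point) - c₀) := by
    intro x₀ y₀ hx₀ hy₀ he hσx hσy hxm hym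
    have h₀ : (W'⁄K).Nonsingular x₀ y₀ := by
      rw [Affine.nonsingular_iff']
      refine ⟨he, ?_⟩
      rcases hns with h' | h'
      · left
        intro h0
        apply h'
        have e : (W'⁄K).a₁ * y - (3 * x ^ 2 + 2 * (W'⁄K).a₂ * x + (W'⁄K).a₄) =
            ((W'⁄K).a₁ * y₀ - (3 * x₀ ^ 2 + 2 * (W'⁄K).a₂ * x₀ + (W'⁄K).a₄)) +
              ((W'⁄K).a₁ * (y - y₀) + -((3 * (x + x₀) + 2 * (W'⁄K).a₂) * (x - x₀))) := by
          ring
        rw [e, h0, zero_add]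
        exact K56.nonunits_add_mem A (K56.mem_mul_nonunits A ha₁ hym)
          (K56.nonunits_neg_mem A (K56.mem_mul_nonunits A
            (add_mem (mul_mem h3A (add_mem hx hx₀)) (mul_mem h2A ha₂)) hxm))
      · right
        intro h0
        apply h'
        have e : 2 * y + (W'⁄K).a₁ * x + (W'⁄K).a₃ =
            (2 * y₀ + (W'⁄K).a₁ * x₀ + (W'⁄K).a₃) +
              (2 * (y - y₀) + (W'⁄K).a₁ * (x - x₀)) := by
          ring
        rw [e, h0, zero_add]
        exact K56.nonunits_add_mem A (K56.mem_mul_nonunits A h2A hym)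
          (K56.mem_mul_nonunits A ha₁ hxm)
    refine ⟨Affine.Point.some x₀ y₀ h₀, fun σ hσ =>
      h34i_smul_some_of_fixed W' σ h₀ (hσx σ hσ) (hσy σ hσ), ?_⟩
    exact H86.sub_inE1_of_same_reduction (A := A) (W := W'⁄K) ha₁ ha₂ ha₃ ha₄ h h₀
      hx hy hx₀ hy₀ hxm hym hns
  by_cases hdY : 2 * y + (W'⁄K).a₁ * x + (W'⁄K).a₃ ∈ A.nonunits
  · -- the `X`-partial is a unit: lift `y`, solve the cubic in `X`
    have hdX : (W'⁄K).a₁ * y - (3 * x ^ 2 + 2 * (W'⁄K).a₂ * x + (W'⁄K).a₄) ∉ A.nonunits := by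
      rcases hns with h' | h'
      · exact h'
      · exact absurd hdY h'
    obtain ⟨y₀, hy₀, hσy₀, hym⟩ := hres y hy
    set b : K := (W'⁄K).a₄ - (W'⁄K).a₁ * y₀ with hb
    set c : K := (W'⁄K).a₆ - y₀ ^ 2 - (W'⁄K).a₃ * y₀ with hc
    have hbA : b ∈ A := sub_mem ha₄ (mul_mem ha₁ hy₀)
    have hcA : c ∈ A := sub_mem (sub_mem ha₆ (pow_mem hy₀ 2)) (mul_mem ha₃ hy₀)
    set q : K[X] := X ^ 3 + C (W'⁄K).a₂ * X ^ 2 + C b * X + C c with hq
    have hqA : q ∈ lifts (algebraMap A K) :=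
      add_mem (add_mem (add_mem (X_pow_mem_lifts _ 3)
        (mul_mem (h34i_C_mem_lifts A ha₂) (X_pow_mem_lifts _ 2)))
        (mul_mem (h34i_C_mem_lifts A hbA) (X_mem_lifts _))) (h34i_C_mem_lifts A hcA)
    have hqσ : ∀ σ ∈ A.inertiaSubgroupIn ℚ, q.map ((σ : K ≃ₐ[ℚ] K) : K →+* K) = q := by
      intro σ hσ
      have e1 : σ b = b := by
        rw [hb, map_sub, map_mul, hf₄, hf₁, hσy₀ σ hσ]
      have e2 : σ c = c := by
        rw [hc, map_sub, map_sub, map_mul, map_pow, hf₆, hf₃, hσy₀ σ hσ]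
      simp only [hq, Polynomial.map_add, Polynomial.map_mul, Polynomial.map_pow, map_X, map_C,
        RingHom.coe_coe, e1, e2, hf₂]
    have hev : ∀ t : K, q.eval t = t ^ 3 + (W'⁄K).a₂ * t ^ 2 + b * t + c := fun t => by
      simp only [hq, eval_add, eval_mul, eval_pow, eval_X, eval_C]
    have hdev : ∀ t : K, q.derivative.eval t = 3 * t ^ 2 + 2 * (W'⁄K).a₂ * t + b := fun t => by
      simp only [hq, derivative_add, derivative_mul, derivative_X_pow, derivative_C, derivative_X,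
        eval_add, eval_mul, eval_pow, eval_X, eval_C, zero_mul, zero_add, mul_one, add_zero,
        Nat.cast_ofNat]
      norm_num
      ring
    have h0 : q.eval x ∈ A.nonunits := by
      have e : q.eval x = (y - y₀) * (y + y₀ + (W'⁄K).a₁ * x + (W'⁄K).a₃) := by
        rw [hev, hb, hc]
        linear_combination -heq
      rw [e]
      exact K56.nonunits_mul_mem A hym (add_mem (add_mem (add_mem hy hy₀) (mul_mem ha₁ hx)) ha₃)
    have h1 : q.derivative.eval x ∉ A.nonunits := by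
      have e : q.derivative.eval x =
          -((W'⁄K).a₁ * y - (3 * x ^ 2 + 2 * (W'⁄K).a₂ * x + (W'⁄K).a₄)) +
            (W'⁄K).a₁ * (y - y₀) := by
        rw [hdev, hb]; ring
      rw [e]
      refine H86.add_not_mem_nonunits A (neg_mem (sub_mem (mul_mem ha₁ hy) (add_mem (add_mem
        (mul_mem h3A (pow_mem hx 2)) (mul_mem (mul_mem h2A ha₂) hx)) ha₄))) ?_
        (K56.mem_mul_nonunits A ha₁ hym)
      intro hh
      apply hdX
      have := K56.nonunits_neg_mem A hh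
      rwa [neg_neg] at this
    obtain ⟨x₀, hx₀, hx₀0, hx₀m, hσx₀⟩ := h34i_hensel_fixed (S := ℚ) A q hqA hqσ x hx h0 h1
    refine key x₀ y₀ hx₀ hy₀ ?_ hσx₀ hσy₀ ?_ hym
    · rw [Affine.equation_iff]
      rw [hev, hb, hc] at hx₀0
      linear_combination -hx₀0
    · have := K56.nonunits_neg_mem A hx₀m
      rwa [neg_sub] at this
  · -- the `Y`-partial is a unit: lift `x`, solve the quadratic in `Y`
    obtain ⟨x₀, hx₀, hσx₀, hxm⟩ := hres x hx
    set b : K := (W'⁄K).a₁ * x₀ + (W'⁄K).a₃ with hb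
    set c : K := -(x₀ ^ 3 + (W'⁄K).a₂ * x₀ ^ 2 + (W'⁄K).a₄ * x₀ + (W'⁄K).a₆) with hc
    have hbA : b ∈ A := add_mem (mul_mem ha₁ hx₀) ha₃
    have hcA : c ∈ A := neg_mem (add_mem (add_mem (add_mem (pow_mem hx₀ 3)
      (mul_mem ha₂ (pow_mem hx₀ 2))) (mul_mem ha₄ hx₀)) ha₆)
    set q : K[X] := X ^ 2 + C b * X + C c with hq
    have hqA : q ∈ lifts (algebraMap A K) :=
      add_mem (add_mem (X_pow_mem_lifts _ 2)
        (mul_mem (h34i_C_mem_lifts A hbA) (X_mem_lifts _))) (h34i_C_mem_lifts A hcA)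
    have hqσ : ∀ σ ∈ A.inertiaSubgroupIn ℚ, q.map ((σ : K ≃ₐ[ℚ] K) : K →+* K) = q := by
      intro σ hσ
      have e1 : σ b = b := by
        rw [hb, map_add, map_mul, hf₁, hf₃, hσx₀ σ hσ]
      have e2 : σ c = c := by
        rw [hc, map_neg, map_add, map_add, map_add, map_mul, map_mul, map_pow, map_pow, hf₂,
          hf₄, hf₆, hσx₀ σ hσ]
      simp only [hq, Polynomial.map_add, Polynomial.map_mul, Polynomial.map_pow, map_X, map_C,
        RingHom.coe_coe, e1, e2]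
    have hev : ∀ t : K, q.eval t = t ^ 2 + b * t + c := fun t => by
      simp only [hq, eval_add, eval_mul, eval_pow, eval_X, eval_C]
    have hdev : ∀ t : K, q.derivative.eval t = 2 * t + b := fun t => by
      simp only [hq, derivative_add, derivative_mul, derivative_X_pow, derivative_C, derivative_X,
        eval_add, eval_mul, eval_pow, eval_X, eval_C, zero_mul, zero_add, mul_one, add_zero,
        Nat.cast_ofNat]
      norm_num
    have h0 : q.eval y ∈ A.nonunits := by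
      have e : q.eval y = (x - x₀) * (x ^ 2 + x * x₀ + x₀ ^ 2 + (W'⁄K).a₂ * (x + x₀) +
          (W'⁄K).a₄ - (W'⁄K).a₁ * y) := by
        rw [hev, hb, hc]
        linear_combination heq
      rw [e]
      exact K56.nonunits_mul_mem A hxm (sub_mem (add_mem (add_mem (add_mem (add_mem
        (pow_mem hx 2) (mul_mem hx hx₀)) (pow_mem hx₀ 2)) (mul_mem ha₂ (add_mem hx hx₀))) ha₄)
        (mul_mem ha₁ hy))
    have h1 : q.derivative.eval y ∉ A.nonunits := by
      have e : q.derivative.eval y = (2 * y + (W'⁄K).a₁ * x + (W'⁄K).a₃) +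
          -((W'⁄K).a₁ * (x - x₀)) := by
        rw [hdev, hb]; ring
      rw [e]
      exact H86.add_not_mem_nonunits A (add_mem (add_mem (mul_mem h2A hy) (mul_mem ha₁ hx)) ha₃)
        hdY (K56.nonunits_neg_mem A (K56.mem_mul_nonunits A ha₁ hxm))
    obtain ⟨y₀, hy₀, hy₀0, hy₀m, hσy₀⟩ := h34i_hensel_fixed (S := ℚ) A q hqA hqσ y hy h0 h1
    refine key x₀ y₀ hx₀ hy₀ ?_ hσx₀ hσy₀ hxm ?_
    · rw [Affine.equation_iff]
      rw [hev, hb, hc] at hy₀0
      linear_combination hy₀0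
    · have := K56.nonunits_neg_mem A hy₀m
      rwa [neg_sub] at this

/-- **Lift at the node.**  On the short nodal model `y² = x³ + a₂ x² + a₄ x` (`a₂`, `2` units,
`a₄` a non-unit of `A`), a point `(x, y)` with `x` and `a₄ / x` non-units and `v(x) = v(π₀) ^ j`,
`π₀` rational, is congruent modulo the kernel of reduction to an `I`-fixed point. -/
theorem h83n_lift_node [IsAlgClosed K] (W' : WeierstrassCurve ℚ) (A : ValuationSubring K)
    (h₁ : W'.a₁ = 0) (h₃ : W'.a₃ = 0) (h₆ : W'.a₆ = 0)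
    (ha₂ : A.valuation (algebraMap ℚ K W'.a₂) = 1)
    (ha₄ : algebraMap ℚ K W'.a₄ ∈ A.nonunits) (h2 : A.valuation (2 : K) = 1)
    (hres : ∀ a ∈ A, ∃ a' ∈ A, (∀ σ ∈ A.inertiaSubgroupIn ℚ, σ a' = a') ∧ a - a' ∈ A.nonunits)
    (π₀ : ℚ) {x y : K} (h : (W'⁄K).Nonsingular x y) (hx0 : x ≠ 0) (hxm : x ∈ A.nonunits)
    (hwx : (W'⁄K).a₄ / x ∈ A.nonunits) (j : ℤ)
    (hj : A.valuation x = A.valuation (algebraMap ℚ K π₀) ^ j) :
    ∃ c₀ : (W'⁄K).Point, (∀ σ ∈ A.inertiaSubgroupIn ℚ, σ • c₀ = c₀) ∧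
      InE1 A ((Affine.Point.some x y h : (W'⁄K).Point) - c₀) := by
  -- coefficients of the base change
  have e₁ : (W'.baseChange K).a₁ = 0 := by
    simp [WeierstrassCurve.baseChange, h₁]
  have e₂ : (W'.baseChange K).a₂ = algebraMap ℚ K W'.a₂ := by
    simp [WeierstrassCurve.baseChange]
  have e₃ : (W'.baseChange K).a₃ = 0 := by
    simp [WeierstrassCurve.baseChange, h₃]
  have e₄ : (W'.baseChange K).a₄ = algebraMap ℚ K W'.a₄ := by
    simp [WeierstrassCurve.baseChange]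
  have e₆ : (W'.baseChange K).a₆ = 0 := by
    simp [WeierstrassCurve.baseChange, h₆]
  have hA₂ : algebraMap ℚ K W'.a₂ ∈ A := (A.valuation_le_one_iff _).mp ha₂.le
  have hA₄ : algebraMap ℚ K W'.a₄ ∈ A := A.nonunits_le ha₄
  have h2A : (2 : K) ∈ A := (A.valuation_le_one_iff _).mp h2.le
  have hvx : A.valuation x < 1 := A.mem_nonunits_iff.mp hxm
  have hπ0 : algebraMap ℚ K π₀ ≠ 0 := by
    intro h0
    rw [h0, map_zero] at hj
    rcases eq_or_ne j 0 with rfl | hj0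
    · rw [zpow_zero] at hj
      rw [hj] at hvx
      exact lt_irrefl _ hvx
    · rw [zero_zpow j hj0] at hj
      exact hx0 ((Valuation.zero_iff _).mp hj)
  -- the rational scale `c` and the unit `ε = x / c`
  obtain ⟨c, hcdef⟩ : ∃ c : K, c = (algebraMap ℚ K π₀) ^ j := ⟨_, rfl⟩
  have hc0 : c ≠ 0 := by rw [hcdef]; exact zpow_ne_zero j hπ0
  have hvc : A.valuation c = A.valuation x := by rw [hcdef, map_zpow₀, hj]
  have hvx0 : A.valuation x ≠ 0 := (Valuation.ne_zero_iff _).mpr hx0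
  have hσc : ∀ σ : K ≃ₐ[ℚ] K, σ c = c := fun σ => by
    rw [hcdef, map_zpow₀, AlgEquiv.commutes]
  have hε : A.valuation (x / c) = 1 := by
    rw [map_div₀, hvc]
    exact div_self hvx0
  have hεA : x / c ∈ A := (A.valuation_le_one_iff _).mp hε.le
  obtain ⟨ω, hωA, hσω, hεω⟩ := hres (x / c) hεA
  have hvεω : A.valuation (x / c - ω) < 1 := A.mem_nonunits_iff.mp hεω
  have hω : A.valuation ω = 1 := by
    have e : ω = x / c + -(x / c - ω) := by ring
    rw [e, Valuation.map_add_eq_of_lt_left]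
    · exact hε
    · rw [Valuation.map_neg, hε]
      exact hvεω
  have hω0 : ω ≠ 0 := by
    intro h0
    rw [h0, map_zero] at hω
    exact zero_ne_one hω
  -- the `I`-fixed abscissa
  obtain ⟨x₀, hx₀def⟩ : ∃ x₀ : K, x₀ = c * ω := ⟨_, rfl⟩
  have hx₀0 : x₀ ≠ 0 := by rw [hx₀def]; exact mul_ne_zero hc0 hω0
  have hvx₀ : A.valuation x₀ = A.valuation x := by
    rw [hx₀def, map_mul, hω, mul_one, hvc]
  have hσx₀ : ∀ σ ∈ A.inertiaSubgroupIn ℚ, σ x₀ = x₀ := fun σ hσ => by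
    rw [hx₀def, map_mul, hσc, hσω σ hσ]
  have hx₀m : x₀ ∈ A.nonunits := by
    rw [A.mem_nonunits_iff, hvx₀]; exact hvx
  have hx₀A : x₀ ∈ A := A.nonunits_le hx₀m
  have hxx₀ : A.valuation (x₀ - x) < A.valuation x := by
    have e : x₀ - x = -(c * (x / c - ω)) := by
      rw [hx₀def]; field_simp; ring
    rw [e, Valuation.map_neg, map_mul, hvc]
    calc A.valuation x * A.valuation (x / c - ω) < A.valuation x * 1 := by
          exact mul_lt_mul_of_pos_left hvεω (zero_lt_iff.mpr hvx0)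
      _ = A.valuation x := mul_one _
  have ht : (x₀ - x) / x ∈ A.nonunits := by
    rw [A.mem_nonunits_iff, map_div₀]
    exact (div_lt_one₀ (zero_lt_iff.mpr hvx0)).mpr hxx₀
  -- the slope `s = y / x`
  have hb₂ : A.valuation (W'.baseChange K).b₂ = 1 := by
    have : (W'.baseChange K).b₂ = 2 ^ 2 * algebraMap ℚ K W'.a₂ := by
      simp only [WeierstrassCurve.b₂, e₁, e₂]; ring
    rw [this, map_mul, map_pow, h2, ha₂, one_pow, one_mul]
  have hv := h4_valuation_two_s_add A (W'.baseChange K) e₃ e₆ hb₂ h.1 hx0 hxm hwx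
  rw [e₁, add_zero, map_mul, h2, one_mul] at hv
  have hsA : y / x ∈ A := (A.valuation_le_one_iff _).mp hv.le
  have heq := (Affine.equation_iff x y).1 h.1
  rw [e₁, e₂, e₃, e₄, e₆] at heq
  have hs2 : (y / x) ^ 2 = x + algebraMap ℚ K W'.a₂ + algebraMap ℚ K W'.a₄ / x := by
    field_simp
    linear_combination heq
  -- the `I`-fixed unit `r₀ = x₀ + a₂ + a₄ / x₀`
  have hwx' : algebraMap ℚ K W'.a₄ / x ∈ A.nonunits := by rw [← e₄]; exact hwx
  have hwx₀ : algebraMap ℚ K W'.a₄ / x₀ ∈ A.nonunits := by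
    rw [A.mem_nonunits_iff, map_div₀, hvx₀, ← map_div₀]
    exact A.mem_nonunits_iff.mp hwx'
  obtain ⟨r₀, hr₀def⟩ : ∃ r₀ : K, r₀ = x₀ + algebraMap ℚ K W'.a₂ + algebraMap ℚ K W'.a₄ / x₀ :=
    ⟨_, rfl⟩
  have hr₀A : r₀ ∈ A := by
    rw [hr₀def]
    exact add_mem (add_mem hx₀A hA₂) (A.nonunits_le hwx₀)
  have hσr₀ : ∀ σ ∈ A.inertiaSubgroupIn ℚ, σ r₀ = r₀ := fun σ hσ => by
    rw [hr₀def, map_add, map_add, map_div₀, hσx₀ σ hσ, AlgEquiv.commutes, AlgEquiv.commutes]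
  -- Hensel for `X² - r₀` at `s`
  obtain ⟨q, hqdef⟩ : ∃ q : K[X], q = X ^ 2 + C (-r₀) := ⟨_, rfl⟩
  have hqA : q ∈ lifts (algebraMap A K) := by
    rw [hqdef]
    exact add_mem (X_pow_mem_lifts _ 2) (h34i_C_mem_lifts A (neg_mem hr₀A))
  have hqσ : ∀ σ ∈ A.inertiaSubgroupIn ℚ, q.map ((σ : K ≃ₐ[ℚ] K) : K →+* K) = q := by
    intro σ hσ
    have e1 : σ (-r₀) = -r₀ := by rw [map_neg, hσr₀ σ hσ]
    simp only [hqdef, Polynomial.map_add, Polynomial.map_pow, map_X, map_C, RingHom.coe_coe, e1]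
  have hev : ∀ t : K, q.eval t = t ^ 2 - r₀ := fun t => by
    simp only [hqdef, eval_add, eval_pow, eval_X, eval_C]
    ring
  have hdev : ∀ t : K, q.derivative.eval t = 2 * t := fun t => by
    simp only [hqdef, derivative_add, derivative_X_pow, derivative_C, eval_add, eval_mul,
      eval_pow, eval_X, eval_C, Nat.cast_ofNat]
    norm_num
  have h0 : q.eval (y / x) ∈ A.nonunits := by
    have e : q.eval (y / x) = -(x₀ - x) + (algebraMap ℚ K W'.a₄ / x + -(algebraMap ℚ K W'.a₄ / x₀))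
        := by
      rw [hev, hs2, hr₀def]; ring
    rw [e]
    refine K56.nonunits_add_mem A (K56.nonunits_neg_mem A ?_)
      (K56.nonunits_add_mem A hwx' (K56.nonunits_neg_mem A hwx₀))
    rw [A.mem_nonunits_iff]
    exact hxx₀.trans hvx
  have h1 : q.derivative.eval (y / x) ∉ A.nonunits := by
    rw [hdev, A.mem_nonunits_iff, map_mul, h2, one_mul, hv]
    exact lt_irrefl _
  obtain ⟨s₀, hs₀A, hs₀0, hs₀m, hσs₀⟩ :=
    h34i_hensel_fixed (S := ℚ) A q hqA hqσ (y / x) hsA h0 h1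
  rw [hev, sub_eq_zero] at hs₀0
  have hvs₀ : A.valuation s₀ = 1 := by
    have e : s₀ = y / x + (s₀ - y / x) := by ring
    rw [e, Valuation.map_add_eq_of_lt_left]
    · exact hv
    · rw [hv]; exact A.mem_nonunits_iff.mp hs₀m
  have hs₀ne : s₀ ≠ 0 := by
    intro h0'
    rw [h0', map_zero] at hvs₀
    exact zero_ne_one hvs₀
  have h2ne : (2 : K) ≠ 0 := by
    intro h0'
    rw [h0', map_zero] at h2
    exact zero_ne_one h2
  -- the `I`-fixed point `(x₀, x₀ s₀)`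
  have heq₀ : (W'⁄K).Equation x₀ (x₀ * s₀) := by
    rw [Affine.equation_iff, e₁, e₂, e₃, e₄, e₆]
    have e : (x₀ * s₀) ^ 2 = x₀ ^ 2 * r₀ := by rw [mul_pow, hs₀0]
    have e' : x₀ ^ 2 * r₀ = x₀ ^ 3 + algebraMap ℚ K W'.a₂ * x₀ ^ 2 + algebraMap ℚ K W'.a₄ * x₀ := by
      rw [hr₀def]; field_simp
    linear_combination e + e'
  have h₀ : (W'⁄K).Nonsingular x₀ (x₀ * s₀) := by
    rw [Affine.nonsingular_iff']
    refine ⟨heq₀, Or.inr ?_⟩
    rw [e₁, e₃, zero_mul, add_zero, add_zero]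
    exact mul_ne_zero h2ne (mul_ne_zero hx₀0 hs₀ne)
  refine ⟨Affine.Point.some x₀ (x₀ * s₀) h₀, fun σ hσ =>
    h34i_smul_some_of_fixed W' σ h₀ (hσx₀ σ hσ) (by rw [map_mul, hσx₀ σ hσ, hσs₀ σ hσ]), ?_⟩
  have hs : x₀ * s₀ / x₀ - y / x ∈ A.nonunits := by
    have e : x₀ * s₀ / x₀ = s₀ := by field_simp
    rw [e]; exact hs₀m
  rcases h4_refined_reduction_nodal A (W'.baseChange K) e₃ e₆ hb₂ h h₀ hx0 hx₀0 hxm hwx ht hs
    with H | H
  · exact Or.inl (sub_eq_zero.2 H)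
  · exact Or.inr H

/-- **NODE-LIFT, core form.**  On a short nodal model `y² = x³ + a₂x² + a₄x` (`a₂` and `2`
units, `a₄` a non-unit of `A`), if the `n`-torsion points reducing to the node have
`x`-coordinates of rational valuation strictly inside the annulus (part (IV-cor) of S05), then
every point killed by `n` is congruent modulo the kernel of reduction to an `I`-fixed point. -/
theorem h83n_lift_core [IsAlgClosed K] (W' : WeierstrassCurve ℚ) (A : ValuationSubring K)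
    (h₁ : W'.a₁ = 0) (h₃ : W'.a₃ = 0) (h₆ : W'.a₆ = 0)
    (ha₂ : A.valuation (algebraMap ℚ K W'.a₂) = 1)
    (ha₄ : algebraMap ℚ K W'.a₄ ∈ A.nonunits) (h2 : A.valuation (2 : K) = 1)
    (hres : ∀ a ∈ A, ∃ a' ∈ A, (∀ σ ∈ A.inertiaSubgroupIn ℚ, σ a' = a') ∧ a - a' ∈ A.nonunits)
    (π₀ : ℚ) (n : ℕ)
    (hIV : h4_NodeTorsionValuation A (W'⁄K) (algebraMap ℚ K π₀) n)
    (P : (W'⁄K).Point) (hP : n • P = 0) :
    ∃ c₀ : (W'⁄K).Point, (∀ σ ∈ A.inertiaSubgroupIn ℚ, σ • c₀ = c₀) ∧ InE1 A (P - c₀) := by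
  have e₁ : (W'.baseChange K).a₁ = 0 := by
    simp [WeierstrassCurve.baseChange, h₁]
  have e₂ : (W'.baseChange K).a₂ = algebraMap ℚ K W'.a₂ := by
    simp [WeierstrassCurve.baseChange]
  have e₃ : (W'.baseChange K).a₃ = 0 := by
    simp [WeierstrassCurve.baseChange, h₃]
  have e₄ : (W'.baseChange K).a₄ = algebraMap ℚ K W'.a₄ := by
    simp [WeierstrassCurve.baseChange]
  have e₆ : (W'.baseChange K).a₆ = 0 := by
    simp [WeierstrassCurve.baseChange, h₆]
  have hA₁ : (W'⁄K).a₁ ∈ A := by rw [e₁]; exact A.zero_mem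
  have hA₂ : (W'⁄K).a₂ ∈ A := by rw [e₂]; exact (A.valuation_le_one_iff _).mp ha₂.le
  have hA₃ : (W'⁄K).a₃ ∈ A := by rw [e₃]; exact A.zero_mem
  have hA₄ : (W'⁄K).a₄ ∈ A := by rw [e₄]; exact A.nonunits_le ha₄
  have hA₆ : (W'⁄K).a₆ ∈ A := by rw [e₆]; exact A.zero_mem
  by_cases hE : InE1 A P
  · exact ⟨0, fun σ _ => h34i_smul_zero W' σ, by rwa [sub_zero]⟩
  rcases P with _ | ⟨x, y, h⟩
  · exact absurd (inE1_zero A) hE
  have hx : x ∈ A := by
    by_contra hx
    exact hE ((inE1_some A h).2 hx)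
  by_cases hxm : x ∈ A.nonunits
  · obtain ⟨hx0, hwx, j, hj⟩ := hIV x y h hP hxm
    exact h83n_lift_node W' A h₁ h₃ h₆ ha₂ ha₄ h2 hres π₀ h hx0 hxm hwx j hj
  · have hxu : A.valuation x = 1 :=
      H86.valuation_eq_one_of_mem_of_not_mem_nonunits A hx hxm
    have hy : y ∈ A := H86.y_mem_of_x_mem hA₁ hA₂ hA₃ hA₄ hA₆ h.1 hx
    have hns := h4_partials_of_unit_x A (W'.baseChange K) e₁ e₃ e₆
      (by rw [e₂]; exact ha₂) (by rw [e₄]; exact ha₄) h2 h.1 hxu hy
    exact h83n_lift_of_partials W' A hA₁ hA₂ hA₃ hA₄ hA₆ hres h hx hns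

end Core

section Glue

local notation "Qbar" => AlgebraicClosure ℚ

/-- **NODE-LIFT (leaf LM2 of LOCAL-MULT).**  For a short nodal model `W` at `A` with
`a₄ = u π ^ n`, `n` odd and `2` a unit of `A`, `A` over a prime `ℓ`: every point killed by `n` is
congruent modulo the kernel of reduction to a point fixed by the inertia group at `A`.
(No hypothesis that `n` is a unit of `A`: `ℓ = n` is allowed.) -/
theorem h83n_nodal_lift {A : ValuationSubring Qbar} {W : WeierstrassCurve ℚ} {n : ℕ}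
    (hodd : Odd n) (h2 : IsUnitOf A (2 : Qbar)) (hW : IsShortNodal A n W)
    {ℓ : ℕ} (hℓ : ℓ.Prime) (hA : A.LiesOverPrime ℓ)
    (P : (W.baseChange Qbar).toAffine.Point) (hP : n • P = 0) :
    ∃ c₀ : (W.baseChange Qbar).toAffine.Point,
      (∀ σ ∈ A.inertiaSubgroupIn ℚ, σ • c₀ = c₀) ∧ InE1 A (P - c₀) := by
  have hn0 : n ≠ 0 := by
    rintro rfl
    exact absurd hodd (by decide)
  obtain ⟨π₀, u₀, h4, hπ, hπ0, hu⟩ := hW.a₄
  have ha₄ : algebraMap ℚ Qbar W.a₄ ∈ A.nonunits := by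
    rw [h4, map_mul, map_pow]
    exact mem_mul_nonunit A (hu.mem A) (nonunit_pow A hπ hn0)
  have HIV : h4_IVcorStatement A := by
    intro W h3 h6 r₁ r₂ hr₁ hr₂ ha₁ ha₂ hr π u hπ hπ0 hu n hn h4 x y h hP hx
    exact H76.torsion_node_valuation A W h3 h6 r₁ r₂ hr₁ hr₂ ha₁ ha₂ hr π u hπ hπ0 hu n hn h4
      h hP hx
  exact h83n_lift_core W A hW.a₁ hW.a₃ hW.a₆ hW.a₂_unit ha₄ h2
    (fun _ ha => Fermat.Agent.LGC.h57_exists_inertia_fixed
      Fermat.Agent.LGC.h57_isAlgebraic_int A hℓ hA ha)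
    π₀ n (h4_nodeTorsionValuation_of_IVcor hodd h2 hW HIV π₀ u₀ h4 hπ hπ0 hu) P hP

/-- the same with the torsion condition written with an integer multiple (consumer shape of
`h52q_ker_tors` / `H9mKer`). -/
theorem h83n_nodal_lift_int {A : ValuationSubring Qbar} {W : WeierstrassCurve ℚ} {n : ℕ}
    (hodd : Odd n) (h2 : IsUnitOf A (2 : Qbar)) (hW : IsShortNodal A n W)
    {ℓ : ℕ} (hℓ : ℓ.Prime) (hA : A.LiesOverPrime ℓ) :
    ∀ P : (W.baseChange Qbar).toAffine.Point, (n : ℤ) • P = 0 →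
      ∃ c₀ : (W.baseChange Qbar).toAffine.Point,
        (∀ σ ∈ A.inertiaSubgroupIn ℚ, σ • c₀ = c₀) ∧ InE1 A (P - c₀) := by
  intro P hP
  rw [natCast_zsmul] at hP
  exact h83n_nodal_lift hodd h2 hW hℓ hA P hP

/-- the companion input `inert` in the same shape (= landed
`S13.h4_inertia_sub_inE1_of_isShortNodal`). -/
theorem h83n_nodal_inert_int {A : ValuationSubring Qbar} {W : WeierstrassCurve ℚ} {n : ℕ}
    (hodd : Odd n) (h2 : IsUnitOf A (2 : Qbar)) (hW : IsShortNodal A n W) :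
    ∀ σ ∈ A.inertiaSubgroupIn ℚ, ∀ P : (W.baseChange Qbar).toAffine.Point, (n : ℤ) • P = 0 →
      InE1 A (σ • P - P) := by
  intro σ hσ P hP
  rw [natCast_zsmul] at hP
  exact h4_inertia_sub_inE1_of_isShortNodal hodd h2 hW hσ P hP

end Glue

end Fermat.Agent.P7
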