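import Fermat.Agent.P6.H66TwGate
import Fermat.Agent.S35.HeckeSkeleton
import Fermat.Prelude.Def_FLTPrelim_ModularRep

/-!
# Wave 7 (S40, Mazur–Ribet at `p`, good reduction): frozen interfaces (architect helper99)

Target (frozen statement S40): `W / ℤ` with good reduction at the odd prime `p`, `W[p]` irreducible,
`W` residually modular of level `M`, `p ∥ M`  ⟹  `W` residually modular of level `M / p`.

Everything is in **torsion form** on `J₀(N)(ℚ̄) = JZero N` (S35 vocabulary).  Notation: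
`N = M' * p`, `p ∤ M'`, `A` a valuation subring of `ℚ̄` over `p`, `I = A.inertiaSubgroupIn ℚ`,
`I₁ = {a ∈ I | a fixes μ_p}`, `a_ℓ = W.apOfModel ℓ`, good primes `ℓ` : `W` good at `ℓ`, `ℓ ∤ N`.

Chain (by contradiction, assume `W` is not residually modular of level `M'`):

* `H99wGlue` (G0) : there is a Hecke polynomial `e₀` in the good `T_ℓ` killing `S₂(Γ₀(M'))` with
  `p ∤ e₀(a)`.
* `H99wDown` (G1) : the eigenspace `V ⊆ J₀(N)[p]` of the system `a_ℓ` is nonzero.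
* `H99wChar` (G2) : every `g ∈ G_ℚ` satisfies on `V` the characteristic polynomial of `g` on `W[p]`.
* TOP (helper99) : `V₀ = V ^ ker(ρ_W) ≠ 0` is new; STAR on `V₀` (P6 `H66zNewTorsion`) forces the
  characteristic polynomial `(X - 1)(X - ε(a))` on `W[p]` for every `a ∈ I`.
* `H99wLocal` (L) : then `W[p]` is peu ramifié: a unit `β`, `β ^ p ∈ Fix(I₁)`, such that the
  stabiliser of `β` in `I₁` acts trivially on `W[p]`.
* `H99wToric` (T, the crux) : peu ramifié, new, non-Eisenstein, not-old `p`-torsion classes are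
  toric: `a x = ε(a) x` for all `a ∈ I`.
* `H99wBorel` (E) : a scalar action of `I` on `V₀ ≠ 0` contradicts the irreducibility of `W[p]`.

Every declaration is a definition; nothing is assumed.
-/

set_option autoImplicit false
set_option linter.unusedSectionVars false
set_option linter.style.haveILetI false

open AlgebraicCurve ModularCurve WeierstrassCurve WeierstrassCurve.Affine

noncomputable section

namespace Fermat.Agent.P7

open Fermat.Agent.S37 Fermat.Agent.S35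
open Fermat.Agent.S30 (heckeTAll)

/-- the `p`-torsion of `W` over `ℚ̄` (the module of `W.ModRepIsIrreducible p`). -/
abbrev H99wTors (W : WeierstrassCurve ℤ) (p : ℕ) : Type :=
  Submodule.torsionBy ℤ (((W.map (Int.castRingHom ℚ) : Affine ℚ))⁄Kbar).Point p

/-- the good primes: `W` has good reduction at `ℓ` and `ℓ ∤ N`. -/
def H99wGood (W : WeierstrassCurve ℤ) (N : ℕ) : Set Nat.Primes :=
  {ℓ | W.IsGoodPrimeFor (ℓ : ℕ) ∧ ¬ (ℓ : ℕ) ∣ N}

/-- `x` is an eigenvector of the good Hecke operators with the eigenvalues `a_ℓ(W)`. -/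
def H99wEigen (W : WeierstrassCurve ℤ) (N : ℕ) [NeZero N] (x : JZero N) : Prop :=
  ∀ ℓ ∈ H99wGood W N, heckeOperatorBar N ℓ x = (W.apOfModel (ℓ : ℕ)) • x

/-- `P(T) = 0` on the cusp forms of weight 2 and level `M`. -/
def H99wKillsCusp (M : ℕ) [NeZero M] (P : MvPolynomial Nat.Primes ℤ) : Prop :=
  ((MvPolynomial.aeval (R := ℤ) (heckeTAll M) P : CuspForm.heckeAlgebra M 2 (∅ : Set ℕ)) :
    Module.End ℂ (CuspForm (CongruenceSubgroup.Gamma0 M) 2)) = 0

/-- `a` fixes the `p`-th roots of unity. -/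
def H99wFixMu (p : ℕ) (a : GQ) : Prop := ∀ μ : Kbar, μ ^ p = 1 → a μ = μ

/-- **(G0) GLUE, contrapositive form.**  If `W` is not residually modular of level `M'`, some
Hecke polynomial in the good `T_ℓ` kills `S₂(Γ₀(M'))` and does not vanish modulo `p` at the
system `a_ℓ(W)`. -/
def H99wGlue : Prop :=
  ∀ (W : WeierstrassCurve ℤ), W.Δ ≠ 0 → ∀ p : ℕ, p.Prime → ∀ (M' : ℕ) [NeZero M'], ¬ p ∣ M' →
    ¬ W.IsResiduallyModularOfLevel p M' →
    ∃ e ∈ MvPolynomial.supported ℤ (H99wGood W (M' * p)),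
      H99wKillsCusp M' e ∧
      ¬ (p : ℤ) ∣ MvPolynomial.eval (fun ℓ : Nat.Primes => W.apOfModel (ℓ : ℕ)) e

/-- **(G1) DOWN.**  The system of eigenvalues of `W` occurs in `J₀(N)[p]`. -/
def H99wDown : Prop :=
  ∀ (W : WeierstrassCurve ℤ) (p : ℕ), p.Prime → ∀ (N : ℕ) [NeZero N], p ∣ N →
    W.IsResiduallyModularOfLevel p N →
    ∃ x : JZero N, x ≠ 0 ∧ p • x = 0 ∧ H99wEigen W N x

/-- **(G2) CHAR.**  On the eigenspace, every `g ∈ G_ℚ` satisfies the characteristic polynomial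
`X² - t X + e` of `g` on `W[p]` (`e` = an exponent of `g` on `μ_p` = the determinant). -/
def H99wChar : Prop :=
  ∀ (W : WeierstrassCurve ℤ), W.Δ ≠ 0 → ∀ p : ℕ, p.Prime → ∀ (N : ℕ) [NeZero N], p ∣ N →
    ∀ (g : GQ) (t : ℤ) (e : ℕ), (∀ μ : Kbar, μ ^ p = 1 → g μ = μ ^ e) →
      (∀ P : H99wTors W p, g • g • P - t • g • P + e • P = 0) →
      ∀ x : JZero N, p • x = 0 → H99wEigen W N x →
        g • g • x - t • g • x + e • x = 0

/-- **(L) LOCAL.**  `W` good at `p` odd and elementwise ordinary on the inertia at `A`: then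
`W[p]` is peu ramifié at `A`. -/
def H99wLocal : Prop :=
  ∀ (W : WeierstrassCurve ℤ) (p : ℕ), p.Prime → p ≠ 2 → W.IsGoodPrimeFor p →
    ∀ A : ValuationSubring Kbar, A.LiesOverPrime p →
      (∀ a ∈ A.inertiaSubgroupIn ℚ, ∀ e : ℕ, (∀ μ : Kbar, μ ^ p = 1 → a μ = μ ^ e) →
        ∀ P : H99wTors W p, a • a • P - ((1 : ℤ) + e) • a • P + e • P = 0) →
      ∃ β : Kbar, β ∈ A ∧ β⁻¹ ∈ A ∧
        (∀ a ∈ A.inertiaSubgroupIn ℚ, H99wFixMu p a → a (β ^ p) = β ^ p) ∧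
        ∀ a ∈ A.inertiaSubgroupIn ℚ, H99wFixMu p a → a β = β →
          ∀ P : H99wTors W p, a • P = P

/-- **(T) TORIC, the crux.**  A `p`-torsion class of `J₀(M p)`, `p ∤ M`, which is new, peu ramifié
(fixed by the stabiliser in `I₁` of a unit `β` with `β ^ p ∈ Fix(I₁)`), a non-Eisenstein
eigenvector of one `T_ℓ`, and fixed by a Hecke polynomial killing `S₂(Γ₀(M))`, is toric: the
inertia acts on it through the cyclotomic character. -/
def H99wToric : Prop :=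
  ∀ (p : ℕ) (hp : p.Prime), p ≠ 2 → ∀ (M : ℕ) [NeZero M], ¬ p ∣ M →
    haveI : NeZero p := ⟨hp.ne_zero⟩
    ∀ A : ValuationSubring Kbar, A.LiesOverPrime p →
    ∀ β : Kbar, β ∈ A → β⁻¹ ∈ A →
      (∀ a ∈ A.inertiaSubgroupIn ℚ, H99wFixMu p a → a (β ^ p) = β ^ p) →
    ∀ x : JZero (M * p), p • x = 0 → pushAlpha M p x = 0 → pushBeta M p x = 0 →
      (∀ a ∈ A.inertiaSubgroupIn ℚ, H99wFixMu p a → a β = β → a • x = x) →
      (∃ ℓ : Nat.Primes, ¬ (ℓ : ℕ) ∣ M * p ∧ ∃ c : ℤ,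
        heckeOperatorBar (M * p) ℓ x = c • x ∧ ¬ (p : ℤ) ∣ ((ℓ : ℕ) : ℤ) + 1 - c) →
      (∃ e : MvPolynomial Nat.Primes ℤ, (∀ ℓ ∈ e.vars, ¬ (ℓ : ℕ) ∣ M * p) ∧
        H99wKillsCusp M e ∧ (letI := heckeModuleBar (M * p); e • x = x)) →
      ∀ a ∈ A.inertiaSubgroupIn ℚ, ∀ e : ℕ, (∀ μ : Kbar, μ ^ p = 1 → a μ = μ ^ e) →
        a • x = e • x

/-- **(E) END-BOREL.**  `W[p]` irreducible; `a ∈ G_ℚ` with `(a - 1)(a - e) = 0` on `W[p]`,
`e ≢ 1 mod p` an exponent of `a` on `μ_p`; every commutator `a g a⁻¹ g⁻¹` is unipotent on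
`W[p]`.  Contradiction. -/
def H99wBorel : Prop :=
  ∀ (W : WeierstrassCurve ℤ), W.Δ ≠ 0 → ∀ p : ℕ, p.Prime → p ≠ 2 → W.ModRepIsIrreducible p →
    ∀ (a : GQ) (e : ℕ), (∀ μ : Kbar, μ ^ p = 1 → a μ = μ ^ e) → ¬ (p : ℤ) ∣ (e : ℤ) - 1 →
      (∀ P : H99wTors W p, a • a • P - ((1 : ℤ) + e) • a • P + e • P = 0) →
      (∀ g : GQ, ∀ P : H99wTors W p,
        (a * g * a⁻¹ * g⁻¹) • (a * g * a⁻¹ * g⁻¹) • P - (2 : ℤ) • (a * g * a⁻¹ * g⁻¹) • P + P
          = 0) →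
      False

/-- **the conditional top of wave 7** (to be proved in `P7/H99W7Top.lean`). -/
def H99wTopStatement : Prop :=
  (∀ (M p : ℕ) [NeZero M] [NeZero p], Fermat.Agent.P6.H66zNewTorsion M p) →
  H99wGlue → H99wDown → H99wChar → H99wLocal → H99wToric → H99wBorel →
  ∀ (W : WeierstrassCurve ℤ), W.Δ ≠ 0 → ∀ {p : ℕ}, p.Prime → p ≠ 2 → W.IsGoodPrimeFor p →
    W.ModRepIsIrreducible p → ∀ {M : ℕ}, 0 < M → p ∣ M → ¬ p ^ 2 ∣ M →
    W.IsResiduallyModularOfLevel p M → W.IsResiduallyModularOfLevel p (M / p)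

end Fermat.Agent.P7
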