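import Fermat.Agent.P7.H17GlueDown
import Fermat.Agent.P7.H99W7Iface

/-!
# Wave 7 (S40), block (G0) GLUE in the frozen contrapositive form (helper17)

* `h17g_glue_poly` : if `W` is not residually modular of level `N` at `p`, there is a Hecke
  polynomial `P` in the variables outside `S = h17gS W p N` with `P - 1 ∈ 𝔫 = h17gIdeal W p N`
  which kills the cusp forms of weight 2 and level `N`.
* `h17g_eval_ideal` : the evaluation at the system `a_ℓ(W)` maps `𝔫` into `p ℤ`.
* `h17g_glue0 : H99wGlue` : the exact frozen `Prop` of `P7/H99W7Iface.lean`, unconditional.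
-/

set_option autoImplicit false
set_option linter.style.haveILetI false
set_option linter.unusedSectionVars false

open AlgebraicCurve ModularCurve

noncomputable section

namespace Fermat.Agent.P7

open Fermat.Agent.S30 (heckeTAll)
open Fermat.Agent.S31 (TI_evS TI_tS TI_Sc TI_Kills TI_evS_X TI_coe_evS)
open Fermat.Agent.S35 (hkCut hkCut_mem_supported hk_evS_cut hk_evS_surjective)

/-- if `W` is not residually modular of level `N` at `p`, some Hecke polynomial `P ∈ 1 + 𝔫` in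
the variables outside `S` kills the cusp forms of level `N`. -/
theorem h17g_glue_poly (W : WeierstrassCurve ℤ) (hΔ : W.Δ ≠ 0) (p N : ℕ) [NeZero N]
    (hnot : ¬ W.IsResiduallyModularOfLevel p N) :
    ∃ P : MvPolynomial Nat.Primes ℤ,
      P ∈ MvPolynomial.supported ℤ (TI_Sc (h17gS W p N)) ∧ P - 1 ∈ h17gIdeal W p N ∧
      ((MvPolynomial.aeval (R := ℤ) (heckeTAll N) P : CuspForm.heckeAlgebra N 2 (∅ : Set ℕ)) :
        Module.End ℂ (CuspForm (CongruenceSubgroup.Gamma0 N) 2)) = 0 := by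
  classical
  set S : Finset ℕ := h17gS W p N with hS
  have hSN : ∀ r : ℕ, r.Prime → r ∣ N → r ∈ S := h17g_mem_S_of_dvd W p (NeZero.ne N)
  set ev : MvPolynomial Nat.Primes ℤ →+* CuspForm.heckeAlgebra N 2 (↑S : Set ℕ) :=
    ((TI_evS N S : MvPolynomial Nat.Primes ℤ →ₐ[ℤ] CuspForm.heckeAlgebra N 2 (↑S : Set ℕ)) :
      MvPolynomial Nat.Primes ℤ →+* CuspForm.heckeAlgebra N 2 (↑S : Set ℕ)) with hev
  have hsurj : Function.Surjective ev := hk_evS_surjective N S hSN
  have htop : (h17gIdeal W p N).map ev = ⊤ := by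
    by_contra h
    exact hnot (h17g_modular_of_ne_top W hΔ p N h)
  have h1 : (1 : CuspForm.heckeAlgebra N 2 (↑S : Set ℕ)) ∈ (h17gIdeal W p N).map ev := by
    rw [htop]
    exact Submodule.mem_top
  obtain ⟨Q, hQ, hQ1⟩ := (Ideal.mem_map_iff_of_surjective ev hsurj).mp h1
  set P : MvPolynomial Nat.Primes ℤ := 1 - hkCut S Q with hP
  have hPsupp : P ∈ MvPolynomial.supported ℤ (TI_Sc S) :=
    Subalgebra.sub_mem _ (Subalgebra.one_mem _) (hkCut_mem_supported S Q)
  have hPmem : P - 1 ∈ h17gIdeal W p N := by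
    have e : P - 1 = -(hkCut S Q) := by rw [hP]; ring
    rw [e]
    exact (h17gIdeal W p N).neg_mem (h17g_cut_mem W p N hQ)
  have hPev : TI_evS N S P = 0 := by
    rw [hP, map_sub, map_one, hk_evS_cut]
    have : TI_evS N S Q = 1 := hQ1
    rw [this, sub_self]
  refine ⟨P, hPsupp, hPmem, ?_⟩
  rw [← TI_coe_evS hSN hPsupp, hPev]
  rfl

/-- the evaluation at the system `a_ℓ(W)` maps `𝔫` into `p ℤ`. -/
theorem h17g_eval_ideal (W : WeierstrassCurve ℤ) (p N : ℕ) {Q : MvPolynomial Nat.Primes ℤ}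
    (hQ : Q ∈ h17gIdeal W p N) :
    (p : ℤ) ∣ MvPolynomial.eval (fun ℓ : Nat.Primes => W.apOfModel (ℓ : ℕ)) Q := by
  have hle : h17gIdeal W p N ≤
      (Ideal.span {(p : ℤ)}).comap
        (MvPolynomial.eval (fun ℓ : Nat.Primes => W.apOfModel (ℓ : ℕ))) := by
    rw [h17gIdeal, Ideal.span_le]
    rintro Q (hQ | ⟨ℓ, hℓ, rfl⟩)
    · rw [Set.mem_singleton_iff] at hQ
      rw [hQ, SetLike.mem_coe, Ideal.mem_comap, MvPolynomial.eval_C]
      exact Ideal.mem_span_singleton_self _
    · rw [SetLike.mem_coe, Ideal.mem_comap, map_sub, MvPolynomial.eval_X, MvPolynomial.eval_C,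
        sub_self]
      exact Ideal.zero_mem _
  exact Ideal.mem_span_singleton.mp (Ideal.mem_comap.mp (hle hQ))

/-- **(G0) GLUE, the frozen contrapositive form.** -/
theorem h17g_glue0 : H99wGlue := by
  intro W hΔ p hp M' _ _ hnot
  obtain ⟨P, hPsupp, hPmem, hPzero⟩ := h17g_glue_poly W hΔ p M' hnot
  refine ⟨P, ?_, hPzero, ?_⟩
  · -- the support
    refine MvPolynomial.supported_mono ?_ hPsupp
    intro ℓ hℓ
    have hℓS : (ℓ : ℕ) ∉ h17gS W p M' := hℓ
    obtain ⟨h1, h2, h3⟩ := (h17g_not_mem_S_iff W hΔ (NeZero.ne M') ℓ.2).mp hℓS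
    refine ⟨h3, fun hdvd => ?_⟩
    rcases (Nat.Prime.dvd_mul ℓ.2).mp hdvd with h | h
    · exact h2 h
    · exact h1 ((Nat.prime_dvd_prime_iff_eq ℓ.2 hp).mp h)
  · -- the value at the eigensystem is `1` modulo `p`
    intro hdvd
    have h1 := h17g_eval_ideal W p M' hPmem
    rw [map_sub, map_one] at h1
    have h2 : (p : ℤ) ∣ 1 := by
      have := dvd_sub hdvd h1
      rwa [sub_sub_cancel] at this
    have h3 : p ∣ 1 := by exact_mod_cast h2
    exact hp.one_lt.ne' (Nat.dvd_one.mp h3)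

end Fermat.Agent.P7
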