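import Mathlib

/-!
# Wave 7 (S40): the finite-module lemma behind NOT-OCC (helper64, prefix `h64w_`)

`R` a commutative ring, `V` a FINITE `R`-module, `𝔞` an ideal of `R`.

* `h64w_exists_act_one` : if `V` has no nonzero element killed by `𝔞`, then some `r ∈ 𝔞` acts
  as the identity on `V`.  (Applied to `R = ℤ[X_ℓ]`, `V = J₀(M')[p]`, `𝔞 = (X_ℓ - θ_ℓ)`:
  NOT-OCC gives a Hecke polynomial `P = 1 - r`, `P ≡ 1` modulo the `T_ℓ - θ_ℓ`, which kills
  `J₀(M')[p]`.)
* `h64w_exists_torsion_of_forall_ne` : the contrapositive: if no element of `𝔞` acts as the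
  identity, there is a nonzero `v` killed by `𝔞` (an eigenvector for the eigensystem `𝔞`).
* `h64w_exists_kill` : the form `∃ P, 1 - P ∈ 𝔞 ∧ P • V = 0`.

Elementary proof (no Artinian theory): induction on the cardinality, Fitting-style.
-/

set_option autoImplicit false

universe u v

namespace Fermat.Agent.P7

section

variable {R : Type v} [CommRing R]

/-- powers: if `u` kills the kernel of `t`, then `u ^ k` kills the kernel of `t ^ k`. -/
theorem h64w_pow_kill {V : Type u} [AddCommGroup V] [Module R V] (t u : R)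
    (hu : ∀ v : V, t • v = 0 → u • v = 0) :
    ∀ (k : ℕ) (v : V), t ^ k • v = 0 → u ^ k • v = 0 := by
  intro k
  induction k with
  | zero =>
    intro v hv
    simpa using hv
  | succ k ih =>
    intro v hv
    have h1 : t ^ k • (t • v) = 0 := by
      rw [smul_smul, ← pow_succ]
      exact hv
    have h2 : u ^ k • (t • v) = 0 := ih _ h1
    have h3 : t • (u ^ k • v) = 0 := by
      rw [smul_smul, mul_comm, ← smul_smul]
      exact h2
    have h4 := hu _ h3
    rw [pow_succ, mul_comm, ← smul_smul]
    exact h4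

/-- on a finite module the powers of `t` are eventually periodic. -/
theorem h64w_pow_periodic {V : Type u} [AddCommGroup V] [Module R V] [Finite V] (t : R) :
    ∃ N m : ℕ, 0 < m ∧ ∀ v : V, t ^ (N + m) • v = t ^ N • v := by
  have : Finite (V → V) := Pi.finite
  obtain ⟨i, j, hij, h⟩ :=
    Finite.exists_ne_map_eq_of_infinite (fun k : ℕ => (fun v : V => t ^ k • v))
  rcases Nat.lt_or_gt_of_ne hij with hlt | hlt
  · refine ⟨i, j - i, by omega, fun v => ?_⟩
    have h1 : t ^ i • v = t ^ j • v := congrFun h v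
    rw [show i + (j - i) = j by omega]
    exact h1.symm
  · refine ⟨j, i - j, by omega, fun v => ?_⟩
    have h1 : t ^ i • v = t ^ j • v := congrFun h v
    rw [show j + (i - j) = i by omega]
    exact h1

/-- the induction. -/
theorem h64w_exists_act_one_aux (𝔞 : Ideal R) :
    ∀ (n : ℕ) (V : Type u) [AddCommGroup V] [Module R V] [Finite V], Nat.card V ≤ n →
      (∀ v : V, (∀ r ∈ 𝔞, r • v = 0) → v = 0) → ∃ r ∈ 𝔞, ∀ v : V, r • v = v := by
  intro n
  induction n with
  | zero =>
    intro V _ _ _ hcard _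
    have : 0 < Nat.card V := Nat.card_pos
    omega
  | succ n ih =>
    intro V _ _ _ hcard h
    by_cases hall : ∀ t ∈ 𝔞, ∀ v : V, t • v = 0
    · -- everything is killed: `V = 0`
      refine ⟨0, 𝔞.zero_mem, fun v => ?_⟩
      rw [zero_smul]
      exact (h v (fun r hr => hall r hr v)).symm
    · obtain ⟨t, ht, v₀, hv₀⟩ : ∃ t ∈ 𝔞, ∃ v : V, t • v ≠ 0 := by
        by_contra hcon
        exact hall (fun t ht v => by
          by_contra hne
          exact hcon ⟨t, ht, v, hne⟩)
      -- the kernel of `t`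
      set V' : Submodule R V := LinearMap.ker (LinearMap.lsmul R V t) with hV'
      have hmem : ∀ v : V, v ∈ V' ↔ t • v = 0 := fun v => by
        rw [hV', LinearMap.mem_ker, LinearMap.lsmul_apply]
      have hlt : Nat.card V' < Nat.card V := by
        have hne : (V' : Set V) ≠ Set.univ := by
          intro hEq
          have : v₀ ∈ (V' : Set V) := by rw [hEq]; exact Set.mem_univ _
          exact hv₀ ((hmem v₀).mp this)
        have hss : (V' : Set V) ⊂ Set.univ := (Set.ssubset_univ_iff).mpr hne
        have := Set.ncard_lt_ncard hss (Set.toFinite _)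
        rw [Set.ncard_univ] at this
        rw [← Nat.card_coe_set_eq] at this
        exact this
      have hcard' : Nat.card V' ≤ n := by omega
      have h' : ∀ v : V', (∀ r ∈ 𝔞, r • v = 0) → v = 0 := by
        intro v hv
        apply Subtype.ext
        apply h
        intro r hr
        have := congrArg Subtype.val (hv r hr)
        simpa using this
      obtain ⟨r₁, hr₁, hr₁V⟩ := ih V' hcard' h'
      -- `u = 1 - r₁` kills the kernel of `t`
      have hu : ∀ v : V, t • v = 0 → (1 - r₁) • v = 0 := by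
        intro v hv
        have := congrArg Subtype.val (hr₁V ⟨v, (hmem v).mpr hv⟩)
        simp only [Submodule.coe_smul] at this
        rw [sub_smul, one_smul, this, sub_self]
      obtain ⟨N, m, hm, hper⟩ := h64w_pow_periodic (V := V) t
      refine ⟨1 - (1 - r₁) ^ N * (1 - t ^ m), ?_, fun v => ?_⟩
      · -- membership in `𝔞`
        rw [← Ideal.Quotient.eq_zero_iff_mem]
        have e1 : (Ideal.Quotient.mk 𝔞) r₁ = 0 := Ideal.Quotient.eq_zero_iff_mem.mpr hr₁
        have e2 : (Ideal.Quotient.mk 𝔞) t = 0 := Ideal.Quotient.eq_zero_iff_mem.mpr ht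
        rw [map_sub, map_mul, map_pow, map_sub, map_sub, map_pow, map_one, e1, e2,
          zero_pow (by omega : m ≠ 0)]
        simp
      · have h0 : t ^ N • ((1 - t ^ m) • v) = 0 := by
          rw [smul_smul, mul_sub, mul_one, sub_smul, ← pow_add, hper v, sub_self]
        have h1 := h64w_pow_kill t (1 - r₁) hu N _ h0
        rw [sub_smul, one_smul, ← smul_smul, h1, sub_zero]

/-- **The finite-module lemma.**  If a finite module has no nonzero element killed by the
ideal `𝔞`, then some element of `𝔞` acts as the identity. -/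
theorem h64w_exists_act_one {V : Type u} [AddCommGroup V] [Module R V] [Finite V]
    (𝔞 : Ideal R) (h : ∀ v : V, (∀ r ∈ 𝔞, r • v = 0) → v = 0) :
    ∃ r ∈ 𝔞, ∀ v : V, r • v = v :=
  h64w_exists_act_one_aux 𝔞 (Nat.card V) V le_rfl h

/-- the form with a killing element congruent to `1` modulo `𝔞`. -/
theorem h64w_exists_kill {V : Type u} [AddCommGroup V] [Module R V] [Finite V]
    (𝔞 : Ideal R) (h : ∀ v : V, (∀ r ∈ 𝔞, r • v = 0) → v = 0) :
    ∃ P : R, 1 - P ∈ 𝔞 ∧ ∀ v : V, P • v = 0 := by
  obtain ⟨r, hr, hrV⟩ := h64w_exists_act_one 𝔞 h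
  refine ⟨1 - r, by simpa using hr, fun v => ?_⟩
  rw [sub_smul, one_smul, hrV, sub_self]

/-- **Contrapositive**: if no element of `𝔞` acts as the identity on the finite module `V`,
then `V` contains a nonzero element killed by `𝔞`. -/
theorem h64w_exists_torsion_of_forall_ne {V : Type u} [AddCommGroup V] [Module R V] [Finite V]
    (𝔞 : Ideal R) (h : ∀ r ∈ 𝔞, ∃ v : V, r • v ≠ v) :
    ∃ v : V, v ≠ 0 ∧ ∀ r ∈ 𝔞, r • v = 0 := by
  by_contra hcon
  have h' : ∀ v : V, (∀ r ∈ 𝔞, r • v = 0) → v = 0 := by
    intro v hv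
    by_contra hv0
    exact hcon ⟨v, hv0, hv⟩
  obtain ⟨r, hr, hrV⟩ := h64w_exists_act_one 𝔞 h'
  obtain ⟨v, hv⟩ := h r hr
  exact hv (hrV v)

/-- the same for an ideal given by generators: a nonzero common "eigenvector". -/
theorem h64w_exists_torsion_span {V : Type u} [AddCommGroup V] [Module R V] [Finite V]
    (s : Set R) (h : ∀ r ∈ Ideal.span s, ∃ v : V, r • v ≠ v) :
    ∃ v : V, v ≠ 0 ∧ ∀ t ∈ s, t • v = 0 := by
  obtain ⟨v, hv0, hv⟩ := h64w_exists_torsion_of_forall_ne (Ideal.span s) h
  exact ⟨v, hv0, fun t ht => hv t (Ideal.subset_span ht)⟩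

end

end Fermat.Agent.P7
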