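import Fermat.Agent.P7.H17New
import Fermat.Agent.P7.H64Nak
import Fermat.Agent.S30.Inputs
import Fermat.Agent.S30.KeyOfInt
import Fermat.Agent.S31.IntOfLattice

/-!
# Wave 7 (S40), blocks (1)+(2a), robust form (helper17): the divisible eigenvectors

`W` an integral Weierstrass curve, `p` a prime, `N` a level, `S = h17gS W p N`.

* `h17uCore W p N a` : the subgroup of the `v ∈ J₀(N)` with `v = p ^ a • x`, `p ^ (a + 1) • x = 0`
  (so `p • v = 0`) and `T_ℓ v = a_ℓ(W) v` for all `ℓ ∉ S` (the *divisible eigenvectors of depth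
  `a`*).  It is stable under Galois (`h17u_core_gal`) and decreases with `a` (`h17u_core_anti`).
* `h17u_up` (**UP**) : if `W` is residually modular of level `N` at `p`, then
  `h17uCore W p N a ≠ 0` for every `a` (landed `HeckeKeyLattice` at the modulus `p ^ (a + 1)` +
  the finite-module lemma of helper64).
* `h17u_new` (**NEW**) : if `W` is NOT residually modular of level `M` at `p`, then for some `a`
  the push-forwards `α_*`, `β_* : J₀(M p) → J₀(M)` kill `h17uCore W p (M * p) a`.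
* `h17u_new_core` : both together: if `W` is residually modular of level `M * p` but not of
  level `M`, there is a nonzero Galois-stable subgroup `V₀ ≤ J₀(M p)[p]` of eigenvectors for the
  eigensystem of `W` which is `p`-new (`α_* = β_* = 0` on `V₀`).
-/

set_option autoImplicit false
set_option linter.style.haveILetI false
set_option linter.unusedSectionVars false

open AlgebraicCurve ModularCurve

noncomputable section

namespace Fermat.Agent.P7

open Fermat.Agent.S29 (GQ)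
open Fermat.Agent.S31 (TI_Sc TI_Kills)
open Fermat.Agent.S35 (pushAlpha pushBeta)

/-! ## The divisible eigenvectors -/

section Core

variable (W : WeierstrassCurve ℤ) (p N : ℕ) [NeZero N]

/-- `v` is an eigenvector of the `T_ℓ`, `ℓ ∉ S`, for the eigensystem of `W`. -/
def h17uEigen (v : JZero N) : Prop :=
  ∀ ℓ : Nat.Primes, (ℓ : ℕ) ∉ h17gS W p N →
    heckeOperatorBar N ℓ v = W.apOfModel (ℓ : ℕ) • v

/-- the divisible eigenvectors of depth `a`. -/
def h17uCore (a : ℕ) : AddSubgroup (JZero N) where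
  carrier := {v | (∃ x : JZero N, p ^ (a + 1) • x = 0 ∧ v = p ^ a • x) ∧ h17uEigen W p N v}
  zero_mem' := ⟨⟨0, smul_zero _, (smul_zero _).symm⟩, fun ℓ _ => by rw [map_zero, smul_zero]⟩
  add_mem' := by
    rintro v w ⟨⟨x, hx, rfl⟩, hv⟩ ⟨⟨y, hy, rfl⟩, hw⟩
    refine ⟨⟨x + y, by rw [nsmul_add, hx, hy, add_zero], (nsmul_add _ _ _).symm⟩,
      fun ℓ hℓ => ?_⟩
    rw [map_add, hv ℓ hℓ, hw ℓ hℓ]
    exact (zsmul_add _ _ _).symm
  neg_mem' := by
    rintro v ⟨⟨x, hx, rfl⟩, hv⟩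
    refine ⟨⟨-x, by rw [neg_nsmul, hx, neg_zero], (neg_nsmul _ _).symm⟩, fun ℓ hℓ => ?_⟩
    rw [map_neg, hv ℓ hℓ]
    exact (zsmul_neg _ _).symm

variable {W p N}

theorem h17u_mem_core {a : ℕ} {v : JZero N} :
    v ∈ h17uCore W p N a ↔
      (∃ x : JZero N, p ^ (a + 1) • x = 0 ∧ v = p ^ a • x) ∧ h17uEigen W p N v := Iff.rfl

/-- the divisible eigenvectors are killed by `p`. -/
theorem h17u_core_p_smul {a : ℕ} {v : JZero N} (hv : v ∈ h17uCore W p N a) : p • v = 0 := by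
  obtain ⟨⟨x, hx, rfl⟩, -⟩ := hv
  rw [← mul_smul, ← pow_succ']
  exact hx

theorem h17u_core_eigen {a : ℕ} {v : JZero N} (hv : v ∈ h17uCore W p N a) (ℓ : Nat.Primes)
    (hℓ : (ℓ : ℕ) ∉ h17gS W p N) : heckeOperatorBar N ℓ v = W.apOfModel (ℓ : ℕ) • v :=
  hv.2 ℓ hℓ

/-- the divisible eigenvectors decrease with the depth. -/
theorem h17u_core_anti {a b : ℕ} (hab : a ≤ b) : h17uCore W p N b ≤ h17uCore W p N a := by
  rintro v ⟨⟨x, hx, rfl⟩, hv⟩
  obtain ⟨c, rfl⟩ := Nat.exists_eq_add_of_le hab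
  refine ⟨⟨p ^ c • x, ?_, ?_⟩, hv⟩
  · rw [← mul_smul, ← pow_add]
    have e : a + 1 + c = a + c + 1 := by ring
    rw [e]
    exact hx
  · rw [← mul_smul, ← pow_add]

theorem h17u_gal_nsmul (σ : GQ) (n : ℕ) (x : JZero N) : σ • (n • x) = n • (σ • x) :=
  map_nsmul (DistribSMul.toAddMonoidHom (JZero N) σ) n x

theorem h17u_gal_zsmul (σ : GQ) (n : ℤ) (x : JZero N) : σ • (n • x) = n • (σ • x) :=
  map_zsmul (DistribSMul.toAddMonoidHom (JZero N) σ) n x

/-- the divisible eigenvectors are stable under Galois. -/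
theorem h17u_core_gal {a : ℕ} {v : JZero N} (hv : v ∈ h17uCore W p N a) (σ : GQ) :
    σ • v ∈ h17uCore W p N a := by
  obtain ⟨⟨x, hx, rfl⟩, hv⟩ := hv
  have hHG : Fermat.Agent.S29.HeckeGaloisCommute N := Fermat.Agent.S30.geometricInputsFull.1 N
  refine ⟨⟨σ • x, ?_, ?_⟩, fun ℓ hℓ => ?_⟩
  · rw [← h17u_gal_nsmul, hx]
    exact smul_zero (M := GQ) (A := JZero N) σ
  · exact h17u_gal_nsmul σ _ x
  · rw [hHG.2 ℓ σ, hv ℓ hℓ]
    exact h17u_gal_zsmul σ _ _

/-- the divisible eigenvectors lie in the part of the eigensystem. -/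
theorem h17u_core_le_part {a : ℕ} {v : JZero N} (hv : v ∈ h17uCore W p N a) :
    v ∈ h17gPart W p N 1 :=
  h17g_mem_part_of_eigen W p N (Fermat.Agent.Red.HKComm.heckeOperatorsCommuteBar N) v
    (h17u_core_p_smul hv) hv.2

/-- the elements of `𝔫` kill the eigenvectors. -/
theorem h17u_ideal_smul {v : JZero N} (hpv : p • v = 0) (hv : h17uEigen W p N v)
    {Q : MvPolynomial Nat.Primes ℤ} (hQ : Q ∈ h17gIdeal W p N) :
    (letI := heckeModuleBar N; Q • v) = 0 := by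
  letI := heckeModuleBar N
  have hc : HeckeOperatorsCommuteBar N := Fermat.Agent.Red.HKComm.heckeOperatorsCommuteBar N
  have hle : h17gIdeal W p N ≤ Ideal.torsionOf (MvPolynomial Nat.Primes ℤ) (JZero N) v := by
    rw [h17gIdeal, Ideal.span_le]
    rintro Q (hQ | ⟨ℓ, hℓ, rfl⟩)
    · rw [Set.mem_singleton_iff] at hQ
      rw [hQ, SetLike.mem_coe, Ideal.mem_torsionOf_iff, heckeModuleBar_C_smul, natCast_zsmul]
      exact hpv
    · rw [SetLike.mem_coe, Ideal.mem_torsionOf_iff, sub_smul, heckeModuleBar_C_smul]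
      have e : (MvPolynomial.X ℓ : MvPolynomial Nat.Primes ℤ) • v = heckeOperatorBar N ℓ v :=
        heckeModuleBar_heckeGen_smul hc ℓ v
      rw [e, hv ℓ hℓ, sub_self]
  exact (Ideal.mem_torsionOf_iff _ _).mp (hle hQ)

end Core

/-! ## Evaluation at an eigenform congruent to `W` -/

section Eval

open MvPolynomial

/-- the eigensystem of an eigenform congruent to `W` maps the supported part of `𝔫` into the
maximal ideal. -/
theorem h17u_eval_mem (W : WeierstrassCurve ℤ) (hΔ : W.Δ ≠ 0) (p N : ℕ) [NeZero N]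
    (f : CuspForm (CongruenceSubgroup.Gamma0 N) 2) (𝔪 : Ideal (integralClosure ℤ ℂ))
    (hp𝔪 : (p : integralClosure ℤ ℂ) ∈ 𝔪)
    (hcong : ∀ ℓ : ℕ, ℓ.Prime → W.IsGoodPrimeFor ℓ → ¬ ℓ ∣ N → ℓ ≠ p →
      ∃ a : integralClosure ℤ ℂ, (a : ℂ) = ModularFormClass.qCoeff f ℓ ∧
        a - ((W.apOfModel ℓ : ℤ) : integralClosure ℤ ℂ) ∈ 𝔪)
    (Q : MvPolynomial Nat.Primes ℤ) (hQs : Q ∈ supported ℤ (TI_Sc (h17gS W p N)))
    (hQ : Q ∈ h17gIdeal W p N) :
    ∃ c ∈ 𝔪, (c : ℂ) =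
      aeval (R := ℤ) (fun ℓ : Nat.Primes => ModularFormClass.qCoeff f ℓ) Q := by
  classical
  have hN : N ≠ 0 := NeZero.ne N
  have hex : ∀ ℓ : Nat.Primes, (ℓ : ℕ) ∉ h17gS W p N →
      ∃ a : integralClosure ℤ ℂ, (a : ℂ) = ModularFormClass.qCoeff f ℓ ∧
        a - ((W.apOfModel ℓ : ℤ) : integralClosure ℤ ℂ) ∈ 𝔪 := by
    intro ℓ hℓ
    obtain ⟨h1, h2, h3⟩ := (h17g_not_mem_S_iff W hΔ hN ℓ.2).mp hℓ
    exact hcong ℓ ℓ.2 h3 h2 h1
  set val : Nat.Primes → integralClosure ℤ ℂ := fun ℓ =>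
    if h : (ℓ : ℕ) ∉ h17gS W p N then Classical.choose (hex ℓ h) else 0 with hval
  have hval1 : ∀ ℓ : Nat.Primes, (ℓ : ℕ) ∉ h17gS W p N →
      ((val ℓ : integralClosure ℤ ℂ) : ℂ) = ModularFormClass.qCoeff f ℓ := by
    intro ℓ hℓ
    rw [hval]
    simp only [dif_pos hℓ]
    exact (Classical.choose_spec (hex ℓ hℓ)).1
  have hval2 : ∀ ℓ : Nat.Primes, (ℓ : ℕ) ∉ h17gS W p N →
      val ℓ - ((W.apOfModel ℓ : ℤ) : integralClosure ℤ ℂ) ∈ 𝔪 := by
    intro ℓ hℓ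
    rw [hval]
    simp only [dif_pos hℓ]
    exact (Classical.choose_spec (hex ℓ hℓ)).2
  set φ : MvPolynomial Nat.Primes ℤ →ₐ[ℤ] integralClosure ℤ ℂ := aeval val with hφ
  refine ⟨φ Q, ?_, ?_⟩
  · -- `𝔫` maps into `𝔪`
    have hle : h17gIdeal W p N ≤ 𝔪.comap (φ : MvPolynomial Nat.Primes ℤ →+* _) := by
      rw [h17gIdeal, Ideal.span_le]
      rintro Q (hQ | ⟨ℓ, hℓ, rfl⟩)
      · rw [Set.mem_singleton_iff] at hQ
        rw [hQ, SetLike.mem_coe, Ideal.mem_comap]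
        show φ (C (p : ℤ)) ∈ 𝔪
        rw [hφ, aeval_C]
        simpa using hp𝔪
      · rw [SetLike.mem_coe, Ideal.mem_comap]
        show φ (X ℓ - C (W.apOfModel ℓ)) ∈ 𝔪
        rw [hφ, map_sub, aeval_X, aeval_C]
        simpa using hval2 ℓ hℓ
    exact Ideal.mem_comap.mp (hle hQ)
  · -- the values agree on the supported polynomials
    have h1 : ((φ Q : integralClosure ℤ ℂ) : ℂ) =
        aeval (R := ℤ) (fun ℓ : Nat.Primes => ((val ℓ : integralClosure ℤ ℂ) : ℂ)) Q := by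
      have h2 : ((integralClosure ℤ ℂ).val.restrictScalars ℤ).comp φ =
          aeval (R := ℤ) (fun ℓ : Nat.Primes => ((val ℓ : integralClosure ℤ ℂ) : ℂ)) := by
        apply MvPolynomial.algHom_ext
        intro ℓ
        rw [AlgHom.comp_apply, hφ, aeval_X, aeval_X]
        rfl
      rw [← h2]
      rfl
    rw [h1]
    apply MvPolynomial.eval₂Hom_congr' rfl _ rfl
    intro ℓ hℓ _
    have hℓS : (ℓ : ℕ) ∉ h17gS W p N :=
      (MvPolynomial.mem_supported.mp hQs) (Finset.mem_coe.mpr hℓ)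
    exact hval1 ℓ hℓS

end Eval

/-! ## UP -/

/-- the abstract alternative (finite-module lemma of helper64 for a subring of operators). -/
theorem h17u_abs {B : Type*} [CommRing B] {J : Type*} [AddCommGroup J] [Module B J]
    (R : Subalgebra ℤ B) (𝔫 : Ideal B) (V₁ : Submodule B J) (hfin : (V₁ : Set J).Finite) :
    (∃ v ∈ V₁, v ≠ 0 ∧ ∀ r ∈ R, r ∈ 𝔫 → r • v = 0) ∨
      (∃ r ∈ R, r ∈ 𝔫 ∧ ∀ v ∈ V₁, r • v = v) := by
  classical
  let V : Submodule R J :=
    { carrier := V₁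
      zero_mem' := V₁.zero_mem
      add_mem' := V₁.add_mem
      smul_mem' := fun r v hv => V₁.smul_mem (r : B) hv }
  haveI : Finite V := hfin.to_subtype
  let 𝔞 : Ideal R := 𝔫.comap (R.val : R →+* B)
  by_cases h : ∀ r ∈ 𝔞, ∃ v : V, r • v ≠ v
  · left
    obtain ⟨v, hv0, hv⟩ := h64w_exists_torsion_of_forall_ne 𝔞 h
    exact ⟨v, v.2, fun h0 => hv0 (Subtype.ext h0),
      fun r hrR hr𝔫 => congrArg Subtype.val (hv ⟨r, hrR⟩ hr𝔫)⟩
  · right
    push Not at h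
    obtain ⟨r, hr, hrv⟩ := h
    exact ⟨r, r.2, hr, fun v hv => congrArg Subtype.val (hrv ⟨v, hv⟩)⟩

section Up

open MvPolynomial

/-- **UP, robust form.**  If `W` is residually modular of level `N` at `p`, there are nonzero
divisible eigenvectors of every depth. -/
theorem h17u_up (W : WeierstrassCurve ℤ) (hΔ : W.Δ ≠ 0) {p : ℕ} (hp : p.Prime) (N : ℕ)
    [NeZero N] (hmod : W.IsResiduallyModularOfLevel p N) (a : ℕ) :
    ∃ v : JZero N, v ∈ h17uCore W p N a ∧ v ≠ 0 := by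
  classical
  letI := heckeModuleBar N
  have hc : HeckeOperatorsCommuteBar N := Fermat.Agent.Red.HKComm.heckeOperatorsCommuteBar N
  have hGI := Fermat.Agent.S30.geometricInputsFull
  have hfinX : Set.Finite {x : JZero N | p ^ (a + 1) • x = 0} :=
    (hGI.2.2.1 N (p ^ (a + 1)) (pow_pos hp.pos _)).1
  have hKey : Fermat.Agent.S29.HeckeKeyModP N (p ^ (a + 1)) :=
    Fermat.Agent.S30.heckeKeyModP_of_int N (p ^ (a + 1))
      (Fermat.Agent.S31.heckeKeyInt_of_lattice N (hGI.2.2.2 N) (p ^ (a + 1)))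
  have hSN : ∀ r : ℕ, r.Prime → r ∣ N → r ∈ h17gS W p N :=
    h17g_mem_S_of_dvd W p (NeZero.ne N)
  -- the ring of the Hecke polynomials in the variables outside `S`
  set R : Subalgebra ℤ (MvPolynomial Nat.Primes ℤ) :=
    supported ℤ (TI_Sc (h17gS W p N)) with hR
  -- the module `p ^ a • J₀(N)[p ^ (a + 1)]`
  let V : Submodule (MvPolynomial Nat.Primes ℤ) (JZero N) :=
    { carrier := {v | ∃ x : JZero N, p ^ (a + 1) • x = 0 ∧ v = p ^ a • x}
      zero_mem' := ⟨0, smul_zero _, (smul_zero _).symm⟩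
      add_mem' := by
        rintro v w ⟨x, hx, rfl⟩ ⟨y, hy, rfl⟩
        exact ⟨x + y, by rw [nsmul_add, hx, hy, add_zero], (nsmul_add _ _ _).symm⟩
      smul_mem' := by
        rintro r v ⟨x, hx, rfl⟩
        refine ⟨r • x, ?_, ?_⟩
        · rw [← h17n_smul_nsmul, hx]
          exact h17n_smul_zero N _
        · exact h17n_smul_nsmul N _ _ _ }
  have hVmem : ∀ v : JZero N, v ∈ V ↔ ∃ x : JZero N, p ^ (a + 1) • x = 0 ∧ v = p ^ a • x :=
    fun v => Iff.rfl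
  have hfinV : (V : Set (JZero N)).Finite := by
    refine hfinX.subset ?_
    rintro v ⟨x, hx, rfl⟩
    show p ^ (a + 1) • (p ^ a • x) = 0
    rw [← mul_smul, mul_comm, mul_smul, hx, smul_zero]
  rcases h17u_abs R (h17gIdeal W p N) V hfinV with ⟨v, hvV, hv0, hv⟩ | ⟨r, hrR, hr𝔫, hrv⟩
  · -- a common eigenvector
    refine ⟨v, ⟨(hVmem _).mp hvV, fun ℓ hℓ => ?_⟩, hv0⟩
    have hmemR : (X ℓ - C (W.apOfModel ℓ) : MvPolynomial Nat.Primes ℤ) ∈ R :=
      Subalgebra.sub_mem _ (MvPolynomial.X_mem_supported.mpr hℓ) (Subalgebra.algebraMap_mem _ _)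
    have h2 : (X ℓ - C (W.apOfModel ℓ) : MvPolynomial Nat.Primes ℤ) • v = 0 :=
      hv _ hmemR (h17g_X_sub_mem W p N ℓ hℓ)
    rw [sub_smul, heckeModuleBar_C_smul, sub_eq_zero] at h2
    rw [← h2]
    exact (heckeModuleBar_heckeGen_smul hc ℓ v).symm
  · -- an element of `𝔫` acts as the identity: contradiction with the eigenform
    exfalso
    obtain ⟨f, 𝔪, hf, h𝔪, hp𝔪, hcong⟩ := hmod
    set P : MvPolynomial Nat.Primes ℤ := C ((p : ℤ) ^ a) * (1 - r) with hP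
    have hPs : P ∈ R :=
      Subalgebra.mul_mem _ (Subalgebra.algebraMap_mem _ _)
        (Subalgebra.sub_mem _ (Subalgebra.one_mem _) hrR)
    have hvars : ∀ ℓ ∈ P.vars, ¬ (ℓ : ℕ) ∣ N * p ^ (a + 1) := by
      intro ℓ hℓ hdvd
      have hℓS : (ℓ : ℕ) ∉ h17gS W p N :=
        (MvPolynomial.mem_supported.mp hPs) (Finset.mem_coe.mpr hℓ)
      rcases (Nat.Prime.dvd_mul ℓ.2).mp hdvd with h | h
      · exact hℓS (hSN ℓ ℓ.2 h)
      · have h3 := ℓ.2.dvd_of_dvd_pow h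
        have h4 : (ℓ : ℕ) = p := (Nat.prime_dvd_prime_iff_eq ℓ.2 hp).mp h3
        exact hℓS (h4 ▸ h17g_p_mem_S W p N)
    have hkill : ∀ x : JZero N, p ^ (a + 1) • x = 0 → P • x = 0 := by
      intro x hx
      have hvV : p ^ a • x ∈ V := ⟨x, hx, rfl⟩
      have h2 : r • (p ^ a • x) = p ^ a • x := hrv _ hvV
      have e : ((p : ℤ) ^ a) = ((p ^ a : ℕ) : ℤ) := by push_cast; rfl
      rw [hP, mul_comm, mul_smul, e, h17n_natCast_smul, sub_smul, one_smul, h2, sub_self]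
    obtain ⟨b, hb⟩ := hKey P hvars hkill f hf
    obtain ⟨c, hc𝔪, hcval⟩ := h17u_eval_mem W hΔ p N f 𝔪 hp𝔪 hcong r hrR hr𝔫
    -- `p ^ a (1 - c) = p ^ (a + 1) b`
    have hev : aeval (R := ℤ) (fun ℓ : Nat.Primes => ModularFormClass.qCoeff f ℓ) P =
        (p : ℂ) ^ a * (1 - (c : ℂ)) := by
      rw [hP, map_mul, map_sub, map_one, aeval_C, ← hcval]
      simp
    rw [hev] at hb
    have hp0 : (p : ℂ) ^ a ≠ 0 := pow_ne_zero _ (Nat.cast_ne_zero.mpr hp.ne_zero)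
    have h3 : (1 : ℂ) - (c : ℂ) = (p : ℂ) * (b : ℂ) := by
      apply mul_left_cancel₀ hp0
      rw [hb]
      push_cast
      ring
    have h4 : (1 : integralClosure ℤ ℂ) = c + (p : integralClosure ℤ ℂ) * b := by
      apply Subtype.ext
      push_cast
      rw [← h3]
      ring
    have h5 : (1 : integralClosure ℤ ℂ) ∈ 𝔪 := by
      rw [h4]
      exact 𝔪.add_mem hc𝔪 (𝔪.mul_mem_right _ hp𝔪)
    exact h𝔪.ne_top ((Ideal.eq_top_iff_one 𝔪).mpr h5)

end Up

/-! ## NEW -/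

theorem h17u_bezout {A : Type*} [AddCommGroup A] (w : A) {t p : ℕ} (hcop : Nat.Coprime t p)
    (h1 : t • w = 0) (h2 : p • w = 0) : w = 0 := by
  have d1 := addOrderOf_dvd_of_nsmul_eq_zero h1
  have d2 := addOrderOf_dvd_of_nsmul_eq_zero h2
  have d3 : addOrderOf w ∣ 1 := by
    rw [← Nat.Coprime.gcd_eq_one hcop]
    exact Nat.dvd_gcd d1 d2
  exact AddMonoid.addOrderOf_eq_one_iff.mp (Nat.dvd_one.mp d3)

section New

variable (W : WeierstrassCurve ℤ) {p : ℕ} (hp : p.Prime) (M : ℕ) [NeZero M] [NeZero p]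

include hp

/-- an additive map commuting with the `T_ℓ`, `ℓ ∉ S`, maps eigenvectors to eigenvectors. -/
theorem h17u_map_eigen (f : JZero (M * p) →+ JZero M)
    (hf : ∀ ℓ : Nat.Primes, (ℓ : ℕ) ∉ h17gS W p M → ∀ x : JZero (M * p),
      f (heckeOperatorBar (M * p) ℓ x) = heckeOperatorBar M ℓ (f x))
    {v : JZero (M * p)} (hv : h17uEigen W p (M * p) v) : h17uEigen W p M (f v) := by
  intro ℓ hℓ
  have hℓ' : (ℓ : ℕ) ∉ h17gS W p (M * p) := by rw [h17n_S_mul W hp (NeZero.ne M)]; exact hℓ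
  rw [← hf ℓ hℓ, hv ℓ hℓ', map_zsmul]

/-- the core of **NEW**: an equivariant map kills the divisible eigenvectors of depth `a`, if
`t = p ^ a t'` with `p ∤ t'`, and `t P` kills `J₀(M)[p ^ ∞]` for some `P ∈ 1 + 𝔫`. -/
theorem h17u_map_core_zero (f : JZero (M * p) →+ JZero M)
    (hf : ∀ ℓ : Nat.Primes, (ℓ : ℕ) ∉ h17gS W p M → ∀ x : JZero (M * p),
      f (heckeOperatorBar (M * p) ℓ x) = heckeOperatorBar M ℓ (f x))
    (a t' : ℕ) (ht' : ¬ p ∣ t') (P : MvPolynomial Nat.Primes ℤ)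
    (hPmem : P - 1 ∈ h17gIdeal W p M)
    (hkill : ∀ k : ℕ, TI_Kills M (p ^ k) (MvPolynomial.C ((p ^ a * t' : ℕ) : ℤ) * P))
    {v : JZero (M * p)} (hv : v ∈ h17uCore W p (M * p) a) : f v = 0 := by
  letI := heckeModuleBar M
  obtain ⟨⟨x, hx, rfl⟩, hve⟩ := hv
  set y : JZero M := f x with hy
  have hyk : p ^ (a + 1) • y = 0 := by rw [hy, ← map_nsmul, hx, map_zero]
  set w : JZero M := f (p ^ a • x) with hw
  have hwy : w = p ^ a • y := by rw [hw, hy, map_nsmul]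
  have hwe : h17uEigen W p M w := h17u_map_eigen W hp M f hf hve
  have hpw : p • w = 0 := by
    rw [hwy, ← mul_smul, ← pow_succ']
    exact hyk
  -- `P w = w`
  have hPw : P • w = w := by
    have h1 : (P - 1) • w = 0 := h17u_ideal_smul hpw hwe hPmem
    rw [sub_smul, one_smul, sub_eq_zero] at h1
    exact h1
  -- `t' w = 0`
  have h1 : (MvPolynomial.C ((p ^ a * t' : ℕ) : ℤ) * P) • y = 0 := hkill (a + 1) y hyk
  have h2 : t' • w = 0 := by
    rw [mul_comm, mul_smul, h17n_natCast_smul, mul_comm, mul_smul, h17n_smul_nsmul, ← hwy,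
      hPw] at h1
    exact h1
  -- Bezout
  have hcop : Nat.Coprime t' p := ((Nat.Prime.coprime_iff_not_dvd hp).mpr ht').symm
  exact h17u_bezout w hcop h2 hpw

/-- **NEW, robust form.**  If `W` is not residually modular of level `M` at `p`, then for some
depth `a` the divisible eigenvectors of depth `a` at level `M * p` are `p`-new. -/
theorem h17u_new (hΔ : W.Δ ≠ 0) (hnot : ¬ W.IsResiduallyModularOfLevel p M) :
    ∃ a : ℕ, ∀ v : JZero (M * p), v ∈ h17uCore W p (M * p) a →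
      pushAlpha M p v = 0 ∧ pushBeta M p v = 0 := by
  obtain ⟨t, P, ht, -, hPmem, hkill⟩ := h17g_glueDown W hΔ hp M hnot
  obtain ⟨a, t', ht', rfl⟩ := Nat.exists_eq_pow_mul_and_not_dvd ht.ne' p hp.ne_one
  have hcomm : ∀ ℓ : Nat.Primes, (ℓ : ℕ) ∉ h17gS W p M → ∀ x : JZero (M * p),
      pushAlpha M p (heckeOperatorBar (M * p) ℓ x) = heckeOperatorBar M ℓ (pushAlpha M p x) ∧
      pushBeta M p (heckeOperatorBar (M * p) ℓ x) = heckeOperatorBar M ℓ (pushBeta M p x) := by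
    intro ℓ hℓ x
    have hℓ' : (ℓ : ℕ) ∉ h17gS W p (M * p) := by rw [h17n_S_mul W hp (NeZero.ne M)]; exact hℓ
    exact Fermat.Agent.S35.h41g_pushHeckeComm M p hp ℓ
      (fun h => hℓ' (h17g_mem_S_of_dvd W p (NeZero.ne (M * p)) ℓ ℓ.2 h)) x
  refine ⟨a, fun v hv => ⟨?_, ?_⟩⟩
  · exact h17u_map_core_zero W hp M (pushAlpha M p) (fun ℓ hℓ x => (hcomm ℓ hℓ x).1) a t' ht' P
      hPmem hkill hv
  · exact h17u_map_core_zero W hp M (pushBeta M p) (fun ℓ hℓ x => (hcomm ℓ hℓ x).2) a t' ht' P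
      hPmem hkill hv

/-- **Blocks (1)+(2a) of wave 7, robust form.**  If `W` is residually modular of level `M * p`
at `p` but not of level `M`, there is a nonzero Galois-stable subgroup `V₀` of `J₀(M p)[p]`
consisting of eigenvectors for the eigensystem of `W` (`T_ℓ v = a_ℓ(W) v` for `ℓ ∉ S`) which is
`p`-new: `α_* = β_* = 0` on `V₀`. -/
theorem h17u_new_core (hΔ : W.Δ ≠ 0) (hmod : W.IsResiduallyModularOfLevel p (M * p))
    (hnot : ¬ W.IsResiduallyModularOfLevel p M) :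
    ∃ V₀ : AddSubgroup (JZero (M * p)),
      (∃ v ∈ V₀, v ≠ 0) ∧
      (∀ (σ : GQ) (v : JZero (M * p)), v ∈ V₀ → σ • v ∈ V₀) ∧
      (∀ v ∈ V₀, p • v = 0) ∧
      (∀ v ∈ V₀, ∀ ℓ : Nat.Primes, (ℓ : ℕ) ∉ h17gS W p (M * p) →
        heckeOperatorBar (M * p) ℓ v = W.apOfModel (ℓ : ℕ) • v) ∧
      (∀ v ∈ V₀, pushAlpha M p v = 0 ∧ pushBeta M p v = 0) := by
  obtain ⟨a, hnew⟩ := h17u_new W hp M hΔ hnot
  obtain ⟨v, hv, hv0⟩ := h17u_up W hΔ hp (M * p) hmod a
  exact ⟨h17uCore W p (M * p) a, ⟨v, hv, hv0⟩, fun σ v hv => h17u_core_gal hv σ,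
    fun v hv => h17u_core_p_smul hv, fun v hv ℓ hℓ => h17u_core_eigen hv ℓ hℓ, hnew⟩

end New

end Fermat.Agent.P7
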