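import Fermat.Agent.P7.H38EmbedAbs
import Fermat.Agent.S58.H98Hres
import Fermat.Agent.S30.Inputs

/-!
# Wave 7 (S40), blocks (1)+(2) EMBED: eigen-subgroups and their quadratic relations (helper38)

`W` an integral Weierstrass curve, `p` a prime, `M` a level, `V₁ ≤ J₀(M)` a subgroup.

* `H38eEig W p M V₁ S` : `V₁` is `G_ℚ`-stable, killed by `p`, and `T_ℓ = a_ℓ(W)` on `V₁` for all
  primes `ℓ ∉ S`.
* `h38eSig` : the Galois action on `V₁`, `G_ℚ →* End_{𝔽_p} V₁`.
* `h38e_cheb` : every `g ∈ G_ℚ` acts on `W[p]` and on `J₀(M)[p]` as a power of a Frobenius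
  element at a prime outside a given finite set.
* `h38e_trace_pow` : `tr (A ^ n)` for an endomorphism of a plane.
* `h38e_quad` : every `g ∈ G_ℚ` satisfies on `V₁` the characteristic polynomial of its action
  on `W[p]` (Eichler–Shimura on torsion + P-EFROB + Chebotarev).
-/

set_option autoImplicit false
set_option linter.unusedSectionVars false
set_option linter.style.haveILetI false

open ModularCurve WeierstrassCurve WeierstrassCurve.Affine WeierstrassCurve.Affine.Point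
  Polynomial

noncomputable section

namespace Fermat.Agent.P7

local notation "Qbar" => AlgebraicClosure ℚ
local notation "Γℚ" => (AlgebraicClosure ℚ ≃ₐ[ℚ] AlgebraicClosure ℚ)

/-- `V₁` is a Galois-stable subgroup of `J₀(M)[p]` on which `T_ℓ = a_ℓ(W)` for `ℓ ∉ S`. -/
structure H38eEig (W : WeierstrassCurve ℤ) (p M : ℕ) [NeZero M] (V₁ : AddSubgroup (JZero M))
    (S : Finset ℕ) : Prop where
  gal : ∀ σ : Γℚ, ∀ x ∈ V₁, σ • x ∈ V₁
  tors : ∀ x ∈ V₁, p • x = 0
  eig : ∀ ℓ : Nat.Primes, (ℓ : ℕ) ∉ S → ∀ x ∈ V₁,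
    heckeOperatorBar M ℓ x = (W.apOfModel ℓ) • x

section Linear

variable {F : Type*} [Field F] {U : Type*} [AddCommGroup U] [Module F U]

/-- Cayley–Hamilton in a plane. -/
theorem h38e_cayley (hU : Module.finrank F U = 2) (A : Module.End F U) :
    A * A - LinearMap.trace F U A • A + LinearMap.det A • (1 : Module.End F U) = 0 := by
  haveI : Module.Finite F U := Module.finite_of_finrank_pos (by omega)
  have h := LinearMap.aeval_self_charpoly A
  rw [Fermat.Agent.S58.h98r_charpoly_dim_two hU A] at h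
  simp only [map_add, map_sub, map_mul, map_pow, aeval_X, aeval_C, Algebra.algebraMap_eq_smul_one,
    smul_mul_assoc, one_mul] at h
  rw [← h, sq]

/-- the traces of the powers of an endomorphism of a plane. -/
theorem h38e_trace_pow (hU : Module.finrank F U = 2) (A : Module.End F U) :
    ∀ n : ℕ, LinearMap.trace F U (A ^ n) =
      Fermat.Agent.S30.acTrace (LinearMap.trace F U A) (LinearMap.det A) n
  | 0 => by
      haveI : Module.Finite F U := Module.finite_of_finrank_pos (by omega)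
      rw [pow_zero, Fermat.Agent.S30.acTrace_zero, LinearMap.trace_one, hU]
      norm_num
  | 1 => by rw [pow_one, Fermat.Agent.S30.acTrace_one]
  | (n + 2) => by
      have ih1 := h38e_trace_pow hU A (n + 1)
      have ih0 := h38e_trace_pow hU A n
      have hCH := h38e_cayley hU A
      have e : A ^ (n + 2) = LinearMap.trace F U A • A ^ (n + 1) -
          LinearMap.det A • A ^ n := by
        have h1 : A * A = LinearMap.trace F U A • A - LinearMap.det A • (1 : Module.End F U) := by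
          rw [← sub_eq_zero, ← hCH]
          abel
        calc A ^ (n + 2) = A * A * A ^ n := by rw [pow_succ', pow_succ', mul_assoc]
          _ = (LinearMap.trace F U A • A - LinearMap.det A • (1 : Module.End F U)) * A ^ n := by
              rw [h1]
          _ = LinearMap.trace F U A • A ^ (n + 1) - LinearMap.det A • A ^ n := by
              rw [sub_mul, smul_mul_assoc, smul_mul_assoc, one_mul, ← pow_succ']
      rw [e, map_sub, map_smul, map_smul, ih1, ih0, Fermat.Agent.S30.acTrace_add_two,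
        smul_eq_mul, smul_eq_mul]

end Linear

section Action

variable (W : WeierstrassCurve ℤ) (p M : ℕ) [NeZero M] (V₁ : AddSubgroup (JZero M))

/-- the `𝔽_p`-structure of a subgroup killed by `p`. -/
@[implicit_reducible]
def h38eMod (htors : ∀ x ∈ V₁, p • x = 0) : Module (ZMod p) V₁ :=
  AddCommGroup.zmodModule fun x => by
    apply Subtype.ext
    have := htors x x.2
    simpa using this

/-- the Galois action on a stable subgroup, additive form. -/
def h38eAct (hgal : ∀ σ : Γℚ, ∀ x ∈ V₁, σ • x ∈ V₁) (σ : Γℚ) : V₁ →+ V₁ where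
  toFun x := ⟨σ • (x : JZero M), hgal σ x x.2⟩
  map_zero' := by
    apply Subtype.ext
    exact smul_zero σ
  map_add' x y := by
    apply Subtype.ext
    exact smul_add σ (x : JZero M) (y : JZero M)

theorem h38eAct_coe (hgal : ∀ σ : Γℚ, ∀ x ∈ V₁, σ • x ∈ V₁) (σ : Γℚ) (x : V₁) :
    ((h38eAct M V₁ hgal σ x : V₁) : JZero M) = σ • (x : JZero M) := rfl

/-- the Galois action on a stable subgroup killed by `p`. -/
def h38eSig (htors : ∀ x ∈ V₁, p • x = 0) (hgal : ∀ σ : Γℚ, ∀ x ∈ V₁, σ • x ∈ V₁) :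
    letI := h38eMod p M V₁ htors
    Γℚ →* Module.End (ZMod p) V₁ :=
  letI := h38eMod p M V₁ htors
  { toFun := fun σ => (h38eAct M V₁ hgal σ).toZModLinearMap p
    map_one' := by
      ext x
      show ((h38eAct M V₁ hgal 1 x : V₁) : JZero M) = x
      rw [h38eAct_coe, one_smul]
    map_mul' := fun σ τ => by
      ext x
      show ((h38eAct M V₁ hgal (σ * τ) x : V₁) : JZero M) =
        ((h38eAct M V₁ hgal σ (h38eAct M V₁ hgal τ x) : V₁) : JZero M)
      rw [h38eAct_coe, h38eAct_coe, h38eAct_coe, mul_smul] }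

theorem h38eSig_coe (htors : ∀ x ∈ V₁, p • x = 0) (hgal : ∀ σ : Γℚ, ∀ x ∈ V₁, σ • x ∈ V₁)
    (σ : Γℚ) (x : V₁) :
    letI := h38eMod p M V₁ htors
    ((h38eSig p M V₁ htors hgal σ x : V₁) : JZero M) = σ • (x : JZero M) := rfl

end Action

section Cheb

/-- **Chebotarev**: every `τ` acts on `W[p]` and on `J₀(M)[p]` as a power of a Frobenius element
at a prime outside `S`. -/
theorem h38e_cheb (W : WeierstrassCurve ℤ) (hΔ : W.Δ ≠ 0) (p : ℕ) [Fact p.Prime]
    (M : ℕ) [NeZero M] (S : Finset ℕ) (τ : Γℚ) :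
    ∃ (ℓ : ℕ) (A : ValuationSubring Qbar) (σ : Γℚ) (n : ℕ),
      ℓ.Prime ∧ ℓ ∉ S ∧ A.LiesOverPrime ℓ ∧ A.IsFrobeniusAt σ ℓ ∧
      galoisRepModuleEnd (K := Qbar) ℚ (W.map (Int.castRingHom ℚ)).toAffine p τ =
        (galoisRepModuleEnd (K := Qbar) ℚ (W.map (Int.castRingHom ℚ)).toAffine p σ) ^ n ∧
      ∀ x : JZero M, p • x = 0 → τ • x = (σ ^ n) • x := by
  classical
  have hp : p.Prime := Fact.out
  have hΔ' : (W.map (Int.castRingHom ℚ)).Δ ≠ 0 := by
    rw [WeierstrassCurve.map_Δ]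
    simpa using hΔ
  have : Finite (S13.Tors (W.map (Int.castRingHom ℚ)) p) :=
    Tors.finite_torsionBy_qbar (W.map (Int.castRingHom ℚ)) hΔ' p hp.ne_zero
  obtain ⟨S₁, hS₁⟩ := S13.Asm.exists_finset_fix (W := W.map (Int.castRingHom ℚ)) (p := p)
  obtain ⟨-, L, hLfin, hL⟩ := Fermat.Agent.S30.geometricInputsFull.2.2.1 M p hp.pos
  have : Algebra.IsAlgebraic ℚ Qbar := AlgebraicClosure.isAlgebraic ℚ
  have : IsAlgClosure ℚ Qbar := ⟨inferInstance, inferInstance⟩
  have : Normal ℚ Qbar := IsAlgClosure.normal ℚ Qbar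
  let L₁ : IntermediateField ℚ Qbar :=
    IntermediateField.adjoin ℚ ((S₁ : Finset Qbar) : Set Qbar)
  have hL₁fin : FiniteDimensional ℚ L₁ :=
    IntermediateField.finiteDimensional_adjoin (fun x _ => (Algebra.IsIntegral.isIntegral x))
  let L₂ : IntermediateField ℚ Qbar := L ⊔ L₁
  have hL₂fin : FiniteDimensional ℚ L₂ := IntermediateField.finiteDimensional_sup L L₁
  let F : IntermediateField ℚ Qbar := IntermediateField.normalClosure ℚ L₂ Qbar
  have hFfin : FiniteDimensional ℚ F := normalClosure.is_finiteDimensional ℚ L₂ Qbar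
  have hFnormal : Normal ℚ F := normalClosure.normal ℚ L₂ Qbar
  have hFgal : IsGalois ℚ F := ⟨⟩
  have hLF : L₂ ≤ F := IntermediateField.le_normalClosure L₂
  obtain ⟨ℓ, A, σ, n, hℓ, hℓS, hA, hσ, hfixL⟩ := Cheb.exists_frobenius_pow_mod F τ S
  refine ⟨ℓ, A, σ, n, hℓ, hℓS, hA, hσ, ?_, ?_⟩
  · rw [← map_pow]
    apply LinearMap.ext
    intro Q
    have h1 : (τ⁻¹ * σ ^ n) • Q = Q :=
      hS₁ _ (fun s hs => hfixL s (hLF ((le_sup_right : L₁ ≤ L₂)
        (IntermediateField.subset_adjoin ℚ _ (Finset.mem_coe.2 hs))))) Q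
    rw [galoisRepModuleEnd_apply, galoisRepModuleEnd_apply]
    rw [mul_smul, inv_smul_eq_iff] at h1
    exact h1.symm
  · intro x hx
    have h1 : (τ⁻¹ * σ ^ n) • x = x :=
      hL _ (fun y hy => hfixL y (hLF ((le_sup_left : L ≤ L₂) hy))) x hx
    rw [mul_smul, inv_smul_eq_iff] at h1
    exact h1.symm

end Cheb

section Quad

variable (W : WeierstrassCurve ℤ) (p : ℕ) [Fact p.Prime] (M : ℕ) [NeZero M]
  (V₁ : AddSubgroup (JZero M)) (S : Finset ℕ)

set_option maxHeartbeats 1600000 in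
/-- **the quadratic relations on an eigen-subgroup**: every `g ∈ G_ℚ` satisfies on `V₁` the
characteristic polynomial of its action on `W[p]`. -/
theorem h38e_quad (hΔ : W.Δ ≠ 0) (hE : H38eEig W p M V₁ S) (g : Γℚ) :
    letI := h38eMod p M V₁ hE.tors
    h38eSig p M V₁ hE.tors hE.gal g * h38eSig p M V₁ hE.tors hE.gal g
      - LinearMap.trace (ZMod p) _
          (galoisRepModuleEnd (K := Qbar) ℚ (W.map (Int.castRingHom ℚ)).toAffine p g) •
        h38eSig p M V₁ hE.tors hE.gal g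
      + LinearMap.det
          (galoisRepModuleEnd (K := Qbar) ℚ (W.map (Int.castRingHom ℚ)).toAffine p g) •
        (1 : Module.End (ZMod p) V₁) = 0 := by
  letI := h38eMod p M V₁ hE.tors
  classical
  have hp : p.Prime := Fact.out
  have hΔ' : (W.map (Int.castRingHom ℚ)).Δ ≠ 0 := by
    rw [WeierstrassCurve.map_Δ]
    simpa using hΔ
  have hV₁ := Tors.finrank_torsionBy_qbar (W.map (Int.castRingHom ℚ)) hΔ' p
  obtain ⟨ℓ, A, f, n, hℓ, hℓS, hA, hf, hρ, hJ⟩ := h38e_cheb W hΔ p M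
    (insert p (S ∪ M.primeFactors ∪ W.Δ.natAbs.primeFactors)) g
  simp only [Finset.mem_insert, Finset.mem_union, Nat.mem_primeFactors, not_or, not_and,
    ne_eq, Int.natAbs_eq_zero] at hℓS
  obtain ⟨hℓp, ⟨hℓS', hℓM⟩, hℓΔ⟩ := hℓS
  have hℓM' : ¬ ℓ ∣ M := fun h => hℓM hℓ h (NeZero.ne M)
  have hgood : W.IsGoodPrimeFor ℓ := by
    intro hdvd
    exact hℓΔ hℓ (Int.natCast_dvd.1 hdvd) hΔ
  have hℓMp : ¬ ℓ ∣ M * p := by
    intro h
    rcases (Nat.Prime.dvd_mul hℓ).1 h with h | h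
    · exact hℓM' h
    · exact hℓp ((Nat.prime_dvd_prime_iff_eq hℓ hp).1 h)
  set ρ₁ := galoisRepModuleEnd (K := Qbar) ℚ (W.map (Int.castRingHom ℚ)).toAffine p with hρ₁
  set σ₁ := h38eSig p M V₁ hE.tors hE.gal with hσ₁
  have hσg : σ₁ g = σ₁ f ^ n := by
    rw [← map_pow]
    apply LinearMap.ext
    intro x
    apply Subtype.ext
    rw [hσ₁, h38eSig_coe, h38eSig_coe]
    exact hJ x (hE.tors x x.2)
  -- Eichler–Shimura for `f`
  have hES : σ₁ f * σ₁ f - ((W.apOfModel ℓ : ℤ) : ZMod p) • σ₁ f +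
      ((ℓ : ℕ) : ZMod p) • (1 : Module.End (ZMod p) V₁) = 0 := by
    apply LinearMap.ext
    intro x
    apply Subtype.ext
    have h := (Fermat.Agent.S30.geometricInputsFull.2.1 M p hp).2 ℓ hℓ hℓMp A hA f hf
      (x : JZero M) ⟨1, by rw [pow_one]; exact hE.tors x x.2⟩
    rw [hE.eig ⟨ℓ, hℓ⟩ hℓS' (f • (x : JZero M)) (hE.gal f x x.2)] at h
    have e1 : (((W.apOfModel ℓ : ℤ) : ZMod p) • (σ₁ f x) : V₁) = (W.apOfModel ℓ) • (σ₁ f x) :=
      Int.cast_smul_eq_zsmul (ZMod p) _ _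
    have e2 : (((ℓ : ℕ) : ZMod p) • x : V₁) = ℓ • x := Nat.cast_smul_eq_nsmul (ZMod p) _ _
    simp only [LinearMap.add_apply, LinearMap.sub_apply, LinearMap.smul_apply,
      Module.End.mul_apply, Module.End.one_apply, LinearMap.zero_apply, e1, e2]
    rw [AddSubgroup.coe_add, AddSubgroup.coe_sub, AddSubgroup.coe_zsmul, AddSubgroup.coe_nsmul]
    exact h
  have hpow := Fermat.Agent.S30.ac_pow_relation hES n
  have htr : LinearMap.trace (ZMod p) _ (ρ₁ g) =
      Fermat.Agent.S30.acTrace (((W.apOfModel ℓ : ℤ) : ZMod p)) (((ℓ : ℕ) : ZMod p)) n := by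
    rw [hρ, h38e_trace_pow hV₁, ← galoisTrace_def,
      EFrob.galoisTrace_frobenius W hℓ hp hℓp hgood A hA f hf,
      EFrob.galoisDet_frobenius W hℓ hp hℓp hgood A hA f hf]
  have hdet : LinearMap.det (ρ₁ g) = (((ℓ : ℕ) : ZMod p)) ^ n := by
    rw [hρ, map_pow, EFrob.galoisDet_frobenius W hℓ hp hℓp hgood A hA f hf]
  rw [hσg, htr, hdet]
  exact hpow

end Quad

section Final

/-- **EMBED.**  `W[p]` (irreducible, `p` odd) embeds Galois-equivariantly into every nonzero
Galois-stable subgroup of `J₀(M)[p]` on which `T_ℓ = a_ℓ(W)` for almost all `ℓ`. -/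
theorem h38e_embed (W : WeierstrassCurve ℤ) (hΔ : W.Δ ≠ 0) {p : ℕ} (hp : p.Prime) (hp2 : p ≠ 2)
    (hirr : W.ModRepIsIrreducible p) (M : ℕ) [NeZero M] (S : Finset ℕ)
    (V₁ : AddSubgroup (JZero M)) (hne : V₁ ≠ ⊥) (hE : H38eEig W p M V₁ S) :
    ∃ φ : Submodule.torsionBy ℤ ((W.map (Int.castRingHom ℚ))⁄Qbar).Point p →+ JZero M,
      Function.Injective φ ∧ (∀ (σ : Γℚ) P, φ (σ • P) = σ • φ P) ∧ ∀ P, φ P ∈ V₁ := by
  classical
  haveI : Fact p.Prime := ⟨hp⟩
  letI := h38eMod p M V₁ hE.tors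
  haveI : Nontrivial V₁ := (AddSubgroup.nontrivial_iff_ne_bot V₁).2 hne
  have hpodd : Odd p := hp.odd_of_ne_two hp2
  have hΔ' : (W.map (Int.castRingHom ℚ)).Δ ≠ 0 := by
    rw [WeierstrassCurve.map_Δ]
    simpa using hΔ
  have hV₁ := Tors.finrank_torsionBy_qbar (W.map (Int.castRingHom ℚ)) hΔ' p
  have h2 : (2 : ZMod p) ≠ 0 := by
    intro h
    have h' : ((2 : ℕ) : ZMod p) = 0 := by exact_mod_cast h
    rw [ZMod.natCast_eq_zero_iff] at h'
    exact hp2 ((Nat.prime_dvd_prime_iff_eq hp Nat.prime_two).1 h')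
  -- complex conjugation
  have : NeZero (p : Qbar) := ⟨Nat.cast_ne_zero.mpr hp.ne_zero⟩
  obtain ⟨ζ, hζ⟩ := HasEnoughRootsOfUnity.exists_primitiveRoot Qbar p
  have hcc : complexConjugation * complexConjugation = 1 := complexConjugation_mul_self
  have hcζ : complexConjugation ζ = ζ ^ (p - 1) := by
    rw [Fermat.Agent.S58.h98r_galois_involution_apply_root complexConjugation hcc
      Fermat.Agent.S58.h98r_complexConjugation_ne_one p hpodd ζ hζ.pow_eq_one]
    apply inv_eq_of_mul_eq_one_left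
    rw [← pow_succ, Nat.sub_add_cancel hp.pos, hζ.pow_eq_one]
  let ρ₁ := galoisRepModuleEnd (K := Qbar) ℚ (W.map (Int.castRingHom ℚ)).toAffine p
  have hdetc : LinearMap.det (ρ₁ complexConjugation) = -1 := by
    rw [EFrob.galoisDet_eq_of_zeta W hΔ hp hζ complexConjugation (p - 1) hcζ,
      Nat.cast_sub hp.pos, ZMod.natCast_self, zero_sub, Nat.cast_one]
  have hirr₁ : ∀ N : Submodule (ZMod p) (Submodule.torsionBy ℤ
      ((W.map (Int.castRingHom ℚ))⁄Qbar).Point p),
      (∀ g, ∀ x ∈ N, ρ₁ g x ∈ N) → N = ⊥ ∨ N = ⊤ := by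
    intro N hN
    exact hirr.2 N (fun σ x hx => hN σ x hx)
  obtain ⟨φ', hinj, hequiv⟩ := h38e_embed_abs h2 hV₁ ρ₁ hirr₁ complexConjugation hcc hdetc
    (h38eSig p M V₁ hE.tors hE.gal) (fun g => h38e_quad W p M V₁ S hΔ hE g)
  refine ⟨V₁.subtype.comp φ'.toAddMonoidHom, ?_, ?_, ?_⟩
  · exact Subtype.val_injective.comp hinj
  · intro σ P
    show ((φ' (σ • P) : V₁) : JZero M) = σ • ((φ' P : V₁) : JZero M)
    have h : φ' (σ • P) = h38eSig p M V₁ hE.tors hE.gal σ (φ' P) := hequiv σ P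
    rw [h]
    rfl
  · intro P
    exact (φ' P).2

end Final

end Fermat.Agent.P7
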