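import Mathlib

/-!
# Wave 7 (S40), block (E) END-BOREL, abstract form (helper64, prefix `h64w_`)

`V` a two-dimensional vector space over a field `k`, `ρ : G →* End_k V` an IRREDUCIBLE
representation of a group `G`, `a ∈ G` with `(ρ a - 1)(ρ a - ε) = 0`, `ε ≠ 1`, `ρ a` not a scalar.
If every commutator `c = a g a⁻¹ g⁻¹` is unipotent, `(ρ c - 1) ^ 2 = 0`, we get a contradiction:

* every `g` stabilises one of the two eigenlines `L₁ = ker (ρ a - 1)`, `L₂ = ker (ρ a - ε)` of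
  `ρ a` (a fixed vector `u` of `ρ c` gives `w ≠ 0` with `ρ a (ρ g w) = ρ g (ρ a w)`; split `w`
  along `L₁ ⊕ L₂`);
* a group is not the union of two proper subgroups, so one of the two lines is `G`-stable.

Main statements: `h64w_borel` (not-scalar form) and `h64w_borel_det` (form with `det (ρ a) = ε`,
`ε ≠ 0`).  Mathlib only.
-/

set_option autoImplicit false

namespace Fermat.Agent.P7

section

variable {k : Type*} [Field k] {V : Type*} [AddCommGroup V] [Module k V]
variable {G : Type*} [Group G]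

/-- the eigenspace of `A` for the eigenvalue `c`, as a kernel. -/
def h64wEig (A : Module.End k V) (c : k) : Submodule k V :=
  LinearMap.ker (A - c • (1 : Module.End k V))

theorem h64w_mem_eig (A : Module.End k V) (c : k) (v : V) :
    v ∈ h64wEig A c ↔ A v = c • v := by
  unfold h64wEig
  rw [LinearMap.mem_ker, LinearMap.sub_apply, LinearMap.smul_apply, Module.End.one_apply,
    sub_eq_zero]

/-- `ρ g` is injective. -/
theorem h64w_rho_inj (ρ : G →* Module.End k V) (g : G) (v : V) (h : ρ g v = 0) : v = 0 := by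
  have h1 : ρ g⁻¹ (ρ g v) = v := by
    rw [← Module.End.mul_apply, ← map_mul, inv_mul_cancel, map_one, Module.End.one_apply]
  rw [← h1, h, map_zero]

/-- a submodule of dimension one stable under `ρ g` is stable under `ρ g⁻¹`. -/
theorem h64w_stable_inv (ρ : G →* Module.End k V) (L : Submodule k V)
    (hL : Module.finrank k L = 1) (g : G) (hg : ∀ x ∈ L, ρ g x ∈ L) :
    ∀ x ∈ L, ρ g⁻¹ x ∈ L := by
  obtain ⟨e, he0, he⟩ := finrank_eq_one_iff'.mp hL
  have hge := hg e e.2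
  obtain ⟨c, hc⟩ := he ⟨ρ g e, hge⟩
  have hc' : c • (e : V) = ρ g e := congrArg Subtype.val hc
  have hc0 : c ≠ 0 := by
    intro h0
    rw [h0, zero_smul] at hc'
    have := h64w_rho_inj ρ g e hc'.symm
    exact he0 (Subtype.ext this)
  have hinv : ρ g⁻¹ (e : V) = c⁻¹ • (e : V) := by
    have h1 : ρ g⁻¹ (ρ g e) = e := by
      rw [← Module.End.mul_apply, ← map_mul, inv_mul_cancel, map_one, Module.End.one_apply]
    have h2 : c • ρ g⁻¹ (e : V) = e := by
      rw [← map_smul, hc']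
      exact h1
    calc ρ g⁻¹ (e : V) = c⁻¹ • (c • ρ g⁻¹ (e : V)) := by
          rw [smul_smul, inv_mul_cancel₀ hc0, one_smul]
      _ = c⁻¹ • (e : V) := by rw [h2]
  intro x hx
  obtain ⟨d, hd⟩ := he ⟨x, hx⟩
  have hd' : d • (e : V) = x := congrArg Subtype.val hd
  rw [← hd', map_smul, hinv, smul_smul]
  exact L.smul_mem _ e.2

/-- a submodule of dimension one containing a nonzero vector `w` is stable under every
endomorphism mapping `w` into it. -/
theorem h64w_stable_of_line (L : Submodule k V) (hL : Module.finrank k L = 1)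
    (B : Module.End k V) (w : V) (hw : w ∈ L) (hw0 : w ≠ 0) (hBw : B w ∈ L) :
    ∀ x ∈ L, B x ∈ L := by
  obtain ⟨e, he0, he⟩ := finrank_eq_one_iff'.mp hL
  obtain ⟨c, hc⟩ := he ⟨w, hw⟩
  have hc' : c • (e : V) = w := congrArg Subtype.val hc
  have hc0 : c ≠ 0 := by
    intro h0
    rw [h0, zero_smul] at hc'
    exact hw0 hc'.symm
  have hBe : B (e : V) ∈ L := by
    have : B (e : V) = c⁻¹ • B w := by
      rw [← hc', map_smul, smul_smul, inv_mul_cancel₀ hc0, one_smul]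
    rw [this]
    exact L.smul_mem _ hBw
  intro x hx
  obtain ⟨d, hd⟩ := he ⟨x, hx⟩
  have hd' : d • (e : V) = x := congrArg Subtype.val hd
  rw [← hd', map_smul]
  exact L.smul_mem _ hBe

/-- **END-BOREL, abstract form.** -/
theorem h64w_borel (hV : Module.finrank k V = 2) (ρ : G →* Module.End k V)
    (hirr : ∀ N : Submodule k V, (∀ g, ∀ x ∈ N, ρ g x ∈ N) → N = ⊥ ∨ N = ⊤)
    (a : G) (ε : k) (hε : ε ≠ 1)
    (ha : ∀ v, ρ a (ρ a v) - (1 + ε) • ρ a v + ε • v = 0)
    (hns1 : ∃ v, ρ a v ≠ v) (hnsε : ∃ v, ρ a v ≠ ε • v)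
    (hc : ∀ g v, ρ (a * g * a⁻¹ * g⁻¹) (ρ (a * g * a⁻¹ * g⁻¹) v)
      - (2 : k) • ρ (a * g * a⁻¹ * g⁻¹) v + v = 0) : False := by
  have hfin : Module.Finite k V := Module.finite_of_finrank_eq_succ hV
  set A : Module.End k V := ρ a with hA
  set L₁ : Submodule k V := h64wEig A 1 with hL₁
  set L₂ : Submodule k V := h64wEig A ε with hL₂
  have hm1 : ∀ v, v ∈ L₁ ↔ A v = v := fun v => by
    rw [hL₁, h64w_mem_eig, one_smul]
  have hm2 : ∀ v, v ∈ L₂ ↔ A v = ε • v := fun v => by rw [hL₂, h64w_mem_eig]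
  have h1ε : (1 : k) - ε ≠ 0 := sub_ne_zero.mpr (Ne.symm hε)
  -- (1) the intersection is trivial
  have hinf : ∀ v, v ∈ L₁ → v ∈ L₂ → v = 0 := by
    intro v h1 h2
    have h3 : (1 - ε) • v = 0 := by
      rw [sub_smul, one_smul, ← (hm2 v).mp h2, (hm1 v).mp h1, sub_self]
    rcases smul_eq_zero.mp h3 with h | h
    · exact absurd h h1ε
    · exact h
  -- (2) the two projections
  have hp1 : ∀ v, A v - ε • v ∈ L₁ := by
    intro v
    rw [hm1, map_sub, map_smul]
    have h := ha v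
    rw [add_smul, one_smul] at h
    have e : A (A v) - ε • A v - (A v - ε • v) = A (A v) - (A v + ε • A v) + ε • v := by abel
    rw [← sub_eq_zero, e, h]
  have hp2 : ∀ v, A v - v ∈ L₂ := by
    intro v
    rw [hm2, map_sub, smul_sub]
    have h := ha v
    rw [add_smul, one_smul] at h
    have e : A (A v) - A v - (ε • A v - ε • v) = A (A v) - (A v + ε • A v) + ε • v := by abel
    rw [← sub_eq_zero, e, h]
  -- (3) both are nonzero
  have hne1 : L₁ ≠ ⊥ := by
    obtain ⟨v, hv⟩ := hnsε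
    intro h
    have := hp1 v
    rw [h, Submodule.mem_bot] at this
    exact hv (sub_eq_zero.mp this)
  have hne2 : L₂ ≠ ⊥ := by
    obtain ⟨v, hv⟩ := hns1
    intro h
    have := hp2 v
    rw [h, Submodule.mem_bot] at this
    exact hv (sub_eq_zero.mp this)
  -- (4) the sum is everything
  have hsup : L₁ ⊔ L₂ = ⊤ := by
    rw [eq_top_iff]
    intro v _
    have hv : v = (1 - ε)⁻¹ • (A v - ε • v) + (-(1 - ε)⁻¹) • (A v - v) := by
      have : (1 - ε)⁻¹ • (A v - ε • v) + (-(1 - ε)⁻¹) • (A v - v)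
          = ((1 - ε)⁻¹ * (1 - ε)) • v := by
        rw [smul_sub, smul_sub, neg_smul, neg_smul, mul_sub, sub_smul, mul_one, smul_smul]
        abel
      rw [this, inv_mul_cancel₀ h1ε, one_smul]
    rw [hv]
    exact Submodule.add_mem_sup (L₁.smul_mem _ (hp1 v)) (L₂.smul_mem _ (hp2 v))
  have hbot : L₁ ⊓ L₂ = ⊥ := by
    rw [eq_bot_iff]
    intro v hv
    rw [Submodule.mem_bot]
    exact hinf v hv.1 hv.2
  -- (5) both are lines
  have hdim : Module.finrank k L₁ + Module.finrank k L₂ = 2 := by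
    have := Submodule.finrank_sup_add_finrank_inf_eq L₁ L₂
    rw [hsup, hbot, finrank_top, hV, finrank_bot, add_zero] at this
    exact this.symm
  have hpos1 : 0 < Module.finrank k L₁ := by
    rw [Module.finrank_pos_iff_exists_ne_zero]
    obtain ⟨x, hx, hx0⟩ := (Submodule.ne_bot_iff _).mp hne1
    exact ⟨⟨x, hx⟩, fun h => hx0 (congrArg Subtype.val h)⟩
  have hpos2 : 0 < Module.finrank k L₂ := by
    rw [Module.finrank_pos_iff_exists_ne_zero]
    obtain ⟨x, hx, hx0⟩ := (Submodule.ne_bot_iff _).mp hne2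
    exact ⟨⟨x, hx⟩, fun h => hx0 (congrArg Subtype.val h)⟩
  have hd1 : Module.finrank k L₁ = 1 := by omega
  have hd2 : Module.finrank k L₂ = 1 := by omega
  -- (6) every `g` stabilises one of the lines
  have hV0 : ∃ v : V, v ≠ 0 := by
    obtain ⟨x, _, hx0⟩ := (Submodule.ne_bot_iff _).mp hne1
    exact ⟨x, hx0⟩
  have hstab : ∀ g : G, (∀ x ∈ L₁, ρ g x ∈ L₁) ∨ (∀ x ∈ L₂, ρ g x ∈ L₂) := by
    intro g
    set C : Module.End k V := ρ (a * g * a⁻¹ * g⁻¹) with hC
    -- a nonzero fixed vector of `C`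
    obtain ⟨u, hu0, hCu⟩ : ∃ u : V, u ≠ 0 ∧ C u = u := by
      obtain ⟨v, hv0⟩ := hV0
      by_cases h : C v = v
      · exact ⟨v, hv0, h⟩
      · refine ⟨C v - v, sub_ne_zero.mpr h, ?_⟩
        have := hc g v
        rw [map_sub]
        have h2 : (2 : k) • C v = C v + C v := two_smul k (C v)
        rw [h2] at this
        have h3 : C (C v) - C v = C v - v := by
          have h4 : C (C v) - (C v + C v) + v = 0 := this
          have h5 : C (C v) - C v - (C v - v) = C (C v) - (C v + C v) + v := by abel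
          rw [← sub_eq_zero, h5, h4]
        exact h3
    -- `w` with `A (ρ g w) = ρ g (A w)`
    set w : V := ρ (a⁻¹ * g⁻¹) u with hw
    have hw0 : w ≠ 0 := by
      intro h
      exact hu0 (h64w_rho_inj ρ (a⁻¹ * g⁻¹) u h)
    have hcomm : A (ρ g w) = ρ g (A w) := by
      have e1 : A (ρ g w) = u := by
        have h : ρ (a * g * (a⁻¹ * g⁻¹)) u = ρ a (ρ g (ρ (a⁻¹ * g⁻¹) u)) := by
          rw [map_mul, map_mul, Module.End.mul_apply, Module.End.mul_apply]
        have h' : a * g * (a⁻¹ * g⁻¹) = a * g * a⁻¹ * g⁻¹ := by group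
        rw [hw, hA, ← h, h']
        exact hCu
      have e2 : ρ g (A w) = u := by
        have h : ρ (g * a * (a⁻¹ * g⁻¹)) u = ρ g (ρ a (ρ (a⁻¹ * g⁻¹) u)) := by
          rw [map_mul, map_mul, Module.End.mul_apply, Module.End.mul_apply]
        have h' : g * a * (a⁻¹ * g⁻¹) = 1 := by group
        rw [hw, hA, ← h, h', map_one, Module.End.one_apply]
      rw [e1, e2]
    -- split `w`
    obtain ⟨w₁, hw₁L, w₂, hw₂L, hsum⟩ : ∃ w₁ ∈ L₁, ∃ w₂ ∈ L₂, w = w₁ + w₂ := by
      refine ⟨(1 - ε)⁻¹ • (A w - ε • w), L₁.smul_mem _ (hp1 w),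
        (-(1 - ε)⁻¹) • (A w - w), L₂.smul_mem _ (hp2 w), ?_⟩
      have : (1 - ε)⁻¹ • (A w - ε • w) + (-(1 - ε)⁻¹) • (A w - w)
          = ((1 - ε)⁻¹ * (1 - ε)) • w := by
        rw [smul_sub, smul_sub, neg_smul, neg_smul, mul_sub, sub_smul, mul_one, smul_smul]
        abel
      rw [this, inv_mul_cancel₀ h1ε, one_smul]
    have hAw : A w = w₁ + ε • w₂ := by
      rw [hsum, map_add, (hm1 w₁).mp hw₁L, (hm2 w₂).mp hw₂L]
    -- the key identity `(A - 1)(ρ g w₁) + (A - ε)(ρ g w₂) = 0`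
    have hkey : (A (ρ g w₁) - ρ g w₁) + (A (ρ g w₂) - ε • ρ g w₂) = 0 := by
      have h1 : A (ρ g w) = A (ρ g w₁) + A (ρ g w₂) := by
        rw [hsum, map_add, map_add]
      have h2 : ρ g (A w) = ρ g w₁ + ε • ρ g w₂ := by
        rw [hAw, map_add, map_smul]
      have h3 := hcomm
      rw [h1, h2] at h3
      have : (A (ρ g w₁) - ρ g w₁) + (A (ρ g w₂) - ε • ρ g w₂)
          = (A (ρ g w₁) + A (ρ g w₂)) - (ρ g w₁ + ε • ρ g w₂) := by abel
      rw [this, h3, sub_self]
    have hx2 : A (ρ g w₁) - ρ g w₁ ∈ L₂ := hp2 _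
    have hx1 : A (ρ g w₂) - ε • ρ g w₂ ∈ L₁ := hp1 _
    have hz1 : A (ρ g w₁) - ρ g w₁ = 0 := by
      apply hinf _ _ hx2
      have : A (ρ g w₁) - ρ g w₁ = -(A (ρ g w₂) - ε • ρ g w₂) := eq_neg_of_add_eq_zero_left hkey
      rw [this]
      exact L₁.neg_mem hx1
    have hz2 : A (ρ g w₂) - ε • ρ g w₂ = 0 := by
      rw [hz1, zero_add] at hkey
      exact hkey
    have hg1 : ρ g w₁ ∈ L₁ := (hm1 _).mpr (sub_eq_zero.mp hz1)
    have hg2 : ρ g w₂ ∈ L₂ := (hm2 _).mpr (sub_eq_zero.mp hz2)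
    by_cases h10 : w₁ = 0
    · have h20 : w₂ ≠ 0 := by
        intro h
        apply hw0
        rw [hsum, h10, h, add_zero]
      exact Or.inr (h64w_stable_of_line L₂ hd2 (ρ g) w₂ hw₂L h20 hg2)
    · exact Or.inl (h64w_stable_of_line L₁ hd1 (ρ g) w₁ hw₁L h10 hg1)
  -- (7) one of the lines is stable under the whole group
  have hall : (∀ g : G, ∀ x ∈ L₁, ρ g x ∈ L₁) ∨ (∀ g : G, ∀ x ∈ L₂, ρ g x ∈ L₂) := by
    by_contra hcon
    rw [not_or] at hcon
    obtain ⟨h1, h2⟩ := hcon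
    obtain ⟨g₁, hg₁⟩ := not_forall.mp h1
    obtain ⟨g₂, hg₂⟩ := not_forall.mp h2
    have hg₁' : ∀ x ∈ L₂, ρ g₁ x ∈ L₂ := (hstab g₁).resolve_left hg₁
    have hg₂' : ∀ x ∈ L₁, ρ g₂ x ∈ L₁ := (hstab g₂).resolve_right hg₂
    rcases hstab (g₁ * g₂) with h | h
    · -- `g₁ = (g₁ g₂) g₂⁻¹` stabilises `L₁`
      apply hg₁
      intro x hx
      have hinv := h64w_stable_inv ρ L₁ hd1 g₂ hg₂' x hx
      have := h _ hinv
      rw [← Module.End.mul_apply, ← map_mul, mul_assoc, mul_inv_cancel, mul_one] at this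
      exact this
    · -- `g₂ = g₁⁻¹ (g₁ g₂)` stabilises `L₂`
      apply hg₂
      intro x hx
      have h3 := h x hx
      have hinv := h64w_stable_inv ρ L₂ hd2 g₁ hg₁' _ h3
      rw [← Module.End.mul_apply, ← map_mul, ← mul_assoc, inv_mul_cancel, one_mul] at hinv
      exact hinv
  -- (8) contradiction with irreducibility
  rcases hall with h | h
  · rcases hirr L₁ h with h0 | h0
    · exact hne1 h0
    · apply hne2
      rw [← hbot, h0, top_inf_eq]
  · rcases hirr L₂ h with h0 | h0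
    · exact hne2 h0
    · apply hne1
      rw [← hbot, h0, inf_top_eq]

/-- **END-BOREL, determinant form**: `det (ρ a) = ε`, `ε ≠ 0, 1` replaces "not a scalar". -/
theorem h64w_borel_det (hV : Module.finrank k V = 2) (ρ : G →* Module.End k V)
    (hirr : ∀ N : Submodule k V, (∀ g, ∀ x ∈ N, ρ g x ∈ N) → N = ⊥ ∨ N = ⊤)
    (a : G) (ε : k) (hε0 : ε ≠ 0) (hε : ε ≠ 1)
    (ha : ∀ v, ρ a (ρ a v) - (1 + ε) • ρ a v + ε • v = 0)
    (hdet : LinearMap.det (ρ a) = ε)
    (hc : ∀ g v, ρ (a * g * a⁻¹ * g⁻¹) (ρ (a * g * a⁻¹ * g⁻¹) v)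
      - (2 : k) • ρ (a * g * a⁻¹ * g⁻¹) v + v = 0) : False := by
  refine h64w_borel hV ρ hirr a ε hε ha ?_ ?_ hc
  · -- `ρ a ≠ 1`
    by_contra hcon
    have h1 : ρ a = LinearMap.id := by
      ext v
      by_contra hv
      exact hcon ⟨v, hv⟩
    rw [h1, LinearMap.det_id] at hdet
    exact hε hdet.symm
  · -- `ρ a ≠ ε`
    by_contra hcon
    have h1 : ρ a = ε • (LinearMap.id : V →ₗ[k] V) := by
      ext v
      by_contra hv
      exact hcon ⟨v, by simpa using hv⟩
    rw [h1, LinearMap.det_smul, LinearMap.det_id, hV, mul_one] at hdet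
    have : ε * (ε - 1) = 0 := by
      have : ε ^ 2 - ε = 0 := sub_eq_zero.mpr hdet
      linear_combination this
    rcases mul_eq_zero.mp this with h | h
    · exact hε0 h
    · exact hε (sub_eq_zero.mp h)

end

end Fermat.Agent.P7
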