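import Fermat.Agent.P7.H99W7Iface
import Fermat.Agent.P7.H64Borel
import Fermat.Agent.EFrob.DetCyc

/-!
# Wave 7 (S40), block (E) END-BOREL: the EXACT frozen Prop `H99wBorel` (helper64, prefix `h64w_`)

`h64w_borelFrozen : H99wBorel`, unconditional.

`W` an integral Weierstrass curve with `Δ ≠ 0`, `p` an odd prime, `W[p]` irreducible.  There is
no `a ∈ G_ℚ`, acting on `μ_p` by the exponent `e ≢ 1` modulo `p`, with `(a - 1)(a - e) = 0` on
`W[p]`, all of whose commutators `a g a⁻¹ g⁻¹` are unipotent on `W[p]`.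

Proof: `det (a | W[p]) = e` (the determinant is cyclotomic, `EFrob.galoisDet_eq_of_zeta`), and
`e ≢ 0` modulo `p` (an automorphism does not kill a primitive root of unity), so `a` is not a
scalar; conclude by the abstract statement `h64w_borel_det` (`P7/H64Borel.lean`).
-/

set_option autoImplicit false
set_option linter.unusedSectionVars false
set_option linter.style.haveILetI false

open WeierstrassCurve WeierstrassCurve.Affine WeierstrassCurve.Affine.Point

noncomputable section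

namespace Fermat.Agent.P7

open Fermat.Agent.S37

/-- an exponent of an automorphism on `μ_p` is prime to `p`. -/
theorem h64w_exponent_ne_zero {p : ℕ} (hp : p.Prime) (a : GQ) (e : ℕ) {ζ : Kbar}
    (hζ : IsPrimitiveRoot ζ p) (he : a ζ = ζ ^ e) : ((e : ℕ) : ZMod p) ≠ 0 := by
  intro h0
  have hdvd : p ∣ e := (ZMod.natCast_eq_zero_iff e p).mp h0
  have h1 : ζ ^ e = 1 := (hζ.pow_eq_one_iff_dvd e).mpr hdvd
  rw [h1] at he
  have h2 : ζ = 1 := by
    have h3 : a ζ = a 1 := by rw [he, map_one]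
    exact a.injective h3
  have h4 : p = 1 := by
    have := hζ.unique (h2 ▸ IsPrimitiveRoot.one)
    exact this
  exact hp.one_lt.ne' h4

/-- **(E) END-BOREL**, the exact frozen Prop of `P7/H99W7Iface.lean`. -/
theorem h64w_borelFrozen : H99wBorel := by
  intro W hΔ p hp _hp2 hirr a e hmu hne ha hc
  have hpF : Fact p.Prime := ⟨hp⟩
  have hpN : NeZero p := ⟨hp.ne_zero⟩
  have hpK : NeZero (p : Kbar) := ⟨Nat.cast_ne_zero.mpr hp.ne_zero⟩
  obtain ⟨ζ, hζ⟩ := HasEnoughRootsOfUnity.exists_primitiveRoot Kbar p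
  have hζe : a ζ = ζ ^ e := hmu ζ hζ.pow_eq_one
  have hΔ' : (W.map (Int.castRingHom ℚ)).Δ ≠ 0 := by
    rw [WeierstrassCurve.map_Δ]
    simpa using hΔ
  have hV : Module.finrank (ZMod p) (H99wTors W p) = 2 :=
    Fermat.Agent.Tors.finrank_torsionBy_qbar (W.map (Int.castRingHom ℚ)) hΔ' p
  have he0 : ((e : ℕ) : ZMod p) ≠ 0 := h64w_exponent_ne_zero hp a e hζ hζe
  have he1 : ((e : ℕ) : ZMod p) ≠ 1 := by
    intro h
    apply hne
    have h3 : (((e : ℤ) - 1 : ℤ) : ZMod p) = 0 := by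
      push_cast
      rw [h, sub_self]
    exact (ZMod.intCast_zmod_eq_zero_iff_dvd _ p).mp h3
  have hdet := Fermat.Agent.EFrob.galoisDet_eq_of_zeta W hΔ hp hζ a e hζe
  have hsmZ : ∀ (n : ℤ) (P : H99wTors W p), ((n : ℤ) : ZMod p) • P = n • P := fun n P =>
    Int.cast_smul_eq_zsmul (ZMod p) n P
  have hsmN : ∀ (n : ℕ) (P : H99wTors W p), ((n : ℕ) : ZMod p) • P = n • P := fun n P =>
    Nat.cast_smul_eq_nsmul (ZMod p) n P
  refine h64w_borel_det hV
    (galoisRepModuleEnd (K := Kbar) ℚ (W.map (Int.castRingHom ℚ)).toAffine p)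
    (fun N hN => hirr.2 N (fun σ x hx => hN σ x hx)) a ((e : ℕ) : ZMod p) he0 he1 ?_ hdet ?_
  · intro P
    have h := ha P
    simp only [galoisRepModuleEnd_apply]
    have e1 : (1 + ((e : ℕ) : ZMod p)) = ((((1 : ℤ) + (e : ℤ) : ℤ)) : ZMod p) := by
      push_cast
      rfl
    rw [e1, hsmZ, hsmN]
    exact h
  · intro g P
    have h := hc g P
    simp only [galoisRepModuleEnd_apply]
    have e2 : (2 : ZMod p) = (((2 : ℤ)) : ZMod p) := by
      push_cast
      rfl
    rw [e2, hsmZ]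
    exact h

end Fermat.Agent.P7
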