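import Fermat.Agent.EFrob.NonEis
import Fermat.Prelude.Def_FLTPrelim_Modularity

/-!
# Wave 7 (S44): irreducibility passes to integral models (helper99)

`h99i_irr_of_model` : if `E / ℚ` (`Δ ≠ 0`) has an irreducible mod-`p` representation and `W / ℤ`
is an integral model of `E` (`C • E = W_ℚ` for a variable change `C` over `ℚ`), then
`W.ModRepIsIrreducible p`; `h99i_delta_ne_zero` : `W.Δ ≠ 0`.

Proof: the variable change induces an injective, Galois-equivariant additive map
`(C • E)[p] → E[p]` (`S05.vcPointBC`), bijective because both sides have `p²` elements.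
-/

set_option autoImplicit false
set_option linter.unusedSectionVars false
set_option linter.style.haveILetI false

open WeierstrassCurve WeierstrassCurve.Affine WeierstrassCurve.Affine.Point

noncomputable section

namespace Fermat.Agent.P7

local notation "Qbar" => AlgebraicClosure ℚ
local notation "Γℚ" => (AlgebraicClosure ℚ ≃ₐ[ℚ] AlgebraicClosure ℚ)

/-- the map `(C • E)[n] → E[n]` induced by a variable change over `ℚ`. -/
def h99iPsi (E : WeierstrassCurve ℚ) (C : VariableChange ℚ) (n : ℕ) :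
    Submodule.torsionBy ℤ ((C • E)⁄Qbar).Point n →+ Submodule.torsionBy ℤ (E⁄Qbar).Point n where
  toFun Q := ⟨Fermat.Agent.S05.vcPointBC E C (Q : ((C • E)⁄Qbar).Point), by
    rw [Submodule.mem_torsionBy_iff, ← map_zsmul, (Submodule.mem_torsionBy_iff _ _).1 Q.2,
      _root_.map_zero]⟩
  map_zero' := Subtype.ext (_root_.map_zero (Fermat.Agent.S05.vcPointBC (K := Qbar) E C))
  map_add' P Q := Subtype.ext (_root_.map_add (Fermat.Agent.S05.vcPointBC (K := Qbar) E C) _ _)

theorem h99i_psi_injective (E : WeierstrassCurve ℚ) (C : VariableChange ℚ) (n : ℕ) :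
    Function.Injective (h99iPsi E C n) := by
  intro P Q h
  apply Subtype.ext
  apply Fermat.Agent.S05.vcPointBC_injective E C
  exact congrArg Subtype.val h

theorem h99i_psi_smul (E : WeierstrassCurve ℚ) (C : VariableChange ℚ) (n : ℕ) (τ : Γℚ)
    (Q : Submodule.torsionBy ℤ ((C • E)⁄Qbar).Point n) :
    h99iPsi E C n (τ • Q) = τ • h99iPsi E C n Q := by
  apply Subtype.ext
  change Fermat.Agent.S05.vcPointBC E C (τ • (Q : ((C • E)⁄Qbar).Point)) =
    τ • Fermat.Agent.S05.vcPointBC E C (Q : ((C • E)⁄Qbar).Point)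
  rw [algEquiv_smul_def, Fermat.Agent.S05.vcPointBC_map, ← algEquiv_smul_def]

/-- irreducibility is invariant under a variable change over `ℚ`. -/
theorem h99i_irr_variableChange (E : WeierstrassCurve ℚ) (hΔ : E.Δ ≠ 0) (C : VariableChange ℚ)
    {p : ℕ} (hp : p.Prime) (hirr : GaloisRepIsIrreducible (K := Qbar) ℚ E p) :
    GaloisRepIsIrreducible (K := Qbar) ℚ (C • E) p := by
  classical
  haveI : Fact p.Prime := ⟨hp⟩
  have hΔ' : (C • E).Δ ≠ 0 := by
    rw [WeierstrassCurve.variableChange_Δ]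
    exact mul_ne_zero (pow_ne_zero _ (Units.ne_zero _)) hΔ
  refine ⟨Fermat.Agent.Tors.nontrivial_torsionBy_qbar (C • E) hΔ' p hp.two_le, fun N hN => ?_⟩
  haveI := Fermat.Agent.Tors.finite_torsionBy_qbar E hΔ p hp.ne_zero
  haveI := Fermat.Agent.Tors.finite_torsionBy_qbar (C • E) hΔ' p hp.ne_zero
  have hbij : Function.Bijective (h99iPsi E C p) :=
    (h99i_psi_injective E C p).bijective_of_nat_card_le (by
      rw [Fermat.Agent.Tors.card_torsionBy_qbar E hΔ p hp.ne_zero,
        Fermat.Agent.Tors.card_torsionBy_qbar (C • E) hΔ' p hp.ne_zero])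
  let ψ : Submodule.torsionBy ℤ ((C • E)⁄Qbar).Point p →ₗ[ZMod p]
      Submodule.torsionBy ℤ (E⁄Qbar).Point p := (h99iPsi E C p).toZModLinearMap p
  have hψ : ∀ Q, ψ Q = h99iPsi E C p Q := fun Q => rfl
  have hst : IsGaloisStable ℚ (N.map ψ) := by
    rintro σ y ⟨x, hx, rfl⟩
    exact ⟨σ • x, hN σ x hx, by rw [hψ, hψ, h99i_psi_smul]⟩
  rcases hirr.2 (N.map ψ) hst with h | h
  · left
    rw [eq_bot_iff]
    intro x hx
    have h1 : ψ x ∈ N.map ψ := ⟨x, hx, rfl⟩
    rw [h, Submodule.mem_bot] at h1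
    rw [Submodule.mem_bot]
    apply hbij.1
    rw [_root_.map_zero]
    exact h1
  · right
    rw [eq_top_iff]
    intro x _
    have h1 : ψ x ∈ N.map ψ := by
      rw [h]
      exact Submodule.mem_top
    obtain ⟨x', hx', e⟩ := h1
    have : x' = x := hbij.1 e
    rw [← this]
    exact hx'

/-- an integral model of a curve with `Δ ≠ 0` has `Δ ≠ 0`. -/
theorem h99i_delta_ne_zero (E : WeierstrassCurve ℚ) (hΔ : E.Δ ≠ 0) {W : WeierstrassCurve ℤ}
    (hW : W.IsIntegralModelOf E) : W.Δ ≠ 0 := by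
  obtain ⟨C, hC⟩ := hW
  have hΔ' : (W.map (Int.castRingHom ℚ)).Δ ≠ 0 := by
    rw [← hC, WeierstrassCurve.variableChange_Δ]
    exact mul_ne_zero (pow_ne_zero _ (Units.ne_zero _)) hΔ
  intro h
  apply hΔ'
  rw [WeierstrassCurve.map_Δ, h, _root_.map_zero]

/-- irreducibility passes to integral models. -/
theorem h99i_irr_of_model (E : WeierstrassCurve ℚ) (hΔ : E.Δ ≠ 0) {W : WeierstrassCurve ℤ}
    (hW : W.IsIntegralModelOf E) {p : ℕ} (hp : p.Prime)
    (hirr : GaloisRepIsIrreducible (K := Qbar) ℚ E p) : W.ModRepIsIrreducible p := by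
  obtain ⟨C, hC⟩ := hW
  have h := h99i_irr_variableChange E hΔ C hp hirr
  unfold WeierstrassCurve.ModRepIsIrreducible
  rw [← hC]
  exact h

end Fermat.Agent.P7
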