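import Fermat.Agent.P7.H99W7Iface2
import Fermat.Agent.P7.H17Glue0
import Fermat.Agent.P7.H17Up
import Fermat.Agent.P7.H38EmbedQuad
import Fermat.Agent.P6.H66TwGateOdd
import Fermat.Agent.P7.H47LocalFinal
import Fermat.Agent.P7.H64BorelW
import Fermat.Agent.EFrob.NonEis
import Fermat.Agent.P6.H23DetUnit
import Fermat.Agent.Red.HKComm.Main
import Fermat.Agent.P7.H99IrrModel
import Fermat.Agent.S13.FreyInt
import Fermat.Prelude.Def_FreyPackage_IsConductorLevel

/-!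
# Wave 7 (S40, Mazur–Ribet at `p`, good reduction): the top (architect helper99)

* `h99w_topGen` : generic top: `H99wToricAt p` + `H99wLocalAt W p` ⟹ level lowering at `p` for `W`.
* `h99w_top : H99wToric → (the statement S40)`.
* `h99w_s44` : `(∀ p ≥ 5, H99wToricAt p)` + LOCAL-MULT (peu ramifié for the integral models of the
  Frey curve at `p ∣ abc`) ⟹ (the statement S44).

Everything except the crux `H99wToric` (frozen in `P7/H99W7Iface.lean`) is landed
unconditionally; the proof below is the wiring, by contradiction: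

* `h17u_new_core` (helper17) : `W` residually modular of level `M' p` but not of level `M'` gives
  a nonzero Galois-stable `p`-new subgroup `V₀ ≤ J₀(M' p)[p]` of eigenvectors for `a_ℓ(W)`;
* `h38e_embed` (helper38) : `W[p]` embeds Galois-equivariantly into `V₀`;
* `h66z_newStar` (P6) : `(a - 1)(a - ε(a)) = 0` on the new classes for `a` in the inertia at `p`,
  hence on `W[p]`;
* `h47l_local` (helper47/helper24) : `W[p]` is peu ramifié;
* `h17g_glue0` (helper17) : a Hecke polynomial killing `S₂(Γ₀(M'))`, a unit at the eigensystem;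
* `H99wToric` : the inertia acts on the image of `W[p]` through the cyclotomic character;
* `h64w_borelFrozen` (helper64) : contradiction with the irreducibility of `W[p]`.
-/

set_option autoImplicit false
set_option linter.unusedSectionVars false
set_option linter.style.haveILetI false

open AlgebraicCurve ModularCurve WeierstrassCurve WeierstrassCurve.Affine

noncomputable section

namespace Fermat.Agent.P7

open Fermat.Agent.S37 Fermat.Agent.S35
open Fermat.Agent.S30 (heckeTAll)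

/-- a Hecke polynomial in the variables of `G` acts on a common eigenvector of the `T_ℓ`,
`ℓ ∈ G`, through its value at the eigensystem. -/
theorem h99w_smul_eigen (N : ℕ) [NeZero N] (a : Nat.Primes → ℤ) (x : JZero N)
    (G : Set Nat.Primes) (hx : ∀ ℓ ∈ G, heckeOperatorBar N ℓ x = a ℓ • x)
    (P : MvPolynomial Nat.Primes ℤ) (hP : P ∈ MvPolynomial.supported ℤ G) :
    (letI := heckeModuleBar N; P • x) = MvPolynomial.eval a P • x := by
  letI := heckeModuleBar N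
  have hc : HeckeOperatorsCommuteBar N := Fermat.Agent.Red.HKComm.heckeOperatorsCommuteBar N
  have key : ∀ Q ∈ Algebra.adjoin ℤ (MvPolynomial.X '' G : Set (MvPolynomial Nat.Primes ℤ)),
      Q • x = MvPolynomial.eval a Q • x := by
    intro Q hQ
    induction hQ using Algebra.adjoin_induction with
    | mem y hy =>
      obtain ⟨ℓ, hℓ, rfl⟩ := hy
      rw [MvPolynomial.eval_X]
      exact (heckeModuleBar_heckeGen_smul hc ℓ x).trans (hx ℓ hℓ)
    | algebraMap r =>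
      rw [MvPolynomial.algebraMap_eq, MvPolynomial.eval_C]
      exact heckeModuleBar_C_smul r x
    | add y z _ _ hy hz =>
      rw [add_smul, hy, hz, map_add, add_zsmul]
    | mul y z _ _ hy hz =>
      rw [mul_smul, hz, h17n_smul_zsmul, hy, map_mul, mul_comm, mul_zsmul]
  exact key P hP

/-- an automorphism raising one primitive `p`-th root of unity to the power `e` raises every
`p`-th root of unity to the power `e`. -/
theorem h99w_exp_of_prim {p : ℕ} (hp : 0 < p) (a : GQ) (e : ℕ) {ζ : Kbar}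
    (hζ : IsPrimitiveRoot ζ p) (he : a ζ = ζ ^ e) (μ : Kbar) (hμ : μ ^ p = 1) :
    a μ = μ ^ e := by
  haveI : NeZero p := ⟨hp.ne'⟩
  obtain ⟨i, -, rfl⟩ := hζ.eq_pow_of_pow_eq_one hμ
  rw [map_pow, he, ← pow_mul, ← pow_mul, mul_comm]

/-- **the generic top of wave 7**: the crux at `p` (`H99wToricAt p`) and the local input for the
curve (`H99wLocalAt W p`, peu ramifié) imply that the level of a residually modular `W` with
`W[p]` irreducible can be lowered at `p ∥ M`. -/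
theorem h99w_topGen (W : WeierstrassCurve ℤ) (hΔ : W.Δ ≠ 0) {p : ℕ}
    (hp : p.Prime) (hp2 : p ≠ 2) (hT : H99wToricAt p) (hL : H99wLocalAt W p)
    (hirr : W.ModRepIsIrreducible p) {M : ℕ} (hM : 0 < M) (hpM : p ∣ M)
    (hp2M : ¬ p ^ 2 ∣ M) (hmod : W.IsResiduallyModularOfLevel p M) :
    W.IsResiduallyModularOfLevel p (M / p) := by
  classical
  by_contra hnot
  obtain ⟨M', rfl⟩ := hpM
  have hM'0 : 0 < M' := by
    rcases Nat.eq_zero_or_pos M' with h | h
    · rw [h, mul_zero] at hM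
      exact absurd hM (lt_irrefl 0)
    · exact h
  rw [Nat.mul_div_cancel_left M' hp.pos] at hnot
  have hpM' : ¬ p ∣ M' := fun h => hp2M (by
    rw [pow_two]
    exact Nat.mul_dvd_mul_left p h)
  rw [mul_comm] at hmod
  haveI : NeZero M' := ⟨hM'0.ne'⟩
  haveI : NeZero p := ⟨hp.ne_zero⟩
  haveI : NeZero (M' * p) := ⟨(Nat.mul_pos hM'0 hp.pos).ne'⟩
  haveI : Fact p.Prime := ⟨hp⟩
  -- the new eigenspace and the embedding of `W[p]`
  obtain ⟨V₀, ⟨v, hv, hv0⟩, hgal, htors, heig, hnew⟩ := h17u_new_core W hp M' hΔ hmod hnot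
  have hV₀ : V₀ ≠ ⊥ := by
    intro h
    rw [h, AddSubgroup.mem_bot] at hv
    exact hv0 hv
  have hE : H38eEig W p (M' * p) V₀ (h17gS W p (M' * p)) :=
    ⟨fun σ x hx => hgal σ x hx, htors, fun ℓ hℓ x hx => heig x hx ℓ hℓ⟩
  obtain ⟨φ, hinj, hequiv, hmem⟩ :=
    h38e_embed W hΔ hp hp2 hirr (M' * p) (h17gS W p (M' * p)) V₀ hV₀ hE
  -- a place over `p`
  obtain ⟨A, hA⟩ := Fermat.Agent.S54.exists_liesOverPrime hp
  -- STAR on `W[p]`
  have hstar : ∀ a ∈ A.inertiaSubgroupIn ℚ, ∀ e : ℕ, (∀ μ : Kbar, μ ^ p = 1 → a μ = μ ^ e) →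
      ∀ P : H99wTors W p, a • a • P - ((1 : ℤ) + e) • a • P + e • P = 0 := by
    intro a ha e he P
    apply hinj
    have h := Fermat.Agent.P6.h66z_newStar hp hp2 M' hpM' A hA a ha a ha 1 e
      (fun μ hμ => he μ (by rwa [pow_one] at hμ)) (φ P)
      (by rw [pow_one]; exact htors _ (hmem P)) (hnew _ (hmem P)).1 (hnew _ (hmem P)).2
    rw [map_zero, map_add, map_sub, map_zsmul, map_nsmul, hequiv, hequiv, add_zsmul, one_zsmul,
      natCast_zsmul, ← h]
    abel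
  -- LOCAL: peu ramifié
  obtain ⟨β, hβ, hβ', hβp, hβfix⟩ := hL A hA hstar
  -- a non-Eisenstein prime
  obtain ⟨ℓ, hℓ, hℓgood, hℓS, hℓp, hℓne⟩ :=
    Fermat.Agent.EFrob.exists_good_prime_not_eisenstein' W hΔ hp hirr (h17gS W p (M' * p))
  have hℓN : ¬ ℓ ∣ M' * p :=
    ((h17g_not_mem_S_iff W hΔ (NeZero.ne (M' * p)) hℓ).mp hℓS).2.1
  -- the GLUE polynomial
  obtain ⟨e₀, he₀s, he₀k, he₀p⟩ := h17g_glue0 W hΔ p hp M' hpM' hnot
  have hcop : IsCoprime (p : ℤ)
      (MvPolynomial.eval (fun ℓ : Nat.Primes => W.apOfModel (ℓ : ℕ)) e₀) :=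
    (Nat.prime_iff_prime_int.mp hp).irreducible.coprime_iff_not_dvd.mpr he₀p
  obtain ⟨u, c, huc⟩ := hcop
  have hgoodS : ∀ ℓ' : Nat.Primes, ℓ' ∈ H99wGood W (M' * p) → (ℓ' : ℕ) ∉ h17gS W p (M' * p) := by
    intro ℓ' hℓ'
    refine (h17g_not_mem_S_iff W hΔ (NeZero.ne (M' * p)) ℓ'.2).mpr ⟨?_, hℓ'.2, hℓ'.1⟩
    intro h
    exact hℓ'.2 (h ▸ Dvd.intro_left M' rfl)
  -- TORIC on the image of `W[p]`
  have htoric : ∀ a ∈ A.inertiaSubgroupIn ℚ, ∀ e : ℕ, (∀ μ : Kbar, μ ^ p = 1 → a μ = μ ^ e) →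
      ∀ P : H99wTors W p, a • P = e • P := by
    intro a ha e he P
    apply hinj
    rw [hequiv, map_nsmul]
    refine hT hp hp2 M' hpM' A hA β hβ hβ' hβp (φ P) (htors _ (hmem P)) (hnew _ (hmem P)).1
      (hnew _ (hmem P)).2 ?_ ?_ ?_ a ha e he
    · intro b hb hbμ hbβ
      rw [← hequiv, hβfix b hb hbμ hbβ P]
    · refine ⟨⟨ℓ, hℓ⟩, hℓN, W.apOfModel ℓ, heig _ (hmem P) ⟨ℓ, hℓ⟩ hℓS, ?_⟩
      intro h
      apply hℓne
      have h2 := (dvd_neg (a := (p : ℤ))).mpr h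
      have e1 : -(((((⟨ℓ, hℓ⟩ : Nat.Primes) : ℕ) : ℤ)) + 1 - W.apOfModel ℓ) =
          W.apOfModel ℓ - ((ℓ : ℤ) + 1) := by
        ring
      rw [e1] at h2
      exact h2
    · refine ⟨MvPolynomial.C c * e₀, ?_, ?_, ?_⟩
      · intro ℓ' hℓ'
        have h1 : ℓ' ∈ e₀.vars := by
          have h2 := MvPolynomial.vars_mul (MvPolynomial.C c) e₀ hℓ'
          rw [MvPolynomial.vars_C, Finset.empty_union] at h2
          exact h2
        have h3 : ℓ' ∈ H99wGood W (M' * p) := (MvPolynomial.mem_supported.mp he₀s) h1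
        exact h3.2
      · unfold H99wKillsCusp at he₀k ⊢
        rw [map_mul, MulMemClass.coe_mul, he₀k, mul_zero]
      · letI := heckeModuleBar (M' * p)
        have h1 := h99w_smul_eigen (M' * p) (fun ℓ : Nat.Primes => W.apOfModel (ℓ : ℕ)) (φ P)
          (H99wGood W (M' * p)) (fun ℓ' hℓ' => heig _ (hmem P) ℓ' (hgoodS ℓ' hℓ')) e₀ he₀s
        rw [mul_smul, h1, heckeModuleBar_C_smul, ← mul_zsmul]
        have h2 : c * MvPolynomial.eval (fun ℓ : Nat.Primes => W.apOfModel (ℓ : ℕ)) e₀ =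
            1 - u * (p : ℤ) := by
          rw [← huc]
          ring
        have h3 : (u * (p : ℤ)) • φ P = 0 := by
          rw [mul_zsmul, natCast_zsmul, htors _ (hmem P), zsmul_zero]
        rw [h2, sub_zsmul, one_zsmul, h3]
        simp
  -- an element of the inertia squaring the `p`-th roots of unity
  obtain ⟨ζ, hζ, s₀, hs₀, hs₀ζ⟩ := Fermat.Agent.P6.h23u_exists_inertia_sq hp hp2 A hA
  have hs₀μ : ∀ μ : Kbar, μ ^ p = 1 → s₀ μ = μ ^ 2 :=
    h99w_exp_of_prim hp.pos s₀ 2 hζ hs₀ζ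
  have hsc : ∀ P : H99wTors W p, s₀ • P = 2 • P := htoric s₀ hs₀ 2 hs₀μ
  -- BOREL
  refine h64w_borelFrozen W hΔ p hp hp2 hirr s₀ 2 hs₀μ ?_ (hstar s₀ hs₀ 2 hs₀μ) ?_
  · intro h
    have h1 : ((2 : ℕ) : ℤ) - 1 = 1 := by norm_num
    rw [h1] at h
    have h2 := Int.eq_one_of_dvd_one (Int.natCast_nonneg p) h
    have h3 : p = 1 := by exact_mod_cast h2
    exact hp.one_lt.ne' h3
  · intro g P
    have hcP : ∀ Q : H99wTors W p, (s₀ * g * s₀⁻¹ * g⁻¹) • Q = Q := by
      intro Q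
      rw [mul_smul, mul_smul, mul_smul, hsc (g • s₀⁻¹ • g⁻¹ • Q)]
      have h1 : (2 : ℕ) • g • s₀⁻¹ • g⁻¹ • Q = g • ((2 : ℕ) • s₀⁻¹ • g⁻¹ • Q) :=
        (map_nsmul (DistribSMul.toAddMonoidHom (H99wTors W p) g) 2 (s₀⁻¹ • g⁻¹ • Q)).symm
      rw [h1, ← hsc (s₀⁻¹ • g⁻¹ • Q), smul_inv_smul, smul_inv_smul]
    rw [hcP, hcP, two_zsmul]
    abel

/-- **the top of wave 7 for S40**: the crux `H99wToric` implies the statement S40. -/
theorem h99w_top (hT : H99wToric) (W : WeierstrassCurve ℤ) (hΔ : W.Δ ≠ 0) {p : ℕ}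
    (hp : p.Prime) (hp2 : p ≠ 2) (hgood : W.IsGoodPrimeFor p)
    (hirr : W.ModRepIsIrreducible p) {M : ℕ} (hM : 0 < M) (hpM : p ∣ M)
    (hp2M : ¬ p ^ 2 ∣ M) (hmod : W.IsResiduallyModularOfLevel p M) :
    W.IsResiduallyModularOfLevel p (M / p) :=
  h99w_topGen W hΔ hp hp2 (h99w_toricAt_of hT p) (h99w_localAt_of_good h47l_local W hp hp2 hgood)
    hirr hM hpM hp2M hmod

/-- **the top of wave 7 for S44**: the crux at the primes `p ≥ 5` and the local input
LOCAL-MULT (the `p`-torsion of every integral model of the Frey curve is peu ramifié at `p` when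
`p ∣ a b c`) imply the statement S44. -/
theorem h99w_s44 (hT : ∀ p : ℕ, 5 ≤ p → H99wToricAt p)
    (hL : ∀ (P : FreyPackage) (W : WeierstrassCurve ℤ), W.IsIntegralModelOf P.freyCurve →
      (P.p : ℤ) ∣ P.a * P.b * P.c → H99wLocalAt W P.p)
    (P : FreyPackage) {N : ℕ} (hcond : P.IsConductorLevel N) (hpN : P.p ∣ N)
    (hirr : WeierstrassCurve.Affine.Point.GaloisRepIsIrreducible (K := AlgebraicClosure ℚ) ℚ
      P.freyCurve P.p)
    (hmod : P.ModularRepOfLevel N) :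
    ∃ M : ℕ, M ∣ N ∧ ¬ P.p ∣ M ∧ P.ModularRepOfLevel M := by
  obtain ⟨f, W, 𝔪, hf, hW, hmax, hp𝔪, hcong⟩ := hmod
  have hΔE : P.freyCurve.Δ ≠ 0 := Fermat.Agent.S13.freyCurve_Δ_ne_zero P
  have hΔ : W.Δ ≠ 0 := h99i_delta_ne_zero _ hΔE hW
  have hirrW : W.ModRepIsIrreducible P.p := h99i_irr_of_model _ hΔE hW P.pp hirr
  have hp2 : P.p ≠ 2 := by
    have := P.hp5
    omega
  have hp2N : ¬ P.p ^ 2 ∣ N := hcond.sq_not_dvd P.pp
  have hres : W.IsResiduallyModularOfLevel P.p N := ⟨f, 𝔪, hf, hmax, hp𝔪, hcong⟩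
  obtain ⟨g, 𝔫, hg, hmax', hp𝔫, hcong'⟩ := h99w_topGen W hΔ P.pp hp2 (hT P.p P.hp5)
    (hL P W hW (hcond.p_dvd_abc hpN)) hirrW hcond.pos hpN hp2N hres
  refine ⟨N / P.p, Nat.div_dvd_of_dvd hpN, fun h => hp2N ?_, g, W, 𝔫, hg, hW, hmax', hp𝔫, hcong'⟩
  obtain ⟨k, hk⟩ := h
  refine ⟨k, ?_⟩
  have h1 : N = P.p * (N / P.p) := (Nat.mul_div_cancel' hpN).symm
  rw [h1, hk, pow_two, mul_assoc]

end Fermat.Agent.P7
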