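import Fermat.Agent.P7.H12FreyBridge
import Fermat.Agent.P7.H34MultFlat
import Fermat.Agent.P7.H99W7Top
import Fermat.Agent.P7.H83NodalLift

/-!
# Wave 7 (S44): LOCAL-MULT is closed (helper12, prefix `h12u_`)

`h12u_localFrey : H77mLocalFrey` (UNCONDITIONAL): for every integral model `W` of the Frey curve
of a Frey package `P` with `p ∣ a b c`, the body of `H99wLocal` holds for `W` at `p = P.p`.

Assembly: helper83's torsion inputs on the short nodal models (`h83n_nodal_inert_int`,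
`h83n_nodal_lift_int`, valid at `ℓ = p`) + helper34's curve-generic `h34n_localAt_of_tors`
(order ⟹ flat ⟹ peu ramifié) + the Frey bridge `h12t_localFrey_of_nodalZ`.
-/

set_option autoImplicit false
set_option linter.unusedSectionVars false
set_option linter.style.haveILetI false

open WeierstrassCurve WeierstrassCurve.Affine

noncomputable section

namespace Fermat.Agent.P7

open Fermat.Agent.S37 Fermat.Agent.S05

/-- a short nodal integer model is short nodal (in the sense of `S05`) at every place over `p`. -/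
theorem h12u_isShortNodal (W : WeierstrassCurve ℤ) {p : ℕ} (hp : p.Prime)
    (A : ValuationSubring Kbar) (hA : A.LiesOverPrime p)
    (h₁ : W.a₁ = 0) (h₃ : W.a₃ = 0) (h₆ : W.a₆ = 0) (ha₂ : ¬ (p : ℤ) ∣ W.a₂)
    (π u : ℤ) (h4 : W.a₄ = u * π ^ p) (hπ : (p : ℤ) ∣ π) (hπ0 : π ≠ 0) (hu : ¬ (p : ℤ) ∣ u) :
    IsShortNodal A p (W.map (Int.castRingHom ℚ)) where
  a₁ := by simp [WeierstrassCurve.map, h₁]
  a₃ := by simp [WeierstrassCurve.map, h₃]
  a₆ := by simp [WeierstrassCurve.map, h₆]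
  a₂_unit := by
    have hAq : ((p : ℕ) : Kbar) ∈ A.nonunits := hA
    have h := intCast_isUnitOf_of_not_dvd hp hAq ha₂
    show IsUnitOf A (algebraMap ℚ Kbar ((Int.castRingHom ℚ) W.a₂))
    rw [eq_intCast, algebraMap_intCast]
    exact h
  a₄ := by
    have hAq : ((p : ℕ) : Kbar) ∈ A.nonunits := hA
    refine ⟨(π : ℚ), (u : ℚ), ?_, ?_, ?_, ?_⟩
    · show (Int.castRingHom ℚ) W.a₄ = _
      rw [h4, map_mul, map_pow, eq_intCast, eq_intCast]
    · rw [algebraMap_intCast]
      exact intCast_nonunit_of_dvd hAq hπ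
    · exact_mod_cast hπ0
    · rw [algebraMap_intCast]
      exact intCast_isUnitOf_of_not_dvd hp hAq hu

/-- **the local statement for the short nodal integer models** (UNCONDITIONAL). -/
theorem h12u_nodalZ : H12tNodalZ := by
  intro W hΔ p hp hp5 h₁ h₃ h₆ ha₂ π u h4 hπ hπ0 hu
  have hp2 : p ≠ 2 := by omega
  have hodd : Odd p := hp.odd_of_ne_two hp2
  intro A hA
  have hAq : ((p : ℕ) : Kbar) ∈ A.nonunits := hA
  have h2 : IsUnitOf A (2 : Kbar) := two_isUnitOf hp hAq hp2
  have hW := h12u_isShortNodal W hp A hA h₁ h₃ h₆ ha₂ π u h4 hπ hπ0 hu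
  have hI : H34nInertT W A (p : ℤ) := h83n_nodal_inert_int hodd h2 hW
  have hL : H34nLiftT W A (p : ℤ) := h83n_nodal_lift_int hodd h2 hW hp hA
  exact h34n_localAt_of_tors W hΔ hp hp2 A hA hI hL A hA

/-- **LOCAL-MULT** (the frozen Prop of the local leaf of S44), UNCONDITIONAL. -/
theorem h12u_localFrey : H77mLocalFrey := h12t_localFrey_of_nodalZ h12u_nodalZ

/-- **the statement S44 from the crux at `p ≥ 5` alone.** -/
theorem h12u_s44_of_toric (hT : ∀ p : ℕ, 5 ≤ p → H99wToricAt p)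
    (P : FreyPackage) {N : ℕ} (hcond : P.IsConductorLevel N) (hpN : P.p ∣ N)
    (hirr : WeierstrassCurve.Affine.Point.GaloisRepIsIrreducible (K := AlgebraicClosure ℚ) ℚ
      P.freyCurve P.p)
    (hmod : P.ModularRepOfLevel N) :
    ∃ M : ℕ, M ∣ N ∧ ¬ P.p ∣ M ∧ P.ModularRepOfLevel M :=
  h99w_s44 hT h12u_localFrey P hcond hpN hirr hmod

end Fermat.Agent.P7
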