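import Fermat.Agent.P7.H99W7Iface
import Fermat.Agent.EFrob.CongrVC
import Fermat.Agent.S13.FreyInt
import Fermat.Prelude.Def_FreyPackage_IsConductorLevel

/-!
# Wave 7, row LM-6-TOP44: the conditional top of S44 (helper41)

S44 (Frey form of Mazur–Ribet at `p`): `P` a Frey package, `N` a conductor level with `p ∣ N`,
`E[p]` irreducible, `E` residually modular of level `N`  ⟹  residually modular of some level
`M ∣ N` prime to `p`.  We take `M = N / p`.

The file isolates the two inputs in **per-curve** form: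

* `H41wPeu W p` : the conclusion of `H99wLocal` (helper99's interface) for the given integral
  Weierstrass curve `W` at `p`, with no hypothesis on the reduction type at `p`;
* `H41wTopGen` : the generic top of wave 7, with the local input `H41wPeu W p` as a hypothesis
  (this is `h99w_top` with `h47l_local W p hp hp2 hgood` replaced by a hypothesis) and `5 ≤ p`;
* `H41wLocalMult` : LOCAL-MULT, i.e. `H41wPeu W P.p` for every integral model `W` of the Frey
  curve of a Frey package `P` with `p ∣ a b c`.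

`h41w_s44_of : H41wTopGen → H41wLocalMult → (frozen statement S44)`.

Also: `h41w_irr_of_model` (transport of irreducibility to an integral model), `h41w_peu_of_local`
(`H99wLocal` gives `H41wPeu` at good primes) and `h41w_s40_of` (the same top gives S40 for
`5 ≤ p`).  Every `Prop` here is a definition; nothing is assumed.
-/

set_option autoImplicit false
set_option linter.unusedSectionVars false
set_option linter.style.haveILetI false

open AlgebraicCurve ModularCurve WeierstrassCurve WeierstrassCurve.Affine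
  WeierstrassCurve.Affine.Point

noncomputable section

namespace Fermat.Agent.P7

open Fermat.Agent.S37 Fermat.Agent.S35

/-- **per-curve peu ramifié hypothesis** = the conclusion of `H99wLocal` for the given `W`, `p`:
for every place `A` over `p` at which the inertia is elementwise ordinary on `W[p]`, there is a
unit `β` with `β ^ p ∈ Fix(I₁)` whose stabiliser in `I₁` acts trivially on `W[p]`. -/
def H41wPeu (W : WeierstrassCurve ℤ) (p : ℕ) : Prop :=
  ∀ A : ValuationSubring Kbar, A.LiesOverPrime p →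
    (∀ a ∈ A.inertiaSubgroupIn ℚ, ∀ e : ℕ, (∀ μ : Kbar, μ ^ p = 1 → a μ = μ ^ e) →
      ∀ P : H99wTors W p, a • a • P - ((1 : ℤ) + e) • a • P + e • P = 0) →
    ∃ β : Kbar, β ∈ A ∧ β⁻¹ ∈ A ∧
      (∀ a ∈ A.inertiaSubgroupIn ℚ, H99wFixMu p a → a (β ^ p) = β ^ p) ∧
      ∀ a ∈ A.inertiaSubgroupIn ℚ, H99wFixMu p a → a β = β →
        ∀ P : H99wTors W p, a • P = P

/-- `H99wLocal` is `H41wPeu` at the odd primes of good reduction. -/
theorem h41w_peu_of_local (h : H99wLocal) (W : WeierstrassCurve ℤ) {p : ℕ} (hp : p.Prime)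
    (hp2 : p ≠ 2) (hgood : W.IsGoodPrimeFor p) : H41wPeu W p :=
  fun A hA hord => h W p hp hp2 hgood A hA hord

/-- **the generic top of wave 7**: the local input is a hypothesis on the curve. -/
def H41wTopGen : Prop :=
  ∀ (W : WeierstrassCurve ℤ), W.Δ ≠ 0 → ∀ {p : ℕ}, p.Prime → 5 ≤ p → H41wPeu W p →
    W.ModRepIsIrreducible p → ∀ {M : ℕ}, 0 < M → p ∣ M → ¬ p ^ 2 ∣ M →
    W.IsResiduallyModularOfLevel p M → W.IsResiduallyModularOfLevel p (M / p)

/-- **LOCAL-MULT** (final form): every integral model of the Frey curve is peu ramifié at `p`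
when `p ∣ a b c`. -/
def H41wLocalMult : Prop :=
  ∀ (P : FreyPackage) (W : WeierstrassCurve ℤ), W.IsIntegralModelOf P.freyCurve →
    (P.p : ℤ) ∣ P.a * P.b * P.c → H41wPeu W P.p

/-- an integral model of a curve with `Δ ≠ 0` has `Δ ≠ 0`. -/
theorem h41w_disc_of_model (E : WeierstrassCurve ℚ) {W : WeierstrassCurve ℤ}
    (hW : W.IsIntegralModelOf E) (hE : E.Δ ≠ 0) : W.Δ ≠ 0 := by
  obtain ⟨C, hC⟩ := hW
  intro h
  have h1 : (W.map (Int.castRingHom ℚ)).Δ = 0 := by
    rw [WeierstrassCurve.map_Δ, h, _root_.map_zero]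
  rw [← hC, WeierstrassCurve.variableChange_Δ] at h1
  rcases mul_eq_zero.1 h1 with h2 | h2
  · exact absurd h2 (pow_ne_zero _ (Units.ne_zero _))
  · exact hE h2

/-- **transport of irreducibility to an integral model.** -/
theorem h41w_irr_of_model (E : WeierstrassCurve ℚ) {W : WeierstrassCurve ℤ}
    (hW : W.IsIntegralModelOf E) (p : ℕ)
    (hirr : GaloisRepIsIrreducible (K := AlgebraicClosure ℚ) ℚ E p) :
    W.ModRepIsIrreducible p := by
  obtain ⟨C, hC⟩ := hW
  obtain ⟨r, hr, he⟩ := Fermat.Agent.EFrob.CG_transport E (W.map (Int.castRingHom ℚ)) C hC p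
  obtain ⟨r', hr', -⟩ := Fermat.Agent.EFrob.CG_transport' E (W.map (Int.castRingHom ℚ)) C hC p
  obtain ⟨hnt, hsub⟩ := hirr
  refine ⟨?_, ?_⟩
  · obtain ⟨x, y, hxy⟩ := hnt
    exact ⟨⟨r' x, r' y, fun h => hxy (hr' h)⟩⟩
  · intro N hN
    have hst : IsGaloisStable (K := AlgebraicClosure ℚ) ℚ
        (Submodule.map (r.toZModLinearMap p) N) := by
      rintro σ x ⟨n, hn, rfl⟩
      refine ⟨σ • n, hN σ n hn, ?_⟩
      exact he σ n
    rcases hsub _ hst with h0 | h1
    · left
      rw [eq_bot_iff]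
      intro n hn
      have h2 : r n ∈ Submodule.map (r.toZModLinearMap p) N := ⟨n, hn, rfl⟩
      rw [h0, Submodule.mem_bot] at h2
      rw [Submodule.mem_bot]
      exact hr (h2.trans (_root_.map_zero r).symm)
    · right
      rw [eq_top_iff]
      intro Q _
      have h2 : r Q ∈ Submodule.map (r.toZModLinearMap p) N := by
        rw [h1]; exact Submodule.mem_top
      obtain ⟨n, hn, hnQ⟩ := h2
      have h3 : n = Q := hr hnQ
      exact h3 ▸ hn

/-- **the conditional top of S44** (exact binders of the frozen statement): the generic top and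
LOCAL-MULT give the Frey form of Mazur–Ribet at `p`, with `M = N / p`. -/
theorem h41w_s44_of (hTop : H41wTopGen) (hLoc : H41wLocalMult)
    (P : FreyPackage) {N : ℕ} (hcond : P.IsConductorLevel N) (hpN : P.p ∣ N)
    (hirr : GaloisRepIsIrreducible (K := AlgebraicClosure ℚ) ℚ P.freyCurve P.p)
    (hmod : P.ModularRepOfLevel N) :
    ∃ M : ℕ, M ∣ N ∧ ¬ P.p ∣ M ∧ P.ModularRepOfLevel M := by
  obtain ⟨f, W, 𝔪, hf, hW, hmax, hpm, hcong⟩ := hmod
  have hΔ : W.Δ ≠ 0 :=
    h41w_disc_of_model P.freyCurve hW (Fermat.Agent.S13.freyCurve_Δ_ne_zero P)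
  have hirrW : W.ModRepIsIrreducible P.p := h41w_irr_of_model P.freyCurve hW P.p hirr
  have hsq : ¬ P.p ^ 2 ∣ N := hcond.sq_not_dvd P.pp
  have hres : W.IsResiduallyModularOfLevel P.p N := ⟨f, 𝔪, hf, hmax, hpm, hcong⟩
  obtain ⟨g, 𝔫, hg, hmax', hpn, hcong'⟩ :=
    hTop W hΔ P.pp P.hp5 (hLoc P W hW (hcond.p_dvd_abc hpN)) hirrW hcond.pos hpN hsq hres
  refine ⟨N / P.p, Nat.div_dvd_of_dvd hpN, ?_, ⟨g, W, 𝔫, hg, hW, hmax', hpn, hcong'⟩⟩
  intro h
  apply hsq
  rw [pow_two]
  exact Nat.mul_dvd_of_dvd_div hpN h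

/-- the same generic top gives S40 for `5 ≤ p` from `H99wLocal`. -/
theorem h41w_s40_of (hTop : H41wTopGen) (hLoc : H99wLocal)
    (W : WeierstrassCurve ℤ) (hΔ : W.Δ ≠ 0) {p : ℕ} (hp : p.Prime) (hp5 : 5 ≤ p)
    (hgood : W.IsGoodPrimeFor p) (hirr : W.ModRepIsIrreducible p)
    {M : ℕ} (hM : 0 < M) (hpM : p ∣ M) (hp2M : ¬ p ^ 2 ∣ M)
    (hmod : W.IsResiduallyModularOfLevel p M) :
    W.IsResiduallyModularOfLevel p (M / p) :=
  hTop W hΔ hp hp5 (h41w_peu_of_local hLoc W hp (by omega) hgood) hirr hM hpM hp2M hmod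

end Fermat.Agent.P7
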