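import Fermat.Agent.P7.H99W7Iface

/-!
# Wave 7 (row 38: S44 primary, S40 secondary): per-prime / per-curve interfaces (helper99)

The top of wave 7 (`P7/H99W7Top.lean`, `h99w_topGen`) is generic in the curve `W / ℤ`: it needs
the crux (TORIC) only at the prime `p` of the statement and the local input (peu ramifié) only
for the given curve.

* `H99wToricAt p` : the body of `H99wToric` at the fixed prime `p`
  (`H99wToric ↔ ∀ p, H99wToricAt p`, `h99w_toric_iff`).  For S44 only `5 ≤ p` is needed.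
* `H99wLocalAt W p` : the body of `H99wLocal` for the given curve `W` and prime `p`, without the
  hypothesis of good reduction: for every place `A` over `p`, if every `a` of the inertia at `A`
  satisfies `(a - 1)(a - ε(a)) = 0` on `W[p]`, then `W[p]` is peu ramifié at `A`
  (a unit `β`, `β ^ p ∈ Fix(I₁)`, such that the stabiliser of `β` in `I₁` acts trivially on
  `W[p]`).  `H99wLocal` gives it at the primes of good reduction (`h99w_localAt_of_good`); for
  the Frey curve at `p ∣ abc` it is the leaf LOCAL-MULT.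

Every declaration is a definition or a one-line consequence; nothing is assumed.
-/

set_option autoImplicit false
set_option linter.unusedSectionVars false
set_option linter.style.haveILetI false

open AlgebraicCurve ModularCurve WeierstrassCurve WeierstrassCurve.Affine

noncomputable section

namespace Fermat.Agent.P7

open Fermat.Agent.S37 Fermat.Agent.S35
open Fermat.Agent.S30 (heckeTAll)

/-- **(T) TORIC at the prime `p`** (the body of `H99wToric`). -/
def H99wToricAt (p : ℕ) : Prop :=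
  ∀ (hp : p.Prime), p ≠ 2 → ∀ (M : ℕ) [NeZero M], ¬ p ∣ M →
    haveI : NeZero p := ⟨hp.ne_zero⟩
    ∀ A : ValuationSubring Kbar, A.LiesOverPrime p →
    ∀ β : Kbar, β ∈ A → β⁻¹ ∈ A →
      (∀ a ∈ A.inertiaSubgroupIn ℚ, H99wFixMu p a → a (β ^ p) = β ^ p) →
    ∀ x : JZero (M * p), p • x = 0 → pushAlpha M p x = 0 → pushBeta M p x = 0 →
      (∀ a ∈ A.inertiaSubgroupIn ℚ, H99wFixMu p a → a β = β → a • x = x) →
      (∃ ℓ : Nat.Primes, ¬ (ℓ : ℕ) ∣ M * p ∧ ∃ c : ℤ,
        heckeOperatorBar (M * p) ℓ x = c • x ∧ ¬ (p : ℤ) ∣ ((ℓ : ℕ) : ℤ) + 1 - c) →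
      (∃ e : MvPolynomial Nat.Primes ℤ, (∀ ℓ ∈ e.vars, ¬ (ℓ : ℕ) ∣ M * p) ∧
        H99wKillsCusp M e ∧ (letI := heckeModuleBar (M * p); e • x = x)) →
      ∀ a ∈ A.inertiaSubgroupIn ℚ, ∀ e : ℕ, (∀ μ : Kbar, μ ^ p = 1 → a μ = μ ^ e) →
        a • x = e • x

theorem h99w_toric_iff : H99wToric ↔ ∀ p : ℕ, H99wToricAt p :=
  ⟨fun h p hp => h p hp, fun h p hp => h p hp⟩

theorem h99w_toricAt_of (h : H99wToric) (p : ℕ) : H99wToricAt p :=
  h99w_toric_iff.mp h p

/-- **(L) LOCAL for the curve `W` at the prime `p`** (the body of `H99wLocal`, no hypothesis on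
the reduction type). -/
def H99wLocalAt (W : WeierstrassCurve ℤ) (p : ℕ) : Prop :=
  ∀ A : ValuationSubring Kbar, A.LiesOverPrime p →
    (∀ a ∈ A.inertiaSubgroupIn ℚ, ∀ e : ℕ, (∀ μ : Kbar, μ ^ p = 1 → a μ = μ ^ e) →
      ∀ P : H99wTors W p, a • a • P - ((1 : ℤ) + e) • a • P + e • P = 0) →
    ∃ β : Kbar, β ∈ A ∧ β⁻¹ ∈ A ∧
      (∀ a ∈ A.inertiaSubgroupIn ℚ, H99wFixMu p a → a (β ^ p) = β ^ p) ∧
      ∀ a ∈ A.inertiaSubgroupIn ℚ, H99wFixMu p a → a β = β →
        ∀ P : H99wTors W p, a • P = P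

theorem h99w_localAt_of_good (h : H99wLocal) (W : WeierstrassCurve ℤ) {p : ℕ} (hp : p.Prime)
    (hp2 : p ≠ 2) (hgood : W.IsGoodPrimeFor p) : H99wLocalAt W p :=
  fun A hA hstar => h W p hp hp2 hgood A hA hstar

end Fermat.Agent.P7
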