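import Fermat.Agent.P7.H77MultIface
import Fermat.Agent.P7.H99W7Iface2
import Fermat.Agent.P7.H41Top44
import Fermat.Agent.EFrob.CongrVC

/-!
# Wave 7 (S44), leaf F8: transport of the per-curve LOCAL statement along a variable change
(helper12, prefix `h12t_`)

The per-curve local statement (`H77mLocalAt W p` = `H99wLocalAt W p` = `H41wPeu W p`, the three
definitions have the same body) only depends on the Galois module `W[p](ℚ̄)`, hence only on the
curve `W_ℚ` up to a variable change over `ℚ`:

* `h12t_localAt_of_vc` : `C • W₀_ℚ = W_ℚ` ⟹ (`H77mLocalAt W₀ p` → `H77mLocalAt W p`);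
* `h12t_localAt_of_models` : two integral models of the same curve `E / ℚ`;
* `h12t_localFrey_of_model` : LOCAL-MULT (`H77mLocalFrey`) follows from the local statement for
  ONE integral model of every Frey curve with `p ∣ a b c`.
-/

set_option autoImplicit false
set_option linter.unusedSectionVars false
set_option linter.style.haveILetI false

open WeierstrassCurve WeierstrassCurve.Affine

noncomputable section

namespace Fermat.Agent.P7

open Fermat.Agent.S37

/-- `H99wLocalAt` (helper99) and `H77mLocalAt` (helper77) are the same Prop. -/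
theorem h12t_localAt_iff (W : WeierstrassCurve ℤ) (p : ℕ) : H99wLocalAt W p ↔ H77mLocalAt W p :=
  Iff.rfl

/-- `H41wPeu` (helper41) and `H77mLocalAt` (helper77) are the same Prop. -/
theorem h12t_peu_iff (W : WeierstrassCurve ℤ) (p : ℕ) : H41wPeu W p ↔ H77mLocalAt W p :=
  Iff.rfl

/-- `H41wLocalMult` (helper41) and `H77mLocalFrey` (helper77) are the same Prop. -/
theorem h12t_localMult_iff : H41wLocalMult ↔ H77mLocalFrey := Iff.rfl

/-- **transport along a variable change over `ℚ`.** -/
theorem h12t_localAt_of_vc (W₀ W : WeierstrassCurve ℤ) (p : ℕ) (C : VariableChange ℚ)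
    (hC : C • W₀.map (Int.castRingHom ℚ) = W.map (Int.castRingHom ℚ))
    (h : H77mLocalAt W₀ p) : H77mLocalAt W p := by
  obtain ⟨r, hr, he⟩ := Fermat.Agent.EFrob.CG_transport (W₀.map (Int.castRingHom ℚ))
    (W.map (Int.castRingHom ℚ)) C hC p
  obtain ⟨r', hr', he'⟩ := Fermat.Agent.EFrob.CG_transport' (W₀.map (Int.castRingHom ℚ))
    (W.map (Int.castRingHom ℚ)) C hC p
  intro A hA hord
  obtain ⟨β, hβ, hβ', hβp, hfix⟩ := h A hA (fun a ha e hcyc P₀ => by
    apply hr'
    have h1 := hord a ha e hcyc (r' P₀)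
    rw [← he', ← he', ← map_zsmul, ← map_nsmul, ← map_sub, ← map_add] at h1
    rw [h1, map_zero])
  exact ⟨β, hβ, hβ', hβp, fun a ha hmu haβ P => hr (by rw [he]; exact hfix a ha hmu haβ (r P))⟩

/-- **two integral models of the same curve over `ℚ`.** -/
theorem h12t_localAt_of_models (E : WeierstrassCurve ℚ) {W₀ W : WeierstrassCurve ℤ}
    (hW₀ : W₀.IsIntegralModelOf E) (hW : W.IsIntegralModelOf E) (p : ℕ)
    (h : H77mLocalAt W₀ p) : H77mLocalAt W p := by
  obtain ⟨C₀, hC₀⟩ := hW₀
  obtain ⟨C, hC⟩ := hW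
  refine h12t_localAt_of_vc W₀ W p (C * C₀⁻¹) ?_ h
  rw [← hC₀, ← hC, mul_smul, inv_smul_smul]

/-- **LOCAL-MULT from one integral model per Frey curve.** -/
theorem h12t_localFrey_of_model
    (h : ∀ P : FreyPackage, (P.p : ℤ) ∣ P.a * P.b * P.c →
      ∃ W₀ : WeierstrassCurve ℤ, W₀.IsIntegralModelOf P.freyCurve ∧ H77mLocalAt W₀ P.p) :
    H77mLocalFrey := by
  intro P W hW hp
  obtain ⟨W₀, hW₀, h₀⟩ := h P hp
  exact h12t_localAt_of_models P.freyCurve hW₀ hW P.p h₀

end Fermat.Agent.P7
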