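import Fermat.Agent.P7.H15GenusIface
import Fermat.Agent.P7.H10Descent
import Fermat.Agent.Jac.Rig
import Fermat.Agent.Jac.Can
import Fermat.Agent.Jac.Desc0
import Fermat.Agent.Jac.Orbit
import Fermat.Agent.Jac.BaseChangeOrd
import Fermat.Agent.Jac.DegC
import Fermat.Agent.P5.H13GBase
import Fermat.Agent.P5.H3RRFin

/-!
# Wave 7, block (A), DLOG leaf DL6B GENUS-MATCH, leaf GM-2 (twin): Galois descent of
`L(n (j)_∞)` from `ℂ` to `ℚ̄` (helper13, prefix `h13d_`)

`h13d_descent : H15gDescent` (frozen shape of `P7/H15GenusIface.lean`).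

Proof.  `U = L_ℂ(n (j)_∞)` is the Riemann-Roch space of the divisor `n (j)_∞` of `F_ℂ`, hence
finite-dimensional (P5 is generic in the function field: `h13g_base`, `h3r_fin`).  It is stable
under the coefficientwise action of `Aut(ℂ/ℚ)` (`SemilinearAut.ord_smul`, `σ j = j`).  By the
abstract descent `h10w_descent` it has a basis with coefficients fixed by `Aut(ℂ/ℚ)`, hence
algebraic (`Jac.orbit`), hence coming from `F` (`Jac.desc`); the pole bound over `ℚ̄` follows
from `Jac.baseChangeOrd`.
-/

set_option autoImplicit false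
set_option linter.unusedSectionVars false
set_option linter.unusedVariables false
set_option linter.style.haveILetI false
set_option linter.style.longLine false

open ModularCurve AlgebraicCurve UpperHalfPlane CongruenceSubgroup IntermediateField
open scoped MatrixGroups Manifold

noncomputable section

namespace Fermat.Agent.P7

open Fermat.Agent.S24 (Kbar FF jBar embC)
open Fermat.Agent.Jac (FC jC)

section Descent

variable (M : ℕ) [NeZero M]

/-- the coefficient map of `F_ℂ`. -/
def h13dCoeff : FC M →ₗ[ℂ] (ℤ → ℂ) where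
  toFun F := fun k => (F : LaurentSeries ℂ).coeff k
  map_add' F G := by
    funext k
    show ((F + G : FC M) : LaurentSeries ℂ).coeff k = _
    rfl
  map_smul' a F := by
    funext k
    show ((a • F : FC M) : LaurentSeries ℂ).coeff k = a * (F : LaurentSeries ℂ).coeff k
    rw [Algebra.smul_def]
    show ((algebraMap ℂ (LaurentSeries ℂ) a) * (F : LaurentSeries ℂ)).coeff k = _
    rw [algebraMap_laurentSeries_eq_single]
    show ((HahnSeries.C a) * (F : LaurentSeries ℂ)).coeff k = _
    rw [HahnSeries.C_mul_eq_smul, HahnSeries.coeff_smul, smul_eq_mul]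

theorem h13dCoeff_apply (F : FC M) (k : ℤ) :
    h13dCoeff M F k = (F : LaurentSeries ℂ).coeff k := rfl

theorem h13dCoeff_injective : Function.Injective (h13dCoeff M) := by
  intro F G h
  apply Subtype.ext
  ext k
  exact congrFun h k

/-- `σ` fixes `j`, hence the orders of `j` at `v` and at `σ⁻¹ v` agree. -/
theorem h13d_ord_jC (σ : ℂ ≃ₐ[ℚ] ℂ) (v : Place ℂ (FC M)) :
    ((Fermat.Agent.Jac.H15Rig.act M σ)⁻¹ • v).ord (jC M) = v.ord (jC M) := by
  have h := SemilinearAut.ord_smul (Fermat.Agent.Jac.H15Rig.act M σ)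
    ((Fermat.Agent.Jac.H15Rig.act M σ)⁻¹ • v) (jC M)
  rw [smul_inv_smul] at h
  rw [← h]
  congr 1
  exact Fermat.Agent.Jac.h4c_smul_jC M σ

/-- the coefficient embedding of `j`. -/
theorem h13d_coe_jC :
    ((jC M : FC M) : LaurentSeries ℂ) = coeffMap embC ((jBar M : FF M) : LaurentSeries Kbar) := by
  rw [Fermat.Agent.Jac.coe_jC, Fermat.Agent.S24.coe_jBar, coeffEmb, coeffEmb, coeffMap_coeffMap]
  exact coeffMap_congr (Subsingleton.elim _ _) _

/-- constants under the coefficient embedding. -/
theorem h13d_coeffMap_algebraMap (a : Kbar) :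
    coeffMap embC (algebraMap Kbar (LaurentSeries Kbar) a) =
      algebraMap ℂ (LaurentSeries ℂ) (embC a) := by
  rw [algebraMap_laurentSeries_eq_single, algebraMap_laurentSeries_eq_single, coeffMap_single]

/-- **GM-2.** Galois descent of `L(n (j)_∞)` from `ℂ` to `ℚ̄`. -/
theorem h13d_descent : H15gDescent := by
  intro M _ n r F hind hF
  classical
  obtain ⟨htr, hfd, -⟩ := Fermat.Agent.Jac.degC M
  haveI := hfd
  have hj0 : jC M ≠ 0 := by
    intro h0
    exact htr (h0 ▸ isAlgebraic_zero)
  have hB : Fermat.Agent.P5.H13rBase ℂ (FC M) := Fermat.Agent.P5.h13g_base (jC M) htr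
  obtain ⟨s, hs, -⟩ := Fermat.Agent.P5.h13g_zeros (jC M) htr (jC M)⁻¹ (Or.inr rfl)
  -- the divisor `n (j)_∞`
  set D : Divisor ℂ (FC M) :=
    ∑ v ∈ s, Finsupp.single v ((n : ℤ) * v.ord (jC M)⁻¹) with hDdef
  have hD : ∀ w : Place ℂ (FC M), -D w = (n : ℤ) * min 0 (w.ord (jC M)) := by
    intro w
    have h1 : D w = if w ∈ s then (n : ℤ) * w.ord (jC M)⁻¹ else 0 := by
      rw [hDdef, Finsupp.finsetSum_apply]
      simp only [Finsupp.single_apply]
      rw [Finset.sum_ite_eq' s w (fun v => (n : ℤ) * v.ord (jC M)⁻¹)]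
    rw [h1]
    by_cases hw : w ∈ s
    · rw [if_pos hw]
      have h2 := (hs w).mp hw
      rw [w.ord_inv] at h2 ⊢
      have h3 : min 0 (w.ord (jC M)) = w.ord (jC M) := min_eq_right (by omega)
      rw [h3]
      ring
    · rw [if_neg hw]
      have h2 : ¬ 0 < w.ord (jC M)⁻¹ := fun h => hw ((hs w).mpr h)
      rw [w.ord_inv] at h2
      have h3 : min 0 (w.ord (jC M)) = 0 := min_eq_left (by omega)
      rw [h3]
      ring
  have hmemU : ∀ G : FC M, G ∈ riemannRochSpace D ↔ H15gInLC M n G := by
    intro G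
    rw [mem_riemannRochSpace_iff]
    constructor
    · intro h v
      rcases h v with h0 | h1
      · exact Or.inl h0
      · exact Or.inr (by rw [← hD v]; exact h1)
    · intro h v
      rcases h v with h0 | h1
      · exact Or.inl h0
      · exact Or.inr (by rw [hD v]; exact h1)
  haveI hfinU : Module.Finite ℂ (riemannRochSpace D) := (Fermat.Agent.P5.h3r_fin hB).1 D
  -- stability under `Aut(ℂ/ℚ)`
  have hstab : ∀ (σ : ℂ ≃ₐ[ℚ] ℂ) (G : FC M), G ∈ riemannRochSpace D →
      Fermat.Agent.Jac.H15Rig.act M σ • G ∈ riemannRochSpace D := by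
    intro σ G hG
    rw [hmemU] at hG ⊢
    intro v
    rcases hG ((Fermat.Agent.Jac.H15Rig.act M σ)⁻¹ • v) with h0 | h1
    · left
      rw [h0, smul_zero]
    · right
      have h := SemilinearAut.ord_smul (Fermat.Agent.Jac.H15Rig.act M σ)
        ((Fermat.Agent.Jac.H15Rig.act M σ)⁻¹ • v) G
      rw [smul_inv_smul] at h
      rw [h, ← h13d_ord_jC M σ v]
      exact h1
  -- the space of coefficient sequences
  set U' : Submodule ℂ (ℤ → ℂ) := (riemannRochSpace D).map (h13dCoeff M) with hU'
  haveI hfinU' : Module.Finite ℂ U' := by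
    rw [hU']
    infer_instance
  let S : Set (ℂ ≃+* ℂ) := Set.range (fun σ : ℂ ≃ₐ[ℚ] ℂ => σ.toRingEquiv)
  have hS : ∀ σ' ∈ S, ∀ u ∈ U', (fun i => σ' (u i)) ∈ U' := by
    rintro _ ⟨σ, rfl⟩ u ⟨G, hG, rfl⟩
    refine ⟨Fermat.Agent.Jac.H15Rig.act M σ • G, hstab σ G hG, ?_⟩
    funext k
    rfl
  obtain ⟨b, hbU, hbind, hbfix⟩ := h10w_descent U' S hS
  -- the dimension is at least `r`
  have hrd : r ≤ Module.finrank ℂ U' := by
    have hFU : ∀ i, h13dCoeff M (F i) ∈ U' := fun i =>
      ⟨F i, (hmemU (F i)).mpr (hF i), rfl⟩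
    have h1 : LinearIndependent ℂ (fun i => h13dCoeff M (F i)) :=
      hind.map' (h13dCoeff M) (LinearMap.ker_eq_bot.mpr (h13dCoeff_injective M))
    have h2 : LinearIndependent ℂ (fun i => (⟨h13dCoeff M (F i), hFU i⟩ : U')) := by
      apply LinearIndependent.of_comp U'.subtype
      exact h1
    have h3 := h2.fintype_card_le_finrank
    rwa [Fintype.card_fin] at h3
  -- preimages in `F_ℂ`
  have hex : ∀ k, ∃ G : FC M, G ∈ riemannRochSpace D ∧ h13dCoeff M G = b k := fun k => hbU k
  choose G hGU hGb using hex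
  -- algebraic coefficients
  have halg : ∀ k (m : ℤ), ((G k : FC M) : LaurentSeries ℂ).coeff m ∈ Set.range embC := by
    intro k m
    refine Fermat.Agent.Jac.orbit ⊤ inferInstance _ ?_
    intro σ _
    have h1 := hbfix σ.toRingEquiv ⟨σ, rfl⟩ k m
    rw [← hGb k] at h1
    exact h1
  have hex2 : ∀ k, ∃ y : LaurentSeries Kbar, coeffMap embC y = ((G k : FC M) : LaurentSeries ℂ) :=
    fun k => Fermat.Agent.Jac.H15Rig.exists_coeffMap_eq _ (halg k)
  choose y' hy' using hex2
  have hyF : ∀ k, y' k ∈ modularFunctionFieldBar M := by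
    intro k
    refine Fermat.Agent.Jac.desc M (y' k) ?_
    rw [hy' k]
    exact (G k).2
  refine ⟨fun i => ⟨y' (Fin.castLE hrd i), hyF _⟩, ?_, ?_⟩
  · -- linear independence over `ℚ̄`
    have hGind : LinearIndependent ℂ G := by
      apply LinearIndependent.of_comp (h13dCoeff M)
      have : (h13dCoeff M) ∘ G = b := funext hGb
      rw [this]
      exact hbind
    have hGind' : LinearIndependent ℂ (fun i : Fin r => G (Fin.castLE hrd i)) :=
      hGind.comp _ (Fin.castLE_injective hrd)
    rw [Fintype.linearIndependent_iff]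
    intro a ha i
    have h1 : ∑ i : Fin r, (embC (a i)) • G (Fin.castLE hrd i) = 0 := by
      apply Subtype.ext
      have h2 : coeffMap embC ((∑ i : Fin r, a i •
          (⟨y' (Fin.castLE hrd i), hyF _⟩ : FF M) : FF M) : LaurentSeries Kbar) =
          coeffMap embC (((0 : FF M) : FF M) : LaurentSeries Kbar) := by
        rw [ha]
      rw [ZeroMemClass.coe_zero, map_zero] at h2
      rw [ZeroMemClass.coe_zero, ← h2]
      rw [AddSubmonoidClass.coe_finsetSum, AddSubmonoidClass.coe_finsetSum, map_sum]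
      refine Finset.sum_congr rfl fun i _ => ?_
      rw [Algebra.smul_def, Algebra.smul_def]
      show algebraMap ℂ (LaurentSeries ℂ) (embC (a i)) * ((G (Fin.castLE hrd i) : FC M) : LaurentSeries ℂ)
        = coeffMap embC (algebraMap Kbar (LaurentSeries Kbar) (a i) * y' (Fin.castLE hrd i))
      rw [map_mul, h13d_coeffMap_algebraMap, hy']
    have h3 := (Fintype.linearIndependent_iff.mp hGind') (fun i => embC (a i)) h1 i
    exact embC.injective (by rw [h3, map_zero])
  · -- the pole bound
    intro i v₀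
    obtain ⟨v, hv⟩ := Fermat.Agent.Jac.baseChangeOrd M v₀
    have h1 := hv ⟨y' (Fin.castLE hrd i), hyF _⟩ (G (Fin.castLE hrd i)) (hy' _).symm
    have h2 := hv (jBar M) (jC M) (h13d_coe_jC M)
    rcases (hmemU _).mp (hGU (Fin.castLE hrd i)) v with h0 | h3
    · left
      apply Subtype.ext
      apply Fermat.Agent.Jac.h56_coeffMap_injective embC
      rw [hy', h0]
      exact (map_zero (coeffMap embC)).symm
    · right
      rw [← h1, ← h2]
      exact h3

end Descent

end Fermat.Agent.P7
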