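import Mathlib

/-!
# Wave 7 (row 38), block (5b), leaf C4, sub-leaf GLOB0 (helper13): Liouville on the special fibre

Abstract form, Mathlib only.  This is the hypothesis `hglobInf` / `hglobZero` of `H78hChart`
(`P7/H78HZero.lean`), `const₁` / `const₂` of `h82w_h0_*` (`P7/H82H0Two.lean`), `hLiou` of
`h88l_liouville` (`P7/H88Liouville.lean`): a function which is, modulo `𝔪_A W`, regular at every
closed point of a component of the special fibre (on BOTH affine charts) is constant modulo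
`𝔪_A W`.

* `h13g_liouville_res` (residue side): `K` a field, `k₀ ⊆ K` a subring of constants which is
  integrally closed in `K`, `R₀`, `R₁` two subrings integral over `k₀[τ]`, `k₀[σ]`, `τ σ = 1`;
  an element of `K` lying in the localisation of `R₀` at every maximal ideal of `R₀`, and the
  same for `R₁`, is in `k₀`.  Proof: it lies in every valuation subring of `K` containing `k₀`
  (such a ring contains `τ` or `σ`, hence `R₀` or `R₁`, and its maximal ideal cuts out a prime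
  of the chart, contained in a maximal ideal), and the intersection of these valuation rings is
  the integral closure of `k₀` (`iInf_valuationSubring_superset`).  No place of the special
  fibre, no transcendence of `τ` is needed.
* `h13g_liouville_lift` : the same for a reduction map `red : W →+* K` of a subring `W` of a
  field `F` over `A` and two charts `B₀`, `B₁ ⊆ W` integral over `A[t]`, `A[s]`, `t s = 1`.

Every declaration is a definition or a proved theorem; nothing is assumed.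
-/

set_option autoImplicit false
set_option linter.unusedSectionVars false
set_option linter.unusedVariables false

open IsLocalRing

namespace Fermat.Agent.P7

section Residue

variable {K : Type*} [Field K]

/-- **Liouville on the residue side.** -/
theorem h13g_liouville_res (k₀ R₀ R₁ : Subring K)
    (hk : ∀ z : K, IsIntegral k₀ z → z ∈ k₀)
    (τ σ : K) (hτσ : τ * σ = 1) (hσ : σ ∈ R₁)
    (hint₀ : ∀ b ∈ R₀, IsIntegral (Subring.closure ((k₀ : Set K) ∪ {τ})) b)
    (hint₁ : ∀ b ∈ R₁, IsIntegral (Subring.closure ((k₀ : Set K) ∪ {σ})) b)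
    (z : K)
    (h₀ : ∀ 𝔪 : Ideal R₀, 𝔪.IsMaximal → ∃ a s : R₀, s ∉ 𝔪 ∧ (s : K) * z = a)
    (h₁ : ∀ 𝔪 : Ideal R₁, 𝔪.IsMaximal → (⟨σ, hσ⟩ : R₁) ∈ 𝔪 →
      ∃ a s : R₁, s ∉ 𝔪 ∧ (s : K) * z = a) :
    z ∈ k₀ := by
  classical
  -- `z` lies in every valuation subring containing `k₀`
  have key : ∀ (R : Subring K) (ρ : K) (P : R → Prop),
      (∀ b ∈ R, IsIntegral (Subring.closure ((k₀ : Set K) ∪ {ρ})) b) →
      (∀ 𝔪 : Ideal R, 𝔪.IsMaximal → (∀ x, P x → x ∈ 𝔪) → ∃ a s : R, s ∉ 𝔪 ∧ (s : K) * z = a) →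
      ∀ V : ValuationSubring K, (k₀ : Set K) ⊆ V.toSubring → ρ ∈ V →
        (∀ x : R, P x → (x : K) ∈ V.nonunits) → z ∈ V := by
    intro R ρ P hint hloc V hkV hρ hP
    have hcl : Subring.closure ((k₀ : Set K) ∪ {ρ}) ≤ V.toSubring := by
      rw [Subring.closure_le]
      rintro x (hx | hx)
      · exact hkV hx
      · rw [Set.mem_singleton_iff] at hx; rw [hx]; exact hρ
    have hRV : ∀ b ∈ R, b ∈ V := by
      intro b hb
      obtain ⟨p, hpm, hp⟩ := hint b hb
      have : IsIntegral V b := by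
        refine ⟨p.map (Subring.inclusion hcl), hpm.map _, ?_⟩
        rw [Polynomial.eval₂_map]
        exact hp
      have h2 := (IsIntegrallyClosed.isIntegral_iff (R := V) (K := K)).mp this
      obtain ⟨y, hy⟩ := h2
      rw [← hy]; exact y.2
    -- the prime ideal of `R` cut out by the maximal ideal of `V`
    let φ : R →+* V := Subring.inclusion (show R ≤ V.toSubring from hRV)
    let 𝔭 : Ideal R := (maximalIdeal V).comap φ
    have h𝔭 : 𝔭 ≠ ⊤ := by
      intro h
      have : (1 : R) ∈ 𝔭 := by rw [h]; trivial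
      rw [Ideal.mem_comap, map_one] at this
      exact (maximalIdeal.isMaximal V).ne_top ((Ideal.eq_top_iff_one _).mpr this)
    obtain ⟨𝔪, h𝔪, hle⟩ := Ideal.exists_le_maximal 𝔭 h𝔭
    have hP𝔪 : ∀ x, P x → x ∈ 𝔪 := by
      intro x hx
      apply hle
      rw [Ideal.mem_comap, mem_maximalIdeal, mem_nonunits_iff]
      intro hu
      have h1 := hP x hx
      rw [ValuationSubring.mem_nonunits_iff_exists_mem_maximalIdeal] at h1
      obtain ⟨hxV, hxm⟩ := h1
      exact ((mem_maximalIdeal _).mp hxm) hu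
    obtain ⟨a, s, hs, hsz⟩ := hloc 𝔪 h𝔪 hP𝔪
    have hs𝔭 : s ∉ 𝔭 := fun h => hs (hle h)
    have hsu : IsUnit (φ s) := by
      by_contra hn
      exact hs𝔭 ((mem_maximalIdeal _).mpr hn)
    obtain ⟨u, hu⟩ := hsu
    have hz : z = ((((u⁻¹ : Vˣ) : V) * (φ a : V) : V) : K) := by
      have h1 : ((u : V) : K) = (s : K) := by rw [hu]; rfl
      have h2 : (((u⁻¹ : Vˣ) : V) : K) * ((u : V) : K) = 1 :=
        congrArg (Subtype.val) (Units.inv_mul u)
      have h3 : ((φ a : V) : K) = (a : K) := rfl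
      show z = (((u⁻¹ : Vˣ) : V) : K) * ((φ a : V) : K)
      rw [h3, ← hsz, ← h1, ← mul_assoc, h2, one_mul]
    rw [hz]
    exact (((u⁻¹ : Vˣ) : V) * (φ a : V)).2
  have hz : z ∈ (integralClosure (Subring.closure (k₀ : Set K)) K).toSubring := by
    rw [← iInf_valuationSubring_superset]
    rw [Subring.mem_iInf]
    rintro ⟨V, hV⟩
    by_cases hτ : τ ∈ V
    · exact key R₀ τ (fun _ => False) hint₀ (fun 𝔪 h𝔪 _ => h₀ 𝔪 h𝔪) V hV hτ
        (fun _ h => h.elim)
    · have hτ0 : τ ≠ 0 := by rintro rfl; simp at hτσ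
      have hστ : σ = τ⁻¹ := by
        field_simp
        rw [mul_comm]; exact hτσ
      have hσV : σ ∈ V := by
        rw [hστ]
        exact (V.mem_or_inv_mem τ).resolve_left hτ
      have hσn : σ ∈ V.nonunits := by
        rw [ValuationSubring.mem_nonunits_iff_exists_mem_maximalIdeal]
        refine ⟨hσV, ?_⟩
        rw [mem_maximalIdeal, mem_nonunits_iff]
        intro hu
        obtain ⟨u, hu⟩ := hu
        apply hτ
        have h1 : (((u⁻¹ : Vˣ) : V) : K) * ((u : V) : K) = 1 :=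
          congrArg (Subtype.val) (Units.inv_mul u)
        have h2 : ((u : V) : K) = σ := by rw [hu]
        have h3 : (((u⁻¹ : Vˣ) : V) : K) = τ := by
          rw [h2] at h1
          have : τ * σ = (((u⁻¹ : Vˣ) : V) : K) * σ := by rw [hτσ, h1]
          have hσ0 : σ ≠ 0 := by rintro rfl; simp at hτσ
          exact (mul_right_cancel₀ hσ0 this).symm
        rw [← h3]
        exact ((u⁻¹ : Vˣ) : V).2
      exact key R₁ σ (fun x => x = ⟨σ, hσ⟩) hint₁
        (fun 𝔪 h𝔪 h => h₁ 𝔪 h𝔪 (h _ rfl)) V hV hσV (fun x hx => by rw [hx]; exact hσn)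
  have hz' : IsIntegral (Subring.closure (k₀ : Set K)) z := hz
  rw [Subring.closure_eq] at hz'
  exact hk z hz'

end Residue

section Lift

variable {A : Type*} [CommRing A] {F : Type*} [Field F] [Algebra A F]
  {K : Type*} [Field K]

/-- the constants `A → W`. -/
def h13gCst (W : Subring F) (hAW : ∀ a : A, algebraMap A F a ∈ W) : A →+* W :=
  (algebraMap A F).codRestrict W hAW

/-- the subring of constants of the residue field. -/
def h13gK₀ (W : Subring F) (hAW : ∀ a : A, algebraMap A F a ∈ W) (red : W →+* K) : Subring K :=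
  (red.comp (h13gCst W hAW)).range

/-- the inclusion of a chart into `W`. -/
def h13gIncl (W : Subring F) (B : Subalgebra A F) (hB : ∀ b ∈ B, b ∈ W) : B →+* W :=
  (B.val : B →+* F).codRestrict W (fun b => hB b b.2)

/-- the reduction of a chart is integral over `k₀[τ]`. -/
theorem h13g_int_red (W : Subring F) (hAW : ∀ a : A, algebraMap A F a ∈ W) (red : W →+* K)
    (C : Set F) (hC : ∀ c ∈ C, ∃ a : A, c = algebraMap A F a)
    (t : F) (ht : t ∈ W) (b : F) (hb : b ∈ W)
    (hint : IsIntegral (Subring.closure (C ∪ {t})) b) :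
    IsIntegral (Subring.closure (((h13gK₀ W hAW red : Subring K) : Set K) ∪ {red ⟨t, ht⟩}))
      (red ⟨b, hb⟩) := by
  classical
  set T : Subring F := Subring.closure (C ∪ {t}) with hT
  set S : Subring K :=
    Subring.closure (((h13gK₀ W hAW red : Subring K) : Set K) ∪ {red ⟨t, ht⟩}) with hS
  have hTW : T ≤ W := by
    rw [hT, Subring.closure_le]
    rintro x (hx | hx)
    · obtain ⟨a, rfl⟩ := hC x hx
      exact hAW a
    · rw [Set.mem_singleton_iff] at hx; rw [hx]; exact ht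
  have hTS : ∀ x (hx : x ∈ T), red ⟨x, hTW hx⟩ ∈ S := by
    intro x hx
    induction hx using Subring.closure_induction with
    | mem x hx =>
      rcases hx with hx | hx
      · obtain ⟨a, rfl⟩ := hC x hx
        exact Subring.subset_closure (Or.inl ⟨a, rfl⟩)
      · rw [Set.mem_singleton_iff] at hx
        subst hx
        exact Subring.subset_closure (Or.inr rfl)
    | zero => exact (by
        have : red ⟨0, W.zero_mem⟩ = 0 := map_zero red
        rw [this]; exact S.zero_mem)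
    | one => exact (by
        have : red ⟨1, W.one_mem⟩ = 1 := map_one red
        rw [this]; exact S.one_mem)
    | add x y hx hy ihx ihy =>
      have : red ⟨x + y, W.add_mem (hTW hx) (hTW hy)⟩ =
          red ⟨x, hTW hx⟩ + red ⟨y, hTW hy⟩ := by
        rw [← map_add]; rfl
      rw [this]; exact S.add_mem ihx ihy
    | neg x hx ihx =>
      have : red ⟨-x, W.neg_mem (hTW hx)⟩ = - red ⟨x, hTW hx⟩ := by
        rw [← map_neg]; rfl
      rw [this]; exact S.neg_mem ihx
    | mul x y hx hy ihx ihy =>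
      have : red ⟨x * y, W.mul_mem (hTW hx) (hTW hy)⟩ =
          red ⟨x, hTW hx⟩ * red ⟨y, hTW hy⟩ := by
        rw [← map_mul]; rfl
      rw [this]; exact S.mul_mem ihx ihy
  let ι : T →+* W := Subring.inclusion hTW
  let ψ : T →+* S := (red.comp ι).codRestrict S (fun x => hTS x.1 x.2)
  obtain ⟨p, hpm, hp⟩ := hint
  refine ⟨p.map ψ, hpm.map _, ?_⟩
  rw [Polynomial.eval₂_map]
  have h1 : (algebraMap S K).comp ψ = red.comp ι := by
    ext x; rfl
  rw [h1]
  have h2 : Polynomial.eval₂ (red.comp ι) (red ⟨b, hb⟩) p =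
      red (Polynomial.eval₂ ι ⟨b, hb⟩ p) := by
    rw [Polynomial.hom_eval₂]
  rw [h2]
  have h3 : Polynomial.eval₂ ι (⟨b, hb⟩ : W) p = 0 := by
    apply Subtype.ext
    have h4 : (W.subtype) (Polynomial.eval₂ ι (⟨b, hb⟩ : W) p) =
        Polynomial.eval₂ (W.subtype.comp ι) (W.subtype ⟨b, hb⟩) p := by
      rw [Polynomial.hom_eval₂]
    have h5 : (W.subtype.comp ι) = algebraMap T F := by
      ext x; rfl
    rw [h5] at h4
    show (W.subtype) (Polynomial.eval₂ ι (⟨b, hb⟩ : W) p) = 0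
    rw [h4]
    exact hp
  rw [h3, map_zero]

/-- **Liouville, lifted form**: `red : W →+* K` a reduction map, `B₀`, `B₁ ⊆ W` two charts
integral over `A[t]`, `A[s]` (`t s = 1`), the constants of `K` integrally closed in `K`.  If
`f ∈ W` is, modulo the kernel of `red`, in the local ring of `B₀` at every maximal ideal of `B₀`
containing the kernel of `red`, and the same for `B₁`, then the reduction of `f` is a
constant. -/
theorem h13g_liouville_lift (W : Subring F) (hAW : ∀ a : A, algebraMap A F a ∈ W)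
    (red : W →+* K)
    (hk : ∀ z : K, IsIntegral (h13gK₀ W hAW red) z → z ∈ h13gK₀ W hAW red)
    (B₀ B₁ : Subalgebra A F) (hB₀ : ∀ b ∈ B₀, b ∈ W) (hB₁ : ∀ b ∈ B₁, b ∈ W)
    (C : Set F) (hC : ∀ c ∈ C, ∃ a : A, c = algebraMap A F a)
    (t s : F) (ht : t ∈ W) (hs : s ∈ B₁) (hts : t * s = 1)
    (hint₀ : ∀ b ∈ B₀, IsIntegral (Subring.closure (C ∪ {t})) b)
    (hint₁ : ∀ b ∈ B₁, IsIntegral (Subring.closure (C ∪ {s})) b)
    (f : F) (hf : f ∈ W)
    (hreg₀ : ∀ 𝔫 : Ideal B₀, 𝔫.IsMaximal →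
      (∀ b : B₀, red (h13gIncl W B₀ hB₀ b) = 0 → b ∈ 𝔫) →
      ∃ σ g : B₀, σ ∉ 𝔫 ∧ red (h13gIncl W B₀ hB₀ σ * ⟨f, hf⟩) = red (h13gIncl W B₀ hB₀ g))
    (hreg₁ : ∀ 𝔫 : Ideal B₁, 𝔫.IsMaximal → (⟨s, hs⟩ : B₁) ∈ 𝔫 →
      (∀ b : B₁, red (h13gIncl W B₁ hB₁ b) = 0 → b ∈ 𝔫) →
      ∃ σ g : B₁, σ ∉ 𝔫 ∧ red (h13gIncl W B₁ hB₁ σ * ⟨f, hf⟩) = red (h13gIncl W B₁ hB₁ g)) :
    ∃ a : A, red ⟨f, hf⟩ = red (h13gCst W hAW a) := by
  classical
  have hsW : s ∈ W := hB₁ s hs
  have hτσ : red ⟨t, ht⟩ * red ⟨s, hsW⟩ = 1 := by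
    rw [← map_mul]
    have : (⟨t, ht⟩ : W) * ⟨s, hsW⟩ = 1 := Subtype.ext hts
    rw [this, map_one]
  -- the two reduced charts
  have side : ∀ (B : Subalgebra A F) (hB : ∀ b ∈ B, b ∈ W) (r : F) (hr : r ∈ W)
      (P : B → Prop),
      (∀ b ∈ B, IsIntegral (Subring.closure (C ∪ {r})) b) →
      (∀ 𝔫 : Ideal B, 𝔫.IsMaximal → (∀ x, P x → x ∈ 𝔫) →
        (∀ b : B, red (h13gIncl W B hB b) = 0 → b ∈ 𝔫) →
        ∃ σ g : B, σ ∉ 𝔫 ∧ red (h13gIncl W B hB σ * ⟨f, hf⟩) = red (h13gIncl W B hB g)) →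
      (∀ y ∈ (red.comp (h13gIncl W B hB)).range,
        IsIntegral (Subring.closure (((h13gK₀ W hAW red : Subring K) : Set K) ∪
          {red ⟨r, hr⟩})) y) ∧
      (∀ 𝔪 : Ideal (red.comp (h13gIncl W B hB)).range, 𝔪.IsMaximal →
        (∀ x : B, P x → (red.comp (h13gIncl W B hB)).rangeRestrict x ∈ 𝔪) →
        ∃ a s : (red.comp (h13gIncl W B hB)).range, s ∉ 𝔪 ∧ (s : K) * red ⟨f, hf⟩ = a) := by
    intro B hB r hr P hint hreg
    refine ⟨?_, ?_⟩
    · rintro y ⟨b, rfl⟩
      exact h13g_int_red W hAW red C hC r hr (b : F) (hB b b.2) (hint b b.2)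
    · intro 𝔪 h𝔪 hP
      set ρ : B →+* (red.comp (h13gIncl W B hB)).range :=
        (red.comp (h13gIncl W B hB)).rangeRestrict with hρ
      have hsurj : Function.Surjective ρ := (red.comp (h13gIncl W B hB)).rangeRestrict_surjective
      have hmax : (𝔪.comap ρ).IsMaximal := Ideal.comap_isMaximal_of_surjective ρ hsurj
      obtain ⟨σ, g, hσ, hσg⟩ := hreg (𝔪.comap ρ) hmax
        (fun x hx => Ideal.mem_comap.mpr (hP x hx)) (by
        intro b hb
        rw [Ideal.mem_comap]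
        have : ρ b = 0 := Subtype.ext hb
        rw [this]; exact 𝔪.zero_mem)
      refine ⟨ρ g, ρ σ, fun h => hσ (Ideal.mem_comap.mpr h), ?_⟩
      rw [map_mul] at hσg
      exact hσg
  obtain ⟨hi₀, hl₀⟩ := side B₀ hB₀ t ht (fun _ => False) hint₀
    (fun 𝔫 h𝔫 _ hker => hreg₀ 𝔫 h𝔫 hker)
  obtain ⟨hi₁, hl₁⟩ := side B₁ hB₁ s hsW (fun x => x = ⟨s, hs⟩) hint₁
    (fun 𝔫 h𝔫 hP hker => hreg₁ 𝔫 h𝔫 (hP _ rfl) hker)
  have hσR : red ⟨s, hsW⟩ ∈ (red.comp (h13gIncl W B₁ hB₁)).range := ⟨⟨s, hs⟩, rfl⟩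
  have hz := h13g_liouville_res (h13gK₀ W hAW red) _ _ hk _ _ hτσ hσR hi₀ hi₁ (red ⟨f, hf⟩)
    (fun 𝔪 h𝔪 => hl₀ 𝔪 h𝔪 (fun _ h => h.elim))
    (fun 𝔪 h𝔪 hσ𝔪 => hl₁ 𝔪 h𝔪 (fun x hx => by
      rw [hx]
      exact hσ𝔪))
  obtain ⟨a, ha⟩ := hz
  exact ⟨a, ha.symm⟩

end Lift

end Fermat.Agent.P7
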