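import Mathlib
import Fermat.Agent.S28.ADefs

/-!
# Wave 7, block (A) DLOG, leaf DL5-CORE (helper14, prefix `h14k_`)

The analytic core of CUSP-ORTH: a function `G` on the upper half plane which is invariant of
weight `2` under `S` and `T` and has a Laurent expansion in `𝕋 = exp (2πiτ/N)` has constant
term `0`.

Proof: the expansion gives an explicit primitive `Φ = c₀ τ + (periodic)`; the differences
`Φ (S τ) - Φ τ` and `Φ (τ + 1) - Φ τ` are constants `c_S`, `c_T`; `S ^ 2 = 1` on `ℍ` gives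
`c_S = 0`, `(S T) ^ 3 = 1` on `ℍ` gives `3 c_T = 0`, and `Φ (τ + N) - Φ τ = N c₀`.
-/

set_option autoImplicit false

open Complex UpperHalfPlane Function.Periodic
open scoped MatrixGroups Topology

noncomputable section

namespace Fermat.Agent.P7

/-- geometric domination of the coefficients of a power series converging on the unit disc. -/
theorem h14k_bound (b : ℕ → ℂ) (hb : ∀ z : ℂ, ‖z‖ < 1 → Summable (fun n => b n * z ^ n))
    {r : ℝ} (hr0 : 0 ≤ r) (hr : r < 1) :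
    ∃ u : ℕ → ℝ, Summable u ∧ ∀ (n : ℕ) (w : ℂ), ‖w‖ < r → ‖b n * w ^ n‖ ≤ u n := by
  obtain ⟨r', hr'⟩ : ∃ r' : ℝ, r' = (1 + r) / 2 := ⟨_, rfl⟩
  have hr'1 : r' < 1 := by rw [hr']; linarith
  have hrr' : r < r' := by rw [hr']; linarith
  have hr'0 : 0 < r' := lt_of_le_of_lt hr0 hrr'
  have hsum : Summable (fun n => b n * ((r' : ℂ)) ^ n) := by
    apply hb
    rw [Complex.norm_real, Real.norm_eq_abs, abs_of_pos hr'0]
    exact hr'1
  have hsn : Summable (fun n => ‖b n * ((r' : ℂ)) ^ n‖) := hsum.norm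
  obtain ⟨C, hC⟩ : ∃ C : ℝ, C = ∑' n, ‖b n * ((r' : ℂ)) ^ n‖ := ⟨_, rfl⟩
  have hCn : ∀ n, ‖b n‖ * r' ^ n ≤ C := by
    intro n
    have h1 : ‖b n * ((r' : ℂ)) ^ n‖ ≤ C := by
      rw [hC]
      exact hsn.le_tsum n (fun j _ => norm_nonneg _)
    rwa [norm_mul, norm_pow, Complex.norm_real, Real.norm_eq_abs, abs_of_pos hr'0] at h1
  have hq0 : 0 ≤ r / r' := div_nonneg hr0 hr'0.le
  have hq1 : r / r' < 1 := (div_lt_one hr'0).2 hrr'
  refine ⟨fun n => C * (r / r') ^ n, (summable_geometric_of_lt_one hq0 hq1).mul_left C, ?_⟩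
  intro n w hw
  rw [norm_mul, norm_pow]
  have h1 : ‖w‖ ^ n ≤ r ^ n := pow_le_pow_left₀ (norm_nonneg _) hw.le n
  have h2 : r ^ n = r' ^ n * (r / r') ^ n := by
    rw [← mul_pow]
    congr 1
    field_simp
  calc ‖b n‖ * ‖w‖ ^ n ≤ ‖b n‖ * r ^ n := mul_le_mul_of_nonneg_left h1 (norm_nonneg _)
    _ = (‖b n‖ * r' ^ n) * (r / r') ^ n := by rw [h2]; ring
    _ ≤ C * (r / r') ^ n := mul_le_mul_of_nonneg_right (hCn n) (pow_nonneg hq0 n)

/-- termwise differentiation of a power series converging on the unit disc. -/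
theorem h14k_series_deriv (b : ℕ → ℂ)
    (hb : ∀ z : ℂ, ‖z‖ < 1 → Summable (fun n => b n * z ^ n)) (w : ℂ) (hw : ‖w‖ < 1) :
    HasSum (fun n : ℕ => (n : ℂ) * b n * w ^ (n - 1))
        (deriv (fun z : ℂ => ∑' n, b n * z ^ n) w) ∧
      DifferentiableAt ℂ (fun z : ℂ => ∑' n, b n * z ^ n) w := by
  obtain ⟨r, hr⟩ : ∃ r : ℝ, r = (1 + ‖w‖) / 2 := ⟨_, rfl⟩
  have hr1 : r < 1 := by rw [hr]; linarith
  have hwr : ‖w‖ < r := by rw [hr]; linarith
  have hr0 : 0 ≤ r := le_trans (norm_nonneg _) hwr.le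
  obtain ⟨u, hu, hle⟩ := h14k_bound b hb hr0 hr1
  have hU : IsOpen (Metric.ball (0 : ℂ) r) := Metric.isOpen_ball
  have hwU : w ∈ Metric.ball (0 : ℂ) r := by
    rw [Metric.mem_ball, dist_zero_right]; exact hwr
  have hf : ∀ n : ℕ, DifferentiableOn ℂ (fun z : ℂ => b n * z ^ n) (Metric.ball (0 : ℂ) r) :=
    fun n => (Differentiable.const_mul (differentiable_id.pow n) _).differentiableOn
  have hF : ∀ (n : ℕ) (z : ℂ), z ∈ Metric.ball (0 : ℂ) r → ‖b n * z ^ n‖ ≤ u n := by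
    intro n z hz
    apply hle
    rwa [Metric.mem_ball, dist_zero_right] at hz
  have h1 := hasSum_deriv_of_summable_norm hu hf hU hF hwU
  have h2 := differentiableOn_tsum_of_summable_norm hu hf hU hF
  refine ⟨?_, (h2 w hwU).differentiableAt (hU.mem_nhds hwU)⟩
  have h3 : (fun n : ℕ => deriv (fun z : ℂ => b n * z ^ n) w)
      = fun n : ℕ => (n : ℂ) * b n * w ^ (n - 1) := by
    funext n
    rw [deriv_const_mul _ (differentiable_id.pow n).differentiableAt]
    simp only [deriv_pow_field]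
    ring
  rw [h3] at h1
  exact h1


/-! ## The explicit primitive -/

/-- coefficients of the primitive. -/
def h14kB (M : ℕ) (p : ℕ → ℂ) (n : ℕ) : ℂ :=
  if n = M then 0 else p n / ((n : ℂ) - (M : ℂ))

/-- the power series part of the primitive. -/
def h14kF (M : ℕ) (p : ℕ → ℂ) (w : ℂ) : ℂ := ∑' n, h14kB M p n * w ^ n

theorem h14kB_norm_le (M : ℕ) (p : ℕ → ℂ) (n : ℕ) : ‖h14kB M p n‖ ≤ ‖p n‖ := by
  unfold h14kB
  split_ifs with h
  · simp
  · rw [norm_div]
    have h1 : (1 : ℝ) ≤ ‖(n : ℂ) - (M : ℂ)‖ := by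
      have h2 : ((n : ℂ) - (M : ℂ)) = (((n : ℤ) - (M : ℤ) : ℤ) : ℂ) := by push_cast; ring
      rw [h2, Complex.norm_intCast]
      have h3 : ((n : ℤ) - (M : ℤ)) ≠ 0 := by
        intro h0
        apply h
        omega
      have h4 : (1 : ℤ) ≤ |(n : ℤ) - (M : ℤ)| := Int.one_le_abs h3
      exact_mod_cast h4
    exact div_le_self (norm_nonneg _) h1

theorem h14kB_mul (M : ℕ) (p : ℕ → ℂ) (n : ℕ) :
    ((n : ℂ) - (M : ℂ)) * h14kB M p n = p n - (if n = M then p M else 0) := by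
  unfold h14kB
  split_ifs with h
  · subst h; simp
  · have h1 : ((n : ℂ) - (M : ℂ)) ≠ 0 := by
      intro h0
      apply h
      have h2 : (n : ℂ) = (M : ℂ) := sub_eq_zero.1 h0
      exact_mod_cast h2
    rw [sub_zero, mul_div_cancel₀ _ h1]

theorem h14kB_summable (M : ℕ) (p : ℕ → ℂ)
    (hp : ∀ z : ℂ, ‖z‖ < 1 → Summable (fun n => p n * z ^ n)) (z : ℂ) (hz : ‖z‖ < 1) :
    Summable (fun n => h14kB M p n * z ^ n) := by
  refine Summable.of_norm_bounded (hp z hz).norm (fun n => ?_)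
  rw [norm_mul, norm_mul]
  exact mul_le_mul_of_nonneg_right (h14kB_norm_le M p n) (norm_nonneg _)

/-- the key identity `w F'(w) - M F(w) = P(w) - p_M w^M`. -/
theorem h14kF_key (M : ℕ) (p : ℕ → ℂ)
    (hp : ∀ z : ℂ, ‖z‖ < 1 → Summable (fun n => p n * z ^ n)) (w : ℂ) (hw : ‖w‖ < 1) :
    w * deriv (h14kF M p) w - (M : ℂ) * h14kF M p w = (∑' n, p n * w ^ n) - p M * w ^ M := by
  obtain ⟨h1, -⟩ := h14k_series_deriv (h14kB M p) (h14kB_summable M p hp) w hw
  have h2 : HasSum (fun n => h14kB M p n * w ^ n) (h14kF M p w) :=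
    (h14kB_summable M p hp w hw).hasSum
  have h3 := (h1.mul_left w).sub (h2.mul_left (M : ℂ))
  have h4 : (fun n : ℕ => w * ((n : ℂ) * h14kB M p n * w ^ (n - 1))
        - (M : ℂ) * (h14kB M p n * w ^ n))
      = fun n : ℕ => p n * w ^ n - (if n = M then p M * w ^ M else 0) := by
    funext n
    have h5 : w * ((n : ℂ) * h14kB M p n * w ^ (n - 1)) = (n : ℂ) * h14kB M p n * w ^ n := by
      rcases Nat.eq_zero_or_pos n with h0 | h0
      · subst h0; simp
      · have h6 : w ^ n = w * w ^ (n - 1) := by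
          rw [← pow_succ', Nat.sub_add_cancel h0]
        rw [h6]; ring
    rw [h5]
    have h7 := h14kB_mul M p n
    have h8 : (n : ℂ) * h14kB M p n * w ^ n - (M : ℂ) * (h14kB M p n * w ^ n)
        = (((n : ℂ) - (M : ℂ)) * h14kB M p n) * w ^ n := by ring
    rw [h8, h7]
    split_ifs with h
    · subst h; ring
    · ring
  rw [h4] at h3
  have h9 : HasSum (fun n : ℕ => p n * w ^ n - (if n = M then p M * w ^ M else 0))
      ((∑' n, p n * w ^ n) - p M * w ^ M) :=
    (hp w hw).hasSum.sub (hasSum_ite_eq M (p M * w ^ M))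
  have h10 : deriv (fun z : ℂ => ∑' n, h14kB M p n * z ^ n) w = deriv (h14kF M p) w := rfl
  rw [h10] at h3
  exact h3.unique h9

theorem h14kF_differentiableAt (M : ℕ) (p : ℕ → ℂ)
    (hp : ∀ z : ℂ, ‖z‖ < 1 → Summable (fun n => p n * z ^ n)) (w : ℂ) (hw : ‖w‖ < 1) :
    DifferentiableAt ℂ (h14kF M p) w :=
  (h14k_series_deriv (h14kB M p) (h14kB_summable M p hp) w hw).2

/-- the primitive. -/
def h14kPhi (N M : ℕ) (p : ℕ → ℂ) (z : ℂ) : ℂ :=
  p M * z + (N : ℂ) / (2 * Real.pi * Complex.I) *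
    (h14kF M p (qParam (N : ℝ) z) / qParam (N : ℝ) z ^ M)

theorem h14k_hasDerivAt_qParam (N : ℕ) (z : ℂ) :
    HasDerivAt (qParam (N : ℝ)) (2 * Real.pi * Complex.I / (N : ℂ) * qParam (N : ℝ) z) z := by
  have h1 : HasDerivAt (fun z : ℂ => 2 * Real.pi * Complex.I * z / ((N : ℝ) : ℂ))
      (2 * Real.pi * Complex.I / (N : ℂ)) z := by
    have h2 : HasDerivAt (fun z : ℂ => 2 * Real.pi * Complex.I / (N : ℂ) * z)
        (2 * Real.pi * Complex.I / (N : ℂ) * 1) z := (hasDerivAt_id z).const_mul _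
    rw [mul_one] at h2
    refine h2.congr_of_eventuallyEq (Filter.Eventually.of_forall fun y => ?_)
    simp only [Complex.ofReal_natCast]
    ring
  have h3 : HasDerivAt (fun z : ℂ => cexp (2 * Real.pi * Complex.I * z / ((N : ℝ) : ℂ)))
      (cexp (2 * Real.pi * Complex.I * z / ((N : ℝ) : ℂ)) * (2 * Real.pi * Complex.I / (N : ℂ)))
      z := h1.cexp
  have h4 : (fun z : ℂ => cexp (2 * Real.pi * Complex.I * z / ((N : ℝ) : ℂ)))
      = qParam (N : ℝ) := rfl
  rw [h4] at h3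
  have h5 : cexp (2 * Real.pi * Complex.I * z / ((N : ℝ) : ℂ)) = qParam (N : ℝ) z := rfl
  rw [h5, mul_comm] at h3
  exact h3

theorem h14k_qParam_add (N : ℕ) (hN : 0 < N) (z : ℂ) :
    qParam (N : ℝ) (z + (N : ℂ)) = qParam (N : ℝ) z := by
  have hN' : (N : ℂ) ≠ 0 := by exact_mod_cast hN.ne'
  unfold qParam
  have h1 : 2 * (Real.pi : ℂ) * Complex.I * (z + (N : ℂ)) / ((N : ℝ) : ℂ)
      = 2 * Real.pi * Complex.I * z / ((N : ℝ) : ℂ) + 2 * Real.pi * Complex.I := by
    simp only [Complex.ofReal_natCast]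
    field_simp
  rw [h1, Complex.exp_add, Complex.exp_two_pi_mul_I, mul_one]

theorem h14kPhi_add (N M : ℕ) (hN : 0 < N) (p : ℕ → ℂ) (z : ℂ) :
    h14kPhi N M p (z + (N : ℂ)) = h14kPhi N M p z + (N : ℂ) * p M := by
  unfold h14kPhi
  rw [h14k_qParam_add N hN z]
  ring

/-- the derivative of the primitive. -/
theorem h14kPhi_hasDerivAt (N M : ℕ) (hN : 0 < N) (p : ℕ → ℂ)
    (hp : ∀ z : ℂ, ‖z‖ < 1 → Summable (fun n => p n * z ^ n)) (z : ℂ) (hz : 0 < z.im) (g : ℂ)
    (hg : g * qParam (N : ℝ) z ^ M = ∑' n, p n * qParam (N : ℝ) z ^ n) :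
    HasDerivAt (h14kPhi N M p) g z := by
  have hN' : (N : ℂ) ≠ 0 := by exact_mod_cast hN.ne'
  have hNr : (0 : ℝ) < (N : ℝ) := by exact_mod_cast hN
  have hq1 : ‖qParam (N : ℝ) z‖ < 1 := norm_qParam_lt_one hNr hz
  have hq0 : qParam (N : ℝ) z ≠ 0 := qParam_ne_zero z
  have hpi : (2 * (Real.pi : ℂ) * Complex.I) ≠ 0 := by
    have := Real.pi_ne_zero
    simp [this]
  have hq := h14k_hasDerivAt_qParam N z
  have hF : HasDerivAt (h14kF M p) (deriv (h14kF M p) (qParam (N : ℝ) z)) (qParam (N : ℝ) z) :=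
    (h14kF_differentiableAt M p hp _ hq1).hasDerivAt
  have hFq : HasDerivAt (fun y => h14kF M p (qParam (N : ℝ) y))
      (deriv (h14kF M p) (qParam (N : ℝ) z)
        * (2 * Real.pi * Complex.I / (N : ℂ) * qParam (N : ℝ) z)) z := hF.comp z hq
  have hpw : HasDerivAt (fun y => qParam (N : ℝ) y ^ M)
      ((M : ℂ) * qParam (N : ℝ) z ^ (M - 1)
        * (2 * Real.pi * Complex.I / (N : ℂ) * qParam (N : ℝ) z)) z := hq.pow M
  have hqM : qParam (N : ℝ) z ^ M ≠ 0 := pow_ne_zero M hq0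
  have hdiv := hFq.fun_div hpw hqM
  have h1 := ((hasDerivAt_id z).const_mul (p M)).add (hdiv.const_mul
    ((N : ℂ) / (2 * Real.pi * Complex.I)))
  have hkey := h14kF_key M p hp _ hq1
  have hrel : (M : ℂ) * qParam (N : ℝ) z ^ (M - 1) * qParam (N : ℝ) z
      = (M : ℂ) * qParam (N : ℝ) z ^ M := by
    rcases Nat.eq_zero_or_pos M with hM | hM
    · subst hM; simp
    · rw [mul_assoc, ← pow_succ, Nat.sub_add_cancel hM]
  refine (h1.congr_deriv ?_).congr_of_eventuallyEq (Filter.Eventually.of_forall fun y => ?_)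
  · -- the value of the derivative
    have h2 : (∑' n, p n * qParam (N : ℝ) z ^ n)
        = qParam (N : ℝ) z * deriv (h14kF M p) (qParam (N : ℝ) z)
          - (M : ℂ) * h14kF M p (qParam (N : ℝ) z) + p M * qParam (N : ℝ) z ^ M := by
      rw [hkey]; ring
    rw [h2] at hg
    have h3 : g = (qParam (N : ℝ) z * deriv (h14kF M p) (qParam (N : ℝ) z)
          - (M : ℂ) * h14kF M p (qParam (N : ℝ) z) + p M * qParam (N : ℝ) z ^ M)
          / qParam (N : ℝ) z ^ M := by
      rw [← hg, mul_div_cancel_right₀ _ hqM]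
    rw [h3]
    generalize qParam (N : ℝ) z ^ (M - 1) = Y at hrel ⊢
    generalize qParam (N : ℝ) z ^ M = X at hrel hqM ⊢
    generalize deriv (h14kF M p) (qParam (N : ℝ) z) = F' at *
    generalize h14kF M p (qParam (N : ℝ) z) = F0 at *
    generalize qParam (N : ℝ) z = Q at *
    field_simp
    linear_combination (-F0) * hrel
  · rfl


/-! ## The main theorem -/

/-- **DL5-CORE.**  A function on the upper half plane which is invariant of weight `2` under
`S` and `T` and has a Laurent expansion in `𝕋 = exp (2πiτ/N)` has constant term `0`. -/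
theorem h14k_const_zero_aux (N : ℕ) (hN : 0 < N) (G : ℍ → ℂ)
    (hT : ∀ τ : ℍ, G (ModularGroup.T • τ) = G τ)
    (hS : ∀ τ : ℍ, G (ModularGroup.S • τ) = (τ : ℂ) ^ 2 * G τ)
    (M : ℕ) (p : ℕ → ℂ)
    (hs : ∀ τ : ℍ, HasSum (fun n : ℕ => p n * qParam (N : ℝ) (τ : ℂ) ^ n)
      (G τ * qParam (N : ℝ) (τ : ℂ) ^ M)) : p M = 0 := by
  have hNr : (0 : ℝ) < (N : ℝ) := by exact_mod_cast hN
  -- convergence on the unit disc
  have hp : ∀ z : ℂ, ‖z‖ < 1 → Summable (fun n => p n * z ^ n) := by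
    intro z hz
    rcases eq_or_ne z 0 with h0 | h0
    · subst h0
      refine summable_of_ne_finset_zero (s := {0}) (fun n hn => ?_)
      have hn0 : n ≠ 0 := by simpa using hn
      simp [hn0]
    · have him : 0 < (invQParam (N : ℝ) z).im := by
        rw [im_invQParam]
        have h1 : Real.log ‖z‖ < 0 := Real.log_neg (norm_pos_iff.2 h0) hz
        have h2 : -(N : ℝ) / (2 * Real.pi) < 0 :=
          div_neg_of_neg_of_pos (neg_lt_zero.2 hNr) (by positivity)
        exact mul_pos_of_neg_of_neg h2 h1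
      have h3 := (hs ⟨invQParam (N : ℝ) z, him⟩).summable
      have h4 : qParam (N : ℝ) ((⟨invQParam (N : ℝ) z, him⟩ : ℍ) : ℂ) = z :=
        qParam_right_inv hNr.ne' h0
      rw [h4] at h3
      exact h3
  -- the lift of `G` to `ℂ`
  obtain ⟨g, hg⟩ : ∃ g : ℂ → ℂ, ∀ (z : ℂ) (hz : 0 < z.im), g z = G ⟨z, hz⟩ :=
    ⟨fun z => if hz : 0 < z.im then G ⟨z, hz⟩ else 0, fun z hz => by simp [hz]⟩
  have hΦ : ∀ z : ℂ, 0 < z.im → HasDerivAt (h14kPhi N M p) (g z) z := by
    intro z hz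
    refine h14kPhi_hasDerivAt N M hN p hp z hz (g z) ?_
    rw [hg z hz]
    exact ((hs ⟨z, hz⟩).tsum_eq).symm
  have hUo : IsOpen {z : ℂ | 0 < z.im} := isOpen_lt continuous_const Complex.continuous_im
  have hUc : IsPreconnected {z : ℂ | 0 < z.im} := (convex_halfSpace_im_gt 0).isPreconnected
  -- invariance under `T`
  have hgT : ∀ z : ℂ, 0 < z.im → g (z + 1) = g z := by
    intro z hz
    have hz1 : 0 < (z + 1).im := by simpa using hz
    rw [hg z hz, hg (z + 1) hz1, ← hT ⟨z, hz⟩]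
    congr 1
    apply UpperHalfPlane.ext
    rw [modular_T_smul, coe_vadd]
    simp [add_comm]
  -- invariance under `S`
  have hSim : ∀ z : ℂ, 0 < z.im → 0 < (-z⁻¹).im := by
    intro z hz
    have := (⟨z, hz⟩ : ℍ).im_inv_neg_coe_pos
    simpa [inv_neg] using this
  have hgS : ∀ z : ℂ, 0 < z.im → g (-z⁻¹) = z ^ 2 * g z := by
    intro z hz
    rw [hg z hz, hg (-z⁻¹) (hSim z hz)]
    have h1 := hS ⟨z, hz⟩
    rw [← h1]
    congr 1
    apply UpperHalfPlane.ext
    rw [modular_S_smul]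
    simp [inv_neg]
  -- the `T`-difference is constant
  have hcT : ∀ z : ℂ, 0 < z.im → ∀ w : ℂ, 0 < w.im →
      h14kPhi N M p (z + 1) - h14kPhi N M p z = h14kPhi N M p (w + 1) - h14kPhi N M p w := by
    intro z hz w hw
    have hd : ∀ y : ℂ, 0 < y.im →
        HasDerivAt (fun y => h14kPhi N M p (y + 1) - h14kPhi N M p y) 0 y := by
      intro y hy
      have hy1 : 0 < (y + 1).im := by simpa using hy
      have h1 : HasDerivAt (fun y : ℂ => y + 1) 1 y := (hasDerivAt_id y).add_const 1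
      have h2' : HasDerivAt (h14kPhi N M p ∘ fun y : ℂ => y + 1) (g (y + 1) * 1) y :=
        HasDerivAt.comp y (hΦ (y + 1) hy1) h1
      have h2 : HasDerivAt (fun y => h14kPhi N M p (y + 1)) (g (y + 1) * 1) y := h2'
      have h3 := h2.sub (hΦ y hy)
      rw [mul_one, hgT y hy, sub_self] at h3
      exact h3
    exact hUo.is_const_of_deriv_eq_zero hUc
      (fun y hy => (hd y hy).differentiableAt.differentiableWithinAt)
      (fun y hy => (hd y hy).deriv) hz hw
  -- the `S`-difference is constant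
  have hcS : ∀ z : ℂ, 0 < z.im → ∀ w : ℂ, 0 < w.im →
      h14kPhi N M p (-z⁻¹) - h14kPhi N M p z = h14kPhi N M p (-w⁻¹) - h14kPhi N M p w := by
    intro z hz w hw
    have hd : ∀ y : ℂ, 0 < y.im →
        HasDerivAt (fun y => h14kPhi N M p (-y⁻¹) - h14kPhi N M p y) 0 y := by
      intro y hy
      have hy0 : y ≠ 0 := by
        intro h0
        rw [h0] at hy
        simp at hy
      have h1 : HasDerivAt (fun y : ℂ => -y⁻¹) (-(-(y ^ 2)⁻¹)) y := (hasDerivAt_inv hy0).neg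
      have h2' : HasDerivAt (h14kPhi N M p ∘ fun y : ℂ => -y⁻¹)
          (g (-y⁻¹) * (-(-(y ^ 2)⁻¹))) y :=
        HasDerivAt.comp y (hΦ (-y⁻¹) (hSim y hy)) h1
      have h2 : HasDerivAt (fun y => h14kPhi N M p (-y⁻¹)) (g (-y⁻¹) * (-(-(y ^ 2)⁻¹))) y :=
        h2'
      have h3 := h2.sub (hΦ y hy)
      have h4 : g (-y⁻¹) * (-(-(y ^ 2)⁻¹)) - g y = 0 := by
        rw [hgS y hy]
        field_simp
        ring
      rw [h4] at h3
      exact h3
    exact hUo.is_const_of_deriv_eq_zero hUc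
      (fun y hy => (hd y hy).differentiableAt.differentiableWithinAt)
      (fun y hy => (hd y hy).deriv) hz hw
  -- `S` fixes `i`
  have hI : (0 : ℝ) < (Complex.I).im := by simp
  have hS0 : ∀ w : ℂ, 0 < w.im → h14kPhi N M p (-w⁻¹) = h14kPhi N M p w := by
    intro w hw
    have h1 := hcS w hw Complex.I hI
    have h2 : -(Complex.I)⁻¹ = Complex.I := by simp
    rw [h2, sub_self] at h1
    exact sub_eq_zero.1 h1
  -- `S T` fixes `ρ`
  obtain ⟨ρ, hρ⟩ : ∃ ρ : ℂ, ρ = ⟨-1 / 2, Real.sqrt 3 / 2⟩ := ⟨_, rfl⟩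
  have hρim : 0 < ρ.im := by
    rw [hρ]
    show 0 < Real.sqrt 3 / 2
    positivity
  have hρ1im : 0 < (ρ + 1).im := by simpa using hρim
  have hρrel : ρ * (ρ + 1) = -1 := by
    have h3 : Real.sqrt 3 * Real.sqrt 3 = 3 := Real.mul_self_sqrt (by norm_num)
    rw [hρ]
    apply Complex.ext
    · simp only [Complex.mul_re, Complex.add_re, Complex.add_im, Complex.one_re, Complex.one_im,
        Complex.neg_re]
      nlinarith [h3]
    · simp only [Complex.mul_im, Complex.add_re, Complex.add_im, Complex.one_re, Complex.one_im,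
        Complex.neg_im]
      ring
  have hρfix : -(ρ + 1)⁻¹ = ρ := by
    have h0 : ρ + 1 ≠ 0 := by
      intro h
      rw [h, mul_zero] at hρrel
      norm_num at hρrel
    field_simp
    linear_combination -hρrel
  have hT0 : ∀ w : ℂ, 0 < w.im → h14kPhi N M p (w + 1) = h14kPhi N M p w := by
    intro w hw
    have h1 := hcT w hw ρ hρim
    have h2 := hS0 (ρ + 1) hρ1im
    rw [hρfix] at h2
    rw [← h2, sub_self] at h1
    exact sub_eq_zero.1 h1
  have hTk : ∀ k : ℕ, h14kPhi N M p (Complex.I + (k : ℂ)) = h14kPhi N M p Complex.I := by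
    intro k
    induction k with
    | zero => simp
    | succ k ih =>
      have hk : 0 < (Complex.I + (k : ℂ)).im := by simp
      have h1 := hT0 _ hk
      rw [ih] at h1
      rw [← h1]
      congr 1
      push_cast
      ring
  have h5 := h14kPhi_add N M hN p Complex.I
  rw [hTk N] at h5
  have h6 : (N : ℂ) * p M = 0 := by
    have := h5
    linear_combination -this
  have hN' : (N : ℂ) ≠ 0 := by exact_mod_cast hN.ne'
  exact (mul_eq_zero.1 h6).resolve_left hN'

/-- **DL5-CORE**, in the `HasTExp` vocabulary of the tree. -/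
theorem h14k_const_zero (N : ℕ) (hN : 0 < N) (G : ℍ → ℂ)
    (hT : ∀ τ : ℍ, G (ModularGroup.T • τ) = G τ)
    (hS : ∀ τ : ℍ, G (ModularGroup.S • τ) = (τ : ℂ) ^ 2 * G τ)
    (s : LaurentSeries ℂ) (hs : Fermat.Agent.S28.HasTExp N G s) : s.coeff 0 = 0 := by
  obtain ⟨M, p, hsp, hsum⟩ := hs
  have h1 : PowerSeries.coeff M p = 0 :=
    h14k_const_zero_aux N hN G hT hS M (fun n => PowerSeries.coeff n p) hsum
  have h2 : (0 : ℤ) = (M : ℤ) + (-(M : ℤ)) := by ring
  rw [hsp, h2, HahnSeries.coeff_single_mul_add, HahnSeries.ofPowerSeries_apply_coeff, h1,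
    mul_zero]

/-- the same with the full `SL(2, ℤ)`-invariance of weight `2` as hypothesis. -/
theorem h14k_const_zero_of_slash (N : ℕ) (hN : 0 < N) (G : ℍ → ℂ)
    (hG : ∀ (γ : SL(2, ℤ)) (τ : ℍ), G (γ • τ) = (denom γ τ) ^ 2 * G τ)
    (s : LaurentSeries ℂ) (hs : Fermat.Agent.S28.HasTExp N G s) : s.coeff 0 = 0 := by
  refine h14k_const_zero N hN G (fun τ => ?_) (fun τ => ?_) s hs
  · have h1 : denom ModularGroup.T τ = 1 := by
      rw [ModularGroup.denom_apply]
      simp [ModularGroup.coe_T]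
    rw [hG ModularGroup.T τ, h1, one_pow, one_mul]
  · rw [hG ModularGroup.S τ, ModularGroup.denom_S]

end Fermat.Agent.P7
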