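import Fermat.Agent.P7.H15GenusIface
import Fermat.Agent.Jac.Rig
import Fermat.Agent.Jac.Orbit
import Fermat.Agent.Jac.Desc0
import Fermat.Agent.Jac.BaseChangeOrd
import Fermat.Agent.Jac.DegC
import Fermat.Agent.P5.H13GBase
import Fermat.Agent.P5.H68RRFin

/-!
# Wave 7, block (A), DLOG leaf DL6B GENUS-MATCH, leaf GM-2: Galois descent of `L(n (j)_∞)`
from `ℂ` to `ℚ̄` (helper15, prefix `h15g_`)

`h15g_descent : H15gDescent`.

Proof.  `V = L_ℂ(n (j)_∞) ⊆ F_ℂ` is a Riemann–Roch space, so it is finite-dimensional (P5 weak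
Riemann–Roch over `ℂ`), and it is stable under the coefficientwise action of `Aut(ℂ/ℚ)` (the
`j`-function has rational coefficients).  The coefficient functionals separate the points of `V`,
so there are indices `s_1 … s_d` and elements `b_1 … b_d` of `V` (`d = dim V`) with
`coeff_{s_i} b_j = δ_ij`, and an element of `V` whose coefficients at all `s_i` vanish is `0`
(`h15g_dual_select`, Mathlib only).  Hence every `b_j` is fixed by `Aut(ℂ/ℚ)`, its coefficients
are algebraic (ORBIT), it is the coefficientwise image of a series `y_j` over `ℚ̄`, which lies in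
`F` (DESC0) and in `L(n (j)_∞)` (BCORD).  The `y_j` are independent because of their coefficients
at the `s_i`.
-/

set_option autoImplicit false
set_option linter.unusedSectionVars false
set_option linter.style.haveILetI false

open ModularCurve AlgebraicCurve UpperHalfPlane CongruenceSubgroup
open scoped MatrixGroups Manifold

noncomputable section

namespace Fermat.Agent.P7

open Fermat.Agent.S24 (Kbar FF jBar embC)
open Fermat.Agent.Jac (FC jC)

/-! ### A dual family for a separating family of functionals (Mathlib only) -/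

open Module in
/-- a finite-dimensional space with a separating family of functionals `φ` has indices
`s_1 … s_d` and vectors `b_1 … b_d` (`d` the dimension) with `φ_{s_i} b_j = δ_ij`, the `φ_{s_i}`
being separating already. -/
theorem h15g_dual_select {K V ι : Type*} [Field K] [AddCommGroup V] [Module K V]
    [FiniteDimensional K V] (φ : ι → V →ₗ[K] K)
    (hsep : ∀ x : V, (∀ i, φ i x = 0) → x = 0) :
    ∃ (d : ℕ) (s : Fin d → ι) (b : Fin d → V),
      d = Module.finrank K V ∧
      (∀ i j, φ (s i) (b j) = if i = j then 1 else 0) ∧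
      (∀ x : V, (∀ i, φ (s i) x = 0) → x = 0) := by
  classical
  -- the functionals span the dual
  have hspan : Submodule.span K (Set.range φ) = ⊤ := by
    have h1 : (Submodule.span K (Set.range φ)).dualCoannihilator = ⊥ := by
      rw [eq_bot_iff]
      intro x hx
      rw [Submodule.mem_dualCoannihilator] at hx
      rw [Submodule.mem_bot]
      exact hsep x fun i => hx _ (Submodule.subset_span ⟨i, rfl⟩)
    have h2 := Subspace.dualCoannihilator_dualAnnihilator_eq
      (W := Submodule.span K (Set.range φ))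
    rw [h1, Submodule.dualAnnihilator_bot] at h2
    exact h2.symm
  obtain ⟨t, ht, hts, hli⟩ := exists_linearIndependent K (Set.range φ)
  have htop : ⊤ ≤ Submodule.span K (Set.range (fun x : t => (x : Module.Dual K V))) := by
    rw [Subtype.range_coe, hts, hspan]
  let B : Module.Basis t K (Module.Dual K V) := Module.Basis.mk hli htop
  haveI : Fintype t := FiniteDimensional.fintypeBasisIndex B
  have hB : ∀ i : t, B i = (i : Module.Dual K V) := fun i => Module.Basis.mk_apply hli htop i
  have hs : ∀ i : t, ∃ n : ι, φ n = (i : Module.Dual K V) := fun i => ht i.2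
  choose s hs using hs
  let e : t ≃ Fin (Fintype.card t) := Fintype.equivFin t
  refine ⟨Fintype.card t, fun k => s (e.symm k),
    fun k => (Module.evalEquiv K V).symm (B.dualBasis (e.symm k)), ?_, ?_, ?_⟩
  · rw [← Module.finrank_eq_card_basis B, Subspace.dual_finrank_eq]
  · intro i j
    rw [hs, ← hB, Module.apply_evalEquiv_symm_apply, Module.Basis.dualBasis_apply_self]
    by_cases h : i = j
    · subst h; simp
    · have : e.symm i ≠ e.symm j := fun h' => h (e.symm.injective h')
      simp [h, this]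
  · intro x hx
    rw [← Module.forall_dual_apply_eq_zero_iff K x]
    intro ψ
    have hψ : ψ ∈ Submodule.span K (Set.range B) := by rw [B.span_eq]; trivial
    induction hψ using Submodule.span_induction with
    | mem y hy =>
      obtain ⟨i, rfl⟩ := hy
      have := hx (e i)
      simp only [Equiv.symm_apply_apply] at this
      rw [hs, ← hB] at this
      exact this
    | zero => simp
    | add y z _ _ hy hz => rw [LinearMap.add_apply, hy, hz, add_zero]
    | smul a y _ hy => rw [LinearMap.smul_apply, hy, smul_zero]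

/-! ### The space `L_ℂ(n (j)_∞)` -/

variable (M : ℕ) [NeZero M]

/-- the basic facts for `F_ℂ`. -/
theorem h15g_baseC : Fermat.Agent.P5.H13rBase ℂ (FC M) := by
  haveI := (Fermat.Agent.Jac.h20c_finrank_le_index M).1
  exact Fermat.Agent.P5.h13g_base (jC M) (Fermat.Agent.Jac.h20c_transcendental_jC M)

/-- a divisor `D` with `L(D) = L_ℂ(n (j)_∞)`. -/
theorem h15g_exists_div (n : ℕ) :
    ∃ D : Divisor ℂ (FC M), ∀ v : Place ℂ (FC M), -D v = (n : ℤ) * min 0 (v.ord (jC M)) := by
  classical
  haveI := (Fermat.Agent.Jac.h20c_finrank_le_index M).1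
  obtain ⟨s, hs, -⟩ := Fermat.Agent.P5.h13g_zeros (jC M)
    (Fermat.Agent.Jac.h20c_transcendental_jC M) (jC M)⁻¹ (Or.inr rfl)
  refine ⟨∑ w ∈ s, Finsupp.single w ((n : ℤ) * w.ord (jC M)⁻¹), fun v => ?_⟩
  rw [Finsupp.finsetSum_apply]
  simp only [Finsupp.single_apply]
  rw [Finset.sum_ite_eq' s v]
  by_cases hv : v ∈ s
  · have h1 := (hs v).1 hv
    rw [Place.ord_inv] at h1
    rw [if_pos hv, Place.ord_inv, min_eq_right (by omega : v.ord (jC M) ≤ 0)]
    ring
  · have h1 : ¬ 0 < v.ord (jC M)⁻¹ := fun h => hv ((hs v).2 h)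
    rw [Place.ord_inv] at h1
    rw [if_neg hv, min_eq_left (by omega : (0 : ℤ) ≤ v.ord (jC M))]
    simp

/-- `L_ℂ(n (j)_∞)` as a subspace. -/
def h15gV (n : ℕ) : Submodule ℂ (FC M) :=
  riemannRochSpace (h15g_exists_div M n).choose

theorem h15g_mem_V (n : ℕ) (F : FC M) : F ∈ h15gV M n ↔ H15gInLC M n F := by
  unfold h15gV H15gInLC
  rw [mem_riemannRochSpace_iff]
  refine forall_congr' fun v => ?_
  rw [(h15g_exists_div M n).choose_spec v]

instance h15g_finite_V (n : ℕ) : Module.Finite ℂ (h15gV M n) :=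
  Fermat.Agent.P5.h68r_finite (h15g_baseC M) _

/-! ### The action of `Aut(ℂ/ℚ)` -/

theorem h15g_act_jC (σ : ℂ ≃ₐ[ℚ] ℂ) :
    Fermat.Agent.Jac.H15Rig.act M σ • jC M = jC M := by
  apply Subtype.ext
  rw [coe_arithmeticGalois_smul]
  exact coeffMap_coeffEmb σ jq

theorem h15g_act_mem (n : ℕ) (σ : ℂ ≃ₐ[ℚ] ℂ) {F : FC M} (hF : H15gInLC M n F) :
    H15gInLC M n (Fermat.Agent.Jac.H15Rig.act M σ • F) := by
  intro v
  set g := Fermat.Agent.Jac.H15Rig.act M σ with hg
  have h1 := SemilinearAut.ord_smul g (g⁻¹ • v) F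
  have h2 := SemilinearAut.ord_smul g (g⁻¹ • v) (jC M)
  rw [smul_inv_smul] at h1 h2
  rw [h15g_act_jC] at h2
  rcases hF (g⁻¹ • v) with h0 | h0
  · left
    rw [h0, smul_zero]
  · right
    rw [h1, h2]
    exact h0

theorem h15g_act_coeff (σ : ℂ ≃ₐ[ℚ] ℂ) (F : FC M) (k : ℤ) :
    ((Fermat.Agent.Jac.H15Rig.act M σ • F : FC M) : LaurentSeries ℂ).coeff k
      = σ ((F : LaurentSeries ℂ).coeff k) := by
  rw [coe_arithmeticGalois_smul, coeffMap_coeff]
  rfl

/-! ### Coefficients of scalar multiples -/

theorem h15g_coeff_smulC (c : ℂ) (F : FC M) (k : ℤ) :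
    ((c • F : FC M) : LaurentSeries ℂ).coeff k = c * (F : LaurentSeries ℂ).coeff k := by
  rw [IntermediateField.coe_smul, Algebra.smul_def, algebraMap_laurentSeries_eq_single,
    ← HahnSeries.C_apply, HahnSeries.C_mul_eq_smul, HahnSeries.coeff_smul, smul_eq_mul]

theorem h15g_coeff_smul (c : Kbar) (F : FF M) (k : ℤ) :
    ((c • F : FF M) : LaurentSeries Kbar).coeff k = c * (F : LaurentSeries Kbar).coeff k := by
  rw [IntermediateField.coe_smul, Algebra.smul_def, algebraMap_laurentSeries_eq_single,
    ← HahnSeries.C_apply, HahnSeries.C_mul_eq_smul, HahnSeries.coeff_smul, smul_eq_mul]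

theorem h15g_coeff_sum {ι : Type*} (t : Finset ι) (f : ι → FF M) (k : ℤ) :
    ((∑ j ∈ t, f j : FF M) : LaurentSeries Kbar).coeff k
      = ∑ j ∈ t, ((f j : FF M) : LaurentSeries Kbar).coeff k := by
  classical
  induction t using Finset.induction_on with
  | empty => simp
  | insert a t ha ih =>
    rw [Finset.sum_insert ha, Finset.sum_insert ha, ← ih]
    rfl

/-! ### The coefficient functionals -/

/-- the `k`-th coefficient, as a functional on `L_ℂ(n (j)_∞)`. -/
def h15gCoeff (n : ℕ) (k : ℤ) : h15gV M n →ₗ[ℂ] ℂ where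
  toFun F := ((F : FC M) : LaurentSeries ℂ).coeff k
  map_add' F G := rfl
  map_smul' c F := by
    show (((c • (F : FC M) : FC M)) : LaurentSeries ℂ).coeff k = c • _
    rw [h15g_coeff_smulC, smul_eq_mul]

theorem h15gCoeff_apply (n : ℕ) (k : ℤ) (F : h15gV M n) :
    h15gCoeff M n k F = ((F : FC M) : LaurentSeries ℂ).coeff k := rfl

theorem h15g_coeff_sep (n : ℕ) (F : h15gV M n) (h : ∀ k, h15gCoeff M n k F = 0) : F = 0 := by
  apply Subtype.ext
  apply Subtype.ext
  ext k
  exact h k

/-! ### The descent -/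

theorem h15g_coe_jC : ((jC M : FC M) : LaurentSeries ℂ)
    = coeffMap embC ((jBar M : FF M) : LaurentSeries Kbar) := by
  rw [Fermat.Agent.Jac.coe_jC]
  show coeffEmb ℂ jq = coeffMap embC (coeffEmb Kbar jq)
  unfold coeffEmb
  rw [coeffMap_coeffMap]
  congr 1
  exact (RingHom.ext fun r => by simp [embC]).symm

/-- **GM-2.** Galois descent of `L(n (j)_∞)` from `ℂ` to `ℚ̄`. -/
theorem h15g_descent : H15gDescent := by
  intro M _ n r F hF hFin
  classical
  -- `r ≤ dim V`
  have hr : r ≤ Module.finrank ℂ (h15gV M n) := by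
    let F' : Fin r → h15gV M n := fun i => ⟨F i, (h15g_mem_V M n _).2 (hFin i)⟩
    have hF' : LinearIndependent ℂ F' :=
      LinearIndependent.of_comp (h15gV M n).subtype
        (show LinearIndependent ℂ ((h15gV M n).subtype ∘ F') from hF)
    have := hF'.fintype_card_le_finrank
    rwa [Fintype.card_fin] at this
  obtain ⟨d, s, b, hd, hsb, hinj⟩ := h15g_dual_select (h15gCoeff M n) (h15g_coeff_sep M n)
  -- the `b j` are fixed by `Aut(ℂ/ℚ)`
  have hfix : ∀ (σ : ℂ ≃ₐ[ℚ] ℂ) (j : Fin d),
      Fermat.Agent.Jac.H15Rig.act M σ • ((b j : h15gV M n) : FC M) = (b j : FC M) := by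
    intro σ j
    have hmem : Fermat.Agent.Jac.H15Rig.act M σ • ((b j : h15gV M n) : FC M) ∈ h15gV M n :=
      (h15g_mem_V M n _).2 (h15g_act_mem M n σ ((h15g_mem_V M n _).1 (b j).2))
    have h0 : (⟨_, hmem⟩ : h15gV M n) - b j = 0 := by
      apply hinj
      intro i
      rw [map_sub, h15gCoeff_apply, h15gCoeff_apply]
      show ((Fermat.Agent.Jac.H15Rig.act M σ • ((b j : h15gV M n) : FC M) : FC M) :
        LaurentSeries ℂ).coeff (s i) - _ = 0
      rw [h15g_act_coeff, ← h15gCoeff_apply, hsb]
      split_ifs <;> simp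
    have h1 := congrArg (fun x : h15gV M n => (x : FC M)) (sub_eq_zero.1 h0)
    exact h1
  -- the coefficients are algebraic
  have hcoeff : ∀ (j : Fin d) (k : ℤ),
      (((b j : h15gV M n) : FC M) : LaurentSeries ℂ).coeff k ∈ Set.range embC := by
    intro j k
    refine Fermat.Agent.Jac.orbit ⊤ inferInstance _ fun σ _ => ?_
    rw [← h15g_act_coeff, hfix]
  have hy : ∀ j : Fin d, ∃ y : LaurentSeries Kbar,
      coeffMap embC y = (((b j : h15gV M n) : FC M) : LaurentSeries ℂ) := fun j =>
    Fermat.Agent.Jac.H15Rig.exists_coeffMap_eq _ (hcoeff j)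
  choose y hy using hy
  have hyF : ∀ j, y j ∈ modularFunctionFieldBar M := fun j => by
    refine Fermat.Agent.Jac.desc M (y j) ?_
    rw [hy]
    exact ((b j : h15gV M n) : FC M).2
  have hycoeff : ∀ i j, (y j).coeff (s i) = if i = j then 1 else 0 := by
    intro i j
    have h1 := hsb i j
    rw [h15gCoeff_apply, ← hy, coeffMap_coeff] at h1
    apply embC.injective
    rw [h1]
    split_ifs <;> simp
  -- the family over `ℚ̄`
  let Y : Fin d → FF M := fun j => ⟨y j, hyF j⟩
  have hYli : LinearIndependent Kbar Y := by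
    rw [Fintype.linearIndependent_iff]
    intro a ha i
    have h1 := congrArg (fun z : FF M => (z : LaurentSeries Kbar).coeff (s i)) ha
    have h2 : ((∑ j, a j • Y j : FF M) : LaurentSeries Kbar).coeff (s i) = a i := by
      rw [h15g_coeff_sum]
      have h3 : ∀ j ∈ Finset.univ, ((a j • Y j : FF M) : LaurentSeries Kbar).coeff (s i)
          = if i = j then a j else 0 := by
        intro j _
        rw [h15g_coeff_smul]
        show a j * (y j).coeff (s i) = _
        rw [hycoeff]
        split_ifs <;> simp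
      rw [Finset.sum_congr rfl h3, Finset.sum_ite_eq Finset.univ i]
      simp
    rw [h2] at h1
    exact h1
  have hYin : ∀ j, H15gInL M n (Y j) := by
    intro j v₀
    obtain ⟨v, hv⟩ := Fermat.Agent.Jac.baseChangeOrd M v₀
    have h1 := hv (Y j) ((b j : h15gV M n) : FC M) (hy j).symm
    have h2 := hv (jBar M) (jC M) (h15g_coe_jC M)
    rcases (h15g_mem_V M n _).1 (b j).2 v with h0 | h0
    · left
      apply Subtype.ext
      have h3 : coeffMap embC (y j) = 0 := by rw [hy, h0]; rfl
      have h4 : y j = 0 := by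
        ext k
        have := congrArg (fun z : LaurentSeries ℂ => z.coeff k) h3
        simp only [coeffMap_coeff, HahnSeries.coeff_zero] at this
        exact embC.injective (by rw [this, HahnSeries.coeff_zero, map_zero])
      exact h4
    · right
      rw [← h1, ← h2]
      exact h0
  -- restrict to `r` members
  have hrd : r ≤ d := hd ▸ hr
  refine ⟨fun i => Y (Fin.castLE hrd i), hYli.comp _ (Fin.castLE_injective hrd), fun i => hYin _⟩

end Fermat.Agent.P7
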