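import Fermat.Agent.Jac.DictCDefs
import Fermat.Agent.S21.E.Defs
import Fermat.Agent.P5.H13RRIface

/-!
# Wave 7, block (A), DLOG leaf DL6B GENUS-MATCH: frozen interface (helper15, prefix `h15g_`)

Target (`H15gGenusMatch`): the weak genus of `FF M` over `ℚ̄` (P5, `H13rIsGenus`) is at most
`dim S₂(Γ₀(M))`.

Route (all ingredients landed): a minimal admissible tuple `t` of S21/E has
`t.total + 1 ≤ dim S₂ + μ` (`μ = [SL₂(ℤ) : Γ₀(M)]`); the functions `j^a v_k`, `a + d_k ≤ n`, are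
`≥ (n + 1) μ - t.total` independent elements of `L_ℂ(n (j)_∞)` (Jac `conv`, `dictC`); Galois
descent `ℂ → ℚ̄` (Jac `orbit`, `desc`, `baseChangeOrd`) gives as many independent elements of
`L(n (j)_∞)` over `ℚ̄`; `deg (j)_∞ = [FF M : ℚ̄(j)] ≤ μ` (S24 `finrank_le_index`, P5
`h3r_exists_poleDiv`) and P5 `h68r_large` give `g ≤ t.total + 1 - μ ≤ dim S₂`.

Leaves (every one a `Prop`; nothing is assumed):

* `H15gWH`      (GM-1a) : a weakly holomorphic function of degree `≤ d` (S21/E `IsWH`) is an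
  element of `F_ℂ` lying in `L_ℂ(d (j)_∞)`;
* `H15gCount`   (GM-1b) : for every `n` there are `r` independent elements of `L_ℂ(n (j)_∞)` with
  `n μ + 1 ≤ r + dim S₂`;
* `H15gDescent` (GM-2)  : `r` independent elements of `L_ℂ(n (j)_∞)` give `r` independent
  elements of `L(n (j)_∞)` over `ℚ̄`;
* `H15gGenusMatch` (GM-3 = target).
-/

set_option autoImplicit false

open ModularCurve AlgebraicCurve UpperHalfPlane CongruenceSubgroup
open scoped MatrixGroups Manifold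

noncomputable section

namespace Fermat.Agent.P7

open Fermat.Agent.S24 (Kbar FF jBar)
open Fermat.Agent.Jac (FC jC)
open Fermat.Agent.S28 (HasTExp)

/-- `F ∈ L_ℂ(n (j)_∞)`: the poles of `F` are bounded by `n` times the poles of `j`. -/
def H15gInLC (M : ℕ) [NeZero M] (n : ℕ) (F : FC M) : Prop :=
  ∀ v : Place ℂ (FC M), F = 0 ∨ (n : ℤ) * min 0 (v.ord (jC M)) ≤ v.ord F

/-- `y ∈ L(n (j)_∞)` over `ℚ̄`. -/
def H15gInL (M : ℕ) [NeZero M] (n : ℕ) (y : FF M) : Prop :=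
  ∀ v : Place Kbar (FF M), y = 0 ∨ (n : ℤ) * min 0 (v.ord (jBar M)) ≤ v.ord y

/-- **GM-1a.** weakly holomorphic of degree `≤ d` ⟹ element of `L_ℂ(d (j)_∞)`. -/
def H15gWH : Prop :=
  ∀ (M : ℕ) [NeZero M] (d : ℕ) (f : ℍ → ℂ), Fermat.Agent.S21.E.IsWH (Gamma0 M) d f →
    ∃ F : FC M, HasTExp 1 f (F : LaurentSeries ℂ) ∧ H15gInLC M d F

/-- **GM-1b.** the count over `ℂ`. -/
def H15gCount : Prop :=
  ∀ (M : ℕ) [NeZero M] (n : ℕ), ∃ (r : ℕ) (F : Fin r → FC M),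
    LinearIndependent ℂ F ∧ (∀ i, H15gInLC M n (F i)) ∧
      n * (Gamma0 M).index + 1 ≤ r + Module.finrank ℂ (CuspForm (Gamma0 M) 2)

/-- **GM-2.** Galois descent of `L(n (j)_∞)` from `ℂ` to `ℚ̄`. -/
def H15gDescent : Prop :=
  ∀ (M : ℕ) [NeZero M] (n r : ℕ) (F : Fin r → FC M),
    LinearIndependent ℂ F → (∀ i, H15gInLC M n (F i)) →
      ∃ y : Fin r → FF M, LinearIndependent Kbar y ∧ ∀ i, H15gInL M n (y i)

/-- **GM-3 = DL6B.** the weak genus is at most `dim S₂(Γ₀(M))`. -/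
def H15gGenusMatch : Prop :=
  ∀ (M : ℕ) [NeZero M] (g : ℕ), Fermat.Agent.P5.H13rIsGenus Kbar (FF M) g →
    g ≤ Module.finrank ℂ (CuspForm (Gamma0 M) 2)

end Fermat.Agent.P7
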