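import Fermat.Agent.P7.H15GenusIface
import Fermat.Agent.S21.E.Main
import Fermat.Agent.Jac.SelC

/-!
# Wave 7, block (A), DLOG leaf DL6B GENUS-MATCH, leaf GM-1b (helper37, prefix `h37c_`)

`h37c_count : H15gWH → H15gCount`.

For a minimal admissible tuple `t` of S21/E (`total + 1 ≤ dim S₂ + μ`), the functions
`j ^ a * v_k` with `a + d_k ≤ n` are weakly holomorphic of degree `≤ n`; by `H15gWH` they are
elements of `L_ℂ(n (j)_∞)`; they are linearly independent (the matrix of conjugates of the tuple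
is generically invertible), and their number is `Σ_k (n + 1 - d_k) ≥ (n + 1) μ - total`.
-/

set_option autoImplicit false
set_option linter.style.haveILetI false

open UpperHalfPlane hiding I
open Complex Filter Function Topology CongruenceSubgroup
open scoped Manifold MatrixGroups ModularForm Real

noncomputable section

namespace Fermat.Agent.P7

open Fermat.Agent.S21.E
open Fermat.Agent.S21.EPrim (jfun jfun_smul mdifferentiable_jfun)
open Fermat.Agent.S28 (HasTExp)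
open Fermat.Agent.Jac (FC)

local notation "Δ" => ModularForm.discriminant
local notation "E₄" => ModularForm.E₄

/-! ### weakly holomorphic functions: monotonicity, products, powers of `j` -/

theorem h37c_wh_mono {Γ : Subgroup SL(2, ℤ)} {d e : ℕ} {f : ℍ → ℂ} (h : IsWH Γ d f)
    (hde : d ≤ e) : IsWH Γ e f where
  holo := h.holo
  inv := h.inv
  bdd g := by
    have h1 := h.bdd g
    have h2 : IsBoundedAtImInfty (fun z : ℍ => Δ z ^ (e - d)) := Min.bdd_pow_disc (e - d)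
    have h3 := h2.mul h1
    have he : (fun z : ℍ => Δ z ^ e * f (g • z)) =
        (fun z : ℍ => Δ z ^ (e - d)) * (fun z : ℍ => Δ z ^ d * f (g • z)) := by
      funext z
      simp only [Pi.mul_apply]
      rw [← mul_assoc, ← pow_add, Nat.sub_add_cancel hde]
    rw [he]
    exact h3

theorem h37c_wh_mul {Γ : Subgroup SL(2, ℤ)} {d e : ℕ} {f₁ f₂ : ℍ → ℂ} (h₁ : IsWH Γ d f₁)
    (h₂ : IsWH Γ e f₂) : IsWH Γ (d + e) (fun z => f₁ z * f₂ z) where
  holo := h₁.holo.mul h₂.holo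
  inv γ hγ z := by
    show f₁ (γ • z) * f₂ (γ • z) = f₁ z * f₂ z
    rw [h₁.inv γ hγ, h₂.inv γ hγ]
  bdd g := by
    have h3 := (h₁.bdd g).mul (h₂.bdd g)
    have he : (fun z : ℍ => Δ z ^ (d + e) * (f₁ (g • z) * f₂ (g • z))) =
        (fun z : ℍ => Δ z ^ d * f₁ (g • z)) * (fun z : ℍ => Δ z ^ e * f₂ (g • z)) := by
      funext z
      simp only [Pi.mul_apply]
      ring
    rw [he]
    exact h3

theorem h37c_jfun_smul (g : SL(2, ℤ)) (z : ℍ) : jfun (g • z) = jfun z :=
  jfun_smul g z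

theorem h37c_wh_j_pow (Γ : Subgroup SL(2, ℤ)) (a : ℕ) : IsWH Γ a (fun z => jfun z ^ a) where
  holo := mdifferentiable_jfun.pow a
  inv γ _ z := by
    show jfun (γ • z) ^ a = jfun z ^ a
    rw [h37c_jfun_smul]
  bdd g := by
    have he : (fun z : ℍ => Δ z ^ a * jfun (g • z) ^ a) = fun z : ℍ => (E₄ z ^ 3) ^ a := by
      funext z
      rw [h37c_jfun_smul, ← mul_pow]
      congr 1
      unfold jfun
      field_simp [ModularForm.discriminant_ne_zero z]
    rw [he]
    have ht : Tendsto (fun z : ℍ => (E₄ z ^ 3) ^ a) atImInfty (𝓝 ((1 ^ 3) ^ a)) :=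
      (Fermat.Agent.S23.H20.tendsto_E4.pow 3).pow a
    exact Min.bdd_of_tendsto ht

/-! ### a polynomial relation between the members of a tuple is trivial -/

theorem h37c_poly_eq_zero {Γ : Subgroup SL(2, ℤ)} [Fintype (SL(2, ℤ) ⧸ Γ)]
    [DecidableEq (SL(2, ℤ) ⧸ Γ)] (t : Tuple Γ) (P : SL(2, ℤ) ⧸ Γ → Polynomial ℂ)
    (hrel : ∀ z : ℍ, ∑ k, (P k).eval (jfun z) * t.v k z = 0) : ∀ k, P k = 0 := by
  intro k₀
  by_contra hk₀
  have e1 := Dual.Indep.eventually_eval_j_ne_zero hk₀ UpperHalfPlane.I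
  have e2 := det_eventually_ne_zero t UpperHalfPlane.I
  have : (𝓝[≠] (UpperHalfPlane.I : ℍ)).NeBot :=
    (Filter.frequently_true_iff_neBot _).mp
      ((det_frequently_ne_zero t UpperHalfPlane.I).mono fun _ _ => trivial)
  obtain ⟨z, hz1, hz2⟩ := (e1.and e2).exists
  apply hz1
  set p : SL(2, ℤ) ⧸ Γ → ℂ := fun k => (P k).eval (jfun z) with hp
  have hcol : ∀ x : SL(2, ℤ) ⧸ Γ, ∑ k, p k * cmat Γ t.v z k x = 0 := by
    intro x
    have h := hrel ((Quotient.out x)⁻¹ • z)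
    rw [← h]
    refine Finset.sum_congr rfl fun k _ => ?_
    simp only [hp, h37c_jfun_smul]
    rfl
  have hvec : Matrix.vecMul p (cmat Γ t.v z) = 0 := by
    funext x
    simpa [Matrix.vecMul, dotProduct] using hcol x
  have hunit : IsUnit (cmat Γ t.v z).det := isUnit_iff_ne_zero.mpr hz2
  have hmul : (cmat Γ t.v z) * (cmat Γ t.v z)⁻¹ = 1 := Matrix.mul_nonsing_inv _ hunit
  have hp0 : p = 0 := by
    have h1 : p = Matrix.vecMul p ((cmat Γ t.v z) * (cmat Γ t.v z)⁻¹) := by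
      rw [hmul, Matrix.vecMul_one]
    rw [h1, ← Matrix.vecMul_vecMul, hvec, Matrix.zero_vecMul]
  exact congrFun hp0 k₀

/-! ### the count -/

/-- the index set: pairs `(k, a)` with `a + d_k ≤ n`. -/
abbrev H37cIdx {Γ : Subgroup SL(2, ℤ)} [Fintype (SL(2, ℤ) ⧸ Γ)] [DecidableEq (SL(2, ℤ) ⧸ Γ)]
    (t : Tuple Γ) (n : ℕ) : Type := Σ k : SL(2, ℤ) ⧸ Γ, Fin (n + 1 - t.d k)

theorem h37c_card_idx {Γ : Subgroup SL(2, ℤ)} [Fintype (SL(2, ℤ) ⧸ Γ)]
    [DecidableEq (SL(2, ℤ) ⧸ Γ)] [Γ.FiniteIndex] (t : Tuple Γ) (n : ℕ) :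
    (n + 1) * Γ.index ≤ Fintype.card (H37cIdx t n) + t.total := by
  have hidx : Γ.index = Fintype.card (SL(2, ℤ) ⧸ Γ) := by
    rw [Subgroup.index_eq_card, Nat.card_eq_fintype_card]
  rw [Fintype.card_sigma]
  simp only [Fintype.card_fin]
  rw [Tuple.total, ← Finset.sum_add_distrib, hidx, ← Finset.card_univ, mul_comm,
    ← smul_eq_mul, ← Finset.sum_const]
  refine Finset.sum_le_sum fun k _ => ?_
  omega

/-- the functions `j ^ a * v_k`. -/
def h37cFun {Γ : Subgroup SL(2, ℤ)} [Fintype (SL(2, ℤ) ⧸ Γ)] [DecidableEq (SL(2, ℤ) ⧸ Γ)]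
    (t : Tuple Γ) (n : ℕ) (i : H37cIdx t n) : ℍ → ℂ :=
  fun z => jfun z ^ (i.2 : ℕ) * t.v i.1 z

theorem h37c_wh_fun {Γ : Subgroup SL(2, ℤ)} [Fintype (SL(2, ℤ) ⧸ Γ)]
    [DecidableEq (SL(2, ℤ) ⧸ Γ)] (t : Tuple Γ) (n : ℕ) (i : H37cIdx t n) :
    IsWH Γ n (h37cFun t n i) := by
  have h := h37c_wh_mul (h37c_wh_j_pow Γ (i.2 : ℕ)) (t.wh i.1)
  refine h37c_wh_mono h ?_
  have := i.2.isLt
  omega

/-- a vanishing linear combination of the functions `j ^ a * v_k` is trivial. -/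
theorem h37c_fun_indep {Γ : Subgroup SL(2, ℤ)} [Fintype (SL(2, ℤ) ⧸ Γ)]
    [DecidableEq (SL(2, ℤ) ⧸ Γ)] (t : Tuple Γ) (n : ℕ) (c : H37cIdx t n → ℂ)
    (h0 : ∀ z : ℍ, ∑ i, c i * h37cFun t n i z = 0) : ∀ i, c i = 0 := by
  intro i₀
  set P : SL(2, ℤ) ⧸ Γ → Polynomial ℂ := fun k =>
    ∑ m : Fin (n + 1 - t.d k), Polynomial.C (c ⟨k, m⟩) * Polynomial.X ^ (m : ℕ) with hPdef
  have hP : ∀ k, P k = 0 := by
    apply h37c_poly_eq_zero t P
    intro z
    rw [← h0 z, Fintype.sum_sigma]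
    refine Finset.sum_congr rfl fun k _ => ?_
    simp only [hPdef, Polynomial.eval_finsetSum, Polynomial.eval_mul, Polynomial.eval_C,
      Polynomial.eval_pow, Polynomial.eval_X, Finset.sum_mul]
    refine Finset.sum_congr rfl fun m _ => ?_
    simp only [h37cFun]
    ring
  obtain ⟨k, m⟩ := i₀
  have h := congrArg (fun Q : Polynomial ℂ => Q.coeff (m : ℕ)) (hP k)
  simp only [hPdef, Polynomial.finsetSum_coeff, Polynomial.coeff_C_mul, Polynomial.coeff_X_pow,
    Polynomial.coeff_zero, mul_ite, mul_one, mul_zero] at h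
  rw [Finset.sum_eq_single m] at h
  · simpa using h
  · intro m' _ hm'
    rw [if_neg]
    intro hmm
    exact hm' (Fin.ext hmm.symm)
  · intro hm
    exact absurd (Finset.mem_univ m) hm

/-- **GM-1b.** `H15gWH → H15gCount`. -/
theorem h37c_count (hWH : H15gWH) : H15gCount := by
  intro M _ n
  classical
  letI : Fintype (SL(2, ℤ) ⧸ Gamma0 M) := Subgroup.fintypeQuotientOfFiniteIndex
  have hneg : (-1 : SL(2, ℤ)) ∈ Gamma0 M := by
    rw [CongruenceSubgroup.Gamma0_mem]; simp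
  obtain ⟨t, ht⟩ := exists_isMin (nonempty_tuple_Gamma0 M)
  obtain ⟨ω, hω⟩ := exists_linearIndependent_cuspForms hneg ht.saturated ht.reduced
  haveI : FiniteDimensional ℂ (CuspForm ((Gamma0 M).map
      (Matrix.SpecialLinearGroup.mapGL ℝ)) 2) :=
    Fermat.Agent.S49.finiteDimensional_cuspForm M 2
  have h2 := hω.fintype_card_le_finrank
  rw [Fintype.card_fin] at h2
  have hcard := h37c_card_idx t n
  -- the elements of `F_ℂ`
  choose F hF1 hF2 using fun i : H37cIdx t n => hWH M n (h37cFun t n i) (h37c_wh_fun t n i)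
  have hli : LinearIndependent ℂ F := by
    rw [Fintype.linearIndependent_iff]
    intro c hc
    apply h37c_fun_indep t n c
    have hsum : HasTExp 1 (∑ i, fun τ => c i * h37cFun t n i τ)
        (∑ i, HahnSeries.C (c i) * ((F i : FC M) : LaurentSeries ℂ)) :=
      HasTExp.finset_sum Finset.univ fun i _ => (hF1 i).const_mul one_pos (c i)
    have hzero : (∑ i, HahnSeries.C (c i) * ((F i : FC M) : LaurentSeries ℂ)) = 0 := by
      have h := congrArg (fun x : FC M => (x : LaurentSeries ℂ)) hc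
      simp only [AddSubmonoidClass.coe_finsetSum, ZeroMemClass.coe_zero,
        IntermediateField.coe_smul] at h
      rw [← h]
      refine Finset.sum_congr rfl fun i _ => ?_
      rw [Algebra.smul_def, LaurentSeries.algebraMap_apply ℂ (c i)]
    rw [hzero] at hsum
    have hfun := Fermat.Agent.Jac.h29_eq_zero_of_hasTExp_zero hsum
    intro z
    have := congrFun hfun z
    simpa [Finset.sum_apply] using this
  refine ⟨Fintype.card (H37cIdx t n), F ∘ (Fintype.equivFin (H37cIdx t n)).symm,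
    hli.comp _ (Equiv.injective _), fun i => hF2 _, ?_⟩
  have h3 : t.total + 1 - (Gamma0 M).index ≤ Module.finrank ℂ (CuspForm ((Gamma0 M).map
      (Matrix.SpecialLinearGroup.mapGL ℝ)) 2) := h2
  have h4 : (n + 1) * (Gamma0 M).index = n * (Gamma0 M).index + (Gamma0 M).index := by ring
  show n * (Gamma0 M).index + 1 ≤ Fintype.card (H37cIdx t n) +
    Module.finrank ℂ (CuspForm ((Gamma0 M).map (Matrix.SpecialLinearGroup.mapGL ℝ)) 2)
  omega

end Fermat.Agent.P7
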