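import Fermat.Agent.P7.H39WHField
import Fermat.Agent.P7.H15GenusIface

/-!
# Wave 7, block (A), DLOG kill gate DL6B (GENUS-MATCH), leaf GM-1a in the frozen shape
(helper39, prefix `h39o_`)

`h39o_gWH : H15gWH` (frozen Prop of `P7/H15GenusIface.lean`), from the landed `h39o_k1`;
`h39o_k1_max` : the same in the `max` form
`0 ≤ v.ord F + d * max 0 (- v.ord (jC M))` (shape of the leaf `GM-WH`).
-/

set_option autoImplicit false

open ModularCurve AlgebraicCurve UpperHalfPlane CongruenceSubgroup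
open scoped MatrixGroups Manifold

noncomputable section

namespace Fermat.Agent.P7

open Fermat.Agent.S28 (HasTExp)
open Fermat.Agent.Jac

/-- `min` form of the pole bound of `h39o_k1`. -/
theorem h39o_k1_min (M : ℕ) [NeZero M] (d : ℕ) (f : ℍ → ℂ)
    (hf : Fermat.Agent.S21.E.IsWH (Gamma0 M) d f) :
    ∃ F : FC M, HasTExp 1 f (F : LaurentSeries ℂ) ∧
      ∀ v : Place ℂ (FC M), (d : ℤ) * min 0 (v.ord (jC M)) ≤ v.ord F := by
  obtain ⟨F, hF, -, hv⟩ := h39o_k1 M d f hf
  refine ⟨F, hF, fun v => ?_⟩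
  rcases le_or_gt 0 (v.ord (jC M)) with h | h
  · rw [min_eq_left h, mul_zero]
    exact (hv v).1 h
  · rw [min_eq_right h.le]
    exact (hv v).2 h

/-- `max` form of the pole bound of `h39o_k1`. -/
theorem h39o_k1_max (M : ℕ) [NeZero M] (d : ℕ) (f : ℍ → ℂ)
    (hf : Fermat.Agent.S21.E.IsWH (Gamma0 M) d f) :
    ∃ F : FC M, HasTExp 1 f (F : LaurentSeries ℂ) ∧
      ∀ v : Place ℂ (FC M), 0 ≤ v.ord F + (d : ℤ) * max 0 (- v.ord (jC M)) := by
  obtain ⟨F, hF, -, hv⟩ := h39o_k1 M d f hf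
  refine ⟨F, hF, fun v => ?_⟩
  rcases le_or_gt 0 (v.ord (jC M)) with h | h
  · rw [max_eq_left (by linarith), mul_zero, add_zero]
    exact (hv v).1 h
  · rw [max_eq_right (by linarith)]
    have := (hv v).2 h
    linarith

/-- **GM-1a** in the frozen shape of `P7/H15GenusIface.lean`. -/
theorem h39o_gWH : H15gWH := by
  intro M _ d f hf
  obtain ⟨F, hF, hv⟩ := h39o_k1_min M d f hf
  exact ⟨F, hF, fun v => Or.inr (hv v)⟩

end Fermat.Agent.P7
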