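import Fermat.Agent.P7.H15GenusIface
import Fermat.Agent.P5.H13GBase
import Fermat.Agent.P5.H3RRRiemann
import Fermat.Agent.P5.H68RRFin
import Fermat.Agent.S24.DegLe

/-!
# Wave 7, block (A), DLOG leaf DL6B, row GM-3-WIRE (helper9, prefix `h9g_`)

`h9g_genusMatch : H15gCount → H15gDescent → H15gGenusMatch` (exact frozen Props of
`P7/H15GenusIface.lean`).

Proof.  `B = (j)_∞` (P5 `h3r_exists_poleDiv`), `deg B = d = [FF M : ℚ̄(j)] ≤ μ` (S24
`finrank_le_index`).  For `n` large, `ℓ(n B) + g = n d + 1` (P5 `h68r_large`).  COUNT and DESCENT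
give `r` independent elements of `L(n (j)_∞) ⊆ L(n B)` with `n μ + 1 ≤ r + dim S₂`, hence
`n μ + 1 ≤ ℓ(n B) + dim S₂ = n d + 1 - g + dim S₂ ≤ n μ + 1 - g + dim S₂`.

`h9g_genus_le_of_family` is the abstract form (any function field, any `x` with
`0 < [F : K(x)] ≤ μ`); it is the only place where the weak Riemann–Roch theorem is used.
-/

set_option autoImplicit false
set_option linter.unusedSectionVars false
set_option linter.style.haveILetI false

open ModularCurve AlgebraicCurve UpperHalfPlane CongruenceSubgroup IntermediateField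
open scoped MatrixGroups

noncomputable section

namespace Fermat.Agent.P7

open Fermat.Agent.P5
open Fermat.Agent.S24 (Kbar FF jBar)

section Abstract

variable {K F : Type*} [Field K] [Field F] [Algebra K F]

/-- an element with poles bounded by `n (x)_∞` lies in `L(n B)` for the pole divisor `B` of
`x`. -/
theorem h9g_mem_L (x : F) (Bd : Divisor K F) (hBd0 : 0 ≤ Bd)
    (hBdx : ∀ v : Place K F, -Bd v ≤ v.ord x) (n : ℕ) (y : F)
    (hy : ∀ v : Place K F, y = 0 ∨ (n : ℤ) * min 0 (v.ord x) ≤ v.ord y) :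
    y ∈ riemannRochSpace (n • Bd) := by
  rw [mem_riemannRochSpace_iff]
  intro v
  rcases hy v with h | h
  · exact Or.inl h
  · right
    have h0 : (0 : ℤ) ≤ Bd v := by
      have := Finsupp.le_def.mp hBd0 v
      simpa using this
    have h1 : -Bd v ≤ min 0 (v.ord x) := le_min (by omega) (hBdx v)
    have h2 : (n : ℤ) * (-Bd v) ≤ (n : ℤ) * min 0 (v.ord x) :=
      mul_le_mul_of_nonneg_left h1 (by positivity)
    have h3 : (n • Bd) v = (n : ℤ) * Bd v := by
      rw [Finsupp.smul_apply, nsmul_eq_mul]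
    rw [h3]
    linarith

/-- a linearly independent family inside `L(D)` has at most `ℓ(D)` elements. -/
theorem h9g_card_le_ell (hB : H13rBase K F) (D : Divisor K F) {r : ℕ} (y : Fin r → F)
    (hind : LinearIndependent K y) (hmem : ∀ i, y i ∈ riemannRochSpace D) :
    r ≤ h13rL K F D := by
  haveI : Module.Finite K (riemannRochSpace D) := (h68r_fin K F hB).1 D
  let y' : Fin r → riemannRochSpace D := fun i => ⟨y i, hmem i⟩
  have hind' : LinearIndependent K y' := by
    apply LinearIndependent.of_comp (riemannRochSpace D).subtype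
    exact hind
  have h := hind'.fintype_card_le_finrank
  rw [Fintype.card_fin] at h
  exact h

/-- **the count**: if for every `n` there are `r` independent elements of `L(n (x)_∞)` with
`n μ + 1 ≤ r + s`, and `0 < [F : K(x)] ≤ μ`, then the weak genus is at most `s`. -/
theorem h9g_genus_le_of_family (hB : H13rBase K F) (x : F) (hZ : H13rZeros K F x)
    (μ s : ℕ) (hd0 : 0 < Module.finrank K⟮x⟯ F) (hμ : Module.finrank K⟮x⟯ F ≤ μ)
    (hfam : ∀ n : ℕ, ∃ (r : ℕ) (y : Fin r → F), LinearIndependent K y ∧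
      (∀ i, ∀ v : Place K F, y i = 0 ∨ (n : ℤ) * min 0 (v.ord x) ≤ v.ord (y i)) ∧
      n * μ + 1 ≤ r + s)
    (g : ℕ) (hg : H13rIsGenus K F g) : g ≤ s := by
  obtain ⟨Bd, hBd0, hBdx, hBdeg⟩ := h3r_exists_poleDiv hB x hZ
  obtain ⟨⟨c, hc⟩, -⟩ := h68r_large K F hB g hg
  set d : ℕ := Module.finrank K⟮x⟯ F with hd
  set n : ℕ := c.toNat with hn
  have hdeg : Divisor.degree (n • Bd) = (n : ℤ) * (d : ℤ) := by
    rw [map_nsmul, hBdeg, nsmul_eq_mul]
  have hcn : c ≤ (n : ℤ) * (d : ℤ) := by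
    have h1 : c ≤ (n : ℤ) := Int.self_le_toNat c
    have h2 : (1 : ℤ) ≤ (d : ℤ) := by exact_mod_cast hd0
    have h3 : (0 : ℤ) ≤ (n : ℤ) := by positivity
    nlinarith
  have hRR := hc (n • Bd) (by rw [hdeg]; exact hcn)
  rw [hdeg] at hRR
  obtain ⟨r, y, hyind, hyin, hcount⟩ := hfam n
  have hle : r ≤ h13rL K F (n • Bd) :=
    h9g_card_le_ell hB (n • Bd) y hyind
      (fun i => h9g_mem_L x Bd hBd0 hBdx n (y i) (hyin i))
  have hμ' : (n : ℤ) * (d : ℤ) ≤ (n : ℤ) * (μ : ℤ) := by
    apply mul_le_mul_of_nonneg_left _ (by positivity)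
    exact_mod_cast hμ
  have hcount' : ((n : ℤ) * (μ : ℤ) + 1 : ℤ) ≤ (r : ℤ) + (s : ℤ) := by exact_mod_cast hcount
  have hle' : (r : ℤ) ≤ (h13rL K F (n • Bd) : ℤ) := by exact_mod_cast hle
  have : (g : ℤ) ≤ (s : ℤ) := by linarith
  exact_mod_cast this

end Abstract

/-- **GM-3 (wiring).**  COUNT and DESCENT give GENUS-MATCH. -/
theorem h9g_genusMatch (hC : H15gCount) (hD : H15gDescent) : H15gGenusMatch := by
  intro M _ g hg
  have hB : H13rBase Kbar (FF M) := h13g_gBase M
  have hZ : H13rZeros Kbar (FF M) (jBar M) := h13g_zeros_FF M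
  obtain ⟨hfd, hle⟩ := Fermat.Agent.S24.finrank_le_index M
  have hd0 : 0 < Module.finrank Kbar⟮jBar M⟯ (FF M) := Module.finrank_pos
  refine h9g_genus_le_of_family hB (jBar M) hZ (Gamma0 M).index
    (Module.finrank ℂ (CuspForm (Gamma0 M) 2)) hd0 hle ?_ g hg
  intro n
  obtain ⟨r, F, hFind, hFin, hcount⟩ := hC M n
  obtain ⟨y, hyind, hyin⟩ := hD M n r F hFind hFin
  exact ⟨r, y, hyind, fun i v => hyin i v, hcount⟩

end Fermat.Agent.P7
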