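import Fermat.Agent.P7.H15GenusDescent
import Fermat.Agent.P7.H39GenusWH
import Fermat.Agent.P7.H37Count
import Fermat.Agent.P7.H9GenusWire

/-!
# Wave 7, block (A), DLOG leaf DL6B GENUS-MATCH: the weak genus of `FF M` is at most
`dim S₂(Γ₀(M))` (assembly, helper15)

`h15g_genusMatch : H15gGenusMatch`, from the four landed leaves

* GM-1a `h39o_gWH : H15gWH` (helper39),
* GM-1b `h37c_count : H15gWH → H15gCount` (helper37),
* GM-2  `h15g_descent : H15gDescent` (helper15),
* GM-3  `h9g_genusMatch : H15gCount → H15gDescent → H15gGenusMatch` (helper9).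
-/

set_option autoImplicit false

open ModularCurve AlgebraicCurve CongruenceSubgroup

noncomputable section

namespace Fermat.Agent.P7

/-- **DL6B GENUS-MATCH.** the weak genus is at most `dim S₂(Γ₀(M))`. -/
theorem h15g_genusMatch : H15gGenusMatch :=
  h9g_genusMatch (h37c_count h39o_gWH) h15g_descent

/-- the same, unfolded. -/
theorem h15g_genus_le (M : ℕ) [NeZero M] (g : ℕ)
    (hg : Fermat.Agent.P5.H13rIsGenus Fermat.Agent.S24.Kbar (Fermat.Agent.S24.FF M) g) :
    g ≤ Module.finrank ℂ (CuspForm (Gamma0 M) 2) :=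
  h15g_genusMatch M g hg

end Fermat.Agent.P7
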