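import Fermat.Agent.P7.H23ValRes

/-!
# Wave 7 (row 38, target S44), leaf LOCAL-MULT, step (2) BREAK-converse (helper15)

Abstract, Mathlib only.  `K / F` fields, `A` a valuation subring of `K`, `ζ ∈ K` a primitive
`p`-th root of unity (`p` prime, invertible in `K`), `H ≤ G` subgroups of `Aut(K / F)`, all of
`G` fixing `ζ`, `b ∈ G` with `b ^ p ∈ H`, `H` stable under conjugation by `b`, and
`G = ⋃ b ^ i H`.

**Witness**: `z ≠ 0` fixed by `H` with `(b z - z) / (z (ζ - 1)) ∉ A`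
(i.e. `v(b z - z) < v(z) + v(ζ - 1)` additively: `b` moves `z` by less than a root of unity).

**Conclusion** (`h15m_break_converse`): there is a UNIT `β` of `A`, fixed by `H`, with
`b β = ζ ^ k β`, `p ∤ k`; hence `β ^ p` is fixed by `G` and every `a ∈ G` with `a β = β` lies
in `H`.  (So the Kummer generator of `Fix(H) / Fix(G)` can be taken a unit: peu ramifié.)

Proof: Lagrange resolvents `R_j` of `z` (`P7/H23ValRes.lean`, helper23).  If two nonzero
resolvents have the same valuation their quotient is the unit `β`.  Otherwise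
`v(z) = max_j v(R_j)` and `b z - z = ∑ (ζ ^ j - 1) R_j` has valuation at most
`v(ζ - 1) v(z)`, against the witness.  No value group and no Galois correspondence is used.
-/

set_option autoImplicit false

namespace Fermat.Agent.P7

variable {F K : Type*} [Field F] [Field K] [Algebra F K]

/-- a root of unity lies in every valuation subring. -/
theorem h15m_root_mem (A : ValuationSubring K) {ζ : K} {p : ℕ} (hp0 : p ≠ 0)
    (hζ : ζ ^ p = 1) : ζ ∈ A := by
  rcases A.mem_or_inv_mem ζ with h | h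
  · exact h
  · have h1 : ζ = (ζ⁻¹) ^ (p - 1) := by
      have hζ0 : ζ ≠ 0 := by
        intro h0
        rw [h0, zero_pow hp0] at hζ
        exact zero_ne_one hζ
      have h2 : ζ ^ (p - 1) * ζ = 1 := by
        rw [← pow_succ, Nat.sub_add_cancel (Nat.pos_of_ne_zero hp0), hζ]
      rw [inv_pow]
      exact eq_inv_of_mul_eq_one_right h2
    rw [h1]
    exact A.pow_mem h _

/-- `v(ζ ^ j - 1) ≤ v(ζ - 1)`. -/
theorem h15m_val_pow_sub_one_le (A : ValuationSubring K) {ζ : K} {p : ℕ} (hp0 : p ≠ 0)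
    (hζ : ζ ^ p = 1) (j : ℕ) : A.valuation (ζ ^ j - 1) ≤ A.valuation (ζ - 1) := by
  have h1 : ζ ^ j - 1 = (ζ - 1) * ∑ i ∈ Finset.range j, ζ ^ i := (mul_geom_sum ζ j).symm
  have h2 : (∑ i ∈ Finset.range j, ζ ^ i) ∈ A :=
    A.sum_mem fun i _ => A.pow_mem (h15m_root_mem A hp0 hζ) i
  rw [h1, map_mul]
  exact mul_le_of_le_one_right' ((A.valuation_le_one_iff _).mpr h2)

/-- powers of `b` on an eigenvector. -/
theorem h15m_pow_apply {ζ β : K} {b : K ≃ₐ[F] K} {k : ℕ} (hbζ : b ζ = ζ)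
    (hbβ : b β = ζ ^ k * β) (i : ℕ) : (b ^ i) β = ζ ^ (i * k) * β := by
  induction i with
  | zero => simp
  | succ i ih =>
    rw [pow_succ', AlgEquiv.mul_apply, ih, map_mul, map_pow, hbζ, hbβ, ← mul_assoc, ← pow_add]
    congr 2
    ring

/-- conjugation by powers of `b` preserves `H`. -/
theorem h15m_conj_pow {H : Subgroup (K ≃ₐ[F] K)} {b : K ≃ₐ[F] K}
    (hnorm : ∀ h ∈ H, b⁻¹ * h * b ∈ H) (i : ℕ) :
    ∀ h ∈ H, (b ^ i)⁻¹ * h * b ^ i ∈ H := by
  induction i with
  | zero => intro h hh; simpa using hh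
  | succ i ih =>
    intro h hh
    have h1 := hnorm _ (ih h hh)
    have h2 : (b ^ (i + 1))⁻¹ * h * b ^ (i + 1) = b⁻¹ * ((b ^ i)⁻¹ * h * b ^ i) * b := by
      rw [pow_succ, mul_inv_rev]
      group
    rw [h2]
    exact h1

/-- the translates `b ^ i z` of an `H`-fixed element are `H`-fixed. -/
theorem h15m_fixed_pow {H : Subgroup (K ≃ₐ[F] K)} {b : K ≃ₐ[F] K}
    (hnorm : ∀ h ∈ H, b⁻¹ * h * b ∈ H) {z : K} (hzH : ∀ h ∈ H, h z = z) (i : ℕ) :
    ∀ h ∈ H, h ((b ^ i) z) = (b ^ i) z := by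
  intro h hh
  have h1 := hzH _ (h15m_conj_pow hnorm i h hh)
  have h2 : h ((b ^ i) z) = (b ^ i) (((b ^ i)⁻¹ * h * b ^ i) z) := by
    simp only [AlgEquiv.mul_apply]
    rw [← AlgEquiv.mul_apply (b ^ i) ((b ^ i)⁻¹), mul_inv_cancel, AlgEquiv.one_apply]
  rw [h2, h1]

/-- **BREAK-converse** (abstract): a witness `z` moved by `b` by less than a root of unity
forces a unit Kummer generator. -/
theorem h15m_break_converse (A : ValuationSubring K) {p : ℕ} (hp : p.Prime)
    (hpK : (p : K) ≠ 0) {ζ : K} (hζ : IsPrimitiveRoot ζ p)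
    (G H : Subgroup (K ≃ₐ[F] K)) (b : K ≃ₐ[F] K)
    (hGζ : ∀ a ∈ G, a ζ = ζ) (hbG : b ∈ G) (hHG : H ≤ G)
    (hcyc : ∀ a ∈ G, ∃ i : ℕ, ∃ h ∈ H, a = b ^ i * h)
    (hbp : b ^ p ∈ H) (hnorm : ∀ h ∈ H, b⁻¹ * h * b ∈ H)
    (z : K) (hz0 : z ≠ 0) (hzH : ∀ h ∈ H, h z = z)
    (hwit : (b z - z) * (z * (ζ - 1))⁻¹ ∉ A) :
    ∃ (β : K) (k : ℕ), β ∈ A ∧ β⁻¹ ∈ A ∧ ¬ p ∣ k ∧ b β = ζ ^ k * β ∧
      (∀ h ∈ H, h β = β) ∧ (∀ a ∈ G, a (β ^ p) = β ^ p) ∧
      (∀ a ∈ G, a β = β → a ∈ H) := by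
  classical
  have hp0 : p ≠ 0 := hp.ne_zero
  have hζp : ζ ^ p = 1 := hζ.pow_eq_one
  have hζ0 : ζ ≠ 0 := hζ.ne_zero hp0
  have hbζ : b ζ = ζ := hGζ b hbG
  have hbz : (b ^ p) z = z := hzH _ hbp
  set R : ℕ → K := fun j => h23vRes ζ b p z j with hR
  have heig : ∀ j, b (R j) = ζ ^ j * R j := fun j => h23v_res_eigen hζp hζ0 hbζ hbz j
  have hsum : ∑ j ∈ Finset.range p, R j = z := h23v_res_sum hp hζ hpK b z
  have hfix : ∀ j, ∀ h ∈ H, h (R j) = R j := fun j h hh =>
    h23v_res_fixed h (hGζ h (hHG hh)) (fun i => h15m_fixed_pow hnorm hzH i h hh) j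
  by_cases hcase : ∃ j ∈ Finset.range p, ∃ j' ∈ Finset.range p, j ≠ j' ∧ R j ≠ 0 ∧ R j' ≠ 0 ∧
      A.valuation (R j) = A.valuation (R j')
  · -- Case A: two nonzero resolvents of equal valuation
    obtain ⟨j, hj, j', hj', hne, hRj, hRj', hv⟩ := hcase
    rw [Finset.mem_range] at hj hj'
    refine ⟨R j * (R j')⁻¹, j + (p - j'), ?_, ?_, ?_, ?_, ?_, ?_, ?_⟩
    · rw [← A.valuation_le_one_iff, map_mul, map_inv₀, hv]
      exact le_of_eq (mul_inv_cancel₀ ((Valuation.ne_zero_iff _).mpr hRj'))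
    · rw [← A.valuation_le_one_iff, map_inv₀, map_mul, map_inv₀, hv]
      rw [mul_inv_cancel₀ ((Valuation.ne_zero_iff _).mpr hRj'), inv_one]
    · rintro ⟨m, hm⟩
      rcases m with _ | _ | m
      · omega
      · omega
      · have h1 : p * (m + 1 + 1) = p * m + p + p := by ring
        omega
    · have h1 : ζ ^ (p - j') * ζ ^ j' = 1 := by
        rw [← pow_add, Nat.sub_add_cancel hj'.le, hζp]
      have h2 : ζ ^ (p - j') = (ζ ^ j')⁻¹ := eq_inv_of_mul_eq_one_left h1
      rw [map_mul, map_inv₀, heig, heig, pow_add, h2]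
      field_simp
    · intro h hh
      rw [map_mul, map_inv₀, hfix j h hh, hfix j' h hh]
    · intro a ha
      obtain ⟨i, h, hh, rfl⟩ := hcyc a ha
      have hβ : b (R j * (R j')⁻¹) = ζ ^ (j + (p - j')) * (R j * (R j')⁻¹) := by
        have h1 : ζ ^ (p - j') * ζ ^ j' = 1 := by
          rw [← pow_add, Nat.sub_add_cancel hj'.le, hζp]
        have h2 : ζ ^ (p - j') = (ζ ^ j')⁻¹ := eq_inv_of_mul_eq_one_left h1
        rw [map_mul, map_inv₀, heig, heig, pow_add, h2]
        field_simp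
      have hhβ : h (R j * (R j')⁻¹) = R j * (R j')⁻¹ := by
        rw [map_mul, map_inv₀, hfix j h hh, hfix j' h hh]
      rw [map_pow, AlgEquiv.mul_apply, hhβ, h15m_pow_apply hbζ hβ i, mul_pow, ← pow_mul,
        mul_comm (i * (j + (p - j'))) p, pow_mul, hζp, one_pow, one_mul]
    · intro a ha haβ
      obtain ⟨i, h, hh, rfl⟩ := hcyc a ha
      have hβ : b (R j * (R j')⁻¹) = ζ ^ (j + (p - j')) * (R j * (R j')⁻¹) := by
        have h1 : ζ ^ (p - j') * ζ ^ j' = 1 := by
          rw [← pow_add, Nat.sub_add_cancel hj'.le, hζp]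
        have h2 : ζ ^ (p - j') = (ζ ^ j')⁻¹ := eq_inv_of_mul_eq_one_left h1
        rw [map_mul, map_inv₀, heig, heig, pow_add, h2]
        field_simp
      have hhβ : h (R j * (R j')⁻¹) = R j * (R j')⁻¹ := by
        rw [map_mul, map_inv₀, hfix j h hh, hfix j' h hh]
      have hβ0 : R j * (R j')⁻¹ ≠ 0 := mul_ne_zero hRj (inv_ne_zero hRj')
      rw [AlgEquiv.mul_apply, hhβ, h15m_pow_apply hbζ hβ i] at haβ
      have h1 : ζ ^ (i * (j + (p - j'))) = 1 := by
        have := mul_right_cancel₀ hβ0 (haβ.trans (one_mul _).symm)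
        exact this
      have h2 : p ∣ i * (j + (p - j')) := (hζ.pow_eq_one_iff_dvd _).mp h1
      have h3 : ¬ p ∣ j + (p - j') := by
        rintro ⟨m, hm⟩
        rcases m with _ | _ | m
        · omega
        · omega
        · have h1 : p * (m + 1 + 1) = p * m + p + p := by ring
          omega
      have h4 : p ∣ i := (hp.dvd_mul.mp h2).resolve_right h3
      obtain ⟨m, rfl⟩ := h4
      rw [pow_mul]
      exact H.mul_mem (H.pow_mem hbp m) hh
  · -- Case B: pairwise distinct valuations: contradiction with the witness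
    exfalso
    apply hwit
    push Not at hcase
    have hex : ∃ j ∈ Finset.range p, R j ≠ 0 := by
      by_contra hno
      push Not at hno
      apply hz0
      rw [← hsum]
      exact Finset.sum_eq_zero hno
    obtain ⟨j0, hj0, hRj0⟩ := hex
    obtain ⟨js, hjs, hmax⟩ := Finset.exists_max_image (Finset.range p)
      (fun j => A.valuation (R j)) ⟨j0, hj0⟩
    have hRjs : R js ≠ 0 := by
      intro h0
      have h1 := hmax j0 hj0
      simp only [h0, map_zero] at h1
      exact (Valuation.ne_zero_iff _).mpr hRj0 (le_antisymm h1 zero_le)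
    have hlt : ∀ i ∈ Finset.range p, i ≠ js → A.valuation (R i) < A.valuation (R js) := by
      intro i hi hne
      by_cases h0 : R i = 0
      · rw [h0, map_zero]
        exact zero_lt_iff.mpr ((Valuation.ne_zero_iff _).mpr hRjs)
      · exact lt_of_le_of_ne (hmax i hi) (hcase i hi js hjs hne h0 hRjs)
    have hvz : A.valuation z = A.valuation (R js) := by
      rw [← hsum]
      refine Valuation.map_sum_eq_of_lt _ hjs ?_
      intro i hi
      rw [Finset.mem_sdiff, Finset.mem_singleton] at hi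
      exact hlt i hi.1 hi.2
    have hdiff : b z - z = ∑ j ∈ Finset.range p, (ζ ^ j - 1) * R j := by
      have h1 : b (∑ j ∈ Finset.range p, R j) = ∑ j ∈ Finset.range p, ζ ^ j * R j := by
        rw [map_sum]
        exact Finset.sum_congr rfl fun j _ => heig j
      have h2 : b z - z = b (∑ j ∈ Finset.range p, R j) - ∑ j ∈ Finset.range p, R j := by
        rw [hsum]
      rw [h2, h1, ← Finset.sum_sub_distrib]
      exact Finset.sum_congr rfl fun j _ => by ring
    have hle : A.valuation (b z - z) ≤ A.valuation (ζ - 1) * A.valuation (R js) := by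
      rw [hdiff]
      refine Valuation.map_sum_le _ ?_
      intro j hj
      rw [map_mul]
      exact mul_le_mul' (h15m_val_pow_sub_one_le A hp0 hζp j) (hmax j hj)
    have hζ1 : ζ - 1 ≠ 0 := sub_ne_zero.mpr (hζ.ne_one hp.one_lt)
    rw [← A.valuation_le_one_iff, map_mul, map_inv₀, map_mul, hvz]
    have hne : A.valuation (R js) * A.valuation (ζ - 1) ≠ 0 :=
      mul_ne_zero ((Valuation.ne_zero_iff _).mpr hRjs) ((Valuation.ne_zero_iff _).mpr hζ1)
    rw [mul_inv_le_iff₀ (zero_lt_iff.mpr hne), one_mul, mul_comm]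
    exact hle

end Fermat.Agent.P7
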