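import Fermat.Agent.S21.E.Main
import Fermat.Agent.S21.EPrim.Main

/-!
# Wave 7, block (A), leaf LATTICE, analytic half (helper16, prefix `h16l_`)

Riemann's inequality with the RIGHT genus for the weakly holomorphic `Γ`-invariant functions
(`Fermat.Agent.S21.E.IsWH`), from the Dedekind–Weber theory of `S21/E`:

* `h16l_isWH_mono`, `h16l_isWH_jpow_mul` : `IsWH Γ d f → IsWH Γ (d + m) (j ^ m * f)`.
* `h16l_linearIndependent` : for an admissible family `t : Tuple Γ`, the functions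
  `j ^ m * v_k` (`m + d_k ≤ n`) are `ℂ`-linearly independent.
* `h16l_exists_indep` : for every `n` there are `n μ + 1 - dim S₂(Γ)` linearly independent
  weakly holomorphic `Γ`-invariant functions of degree `≤ n`.
-/

set_option autoImplicit false
set_option linter.style.haveILetI false

open UpperHalfPlane hiding I
open Complex Filter Function Topology
open scoped Manifold MatrixGroups ModularForm Real

namespace Fermat.Agent.P7

open Fermat.Agent.S21.E Fermat.Agent.S21.EPrim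

noncomputable section

variable {Γ : Subgroup SL(2, ℤ)}

/-- `IsWH` is monotone in the degree. -/
theorem h16l_isWH_mono {d d' : ℕ} {f : ℍ → ℂ} (h : IsWH Γ d f) (hdd : d ≤ d') :
    IsWH Γ d' f := by
  refine ⟨h.holo, h.inv, fun g => ?_⟩
  obtain ⟨e, rfl⟩ := Nat.exists_eq_add_of_le hdd
  have h1 := Filter.BoundedAtFilter.mul (Min.bdd_pow_disc e) (h.bdd g)
  refine h1.congr' (Eventually.of_forall fun z => ?_) (by rfl)
  simp only [Pi.mul_apply]
  ring

/-- `Δ * j = E₄ ^ 3`. -/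
theorem h16l_disc_mul_jFun (z : ℍ) :
    ModularForm.discriminant z * jFun z = ModularForm.E₄ z ^ 3 := by
  unfold jFun
  have hΔ : ModularForm.discriminant z ≠ 0 := ModularForm.discriminant_ne_zero z
  field_simp

/-- `j` is holomorphic on `ℍ`. -/
theorem h16l_mdiff_jFun : MDiff jFun := by
  rw [UpperHalfPlane.mdifferentiable_iff]
  have h4 : DifferentiableOn ℂ ((ModularForm.E₄ : ℍ → ℂ) ∘ ofComplex) {z | 0 < z.im} :=
    UpperHalfPlane.mdifferentiable_iff.1 (ModularFormClass.holo ModularForm.E₄)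
  have hΔ : DifferentiableOn ℂ ((ModularForm.discriminant : ℍ → ℂ) ∘ ofComplex)
      {z | 0 < z.im} :=
    UpperHalfPlane.mdifferentiable_iff.1 (ModularFormClass.holo CuspForm.discriminant)
  have : (jFun ∘ ofComplex) = fun w => ((ModularForm.E₄ : ℍ → ℂ) ∘ ofComplex) w ^ 3
      / ((ModularForm.discriminant : ℍ → ℂ) ∘ ofComplex) w := by
    funext w
    simp [jFun]
  rw [this]
  exact (h4.pow 3).div hΔ (fun w _ => ModularForm.discriminant_ne_zero _)

/-- multiplication by `j` raises the degree by one. -/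
theorem h16l_isWH_jmul {d : ℕ} {f : ℍ → ℂ} (h : IsWH Γ d f) :
    IsWH Γ (d + 1) (fun z => jFun z * f z) := by
  refine ⟨h16l_mdiff_jFun.mul h.holo, fun γ hγ z => ?_, fun g => ?_⟩
  · rw [jFun_smul, h.inv γ hγ z]
  · have h1 := Filter.BoundedAtFilter.mul (MinReduced.bdd_pow MinReduced.E4_bdd 3) (h.bdd g)
    refine h1.congr' (Eventually.of_forall fun z => ?_) (by rfl)
    simp only [Pi.mul_apply]
    rw [jFun_smul, ← h16l_disc_mul_jFun z]
    ring

/-- multiplication by `j ^ m` raises the degree by `m`. -/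
theorem h16l_isWH_jpow_mul {d : ℕ} {f : ℍ → ℂ} (h : IsWH Γ d f) (m : ℕ) :
    IsWH Γ (d + m) (fun z => jFun z ^ m * f z) := by
  induction m with
  | zero => simpa using h
  | succ m ih =>
    have h1 := h16l_isWH_jmul ih
    have e : (fun z => jFun z * (jFun z ^ m * f z)) = fun z => jFun z ^ (m + 1) * f z := by
      funext z; ring
    rw [e] at h1
    exact h1

/-- `j` is unbounded on `ℍ`. -/
theorem h16l_jFun_unbounded (M : ℝ) : ∃ z : ℍ, M < ‖jFun z‖ := by
  obtain ⟨Y, hY⟩ := exists_jFun_bounds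
  -- choose `y` large
  obtain ⟨y, hy1, hy2, hy3⟩ : ∃ y : ℝ, 0 < y ∧ Y ≤ y ∧ 2 * M < Real.exp (2 * Real.pi * y) := by
    have h1 : Tendsto (fun y : ℝ => Real.exp (2 * Real.pi * y)) atTop atTop :=
      Real.tendsto_exp_atTop.comp
        (Filter.Tendsto.const_mul_atTop (by positivity) tendsto_id)
    have h2 := (h1.eventually_gt_atTop (2 * M)).and
      ((eventually_ge_atTop Y).and (eventually_gt_atTop (0 : ℝ)))
    obtain ⟨y, hy⟩ := h2.exists
    exact ⟨y, hy.2.2, hy.2.1, hy.1⟩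
  let z : ℍ := ⟨⟨0, y⟩, hy1⟩
  have hz : z.im = y := rfl
  refine ⟨z, ?_⟩
  have h := (hY z (by rw [hz]; exact hy2)).1
  rw [hz] at h
  have he : Real.exp (-2 * Real.pi * y) * Real.exp (2 * Real.pi * y) = 1 := by
    rw [← Real.exp_add]; simp
  have hpos : 0 < Real.exp (-2 * Real.pi * y) := Real.exp_pos _
  have hpos2 : 0 < Real.exp (2 * Real.pi * y) := Real.exp_pos _
  have h3 : ‖jFun z‖ = ‖jFun z‖ * Real.exp (-2 * Real.pi * y) * Real.exp (2 * Real.pi * y) := by
    rw [mul_assoc, he, mul_one]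
  rw [h3]
  nlinarith

variable [Fintype (SL(2, ℤ) ⧸ Γ)] [DecidableEq (SL(2, ℤ) ⧸ Γ)]

/-- the functions `j ^ m * v_k`, `m + d_k ≤ n`. -/
def h16lFam (t : Tuple Γ) (n : ℕ) (i : Σ k : SL(2, ℤ) ⧸ Γ, Fin (n + 1 - t.d k)) : ℍ → ℂ :=
  fun z => jFun z ^ (i.2 : ℕ) * t.v i.1 z

theorem h16l_fam_isWH (t : Tuple Γ) (n : ℕ) (i : Σ k : SL(2, ℤ) ⧸ Γ, Fin (n + 1 - t.d k)) :
    IsWH Γ n (h16lFam t n i) := by
  have h := h16l_isWH_jpow_mul (t.wh i.1) (i.2 : ℕ)
  exact h16l_isWH_mono h (by have := i.2.2; omega)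

/-- the polynomial in `j` attached to a coefficient vector and an index `k`. -/
def h16lPoly (t : Tuple Γ) (n : ℕ) (c : (Σ k : SL(2, ℤ) ⧸ Γ, Fin (n + 1 - t.d k)) → ℂ)
    (k : SL(2, ℤ) ⧸ Γ) : Polynomial ℂ :=
  ∑ m : Fin (n + 1 - t.d k), Polynomial.C (c ⟨k, m⟩) * Polynomial.X ^ (m : ℕ)

theorem h16l_poly_coeff (t : Tuple Γ) (n : ℕ)
    (c : (Σ k : SL(2, ℤ) ⧸ Γ, Fin (n + 1 - t.d k)) → ℂ) (k : SL(2, ℤ) ⧸ Γ)
    (m : Fin (n + 1 - t.d k)) : (h16lPoly t n c k).coeff (m : ℕ) = c ⟨k, m⟩ := by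
  unfold h16lPoly
  rw [Polynomial.finsetSum_coeff]
  rw [Finset.sum_eq_single m]
  · simp
  · intro b _ hb
    rw [Polynomial.coeff_C_mul, Polynomial.coeff_X_pow]
    have : (m : ℕ) ≠ (b : ℕ) := fun h => hb (Fin.ext h.symm)
    simp [this]
  · intro h
    exact absurd (Finset.mem_univ m) h

theorem h16l_poly_eval (t : Tuple Γ) (n : ℕ)
    (c : (Σ k : SL(2, ℤ) ⧸ Γ, Fin (n + 1 - t.d k)) → ℂ) (k : SL(2, ℤ) ⧸ Γ) (x : ℂ) :
    (h16lPoly t n c k).eval x = ∑ m : Fin (n + 1 - t.d k), c ⟨k, m⟩ * x ^ (m : ℕ) := by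
  unfold h16lPoly
  rw [Polynomial.eval_finsetSum]
  refine Finset.sum_congr rfl fun m _ => ?_
  simp

/-- **linear independence** of the functions `j ^ m * v_k`. -/
theorem h16l_linearIndependent (t : Tuple Γ) (n : ℕ) : LinearIndependent ℂ (h16lFam t n) := by
  classical
  rw [Fintype.linearIndependent_iff]
  intro c hc i
  have hsum : ∀ z : ℍ, ∑ k, (h16lPoly t n c k).eval (jFun z) * t.v k z = 0 := by
    intro z
    have h1 := congrFun hc z
    simp only [Finset.sum_apply, Pi.smul_apply, smul_eq_mul, Pi.zero_apply] at h1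
    rw [Fintype.sum_sigma] at h1
    rw [← h1]
    refine Finset.sum_congr rfl fun k _ => ?_
    rw [h16l_poly_eval, Finset.sum_mul]
    refine Finset.sum_congr rfl fun m _ => ?_
    simp only [h16lFam]
    ring
  have hP : ∀ z : ℍ, (cmat Γ t.v z).det ≠ 0 → ∀ k, (h16lPoly t n c k).eval (jFun z) = 0 := by
    intro z hz k
    have hv : Matrix.vecMul (fun k => (h16lPoly t n c k).eval (jFun z)) (cmat Γ t.v z) = 0 := by
      funext x
      simp only [Matrix.vecMul, dotProduct, cmat, Matrix.of_apply, cj, Pi.zero_apply]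
      have h2 := hsum ((Quotient.out x)⁻¹ • z)
      rw [← h2]
      refine Finset.sum_congr rfl fun k _ => ?_
      rw [jFun_smul]
    have h3 := Matrix.eq_zero_of_vecMul_eq_zero hz hv
    exact congrFun h3 k
  have hall : ∀ k, ∀ z : ℍ, (h16lPoly t n c k).eval (jFun z) = 0 := by
    intro k z₀
    have hcont : Continuous (fun z : ℍ => (h16lPoly t n c k).eval (jFun z)) :=
      (Polynomial.continuous _).comp h16l_mdiff_jFun.continuous
    have hev : ∀ᶠ z in 𝓝[≠] z₀, (h16lPoly t n c k).eval (jFun z) = 0 :=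
      (det_eventually_ne_zero t z₀).mono (fun z hz => hP z hz k)
    have ht : Tendsto (fun z : ℍ => (h16lPoly t n c k).eval (jFun z)) (𝓝[≠] z₀)
        (𝓝 ((h16lPoly t n c k).eval (jFun z₀))) :=
      hcont.continuousAt.tendsto.mono_left nhdsWithin_le_nhds
    have ht0 : Tendsto (fun z : ℍ => (h16lPoly t n c k).eval (jFun z)) (𝓝[≠] z₀) (𝓝 0) :=
      tendsto_const_nhds.congr' (hev.mono fun z hz => hz.symm)
    have := Api.nhdsNE_neBot z₀
    exact tendsto_nhds_unique ht ht0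
  have hp0 : ∀ k, h16lPoly t n c k = 0 := by
    intro k
    apply Polynomial.eq_zero_of_infinite_isRoot
    by_contra hfin
    rw [Set.not_infinite] at hfin
    obtain ⟨M, hM⟩ := (hfin.image norm).bddAbove
    obtain ⟨z, hz⟩ := h16l_jFun_unbounded M
    have h4 : ‖jFun z‖ ≤ M := hM ⟨jFun z, hall k z, rfl⟩
    linarith
  have h5 := h16l_poly_coeff t n c i.1 i.2
  rw [hp0 i.1, Polynomial.coeff_zero] at h5
  obtain ⟨k, m⟩ := i
  exact h5.symm

/-- the number of functions `j ^ m * v_k`, `m + d_k ≤ n`, is at least `(n + 1) μ - total`. -/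
theorem h16l_card_ge (t : Tuple Γ) (n : ℕ) :
    (n + 1) * Fintype.card (SL(2, ℤ) ⧸ Γ) ≤
      Fintype.card (Σ k : SL(2, ℤ) ⧸ Γ, Fin (n + 1 - t.d k)) + t.total := by
  rw [Fintype.card_sigma]
  simp only [Fintype.card_fin]
  unfold Tuple.total
  rw [← Finset.sum_add_distrib]
  have h : ∀ k ∈ (Finset.univ : Finset (SL(2, ℤ) ⧸ Γ)), n + 1 ≤ (n + 1 - t.d k) + t.d k :=
    fun k _ => by omega
  have h2 := Finset.sum_le_sum h
  simp only [Finset.sum_const, Finset.card_univ, smul_eq_mul] at h2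
  rw [mul_comm]
  exact h2

/-- **analytic Riemann inequality**: if `total t + 1 ≤ g + μ` then there are `n μ + 1 - g`
linearly independent weakly holomorphic functions of degree `≤ n`. -/
theorem h16l_exists_indep_of_tuple (t : Tuple Γ) (g : ℕ)
    (ht : t.total + 1 ≤ g + Fintype.card (SL(2, ℤ) ⧸ Γ)) (n : ℕ) :
    ∃ F : Fin (n * Fintype.card (SL(2, ℤ) ⧸ Γ) + 1 - g) → ℍ → ℂ,
      LinearIndependent ℂ F ∧ ∀ i, IsWH Γ n (F i) := by
  classical
  have hcard := h16l_card_ge t n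
  have hle : n * Fintype.card (SL(2, ℤ) ⧸ Γ) + 1 - g ≤
      Fintype.card (Σ k : SL(2, ℤ) ⧸ Γ, Fin (n + 1 - t.d k)) := by
    have : (n + 1) * Fintype.card (SL(2, ℤ) ⧸ Γ)
        = n * Fintype.card (SL(2, ℤ) ⧸ Γ) + Fintype.card (SL(2, ℤ) ⧸ Γ) := by ring
    omega
  let e := Fintype.equivFin (Σ k : SL(2, ℤ) ⧸ Γ, Fin (n + 1 - t.d k))
  let φ : Fin (n * Fintype.card (SL(2, ℤ) ⧸ Γ) + 1 - g) →
      (Σ k : SL(2, ℤ) ⧸ Γ, Fin (n + 1 - t.d k)) := fun i => e.symm (Fin.castLE hle i)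
  have hφ : Function.Injective φ :=
    e.symm.injective.comp (Fin.castLE_injective hle)
  exact ⟨fun i => h16lFam t n (φ i), (h16l_linearIndependent t n).comp φ hφ,
    fun i => h16l_fam_isWH t n (φ i)⟩

/-- **analytic Riemann inequality for `Γ₀(N)` with the genus `g = dim S₂(Γ₀(N))`**: for every
`n` there are `n μ + 1 - g` linearly independent `Γ₀(N)`-invariant functions, holomorphic on `ℍ`,
with poles of order at most `n` (in units of `Δ⁻¹`) at all cusps. -/
theorem h16l_exists_indep_Gamma0 (N : ℕ) [NeZero N] (n : ℕ) :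
    ∃ F : Fin (n * (CongruenceSubgroup.Gamma0 N).index + 1 -
        Module.finrank ℂ (CuspForm ((CongruenceSubgroup.Gamma0 N).map
          (Matrix.SpecialLinearGroup.mapGL ℝ)) 2)) → ℍ → ℂ,
      LinearIndependent ℂ F ∧ ∀ i, IsWH (CongruenceSubgroup.Gamma0 N) n (F i) := by
  classical
  letI : Fintype (SL(2, ℤ) ⧸ CongruenceSubgroup.Gamma0 N) :=
    Subgroup.fintypeQuotientOfFiniteIndex
  have hneg : (-1 : SL(2, ℤ)) ∈ CongruenceSubgroup.Gamma0 N := by
    rw [CongruenceSubgroup.Gamma0_mem]; simp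
  obtain ⟨t, ht⟩ := exists_isMin (nonempty_tuple_Gamma0 N)
  obtain ⟨ω, hω⟩ := exists_linearIndependent_cuspForms hneg ht.saturated ht.reduced
  haveI : FiniteDimensional ℂ (CuspForm ((CongruenceSubgroup.Gamma0 N).map
      (Matrix.SpecialLinearGroup.mapGL ℝ)) 2) :=
    Fermat.Agent.S49.finiteDimensional_cuspForm N 2
  have h2 := hω.fintype_card_le_finrank
  rw [Fintype.card_fin] at h2
  have hidx : (CongruenceSubgroup.Gamma0 N).index =
      Fintype.card (SL(2, ℤ) ⧸ CongruenceSubgroup.Gamma0 N) := by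
    rw [Subgroup.index, Nat.card_eq_fintype_card]
  rw [hidx] at h2 ⊢
  exact h16l_exists_indep_of_tuple t _ (by omega) n

end

end Fermat.Agent.P7
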