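import Fermat.Agent.P7.H34MultLift
import Fermat.Agent.P7.H12FreyBridge

/-!
# P7 (wave 7, row 38, target S44): the LOCAL leaf of S44, UNCONDITIONAL
(helper34, prefix `h34n_`)

* `h34n_isShortNodal_of_int` : an integer short model `y² = x³ + a₂ x² + a₄ x` with `p ∤ a₂`,
  `a₄ = u π ^ p`, `p ∣ π`, `π ≠ 0`, `p ∤ u` is short nodal (S05 `IsShortNodal`) at every place `A`
  of `ℚ̄` over `p`;
* `h34n_nodalZ : H12tNodalZ` : the local statement for the short nodal integer models
  (helper12's frozen input shape), from `h34n_localAt_nodal` (node lift + torsion order step +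
  flat ⟹ peu ramifié);
* `h34n_localFrey : H77mLocalFrey` : **the frozen Prop of the local leaf of S44**: for every Frey
  package `P` with `p ∣ a b c` and every integral model `W` of the Frey curve, the body of
  `H99wLocal` holds for `W` at `p` (through helper12's Frey bridge `h12t_localFrey_of_nodalZ`);
* `h34n_localMult : H41wLocalMult`, `h34n_localAt_frey` : the same in the shapes consumed by the
  tops of helper41 / helper99.
-/

set_option autoImplicit false
set_option linter.style.haveILetI false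
set_option linter.unusedSectionVars false

namespace Fermat.Agent.P7

open WeierstrassCurve Fermat.Agent.S05 Fermat.Agent.S37

/-- an integer short model with `p ∤ a₂`, `a₄ = u π ^ p`, `p ∣ π ≠ 0`, `p ∤ u` is short nodal at
every place over `p`. -/
theorem h34n_isShortNodal_of_int (W : WeierstrassCurve ℤ) {p : ℕ} (hp : p.Prime)
    (A : ValuationSubring Kbar) (hA : A.LiesOverPrime p)
    (h1 : W.a₁ = 0) (h3 : W.a₃ = 0) (h6 : W.a₆ = 0) (h2 : ¬ (p : ℤ) ∣ W.a₂)
    (π u : ℤ) (h4 : W.a₄ = u * π ^ p) (hπ : (p : ℤ) ∣ π) (hπ0 : π ≠ 0) (hu : ¬ (p : ℤ) ∣ u) :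
    IsShortNodal A p (h8wQ W) where
  a₁ := by
    show ((Int.castRingHom ℚ) W.a₁ : ℚ) = 0
    rw [h1, map_zero]
  a₃ := by
    show ((Int.castRingHom ℚ) W.a₃ : ℚ) = 0
    rw [h3, map_zero]
  a₆ := by
    show ((Int.castRingHom ℚ) W.a₆ : ℚ) = 0
    rw [h6, map_zero]
  a₂_unit := by
    have hAp : ((p : ℕ) : Kbar) ∈ A.nonunits := hA
    show IsUnitOf A (algebraMap ℚ Kbar ((W.a₂ : ℤ) : ℚ))
    rw [algebraMap_intCast]
    exact intCast_isUnitOf_of_not_dvd hp hAp h2
  a₄ := by
    have hAp : ((p : ℕ) : Kbar) ∈ A.nonunits := hA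
    refine ⟨(π : ℚ), (u : ℚ), ?_, ?_, ?_, ?_⟩
    · show ((Int.castRingHom ℚ) W.a₄ : ℚ) = _
      rw [h4, map_mul, map_pow]
      rfl
    · rw [algebraMap_intCast]
      exact intCast_nonunit_of_dvd hAp hπ
    · exact_mod_cast hπ0
    · rw [algebraMap_intCast]
      exact intCast_isUnitOf_of_not_dvd hp hAp hu

/-- **the local statement for the short nodal integer models** (helper12's input shape). -/
theorem h34n_nodalZ : H12tNodalZ := by
  intro W hΔ p hp hp5 h1 h3 h6 h2 π u h4 hπ hπ0 hu A hA
  have hp2 : p ≠ 2 := by omega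
  exact h34n_localAt_nodal W A hp hp2 hA hΔ
    (h34n_isShortNodal_of_int W hp A hA h1 h3 h6 h2 π u h4 hπ hπ0 hu) A hA

/-- **LOCAL-MULT, the local leaf of S44**: for every Frey package `P` with `p ∣ a b c` and every
integral model `W` of the Frey curve, `W[p]` is peu ramifié at `p` (body of `H99wLocal`). -/
theorem h34n_localFrey : H77mLocalFrey :=
  h12t_localFrey_of_nodalZ h34n_nodalZ

/-- the same in the shape consumed by helper41's top. -/
theorem h34n_localMult : H41wLocalMult :=
  h12t_localMult_iff.mpr h34n_localFrey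

/-- the same in the shape consumed by helper99's top `h99w_s44`. -/
theorem h34n_localAt_frey (P : FreyPackage) (W : WeierstrassCurve ℤ)
    (hW : W.IsIntegralModelOf P.freyCurve) (hp : (P.p : ℤ) ∣ P.a * P.b * P.c) :
    H99wLocalAt W P.p :=
  (h12t_localAt_iff W P.p).mpr (h34n_localFrey P W hW hp)

end Fermat.Agent.P7
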