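import Mathlib
import Fermat.Prelude.Def_FLTPrelim_FreyPackage
import Fermat.Prelude.Def_FLTPrelim_Modularity

/-!
# Wave 7 (S44): an integral model of the Frey curve is never good at `2` (helper9)

For a Frey package `P` and ANY integral Weierstrass model `W` of `P.freyCurve`
(`W.IsIntegralModelOf P.freyCurve`, i.e. a rational change of variables), `2 ∣ W.Δ`.

Consequence for the top of S44: the set of good primes of `W` never contains `2`, so every Hecke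
prime `ℓ` with `W.IsGoodPrimeFor ℓ` and `¬ ℓ ∣ M * p` (`p` odd) is also prime to
`Nat.lcm M 4 * p`.

Proof: `c₄(W)³ Δ(E) = Δ(W) c₄(E)³` (invariance of `j`, cross-multiplied), `2⁸ Δ(E) = (abc)^{2p}`,
`c₄(E) = a^{2p} + a^p b^p + b^{2p}` is odd and `2^{10} ∣ b^{2p}`.
-/

set_option autoImplicit false

open WeierstrassCurve

namespace Fermat.Agent.P7

/-- `c₄` of the Frey curve. -/
theorem h9w_frey_c₄ (P : FreyPackage) :
    P.freyCurve.c₄ =
      (P.a : ℚ) ^ (2 * P.p) + (P.a : ℚ) ^ P.p * (P.b : ℚ) ^ P.p + (P.b : ℚ) ^ (2 * P.p) := by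
  simp only [WeierstrassCurve.c₄, WeierstrassCurve.b₂, WeierstrassCurve.b₄,
    FreyPackage.freyCurve]
  ring

/-- `2⁸ Δ = (a b c)^{2p}` for the Frey curve (integers cast to `ℚ`). -/
theorem h9w_frey_Δ (P : FreyPackage) :
    (2 : ℚ) ^ 8 * P.freyCurve.Δ = ((P.a : ℚ) * P.b * P.c) ^ (2 * P.p) := by
  have hFLT : (P.a : ℚ) ^ P.p + (P.b : ℚ) ^ P.p = (P.c : ℚ) ^ P.p := by
    exact_mod_cast P.hFLT
  rw [pow_mul', mul_pow, mul_pow, ← hFLT]
  simp only [WeierstrassCurve.Δ, WeierstrassCurve.b₂, WeierstrassCurve.b₄, WeierstrassCurve.b₆,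
    WeierstrassCurve.b₈, FreyPackage.freyCurve]
  ring

/-- `a` is odd. -/
theorem h9w_frey_a_odd (P : FreyPackage) : ¬ (2 : ℤ) ∣ P.a := by
  intro h
  have hb : (2 : ℤ) ∣ P.b := (ZMod.intCast_zmod_eq_zero_iff_dvd P.b 2).1 P.hb2
  have h1 : (2 : ℤ) ∣ gcd P.a P.b := dvd_gcd h hb
  rw [P.hgcdab] at h1
  exact absurd h1 (by decide)

/-- the integral cross-multiplied `j`-relation. -/
theorem h9w_frey_rel (P : FreyPackage) (W : WeierstrassCurve ℤ)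
    (hW : W.IsIntegralModelOf P.freyCurve) :
    W.c₄ ^ 3 * (P.a * P.b * P.c) ^ (2 * P.p) =
      2 ^ 8 * (W.Δ *
        (P.a ^ (2 * P.p) + P.a ^ P.p * P.b ^ P.p + P.b ^ (2 * P.p)) ^ 3) := by
  obtain ⟨C, hC⟩ := hW
  have hΔ : ((W.Δ : ℤ) : ℚ) = (C.u⁻¹ : ℚ) ^ 12 * P.freyCurve.Δ := by
    have h := congrArg WeierstrassCurve.Δ hC
    rw [WeierstrassCurve.variableChange_Δ, WeierstrassCurve.map_Δ] at h
    simpa using h.symm
  have hc : ((W.c₄ : ℤ) : ℚ) = (C.u⁻¹ : ℚ) ^ 4 * P.freyCurve.c₄ := by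
    have h := congrArg WeierstrassCurve.c₄ hC
    rw [WeierstrassCurve.variableChange_c₄, WeierstrassCurve.map_c₄] at h
    simpa using h.symm
  have h1 := h9w_frey_Δ P
  have h2 := h9w_frey_c₄ P
  have key : ((W.c₄ : ℤ) : ℚ) ^ 3 * (((P.a : ℚ) * P.b * P.c) ^ (2 * P.p)) =
      2 ^ 8 * (((W.Δ : ℤ) : ℚ) *
        ((P.a : ℚ) ^ (2 * P.p) + (P.a : ℚ) ^ P.p * (P.b : ℚ) ^ P.p +
          (P.b : ℚ) ^ (2 * P.p)) ^ 3) := by
    rw [← h1, ← h2, hΔ, hc]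
    ring
  exact_mod_cast key

/-- **every integral model of the Frey curve has even discriminant.** -/
theorem h9w_frey_two_dvd_disc (P : FreyPackage) (W : WeierstrassCurve ℤ)
    (hW : W.IsIntegralModelOf P.freyCurve) : (2 : ℤ) ∣ W.Δ := by
  have hrel := h9w_frey_rel P W hW
  have hb : (2 : ℤ) ∣ P.b := (ZMod.intCast_zmod_eq_zero_iff_dvd P.b 2).1 P.hb2
  have ha : ¬ (2 : ℤ) ∣ P.a := h9w_frey_a_odd P
  have hp5 := P.hp5
  have h2 : Prime (2 : ℤ) := Int.prime_two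
  -- `2 ^ 9` divides the left-hand side
  have hL : (2 : ℤ) ^ 9 ∣ W.c₄ ^ 3 * (P.a * P.b * P.c) ^ (2 * P.p) := by
    have h9 : (2 : ℤ) ^ 9 ∣ P.b ^ (2 * P.p) :=
      (pow_dvd_pow 2 (by omega : 9 ≤ 2 * P.p)).trans (pow_dvd_pow_of_dvd hb _)
    have h10 : P.b ^ (2 * P.p) ∣ (P.a * P.b * P.c) ^ (2 * P.p) :=
      pow_dvd_pow_of_dvd ⟨P.a * P.c, by ring⟩ _
    exact Dvd.dvd.mul_left (h9.trans h10) _
  rw [hrel] at hL
  have hL' : (2 : ℤ) ∣ W.Δ *
      (P.a ^ (2 * P.p) + P.a ^ P.p * P.b ^ P.p + P.b ^ (2 * P.p)) ^ 3 := by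
    have h8 : (2 : ℤ) ^ 9 = 2 ^ 8 * 2 := by norm_num
    rw [h8] at hL
    exact (mul_dvd_mul_iff_left (by norm_num : (2 : ℤ) ^ 8 ≠ 0)).1 hL
  rcases h2.dvd_or_dvd hL' with h | h
  · exact h
  · exfalso
    have h3 := h2.dvd_of_dvd_pow h
    have hbp : (2 : ℤ) ∣ P.a ^ P.p * P.b ^ P.p + P.b ^ (2 * P.p) :=
      dvd_add (Dvd.dvd.mul_left (dvd_pow hb P.hp0) _)
        (dvd_pow hb (by have := P.hp0; omega))
    have h4 : (2 : ℤ) ∣ P.a ^ (2 * P.p) := by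
      have e : P.a ^ (2 * P.p) =
          (P.a ^ (2 * P.p) + P.a ^ P.p * P.b ^ P.p + P.b ^ (2 * P.p)) -
            (P.a ^ P.p * P.b ^ P.p + P.b ^ (2 * P.p)) := by ring
      rw [e]
      exact dvd_sub h3 hbp
    exact ha (h2.dvd_of_dvd_pow h4)

/-- **an integral model of the Frey curve is not good at `2`.** -/
theorem h9w_frey_not_good_two (P : FreyPackage) (W : WeierstrassCurve ℤ)
    (hW : W.IsIntegralModelOf P.freyCurve) : ¬ W.IsGoodPrimeFor 2 := by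
  intro h
  exact h (by exact_mod_cast h9w_frey_two_dvd_disc P W hW)

/-- every good prime of an integral model of the Frey curve is odd. -/
theorem h9w_frey_good_ne_two (P : FreyPackage) (W : WeierstrassCurve ℤ)
    (hW : W.IsIntegralModelOf P.freyCurve) {ℓ : ℕ} (hℓ : W.IsGoodPrimeFor ℓ) : ℓ ≠ 2 := by
  rintro rfl
  exact h9w_frey_not_good_two P W hW hℓ

/-- a good prime `ℓ` of an integral model of the Frey curve which is prime to `M * p` is prime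
to `Nat.lcm M 4 * p`. -/
theorem h9w_frey_good_not_dvd_lcm (P : FreyPackage) (W : WeierstrassCurve ℤ)
    (hW : W.IsIntegralModelOf P.freyCurve) {ℓ : ℕ} (hprime : ℓ.Prime)
    (hℓ : W.IsGoodPrimeFor ℓ) {M p : ℕ} (h : ¬ ℓ ∣ M * p) : ¬ ℓ ∣ Nat.lcm M 4 * p := by
  intro hd
  have hne : ℓ ≠ 2 := h9w_frey_good_ne_two P W hW hℓ
  rcases (Nat.Prime.dvd_mul hprime).1 hd with h1 | h1
  · have h2 : ℓ ∣ M * 4 := h1.trans (Nat.lcm_dvd_mul M 4)
    rcases (Nat.Prime.dvd_mul hprime).1 h2 with h3 | h3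
    · exact h (Dvd.dvd.mul_right h3 p)
    · have h4 : ℓ ∣ 2 ^ 2 := by norm_num; exact h3
      have h5 : ℓ ∣ 2 := hprime.dvd_of_dvd_pow h4
      exact hne ((Nat.prime_dvd_prime_iff_eq hprime Nat.prime_two).1 h5)
  · exact h (Dvd.dvd.mul_left h1 M)

end Fermat.Agent.P7
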