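import Fermat.Agent.P7.H99W7TopGood
import Fermat.Agent.P7.H9FreyBad2

/-!
# Wave 7 (S44): the final wrapper (helper99)

`h99w_s44_final` : the frozen statement S44 (Mazur–Ribet for Frey curves, removal of `p` from a
conductor level) from exactly TWO open atoms:

* `(T)` `∀ p, 5 ≤ p → H99wToricGoodAt p` (toric block; Hecke primes prime to
  `goodLevel p M * p` only);
* `(L)` `H77mLocalFrey` (the local "peu ramifié" block for integral models of Frey curves).

The hypothesis "an integral model of a Frey curve is bad at `2`" of `h99w_s44_good` is discharged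
by helper9's landed `h9w_frey_not_good_two`.
-/

set_option autoImplicit false

open WeierstrassCurve WeierstrassCurve.Affine WeierstrassCurve.Affine.Point
open CuspForm ModularFormClass UpperHalfPlane
open FreyPackage

namespace Fermat.Agent.P7

/-- **S44 from the two open atoms (T) = `H99wToricGoodAt` for `p ≥ 5` and
(L) = `H77mLocalFrey`.** -/
theorem h99w_s44_final (hT : ∀ p : ℕ, 5 ≤ p → H99wToricGoodAt p) (hL : H77mLocalFrey)
    (P : FreyPackage) {N : ℕ} (hcond : P.IsConductorLevel N) (hpN : P.p ∣ N)
    (hirr : GaloisRepIsIrreducible (K := AlgebraicClosure ℚ) ℚ P.freyCurve P.p)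
    (hmod : P.ModularRepOfLevel N) :
    ∃ M : ℕ, M ∣ N ∧ ¬ P.p ∣ M ∧ P.ModularRepOfLevel M :=
  h99w_s44_good hT hL (fun P W hW => h9w_frey_not_good_two P W hW) P hcond hpN hirr hmod

end Fermat.Agent.P7
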