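import Fermat.Agent.P7.H16Top
import Fermat.Agent.P7.H99S44Final
import Fermat.Agent.P7.H34MultFrey

/-!
# Wave 7: the frozen statement S44 from the two end shapes (I-1) and (I-2) (helper16)

`h16t_s44_of : (∀ p ≥ 5, H16tSlopeZero p) → (∀ p ≥ 5, H16tDlog p) → (frozen S44)`:
the landed top `h99w_s44_final` (helper99), the landed local atom `h34n_localFrey`
(helper34) and the T-TOP twin `h16t_toricGoodAt`.
-/

set_option autoImplicit false

open WeierstrassCurve WeierstrassCurve.Affine WeierstrassCurve.Affine.Point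

noncomputable section

namespace Fermat.Agent.P7

/-- **S44 from (I-1) SLOPE-ZERO and (I-2) DLOG.** -/
theorem h16t_s44_of (hS : ∀ p : ℕ, 5 ≤ p → H16tSlopeZero p) (hD : ∀ p : ℕ, 5 ≤ p → H16tDlog p)
    (P : FreyPackage) {N : ℕ} (hcond : P.IsConductorLevel N) (hpN : P.p ∣ N)
    (hirr : GaloisRepIsIrreducible (K := AlgebraicClosure ℚ) ℚ P.freyCurve P.p)
    (hmod : P.ModularRepOfLevel N) :
    ∃ M : ℕ, M ∣ N ∧ ¬ P.p ∣ M ∧ P.ModularRepOfLevel M :=
  h99w_s44_final (fun p h5 => h16t_toricGoodAt h5 (hS p h5) (hD p h5)) h34n_localFrey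
    P hcond hpN hirr hmod

end Fermat.Agent.P7
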