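import Fermat.Agent.P7.H23ValI1
import Fermat.Agent.S56F.FLD1_helper45

/-!
# Wave 7 (S40), row T-CONST-BREAK (helper23): the ramification break of `Fix(I₁)(β)`

GLOBAL frame: `A` a valuation subring of `ℚ̄` over the odd prime `p`, `I₁ = h23vI1 p A`,
`K₁ = Fix(I₁)`, `β` a unit of `A` with `β ^ p ∈ K₁`, `b ∈ I₁` with `b β = ζ β` (so `β ∉ K₁`),
`L = Fix(I_β) = K₁(β)`, `I_β = {a ∈ I₁ | a β = β}`, `v = A.valuation`.

* `H23wBreak p A ζ β b δ` : the frozen shape: `δ ≠ 0`, `0 < v(δ) < v(ζ - 1)` (additively) and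
  for every `γ ∈ Lˣ`: `b γ / γ ≡ 1` modulo `δ A`, and
  `b γ / γ ≡ 1` modulo `δ 𝔪_A` **iff** `v(γ)` lies in the value group of `K₁`
  (`v(γ) ^ (p - 1) = v(p) ^ n` for some `n : ℤ`).
* `h23w_break` : a depth `δ` with `H23wBreak` exists.
-/

set_option autoImplicit false
set_option linter.style.haveILetI false
set_option linter.unusedSectionVars false

open Fermat.Agent.PT.Loc Fermat.Agent.S56F Fermat.Agent.PT.Bridge

open scoped Pointwise

noncomputable section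

namespace Fermat.Agent.P7

/-- the frozen shape of row T-CONST-BREAK: `δ` is a break depth for `(β, b)`. -/
def H23wBreak (p : ℕ) (A : ValuationSubring Qb) (ζ β : Qb) (b : GQ) (δ : Qb) : Prop :=
  δ ≠ 0 ∧ δ ∈ A.nonunits ∧ (ζ - 1) * δ⁻¹ ∈ A.nonunits ∧
    ∀ γ : Qb, γ ≠ 0 → (∀ a ∈ h23vI1 p A, a β = β → a γ = γ) →
      (b γ * γ⁻¹ - 1) * δ⁻¹ ∈ A ∧
      ((b γ * γ⁻¹ - 1) * δ⁻¹ ∈ A.nonunits ↔
        ∃ n : ℤ, A.valuation γ ^ (p - 1) = A.valuation (p : Qb) ^ n)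

variable {p : ℕ} [Fact p.Prime]

/-! ## transport of valuations to the local norm -/

/-- membership in the maximal ideal of a translate of `padicPlace p`. -/
theorem h23w_mem_nonunits_smul (g : GQ) (x : Qb) :
    x ∈ (g⁻¹ • padicPlace p).nonunits ↔ ‖padicEmbedding p (g x)‖ < 1 := by
  rw [Fermat.Agent.Bridge.mem_nonunits_iff_inv]
  by_cases hx : x = 0
  · subst hx
    simp
  · have h0 : padicEmbedding p (g x) ≠ 0 := by
      intro h0
      exact hx (h23k_inj (p := p) g (by rw [h0, map_zero, map_zero]))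
    have hpos : 0 < ‖padicEmbedding p (g x)‖ := norm_pos_iff.mpr h0
    rw [h23k_mem_smul, map_inv₀, map_inv₀, norm_inv]
    constructor
    · rintro (h | h)
      · exact absurd h hx
      · rw [not_le] at h
        by_contra hge
        rw [not_lt] at hge
        exact absurd (inv_le_one_of_one_le₀ hge) (not_le.mpr h)
    · intro h
      right
      rw [not_le]
      exact (one_lt_inv₀ hpos).mpr h

/-- `v(ζ - 1) ^ (p - 1) = v(p)`. -/
theorem h23w_val_zeta (A : ValuationSubring Qb) (hA : A.LiesOverPrime p)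
    {ζ : Qb} (hζ : IsPrimitiveRoot ζ p) :
    A.valuation (ζ - 1) ^ (p - 1) = A.valuation (p : Qb) := by
  have hp : p.Prime := Fact.out
  obtain ⟨g, hg⟩ := h23b_exists_smul_padicPlace p hA
  subst hg
  have hζ' : IsPrimitiveRoot (padicEmbedding p (g ζ)) p :=
    (hζ.map_of_injective g.injective).map_of_injective
      (fun x y h => h23b_padicEmbedding_injective p h)
  have h1 := h7g_norm_zeta_sub_one hζ'
  have hζ1 : ζ - 1 ≠ 0 := sub_ne_zero.mpr (hζ.ne_one hp.one_lt)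
  have hp0 : ((p : ℕ) : Qb) ≠ 0 := by exact_mod_cast hp.ne_zero
  have hn : ‖padicEmbedding p (g ((ζ - 1) ^ (p - 1)))‖ = ‖padicEmbedding p (g (p : Qb))‖ := by
    rw [map_pow, map_pow, norm_pow, map_sub, map_sub, map_one, map_one, h1, map_natCast,
      map_natCast]
  have hne : ‖padicEmbedding p (g (p : Qb))‖ ≠ 0 := by
    rw [norm_ne_zero_iff]
    intro h0
    exact hp0 (h23k_inj (p := p) g (by rw [h0, map_zero, map_zero]))
  have hx0 : (ζ - 1) ^ (p - 1) * ((p : Qb))⁻¹ ≠ 0 :=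
    mul_ne_zero (pow_ne_zero _ hζ1) (inv_ne_zero hp0)
  have h3 : ((ζ - 1) ^ (p - 1) * ((p : Qb))⁻¹)⁻¹ = (p : Qb) * ((ζ - 1) ^ (p - 1))⁻¹ := by
    rw [mul_inv, inv_inv, mul_comm]
  have h4 := h23v_val_eq_one (A := g⁻¹ • padicPlace p) hx0
    (by rw [h23k_mem_smul, map_mul, map_mul, norm_mul, map_inv₀, map_inv₀, norm_inv, hn,
          mul_inv_cancel₀ hne])
    (by rw [h3, h23k_mem_smul, map_mul, map_mul, norm_mul, map_inv₀, map_inv₀, norm_inv, hn,
          mul_inv_cancel₀ hne])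
  rw [map_mul, map_inv₀, map_pow] at h4
  have h5 : (g⁻¹ • padicPlace p).valuation (p : Qb) ≠ 0 := (Valuation.ne_zero_iff _).mpr hp0
  exact (mul_inv_eq_one₀ h5).mp h4

/-- **Teichmüller**: a unit of `A` is congruent to a root of unity of order `p ^ f - 1`. -/
theorem h23w_teich (A : ValuationSubring Qb) (hA : A.LiesOverPrime p)
    {β : Qb} (hβ0 : β ≠ 0) (hβA : β ∈ A) (hβA' : β⁻¹ ∈ A) :
    ∃ f : ℕ, 0 < f ∧ β ^ (p ^ f - 1) - 1 ∈ A.nonunits := by
  have hp : p.Prime := Fact.out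
  obtain ⟨g, hg⟩ := h23b_exists_smul_padicPlace p hA
  subst hg
  set x : Om p := padicEmbedding p (g β) with hx
  have hx0 : x ≠ 0 := by
    intro h0
    exact hβ0 (h23k_inj (p := p) g (by rw [← hx, h0, map_zero, map_zero]))
  have hx1 : ‖x‖ = 1 := by
    have h1 : ‖x‖ ≤ 1 := (h23k_mem_smul g β).mp hβA
    have h2 : ‖x‖⁻¹ ≤ 1 := by
      have := (h23k_mem_smul g β⁻¹).mp hβA'
      rwa [map_inv₀, map_inv₀, norm_inv] at this
    have hpos : 0 < ‖x‖ := norm_pos_iff.mpr hx0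
    exact le_antisymm h1 ((inv_le_one₀ hpos).mp h2)
  have hxint : IsIntegral ℚ_[p] x := Algebra.IsIntegral.isIntegral x
  have hfd : FiniteDimensional ℚ_[p] (IntermediateField.adjoin ℚ_[p] {x}) :=
    IntermediateField.adjoin.finiteDimensional hxint
  have hxK : x ∈ IntermediateField.adjoin ℚ_[p] {x} :=
    IntermediateField.subset_adjoin ℚ_[p] {x} (Set.mem_singleton x)
  obtain ⟨-, ⟨f, hf0, hres⟩, hpow, hteich, -⟩ :=
    h34lf_lfTeich p (IntermediateField.adjoin ℚ_[p] {x})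
  obtain ⟨w, hwK, hxw⟩ := hteich x hxK hx1
  have hwn := hpow w hwK
  rw [hres] at hwn
  refine ⟨f, hf0, ?_⟩
  rw [h23w_mem_nonunits_smul, map_sub, map_sub, map_pow, map_pow, map_one, map_one, ← hx,
    ← hwn]
  have hw1 : ‖w‖ = 1 := h34lf_norm_of_mem_muPrime _ hwK
  -- `x ^ n - w ^ n = (∑ ...) (x - w)`
  rw [← geom_sum₂_mul, norm_mul]
  have hsum : ‖∑ i ∈ Finset.range (p ^ f - 1), x ^ i * w ^ (p ^ f - 1 - 1 - i)‖ ≤ 1 := by
    refine IsUltrametricDist.norm_sum_le_of_forall_le_of_nonneg zero_le_one fun i _ => ?_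
    rw [norm_mul, norm_pow, norm_pow, hx1, hw1, one_pow, one_pow, one_mul]
  calc ‖∑ i ∈ Finset.range (p ^ f - 1), x ^ i * w ^ (p ^ f - 1 - 1 - i)‖ * ‖x - w‖
      ≤ 1 * ‖x - w‖ := mul_le_mul_of_nonneg_right hsum (norm_nonneg _)
    _ = ‖x - w‖ := one_mul _
    _ < 1 := hxw

/-! ## elementary valuation lemmas -/

/-- a natural number prime to `p` is a unit of `A`. -/
theorem h23w_natCast_unit (A : ValuationSubring Qb) (hA : A.LiesOverPrime p) {i : ℕ}
    (hi : ¬ p ∣ i) : A.valuation (i : Qb) = 1 := by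
  have hp : p.Prime := Fact.out
  have hcop : IsCoprime (i : ℤ) (p : ℤ) := by
    rw [Int.isCoprime_iff_gcd_eq_one, Int.gcd_natCast_natCast]
    exact ((Nat.Prime.coprime_iff_not_dvd hp).2 hi).symm
  obtain ⟨a, c, hac⟩ := hcop
  have h1 : (a : Qb) * (i : Qb) = 1 + (-(c : Qb)) * (p : Qb) := by
    have h2 : ((a * (i : ℤ) + c * (p : ℤ) : ℤ) : Qb) = 1 := by rw [hac]; simp
    push_cast at h2
    linear_combination h2
  have hcp : (-(c : Qb)) * (p : Qb) ∈ A.nonunits :=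
    Fermat.Agent.Bridge.mul_mem_nonunits_right A (A.neg_mem _ (intCast_mem A c)) hA
  have h3 : A.valuation ((a : Qb) * (i : Qb)) = 1 := by
    rw [h1]
    exact h23v_val_one_add hcp
  rw [map_mul] at h3
  have ha : A.valuation (a : Qb) ≤ 1 := (A.valuation_le_one_iff _).mpr (intCast_mem A a)
  have hi1 : A.valuation (i : Qb) ≤ 1 := (A.valuation_le_one_iff _).mpr (natCast_mem A i)
  refine le_antisymm hi1 ?_
  calc (1 : A.ValueGroup) = A.valuation (a : Qb) * A.valuation (i : Qb) := h3.symm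
    _ ≤ 1 * A.valuation (i : Qb) := mul_le_mul_of_nonneg_right ha zero_le
    _ = A.valuation (i : Qb) := one_mul _

/-- `(1 + δ) ^ i - 1 = δ u_i` with `u_i ≡ i` modulo `δ A`. -/
theorem h23w_pow_sub_one (A : ValuationSubring Qb) {δ : Qb} (hδ : δ ∈ A) (i : ℕ) :
    ∃ u : Qb, (1 + δ) ^ i - 1 = δ * u ∧ ∃ w ∈ A, u = (i : Qb) + δ * w := by
  induction i with
  | zero => exact ⟨0, by simp, 0, A.zero_mem, by simp⟩
  | succ i ih =>
    obtain ⟨u, hu, w, hw, huw⟩ := ih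
    have huA : u ∈ A := by
      rw [huw]
      exact A.add_mem _ _ (natCast_mem A i) (A.mul_mem _ _ hδ hw)
    refine ⟨(1 + δ) * u + 1, ?_, w + u, A.add_mem _ _ hw huA, ?_⟩
    · have h1 : (1 + δ) ^ (i + 1) - 1 = (1 + δ) * ((1 + δ) ^ i - 1) + δ := by ring
      rw [h1, hu]
      ring
    · rw [huw]
      push_cast
      ring

/-- the unit `u_i` of `(1 + δ) ^ i - 1 = δ u_i` for `p ∤ i`. -/
theorem h23w_pow_sub_one_unit (A : ValuationSubring Qb) (hA : A.LiesOverPrime p) {δ : Qb}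
    (hδ : δ ∈ A.nonunits) (i : ℕ) :
    ∃ u : Qb, (1 + δ) ^ i - 1 = δ * u ∧ A.valuation u ≤ 1 ∧ (¬ p ∣ i → A.valuation u = 1) := by
  obtain ⟨u, hu, w, hw, huw⟩ :=
    h23w_pow_sub_one A (Fermat.Agent.Bridge.mem_of_mem_nonunits A hδ) i
  have hδw : A.valuation (δ * w) < 1 :=
    (ValuationSubring.mem_nonunits_iff A).mp (Fermat.Agent.Bridge.mul_mem_nonunits_left A hδ hw)
  refine ⟨u, hu, ?_, fun hi => ?_⟩
  · rw [huw]
    exact (Valuation.map_add_le_max' _ _ _).trans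
      (max_le ((A.valuation_le_one_iff _).mpr (natCast_mem A i)) hδw.le)
  · rw [huw]
    have h1 := h23w_natCast_unit A hA hi
    rw [Valuation.map_add_eq_of_lt_left _ (by rw [h1]; exact hδw), h1]

/-- the value group of `Fix(I₁)` is generated by `v(ζ - 1)`. -/
theorem h23w_val_K1 (hp2 : p ≠ 2) (A : ValuationSubring Qb) (hA : A.LiesOverPrime p)
    {ζ : Qb} (hζ : IsPrimitiveRoot ζ p) {y : Qb} (hy0 : y ≠ 0)
    (hy : ∀ a ∈ h23vI1 p A, a y = y) :
    ∃ n : ℤ, A.valuation y = A.valuation (ζ - 1) ^ n := by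
  have hp : p.Prime := Fact.out
  obtain ⟨n, hn⟩ := h23v_val hp2 A hA hy0 hy
  refine ⟨n, ?_⟩
  have hp1 : p - 1 ≠ 0 := by
    have := hp.two_le
    omega
  rw [← h23w_val_zeta A hA hζ] at hn
  have h1 : (A.valuation (ζ - 1) ^ (p - 1)) ^ n = (A.valuation (ζ - 1) ^ n) ^ (p - 1) := by
    rw [← zpow_natCast, ← zpow_mul, mul_comm, zpow_mul, zpow_natCast]
  rw [h1] at hn
  exact (pow_left_inj₀ zero_le zero_le hp1).mp hn

/-- conversely a power of `v(ζ - 1)` is in the value group of `Fix(I₁)`. -/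
theorem h23w_val_K1_conv (A : ValuationSubring Qb) (hA : A.LiesOverPrime p)
    {ζ : Qb} (hζ : IsPrimitiveRoot ζ p) {γ : Qb} {n : ℤ}
    (h : A.valuation γ = A.valuation (ζ - 1) ^ n) :
    A.valuation γ ^ (p - 1) = A.valuation (p : Qb) ^ n := by
  rw [h, ← h23w_val_zeta A hA hζ, ← zpow_natCast, ← zpow_mul, mul_comm, zpow_mul, zpow_natCast]

/-! ## the uniformising element `β - 1` -/

/-- **Lemma A**: the inertia group acts trivially on the residue field, hence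
`v(ζ - 1) < v(β - 1)` (multiplicatively) for a unit `β` with `b β = ζ β`. -/
theorem h23w_lemmaA (A : ValuationSubring Qb) {ζ β : Qb} (hζ1 : ζ ≠ 1)
    (hβ0 : β ≠ 0) (hβA : β ∈ A) (hβA' : β⁻¹ ∈ A)
    {b : GQ} (hb : b ∈ A.inertiaSubgroupIn ℚ) (hbζ : b ζ = ζ) (hbβ : b β = ζ * β) :
    A.valuation (ζ - 1) < A.valuation (β - 1) := by
  by_contra hge
  rw [not_lt] at hge
  have hζ1' : ζ - 1 ≠ 0 := sub_ne_zero.mpr hζ1
  have ht0 : A.valuation (ζ - 1) ≠ 0 := (Valuation.ne_zero_iff _).mpr hζ1'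
  have hz : (β - 1) * (ζ - 1)⁻¹ ∈ A := by
    rw [← A.valuation_le_one_iff, map_mul, map_inv₀]
    calc A.valuation (β - 1) * (A.valuation (ζ - 1))⁻¹
        ≤ A.valuation (ζ - 1) * (A.valuation (ζ - 1))⁻¹ :=
          mul_le_mul_of_nonneg_right hge zero_le
      _ = 1 := mul_inv_cancel₀ ht0
  have h1 := ((Fermat.Agent.Bridge.memInertia A b).mp hb).2 _ hz
  have h2 : b ((β - 1) * (ζ - 1)⁻¹) - (β - 1) * (ζ - 1)⁻¹ = β := by
    rw [map_mul, map_inv₀, map_sub, map_sub, map_one, hbζ, hbβ]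
    field_simp
    ring
  rw [h2, ValuationSubring.mem_nonunits_iff, h23v_val_eq_one hβ0 hβA hβA'] at h1
  exact lt_irrefl _ h1

/-- a root of unity has valuation one. -/
theorem h23w_val_root (A : ValuationSubring Qb) {μ : Qb} {n : ℕ} (hn : n ≠ 0)
    (hμ : μ ^ n = 1) : A.valuation μ = 1 := by
  have h1 : A.valuation μ ^ n = 1 := by rw [← map_pow, hμ, map_one]
  exact (pow_eq_one_iff_of_nonneg zero_le hn).mp h1

/-- `v(μ - 1) ≤ v(ζ - 1)` for every `p`-th root of unity `μ`. -/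
theorem h23w_val_root_sub_one (A : ValuationSubring Qb) {ζ : Qb} (hζ : IsPrimitiveRoot ζ p)
    {μ : Qb} (hμ : μ ^ p = 1) : A.valuation (μ - 1) ≤ A.valuation (ζ - 1) := by
  have hp : p.Prime := Fact.out
  haveI : NeZero p := ⟨hp.ne_zero⟩
  obtain ⟨i, -, rfl⟩ := hζ.eq_pow_of_pow_eq_one hμ
  rw [← geom_sum_mul, map_mul]
  have h1 : A.valuation (∑ k ∈ Finset.range i, ζ ^ k) ≤ 1 := by
    refine Valuation.map_sum_le _ fun k _ => ?_
    rw [map_pow, h23w_val_root A hp.ne_zero hζ.pow_eq_one, one_pow]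
  calc A.valuation (∑ k ∈ Finset.range i, ζ ^ k) * A.valuation (ζ - 1)
      ≤ 1 * A.valuation (ζ - 1) := mul_le_mul_of_nonneg_right h1 zero_le
    _ = A.valuation (ζ - 1) := one_mul _

/-- `v(β ^ p - 1) = v(β - 1) ^ p` when `β - 1` is shallower than `ζ - 1`. -/
theorem h23w_val_pow_sub_one (A : ValuationSubring Qb) {ζ : Qb} (hζ : IsPrimitiveRoot ζ p)
    {β : Qb} (h : A.valuation (ζ - 1) < A.valuation (β - 1)) :
    A.valuation (β ^ p - 1) = A.valuation (β - 1) ^ p := by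
  have hp : p.Prime := Fact.out
  have h1 := hζ.pow_sub_pow_eq_prod_sub_mul β 1 hp.pos
  rw [one_pow] at h1
  rw [h1, map_prod]
  have h2 : ∀ μ ∈ Polynomial.nthRootsFinset p (1 : Qb),
      A.valuation (β - μ * 1) = A.valuation (β - 1) := by
    intro μ hμ
    have hμp : μ ^ p = 1 := (Polynomial.mem_nthRootsFinset hp.pos 1).mp hμ
    have h3 : β - μ * 1 = (β - 1) - (μ - 1) := by ring
    rw [h3]
    exact Valuation.map_sub_eq_of_lt_left _
      ((h23w_val_root_sub_one A hζ hμp).trans_lt h)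
  rw [Finset.prod_congr rfl h2, Finset.prod_const, hζ.card_nthRootsFinset]

/-! ## arithmetic in the value group -/

/-- the exponent `s` of `r ^ p = t ^ s` is in `(0, p)`, and `r ^ k ∉ t ^ ℤ` for `0 < k < p`. -/
theorem h23w_not_pow {Γ : Type*} [LinearOrderedCommGroupWithZero Γ] {t r : Γ} (ht0 : 0 < t)
    (htr : t < r) (hr1 : r < 1) {s : ℤ} (hs : r ^ p = t ^ s) {k : ℕ} (hk0 : 0 < k) (hkp : k < p)
    (n : ℤ) : r ^ k ≠ t ^ n := by
  have hp : p.Prime := Fact.out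
  have ht1 : t < 1 := htr.trans hr1
  have hr0 : 0 < r := ht0.trans htr
  -- `0 < s < p`
  have hsp : s < p := by
    have h1 : t ^ p < r ^ p := pow_lt_pow_left₀ htr ht0.le hp.ne_zero
    rw [hs, ← zpow_natCast] at h1
    exact (zpow_lt_zpow_iff_right_of_lt_one₀ ht0 ht1).mp h1
  have hs0 : 0 < s := by
    have h1 : r ^ p < 1 := pow_lt_one₀ hr0.le hr1 hp.ne_zero
    rw [hs, ← zpow_zero t] at h1
    exact (zpow_lt_zpow_iff_right_of_lt_one₀ ht0 ht1).mp h1
  intro h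
  have h1 : t ^ (s * k) = t ^ (n * p) := by
    rw [zpow_mul, ← hs, zpow_natCast, ← pow_mul, mul_comm, pow_mul, h, zpow_mul, zpow_natCast]
  have h2 : s * k = n * p := zpow_right_injective₀ ht0 ht1.ne h1
  have h3 : (p : ℤ) ∣ s * k := ⟨n, by rw [h2, mul_comm]⟩
  have hpz : Prime (p : ℤ) := Nat.prime_iff_prime_int.mp hp
  rcases hpz.dvd_or_dvd h3 with h4 | h4
  · have := Int.le_of_dvd hs0 h4
    omega
  · have hk0' : (0 : ℤ) < k := by exact_mod_cast hk0
    have := Int.le_of_dvd hk0' h4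
    omega

/-- `v(γ) ^ (p - 1) = v(p) ^ n` means `v(γ) = v(ζ - 1) ^ n`. -/
theorem h23w_val_of_pow (A : ValuationSubring Qb) (hA : A.LiesOverPrime p)
    {ζ : Qb} (hζ : IsPrimitiveRoot ζ p) {γ : Qb} {n : ℤ}
    (h : A.valuation γ ^ (p - 1) = A.valuation (p : Qb) ^ n) :
    A.valuation γ = A.valuation (ζ - 1) ^ n := by
  have hp : p.Prime := Fact.out
  have hp1 : p - 1 ≠ 0 := by
    have := hp.two_le
    omega
  rw [← h23w_val_zeta A hA hζ] at h
  have h1 : (A.valuation (ζ - 1) ^ (p - 1)) ^ n = (A.valuation (ζ - 1) ^ n) ^ (p - 1) := by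
    rw [← zpow_natCast, ← zpow_mul, mul_comm, zpow_mul, zpow_natCast]
  rw [h1] at h
  exact (pow_left_inj₀ zero_le zero_le hp1).mp h

/-! ## the expansion in powers of `β - 1` -/

/-- the expansion of an element of `Fix(I_β)` in powers of `β - 1`, coefficients in
`Fix(I₁)`. -/
theorem h23w_expand (A : ValuationSubring Qb) {β : Qb} (hβ0 : β ≠ 0)
    (hβ : ∀ a ∈ h23vI1 p A, a (β ^ p) = β ^ p)
    {x : Qb} (hx : ∀ a ∈ h23vI1 p A, a β = β → a x = x) :
    ∃ d : ℕ → Qb, (∀ i, ∀ a ∈ h23vI1 p A, a (d i) = d i) ∧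
      x = ∑ i ∈ Finset.range p, d i * (β - 1) ^ i := by
  obtain ⟨c, hc, hxc⟩ := h23v_resolvent A hβ0 hβ hx
  refine ⟨fun i => ∑ j ∈ Finset.range p, c j * (j.choose i : Qb), fun i a ha => ?_, ?_⟩
  · rw [map_sum]
    refine Finset.sum_congr rfl fun j _ => ?_
    rw [map_mul, hc j a ha, map_natCast]
  · have hpow : ∀ j ∈ Finset.range p,
        β ^ j = ∑ i ∈ Finset.range p, (j.choose i : Qb) * (β - 1) ^ i := by
      intro j hj
      have hjp : j < p := Finset.mem_range.mp hj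
      have h1 : β = (β - 1) + 1 := by ring
      conv_lhs => rw [h1, add_pow]
      have h2 : Finset.range (j + 1) ⊆ Finset.range p := by
        intro i hi
        rw [Finset.mem_range] at hi ⊢
        omega
      rw [← Finset.sum_subset h2]
      · refine Finset.sum_congr rfl fun i _ => ?_
        rw [one_pow, mul_one, mul_comm]
      · intro i _ hi
        rw [Finset.mem_range, not_lt] at hi
        rw [Nat.choose_eq_zero_of_lt (by omega), Nat.cast_zero, zero_mul]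
    rw [hxc, Finset.sum_congr rfl fun j hj => by rw [hpow j hj, Finset.mul_sum],
      Finset.sum_comm]
    refine Finset.sum_congr rfl fun i _ => ?_
    rw [Finset.sum_mul]
    refine Finset.sum_congr rfl fun j _ => ?_
    ring

/-! ## the break -/

/-- **BREAK, normalised form** (`β ≡ 1` modulo `𝔪_A`): `δ = b(β - 1) / (β - 1) - 1` is a break
depth. -/
theorem h23w_core (hp2 : p ≠ 2) (A : ValuationSubring Qb) (hA : A.LiesOverPrime p)
    {ζ : Qb} (hζ : IsPrimitiveRoot ζ p)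
    {β : Qb} (hβ0 : β ≠ 0) (hβA : β ∈ A) (hβA' : β⁻¹ ∈ A) (hβ1 : β - 1 ∈ A.nonunits)
    (hβ : ∀ a ∈ h23vI1 p A, a (β ^ p) = β ^ p)
    {b : GQ} (hb : b ∈ h23vI1 p A) (hbβ : b β = ζ * β) :
    H23wBreak p A ζ β b ((ζ - 1) * β * (β - 1)⁻¹) := by
  classical
  have hp : p.Prime := Fact.out
  have hζ1 : ζ ≠ 1 := hζ.ne_one hp.one_lt
  have hζ1' : ζ - 1 ≠ 0 := sub_ne_zero.mpr hζ1
  have hbζ : b ζ = ζ := hb.2 ζ hζ.pow_eq_one
  have hx0 : β - 1 ≠ 0 := by
    intro h0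
    have h1 : β = 1 := sub_eq_zero.mp h0
    rw [h1, map_one, mul_one] at hbβ
    exact hζ1 hbβ.symm
  have hvβ : A.valuation β = 1 := h23v_val_eq_one hβ0 hβA hβA'
  have ht0 : 0 < A.valuation (ζ - 1) :=
    zero_lt_iff.mpr ((Valuation.ne_zero_iff _).mpr hζ1')
  have hr0 : 0 < A.valuation (β - 1) := zero_lt_iff.mpr ((Valuation.ne_zero_iff _).mpr hx0)
  have hr1 : A.valuation (β - 1) < 1 := (ValuationSubring.mem_nonunits_iff A).mp hβ1
  have htr : A.valuation (ζ - 1) < A.valuation (β - 1) :=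
    h23w_lemmaA A hζ1 hβ0 hβA hβA' hb.1 hbζ hbβ
  have hy0 : β ^ p - 1 ≠ 0 := by
    intro h0
    have h1 := h23w_val_pow_sub_one A hζ htr
    rw [h0, map_zero] at h1
    exact (pow_ne_zero p hr0.ne') h1.symm
  have hyfix : ∀ a ∈ h23vI1 p A, a (β ^ p - 1) = β ^ p - 1 := by
    intro a ha
    rw [map_sub, map_one, hβ a ha]
  obtain ⟨s, hs⟩ := h23w_val_K1 hp2 A hA hζ hy0 hyfix
  rw [h23w_val_pow_sub_one A hζ htr] at hs
  have hN : ∀ k : ℕ, 0 < k → k < p → ∀ n : ℤ,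
      A.valuation (β - 1) ^ k ≠ A.valuation (ζ - 1) ^ n :=
    fun k hk0 hkp n => h23w_not_pow ht0 htr hr1 hs hk0 hkp n
  -- the depth
  obtain ⟨δ, hδ⟩ : ∃ δ : Qb, δ = (ζ - 1) * β * (β - 1)⁻¹ := ⟨_, rfl⟩
  rw [← hδ]
  have hδ0 : δ ≠ 0 := by
    rw [hδ]
    exact mul_ne_zero (mul_ne_zero hζ1' hβ0) (inv_ne_zero hx0)
  have hvδ : A.valuation δ = A.valuation (ζ - 1) * (A.valuation (β - 1))⁻¹ := by
    rw [hδ, map_mul, map_mul, map_inv₀, hvβ, mul_one]
  have hδm : δ ∈ A.nonunits := by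
    rw [ValuationSubring.mem_nonunits_iff, hvδ]
    calc A.valuation (ζ - 1) * (A.valuation (β - 1))⁻¹
        < A.valuation (β - 1) * (A.valuation (β - 1))⁻¹ :=
          mul_lt_mul_of_pos_right htr (inv_pos.mpr hr0)
      _ = 1 := mul_inv_cancel₀ hr0.ne'
  have hbx : b (β - 1) = (β - 1) * (1 + δ) := by
    rw [map_sub, map_one, hbβ, hδ]
    field_simp
    ring
  refine ⟨hδ0, hδm, ?_, ?_⟩
  · have h1 : (ζ - 1) * δ⁻¹ = (β - 1) * β⁻¹ := by
      rw [hδ]
      field_simp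
    rw [h1]
    exact Fermat.Agent.Bridge.mul_mem_nonunits_left A hβ1 hβA'
  intro γ hγ0 hγ
  obtain ⟨d, hd, hγd⟩ := h23w_expand A hβ0 hβ hγ
  choose u hu hu1 hu2 using fun i : ℕ => h23w_pow_sub_one_unit A hA hδm i
  obtain ⟨T, hT⟩ : ∃ T : ℕ → Qb, ∀ i, T i = d i * (β - 1) ^ i := ⟨_, fun _ => rfl⟩
  have hγT : γ = ∑ i ∈ Finset.range p, T i := by
    rw [hγd]
    exact Finset.sum_congr rfl fun i _ => (hT i).symm
  have hbγ : b γ - γ = δ * ∑ i ∈ Finset.range p, T i * u i := by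
    rw [hγT, map_sum, ← Finset.sum_sub_distrib, Finset.mul_sum]
    refine Finset.sum_congr rfl fun i _ => ?_
    rw [hT, map_mul, map_pow, hd i b hb, hbx, mul_pow]
    linear_combination (d i * (β - 1) ^ i) * hu i
  have hquot : (b γ * γ⁻¹ - 1) * δ⁻¹ = (∑ i ∈ Finset.range p, T i * u i) * γ⁻¹ := by
    have h1 : b γ = γ + δ * ∑ i ∈ Finset.range p, T i * u i := by
      rw [← hbγ]
      ring
    rw [h1]
    field_simp
    ring
  have hvd : ∀ i, d i ≠ 0 → ∃ n : ℤ, A.valuation (d i) = A.valuation (ζ - 1) ^ n :=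
    fun i hi => h23w_val_K1 hp2 A hA hζ hi (hd i)
  -- a term `T j`, `0 < j < p`, is not in the value group of `Fix(I₁)`
  have hnot : ∀ j : ℕ, 0 < j → j < p → T j ≠ 0 → ∀ n : ℤ,
      A.valuation (T j) ≠ A.valuation (ζ - 1) ^ n := by
    intro j hj0 hjp hTj n heq
    have hdj : d j ≠ 0 := by
      rw [hT] at hTj
      exact left_ne_zero_of_mul hTj
    obtain ⟨m, hm⟩ := hvd j hdj
    rw [hT, map_mul, map_pow, hm] at heq
    refine hN j hj0 hjp (n - m) ?_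
    rw [zpow_sub₀ ht0.ne', ← heq, mul_comm]
    exact (mul_div_cancel_right₀ _ (zpow_ne_zero m ht0.ne')).symm
  have hdist : ∀ i ∈ Finset.range p, ∀ j ∈ Finset.range p, i < j → T i ≠ 0 → T j ≠ 0 →
      A.valuation (T i) ≠ A.valuation (T j) := by
    intro i hi j hj hij hTi hTj heq
    have hdi : d i ≠ 0 := by
      rw [hT] at hTi
      exact left_ne_zero_of_mul hTi
    have hdj : d j ≠ 0 := by
      rw [hT] at hTj
      exact left_ne_zero_of_mul hTj
    obtain ⟨m, hm⟩ := hvd i hdi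
    obtain ⟨n, hn⟩ := hvd j hdj
    rw [hT, hT, map_mul, map_mul, map_pow, map_pow, hm, hn] at heq
    have hjp : j < p := Finset.mem_range.mp hj
    refine hN (j - i) (by omega) (by omega) (m - n) ?_
    have hri : A.valuation (β - 1) ^ i ≠ 0 := pow_ne_zero i hr0.ne'
    have h1 : A.valuation (β - 1) ^ j =
        A.valuation (β - 1) ^ (j - i) * A.valuation (β - 1) ^ i := by
      rw [← pow_add, Nat.sub_add_cancel hij.le]
    rw [h1, ← mul_assoc] at heq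
    have h2 := mul_right_cancel₀ hri heq
    rw [zpow_sub₀ ht0.ne', h2, mul_comm]
    exact (mul_div_cancel_right₀ _ (zpow_ne_zero n ht0.ne')).symm
  -- the dominant term
  obtain ⟨j, hj, hmax⟩ := Finset.exists_max_image (Finset.range p)
    (fun i => A.valuation (T i)) ⟨0, Finset.mem_range.mpr hp.pos⟩
  have hTj : T j ≠ 0 := by
    intro h0
    apply hγ0
    rw [hγT]
    refine Finset.sum_eq_zero fun i hi => ?_
    have h1 := hmax i hi
    simp only [h0, map_zero] at h1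
    exact (Valuation.zero_iff _).mp (le_antisymm h1 zero_le)
  have hvTj : 0 < A.valuation (T j) := zero_lt_iff.mpr ((Valuation.ne_zero_iff _).mpr hTj)
  have hlt : ∀ i ∈ Finset.range p, i ≠ j → A.valuation (T i) < A.valuation (T j) := by
    intro i hi hij
    by_cases hTi : T i = 0
    · rw [hTi, map_zero]
      exact hvTj
    · refine lt_of_le_of_ne (hmax i hi) ?_
      rcases lt_or_gt_of_ne hij with h | h
      · exact hdist i hi j hj h hTi hTj
      · exact (hdist j hj i hi h hTj hTi).symm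
  have hvγ : A.valuation γ = A.valuation (T j) := by
    rw [hγT]
    refine Valuation.map_sum_eq_of_lt _ hj fun i hi => ?_
    rw [Finset.mem_sdiff, Finset.mem_singleton] at hi
    exact hlt i hi.1 hi.2
  have hle : ∀ i ∈ Finset.range p, A.valuation (T i * u i) ≤ A.valuation (T i) := by
    intro i _
    rw [map_mul]
    exact mul_le_of_le_one_right zero_le (hu1 i)
  have hjp : j < p := Finset.mem_range.mp hj
  constructor
  · rw [hquot, ← A.valuation_le_one_iff, map_mul, map_inv₀, hvγ]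
    have h1 : A.valuation (∑ i ∈ Finset.range p, T i * u i) ≤ A.valuation (T j) :=
      Valuation.map_sum_le _ fun i hi => (hle i hi).trans (hmax i hi)
    calc A.valuation (∑ i ∈ Finset.range p, T i * u i) * (A.valuation (T j))⁻¹
        ≤ A.valuation (T j) * (A.valuation (T j))⁻¹ := mul_le_mul_of_nonneg_right h1 zero_le
      _ = 1 := mul_inv_cancel₀ hvTj.ne'
  · rw [hquot, ValuationSubring.mem_nonunits_iff, map_mul, map_inv₀, hvγ]
    by_cases hj0 : j = 0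
    · -- the dominant term is in `Fix(I₁)`
      subst hj0
      have hu0 : u 0 = 0 := by
        have h1 := hu 0
        rw [pow_zero, sub_self] at h1
        rcases mul_eq_zero.mp h1.symm with h2 | h2
        · exact absurd h2 hδ0
        · exact h2
      have h1 : A.valuation (∑ i ∈ Finset.range p, T i * u i) < A.valuation (T 0) := by
        refine Valuation.map_sum_lt _ hvTj.ne' fun i hi => ?_
        by_cases hi0 : i = 0
        · subst hi0
          rw [hu0, mul_zero, map_zero]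
          exact hvTj
        · exact (hle i hi).trans_lt (hlt i hi hi0)
      have h2 : A.valuation (∑ i ∈ Finset.range p, T i * u i) * (A.valuation (T 0))⁻¹ < 1 := by
        calc A.valuation (∑ i ∈ Finset.range p, T i * u i) * (A.valuation (T 0))⁻¹
            < A.valuation (T 0) * (A.valuation (T 0))⁻¹ :=
              mul_lt_mul_of_pos_right h1 (inv_pos.mpr hvTj)
          _ = 1 := mul_inv_cancel₀ hvTj.ne'
      refine ⟨fun _ => ?_, fun _ => h2⟩
      have hd0 : d 0 ≠ 0 := by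
        rw [hT] at hTj
        exact left_ne_zero_of_mul hTj
      obtain ⟨n, hn⟩ := hvd 0 hd0
      refine ⟨n, h23w_val_K1_conv A hA hζ ?_⟩
      rw [hT, pow_zero, mul_one, hn]
    · -- the dominant term is not in `Fix(I₁)`
      have hj0' : 0 < j := Nat.pos_of_ne_zero hj0
      have hpj : ¬ p ∣ j := fun h => absurd (Nat.le_of_dvd hj0' h) (by omega)
      have h1 : A.valuation (∑ i ∈ Finset.range p, T i * u i) = A.valuation (T j * u j) := by
        refine Valuation.map_sum_eq_of_lt _ hj fun i hi => ?_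
        rw [Finset.mem_sdiff, Finset.mem_singleton] at hi
        rw [map_mul (A.valuation) (T j), hu2 j hpj, mul_one]
        exact (hle i hi.1).trans_lt (hlt i hi.1 hi.2)
      rw [h1, map_mul, hu2 j hpj, mul_one, mul_inv_cancel₀ hvTj.ne']
      refine ⟨fun h => absurd h (lt_irrefl _), ?_⟩
      rintro ⟨n, hn⟩
      exact absurd (h23w_val_of_pow A hA hζ hn) (hnot j hj0' hjp hTj n)

/-- in the normalised situation `β - 1` is not in the value group of `Fix(I₁)`. -/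
theorem h23w_core_ram (hp2 : p ≠ 2) (A : ValuationSubring Qb) (hA : A.LiesOverPrime p)
    {ζ : Qb} (hζ : IsPrimitiveRoot ζ p)
    {β : Qb} (hβ0 : β ≠ 0) (hβA : β ∈ A) (hβA' : β⁻¹ ∈ A) (hβ1 : β - 1 ∈ A.nonunits)
    (hβ : ∀ a ∈ h23vI1 p A, a (β ^ p) = β ^ p)
    {b : GQ} (hb : b ∈ h23vI1 p A) (hbβ : b β = ζ * β) :
    β - 1 ≠ 0 ∧ ¬ ∃ n : ℤ, A.valuation (β - 1) ^ (p - 1) = A.valuation (p : Qb) ^ n := by
  have hp : p.Prime := Fact.out
  have hζ1 : ζ ≠ 1 := hζ.ne_one hp.one_lt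
  have hζ1' : ζ - 1 ≠ 0 := sub_ne_zero.mpr hζ1
  have hbζ : b ζ = ζ := hb.2 ζ hζ.pow_eq_one
  have hx0 : β - 1 ≠ 0 := by
    intro h0
    have h1 : β = 1 := sub_eq_zero.mp h0
    rw [h1, map_one, mul_one] at hbβ
    exact hζ1 hbβ.symm
  have ht0 : 0 < A.valuation (ζ - 1) :=
    zero_lt_iff.mpr ((Valuation.ne_zero_iff _).mpr hζ1')
  have hr0 : 0 < A.valuation (β - 1) := zero_lt_iff.mpr ((Valuation.ne_zero_iff _).mpr hx0)
  have hr1 : A.valuation (β - 1) < 1 := (ValuationSubring.mem_nonunits_iff A).mp hβ1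
  have htr : A.valuation (ζ - 1) < A.valuation (β - 1) :=
    h23w_lemmaA A hζ1 hβ0 hβA hβA' hb.1 hbζ hbβ
  have hy0 : β ^ p - 1 ≠ 0 := by
    intro h0
    have h1 := h23w_val_pow_sub_one A hζ htr
    rw [h0, map_zero] at h1
    exact (pow_ne_zero p hr0.ne') h1.symm
  have hyfix : ∀ a ∈ h23vI1 p A, a (β ^ p - 1) = β ^ p - 1 := by
    intro a ha
    rw [map_sub, map_one, hβ a ha]
  obtain ⟨s, hs⟩ := h23w_val_K1 hp2 A hA hζ hy0 hyfix
  rw [h23w_val_pow_sub_one A hζ htr] at hs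
  refine ⟨hx0, ?_⟩
  rintro ⟨n, hn⟩
  have h1 := h23w_val_of_pow A hA hζ hn
  refine h23w_not_pow ht0 htr hr1 hs Nat.one_pos hp.one_lt n ?_
  rw [pow_one, h1]

/-- the normalisation: `β₁ = (β ^ (p ^ f - 1))⁻¹ ≡ 1` generates the same extension. -/
theorem h23w_normalise (A : ValuationSubring Qb) (hA : A.LiesOverPrime p)
    {ζ : Qb} (hζ : IsPrimitiveRoot ζ p)
    {β : Qb} (hβ0 : β ≠ 0) (hβA : β ∈ A) (hβA' : β⁻¹ ∈ A)
    (hβ : ∀ a ∈ h23vI1 p A, a (β ^ p) = β ^ p)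
    {b : GQ} (hb : b ∈ h23vI1 p A) (hbβ : b β = ζ * β) :
    ∃ β₁ : Qb, β₁ ≠ 0 ∧ β₁ ∈ A ∧ β₁⁻¹ ∈ A ∧ β₁ - 1 ∈ A.nonunits ∧
      (∀ a ∈ h23vI1 p A, a (β₁ ^ p) = β₁ ^ p) ∧ b β₁ = ζ * β₁ ∧
      (∀ a ∈ h23vI1 p A, a β = β → a β₁ = β₁) ∧
      (∀ a ∈ h23vI1 p A, a β₁ = β₁ → a β = β) := by
  have hp : p.Prime := Fact.out
  have hbζ : b ζ = ζ := hb.2 ζ hζ.pow_eq_one
  have hζ0 : ζ ≠ 0 := hζ.ne_zero hp.ne_zero
  obtain ⟨f, hf0, hf⟩ := h23w_teich A hA hβ0 hβA hβA'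
  obtain ⟨n, hn⟩ : ∃ n : ℕ, n = p ^ f - 1 := ⟨_, rfl⟩
  rw [← hn] at hf
  have hn1 : n + 1 = p ^ f := by
    have : 0 < p ^ f := pow_pos hp.pos f
    omega
  have hpf : p ^ f = p * p ^ (f - 1) := by
    rw [← pow_succ', Nat.sub_add_cancel hf0]
  have hβn0 : β ^ n ≠ 0 := pow_ne_zero n hβ0
  -- `β ^ (p ^ f)` is in `Fix(I₁)`
  have hcfix : ∀ a ∈ h23vI1 p A, a (β ^ (n + 1)) = β ^ (n + 1) := by
    intro a ha
    rw [hn1, hpf, pow_mul, map_pow, hβ a ha]
  have hβeq : β = β ^ (n + 1) * (β ^ n)⁻¹ := by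
    rw [pow_succ]
    field_simp
  have hζn : (ζ ^ n)⁻¹ = ζ := by
    have h1 : ζ ^ n * ζ = 1 := by
      rw [← pow_succ, hn1, hpf, pow_mul, hζ.pow_eq_one, one_pow]
    exact inv_eq_of_mul_eq_one_right h1
  refine ⟨(β ^ n)⁻¹, inv_ne_zero hβn0, ?_, ?_, ?_, ?_, ?_, ?_, ?_⟩
  · rw [← inv_pow]
    exact pow_mem hβA' n
  · rw [inv_inv]
    exact pow_mem hβA n
  · have h1 : (β ^ n)⁻¹ - 1 = (-(β⁻¹ ^ n)) * (β ^ n - 1) := by
      rw [inv_pow]
      field_simp
      ring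
    rw [h1]
    exact Fermat.Agent.Bridge.mul_mem_nonunits_right A (A.neg_mem _ (pow_mem hβA' n)) hf
  · intro a ha
    have h1 : ((β ^ n)⁻¹) ^ p = ((β ^ p) ^ n)⁻¹ := by
      rw [inv_pow, ← pow_mul, ← pow_mul, mul_comm]
    rw [h1, map_inv₀, map_pow, hβ a ha]
  · rw [map_inv₀, map_pow, hbβ, mul_pow, mul_inv, hζn]
  · intro a ha haβ
    rw [map_inv₀, map_pow, haβ]
  · intro a ha haβ
    have h1 : a β = a (β ^ (n + 1)) * a ((β ^ n)⁻¹) := by
      rw [← map_mul, ← hβeq]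
    rw [h1, hcfix a ha, haβ, ← hβeq]

/-- **BREAK** (row T-CONST-BREAK (b)): a break depth exists. -/
theorem h23w_break (hp2 : p ≠ 2) (A : ValuationSubring Qb) (hA : A.LiesOverPrime p)
    {ζ : Qb} (hζ : IsPrimitiveRoot ζ p)
    {β : Qb} (hβ0 : β ≠ 0) (hβA : β ∈ A) (hβA' : β⁻¹ ∈ A)
    (hβ : ∀ a ∈ h23vI1 p A, a (β ^ p) = β ^ p)
    {b : GQ} (hb : b ∈ h23vI1 p A) (hbβ : b β = ζ * β) :
    ∃ δ : Qb, H23wBreak p A ζ β b δ := by
  obtain ⟨β₁, h0, hA1, hA1', h1, hfix, hbβ₁, -, hback⟩ :=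
    h23w_normalise A hA hζ hβ0 hβA hβA' hβ hb hbβ
  have hc := h23w_core hp2 A hA hζ h0 hA1 hA1' h1 hfix hb hbβ₁
  exact ⟨_, hc.1, hc.2.1, hc.2.2.1, fun γ hγ0 hγ =>
    hc.2.2.2 γ hγ0 fun a ha haβ₁ => hγ a ha (hback a ha haβ₁)⟩

/-- there is a ramified element: `γ ∈ Fix(I_β)ˣ` with `v(γ)` outside the value group of
`Fix(I₁)`. -/
theorem h23w_exists_ram (hp2 : p ≠ 2) (A : ValuationSubring Qb) (hA : A.LiesOverPrime p)
    {ζ : Qb} (hζ : IsPrimitiveRoot ζ p)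
    {β : Qb} (hβ0 : β ≠ 0) (hβA : β ∈ A) (hβA' : β⁻¹ ∈ A)
    (hβ : ∀ a ∈ h23vI1 p A, a (β ^ p) = β ^ p)
    {b : GQ} (hb : b ∈ h23vI1 p A) (hbβ : b β = ζ * β) :
    ∃ γ : Qb, γ ≠ 0 ∧ (∀ a ∈ h23vI1 p A, a β = β → a γ = γ) ∧
      ¬ ∃ n : ℤ, A.valuation γ ^ (p - 1) = A.valuation (p : Qb) ^ n := by
  obtain ⟨β₁, h0, hA1, hA1', h1, hfix, hbβ₁, hforth, -⟩ :=
    h23w_normalise A hA hζ hβ0 hβA hβA' hβ hb hbβ
  obtain ⟨h2, h3⟩ := h23w_core_ram hp2 A hA hζ h0 hA1 hA1' h1 hfix hb hbβ₁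
  refine ⟨β₁ - 1, h2, fun a ha haβ => ?_, h3⟩
  rw [map_sub, map_one, hforth a ha haβ]

/-- **uniqueness of the break**: two break depths have the same valuation, namely
`max_{γ ∈ Lˣ} v(b γ / γ - 1)`. -/
theorem h23w_break_unique (hp2 : p ≠ 2) (A : ValuationSubring Qb) (hA : A.LiesOverPrime p)
    {ζ : Qb} (hζ : IsPrimitiveRoot ζ p)
    {β : Qb} (hβ0 : β ≠ 0) (hβA : β ∈ A) (hβA' : β⁻¹ ∈ A)
    (hβ : ∀ a ∈ h23vI1 p A, a (β ^ p) = β ^ p)
    {b : GQ} (hb : b ∈ h23vI1 p A) (hbβ : b β = ζ * β)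
    {δ δ' : Qb} (h : H23wBreak p A ζ β b δ) (h' : H23wBreak p A ζ β b δ') :
    A.valuation δ = A.valuation δ' := by
  obtain ⟨γ, hγ0, hγ, hram⟩ := h23w_exists_ram hp2 A hA hζ hβ0 hβA hβA' hβ hb hbβ
  have key : ∀ ε : Qb, H23wBreak p A ζ β b ε →
      A.valuation (b γ * γ⁻¹ - 1) = A.valuation ε := by
    intro ε hε
    obtain ⟨hε0, -, -, hall⟩ := hε
    obtain ⟨h1, h2⟩ := hall γ hγ0 hγ
    have h3 : ¬ A.valuation ((b γ * γ⁻¹ - 1) * ε⁻¹) < 1 := by
      rw [← ValuationSubring.mem_nonunits_iff]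
      exact fun hm => hram (h2.mp hm)
    have h4 : A.valuation ((b γ * γ⁻¹ - 1) * ε⁻¹) = 1 :=
      le_antisymm ((A.valuation_le_one_iff _).mpr h1) (not_lt.mp h3)
    rw [map_mul, map_inv₀] at h4
    exact (mul_inv_eq_one₀ ((Valuation.ne_zero_iff _).mpr hε0)).mp h4
  rw [← key δ h, ← key δ' h']

end Fermat.Agent.P7
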