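import Mathlib

/-!
# Wave 7 (S40), block (5b), leaf C1 BREAK, part (c): the `p`-th power step (helper20)

Corollaries of the strict inequality `v(δ) < v(ζ - 1)` of the paper proof (finding 1353, step
(1c)), in abstract form (Mathlib only).

`R` a commutative ring, `𝔪` an ideal of `R` (in the application `R = W` a Gauss valuation ring
or `ssV`, `𝔪 = 𝔪_A W`), `δ, μ₀ ∈ R` with `μ₀ ∈ 𝔪` and `p δ = δ ^ p μ₀`.

* `h20b_pow_core` : `(1 + δ s) ^ p = 1 + δ ^ p (s ^ p + μ₀ r)` for some `r`.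
* `h20b_pow_mem` : `(1 + δ 𝔪) ^ p ⊆ 1 + δ ^ p 𝔪`.
* `h20b_fermat` : `j ^ p = j + p m` for `j : ℕ` (Fermat's little theorem).
* `h20b_pow_nat` : `(1 + δ (j + 𝔪)) ^ p ⊆ 1 + δ ^ p (j + 𝔪)` for `j : ℕ`, if `p ∈ 𝔪`.
* `h20b_p_delta` : `A` a valuation subring of a field `K`, `ζ` a primitive `p`-th root of unity,
  `δ ≠ 0` with `(ζ - 1) / δ ∈ 𝔪_A`:  `p δ = δ ^ p μ₀` with `μ₀ ∈ 𝔪_A`.
-/

set_option autoImplicit false

namespace Fermat.Agent.P7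

section Abstract

variable {R : Type*} [CommRing R]

/-- `(1 + δ s) ^ p = 1 + δ ^ p (s ^ p + μ₀ r)` if `p δ = δ ^ p μ₀`. -/
theorem h20b_pow_core {p : ℕ} (hp : p.Prime) {δ μ₀ : R} (hpδ : (p : R) * δ = δ ^ p * μ₀)
    (s : R) : ∃ r : R, (1 + δ * s) ^ p = 1 + δ ^ p * (s ^ p + μ₀ * r) := by
  obtain ⟨r, hr⟩ := exists_add_pow_prime_eq hp (1 : R) (δ * s)
  refine ⟨s * r, ?_⟩
  rw [hr, one_pow, mul_pow]
  have : (p : R) * 1 * (δ * s) * r = ((p : R) * δ) * (s * r) := by ring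
  rw [this, hpδ]
  ring

/-- `(1 + δ 𝔪) ^ p ⊆ 1 + δ ^ p 𝔪`. -/
theorem h20b_pow_mem (𝔪 : Ideal R) {p : ℕ} (hp : p.Prime) {δ μ₀ : R} (hμ₀ : μ₀ ∈ 𝔪)
    (hpδ : (p : R) * δ = δ ^ p * μ₀) {t : R} (ht : t ∈ 𝔪) :
    ∃ t' ∈ 𝔪, (1 + δ * t) ^ p = 1 + δ ^ p * t' := by
  obtain ⟨r, hr⟩ := h20b_pow_core hp hpδ t
  refine ⟨t ^ p + μ₀ * r, 𝔪.add_mem (𝔪.pow_mem_of_mem ht p hp.pos) (𝔪.mul_mem_right r hμ₀), hr⟩

/-- **Fermat's little theorem**: `j ^ p = j + p m`. -/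
theorem h20b_fermat {p : ℕ} (hp : p.Prime) (j : ℕ) : ∃ m : ℕ, j ^ p = j + p * m := by
  have : Fact p.Prime := ⟨hp⟩
  have h1 : ((j ^ p : ℕ) : ZMod p) = (j : ZMod p) := by
    push_cast
    exact ZMod.pow_card (j : ZMod p)
  have h2 : j ^ p ≡ j [MOD p] := (ZMod.natCast_eq_natCast_iff _ _ _).1 h1
  have h3 : j ≤ j ^ p := by
    rcases Nat.eq_zero_or_pos j with h0 | h0
    · rw [h0]; exact Nat.zero_le _
    · exact Nat.le_self_pow hp.ne_zero j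
  have h4 : p ∣ j ^ p - j := (Nat.modEq_iff_dvd' h3).1 h2.symm
  obtain ⟨m, hm⟩ := h4
  exact ⟨m, by omega⟩

/-- `(1 + δ (j + 𝔪)) ^ p ⊆ 1 + δ ^ p (j + 𝔪)` for `j : ℕ`. -/
theorem h20b_pow_nat (𝔪 : Ideal R) {p : ℕ} (hp : p.Prime) (hp𝔪 : (p : R) ∈ 𝔪) {δ μ₀ : R}
    (hμ₀ : μ₀ ∈ 𝔪) (hpδ : (p : R) * δ = δ ^ p * μ₀) (j : ℕ) {t : R} (ht : t ∈ 𝔪) :
    ∃ t' ∈ 𝔪, (1 + δ * ((j : R) + t)) ^ p = 1 + δ ^ p * ((j : R) + t') := by
  obtain ⟨r, hr⟩ := h20b_pow_core hp hpδ ((j : R) + t)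
  obtain ⟨r', hr'⟩ := exists_add_pow_prime_eq hp (j : R) t
  obtain ⟨m, hm⟩ := h20b_fermat hp j
  have hj : (j : R) ^ p = (j : R) + (p : R) * (m : R) := by
    have := congrArg (fun n : ℕ => (n : R)) hm
    simpa using this
  refine ⟨(p : R) * (m : R) + t ^ p + (p : R) * (j : R) * t * r' + μ₀ * r, ?_, ?_⟩
  · refine 𝔪.add_mem (𝔪.add_mem (𝔪.add_mem (𝔪.mul_mem_right _ hp𝔪)
      (𝔪.pow_mem_of_mem ht p hp.pos)) ?_) (𝔪.mul_mem_right r hμ₀)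
    exact 𝔪.mul_mem_right _ (𝔪.mul_mem_left _ ht)
  · rw [hr, hr', hj]
    ring

end Abstract

section Valuation

variable {K : Type*} [Field K]

/-- `p δ = δ ^ p μ₀` with `μ₀ ∈ 𝔪_A`, if `(ζ - 1) / δ ∈ 𝔪_A`. -/
theorem h20b_p_delta (A : ValuationSubring K) {p : ℕ} (hp : p.Prime) {ζ : K}
    (hζ : IsPrimitiveRoot ζ p) {δ : K} (hδ0 : δ ≠ 0) (hδ : (ζ - 1) * δ⁻¹ ∈ A.nonunits) :
    ∃ μ₀ ∈ A.nonunits, (p : K) * δ = δ ^ p * μ₀ := by
  have hp1 : p - 1 < p := Nat.sub_lt hp.pos Nat.one_pos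
  obtain ⟨z, hz, hzp⟩ := hζ.self_sub_one_pow_dvd_order hp1
  -- `z` is integral over `ℤ`, hence in `A`
  have hζint : IsIntegral ℤ ζ :=
    ⟨Polynomial.X ^ p - 1, Polynomial.monic_X_pow_sub_C (1 : ℤ) hp.ne_zero, by
      simp [hζ.pow_eq_one]⟩
  have hzint : IsIntegral ℤ z := by
    have hle : Algebra.adjoin ℤ ({ζ} : Set K) ≤ integralClosure ℤ K :=
      Algebra.adjoin_le (by
        intro x hx
        rw [Set.mem_singleton_iff] at hx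
        rw [hx]; exact hζint)
    exact hle hz
  have hzA : z ∈ A := by
    obtain ⟨f, hf, hfz⟩ := hzint
    have hint : IsIntegral A z := by
      refine ⟨f.map (algebraMap ℤ A), hf.map _, ?_⟩
      rw [Polynomial.eval₂_map]
      have : (algebraMap A K).comp (algebraMap ℤ A) = algebraMap ℤ K := by
        ext n; simp
      rw [this]
      exact hfz
    obtain ⟨y, hy⟩ := (IsIntegrallyClosed.isIntegral_iff (R := A) (K := K)).1 hint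
    rw [← hy]; exact y.2
  have hpos : 0 < p - 1 := by have := hp.two_le; omega
  refine ⟨z * ((ζ - 1) * δ⁻¹) ^ (p - 1), ?_, ?_⟩
  · -- product of an element of `A` and a positive power of a nonunit
    have h1 : ((ζ - 1) * δ⁻¹) ^ (p - 1) ∈ A.nonunits := by
      rw [ValuationSubring.mem_nonunits_iff] at hδ ⊢
      rw [map_pow]
      exact pow_lt_one₀ zero_le hδ hpos.ne'
    rw [ValuationSubring.mem_nonunits_iff] at h1 ⊢
    rw [map_mul]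
    have h2 : A.valuation z ≤ 1 := (A.valuation_le_one_iff _).2 hzA
    exact mul_lt_one_of_nonneg_of_lt_one_right h2 zero_le h1
  · have hpp : p - 1 + 1 = p := by omega
    have e1 : δ ^ p = δ ^ (p - 1) * δ := by rw [← pow_succ, hpp]
    rw [hzp, mul_pow, e1, inv_pow]
    field_simp

end Valuation

end Fermat.Agent.P7
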