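import Fermat.Agent.P7.H27EisTop
import Fermat.Agent.P7.H20Break

/-!
# Wave 7 (S40 / S44), block (E) T-EIS: the top, `p`-th power form of the EXPORT (helper27)

Same as `P7/H27EisTop.lean`, for the EXPORT of (5b) in the form `Ψ ≡ Q(α₀) ^ p` modulo `𝔪_A`
(`ψ_e = ψ(γ_e) ^ p`, the shape of C5 when the `𝔽_p`-valuedness of the break quotient is not
used), and a core form with the hypothesis `Q(α₀') ≡ (ℓ + 1) Q(α₀)`.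

* `h27g_sub_mem_of_pow` : `x ^ p ≡ y ^ p` ⟹ `x ≡ y` modulo `𝔪_A` (`p ∈ 𝔪_A`).
* `h27g_qq_of_psi_pow` : `Ψ ≡ q ^ p`, `Ψ' ≡ q' ^ p`, `Ψ' ≡ (ℓ + 1) Ψ` ⟹ `q' ≡ (ℓ + 1) q`.
* `h27g_eis_top_qq` : T-EIS from `Q(α₀') ≡ (ℓ + 1) Q(α₀)`.
* `h27g_eis_top_pow` : T-EIS from the `p`-th power EXPORT.
-/

set_option autoImplicit false
set_option linter.style.haveILetI false
set_option linter.unusedSectionVars false
set_option linter.unusedVariables false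
set_option synthInstance.maxHeartbeats 400000

open AlgebraicCurve ModularCurve IsLocalRing Polynomial

noncomputable section

namespace Fermat.Agent.P7

open Fermat.Agent.S37 Fermat.Agent.Red Fermat.Agent.Red.GG Fermat.Agent.Red.GV
  Fermat.Agent.Red.GV.Soft Fermat.Agent.Red.Kron Fermat.Agent.Red.ModelO Fermat.Agent.LGC
  Fermat.Agent.S35

section Pow

variable {K : Type*} [Field K] (A : ValuationSubring K)

/-- `x ^ n ∈ 𝔪_A` ⟹ `x ∈ 𝔪_A`. -/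
theorem h27g_mem_of_pow_mem {x : K} {n : ℕ} (h : x ^ n ∈ A.nonunits) : x ∈ A.nonunits := by
  rw [A.mem_nonunits_iff] at h ⊢
  rw [map_pow] at h
  by_contra hx
  rw [not_lt] at hx
  exact absurd h (not_lt.mpr (one_le_pow₀ hx))

/-- **Frobenius is injective modulo `𝔪_A`**: `x ^ p ≡ y ^ p` ⟹ `x ≡ y`. -/
theorem h27g_sub_mem_of_pow {p : ℕ} (hp : p.Prime) (hpA : (p : K) ∈ A.nonunits) {x y : K}
    (hx : x ∈ A) (hy : y ∈ A) (h : x ^ p - y ^ p ∈ A.nonunits) : x - y ∈ A.nonunits := by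
  apply h27g_mem_of_pow_mem A (n := p)
  obtain ⟨r, hr⟩ := exists_add_pow_prime_eq hp (⟨x, hx⟩ : A) (-⟨y, hy⟩)
  have hr' : (x + -y) ^ p = x ^ p + (-y) ^ p + (p : K) * x * (-y) * (r : K) := by
    have := congrArg (fun a : A => (a : K)) hr
    simpa using this
  have hneg : ∃ t : K, t ∈ A ∧ (-y) ^ p = -(y ^ p) + (p : K) * t := by
    rcases hp.eq_two_or_odd' with h2 | hodd
    · subst h2
      refine ⟨y ^ 2, pow_mem hy 2, ?_⟩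
      push_cast
      ring
    · refine ⟨0, zero_mem A, ?_⟩
      rw [hodd.neg_pow, mul_zero, add_zero]
  obtain ⟨t, ht, et⟩ := hneg
  have e : (x - y) ^ p = (x ^ p - y ^ p) + (p : K) * (t + x * (-y) * (r : K)) := by
    rw [sub_eq_add_neg x y, hr', et]
    ring
  rw [e]
  refine A.nonunits.add_mem h ?_
  rw [mul_comm]
  exact h27f_mul_nonunits A (add_mem ht (mul_mem (mul_mem hx (neg_mem hy)) r.2)) hpA

/-- `p`-th power form of the EXPORT: `Ψ ≡ q ^ p`, `Ψ' ≡ q' ^ p`, `Ψ' ≡ (ℓ + 1) Ψ` modulo `𝔪_A`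
give `q' ≡ (ℓ + 1) q`. -/
theorem h27g_qq_of_psi_pow {p : ℕ} (hp : p.Prime) (hpA : (p : K) ∈ A.nonunits) (ℓ : ℕ)
    {Ψ Ψ' q q' : K} (hq : q ∈ A) (hq' : q' ∈ A)
    (hΨ : Ψ - q ^ p ∈ A.nonunits) (hΨ' : Ψ' - q' ^ p ∈ A.nonunits)
    (hT : Ψ' - ((ℓ + 1 : ℕ) : K) * Ψ ∈ A.nonunits) :
    q' - ((ℓ + 1 : ℕ) : K) * q ∈ A.nonunits := by
  have hℓA : ((ℓ + 1 : ℕ) : K) ∈ A := natCast_mem A (ℓ + 1)
  apply h27g_sub_mem_of_pow A hp hpA hq' (mul_mem hℓA hq)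
  obtain ⟨m, hm⟩ := h20b_fermat hp (ℓ + 1)
  have hm' : ((ℓ + 1 : ℕ) : K) ^ p = ((ℓ + 1 : ℕ) : K) + (p : K) * (m : K) := by
    have := congrArg (fun n : ℕ => (n : K)) hm
    simpa using this
  have e : q' ^ p - (((ℓ + 1 : ℕ) : K) * q) ^ p =
      (Ψ' - ((ℓ + 1 : ℕ) : K) * Ψ) - (Ψ' - q' ^ p) + ((ℓ + 1 : ℕ) : K) * (Ψ - q ^ p) -
        (p : K) * ((m : K) * q ^ p) := by
    rw [mul_pow, hm']
    ring
  rw [e]
  refine A.nonunits.sub_mem (A.nonunits.add_mem (A.nonunits.sub_mem hT hΨ')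
    (h27f_mul_nonunits A hℓA hΨ)) ?_
  rw [mul_comm]
  exact h27f_mul_nonunits A (mul_mem (natCast_mem A m) (pow_mem hq p)) hpA

end Pow

section Top

variable (A : ValuationSubring Kbar) (M : ℕ) {p : ℕ} (ℓ : ℕ) [NeZero M] [NeZero p] [NeZero ℓ]

/-- **T-EIS, core form**: from `Q(α₀') ≡ (ℓ + 1) Q(α₀)` modulo `𝔪_A`. -/
theorem h27g_eis_top_qq (hp : p.Prime) (hM : ¬ p ∣ M) (hA : A.LiesOverPrime p)
    (hℓ : ℓ.Prime) (hℓN : ¬ ℓ ∣ M * p)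
    {ζ β : Kbar} {b : GQ} {δ : Kbar} (hB : H23wBreak p A ζ β b δ)
    {𝔫 𝔫' : Ideal (chart (M * p) A (jSS M p))} {u : FF (M * p)} (hu : u ≠ 0)
    {m m' : ℤ} {α₀ α₀' : Kbar}
    (h : H50tNodeForm A M hp hM hA 𝔫 u p m α₀)
    (h' : H50tNodeForm A M hp hM hA 𝔫' (h57rT (M * p) ℓ u) p m' α₀')
    (hfix : ∀ a ∈ h23vI1 p A, a β = β → a α₀ = α₀)
    (hfix' : ∀ a ∈ h23vI1 p A, a β = β → a α₀' = α₀')
    (hqq : h27gQ b δ α₀' - ((ℓ + 1 : ℕ) : Kbar) * h27gQ b δ α₀ ∈ A.nonunits)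
    {c : ℤ} (hm : (p : ℤ) ∣ m' - c * m) (hc : ¬ (p : ℤ) ∣ (ℓ : ℤ) + 1 - c) :
    (p : ℤ) ∣ m := by
  have hα : α₀ ≠ 0 := h50t_nodeForm_ne_zero hp hM hA h
  have hα' : α₀' ≠ 0 := h50t_nodeForm_ne_zero hp hM hA h'
  have hval := h27g_val_of_break A ℓ hB hα hα' hfix hfix' hqq
  have hdvd := h27g_eis_node A M ℓ hp hM hA hℓ hℓN hu h h' hval hm
  exact (Int.Prime.dvd_mul' hp hdvd).resolve_left hc

/-- **T-EIS, `p`-th power EXPORT**: as `h27g_eis_top`, with `f₀ - f₁ ≡ Q(α₀) ^ p` and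
`f₀' - f₁' ≡ Q(α₀') ^ p` modulo `𝔪_A`. -/
theorem h27g_eis_top_pow (hp : p.Prime) (hM : ¬ p ∣ M) (hA : A.LiesOverPrime p)
    (hℓ : ℓ.Prime) (hℓN : ¬ ℓ ∣ M * p)
    {ζ β : Kbar} {b : GQ} {δ : Kbar} (hB : H23wBreak p A ζ β b δ)
    {𝔫 𝔫' : Ideal (chart (M * p) A (jSS M p))} {u : FF (M * p)} (hu : u ≠ 0)
    {m m' : ℤ} {α₀ α₀' : Kbar}
    (h : H50tNodeForm A M hp hM hA 𝔫 u p m α₀)
    (h' : H50tNodeForm A M hp hM hA 𝔫' (h57rT (M * p) ℓ u) p m' α₀')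
    (hfix : ∀ a ∈ h23vI1 p A, a β = β → a α₀ = α₀)
    (hfix' : ∀ a ∈ h23vI1 p A, a β = β → a α₀' = α₀')
    (D₀ : Kbar) (hD₀ : D₀ ∈ A.nonunits) (hD₀0 : D₀ ≠ 0) (a₀ a₀' : Kbar)
    (f₁ f₀ f₁' f₀' : Kbar) (hf₁ : f₁ ∈ A) (hf₀ : f₀ ∈ A) (hf₁' : f₁' ∈ A) (hf₀' : f₀' ∈ A)
    (F F' : FF (M * p))
    (hF₁ : h27eCong A (M * p) F f₁) (hF₀ : h27eCong A (M * p) (kFricke M p hp hM F) f₀)
    (hF₁' : h27eCong A (M * p) F' f₁')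
    (hF₀' : h27eCong A (M * p) (kFricke M p hp hM F') f₀')
    (hw : (gal (M * p) b • u) / u = cst (M * p) a₀ * (1 + cst (M * p) D₀ * F))
    (hw' : (gal (M * p) b • h57rT (M * p) ℓ u) / h57rT (M * p) ℓ u =
      cst (M * p) a₀' * (1 + cst (M * p) D₀ * F'))
    (hΨ : (f₀ - f₁) - h27gQ b δ α₀ ^ p ∈ A.nonunits)
    (hΨ' : (f₀' - f₁') - h27gQ b δ α₀' ^ p ∈ A.nonunits)
    {c : ℤ} (hm : (p : ℤ) ∣ m' - c * m) (hc : ¬ (p : ℤ) ∣ (ℓ : ℤ) + 1 - c) :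
    (p : ℤ) ∣ m := by
  have hα : α₀ ≠ 0 := h50t_nodeForm_ne_zero hp hM hA h
  have hα' : α₀' ≠ 0 := h50t_nodeForm_ne_zero hp hM hA h'
  have hq : h27gQ b δ α₀ ∈ A := (hB.2.2.2 α₀ hα hfix).1
  have hq' : h27gQ b δ α₀' ∈ A := (hB.2.2.2 α₀' hα' hfix').1
  have hT := h27f_psi_T A M p ℓ hp hM hA hℓ hℓN b u hu D₀ hD₀ hD₀0 a₀ a₀' f₁ f₀ f₁' f₀'
    hf₁ hf₀ hf₁' hf₀' F F' hF₁ hF₀ hF₁' hF₀' hw hw'
  have hqq := h27g_qq_of_psi_pow A hp hA ℓ hq hq' hΨ hΨ' hT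
  exact h27g_eis_top_qq A M ℓ hp hM hA hℓ hℓN hB hu h h' hfix hfix' hqq hm hc

end Top

end Fermat.Agent.P7
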