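import Fermat.Agent.P7.H84Asm
import Fermat.Agent.P7.H27EisTopPow
import Fermat.Agent.P6.H56Perm

/-!
# Wave 7 (S40/S44), block (E), row T-EIS-WIRE (helper27): from the chart data of (C) to T-EIS

The abstract proof of (C) (`P7/H84Asm.lean`, helper84; `P7/H78HZero.lean`, helper78) ends with
NODE-PHASE.  Block (E) needs the same argument in EXPORT form, for `u` and for `T_ℓ u`.

* `h27h_export_abs` : **EXPORT form of `h84a_phase`** (same hypotheses): `b u / u =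
  a₀ (1 + δ ^ p F₃)` with `a₀` a unit constant, `F₃ ≡ f_∞` modulo `𝔪_A W∞`, `F₃ ≡ f_0` modulo
  `𝔪_A W₀`, and at EVERY node `e`: `θ γ_e / γ_e = 1 + δ ψ_e` and `f_0 - f_∞ ≡ ψ_e ^ p`.
* `h27h_cong_inf`, `h27h_cong_zero`, `h27h_Q_of_psi`, `h27h_Q_of_psi'` : adapters from the
  abstract vocabulary (`h88nM`, `algebraMap A (FF N)`, `θ`) to the vocabulary of T-EIS
  (`h27eCong`, `cst`, `kFricke`, `h27gQ`).
* `h27h_eis_of_export` : T-EIS from two exports (of `u` and of `T_ℓ u`) in the abstract shape.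
* `h27h_eis_of_chart` : **T-EIS from the chart data**: the hypotheses of `h84a_phase` at the
  level `M p` for `u` and for `T_ℓ u`, the node forms `H50tNodeForm` at one node each with the
  node constants of the normal forms, BREAK and the eigen-relation in slope form give `p ∣ m`.

Nothing is assumed.
-/

set_option autoImplicit false
set_option linter.unusedSectionVars false
set_option linter.unusedVariables false
set_option linter.style.haveILetI false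

open AlgebraicCurve ModularCurve IsLocalRing Polynomial

noncomputable section

namespace Fermat.Agent.P7

open Fermat.Agent.P6 (h88nM h88nM_add h88nM_neg h88nM_sub h88nM_of h88nM_mem h88nM_zero)

section Abs

variable {A : Type*} [CommRing A] [IsDomain A] [ValuationRing A]
  {F : Type*} [Field F] [Algebra A F]

/-- **T-C5-ASM, EXPORT form.**  Under the hypotheses of `h84a_phase`: `w = b u / u` is
`a₀ (1 + δ ^ p F₃)` with `a₀` a unit of `A`, `F₃` constant modulo `𝔪_A` on each component, and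
at every node the twist `ψ_e` of the node constant (`θ γ_e / γ_e = 1 + δ ψ_e`) satisfies
`ψ_e ^ p ≡ f_0 - f_∞`. -/
theorem h27h_export_abs {Winf W0 : Subring F} {Sinf Szero E : Type*}
    {Oinf : Sinf → Subring F} {Ozero : Szero → Subring F} {Oe : E → Subring F}
    (hC : H78hChart A Winf W0 Oinf Ozero Oe)
    (hinvinf : ∀ m ∈ maximalIdeal A, ∀ x ∈ Winf, (1 + algebraMap A F m * x)⁻¹ ∈ Winf)
    (hntinf : ∀ m ∈ maximalIdeal A, ∀ x ∈ Winf, algebraMap A F m * x ≠ 1)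
    (hinv0 : ∀ m ∈ maximalIdeal A, ∀ x ∈ W0, (1 + algebraMap A F m * x)⁻¹ ∈ W0)
    (hnt0 : ∀ m ∈ maximalIdeal A, ∀ x ∈ W0, algebraMap A F m * x ≠ 1)
    (b : F →+* F) (θ : A →+* A)
    (hbθ : ∀ a : A, b (algebraMap A F a) = algebraMap A F (θ a))
    {p : ℕ} (hp : p.Prime)
    {δ : A} (hδ0 : δ ≠ 0) (hδ : δ ∈ maximalIdeal A)
    (hpδ : ∃ m₀ ∈ maximalIdeal A, (p : A) * δ = δ ^ p * m₀)
    {ϖ : A} (hϖ0 : ϖ ≠ 0) (hθϖ : θ ϖ = ϖ) {u : F}
    (hNFinf : ∀ n, H84aNFSmooth b θ δ p Winf (Oinf n) u)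
    (hNFzero : ∀ n, H84aNFSmooth b θ δ p W0 (Ozero n) u)
    (m : E → ℤ) (γP γQ : E → A)
    (hNFe : ∀ e, H84aNFNode b θ δ p Winf W0 (Oe e) ϖ u (m e) (γP e) (γQ e))
    (hdisc : H78hDisc A Winf W0 (δ ^ p) (b u * u⁻¹)) (e₀ : E) :
    ∃ (a₀ f₁ f₂ : A) (F₃ : F), IsUnit a₀ ∧ F₃ ∈ Winf ∧ F₃ ∈ W0 ∧
      b u * u⁻¹ = algebraMap A F a₀ * (1 + algebraMap A F (δ ^ p) * F₃) ∧
      F₃ - algebraMap A F f₁ ∈ h88nM A Winf ∧ F₃ - algebraMap A F f₂ ∈ h88nM A W0 ∧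
      ∀ e, ∃ ψ : A, θ (γP e) * γQ e = γP e * θ (γQ e) * (1 + δ * ψ) ∧
        (f₂ - f₁) - ψ ^ p ∈ maximalIdeal A := by
  classical
  have : Nonempty E := ⟨e₀⟩
  have hL1inf : ∀ n, H78hL1 A Winf (Oinf n) (δ ^ p) (b u * u⁻¹) := fun n =>
    h84a_L1 hC.hAinf hinvinf hntinf b θ hbθ hp hpδ (hNFinf n)
  have hL1zero : ∀ n, H78hL1 A W0 (Ozero n) (δ ^ p) (b u * u⁻¹) := fun n =>
    h84a_L1 hC.hA0 hinv0 hnt0 b θ hbθ hp hpδ (hNFzero n)
  have hL2 := fun e => h84a_L2 hC.hAF hC.hAinf hinvinf hntinf hC.hA0 hinv0 hnt0 b θ hbθ hp hδ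
    hpδ hϖ0 hθϖ (hNFe e)
  choose ψ hψL hψ using hL2
  have hD0 : δ ^ p ≠ 0 := pow_ne_zero _ hδ0
  have hDm : δ ^ p ∈ maximalIdeal A := Ideal.pow_mem_of_mem _ hδ _ hp.pos
  obtain ⟨a₀, f₁, f₂, F₃, hF₁, hF₂, hw, hf₁, hf₂, hexp⟩ :=
    h78h_export hC hD0 hDm (fun e => ψ e ^ p) hL1inf hL1zero hψL hdisc
  -- `w` is a unit of `W∞`
  have hwinv : (b u * u⁻¹)⁻¹ ∈ Winf := by
    obtain ⟨x, P, Q, E', hx0, hxinf, hxinf', hbx, hxW0, hP, hPm, hP0, hPin, hvarP, hQ, hQm, hQ0,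
      hQin, hvarQ, hE0, hE, hE', -, -, hu⟩ := hNFe e₀
    obtain ⟨o, X, -, ho, ho', hX1, -, hw', -⟩ := h84a_node hC.hAF hC.hAinf hinvinf hntinf
      hC.hA0 hinv0 hnt0 b θ hbθ hp hδ hpδ (Oe e₀) x hx0 hxinf hxinf' hbx ϖ hϖ0 hθϖ hxW0 P Q hP
      hPm hP0 hPin hvarP hQ hQm hQ0 hQin hvarQ (m e₀) E' u hE0 hE hE' hu
    rw [hw', mul_inv]
    exact Winf.mul_mem (hC.hOe₁ e₀ _ ho') (h91yU_mem hC.hAinf (h91yU_inv hinvinf hntinf hX1))
  have hw0 : b u * u⁻¹ ≠ 0 := by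
    intro h0
    obtain ⟨x, P, Q, E', hx0, hxinf, hxinf', hbx, hxW0, hP, hPm, hP0, hPin, hvarP, hQ, hQm, hQ0,
      hQin, hvarQ, hE0, hE, hE', -, -, hu⟩ := hNFe e₀
    obtain ⟨hPx0, -, -⟩ := h91y_unit hC.hAinf hinvinf hntinf x hxinf hxinf' hx0 P hP hPm
    obtain ⟨hQx0, -, -⟩ := h91y_unit hC.hAinf hinvinf hntinf x hxinf hxinf' hx0 Q hQ hQm
    have hu0 : u ≠ 0 := by
      rw [hu]
      exact mul_ne_zero (mul_ne_zero hE0 (zpow_ne_zero _ hx0))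
        (pow_ne_zero _ (mul_ne_zero hPx0 (inv_ne_zero hQx0)))
    exact mul_ne_zero ((map_ne_zero b).mpr hu0) (inv_ne_zero hu0) h0
  have ha₀ : a₀ ∉ maximalIdeal A := by
    intro ha
    rcases ValuationRing.dvd_total a₀ (δ ^ p) with ⟨c, hc⟩ | ⟨c, hc⟩
    · have h2 : b u * u⁻¹ = algebraMap A F a₀ * (1 + algebraMap A F c * F₃) := by
        rw [hw, hc, map_mul]; ring
      apply hntinf a₀ ha ((1 + algebraMap A F c * F₃) * (b u * u⁻¹)⁻¹)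
        (Winf.mul_mem (Winf.add_mem Winf.one_mem (Winf.mul_mem (hC.hAinf _) hF₁)) hwinv)
      rw [← mul_assoc, ← h2]
      exact mul_inv_cancel₀ hw0
    · have h2 : b u * u⁻¹ = algebraMap A F (δ ^ p) * (algebraMap A F c + F₃) := by
        rw [hw, hc, map_mul]; ring
      apply hntinf (δ ^ p) hDm ((algebraMap A F c + F₃) * (b u * u⁻¹)⁻¹)
        (Winf.mul_mem (Winf.add_mem (hC.hAinf _) hF₁) hwinv)
      rw [← mul_assoc, ← h2]
      exact mul_inv_cancel₀ hw0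
  have hua : IsUnit a₀ := by
    by_contra hn
    exact ha₀ ((mem_maximalIdeal _).mpr hn)
  obtain ⟨ι, hι⟩ := hua.exists_right_inv
  have hιF : algebraMap A F a₀ * algebraMap A F ι = 1 := by
    rw [← map_mul, hι, map_one]
  refine ⟨a₀, ι * f₁, ι * f₂, algebraMap A F ι * F₃, hua, Winf.mul_mem (hC.hAinf _) hF₁,
    W0.mul_mem (hC.hA0 _) hF₂, ?_, ?_, ?_, fun e => ⟨ψ e, hψ e, ?_⟩⟩
  · rw [hw]
    linear_combination (-(algebraMap A F (δ ^ p) * F₃)) * hιF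
  · have e1 : algebraMap A F ι * F₃ - algebraMap A F (ι * f₁) =
        algebraMap A F ι * (F₃ - algebraMap A F f₁) := by
      rw [map_mul]; ring
    rw [e1]
    exact h78h_M_mul_left hf₁ (hC.hAinf _)
  · have e1 : algebraMap A F ι * F₃ - algebraMap A F (ι * f₂) =
        algebraMap A F ι * (F₃ - algebraMap A F f₂) := by
      rw [map_mul]; ring
    rw [e1]
    exact h78h_M_mul_left hf₂ (hC.hA0 _)
  · have e1 : ι * f₂ - ι * f₁ - ψ e ^ p =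
        -(ι * (a₀ * ψ e ^ p - (f₂ - f₁))) + (a₀ * ι - 1) * ψ e ^ p := by ring
    rw [e1, hι, sub_self, zero_mul, add_zero]
    exact (maximalIdeal A).neg_mem ((maximalIdeal A).mul_mem_left _ (hexp e))

end Abs

section Level

open Fermat.Agent.S37 Fermat.Agent.Red Fermat.Agent.Red.GG Fermat.Agent.Red.GV
  Fermat.Agent.Red.GV.Soft Fermat.Agent.Red.Kron Fermat.Agent.Red.ModelO Fermat.Agent.LGC
  Fermat.Agent.S35 Fermat.Agent.P6

variable (A : ValuationSubring Kbar)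

/-- adapter: a congruence modulo `𝔪_A W∞` in the abstract vocabulary is a `h27eCong`. -/
theorem h27h_cong_inf (N : ℕ) [NeZero N] {F₃ : FF N} {f₁ : A}
    (h : F₃ - algebraMap A (FF N) f₁ ∈ h88nM A (softV A N)) :
    h27eCong A N F₃ (f₁ : Kbar) := by
  obtain ⟨d, hd, z, hz, e⟩ := h
  refine ⟨(d : Kbar), (GG.mem_maximalIdeal_iff A d).mp hd, z, hz, ?_⟩
  have e1 : algebraMap A (FF N) f₁ = cst N (f₁ : Kbar) := rfl
  have e2 : algebraMap A (FF N) d = cst N (d : Kbar) := rfl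
  rw [← e1, ← e2, ← e]
  ring

variable (M : ℕ) {p : ℕ} [NeZero M] [NeZero p]

/-- adapter: a congruence modulo `𝔪_A W₀` in the abstract vocabulary is a `h27eCong` after the
Fricke involution. -/
theorem h27h_cong_zero (hp : p.Prime) (hM : ¬ p ∣ M) (hA : A.LiesOverPrime p)
    {F₃ : FF (M * p)} {f₂ : A}
    (h : F₃ - algebraMap A (FF (M * p)) f₂ ∈ h88nM A (h85cW0 A M p hp hM hA).toSubring) :
    h27eCong A (M * p) (kFricke M p hp hM F₃) (f₂ : Kbar) := by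
  obtain ⟨d, hd, z, hz, e⟩ := h
  refine ⟨(d : Kbar), (GG.mem_maximalIdeal_iff A d).mp hd, kFricke M p hp hM z, hz, ?_⟩
  have e1 : algebraMap A (FF (M * p)) f₂ = cst (M * p) (f₂ : Kbar) := rfl
  have e2 : algebraMap A (FF (M * p)) d = cst (M * p) (d : Kbar) := rfl
  have e3 : F₃ = cst (M * p) (f₂ : Kbar) + cst (M * p) (d : Kbar) * z := by
    rw [← e1, ← e2, ← e]
    ring
  rw [e3, map_add, map_mul, kFricke_cst, kFricke_cst]

variable {A}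

/-- adapter: the twist `ψ` of the node constant `γP / γQ` (shape of `h84a_L2`) is the break
quotient `h27gQ`. -/
theorem h27h_Q_of_psi {b : GQ} (hb : b ∈ A.inertiaSubgroupIn ℚ) {δ ψ γP γQ : A}
    (hδ : (δ : Kbar) ≠ 0) (hP : (γP : Kbar) ≠ 0) (hQ : (γQ : Kbar) ≠ 0)
    (h : h56pTheta A hb γP * γQ = γP * h56pTheta A hb γQ * (1 + δ * ψ)) :
    h27gQ b (δ : Kbar) ((γP : Kbar) / (γQ : Kbar)) = (ψ : Kbar) := by
  have h1 : b (γP : Kbar) * (γQ : Kbar) =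
      (γP : Kbar) * b (γQ : Kbar) * (1 + (δ : Kbar) * (ψ : Kbar)) := by
    have := congrArg (fun x : A => (x : Kbar)) h
    simpa only [MulMemClass.coe_mul, AddMemClass.coe_add, OneMemClass.coe_one,
      h56p_coe_theta] using this
  have hbQ : b (γQ : Kbar) ≠ 0 := (map_ne_zero b).mpr hQ
  unfold h27gQ
  rw [map_div₀]
  field_simp
  linear_combination h1

variable (A)

/-- **the export of block (C) for `u`, read at one node** with node constants `γP`, `γQ`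
(abstract shape, = the conclusion of `h27h_export_abs` at the level `M p` for one node):
`b u / u = a₀ (1 + δ ^ p F₃)`, `F₃ ≡ f₁` on `W∞`, `F₃ ≡ f₂` on `W₀`, `θ γ / γ = 1 + δ ψ` for
`γ = γP / γQ`, and `f₂ - f₁ ≡ ψ ^ p` modulo `𝔪_A`. -/
def H27hExport (hp : p.Prime) (hM : ¬ p ∣ M) (hA : A.LiesOverPrime p) {b : GQ}
    (hb : b ∈ A.inertiaSubgroupIn ℚ) (δ : A) (u : FF (M * p)) (γP γQ : A) : Prop :=
  ∃ (a₀ f₁ f₂ : A) (F₃ : FF (M * p)),
    (h56pTau (M * p) b : FF (M * p) →+* FF (M * p)) u * u⁻¹ =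
      algebraMap A (FF (M * p)) a₀ * (1 + algebraMap A (FF (M * p)) (δ ^ p) * F₃) ∧
    F₃ - algebraMap A (FF (M * p)) f₁ ∈ h88nM A (h85cWinf A M p hp hA).toSubring ∧
    F₃ - algebraMap A (FF (M * p)) f₂ ∈ h88nM A (h85cW0 A M p hp hM hA).toSubring ∧
    ∃ ψ : A, h56pTheta A hb γP * γQ = γP * h56pTheta A hb γQ * (1 + δ * ψ) ∧
      (f₂ - f₁) - ψ ^ p ∈ maximalIdeal A

variable {A M}

/-- **T-EIS from two exports** (of `u` and of `T_ℓ u`) in the abstract shape of block (C). -/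
theorem h27h_eis_of_export (hp : p.Prime) (hM : ¬ p ∣ M) (hA : A.LiesOverPrime p)
    {ℓ : ℕ} [NeZero ℓ] (hℓ : ℓ.Prime) (hℓN : ¬ ℓ ∣ M * p)
    {ζ β : Kbar} {b : GQ} (hb : b ∈ A.inertiaSubgroupIn ℚ) {δ : A}
    (hB : H23wBreak p A ζ β b (δ : Kbar))
    {𝔫 𝔫' : Ideal (chart (M * p) A (jSS M p))} {u : FF (M * p)} (hu : u ≠ 0)
    {m m' : ℤ} {γP γQ γP' γQ' : A}
    (h : H50tNodeForm A M hp hM hA 𝔫 u p m ((γP : Kbar) / (γQ : Kbar)))
    (h' : H50tNodeForm A M hp hM hA 𝔫' (h57rT (M * p) ℓ u) p m'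
      ((γP' : Kbar) / (γQ' : Kbar)))
    (hfix : ∀ a ∈ h23vI1 p A, a β = β →
      a ((γP : Kbar) / (γQ : Kbar)) = (γP : Kbar) / (γQ : Kbar))
    (hfix' : ∀ a ∈ h23vI1 p A, a β = β →
      a ((γP' : Kbar) / (γQ' : Kbar)) = (γP' : Kbar) / (γQ' : Kbar))
    (hE : H27hExport A M hp hM hA hb δ u γP γQ)
    (hE' : H27hExport A M hp hM hA hb δ (h57rT (M * p) ℓ u) γP' γQ')
    {c : ℤ} (hm : (p : ℤ) ∣ m' - c * m) (hc : ¬ (p : ℤ) ∣ (ℓ : ℤ) + 1 - c) :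
    (p : ℤ) ∣ m := by
  obtain ⟨a₀, f₁, f₂, F₃, hw, hf₁, hf₂, ψ, hψ, hΨ⟩ := hE
  obtain ⟨a₀', f₁', f₂', F₃', hw', hf₁', hf₂', ψ', hψ', hΨ'⟩ := hE'
  have hα : (γP : Kbar) / (γQ : Kbar) ≠ 0 := h50t_nodeForm_ne_zero hp hM hA h
  have hα' : (γP' : Kbar) / (γQ' : Kbar) ≠ 0 := h50t_nodeForm_ne_zero hp hM hA h'
  have hP : (γP : Kbar) ≠ 0 := fun h0 => hα (by rw [h0, zero_div])
  have hQ : (γQ : Kbar) ≠ 0 := fun h0 => hα (by rw [h0, div_zero])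
  have hP' : (γP' : Kbar) ≠ 0 := fun h0 => hα' (by rw [h0, zero_div])
  have hQ' : (γQ' : Kbar) ≠ 0 := fun h0 => hα' (by rw [h0, div_zero])
  have hδ0 : (δ : Kbar) ≠ 0 := hB.1
  have hδm : (δ : Kbar) ∈ A.nonunits := hB.2.1
  have hD0 : ((δ : Kbar)) ^ p ≠ 0 := pow_ne_zero _ hδ0
  have hDm : ((δ : Kbar)) ^ p ∈ A.nonunits := by
    rw [ValuationSubring.mem_nonunits_iff] at hδm ⊢
    rw [map_pow]
    exact pow_lt_one₀ zero_le hδm hp.ne_zero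
  have eD : algebraMap A (FF (M * p)) (δ ^ p) = cst (M * p) ((δ : Kbar) ^ p) := rfl
  have hQψ := h27h_Q_of_psi hb hδ0 hP hQ hψ
  have hQψ' := h27h_Q_of_psi hb hδ0 hP' hQ' hψ'
  refine h27g_eis_top_pow A M ℓ hp hM hA hℓ hℓN hB hu h h' hfix hfix' ((δ : Kbar) ^ p) hDm hD0
    (a₀ : Kbar) (a₀' : Kbar) (f₁ : Kbar) (f₂ : Kbar) (f₁' : Kbar) (f₂' : Kbar) f₁.2 f₂.2 f₁'.2
    f₂'.2 F₃ F₃' (h27h_cong_inf A (M * p) hf₁) (h27h_cong_zero A M hp hM hA hf₂)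
    (h27h_cong_inf A (M * p) hf₁') (h27h_cong_zero A M hp hM hA hf₂') ?_ ?_ ?_ ?_ hm hc
  · rw [div_eq_mul_inv]
    exact hw
  · rw [div_eq_mul_inv]
    exact hw'
  · rw [hQψ]
    exact (GG.mem_maximalIdeal_iff A _).mp hΨ
  · rw [hQψ']
    exact (GG.mem_maximalIdeal_iff A _).mp hΨ'

/-- `p δ = δ ^ p m₀` with `m₀ ∈ 𝔪_A` in the ring `A`, from BREAK. -/
theorem h27h_p_delta (hp : p.Prime) {ζ β : Kbar} (hζ : IsPrimitiveRoot ζ p) {b : GQ} {δ : A}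
    (hB : H23wBreak p A ζ β b (δ : Kbar)) :
    ∃ m₀ ∈ maximalIdeal A, ((p : ℕ) : A) * δ = δ ^ p * m₀ := by
  obtain ⟨μ₀, hμ₀, e⟩ := h20b_p_delta A hp hζ hB.1 hB.2.2.1
  refine ⟨⟨μ₀, A.nonunits_le hμ₀⟩, (GG.mem_maximalIdeal_iff A _).mpr hμ₀, ?_⟩
  apply Subtype.ext
  simpa using e

/-- **T-EIS from the chart data of block (C)**: the hypotheses of `h84a_phase` at the level
`M p` (chart `H78hChart`, normal forms at all closed points, exact depth dichotomy) for `u` AND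
for `T_ℓ u`, the node forms `H50tNodeForm` at one node each (with the slopes and the node
constants of the normal forms), BREAK, and the eigen-relation in slope form give `p ∣ m`. -/
theorem h27h_eis_of_chart (hp : p.Prime) (hM : ¬ p ∣ M) (hA : A.LiesOverPrime p)
    {ℓ : ℕ} [NeZero ℓ] (hℓ : ℓ.Prime) (hℓN : ¬ ℓ ∣ M * p)
    {ζ β : Kbar} (hζ : IsPrimitiveRoot ζ p) {b : GQ} (hb : b ∈ A.inertiaSubgroupIn ℚ) {δ : A}
    (hB : H23wBreak p A ζ β b (δ : Kbar))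
    {Sinf Szero E : Type*} {Oinf : Sinf → Subring (FF (M * p))}
    {Ozero : Szero → Subring (FF (M * p))} {Oe : E → Subring (FF (M * p))}
    (hC : H78hChart A (h85cWinf A M p hp hA).toSubring (h85cW0 A M p hp hM hA).toSubring
      Oinf Ozero Oe)
    {u : FF (M * p)} (hu : u ≠ 0)
    (hNFinf : ∀ n, H84aNFSmooth (h56pTau (M * p) b : FF (M * p) →+* FF (M * p))
      (h56pTheta A hb) δ p (h85cWinf A M p hp hA).toSubring (Oinf n) u)
    (hNFzero : ∀ n, H84aNFSmooth (h56pTau (M * p) b : FF (M * p) →+* FF (M * p))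
      (h56pTheta A hb) δ p (h85cW0 A M p hp hM hA).toSubring (Ozero n) u)
    (m : E → ℤ) (γP γQ : E → A)
    (hNFe : ∀ e, H84aNFNode (h56pTau (M * p) b : FF (M * p) →+* FF (M * p))
      (h56pTheta A hb) δ p (h85cWinf A M p hp hA).toSubring
      (h85cW0 A M p hp hM hA).toSubring (Oe e) ((p : ℕ) : A) u (m e) (γP e) (γQ e))
    (hdisc : H78hDisc A (h85cWinf A M p hp hA).toSubring (h85cW0 A M p hp hM hA).toSubring
      (δ ^ p) ((h56pTau (M * p) b : FF (M * p) →+* FF (M * p)) u * u⁻¹))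
    (hNFinf' : ∀ n, H84aNFSmooth (h56pTau (M * p) b : FF (M * p) →+* FF (M * p))
      (h56pTheta A hb) δ p (h85cWinf A M p hp hA).toSubring (Oinf n) (h57rT (M * p) ℓ u))
    (hNFzero' : ∀ n, H84aNFSmooth (h56pTau (M * p) b : FF (M * p) →+* FF (M * p))
      (h56pTheta A hb) δ p (h85cW0 A M p hp hM hA).toSubring (Ozero n) (h57rT (M * p) ℓ u))
    (m' : E → ℤ) (γP' γQ' : E → A)
    (hNFe' : ∀ e, H84aNFNode (h56pTau (M * p) b : FF (M * p) →+* FF (M * p))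
      (h56pTheta A hb) δ p (h85cWinf A M p hp hA).toSubring
      (h85cW0 A M p hp hM hA).toSubring (Oe e) ((p : ℕ) : A) (h57rT (M * p) ℓ u) (m' e)
      (γP' e) (γQ' e))
    (hdisc' : H78hDisc A (h85cWinf A M p hp hA).toSubring (h85cW0 A M p hp hM hA).toSubring
      (δ ^ p) ((h56pTau (M * p) b : FF (M * p) →+* FF (M * p)) (h57rT (M * p) ℓ u) *
        (h57rT (M * p) ℓ u)⁻¹))
    (e₀ e₀' : E) {𝔫 𝔫' : Ideal (chart (M * p) A (jSS M p))}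
    (h : H50tNodeForm A M hp hM hA 𝔫 u p (m e₀) ((γP e₀ : Kbar) / (γQ e₀ : Kbar)))
    (h' : H50tNodeForm A M hp hM hA 𝔫' (h57rT (M * p) ℓ u) p (m' e₀')
      ((γP' e₀' : Kbar) / (γQ' e₀' : Kbar)))
    (hfix : ∀ a ∈ h23vI1 p A, a β = β →
      a ((γP e₀ : Kbar) / (γQ e₀ : Kbar)) = (γP e₀ : Kbar) / (γQ e₀ : Kbar))
    (hfix' : ∀ a ∈ h23vI1 p A, a β = β →
      a ((γP' e₀' : Kbar) / (γQ' e₀' : Kbar)) = (γP' e₀' : Kbar) / (γQ' e₀' : Kbar))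
    {c : ℤ} (hm : (p : ℤ) ∣ m' e₀' - c * m e₀) (hc : ¬ (p : ℤ) ∣ (ℓ : ℤ) + 1 - c) :
    (p : ℤ) ∣ m e₀ := by
  have hδ0 : δ ≠ 0 := fun h0 => hB.1 (by rw [h0]; rfl)
  have hδm : δ ∈ maximalIdeal A := (GG.mem_maximalIdeal_iff A _).mpr hB.2.1
  have hpδ := h27h_p_delta hp hζ hB
  have hϖ0 : ((p : ℕ) : A) ≠ 0 := h20n_natCast_ne_zero A p
  have hθϖ : h56pTheta A hb ((p : ℕ) : A) = ((p : ℕ) : A) := map_natCast _ _
  have hbθ : ∀ a : A, (h56pTau (M * p) b : FF (M * p) →+* FF (M * p))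
      (algebraMap A (FF (M * p)) a) = algebraMap A (FF (M * p)) (h56pTheta A hb a) :=
    fun a => h56p_tau_algebraMap A (M * p) hb a
  have hinvinf := h86t_Winf_unit A M p hp hA
  have hntinf := h86t_Winf_nt A M p hp hA
  have hinv0 := h86t_W0_unit A M p hp hM hA
  have hnt0 := h86t_W0_nt A M p hp hM hA
  obtain ⟨a₀, f₁, f₂, F₃, -, -, -, hw, hf₁, hf₂, hall⟩ :=
    h27h_export_abs hC hinvinf hntinf hinv0 hnt0
      (h56pTau (M * p) b : FF (M * p) →+* FF (M * p)) (h56pTheta A hb) hbθ hp hδ0 hδm hpδ hϖ0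
      hθϖ hNFinf hNFzero m γP γQ hNFe hdisc e₀
  obtain ⟨a₀', f₁', f₂', F₃', -, -, -, hw', hf₁', hf₂', hall'⟩ :=
    h27h_export_abs hC hinvinf hntinf hinv0 hnt0
      (h56pTau (M * p) b : FF (M * p) →+* FF (M * p)) (h56pTheta A hb) hbθ hp hδ0 hδm hpδ hϖ0
      hθϖ hNFinf' hNFzero' m' γP' γQ' hNFe' hdisc' e₀'
  exact h27h_eis_of_export hp hM hA hℓ hℓN hb hB hu h h' hfix hfix'
    ⟨a₀, f₁, f₂, F₃, hw, hf₁, hf₂, hall e₀⟩ ⟨a₀', f₁', f₂', F₃', hw', hf₁', hf₂', hall' e₀'⟩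
    hm hc

end Level

end Fermat.Agent.P7
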