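import Fermat.Agent.Red.KR.MEAlpha
import Fermat.Agent.Red.KR.Nbr
import Fermat.Agent.Red.KR.NormFin
import Fermat.Agent.Red.KR.NormInf27
import Fermat.Agent.Red.KR.KeyOf
import Fermat.Agent.Red.KR.Val
import Fermat.Agent.Red.TransferRed
import Fermat.Agent.Red.HKInputsIface
import Fermat.Agent.Red.HKComm.Main

/-!
# Wave 7, block (5d) RED-EQUIV, leaf RED-HECKE (helper69)

Cross-characteristic Hecke stability of the kernel of reduction.  `A` is a valuation subring of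
`ℚ̄` over the prime `p`, `N` a level prime to `p`, `ℓ` a prime not dividing `N` (`ℓ = p` is
allowed).  Then the Hecke correspondence `T_ℓ = α_* ∘ β^*` maps `redKer N A` into itself, and
`heckeOperatorBar N ℓ` maps `redKerPic N A` into itself; so `T_ℓ` acts on
`JZero N ⧸ redKerPic N A`.

* `h69w_meAlpha` : `j(q^ℓ)` is integral over `A[j]` in `F_{Nℓ}` (cross-characteristic ME-α);
* `h69w_meBeta`  : `j` is integral over `A[j(q^ℓ)]` (Fricke);
* `h69w_nbr`     : a place of `F_{Nℓ}` is finite along `α` iff it is finite along `β`;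
* `h69w_pullback_beta_mem` : `β^*` maps `redKer N A` into `redKer (N ℓ) A`
  (NORMLOC + MATCH; on the chart at infinity with the REFLECT/MULT multiplier);
* `h69w_pushforward_alpha_mem` : `α_*` maps `redKer (N ℓ) A` into `redKer N A`;
* `h69w_heckeDivBar_mem` : `T_ℓ` maps `redKer N A` into itself;
* `h69w_heckeOperatorBar_mem` : `heckeOperatorBar N ℓ` maps `redKerPic N A` into itself.
-/

set_option autoImplicit false
set_option linter.style.haveILetI false

open AlgebraicCurve ModularCurve IntermediateField Polynomial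

noncomputable section

namespace Fermat.Agent.P7

open Fermat.Agent.S37 Fermat.Agent.S37.GalI Fermat.Agent.Red.GV Fermat.Agent.S28
  Fermat.Agent.Red.KR

/-! ### Cross-characteristic ME-α, ME-β, NBR -/

section ME

variable (N ℓ : ℕ) [NeZero N] [NeZero ℓ]

variable {ℓ} in
/-- the coefficients of the characteristic polynomial `Ψ` of `β j` along `α` lie in the finite
chart of level `N` over `A`, for `A` over any prime `p ∤ N`. -/
theorem h69w_coeff_mem {p : ℕ} (hp : p.Prime) (hpN : ¬ p ∣ N) (hℓ : ℓ.Prime) (hN : ¬ ℓ ∣ N)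
    (A : ValuationSubring Kbar) (hA : A.LiesOverPrime p) (m : ℕ) :
    (h69m_Psi N ℓ).coeff m ∈ modelFin N A := by
  obtain ⟨n, hn⟩ := Fermat.Agent.Red.BC.h58_scaling A p hp hA (jK Kbar) (h69m_coeff_intK N ℓ m)
  obtain ⟨y, hy⟩ := h69m_coeff_embA N hℓ hN A m
  have hG : (h69m_Psi N ℓ).coeff m ∈ gaussV A N :=
    mem_gaussSubring_of_embA A _ N _ y hy
  have hp0 : ((p : Kbar) ^ n) ≠ 0 := pow_ne_zero _ (by exact_mod_cast hp.ne_zero)
  refine mem_modelFin_of_cst_mul A N hp hpN hA _ hG _ (A.pow_mem (natCast_mem A p) n) hp0 ?_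
  rw [mem_modelFin_iff]
  have h1 : ((cst N ((p : Kbar) ^ n) * (h69m_Psi N ℓ).coeff m : FF N) : LaurentSeries Kbar) =
      ((cst N ((p : Kbar) ^ n) : FF N) : LaurentSeries Kbar) *
        (((h69m_Psi N ℓ).coeff m : FF N) : LaurentSeries Kbar) := rfl
  rw [h1, coe_cst]
  exact hn

variable {ℓ} in
/-- **cross-characteristic ME-α**: `j(q^ℓ)` is integral over `A[j]` in `F_{Nℓ}`. -/
theorem h69w_meAlpha {p : ℕ} (hp : p.Prime) (hpN : ¬ p ∣ N) (hℓ : ℓ.Prime) (hN : ¬ ℓ ∣ N)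
    (A : ValuationSubring Kbar) (hA : A.LiesOverPrime p) :
    heckeBetaBar Kbar N ℓ (jB N) ∈ modelAt (N * ℓ) A (jB (N * ℓ)) := by
  have hfin := Fermat.Agent.Red.HKMod.finiteAlong_heckeAlphaBar N ℓ
  have hroot := h69m_eval₂_charpolyAlong (heckeAlphaBar Kbar N ℓ) hfin
    (heckeBetaBar Kbar N ℓ (jB N))
  have hmon : ((h69m_Psi N ℓ).map (heckeAlphaBar Kbar N ℓ : FF N →+* FF (N * ℓ))).Monic :=
    (Fermat.Agent.Red.TRK.charpolyAlong_monic _ hfin _).map _
  have hj : heckeAlphaBar Kbar N ℓ (jB N) = jB (N * ℓ) :=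
    Fermat.Agent.Red.HKMod.heckeAlphaBar_jBar N ℓ
  refine h69m_mem_modelAt_of_root A (jB (N * ℓ)) _ hmon (fun m => ?_) _ ?_
  · rw [Polynomial.coeff_map, ← hj]
    exact map_mem_modelAt (heckeAlphaBar Kbar N ℓ) A (h69w_coeff_mem N hp hpN hℓ hN A hA m)
  · rw [Polynomial.eval_map]
    exact hroot

variable {ℓ} in
/-- **cross-characteristic ME-β**: `j` is integral over `A[j(q^ℓ)]` in `F_{Nℓ}`. -/
theorem h69w_meBeta {p : ℕ} (hp : p.Prime) (hpN : ¬ p ∣ N) (hℓ : ℓ.Prime) (hN : ¬ ℓ ∣ N)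
    (A : ValuationSubring Kbar) (hA : A.LiesOverPrime p) :
    jB (N * ℓ) ∈ modelAt (N * ℓ) A (heckeBetaBar Kbar N ℓ (jB N)) := by
  have h1 : heckeBetaBar Kbar N ℓ (jB N) ∈ modelAt (N * ℓ) A (jB (N * ℓ)) :=
    h69w_meAlpha N hp hpN hℓ hN A hA
  have h2 := map_mem_modelAt
    ((Fermat.Agent.Red.Kron.kFricke N ℓ hℓ hN : FF (N * ℓ) ≃ₐ[Kbar] FF (N * ℓ)) :
      FF (N * ℓ) →ₐ[Kbar] FF (N * ℓ)) A h1
  have e1 : ((Fermat.Agent.Red.Kron.kFricke N ℓ hℓ hN : FF (N * ℓ) ≃ₐ[Kbar] FF (N * ℓ)) :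
      FF (N * ℓ) →ₐ[Kbar] FF (N * ℓ)) (heckeBetaBar Kbar N ℓ (jB N)) = jB (N * ℓ) := by
    rw [AlgEquiv.coe_toAlgHom, Fermat.Agent.Red.Kron.kFricke_beta]
    exact Fermat.Agent.Red.HKMod.heckeAlphaBar_jBar N ℓ
  have e2 : ((Fermat.Agent.Red.Kron.kFricke N ℓ hℓ hN : FF (N * ℓ) ≃ₐ[Kbar] FF (N * ℓ)) :
      FF (N * ℓ) →ₐ[Kbar] FF (N * ℓ)) (jB (N * ℓ)) = heckeBetaBar Kbar N ℓ (jB N) := by
    have e3 : jB (N * ℓ) = heckeAlphaBar Kbar N ℓ (jB N) :=
      (Fermat.Agent.Red.HKMod.heckeAlphaBar_jBar N ℓ).symm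
    rw [AlgEquiv.coe_toAlgHom, e3, Fermat.Agent.Red.Kron.kFricke_alpha]
  rw [e1, e2] at h2
  exact h2

variable {ℓ} in
/-- **cross-characteristic NBR**: a place of `F_{Nℓ}` is finite iff its restriction along `β`
is finite. -/
theorem h69w_nbr {p : ℕ} (hp : p.Prime) (hpN : ¬ p ∣ N) (hℓ : ℓ.Prime) (hN : ¬ ℓ ∣ N)
    (A : ValuationSubring Kbar) (hA : A.LiesOverPrime p)
    (hβ : HeckeBetaBarIntegral Kbar N ℓ) (w : Place Kbar (FF (N * ℓ))) :
    IsFinAt A w ↔ IsFinAt A (w.restrictAlong (heckeBetaBar Kbar N ℓ) hβ) := by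
  have hA1 := h69w_meAlpha N hp hpN hℓ hN A hA
  have hB1 := h69w_meBeta N hp hpN hℓ hN A hA
  constructor
  · rintro ⟨a, ha, hva⟩
    obtain ⟨b, hb, hvb⟩ := chart_value A w ha hva hA1
    exact ⟨b, hb, (Fermat.Agent.Red.TRK.h87_valueAt_restrict (heckeBetaBar Kbar N ℓ) hβ w
      (jB N) b).mpr hvb⟩
  · rintro ⟨a, ha, hva⟩
    have hva' : ValueAt w (heckeBetaBar Kbar N ℓ (jB N)) a :=
      (Fermat.Agent.Red.TRK.h87_valueAt_restrict (heckeBetaBar Kbar N ℓ) hβ w (jB N) a).mp hva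
    obtain ⟨b, hb, hvb⟩ := chart_value A w ha hva' hB1
    exact ⟨b, hb, hvb⟩

end ME

/-! ### Congruence of the root polynomials only depends on the residues -/

section Roots

variable (A : ValuationSubring Kbar)

/-- `RootsCong` for families in `A` is equality of the reduced polynomials. -/
theorem h69w_rootsCong_iff {n : ℕ} (a b : Fin n → A) :
    RootsCong A (fun i => ((a i : A) : Kbar)) (fun i => ((b i : A) : Kbar)) ↔
      (∏ i, (X - C (a i)) : A[X]).map (IsLocalRing.residue A) =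
        (∏ i, (X - C (b i)) : A[X]).map (IsLocalRing.residue A) := by
  have hsub : ∀ f : Fin n → A, (∏ i, (X - C ((f i : A) : Kbar)) : Kbar[X]) =
      (∏ i, (X - C (f i)) : A[X]).map A.subtype := fun f => (prod_X_sub_C_map A f).symm
  have key : ∀ m : ℕ, ((∏ i, (X - C ((a i : A) : Kbar))).coeff m -
      (∏ i, (X - C ((b i : A) : Kbar))).coeff m ∈ A.nonunits) ↔
      ((∏ i, (X - C (a i)) : A[X]).map (IsLocalRing.residue A)).coeff m =
        ((∏ i, (X - C (b i)) : A[X]).map (IsLocalRing.residue A)).coeff m := by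
    intro m
    rw [hsub a, hsub b, Polynomial.coeff_map, Polynomial.coeff_map, Polynomial.coeff_map,
      Polynomial.coeff_map]
    have e : (IsLocalRing.residue A ((∏ i, (X - C (a i)) : A[X]).coeff m) =
        IsLocalRing.residue A ((∏ i, (X - C (b i)) : A[X]).coeff m)) ↔
        ((((∏ i, (X - C (a i)) : A[X]).coeff m - (∏ i, (X - C (b i)) : A[X]).coeff m : A) : Kbar)
          ∈ A.nonunits) := by
      rw [← sub_eq_zero, ← map_sub, IsLocalRing.residue_eq_zero_iff,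
        ← ValuationSubring.coe_mem_nonunits_iff]
    rw [e]
    rfl
  constructor
  · intro h
    ext m
    exact (key m).1 (h m)
  · intro h m
    exact (key m).2 (by rw [h])

/-- `RootsCong` only depends on the residues of the roots. -/
theorem h69w_rootsCong_congr {n : ℕ} {a b c d : Fin n → Kbar}
    (ha : ∀ i, a i ∈ A) (hb : ∀ i, b i ∈ A) (hc : ∀ i, c i ∈ A) (hd : ∀ i, d i ∈ A)
    (hac : ∀ i, a i - c i ∈ A.nonunits) (hbd : ∀ i, b i - d i ∈ A.nonunits)
    (h : RootsCong A a b) : RootsCong A c d := by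
  have hres : ∀ {x y : Kbar} (hx : x ∈ A) (hy : y ∈ A), x - y ∈ A.nonunits →
      IsLocalRing.residue A ⟨x, hx⟩ = IsLocalRing.residue A ⟨y, hy⟩ := by
    intro x y hx hy hxy
    rw [← sub_eq_zero, ← map_sub, IsLocalRing.residue_eq_zero_iff,
      ← ValuationSubring.coe_mem_nonunits_iff]
    exact hxy
  have hmap : ∀ f : Fin n → A, (∏ i, (X - C (f i)) : A[X]).map (IsLocalRing.residue A) =
      ∏ i, (X - C (IsLocalRing.residue A (f i))) := by
    intro f
    rw [Polynomial.map_prod]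
    refine Finset.prod_congr rfl fun i _ => ?_
    rw [Polynomial.map_sub, Polynomial.map_X, Polynomial.map_C]
  have h1 := (h69w_rootsCong_iff A (fun i => (⟨a i, ha i⟩ : A)) (fun i => ⟨b i, hb i⟩)).1 h
  refine (h69w_rootsCong_iff A (fun i => (⟨c i, hc i⟩ : A)) (fun i => ⟨d i, hd i⟩)).2 ?_
  rw [hmap] at h1 ⊢
  rw [hmap] at h1 ⊢
  have e1 : ∀ i, IsLocalRing.residue A (⟨c i, hc i⟩ : A) = IsLocalRing.residue A ⟨a i, ha i⟩ :=
    fun i => (hres (ha i) (hc i) (hac i)).symm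
  have e2 : ∀ i, IsLocalRing.residue A (⟨d i, hd i⟩ : A) = IsLocalRing.residue A ⟨b i, hb i⟩ :=
    fun i => (hres (hb i) (hd i) (hbd i)).symm
  simp only [e1, e2]
  exact h1

end Roots

/-! ### Pull-back along `β` -/

section Pullback

variable {N ℓ : ℕ} [NeZero N] [NeZero ℓ]

/-- the values of `β S`, `S = s(1/j)`, at a place above a non-finite place `v` along `β`. -/
theorem h69w_value_mult (A : ValuationSubring Kbar) (hβ : HeckeBetaBarIntegral Kbar N ℓ)
    {v : Place Kbar (FF N)} (hv : ¬ IsFinAt A v) (s : Polynomial A) (hs : s.coeff 0 = 1)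
    (E : ℕ) :
    ∃ σ : Kbar, σ ∈ A ∧ σ - 1 ∈ A.nonunits ∧
      ∀ u : Place Kbar (FF (N * ℓ)), u.restrictAlong (heckeBetaBar Kbar N ℓ) hβ = v →
        ValueAt u (heckeBetaBar Kbar N ℓ (evalF N A (jB N)⁻¹ s) ^ E) σ := by
  obtain ⟨b, hb, hbv⟩ := Fermat.Agent.Red.Match.exists_valueAt_inv_of_not_isFinAt hv
  have hbA : b ∈ A := ValuationSubring.nonunits_subset hb
  have hval := h27_valueAt_evalF A v (jB N)⁻¹ ⟨b, hbA⟩ hbv s
  have hmem := h27_eval_pow_sub_one_mem A s hs ⟨b, hbA⟩ hb E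
  refine ⟨(((s.eval (⟨b, hbA⟩ : A)) ^ E : A) : Kbar), ((s.eval (⟨b, hbA⟩ : A)) ^ E : A).2, hmem,
    fun u hu => ?_⟩
  have h1 : ValueAt u (heckeBetaBar Kbar N ℓ (evalF N A (jB N)⁻¹ s))
      ((s.eval (⟨b, hbA⟩ : A) : A) : Kbar) := by
    refine (Fermat.Agent.Red.TRK.h87_valueAt_restrict (heckeBetaBar Kbar N ℓ) hβ u _ _).mp ?_
    rw [hu]
    exact hval
  have h2 := h27_valueAt_pow h1 E
  push_cast
  exact h2

/-- **pull-back along `β`** of `v - w`, for `v`, `w` with the same reduction, is in `redKer`. -/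
theorem h69w_pullback_beta_sameRed {p : ℕ} (hp : p.Prime) (hpN : ¬ p ∣ N) (hℓ : ℓ.Prime)
    (hN : ¬ ℓ ∣ N) (A : ValuationSubring Kbar) (hA : A.LiesOverPrime p)
    (hβ : HeckeBetaBarIntegral Kbar N ℓ) [HasPrincipalDivisors Kbar (FF (N * ℓ))]
    {v w : Place Kbar (FF N)} (hvw : SameRed A v w) :
    Divisor.pullbackAlong (heckeBetaBar Kbar N ℓ) hβ
      (Finsupp.single v (1 : ℤ) - Finsupp.single w (1 : ℤ)) ∈ redKer (N * ℓ) A := by
  have hfin : FiniteAlong Kbar (heckeBetaBar Kbar N ℓ) :=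
    Fermat.Agent.Red.HKMod.finiteAlong_heckeBetaBar N ℓ
  obtain ⟨n, u, hu⟩ : ∃ (n : ℕ) (u : Fin n → Place Kbar (FF (N * ℓ))),
      Fermat.Agent.Red.TRK.NormLocAt (heckeBetaBar Kbar N ℓ) hβ hfin v n u :=
    Fermat.Agent.Red.NormLoc.normLocStatement N (N * ℓ) (heckeBetaBar Kbar N ℓ) hβ hfin v
  obtain ⟨n', u', hu'⟩ : ∃ (n : ℕ) (u : Fin n → Place Kbar (FF (N * ℓ))),
      Fermat.Agent.Red.TRK.NormLocAt (heckeBetaBar Kbar N ℓ) hβ hfin w n u :=
    Fermat.Agent.Red.NormLoc.normLocStatement N (N * ℓ) (heckeBetaBar Kbar N ℓ) hβ hfin w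
  obtain rfl : n = n' :=
    (Fermat.Agent.Red.TRK.h87_card_eq hu).trans (Fermat.Agent.Red.TRK.h87_card_eq hu').symm
  rw [map_sub, hu.1, hu'.1, ← Finset.sum_sub_distrib]
  apply Fermat.Agent.Red.Match.ifaceMatch (N * ℓ) A n u u'
  have hmea := h69w_meAlpha N hp hpN hℓ hN A hA
  have hmeb := h69w_meBeta N hp hpN hℓ hN A hA
  have hres : ∀ i, (u i).restrictAlong (heckeBetaBar Kbar N ℓ) hβ = v :=
    fun i => Fermat.Agent.Red.TRK.h87_restrict_eq hu i
  have hres' : ∀ i, (u' i).restrictAlong (heckeBetaBar Kbar N ℓ) hβ = w :=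
    fun i => Fermat.Agent.Red.TRK.h87_restrict_eq hu' i
  rcases hvw with ⟨hv, hw, hc⟩ | ⟨hv, hw, hc⟩
  · refine Or.inl ⟨fun i => ?_, fun i => ?_, fun f hf => ?_⟩
    · rw [h69w_nbr N hp hpN hℓ hN A hA hβ (u i), hres i]
      exact hv
    · rw [h69w_nbr N hp hpN hℓ hN A hA hβ (u' i), hres' i]
      exact hw
    · have hf' : f ∈ modelAt (N * ℓ) A (heckeBetaBar Kbar N ℓ (jB N)) :=
        h66_modelAt_le_of_mem (N * ℓ) A hmeb hf
      exact Fermat.Agent.Red.TRK.h87_valuesCong A (jB N) hv hw hc hu hu' hf'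
  · have hui : ∀ i, ¬ IsFinAt A (u i) := fun i h => hv (by
      rw [h69w_nbr N hp hpN hℓ hN A hA hβ (u i), hres i] at h
      exact h)
    have hui' : ∀ i, ¬ IsFinAt A (u' i) := fun i h => hw (by
      rw [h69w_nbr N hp hpN hℓ hN A hA hβ (u' i), hres' i] at h
      exact h)
    refine Or.inr ⟨hui, hui', fun f hf => ?_⟩
    have hjN : jB N ≠ 0 := fun h0 =>
      (Fermat.Agent.S24.transcendental_jBar N) (by
        rw [show Fermat.Agent.S24.jBar N = 0 from h0]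
        exact isAlgebraic_zero)
    have hY : jB (N * ℓ) ≠ 0 := fun h0 =>
      (Fermat.Agent.S24.transcendental_jBar (N * ℓ)) (by
        rw [show Fermat.Agent.S24.jBar (N * ℓ) = 0 from h0]
        exact isAlgebraic_zero)
    have hJ : heckeBetaBar Kbar N ℓ (jB N) ≠ 0 := (_root_.map_ne_zero _).2 hjN
    -- REFLECT
    have hmea' := hmea
    rw [mem_modelAt_iff_evalF] at hmea'
    obtain ⟨s, hs0, hsU⟩ := reflect A (FF (N * ℓ))
      ((algebraMap Kbar (FF (N * ℓ))).comp A.subtype)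
      (jB (N * ℓ)) (heckeBetaBar Kbar N ℓ (jB N)) hY hJ hmea'
    -- MULT
    have hf' : f ∈ modelAt (N * ℓ) A (jB (N * ℓ))⁻¹ := hf
    rw [mem_modelAt_iff_evalF] at hf'
    obtain ⟨E, hE⟩ := mult A (FF (N * ℓ)) ((algebraMap Kbar (FF (N * ℓ))).comp A.subtype)
      (jB (N * ℓ))⁻¹ (heckeBetaBar Kbar N ℓ (jB N))⁻¹ s hsU f hf'
    -- the multiplier
    have hβt : heckeBetaBar Kbar N ℓ (jB N)⁻¹ = (heckeBetaBar Kbar N ℓ (jB N))⁻¹ := by
      rw [map_inv₀]
    have hβS : heckeBetaBar Kbar N ℓ (evalF N A (jB N)⁻¹ s) =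
        evalF (N * ℓ) A (heckeBetaBar Kbar N ℓ (jB N))⁻¹ s := by
      rw [← hβt, ← comp_evalF (heckeBetaBar Kbar N ℓ) A (jB N)⁻¹]
      rfl
    have hg : heckeBetaBar Kbar N ℓ (evalF N A (jB N)⁻¹ s) ^ E * f ∈
        modelAt (N * ℓ) A (heckeBetaBar Kbar N ℓ (jB N)⁻¹) := by
      rw [hβS, hβt, mem_modelAt_iff_evalF]
      exact hE
    obtain ⟨a, b, ha, hb, hab⟩ := Fermat.Agent.Red.TRK.h87_valuesCong A (jB N)⁻¹
      (exists_valueAt_inv A hv) (exists_valueAt_inv A hw) hc hu hu' hg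
    -- the values of `f`
    have hfc : ∀ i, ∃ c : A, ValueAt (u i) f (c : Kbar) := fun i =>
      Fermat.Agent.Red.Match.exists_valueAt_modelInf (hui i) ⟨f, hf⟩
    have hfd : ∀ i, ∃ c : A, ValueAt (u' i) f (c : Kbar) := fun i =>
      Fermat.Agent.Red.Match.exists_valueAt_modelInf (hui' i) ⟨f, hf⟩
    choose c hc' using hfc
    choose d hd' using hfd
    obtain ⟨σv, hσvA, hσv1, hσv⟩ := h69w_value_mult A hβ hv s hs0 E
    obtain ⟨σw, hσwA, hσw1, hσw⟩ := h69w_value_mult A hβ hw s hs0 E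
    have hac : ∀ i, a i = σv * (c i : Kbar) := fun i =>
      valueAt_unique (ha i).2 (valueAt_mul (hσv (u i) (hres i)) (hc' i))
    have hbd : ∀ i, b i = σw * (d i : Kbar) := fun i =>
      valueAt_unique (hb i).2 (valueAt_mul (hσw (u' i) (hres' i)) (hd' i))
    refine ⟨fun i => (c i : Kbar), fun i => (d i : Kbar), fun i => ⟨(c i).2, hc' i⟩,
      fun i => ⟨(d i).2, hd' i⟩, ?_⟩
    refine h69w_rootsCong_congr A (fun i => (ha i).1) (fun i => (hb i).1) (fun i => (c i).2)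
      (fun i => (d i).2) (fun i => ?_) (fun i => ?_) hab
    · have e : a i - (c i : Kbar) = (σv - 1) * (c i : Kbar) := by rw [hac i]; ring
      rw [e]
      exact Fermat.Agent.Red.Match.h71_mul_mem_nonunits A hσv1 (c i).2
    · have e : b i - (d i : Kbar) = (σw - 1) * (d i : Kbar) := by rw [hbd i]; ring
      rw [e]
      exact Fermat.Agent.Red.Match.h71_mul_mem_nonunits A hσw1 (d i).2

/-- **`β^*` maps `redKer N A` into `redKer (N ℓ) A`.** -/
theorem h69w_pullback_beta_mem {p : ℕ} (hp : p.Prime) (hpN : ¬ p ∣ N) (hℓ : ℓ.Prime)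
    (hN : ¬ ℓ ∣ N) (A : ValuationSubring Kbar) (hA : A.LiesOverPrime p)
    (hβ : HeckeBetaBarIntegral Kbar N ℓ) [HasPrincipalDivisors Kbar (FF (N * ℓ))]
    {D : Divisor Kbar (FF N)} (hD : D ∈ redKer N A) :
    Divisor.pullbackAlong (heckeBetaBar Kbar N ℓ) hβ D ∈ redKer (N * ℓ) A := by
  unfold redKer at hD
  induction hD using AddSubgroup.closure_induction with
  | mem D hD =>
    obtain ⟨v, w, hvw, rfl⟩ := hD
    exact h69w_pullback_beta_sameRed hp hpN hℓ hN A hA hβ hvw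
  | zero =>
    rw [map_zero]
    exact zero_mem _
  | add x y _ _ hx hy =>
    rw [map_add]
    exact add_mem hx hy
  | neg x _ hx =>
    rw [map_neg]
    exact neg_mem hx

end Pullback

/-! ### Push-forward along `α` -/

section Pushforward

variable {N ℓ : ℕ} [NeZero N] [NeZero ℓ]

/-- restriction along `α` preserves `SameRed` (every valuation subring `A`). -/
theorem h69w_restrict_alpha_sameRed (A : ValuationSubring Kbar)
    (hα : HeckeAlphaBarIntegral Kbar N ℓ) {v w : Place Kbar (FF (N * ℓ))}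
    (hvw : SameRed A v w) :
    SameRed A (v.restrictAlong (heckeAlphaBar Kbar N ℓ) hα)
      (w.restrictAlong (heckeAlphaBar Kbar N ℓ) hα) := by
  have hj : heckeAlphaBar Kbar N ℓ (jB N) = jB (N * ℓ) :=
    Fermat.Agent.Red.HKMod.heckeAlphaBar_jBar N ℓ
  have hcong : ∀ t : FF N,
      (∀ f ∈ modelAt (N * ℓ) A (heckeAlphaBar Kbar N ℓ t), CongAt A v w f) →
      ∀ f ∈ modelAt N A t, CongAt A (v.restrictAlong (heckeAlphaBar Kbar N ℓ) hα)
        (w.restrictAlong (heckeAlphaBar Kbar N ℓ) hα) f := by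
    intro t h f hf
    obtain ⟨a, b, ha, hb, hva, hwb, hab⟩ :=
      h _ (map_mem_modelAt (heckeAlphaBar Kbar N ℓ) A hf)
    exact ⟨a, b, ha, hb,
      (Fermat.Agent.Red.TRK.h87_valueAt_restrict (heckeAlphaBar Kbar N ℓ) hα v f a).mpr hva,
      (Fermat.Agent.Red.TRK.h87_valueAt_restrict (heckeAlphaBar Kbar N ℓ) hα w f b).mpr hwb, hab⟩
  rcases hvw with ⟨hv, hw, hc⟩ | ⟨hv, hw, hc⟩
  · refine Or.inl ⟨(Fermat.Agent.Red.TRK.h87_isFinAt_restrict hα hj A v).mpr hv,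
      (Fermat.Agent.Red.TRK.h87_isFinAt_restrict hα hj A w).mpr hw, hcong (jB N) ?_⟩
    rw [hj]
    exact hc
  · refine Or.inr ⟨fun h => hv ((Fermat.Agent.Red.TRK.h87_isFinAt_restrict hα hj A v).mp h),
      fun h => hw ((Fermat.Agent.Red.TRK.h87_isFinAt_restrict hα hj A w).mp h),
      hcong (jB N)⁻¹ ?_⟩
    rw [map_inv₀, hj]
    exact hc

/-- the push-forward along `α` of a place is its restriction. -/
theorem h69w_pushforward_alpha_single (hα : HeckeAlphaBarIntegral Kbar N ℓ)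
    (u : Place Kbar (FF (N * ℓ))) :
    Divisor.pushforwardAlong (heckeAlphaBar Kbar N ℓ) hα (Finsupp.single u (1 : ℤ)) =
      Finsupp.single (u.restrictAlong (heckeAlphaBar Kbar N ℓ) hα) (1 : ℤ) := by
  have h1 := Divisor.pushforwardAlong_single (heckeAlphaBar Kbar N ℓ) hα u (1 : ℤ)
  have h2 := Fermat.Agent.Red.GFF.inertiaDegAlong_eq_one_of_deg (heckeAlphaBar Kbar N ℓ) hα
    u (Fermat.Agent.Red.HKMod.place_deg_FF (N * ℓ) u)
  rw [h2, Nat.cast_one, mul_one] at h1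
  exact h1

/-- **`α_*` maps `redKer (N ℓ) A` into `redKer N A`** (every valuation subring `A`). -/
theorem h69w_pushforward_alpha_mem (A : ValuationSubring Kbar)
    (hα : HeckeAlphaBarIntegral Kbar N ℓ) {D : Divisor Kbar (FF (N * ℓ))}
    (hD : D ∈ redKer (N * ℓ) A) :
    Divisor.pushforwardAlong (heckeAlphaBar Kbar N ℓ) hα D ∈ redKer N A := by
  unfold redKer at hD
  induction hD using AddSubgroup.closure_induction with
  | mem D hD =>
    obtain ⟨v, w, hvw, rfl⟩ := hD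
    rw [map_sub, h69w_pushforward_alpha_single, h69w_pushforward_alpha_single]
    exact single_sub_single_mem_redKer (h69w_restrict_alpha_sameRed A hα hvw)
  | zero =>
    rw [map_zero]
    exact zero_mem _
  | add x y _ _ hx hy =>
    rw [map_add]
    exact add_mem hx hy
  | neg x _ hx =>
    rw [map_neg]
    exact neg_mem hx

end Pushforward

/-! ### The Hecke correspondence -/

section Hecke

/-- **RED-HECKE, divisor form**: for `A` over `p ∤ N` and a prime `ℓ ∤ N`, the Hecke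
correspondence `T_ℓ` maps `redKer N A` into itself. -/
theorem h69w_heckeDivBar_mem {N ℓ : ℕ} [NeZero N] [NeZero ℓ] {p : ℕ} (hp : p.Prime)
    (hpN : ¬ p ∣ N) (hℓ : ℓ.Prime) (hN : ¬ ℓ ∣ N) (A : ValuationSubring Kbar)
    (hA : A.LiesOverPrime p) (hα : HeckeAlphaBarIntegral Kbar N ℓ)
    (hβ : HeckeBetaBarIntegral Kbar N ℓ) [HasPrincipalDivisors Kbar (FF (N * ℓ))]
    {D : Divisor Kbar (FF N)} (hD : D ∈ redKer N A) :
    heckeDivBar hα hβ D ∈ redKer N A :=
  h69w_pushforward_alpha_mem A hα (h69w_pullback_beta_mem hp hpN hℓ hN A hA hβ hD)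

/-- **RED-HECKE, class form**: for `A` over `p ∤ N` and a prime `ℓ ∤ N`, the Hecke operator
`T_ℓ` of `J₀(N)` maps the kernel of reduction `redKerPic N A` into itself. -/
theorem h69w_heckeOperatorBar_mem {p : ℕ} (hp : p.Prime) (N : ℕ) [NeZero N] (hpN : ¬ p ∣ N)
    (ℓ : Nat.Primes) (hN : ¬ (ℓ : ℕ) ∣ N) (A : ValuationSubring Kbar) (hA : A.LiesOverPrime p)
    {x : JZero N} (hx : x ∈ redKerPic N A) : heckeOperatorBar N ℓ x ∈ redKerPic N A := by
  haveI : NeZero (ℓ : ℕ) := ⟨ℓ.2.ne_zero⟩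
  obtain ⟨hα, hβ, hPD, hfin, hFI, hNF⟩ := Fermat.Agent.Red.HKMod.heckeInputsAlong N (ℓ : ℕ)
  haveI := hPD
  have hT : ∀ y : JZero N, heckeOperatorBar N ℓ y = heckePic0Bar hα hβ hFI hfin hNF y := by
    intro y
    rw [heckeOperatorBar_apply]
    exact congrArg (fun f => f y) (heckeOperatorAlong_eq hα hβ hFI hfin hNF)
  obtain ⟨D, hD, rfl⟩ := hx
  refine ⟨Pic0.degZeroCorrespondence (heckeBetaBar Kbar N (ℓ : ℕ)) (heckeAlphaBar Kbar N (ℓ : ℕ))
    hβ hα hFI D, ?_, ?_⟩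
  · exact h69w_heckeDivBar_mem hp hpN ℓ.2 hN A hA hα hβ hD
  · rw [hT]
    rfl

/-- **RED-HECKE, Hecke-polynomial form**: every polynomial in the `T_ℓ`, `ℓ ∤ N`, maps the
kernel of reduction `redKerPic N A` into itself (`A` over `p ∤ N`). -/
theorem h69w_smul_mem {p : ℕ} (hp : p.Prime) (N : ℕ) [NeZero N] (hpN : ¬ p ∣ N)
    (A : ValuationSubring Kbar) (hA : A.LiesOverPrime p) (P : MvPolynomial Nat.Primes ℤ)
    (hP : P ∈ MvPolynomial.supported ℤ {ℓ : Nat.Primes | ¬ (ℓ : ℕ) ∣ N})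
    {x : JZero N} (hx : x ∈ redKerPic N A) :
    (letI := heckeModuleBar N; P • x) ∈ redKerPic N A := by
  letI := heckeModuleBar N
  have hc : HeckeOperatorsCommuteBar N := Fermat.Agent.Red.HKComm.heckeOperatorsCommuteBar N
  rw [MvPolynomial.supported_eq_adjoin_X] at hP
  induction hP using Algebra.adjoin_induction generalizing x with
  | mem Q hQ =>
    obtain ⟨ℓ, hℓ, rfl⟩ := hQ
    have e : (MvPolynomial.X ℓ : MvPolynomial Nat.Primes ℤ) • x = heckeOperatorBar N ℓ x :=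
      heckeModuleBar_heckeGen_smul hc ℓ x
    rw [e]
    exact h69w_heckeOperatorBar_mem hp N hpN ℓ hℓ A hA hx
  | algebraMap r =>
    have e : (algebraMap ℤ (MvPolynomial Nat.Primes ℤ) r) • x = r • x :=
      heckeModuleBar_C_smul r x
    rw [e]
    exact (redKerPic N A).zsmul_mem hx r
  | add Q R _ _ hQ hR =>
    rw [add_smul]
    exact (redKerPic N A).add_mem (hQ hx) (hR hx)
  | mul Q R _ _ hQ hR =>
    rw [mul_smul]
    exact hQ (hR hx)

end Hecke

/-! ### The Hecke operators on the quotient by the kernel of reduction -/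

section Quot

variable {p : ℕ} (hp : p.Prime) (N : ℕ) [NeZero N] (hpN : ¬ p ∣ N) (ℓ : Nat.Primes)
  (hN : ¬ (ℓ : ℕ) ∣ N) (A : ValuationSubring Kbar) (hA : A.LiesOverPrime p)

/-- `T_ℓ` on `J₀(N) ⧸ redKerPic N A`. -/
def h69wHeckeQuot : (JZero N ⧸ redKerPic N A) →+ (JZero N ⧸ redKerPic N A) :=
  QuotientAddGroup.map (redKerPic N A) (redKerPic N A)
    (heckeOperatorBar N ℓ).toAddMonoidHom
    (fun _ hx => h69w_heckeOperatorBar_mem hp N hpN ℓ hN A hA hx)

theorem h69w_heckeQuot_mk (x : JZero N) :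
    h69wHeckeQuot hp N hpN ℓ hN A hA (QuotientAddGroup.mk x) =
      QuotientAddGroup.mk (heckeOperatorBar N ℓ x) :=
  rfl

end Quot

end Fermat.Agent.P7
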