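import Fermat.Agent.P7.H57NormRed
import Fermat.Agent.P7.H69RedHecke
import Fermat.Agent.Red.EST.Assembly

/-!
# Wave 7 (S40), block (A) T-ABEL, function-level inputs (helper57, prefix `h57l_`)

`T_ℓ u = Nm_α (β u)` is the Hecke norm `h57rT` of `P7/H57NormRed.lean`.

* `h57l_kummer_T` (**KUMMER-T**) : if `u` is a Kummer representative of `x ∈ J₀(N)`, then
  `T_ℓ u` is a Kummer representative of `T_ℓ x` (`heckeOperatorBar`).
* `h57l_T_level` (**NORM-LEVEL**) : if `u ∈ W_∞` (level `M d`) and `y` (level `M`) have the same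
  reduction, then `T_ℓ u` and `T_ℓ y` have the same reduction (`A` over any prime `p`,
  `ℓ ∤ M d`).
* `h57l_div_T` (**DIV-HECKE**) : the divisor of `T_ℓ u` is `heckeDivBar` of the divisor of `u`.
* `h57l_div_T_redKer` : if `div y = n D + R` with `R ∈ redKer`, then
  `div (T_ℓ y) = n (T_ℓ D) + R'` with `R' ∈ redKer` (`A` over `p ∤ M`, `ℓ ∤ M`).
-/

set_option autoImplicit false
set_option linter.unusedSectionVars false
set_option linter.unusedVariables false
set_option linter.style.haveILetI false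

open AlgebraicCurve ModularCurve IsLocalRing

noncomputable section

namespace Fermat.Agent.P7

open Fermat.Agent.S37 Fermat.Agent.Jac.K1 Fermat.Agent.Red.HKMod
open Fermat.Agent.Red.GV Fermat.Agent.Red.GV.Soft

/-- the Hecke norm is the norm along `α` of the pull-back along `β`. -/
theorem h57l_T_eq_normAlong (N ℓ : ℕ) [NeZero N] [NeZero ℓ] (u : FF N) :
    h57rT N ℓ u = normAlong (heckeAlphaBar Kbar N ℓ) (heckeBetaBar Kbar N ℓ u) := rfl

/-- **KUMMER-T.**  The Hecke operator acts on Kummer representatives by the Hecke norm. -/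
theorem h57l_kummer_T (N : ℕ) [NeZero N] (ℓ : Nat.Primes) {n : ℕ} {x : JZero N} {u : FF N}
    (hx : IsKummerPair n x u) :
    haveI : NeZero (ℓ : ℕ) := ⟨ℓ.2.ne_zero⟩
    IsKummerPair n (heckeOperatorBar N ℓ x) (h57rT N (ℓ : ℕ) u) := by
  haveI : NeZero (ℓ : ℕ) := ⟨ℓ.2.ne_zero⟩
  haveI := hasPrincipalDivisors_FF (N * (ℓ : ℕ))
  have h1 := hx.correspondence (heckeBetaBar Kbar N ℓ) (heckeAlphaBar Kbar N ℓ)
    (heckeBetaBarIntegral N ℓ) (heckeAlphaBarIntegral N ℓ)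
    (fundamentalIdentityAlong_heckeBetaBar N ℓ) (finiteAlong_heckeAlphaBar N ℓ)
    (normFormulaAlong_heckeAlphaBar N ℓ)
  have h2 : heckeOperatorBar N ℓ x
      = Pic0.correspondence (heckeBetaBar Kbar N ℓ) (heckeAlphaBar Kbar N ℓ)
          (heckeBetaBarIntegral N ℓ) (heckeAlphaBarIntegral N ℓ)
          (fundamentalIdentityAlong_heckeBetaBar N ℓ) (finiteAlong_heckeAlphaBar N ℓ)
          (normFormulaAlong_heckeAlphaBar N ℓ) x := by
    change heckeOperatorAlong Kbar N ℓ x = _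
    rw [heckeOperatorAlong_eq_heckePic0Bar]
    rfl
  rw [h2]
  exact h1

section Level

variable (A : ValuationSubring Kbar) (M d ℓ : ℕ) [NeZero M] [NeZero d] [NeZero ℓ]

/-- **NORM-LEVEL.**  Reduction at `W_∞` commutes with the Hecke norms of the levels `M d` and
`M`. -/
theorem h57l_T_level {p : ℕ} (hp : p.Prime) (hA : A.LiesOverPrime p) (hℓ : ℓ.Prime)
    (hM : ¬ ℓ ∣ M * d) (u : FF (M * d)) (hu : u ∈ softV A (M * d)) (y : FF M)
    (hy : y ∈ softV A M) (h : softR A M ⟨y, hy⟩ = softR A (M * d) ⟨u, hu⟩)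
    (hTu : h57rT (M * d) ℓ u ∈ softV A (M * d)) (hTy : h57rT M ℓ y ∈ softV A M) :
    softR A (M * d) ⟨_, hTu⟩ = softR A M ⟨_, hTy⟩ := by
  have hα : heckeAlphaBar Kbar M d y ∈ softV A (M * d) := (alpha_mem_softV_iff A d y).mpr hy
  have eα : softR A (M * d) ⟨_, hα⟩ = softR A M ⟨y, hy⟩ := softR_alpha A d ⟨y, hy⟩ hα
  have hTα : h57rT (M * d) ℓ (heckeAlphaBar Kbar M d y) ∈ softV A (M * d) := by
    rw [h57r_T_alpha M d ℓ hℓ hM y]
    exact (alpha_mem_softV_iff A d _).mpr hTy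
  have e1 : softR A (M * d) ⟨_, hTu⟩ = softR A (M * d) ⟨_, hTα⟩ :=
    h57r_T_red_congr A (M * d) ℓ hp hA hℓ hM u _ hu hα (h.symm.trans eα.symm) hTu hTα
  rw [e1]
  have hTα' : heckeAlphaBar Kbar M d (h57rT M ℓ y) ∈ softV A (M * d) :=
    (alpha_mem_softV_iff A d _).mpr hTy
  have e2 : (⟨h57rT (M * d) ℓ (heckeAlphaBar Kbar M d y), hTα⟩ : softV A (M * d)) =
      ⟨heckeAlphaBar Kbar M d (h57rT M ℓ y), hTα'⟩ :=
    Subtype.ext (h57r_T_alpha M d ℓ hℓ hM y)
  rw [e2]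
  exact softR_alpha A d ⟨_, hTy⟩ hTα'

end Level

section Div

variable (N ℓ : ℕ) [NeZero N] [NeZero ℓ]

/-- the divisor of `Nm_α (β u)` is the correspondence of the divisor of `u` (generic form). -/
theorem h57l_div_corr (hα : (heckeAlphaBar Kbar N ℓ).toRingHom.IsIntegral)
    (hβ : (heckeBetaBar Kbar N ℓ).toRingHom.IsIntegral)
    [HasPrincipalDivisors Kbar (FF (N * ℓ))] {u : FF N} (hu : u ≠ 0)
    {D : Divisor Kbar (FF N)} (hD : ∀ v : Place Kbar (FF N), D v = v.ord u)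
    (v : Place Kbar (FF N)) :
    Divisor.correspondence (heckeBetaBar Kbar N ℓ) (heckeAlphaBar Kbar N ℓ) hβ hα D v =
      v.ord (h57rT N ℓ u) := by
  have hβu : heckeBetaBar Kbar N ℓ u ≠ 0 :=
    (map_ne_zero_iff _ (heckeBetaBar Kbar N ℓ).injective).mpr hu
  rw [Divisor.correspondence_apply]
  have h1 : ∀ w : Place Kbar (FF (N * ℓ)),
      (Divisor.pullbackAlong (heckeBetaBar Kbar N ℓ) hβ D) w =
        w.ord (heckeBetaBar Kbar N ℓ u) := by
    intro w
    rw [Divisor.pullbackAlong_apply, Place.ord_restrictAlong (heckeBetaBar Kbar N ℓ) hβ w u,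
      hD (w.restrictAlong (heckeBetaBar Kbar N ℓ) hβ)]
  have hN := normFormulaAlong_heckeAlphaBar N ℓ
  letI := algebraAlong (heckeAlphaBar Kbar N ℓ)
  haveI := isScalarTower_along (heckeAlphaBar Kbar N ℓ)
  haveI := isIntegral_along (heckeAlphaBar Kbar N ℓ) hα
  haveI : Module.Finite (FF N) (FF (N * ℓ)) := finiteAlong_heckeAlphaBar N ℓ
  exact hN (heckeBetaBar Kbar N ℓ u) hβu _ h1 v

/-- **DIV-HECKE.**  The divisor of the Hecke norm is the Hecke correspondence of the divisor. -/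
theorem h57l_div_T (hα : HeckeAlphaBarIntegral Kbar N ℓ) (hβ : HeckeBetaBarIntegral Kbar N ℓ)
    [HasPrincipalDivisors Kbar (FF (N * ℓ))] {u : FF N} (hu : u ≠ 0)
    {D : Divisor Kbar (FF N)} (hD : ∀ v : Place Kbar (FF N), D v = v.ord u)
    (v : Place Kbar (FF N)) :
    heckeDivBar hα hβ D v = v.ord (h57rT N ℓ u) :=
  h57l_div_corr N ℓ hα hβ hu hD v

/-- **DIV-HECKE modulo the kernel of reduction.**  If `div y = n D + R` with `R ∈ redKer`, then
`div (T_ℓ y) = n (T_ℓ D) + R'` with `R' ∈ redKer`. -/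
theorem h57l_div_T_redKer {p : ℕ} (hp : p.Prime) (hpN : ¬ p ∣ N) (hℓ : ℓ.Prime) (hN : ¬ ℓ ∣ N)
    (A : ValuationSubring Kbar) (hA : A.LiesOverPrime p)
    (hα : HeckeAlphaBarIntegral Kbar N ℓ) (hβ : HeckeBetaBarIntegral Kbar N ℓ)
    [HasPrincipalDivisors Kbar (FF (N * ℓ))] {y : FF N} (hy : y ≠ 0) (n : ℤ)
    (D R : Divisor Kbar (FF N)) (hR : R ∈ redKer N A)
    (hdiv : ∀ v : Place Kbar (FF N), v.ord y = n * D v + R v) :
    ∃ R' ∈ redKer N A, ∀ v : Place Kbar (FF N),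
      v.ord (h57rT N ℓ y) = n * heckeDivBar hα hβ D v + R' v := by
  refine ⟨heckeDivBar hα hβ R, h69w_heckeDivBar_mem hp hpN hℓ hN A hA hα hβ hR, fun v => ?_⟩
  have hD : ∀ v : Place Kbar (FF N), (n • D + R) v = v.ord y := by
    intro v
    rw [Finsupp.add_apply, Finsupp.smul_apply, smul_eq_mul, hdiv v]
  rw [← h57l_div_T N ℓ hα hβ hy hD v, map_add, map_zsmul, Finsupp.add_apply,
    Finsupp.smul_apply, smul_eq_mul]

end Div

end Fermat.Agent.P7
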