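import Fermat.Agent.P7.H23BreakS

/-!
# Wave 7 (S40), row T-C1-BREAK (helper23): consequences of the strong break

Same frame as `P7/H23Break.lean`, `P7/H23BreakS.lean`.  For a strong break depth `δ`
(`H23wBreakS p A ζ β b δ`) and `γ ∈ Lˣ = Fix(I_β)ˣ` write `ψ(γ) = j` for the exponent with
`b γ / γ ≡ 1 + j δ` modulo `δ 𝔪_A`.

* `h23w_psi_unique` : the exponent `j < p` is unique.
* `h23w_psi_mul`, `h23w_psi_inv`, `h23w_psi_div` : `ψ` is additive (cocycle computation, for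
  arbitrary elements of `ℚ̄`).
* `h23w_psi_eq` : `ψ(γ) = ψ(γ')` implies `v(γ / γ') ^ (p - 1) = v(p) ^ n`.
* `h23w_breakS_weak` : the strong shape implies the weak shape `H23wBreak`.
* `h23w_var_int`, `h23w_var_nonunit`, `h23w_var_unit` : `b z - z ∈ δ A` for `z ∈ L ∩ A`, and
  `b z - z ∈ δ 𝔪_A` for `z ∈ L ∩ 𝔪_A` and for the units `z` of `A` in `L`.
-/

set_option autoImplicit false
set_option linter.style.haveILetI false
set_option linter.unusedSectionVars false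

open Fermat.Agent.PT.Loc Fermat.Agent.S56F Fermat.Agent.PT.Bridge

open scoped Pointwise

noncomputable section

namespace Fermat.Agent.P7

variable {p : ℕ} [Fact p.Prime]

/-- a natural number in the maximal ideal of `A` is divisible by `p`. -/
theorem h23w_dvd_of_mem_nonunits (A : ValuationSubring Qb) (hA : A.LiesOverPrime p) {i : ℕ}
    (hi : (i : Qb) ∈ A.nonunits) : p ∣ i := by
  by_contra h
  have h1 := h23w_natCast_unit A hA h
  rw [ValuationSubring.mem_nonunits_iff, h1] at hi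
  exact lt_irrefl _ hi

/-- uniqueness of the exponent, ordered case. -/
theorem h23w_psi_unique_aux (A : ValuationSubring Qb) (hA : A.LiesOverPrime p) {X : Qb}
    {j j' : ℕ} (hjj : j ≤ j') (hj' : j' < p) (h : X - (j : Qb) ∈ A.nonunits)
    (h' : X - (j' : Qb) ∈ A.nonunits) : j = j' := by
  have h1 : ((j' - j : ℕ) : Qb) ∈ A.nonunits := by
    have h2 : ((j' - j : ℕ) : Qb) = (X - (j : Qb)) + -(X - (j' : Qb)) := by
      rw [Nat.cast_sub hjj]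
      ring
    rw [h2]
    exact Fermat.Agent.Bridge.add_mem_nonunits A h (Fermat.Agent.Bridge.neg_mem_nonunits A h')
  have h3 := h23w_dvd_of_mem_nonunits A hA h1
  rcases Nat.eq_zero_or_pos (j' - j) with h4 | h4
  · omega
  · have := Nat.le_of_dvd h4 h3
    omega

/-- **uniqueness of the exponent**. -/
theorem h23w_psi_unique (A : ValuationSubring Qb) (hA : A.LiesOverPrime p) {X : Qb} {j j' : ℕ}
    (hj : j < p) (hj' : j' < p) (h : X - (j : Qb) ∈ A.nonunits)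
    (h' : X - (j' : Qb) ∈ A.nonunits) : j = j' := by
  rcases le_total j j' with h1 | h1
  · exact h23w_psi_unique_aux A hA h1 hj' h h'
  · exact (h23w_psi_unique_aux A hA h1 hj h' h).symm

/-- **additivity of the exponent** (cocycle computation): if `X ≡ 1 + j δ` and `X' ≡ 1 + j' δ`
modulo `δ 𝔪_A` then `X X' ≡ 1 + (j + j') δ`. -/
theorem h23w_psi_mul (A : ValuationSubring Qb) {δ : Qb} (hδ0 : δ ≠ 0) (hδ : δ ∈ A.nonunits)
    {X X' : Qb} {j j' : ℕ} (h : (X - 1) * δ⁻¹ - (j : Qb) ∈ A.nonunits)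
    (h' : (X' - 1) * δ⁻¹ - (j' : Qb) ∈ A.nonunits) :
    (X * X' - 1) * δ⁻¹ - ((j + j' : ℕ) : Qb) ∈ A.nonunits := by
  have hA1 : (X - 1) * δ⁻¹ ∈ A := by
    have h1 : (X - 1) * δ⁻¹ = ((X - 1) * δ⁻¹ - (j : Qb)) + (j : Qb) := by ring
    rw [h1]
    exact A.add_mem _ _ (Fermat.Agent.Bridge.mem_of_mem_nonunits A h) (natCast_mem A j)
  have hA2 : (X' - 1) * δ⁻¹ ∈ A := by
    have h1 : (X' - 1) * δ⁻¹ = ((X' - 1) * δ⁻¹ - (j' : Qb)) + (j' : Qb) := by ring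
    rw [h1]
    exact A.add_mem _ _ (Fermat.Agent.Bridge.mem_of_mem_nonunits A h') (natCast_mem A j')
  have h1 : (X * X' - 1) * δ⁻¹ - ((j + j' : ℕ) : Qb) =
      ((X - 1) * δ⁻¹ - (j : Qb)) + ((X' - 1) * δ⁻¹ - (j' : Qb)) +
        δ * (((X - 1) * δ⁻¹) * ((X' - 1) * δ⁻¹)) := by
    push_cast
    field_simp
    ring
  rw [h1]
  exact Fermat.Agent.Bridge.add_mem_nonunits A (Fermat.Agent.Bridge.add_mem_nonunits A h h')
    (Fermat.Agent.Bridge.mul_mem_nonunits_left A hδ (A.mul_mem _ _ hA1 hA2))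

/-- **the exponent of an inverse**: if `X ≡ 1 + j δ` modulo `δ 𝔪_A` then
`X⁻¹ ≡ 1 - j δ`. -/
theorem h23w_psi_inv (A : ValuationSubring Qb) {δ : Qb} (hδ0 : δ ≠ 0) (hδ : δ ∈ A.nonunits)
    {X : Qb} {j : ℕ} (h : (X - 1) * δ⁻¹ - (j : Qb) ∈ A.nonunits) :
    (X⁻¹ - 1) * δ⁻¹ + (j : Qb) ∈ A.nonunits := by
  have hA1 : (X - 1) * δ⁻¹ ∈ A := by
    have h1 : (X - 1) * δ⁻¹ = ((X - 1) * δ⁻¹ - (j : Qb)) + (j : Qb) := by ring
    rw [h1]
    exact A.add_mem _ _ (Fermat.Agent.Bridge.mem_of_mem_nonunits A h) (natCast_mem A j)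
  -- `X = 1 + δ Y` is a unit
  have hX : X = 1 + δ * ((X - 1) * δ⁻¹) := by
    field_simp
    ring
  have hm : δ * ((X - 1) * δ⁻¹) ∈ A.nonunits :=
    Fermat.Agent.Bridge.mul_mem_nonunits_left A hδ hA1
  have hvX : A.valuation X = 1 := by
    rw [hX]
    exact h23v_val_one_add hm
  have hX0 : X ≠ 0 := by
    intro h0
    rw [h0, map_zero] at hvX
    exact zero_ne_one hvX
  have hXinv : X⁻¹ ∈ A := by
    rw [← A.valuation_le_one_iff, map_inv₀, hvX, inv_one]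
  have h1 : (X⁻¹ - 1) * δ⁻¹ + (j : Qb) =
      (-(X⁻¹)) * ((X - 1) * δ⁻¹ - (j : Qb)) + (X⁻¹ * (j : Qb)) * (δ * ((X - 1) * δ⁻¹)) := by
    field_simp
    ring
  rw [h1]
  exact Fermat.Agent.Bridge.add_mem_nonunits A
    (Fermat.Agent.Bridge.mul_mem_nonunits_right A (A.neg_mem _ hXinv) h)
    (Fermat.Agent.Bridge.mul_mem_nonunits_right A
      (A.mul_mem _ _ hXinv (natCast_mem A j)) hm)

/-- **the exponent of a quotient with equal exponents**: `X X'⁻¹ ≡ 1` modulo `δ 𝔪_A`. -/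
theorem h23w_psi_div (A : ValuationSubring Qb) {δ : Qb} (hδ0 : δ ≠ 0) (hδ : δ ∈ A.nonunits)
    {X X' : Qb} {j : ℕ} (h : (X - 1) * δ⁻¹ - (j : Qb) ∈ A.nonunits)
    (h' : (X' - 1) * δ⁻¹ - (j : Qb) ∈ A.nonunits) :
    (X * X'⁻¹ - 1) * δ⁻¹ ∈ A.nonunits := by
  have h2 := h23w_psi_inv A hδ0 hδ h'
  have hA1 : (X - 1) * δ⁻¹ ∈ A := by
    have h1 : (X - 1) * δ⁻¹ = ((X - 1) * δ⁻¹ - (j : Qb)) + (j : Qb) := by ring
    rw [h1]
    exact A.add_mem _ _ (Fermat.Agent.Bridge.mem_of_mem_nonunits A h) (natCast_mem A j)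
  have hA2 : (X'⁻¹ - 1) * δ⁻¹ ∈ A := by
    have h1 : (X'⁻¹ - 1) * δ⁻¹ = ((X'⁻¹ - 1) * δ⁻¹ + (j : Qb)) + -(j : Qb) := by ring
    rw [h1]
    exact A.add_mem _ _ (Fermat.Agent.Bridge.mem_of_mem_nonunits A h2)
      (A.neg_mem _ (natCast_mem A j))
  have h1 : (X * X'⁻¹ - 1) * δ⁻¹ =
      ((X - 1) * δ⁻¹ - (j : Qb)) + ((X'⁻¹ - 1) * δ⁻¹ + (j : Qb)) +
        δ * (((X - 1) * δ⁻¹) * ((X'⁻¹ - 1) * δ⁻¹)) := by
    field_simp
    ring
  rw [h1]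
  exact Fermat.Agent.Bridge.add_mem_nonunits A (Fermat.Agent.Bridge.add_mem_nonunits A h h2)
    (Fermat.Agent.Bridge.mul_mem_nonunits_left A hδ (A.mul_mem _ _ hA1 hA2))

/-- the strong shape implies the weak shape. -/
theorem h23w_breakS_weak (A : ValuationSubring Qb) (hA : A.LiesOverPrime p) {ζ β : Qb} {b : GQ}
    {δ : Qb} (h : H23wBreakS p A ζ β b δ) : H23wBreak p A ζ β b δ := by
  obtain ⟨h0, hm, hz, hall⟩ := h
  refine ⟨h0, hm, hz, fun γ hγ0 hγ => ?_⟩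
  obtain ⟨j, hjp, hj, hiff⟩ := hall γ hγ0 hγ
  refine ⟨?_, ?_, ?_⟩
  · have h1 : (b γ * γ⁻¹ - 1) * δ⁻¹ = ((b γ * γ⁻¹ - 1) * δ⁻¹ - (j : Qb)) + (j : Qb) := by ring
    rw [h1]
    exact A.add_mem _ _ (Fermat.Agent.Bridge.mem_of_mem_nonunits A hj) (natCast_mem A j)
  · intro hmem
    refine hiff.mp ?_
    have h1 : (j : Qb) ∈ A.nonunits := by
      have h2 : (j : Qb) = (b γ * γ⁻¹ - 1) * δ⁻¹ + -((b γ * γ⁻¹ - 1) * δ⁻¹ - (j : Qb)) := by ring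
      rw [h2]
      exact Fermat.Agent.Bridge.add_mem_nonunits A hmem
        (Fermat.Agent.Bridge.neg_mem_nonunits A hj)
    have h3 := h23w_dvd_of_mem_nonunits A hA h1
    rcases Nat.eq_zero_or_pos j with h4 | h4
    · exact h4
    · exact absurd (Nat.le_of_dvd h4 h3) (by omega)
  · intro hn
    have h1 := hiff.mpr hn
    subst h1
    simpa using hj

/-- **equal exponents**: if `γ, γ' ∈ Lˣ` have the same exponent then `v(γ / γ')` lies in the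
value group of `Fix(I₁)`. -/
theorem h23w_psi_eq (A : ValuationSubring Qb) (hA : A.LiesOverPrime p) {ζ β : Qb} {b : GQ}
    {δ : Qb} (h : H23wBreakS p A ζ β b δ)
    {γ γ' : Qb} (hγ0 : γ ≠ 0) (hγ'0 : γ' ≠ 0)
    (hγ : ∀ a ∈ h23vI1 p A, a β = β → a γ = γ) (hγ' : ∀ a ∈ h23vI1 p A, a β = β → a γ' = γ')
    {j : ℕ} (hj : (b γ * γ⁻¹ - 1) * δ⁻¹ - (j : Qb) ∈ A.nonunits)
    (hj' : (b γ' * γ'⁻¹ - 1) * δ⁻¹ - (j : Qb) ∈ A.nonunits) :
    ∃ n : ℤ, A.valuation (γ * γ'⁻¹) ^ (p - 1) = A.valuation (p : Qb) ^ n := by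
  have hw := h23w_breakS_weak A hA h
  obtain ⟨h0, hm, -, hall⟩ := hw
  have hq0 : γ * γ'⁻¹ ≠ 0 := mul_ne_zero hγ0 (inv_ne_zero hγ'0)
  have hqfix : ∀ a ∈ h23vI1 p A, a β = β → a (γ * γ'⁻¹) = γ * γ'⁻¹ := by
    intro a ha haβ
    rw [map_mul, map_inv₀, hγ a ha haβ, hγ' a ha haβ]
  obtain ⟨-, hiff⟩ := hall (γ * γ'⁻¹) hq0 hqfix
  refine hiff.mp ?_
  have h1 := h23w_psi_div A h0 hm hj hj'
  have h2 : b (γ * γ'⁻¹) * (γ * γ'⁻¹)⁻¹ = b γ * γ⁻¹ * (b γ' * γ'⁻¹)⁻¹ := by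
    rw [map_mul, map_inv₀]
    have hb0 : b γ' ≠ 0 := by
      intro h3
      exact hγ'0 ((map_eq_zero b).mp h3)
    field_simp
  rw [h2]
  exact h1

/-- **variation of integers**: `b z - z ∈ δ A` for `z ∈ L ∩ A`. -/
theorem h23w_var_int (A : ValuationSubring Qb) {ζ β : Qb} {b : GQ}
    {δ : Qb} (h : H23wBreak p A ζ β b δ) {z : Qb} (hzA : z ∈ A)
    (hz : ∀ a ∈ h23vI1 p A, a β = β → a z = z) : (b z - z) * δ⁻¹ ∈ A := by
  by_cases hz0 : z = 0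
  · rw [hz0, map_zero, sub_zero, zero_mul]
    exact A.zero_mem
  · obtain ⟨-, -, -, hall⟩ := h
    obtain ⟨h1, -⟩ := hall z hz0 hz
    have h2 : (b z - z) * δ⁻¹ = z * ((b z * z⁻¹ - 1) * δ⁻¹) := by
      field_simp
    rw [h2]
    exact A.mul_mem _ _ hzA h1

/-- **variation of nonunits**: `b z - z ∈ δ 𝔪_A` for `z ∈ L ∩ 𝔪_A`. -/
theorem h23w_var_nonunit (A : ValuationSubring Qb) {ζ β : Qb} {b : GQ}
    {δ : Qb} (h : H23wBreak p A ζ β b δ) {z : Qb} (hzA : z ∈ A.nonunits)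
    (hz : ∀ a ∈ h23vI1 p A, a β = β → a z = z) : (b z - z) * δ⁻¹ ∈ A.nonunits := by
  by_cases hz0 : z = 0
  · rw [hz0, map_zero, sub_zero, zero_mul, ValuationSubring.mem_nonunits_iff, map_zero]
    exact zero_lt_one
  · obtain ⟨-, -, -, hall⟩ := h
    obtain ⟨h1, -⟩ := hall z hz0 hz
    have h2 : (b z - z) * δ⁻¹ = z * ((b z * z⁻¹ - 1) * δ⁻¹) := by
      field_simp
    rw [h2]
    exact Fermat.Agent.Bridge.mul_mem_nonunits_left A hzA h1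

/-- **variation of units**: `b z - z ∈ δ 𝔪_A` for the units `z` of `A` in `L`. -/
theorem h23w_var_unit (A : ValuationSubring Qb) {ζ β : Qb} {b : GQ}
    {δ : Qb} (h : H23wBreak p A ζ β b δ) {z : Qb} (hz0 : z ≠ 0) (hzA : z ∈ A) (hzA' : z⁻¹ ∈ A)
    (hz : ∀ a ∈ h23vI1 p A, a β = β → a z = z) : (b z - z) * δ⁻¹ ∈ A.nonunits := by
  obtain ⟨-, -, -, hall⟩ := h
  obtain ⟨-, h1⟩ := hall z hz0 hz
  have h2 : (b z - z) * δ⁻¹ = z * ((b z * z⁻¹ - 1) * δ⁻¹) := by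
    field_simp
  rw [h2]
  refine Fermat.Agent.Bridge.mul_mem_nonunits_right A hzA (h1.mpr ⟨0, ?_⟩)
  rw [h23v_val_eq_one hz0 hzA hzA', one_pow, zpow_zero]

end Fermat.Agent.P7
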