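import Fermat.Agent.P7.H84AsmNode
import Fermat.Agent.P7.H23BreakT
import Fermat.Agent.P7.H20Break

/-!
# Wave 7 (S40), block (5b), row T-C5-ASM (helper84): the assembly at the level `M p`

`p` an odd prime, `p ∤ M`, good level, `A` over `p`, `I₁ = h23vI1 p A`, `β`, `b ∈ I₁`, `δ` a
break depth (`H23wBreak p A ζ β b δ`, row T-C1-BREAK), `u ≠ 0` a function of level `M p` with
`p ∣ div u`, fixed by `I_β = {a ∈ I₁ | a β = β}` (row T-CONST-DESC).

* `h84a_chart_reindex` : the chart hypotheses `H78hChart` may be reindexed at the nodes.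
* `H84wNodeNF` : a RATIONAL node normal form of `u` at the crossing point `𝔫` with slope `m` and
  node constant `γP / γQ` (the conclusion of `h84w_node_nf`).
* `h84w_hvar` : BREAK gives the variation hypothesis of `h84w_node_nf`.
* `h84w_const` : **(C), level form, conditional on the level instances of C4 and C3-smooth**:
  given the chart hypotheses `H78hChart` at the level, the exact depth dichotomy of
  `w = b u / u` at the depth `δ ^ p` and the normal forms of `u` at the closed points lying on one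
  component, ANY two rational node normal forms of `u` have congruent slopes modulo `p`.

Nothing is assumed.
-/

set_option autoImplicit false
set_option linter.unusedSectionVars false
set_option linter.unusedVariables false
set_option linter.style.longLine false
set_option linter.style.haveILetI false
set_option synthInstance.maxHeartbeats 400000
set_option maxHeartbeats 1600000

open AlgebraicCurve ModularCurve WithZero IsLocalRing Polynomial

noncomputable section

namespace Fermat.Agent.P7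

open Fermat.Agent.S37 Fermat.Agent.S37.GalI Fermat.Agent.Red Fermat.Agent.Red.GG
  Fermat.Agent.Red.GV Fermat.Agent.Red.GV.Soft Fermat.Agent.Red.ModelO Fermat.Agent.Red.Kron
  Fermat.Agent.LGC Fermat.Agent.S35 Fermat.Agent.P6

section Reindex

variable {A : Type*} [CommRing A] [IsDomain A] [ValuationRing A]
  {F : Type*} [Field F] [Algebra A F]

/-- the chart hypotheses may be reindexed at the nodes along a surjection. -/
theorem h84a_chart_reindex {Winf W0 : Subring F} {Sinf Szero E E' : Type*}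
    {Oinf : Sinf → Subring F} {Ozero : Szero → Subring F} {Oe : E → Subring F}
    (hC : H78hChart A Winf W0 Oinf Ozero Oe) (π : E' → E) (hπ : Function.Surjective π) :
    H78hChart A Winf W0 Oinf Ozero (fun e' => Oe (π e')) where
  hAF := hC.hAF
  hAinf := hC.hAinf
  hA0 := hC.hA0
  hOinf := hC.hOinf
  hOzero := hC.hOzero
  hOe₁ := fun e' => hC.hOe₁ (π e')
  hOe₂ := fun e' => hC.hOe₂ (π e')
  hAOinf := hC.hAOinf
  hAOzero := hC.hAOzero
  hAOe := fun e' => hC.hAOe (π e')
  hsatInf := hC.hsatInf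
  hsatZero := hC.hsatZero
  hsatE := fun e' => hC.hsatE (π e')
  hnode := fun e' => hC.hnode (π e')
  hglobInf := fun f hf h1 h2 => hC.hglobInf f hf h1 (fun e => by
    obtain ⟨e', rfl⟩ := hπ e
    exact h2 e')
  hglobZero := fun f hf h1 h2 => hC.hglobZero f hf h1 (fun e => by
    obtain ⟨e', rfl⟩ := hπ e
    exact h2 e')

end Reindex

variable (A : ValuationSubring Kbar) (M : ℕ) {p : ℕ} [NeZero M] [NeZero p]

/-- **a rational node normal form** of `u` at the crossing point `𝔫`, with slope `m` and node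
constant `γP / γQ`. -/
def H84wNodeNF (hp : p.Prime) (hM : ¬ p ∣ M) (hA : A.LiesOverPrime p)
    (𝔫 : Ideal (chart (M * p) A (jSS M p))) (h𝔫 : 𝔫.IsMaximal)
    {b : GQ} (hb : b ∈ A.inertiaSubgroupIn ℚ) (δ : A) (u : FF (M * p))
    (m : ℤ) (γP γQ : A) : Prop :=
  H84aNFNode (h84wB (M * p) b) (h56pTheta A hb) δ p
      (h85cWinf A M p hp hA).toSubring (h85cW0 A M p hp hM hA).toSubring
      (h62yO (chart (M * p) A (jSS M p)) 𝔫 h𝔫.isPrime).toSubring ((p : ℕ) : A) u m γP γQ ∧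
    H50tNodeForm A M hp hM hA 𝔫 u p m ((γP : Kbar) * (γQ : Kbar)⁻¹) ∧
    (∀ σ (hσ : σ ∈ A.inertiaSubgroupIn ℚ), gal (M * p) σ • u = u →
      h56pTheta A hσ γP = γP ∧ h56pTheta A hσ γQ = γQ)

/-- **BREAK gives the variation hypothesis**: a constant of `A` fixed by the inertia elements
fixing `u` (in particular by `I_β`) varies by `1 + δ A` under `b`. -/
theorem h84w_hvar {ζ β : Kbar} {b : GQ} {δ : Kbar} (hbreak : H23wBreak p A ζ β b δ)
    (hb : b ∈ A.inertiaSubgroupIn ℚ)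
    (u : FF (M * p))
    (hfix : ∀ a ∈ h23vI1 p A, a β = β → gal (M * p) a • u = u) (z : A)
    (hz : ∀ σ (hσ : σ ∈ A.inertiaSubgroupIn ℚ), gal (M * p) σ • u = u →
      h56pTheta A hσ z = z) :
    ∃ c : A, h56pTheta A hb z = z * (1 + (⟨δ, A.nonunits_le hbreak.2.1⟩ : A) * c) := by
  by_cases hz0 : z = 0
  · exact ⟨0, by rw [hz0, map_zero, zero_mul]⟩
  have hzK : (z : Kbar) ≠ 0 := fun h => hz0 (Subtype.ext h)
  obtain ⟨hδ0, hδ, -, hall⟩ := hbreak
  have hzfix : ∀ a ∈ h23vI1 p A, a β = β → a (z : Kbar) = z := by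
    intro a ha haβ
    have h1 := hz a ha.1 (hfix a ha haβ)
    have h2 := congrArg (fun t : A => (t : Kbar)) h1
    simpa only [h56p_coe_theta] using h2
  obtain ⟨h1, -⟩ := hall (z : Kbar) hzK hzfix
  refine ⟨⟨_, h1⟩, ?_⟩
  apply Subtype.ext
  show b (z : Kbar) = (z : Kbar) * (1 + δ * ((b (z : Kbar) * (z : Kbar)⁻¹ - 1) * δ⁻¹))
  field_simp
  ring

/-- **(C), level form** (conditional on the level instances of C4 and of C3 at the closed points
lying on one component): any two rational node normal forms of `u` have congruent slopes. -/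
theorem h84w_const (hp : p.Prime) (hM : ¬ p ∣ M) (haux : auxLevel p ∣ M)
    (hA : A.LiesOverPrime p)
    {ζ β : Kbar} (hζ : IsPrimitiveRoot ζ p) {b : GQ} {δ : Kbar}
    (hbreak : H23wBreak p A ζ β b δ) (hb : b ∈ A.inertiaSubgroupIn ℚ)
    (u : FF (M * p)) (hu0 : u ≠ 0)
    (hord : ∀ v : Place Kbar (FF (M * p)), (p : ℤ) ∣ v.ord u)
    (hfix : ∀ a ∈ h23vI1 p A, a β = β → gal (M * p) a • u = u)
    {Sinf Szero E : Type*} (Oinf : Sinf → Subring (FF (M * p)))
    (Ozero : Szero → Subring (FF (M * p)))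
    (node : E → Ideal (chart (M * p) A (jSS M p))) (hnode : ∀ e, (node e).IsMaximal)
    (hboth : ∀ e, TorOnBoth A M p hp hM hA (jSS M p) (node e))
    (hC : H78hChart A (h85cWinf A M p hp hA).toSubring (h85cW0 A M p hp hM hA).toSubring
      Oinf Ozero (fun e => (h62yO (chart (M * p) A (jSS M p)) (node e) (hnode e).isPrime).toSubring))
    (hdisc : H78hDisc A (h85cWinf A M p hp hA).toSubring (h85cW0 A M p hp hM hA).toSubring
      ((⟨δ, A.nonunits_le hbreak.2.1⟩ : A) ^ p) (h84wB (M * p) b u * u⁻¹))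
    (hNFinf : ∀ n, H84aNFSmooth (h84wB (M * p) b) (h56pTheta A hb)
      (⟨δ, A.nonunits_le hbreak.2.1⟩ : A) p (h85cWinf A M p hp hA).toSubring (Oinf n) u)
    (hNFzero : ∀ n, H84aNFSmooth (h84wB (M * p) b) (h56pTheta A hb)
      (⟨δ, A.nonunits_le hbreak.2.1⟩ : A) p (h85cW0 A M p hp hM hA).toSubring (Ozero n) u)
    (e₁ e₂ : E) (m₁ m₂ : ℤ) (γP₁ γQ₁ γP₂ γQ₂ : A)
    (h₁ : H84wNodeNF A M hp hM hA (node e₁) (hnode e₁) hb (⟨δ, A.nonunits_le hbreak.2.1⟩ : A) u
      m₁ γP₁ γQ₁)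
    (h₂ : H84wNodeNF A M hp hM hA (node e₂) (hnode e₂) hb (⟨δ, A.nonunits_le hbreak.2.1⟩ : A) u
      m₂ γP₂ γQ₂) :
    (p : ℤ) ∣ m₁ - m₂ := by
  classical
  set δA : A := ⟨δ, A.nonunits_le hbreak.2.1⟩ with hδA
  have hδ0 : δ ≠ 0 := hbreak.1
  have hδA0 : δA ≠ 0 := fun h => hδ0 (congrArg (fun t : A => (t : Kbar)) h)
  have hδAm : δA ∈ maximalIdeal A := (GG.mem_maximalIdeal_iff A δA).mpr hbreak.2.1
  have hpm : ((p : ℕ) : A) ∈ maximalIdeal A := by
    rw [GG.mem_maximalIdeal_iff]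
    exact hA
  -- `p δ = δ ^ p μ₀`
  have hpδ : ∃ m₀ ∈ maximalIdeal A, ((p : ℕ) : A) * δA = δA ^ p * m₀ := by
    obtain ⟨μ₀, hμ₀, h⟩ := h20b_p_delta A hp hζ hδ0 hbreak.2.2.1
    refine ⟨⟨μ₀, A.nonunits_le hμ₀⟩, (GG.mem_maximalIdeal_iff A _).mpr hμ₀, ?_⟩
    apply Subtype.ext
    push_cast
    exact h
  -- default normal forms at the nodes
  have hvar := h84w_hvar A M hbreak hb u hfix
  have hdef : ∀ e, ∃ (m : ℤ) (γP γQ : A),
      H84wNodeNF A M hp hM hA (node e) (hnode e) hb δA u m γP γQ := fun e =>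
    h84w_node_nf A M hp hM haux hA (node e) (hnode e) (hboth e) hb δA u hu0 hord hvar
  choose m₀ γP₀ γQ₀ hNF₀ using hdef
  -- the data on `E × Bool`
  let mm : E × Bool → ℤ := fun x =>
    if x = (e₁, true) then m₁ else if x = (e₂, false) then m₂ else m₀ x.1
  let gP : E × Bool → A := fun x =>
    if x = (e₁, true) then γP₁ else if x = (e₂, false) then γP₂ else γP₀ x.1
  let gQ : E × Bool → A := fun x =>
    if x = (e₁, true) then γQ₁ else if x = (e₂, false) then γQ₂ else γQ₀ x.1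
  have hne : ((e₂, false) : E × Bool) ≠ (e₁, true) := by
    intro h
    have := congrArg Prod.snd h
    simp at this
  have hNF : ∀ x : E × Bool, H84aNFNode (h84wB (M * p) b) (h56pTheta A hb) δA p
      (h85cWinf A M p hp hA).toSubring (h85cW0 A M p hp hM hA).toSubring
      ((fun e => (h62yO (chart (M * p) A (jSS M p)) (node e) (hnode e).isPrime).toSubring) x.1)
      ((p : ℕ) : A) u (mm x) (gP x) (gQ x) := by
    intro x
    by_cases h1 : x = (e₁, true)
    · subst h1
      simp only [mm, gP, gQ, if_true]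
      exact h₁.1
    · by_cases h2 : x = (e₂, false)
      · subst h2
        simp only [mm, gP, gQ, if_neg hne, if_true]
        exact h₂.1
      · simp only [mm, gP, gQ, if_neg h1, if_neg h2]
        exact (hNF₀ x.1).1
  have hC' := h84a_chart_reindex hC (Prod.fst : E × Bool → E)
    (fun e => ⟨(e, true), rfl⟩)
  have hθϖ : h56pTheta A hb ((p : ℕ) : A) = ((p : ℕ) : A) := map_natCast _ p
  obtain ⟨μ, hμ, hrel⟩ := h84a_phase hC'
    (fun π hπ x hx => h86t_Winf_unit A M p hp hA π hπ x hx)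
    (fun π hπ x hx => h86t_Winf_nt A M p hp hA π hπ x hx)
    (fun π hπ x hx => h86t_W0_unit A M p hp hM hA π hπ x hx)
    (fun π hπ x hx => h86t_W0_nt A M p hp hM hA π hπ x hx)
    (h84wB (M * p) b) (h56pTheta A hb)
    (fun a => h56p_tau_algebraMap A (M * p) hb a) hp hpm hδA0 hδAm hpδ
    (h20n_natCast_ne_zero A p) hθϖ hNFinf hNFzero mm gP gQ hNF hdisc (e₁, true) (e₂, false)
  have e1 : mm (e₁, true) = m₁ := by simp only [mm, if_true]
  have e2 : mm (e₂, false) = m₂ := by simp only [mm, if_neg hne, if_true]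
  have e3 : gP (e₁, true) = γP₁ := by simp only [gP, if_true]
  have e4 : gP (e₂, false) = γP₂ := by simp only [gP, if_neg hne, if_true]
  have e5 : gQ (e₁, true) = γQ₁ := by simp only [gQ, if_true]
  have e6 : gQ (e₂, false) = γQ₂ := by simp only [gQ, if_neg hne, if_true]
  rw [e3, e4, e5, e6] at hrel
  -- the node constants are nonzero and fixed by `I_β`
  have hα₁ := h50t_nodeForm_ne_zero hp hM hA h₁.2.1
  have hα₂ := h50t_nodeForm_ne_zero hp hM hA h₂.2.1
  have hP₁ : (γP₁ : Kbar) ≠ 0 := fun h => hα₁ (by rw [h, zero_mul])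
  have hQ₁ : (γQ₁ : Kbar) ≠ 0 := fun h => hα₁ (by rw [h, inv_zero, mul_zero])
  have hP₂ : (γP₂ : Kbar) ≠ 0 := fun h => hα₂ (by rw [h, zero_mul])
  have hQ₂ : (γQ₂ : Kbar) ≠ 0 := fun h => hα₂ (by rw [h, inv_zero, mul_zero])
  set Γ : Kbar := (γP₁ : Kbar) * (γQ₁ : Kbar)⁻¹ * ((γP₂ : Kbar) * (γQ₂ : Kbar)⁻¹)⁻¹ with hΓ
  have hΓ0 : Γ ≠ 0 :=
    mul_ne_zero hα₁ (inv_ne_zero hα₂)
  have hfixA : ∀ (z : A), (∀ σ (hσ : σ ∈ A.inertiaSubgroupIn ℚ), gal (M * p) σ • u = u →
      h56pTheta A hσ z = z) → ∀ a ∈ h23vI1 p A, a β = β → a (z : Kbar) = z := by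
    intro z hz a ha haβ
    have h1 := hz a ha.1 (hfix a ha haβ)
    have h2 := congrArg (fun t : A => (t : Kbar)) h1
    simpa only [h56p_coe_theta] using h2
  have hΓfix : ∀ a ∈ h23vI1 p A, a β = β → a Γ = Γ := by
    intro a ha haβ
    have k1 := hfixA γP₁ (fun σ hσ hσu => (h₁.2.2 σ hσ hσu).1) a ha haβ
    have k2 := hfixA γQ₁ (fun σ hσ hσu => (h₁.2.2 σ hσ hσu).2) a ha haβ
    have k3 := hfixA γP₂ (fun σ hσ hσu => (h₂.2.2 σ hσ hσu).1) a ha haβ
    have k4 := hfixA γQ₂ (fun σ hσ hσu => (h₂.2.2 σ hσ hσu).2) a ha haβ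
    rw [hΓ]
    simp only [map_mul, map_inv₀, k1, k2, k3, k4]
  -- the phase of `Γ`
  have hrelK := congrArg (fun t : A => (t : Kbar)) hrel
  simp only [map_mul] at hrelK
  push_cast at hrelK
  simp only [h56p_coe_theta] at hrelK
  have hphase : (b Γ * Γ⁻¹ - 1) * δ⁻¹ = (μ : Kbar) := by
    have hb1 : b (γQ₁ : Kbar) ≠ 0 := (map_ne_zero b).mpr hQ₁
    have hb2 : b (γP₂ : Kbar) ≠ 0 := (map_ne_zero b).mpr hP₂
    have hδA' : ((δA : A) : Kbar) = δ := rfl
    rw [hδA'] at hrelK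
    rw [hΓ]
    simp only [map_mul, map_inv₀]
    field_simp
    linear_combination hrelK
  obtain ⟨-, hiff⟩ := hbreak.2.2.2 Γ hΓ0 hΓfix
  have hμK : (μ : Kbar) ∈ A.nonunits := (GG.mem_maximalIdeal_iff A μ).mp hμ
  have hval := hiff.mp (by rw [hphase]; exact hμK)
  exact h50t_slope_const_of_val hp hM hA hu0 h₁.2.1 h₂.2.1 hval

end Fermat.Agent.P7
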