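import Fermat.Agent.S35.H62TorLocal

/-!
# Wave 7 (S40), block (5b), leaf NODE-THICK (helper20): the nodes have thickness `ℓ`

The landed refined node datum `S35.TorNodeAt` (`x y = a c`, `a : A` nonzero) forgets the constant
`a`.  The slope argument of block (5b) (`j(u) = m v(a) + p v(γ)`, read modulo `p v(Fix I₁)`)
needs `a = ℓ`: at the good levels every crossing point of the two components of the special
fibre of the finite chart of level `M ℓ` has the local equation `x y = ℓ c`, `c` a unit at the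
point.

* `H20nTorNodeAtP` : the node datum with `a = ℓ`;
* `h20n_torNodeAt_of` : it implies `S35.TorNodeAt`;
* `h20n_torNodeP` : the node datum with `a = ℓ` at the crossing points (good levels);
* `h20n_torLocalP` : every closed point of the special fibre of the finite chart has a refined
  smooth datum or a node datum with `a = ℓ` (the thick form of `S35.IfaceTorLocal`);
* `h20n_torNodeP_of_torNodeAt` : a point with a landed node datum `TorNodeAt` has a node datum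
  with `a = ℓ` (a closed point cannot be smooth and a node: it lies on both components).
-/

set_option autoImplicit false
set_option linter.unusedSectionVars false
set_option linter.style.haveILetI false

open AlgebraicCurve ModularCurve WithZero IsLocalRing Polynomial

noncomputable section

namespace Fermat.Agent.P7

open Fermat.Agent.S37 Fermat.Agent.Red Fermat.Agent.Red.GG Fermat.Agent.Red.GV
  Fermat.Agent.Red.GV.Soft Fermat.Agent.Red.Kron Fermat.Agent.Red.KR Fermat.Agent.Red.ModelO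
  Fermat.Agent.LGC Fermat.Agent.S35

variable (A : ValuationSubring Kbar) (M : ℕ) {ℓ : ℕ} [NeZero M] [NeZero ℓ]

/-- the refined node datum at `𝔫` with the constant `a = ℓ` : `𝔫` lies on both components,
`x y = ℓ c`, `𝔫 = (x, y) + 𝔪_A B` locally, `x` is a unit of `W∞` and `y` is a unit of `W₀`. -/
def H20nTorNodeAtP (hℓ : ℓ.Prime) (hM : ¬ ℓ ∣ M) (hA : A.LiesOverPrime ℓ)
    (t : FF (M * ℓ)) (𝔫 : Ideal (chart (M * ℓ) A t)) : Prop :=
  TorOnBoth A M ℓ hℓ hM hA t 𝔫 ∧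
  ∃ x ∈ 𝔫, ∃ y ∈ 𝔫, ∃ c, c ∉ 𝔫 ∧
    x * y = algebraMap A (chart (M * ℓ) A t) ((ℓ : ℕ) : A) * c ∧
    (∀ z ∈ 𝔫, ∃ s, s ∉ 𝔫 ∧ s * z ∈ Ideal.span {x, y} ⊔ mExt A M ℓ t) ∧
    ((x : FF (M * ℓ)))⁻¹ ∈ h85cWinf A M ℓ hℓ hA ∧
    ((y : FF (M * ℓ)))⁻¹ ∈ h85cW0 A M ℓ hℓ hM hA

/-- `ℓ ≠ 0` in `A`. -/
theorem h20n_natCast_ne_zero (A : ValuationSubring Kbar) (ℓ : ℕ) [NeZero ℓ] :
    ((ℓ : ℕ) : A) ≠ 0 := by
  intro h0
  have h1 : (((ℓ : ℕ) : A) : Kbar) = 0 := by rw [h0]; rfl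
  have h2 : ((ℓ : ℕ) : Kbar) = 0 := by
    rw [← h1]; push_cast; rfl
  exact NeZero.ne ℓ (by exact_mod_cast h2)

/-- the thick node datum implies the landed node datum. -/
theorem h20n_torNodeAt_of (hℓ : ℓ.Prime) (hM : ¬ ℓ ∣ M) (hA : A.LiesOverPrime ℓ)
    (𝔫 : Ideal (chart (M * ℓ) A (jSS M ℓ)))
    (h : H20nTorNodeAtP A M hℓ hM hA (jSS M ℓ) 𝔫) :
    TorNodeAt A M ℓ hℓ hM hA (jSS M ℓ) 𝔫 := by
  obtain ⟨hboth, x, hx, y, hy, c, hc, hxy, hgen, hxW, hyW⟩ := h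
  exact ⟨hboth, x, hx, y, hy, c, hc, ((ℓ : ℕ) : A), h20n_natCast_ne_zero A ℓ, hxy, hgen,
    hxW, hyW⟩

/-- **NODE-THICK**: the node datum with `a = ℓ` at the crossing points, good levels. -/
theorem h20n_torNodeP (hℓ : ℓ.Prime) (hM : ¬ ℓ ∣ M) (haux : auxLevel ℓ ∣ M)
    (hA : A.LiesOverPrime ℓ)
    (𝔫 : Ideal (chart (M * ℓ) A (jSS M ℓ))) (h𝔫 : 𝔫.IsMaximal)
    (hPinf : h62i_Pinf A M hℓ hM hA ≤ 𝔫) (hP0 : h62i_P0 A M hℓ hM hA ≤ 𝔫) :
    H20nTorNodeAtP A M hℓ hM hA (jSS M ℓ) 𝔫 := by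
  obtain ⟨u, x, y, c', -, -, -, -, -, -, -, -, hD⟩ :=
    h62x_node A M hℓ hM haux hA 𝔫 h𝔫 hPinf hP0
  have hxy : x * y = algebraMap A (chart (M * ℓ) A (jSS M ℓ)) ((ℓ : ℕ) : A) * c' := by
    rw [map_natCast]
    exact hD.hxy
  have hx : ((x : FF (M * ℓ)))⁻¹ ∈ h85cWinf A M ℓ hℓ hA :=
    (h85c_mem_Winf_iff A M ℓ hℓ hA _).mpr (h62i_inv_mem_soft A M hℓ hM hA x hD.hxPinf)
  have hy : ((y : FF (M * ℓ)))⁻¹ ∈ h85cW0 A M ℓ hℓ hM hA :=
    (h85c_mem_W0_iff A M ℓ hℓ hM hA _).mpr (h62x_inv_mem_W0 A M hℓ hM hA y hD.hyP0)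
  exact ⟨h62x_torOnBoth A M hℓ hM hA 𝔫 hPinf hP0, x, hP0 hD.hxP0, y, hPinf hD.hyPinf, c',
    hD.hc, hxy, hD.hgen, hx, hy⟩

/-- **TOR-LOCAL, thick form**: every closed point of the special fibre of the finite chart has a
refined smooth datum or a node datum with `a = ℓ`. -/
theorem h20n_torLocalP (hℓ : ℓ.Prime) (hM : ¬ ℓ ∣ M) (haux : auxLevel ℓ ∣ M)
    (hA : A.LiesOverPrime ℓ) (𝔫 : Ideal (chart (M * ℓ) A (jSS M ℓ))) (h𝔫 : 𝔫.IsMaximal)
    (hm : mExt A M ℓ (jSS M ℓ) ≤ 𝔫) :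
    TorSmoothAt A M ℓ (jSS M ℓ) 𝔫 ∨ H20nTorNodeAtP A M hℓ hM hA (jSS M ℓ) 𝔫 := by
  by_cases hP0 : h62i_P0 A M hℓ hM hA ≤ 𝔫
  · by_cases hPinf : h62i_Pinf A M hℓ hM hA ≤ 𝔫
    · exact Or.inr (h20n_torNodeP A M hℓ hM haux hA 𝔫 h𝔫 hPinf hP0)
    · exact Or.inl (h62x_torSmooth_zero A M hℓ hM haux hA 𝔫 h𝔫 hP0 hPinf)
  · exact Or.inl (h62x_torSmooth_inf A M hℓ hM haux hA 𝔫 h𝔫
      ((h62x_dichotomy A M hℓ hM hA 𝔫 h𝔫 hm).resolve_right hP0) hP0)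

/-- in a valuation subring, the inverse of a nonzero nonunit is not in the ring. -/
theorem h20n_inv_not_mem {F : Type*} [Field F] (R : ValuationSubring F) {x : F}
    (hx : x ∈ R.nonunits) (hx0 : x ≠ 0) : x⁻¹ ∉ R := by
  intro h
  have h1 : R.valuation x < 1 := (R.mem_nonunits_iff).1 hx
  have h2 : R.valuation x⁻¹ ≤ 1 := (R.valuation_le_one_iff _).2 h
  have hv0 : R.valuation x ≠ 0 := (R.valuation.ne_zero_iff).2 hx0
  rw [map_inv₀] at h2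
  have h3 : 1 < (R.valuation x)⁻¹ := (one_lt_inv₀ (zero_lt_iff.2 hv0)).2 h1
  exact absurd h2 (not_le.2 h3)

/-- a closed point lying on both components (`TorOnBoth`) contains `P∞` and `P₀`. -/
theorem h20n_le_of_onBoth (hℓ : ℓ.Prime) (hM : ¬ ℓ ∣ M) (hA : A.LiesOverPrime ℓ)
    (𝔫 : Ideal (chart (M * ℓ) A (jSS M ℓ)))
    (h : TorOnBoth A M ℓ hℓ hM hA (jSS M ℓ) 𝔫) :
    h62i_Pinf A M hℓ hM hA ≤ 𝔫 ∧ h62i_P0 A M hℓ hM hA ≤ 𝔫 := by
  constructor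
  · intro b hb
    by_cases hb0 : (b : FF (M * ℓ)) = 0
    · have : b = 0 := Subtype.ext hb0
      rw [this]; exact 𝔫.zero_mem
    · apply h.1 b
      rw [h62i_mem_Pinf] at hb
      exact h20n_inv_not_mem (softRing A (M * ℓ) hℓ hA) hb hb0
  · intro b hb
    by_cases hb0 : (b : FF (M * ℓ)) = 0
    · have : b = 0 := Subtype.ext hb0
      rw [this]; exact 𝔫.zero_mem
    · apply h.2 b
      rw [h62i_mem_P0] at hb
      intro hmem
      have hmem' : kFricke M ℓ hℓ hM ((b : FF (M * ℓ)))⁻¹ ∈ softRing A (M * ℓ) hℓ hA :=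
        (h85c_mem_W0_iff A M ℓ hℓ hM hA _).1 hmem
      rw [map_inv₀] at hmem'
      have hk0 : kFricke M ℓ hℓ hM (b : FF (M * ℓ)) ≠ 0 := by
        intro h0
        apply hb0
        have := congrArg (kFricke M ℓ hℓ hM).symm h0
        simpa using this
      exact h20n_inv_not_mem (softRing A (M * ℓ) hℓ hA) hb hk0 hmem'

/-- a point with a landed node datum has a node datum with `a = ℓ` (good levels). -/
theorem h20n_torNodeP_of_torNodeAt (hℓ : ℓ.Prime) (hM : ¬ ℓ ∣ M) (haux : auxLevel ℓ ∣ M)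
    (hA : A.LiesOverPrime ℓ)
    (𝔫 : Ideal (chart (M * ℓ) A (jSS M ℓ))) (h𝔫 : 𝔫.IsMaximal)
    (h : TorNodeAt A M ℓ hℓ hM hA (jSS M ℓ) 𝔫) :
    H20nTorNodeAtP A M hℓ hM hA (jSS M ℓ) 𝔫 := by
  obtain ⟨hPinf, hP0⟩ := h20n_le_of_onBoth A M hℓ hM hA 𝔫 h.1
  exact h20n_torNodeP A M hℓ hM haux hA 𝔫 h𝔫 hPinf hP0

end Fermat.Agent.P7
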