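import Mathlib

/-!
# Wave 7 (S40), block (5) TORIC, leaf SLOPE-ARITH (helper20): arithmetic of node slopes

`A` a valuation subring of a field `K`, `ϖ ∈ 𝔪_A` nonzero (in the application `ϖ = p`).
"Unit" means an element of `K` of valuation `1` (`h20vU A`).

* `h20v_zpow_unit` : `ϖ ^ n` is a unit only for `n = 0`.
* `h20v_jump_pow` : `J = ϖ ^ m * γ ^ p * u`, `γ ^ (p - 1) = ϖ ^ n * u'`  ⟹
  `J ^ (p - 1) = ϖ ^ ((p - 1) m + p n) * unit`.
* `h20v_slope_const` : two nodes of the same function: `m ≡ m' mod p`.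
* `h20v_slope_eq_neg` : `J ^ (p - 1) = ϖ ^ N * unit`  ⟹  `N ≡ - m mod p`.
* `h20v_slope_hecke` : `J_T = J ^ (l + 1) * unit`, `m_T ≡ c m mod p`, `p ∤ l + 1 - c`
  ⟹ `p ∣ m`.
-/

set_option autoImplicit false

namespace Fermat.Agent.P7

variable {K : Type*} [Field K]

/-- the elements of valuation `1` ("units of `A`" inside `K`). -/
def h20vU (A : ValuationSubring K) : Subgroup Kˣ where
  carrier := {u | A.valuation (u : K) = 1}
  one_mem' := by simp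
  mul_mem' := by
    intro a b ha hb
    have ha' : A.valuation (a : K) = 1 := ha
    have hb' : A.valuation (b : K) = 1 := hb
    show A.valuation ((a * b : Kˣ) : K) = 1
    rw [Units.val_mul, map_mul, ha', hb', one_mul]
  inv_mem' := by
    intro a ha
    have ha' : A.valuation (a : K) = 1 := ha
    show A.valuation ((a⁻¹ : Kˣ) : K) = 1
    rw [Units.val_inv_eq_inv_val, map_inv₀, ha', inv_one]

theorem h20v_mem_U (A : ValuationSubring K) (u : Kˣ) :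
    u ∈ h20vU A ↔ A.valuation (u : K) = 1 := Iff.rfl

/-- `ϖ ^ n` has valuation `1` only for `n = 0`. -/
theorem h20v_zpow_unit (A : ValuationSubring K) {ϖ : Kˣ} (hϖ : A.valuation (ϖ : K) < 1)
    {n : ℤ} (h : ϖ ^ n ∈ h20vU A) : n = 0 := by
  rw [h20v_mem_U, Units.val_zpow_eq_zpow_val, map_zpow₀] at h
  have hv0 : A.valuation (ϖ : K) ≠ 0 := (A.valuation.ne_zero_iff).2 ϖ.ne_zero
  by_contra hn
  rcases lt_or_gt_of_ne hn with hneg | hpos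
  · -- n < 0 : v ^ n > 1
    have h1 : 1 < (A.valuation (ϖ : K)) ^ n := by
      have : (A.valuation (ϖ : K)) ^ n = ((A.valuation (ϖ : K)) ^ (-n))⁻¹ := by
        rw [zpow_neg, inv_inv]
      rw [this]
      have h2 : (A.valuation (ϖ : K)) ^ (-n) < 1 := by
        obtain ⟨k, hk⟩ := Int.eq_ofNat_of_zero_le (by omega : (0 : ℤ) ≤ -n)
        rw [hk, zpow_natCast]
        exact pow_lt_one₀ zero_le hϖ (by omega)
      have h3 : (A.valuation (ϖ : K)) ^ (-n) ≠ 0 := zpow_ne_zero _ hv0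
      exact (one_lt_inv₀ (zero_lt_iff.2 h3)).2 h2
    rw [h] at h1
    exact lt_irrefl _ h1
  · have h2 : (A.valuation (ϖ : K)) ^ n < 1 := by
      obtain ⟨k, hk⟩ := Int.eq_ofNat_of_zero_le (by omega : (0 : ℤ) ≤ n)
      rw [hk, zpow_natCast]
      exact pow_lt_one₀ zero_le hϖ (by omega)
    rw [h] at h2
    exact lt_irrefl _ h2

/-- `ϖ ^ a * u = ϖ ^ b * u'` with units `u, u'` forces `a = b`. -/
theorem h20v_zpow_eq (A : ValuationSubring K) {ϖ : Kˣ} (hϖ : A.valuation (ϖ : K) < 1)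
    {a b : ℤ} {u u' : Kˣ} (hu : u ∈ h20vU A) (hu' : u' ∈ h20vU A)
    (h : ϖ ^ a * u = ϖ ^ b * u') : a = b := by
  have h0 : ϖ ^ a = ϖ ^ b * u' * u⁻¹ := by rw [← h, mul_inv_cancel_right]
  have h1 : ϖ ^ (a - b) = u' * u⁻¹ := by
    rw [zpow_sub, h0, mul_assoc (ϖ ^ b), mul_comm (ϖ ^ b),
      mul_inv_cancel_right]
  have h2 : ϖ ^ (a - b) ∈ h20vU A := by
    rw [h1]; exact (h20vU A).mul_mem hu' ((h20vU A).inv_mem hu)
  have := h20v_zpow_unit A hϖ h2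
  omega

/-- jump formula to the power `p - 1`. -/
theorem h20v_jump_pow (A : ValuationSubring K) {ϖ J γ u u' : Kˣ} {p : ℕ} (hp : 0 < p)
    {m n : ℤ} (hu : u ∈ h20vU A) (hu' : u' ∈ h20vU A)
    (hJ : J = ϖ ^ m * γ ^ p * u) (hγ : γ ^ (p - 1) = ϖ ^ n * u') :
    ∃ w ∈ h20vU A, J ^ (p - 1) = ϖ ^ (((p : ℤ) - 1) * m + p * n) * w := by
  refine ⟨u ^ (p - 1) * u' ^ p, (h20vU A).mul_mem ((h20vU A).pow_mem hu _)
    ((h20vU A).pow_mem hu' _), ?_⟩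
  have h1 : (γ ^ p) ^ (p - 1) = (ϖ ^ n * u') ^ p := by
    rw [← hγ, ← pow_mul, ← pow_mul, mul_comm]
  have hcast : ((p - 1 : ℕ) : ℤ) = (p : ℤ) - 1 := by
    rw [Nat.cast_sub hp]; simp
  rw [hJ, mul_pow, mul_pow, h1, mul_pow, zpow_add, zpow_mul, zpow_mul, ← hcast, zpow_natCast,
    zpow_natCast]
  have h2 : (ϖ ^ (p - 1)) ^ m = (ϖ ^ m) ^ (p - 1) := by
    rw [← zpow_natCast, ← zpow_mul, mul_comm, zpow_mul, zpow_natCast]
  have h3 : (ϖ ^ p) ^ n = (ϖ ^ n) ^ p := by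
    rw [← zpow_natCast, ← zpow_mul, mul_comm, zpow_mul, zpow_natCast]
  rw [h2, h3]
  ac_rfl

/-- **slopes are constant modulo `p`**: two normal forms of the same jump `J`. -/
theorem h20v_slope_const (A : ValuationSubring K) {ϖ : Kˣ} (hϖ : A.valuation (ϖ : K) < 1)
    {J γ γ' u u' w w' : Kˣ} {p : ℕ} (hp : 0 < p) {m m' n n' : ℤ}
    (hu : u ∈ h20vU A) (hu' : u' ∈ h20vU A) (hw : w ∈ h20vU A) (hw' : w' ∈ h20vU A)
    (hJ : J = ϖ ^ m * γ ^ p * u) (hγ : γ ^ (p - 1) = ϖ ^ n * w)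
    (hJ' : J = ϖ ^ m' * γ' ^ p * u') (hγ' : γ' ^ (p - 1) = ϖ ^ n' * w') :
    (p : ℤ) ∣ m - m' := by
  obtain ⟨z, hz, h1⟩ := h20v_jump_pow A hp hu hw hJ hγ
  obtain ⟨z', hz', h2⟩ := h20v_jump_pow A hp hu' hw' hJ' hγ'
  rw [h1] at h2
  have h3 := h20v_zpow_eq A hϖ hz hz' h2
  have h4 : m - m' = (p : ℤ) * (m - m' + n - n') := by linarith
  exact ⟨_, h4⟩

/-- the slope is `-N` modulo `p`, where `J ^ (p - 1) = ϖ ^ N * unit`. -/
theorem h20v_slope_eq_neg (A : ValuationSubring K) {ϖ : Kˣ} (hϖ : A.valuation (ϖ : K) < 1)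
    {J γ u w z : Kˣ} {p : ℕ} (hp : 0 < p) {m n N : ℤ}
    (hu : u ∈ h20vU A) (hw : w ∈ h20vU A) (hz : z ∈ h20vU A)
    (hJ : J = ϖ ^ m * γ ^ p * u) (hγ : γ ^ (p - 1) = ϖ ^ n * w)
    (hN : J ^ (p - 1) = ϖ ^ N * z) : (p : ℤ) ∣ N + m := by
  obtain ⟨z', hz', h1⟩ := h20v_jump_pow A hp hu hw hJ hγ
  rw [h1] at hN
  have h3 := h20v_zpow_eq A hϖ hz' hz hN
  exact ⟨m + n, by linarith⟩

/-- **Hecke step**: `J_T = J ^ (l + 1) * unit` (both Gauss valuations are multiplied by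
`l + 1`), slopes `m_T ≡ c m` modulo `p` (eigenclass), `p ∤ l + 1 - c`: the slope `m` is
divisible by `p`. -/
theorem h20v_slope_hecke (A : ValuationSubring K) {ϖ : Kˣ} (hϖ : A.valuation (ϖ : K) < 1)
    {J JT γ γT u uT w wT y : Kˣ} {p : ℕ} (hp : p.Prime) {l : ℕ} {c m mT n nT : ℤ}
    (hu : u ∈ h20vU A) (hw : w ∈ h20vU A) (huT : uT ∈ h20vU A) (hwT : wT ∈ h20vU A)
    (hy : y ∈ h20vU A)
    (hJ : J = ϖ ^ m * γ ^ p * u) (hγ : γ ^ (p - 1) = ϖ ^ n * w)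
    (hJT : JT = ϖ ^ mT * γT ^ p * uT) (hγT : γT ^ (p - 1) = ϖ ^ nT * wT)
    (hT : JT = J ^ (l + 1) * y) (hmT : (p : ℤ) ∣ mT - c * m)
    (hc : ¬ (p : ℤ) ∣ (l : ℤ) + 1 - c) : (p : ℤ) ∣ m := by
  obtain ⟨z, hz, h1⟩ := h20v_jump_pow A hp.pos hu hw hJ hγ
  obtain ⟨zT, hzT, h2⟩ := h20v_jump_pow A hp.pos huT hwT hJT hγT
  have h3 : JT ^ (p - 1) = ϖ ^ (((l : ℤ) + 1) * (((p : ℤ) - 1) * m + p * n)) *
      (z ^ (l + 1) * y ^ (p - 1)) := by
    rw [hT, mul_pow, ← pow_mul, mul_comm (l + 1) (p - 1), pow_mul, h1, mul_pow]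
    have : (ϖ ^ (((p : ℤ) - 1) * m + p * n)) ^ (l + 1) =
        ϖ ^ (((l : ℤ) + 1) * (((p : ℤ) - 1) * m + p * n)) := by
      rw [← zpow_natCast, ← zpow_mul, mul_comm]
      push_cast
      rfl
    rw [this, mul_assoc]
  rw [h2] at h3
  have h4 := h20v_zpow_eq A hϖ hzT ((h20vU A).mul_mem ((h20vU A).pow_mem hz _)
    ((h20vU A).pow_mem hy _)) h3
  obtain ⟨k, hk⟩ := hmT
  -- (p-1) mT + p nT = (l+1) ((p-1) m + p n), mT = c m + p k
  have h5 : ((l : ℤ) + 1 - c) * m = (p : ℤ) * (((l : ℤ) + 1) * (m + n) - mT - nT + k - c * m + c * m) -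
      (p : ℤ) * 0 + ((p : ℤ) * k - (mT - c * m)) := by
    have hk' : mT = c * m + p * k := by linarith
    rw [hk']
    rw [hk'] at h4
    linarith
  have h6 : (p : ℤ) ∣ ((l : ℤ) + 1 - c) * m := by
    rw [h5, hk]
    exact ⟨((l : ℤ) + 1) * (m + n) - mT - nT + k - c * m + c * m, by ring⟩
  have hpp : Prime (p : ℤ) := Nat.prime_iff_prime_int.1 hp
  rcases hpp.dvd_or_dvd h6 with h | h
  · exact absurd h hc
  · exact h

end Fermat.Agent.P7
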