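import Mathlib

/-!
# Wave 7 (S40), row VAL-I1, abstract part (helper23): Lagrange resolvents

`K / F` fields, `ζ ∈ K` a primitive `p`-th root of unity (`p` prime, invertible in `K`),
`b ∈ Aut(K / F)` with `b ζ = ζ`, and `x ∈ K` with `b ^ p x = x`.

* `h23vRes ζ b p x j = p⁻¹ ∑_{i < p} ζ ^ (- i j) b ^ i x` : the `j`-th resolvent of `x`;
* `h23v_res_eigen` : `b (R_j) = ζ ^ j R_j`;
* `h23v_res_sum` : `∑_{j < p} R_j = x`;
* `h23v_res_fixed` : an automorphism fixing `ζ` and all `b ^ i x` fixes `R_j`.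
-/

set_option autoImplicit false

namespace Fermat.Agent.P7

variable {F K : Type*} [Field F] [Field K] [Algebra F K]

/-- the `j`-th Lagrange resolvent of `x`. -/
noncomputable def h23vRes (ζ : K) (b : K ≃ₐ[F] K) (p : ℕ) (x : K) (j : ℕ) : K :=
  (p : K)⁻¹ * ∑ i ∈ Finset.range p, (ζ⁻¹) ^ (i * j) * (b ^ i) x

theorem h23v_res_eigen {ζ : K} {p : ℕ} (hζ : ζ ^ p = 1) (hζ0 : ζ ≠ 0) {b : K ≃ₐ[F] K}
    (hbζ : b ζ = ζ) {x : K} (hbx : (b ^ p) x = x) (j : ℕ) :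
    b (h23vRes ζ b p x j) = ζ ^ j * h23vRes ζ b p x j := by
  unfold h23vRes
  set f : ℕ → K := fun i => ζ ^ j * ((ζ⁻¹) ^ (i * j) * (b ^ i) x) with hf
  have h1 : ∀ i, b ((ζ⁻¹) ^ (i * j) * (b ^ i) x) = f (i + 1) := by
    intro i
    have e1 : ζ ^ j * (ζ⁻¹) ^ ((i + 1) * j) = (ζ⁻¹) ^ (i * j) := by
      rw [add_mul, one_mul, pow_add, mul_comm ((ζ⁻¹) ^ (i * j)), ← mul_assoc, ← mul_pow,
        mul_inv_cancel₀ hζ0, one_pow, one_mul]
    show _ = ζ ^ j * ((ζ⁻¹) ^ ((i + 1) * j) * (b ^ (i + 1)) x)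
    rw [map_mul, map_pow, map_inv₀, hbζ, pow_succ' b i, AlgEquiv.mul_apply, ← mul_assoc, e1]
  have h2 : f p = f 0 := by
    show ζ ^ j * ((ζ⁻¹) ^ (p * j) * (b ^ p) x) = ζ ^ j * ((ζ⁻¹) ^ (0 * j) * (b ^ 0) x)
    rw [hbx, zero_mul, pow_zero, pow_zero, AlgEquiv.one_apply, pow_mul, inv_pow, hζ, inv_one,
      one_pow]
  have h3 := Finset.sum_range_succ f p
  have h4 := Finset.sum_range_succ' f p
  rw [h3, h2] at h4
  have h5 : ∑ i ∈ Finset.range p, f i = ∑ i ∈ Finset.range p, f (i + 1) := add_right_cancel h4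
  calc b ((p : K)⁻¹ * ∑ i ∈ Finset.range p, (ζ⁻¹) ^ (i * j) * (b ^ i) x)
      = (p : K)⁻¹ * ∑ i ∈ Finset.range p, b ((ζ⁻¹) ^ (i * j) * (b ^ i) x) := by
        rw [map_mul, map_inv₀, map_natCast, map_sum]
    _ = (p : K)⁻¹ * ∑ i ∈ Finset.range p, f (i + 1) := by
        rw [Finset.sum_congr rfl fun i _ => h1 i]
    _ = (p : K)⁻¹ * ∑ i ∈ Finset.range p, f i := by rw [h5]
    _ = ζ ^ j * ((p : K)⁻¹ * ∑ i ∈ Finset.range p, (ζ⁻¹) ^ (i * j) * (b ^ i) x) := by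
        have h6 : ∑ i ∈ Finset.range p, f i =
            ζ ^ j * ∑ i ∈ Finset.range p, (ζ⁻¹) ^ (i * j) * (b ^ i) x := by
          rw [Finset.mul_sum]
        rw [h6]
        ring

theorem h23v_res_sum {ζ : K} {p : ℕ} (hp : p.Prime) (hζ : IsPrimitiveRoot ζ p)
    (hpK : (p : K) ≠ 0) (b : K ≃ₐ[F] K) (x : K) :
    ∑ j ∈ Finset.range p, h23vRes ζ b p x j = x := by
  unfold h23vRes
  rw [← Finset.mul_sum, Finset.sum_comm]
  have h1 : ∀ i ∈ Finset.range p, ∑ j ∈ Finset.range p, (ζ⁻¹) ^ (i * j) * (b ^ i) x =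
      if i = 0 then (p : K) * x else 0 := by
    intro i hi
    rw [← Finset.sum_mul]
    by_cases h0 : i = 0
    · rw [if_pos h0, h0]
      simp
    · rw [if_neg h0]
      have hi' : i < p := Finset.mem_range.mp hi
      have hcop : i.Coprime p := by
        rw [Nat.coprime_comm, hp.coprime_iff_not_dvd]
        exact Nat.not_dvd_of_pos_of_lt (Nat.pos_of_ne_zero h0) hi'
      have hprim : IsPrimitiveRoot ((ζ⁻¹) ^ i) p := (hζ.inv).pow_of_coprime i hcop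
      have h2 := hprim.geom_sum_eq_zero hp.one_lt
      have h3 : ∑ j ∈ Finset.range p, (ζ⁻¹) ^ (i * j) = 0 := by
        rw [← h2]
        exact Finset.sum_congr rfl fun j _ => by rw [pow_mul]
      rw [h3, zero_mul]
  rw [Finset.sum_congr rfl h1, Finset.sum_ite_eq' (Finset.range p) 0 (fun _ => (p : K) * x),
    if_pos (Finset.mem_range.mpr hp.pos), ← mul_assoc, inv_mul_cancel₀ hpK, one_mul]

theorem h23v_res_fixed {ζ : K} {p : ℕ} {b : K ≃ₐ[F] K} {x : K} (a : K ≃ₐ[F] K) (haζ : a ζ = ζ)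
    (hax : ∀ i, a ((b ^ i) x) = (b ^ i) x) (j : ℕ) :
    a (h23vRes ζ b p x j) = h23vRes ζ b p x j := by
  unfold h23vRes
  rw [map_mul, map_inv₀, map_natCast, map_sum]
  congr 1
  refine Finset.sum_congr rfl fun i _ => ?_
  rw [map_mul, map_pow, map_inv₀, haζ, hax]

end Fermat.Agent.P7
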