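import Fermat.Agent.P7.H23KumGlob
import Fermat.Agent.P7.H23ValRes

/-!
# Wave 7 (S40), row VAL-I1 (helper23): the value group of `Fix(I₁)` and of the almost
eigenvectors of `Fix(I₁)(β)`

GLOBAL frame: `A` a valuation subring of `ℚ̄` over the odd prime `p`,
`I₁ = h23vI1 p A = {a ∈ A.inertiaSubgroupIn ℚ | a = id on μ_p}`, `v = A.valuation`.

* `h23v_val`  : **(a)** `y ≠ 0` fixed by `I₁` ⟹ `v(y) ^ (p - 1) = v(p) ^ n` for some `n : ℤ`
  (`h23v_val_mem` : membership form, `y ^ (p - 1) / p ^ n` is a unit of `A`).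
* `h23v_resolvent` : **(b)** `β ≠ 0` with `β ^ p ∈ Fix(I₁)`, `x` fixed by
  `I_β = {a ∈ I₁ | a β = β}` ⟹ `x = ∑_{j < p} c_j β ^ j` with `c_j ∈ Fix(I₁)`
  (Lagrange resolvents; no Galois correspondence is used).
* `h23v_almost` : **(c)** `β` a unit of `A` with `β ^ p ∈ Fix(I₁)`, `b ∈ I₁` with `b β = ζ β`,
  `γ ≠ 0` fixed by `I_β` with `b γ = ζ ^ k γ (1 + ε)`, `ε ∈ p 𝔪_A` ⟹ there are `g ∈ Fix(I₁)`,
  `g ≠ 0`, and `δ ∈ 𝔪_A` with `g = γ / β ^ k · (1 + δ)`.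
* `h23v_val_almost` : hence `v(γ) ^ (p - 1) = v(p) ^ n` for some `n : ℤ`.
-/

set_option autoImplicit false
set_option linter.style.haveILetI false
set_option linter.unusedSectionVars false

open Fermat.Agent.PT.Loc Fermat.Agent.S56F Fermat.Agent.PT.Bridge

open scoped Pointwise

noncomputable section

namespace Fermat.Agent.P7

/-- `I₁(A)`: the elements of the inertia group at `A` which are trivial on `μ_p`. -/
def h23vI1 (p : ℕ) (A : ValuationSubring Qb) : Subgroup GQ where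
  carrier := {a | a ∈ A.inertiaSubgroupIn ℚ ∧ ∀ μ : Qb, μ ^ p = 1 → a μ = μ}
  mul_mem' := by
    intro a b ha hb
    refine ⟨(A.inertiaSubgroupIn ℚ).mul_mem ha.1 hb.1, fun μ hμ => ?_⟩
    rw [AlgEquiv.mul_apply, hb.2 μ hμ, ha.2 μ hμ]
  one_mem' := ⟨(A.inertiaSubgroupIn ℚ).one_mem, fun μ _ => AlgEquiv.one_apply μ⟩
  inv_mem' := by
    intro a ha
    refine ⟨(A.inertiaSubgroupIn ℚ).inv_mem ha.1, fun μ hμ => ?_⟩
    calc a⁻¹ μ = a⁻¹ (a μ) := by rw [ha.2 μ hμ]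
      _ = μ := by rw [← AlgEquiv.mul_apply, inv_mul_cancel, AlgEquiv.one_apply]

theorem h23v_mem_I1 {p : ℕ} {A : ValuationSubring Qb} {a : GQ} :
    a ∈ h23vI1 p A ↔ a ∈ A.inertiaSubgroupIn ℚ ∧ ∀ μ : Qb, μ ^ p = 1 → a μ = μ := Iff.rfl

/-- the elements of the inertia group preserve the maximal ideal. -/
theorem h23v_map_nonunits {A : ValuationSubring Qb} {a : GQ} (ha : a ∈ A.inertiaSubgroupIn ℚ)
    {x : Qb} (hx : x ∈ A.nonunits) : a x ∈ A.nonunits := by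
  have h1 := ((Fermat.Agent.Bridge.memInertia A a).mp ha).2 x
    (Fermat.Agent.Bridge.mem_of_mem_nonunits A hx)
  have h2 : a x = (a x - x) + x := by ring
  rw [h2]
  exact Fermat.Agent.Bridge.add_mem_nonunits A h1 hx

/-- a unit of `A` has valuation one. -/
theorem h23v_val_eq_one {A : ValuationSubring Qb} {x : Qb} (hx0 : x ≠ 0) (h1 : x ∈ A)
    (h2 : x⁻¹ ∈ A) : A.valuation x = 1 := by
  have h3 : A.valuation x ≤ 1 := (A.valuation_le_one_iff x).mpr h1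
  have h4 : A.valuation x⁻¹ ≤ 1 := (A.valuation_le_one_iff x⁻¹).mpr h2
  rw [map_inv₀] at h4
  have h5 : A.valuation x ≠ 0 := (Valuation.ne_zero_iff _).mpr hx0
  exact le_antisymm h3 ((inv_le_one₀ (zero_lt_iff.mpr h5)).mp h4)

/-- `1 + δ` is a unit of `A` for `δ ∈ 𝔪_A`. -/
theorem h23v_val_one_add {A : ValuationSubring Qb} {δ : Qb} (hδ : δ ∈ A.nonunits) :
    A.valuation (1 + δ) = 1 := by
  rw [ValuationSubring.mem_nonunits_iff] at hδ
  have h1 : A.valuation (1 + δ) = max (A.valuation 1) (A.valuation δ) :=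
    Valuation.map_add_of_distinct_val _ (by rw [map_one]; exact hδ.ne')
  rw [h1, map_one]
  exact max_eq_left hδ.le

variable {p : ℕ} [Fact p.Prime]

/-! ## (a) the value group of `Fix(I₁)` -/

/-- **(a), membership form**: `y ^ (p - 1) / p ^ n` is a unit of `A`. -/
theorem h23v_val_mem (hp2 : p ≠ 2) (A : ValuationSubring Qb) (hA : A.LiesOverPrime p)
    {y : Qb} (hy0 : y ≠ 0) (hy : ∀ a ∈ h23vI1 p A, a y = y) :
    ∃ n : ℤ, y ^ (p - 1) * ((p : Qb) ^ n)⁻¹ ∈ A ∧ (p : Qb) ^ n * (y ^ (p - 1))⁻¹ ∈ A := by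
  have hp : p.Prime := Fact.out
  obtain ⟨g, hg⟩ := h23b_exists_smul_padicPlace p hA
  subst hg
  have hy0' : padicEmbedding p (g y) ≠ 0 := by
    intro h0
    exact hy0 (h23k_inj (p := p) g (by rw [h0, map_zero, map_zero]))
  have hyfix : ∀ h : Gq p, h34k_I1 p h →
      h (padicEmbedding p (g y)) = padicEmbedding p (g y) := by
    intro h hh
    rw [← h23k_transport,
      hy _ ⟨h23k_conj_mem g hh.1, fun μ hμ => h23k_conj_fix_mu g hh.2 hμ⟩]
  obtain ⟨n, hn⟩ := h23k_norm_of_fixed_I1 hp2 hy0' hyfix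
  have hpn : ‖padicEmbedding p (g ((p : Qb) ^ n))‖ = ((p : ℝ)⁻¹) ^ n := by
    rw [map_zpow₀, map_zpow₀, map_natCast, map_natCast, norm_zpow, h96b_norm_q p]
  have hyn : ‖padicEmbedding p (g (y ^ (p - 1)))‖ = ((p : ℝ)⁻¹) ^ n := by
    rw [map_pow, map_pow, norm_pow, hn]
  have hne : ((p : ℝ)⁻¹) ^ n ≠ 0 :=
    zpow_ne_zero n (inv_ne_zero (by exact_mod_cast hp.ne_zero))
  refine ⟨n, ?_, ?_⟩
  · rw [h23k_mem_smul, map_mul, map_mul, norm_mul, map_inv₀, map_inv₀, norm_inv, hpn, hyn,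
      mul_inv_cancel₀ hne]
  · rw [h23k_mem_smul, map_mul, map_mul, norm_mul, map_inv₀, map_inv₀, norm_inv, hpn, hyn,
      mul_inv_cancel₀ hne]

/-- **(a)**: the value group of `Fix(I₁)`: `(p - 1) v(y) ∈ ℤ v(p)`. -/
theorem h23v_val (hp2 : p ≠ 2) (A : ValuationSubring Qb) (hA : A.LiesOverPrime p)
    {y : Qb} (hy0 : y ≠ 0) (hy : ∀ a ∈ h23vI1 p A, a y = y) :
    ∃ n : ℤ, A.valuation y ^ (p - 1) = A.valuation (p : Qb) ^ n := by
  have hp : p.Prime := Fact.out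
  obtain ⟨n, h1, h2⟩ := h23v_val_mem hp2 A hA hy0 hy
  refine ⟨n, ?_⟩
  have hp0 : ((p : Qb) ^ n) ≠ 0 := zpow_ne_zero n (by exact_mod_cast hp.ne_zero)
  have hx0 : y ^ (p - 1) * ((p : Qb) ^ n)⁻¹ ≠ 0 :=
    mul_ne_zero (pow_ne_zero _ hy0) (inv_ne_zero hp0)
  have h3 : (y ^ (p - 1) * ((p : Qb) ^ n)⁻¹)⁻¹ = (p : Qb) ^ n * (y ^ (p - 1))⁻¹ := by
    rw [mul_inv, inv_inv, mul_comm]
  have h4 := h23v_val_eq_one hx0 h1 (by rw [h3]; exact h2)
  rw [map_mul, map_inv₀, map_pow, map_zpow₀] at h4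
  have h5 : A.valuation (p : Qb) ^ n ≠ 0 := by
    rw [← map_zpow₀]
    exact (Valuation.ne_zero_iff _).mpr hp0
  exact (mul_inv_eq_one₀ h5).mp h4

/-! ## (b) resolvents -/

/-- the Kummer exponent in `ℚ̄`. -/
theorem h23v_exists_exp {ζ : Qb} (hζ : IsPrimitiveRoot ζ p) {β : Qb} (hβ0 : β ≠ 0) {c : GQ}
    (hc : c (β ^ p) = β ^ p) : ∃ k : ℕ, c β = ζ ^ k * β := by
  have hp : p.Prime := Fact.out
  haveI : NeZero p := ⟨hp.ne_zero⟩
  have h1 : (c β / β) ^ p = 1 := by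
    rw [div_pow, ← map_pow, hc, div_self (pow_ne_zero _ hβ0)]
  obtain ⟨i, -, h2⟩ := hζ.eq_pow_of_pow_eq_one h1
  exact ⟨i, by rw [h2, div_mul_cancel₀ _ hβ0]⟩

/-- powers of `b` on `β`. -/
theorem h23v_pow_apply {ζ β : Qb} {b : GQ} (hbζ : b ζ = ζ) (hbβ : b β = ζ * β) (k : ℕ) :
    (b ^ k) β = ζ ^ k * β := by
  induction k with
  | zero => rw [pow_zero, AlgEquiv.one_apply, pow_zero, one_mul]
  | succ k ih =>
    rw [pow_succ', AlgEquiv.mul_apply, ih, map_mul, map_pow, hbζ, hbβ, pow_succ]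
    ring

/-- inverse powers of `b` on `β`. -/
theorem h23v_inv_pow_apply {ζ β : Qb} {b : GQ} (hbζ : b ζ = ζ)
    (hbβ : b β = ζ * β) (k : ℕ) : (b ^ k)⁻¹ (ζ ^ k * β) = β := by
  rw [← h23v_pow_apply hbζ hbβ k, ← AlgEquiv.mul_apply, inv_mul_cancel, AlgEquiv.one_apply]

/-- the resolvents of an `I_β`-fixed element, divided by `β ^ j`, are fixed by `I₁`. -/
theorem h23v_res_fixed_I1 (A : ValuationSubring Qb) {ζ : Qb} (hζ : IsPrimitiveRoot ζ p)
    {β : Qb} (hβ0 : β ≠ 0) (hβ : ∀ a ∈ h23vI1 p A, a (β ^ p) = β ^ p)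
    {b : GQ} (hb : b ∈ h23vI1 p A) (hbβ : b β = ζ * β)
    {x : Qb} (hx : ∀ a ∈ h23vI1 p A, a β = β → a x = x) (j : ℕ) :
    ∀ s ∈ h23vI1 p A, s (h23vRes ζ b p x j * (β ^ j)⁻¹) = h23vRes ζ b p x j * (β ^ j)⁻¹ := by
  have hp : p.Prime := Fact.out
  have hζ0 : ζ ≠ 0 := hζ.ne_zero hp.ne_zero
  have hbζ : b ζ = ζ := hb.2 ζ hζ.pow_eq_one
  have hbp : (b ^ p) x = x := by
    refine hx _ ((h23vI1 p A).pow_mem hb p) ?_
    rw [h23v_pow_apply hbζ hbβ, hζ.pow_eq_one, one_mul]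
  -- elements of `I_β` fix all `b ^ i x`
  have hconj : ∀ a ∈ h23vI1 p A, a β = β → ∀ i, a ((b ^ i) x) = (b ^ i) x := by
    intro a ha haβ i
    have h1 : (b ^ i)⁻¹ * a * b ^ i ∈ h23vI1 p A :=
      (h23vI1 p A).mul_mem ((h23vI1 p A).mul_mem
        ((h23vI1 p A).inv_mem ((h23vI1 p A).pow_mem hb i)) ha) ((h23vI1 p A).pow_mem hb i)
    have h2 : ((b ^ i)⁻¹ * a * b ^ i) β = β := by
      rw [AlgEquiv.mul_apply, AlgEquiv.mul_apply, h23v_pow_apply hbζ hbβ, map_mul, map_pow,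
        ha.2 ζ hζ.pow_eq_one, haβ, h23v_inv_pow_apply hbζ hbβ]
    have h3 := hx _ h1 h2
    rw [AlgEquiv.mul_apply, AlgEquiv.mul_apply] at h3
    have h4 := congrArg (b ^ i) h3
    rwa [← AlgEquiv.mul_apply (b ^ i) (b ^ i)⁻¹, mul_inv_cancel, AlgEquiv.one_apply] at h4
  -- powers of `b` on the resolvents
  have hRpow : ∀ k : ℕ, (b ^ k) (h23vRes ζ b p x j) = ζ ^ (j * k) * h23vRes ζ b p x j := by
    intro k
    induction k with
    | zero => rw [pow_zero, AlgEquiv.one_apply, mul_zero, pow_zero, one_mul]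
    | succ k ih =>
      rw [pow_succ', AlgEquiv.mul_apply, ih, map_mul, map_pow, hbζ,
        h23v_res_eigen hζ.pow_eq_one hζ0 hbζ hbp j, ← mul_assoc, ← pow_add, mul_add, mul_one]
  intro s hs
  obtain ⟨k, hk⟩ := h23v_exists_exp hζ hβ0 (hβ s hs)
  -- `s = b ^ k * a` with `a ∈ I_β`
  set a : GQ := (b ^ k)⁻¹ * s with ha
  have haI : a ∈ h23vI1 p A :=
    (h23vI1 p A).mul_mem ((h23vI1 p A).inv_mem ((h23vI1 p A).pow_mem hb k)) hs
  have haβ : a β = β := by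
    rw [ha, AlgEquiv.mul_apply, hk, h23v_inv_pow_apply hbζ hbβ]
  have hs' : s = b ^ k * a := by rw [ha, mul_inv_cancel_left]
  have haR : a (h23vRes ζ b p x j) = h23vRes ζ b p x j :=
    h23v_res_fixed a (haI.2 ζ hζ.pow_eq_one) (hconj a haI haβ) j
  have hsR : s (h23vRes ζ b p x j) = ζ ^ (j * k) * h23vRes ζ b p x j := by
    rw [hs', AlgEquiv.mul_apply, haR, hRpow]
  rw [map_mul, map_inv₀, map_pow, hsR, hk, mul_pow, ← pow_mul, mul_comm k j, mul_inv]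
  have hz : ζ ^ (j * k) ≠ 0 := pow_ne_zero _ hζ0
  field_simp

/-- **(b)**: `Fix(I_β) = ∑_{j < p} Fix(I₁) β ^ j`. -/
theorem h23v_resolvent (A : ValuationSubring Qb) {β : Qb} (hβ0 : β ≠ 0)
    (hβ : ∀ a ∈ h23vI1 p A, a (β ^ p) = β ^ p)
    {x : Qb} (hx : ∀ a ∈ h23vI1 p A, a β = β → a x = x) :
    ∃ c : ℕ → Qb, (∀ j, ∀ a ∈ h23vI1 p A, a (c j) = c j) ∧
      x = ∑ j ∈ Finset.range p, c j * β ^ j := by
  have hp : p.Prime := Fact.out
  by_cases hex : ∃ b ∈ h23vI1 p A, b β ≠ β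
  · obtain ⟨b, hb, hbβ⟩ := hex
    set ζ : Qb := b β / β with hζdef
    have hζp : ζ ^ p = 1 := by
      rw [hζdef, div_pow, ← map_pow, hβ b hb, div_self (pow_ne_zero _ hβ0)]
    have hζ1 : ζ ≠ 1 := by
      intro h
      apply hbβ
      rw [hζdef, div_eq_one_iff_eq hβ0] at h
      exact h
    have hζ : IsPrimitiveRoot ζ p := by
      have h1 : orderOf ζ = p := orderOf_eq_prime hζp hζ1
      have h2 := IsPrimitiveRoot.orderOf ζ
      rwa [h1] at h2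
    have hbβ' : b β = ζ * β := by rw [hζdef, div_mul_cancel₀ _ hβ0]
    refine ⟨fun j => h23vRes ζ b p x j * (β ^ j)⁻¹,
      fun j => h23v_res_fixed_I1 A hζ hβ0 hβ hb hbβ' hx j, ?_⟩
    have hpK : ((p : ℕ) : Qb) ≠ 0 := by exact_mod_cast hp.ne_zero
    conv_lhs => rw [← h23v_res_sum hp hζ hpK b x]
    refine Finset.sum_congr rfl fun j _ => ?_
    rw [mul_assoc, inv_mul_cancel₀ (pow_ne_zero _ hβ0), mul_one]
  · have hall : ∀ b ∈ h23vI1 p A, b β = β := by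
      intro b hb
      by_contra h
      exact hex ⟨b, hb, h⟩
    refine ⟨fun j => if j = 0 then x else 0, fun j a ha => ?_, ?_⟩
    · by_cases hj : j = 0
      · simp only [hj, if_true]
        exact hx a ha (hall a ha)
      · simp only [hj, if_false, map_zero]
    · rw [Finset.sum_eq_single 0]
      · simp
      · intro j _ hj
        simp [hj]
      · intro h
        exact absurd (Finset.mem_range.mpr hp.pos) h

/-! ## (c) almost eigenvectors -/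

/-- **(c)**: an almost eigenvector `γ` of `b` in `Fix(I_β)` is `g β ^ k (1 + δ)⁻¹` with
`g ∈ Fix(I₁)` and `δ ∈ 𝔪_A`.  The error `ε` must be deeper than `p`. -/
theorem h23v_almost (A : ValuationSubring Qb) (hA : A.LiesOverPrime p)
    {ζ : Qb} (hζ : IsPrimitiveRoot ζ p)
    {β : Qb} (hβ0 : β ≠ 0) (hβ : ∀ a ∈ h23vI1 p A, a (β ^ p) = β ^ p)
    {b : GQ} (hb : b ∈ h23vI1 p A) (hbβ : b β = ζ * β)
    {γ : Qb} (hγ0 : γ ≠ 0) (hγ : ∀ a ∈ h23vI1 p A, a β = β → a γ = γ)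
    (k : ℕ) {ε : Qb} (hε : ε * (p : Qb)⁻¹ ∈ A.nonunits)
    (hbγ : b γ = ζ ^ k * γ * (1 + ε)) :
    ∃ g : Qb, g ≠ 0 ∧ (∀ a ∈ h23vI1 p A, a g = g) ∧
      ∃ δ ∈ A.nonunits, g = γ * (β ^ k)⁻¹ * (1 + δ) := by
  have hp : p.Prime := Fact.out
  have hζ0 : ζ ≠ 0 := hζ.ne_zero hp.ne_zero
  have hbζ : b ζ = ζ := hb.2 ζ hζ.pow_eq_one
  have hpK : ((p : ℕ) : Qb) ≠ 0 := by exact_mod_cast hp.ne_zero
  have hpA : ((p : ℕ) : Qb) ∈ A := Fermat.Agent.Bridge.mem_of_mem_nonunits A hA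
  set γ' : Qb := γ * (β ^ k)⁻¹ with hγ'
  have hγ'0 : γ' ≠ 0 := mul_ne_zero hγ0 (inv_ne_zero (pow_ne_zero _ hβ0))
  have hγ'fix : ∀ a ∈ h23vI1 p A, a β = β → a γ' = γ' := by
    intro a ha haβ
    rw [hγ', map_mul, map_inv₀, map_pow, haβ, hγ a ha haβ]
  have hbγ' : b γ' = γ' * (1 + ε) := by
    rw [hγ', map_mul, map_inv₀, map_pow, hbβ, hbγ, mul_pow, mul_inv]
    have hz : ζ ^ k ≠ 0 := pow_ne_zero _ hζ0
    field_simp
  -- the iterates
  have hiter : ∀ i : ℕ, ∃ e : Qb, e * (p : Qb)⁻¹ ∈ A.nonunits ∧ (b ^ i) γ' = γ' * (1 + e) := by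
    intro i
    induction i with
    | zero =>
      refine ⟨0, ?_, by rw [pow_zero, AlgEquiv.one_apply, add_zero, mul_one]⟩
      rw [zero_mul]
      rw [ValuationSubring.mem_nonunits_iff, map_zero]
      exact zero_lt_one
    | succ i ih =>
      obtain ⟨e, he, hbe⟩ := ih
      have hbe' : b e * (p : Qb)⁻¹ ∈ A.nonunits := by
        have h1 := h23v_map_nonunits hb.1 he
        rwa [map_mul, map_inv₀, map_natCast] at h1
      have heA : ε ∈ A := by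
        have h1 : ε = ε * (p : Qb)⁻¹ * (p : Qb) := by
          rw [mul_assoc, inv_mul_cancel₀ hpK, mul_one]
        rw [h1]
        exact A.mul_mem _ _ (Fermat.Agent.Bridge.mem_of_mem_nonunits A hε) hpA
      refine ⟨ε + b e + ε * b e, ?_, ?_⟩
      · have h1 : (ε + b e + ε * b e) * (p : Qb)⁻¹ =
            ε * (p : Qb)⁻¹ + b e * (p : Qb)⁻¹ + ε * (b e * (p : Qb)⁻¹) := by ring
        rw [h1]
        exact Fermat.Agent.Bridge.add_mem_nonunits A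
          (Fermat.Agent.Bridge.add_mem_nonunits A hε hbe')
          (Fermat.Agent.Bridge.mul_mem_nonunits_right A heA hbe')
      · rw [pow_succ', AlgEquiv.mul_apply, hbe, map_mul, hbγ', map_add, map_one]
        ring
  choose e he hbe using hiter
  -- the average
  refine ⟨h23vRes ζ b p γ' 0, ?_, ?_, ∑ i ∈ Finset.range p, e i * (p : Qb)⁻¹, ?_, ?_⟩
  · -- nonzero, see below: `g = γ' (1 + δ)`
    have hδ : (∑ i ∈ Finset.range p, e i * (p : Qb)⁻¹) ∈ A.nonunits := by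
      rw [ValuationSubring.mem_nonunits_iff]
      refine Valuation.map_sum_lt _ (by simp) fun i _ => ?_
      exact (ValuationSubring.mem_nonunits_iff A).mp (he i)
    have h1 : h23vRes ζ b p γ' 0 = γ' * (1 + ∑ i ∈ Finset.range p, e i * (p : Qb)⁻¹) := by
      unfold h23vRes
      simp only [mul_zero, pow_zero, one_mul]
      rw [Finset.sum_congr rfl fun i _ => hbe i, ← Finset.mul_sum, Finset.sum_add_distrib,
        Finset.sum_const, Finset.card_range, nsmul_eq_mul, mul_one, ← Finset.sum_mul]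
      field_simp
    rw [h1]
    refine mul_ne_zero hγ'0 ?_
    intro h0
    have h2 := h23v_val_one_add hδ
    rw [h0, map_zero] at h2
    exact zero_ne_one h2
  · intro a ha
    have h1 := h23v_res_fixed_I1 A hζ hβ0 hβ hb hbβ hγ'fix 0 a ha
    rwa [pow_zero, inv_one, mul_one] at h1
  · rw [ValuationSubring.mem_nonunits_iff]
    refine Valuation.map_sum_lt _ (by simp) fun i _ => ?_
    exact (ValuationSubring.mem_nonunits_iff A).mp (he i)
  · unfold h23vRes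
    simp only [mul_zero, pow_zero, one_mul]
    rw [Finset.sum_congr rfl fun i _ => hbe i, ← Finset.mul_sum, Finset.sum_add_distrib,
      Finset.sum_const, Finset.card_range, nsmul_eq_mul, mul_one, ← Finset.sum_mul]
    field_simp

/-- **(c), valuation form**: an almost eigenvector of `b` in `Fix(I_β)` (`β` a unit of `A`) has
its valuation in the value group of `Fix(I₁)`. -/
theorem h23v_val_almost (hp2 : p ≠ 2) (A : ValuationSubring Qb) (hA : A.LiesOverPrime p)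
    {ζ : Qb} (hζ : IsPrimitiveRoot ζ p)
    {β : Qb} (hβ0 : β ≠ 0) (hβA : β ∈ A) (hβA' : β⁻¹ ∈ A)
    (hβ : ∀ a ∈ h23vI1 p A, a (β ^ p) = β ^ p)
    {b : GQ} (hb : b ∈ h23vI1 p A) (hbβ : b β = ζ * β)
    {γ : Qb} (hγ0 : γ ≠ 0) (hγ : ∀ a ∈ h23vI1 p A, a β = β → a γ = γ)
    (k : ℕ) {ε : Qb} (hε : ε * (p : Qb)⁻¹ ∈ A.nonunits)
    (hbγ : b γ = ζ ^ k * γ * (1 + ε)) :
    ∃ n : ℤ, A.valuation γ ^ (p - 1) = A.valuation (p : Qb) ^ n := by
  obtain ⟨g, hg0, hgfix, δ, hδ, hgδ⟩ := h23v_almost A hA hζ hβ0 hβ hb hbβ hγ0 hγ k hε hbγ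
  obtain ⟨n, hn⟩ := h23v_val hp2 A hA hg0 hgfix
  refine ⟨n, ?_⟩
  rw [← hn, hgδ, map_mul, map_mul, map_inv₀, map_pow, h23v_val_eq_one hβ0 hβA hβA',
    h23v_val_one_add hδ, one_pow, inv_one, mul_one, mul_one]

end Fermat.Agent.P7
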