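import Fermat.Agent.P7.H90SlopeLevel
import Fermat.Agent.P7.H20NodeThick
import Fermat.Agent.P7.H20Slope
import Fermat.Agent.P7.H23ValI1

/-!
# Wave 7 (S40), block (5) TORIC, row T-CONST-TAME (helper50): the slopes are constant modulo `p`

Setting: `p` an odd prime, `p ∤ M`, `A` a valuation subring of `ℚ̄` over `p`, `F = FF (M * p)`,
`W∞ = h85cWinf`, `W₀ = h85cW0` the two Gauss valuation rings, `ssV = W∞ ∩ W₀`, the finite chart
`jSS M p`.  A node `𝔫` of the special fibre is THICK: `x y = p c`, `c` a unit at `𝔫`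
(`H20nTorNodeAtP`, helper20).  The normal form of a function `u` at `𝔫` (helper90,
`h90s_node_normal_level`) is `u = κ x ^ m ε g₁ ^ r`, `g₁ = x ^ s ε∞ = α ε₀`, `ε∞ ∈ 1 + π W∞`,
`ε₀ ∈ 1 + π W₀`, `κ`, `α` nonzero constants; `m` is the **slope** and `α` the **node constant**
(`α = ∏ (- a_i) ^ (n_i)`, the `a_i` the `x`-coordinates of the zeros and poles of `u` in the
annulus of the node).

* `H50tNodeForm A M hp hM hA 𝔫 u r m α₀` : `u` has at `𝔫` a normal form of exponent `r` with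
  slope `m` and node constant `cst α₀` (only the part of the normal form used here is recorded,
  so that every normal form in the shape of helper90 gives one: `h50t_nodeForm_of_normal`).
* `h50t_jump` : **NODE-JUMP in constant form**: `u / κ` is a unit of `W∞` and
  `u / (κ p ^ m α₀ ^ r)` is a unit of `W₀`.
* `h50t_ratio` : two nodes of the same function: `p ^ (m - m') (α₀ / α₀') ^ r` is a unit of `A`.
* `h50t_slope_const_of_val` : if `v(α₀ / α₀') ^ (p - 1) ∈ v(p) ^ ℤ` (i.e.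
  `v(α₀ / α₀') ∈ v(Fix(I₁)ˣ)`: the conclusion of BREAK in the wild case, finding 1353 (4)), then
  `p ∣ m - m'`.
* `h50t_tame` : **the tame case**: node constants fixed by `I₁` (`h23vI1 p A`, helper23) give
  `p ∣ m - m'` (through the landed `h23v_val`).
* `h50t_tame_of_fixed` : the same with the node constants fixed by `I_β`, `β ∈ Fix(I₁)`.
-/

set_option autoImplicit false
set_option linter.unusedSectionVars false
set_option linter.unusedVariables false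
set_option linter.style.haveILetI false

open AlgebraicCurve ModularCurve WithZero IsLocalRing

noncomputable section

namespace Fermat.Agent.P7

open Fermat.Agent.S37 Fermat.Agent.Red Fermat.Agent.Red.GG Fermat.Agent.Red.GV
  Fermat.Agent.Red.GV.Soft Fermat.Agent.Red.Kron Fermat.Agent.Red.ModelO Fermat.Agent.LGC
  Fermat.Agent.S35 Fermat.Agent.P6

/-! ## Units of a subring of a field -/

section Units

variable {F : Type*} [Field F]

/-- `f` is a unit of the subring `W` of the field `F`. -/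
def h50tUnit (W : Subring F) (f : F) : Prop := f ∈ W ∧ f⁻¹ ∈ W

theorem h50t_unit_one (W : Subring F) : h50tUnit W 1 :=
  ⟨W.one_mem, by rw [inv_one]; exact W.one_mem⟩

theorem h50t_unit_mul {W : Subring F} {f g : F} (hf : h50tUnit W f) (hg : h50tUnit W g) :
    h50tUnit W (f * g) :=
  ⟨W.mul_mem hf.1 hg.1, by rw [mul_inv]; exact W.mul_mem hf.2 hg.2⟩

theorem h50t_unit_inv {W : Subring F} {f : F} (hf : h50tUnit W f) : h50tUnit W f⁻¹ :=
  ⟨hf.2, by rw [inv_inv]; exact hf.1⟩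

theorem h50t_unit_pow {W : Subring F} {f : F} (hf : h50tUnit W f) (n : ℕ) :
    h50tUnit W (f ^ n) :=
  ⟨W.pow_mem hf.1 n, by rw [← inv_pow]; exact W.pow_mem hf.2 n⟩

theorem h50t_unit_zpow {W : Subring F} {f : F} (hf : h50tUnit W f) (n : ℤ) :
    h50tUnit W (f ^ n) := by
  cases n with
  | ofNat k =>
    rw [Int.ofNat_eq_natCast, zpow_natCast]
    exact h50t_unit_pow hf k
  | negSucc k =>
    rw [zpow_negSucc]
    exact h50t_unit_inv (h50t_unit_pow hf (k + 1))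

theorem h50t_unit_mono {W W' : Subring F} (h : ∀ x ∈ W, x ∈ W') {f : F} (hf : h50tUnit W f) :
    h50tUnit W' f :=
  ⟨h _ hf.1, h _ hf.2⟩

end Units

/-! ## The level form -/

section Level

variable (A : ValuationSubring Kbar) (M : ℕ) {p : ℕ} [NeZero M] [NeZero p]

/-- **the node form**: `u` has at the thick node `𝔫` (`x y = p c`) a normal form of exponent `r`
with slope `m` and node constant `cst α₀`. -/
def H50tNodeForm (hp : p.Prime) (hM : ¬ p ∣ M) (hA : A.LiesOverPrime p)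
    (𝔫 : Ideal (chart (M * p) A (jSS M p))) (u : FF (M * p)) (r : ℕ) (m : ℤ) (α₀ : Kbar) :
    Prop :=
  TorOnBoth A M p hp hM hA (jSS M p) 𝔫 ∧
  ∃ x y c : chart (M * p) A (jSS M p), c ∉ 𝔫 ∧
    x * y = algebraMap A (chart (M * p) A (jSS M p)) ((p : ℕ) : A) * c ∧
    ((x : FF (M * p)))⁻¹ ∈ h85cWinf A M p hp hA ∧
    ((y : FF (M * p)))⁻¹ ∈ h85cW0 A M p hp hM hA ∧
    ∃ (s : ℤ) (κ₀ : Kbar) (g₁ ε εinf ε0 : FF (M * p)) (π : A),
      π ∈ maximalIdeal A ∧ κ₀ ≠ 0 ∧ α₀ ≠ 0 ∧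
      u = cst (M * p) κ₀ * (x : FF (M * p)) ^ m * ε * g₁ ^ r ∧
      ε ∈ ssV A M p ∧ ε⁻¹ ∈ ssV A M p ∧
      g₁ = (x : FF (M * p)) ^ s * εinf ∧
      εinf ∈ h26U π (h85cWinf A M p hp hA).toSubring ∧
      g₁ = cst (M * p) α₀ * ε0 ∧
      ε0 ∈ h26U π (h85cW0 A M p hp hM hA).toSubring

variable {A M}

/-- the elements of the chart are in `W∞`. -/
theorem h50t_chart_mem_inf (hp : p.Prime) (hM : ¬ p ∣ M) (hA : A.LiesOverPrime p)
    (b : chart (M * p) A (jSS M p)) :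
    (b : FF (M * p)) ∈ (h85cWinf A M p hp hA).toSubring :=
  h85c_ssV_le_Winf A M p hp hA ((h85s_ifaceSSChart_fin A M p hp hM hA).hBV _ b.2)

/-- the elements of the chart are in `W₀`. -/
theorem h50t_chart_mem_zero (hp : p.Prime) (hM : ¬ p ∣ M) (hA : A.LiesOverPrime p)
    (b : chart (M * p) A (jSS M p)) :
    (b : FF (M * p)) ∈ (h85cW0 A M p hp hM hA).toSubring :=
  h85c_ssV_le_W0 A M p hp hM hA ((h85s_ifaceSSChart_fin A M p hp hM hA).hBV _ b.2)

/-- the elements of `1 + π W∞` are units of `W∞`. -/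
theorem h50t_U_unit_inf (hp : p.Prime) (hA : A.LiesOverPrime p) {π : A}
    (hπ : π ∈ maximalIdeal A) {f : FF (M * p)}
    (hf : f ∈ h26U π (h85cWinf A M p hp hA).toSubring) :
    h50tUnit (h85cWinf A M p hp hA).toSubring f := by
  obtain ⟨v, hv, rfl⟩ := hf
  refine ⟨?_, h86t_Winf_unit A M p hp hA π hπ v hv⟩
  have hπW : algebraMap A (FF (M * p)) π ∈ (h85cWinf A M p hp hA).toSubring :=
    (cst_mem_softV_iff A (M * p) (π : Kbar)).mpr π.2
  exact Subring.add_mem _ (Subring.one_mem _) (Subring.mul_mem _ hπW hv)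

/-- the elements of `1 + π W₀` are units of `W₀`. -/
theorem h50t_U_unit_zero (hp : p.Prime) (hM : ¬ p ∣ M) (hA : A.LiesOverPrime p) {π : A}
    (hπ : π ∈ maximalIdeal A) {f : FF (M * p)}
    (hf : f ∈ h26U π (h85cW0 A M p hp hM hA).toSubring) :
    h50tUnit (h85cW0 A M p hp hM hA).toSubring f := by
  obtain ⟨v, hv, rfl⟩ := hf
  refine ⟨?_, h86t_W0_unit A M p hp hM hA π hπ v hv⟩
  have hπW : algebraMap A (FF (M * p)) π ∈ (h85cW0 A M p hp hM hA).toSubring := by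
    show kFricke M p hp hM (cst (M * p) (π : Kbar)) ∈ softV A (M * p)
    rw [kFricke_cst]
    exact (cst_mem_softV_iff A (M * p) (π : Kbar)).mpr π.2
  exact Subring.add_mem _ (Subring.one_mem _) (Subring.mul_mem _ hπW hv)

/-- a nonzero constant which is a unit of `W∞` is a unit of `A`. -/
theorem h50t_cst_unit_inf (hp : p.Prime) (hA : A.LiesOverPrime p) {k : Kbar}
    (h : h50tUnit (h85cWinf A M p hp hA).toSubring (cst (M * p) k)) : k ∈ A ∧ k⁻¹ ∈ A := by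
  refine ⟨(cst_mem_softV_iff A (M * p) k).mp h.1, ?_⟩
  have h2 := h.2
  have e : (cst (M * p) k)⁻¹ = cst (M * p) k⁻¹ :=
    (map_inv₀ (algebraMap Kbar (FF (M * p))) k).symm
  rw [e] at h2
  exact (cst_mem_softV_iff A (M * p) k⁻¹).mp h2

/-- a nonzero constant which is a unit of `W₀` is a unit of `A`. -/
theorem h50t_cst_unit_zero (hp : p.Prime) (hM : ¬ p ∣ M) (hA : A.LiesOverPrime p) {k : Kbar}
    (h : h50tUnit (h85cW0 A M p hp hM hA).toSubring (cst (M * p) k)) : k ∈ A ∧ k⁻¹ ∈ A := by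
  have h1 : kFricke M p hp hM (cst (M * p) k) ∈ softV A (M * p) := h.1
  have h2 : kFricke M p hp hM (cst (M * p) k)⁻¹ ∈ softV A (M * p) := h.2
  have e : (cst (M * p) k)⁻¹ = cst (M * p) k⁻¹ :=
    (map_inv₀ (algebraMap Kbar (FF (M * p))) k).symm
  rw [e, kFricke_cst] at h2
  rw [kFricke_cst] at h1
  exact ⟨(cst_mem_softV_iff A (M * p) k).mp h1, (cst_mem_softV_iff A (M * p) k⁻¹).mp h2⟩

/-- **NODE-JUMP in constant form**: a node form of `u` with slope `m` and node constant `α₀`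
gives the two Gauss constants of `u`: `κ₀` at `W∞` and `κ₀ p ^ m α₀ ^ r` at `W₀`. -/
theorem h50t_jump (hp : p.Prime) (hM : ¬ p ∣ M) (hA : A.LiesOverPrime p)
    {𝔫 : Ideal (chart (M * p) A (jSS M p))} {u : FF (M * p)} {r : ℕ} {m : ℤ} {α₀ : Kbar}
    (h : H50tNodeForm A M hp hM hA 𝔫 u r m α₀) :
    ∃ κ₀ : Kbar, κ₀ ≠ 0 ∧
      h50tUnit (h85cWinf A M p hp hA).toSubring (u * (cst (M * p) κ₀)⁻¹) ∧
      h50tUnit (h85cW0 A M p hp hM hA).toSubring
        (u * (cst (M * p) (κ₀ * (p : Kbar) ^ m * α₀ ^ r))⁻¹) := by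
  obtain ⟨hboth, x, y, c, hc, hxy, hxinf, hy0, s, κ₀, g₁, ε, εinf, ε0, π, hπ, hκ, hα, hu, hε,
    hε', hg1, hεinf, hg2, hε0⟩ := h
  have hκF : cst (M * p) κ₀ ≠ 0 := by
    simpa only [cst, ne_eq, map_eq_zero] using hκ
  have hαF : cst (M * p) α₀ ≠ 0 := by
    simpa only [cst, ne_eq, map_eq_zero] using hα
  have hp0 : (p : Kbar) ≠ 0 := by exact_mod_cast hp.ne_zero
  have hpF : cst (M * p) (p : Kbar) ≠ 0 := by
    simpa only [cst, ne_eq, map_eq_zero] using hp0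
  -- units
  have hxU : h50tUnit (h85cWinf A M p hp hA).toSubring (x : FF (M * p)) :=
    ⟨h50t_chart_mem_inf hp hM hA x, hxinf⟩
  have hyU : h50tUnit (h85cW0 A M p hp hM hA).toSubring (y : FF (M * p)) :=
    ⟨h50t_chart_mem_zero hp hM hA y, hy0⟩
  have hcU : h50tUnit (h85cW0 A M p hp hM hA).toSubring (c : FF (M * p)) :=
    ⟨h50t_chart_mem_zero hp hM hA c, by
      by_contra hcon
      exact hc (hboth.2 c hcon)⟩
  have hεinfU := h50t_U_unit_inf hp hA hπ hεinf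
  have hε0U := h50t_U_unit_zero hp hM hA hπ hε0
  have hεUinf : h50tUnit (h85cWinf A M p hp hA).toSubring ε :=
    ⟨h85c_ssV_le_Winf A M p hp hA hε, h85c_ssV_le_Winf A M p hp hA hε'⟩
  have hεU0 : h50tUnit (h85cW0 A M p hp hM hA).toSubring ε :=
    ⟨h85c_ssV_le_W0 A M p hp hM hA hε, h85c_ssV_le_W0 A M p hp hM hA hε'⟩
  refine ⟨κ₀, hκ, ?_, ?_⟩
  · -- at `W∞`
    have e : u * (cst (M * p) κ₀)⁻¹ = (x : FF (M * p)) ^ m * ε * ((x : FF (M * p)) ^ s * εinf) ^ r := by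
      rw [hu, hg1]
      field_simp
    rw [e]
    exact h50t_unit_mul (h50t_unit_mul (h50t_unit_zpow hxU m) hεUinf)
      (h50t_unit_pow (h50t_unit_mul (h50t_unit_zpow hxU s) hεinfU) r)
  · -- at `W₀`
    have hxyF : (x : FF (M * p)) * (y : FF (M * p)) = cst (M * p) (p : Kbar) * (c : FF (M * p)) := by
      have := congrArg (Subtype.val) hxy
      rw [map_natCast] at this
      simpa [cst] using this
    have hy0' : (y : FF (M * p)) ≠ 0 := by
      intro h0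
      rw [h0, mul_zero] at hxyF
      have hc0 : (c : FF (M * p)) ≠ 0 := by
        intro h1
        apply hc
        have : c = 0 := Subtype.ext h1
        rw [this]; exact 𝔫.zero_mem
      exact mul_ne_zero hpF hc0 hxyF.symm
    have hx' : (x : FF (M * p)) = cst (M * p) (p : Kbar) * ((c : FF (M * p)) * (y : FF (M * p))⁻¹) := by
      rw [← mul_assoc, ← hxyF, mul_assoc, mul_inv_cancel₀ hy0', mul_one]
    have hwU : h50tUnit (h85cW0 A M p hp hM hA).toSubring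
        ((c : FF (M * p)) * (y : FF (M * p))⁻¹) :=
      h50t_unit_mul hcU (h50t_unit_inv hyU)
    have hcst : cst (M * p) (κ₀ * (p : Kbar) ^ m * α₀ ^ r) =
        cst (M * p) κ₀ * cst (M * p) (p : Kbar) ^ m * cst (M * p) α₀ ^ r := by
      simp only [cst, map_mul, map_zpow₀, map_pow]
    have e : u * (cst (M * p) (κ₀ * (p : Kbar) ^ m * α₀ ^ r))⁻¹ =
        ((c : FF (M * p)) * (y : FF (M * p))⁻¹) ^ m * ε * ε0 ^ r := by
      rw [hcst, hu, hg2]
      conv_lhs => rw [hx']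
      rw [mul_zpow, mul_pow]
      have h1 : cst (M * p) (p : Kbar) ^ m ≠ 0 := zpow_ne_zero _ hpF
      have h2 : cst (M * p) α₀ ^ r ≠ 0 := pow_ne_zero _ hαF
      field_simp
    rw [e]
    exact h50t_unit_mul (h50t_unit_mul (h50t_unit_zpow hwU m) hεU0) (h50t_unit_pow hε0U r)

/-- **two nodes of the same function**: `p ^ (m - m') (α₀ / α₀') ^ r` has valuation one. -/
theorem h50t_ratio (hp : p.Prime) (hM : ¬ p ∣ M) (hA : A.LiesOverPrime p)
    {𝔫 𝔫' : Ideal (chart (M * p) A (jSS M p))} {u : FF (M * p)} (hu : u ≠ 0) {r : ℕ}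
    {m m' : ℤ} {α₀ α₀' : Kbar}
    (h : H50tNodeForm A M hp hM hA 𝔫 u r m α₀)
    (h' : H50tNodeForm A M hp hM hA 𝔫' u r m' α₀') :
    A.valuation ((p : Kbar) ^ (m - m') * (α₀ * α₀'⁻¹) ^ r) = 1 := by
  have hα : α₀ ≠ 0 := by
    obtain ⟨-, x, y, c, -, -, -, -, s, κ₀, g₁, ε, εinf, ε0, π, -, -, hα, -⟩ := h
    exact hα
  have hα' : α₀' ≠ 0 := by
    obtain ⟨-, x, y, c, -, -, -, -, s, κ₀, g₁, ε, εinf, ε0, π, -, -, hα, -⟩ := h'
    exact hα
  obtain ⟨κ, hκ, hinf, hzero⟩ := h50t_jump hp hM hA h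
  obtain ⟨κ', hκ', hinf', hzero'⟩ := h50t_jump hp hM hA h'
  have hp0 : (p : Kbar) ≠ 0 := by exact_mod_cast hp.ne_zero
  have hcst : ∀ k : Kbar, k ≠ 0 → cst (M * p) k ≠ 0 := by
    intro k hk
    simpa only [cst, ne_eq, map_eq_zero] using hk
  -- the constant `κ / κ'` is a unit of `A`
  have h1 : h50tUnit (h85cWinf A M p hp hA).toSubring (cst (M * p) (κ' * κ⁻¹)) := by
    have e : cst (M * p) (κ' * κ⁻¹) =
        (u * (cst (M * p) κ)⁻¹) * (u * (cst (M * p) κ')⁻¹)⁻¹ := by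
      have e1 : cst (M * p) (κ' * κ⁻¹) = cst (M * p) κ' * (cst (M * p) κ)⁻¹ := by
        simp only [cst, map_mul, map_inv₀]
      rw [e1]
      have := hcst κ hκ
      have := hcst κ' hκ'
      field_simp
    rw [e]
    exact h50t_unit_mul hinf (h50t_unit_inv hinf')
  have hK := h50t_cst_unit_inf hp hA h1
  set P : Kbar := κ * (p : Kbar) ^ m * α₀ ^ r with hP
  set P' : Kbar := κ' * (p : Kbar) ^ m' * α₀' ^ r with hP'
  have hP0 : P ≠ 0 := mul_ne_zero (mul_ne_zero hκ (zpow_ne_zero _ hp0)) (pow_ne_zero _ hα)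
  have hP'0 : P' ≠ 0 := mul_ne_zero (mul_ne_zero hκ' (zpow_ne_zero _ hp0)) (pow_ne_zero _ hα')
  have h2 : h50tUnit (h85cW0 A M p hp hM hA).toSubring (cst (M * p) (P' * P⁻¹)) := by
    have e : cst (M * p) (P' * P⁻¹) =
        (u * (cst (M * p) P)⁻¹) * (u * (cst (M * p) P')⁻¹)⁻¹ := by
      have e1 : cst (M * p) (P' * P⁻¹) = cst (M * p) P' * (cst (M * p) P)⁻¹ := by
        simp only [cst, map_mul, map_inv₀]
      rw [e1]
      have := hcst P hP0
      have := hcst P' hP'0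
      field_simp
    rw [e]
    exact h50t_unit_mul hzero (h50t_unit_inv hzero')
  have hQ := h50t_cst_unit_zero hp hM hA h2
  -- valuations
  have hv1 : A.valuation (κ' * κ⁻¹) = 1 := by
    have hne : κ' * κ⁻¹ ≠ 0 := mul_ne_zero hκ' (inv_ne_zero hκ)
    exact h23v_val_eq_one hne hK.1 hK.2
  have hv2 : A.valuation (P' * P⁻¹) = 1 := by
    have hne : P' * P⁻¹ ≠ 0 := mul_ne_zero hP'0 (inv_ne_zero hP0)
    exact h23v_val_eq_one hne hQ.1 hQ.2
  have e : (p : Kbar) ^ (m - m') * (α₀ * α₀'⁻¹) ^ r = (κ' * κ⁻¹) * (P' * P⁻¹)⁻¹ := by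
    rw [hP, hP', zpow_sub₀ hp0, mul_pow, inv_pow]
    have h3 : (p : Kbar) ^ m ≠ 0 := zpow_ne_zero _ hp0
    have h4 : (p : Kbar) ^ m' ≠ 0 := zpow_ne_zero _ hp0
    have h5 : α₀ ^ r ≠ 0 := pow_ne_zero _ hα
    have h6 : α₀' ^ r ≠ 0 := pow_ne_zero _ hα'
    field_simp
  rw [e, map_mul, map_inv₀, hv1, hv2, inv_one, mul_one]

/-! ## Arithmetic in the value group and the slope theorem -/

/-- **value-group arithmetic**: `v(p ^ m ρ ^ p) = 1` and `v(ρ) ^ (p - 1) ∈ v(p) ^ ℤ` force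
`p ∣ m`. -/
theorem h50t_arith (A : ValuationSubring Kbar) (hp : p.Prime) (hA : A.LiesOverPrime p)
    {m : ℤ} {ρ : Kbar}
    (h1 : A.valuation ((p : Kbar) ^ m * ρ ^ p) = 1)
    (h2 : ∃ n : ℤ, A.valuation ρ ^ (p - 1) = A.valuation (p : Kbar) ^ n) : (p : ℤ) ∣ m := by
  obtain ⟨n, hn⟩ := h2
  have hp0 : (p : Kbar) ≠ 0 := by exact_mod_cast hp.ne_zero
  have hg0 : A.valuation (p : Kbar) ≠ 0 := (Valuation.ne_zero_iff _).mpr hp0
  have hg1 : A.valuation (p : Kbar) < 1 := A.mem_nonunits_iff.mp hA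
  have h1' : A.valuation (p : Kbar) ^ m * A.valuation ρ ^ p = 1 := by
    rw [← h1, map_mul, map_zpow₀, map_pow]
  have hcast : ((p - 1 : ℕ) : ℤ) = (p : ℤ) - 1 := by
    rw [Nat.cast_sub hp.one_le]; simp
  have key : A.valuation (p : Kbar) ^ (((p : ℤ) - 1) * m + p * n) = 1 := by
    rw [zpow_add₀ hg0, ← hcast, mul_comm ((p - 1 : ℕ) : ℤ) m, zpow_mul, zpow_natCast,
      mul_comm (p : ℤ) n, zpow_mul, zpow_natCast, ← hn, ← pow_mul, mul_comm (p - 1) p, pow_mul,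
      ← mul_pow, h1', one_pow]
  have hmem : (Units.mk0 (p : Kbar) hp0) ^ (((p : ℤ) - 1) * m + p * n) ∈ h20vU A := by
    rw [h20v_mem_U, Units.val_zpow_eq_zpow_val, map_zpow₀]
    exact key
  have h0 := h20v_zpow_unit A (ϖ := Units.mk0 (p : Kbar) hp0) hg1 hmem
  exact ⟨m + n, by linear_combination (-1 : ℤ) * h0⟩

/-- **slopes are constant modulo `p`**, valuation form: two node forms (exponent `p`) of the
same function whose node constants satisfy `v(α₀ / α₀') ^ (p - 1) ∈ v(p) ^ ℤ`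
(i.e. `v(α₀ / α₀') ∈ v(Fix(I₁)ˣ)`) have congruent slopes.  [Step (4) of finding 1353: in the wild
case the hypothesis is the conclusion of BREAK.] -/
theorem h50t_slope_const_of_val (hp : p.Prime) (hM : ¬ p ∣ M) (hA : A.LiesOverPrime p)
    {𝔫 𝔫' : Ideal (chart (M * p) A (jSS M p))} {u : FF (M * p)} (hu : u ≠ 0)
    {m m' : ℤ} {α₀ α₀' : Kbar}
    (h : H50tNodeForm A M hp hM hA 𝔫 u p m α₀)
    (h' : H50tNodeForm A M hp hM hA 𝔫' u p m' α₀')
    (hval : ∃ n : ℤ, A.valuation (α₀ * α₀'⁻¹) ^ (p - 1) = A.valuation (p : Kbar) ^ n) :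
    (p : ℤ) ∣ m - m' :=
  h50t_arith A hp hA (h50t_ratio hp hM hA hu h h') hval

/-- the node constant of a node form is nonzero. -/
theorem h50t_nodeForm_ne_zero (hp : p.Prime) (hM : ¬ p ∣ M) (hA : A.LiesOverPrime p)
    {𝔫 : Ideal (chart (M * p) A (jSS M p))} {u : FF (M * p)} {r : ℕ} {m : ℤ} {α₀ : Kbar}
    (h : H50tNodeForm A M hp hM hA 𝔫 u r m α₀) : α₀ ≠ 0 := by
  obtain ⟨-, x, y, c, -, -, -, -, s, κ₀, g₁, ε, εinf, ε0, π, -, -, hα, -⟩ := h
  exact hα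

/-- **T-CONST-TAME**: two node forms (exponent `p`) of the same function whose node constants
are fixed by `I₁` (the inertia at `A` acting trivially on `μ_p`) have congruent slopes. -/
theorem h50t_tame (hp : p.Prime) (hp2 : p ≠ 2) (hM : ¬ p ∣ M) (hA : A.LiesOverPrime p)
    {𝔫 𝔫' : Ideal (chart (M * p) A (jSS M p))} {u : FF (M * p)} (hu : u ≠ 0)
    {m m' : ℤ} {α₀ α₀' : Kbar}
    (h : H50tNodeForm A M hp hM hA 𝔫 u p m α₀)
    (h' : H50tNodeForm A M hp hM hA 𝔫' u p m' α₀')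
    (hα : ∀ a ∈ h23vI1 p A, a α₀ = α₀) (hα' : ∀ a ∈ h23vI1 p A, a α₀' = α₀') :
    (p : ℤ) ∣ m - m' := by
  haveI : Fact p.Prime := ⟨hp⟩
  have hne : α₀ * α₀'⁻¹ ≠ 0 :=
    mul_ne_zero (h50t_nodeForm_ne_zero hp hM hA h)
      (inv_ne_zero (h50t_nodeForm_ne_zero hp hM hA h'))
  have hfix : ∀ a ∈ h23vI1 p A, a (α₀ * α₀'⁻¹) = α₀ * α₀'⁻¹ := by
    intro a ha
    rw [map_mul, map_inv₀, hα a ha, hα' a ha]
  exact h50t_slope_const_of_val hp hM hA hu h h' (h23v_val hp2 A hA hne hfix)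

/-- the tame case in the shape of the wave-7 interface: `β ∈ Fix(I₁)`, node constants fixed by
the stabiliser `I_β` of `β` in `I₁` (which is all of `I₁`). -/
theorem h50t_tame_of_fixed (hp : p.Prime) (hp2 : p ≠ 2) (hM : ¬ p ∣ M)
    (hA : A.LiesOverPrime p) (β : Kbar) (hβ : ∀ a ∈ h23vI1 p A, a β = β)
    {𝔫 𝔫' : Ideal (chart (M * p) A (jSS M p))} {u : FF (M * p)} (hu : u ≠ 0)
    {m m' : ℤ} {α₀ α₀' : Kbar}
    (h : H50tNodeForm A M hp hM hA 𝔫 u p m α₀)
    (h' : H50tNodeForm A M hp hM hA 𝔫' u p m' α₀')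
    (hα : ∀ a ∈ h23vI1 p A, a β = β → a α₀ = α₀)
    (hα' : ∀ a ∈ h23vI1 p A, a β = β → a α₀' = α₀') :
    (p : ℤ) ∣ m - m' :=
  h50t_tame hp hp2 hM hA hu h h' (fun a ha => hα a ha (hβ a ha))
    (fun a ha => hα' a ha (hβ a ha))

/-! ## Compatibility with the landed normal form and the input of the tame case -/

/-- a constant in the sense of `h13x_IsConst` is a constant `cst N k`. -/
theorem h50t_isConst_eq_cst (A : ValuationSubring Kbar) (N : ℕ) {κ : FF N}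
    (h : h13x_IsConst A κ) : ∃ k : Kbar, κ = cst N k := by
  obtain ⟨a, q, hq, h⟩ := h
  have hq0 : (q : Kbar) ≠ 0 := fun h0 => hq (Subtype.ext h0)
  have e1 : algebraMap A (FF N) q = cst N (q : Kbar) := rfl
  have e2 : algebraMap A (FF N) a = cst N (a : Kbar) := rfl
  rw [e1, e2] at h
  have hqF : cst N (q : Kbar) ≠ 0 := by
    simpa only [cst, ne_eq, map_eq_zero] using hq0
  refine ⟨(a : Kbar) * (q : Kbar)⁻¹, ?_⟩
  have e3 : cst N ((a : Kbar) * (q : Kbar)⁻¹) = cst N (a : Kbar) * (cst N (q : Kbar))⁻¹ := by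
    simp only [cst, map_mul, map_inv₀]
  rw [e3, ← h, mul_assoc, mul_inv_cancel₀ hqF, mul_one]

/-- **every function with `r ∣ div u` has a node form at every thick node** (from the landed
normal form `h90s_node_normal_level` of helper90): the Prop `H50tNodeForm` is the right shape.
(No rationality of the node constant is claimed here.) -/
theorem h50t_nodeForm_exists (hp : p.Prime) (hM : ¬ p ∣ M) (hA : A.LiesOverPrime p)
    (𝔫 : Ideal (chart (M * p) A (jSS M p))) (h𝔫 : 𝔫.IsMaximal)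
    (hle : mExt A M p (jSS M p) ≤ 𝔫)
    (hnode : H20nTorNodeAtP A M hp hM hA (jSS M p) 𝔫)
    (u : FF (M * p)) (hu : u ≠ 0) (r : ℕ) (hr : 0 < r)
    (hord : ∀ v : Place Kbar (FF (M * p)), (r : ℤ) ∣ v.ord u) :
    ∃ (m : ℤ) (α₀ : Kbar), H50tNodeForm A M hp hM hA 𝔫 u r m α₀ := by
  obtain ⟨hboth, x, hx, y, hy, c, hc, hxy, hgen, hxW, hyW⟩ := hnode
  obtain ⟨m, s, κ, α, g₁, ε, εinf, ε0, π, hπ, hπ0, hκc, hκ0, hαc, hα0, hu', hε, hε', hcen, hg1,
    hεinf, hg2, hε0⟩ :=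
    h90s_node_normal_level A M hp hM hA 𝔫 h𝔫 hle hboth x y c hx hy hc ((p : ℕ) : A)
      (h20n_natCast_ne_zero A p) hxy hgen hxW hyW u hu r hr hord
  obtain ⟨κ₀, rfl⟩ := h50t_isConst_eq_cst A (M * p) hκc
  obtain ⟨α₀, rfl⟩ := h50t_isConst_eq_cst A (M * p) hαc
  refine ⟨m, α₀, hboth, x, y, c, hc, hxy, hxW, hyW, s, κ₀, g₁, ε, εinf, ε0, π, hπ, ?_, ?_, hu',
    hε, hε', hg1, hεinf, hg2, hε0⟩
  · intro h0
    apply hκ0
    rw [h0]
    exact map_zero _
  · intro h0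
    apply hα0
    rw [h0]
    exact map_zero _

/-- **the input of the tame case** (to be supplied by T-CONST-DESC + T-C3-NF): a function fixed
by `I₁` with `p ∣ div u` has, at every thick node, a node form whose node constant is fixed by
`I₁` (the node constant is `∏ (- a_i) ^ (n_i)` over the zeros and poles of `u` in the annulus of
the node, a multiset stable under `I₁`). -/
def H50tRatInput (A : ValuationSubring Kbar) (M : ℕ) [NeZero M] (hp : p.Prime) (hM : ¬ p ∣ M)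
    (hA : A.LiesOverPrime p) : Prop :=
  ∀ u : FF (M * p), u ≠ 0 → (∀ v : Place Kbar (FF (M * p)), (p : ℤ) ∣ v.ord u) →
    (∀ a ∈ h23vI1 p A, gal (M * p) a • u = u) →
    ∀ 𝔫 : Ideal (chart (M * p) A (jSS M p)), 𝔫.IsMaximal → mExt A M p (jSS M p) ≤ 𝔫 →
      H20nTorNodeAtP A M hp hM hA (jSS M p) 𝔫 →
      ∃ (m : ℤ) (α₀ : Kbar), H50tNodeForm A M hp hM hA 𝔫 u p m α₀ ∧
        ∀ a ∈ h23vI1 p A, a α₀ = α₀

/-- **the tame case, function form**: for a function fixed by `I₁` with `p ∣ div u` the slopes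
of the rational node forms at any two thick nodes are congruent modulo `p`. -/
theorem h50t_tame_of_input (hp : p.Prime) (hp2 : p ≠ 2) (hM : ¬ p ∣ M)
    (hA : A.LiesOverPrime p) (hin : H50tRatInput A M hp hM hA)
    (u : FF (M * p)) (hu : u ≠ 0)
    (hord : ∀ v : Place Kbar (FF (M * p)), (p : ℤ) ∣ v.ord u)
    (hfix : ∀ a ∈ h23vI1 p A, gal (M * p) a • u = u)
    (𝔫 𝔫' : Ideal (chart (M * p) A (jSS M p))) (h𝔫 : 𝔫.IsMaximal) (h𝔫' : 𝔫'.IsMaximal)
    (hle : mExt A M p (jSS M p) ≤ 𝔫) (hle' : mExt A M p (jSS M p) ≤ 𝔫')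
    (hnode : H20nTorNodeAtP A M hp hM hA (jSS M p) 𝔫)
    (hnode' : H20nTorNodeAtP A M hp hM hA (jSS M p) 𝔫') :
    ∃ (m m' : ℤ) (α₀ α₀' : Kbar),
      H50tNodeForm A M hp hM hA 𝔫 u p m α₀ ∧ H50tNodeForm A M hp hM hA 𝔫' u p m' α₀' ∧
      (p : ℤ) ∣ m - m' := by
  obtain ⟨m, α₀, h, hα⟩ := hin u hu hord hfix 𝔫 h𝔫 hle hnode
  obtain ⟨m', α₀', h', hα'⟩ := hin u hu hord hfix 𝔫' h𝔫' hle' hnode'
  exact ⟨m, m', α₀, α₀', h, h', h50t_tame hp hp2 hM hA hu h h' hα hα'⟩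

end Level

end Fermat.Agent.P7
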