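import Fermat.Agent.P7.H62NodeJump
import Fermat.Agent.S35.H86TorAsm
import Fermat.Agent.S35.H62TorLocal
import Fermat.Agent.LGC.Fin71Final
import Fermat.Agent.LGC.SS85Chart
import Fermat.Agent.Red.GateGoodOf
import Fermat.Agent.Red.GV.SoftBar

/-!
# P7 (wave 7, S40), block (5b): the NODE JUMP FORMULA at the nodes of the finite chart of level
`M p` (helper62)

The level-form instance of `P7/H62NodeJump.lean`: `B = chart (M * p) A (jSS M p)`,
`W∞ = h85cWinf` (the Gauss valuation ring of the component of `∞`), `W₀ = h85cW0` (its Fricke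
transform), `𝔫` a closed point of the special fibre with a refined node datum `x y = a c`
(`TorNodeAt`; existence at the points lying on both components: `S35/H62TorLocal.lean`).

* `h62j_scale_inf`, `h62j_scale_zero` : every nonzero function is a constant times a unit of
  `W∞` (of `W₀`);
* `h62j_node_jump_level` : the normal form `u = θ · x ^ m · e · (∏ (x - a_i) ^ n_i) ^ r`;
* `h62j_jump_level` : the two branch forms `u = θ · x ^ (m + r s) · (unit of W∞)`,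
  `u = θ · a ^ m · α ^ r · (unit of W₀)`.
-/

set_option autoImplicit false
set_option linter.unusedSectionVars false
set_option linter.unusedVariables false
set_option linter.style.longLine false
set_option linter.style.haveILetI false

open AlgebraicCurve ModularCurve WithZero IsLocalRing

noncomputable section

namespace Fermat.Agent.P7

open Fermat.Agent.S37 Fermat.Agent.S37.GalI Fermat.Agent.Red Fermat.Agent.Red.GG
  Fermat.Agent.Red.GV Fermat.Agent.Red.GV.Soft Fermat.Agent.Red.ModelO Fermat.Agent.Red.Kron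
  Fermat.Agent.LGC Fermat.Agent.S35

variable (A : ValuationSubring Kbar) (M : ℕ) {p : ℕ} [NeZero M] [NeZero p]

/-- the constant functions are constants. -/
theorem h62j_isConst_cst (N : ℕ) (d : Kbar) : h13x_IsConst A (cst N d : FF N) := by
  rcases A.mem_or_inv_mem d with h | h
  · refine ⟨⟨d, h⟩, 1, one_ne_zero, ?_⟩
    rw [map_one, mul_one]
    rfl
  · by_cases hd : d = 0
    · refine ⟨0, 1, one_ne_zero, ?_⟩
      rw [hd, map_one, mul_one, map_zero]
      exact map_zero _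
    · refine ⟨1, ⟨d⁻¹, h⟩, ?_, ?_⟩
      · intro h0
        exact inv_ne_zero hd (congrArg Subtype.val h0)
      · rw [map_one]
        have h1 : algebraMap A (FF N) ⟨d⁻¹, h⟩ = cst N d⁻¹ := rfl
        rw [h1]
        have h2 : cst N d * cst N d⁻¹ = cst N (d * d⁻¹) := (map_mul _ _ _).symm
        rw [h2, mul_inv_cancel₀ hd]
        exact map_one _

/-- every nonzero function is a constant times a unit of `W∞`. -/
theorem h62j_scale_inf (hp : p.Prime) (hA : A.LiesOverPrime p) (N : ℕ) (f : FF N)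
    (hf : f ≠ 0) :
    ∃ θ : FF N, h13x_IsConst A θ ∧ θ ≠ 0 ∧ f * θ⁻¹ ∈ softV A N ∧ (f * θ⁻¹)⁻¹ ∈ softV A N := by
  obtain ⟨d, hd, h1, h2⟩ := exists_cst_mul_unit_soft A N hp hA f hf
  have hc0 : cst N d ≠ 0 := by
    rw [Ne, map_eq_zero_iff _ (algebraMap Kbar (FF N)).injective]
    exact hd
  have e : f * ((cst N d)⁻¹)⁻¹ = cst N d * f := by rw [inv_inv, mul_comm]
  refine ⟨(cst N d)⁻¹, ?_, inv_ne_zero hc0, ?_, ?_⟩
  · have h3 : (cst N d)⁻¹ = cst N d⁻¹ := (map_inv₀ (algebraMap Kbar (FF N)) d).symm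
    rw [h3]
    exact h62j_isConst_cst A N d⁻¹
  · rw [e]; exact h1
  · rw [e]; exact h2

/-- every nonzero function is a constant times a unit of `W₀`. -/
theorem h62j_scale_zero (hp : p.Prime) (hM : ¬ p ∣ M) (hA : A.LiesOverPrime p)
    (f : FF (M * p)) (hf : f ≠ 0) :
    ∃ θ : FF (M * p), h13x_IsConst A θ ∧ θ ≠ 0 ∧
      f * θ⁻¹ ∈ (h85cW0 A M p hp hM hA).toSubring ∧
      (f * θ⁻¹)⁻¹ ∈ (h85cW0 A M p hp hM hA).toSubring := by
  have hkf : kFricke M p hp hM f ≠ 0 := (map_ne_zero _).mpr hf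
  obtain ⟨d, hd, h1, h2⟩ := exists_cst_mul_unit_soft A (M * p) hp hA _ hkf
  have hc0 : cst (M * p) d ≠ 0 := by
    rw [Ne, map_eq_zero_iff _ (algebraMap Kbar (FF (M * p))).injective]
    exact hd
  have e : f * ((cst (M * p) d)⁻¹)⁻¹ = cst (M * p) d * f := by
    rw [inv_inv]
    exact mul_comm _ _
  have hk : kFricke M p hp hM (cst (M * p) d * f) = cst (M * p) d * kFricke M p hp hM f := by
    rw [map_mul]
    congr 1
    exact (kFricke M p hp hM).commutes d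
  refine ⟨(cst (M * p) d)⁻¹, ?_, inv_ne_zero hc0, ?_, ?_⟩
  · have h3 : (cst (M * p) d)⁻¹ = cst (M * p) d⁻¹ :=
      (map_inv₀ (algebraMap Kbar (FF (M * p))) d).symm
    rw [h3]
    exact h62j_isConst_cst A (M * p) d⁻¹
  · rw [e]
    show kFricke M p hp hM (cst (M * p) d * f) ∈ softV A (M * p)
    rw [hk]
    exact h1
  · rw [e]
    show kFricke M p hp hM (cst (M * p) d * f)⁻¹ ∈ softV A (M * p)
    rw [map_inv₀, hk]
    exact h2

/-- **The node jump formula at a node of the finite chart of level `M p`, normal form.** -/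
theorem h62j_node_jump_level (hp : p.Prime) (hM : ¬ p ∣ M) (hA : A.LiesOverPrime p)
    (𝔫 : Ideal (chart (M * p) A (jSS M p))) (h𝔫 : 𝔫.IsMaximal)
    (hle : mExt A M p (jSS M p) ≤ 𝔫)
    (hon : TorOnBoth A M p hp hM hA (jSS M p) 𝔫)
    (x y c : chart (M * p) A (jSS M p)) (hx : x ∈ 𝔫) (hy : y ∈ 𝔫) (hc : c ∉ 𝔫)
    (a : A) (ha : a ≠ 0)
    (hxy : x * y = algebraMap A (chart (M * p) A (jSS M p)) a * c)
    (hgen : ∀ z ∈ 𝔫, ∃ s, s ∉ 𝔫 ∧ s * z ∈ Ideal.span {x, y} ⊔ mExt A M p (jSS M p))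
    (hxinf : ((x : FF (M * p)))⁻¹ ∈ h85cWinf A M p hp hA)
    (hy0 : ((y : FF (M * p)))⁻¹ ∈ h85cW0 A M p hp hM hA)
    (u : FF (M * p)) (hu : u ≠ 0) (r : ℕ)
    (hru : ∀ i, h26Centered (chart (M * p) A (jSS M p)) (chartVal (M * p) (jSS M p)) 𝔫 i →
      ∃ n : ℤ, chartVal (M * p) (jSS M p) i u = exp (-((r : ℤ) * n))) :
    ∃ (m : ℤ) (θ e : FF (M * p)) (T : Finset (ChartPlace (M * p) (jSS M p)))
      (ai : ChartPlace (M * p) (jSS M p) → A) (n : ChartPlace (M * p) (jSS M p) → ℤ) (π : A)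
      (εinf ε0 : FF (M * p)),
      h13x_IsConst A θ ∧ θ ≠ 0 ∧
      e ∈ ssV A M p ∧ e⁻¹ ∈ ssV A M p ∧
      (∀ k, h26Centered (chart (M * p) A (jSS M p)) (chartVal (M * p) (jSS M p)) 𝔫 k →
        chartVal (M * p) (jSS M p) k e = 1) ∧
      (∃ s : chart (M * p) A (jSS M p), s ∉ 𝔫 ∧
        (s : FF (M * p)) * e ∈ chart (M * p) A (jSS M p) ∧
        (s : FF (M * p)) * e⁻¹ ∈ chart (M * p) A (jSS M p)) ∧
      (∀ i ∈ T, h26Centered (chart (M * p) A (jSS M p)) (chartVal (M * p) (jSS M p)) 𝔫 i ∧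
        ai i ∈ maximalIdeal A ∧ ai i ≠ 0 ∧
        chartVal (M * p) (jSS M p) i ((x : FF (M * p)) - algebraMap A (FF (M * p)) (ai i))
          = exp (-1 : ℤ) ∧
        chartVal (M * p) (jSS M p) i u = exp (-((r : ℤ) * n i))) ∧
      (∀ k, h26Centered (chart (M * p) A (jSS M p)) (chartVal (M * p) (jSS M p)) 𝔫 k →
        k ∉ T → chartVal (M * p) (jSS M p) k u = 1) ∧
      u = θ * (x : FF (M * p)) ^ m * e *
        (∏ i ∈ T, ((x : FF (M * p)) - algebraMap A (FF (M * p)) (ai i)) ^ n i) ^ r ∧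
      π ∈ maximalIdeal A ∧ π ≠ 0 ∧
      εinf ∈ h26U π (h85cWinf A M p hp hA).toSubring ∧
      ε0 ∈ h26U π (h85cW0 A M p hp hM hA).toSubring ∧
      ∏ i ∈ T, ((x : FF (M * p)) - algebraMap A (FF (M * p)) (ai i)) ^ n i
        = (x : FF (M * p)) ^ (∑ i ∈ T, n i) * εinf ∧
      ∏ i ∈ T, ((x : FF (M * p)) - algebraMap A (FF (M * p)) (ai i)) ^ n i
        = (∏ i ∈ T, (-algebraMap A (FF (M * p)) (ai i)) ^ n i) * ε0 := by
  classical
  haveI := h𝔫.isPrime
  have hC₀ : IfaceSSChart A M p (jSS M p) := h85s_ifaceSSChart_fin A M p hp hM hA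
  have hF₀ : IfaceFinite (M * p) A (jSS M p) := h71_finite_fin' hp hM hA
  have hS₀ : IfaceSSSection A M p (jSS M p) := h85s_ifaceSSSection_of A M p _ hF₀
  have hAF := algebraMap_injective_FF (M * p) A
  obtain ⟨hbi, hb0⟩ := hon
  have ham : a ∈ maximalIdeal A := h62j_a_mem 𝔫 x y c hx hc a hxy
  exact h62j_node_jump hC₀ hAF
    (h85cWinf A M p hp hA).toSubring (h85cW0 A M p hp hM hA).toSubring
    (fun x hx => h85c_ssV_le_Winf A M p hp hA hx)
    (fun x hx => h85c_ssV_le_W0 A M p hp hM hA hx)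
    (h85c_hWV A M p hp hM hA)
    (fun π hπ x hx => h86t_Winf_unit A M p hp hA π hπ x hx)
    (fun π hπ x hx => h86t_W0_unit A M p hp hM hA π hπ x hx)
    (fun π hπ x hx => h86t_Winf_nt A M p hp hA π hπ x hx)
    (fun π hπ x hx => h86t_W0_nt A M p hp hM hA π hπ x hx)
    𝔫 hle
    (fun b hb => by_contra fun h => hb (hbi b h))
    (fun b hb => by_contra fun h => hb (hb0 b h))
    x y c hx hy hc a ha hxy hxinf hy0 hgen
    (fun i hi => hS₀ i 𝔫 h𝔫 hle hi)
    (fun f hf => h62j_scale_inf A hp hA (M * p) f hf)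
    (fun f hf => h62j_scale_zero A M hp hM hA f hf)
    (fun t ht => harch_of_liesOver A hp hA a ham ha t ht)
    u hu r hru

/-- **The node jump formula at a node of the finite chart of level `M p`**: the two branch
forms.  `m` is the slope of `u` at the node. -/
theorem h62j_jump_level (hp : p.Prime) (hM : ¬ p ∣ M) (hA : A.LiesOverPrime p)
    (𝔫 : Ideal (chart (M * p) A (jSS M p))) (h𝔫 : 𝔫.IsMaximal)
    (hle : mExt A M p (jSS M p) ≤ 𝔫)
    (hon : TorOnBoth A M p hp hM hA (jSS M p) 𝔫)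
    (x y c : chart (M * p) A (jSS M p)) (hx : x ∈ 𝔫) (hy : y ∈ 𝔫) (hc : c ∉ 𝔫)
    (a : A) (ha : a ≠ 0)
    (hxy : x * y = algebraMap A (chart (M * p) A (jSS M p)) a * c)
    (hgen : ∀ z ∈ 𝔫, ∃ s, s ∉ 𝔫 ∧ s * z ∈ Ideal.span {x, y} ⊔ mExt A M p (jSS M p))
    (hxinf : ((x : FF (M * p)))⁻¹ ∈ h85cWinf A M p hp hA)
    (hy0 : ((y : FF (M * p)))⁻¹ ∈ h85cW0 A M p hp hM hA)
    (u : FF (M * p)) (hu : u ≠ 0) (r : ℕ)
    (hru : ∀ i, h26Centered (chart (M * p) A (jSS M p)) (chartVal (M * p) (jSS M p)) 𝔫 i →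
      ∃ n : ℤ, chartVal (M * p) (jSS M p) i u = exp (-((r : ℤ) * n))) :
    ∃ (m s : ℤ) (θ α ρinf ρ0 : FF (M * p)),
      h13x_IsConst A θ ∧ θ ≠ 0 ∧ h13x_IsConst A α ∧ α ≠ 0 ∧
      ρinf ∈ h85cWinf A M p hp hA ∧ ρinf⁻¹ ∈ h85cWinf A M p hp hA ∧
      ρ0 ∈ h85cW0 A M p hp hM hA ∧ ρ0⁻¹ ∈ h85cW0 A M p hp hM hA ∧
      u = θ * (x : FF (M * p)) ^ (m + (r : ℤ) * s) * ρinf ∧
      u = θ * (algebraMap A (FF (M * p)) a) ^ m * α ^ r * ρ0 := by
  classical
  haveI := h𝔫.isPrime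
  have hC₀ : IfaceSSChart A M p (jSS M p) := h85s_ifaceSSChart_fin A M p hp hM hA
  have hF₀ : IfaceFinite (M * p) A (jSS M p) := h71_finite_fin' hp hM hA
  have hS₀ : IfaceSSSection A M p (jSS M p) := h85s_ifaceSSSection_of A M p _ hF₀
  have hAF := algebraMap_injective_FF (M * p) A
  obtain ⟨hbi, hb0⟩ := hon
  have ham : a ∈ maximalIdeal A := h62j_a_mem 𝔫 x y c hx hc a hxy
  exact h62j_jump hC₀ hAF
    (h85cWinf A M p hp hA).toSubring (h85cW0 A M p hp hM hA).toSubring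
    (fun x hx => h85c_ssV_le_Winf A M p hp hA hx)
    (fun x hx => h85c_ssV_le_W0 A M p hp hM hA hx)
    (h85c_hWV A M p hp hM hA)
    (fun π hπ x hx => h86t_Winf_unit A M p hp hA π hπ x hx)
    (fun π hπ x hx => h86t_W0_unit A M p hp hM hA π hπ x hx)
    (fun π hπ x hx => h86t_Winf_nt A M p hp hA π hπ x hx)
    (fun π hπ x hx => h86t_W0_nt A M p hp hM hA π hπ x hx)
    𝔫 hle
    (fun b hb => by_contra fun h => hb (hbi b h))
    (fun b hb => by_contra fun h => hb (hb0 b h))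
    x y c hx hy hc a ha hxy hxinf hy0 hgen
    (fun i hi => hS₀ i 𝔫 h𝔫 hle hi)
    (fun f hf => h62j_scale_inf A hp hA (M * p) f hf)
    (fun f hf => h62j_scale_zero A M hp hM hA f hf)
    (fun t ht => harch_of_liesOver A hp hA a ham ha t ht)
    u hu r hru

end Fermat.Agent.P7
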