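import Mathlib
import Fermat.Agent.Red.GateAbs

/-!
# Wave 7 (S40), block (5b), row T-C2-POLY (helper91): the variation of a rational polynomial

Abstract algebra of step (2) of the proof of (C) (finding 1353, helper98).  `A` is a valuation
ring, `F` a field over `A`, `W ⊆ F` a subring containing `A` with `1 + 𝔪_A W ⊆ W^×` (a Gauss
ring), `b : F →+* F` an endomorphism acting on the constants through `θ : A →+* A`, and `δ ∈ A`
a depth such that the coefficients `s` of the polynomial satisfy `θ s = s (1 + δ c)` (BREAK: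
`b s / s - 1 ∈ δ A` for the elements of `L = Fix(I_β)`).

* `h91yU δ W` : the set `1 + δ 𝔪_A W`; it is a group (`h91yU_one`, `h91yU_mul`, `h91yU_inv`,
  `h91yU_div`, `h91yU_pow`), contained in `W` (`h91yU_mem`), `h91yU_of_h26U`, `h91yU_mono`.
* `h91y_smooth` (C2 (i)) : `t` a unit of `W` fixed by `b`, `P` monic with the other coefficients
  in `𝔪_A`: `b (P(t)) / P(t) ∈ 1 + δ 𝔪_A W`.
* `h91y_node` (C2 (ii)) : `x` fixed by `b`, `x / ϖ ∈ W` (`x = ϖ c / y` at the `0`-side of a node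
  `x y = ϖ c`), `P` with `P(0) ≠ 0` and all roots strictly inside the annulus
  (`coeff_j ϖ ^ j ∈ 𝔪_A P(0)` for `j ≥ 1`): `b (P(x)) / P(x) ∈ (θ P(0) / P(0)) (1 + δ 𝔪_A W)`.
* `h91y_pow_prime` (C2 (iii)) : if `p δ ∈ δ ^ p 𝔪_A` (i.e. `v(δ) < v(p) / (p - 1)`, BREAK (c)),
  then `(1 + δ 𝔪_A W) ^ p ⊆ 1 + δ ^ p 𝔪_A W`.
* `h91y_pow_prime_const` : under the same hypothesis `(1 + ψ δ + δ m) ^ p = 1 + ψ ^ p δ ^ p +
  δ ^ p m'` with `m' ∈ 𝔪_A` (`m ∈ 𝔪_A`, `ψ ∈ A`).
-/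

set_option autoImplicit false
set_option linter.unusedSectionVars false
set_option linter.unusedVariables false

open IsLocalRing Polynomial

namespace Fermat.Agent.P7

open Fermat.Agent.Red

section U

variable {A : Type*} [CommRing A] [IsDomain A] [ValuationRing A]
  {F : Type*} [Field F] [Algebra A F]

/-- the set `1 + δ 𝔪_A W`. -/
def h91yU (δ : A) (W : Subring F) : Set F :=
  {x | ∃ m ∈ maximalIdeal A, x ∈ h26U (δ * m) W}

variable {δ : A} {W : Subring F}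

theorem h91yU_iff {x : F} : x ∈ h91yU δ W ↔
    ∃ m ∈ maximalIdeal A, ∃ v ∈ W, x = 1 + algebraMap A F (δ * m) * v := Iff.rfl

theorem h91yU_of_h26U {m : A} (hm : m ∈ maximalIdeal A) {x : F} (hx : x ∈ h26U (δ * m) W) :
    x ∈ h91yU δ W := ⟨m, hm, hx⟩

theorem h91yU_one : (1 : F) ∈ h91yU δ W := ⟨0, (maximalIdeal A).zero_mem, h26U_one⟩

/-- change of modulus inside `h26U`. -/
theorem h91y_h26U_of_dvd (hAW : ∀ a : A, algebraMap A F a ∈ W) {π π' : A} (h : π' ∣ π) {g : F}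
    (hg : g ∈ h26U π W) : g ∈ h26U π' W := by
  obtain ⟨a, rfl⟩ := h
  obtain ⟨x, hx, rfl⟩ := hg
  exact ⟨algebraMap A F a * x, W.mul_mem (hAW a) hx, by rw [map_mul]; ring⟩

/-- two elements of `1 + δ 𝔪_A W` have a common modulus. -/
theorem h91yU_common (hAW : ∀ a : A, algebraMap A F a ∈ W) {x y : F}
    (hx : x ∈ h91yU δ W) (hy : y ∈ h91yU δ W) :
    ∃ m ∈ maximalIdeal A, x ∈ h26U (δ * m) W ∧ y ∈ h26U (δ * m) W := by
  obtain ⟨m₁, hm₁, hx⟩ := hx
  obtain ⟨m₂, hm₂, hy⟩ := hy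
  rcases ValuationRing.dvd_total m₁ m₂ with h | h
  · exact ⟨m₁, hm₁, hx, h91y_h26U_of_dvd hAW (mul_dvd_mul_left δ h) hy⟩
  · exact ⟨m₂, hm₂, h91y_h26U_of_dvd hAW (mul_dvd_mul_left δ h) hx, hy⟩

theorem h91yU_mem (hAW : ∀ a : A, algebraMap A F a ∈ W) {x : F} (hx : x ∈ h91yU δ W) :
    x ∈ W := by
  obtain ⟨m, -, hx⟩ := hx
  exact h26U_mem_V (hAW _) hx

theorem h91yU_mul (hAW : ∀ a : A, algebraMap A F a ∈ W) {x y : F}
    (hx : x ∈ h91yU δ W) (hy : y ∈ h91yU δ W) : x * y ∈ h91yU δ W := by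
  obtain ⟨m, hm, hx, hy⟩ := h91yU_common hAW hx hy
  exact ⟨m, hm, h26U_mul (hAW _) hx hy⟩

theorem h91yU_pow (hAW : ∀ a : A, algebraMap A F a ∈ W) {x : F}
    (hx : x ∈ h91yU δ W) (n : ℕ) : x ^ n ∈ h91yU δ W := by
  obtain ⟨m, hm, hx⟩ := hx
  exact ⟨m, hm, h26U_pow (hAW _) hx n⟩

theorem h91yU_ne_zero (hnt : ∀ m ∈ maximalIdeal A, ∀ x ∈ W, algebraMap A F m * x ≠ 1)
    {x : F} (hx : x ∈ h91yU δ W) : x ≠ 0 := by
  obtain ⟨m, hm, hx⟩ := hx
  exact h26U_ne_zero (hnt _ (Ideal.mul_mem_left _ _ hm)) hx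

theorem h91yU_inv
    (hinv : ∀ m ∈ maximalIdeal A, ∀ x ∈ W, (1 + algebraMap A F m * x)⁻¹ ∈ W)
    (hnt : ∀ m ∈ maximalIdeal A, ∀ x ∈ W, algebraMap A F m * x ≠ 1)
    {x : F} (hx : x ∈ h91yU δ W) : x⁻¹ ∈ h91yU δ W := by
  obtain ⟨m, hm, hx⟩ := hx
  exact ⟨m, hm, h26U_inv (hinv _ (Ideal.mul_mem_left _ _ hm))
    (hnt _ (Ideal.mul_mem_left _ _ hm)) hx⟩

theorem h91yU_div (hAW : ∀ a : A, algebraMap A F a ∈ W)
    (hinv : ∀ m ∈ maximalIdeal A, ∀ x ∈ W, (1 + algebraMap A F m * x)⁻¹ ∈ W)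
    (hnt : ∀ m ∈ maximalIdeal A, ∀ x ∈ W, algebraMap A F m * x ≠ 1)
    {x y : F} (hx : x ∈ h91yU δ W) (hy : y ∈ h91yU δ W) : x / y ∈ h91yU δ W := by
  rw [div_eq_mul_inv]
  exact h91yU_mul hAW hx (h91yU_inv hinv hnt hy)

theorem h91yU_mono (hAW : ∀ a : A, algebraMap A F a ∈ W) {δ' : A} (h : δ' ∣ δ) {x : F}
    (hx : x ∈ h91yU δ W) : x ∈ h91yU δ' W := by
  obtain ⟨m, hm, hx⟩ := hx
  exact ⟨m, hm, h91y_h26U_of_dvd hAW (mul_dvd_mul_right h m) hx⟩

/-- `1 + δ 𝔪_A W` from a difference: `y - x ∈ δ m W` and `x⁻¹ ∈ W` give `y / x ∈ 1 + δ 𝔪_A W`. -/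
theorem h91yU_of_sub (hAW : ∀ a : A, algebraMap A F a ∈ W) {x y : F} (hx0 : x ≠ 0)
    (hxW : x⁻¹ ∈ W) {m : A} (hm : m ∈ maximalIdeal A) {v : F} (hv : v ∈ W)
    (h : y - x = algebraMap A F (δ * m) * v) : y * x⁻¹ ∈ h91yU δ W := by
  refine ⟨m, hm, v * x⁻¹, W.mul_mem hv hxW, ?_⟩
  have : y = x + algebraMap A F (δ * m) * v := by rw [← h]; ring
  rw [this]
  field_simp

end U

section Sum

variable {A : Type*} [CommRing A] [IsDomain A] [ValuationRing A]
  {F : Type*} [Field F] [Algebra A F]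

/-- a finite sum of elements of `𝔪_A W` is in `m W` for one `m ∈ 𝔪_A`. -/
theorem h91y_sum_mem {W : Subring F} (hAW : ∀ a : A, algebraMap A F a ∈ W)
    {α : Type*} (T : Finset α) (c : α → A) (hc : ∀ i ∈ T, c i ∈ maximalIdeal A)
    (w : α → F) (hw : ∀ i ∈ T, w i ∈ W) :
    ∃ m ∈ maximalIdeal A, ∃ v ∈ W, ∑ i ∈ T, algebraMap A F (c i) * w i = algebraMap A F m * v := by
  classical
  induction T using Finset.induction_on with
  | empty => exact ⟨0, (maximalIdeal A).zero_mem, 0, W.zero_mem, by simp⟩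
  | insert a T ha ih =>
    obtain ⟨m, hm, v, hv, h⟩ := ih (fun i hi => hc i (Finset.mem_insert_of_mem hi))
      (fun i hi => hw i (Finset.mem_insert_of_mem hi))
    have hca := hc a (Finset.mem_insert_self a T)
    have hwa := hw a (Finset.mem_insert_self a T)
    rw [Finset.sum_insert ha, h]
    rcases ValuationRing.dvd_total m (c a) with ⟨q, hq⟩ | ⟨q, hq⟩
    · refine ⟨m, hm, algebraMap A F q * w a + v,
        W.add_mem (W.mul_mem (hAW q) hwa) hv, ?_⟩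
      rw [hq, map_mul]; ring
    · refine ⟨c a, hca, w a + algebraMap A F q * v,
        W.add_mem hwa (W.mul_mem (hAW q) hv), ?_⟩
      rw [hq, map_mul]; ring

end Sum

section Poly

variable {A : Type*} [CommRing A] [IsDomain A] [ValuationRing A]
  {F : Type*} [Field F] [Algebra A F] {W : Subring F} {δ : A}

/-- the action of `b` on the value of a polynomial at a point fixed by `b`. -/
theorem h91y_map_aeval (b : F →+* F) (θ : A →+* A)
    (hbθ : ∀ a : A, b (algebraMap A F a) = algebraMap A F (θ a))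
    (t : F) (hbt : b t = t) (P : A[X]) :
    b (aeval t P) = ∑ k ∈ Finset.range (P.natDegree + 1),
      algebraMap A F (θ (P.coeff k)) * t ^ k := by
  rw [aeval_eq_sum_range, map_sum]
  refine Finset.sum_congr rfl fun k _ => ?_
  rw [Algebra.smul_def, map_mul, map_pow, hbθ, hbt]

theorem h91y_aeval_sum (t : F) (P : A[X]) :
    aeval t P = ∑ k ∈ Finset.range (P.natDegree + 1), algebraMap A F (P.coeff k) * t ^ k := by
  rw [aeval_eq_sum_range]
  exact Finset.sum_congr rfl fun k _ => by rw [Algebra.smul_def]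

/-- **the variation of the value of a polynomial**: if the coefficients vary by `δ 𝔪_A` and the
point `t ∈ W` is fixed, the value varies by `δ 𝔪_A W`. -/
theorem h91y_var (hAW : ∀ a : A, algebraMap A F a ∈ W)
    (b : F →+* F) (θ : A →+* A)
    (hbθ : ∀ a : A, b (algebraMap A F a) = algebraMap A F (θ a))
    (t : F) (htW : t ∈ W) (hbt : b t = t) (P : A[X])
    (hvar : ∀ k, ∃ m ∈ maximalIdeal A, θ (P.coeff k) - P.coeff k = δ * m) :
    ∃ m ∈ maximalIdeal A, ∃ v ∈ W, b (aeval t P) - aeval t P = algebraMap A F (δ * m) * v := by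
  classical
  choose c hc hcδ using hvar
  obtain ⟨m, hm, v, hv, h⟩ := h91y_sum_mem hAW (Finset.range (P.natDegree + 1)) c
    (fun k _ => hc k) (fun k => t ^ k) (fun k _ => W.pow_mem htW k)
  refine ⟨m, hm, v, hv, ?_⟩
  rw [h91y_map_aeval b θ hbθ t hbt P, h91y_aeval_sum, ← Finset.sum_sub_distrib, map_mul,
    mul_assoc, ← h, Finset.mul_sum]
  refine Finset.sum_congr rfl fun k _ => ?_
  rw [← sub_mul, ← map_sub, hcδ k, map_mul]
  ring

/-- a monic polynomial with the other coefficients in `𝔪_A` takes a unit value at a unit of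
`W`. -/
theorem h91y_unit (hAW : ∀ a : A, algebraMap A F a ∈ W)
    (hinv : ∀ m ∈ maximalIdeal A, ∀ x ∈ W, (1 + algebraMap A F m * x)⁻¹ ∈ W)
    (hnt : ∀ m ∈ maximalIdeal A, ∀ x ∈ W, algebraMap A F m * x ≠ 1)
    (t : F) (htW : t ∈ W) (htW' : t⁻¹ ∈ W) (ht0 : t ≠ 0)
    (P : A[X]) (hP : P.Monic) (hPm : ∀ k < P.natDegree, P.coeff k ∈ maximalIdeal A) :
    aeval t P ≠ 0 ∧ (aeval t P)⁻¹ ∈ W ∧
      ∃ m ∈ maximalIdeal A, aeval t P * (t ^ P.natDegree)⁻¹ ∈ h26U m W := by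
  classical
  obtain ⟨m, hm, v, hv, h⟩ := h91y_sum_mem hAW (Finset.range P.natDegree)
    (fun k => if k < P.natDegree then P.coeff k else 0)
    (fun k hk => by
      rw [if_pos (Finset.mem_range.mp hk)]
      exact hPm k (Finset.mem_range.mp hk))
    (fun k => t ^ k * (t⁻¹) ^ P.natDegree)
    (fun k _ => W.mul_mem (W.pow_mem htW k) (W.pow_mem htW' _))
  have htd : t ^ P.natDegree ≠ 0 := pow_ne_zero _ ht0
  have key : aeval t P = t ^ P.natDegree * (1 + algebraMap A F m * v) := by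
    rw [← h, h91y_aeval_sum, Finset.sum_range_succ, hP.coeff_natDegree, map_one, one_mul,
      mul_add, mul_one, add_comm, Finset.mul_sum]
    congr 1
    refine Finset.sum_congr rfl fun k hk => ?_
    rw [if_pos (Finset.mem_range.mp hk), inv_pow]
    field_simp
  have h1 : (1 : F) + algebraMap A F m * v ≠ 0 := by
    intro h0
    apply hnt m hm (-v) (W.neg_mem hv)
    linear_combination -h0
  refine ⟨?_, ?_, m, hm, v, hv, ?_⟩
  · rw [key]
    exact mul_ne_zero htd h1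
  · rw [key, mul_inv, ← inv_pow]
    exact W.mul_mem (W.pow_mem htW' _) (hinv m hm v hv)
  · rw [key]
    field_simp

/-- **C2 (i), smooth points**: `t` a unit of `W` fixed by `b`, `P` monic with the other
coefficients in `𝔪_A`, coefficients varying by `δ 𝔪_A`: `b (P(t)) / P(t) ∈ 1 + δ 𝔪_A W`. -/
theorem h91y_smooth (hAW : ∀ a : A, algebraMap A F a ∈ W)
    (hinv : ∀ m ∈ maximalIdeal A, ∀ x ∈ W, (1 + algebraMap A F m * x)⁻¹ ∈ W)
    (hnt : ∀ m ∈ maximalIdeal A, ∀ x ∈ W, algebraMap A F m * x ≠ 1)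
    (b : F →+* F) (θ : A →+* A)
    (hbθ : ∀ a : A, b (algebraMap A F a) = algebraMap A F (θ a))
    (t : F) (htW : t ∈ W) (htW' : t⁻¹ ∈ W) (ht0 : t ≠ 0) (hbt : b t = t)
    (P : A[X]) (hP : P.Monic) (hPm : ∀ k < P.natDegree, P.coeff k ∈ maximalIdeal A)
    (hvar : ∀ k, ∃ c : A, θ (P.coeff k) = P.coeff k * (1 + δ * c)) :
    b (aeval t P) * (aeval t P)⁻¹ ∈ h91yU δ W := by
  obtain ⟨h0, hW', -⟩ := h91y_unit hAW hinv hnt t htW htW' ht0 P hP hPm
  have hvar' : ∀ k, ∃ m ∈ maximalIdeal A, θ (P.coeff k) - P.coeff k = δ * m := by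
    intro k
    obtain ⟨c, hc⟩ := hvar k
    by_cases hk : k < P.natDegree
    · exact ⟨P.coeff k * c, Ideal.mul_mem_right _ _ (hPm k hk), by rw [hc]; ring⟩
    · refine ⟨0, (maximalIdeal A).zero_mem, ?_⟩
      rcases Nat.lt_or_ge P.natDegree k with hlt | hge
      · rw [coeff_eq_zero_of_natDegree_lt hlt, map_zero]; ring
      · have : k = P.natDegree := le_antisymm hge (not_lt.mp hk)
        rw [this, hP.coeff_natDegree, map_one]; ring
  obtain ⟨m, hm, v, hv, h⟩ := h91y_var hAW b θ hbθ t htW hbt P hvar'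
  exact h91yU_of_sub hAW h0 hW' hm hv h

/-- **C2 (ii), the `0`-side of a node**: `x` fixed by `b`, `x / ϖ ∈ W`, `P(0) ≠ 0`, all roots
of `P` strictly inside the annulus (`coeff_j ϖ ^ j ∈ 𝔪_A P(0)` for `j ≥ 1`), coefficients varying
multiplicatively by `1 + δ A`.  Then `P(x) = P(0) (1 + 𝔪_A W)` and
`b (P(x)) / P(x) ∈ (θ P(0) / P(0)) (1 + δ 𝔪_A W)`. -/
theorem h91y_node (hAF : Function.Injective (algebraMap A F))
    (hAW : ∀ a : A, algebraMap A F a ∈ W)
    (hinv : ∀ m ∈ maximalIdeal A, ∀ x ∈ W, (1 + algebraMap A F m * x)⁻¹ ∈ W)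
    (hnt : ∀ m ∈ maximalIdeal A, ∀ x ∈ W, algebraMap A F m * x ≠ 1)
    (b : F →+* F) (θ : A →+* A)
    (hbθ : ∀ a : A, b (algebraMap A F a) = algebraMap A F (θ a))
    (hδ : δ ∈ maximalIdeal A)
    (x : F) (hbx : b x = x) (ϖ : A) (hϖ0 : ϖ ≠ 0) (hθϖ : θ ϖ = ϖ)
    (hxW : x * (algebraMap A F ϖ)⁻¹ ∈ W)
    (P : A[X]) (hP0 : P.coeff 0 ≠ 0)
    (hin : ∀ j, 1 ≤ j → ∃ r ∈ maximalIdeal A, P.coeff j * ϖ ^ j = r * P.coeff 0)
    (hvar : ∀ k, ∃ c : A, θ (P.coeff k) = P.coeff k * (1 + δ * c)) :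
    aeval x P ≠ 0 ∧
    (∃ m ∈ maximalIdeal A, aeval x P * (algebraMap A F (P.coeff 0))⁻¹ ∈ h26U m W) ∧
    b (aeval x P) * (aeval x P)⁻¹ *
      (algebraMap A F (θ (P.coeff 0)) * (algebraMap A F (P.coeff 0))⁻¹)⁻¹ ∈ h91yU δ W := by
  classical
  set d := P.natDegree with hd
  set y : F := x * (algebraMap A F ϖ)⁻¹ with hy
  have hϖF : algebraMap A F ϖ ≠ 0 := fun h => hϖ0 (hAF (by rw [h, map_zero]))
  have hs0F : algebraMap A F (P.coeff 0) ≠ 0 := fun h => hP0 (hAF (by rw [h, map_zero]))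
  have hxy : x = algebraMap A F ϖ * y := by rw [hy]; field_simp
  have hby : b y = y := by rw [hy, map_mul, map_inv₀, hbx, hbθ, hθϖ]
  choose r hr hrs using hin
  obtain ⟨c₀, hc₀⟩ := hvar 0
  -- the variation of the `r j`
  have hunit : IsUnit (1 + δ * c₀) := by
    rw [← IsLocalRing.notMem_maximalIdeal]
    intro hmem
    have h1 : (1 : A) ∈ maximalIdeal A := by
      have h2 : (1 : A) = (1 + δ * c₀) - δ * c₀ := by ring
      rw [h2]
      exact Ideal.sub_mem _ hmem (Ideal.mul_mem_right _ _ hδ)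
    exact (Ideal.ne_top_iff_one _).mp (IsLocalRing.maximalIdeal.isMaximal A).ne_top h1
  obtain ⟨e, he⟩ := hunit.exists_right_inv
  have hθs0 : θ (P.coeff 0) ≠ 0 := by
    rw [hc₀]
    exact mul_ne_zero hP0 hunit.ne_zero
  have hθr : ∀ j (hj : 1 ≤ j), ∃ m ∈ maximalIdeal A, θ (r j hj) - r j hj = δ * m := by
    intro j hj
    obtain ⟨c, hc⟩ := hvar j
    have h1 : θ (P.coeff j) * ϖ ^ j = θ (r j hj) * θ (P.coeff 0) := by
      have := congrArg θ (hrs j hj)
      rw [map_mul, map_mul, map_pow, hθϖ] at this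
      exact this
    rw [hc, hc₀] at h1
    have h2 : P.coeff 0 * (r j hj * (1 + δ * c)) = P.coeff 0 * (θ (r j hj) * (1 + δ * c₀)) := by
      calc P.coeff 0 * (r j hj * (1 + δ * c)) = (P.coeff j * ϖ ^ j) * (1 + δ * c) := by
            rw [hrs j hj]; ring
        _ = P.coeff j * (1 + δ * c) * ϖ ^ j := by ring
        _ = θ (r j hj) * (P.coeff 0 * (1 + δ * c₀)) := h1
        _ = P.coeff 0 * (θ (r j hj) * (1 + δ * c₀)) := by ring
    have h3 := mul_left_cancel₀ hP0 h2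
    refine ⟨r j hj * (e * (c - c₀)), Ideal.mul_mem_right _ _ (hr j hj), ?_⟩
    have h4 : θ (r j hj) = r j hj * (1 + δ * c) * e := by
      calc θ (r j hj) = θ (r j hj) * ((1 + δ * c₀) * e) := by rw [he, mul_one]
        _ = (θ (r j hj) * (1 + δ * c₀)) * e := by ring
        _ = r j hj * (1 + δ * c) * e := by rw [← h3]
    rw [h4]
    have h5 : (1 + δ * c) * e - 1 = δ * (e * (c - c₀)) := by
      calc (1 + δ * c) * e - 1 = (1 + δ * c) * e - (1 + δ * c₀) * e := by rw [he]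
        _ = δ * (e * (c - c₀)) := by ring
    calc r j hj * (1 + δ * c) * e - r j hj = r j hj * ((1 + δ * c) * e - 1) := by ring
      _ = δ * (r j hj * (e * (c - c₀))) := by rw [h5]; ring
  -- the polynomial `H = ∑_{j ≥ 1} r_j y ^ j`
  set R : ℕ → A := fun j => if hj : 1 ≤ j then r j hj else 0 with hR
  have hRm : ∀ j, R j ∈ maximalIdeal A := by
    intro j
    rw [hR]
    by_cases hj : 1 ≤ j
    · simp only [dif_pos hj]; exact hr j hj
    · simp only [dif_neg hj]; exact (maximalIdeal A).zero_mem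
  have hRs : ∀ j, 1 ≤ j → P.coeff j * ϖ ^ j = R j * P.coeff 0 := by
    intro j hj
    rw [hR]
    simp only [dif_pos hj]
    exact hrs j hj
  have hθR : ∀ j, ∃ m ∈ maximalIdeal A, θ (R j) - R j = δ * m := by
    intro j
    rw [hR]
    by_cases hj : 1 ≤ j
    · simp only [dif_pos hj]; exact hθr j hj
    · simp only [dif_neg hj]
      exact ⟨0, (maximalIdeal A).zero_mem, by rw [map_zero]; ring⟩
  set H : F := ∑ j ∈ Finset.range d, algebraMap A F (R (j + 1)) * y ^ (j + 1) with hH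
  have hterm : ∀ j, 1 ≤ j → algebraMap A F (P.coeff j) * x ^ j =
      algebraMap A F (P.coeff 0) * (algebraMap A F (R j) * y ^ j) := by
    intro j hj
    rw [hxy, mul_pow, ← mul_assoc, ← map_pow, ← map_mul, hRs j hj, map_mul]
    ring
  have hval : aeval x P = algebraMap A F (P.coeff 0) * (1 + H) := by
    rw [h91y_aeval_sum, Finset.sum_range_succ', pow_zero, mul_one, mul_add, mul_one, add_comm,
      hH, Finset.mul_sum]
    congr 1
    exact Finset.sum_congr rfl fun j _ => hterm (j + 1) (Nat.succ_pos j)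
  have hbterm : ∀ j, 1 ≤ j → algebraMap A F (θ (P.coeff j)) * x ^ j =
      algebraMap A F (θ (P.coeff 0)) * (algebraMap A F (θ (R j)) * y ^ j) := by
    intro j hj
    have h1 : θ (P.coeff j) * ϖ ^ j = θ (R j) * θ (P.coeff 0) := by
      have := congrArg θ (hRs j hj)
      rw [map_mul, map_mul, map_pow, hθϖ] at this
      exact this
    rw [hxy, mul_pow, ← mul_assoc, ← map_pow, ← map_mul, h1, map_mul]
    ring
  set H' : F := ∑ j ∈ Finset.range d, algebraMap A F (θ (R (j + 1))) * y ^ (j + 1) with hH'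
  have hbval : b (aeval x P) = algebraMap A F (θ (P.coeff 0)) * (1 + H') := by
    rw [h91y_map_aeval b θ hbθ x hbx P, Finset.sum_range_succ', pow_zero, mul_one, mul_add,
      mul_one, add_comm, hH', Finset.mul_sum]
    congr 1
    exact Finset.sum_congr rfl fun j _ => hbterm (j + 1) (Nat.succ_pos j)
  -- `H ∈ 𝔪 W`
  obtain ⟨m, hm, v, hv, hHm⟩ := h91y_sum_mem hAW (Finset.range d) (fun j => R (j + 1))
    (fun j _ => hRm (j + 1)) (fun j => y ^ (j + 1)) (fun j _ => W.pow_mem hxW _)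
  have hHeq : H = algebraMap A F m * v := hHm
  have h1H : (1 : F) + H ≠ 0 := by
    rw [hHeq]
    intro h0
    apply hnt m hm (-v) (W.neg_mem hv)
    linear_combination -h0
  have h1HW : (1 + H)⁻¹ ∈ W := by
    rw [hHeq]
    exact hinv m hm v hv
  -- `H' - H ∈ δ 𝔪 W`
  choose μ hμ hμδ using hθR
  obtain ⟨m', hm', v', hv', hHm'⟩ := h91y_sum_mem hAW (Finset.range d) (fun j => μ (j + 1))
    (fun j _ => hμ (j + 1)) (fun j => y ^ (j + 1)) (fun j _ => W.pow_mem hxW _)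
  have hdiff : (1 + H') - (1 + H) = algebraMap A F (δ * m') * v' := by
    rw [add_sub_add_left_eq_sub, hH', hH, ← Finset.sum_sub_distrib, map_mul, mul_assoc, ← hHm',
      Finset.mul_sum]
    refine Finset.sum_congr rfl fun j _ => ?_
    rw [← sub_mul, ← map_sub, hμδ (j + 1), map_mul]
    ring
  have hG : (1 + H') * (1 + H)⁻¹ ∈ h91yU δ W := h91yU_of_sub hAW h1H h1HW hm' hv' hdiff
  have hθs0F : algebraMap A F (θ (P.coeff 0)) ≠ 0 := fun h => hθs0 (hAF (by rw [h, map_zero]))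
  refine ⟨?_, ⟨m, hm, v, hv, ?_⟩, ?_⟩
  · rw [hval]
    exact mul_ne_zero hs0F h1H
  · rw [hval, hHeq]
    field_simp
  · have : b (aeval x P) * (aeval x P)⁻¹ *
        (algebraMap A F (θ (P.coeff 0)) * (algebraMap A F (P.coeff 0))⁻¹)⁻¹ =
        (1 + H') * (1 + H)⁻¹ := by
      rw [hbval, hval]
      field_simp
    rw [this]
    exact hG

end Poly

section PowPrime

variable {A : Type*} [CommRing A] [IsDomain A] [ValuationRing A]
  {F : Type*} [Field F] [Algebra A F] {W : Subring F} {δ : A}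

/-- **C2 (iii), the `p`-th power step**: if `p δ ∈ δ ^ p 𝔪_A` (i.e. `v(δ) < v(p) / (p - 1)`),
then the `p`-th power maps `1 + δ 𝔪_A W` into `1 + δ ^ p 𝔪_A W`. -/
theorem h91y_pow_prime (hAW : ∀ a : A, algebraMap A F a ∈ W) {p : ℕ} (hp : p.Prime)
    (hpδ : ∃ m₀ ∈ maximalIdeal A, (p : A) * δ = δ ^ p * m₀) {x : F}
    (hx : x ∈ h91yU δ W) : x ^ p ∈ h91yU (δ ^ p) W := by
  classical
  obtain ⟨m₀, hm₀, hpδ⟩ := hpδ
  obtain ⟨m, hm, v, hv, rfl⟩ := hx
  set z : F := algebraMap A F (δ * m) * v with hz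
  have hzW : z ∈ W := W.mul_mem (hAW _) hv
  set r : F := ∑ k ∈ Finset.Ioo 0 p, (1 : F) ^ (k - 1) * z ^ (p - k - 1) *
    ((p.choose k / p : ℕ) : F) with hr
  have hrW : r ∈ W := by
    rw [hr]
    refine W.sum_mem fun k _ => ?_
    exact W.mul_mem (W.mul_mem (W.pow_mem W.one_mem _) (W.pow_mem hzW _)) (natCast_mem W _)
  have h := add_pow_prime_eq hp (1 : F) z
  rw [← hr] at h
  have hp1 : 1 ≤ p := hp.one_lt.le
  have hmp : m ^ p = m * m ^ (p - 1) := by
    rw [← pow_succ', Nat.sub_add_cancel hp1]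
  have hpF : (p : F) * algebraMap A F δ = algebraMap A F (δ ^ p * m₀) := by
    rw [← hpδ, map_mul, map_natCast]
  refine ⟨m, hm, algebraMap A F (m ^ (p - 1)) * v ^ p + algebraMap A F m₀ * v * r,
    W.add_mem (W.mul_mem (hAW _) (W.pow_mem hv _)) (W.mul_mem (W.mul_mem (hAW _) hv) hrW), ?_⟩
  rw [h, one_pow, mul_one]
  have hpF' : (p : F) * algebraMap A F δ = algebraMap A F (δ ^ p) * algebraMap A F m₀ := by
    rw [hpF, map_mul]
  have h1 : z ^ p = algebraMap A F (δ ^ p * m) * (algebraMap A F (m ^ (p - 1)) * v ^ p) := by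
    have h0 : (δ * m) ^ p = δ ^ p * m * m ^ (p - 1) := by rw [mul_pow, hmp]; ring
    rw [hz, mul_pow, ← map_pow, h0]
    simp only [map_mul]
    ring
  have h2 : (p : F) * z * r = algebraMap A F (δ ^ p * m) * (algebraMap A F m₀ * v * r) := by
    rw [hz]
    simp only [map_mul]
    linear_combination (algebraMap A F m * v * r) * hpF'
  rw [h1, h2]
  ring

/-- **the `p`-th power of a constant `1 + ψ δ + δ m`**, `m ∈ 𝔪_A`: it is
`1 + ψ ^ p δ ^ p + δ ^ p m'` with `m' ∈ 𝔪_A`. -/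
theorem h91y_pow_prime_const {p : ℕ} (hp : p.Prime)
    (hpδ : ∃ m₀ ∈ maximalIdeal A, (p : A) * δ = δ ^ p * m₀) (ψ m : A)
    (hm : m ∈ maximalIdeal A) :
    ∃ m' ∈ maximalIdeal A, (1 + ψ * δ + δ * m) ^ p = 1 + ψ ^ p * δ ^ p + δ ^ p * m' := by
  obtain ⟨m₀, hm₀, hpδ⟩ := hpδ
  obtain ⟨r, hr⟩ := exists_add_pow_prime_eq hp (1 : A) (δ * (ψ + m))
  obtain ⟨q, hq⟩ : m ∣ (ψ + m) ^ p - ψ ^ p := by
    have := sub_dvd_pow_sub_pow (ψ + m) ψ p
    rwa [add_sub_cancel_left] at this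
  refine ⟨m * q + m₀ * ((ψ + m) * r), ?_, ?_⟩
  · exact Ideal.add_mem _ (Ideal.mul_mem_right _ _ hm) (Ideal.mul_mem_right _ _ hm₀)
  · have h1 : (1 + ψ * δ + δ * m) = 1 + δ * (ψ + m) := by ring
    rw [h1, hr, one_pow, mul_one, mul_pow]
    have h2 : (ψ + m) ^ p = ψ ^ p + m * q := by rw [← hq]; ring
    have h3 : (p : A) * (δ * (ψ + m)) * r = δ ^ p * (m₀ * ((ψ + m) * r)) := by
      calc (p : A) * (δ * (ψ + m)) * r = ((p : A) * δ) * ((ψ + m) * r) := by ring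
        _ = δ ^ p * (m₀ * ((ψ + m) * r)) := by rw [hpδ]; ring
    rw [h2, h3]
    ring

/-- the same for an element of `𝔽_p`: if `ψ ^ p - ψ ∈ 𝔪_A` then
`(1 + ψ δ + δ m) ^ p = 1 + ψ δ ^ p + δ ^ p m'`. -/
theorem h91y_pow_prime_const' {p : ℕ} (hp : p.Prime)
    (hpδ : ∃ m₀ ∈ maximalIdeal A, (p : A) * δ = δ ^ p * m₀) (ψ m : A)
    (hm : m ∈ maximalIdeal A) (hψ : ψ ^ p - ψ ∈ maximalIdeal A) :
    ∃ m' ∈ maximalIdeal A, (1 + ψ * δ + δ * m) ^ p = 1 + ψ * δ ^ p + δ ^ p * m' := by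
  obtain ⟨m', hm', h⟩ := h91y_pow_prime_const hp hpδ ψ m hm
  refine ⟨m' + (ψ ^ p - ψ), Ideal.add_mem _ hm' hψ, ?_⟩
  rw [h]
  ring

end PowPrime

section Inside

variable {A : Type*} [CommRing A] [IsDomain A] [ValuationRing A] {ι : Type*}

/-- the polynomial `∏ (X - c_i) ^ (e_i)` of the points of a divisor in a tube. -/
noncomputable def h91yPoly (T : Finset ι) (c : ι → A) (e : ι → ℕ) : A[X] :=
  ∏ i ∈ T, (X - C (c i)) ^ e i

theorem h91yPoly_monic (T : Finset ι) (c : ι → A) (e : ι → ℕ) : (h91yPoly T c e).Monic :=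
  monic_prod_of_monic _ _ fun i _ => (monic_X_sub_C (c i)).pow (e i)

theorem h91yPoly_coeff_zero (T : Finset ι) (c : ι → A) (e : ι → ℕ) :
    (h91yPoly T c e).coeff 0 = ∏ i ∈ T, (-c i) ^ e i := by
  rw [coeff_zero_eq_eval_zero, h91yPoly, eval_prod]
  refine Finset.prod_congr rfl fun i _ => ?_
  rw [eval_pow, eval_sub, eval_X, eval_C, zero_sub]

theorem h91yPoly_aeval {F : Type*} [Field F] [Algebra A F] (T : Finset ι) (c : ι → A)
    (e : ι → ℕ) (t : F) :
    aeval t (h91yPoly T c e) = ∏ i ∈ T, (t - algebraMap A F (c i)) ^ e i := by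
  rw [h91yPoly, map_prod]
  refine Finset.prod_congr rfl fun i _ => ?_
  rw [map_pow, map_sub, aeval_X, aeval_C]

/-- the coefficients below the top of `∏ (X - c_i) ^ (e_i)`, `c_i ∈ 𝔪_A`, are in `𝔪_A`. -/
theorem h91yPoly_coeff_mem (T : Finset ι) (c : ι → A) (e : ι → ℕ)
    (hc : ∀ i ∈ T, c i ∈ maximalIdeal A) (k : ℕ) (hk : k < (h91yPoly T c e).natDegree) :
    (h91yPoly T c e).coeff k ∈ maximalIdeal A := by
  classical
  rw [← IsLocalRing.residue_eq_zero_iff, ← coeff_map]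
  have h1 : (h91yPoly T c e).map (IsLocalRing.residue A) =
      X ^ (∑ i ∈ T, e i) := by
    rw [h91yPoly, Polynomial.map_prod, ← Finset.prod_pow_eq_pow_sum]
    refine Finset.prod_congr rfl fun i hi => ?_
    rw [Polynomial.map_pow, Polynomial.map_sub, map_X, map_C,
      (IsLocalRing.residue_eq_zero_iff _).mpr (hc i hi), map_zero, sub_zero]
  have h2 : (h91yPoly T c e).natDegree = ∑ i ∈ T, e i := by
    have := (h91yPoly_monic T c e).natDegree_map (IsLocalRing.residue A)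
    rw [h1, natDegree_X_pow] at this
    exact this.symm
  rw [h1, coeff_X_pow, if_neg]
  rw [h2] at hk
  exact hk.ne

/-- **all roots strictly inside the annulus**: if `c_i d_i = ϖ` with `d_i ∈ 𝔪_A` for all `i`,
the coefficients of `P = ∏ (X - c_i) ^ (e_i)` satisfy `coeff_j ϖ ^ j ∈ 𝔪_A P(0)` for `j ≥ 1`
(the hypothesis `hin` of `h91y_node`). -/
theorem h91yPoly_inside (T : Finset ι) (c d : ι → A) (e : ι → ℕ) (ϖ : A)
    (hd : ∀ i ∈ T, d i ∈ maximalIdeal A) (hcd : ∀ i ∈ T, c i * d i = ϖ)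
    (j : ℕ) (hj : 1 ≤ j) :
    ∃ r ∈ maximalIdeal A, (h91yPoly T c e).coeff j * ϖ ^ j = r * (h91yPoly T c e).coeff 0 := by
  classical
  set Q : A[X] := ∏ i ∈ T, (1 - C (d i) * X) ^ e i with hQ
  have hcomp : (h91yPoly T c e).comp (C ϖ * X) = C ((h91yPoly T c e).coeff 0) * Q := by
    rw [h91yPoly_coeff_zero, h91yPoly, Polynomial.prod_comp, hQ, map_prod,
      ← Finset.prod_mul_distrib]
    refine Finset.prod_congr rfl fun i hi => ?_
    rw [pow_comp, sub_comp, X_comp, C_comp, map_pow, ← mul_pow, ← hcd i hi]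
    congr 1
    rw [map_neg, map_mul]
    ring
  have hQm : Q.coeff j ∈ maximalIdeal A := by
    rw [← IsLocalRing.residue_eq_zero_iff, ← coeff_map]
    have h1 : Q.map (IsLocalRing.residue A) = 1 := by
      rw [hQ, Polynomial.map_prod]
      refine Finset.prod_eq_one fun i hi => ?_
      rw [Polynomial.map_pow, Polynomial.map_sub, Polynomial.map_one, Polynomial.map_mul,
        map_C, (IsLocalRing.residue_eq_zero_iff _).mpr (hd i hi), map_zero, zero_mul, sub_zero,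
        one_pow]
    rw [h1, coeff_one, if_neg]
    omega
  refine ⟨Q.coeff j, hQm, ?_⟩
  have h2 := congrArg (fun p : A[X] => p.coeff j) hcomp
  simp only [comp_C_mul_X_coeff, coeff_C_mul] at h2
  rw [h2]
  ring

end Inside

end Fermat.Agent.P7
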