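import Fermat.Agent.P7.H90RootsAbs
import Fermat.Agent.P7.H62NodeJumpInst
import Fermat.Agent.P7.H91Poly
import Fermat.Agent.P7.H20NodeThick
import Fermat.Agent.P6.H56Perm
import Fermat.Agent.S35.H62Node
import Fermat.Agent.LGC.Perm63
import Fermat.Agent.LGC.Red63

/-!
# P7 (wave 7, S40), block (5b), leaf T-C3-NF (helper90): the node normal form with a RATIONAL
polynomial, level instance

`p ∤ M` prime, good level (`auxLevel p ∣ M`), `A` over `p`, `𝔫` a crossing point of the two
components of the special fibre of the finite chart of level `M p`.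

* `h90gAct` : the action of `σ⁻¹` on the places of a chart with Galois invariant coordinate;
  `h90g_act_val`, `h90g_act_injective`, `h90g_act_centered`.
* `h90g_node_rat` : there are node coordinates `x y = p c` FIXED BY THE GALOIS GROUP such that
  every `u ≠ 0` whose divisor is divisible by `r ≠ 0` at the places centered at `𝔫` is

    `u = θ · x ^ m · e · (P₊(x) / P₋(x)) ^ r`,  `P± = ∏ i ∈ T±, (X - a_i) ^ n_i`

  (`h91yPoly` of helper91), `θ` a constant, `e` a unit of `B_𝔫`, `a_i d_i = p` with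
  `a_i, d_i ∈ 𝔪_A` (all roots strictly inside the annulus), and for EVERY `σ` in the inertia
  group with `σ u = u` the polynomials `P₊`, `P₋` have coefficients fixed by `σ`.  The branch
  forms of `P₊(x) / P₋(x)` are `x ^ s · (1 + π W∞)` and `(P₊(0) / P₋(0)) · (1 + π W₀)`.
-/

set_option autoImplicit false
set_option linter.unusedSectionVars false
set_option linter.unusedVariables false
set_option linter.style.longLine false
set_option linter.style.haveILetI false
set_option synthInstance.maxHeartbeats 400000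
set_option maxHeartbeats 1000000

open AlgebraicCurve ModularCurve WithZero IsLocalRing Polynomial

noncomputable section

namespace Fermat.Agent.P7

open Fermat.Agent.S37 Fermat.Agent.S37.GalI Fermat.Agent.Red Fermat.Agent.Red.GG
  Fermat.Agent.Red.GV Fermat.Agent.Red.GV.Soft Fermat.Agent.Red.ModelO Fermat.Agent.Red.Kron
  Fermat.Agent.LGC Fermat.Agent.S35 Fermat.Agent.P6

open scoped Pointwise

section Act

variable {N : ℕ}

/-- the action of `σ⁻¹` on the places of a chart with Galois invariant coordinate. -/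
def h90gAct (t : FF N) (σ : GQ) (ht : gal N σ • t = t) (k : ChartPlace N t) :
    ChartPlace N t :=
  ⟨(gal N σ)⁻¹ • k.1, by
    rw [SemilinearAut.smul_toValuationSubring,
      ValuationSubring.mem_pointwise_smul_iff_inv_smul_mem, inv_inv, ht]
    exact k.2⟩

theorem h90g_act_val (t : FF N) (σ : GQ) (ht : gal N σ • t = t) (k : ChartPlace N t)
    (y : FF N) :
    chartVal N t (h90gAct t σ ht k) y = chartVal N t k (gal N σ • y) :=
  h63p_adic_inv_smul (gal N σ) k.1 y

theorem h90g_act_injective (t : FF N) (σ : GQ) (ht : gal N σ • t = t) :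
    Function.Injective (h90gAct t σ ht) := by
  intro k k' h
  have h1 : (gal N σ)⁻¹ • k.1 = (gal N σ)⁻¹ • k'.1 := congrArg Subtype.val h
  exact Subtype.ext (smul_left_cancel _ h1)

theorem h90g_act_centered (A : ValuationSubring Kbar) (t : FF N) (σ : GQ)
    (ht : gal N σ • t = t) (htriv : InertiaTrivAt N A t σ) (𝔫 : Ideal (chart N A t))
    (hm : (maximalIdeal A).map (algebraMap A (chart N A t)) ≤ 𝔫) (k : ChartPlace N t)
    (hk : h26Centered (chart N A t) (chartVal N t) 𝔫 k) :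
    h26Centered (chart N A t) (chartVal N t) 𝔫 (h90gAct t σ ht k) := by
  intro b hb
  obtain ⟨c, hc, hcb⟩ := htriv b
  rw [h90g_act_val, ← hc] at hb
  have hc𝔫 : c ∈ 𝔫 := hk c hb
  have e : b = c - (c - b) := by ring
  rw [e]
  exact Ideal.sub_mem _ hc𝔫 (hm hcb)

end Act

variable (A : ValuationSubring Kbar) (M : ℕ) {p : ℕ} [NeZero M] [NeZero p]

/-- **T-C3-NF, nodes**: the node normal form with Galois-fixed coordinates and a polynomial
part whose coefficients are fixed by every inertia element fixing `u`. -/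
theorem h90g_node_rat (hp : p.Prime) (hM : ¬ p ∣ M) (haux : auxLevel p ∣ M)
    (hA : A.LiesOverPrime p)
    (𝔫 : Ideal (chart (M * p) A (jSS M p))) (h𝔫 : 𝔫.IsMaximal)
    (hPinf : h62i_Pinf A M hp hM hA ≤ 𝔫) (hP0 : h62i_P0 A M hp hM hA ≤ 𝔫) :
    ∃ x y c : chart (M * p) A (jSS M p),
      (∀ σ : GQ, gal (M * p) σ • (x : FF (M * p)) = x) ∧
      (∀ σ : GQ, gal (M * p) σ • (y : FF (M * p)) = y) ∧
      (∀ σ : GQ, gal (M * p) σ • (c : FF (M * p)) = c) ∧
      x ∈ 𝔫 ∧ y ∈ 𝔫 ∧ c ∉ 𝔫 ∧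
      x * y = algebraMap A (chart (M * p) A (jSS M p)) ((p : ℕ) : A) * c ∧
      (∀ z ∈ 𝔫, ∃ s, s ∉ 𝔫 ∧ s * z ∈ Ideal.span {x, y} ⊔ mExt A M p (jSS M p)) ∧
      ((x : FF (M * p)))⁻¹ ∈ h85cWinf A M p hp hA ∧
      ((y : FF (M * p)))⁻¹ ∈ h85cW0 A M p hp hM hA ∧
      ∀ u : FF (M * p), u ≠ 0 → ∀ r : ℕ, r ≠ 0 →
        (∀ i, h26Centered (chart (M * p) A (jSS M p)) (chartVal (M * p) (jSS M p)) 𝔫 i →
          ∃ n : ℤ, chartVal (M * p) (jSS M p) i u = exp (-((r : ℤ) * n))) →
        ∃ (m s : ℤ) (θ e : FF (M * p)) (Tp Tm : Finset (ChartPlace (M * p) (jSS M p)))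
          (a d : ChartPlace (M * p) (jSS M p) → A) (n : ChartPlace (M * p) (jSS M p) → ℕ)
          (π : A) (εinf ε0 : FF (M * p)),
          h13x_IsConst A θ ∧ θ ≠ 0 ∧
          e ∈ ssV A M p ∧ e⁻¹ ∈ ssV A M p ∧
          (∃ t : chart (M * p) A (jSS M p), t ∉ 𝔫 ∧
            (t : FF (M * p)) * e ∈ chart (M * p) A (jSS M p) ∧
            (t : FF (M * p)) * e⁻¹ ∈ chart (M * p) A (jSS M p)) ∧
          Disjoint Tp Tm ∧
          (∀ i, i ∈ Tp ∨ i ∈ Tm → a i ∈ maximalIdeal A ∧ d i ∈ maximalIdeal A ∧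
            a i * d i = ((p : ℕ) : A) ∧ 0 < n i ∧
            h26Centered (chart (M * p) A (jSS M p)) (chartVal (M * p) (jSS M p)) 𝔫 i) ∧
          u = θ * (x : FF (M * p)) ^ m * e *
            (aeval (x : FF (M * p)) (h91yPoly Tp a n) *
              (aeval (x : FF (M * p)) (h91yPoly Tm a n))⁻¹) ^ r ∧
          (∀ σ (hσ : σ ∈ A.inertiaSubgroupIn ℚ), gal (M * p) σ • u = u →
            (h91yPoly Tp a n).map (h56pTheta A hσ) = h91yPoly Tp a n ∧
            (h91yPoly Tm a n).map (h56pTheta A hσ) = h91yPoly Tm a n) ∧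
          π ∈ maximalIdeal A ∧ π ≠ 0 ∧
          εinf ∈ h26U π (h85cWinf A M p hp hA).toSubring ∧
          ε0 ∈ h26U π (h85cW0 A M p hp hM hA).toSubring ∧
          aeval (x : FF (M * p)) (h91yPoly Tp a n) *
              (aeval (x : FF (M * p)) (h91yPoly Tm a n))⁻¹ = (x : FF (M * p)) ^ s * εinf ∧
          aeval (x : FF (M * p)) (h91yPoly Tp a n) *
              (aeval (x : FF (M * p)) (h91yPoly Tm a n))⁻¹ =
            algebraMap A (FF (M * p)) ((h91yPoly Tp a n).coeff 0) *
              (algebraMap A (FF (M * p)) ((h91yPoly Tm a n).coeff 0))⁻¹ * ε0 := by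
  classical
  haveI := h𝔫.isPrime
  obtain ⟨u0, x, y, c', -, -, -, -, hxf, hyf, hcf, -, hD⟩ :=
    h62x_node A M hp hM haux hA 𝔫 h𝔫 hPinf hP0
  have hle : mExt A M p (jSS M p) ≤ 𝔫 := le_trans (h62i_m_le_Pinf A M hp hM hA) hPinf
  have hxy : x * y = algebraMap A (chart (M * p) A (jSS M p)) ((p : ℕ) : A) * c' := by
    rw [map_natCast]
    exact hD.hxy
  have hxW : ((x : FF (M * p)))⁻¹ ∈ h85cWinf A M p hp hA :=
    (h85c_mem_Winf_iff A M p hp hA _).mpr (h62i_inv_mem_soft A M hp hM hA x hD.hxPinf)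
  have hyW : ((y : FF (M * p)))⁻¹ ∈ h85cW0 A M p hp hM hA :=
    (h85c_mem_W0_iff A M p hp hM hA _).mpr (h62x_inv_mem_W0 A M hp hM hA y hD.hyP0)
  have hon := h62x_torOnBoth A M hp hM hA 𝔫 hPinf hP0
  have hx𝔫 : x ∈ 𝔫 := hP0 hD.hxP0
  have hy𝔫 : y ∈ 𝔫 := hPinf hD.hyPinf
  refine ⟨x, y, c', (h62x_mem_fixedB A M x).mp hxf, (h62x_mem_fixedB A M y).mp hyf,
    (h62x_mem_fixedB A M c').mp hcf, hx𝔫, hy𝔫, hD.hc, hxy, hD.hgen, hxW, hyW, ?_⟩
  intro u hu r hr hru
  obtain ⟨m, θ, e, T, ai, n, π, εinf, ε0, hθ, hθ0, he, he', hev, hes, hT, hT', hue, hπ, hπ0,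
    hεinf, hε0, hginf, hg0⟩ :=
    h62j_node_jump_level A M hp hM hA 𝔫 h𝔫 hle hon x y c' hx𝔫 hy𝔫 hD.hc ((p : ℕ) : A)
      (h20n_natCast_ne_zero A p) hxy hD.hgen hxW hyW u hu r hru
  have hC₀ : IfaceSSChart A M p (jSS M p) := h85s_ifaceSSChart_fin A M p hp hM hA
  have hF₀ : IfaceFinite (M * p) A (jSS M p) := h71_finite_fin' hp hM hA
  have hS₀ : IfaceSSSection A M p (jSS M p) := h85s_ifaceSSSection_of A M p _ hF₀
  -- the second coordinates of the roots
  have hdat : ∀ i : ChartPlace (M * p) (jSS M p), ∃ di : A,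
      i ∈ T → di ∈ maximalIdeal A ∧ ai i * di = ((p : ℕ) : A) := by
    intro i
    by_cases hi : i ∈ T
    · obtain ⟨hci, -, -, hvi, -⟩ := hT i hi
      obtain ⟨φ, hφker, -⟩ := hS₀ i 𝔫 h𝔫 hle hci
      have hkerle : RingHom.ker (φ : chart (M * p) A (jSS M p) →+* A) ≤ 𝔫 :=
        fun b hb => hci b ((hφker b).mp hb)
      have hφx : φ x = ai i := by
        have h1 : φ (x - algebraMap A (chart (M * p) A (jSS M p)) (ai i)) = 0 := by
          rw [hφker]
          have e1 : ((x - algebraMap A (chart (M * p) A (jSS M p)) (ai i) :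
              chart (M * p) A (jSS M p)) : FF (M * p)) =
              (x : FF (M * p)) - algebraMap A (FF (M * p)) (ai i) := rfl
          rw [e1, hvi]
          rw [← WithZero.exp_zero, WithZero.exp_lt_exp]
          norm_num
        rw [map_sub, AlgHom.commutes, sub_eq_zero] at h1
        exact h1
      have hφy : φ y ∈ maximalIdeal A := h26_section_local 𝔫 φ hkerle y hy𝔫
      have hφc : IsUnit (φ c') := by
        by_contra hnu
        have hm : φ c' ∈ maximalIdeal A := (IsLocalRing.mem_maximalIdeal _).mpr hnu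
        apply hD.hc
        have h1 : c' - algebraMap A (chart (M * p) A (jSS M p)) (φ c') ∈ 𝔫 := by
          apply hkerle
          rw [RingHom.mem_ker]
          simp
        have h2 : algebraMap A (chart (M * p) A (jSS M p)) (φ c') ∈ 𝔫 :=
          hle (Ideal.mem_map_of_mem _ hm)
        have h3 := 𝔫.add_mem h1 h2
        simpa using h3
      obtain ⟨g, hg⟩ := hφc.exists_right_inv
      refine ⟨φ y * g, fun _ => ⟨Ideal.mul_mem_right _ _ hφy, ?_⟩⟩
      have h3 : φ x * φ y = ((p : ℕ) : A) * φ c' := by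
        have h4 := congrArg φ hxy
        rw [map_mul, map_mul, AlgHom.commutes] at h4
        exact h4
      rw [← hφx]
      calc φ x * (φ y * g) = (φ x * φ y) * g := by ring
        _ = ((p : ℕ) : A) * (φ c' * g) := by rw [h3]; ring
        _ = ((p : ℕ) : A) := by rw [hg, mul_one]
    · exact ⟨0, fun h => absurd h hi⟩
  choose d hd using hdat
  set Tp : Finset (ChartPlace (M * p) (jSS M p)) := T.filter (fun i => 0 < n i) with hTp
  set Tm : Finset (ChartPlace (M * p) (jSS M p)) := T.filter (fun i => n i < 0) with hTm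
  set n' : ChartPlace (M * p) (jSS M p) → ℕ := fun i => (n i).natAbs with hn'
  have hsplit : ∏ i ∈ T, ((x : FF (M * p)) - algebraMap A (FF (M * p)) (ai i)) ^ n i =
      aeval (x : FF (M * p)) (h91yPoly Tp ai n') *
        (aeval (x : FF (M * p)) (h91yPoly Tm ai n'))⁻¹ := by
    rw [h91yPoly_aeval, h91yPoly_aeval]
    exact h90g_prod_split T _ n
  have hsplit0 : ∏ i ∈ T, (-algebraMap A (FF (M * p)) (ai i)) ^ n i =
      algebraMap A (FF (M * p)) ((h91yPoly Tp ai n').coeff 0) *
        (algebraMap A (FF (M * p)) ((h91yPoly Tm ai n').coeff 0))⁻¹ := by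
    rw [h91yPoly_coeff_zero, h91yPoly_coeff_zero, map_prod, map_prod,
      h90g_prod_split T _ n]
    congr 1
    · refine Finset.prod_congr rfl fun i _ => ?_
      rw [map_pow, map_neg]
    · congr 1
      refine Finset.prod_congr rfl fun i _ => ?_
      rw [map_pow, map_neg]
  refine ⟨m, ∑ i ∈ T, n i, θ, e, Tp, Tm, ai, d, n', π, εinf, ε0, hθ, hθ0, he, he', hes, ?_, ?_,
    ?_, ?_, hπ, hπ0, hεinf, hε0, ?_, ?_⟩
  · rw [Finset.disjoint_left]
    intro i hi hi'
    rw [hTp, Finset.mem_filter] at hi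
    rw [hTm, Finset.mem_filter] at hi'
    omega
  · intro i hi
    have hiT : i ∈ T ∧ n i ≠ 0 := by
      rcases hi with h | h
      · rw [hTp, Finset.mem_filter] at h
        exact ⟨h.1, by omega⟩
      · rw [hTm, Finset.mem_filter] at h
        exact ⟨h.1, by omega⟩
    obtain ⟨hci, ham, -, -, -⟩ := hT i hiT.1
    obtain ⟨hdm, had⟩ := hd i hiT.1
    exact ⟨ham, hdm, had, Int.natAbs_pos.mpr hiT.2, hci⟩
  · rw [← hsplit]
    exact hue
  · intro σ hσ hσu
    have htriv : InertiaTrivAt (M * p) A (jSS M p) σ :=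
      h63r_triv_of_chart hp hM hA _ hσ (h63p_gal_jSS M p σ) hC₀.hBV hC₀.hQEP
    have hconst : ∀ k, h26Centered (chart (M * p) A (jSS M p)) (chartVal (M * p) (jSS M p)) 𝔫 k →
        ∀ c : A, c ≠ 0 → chartVal (M * p) (jSS M p) k (algebraMap A (FF (M * p)) c) = 1 := by
      intro k hk c hc
      obtain ⟨φ, hφker, -⟩ := hS₀ k 𝔫 h𝔫 hle hk
      exact h75p_const_of_section hC₀.hB k φ hφker c hc
    have hstab : ∀ (P : ℤ → Prop) [DecidablePred P], ¬ P 0 →
        (h91yPoly (T.filter (fun i => P (n i))) ai n').map (h56pTheta A hσ) =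
          h91yPoly (T.filter (fun i => P (n i))) ai n' := by
      intro P _ hP0
      have key := h90g_stable (v := chartVal (M * p) (jSS M p))
        (h26Centered (chart (M * p) A (jSS M p)) (chartVal (M * p) (jSS M p)) 𝔫)
        ((h56pTau (M * p) σ : FF (M * p) ≃+* FF (M * p)) : FF (M * p) →+* FF (M * p))
        (h56pTheta A hσ)
        (fun a => h56p_tau_algebraMap A (M * p) hσ a)
        (h90gAct (jSS M p) σ (h63p_gal_jSS M p σ))
        (fun k y => h90g_act_val (jSS M p) σ (h63p_gal_jSS M p σ) k y)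
        (fun k hk => h90g_act_centered A (jSS M p) σ (h63p_gal_jSS M p σ) htriv 𝔫 hle k hk)
        hconst (x : FF (M * p)) u ((h62x_mem_fixedB A M x).mp hxf σ) hσu r hr T ai n
        (fun i hi => by
          obtain ⟨hci, -, -, hvi, hui⟩ := hT i hi
          refine ⟨hci, ?_, hui⟩
          rw [hvi, ← WithZero.exp_zero, WithZero.exp_lt_exp]
          norm_num)
        hT' P hP0
      exact h90g_poly_map _ ai n' (h56pTheta A hσ) (h90gAct (jSS M p) σ (h63p_gal_jSS M p σ))
        (fun i hi => (key i hi).1)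
        (fun i _ j _ h => h90g_act_injective (jSS M p) σ (h63p_gal_jSS M p σ) h)
        (fun i hi => (key i hi).2.1)
        (fun i hi => by
          show (n _).natAbs = (n i).natAbs
          rw [(key i hi).2.2])
    exact ⟨hstab (fun z => 0 < z) (lt_irrefl 0), hstab (fun z => z < 0) (lt_irrefl 0)⟩
  · rw [← hsplit]
    exact hginf
  · rw [← hsplit, ← hsplit0]
    exact hg0

end Fermat.Agent.P7
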