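import Fermat.Agent.P7.H90SmoothAbs
import Fermat.Agent.P7.H90NodeRat
import Fermat.Agent.P6.H62PuritySmInst

/-!
# P7 (wave 7, S40), block (5b), leaf T-C3-NF (helper90): the normal form with a RATIONAL
polynomial at the closed points lying on ONE component, level instance

`p ∤ M` prime, good level, `A` over `p`, `𝔫` a closed point of the special fibre of the finite
chart of level `M p` which lies on one component only (`W` its Gauss valuation ring).

* `h90g_smooth_core` : for a smooth datum `H62ySmooth … W W' 𝔫 t` with `t` FIXED BY THE GALOIS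
  GROUP, every `u ≠ 0` whose divisor is divisible by `r ≠ 0` at the places centered at `𝔫` is

    `u = θ · ε · (P₊(t) / P₋(t)) ^ r`,  `P± = ∏ i ∈ T±, (X - a_i) ^ n_i`  (`h91yPoly`),

  `θ` a constant, `ε` a unit of `B_𝔫`, `a_i ∈ 𝔪_A`, and for EVERY `σ` in the inertia group
  with `σ u = u` the polynomials `P₊`, `P₋` have coefficients fixed by `σ`.
* `h90g_smooth_rat_inf`, `h90g_smooth_rat_zero` : the two cases (`𝔫` on `C∞` only, `W = W∞ =
  softV`; `𝔫` on `C₀` only, `W = W₀`), with the Galois-fixed local parameter `t = α u₀`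
  resp. `t = β u₀`, `u₀` rational.
-/

set_option autoImplicit false
set_option linter.unusedSectionVars false
set_option linter.unusedVariables false
set_option linter.style.longLine false
set_option linter.style.haveILetI false
set_option synthInstance.maxHeartbeats 400000
set_option maxHeartbeats 1000000

open AlgebraicCurve ModularCurve WithZero IsLocalRing Polynomial

noncomputable section

namespace Fermat.Agent.P7

open Fermat.Agent.S37 Fermat.Agent.S37.GalI Fermat.Agent.Red Fermat.Agent.Red.GG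
  Fermat.Agent.Red.GV Fermat.Agent.Red.GV.Soft Fermat.Agent.Red.ModelO Fermat.Agent.Red.Kron
  Fermat.Agent.LGC Fermat.Agent.S35 Fermat.Agent.P6

variable (A : ValuationSubring Kbar) (M : ℕ) {p : ℕ} [NeZero M] [NeZero p]

/-- **T-C3-NF, smooth points, core**: the normal form at a closed point on one component, with
a Galois-fixed local parameter and a polynomial part whose coefficients are fixed by every
inertia element fixing `u`. -/
theorem h90g_smooth_core (hp : p.Prime) (hM : ¬ p ∣ M) (hA : A.LiesOverPrime p)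
    (𝔫 : Ideal (chart (M * p) A (jSS M p))) (h𝔫 : 𝔫.IsMaximal)
    (hle : mExt A M p (jSS M p) ≤ 𝔫)
    (W W' : Subring (FF (M * p))) (t : chart (M * p) A (jSS M p))
    (htf : ∀ σ : GQ, gal (M * p) σ • (t : FF (M * p)) = t)
    (h : H62ySmooth (chart (M * p) A (jSS M p)) (ssV A M p) (chartVal (M * p) (jSS M p))
      W W' 𝔫 t)
    (hsc : ∀ f : FF (M * p), f ≠ 0 → ∃ θ : FF (M * p), h13x_IsConst A θ ∧ θ ≠ 0 ∧
      f * θ⁻¹ ∈ W ∧ (f * θ⁻¹)⁻¹ ∈ W)
    (u : FF (M * p)) (hu : u ≠ 0) (r : ℕ) (hr : r ≠ 0)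
    (hru : ∀ i, h26Centered (chart (M * p) A (jSS M p)) (chartVal (M * p) (jSS M p)) 𝔫 i →
      ∃ n : ℤ, chartVal (M * p) (jSS M p) i u = exp (-((r : ℤ) * n))) :
    ∃ (θ ε : FF (M * p)) (Tp Tm : Finset (ChartPlace (M * p) (jSS M p)))
      (a : ChartPlace (M * p) (jSS M p) → A) (n : ChartPlace (M * p) (jSS M p) → ℕ),
      h13x_IsConst A θ ∧ θ ≠ 0 ∧
      (∃ s : chart (M * p) A (jSS M p), s ∉ 𝔫 ∧
        (s : FF (M * p)) * ε ∈ chart (M * p) A (jSS M p) ∧
        (s : FF (M * p)) * ε⁻¹ ∈ chart (M * p) A (jSS M p)) ∧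
      Disjoint Tp Tm ∧
      (∀ i, i ∈ Tp ∨ i ∈ Tm → a i ∈ maximalIdeal A ∧ 0 < n i ∧
        h26Centered (chart (M * p) A (jSS M p)) (chartVal (M * p) (jSS M p)) 𝔫 i) ∧
      u = θ * ε * (aeval (t : FF (M * p)) (h91yPoly Tp a n) *
        (aeval (t : FF (M * p)) (h91yPoly Tm a n))⁻¹) ^ r ∧
      (∀ σ (hσ : σ ∈ A.inertiaSubgroupIn ℚ), gal (M * p) σ • u = u →
        (h91yPoly Tp a n).map (h56pTheta A hσ) = h91yPoly Tp a n ∧
        (h91yPoly Tm a n).map (h56pTheta A hσ) = h91yPoly Tm a n) := by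
  classical
  haveI := h𝔫.isPrime
  obtain ⟨θ, ε, T, ai, n, hθ, hθ0, hεO, hεO', hT, hT', hue⟩ :=
    h90g_smooth_factor h hsc u hu r hru
  have hC₀ : IfaceSSChart A M p (jSS M p) := h85s_ifaceSSChart_fin A M p hp hM hA
  have hF₀ : IfaceFinite (M * p) A (jSS M p) := h71_finite_fin' hp hM hA
  have hS₀ : IfaceSSSection A M p (jSS M p) := h85s_ifaceSSSection_of A M p _ hF₀
  set Tp : Finset (ChartPlace (M * p) (jSS M p)) := T.filter (fun i => 0 < n i) with hTp
  set Tm : Finset (ChartPlace (M * p) (jSS M p)) := T.filter (fun i => n i < 0) with hTm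
  set n' : ChartPlace (M * p) (jSS M p) → ℕ := fun i => (n i).natAbs with hn'
  have hsplit : ∏ i ∈ T, ((t : FF (M * p)) - algebraMap A (FF (M * p)) (ai i)) ^ n i =
      aeval (t : FF (M * p)) (h91yPoly Tp ai n') *
        (aeval (t : FF (M * p)) (h91yPoly Tm ai n'))⁻¹ := by
    rw [h91yPoly_aeval, h91yPoly_aeval]
    exact h90g_prod_split T _ n
  refine ⟨θ, ε, Tp, Tm, ai, n', hθ, hθ0, ?_, ?_, ?_, ?_, ?_⟩
  · obtain ⟨s₁, hs₁, h1⟩ := hεO
    obtain ⟨s₂, hs₂, h2⟩ := hεO'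
    refine ⟨s₁ * s₂, fun hmem => (h𝔫.isPrime.mem_or_mem hmem).elim hs₁ hs₂, ?_, ?_⟩
    · have e : ((s₁ * s₂ : chart (M * p) A (jSS M p)) : FF (M * p)) * ε =
          (s₂ : FF (M * p)) * ((s₁ : FF (M * p)) * ε) := by
        push_cast
        ring
      rw [e]
      exact (chart (M * p) A (jSS M p)).mul_mem s₂.2 h1
    · have e : ((s₁ * s₂ : chart (M * p) A (jSS M p)) : FF (M * p)) * ε⁻¹ =
          (s₁ : FF (M * p)) * ((s₂ : FF (M * p)) * ε⁻¹) := by
        push_cast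
        ring
      rw [e]
      exact (chart (M * p) A (jSS M p)).mul_mem s₁.2 h2
  · rw [Finset.disjoint_left]
    intro i hi hi'
    rw [hTp, Finset.mem_filter] at hi
    rw [hTm, Finset.mem_filter] at hi'
    omega
  · intro i hi
    have hiT : i ∈ T ∧ n i ≠ 0 := by
      rcases hi with h | h
      · rw [hTp, Finset.mem_filter] at h
        exact ⟨h.1, by omega⟩
      · rw [hTm, Finset.mem_filter] at h
        exact ⟨h.1, by omega⟩
    obtain ⟨hci, ham, -, -⟩ := hT i hiT.1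
    exact ⟨ham, Int.natAbs_pos.mpr hiT.2, hci⟩
  · rw [← hsplit]
    exact hue
  · intro σ hσ hσu
    have htriv : InertiaTrivAt (M * p) A (jSS M p) σ :=
      h63r_triv_of_chart hp hM hA _ hσ (h63p_gal_jSS M p σ) hC₀.hBV hC₀.hQEP
    have hconst : ∀ k, h26Centered (chart (M * p) A (jSS M p)) (chartVal (M * p) (jSS M p)) 𝔫 k →
        ∀ c : A, c ≠ 0 → chartVal (M * p) (jSS M p) k (algebraMap A (FF (M * p)) c) = 1 := by
      intro k hk c hc
      obtain ⟨φ, hφker, -⟩ := hS₀ k 𝔫 h𝔫 hle hk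
      exact h75p_const_of_section hC₀.hB k φ hφker c hc
    have hstab : ∀ (P : ℤ → Prop) [DecidablePred P], ¬ P 0 →
        (h91yPoly (T.filter (fun i => P (n i))) ai n').map (h56pTheta A hσ) =
          h91yPoly (T.filter (fun i => P (n i))) ai n' := by
      intro P _ hP0
      have key := h90g_stable (v := chartVal (M * p) (jSS M p))
        (h26Centered (chart (M * p) A (jSS M p)) (chartVal (M * p) (jSS M p)) 𝔫)
        ((h56pTau (M * p) σ : FF (M * p) ≃+* FF (M * p)) : FF (M * p) →+* FF (M * p))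
        (h56pTheta A hσ)
        (fun a => h56p_tau_algebraMap A (M * p) hσ a)
        (h90gAct (jSS M p) σ (h63p_gal_jSS M p σ))
        (fun k y => h90g_act_val (jSS M p) σ (h63p_gal_jSS M p σ) k y)
        (fun k hk => h90g_act_centered A (jSS M p) σ (h63p_gal_jSS M p σ) htriv 𝔫 hle k hk)
        hconst (t : FF (M * p)) u (htf σ) hσu r hr T ai n
        (fun i hi => by
          obtain ⟨hci, -, hvi, hui⟩ := hT i hi
          refine ⟨hci, ?_, hui⟩
          rw [hvi, ← WithZero.exp_zero, WithZero.exp_lt_exp]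
          norm_num)
        hT' P hP0
      exact h90g_poly_map _ ai n' (h56pTheta A hσ) (h90gAct (jSS M p) σ (h63p_gal_jSS M p σ))
        (fun i hi => (key i hi).1)
        (fun i _ j _ h => h90g_act_injective (jSS M p) σ (h63p_gal_jSS M p σ) h)
        (fun i hi => (key i hi).2.1)
        (fun i hi => by
          show (n _).natAbs = (n i).natAbs
          rw [(key i hi).2.2])
    exact ⟨hstab (fun z => 0 < z) (lt_irrefl 0), hstab (fun z => z < 0) (lt_irrefl 0)⟩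

/-- **T-C3-NF at the points of `C∞` only** (`W = W∞ = softV`). -/
theorem h90g_smooth_rat_inf (hp : p.Prime) (hM : ¬ p ∣ M) (haux : auxLevel p ∣ M)
    (hA : A.LiesOverPrime p)
    (𝔫 : Ideal (chart (M * p) A (jSS M p))) (h𝔫 : 𝔫.IsMaximal)
    (hPinf : h62i_Pinf A M hp hM hA ≤ 𝔫) (hP0 : ¬ h62i_P0 A M hp hM hA ≤ 𝔫) :
    ∃ t : chart (M * p) A (jSS M p),
      (∀ σ : GQ, gal (M * p) σ • (t : FF (M * p)) = t) ∧
      H62ySmooth (chart (M * p) A (jSS M p)) (ssV A M p) (chartVal (M * p) (jSS M p))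
        (softV A (M * p)) (h85cW0 A M p hp hM hA).toSubring 𝔫 t ∧
      ∀ u : FF (M * p), u ≠ 0 → ∀ r : ℕ, r ≠ 0 →
        (∀ i, h26Centered (chart (M * p) A (jSS M p)) (chartVal (M * p) (jSS M p)) 𝔫 i →
          ∃ n : ℤ, chartVal (M * p) (jSS M p) i u = exp (-((r : ℤ) * n))) →
        ∃ (θ ε : FF (M * p)) (Tp Tm : Finset (ChartPlace (M * p) (jSS M p)))
          (a : ChartPlace (M * p) (jSS M p) → A) (n : ChartPlace (M * p) (jSS M p) → ℕ),
          h13x_IsConst A θ ∧ θ ≠ 0 ∧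
          (∃ s : chart (M * p) A (jSS M p), s ∉ 𝔫 ∧
            (s : FF (M * p)) * ε ∈ chart (M * p) A (jSS M p) ∧
            (s : FF (M * p)) * ε⁻¹ ∈ chart (M * p) A (jSS M p)) ∧
          Disjoint Tp Tm ∧
          (∀ i, i ∈ Tp ∨ i ∈ Tm → a i ∈ maximalIdeal A ∧ 0 < n i ∧
            h26Centered (chart (M * p) A (jSS M p)) (chartVal (M * p) (jSS M p)) 𝔫 i) ∧
          u = θ * ε * (aeval (t : FF (M * p)) (h91yPoly Tp a n) *
            (aeval (t : FF (M * p)) (h91yPoly Tm a n))⁻¹) ^ r ∧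
          (∀ σ (hσ : σ ∈ A.inertiaSubgroupIn ℚ), gal (M * p) σ • u = u →
            (h91yPoly Tp a n).map (h56pTheta A hσ) = h91yPoly Tp a n ∧
            (h91yPoly Tm a n).map (h56pTheta A hσ) = h91yPoly Tm a n) := by
  have hm : mExt A M p (jSS M p) ≤ 𝔫 := le_trans (h62i_m_le_Pinf A M hp hM hA) hPinf
  obtain ⟨t₀, h₀⟩ := h62y_smooth_inf A M hp hM haux hA 𝔫 h𝔫 hPinf hP0
  obtain ⟨u₀, hu₀rat, hLP, -, h2⟩ := h62x_smooth_inf A M hp hM haux hA 𝔫 h𝔫 hPinf hP0
  have h𝔰max : (𝔫.comap ((h62i_α A M p :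
      chart M A (jB M) →ₐ[A] chart (M * p) A (jSS M p)) :
      chart M A (jB M) →+* chart (M * p) A (jSS M p))).IsMaximal :=
    h62l_comap_isMaximal _ 𝔫 (h62i_Pinf A M hp hM hA) hPinf (h62d_surj A M hp hM haux hA)
  have hu := h62x_LP_not_mem A M hp hM haux hA _ h𝔰max (h62x_comap_le A M _ 𝔫 hm) u₀ hLP
  have hb1 := h62x_α_not_mem_Pinf A M hp hM hA u₀ hu
  have hb2 := h62x_α_not_mem_P0 A M hp hM hA u₀ hu
  have htinv := h62x_inv_mem_ssV A M hp hM hA _ hb1 hb2
  have h : H62ySmooth (chart (M * p) A (jSS M p)) (ssV A M p) (chartVal (M * p) (jSS M p))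
      (softV A (M * p)) (h85cW0 A M p hp hM hA).toSubring 𝔫 (h62i_α A M p u₀) :=
    h90g_smooth_of h₀ _ (Ideal.mem_comap.mp hLP.1) (h62x_coe_ne_zero A M hp hM hA _ hb1)
      (h63r_ssV_le_soft hp hA htinv) h2
  have htf : ∀ σ : GQ, gal (M * p) σ • ((h62i_α A M p u₀ : chart (M * p) A (jSS M p)) :
      FF (M * p)) = (h62i_α A M p u₀ : chart (M * p) A (jSS M p)) :=
    (h62x_mem_fixedB A M _).mp (h62x_α_mem_fixedB A M u₀ ((h62i_mem_R A M u₀).mpr hu₀rat))
  refine ⟨h62i_α A M p u₀, htf, h, fun u hu0 r hr hru => ?_⟩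
  exact h90g_smooth_core A M hp hM hA 𝔫 h𝔫 hm _ _ _ htf h
    (fun f hf => h62j_scale_inf A hp hA (M * p) f hf) u hu0 r hr hru

/-- **T-C3-NF at the points of `C₀` only** (`W = W₀`). -/
theorem h90g_smooth_rat_zero (hp : p.Prime) (hM : ¬ p ∣ M) (haux : auxLevel p ∣ M)
    (hA : A.LiesOverPrime p)
    (𝔫 : Ideal (chart (M * p) A (jSS M p))) (h𝔫 : 𝔫.IsMaximal)
    (hP0 : h62i_P0 A M hp hM hA ≤ 𝔫) (hPinf : ¬ h62i_Pinf A M hp hM hA ≤ 𝔫) :
    ∃ t : chart (M * p) A (jSS M p),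
      (∀ σ : GQ, gal (M * p) σ • (t : FF (M * p)) = t) ∧
      H62ySmooth (chart (M * p) A (jSS M p)) (ssV A M p) (chartVal (M * p) (jSS M p))
        (h85cW0 A M p hp hM hA).toSubring (softV A (M * p)) 𝔫 t ∧
      ∀ u : FF (M * p), u ≠ 0 → ∀ r : ℕ, r ≠ 0 →
        (∀ i, h26Centered (chart (M * p) A (jSS M p)) (chartVal (M * p) (jSS M p)) 𝔫 i →
          ∃ n : ℤ, chartVal (M * p) (jSS M p) i u = exp (-((r : ℤ) * n))) →
        ∃ (θ ε : FF (M * p)) (Tp Tm : Finset (ChartPlace (M * p) (jSS M p)))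
          (a : ChartPlace (M * p) (jSS M p) → A) (n : ChartPlace (M * p) (jSS M p) → ℕ),
          h13x_IsConst A θ ∧ θ ≠ 0 ∧
          (∃ s : chart (M * p) A (jSS M p), s ∉ 𝔫 ∧
            (s : FF (M * p)) * ε ∈ chart (M * p) A (jSS M p) ∧
            (s : FF (M * p)) * ε⁻¹ ∈ chart (M * p) A (jSS M p)) ∧
          Disjoint Tp Tm ∧
          (∀ i, i ∈ Tp ∨ i ∈ Tm → a i ∈ maximalIdeal A ∧ 0 < n i ∧
            h26Centered (chart (M * p) A (jSS M p)) (chartVal (M * p) (jSS M p)) 𝔫 i) ∧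
          u = θ * ε * (aeval (t : FF (M * p)) (h91yPoly Tp a n) *
            (aeval (t : FF (M * p)) (h91yPoly Tm a n))⁻¹) ^ r ∧
          (∀ σ (hσ : σ ∈ A.inertiaSubgroupIn ℚ), gal (M * p) σ • u = u →
            (h91yPoly Tp a n).map (h56pTheta A hσ) = h91yPoly Tp a n ∧
            (h91yPoly Tm a n).map (h56pTheta A hσ) = h91yPoly Tm a n) := by
  have hm : mExt A M p (jSS M p) ≤ 𝔫 := le_trans (h62i_m_le_P0 A M hp hM hA) hP0
  obtain ⟨t₀, h₀⟩ := h62y_smooth_zero A M hp hM haux hA 𝔫 h𝔫 hP0 hPinf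
  obtain ⟨u₀, hu₀rat, hLP, -, h2⟩ := h62x_smooth_zero A M hp hM haux hA 𝔫 h𝔫 hP0 hPinf
  have h𝔰max : (𝔫.comap ((h62i_β A M hp hM hA :
      chart M A (jB M) →ₐ[A] chart (M * p) A (jSS M p)) :
      chart M A (jB M) →+* chart (M * p) A (jSS M p))).IsMaximal :=
    h62l_comap_isMaximal _ 𝔫 (h62i_P0 A M hp hM hA) hP0 (h62x_surj0 A M hp hM haux hA)
  have hu := h62x_LP_not_mem A M hp hM haux hA _ h𝔰max (h62x_comap_le A M _ 𝔫 hm) u₀ hLP
  have hb1 := h62x_β_not_mem_Pinf A M hp hM hA u₀ hu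
  have hb2 := h62x_β_not_mem_P0 A M hp hM hA u₀ hu
  have htinv := h62x_inv_mem_ssV A M hp hM hA _ hb1 hb2
  have h : H62ySmooth (chart (M * p) A (jSS M p)) (ssV A M p) (chartVal (M * p) (jSS M p))
      (h85cW0 A M p hp hM hA).toSubring (softV A (M * p)) 𝔫 (h62i_β A M hp hM hA u₀) :=
    h90g_smooth_of h₀ _ (Ideal.mem_comap.mp hLP.1) (h62x_coe_ne_zero A M hp hM hA _ hb1)
      (h85c_ssV_le_W0 A M p hp hM hA htinv) h2
  have htf : ∀ σ : GQ, gal (M * p) σ • ((h62i_β A M hp hM hA u₀ :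
      chart (M * p) A (jSS M p)) : FF (M * p)) =
      (h62i_β A M hp hM hA u₀ : chart (M * p) A (jSS M p)) :=
    (h62x_mem_fixedB A M _).mp
      (h62x_β_mem_fixedB A M hp hM hA u₀ ((h62i_mem_R A M u₀).mpr hu₀rat))
  refine ⟨h62i_β A M hp hM hA u₀, htf, h, fun u hu0 r hr hru => ?_⟩
  exact h90g_smooth_core A M hp hM hA 𝔫 h𝔫 hm _ _ _ htf h
    (fun f hf => h62j_scale_zero A M hp hM hA f hf) u hu0 r hr hru

end Fermat.Agent.P7
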