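import Fermat.Agent.P6.H56Perm
import Fermat.Agent.P6.H62PuritySm

/-!
# Wave 7 (S40), block (5b), leaf INERT-LOC (helper91): the inertia group fixes every closed
point of the special fibre of the charts of level `M p` and preserves its local ring

`A` a valuation subring of `ℚ̄` over `p`, `τ` in the inertia group of `A`, `B = chart (M p) A t`
a chart with `τ t = t` and the axioms `IfaceSSChart` (the finite chart `t = jSS M p` and the chart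
at infinity `t = (jSS M p)⁻¹`), `𝔫` an ideal of `B` containing `𝔪_A B`,
`O_𝔫 = h62yO B 𝔫` its local ring inside `FF (M p)`.

* `h91i_tau_mem_chart` : `τ B ⊆ B`; `h91i_sub_mem` : `τ b - b ∈ 𝔪_A B` for `b ∈ B`.
* `h91i_mem_iff` : `τ b ∈ 𝔫 ↔ b ∈ 𝔫`.
* `h91i_tau_mem_O` : `f ∈ O_𝔫 → τ f ∈ O_𝔫`; `h91i_tau_unitAt` : units of `O_𝔫` are mapped to
  units (the shape `∃ s ∉ 𝔫, s e ∈ B ∧ s e⁻¹ ∈ B`); `h91i_quot_unit` : `τ e / e` is a unit of
  `O_𝔫` for a unit `e` of `O_𝔫` (both shapes).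
* `h91i_const_quot` : `τ θ = c θ` with `c` a unit of `A`, for a constant `θ`;
  `h91i_const_quot_O` : `τ θ / θ` is a unit of `O_𝔫`.
* `h91iPi` : the permutation `k ↦ τ k` of the places of the chart; `h91i_pi_val` :
  `v_{τ k} (τ f) = v_k f`; `h91i_pi_centred` : `τ k` is centered at `𝔫` if `k` is;
  `h91i_pi_injective`.
* `h91i_fin_*`, `h91i_inf_*` : the instances for the two charts (no hypothesis left).
-/

set_option autoImplicit false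
set_option linter.unusedSectionVars false
set_option linter.unusedVariables false
set_option linter.style.haveILetI false

open AlgebraicCurve ModularCurve WithZero IsLocalRing

noncomputable section

namespace Fermat.Agent.P7

open Fermat.Agent.S37 Fermat.Agent.Red Fermat.Agent.Red.GG Fermat.Agent.Red.GV
  Fermat.Agent.Red.ModelO Fermat.Agent.Red.Kron Fermat.Agent.LGC Fermat.Agent.S35
  Fermat.Agent.P6

section Level

variable (A : ValuationSubring Kbar) (M : ℕ) {p : ℕ} [NeZero M] [NeZero p]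
  (hp : p.Prime) (hM : ¬ p ∣ M) (hA : A.LiesOverPrime p)

/-- inertia maps a chart with invariant coordinate into itself. -/
theorem h91i_tau_mem_chart {τ : GQ} (hτ : τ ∈ A.inertiaSubgroupIn ℚ) (t : FF (M * p))
    (ht : gal (M * p) τ • t = t) {b : FF (M * p)} (hb : b ∈ chart (M * p) A t) :
    h56pTau (M * p) τ b ∈ chart (M * p) A t :=
  h63r_gal_mem_chart (A := A) (M * p) t
    (fun a ha => (Fermat.Agent.S05.H86.inertia_apply_mem A hτ ha).1) ht hb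

include hp hM hA in
/-- **inertia acts trivially on the special fibre**: `τ b - b ∈ 𝔪_A B`. -/
theorem h91i_sub_mem {τ : GQ} (hτ : τ ∈ A.inertiaSubgroupIn ℚ) {t : FF (M * p)}
    (ht : gal (M * p) τ • t = t) (hC : IfaceSSChart A M p t) (b : chart (M * p) A t) :
    (⟨h56pTau (M * p) τ (b : FF (M * p)), h91i_tau_mem_chart A M hτ t ht b.2⟩ :
      chart (M * p) A t) - b ∈ mExt A M p t := by
  obtain ⟨c, hc, hcb⟩ := h63r_triv_of_chart hp hM hA t hτ ht hC.hBV hC.hQEP b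
  have e : c = ⟨h56pTau (M * p) τ (b : FF (M * p)), h91i_tau_mem_chart A M hτ t ht b.2⟩ :=
    Subtype.ext hc
  rw [← e]
  exact hcb

include hp hM hA in
/-- **every ideal containing `𝔪_A B` is stable under inertia.** -/
theorem h91i_mem_iff {τ : GQ} (hτ : τ ∈ A.inertiaSubgroupIn ℚ) {t : FF (M * p)}
    (ht : gal (M * p) τ • t = t) (hC : IfaceSSChart A M p t)
    (𝔫 : Ideal (chart (M * p) A t)) (hm : mExt A M p t ≤ 𝔫) (b : chart (M * p) A t) :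
    (⟨h56pTau (M * p) τ (b : FF (M * p)), h91i_tau_mem_chart A M hτ t ht b.2⟩ :
      chart (M * p) A t) ∈ 𝔫 ↔ b ∈ 𝔫 := by
  have h := hm (h91i_sub_mem A M hp hM hA hτ ht hC b)
  constructor
  · intro h1
    have := 𝔫.sub_mem h1 h
    rwa [sub_sub_cancel] at this
  · intro h1
    have := 𝔫.add_mem h h1
    rwa [sub_add_cancel] at this

include hp hM hA in
/-- **inertia maps the local ring `O_𝔫` into itself.** -/
theorem h91i_tau_mem_O {τ : GQ} (hτ : τ ∈ A.inertiaSubgroupIn ℚ) {t : FF (M * p)}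
    (ht : gal (M * p) τ • t = t) (hC : IfaceSSChart A M p t)
    (𝔫 : Ideal (chart (M * p) A t)) (h𝔫 : 𝔫.IsPrime) (hm : mExt A M p t ≤ 𝔫)
    {f : FF (M * p)} (hf : f ∈ h62yO (chart (M * p) A t) 𝔫 h𝔫) :
    h56pTau (M * p) τ f ∈ h62yO (chart (M * p) A t) 𝔫 h𝔫 := by
  obtain ⟨s, hs, hsf⟩ := hf
  refine ⟨⟨h56pTau (M * p) τ (s : FF (M * p)), h91i_tau_mem_chart A M hτ t ht s.2⟩, ?_, ?_⟩
  · rw [h91i_mem_iff A M hp hM hA hτ ht hC 𝔫 hm]
    exact hs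
  · show h56pTau (M * p) τ (s : FF (M * p)) * h56pTau (M * p) τ f ∈ chart (M * p) A t
    rw [← map_mul]
    exact h91i_tau_mem_chart A M hτ t ht hsf

include hp hM hA in
/-- **inertia maps the units of `O_𝔫` to units** (the shape of `h74uUnitAt` and of the normal
forms of `h62j_node_jump_level`). -/
theorem h91i_tau_unitAt {τ : GQ} (hτ : τ ∈ A.inertiaSubgroupIn ℚ) {t : FF (M * p)}
    (ht : gal (M * p) τ • t = t) (hC : IfaceSSChart A M p t)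
    (𝔫 : Ideal (chart (M * p) A t)) (hm : mExt A M p t ≤ 𝔫)
    {e : FF (M * p)}
    (he : ∃ s : chart (M * p) A t, s ∉ 𝔫 ∧ (s : FF (M * p)) * e ∈ chart (M * p) A t ∧
      (s : FF (M * p)) * e⁻¹ ∈ chart (M * p) A t) :
    ∃ s : chart (M * p) A t, s ∉ 𝔫 ∧
      (s : FF (M * p)) * h56pTau (M * p) τ e ∈ chart (M * p) A t ∧
      (s : FF (M * p)) * (h56pTau (M * p) τ e)⁻¹ ∈ chart (M * p) A t := by
  obtain ⟨s, hs, h1, h2⟩ := he
  refine ⟨⟨h56pTau (M * p) τ (s : FF (M * p)), h91i_tau_mem_chart A M hτ t ht s.2⟩, ?_, ?_, ?_⟩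
  · rw [h91i_mem_iff A M hp hM hA hτ ht hC 𝔫 hm]
    exact hs
  · show h56pTau (M * p) τ (s : FF (M * p)) * h56pTau (M * p) τ e ∈ chart (M * p) A t
    rw [← map_mul]
    exact h91i_tau_mem_chart A M hτ t ht h1
  · show h56pTau (M * p) τ (s : FF (M * p)) * (h56pTau (M * p) τ e)⁻¹ ∈ chart (M * p) A t
    rw [← map_inv₀, ← map_mul]
    exact h91i_tau_mem_chart A M hτ t ht h2

include hp hM hA in
/-- **`τ e / e` is a unit of `O_𝔫`** for a unit `e` of `O_𝔫`, membership form. -/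
theorem h91i_quot_unit {τ : GQ} (hτ : τ ∈ A.inertiaSubgroupIn ℚ) {t : FF (M * p)}
    (ht : gal (M * p) τ • t = t) (hC : IfaceSSChart A M p t)
    (𝔫 : Ideal (chart (M * p) A t)) (h𝔫 : 𝔫.IsPrime) (hm : mExt A M p t ≤ 𝔫)
    {e : FF (M * p)} (he : e ∈ h62yO (chart (M * p) A t) 𝔫 h𝔫)
    (he' : e⁻¹ ∈ h62yO (chart (M * p) A t) 𝔫 h𝔫) :
    h56pTau (M * p) τ e * e⁻¹ ∈ h62yO (chart (M * p) A t) 𝔫 h𝔫 ∧
    (h56pTau (M * p) τ e * e⁻¹)⁻¹ ∈ h62yO (chart (M * p) A t) 𝔫 h𝔫 := by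
  constructor
  · exact (h62yO (chart (M * p) A t) 𝔫 h𝔫).mul_mem
      (h91i_tau_mem_O A M hp hM hA hτ ht hC 𝔫 h𝔫 hm he) he'
  · rw [mul_inv, inv_inv, ← map_inv₀]
    exact (h62yO (chart (M * p) A t) 𝔫 h𝔫).mul_mem
      (h91i_tau_mem_O A M hp hM hA hτ ht hC 𝔫 h𝔫 hm he') he

/-- a unit in the shape `∃ s ∉ 𝔫, s e ∈ B ∧ s e⁻¹ ∈ B` is a unit of `O_𝔫`. -/
theorem h91i_unitAt_mem_O {t : FF (M * p)} (𝔫 : Ideal (chart (M * p) A t)) (h𝔫 : 𝔫.IsPrime)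
    {e : FF (M * p)}
    (he : ∃ s : chart (M * p) A t, s ∉ 𝔫 ∧ (s : FF (M * p)) * e ∈ chart (M * p) A t ∧
      (s : FF (M * p)) * e⁻¹ ∈ chart (M * p) A t) :
    e ∈ h62yO (chart (M * p) A t) 𝔫 h𝔫 ∧ e⁻¹ ∈ h62yO (chart (M * p) A t) 𝔫 h𝔫 := by
  obtain ⟨s, hs, h1, h2⟩ := he
  exact ⟨⟨s, hs, h1⟩, ⟨s, hs, h2⟩⟩

/-- conversely, a unit of `O_𝔫` has the shape `∃ s ∉ 𝔫, s e ∈ B ∧ s e⁻¹ ∈ B`. -/
theorem h91i_unitAt_of_mem_O {t : FF (M * p)} (𝔫 : Ideal (chart (M * p) A t)) (h𝔫 : 𝔫.IsPrime)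
    {e : FF (M * p)} (he : e ∈ h62yO (chart (M * p) A t) 𝔫 h𝔫)
    (he' : e⁻¹ ∈ h62yO (chart (M * p) A t) 𝔫 h𝔫) :
    ∃ s : chart (M * p) A t, s ∉ 𝔫 ∧ (s : FF (M * p)) * e ∈ chart (M * p) A t ∧
      (s : FF (M * p)) * e⁻¹ ∈ chart (M * p) A t := by
  obtain ⟨s, hs, h1⟩ := he
  obtain ⟨s', hs', h2⟩ := he'
  refine ⟨s * s', fun h => (h𝔫.mem_or_mem h).elim hs hs', ?_, ?_⟩
  · have e1 : ((s * s' : chart (M * p) A t) : FF (M * p)) * e =
        (s' : FF (M * p)) * ((s : FF (M * p)) * e) := by push_cast; ring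
    rw [e1]
    exact (chart (M * p) A t).mul_mem s'.2 h1
  · have e1 : ((s * s' : chart (M * p) A t) : FF (M * p)) * e⁻¹ =
        (s : FF (M * p)) * ((s' : FF (M * p)) * e⁻¹) := by push_cast; ring
    rw [e1]
    exact (chart (M * p) A t).mul_mem s.2 h2

include hp hM hA in
/-- **`τ e / e` is a unit of `O_𝔫`**, in the shape `∃ s ∉ 𝔫, …`. -/
theorem h91i_quot_unitAt {τ : GQ} (hτ : τ ∈ A.inertiaSubgroupIn ℚ) {t : FF (M * p)}
    (ht : gal (M * p) τ • t = t) (hC : IfaceSSChart A M p t)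
    (𝔫 : Ideal (chart (M * p) A t)) (h𝔫 : 𝔫.IsPrime) (hm : mExt A M p t ≤ 𝔫)
    {e : FF (M * p)}
    (he : ∃ s : chart (M * p) A t, s ∉ 𝔫 ∧ (s : FF (M * p)) * e ∈ chart (M * p) A t ∧
      (s : FF (M * p)) * e⁻¹ ∈ chart (M * p) A t) :
    ∃ s : chart (M * p) A t, s ∉ 𝔫 ∧
      (s : FF (M * p)) * (h56pTau (M * p) τ e * e⁻¹) ∈ chart (M * p) A t ∧
      (s : FF (M * p)) * (h56pTau (M * p) τ e * e⁻¹)⁻¹ ∈ chart (M * p) A t := by
  obtain ⟨h1, h2⟩ := h91i_unitAt_mem_O A M 𝔫 h𝔫 he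
  obtain ⟨h3, h4⟩ := h91i_quot_unit A M hp hM hA hτ ht hC 𝔫 h𝔫 hm h1 h2
  exact h91i_unitAt_of_mem_O A M 𝔫 h𝔫 h3 h4

include hp hA in
/-- **the constants**: `τ θ = c θ` with `c` a unit of `A`. -/
theorem h91i_const_quot {τ : GQ} (hτ : τ ∈ A.inertiaSubgroupIn ℚ) (N : ℕ) [NeZero N]
    {θ : FF N}
    (hθ : h13x_IsConst A θ) (hθ0 : θ ≠ 0) :
    ∃ c : A, IsUnit c ∧ h56pTau N τ θ = algebraMap A (FF N) c * θ := by
  obtain ⟨a, b, hb, hab⟩ := hθ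
  have hinj : Function.Injective (algebraMap A (FF N)) := algebraMap_injective_FF N A
  have hbF : algebraMap A (FF N) b ≠ 0 := fun h => hb (hinj (by rw [h, map_zero]))
  have haF : algebraMap A (FF N) a ≠ 0 := by
    rw [← hab]
    exact mul_ne_zero hθ0 hbF
  have ha : a ≠ 0 := fun h => haF (by rw [h, map_zero])
  obtain ⟨c₁, hc₁⟩ := h56p_theta_dvd A hp hA hτ a
  obtain ⟨d₁, hd₁⟩ := h56p_dvd_theta A hp hA hτ a
  obtain ⟨c₂, hc₂⟩ := h56p_theta_dvd A hp hA hτ b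
  obtain ⟨d₂, hd₂⟩ := h56p_dvd_theta A hp hA hτ b
  -- `c₁ d₁ = 1`, `c₂ d₂ = 1`
  have h1 : c₁ * d₁ = 1 := by
    have h : a * (c₁ * d₁) = a * 1 := by
      rw [mul_one, ← mul_assoc, ← hc₁, ← hd₁]
    exact mul_left_cancel₀ ha h
  have h2 : c₂ * d₂ = 1 := by
    have h : b * (c₂ * d₂) = b * 1 := by
      rw [mul_one, ← mul_assoc, ← hc₂, ← hd₂]
    exact mul_left_cancel₀ hb h
  refine ⟨c₁ * d₂, ?_, ?_⟩
  · refine IsUnit.of_mul_eq_one (d₁ * c₂) ?_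
    calc c₁ * d₂ * (d₁ * c₂) = (c₁ * d₁) * (c₂ * d₂) := by ring
      _ = 1 := by rw [h1, h2, mul_one]
  · have hτab : h56pTau N τ θ * algebraMap A (FF N) (h56pTheta A hτ b) =
        algebraMap A (FF N) (h56pTheta A hτ a) := by
      rw [← h56p_tau_algebraMap A N hτ b, ← h56p_tau_algebraMap A N hτ a, ← map_mul, hab]
    have hθbF : algebraMap A (FF N) (h56pTheta A hτ b) ≠ 0 := by
      rw [← h56p_tau_algebraMap A N hτ b]
      exact (map_ne_zero _).mpr hbF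
    have hc₂F : algebraMap A (FF N) c₂ ≠ 0 := by
      intro h
      apply hθbF
      rw [hc₂, map_mul, h, mul_zero]
    have hcd : algebraMap A (FF N) c₂ * algebraMap A (FF N) d₂ = 1 := by
      rw [← map_mul, h2, map_one]
    rw [hc₁, hc₂, map_mul, map_mul] at hτab
    rw [map_mul]
    have hθ' : θ = algebraMap A (FF N) a * (algebraMap A (FF N) b)⁻¹ := by
      rw [← hab, mul_assoc, mul_inv_cancel₀ hbF, mul_one]
    have hd₂' : algebraMap A (FF N) d₂ = (algebraMap A (FF N) c₂)⁻¹ :=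
      eq_inv_of_mul_eq_one_right hcd
    have hτθ : h56pTau N τ θ = algebraMap A (FF N) a * algebraMap A (FF N) c₁ *
        (algebraMap A (FF N) b * algebraMap A (FF N) c₂)⁻¹ := by
      rw [← hτab, mul_assoc, mul_inv_cancel₀ (mul_ne_zero hbF hc₂F), mul_one]
    rw [hτθ, hθ', hd₂']
    field_simp

include hp hA in
/-- **`τ θ / θ` is a unit of `O_𝔫`** for a nonzero constant `θ`. -/
theorem h91i_const_quot_O {τ : GQ} (hτ : τ ∈ A.inertiaSubgroupIn ℚ) {t : FF (M * p)}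
    (𝔫 : Ideal (chart (M * p) A t)) (h𝔫 : 𝔫.IsPrime) {θ : FF (M * p)}
    (hθ : h13x_IsConst A θ) (hθ0 : θ ≠ 0) :
    h56pTau (M * p) τ θ * θ⁻¹ ∈ h62yO (chart (M * p) A t) 𝔫 h𝔫 ∧
    (h56pTau (M * p) τ θ * θ⁻¹)⁻¹ ∈ h62yO (chart (M * p) A t) 𝔫 h𝔫 := by
  obtain ⟨c, hc, hcθ⟩ := h91i_const_quot A hp hA hτ (M * p) hθ hθ0
  obtain ⟨d, hd⟩ := hc.exists_right_inv
  have e1 : h56pTau (M * p) τ θ * θ⁻¹ = algebraMap A (FF (M * p)) c := by
    rw [hcθ, mul_assoc, mul_inv_cancel₀ hθ0, mul_one]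
  have hcd : algebraMap A (FF (M * p)) c * algebraMap A (FF (M * p)) d = 1 := by
    rw [← map_mul, hd, map_one]
  have e2 : (algebraMap A (FF (M * p)) c)⁻¹ = algebraMap A (FF (M * p)) d :=
    (eq_inv_of_mul_eq_one_right hcd).symm
  rw [e1, e2]
  exact ⟨(h62yO (chart (M * p) A t) 𝔫 h𝔫).algebraMap_mem c,
    (h62yO (chart (M * p) A t) 𝔫 h𝔫).algebraMap_mem d⟩

end Level

/-! ## The permutation of the places -/

section Perm

variable (A : ValuationSubring Kbar) (M : ℕ) {p : ℕ} [NeZero M] [NeZero p]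
  (hp : p.Prime) (hM : ¬ p ∣ M) (hA : A.LiesOverPrime p)

/-- the permutation `k ↦ τ k` of the places of a chart with invariant coordinate. -/
def h91iPi (N : ℕ) (t : FF N) (τ : GQ) (ht : gal N τ • t = t) (k : ChartPlace N t) :
    ChartPlace N t :=
  ⟨gal N τ • k.1, by
    rw [SemilinearAut.smul_toValuationSubring,
      ValuationSubring.mem_pointwise_smul_iff_inv_smul_mem]
    have h : (gal N τ)⁻¹ • t = t := by
      conv_lhs => rw [← ht]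
      exact inv_smul_smul _ _
    rw [h]
    exact k.2⟩

/-- `v_{τ k} (τ f) = v_k f`. -/
theorem h91i_pi_val (N : ℕ) (t : FF N) (τ : GQ) (ht : gal N τ • t = t) (k : ChartPlace N t)
    (f : FF N) :
    chartVal N t (h91iPi N t τ ht k) (h56pTau N τ f) = chartVal N t k f :=
  h63p_adic_smul (gal N τ) k.1 f

theorem h91i_pi_injective (N : ℕ) (t : FF N) (τ : GQ) (ht : gal N τ • t = t) :
    Function.Injective (h91iPi N t τ ht) := by
  intro k k' h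
  have h1 : gal N τ • k.1 = gal N τ • k'.1 := congrArg Subtype.val h
  exact Subtype.ext (MulAction.injective (gal N τ) h1)

include hp hM hA in
/-- **`τ k` is centered at `𝔫` if `k` is.** -/
theorem h91i_pi_centred {τ : GQ} (hτ : τ ∈ A.inertiaSubgroupIn ℚ) {t : FF (M * p)}
    (ht : gal (M * p) τ • t = t) (hC : IfaceSSChart A M p t)
    (𝔫 : Ideal (chart (M * p) A t)) (hm : mExt A M p t ≤ 𝔫)
    (k : ChartPlace (M * p) t)
    (hk : h26Centered (chart (M * p) A t) (chartVal (M * p) t) 𝔫 k) :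
    h26Centered (chart (M * p) A t) (chartVal (M * p) t) 𝔫 (h91iPi (M * p) t τ ht k) := by
  intro b hb
  -- `b = τ (τ⁻¹ b)`
  have hτ' : τ⁻¹ ∈ A.inertiaSubgroupIn ℚ := inv_mem hτ
  have ht' : gal (M * p) τ⁻¹ • t = t := by
    conv_lhs => rw [← ht]
    exact h85t_gal_inv_smul (M * p) τ t
  set b' : chart (M * p) A t :=
    ⟨h56pTau (M * p) τ⁻¹ (b : FF (M * p)), h91i_tau_mem_chart A M hτ' t ht' b.2⟩ with hb'
  have e : (b : FF (M * p)) = h56pTau (M * p) τ (b' : FF (M * p)) := by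
    show (b : FF (M * p)) = gal (M * p) τ • (gal (M * p) τ⁻¹ • (b : FF (M * p)))
    rw [h85t_gal_smul_inv]
  rw [e, h91i_pi_val] at hb
  have h1 : b' ∈ 𝔫 := hk b' hb
  exact (h91i_mem_iff A M hp hM hA hτ' ht' hC 𝔫 hm b).mp h1

end Perm

/-! ## The two charts of level `M p` -/

section Charts

variable (A : ValuationSubring Kbar) (M : ℕ) {p : ℕ} [NeZero M] [NeZero p]
  (hp : p.Prime) (hM : ¬ p ∣ M) (hA : A.LiesOverPrime p)

include hp hM hA in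
/-- finite chart: `τ e / e` is a unit of `O_𝔫` (shape `∃ s ∉ 𝔫, …`). -/
theorem h91i_fin_quot_unitAt {τ : GQ} (hτ : τ ∈ A.inertiaSubgroupIn ℚ)
    (𝔫 : Ideal (chart (M * p) A (jSS M p))) (h𝔫 : 𝔫.IsPrime)
    (hm : mExt A M p (jSS M p) ≤ 𝔫) {e : FF (M * p)}
    (he : ∃ s : chart (M * p) A (jSS M p), s ∉ 𝔫 ∧
      (s : FF (M * p)) * e ∈ chart (M * p) A (jSS M p) ∧
      (s : FF (M * p)) * e⁻¹ ∈ chart (M * p) A (jSS M p)) :
    ∃ s : chart (M * p) A (jSS M p), s ∉ 𝔫 ∧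
      (s : FF (M * p)) * (h56pTau (M * p) τ e * e⁻¹) ∈ chart (M * p) A (jSS M p) ∧
      (s : FF (M * p)) * (h56pTau (M * p) τ e * e⁻¹)⁻¹ ∈ chart (M * p) A (jSS M p) :=
  h91i_quot_unitAt A M hp hM hA hτ (h63p_gal_jSS M p τ)
    (h85s_ifaceSSChart_fin A M p hp hM hA) 𝔫 h𝔫 hm he

include hp hM hA in
/-- chart at infinity: `τ e / e` is a unit of `O_𝔫` (shape `∃ s ∉ 𝔫, …`). -/
theorem h91i_inf_quot_unitAt {τ : GQ} (hτ : τ ∈ A.inertiaSubgroupIn ℚ)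
    (𝔫 : Ideal (chart (M * p) A (jSS M p)⁻¹)) (h𝔫 : 𝔫.IsPrime)
    (hm : mExt A M p (jSS M p)⁻¹ ≤ 𝔫) {e : FF (M * p)}
    (he : ∃ s : chart (M * p) A (jSS M p)⁻¹, s ∉ 𝔫 ∧
      (s : FF (M * p)) * e ∈ chart (M * p) A (jSS M p)⁻¹ ∧
      (s : FF (M * p)) * e⁻¹ ∈ chart (M * p) A (jSS M p)⁻¹) :
    ∃ s : chart (M * p) A (jSS M p)⁻¹, s ∉ 𝔫 ∧
      (s : FF (M * p)) * (h56pTau (M * p) τ e * e⁻¹) ∈ chart (M * p) A (jSS M p)⁻¹ ∧
      (s : FF (M * p)) * (h56pTau (M * p) τ e * e⁻¹)⁻¹ ∈ chart (M * p) A (jSS M p)⁻¹ :=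
  h91i_quot_unitAt A M hp hM hA hτ (h63p_gal_jSS_inv M p τ)
    (h85s_ifaceSSChart_inf A M p hp hM hA) 𝔫 h𝔫 hm he

include hp hM hA in
/-- finite chart: inertia maps `O_𝔫` into itself. -/
theorem h91i_fin_tau_mem_O {τ : GQ} (hτ : τ ∈ A.inertiaSubgroupIn ℚ)
    (𝔫 : Ideal (chart (M * p) A (jSS M p))) (h𝔫 : 𝔫.IsPrime)
    (hm : mExt A M p (jSS M p) ≤ 𝔫) {f : FF (M * p)}
    (hf : f ∈ h62yO (chart (M * p) A (jSS M p)) 𝔫 h𝔫) :
    h56pTau (M * p) τ f ∈ h62yO (chart (M * p) A (jSS M p)) 𝔫 h𝔫 :=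
  h91i_tau_mem_O A M hp hM hA hτ (h63p_gal_jSS M p τ)
    (h85s_ifaceSSChart_fin A M p hp hM hA) 𝔫 h𝔫 hm hf

include hp hM hA in
/-- chart at infinity: inertia maps `O_𝔫` into itself. -/
theorem h91i_inf_tau_mem_O {τ : GQ} (hτ : τ ∈ A.inertiaSubgroupIn ℚ)
    (𝔫 : Ideal (chart (M * p) A (jSS M p)⁻¹)) (h𝔫 : 𝔫.IsPrime)
    (hm : mExt A M p (jSS M p)⁻¹ ≤ 𝔫) {f : FF (M * p)}
    (hf : f ∈ h62yO (chart (M * p) A (jSS M p)⁻¹) 𝔫 h𝔫) :
    h56pTau (M * p) τ f ∈ h62yO (chart (M * p) A (jSS M p)⁻¹) 𝔫 h𝔫 :=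
  h91i_tau_mem_O A M hp hM hA hτ (h63p_gal_jSS_inv M p τ)
    (h85s_ifaceSSChart_inf A M p hp hM hA) 𝔫 h𝔫 hm hf

include hp hM hA in
/-- finite chart: the permutation of the places centered at `𝔫`. -/
theorem h91i_fin_pi_centred {τ : GQ} (hτ : τ ∈ A.inertiaSubgroupIn ℚ)
    (𝔫 : Ideal (chart (M * p) A (jSS M p))) (hm : mExt A M p (jSS M p) ≤ 𝔫)
    (k : ChartPlace (M * p) (jSS M p))
    (hk : h26Centered (chart (M * p) A (jSS M p)) (chartVal (M * p) (jSS M p)) 𝔫 k) :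
    h26Centered (chart (M * p) A (jSS M p)) (chartVal (M * p) (jSS M p)) 𝔫
      (h91iPi (M * p) (jSS M p) τ (h63p_gal_jSS M p τ) k) :=
  h91i_pi_centred A M hp hM hA hτ (h63p_gal_jSS M p τ)
    (h85s_ifaceSSChart_fin A M p hp hM hA) 𝔫 hm k hk

include hp hM hA in
/-- chart at infinity: the permutation of the places centered at `𝔫`. -/
theorem h91i_inf_pi_centred {τ : GQ} (hτ : τ ∈ A.inertiaSubgroupIn ℚ)
    (𝔫 : Ideal (chart (M * p) A (jSS M p)⁻¹)) (hm : mExt A M p (jSS M p)⁻¹ ≤ 𝔫)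
    (k : ChartPlace (M * p) (jSS M p)⁻¹)
    (hk : h26Centered (chart (M * p) A (jSS M p)⁻¹) (chartVal (M * p) (jSS M p)⁻¹) 𝔫 k) :
    h26Centered (chart (M * p) A (jSS M p)⁻¹) (chartVal (M * p) (jSS M p)⁻¹) 𝔫
      (h91iPi (M * p) (jSS M p)⁻¹ τ (h63p_gal_jSS_inv M p τ) k) :=
  h91i_pi_centred A M hp hM hA hτ (h63p_gal_jSS_inv M p τ)
    (h85s_ifaceSSChart_inf A M p hp hM hA) 𝔫 hm k hk

end Charts

end Fermat.Agent.P7
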