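import Fermat.Agent.P7.H78ChartFinal
import Fermat.Agent.P7.H84AsmLevel
import Fermat.Agent.P7.H90NFAdapt

/-!
# Wave 7 (row 38), block (5b): statement (C) at the level `M p`, final wiring (helper78)

`h78l_const` : helper84's level assembly `h84w_const` (`P7/H84AsmLevel.lean`) with its three
level hypotheses discharged on the index types of `P7/H78ChartIface.lean`:

* (a) the chart hypotheses `H78hChart` : `h78l_chart_level` (`P7/H78ChartFinal.lean`);
* (b) the exact depth dichotomy `H78hDisc` of `w = b u / u` at the depth `δ ^ p` : from the node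
  normal form at `e₁` (`h84a_L2` + `h78l_disc_node`);
* (c) the smooth normal forms at the closed points of the FINITE chart lying on one component :
  helper90's `h90g_nfSmooth_inf`, `h90g_nfSmooth_zero` (`P7/H90NFAdapt.lean`).

The ONLY remaining hypotheses on the geometry are the smooth normal forms at the CUSPS
(`hcuspInf`, `hcuspZero`; row T-C3-NF, cusps).

`h78l_const_exists` : the same with the default rational node normal forms
(`h84w_node_nf`): at any two crossing points there are node normal forms of `u` with slopes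
congruent modulo `p`.
-/

set_option autoImplicit false
set_option linter.unusedSectionVars false
set_option linter.unusedVariables false
set_option linter.style.longLine false
set_option linter.style.haveILetI false
set_option synthInstance.maxHeartbeats 400000
set_option maxHeartbeats 1600000

open AlgebraicCurve ModularCurve WithZero IsLocalRing Polynomial

noncomputable section

namespace Fermat.Agent.P7

open Fermat.Agent.S37 Fermat.Agent.S37.GalI Fermat.Agent.Red Fermat.Agent.Red.GG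
  Fermat.Agent.Red.GV Fermat.Agent.Red.GV.Soft Fermat.Agent.Red.ModelO Fermat.Agent.Red.Kron
  Fermat.Agent.LGC Fermat.Agent.S35 Fermat.Agent.P6

variable (A : ValuationSubring Kbar) (M : ℕ) {p : ℕ} [NeZero M] [NeZero p]

/-- **(C) at the level `M p`**: any two rational node normal forms of `u` (at crossing points
`e₁`, `e₂`) have congruent slopes modulo `p`; the only geometric hypotheses left are the smooth
normal forms at the cusps of the two components. -/
theorem h78l_const (hp : p.Prime) (hM : ¬ p ∣ M) (haux : auxLevel p ∣ M)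
    (hA : A.LiesOverPrime p)
    {ζ β : Kbar} (hζ : IsPrimitiveRoot ζ p) {b : GQ} {δ : Kbar}
    (hbreak : H23wBreak p A ζ β b δ) (hb : b ∈ A.inertiaSubgroupIn ℚ)
    (u : FF (M * p)) (hu0 : u ≠ 0)
    (hord : ∀ v : Place Kbar (FF (M * p)), (p : ℤ) ∣ v.ord u)
    (hfix : ∀ a ∈ h23vI1 p A, a β = β → gal (M * p) a • u = u)
    (hcuspInf : ∀ n : H78lCuspInf A M hp hA,
      H84aNFSmooth (h84wB (M * p) b) (h56pTheta A hb)
        (⟨δ, A.nonunits_le hbreak.2.1⟩ : A) p (softV A (M * p))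
        (h62yO (chart (M * p) A (jSS M p)⁻¹) n.1 n.2.1.isPrime).toSubring u)
    (hcuspZero : ∀ n : H78lCuspZero A M hp hM hA,
      H84aNFSmooth (h84wB (M * p) b) (h56pTheta A hb)
        (⟨δ, A.nonunits_le hbreak.2.1⟩ : A) p (h85cW0 A M p hp hM hA).toSubring
        (h62yO (chart (M * p) A (jSS M p)⁻¹) n.1 n.2.1.isPrime).toSubring u)
    (e₁ e₂ : H78lNode A M hp hM hA) (m₁ m₂ : ℤ) (γP₁ γQ₁ γP₂ γQ₂ : A)
    (h₁ : H84wNodeNF A M hp hM hA e₁.1 e₁.2.1 hb (⟨δ, A.nonunits_le hbreak.2.1⟩ : A) u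
      m₁ γP₁ γQ₁)
    (h₂ : H84wNodeNF A M hp hM hA e₂.1 e₂.2.1 hb (⟨δ, A.nonunits_le hbreak.2.1⟩ : A) u
      m₂ γP₂ γQ₂) :
    (p : ℤ) ∣ m₁ - m₂ := by
  classical
  set δA : A := ⟨δ, A.nonunits_le hbreak.2.1⟩ with hδA
  have hδ0 : δ ≠ 0 := hbreak.1
  have hδA0 : δA ≠ 0 := fun h => hδ0 (congrArg (fun t : A => (t : Kbar)) h)
  have hδAm : δA ∈ maximalIdeal A := (GG.mem_maximalIdeal_iff A δA).mpr hbreak.2.1
  have hpδ : ∃ m₀ ∈ maximalIdeal A, ((p : ℕ) : A) * δA = δA ^ p * m₀ := by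
    obtain ⟨μ₀, hμ₀, h⟩ := h20b_p_delta A hp hζ hδ0 hbreak.2.2.1
    refine ⟨⟨μ₀, A.nonunits_le hμ₀⟩, (GG.mem_maximalIdeal_iff A _).mpr hμ₀, ?_⟩
    apply Subtype.ext
    push_cast
    exact h
  have hvar := h84w_hvar A M hbreak hb u hfix
  have hC := h78l_chart_level A M hp hM hA haux
  have hθϖ : h56pTheta A hb ((p : ℕ) : A) = ((p : ℕ) : A) := map_natCast _ p
  -- (b) the depth dichotomy, from the node `e₁`
  obtain ⟨ψ, hL2, -⟩ := h84a_L2 hC.hAF hC.hAinf
    (fun π hπ x hx => h86t_Winf_unit A M p hp hA π hπ x hx)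
    (fun π hπ x hx => h86t_Winf_nt A M p hp hA π hπ x hx) hC.hA0
    (fun π hπ x hx => h86t_W0_unit A M p hp hM hA π hπ x hx)
    (fun π hπ x hx => h86t_W0_nt A M p hp hM hA π hπ x hx)
    (h84wB (M * p) b) (h56pTheta A hb)
    (fun a => h56p_tau_algebraMap A (M * p) hb a) hp hδAm hpδ
    (h20n_natCast_ne_zero A p) hθϖ h₁.1
  have hdisc : H78hDisc A (softV A (M * p)) (h85cW0 A M p hp hM hA).toSubring (δA ^ p)
      (h84wB (M * p) b u * u⁻¹) :=
    h78l_disc_node A M hp hM hA haux e₁ (δA ^ p) (ψ ^ p) (pow_ne_zero _ hδA0) _ hL2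
  -- (c) the smooth normal forms
  have hNFinf : ∀ n : H78lFinInf A M hp hM hA ⊕ H78lCuspInf A M hp hA,
      H84aNFSmooth (h84wB (M * p) b) (h56pTheta A hb) δA p (softV A (M * p))
        (h78lOinf A M hp hM hA n) u := by
    rintro (n | n)
    · exact h90g_nfSmooth_inf A M hp hM haux hA n.1 n.2.1 n.2.2.1 n.2.2.2 hb δA u hu0
        (fun i _ => exists_val_eq (M * p) (jSS M p) u hu0 p hord i) hvar
    · exact hcuspInf n
  have hNFzero : ∀ n : H78lFinZero A M hp hM hA ⊕ H78lCuspZero A M hp hM hA,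
      H84aNFSmooth (h84wB (M * p) b) (h56pTheta A hb) δA p (h85cW0 A M p hp hM hA).toSubring
        (h78lOzero A M hp hM hA n) u := by
    rintro (n | n)
    · exact h90g_nfSmooth_zero A M hp hM haux hA n.1 n.2.1 n.2.2.1 n.2.2.2 hb δA u hu0
        (fun i _ => exists_val_eq (M * p) (jSS M p) u hu0 p hord i) hvar
    · exact hcuspZero n
  exact h84w_const A M hp hM haux hA hζ hbreak hb u hu0 hord hfix
    (h78lOinf A M hp hM hA) (h78lOzero A M hp hM hA)
    (fun e : H78lNode A M hp hM hA => e.1) (fun e => e.2.1)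
    (fun e => h62x_torOnBoth A M hp hM hA e.1 e.2.2.1 e.2.2.2)
    hC hdisc hNFinf hNFzero e₁ e₂ m₁ m₂ γP₁ γQ₁ γP₂ γQ₂ h₁ h₂

/-- **(C) at the level `M p`, existence form**: at any two crossing points there are rational
node normal forms of `u` whose slopes are congruent modulo `p`. -/
theorem h78l_const_exists (hp : p.Prime) (hM : ¬ p ∣ M) (haux : auxLevel p ∣ M)
    (hA : A.LiesOverPrime p)
    {ζ β : Kbar} (hζ : IsPrimitiveRoot ζ p) {b : GQ} {δ : Kbar}
    (hbreak : H23wBreak p A ζ β b δ) (hb : b ∈ A.inertiaSubgroupIn ℚ)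
    (u : FF (M * p)) (hu0 : u ≠ 0)
    (hord : ∀ v : Place Kbar (FF (M * p)), (p : ℤ) ∣ v.ord u)
    (hfix : ∀ a ∈ h23vI1 p A, a β = β → gal (M * p) a • u = u)
    (hcuspInf : ∀ n : H78lCuspInf A M hp hA,
      H84aNFSmooth (h84wB (M * p) b) (h56pTheta A hb)
        (⟨δ, A.nonunits_le hbreak.2.1⟩ : A) p (softV A (M * p))
        (h62yO (chart (M * p) A (jSS M p)⁻¹) n.1 n.2.1.isPrime).toSubring u)
    (hcuspZero : ∀ n : H78lCuspZero A M hp hM hA,
      H84aNFSmooth (h84wB (M * p) b) (h56pTheta A hb)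
        (⟨δ, A.nonunits_le hbreak.2.1⟩ : A) p (h85cW0 A M p hp hM hA).toSubring
        (h62yO (chart (M * p) A (jSS M p)⁻¹) n.1 n.2.1.isPrime).toSubring u)
    (e₁ e₂ : H78lNode A M hp hM hA) :
    ∃ (m₁ m₂ : ℤ) (γP₁ γQ₁ γP₂ γQ₂ : A),
      H84wNodeNF A M hp hM hA e₁.1 e₁.2.1 hb (⟨δ, A.nonunits_le hbreak.2.1⟩ : A) u
        m₁ γP₁ γQ₁ ∧
      H84wNodeNF A M hp hM hA e₂.1 e₂.2.1 hb (⟨δ, A.nonunits_le hbreak.2.1⟩ : A) u
        m₂ γP₂ γQ₂ ∧
      (p : ℤ) ∣ m₁ - m₂ := by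
  have hvar := h84w_hvar A M hbreak hb u hfix
  obtain ⟨m₁, γP₁, γQ₁, h₁⟩ := h84w_node_nf A M hp hM haux hA e₁.1 e₁.2.1
    (h62x_torOnBoth A M hp hM hA e₁.1 e₁.2.2.1 e₁.2.2.2) hb
    (⟨δ, A.nonunits_le hbreak.2.1⟩ : A) u hu0 hord hvar
  obtain ⟨m₂, γP₂, γQ₂, h₂⟩ := h84w_node_nf A M hp hM haux hA e₂.1 e₂.2.1
    (h62x_torOnBoth A M hp hM hA e₂.1 e₂.2.2.1 e₂.2.2.2) hb
    (⟨δ, A.nonunits_le hbreak.2.1⟩ : A) u hu0 hord hvar
  exact ⟨m₁, m₂, γP₁, γQ₁, γP₂, γQ₂, h₁, h₂,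
    h78l_const A M hp hM haux hA hζ hbreak hb u hu0 hord hfix hcuspInf hcuspZero e₁ e₂
      m₁ m₂ γP₁ γQ₁ γP₂ γQ₂ h₁ h₂⟩

end Fermat.Agent.P7
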