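import Fermat.Agent.P7.H78ChartLevel
import Fermat.Agent.S35.H21TorCusp
import Fermat.Agent.LGC.Fin71Final

/-!
# Wave 7 (row 38), block (5b), leaf C3/C4: the smooth datum `H62ySmooth` at the cusps of BOTH
components (helper78)

`ℓ ∤ M` prime, `auxLevel ℓ ∣ M`, `A` over `ℓ`, `B∞ = chart (M ℓ) A (jSS M ℓ)⁻¹` the chart at
infinity, `𝔫` a maximal ideal of `B∞` containing `V = 1 / jSS` (a cusp).

* `h78l_smooth_cuspInf` : if `P∞ = h85cPinf ≤ 𝔫` (a cusp on `C∞`):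
  `∃ t, H62ySmooth B∞ ssV val W∞ W₀ 𝔫 t`;
* `h78l_smooth_cuspZero` : if `P₀ = h85cP0 ≤ 𝔫` (a cusp on `C₀`):
  `∃ t, H62ySmooth B∞ ssV val W₀ W∞ 𝔫 t`;
* `h78l_smooth_cuspInf'`, `h78l_smooth_cuspZero'` : the same for the index types
  `H78lCuspInf`, `H78lCuspZero` of `P7/H78ChartIface.lean`.

Inputs: the landed TOR-CUSP `h21u_ifaceTorCusp` (local parameter, unit of `ssV`), CUSP-NOT-NODE
`h4c_cusp_not_node`, the sections `h85s_ifaceSSSection_of` and the chart axioms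
`h85s_ifaceSSChart_inf`.
-/

set_option autoImplicit false
set_option linter.unusedSectionVars false
set_option linter.unusedVariables false
set_option linter.style.longLine false
set_option synthInstance.maxHeartbeats 400000

open AlgebraicCurve ModularCurve WithZero IsLocalRing

noncomputable section

namespace Fermat.Agent.P7

open Fermat.Agent.S37 Fermat.Agent.Red Fermat.Agent.Red.GG Fermat.Agent.Red.GV
  Fermat.Agent.Red.GV.Soft Fermat.Agent.Red.Kron Fermat.Agent.Red.KR Fermat.Agent.Red.ModelO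
  Fermat.Agent.LGC Fermat.Agent.S35 Fermat.Agent.P6

variable (A : ValuationSubring Kbar) (M : ℕ) {ℓ : ℕ} [NeZero M] [NeZero ℓ]
  (hℓ : ℓ.Prime) (hM : ¬ ℓ ∣ M) (hA : A.LiesOverPrime ℓ)

section Chart

variable {t : FF (M * ℓ)} (hC : IfaceSSChart A M ℓ t)

include hC in
/-- an element of the chart in `𝔪_A W∞` lies in `P∞` (any chart). -/
theorem h78l_mem_Pinf_of_M (b : chart (M * ℓ) A t) (m : A) (hm : m ∈ maximalIdeal A)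
    (y : FF (M * ℓ)) (hy : y ∈ softV A (M * ℓ))
    (hb : (b : FF (M * ℓ)) = algebraMap A (FF (M * ℓ)) m * y) :
    b ∈ h85cPinf A M ℓ hℓ hA t := by
  rw [h85c_mem_Pinf_iff A M ℓ hℓ hA hC, hb]
  have hmn : (m : Kbar) ∈ A.nonunits := (GG.mem_maximalIdeal_iff A m).mp hm
  have hc : cst (M * ℓ) (m : Kbar) ∈ softV A (M * ℓ) :=
    (cst_mem_softV_iff A (M * ℓ) _).mpr m.2
  have h0 : softR A (M * ℓ) ⟨_, hc⟩ = 0 := softR_cst_of_nonunit A (M * ℓ) _ hmn hc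
  have hmem : cst (M * ℓ) (m : Kbar) * y ∈ softV A (M * ℓ) := mul_mem hc hy
  refine (softR_eq_zero_iff_mem_nonunits A (M * ℓ) hℓ hA ⟨_, hmem⟩).mp ?_
  have e : (⟨cst (M * ℓ) (m : Kbar) * y, hmem⟩ : softV A (M * ℓ)) = ⟨_, hc⟩ * ⟨y, hy⟩ := rfl
  rw [e, map_mul, h0, zero_mul]

include hC in
/-- an element of the chart in `𝔪_A W₀` lies in `P₀` (any chart). -/
theorem h78l_mem_P0_of_M (b : chart (M * ℓ) A t) (m : A) (hm : m ∈ maximalIdeal A)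
    (y : FF (M * ℓ)) (hy : y ∈ (h85cW0 A M ℓ hℓ hM hA).toSubring)
    (hb : (b : FF (M * ℓ)) = algebraMap A (FF (M * ℓ)) m * y) :
    b ∈ h85cP0 A M ℓ hℓ hM hA t := by
  rw [h85c_mem_P0_iff A M ℓ hℓ hM hA hC, hb, map_mul, h62y_kFricke_algebraMap]
  have hy' : kFricke M ℓ hℓ hM y ∈ softV A (M * ℓ) := hy
  have hmn : (m : Kbar) ∈ A.nonunits := (GG.mem_maximalIdeal_iff A m).mp hm
  have hc : cst (M * ℓ) (m : Kbar) ∈ softV A (M * ℓ) :=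
    (cst_mem_softV_iff A (M * ℓ) _).mpr m.2
  have h0 : softR A (M * ℓ) ⟨_, hc⟩ = 0 := softR_cst_of_nonunit A (M * ℓ) _ hmn hc
  have hmem : cst (M * ℓ) (m : Kbar) * kFricke M ℓ hℓ hM y ∈ softV A (M * ℓ) :=
    mul_mem hc hy'
  refine (softR_eq_zero_iff_mem_nonunits A (M * ℓ) hℓ hA ⟨_, hmem⟩).mp ?_
  have e : (⟨cst (M * ℓ) (m : Kbar) * kFricke M ℓ hℓ hM y, hmem⟩ : softV A (M * ℓ)) =
      ⟨_, hc⟩ * ⟨kFricke M ℓ hℓ hM y, hy'⟩ := rfl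
  rw [e, map_mul, h0, zero_mul]

end Chart

section Cusp

variable (𝔫 : Ideal (chart (M * ℓ) A (jSS M ℓ)⁻¹)) (h𝔫 : 𝔫.IsMaximal)

include h𝔫 in
/-- **the smooth datum at the cusps of `C∞`.** -/
theorem h78l_smooth_cuspInf (haux : auxLevel ℓ ∣ M)
    (hP : h85cPinf A M ℓ hℓ hA (jSS M ℓ)⁻¹ ≤ 𝔫) (hV : h4c_V A M ℓ ∈ 𝔫) :
    ∃ t, H62ySmooth (chart (M * ℓ) A (jSS M ℓ)⁻¹) (ssV A M ℓ)
      (chartVal (M * ℓ) (jSS M ℓ)⁻¹) (softV A (M * ℓ))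
      (h85cW0 A M ℓ hℓ hM hA).toSubring 𝔫 t := by
  have hC : IfaceSSChart A M ℓ (jSS M ℓ)⁻¹ := h85s_ifaceSSChart_inf A M ℓ hℓ hM hA
  have hm : mExt A M ℓ (jSS M ℓ)⁻¹ ≤ 𝔫 := (h85c_hmPinf A M ℓ hℓ hA hC).trans hP
  have hP0 : ¬ h85cP0 A M ℓ hℓ hM hA (jSS M ℓ)⁻¹ ≤ 𝔫 := fun h =>
    h4c_cusp_not_node A M hℓ hM hA 𝔫 h𝔫.ne_top hV ⟨hP, h⟩
  obtain ⟨t, ht', ht0, htinv, hprin⟩ := h21u_ifaceTorCusp A M ℓ hℓ hM haux hA 𝔫 h𝔫 hm hV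
  exact ⟨t,
    { hC := hC
      hinj := algebraMap_injective_FF (M * ℓ) A
      harch := harch_of_liesOver A hℓ hA
      hWW := fun x hx hx' => h63r_mem_ssV_of_soft hℓ hM hA hx hx'
      hBW := fun b hb => h85c_hBWinf A M ℓ hℓ hA hC ⟨b, hb⟩
      hBW' := fun b hb => h85c_hBW0 A M ℓ hℓ hM hA hC ⟨b, hb⟩
      hWval := h62y_Winf_val A hℓ hA (M * ℓ)
      hWnt := h62y_Winf_nt A (M * ℓ)
      hprime := h𝔫.isPrime
      hm𝔫 := hm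
      hP𝔫 := fun b m hm' y hy hb => hP (h78l_mem_Pinf_of_M A M hℓ hA hC b m hm' y hy hb)
      he := h78l_exists_e_zero A M hℓ hM hA hC 𝔫 hP0
      ht := ht'
      ht0 := ht0
      htW := h63r_ssV_le_soft hℓ hA htinv
      hprin := hprin
      hsec := fun i hi =>
        h85s_ifaceSSSection_of A M ℓ _ (h71_finite_inf' hℓ hM hA) i 𝔫 h𝔫 hm hi }⟩

include h𝔫 in
/-- **the smooth datum at the cusps of `C₀`.** -/
theorem h78l_smooth_cuspZero (haux : auxLevel ℓ ∣ M)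
    (hP : h85cP0 A M ℓ hℓ hM hA (jSS M ℓ)⁻¹ ≤ 𝔫) (hV : h4c_V A M ℓ ∈ 𝔫) :
    ∃ t, H62ySmooth (chart (M * ℓ) A (jSS M ℓ)⁻¹) (ssV A M ℓ)
      (chartVal (M * ℓ) (jSS M ℓ)⁻¹) (h85cW0 A M ℓ hℓ hM hA).toSubring
      (softV A (M * ℓ)) 𝔫 t := by
  have hC : IfaceSSChart A M ℓ (jSS M ℓ)⁻¹ := h85s_ifaceSSChart_inf A M ℓ hℓ hM hA
  have hm : mExt A M ℓ (jSS M ℓ)⁻¹ ≤ 𝔫 := (h85c_hmP0 A M ℓ hℓ hM hA hC).trans hP
  have hPinf : ¬ h85cPinf A M ℓ hℓ hA (jSS M ℓ)⁻¹ ≤ 𝔫 := fun h =>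
    h4c_cusp_not_node A M hℓ hM hA 𝔫 h𝔫.ne_top hV ⟨h, hP⟩
  obtain ⟨t, ht', ht0, htinv, hprin⟩ := h21u_ifaceTorCusp A M ℓ hℓ hM haux hA 𝔫 h𝔫 hm hV
  exact ⟨t,
    { hC := hC
      hinj := algebraMap_injective_FF (M * ℓ) A
      harch := harch_of_liesOver A hℓ hA
      hWW := fun x hx hx' => h63r_mem_ssV_of_soft hℓ hM hA hx' hx
      hBW := fun b hb => h85c_hBW0 A M ℓ hℓ hM hA hC ⟨b, hb⟩
      hBW' := fun b hb => h85c_hBWinf A M ℓ hℓ hA hC ⟨b, hb⟩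
      hWval := h62y_W0_val A M hℓ hM hA
      hWnt := h62y_W0_nt A M hℓ hM hA
      hprime := h𝔫.isPrime
      hm𝔫 := hm
      hP𝔫 := fun b m hm' y hy hb => hP (h78l_mem_P0_of_M A M hℓ hM hA hC b m hm' y hy hb)
      he := h78l_exists_e_inf A M hℓ hA hC 𝔫 hPinf
      ht := ht'
      ht0 := ht0
      htW := h63r_w_ssV_le_soft hℓ hM hA htinv
      hprin := hprin
      hsec := fun i hi =>
        h85s_ifaceSSSection_of A M ℓ _ (h71_finite_inf' hℓ hM hA) i 𝔫 h𝔫 hm hi }⟩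

end Cusp

/-- the smooth datum at a cusp `𝔫 : H78lCuspInf`. -/
theorem h78l_smooth_cuspInf' (haux : auxLevel ℓ ∣ M) (𝔫 : H78lCuspInf A M hℓ hA) :
    ∃ t, H62ySmooth (chart (M * ℓ) A (jSS M ℓ)⁻¹) (ssV A M ℓ)
      (chartVal (M * ℓ) (jSS M ℓ)⁻¹) (softV A (M * ℓ))
      (h85cW0 A M ℓ hℓ hM hA).toSubring 𝔫.1 t :=
  h78l_smooth_cuspInf A M hℓ hM hA 𝔫.1 𝔫.2.1 haux 𝔫.2.2.1 𝔫.2.2.2

/-- the smooth datum at a cusp `𝔫 : H78lCuspZero`. -/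
theorem h78l_smooth_cuspZero' (haux : auxLevel ℓ ∣ M) (𝔫 : H78lCuspZero A M hℓ hM hA) :
    ∃ t, H62ySmooth (chart (M * ℓ) A (jSS M ℓ)⁻¹) (ssV A M ℓ)
      (chartVal (M * ℓ) (jSS M ℓ)⁻¹) (h85cW0 A M ℓ hℓ hM hA).toSubring
      (softV A (M * ℓ)) 𝔫.1 t :=
  h78l_smooth_cuspZero A M hℓ hM hA 𝔫.1 𝔫.2.1 haux 𝔫.2.2.1 𝔫.2.2.2

end Fermat.Agent.P7
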