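import Fermat.Agent.S35.H21TorCusp
import Fermat.Agent.S35.H62TorLocal
import Fermat.Agent.S36.H83TorDesc
import Fermat.Agent.LGC.H31Comp
import Fermat.Agent.LGC.H4Cusp
import Fermat.Agent.P7.H91InertLoc

/-!
# P7 (wave 7, S44), block (5b), leaf T-C3-NF (helper90): INERTIA-FIXED local parameters at the
cusps of the special fibre of level `M ℓ`

`ℓ ∤ M` prime, good level, `A` over `ℓ`, `B = chart (M ℓ) A (1/j)` the chart at infinity,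
`Λ = chart M A (1/j)`, `𝔫` a maximal ideal of `B` over `𝔪_A` containing `V = 1/j` (a cusp).

* `h90k_LP_rat_inf` : every closed point of the special fibre of `Λ` has a RATIONAL local
  parameter which is a Gauss unit (`h62l_exists_LP_mem` + base change `h31c_span_rat_inf`);
* `h90k_prod_fixed`, `h90k_fixed_mult` : the norm trick: a denominator `c₀ ∉ 𝔫` of an
  inertia-fixed function `z` can be replaced by an inertia-fixed denominator `c = c₀ d`,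
  `d ∉ 𝔫` (product over the finite inertia orbit of `c₀`);
* `h90k_cusp_param_inf` : at a cusp on `C∞` the local parameter `α (t₁)`, `t₁` rational;
* `h90k_cusp_param_zero` : at a cusp on `C₀` the local parameter `c · β (t₁)`, `c` an
  inertia-fixed denominator.
-/

set_option autoImplicit false
set_option linter.style.haveILetI false
set_option linter.unusedSectionVars false
set_option linter.unusedVariables false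
set_option linter.style.longLine false
set_option synthInstance.maxHeartbeats 400000
set_option maxHeartbeats 1600000

open AlgebraicCurve ModularCurve WithZero IsLocalRing Polynomial

noncomputable section

namespace Fermat.Agent.P7

open Fermat.Agent.S37 Fermat.Agent.S37.GalI Fermat.Agent.Red Fermat.Agent.Red.GG
  Fermat.Agent.Red.GV Fermat.Agent.Red.GV.Soft Fermat.Agent.Red.Kron Fermat.Agent.Red.ModelO
  Fermat.Agent.LGC Fermat.Agent.S28 Fermat.Agent.S35 Fermat.Agent.S36 Fermat.Agent.P6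

/-! ### The norm trick -/

/-- a ring endomorphism of a field permuting a finite set fixes the product of the set. -/
theorem h90k_prod_fixed {F : Type*} [Field F] (O : Finset F) (g : F →+* F)
    (hperm : ∀ z ∈ O, g z ∈ O) : g (∏ z ∈ O, z) = ∏ z ∈ O, z := by
  classical
  rw [map_prod]
  have himg : O.image g = O := by
    refine Finset.eq_of_subset_of_card_le ?_ ?_
    · intro y hy
      obtain ⟨z, hz, rfl⟩ := Finset.mem_image.mp hy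
      exact hperm z hz
    · rw [Finset.card_image_of_injective _ g.injective]
  conv_rhs => rw [← himg]
  rw [Finset.prod_image (fun a _ b _ h => g.injective h)]

section Level

variable (A : ValuationSubring Kbar) (M : ℕ) {ℓ : ℕ} [NeZero M] [NeZero ℓ]

/-- the rational elements of a chart of level `M`. -/
def h90kRat (t : FF M) : Subring (chart M A t) :=
  (h62x_fixed M).comap (chart M A t).val.toRingHom

theorem h90k_mem_rat (t : FF M) (u : chart M A t) :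
    u ∈ h90kRat A M t ↔ IsRat (u : FF M) :=
  h62x_mem_fixed_iff_isRat M (u : FF M)

/-- **a rational local parameter at every closed point of the special fibre of the chart at
infinity of level `M`.** -/
theorem h90k_LP_rat_inf (hℓ : ℓ.Prime) (hM : ¬ ℓ ∣ M) (haux : auxLevel ℓ ∣ M)
    (hA : A.LiesOverPrime ℓ)
    (𝔰 : Ideal (chart M A (jB M)⁻¹)) (h𝔰 : 𝔰.IsMaximal)
    (hle : (maximalIdeal A).map (algebraMap A (chart M A (jB M)⁻¹)) ≤ 𝔰) :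
    ∃ t₁ ∈ 𝔰, (IsRat (t₁ : FF M) ∧ (t₁ : FF M) ≠ 0 ∧ (t₁ : FF M)⁻¹ ∈ gaussV A M) ∧
      ∀ y ∈ 𝔰, ∃ s, s ∉ 𝔰 ∧
        s * y ∈ Ideal.span {t₁} ⊔ (maximalIdeal A).map (algebraMap A (chart M A (jB M)⁻¹)) := by
  classical
  have hded := h13l_hded_inf M A hℓ hM haux hA
  have hnf := h13l_hnf_inf M A hℓ hM hA
  set 𝔪 : Ideal (chart M A (jB M)⁻¹) :=
    (maximalIdeal A).map (algebraMap A (chart M A (jB M)⁻¹)) with h𝔪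
  haveI h𝔪prime : 𝔪.IsPrime := (Ideal.Quotient.isDomain_iff_prime 𝔪).mp hded.toIsDomain
  haveI h𝔰p : 𝔰.IsPrime := h𝔰.isPrime
  have hne : ¬ 𝔰 ≤ 𝔪 := by
    intro hle'
    have h1 : 𝔪 = 𝔰 := le_antisymm hle hle'
    apply hnf
    have h2 : 𝔪.IsMaximal := h1 ▸ h𝔰
    exact (Ideal.Quotient.maximal_ideal_iff_isField_quotient 𝔪).mp h2
  obtain ⟨t₀, ht₀, -, -, hall⟩ :=
    h67_ifaceLocalUnif_inf M A Fermat.Agent.Red.SM.h13_ifaceSmooth hℓ hM haux hA 𝔰 h𝔰 hle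
  have hLP₀ : h62l_LP 𝔪 𝔰 t₀ := ⟨ht₀, hall⟩
  obtain ⟨u, huR, hu⟩ := h62l_exists_LP_mem 𝔪 𝔰 hle hne
    (fun a ha => Ideal.mem_map_of_mem _ ha) (h90kRat A M (jB M)⁻¹)
    (h31c_span_rat_inf A M hℓ hM hA _ (fun u hu => (h90k_mem_rat A M _ u).mpr hu))
    (h13l_hres M A (jB M)⁻¹ 𝔰 h𝔰 hle) (h62d_sep A hℓ hA) hLP₀
  have husq := h62l_not_mem_sq_of_LP 𝔪 𝔰 hle hne hu
  have hu𝔪 : u ∉ 𝔪 := fun h => husq (h62l_le_sq 𝔪 𝔰 h)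
  have hV : modelAt M A (jB M)⁻¹ ≤ gaussV A M := modelInf_le_gaussV A M hℓ hM hA
  have hred : gaussR A M ⟨(u : FF M), hV u.2⟩ ≠ 0 := by
    intro h0
    obtain ⟨c, x', hc0, hc, hx', hcx⟩ :=
      exists_eq_cst_mul_of_gaussR_eq_zero_inf A M hℓ hM hA ⟨(u : FF M), hV u.2⟩ u.2 h0
    exact hu𝔪 (h31c_mem_mExt A M (jB M)⁻¹ u.2 ⟨c, x', hc0, hc, hx', hcx⟩)
  have hunit := (not_congr (gaussR_eq_zero_iff A M hℓ hM hA ⟨(u : FF M), hV u.2⟩)).1 hred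
  rw [not_or, not_not] at hunit
  exact ⟨u, hu.1, ⟨(h90k_mem_rat A M _ u).mp huR, hunit.1, hunit.2⟩, hu.2⟩

end Level

section Norm

variable (A : ValuationSubring Kbar) (M : ℕ) {ℓ : ℕ} [NeZero M] [NeZero ℓ]

/-- a product of elements of a subalgebra outside a prime ideal is outside the prime ideal. -/
theorem h90k_prod_not_mem {R : Type*} [CommRing R] {F : Type*} [Field F] [Algebra R F]
    (B : Subalgebra R F) (𝔫 : Ideal B) (h𝔫 : 𝔫.IsPrime) (O : Finset F)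
    (hO : ∀ y ∈ O, ∃ h : y ∈ B, (⟨y, h⟩ : B) ∉ 𝔫) :
    ∃ h : (∏ y ∈ O, y) ∈ B, (⟨∏ y ∈ O, y, h⟩ : B) ∉ 𝔫 := by
  classical
  induction O using Finset.induction_on with
  | empty =>
    refine ⟨by rw [Finset.prod_empty]; exact B.one_mem, ?_⟩
    intro h
    apply h𝔫.ne_top
    rw [Ideal.eq_top_iff_one]
    have e : (⟨∏ y ∈ (∅ : Finset F), y, by rw [Finset.prod_empty]; exact B.one_mem⟩ : B) = 1 :=
      Subtype.ext (by simp)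
    rw [← e]
    exact h
  | insert a O' ha ih =>
    obtain ⟨h1, h2⟩ := ih (fun y hy => hO y (Finset.mem_insert_of_mem hy))
    obtain ⟨h3, h4⟩ := hO a (Finset.mem_insert_self a O')
    have hmem : (∏ y ∈ insert a O', y) ∈ B := by
      rw [Finset.prod_insert ha]
      exact B.mul_mem h3 h1
    refine ⟨hmem, fun h => ?_⟩
    have e : (⟨∏ y ∈ insert a O', y, hmem⟩ : B) = ⟨a, h3⟩ * ⟨∏ y ∈ O', y, h1⟩ :=
      Subtype.ext (Finset.prod_insert ha)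
    rw [e] at h
    exact (h𝔫.mem_or_mem h).elim h4 h2

/-- **the norm trick**: an inertia-fixed denominator. -/
theorem h90k_fixed_mult (hℓ : ℓ.Prime) (hM : ¬ ℓ ∣ M) (hA : A.LiesOverPrime ℓ)
    (tc : FF (M * ℓ))
    (htc : ∀ σ : GQ, σ ∈ A.inertiaSubgroupIn ℚ → gal (M * ℓ) σ • tc = tc)
    (hC : IfaceSSChart A M ℓ tc)
    (𝔫 : Ideal (chart (M * ℓ) A tc)) (h𝔫 : 𝔫.IsPrime) (hm : mExt A M ℓ tc ≤ 𝔫)
    (c₀ : chart (M * ℓ) A tc) (hc₀ : c₀ ∉ 𝔫) :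
    ∃ c d : chart (M * ℓ) A tc, c ∉ 𝔫 ∧ d ∉ 𝔫 ∧ c = c₀ * d ∧
      ∀ σ : GQ, σ ∈ A.inertiaSubgroupIn ℚ → gal (M * ℓ) σ • (c : FF (M * ℓ)) = c := by
  classical
  have hfin : {y : FF (M * ℓ) | ∃ σ ∈ A.inertiaSubgroupIn ℚ,
      y = gal (M * ℓ) σ • (c₀ : FF (M * ℓ))}.Finite :=
    (h83t_orbit_finite (M * ℓ) (c₀ : FF (M * ℓ))).subset (fun z ⟨σ, _, hz⟩ => ⟨σ, hz⟩)
  set O : Finset (FF (M * ℓ)) := hfin.toFinset with hO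
  have hc₀O : (c₀ : FF (M * ℓ)) ∈ O := by
    rw [hO, Set.Finite.mem_toFinset]
    exact ⟨1, (A.inertiaSubgroupIn ℚ).one_mem, (h83t_gal_one (M * ℓ) _).symm⟩
  have hOn : ∀ y ∈ O, ∃ h : y ∈ chart (M * ℓ) A tc, (⟨y, h⟩ : chart (M * ℓ) A tc) ∉ 𝔫 := by
    intro y hy
    rw [hO, Set.Finite.mem_toFinset] at hy
    obtain ⟨σ, hσ, rfl⟩ := hy
    have h1 : h56pTau (M * ℓ) σ (c₀ : FF (M * ℓ)) ∈ chart (M * ℓ) A tc :=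
      h91i_tau_mem_chart A M hσ tc (htc σ hσ) c₀.2
    refine ⟨h1, fun h => hc₀ ?_⟩
    exact (h91i_mem_iff A M hℓ hM hA hσ (htc σ hσ) hC 𝔫 hm c₀).mp h
  obtain ⟨hd, hdn⟩ := h90k_prod_not_mem (chart (M * ℓ) A tc) 𝔫 h𝔫 (O.erase (c₀ : FF (M * ℓ)))
    (fun y hy => hOn y (Finset.mem_of_mem_erase hy))
  set d : chart (M * ℓ) A tc := ⟨∏ y ∈ O.erase (c₀ : FF (M * ℓ)), y, hd⟩ with hdd
  have hcd : ((c₀ * d : chart (M * ℓ) A tc) : FF (M * ℓ)) = ∏ y ∈ O, y := by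
    show (c₀ : FF (M * ℓ)) * ∏ y ∈ O.erase (c₀ : FF (M * ℓ)), y = _
    exact Finset.mul_prod_erase O (fun y => y) hc₀O
  refine ⟨c₀ * d, d, fun h => (h𝔫.mem_or_mem h).elim hc₀ hdn, hdn, rfl, fun σ hσ => ?_⟩
  rw [hcd]
  refine h90k_prod_fixed O
    ((h56pTau (M * ℓ) σ : FF (M * ℓ) ≃+* FF (M * ℓ)) : FF (M * ℓ) →+* FF (M * ℓ)) ?_
  intro y hy
  rw [hO, Set.Finite.mem_toFinset] at hy ⊢
  obtain ⟨τ, hτ, rfl⟩ := hy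
  exact ⟨σ * τ, (A.inertiaSubgroupIn ℚ).mul_mem hσ hτ, (h83t_gal_mul (M * ℓ) σ τ _).symm⟩

end Norm

section Cusp

variable (A : ValuationSubring Kbar) (M : ℕ) {ℓ : ℕ} [NeZero M] [NeZero ℓ]

/-- **the cusps on `C∞`**: a local parameter fixed by the Galois group, unit of `ssV`. -/
theorem h90k_cusp_param_inf (hℓ : ℓ.Prime) (hM : ¬ ℓ ∣ M) (haux : auxLevel ℓ ∣ M)
    (hA : A.LiesOverPrime ℓ)
    (𝔫 : Ideal (chart (M * ℓ) A (jSS M ℓ)⁻¹)) (h𝔫 : 𝔫.IsMaximal)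
    (hPinf : h85cPinf A M ℓ hℓ hA (jSS M ℓ)⁻¹ ≤ 𝔫) (ht : h4c_V A M ℓ ∈ 𝔫) :
    ∃ t' : chart (M * ℓ) A (jSS M ℓ)⁻¹, t' ∈ 𝔫 ∧ (t' : FF (M * ℓ)) ≠ 0 ∧
      ((t' : FF (M * ℓ)))⁻¹ ∈ ssV A M ℓ ∧
      (∀ z ∈ 𝔫, ∃ s, s ∉ 𝔫 ∧ s * z ∈ Ideal.span {t'} ⊔ mExt A M ℓ (jSS M ℓ)⁻¹) ∧
      ∀ σ : GQ, gal (M * ℓ) σ • (t' : FF (M * ℓ)) = t' := by
  classical
  haveI h𝔫p : 𝔫.IsPrime := h𝔫.isPrime
  have hC : IfaceSSChart A M ℓ (jSS M ℓ)⁻¹ := h85s_ifaceSSChart_inf A M ℓ hℓ hM hA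
  have hm : mExt A M ℓ (jSS M ℓ)⁻¹ ≤ 𝔫 := le_trans (h85c_hmPinf A M ℓ hℓ hA hC) hPinf
  have Ha := h21c_surjInf A M ℓ hℓ hM haux hA
  obtain ⟨hy, hwy, htS, hwtS, hVinf, hV0⟩ := h21c_soft_facts A M ℓ hℓ hM hA
  have hBsoft : ∀ b : chart (M * ℓ) A (jSS M ℓ)⁻¹, (b : FF (M * ℓ)) ∈ softV A (M * ℓ) ∧
      kFricke M ℓ hℓ hM (b : FF (M * ℓ)) ∈ softV A (M * ℓ) := fun b =>
    (h63r_mem_ssV_iff hℓ hM hA _).mp (hC.hBV _ b.2)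
  have hres := h21c_hres A (M * ℓ) (jSS M ℓ)⁻¹ 𝔫 h𝔫 hm ht
  set tB : chart (M * ℓ) A (jSS M ℓ)⁻¹ :=
    ⟨(jSS M ℓ)⁻¹, h85_self_mem_modelAt (M * ℓ) A (jSS M ℓ)⁻¹⟩ with htB
  set yB : chart (M * ℓ) A (jSS M ℓ)⁻¹ := ⟨h21c_y M ℓ, h21c_y_mem_chart A M ℓ hℓ hM hA⟩
    with hyB
  have htBval : (tB : FF (M * ℓ)) = h21c_t M ℓ := h21c_jSS_inv_eq M ℓ
  have ht' : tB ∈ 𝔫 := ht
  have hy1 : 1 - yB ∈ 𝔫 := hPinf ((h85c_mem_Pinf_iff A M ℓ hℓ hA hC).mpr hVinf)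
  have hyn : yB ∉ 𝔫 := by
    intro h
    have := 𝔫.add_mem hy1 h
    rw [sub_add_cancel] at this
    exact h𝔫.ne_top ((Ideal.eq_top_iff_one _).mpr this)
  have hαmem : ∀ x : chart M A (jB M)⁻¹,
      heckeAlphaBar Kbar M ℓ (x : FF M) ∈ chart (M * ℓ) A (jSS M ℓ)⁻¹ := by
    intro x
    show _ ∈ modelAt (M * ℓ) A (jSS M ℓ)⁻¹
    rw [h85s_jSS_inv_eq_α]
    exact Fermat.Agent.Red.KR.map_mem_modelAt (heckeAlphaBar Kbar M ℓ) A x.2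
  have he0 : (yB ^ ℓ - tB ^ (ℓ * ℓ - 1)) ∉ 𝔫 := by
    intro h
    have hk : 0 < ℓ * ℓ - 1 := by
      have := hℓ.two_le
      have h7 : 2 * 2 ≤ ℓ * ℓ := Nat.mul_le_mul this this
      omega
    have h1 : yB ^ ℓ ∈ 𝔫 := by
      have h2 : yB ^ ℓ = (yB ^ ℓ - tB ^ (ℓ * ℓ - 1)) + tB ^ (ℓ * ℓ - 1) := by ring
      rw [h2]
      exact 𝔫.add_mem h (𝔫.pow_mem_of_mem ht' _ hk)
    exact hyn (h𝔫p.mem_of_pow_mem _ h1)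
  have he0val : ((yB ^ ℓ - tB ^ (ℓ * ℓ - 1) : chart (M * ℓ) A (jSS M ℓ)⁻¹) :
      FF (M * ℓ)) = h21c_y M ℓ ^ ℓ - h21c_t M ℓ ^ (ℓ * ℓ - 1) := by
    push_cast
    rw [htBval]
  have key : ∃ t₁ : chart M A (jB M)⁻¹,
      (IsRat (t₁ : FF M) ∧ (t₁ : FF M) ≠ 0 ∧ (t₁ : FF M)⁻¹ ∈ gaussV A M) ∧
      ∀ σ t' : chart (M * ℓ) A (jSS M ℓ)⁻¹, σ ∉ 𝔫 →
        (t' : FF (M * ℓ)) = (σ : FF (M * ℓ)) * h21c_phi A M ℓ (heckeAlphaBar Kbar M ℓ) t₁ →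
        t' ∈ 𝔫 ∧ ∀ z ∈ 𝔫, ∃ s, s ∉ 𝔫 ∧
          s * z ∈ Ideal.span {t'} ⊔ mExt A M ℓ (jSS M ℓ)⁻¹ := by
    refine h21u_smooth_local (chart (M * ℓ) A (jSS M ℓ)⁻¹) 𝔫
      (h21c_phi A M ℓ (heckeAlphaBar Kbar M ℓ)) hm hres ?_ ?_
      (fun t₁ => IsRat (t₁ : FF M) ∧ (t₁ : FF M) ≠ 0 ∧ (t₁ : FF M)⁻¹ ∈ gaussV A M)
      (fun 𝔰 h𝔰 hle => h90k_LP_rat_inf A M hℓ hM haux hA 𝔰 h𝔰 hle)
    · intro x
      refine ⟨1, (Ideal.ne_top_iff_one 𝔫).mp h𝔫.ne_top, ?_⟩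
      rw [h21c_phi_apply]
      simpa using hαmem x
    · intro z hz
      obtain ⟨x, hx, hxz⟩ := Ha z z.2
      refine ⟨⟨x, hx⟩, yB ^ ℓ - tB ^ (ℓ * ℓ - 1), he0,
        (yB ^ ℓ - tB ^ (ℓ * ℓ - 1)) * ⟨_, hαmem ⟨x, hx⟩⟩, ?_, ?_⟩
      · rw [h21c_phi_apply]
        push_cast
        ring
      · apply h21c_mem_mExt A M ℓ hℓ hM hA
        · have e : (((yB ^ ℓ - tB ^ (ℓ * ℓ - 1)) * z -
              (yB ^ ℓ - tB ^ (ℓ * ℓ - 1)) * ⟨_, hαmem ⟨x, hx⟩⟩ :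
              chart (M * ℓ) A (jSS M ℓ)⁻¹) : FF (M * ℓ)) =
              ((yB ^ ℓ - tB ^ (ℓ * ℓ - 1) : chart (M * ℓ) A (jSS M ℓ)⁻¹) : FF (M * ℓ)) *
                ((z : FF (M * ℓ)) - heckeAlphaBar Kbar M ℓ x) := by
            push_cast
            ring
          rw [e]
          exact GalI.mul_mem_nonunits_right _ (hBsoft _).1 hxz
        · have e1 : (((yB ^ ℓ - tB ^ (ℓ * ℓ - 1)) * z -
              (yB ^ ℓ - tB ^ (ℓ * ℓ - 1)) * ⟨_, hαmem ⟨x, hx⟩⟩ :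
              chart (M * ℓ) A (jSS M ℓ)⁻¹) : FF (M * ℓ)) =
              ((yB ^ ℓ - tB ^ (ℓ * ℓ - 1) : chart (M * ℓ) A (jSS M ℓ)⁻¹) : FF (M * ℓ)) *
              ((z - ⟨_, hαmem ⟨x, hx⟩⟩ : chart (M * ℓ) A (jSS M ℓ)⁻¹) : FF (M * ℓ)) := by
            push_cast
            ring
          rw [e1, map_mul, he0val]
          exact GalI.mul_mem_nonunits_left _ hV0 (hBsoft _).2
  obtain ⟨t₁, ⟨ht₁rat, ht₁0, ht₁inv⟩, H⟩ := key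
  obtain ⟨ht'', hgen⟩ := H 1 ⟨_, hαmem t₁⟩
    ((Ideal.ne_top_iff_one 𝔫).mp h𝔫.ne_top)
    (by rw [h21c_phi_apply, Subalgebra.coe_one, one_mul])
  have hα0 : heckeAlphaBar Kbar M ℓ (t₁ : FF M) ≠ 0 :=
    (_root_.map_ne_zero (heckeAlphaBar Kbar M ℓ)).mpr ht₁0
  have hαinv : (heckeAlphaBar Kbar M ℓ (t₁ : FF M))⁻¹ ∈ ssV A M ℓ := by
    have e2 : (heckeAlphaBar Kbar M ℓ (t₁ : FF M))⁻¹ =
        heckeAlphaBar Kbar M ℓ ((t₁ : FF M)⁻¹) := (map_inv₀ _ _).symm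
    rw [e2]
    exact h21u_alpha_mem_ssV A M ℓ hℓ hM hA _ (gaussV_le_softV A M ht₁inv)
  refine ⟨⟨_, hαmem t₁⟩, ht'', hα0, hαinv, hgen, fun σ => ?_⟩
  have h := Fermat.Agent.Red.HKGal.intertwines_heckeAlphaBar M ℓ σ (t₁ : FF M)
  have h1 : gal M σ • (t₁ : FF M) = t₁ := GalI.gal_smul_of_isRat σ ht₁rat
  have h2 : gal (M * ℓ) σ • heckeAlphaBar Kbar M ℓ (t₁ : FF M) =
      heckeAlphaBar Kbar M ℓ (gal M σ • (t₁ : FF M)) := h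
  rw [h1] at h2
  exact h2

/-- **the cusps on `C₀`**: a local parameter fixed by the inertia group, unit of `W₀`. -/
theorem h90k_cusp_param_zero (hℓ : ℓ.Prime) (hM : ¬ ℓ ∣ M) (haux : auxLevel ℓ ∣ M)
    (hA : A.LiesOverPrime ℓ)
    (𝔫 : Ideal (chart (M * ℓ) A (jSS M ℓ)⁻¹)) (h𝔫 : 𝔫.IsMaximal)
    (hP0 : h85cP0 A M ℓ hℓ hM hA (jSS M ℓ)⁻¹ ≤ 𝔫) (ht : h4c_V A M ℓ ∈ 𝔫) :
    ∃ t' : chart (M * ℓ) A (jSS M ℓ)⁻¹, t' ∈ 𝔫 ∧ (t' : FF (M * ℓ)) ≠ 0 ∧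
      ((t' : FF (M * ℓ)))⁻¹ ∈ h85cW0 A M ℓ hℓ hM hA ∧
      (∀ z ∈ 𝔫, ∃ s, s ∉ 𝔫 ∧ s * z ∈ Ideal.span {t'} ⊔ mExt A M ℓ (jSS M ℓ)⁻¹) ∧
      ∀ σ : GQ, σ ∈ A.inertiaSubgroupIn ℚ → gal (M * ℓ) σ • (t' : FF (M * ℓ)) = t' := by
  classical
  haveI h𝔫p : 𝔫.IsPrime := h𝔫.isPrime
  have hC : IfaceSSChart A M ℓ (jSS M ℓ)⁻¹ := h85s_ifaceSSChart_inf A M ℓ hℓ hM hA
  have hm : mExt A M ℓ (jSS M ℓ)⁻¹ ≤ 𝔫 := le_trans (h85c_hmP0 A M ℓ hℓ hM hA hC) hP0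
  have Hb := h21c_surjZero A M ℓ hℓ hM haux hA
  obtain ⟨hy, hwy, htS, hwtS, hVinf, hV0⟩ := h21c_soft_facts A M ℓ hℓ hM hA
  have hBsoft : ∀ b : chart (M * ℓ) A (jSS M ℓ)⁻¹, (b : FF (M * ℓ)) ∈ softV A (M * ℓ) ∧
      kFricke M ℓ hℓ hM (b : FF (M * ℓ)) ∈ softV A (M * ℓ) := fun b =>
    (h63r_mem_ssV_iff hℓ hM hA _).mp (hC.hBV _ b.2)
  have hres := h21c_hres A (M * ℓ) (jSS M ℓ)⁻¹ 𝔫 h𝔫 hm ht
  set tB : chart (M * ℓ) A (jSS M ℓ)⁻¹ :=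
    ⟨(jSS M ℓ)⁻¹, h85_self_mem_modelAt (M * ℓ) A (jSS M ℓ)⁻¹⟩ with htB
  set yB : chart (M * ℓ) A (jSS M ℓ)⁻¹ := ⟨h21c_y M ℓ, h21c_y_mem_chart A M ℓ hℓ hM hA⟩
    with hyB
  have htBval : (tB : FF (M * ℓ)) = h21c_t M ℓ := h21c_jSS_inv_eq M ℓ
  have ht' : tB ∈ 𝔫 := ht
  have he0val : ((yB ^ ℓ - tB ^ (ℓ * ℓ - 1) : chart (M * ℓ) A (jSS M ℓ)⁻¹) :
      FF (M * ℓ)) = h21c_y M ℓ ^ ℓ - h21c_t M ℓ ^ (ℓ * ℓ - 1) := by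
    push_cast
    rw [htBval]
  have hyn : yB ∈ 𝔫 := by
    have hk : 0 < ℓ * ℓ - 1 := by
      have := hℓ.two_le
      have h7 : 2 * 2 ≤ ℓ * ℓ := Nat.mul_le_mul this this
      omega
    have h0 : yB ^ ℓ - tB ^ (ℓ * ℓ - 1) ∈ 𝔫 := by
      apply hP0
      rw [h85c_mem_P0_iff A M ℓ hℓ hM hA hC, he0val]
      exact hV0
    have h1 : yB ^ ℓ ∈ 𝔫 := by
      have h2 : yB ^ ℓ = (yB ^ ℓ - tB ^ (ℓ * ℓ - 1)) + tB ^ (ℓ * ℓ - 1) := by ring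
      rw [h2]
      exact 𝔫.add_mem h0 (𝔫.pow_mem_of_mem ht' _ hk)
    exact h𝔫p.mem_of_pow_mem _ h1
  obtain ⟨s, hs0, hmult⟩ := h21c_exists_mult A M ℓ hℓ hM hA
  have hSmem : evalF (M * ℓ) A (jB (M * ℓ))⁻¹ s ∈ chart (M * ℓ) A (jSS M ℓ)⁻¹ :=
    (h21c_mem_chart_iff A M ℓ _).mpr
      (Fermat.Agent.Red.Match.ringAdj_le_modelAt _ A _ (evalF_mem_ringAdj _ A _ s))
  have hS'mem : evalF (M * ℓ) A (jB (M * ℓ))⁻¹ s.divX ∈ chart (M * ℓ) A (jSS M ℓ)⁻¹ :=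
    (h21c_mem_chart_iff A M ℓ _).mpr
      (Fermat.Agent.Red.Match.ringAdj_le_modelAt _ A _ (evalF_mem_ringAdj _ A _ s.divX))
  set S : chart (M * ℓ) A (jSS M ℓ)⁻¹ := ⟨_, hSmem⟩ with hS
  have hSn : S ∉ 𝔫 := by
    intro h
    have e : S = ⟨_, hS'mem⟩ * tB + 1 := by
      apply Subtype.ext
      show evalF (M * ℓ) A (jB (M * ℓ))⁻¹ s =
        evalF (M * ℓ) A (jB (M * ℓ))⁻¹ s.divX * (jSS M ℓ)⁻¹ + 1
      rw [h21c_jSS_eq]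
      exact h21c_evalF_sub_one A (M * ℓ) _ s hs0
    have h1 : (1 : chart (M * ℓ) A (jSS M ℓ)⁻¹) ∈ 𝔫 := by
      have h2 : (1 : chart (M * ℓ) A (jSS M ℓ)⁻¹) = S - ⟨_, hS'mem⟩ * tB := by
        rw [e]; ring
      rw [h2]
      exact 𝔫.sub_mem h (𝔫.mul_mem_left _ ht')
    exact h𝔫.ne_top ((Ideal.eq_top_iff_one _).mpr h1)
  have hSEn : ∀ E : ℕ, S ^ E ∉ 𝔫 := fun E h => hSn (h𝔫p.mem_of_pow_mem E h)
  have hmult' : ∀ x : chart M A (jB M)⁻¹, ∃ E : ℕ,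
      ((S ^ E : chart (M * ℓ) A (jSS M ℓ)⁻¹) : FF (M * ℓ)) *
        heckeBetaBar Kbar M ℓ (x : FF M) ∈ chart (M * ℓ) A (jSS M ℓ)⁻¹ := by
    intro x
    obtain ⟨E, hE⟩ := hmult x x.2
    refine ⟨E, ?_⟩
    rw [Subalgebra.coe_pow]
    exact (h21c_mem_chart_iff A M ℓ _).mpr hE
  have hen : (1 - yB) ∉ 𝔫 := by
    intro h
    have h1 : (1 : chart (M * ℓ) A (jSS M ℓ)⁻¹) ∈ 𝔫 := by
      have h2 : (1 : chart (M * ℓ) A (jSS M ℓ)⁻¹) = (1 - yB) + yB := by ring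
      rw [h2]
      exact 𝔫.add_mem h hyn
    exact h𝔫.ne_top ((Ideal.eq_top_iff_one _).mpr h1)
  have key : ∃ t₁ : chart M A (jB M)⁻¹,
      (IsRat (t₁ : FF M) ∧ (t₁ : FF M) ≠ 0 ∧ (t₁ : FF M)⁻¹ ∈ gaussV A M) ∧
      ∀ σ t' : chart (M * ℓ) A (jSS M ℓ)⁻¹, σ ∉ 𝔫 →
        (t' : FF (M * ℓ)) = (σ : FF (M * ℓ)) * h21c_phi A M ℓ (heckeBetaBar Kbar M ℓ) t₁ →
        t' ∈ 𝔫 ∧ ∀ z ∈ 𝔫, ∃ s, s ∉ 𝔫 ∧
          s * z ∈ Ideal.span {t'} ⊔ mExt A M ℓ (jSS M ℓ)⁻¹ := by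
    refine h21u_smooth_local (chart (M * ℓ) A (jSS M ℓ)⁻¹) 𝔫
      (h21c_phi A M ℓ (heckeBetaBar Kbar M ℓ)) hm hres ?_ ?_
      (fun t₁ => IsRat (t₁ : FF M) ∧ (t₁ : FF M) ≠ 0 ∧ (t₁ : FF M)⁻¹ ∈ gaussV A M)
      (fun 𝔰 h𝔰 hle => h90k_LP_rat_inf A M hℓ hM haux hA 𝔰 h𝔰 hle)
    · intro x
      obtain ⟨E, hE⟩ := hmult' x
      exact ⟨S ^ E, hSEn E, hE⟩
    · intro z hz
      obtain ⟨x, hx, hxz⟩ := Hb z z.2
      obtain ⟨E, hE⟩ := hmult' ⟨x, hx⟩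
      refine ⟨⟨x, hx⟩, (1 - yB) * S ^ E, fun h => (h𝔫p.mem_or_mem h).elim hen (hSEn E),
        (1 - yB) * ⟨_, hE⟩, ?_, ?_⟩
      · rw [h21c_phi_apply]
        push_cast
        ring
      · apply h21c_mem_mExt A M ℓ hℓ hM hA
        · have e : (((1 - yB) * S ^ E * z - (1 - yB) * ⟨_, hE⟩ :
              chart (M * ℓ) A (jSS M ℓ)⁻¹) : FF (M * ℓ)) =
              (1 - h21c_y M ℓ) * ((S ^ E * z - ⟨_, hE⟩ :
                chart (M * ℓ) A (jSS M ℓ)⁻¹) : FF (M * ℓ)) := by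
            push_cast
            ring
          rw [e]
          exact GalI.mul_mem_nonunits_left _ hVinf (hBsoft _).1
        · have e1 : (((1 - yB) * S ^ E * z - (1 - yB) * ⟨_, hE⟩ :
              chart (M * ℓ) A (jSS M ℓ)⁻¹) : FF (M * ℓ)) =
              (((1 - yB) * S ^ E : chart (M * ℓ) A (jSS M ℓ)⁻¹) : FF (M * ℓ)) *
              ((z : FF (M * ℓ)) - heckeBetaBar Kbar M ℓ x) := by
            push_cast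
            ring
          rw [e1, map_mul, map_sub, kFricke_beta]
          exact GalI.mul_mem_nonunits_right _ (hBsoft _).2 hxz
  obtain ⟨t₁, ⟨ht₁rat, ht₁0, ht₁inv⟩, H⟩ := key
  obtain ⟨E, hE⟩ := hmult' t₁
  -- the inertia-fixed denominator
  obtain ⟨c, d, hcn, hdn, hcd, hcfix⟩ := h90k_fixed_mult A M hℓ hM hA (jSS M ℓ)⁻¹
    (fun σ _ => h63p_gal_jSS_inv M ℓ σ) hC 𝔫 h𝔫p hm (S ^ E) (hSEn E)
  have hβfix : ∀ σ : GQ, gal (M * ℓ) σ • heckeBetaBar Kbar M ℓ (t₁ : FF M) =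
      heckeBetaBar Kbar M ℓ (t₁ : FF M) := by
    intro σ
    have h := Fermat.Agent.Red.HKGal.intertwines_heckeBetaBar M ℓ σ (t₁ : FF M)
    have h1 : gal M σ • (t₁ : FF M) = t₁ := GalI.gal_smul_of_isRat σ ht₁rat
    have h2 : gal (M * ℓ) σ • heckeBetaBar Kbar M ℓ (t₁ : FF M) =
        heckeBetaBar Kbar M ℓ (gal M σ • (t₁ : FF M)) := h
    rw [h1] at h2
    exact h2
  have hcval : (c : FF (M * ℓ)) * heckeBetaBar Kbar M ℓ (t₁ : FF M) =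
      (d : FF (M * ℓ)) * (((S ^ E : chart (M * ℓ) A (jSS M ℓ)⁻¹) : FF (M * ℓ)) *
        heckeBetaBar Kbar M ℓ (t₁ : FF M)) := by
    rw [hcd]
    push_cast
    ring
  have hcmem : (c : FF (M * ℓ)) * heckeBetaBar Kbar M ℓ (t₁ : FF M) ∈
      chart (M * ℓ) A (jSS M ℓ)⁻¹ := by
    rw [hcval]
    exact (chart (M * ℓ) A (jSS M ℓ)⁻¹).mul_mem d.2 hE
  obtain ⟨ht'', hgen⟩ := H c ⟨_, hcmem⟩ hcn rfl
  have hS0 : evalF (M * ℓ) A (jB (M * ℓ))⁻¹ s ≠ 0 := by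
    intro h0
    apply hSn
    have : S = 0 := Subtype.ext h0
    rw [this]
    exact 𝔫.zero_mem
  have hd0 : (d : FF (M * ℓ)) ≠ 0 := by
    intro h0
    apply hdn
    have : d = 0 := Subtype.ext h0
    rw [this]
    exact 𝔫.zero_mem
  have hβ0 : heckeBetaBar Kbar M ℓ (t₁ : FF M) ≠ 0 :=
    (_root_.map_ne_zero (heckeBetaBar Kbar M ℓ)).mpr ht₁0
  have hSE : ((S ^ E : chart (M * ℓ) A (jSS M ℓ)⁻¹) : FF (M * ℓ)) =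
      evalF (M * ℓ) A (jB (M * ℓ))⁻¹ s ^ E := by
    rw [Subalgebra.coe_pow]
  have hdP0 : d ∉ h85cP0 A M ℓ hℓ hM hA (jSS M ℓ)⁻¹ := fun h => hdn (hP0 h)
  have hdinv : ((d : FF (M * ℓ)))⁻¹ ∈ h85cW0 A M ℓ hℓ hM hA :=
    h85c_inv_mem_of_notMem (W := h85cW0 A M ℓ hℓ hM hA) (h85c_hBW0 A M ℓ hℓ hM hA hC) hdP0
  refine ⟨⟨_, hcmem⟩, ht'', ?_, ?_, hgen, fun σ hσ => ?_⟩
  · show (c : FF (M * ℓ)) * heckeBetaBar Kbar M ℓ (t₁ : FF M) ≠ 0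
    rw [hcval, hSE]
    exact mul_ne_zero hd0 (mul_ne_zero (pow_ne_zero _ hS0) hβ0)
  · show ((c : FF (M * ℓ)) * heckeBetaBar Kbar M ℓ (t₁ : FF M))⁻¹ ∈ h85cW0 A M ℓ hℓ hM hA
    have e2 : (heckeBetaBar Kbar M ℓ (t₁ : FF M))⁻¹ =
        heckeBetaBar Kbar M ℓ ((t₁ : FF M)⁻¹) := (map_inv₀ _ _).symm
    rw [hcval, hSE, mul_inv, mul_inv, ← inv_pow, e2]
    refine mul_mem hdinv ?_
    exact h85c_ssV_le_W0 A M ℓ hℓ hM hA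
      (mul_mem (pow_mem (h21u_evalF_inv_mem_ssV A M ℓ hℓ hM hA s hs0) E)
        (h21u_beta_mem_ssV A M ℓ hℓ hM hA _ (gaussV_le_softV A M ht₁inv)))
  · show gal (M * ℓ) σ • ((c : FF (M * ℓ)) * heckeBetaBar Kbar M ℓ (t₁ : FF M)) = _
    rw [smul_mul', hcfix σ hσ, hβfix σ]

end Cusp

end Fermat.Agent.P7
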