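import Fermat.Agent.P7.H90CuspCore
import Fermat.Agent.P7.H90CuspParam
import Fermat.Agent.P7.H78CuspSm

/-!
# P7 (wave 7, S44), block (5b), leaf T-C3-NF (helper90): the smooth normal form AT THE CUSPS and
the complete families of normal forms over the index types of `P7/H78ChartIface.lean`

`p ∤ M` prime, good level, `A` over `p`, `b` in the inertia group of `A`, `δ : A`, `u ≠ 0` with
`p ∣ div u` at the places centered at the point, `hvar` = BREAK for the constants fixed by the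
inertia stabiliser of `u` (as in `P7/H90NFAdapt.lean`).

* `h90k_nfSmooth_cuspInf` : `H84aNFSmooth … (softV A (M p)) (h62yO B∞ 𝔫) u` at a cusp on `C∞`
  (`B∞ = chart (M p) A (1/j)`), from helper78's smooth datum `h78l_smooth_cuspInf`, the
  Galois-fixed parameter `h90k_cusp_param_inf` and the chart-generic core;
* `h90k_nfSmooth_cuspZero` : the same at a cusp on `C₀` (`W = W₀`);
* `h90k_nfInf_all`, `h90k_nfZero_all` : the families `hNFinf`, `hNFzero` of `h78l_phase`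
  (`P7/H78PhaseLevel.lean`) over `H78lFinInf ⊕ H78lCuspInf` resp. `H78lFinZero ⊕ H78lCuspZero`;
* `h90k_nfNode_all` : the family of node normal forms over `H78lNode`, with the slopes and node
  constants as functions of the node, and helper50's node form with the same slope and constant.
-/

set_option autoImplicit false
set_option linter.unusedSectionVars false
set_option linter.unusedVariables false
set_option linter.style.longLine false
set_option linter.style.haveILetI false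
set_option synthInstance.maxHeartbeats 400000
set_option maxHeartbeats 1000000

open AlgebraicCurve ModularCurve WithZero IsLocalRing Polynomial

noncomputable section

namespace Fermat.Agent.P7

open Fermat.Agent.S37 Fermat.Agent.S37.GalI Fermat.Agent.Red Fermat.Agent.Red.GG
  Fermat.Agent.Red.GV Fermat.Agent.Red.GV.Soft Fermat.Agent.Red.ModelO Fermat.Agent.Red.Kron
  Fermat.Agent.LGC Fermat.Agent.S35 Fermat.Agent.P6

variable (A : ValuationSubring Kbar) (M : ℕ) {p : ℕ} [NeZero M] [NeZero p]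

/-- **C3 → C5 at a cusp on `C∞`.** -/
theorem h90k_nfSmooth_cuspInf (hp : p.Prime) (hM : ¬ p ∣ M) (haux : auxLevel p ∣ M)
    (hA : A.LiesOverPrime p)
    (𝔫 : Ideal (chart (M * p) A (jSS M p)⁻¹)) (h𝔫 : 𝔫.IsMaximal)
    (hPinf : h85cPinf A M p hp hA (jSS M p)⁻¹ ≤ 𝔫) (hV : h4c_V A M p ∈ 𝔫)
    {b : GQ} (hb : b ∈ A.inertiaSubgroupIn ℚ) (δ : A)
    (u : FF (M * p)) (hu : u ≠ 0)
    (hru : ∀ i, h26Centered (chart (M * p) A (jSS M p)⁻¹) (chartVal (M * p) (jSS M p)⁻¹) 𝔫 i →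
      ∃ n : ℤ, chartVal (M * p) (jSS M p)⁻¹ i u = exp (-((p : ℤ) * n)))
    (hvar : ∀ z : A, (∀ σ (hσ : σ ∈ A.inertiaSubgroupIn ℚ), gal (M * p) σ • u = u →
      h56pTheta A hσ z = z) → ∃ c : A, h56pTheta A hb z = z * (1 + δ * c)) :
    H84aNFSmooth ((h56pTau (M * p) b : FF (M * p) ≃+* FF (M * p)) : FF (M * p) →+* FF (M * p))
      (h56pTheta A hb) δ p (softV A (M * p))
      (h62yO (chart (M * p) A (jSS M p)⁻¹) 𝔫 h𝔫.isPrime).toSubring u := by
  have hC : IfaceSSChart A M p (jSS M p)⁻¹ := h85s_ifaceSSChart_inf A M p hp hM hA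
  have hm : mExt A M p (jSS M p)⁻¹ ≤ 𝔫 := le_trans (h85c_hmPinf A M p hp hA hC) hPinf
  obtain ⟨t₀, h₀⟩ := h78l_smooth_cuspInf A M hp hM hA 𝔫 h𝔫 haux hPinf hV
  obtain ⟨t', ht', ht'0, ht'inv, hprin, hfix⟩ :=
    h90k_cusp_param_inf A M hp hM haux hA 𝔫 h𝔫 hPinf hV
  have h := h90g_smooth_of h₀ t' ht' ht'0 (h63r_ssV_le_soft hp hA ht'inv) hprin
  exact h90k_nfSmooth_core A M hp hM hA (jSS M p)⁻¹ (fun σ _ => h63p_gal_jSS_inv M p σ) hC
    (h85s_ifaceSSSection_of A M p _ (h71_finite_inf' hp hM hA)) 𝔫 h𝔫 hm _ _ t'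
    (fun σ _ => hfix σ) h (fun f hf => h62j_scale_inf A hp hA (M * p) f hf) hb δ u hu hru hvar

/-- **C3 → C5 at a cusp on `C₀`.** -/
theorem h90k_nfSmooth_cuspZero (hp : p.Prime) (hM : ¬ p ∣ M) (haux : auxLevel p ∣ M)
    (hA : A.LiesOverPrime p)
    (𝔫 : Ideal (chart (M * p) A (jSS M p)⁻¹)) (h𝔫 : 𝔫.IsMaximal)
    (hP0 : h85cP0 A M p hp hM hA (jSS M p)⁻¹ ≤ 𝔫) (hV : h4c_V A M p ∈ 𝔫)
    {b : GQ} (hb : b ∈ A.inertiaSubgroupIn ℚ) (δ : A)
    (u : FF (M * p)) (hu : u ≠ 0)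
    (hru : ∀ i, h26Centered (chart (M * p) A (jSS M p)⁻¹) (chartVal (M * p) (jSS M p)⁻¹) 𝔫 i →
      ∃ n : ℤ, chartVal (M * p) (jSS M p)⁻¹ i u = exp (-((p : ℤ) * n)))
    (hvar : ∀ z : A, (∀ σ (hσ : σ ∈ A.inertiaSubgroupIn ℚ), gal (M * p) σ • u = u →
      h56pTheta A hσ z = z) → ∃ c : A, h56pTheta A hb z = z * (1 + δ * c)) :
    H84aNFSmooth ((h56pTau (M * p) b : FF (M * p) ≃+* FF (M * p)) : FF (M * p) →+* FF (M * p))
      (h56pTheta A hb) δ p (h85cW0 A M p hp hM hA).toSubring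
      (h62yO (chart (M * p) A (jSS M p)⁻¹) 𝔫 h𝔫.isPrime).toSubring u := by
  have hC : IfaceSSChart A M p (jSS M p)⁻¹ := h85s_ifaceSSChart_inf A M p hp hM hA
  have hm : mExt A M p (jSS M p)⁻¹ ≤ 𝔫 := le_trans (h85c_hmP0 A M p hp hM hA hC) hP0
  obtain ⟨t₀, h₀⟩ := h78l_smooth_cuspZero A M hp hM hA 𝔫 h𝔫 haux hP0 hV
  obtain ⟨t', ht', ht'0, ht'inv, hprin, hfix⟩ :=
    h90k_cusp_param_zero A M hp hM haux hA 𝔫 h𝔫 hP0 hV
  have h := h90g_smooth_of h₀ t' ht' ht'0 ht'inv hprin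
  exact h90k_nfSmooth_core A M hp hM hA (jSS M p)⁻¹ (fun σ _ => h63p_gal_jSS_inv M p σ) hC
    (h85s_ifaceSSSection_of A M p _ (h71_finite_inf' hp hM hA)) 𝔫 h𝔫 hm _ _ t'
    hfix h (fun f hf => h62j_scale_zero A M hp hM hA f hf) hb δ u hu hru hvar

/-- **the family `hNFinf` of `h78l_phase`**: the smooth normal form at every closed point of
`C∞` which is not a crossing point (finite points and cusps). -/
theorem h90k_nfInf_all (hp : p.Prime) (hM : ¬ p ∣ M) (haux : auxLevel p ∣ M)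
    (hA : A.LiesOverPrime p)
    {b : GQ} (hb : b ∈ A.inertiaSubgroupIn ℚ) (δ : A)
    (u : FF (M * p)) (hu : u ≠ 0)
    (hruFin : ∀ i : ChartPlace (M * p) (jSS M p),
      ∃ n : ℤ, chartVal (M * p) (jSS M p) i u = exp (-((p : ℤ) * n)))
    (hruInf : ∀ i : ChartPlace (M * p) (jSS M p)⁻¹,
      ∃ n : ℤ, chartVal (M * p) (jSS M p)⁻¹ i u = exp (-((p : ℤ) * n)))
    (hvar : ∀ z : A, (∀ σ (hσ : σ ∈ A.inertiaSubgroupIn ℚ), gal (M * p) σ • u = u →
      h56pTheta A hσ z = z) → ∃ c : A, h56pTheta A hb z = z * (1 + δ * c))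
    (𝔫 : H78lFinInf A M hp hM hA ⊕ H78lCuspInf A M hp hA) :
    H84aNFSmooth ((h56pTau (M * p) b : FF (M * p) ≃+* FF (M * p)) : FF (M * p) →+* FF (M * p))
      (h56pTheta A hb) δ p (softV A (M * p)) (h78lOinf A M hp hM hA 𝔫) u := by
  rcases 𝔫 with 𝔫 | 𝔫
  · exact h90g_nfSmooth_inf A M hp hM haux hA 𝔫.1 𝔫.2.1 𝔫.2.2.1 𝔫.2.2.2 hb δ u hu
      (fun i _ => hruFin i) hvar
  · exact h90k_nfSmooth_cuspInf A M hp hM haux hA 𝔫.1 𝔫.2.1 𝔫.2.2.1 𝔫.2.2.2 hb δ u hu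
      (fun i _ => hruInf i) hvar

/-- **the family `hNFzero` of `h78l_phase`.** -/
theorem h90k_nfZero_all (hp : p.Prime) (hM : ¬ p ∣ M) (haux : auxLevel p ∣ M)
    (hA : A.LiesOverPrime p)
    {b : GQ} (hb : b ∈ A.inertiaSubgroupIn ℚ) (δ : A)
    (u : FF (M * p)) (hu : u ≠ 0)
    (hruFin : ∀ i : ChartPlace (M * p) (jSS M p),
      ∃ n : ℤ, chartVal (M * p) (jSS M p) i u = exp (-((p : ℤ) * n)))
    (hruInf : ∀ i : ChartPlace (M * p) (jSS M p)⁻¹,
      ∃ n : ℤ, chartVal (M * p) (jSS M p)⁻¹ i u = exp (-((p : ℤ) * n)))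
    (hvar : ∀ z : A, (∀ σ (hσ : σ ∈ A.inertiaSubgroupIn ℚ), gal (M * p) σ • u = u →
      h56pTheta A hσ z = z) → ∃ c : A, h56pTheta A hb z = z * (1 + δ * c))
    (𝔫 : H78lFinZero A M hp hM hA ⊕ H78lCuspZero A M hp hM hA) :
    H84aNFSmooth ((h56pTau (M * p) b : FF (M * p) ≃+* FF (M * p)) : FF (M * p) →+* FF (M * p))
      (h56pTheta A hb) δ p (h85cW0 A M p hp hM hA).toSubring (h78lOzero A M hp hM hA 𝔫) u := by
  rcases 𝔫 with 𝔫 | 𝔫
  · exact h90g_nfSmooth_zero A M hp hM haux hA 𝔫.1 𝔫.2.1 𝔫.2.2.1 𝔫.2.2.2 hb δ u hu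
      (fun i _ => hruFin i) hvar
  · exact h90k_nfSmooth_cuspZero A M hp hM haux hA 𝔫.1 𝔫.2.1 𝔫.2.2.1 𝔫.2.2.2 hb δ u hu
      (fun i _ => hruInf i) hvar

/-- **the family `hNFe` of `h78l_phase`**: the slopes `m e` and the node constants
`γP e`, `γQ e` as functions of the crossing point, with helper50's node form (same slope, node
constant `γP e / γQ e`). -/
theorem h90k_nfNode_all (hp : p.Prime) (hM : ¬ p ∣ M) (haux : auxLevel p ∣ M)
    (hA : A.LiesOverPrime p)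
    {b : GQ} (hb : b ∈ A.inertiaSubgroupIn ℚ) (δ : A)
    (u : FF (M * p)) (hu : u ≠ 0)
    (hruFin : ∀ i : ChartPlace (M * p) (jSS M p),
      ∃ n : ℤ, chartVal (M * p) (jSS M p) i u = exp (-((p : ℤ) * n)))
    (hvar : ∀ z : A, (∀ σ (hσ : σ ∈ A.inertiaSubgroupIn ℚ), gal (M * p) σ • u = u →
      h56pTheta A hσ z = z) → ∃ c : A, h56pTheta A hb z = z * (1 + δ * c)) :
    ∃ (m : H78lNode A M hp hM hA → ℤ) (γP γQ : H78lNode A M hp hM hA → A),
      ∀ e : H78lNode A M hp hM hA, γP e ≠ 0 ∧ γQ e ≠ 0 ∧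
        H84aNFNode
          ((h56pTau (M * p) b : FF (M * p) ≃+* FF (M * p)) : FF (M * p) →+* FF (M * p))
          (h56pTheta A hb) δ p (h85cWinf A M p hp hA).toSubring
          (h85cW0 A M p hp hM hA).toSubring (h78lOe A M hp hM hA e) ((p : ℕ) : A) u
          (m e) (γP e) (γQ e) ∧
        H50tNodeForm A M hp hM hA e.1 u p (m e) ((γP e : Kbar) / (γQ e : Kbar)) := by
  have hall : ∀ e : H78lNode A M hp hM hA, ∃ (m : ℤ) (γP γQ : A), γP ≠ 0 ∧ γQ ≠ 0 ∧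
      H84aNFNode
        ((h56pTau (M * p) b : FF (M * p) ≃+* FF (M * p)) : FF (M * p) →+* FF (M * p))
        (h56pTheta A hb) δ p (h85cWinf A M p hp hA).toSubring
        (h85cW0 A M p hp hM hA).toSubring (h78lOe A M hp hM hA e) ((p : ℕ) : A) u
        m γP γQ ∧
      H50tNodeForm A M hp hM hA e.1 u p m ((γP : Kbar) / (γQ : Kbar)) := fun e =>
    h90g_nfNode A M hp hM haux hA e.1 e.2.1 e.2.2.1 e.2.2.2 hb δ u hu
      (fun i _ => hruFin i) hvar
  choose m γP γQ h using hall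
  exact ⟨m, γP, γQ, h⟩

end Fermat.Agent.P7
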