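import Fermat.Agent.P7.H5EisAll
import Fermat.Agent.P7.H27EisWire
import Fermat.Agent.P7.H78PhaseWire
import Fermat.Agent.P7.H90CuspNF
import Fermat.Agent.P7.H57NormLevel

/-!
# P7 (wave 7, S44), block (E), row T-EIS-PKG (helper90): the T-EIS package `H5eNodePkg` at every
crossing point, and T-EIS + PURITY at the level `M p` with NO open geometric input

`p ∤ M` prime, good level, `A` over `p`, BREAK `H23wBreak p A ζ β b δ`, `b` in the inertia group,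
`u` fixed by `I_β`, `p ∣ div u`.

* `h90m_node` : at a crossing point `𝔫` there are node coordinates `x y = p c` such that EVERY
  `u` (with `p ∣ div u` at the places centered at `𝔫` and BREAK for its constants) has a node
  normal form `H84aNFNode … u m γP γQ` AND node data `H5eNodeData 𝔫 x u m (γP / γQ)` (helper5)
  with the SAME coordinate `x`, slope and node constant, fixed by the inertia stabiliser of `u`;
* `h90m_export` : the EXPORT `H5eExport … (δ ^ p) u (γP e₀ / γQ e₀)` of block (5b) at the level,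
  from helper27's `h27h_export_abs`, helper78's level chart `h78l_chart_level` and depth
  `h78l_disc_node`, and the complete families of normal forms of `P7/H90CuspNF.lean`;
* `h90m_pkg` : the package for two functions `u`, `u'` at a crossing point;
* `h90m_nodePkg` : **`H5eNodePkg A M hp hM hA ℓ β b δ (δ ^ p) u 𝔫`** for a Kummer representative;
* `h90m_eis_all` : **T-EIS + PURITY**: `p ∣ ord_Q(ū)` at every place `Q` of the special fibre
  (= `h5e_all` with the packages discharged; the hypothesis `hs` of `h60g_toric`).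
-/

set_option autoImplicit false
set_option linter.unusedSectionVars false
set_option linter.unusedVariables false
set_option linter.style.longLine false
set_option linter.style.haveILetI false
set_option synthInstance.maxHeartbeats 400000
set_option maxHeartbeats 1600000

open AlgebraicCurve ModularCurve WithZero IsLocalRing Polynomial

noncomputable section

namespace Fermat.Agent.P7

open Fermat.Agent.S37 Fermat.Agent.S37.GalI Fermat.Agent.Red Fermat.Agent.Red.GG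
  Fermat.Agent.Red.GV Fermat.Agent.Red.GV.Soft Fermat.Agent.Red.ModelO Fermat.Agent.Red.Kron
  Fermat.Agent.LGC Fermat.Agent.S35 Fermat.Agent.P5 Fermat.Agent.P6
open Fermat.Agent.Jac.K1 (IsKummerPair)

variable (A : ValuationSubring Kbar) (M : ℕ) {p : ℕ} [NeZero M] [NeZero p]

/-- **the node normal form and the node data with the same coordinate**, uniformly in `u`. -/
theorem h90m_node (hp : p.Prime) (hM : ¬ p ∣ M) (haux : auxLevel p ∣ M)
    (hA : A.LiesOverPrime p)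
    (𝔫 : Ideal (chart (M * p) A (jSS M p))) (h𝔫 : 𝔫.IsMaximal)
    (hPinf : h62i_Pinf A M hp hM hA ≤ 𝔫) (hP0 : h62i_P0 A M hp hM hA ≤ 𝔫)
    {b : GQ} (hb : b ∈ A.inertiaSubgroupIn ℚ) (δ : A) :
    ∃ x y c : chart (M * p) A (jSS M p), x ∈ 𝔫 ∧ y ∈ 𝔫 ∧ c ∉ 𝔫 ∧
      x * y = algebraMap A (chart (M * p) A (jSS M p)) ((p : ℕ) : A) * c ∧
      (∀ z ∈ 𝔫, ∃ s, s ∉ 𝔫 ∧ s * z ∈ Ideal.span {x, y} ⊔ mExt A M p (jSS M p)) ∧
      ((x : FF (M * p)))⁻¹ ∈ h85cWinf A M p hp hA ∧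
      ((y : FF (M * p)))⁻¹ ∈ h85cW0 A M p hp hM hA ∧
      ∀ u : FF (M * p), u ≠ 0 →
        (∀ i, h26Centered (chart (M * p) A (jSS M p)) (chartVal (M * p) (jSS M p)) 𝔫 i →
          ∃ n : ℤ, chartVal (M * p) (jSS M p) i u = exp (-((p : ℤ) * n))) →
        (∀ z : A, (∀ σ (hσ : σ ∈ A.inertiaSubgroupIn ℚ), gal (M * p) σ • u = u →
          h56pTheta A hσ z = z) → ∃ c : A, h56pTheta A hb z = z * (1 + δ * c)) →
        ∃ (m : ℤ) (γP γQ : A), γP ≠ 0 ∧ γQ ≠ 0 ∧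
          H84aNFNode
            ((h56pTau (M * p) b : FF (M * p) ≃+* FF (M * p)) : FF (M * p) →+* FF (M * p))
            (h56pTheta A hb) δ p (h85cWinf A M p hp hA).toSubring
            (h85cW0 A M p hp hM hA).toSubring
            (h62yO (chart (M * p) A (jSS M p)) 𝔫 h𝔫.isPrime).toSubring ((p : ℕ) : A) u
            m γP γQ ∧
          H5eNodeData A M hp hM hA 𝔫 (x : FF (M * p)) u m ((γP : Kbar) * (γQ : Kbar)⁻¹) ∧
          (∀ σ : GQ, σ ∈ A.inertiaSubgroupIn ℚ → gal (M * p) σ • u = u →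
            σ ((γP : Kbar) * (γQ : Kbar)⁻¹) = (γP : Kbar) * (γQ : Kbar)⁻¹) := by
  classical
  have hprime := h𝔫.isPrime
  have hle : mExt A M p (jSS M p) ≤ 𝔫 := le_trans (h62i_m_le_Pinf A M hp hM hA) hPinf
  have hC₀ : IfaceSSChart A M p (jSS M p) := h85s_ifaceSSChart_fin A M p hp hM hA
  have hAF := algebraMap_injective_FF (M * p) A
  obtain ⟨x, y, c, hxf, hyf, hcf, hx𝔫, hy𝔫, hc𝔫, hxy, hgen, hxW, hyW, hall⟩ :=
    h90g_node_rat A M hp hM haux hA 𝔫 h𝔫 hPinf hP0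
  refine ⟨x, y, c, hx𝔫, hy𝔫, hc𝔫, hxy, hgen, hxW, hyW, fun u hu hru hvar => ?_⟩
  obtain ⟨m, s, θ, e, Tp, Tm, a, d, n, π, εinf, ε0, hθ, hθ0, he, he', hes, hdisj, hT, hue,
    hrat, hπ, hπ0, hεinf, hε0, hginf, hg0⟩ := hall u hu p hp.ne_zero hru
  have hp0 : ((p : ℕ) : A) ≠ 0 := h20n_natCast_ne_zero A p
  obtain ⟨haF, hc0, hx0, hy0, hxyF⟩ := h62j_ne_zero hAF 𝔫 x y c hc𝔫 ((p : ℕ) : A) hp0 hxy
  have ha0 : ∀ i, i ∈ Tp ∨ i ∈ Tm → a i ≠ 0 := by
    intro i hi h0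
    have h1 := (hT i hi).2.2.1
    rw [h0, zero_mul] at h1
    exact hp0 h1.symm
  set P : A[X] := h91yPoly Tp a n with hP
  set Q : A[X] := h91yPoly Tm a n with hQ
  have hPγ : P.coeff 0 ≠ 0 := h90g_coeff_zero_ne A Tp a n fun i hi => ha0 i (Or.inl hi)
  have hQγ : Q.coeff 0 ≠ 0 := h90g_coeff_zero_ne A Tm a n fun i hi => ha0 i (Or.inr hi)
  -- the unit `E`
  set b' : FF (M * p) →+* FF (M * p) :=
    ((h56pTau (M * p) b : FF (M * p) ≃+* FF (M * p)) : FF (M * p) →+* FF (M * p)) with hb'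
  obtain ⟨heO, heO'⟩ := h91i_unitAt_mem_O A M 𝔫 hprime hes
  obtain ⟨h1, h1'⟩ := h91i_const_quot_O A M hp hA hb 𝔫 hprime hθ hθ0
  obtain ⟨h2, h2'⟩ := h91i_quot_unit A M hp hM hA hb (h63p_gal_jSS M p b) hC₀ 𝔫 hprime hle
    heO heO'
  have he0 : e ≠ 0 := by
    intro h0
    rw [h0, mul_zero, zero_mul] at hue
    exact hu hue
  have hE0 : θ * e ≠ 0 := mul_ne_zero hθ0 he0
  have hbθ0 : h56pTau (M * p) b θ ≠ 0 := (_root_.map_ne_zero _).mpr hθ0
  have hbe0 : h56pTau (M * p) b e ≠ 0 := (_root_.map_ne_zero _).mpr he0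
  have hE1 : b' (θ * e) * (θ * e)⁻¹ ∈
      (h62yO (chart (M * p) A (jSS M p)) 𝔫 hprime).toSubring := by
    have e1 : b' (θ * e) * (θ * e)⁻¹ =
        (h56pTau (M * p) b θ * θ⁻¹) * (h56pTau (M * p) b e * e⁻¹) := by
      show h56pTau (M * p) b (θ * e) * (θ * e)⁻¹ = _
      rw [map_mul]
      field_simp
    rw [e1]
    exact (h62yO (chart (M * p) A (jSS M p)) 𝔫 hprime).mul_mem h1 h2
  have hE2 : (θ * e) * (b' (θ * e))⁻¹ ∈
      (h62yO (chart (M * p) A (jSS M p)) 𝔫 hprime).toSubring := by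
    have e1 : (θ * e) * (b' (θ * e))⁻¹ =
        (h56pTau (M * p) b θ * θ⁻¹)⁻¹ * (h56pTau (M * p) b e * e⁻¹)⁻¹ := by
      show (θ * e) * (h56pTau (M * p) b (θ * e))⁻¹ = _
      rw [map_mul]
      field_simp
    rw [e1]
    exact (h62yO (chart (M * p) A (jSS M p)) 𝔫 hprime).mul_mem h1' h2'
  have hxp : (x : FF (M * p)) * (algebraMap A (FF (M * p)) ((p : ℕ) : A))⁻¹ ∈
      (h85cW0 A M p hp hM hA).toSubring := by
    have e1 : (x : FF (M * p)) * (algebraMap A (FF (M * p)) ((p : ℕ) : A))⁻¹ =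
        (c : FF (M * p)) * ((y : FF (M * p)))⁻¹ := by
      rw [← div_eq_mul_inv, ← div_eq_mul_inv, div_eq_div_iff haF hy0, hxyF]
      exact mul_comm _ _
    rw [e1]
    exact Subring.mul_mem _ (h50t_chart_mem_zero hp hM hA c) hyW
  refine ⟨m, P.coeff 0, Q.coeff 0, hPγ, hQγ, ?_, ?_, ?_⟩
  · refine ⟨(x : FF (M * p)), P, Q, θ * e, hx0, h50t_chart_mem_inf hp hM hA x, hxW, hxf b,
      hxp, h91yPoly_monic Tp a n,
      h91yPoly_coeff_mem Tp a n (fun i hi => (hT i (Or.inl hi)).1), hPγ,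
      h91yPoly_inside Tp a d n ((p : ℕ) : A) (fun i hi => (hT i (Or.inl hi)).2.1)
        (fun i hi => (hT i (Or.inl hi)).2.2.1),
      h90g_hvar A M hb δ u hvar P (fun σ hσ hσu => (hrat σ hσ hσu).1),
      h91yPoly_monic Tm a n,
      h91yPoly_coeff_mem Tm a n (fun i hi => (hT i (Or.inr hi)).1), hQγ,
      h91yPoly_inside Tm a d n ((p : ℕ) : A) (fun i hi => (hT i (Or.inr hi)).2.1)
        (fun i hi => (hT i (Or.inr hi)).2.2.1),
      h90g_hvar A M hb δ u hvar Q (fun σ hσ hσu => (hrat σ hσ hσu).2),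
      hE0, hE1, hE2, rfl, rfl, ?_⟩
    rw [hue]
    ring
  · exact h5e_data_of_form hp hM hA 𝔫 (x : FF (M * p)) hx0 hu hθ he he' hes hue hπ hεinf hε0
      hginf hg0
  · intro σ hσ hσu
    exact h5e_fix_of_poly hσ (hrat σ hσ hσu).1 (hrat σ hσ hσu).2

/-- **the EXPORT of block (5b) at the level `M p`**, read at the node `e₀`. -/
theorem h90m_export (hp : p.Prime) (hM : ¬ p ∣ M) (haux : auxLevel p ∣ M)
    (hA : A.LiesOverPrime p)
    {ζ β : Kbar} (hζ : IsPrimitiveRoot ζ p) {b : GQ} {δ : Kbar}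
    (hbreak : H23wBreak p A ζ β b δ) (hb : b ∈ A.inertiaSubgroupIn ℚ)
    (u : FF (M * p)) (hu0 : u ≠ 0)
    (hord : ∀ v : Place Kbar (FF (M * p)), (p : ℤ) ∣ v.ord u)
    (hfix : ∀ a ∈ h23vI1 p A, a β = β → gal (M * p) a • u = u)
    (m : H78lNode A M hp hM hA → ℤ) (γP γQ : H78lNode A M hp hM hA → A)
    (hγP : ∀ e, γP e ≠ 0) (hγQ : ∀ e, γQ e ≠ 0)
    (hNFe : ∀ e : H78lNode A M hp hM hA, H84aNFNode
      ((h56pTau (M * p) b : FF (M * p) ≃+* FF (M * p)) : FF (M * p) →+* FF (M * p))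
      (h56pTheta A hb) (⟨δ, A.nonunits_le hbreak.2.1⟩ : A) p (h85cWinf A M p hp hA).toSubring
      (h85cW0 A M p hp hM hA).toSubring
      (h62yO (chart (M * p) A (jSS M p)) e.1 e.2.1.isPrime).toSubring ((p : ℕ) : A) u
      (m e) (γP e) (γQ e))
    (e₀ : H78lNode A M hp hM hA) :
    H5eExport A M hp hM b δ (δ ^ p) u ((γP e₀ : Kbar) * (γQ e₀ : Kbar)⁻¹) := by
  classical
  set δA : A := ⟨δ, A.nonunits_le hbreak.2.1⟩ with hδA
  have hδ0 : δ ≠ 0 := hbreak.1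
  have hδA0 : δA ≠ 0 := fun h => hδ0 (congrArg (fun t : A => (t : Kbar)) h)
  have hδAm : δA ∈ maximalIdeal A := (GG.mem_maximalIdeal_iff A δA).mpr hbreak.2.1
  have hB' : H23wBreak p A ζ β b ((δA : A) : Kbar) := hbreak
  have hpδ := h27h_p_delta hp hζ hB'
  have hvar := h84w_hvar A M hbreak hb u hfix
  have hC := h78l_chart_level A M hp hM hA haux
  have hϖ0 : ((p : ℕ) : A) ≠ 0 := h20n_natCast_ne_zero A p
  have hθϖ : h56pTheta A hb ((p : ℕ) : A) = ((p : ℕ) : A) := map_natCast _ p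
  have hbθ : ∀ a : A, (h56pTau (M * p) b : FF (M * p) →+* FF (M * p))
      (algebraMap A (FF (M * p)) a) = algebraMap A (FF (M * p)) (h56pTheta A hb a) :=
    fun a => h56p_tau_algebraMap A (M * p) hb a
  have hinvinf := h86t_Winf_unit A M p hp hA
  have hntinf := h86t_Winf_nt A M p hp hA
  have hinv0 := h86t_W0_unit A M p hp hM hA
  have hnt0 := h86t_W0_nt A M p hp hM hA
  have hNFe' : ∀ e : H78lNode A M hp hM hA, H84aNFNode
      (h56pTau (M * p) b : FF (M * p) →+* FF (M * p))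
      (h56pTheta A hb) δA p (softV A (M * p))
      (h85cW0 A M p hp hM hA).toSubring (h78lOe A M hp hM hA e) ((p : ℕ) : A) u
      (m e) (γP e) (γQ e) := hNFe
  -- the depth dichotomy from the node `e₀`
  obtain ⟨ψ₀, hL2, -⟩ := h84a_L2 hC.hAF hC.hAinf hinvinf hntinf hC.hA0 hinv0 hnt0
    (h56pTau (M * p) b : FF (M * p) →+* FF (M * p)) (h56pTheta A hb) hbθ hp hδAm hpδ
    hϖ0 hθϖ (hNFe' e₀)
  have hdisc : H78hDisc A (softV A (M * p)) (h85cW0 A M p hp hM hA).toSubring (δA ^ p)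
      ((h56pTau (M * p) b : FF (M * p) →+* FF (M * p)) u * u⁻¹) :=
    h78l_disc_node A M hp hM hA haux e₀ (δA ^ p) (ψ₀ ^ p) (pow_ne_zero _ hδA0) _ hL2
  have hNFinf := h90k_nfInf_all A M hp hM haux hA hb δA u hu0
    (fun i => exists_val_eq (M * p) (jSS M p) u hu0 p hord i)
    (fun i => exists_val_eq (M * p) (jSS M p)⁻¹ u hu0 p hord i) hvar
  have hNFzero := h90k_nfZero_all A M hp hM haux hA hb δA u hu0
    (fun i => exists_val_eq (M * p) (jSS M p) u hu0 p hord i)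
    (fun i => exists_val_eq (M * p) (jSS M p)⁻¹ u hu0 p hord i) hvar
  obtain ⟨a₀, f₁, f₂, F₃, -, -, -, hw, hf₁, hf₂, hallψ⟩ :=
    h27h_export_abs hC hinvinf hntinf hinv0 hnt0
      (h56pTau (M * p) b : FF (M * p) →+* FF (M * p)) (h56pTheta A hb) hbθ hp hδA0 hδAm hpδ
      hϖ0 hθϖ hNFinf hNFzero m γP γQ hNFe' hdisc e₀
  obtain ⟨ψ, hψ, hΨ⟩ := hallψ e₀
  have hP : ((γP e₀ : A) : Kbar) ≠ 0 := fun h => hγP e₀ (Subtype.ext h)
  have hQ : ((γQ e₀ : A) : Kbar) ≠ 0 := fun h => hγQ e₀ (Subtype.ext h)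
  have hQψ : h27gQ b δ (((γP e₀ : A) : Kbar) / ((γQ e₀ : A) : Kbar)) = (ψ : Kbar) :=
    h27h_Q_of_psi (δ := δA) hb hδ0 hP hQ hψ
  refine ⟨(a₀ : Kbar), (f₁ : Kbar), (f₂ : Kbar), F₃, f₁.2, f₂.2,
    h27h_cong_inf A (M * p) hf₁, h27h_cong_zero A M hp hM hA hf₂, ?_, ?_⟩
  · rw [div_eq_mul_inv]
    exact hw
  · rw [← div_eq_mul_inv, hQψ]
    exact (GG.mem_maximalIdeal_iff A _).mp hΨ

/-- **the T-EIS package for two functions at a crossing point.** -/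
theorem h90m_pkg (hp : p.Prime) (hM : ¬ p ∣ M) (haux : auxLevel p ∣ M)
    (hA : A.LiesOverPrime p)
    {ζ β : Kbar} (hζ : IsPrimitiveRoot ζ p) {b : GQ} {δ : Kbar}
    (hbreak : H23wBreak p A ζ β b δ) (hb : b ∈ A.inertiaSubgroupIn ℚ)
    (u u' : FF (M * p)) (hu0 : u ≠ 0) (hu0' : u' ≠ 0)
    (hord : ∀ v : Place Kbar (FF (M * p)), (p : ℤ) ∣ v.ord u)
    (hord' : ∀ v : Place Kbar (FF (M * p)), (p : ℤ) ∣ v.ord u')
    (hfix : ∀ a ∈ h23vI1 p A, a β = β → gal (M * p) a • u = u)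
    (hfix' : ∀ a ∈ h23vI1 p A, a β = β → gal (M * p) a • u' = u')
    (𝔫 : Ideal (chart (M * p) A (jSS M p))) (h𝔫 : 𝔫.IsMaximal)
    (hPinf : h62i_Pinf A M hp hM hA ≤ 𝔫) (hP0 : h62i_P0 A M hp hM hA ≤ 𝔫) :
    ∃ x y c : chart (M * p) A (jSS M p), x ∈ 𝔫 ∧ y ∈ 𝔫 ∧ c ∉ 𝔫 ∧
      x * y = algebraMap A (chart (M * p) A (jSS M p)) ((p : ℕ) : A) * c ∧
      (∀ z ∈ 𝔫, ∃ s, s ∉ 𝔫 ∧ s * z ∈ Ideal.span {x, y} ⊔ mExt A M p (jSS M p)) ∧
      ((x : FF (M * p)))⁻¹ ∈ h85cWinf A M p hp hA ∧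
      ((y : FF (M * p)))⁻¹ ∈ h85cW0 A M p hp hM hA ∧
      ∃ (m m' : ℤ) (α₀ α₀' : Kbar),
        H5eNodeData A M hp hM hA 𝔫 (x : FF (M * p)) u m α₀ ∧
        H5eNodeData A M hp hM hA 𝔫 (x : FF (M * p)) u' m' α₀' ∧
        (∀ a ∈ h23vI1 p A, a β = β → a α₀ = α₀) ∧
        (∀ a ∈ h23vI1 p A, a β = β → a α₀' = α₀') ∧
        H5eExport A M hp hM b δ (δ ^ p) u α₀ ∧
        H5eExport A M hp hM b δ (δ ^ p) u' α₀' := by
  classical
  set δA : A := ⟨δ, A.nonunits_le hbreak.2.1⟩ with hδA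
  have hnode : ∀ e : H78lNode A M hp hM hA, _ := fun e =>
    h90m_node A M hp hM haux hA e.1 e.2.1 e.2.2.1 e.2.2.2 hb δA
  choose X Y C hX hY hCn hXY hgen hXW hYW hAll using hnode
  have hvar := h84w_hvar A M hbreak hb u hfix
  have hvar' := h84w_hvar A M hbreak hb u' hfix'
  have hU : ∀ e : H78lNode A M hp hM hA, _ := fun e =>
    hAll e u hu0 (fun i _ => exists_val_eq (M * p) (jSS M p) u hu0 p hord i) hvar
  have hU' : ∀ e : H78lNode A M hp hM hA, _ := fun e =>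
    hAll e u' hu0' (fun i _ => exists_val_eq (M * p) (jSS M p) u' hu0' p hord' i) hvar'
  choose m γP γQ hγP hγQ hNF hData hFix using hU
  choose m' γP' γQ' hγP' hγQ' hNF' hData' hFix' using hU'
  set e₀ : H78lNode A M hp hM hA := ⟨𝔫, h𝔫, hPinf, hP0⟩ with he₀
  refine ⟨X e₀, Y e₀, C e₀, hX e₀, hY e₀, hCn e₀, hXY e₀, hgen e₀, hXW e₀, hYW e₀,
    m e₀, m' e₀, _, _, hData e₀, hData' e₀, ?_, ?_,
    h90m_export A M hp hM haux hA hζ hbreak hb u hu0 hord hfix m γP γQ hγP hγQ hNF e₀,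
    h90m_export A M hp hM haux hA hζ hbreak hb u' hu0' hord' hfix' m' γP' γQ' hγP' hγQ' hNF'
      e₀⟩
  · intro a ha haβ
    exact hFix e₀ a ha.1 (hfix a ha haβ)
  · intro a ha haβ
    exact hFix' e₀ a ha.1 (hfix' a ha haβ)

/-- **`H5eNodePkg` at every crossing point**, for a Kummer representative `u` fixed by `I_β`. -/
theorem h90m_nodePkg (hp : p.Prime) (hM : ¬ p ∣ M) (haux : auxLevel p ∣ M)
    (hA : A.LiesOverPrime p) {ℓ : ℕ} (hℓ : ℓ.Prime)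
    {ζ β : Kbar} (hζ : IsPrimitiveRoot ζ p) {b : GQ} {δ : Kbar}
    (hbreak : H23wBreak p A ζ β b δ) (hb : b ∈ A.inertiaSubgroupIn ℚ)
    {x₀ : JZero (M * p)} {u : FF (M * p)} (hu : IsKummerPair p x₀ u)
    (hfix : ∀ a ∈ h23vI1 p A, a β = β → gal (M * p) a • u = u)
    (𝔫 : Ideal (chart (M * p) A (jSS M p))) (h𝔫 : 𝔫.IsMaximal)
    (hPinf : h62i_Pinf A M hp hM hA ≤ 𝔫) (hP0 : h62i_P0 A M hp hM hA ≤ 𝔫) :
    haveI : NeZero ℓ := ⟨hℓ.ne_zero⟩
    H5eNodePkg A M hp hM hA ℓ β b δ (δ ^ p) u 𝔫 := by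
  haveI : NeZero ℓ := ⟨hℓ.ne_zero⟩
  have hT : IsKummerPair p (heckeOperatorBar (M * p) ⟨ℓ, hℓ⟩ x₀) (h57rT (M * p) ℓ u) :=
    h57l_kummer_T (M * p) ⟨ℓ, hℓ⟩ hu
  have hfix' : ∀ a ∈ h23vI1 p A, a β = β →
      gal (M * p) a • h57rT (M * p) ℓ u = h57rT (M * p) ℓ u := by
    intro a ha haβ
    rw [h27e_T_gal, hfix a ha haβ]
  exact h90m_pkg A M hp hM haux hA hζ hbreak hb u (h57rT (M * p) ℓ u) hu.1 hT.1
    (fun v => hu.dvd_ord v) (fun v => hT.dvd_ord v) hfix hfix' 𝔫 h𝔫 hPinf hP0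

/-- **T-EIS + PURITY at the level `M p`, no open geometric input**: for a Kummer representative
`u` (fixed by `I_β`) of a `p`-torsion class `x₀` with `T_ℓ x₀ = c₀ x₀`, `p ∤ ℓ + 1 - c₀`:
`p ∣ ord_Q(ū)` at every place `Q` of the special fibre. -/
theorem h90m_eis_all (hp : p.Prime) (hM : ¬ p ∣ M) (haux : auxLevel p ∣ M)
    (hA : A.LiesOverPrime p) {ℓ : ℕ} (hℓ : ℓ.Prime) (hℓN : ¬ ℓ ∣ M * p)
    {ζ β : Kbar} (hζ : IsPrimitiveRoot ζ p) {b : GQ} {δ : Kbar}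
    (hbreak : H23wBreak p A ζ β b δ) (hb : b ∈ A.inertiaSubgroupIn ℚ)
    {x₀ : JZero (M * p)} {u : FF (M * p)} (hu : IsKummerPair p x₀ u) (c₀ : ℤ)
    (hc₀ : heckeOperatorBar (M * p) ⟨ℓ, hℓ⟩ x₀ = c₀ • x₀)
    (hne : ¬ (p : ℤ) ∣ (ℓ : ℤ) + 1 - c₀)
    (hfix : ∀ a ∈ h23vI1 p A, a β = β → gal (M * p) a • u = u)
    (Q : Place (h13sK A) (h13sFt A M)) :
    (p : ℤ) ∣ h44slOrd A M p u Q := by
  have hδ0 : δ ≠ 0 := hbreak.1
  have hδm : δ ∈ A.nonunits := hbreak.2.1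
  have hD0 : δ ^ p ≠ 0 := pow_ne_zero _ hδ0
  have hDm : δ ^ p ∈ A.nonunits := by
    rw [ValuationSubring.mem_nonunits_iff] at hδm ⊢
    rw [map_pow]
    exact pow_lt_one₀ zero_le hδm hp.ne_zero
  exact h5e_all hp hM hA haux hℓ hℓN hbreak hu c₀ hc₀ hne hDm hD0
    (fun 𝔫 h𝔫 hPinf hP0 =>
      h90m_nodePkg A M hp hM haux hA hℓ hζ hbreak hb hu hfix 𝔫 h𝔫 hPinf hP0) Q

end Fermat.Agent.P7
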