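import Fermat.Agent.P7.H16TopC
import Fermat.Agent.P7.H90EisPkg
import Fermat.Agent.P7.H23Break

/-!
# Wave 7, end shape (I-1) SLOPE-ZERO, class-level: the tame / wild split (helper16, twin)

`H16tSlopeZeroC p` (`P7/H16TopC.lean`) from

* the WILD case = landed `h90m_eis_all` (helper90: T-EIS + PURITY with the node packages
  discharged) + landed `h23w_break` (helper23): if some `b ∈ I₁` moves `β`, then
  `ζ = b β / β` is a primitive `p`-th root of unity and a break depth exists;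
* the TAME case (`β` fixed by `I₁`, hence `u` fixed by `I₁`) = `H16tTame p`, the announced shape
  of helper84's `h84t_all`.

`h16t_slopeZeroC : H16tTame p → H16tSlopeZeroC p` and
`h16t_s44_of_tame : (∀ p ≥ 5, H16tTame p) → (∀ p ≥ 5, H16tDlog p) → (frozen S44)`.
-/

set_option autoImplicit false
set_option linter.unusedSectionVars false
set_option linter.style.haveILetI false
set_option synthInstance.maxHeartbeats 400000

open AlgebraicCurve ModularCurve
open WeierstrassCurve WeierstrassCurve.Affine WeierstrassCurve.Affine.Point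

noncomputable section

namespace Fermat.Agent.P7

open Fermat.Agent.S37 Fermat.Agent.S35 Fermat.Agent.P6
open Fermat.Agent.Jac.K1 (IsKummerPair)
open Fermat.Agent.P5 (h69vPull h13sK h13sFt)

/-- **the TAME case of (I-1)** (binders of helper84's `h84t_all`). -/
def H16tTame (p : ℕ) : Prop :=
  ∀ (hp : p.Prime), p ≠ 2 → ∀ (M : ℕ) [NeZero M], ¬ p ∣ M → auxLevel p ∣ M →
    haveI : NeZero p := ⟨hp.ne_zero⟩
    ∀ A : ValuationSubring Kbar, A.LiesOverPrime p →
    ∀ (ℓ : ℕ) (hℓ : ℓ.Prime), ¬ ℓ ∣ M * p →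
    ∀ (x₀ : JZero (M * p)) (u : FF (M * p)), IsKummerPair p x₀ u → ∀ c₀ : ℤ,
      heckeOperatorBar (M * p) ⟨ℓ, hℓ⟩ x₀ = c₀ • x₀ → ¬ (p : ℤ) ∣ (ℓ : ℤ) + 1 - c₀ →
      (∀ a ∈ h23vI1 p A, gal (M * p) a • u = u) →
      ∀ Q : Place (h13sK A) (h13sFt A M), (p : ℤ) ∣ h44slOrd A M p u Q

/-- **(I-1), class-level, from the tame case** (the wild case is landed). -/
theorem h16t_slopeZeroC {p : ℕ} (hT : H16tTame p) : H16tSlopeZeroC p := by
  intro hp hp2 M _ haux hpM
  haveI : NeZero p := ⟨hp.ne_zero⟩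
  haveI : Fact p.Prime := ⟨hp⟩
  intro A hA β hβ hβi hβp x u hu hfix ℓ hℓ hℓN c hc hne Q
  by_cases htame : ∀ a ∈ h23vI1 p A, a β = β
  · exact hT hp hp2 M hpM haux A hA ℓ hℓ hℓN x u hu c hc hne
      (fun a ha => hfix a ha (htame a ha)) Q
  · obtain ⟨b, hb'⟩ := not_forall.mp htame
    obtain ⟨hb, hbβ⟩ := Classical.not_imp.mp hb'
    have hβ0 : β ≠ 0 := by
      rintro rfl
      exact hbβ (map_zero _)
    have hζp : (b β / β) ^ p = 1 := by
      rw [div_pow, ← map_pow, hβp b hb]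
      exact div_self (pow_ne_zero _ hβ0)
    have hζ1 : b β / β ≠ 1 := by
      intro h1
      exact hbβ ((div_eq_one_iff_eq hβ0).mp h1)
    have hζ : IsPrimitiveRoot (b β / β) p := by
      have ho := orderOf_eq_prime hζp hζ1
      rw [← ho]
      exact IsPrimitiveRoot.orderOf _
    have hbζ : b β = b β / β * β := by
      field_simp
    obtain ⟨δ, hbreak⟩ := h23w_break hp2 A hA hζ hβ0 hβ hβi hβp hb hbζ
    exact h90m_eis_all A M hp hpM haux hA hℓ hℓN hζ hbreak hb.1 hu c hc hne hfix Q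

/-- **S44 from the tame case of (I-1) and (I-2).** -/
theorem h16t_s44_of_tame (hT : ∀ p : ℕ, 5 ≤ p → H16tTame p)
    (hD : ∀ p : ℕ, 5 ≤ p → H16tDlog p)
    (P : FreyPackage) {N : ℕ} (hcond : P.IsConductorLevel N) (hpN : P.p ∣ N)
    (hirr : GaloisRepIsIrreducible (K := AlgebraicClosure ℚ) ℚ P.freyCurve P.p)
    (hmod : P.ModularRepOfLevel N) :
    ∃ M : ℕ, M ∣ N ∧ ¬ P.p ∣ M ∧ P.ModularRepOfLevel M :=
  h16t_s44_of_C (fun p h5 => h16t_slopeZeroC (hT p h5)) hD P hcond hpN hirr hmod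

end Fermat.Agent.P7
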