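import Fermat.Agent.P7.H19ValHeckeZero
import Fermat.Agent.Jac.KummerFF

/-!
# Wave 7 (S40), blocks (E) T-EIS / (A) T-ABEL, leaf EIGEN-FUN (helper19): eigen-relations in
function form

Kummer dictionary (`Jac.K1.IsKummerPair n x u` : `u ≠ 0`, `div u = n D`, `[D] = x`), `N` a level,
`T_l u = Nm_α (β u)` (`h19vT`, landed `P7/H19ValHecke.lean`).

* `h19e_kummer_zsmul` : `u` represents `x` `⟹` `u ^ c` represents `c • x` (`c : ℤ`).
* `h19e_kummer_rel` : if `u` represents `x`, `g` represents `y` and `y = c • x`, then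
  `g = κ · h ^ n · u ^ c` (`κ` a nonzero constant, `h ≠ 0`).
* `h19e_eigen_fun` : **EIGEN-FUN.**  `T_l x = c • x` (`heckeOperatorBar`) `⟹`
  `T_l u = h ^ n · u ^ c` for some `h ≠ 0`.
* `h19e_eigen_fun_cst` : the same with an explicit constant `cst κ`.
* `h19e_gal_fun` : `σ • x = x` `⟹` `σ u = h ^ n · u`.
* `h19e_gal_cyc_fun` : `σ • x = e • x` `⟹` `σ u = h ^ n · u ^ e`.
-/

set_option autoImplicit false
set_option linter.unusedSectionVars false
set_option linter.style.haveILetI false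

open ModularCurve AlgebraicCurve

noncomputable section

namespace Fermat.Agent.P7

open Fermat.Agent.S37 Fermat.Agent.Jac.K1

section Abs

variable {K F : Type*} [Field K] [Field F] [Algebra K F]

/-- `u` represents `x` `⟹` `u ^ c` represents `c • x`. -/
theorem h19e_kummer_zsmul {n : ℕ} {x : Pic0 K F} {f : F} (hx : IsKummerPair n x f) (c : ℤ) :
    IsKummerPair n (c • x) (f ^ c) := by
  obtain ⟨hf, D, rfl, hD⟩ := hx
  refine ⟨zpow_ne_zero c hf, c • D, rfl, fun v => ?_⟩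
  rw [v.ord_zpow, ← hD v]
  have h1 : ((c • D : Divisor.degZero (K := K) (F := F)) : Divisor K F) v
      = c * (D : Divisor K F) v := by
    simp
  rw [h1]
  ring

/-- `u` represents `x` `⟹` `u ^ c` represents `c • x` (`c : ℕ`). -/
theorem h19e_kummer_nsmul {n : ℕ} {x : Pic0 K F} {f : F} (hx : IsKummerPair n x f) (c : ℕ) :
    IsKummerPair n (c • x) (f ^ c) := by
  have h := h19e_kummer_zsmul hx (c : ℤ)
  rwa [zpow_natCast, natCast_zsmul] at h

/-- if `u` represents `x`, `g` represents `y` and `y = c • x`, then `g = κ · h ^ n · u ^ c`. -/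
theorem h19e_kummer_rel (hconst : ConstantsOnly K F) {n : ℕ} {x y : Pic0 K F} {f g : F}
    (hx : IsKummerPair n x f) (hy : IsKummerPair n y g) (c : ℤ) (h : y = c • x) :
    ∃ κ : K, κ ≠ 0 ∧ ∃ h : F, h ≠ 0 ∧ g = algebraMap K F κ * h ^ n * f ^ c := by
  subst h
  exact (h19e_kummer_zsmul hx c).unique hconst hy

end Abs

section Level

variable (N : ℕ) [NeZero N]

/-- constants of `ℚ̄` are `n`-th powers in `F_N`. -/
theorem h19e_const_pow {n : ℕ} (hn : n ≠ 0) (κ : Kbar) :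
    ∃ d : Kbar, algebraMap Kbar (FF N) κ = (algebraMap Kbar (FF N) d) ^ n := by
  obtain ⟨d, hd⟩ := exists_pow_eq_Kbar hn κ
  exact ⟨d, by rw [← map_pow, hd]⟩

/-- relation between Kummer representatives at level `N`, constant absorbed. -/
theorem h19e_kummer_rel_FF {n : ℕ} (hn : n ≠ 0) {x y : JZero N} {f g : FF N}
    (hx : IsKummerPair n x f) (hy : IsKummerPair n y g) (c : ℤ) (h : y = c • x) :
    ∃ h : FF N, h ≠ 0 ∧ g = h ^ n * f ^ c := by
  obtain ⟨κ, hκ, h0, hh0, hg⟩ := h19e_kummer_rel (constantsOnly_FF N) hx hy c h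
  obtain ⟨d, hd⟩ := h19e_const_pow N hn κ
  have hd0 : algebraMap Kbar (FF N) d ≠ 0 := by
    intro h0'
    rw [h0', zero_pow hn] at hd
    exact hκ ((map_eq_zero _).mp hd)
  refine ⟨algebraMap Kbar (FF N) d * h0, mul_ne_zero hd0 hh0, ?_⟩
  rw [hg, hd, mul_pow]

/-- **EIGEN-FUN.**  `T_l x = c • x` `⟹` `T_l u = h ^ n · u ^ c`. -/
theorem h19e_eigen_fun {l : ℕ} (hl : l.Prime) {n : ℕ} (hn : n ≠ 0) {x : JZero N} {u : FF N}
    (hu : IsKummerPair n x u) (c : ℤ)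
    (hc : heckeOperatorBar N ⟨l, hl⟩ x = c • x) :
    haveI : NeZero l := ⟨hl.ne_zero⟩
    ∃ h : FF N, h ≠ 0 ∧ h19vT N l u = h ^ n * u ^ c := by
  haveI : NeZero l := ⟨hl.ne_zero⟩
  exact h19e_kummer_rel_FF N hn hu (h19v_kummer_T N hl hu) c hc

/-- **EIGEN-FUN**, with an explicit constant. -/
theorem h19e_eigen_fun_cst {l : ℕ} (hl : l.Prime) {n : ℕ} (hn : n ≠ 0) {x : JZero N}
    {u : FF N} (hu : IsKummerPair n x u) (c : ℤ)
    (hc : heckeOperatorBar N ⟨l, hl⟩ x = c • x) :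
    haveI : NeZero l := ⟨hl.ne_zero⟩
    ∃ κ : Kbar, κ ≠ 0 ∧ ∃ h : FF N, h ≠ 0 ∧ h19vT N l u = cst N κ * h ^ n * u ^ c := by
  haveI : NeZero l := ⟨hl.ne_zero⟩
  obtain ⟨h, hh, he⟩ := h19e_eigen_fun N hl hn hu c hc
  refine ⟨1, one_ne_zero, h, hh, ?_⟩
  rw [he, GalI.cst_one, one_mul]

/-- `σ • x = e • x` `⟹` `σ u = h ^ n · u ^ e`. -/
theorem h19e_gal_cyc_fun {n : ℕ} (hn : n ≠ 0) {x : JZero N} {u : FF N}
    (hu : IsKummerPair n x u) (σ : GQ) (e : ℤ) (hσ : σ • x = e • x) :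
    ∃ h : FF N, h ≠ 0 ∧ gal N σ • u = h ^ n * u ^ e :=
  h19e_kummer_rel_FF N hn hu (kummerPair_JZero_galois N hu σ) e hσ

/-- `σ • x = x` `⟹` `σ u = h ^ n · u`. -/
theorem h19e_gal_fun {n : ℕ} (hn : n ≠ 0) {x : JZero N} {u : FF N}
    (hu : IsKummerPair n x u) (σ : GQ) (hσ : σ • x = x) :
    ∃ h : FF N, h ≠ 0 ∧ gal N σ • u = h ^ n * u := by
  obtain ⟨h, hh, he⟩ := h19e_gal_cyc_fun N hn hu σ 1 (by rw [one_smul]; exact hσ)
  exact ⟨h, hh, by rw [he, zpow_one]⟩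

end Level

end Fermat.Agent.P7
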