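import Fermat.Agent.P7.H33Desc
import Fermat.Agent.P5.H69Level

/-!
# W7, leaf T-CONST-DESC, adapters for T-TOP: the descended Kummer function at the good level

Author: helper33.

* `h33w_kummer_pull` : Kummer representatives pull back along the degeneracy inclusions:
  `IsKummerPair n x f → IsKummerPair n (π^* x) (degen f)` (`π^* = P5.h69vPull h`, `h : N ∣ M`).
* `h33w_fixed_degen` : `gal N a • w = w → gal M a • degen w = degen w`.
* `h33w_desc_up` : an `n`-torsion point `x ∈ J₀(N)` fixed by `H ≤ G_ℚ` has a Kummer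
  representative `w`, fixed by `H`, such that at EVERY level `M` above `N` the function `degen w`
  is an `H`-fixed Kummer representative of `π^* x`.
* `h33wI1 p A` : the inertia elements at `A` fixing `μ_p` (a subgroup of `G_ℚ`).
* `h33w_desc_toric` : the form consumed by T-TOP: under the hypotheses on `(β, x)` of the frozen
  TORIC statement (`x` killed by `p` and fixed by every `a ∈ I_A` with `a = 1` on `μ_p` and
  `a β = β`), there is `w : FF (M * p)` with `IsKummerPair p x w`, fixed by all these `a`, and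
  `degen w` at the good level `goodLevel p M * p` is a Kummer representative of `π^* x` fixed by
  all these `a`.
-/

set_option autoImplicit false

open ModularCurve AlgebraicCurve
open Fermat.Agent.S37 (Kbar GQ FF cst gal degen goodLevel dvd_goodLevel)
open Fermat.Agent.Jac.K1
open Fermat.Agent.P5 (h69vPull h69vPull_mk h69vDegZero h69v_coe_degZero h69v_hint h69v_pd
  h69v_degen_gal h69vPull_galois)

noncomputable section

namespace Fermat.Agent.P7

/-- Kummer representatives pull back along the degeneracy inclusions. -/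
theorem h33w_kummer_pull {N M : ℕ} [NeZero N] [NeZero M] (h : N ∣ M) {n : ℕ} {x : JZero N}
    {f : FF N} (hx : IsKummerPair n x f) : IsKummerPair n (h69vPull h x) (degen h f) := by
  have hpd := h69v_pd h
  obtain ⟨hf, D, rfl, hD⟩ := hx
  refine ⟨(map_ne_zero_iff _ (degen h).toRingHom.injective).mpr hf, h69vDegZero h D,
    (h69vPull_mk h D).symm, fun w => ?_⟩
  rw [h69v_coe_degZero, Divisor.pullbackAlong_apply, Place.ord_restrictAlong (degen h)
    (h69v_hint h) w f, ← hD]
  ring

/-- a function fixed by `a` stays fixed at every level above. -/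
theorem h33w_fixed_degen {N M : ℕ} [NeZero N] [NeZero M] (h : N ∣ M) (a : GQ) {w : FF N}
    (hw : gal N a • w = w) : gal M a • degen h w = degen h w := by
  rw [← h69v_degen_gal h a w, hw]

/-- the pull-back of a class fixed by `a` is fixed by `a`. -/
theorem h33w_fixed_pull {N M : ℕ} [NeZero N] [NeZero M] (h : N ∣ M) (a : GQ) {x : JZero N}
    (hx : a • x = x) : a • h69vPull h x = h69vPull h x := by
  rw [← h69vPull_galois h a x, hx]

/-- **DESC, all levels above.**  An `n`-torsion point of `J₀(N)` fixed by `H ≤ G_ℚ` has an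
`H`-fixed Kummer representative `w`, and `degen w` is an `H`-fixed Kummer representative of the
pull-back of `x` at every level `M` above `N`. -/
theorem h33w_desc_up (N : ℕ) [NeZero N] (H : Subgroup GQ) {n : ℕ} (hn : 0 < n) (x : JZero N)
    (hx : n • x = 0) (hfix : ∀ a ∈ H, a • x = x) :
    ∃ w : FF N, IsKummerPair n x w ∧ (∀ a ∈ H, gal N a • w = w) ∧
      ∀ (M : ℕ) [NeZero M] (h : N ∣ M),
        IsKummerPair n (h69vPull h x) (degen h w) ∧ ∀ a ∈ H, gal M a • degen h w = degen h w := by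
  obtain ⟨w, hw, hinv⟩ := h33w_desc N H hn x hx hfix
  exact ⟨w, hw, hinv, fun M _ h =>
    ⟨h33w_kummer_pull h hw, fun a ha => h33w_fixed_degen h a (hinv a ha)⟩⟩

/-- the inertia elements at `A` fixing the `p`-th roots of unity. -/
def h33wI1 (p : ℕ) (A : ValuationSubring Kbar) : Subgroup GQ where
  carrier := {a | a ∈ A.inertiaSubgroupIn ℚ ∧ ∀ μ : Kbar, μ ^ p = 1 → a μ = μ}
  one_mem' := ⟨Subgroup.one_mem _, fun _ _ => rfl⟩
  mul_mem' := by
    rintro a b ⟨ha, haμ⟩ ⟨hb, hbμ⟩
    refine ⟨Subgroup.mul_mem _ ha hb, fun μ hμ => ?_⟩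
    show a (b μ) = μ
    rw [hbμ μ hμ, haμ μ hμ]
  inv_mem' := by
    rintro a ⟨ha, haμ⟩
    refine ⟨Subgroup.inv_mem _ ha, fun μ hμ => ?_⟩
    show a.symm μ = μ
    rw [AlgEquiv.symm_apply_eq, haμ μ hμ]

theorem h33w_mem_I1 {p : ℕ} {A : ValuationSubring Kbar} {a : GQ} :
    a ∈ h33wI1 p A ↔ a ∈ A.inertiaSubgroupIn ℚ ∧ ∀ μ : Kbar, μ ^ p = 1 → a μ = μ := Iff.rfl

/-- **DESC in the form consumed by T-TOP.**  `x ∈ J₀(M p)[p]` fixed by every inertia element
`a` at `A` with `a = 1` on `μ_p` and `a β = β`: there is a Kummer representative `w` of `x`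
fixed by all these `a`, and at the good level `degen w` is a Kummer representative of the
pull-back of `x`, fixed by all these `a`. -/
theorem h33w_desc_toric (p M : ℕ) [NeZero M] [NeZero p] (A : ValuationSubring Kbar) (β : Kbar)
    (x : JZero (M * p)) (hpx : p • x = 0)
    (hfix : ∀ a ∈ A.inertiaSubgroupIn ℚ, (∀ μ : Kbar, μ ^ p = 1 → a μ = μ) → a β = β →
      a • x = x) :
    ∃ w : FF (M * p), IsKummerPair p x w ∧
      (∀ a ∈ A.inertiaSubgroupIn ℚ, (∀ μ : Kbar, μ ^ p = 1 → a μ = μ) → a β = β →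
        gal (M * p) a • w = w) ∧
      IsKummerPair p (h69vPull (Nat.mul_dvd_mul_right (dvd_goodLevel p M) p) x)
        (degen (Nat.mul_dvd_mul_right (dvd_goodLevel p M) p) w) ∧
      (∀ a ∈ A.inertiaSubgroupIn ℚ, (∀ μ : Kbar, μ ^ p = 1 → a μ = μ) → a β = β →
        gal (goodLevel p M * p) a • degen (Nat.mul_dvd_mul_right (dvd_goodLevel p M) p) w =
          degen (Nat.mul_dvd_mul_right (dvd_goodLevel p M) p) w) ∧
      (∀ a ∈ A.inertiaSubgroupIn ℚ, (∀ μ : Kbar, μ ^ p = 1 → a μ = μ) → a β = β →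
        a • h69vPull (Nat.mul_dvd_mul_right (dvd_goodLevel p M) p) x =
          h69vPull (Nat.mul_dvd_mul_right (dvd_goodLevel p M) p) x) := by
  have hp0 : 0 < p := Nat.pos_of_ne_zero (NeZero.ne p)
  obtain ⟨w, hw, hinv, hup⟩ := h33w_desc_up (M * p) (h33wStab (h33wI1 p A) β) hp0 x hpx
    (fun a ha => hfix a ha.1.1 ha.1.2 ha.2)
  obtain ⟨hk, hg⟩ := hup (goodLevel p M * p) (Nat.mul_dvd_mul_right (dvd_goodLevel p M) p)
  exact ⟨w, hw, fun a ha hμ hβ => hinv a ⟨⟨ha, hμ⟩, hβ⟩, hk,
    fun a ha hμ hβ => hg a ⟨⟨ha, hμ⟩, hβ⟩,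
    fun a ha hμ hβ => h33w_fixed_pull _ a (hfix a ha hμ hβ)⟩

end Fermat.Agent.P7
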