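import Fermat.Agent.LGC.Res44
import Fermat.Agent.P5.H26GenusFinal
import Fermat.Agent.Red.GV.SoftGal
import Fermat.Agent.S24.DiffPlace

/-!
# P7 (wave 7, S40), block (5) T-TORIC, row T-RHO-SLOPE (helper44): the slope of a function

`p ∤ M` a prime, `A` a valuation subring of `ℚ̄` over `p`, `N = M p`, `W_∞ = softV A N` the
Gauss valuation ring of level `N` (`q`-expansion at `∞`), `k = h13sK A` the residue field of `A`,
`kC = h13sFt A M` the function field of the special fibre of level `M` (P5 vocabulary), which is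
the residue field of `W_∞` (`LGC.h44r_residue_degree_one`).

* `H44slRed A M p u f` : `f ∈ kC` is a **scaled reduction** of `u ∈ FF (M p)`, `u ≠ 0`, at `W_∞`:
  there is a constant `c ≠ 0` with `c u` a unit of `W_∞` and `red_∞ (c u) = f`.
  `h44sl_exists_red` (existence for `u ≠ 0`), `h44sl_red_unique` (unique up to `k^×`),
  `h44sl_red_mul / _inv / _pow / _one / _cst / _gal` (calculus; `_gal` for `τ` in the
  inertia group of `A`).
* `h44slOrd A M p u e : ℤ` : the order at the place `e` of `kC` of the scaled reduction of `u`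
  (`0` for `u = 0`); `h44sl_ord_eq` (computed by ANY scaled reduction), `h44sl_ord_mul`,
  `h44sl_ord_inv`, `h44sl_ord_pow`, `h44sl_ord_cst`, `h44sl_ord_gal`.
* `h44slSlope A M p u e : ZMod p` : **the slope** `m_e(u) = ord_e(ū) mod p`;
  `h44sl_slope_mul`, `h44sl_slope_inv`, `h44sl_slope_pow_p` (`m_e(h ^ p) = 0`), `h44sl_slope_cst`,
  `h44sl_slope_gal`, `h44sl_slope_twist` (`m_e(c u h ^ p) = m_e(u)`: the slope is an invariant of
  the Kummer class).
* `h44sl_div` : the divisor of the scaled reduction has degree `0` (good levels).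
* `h44sl_sum_slope` : **the sum formula**: if `p ∣ ord_Q(ū)` for every place `Q` outside a
  finite set `S` (PURITY, row T-RHO-PURITY, with `S` = the supersingular places), then
  `∑_{e ∈ S} m_e(u) = 0`.

Nothing is assumed: every statement is proved.
-/

set_option autoImplicit false
set_option linter.style.haveILetI false
set_option linter.unusedSectionVars false
set_option synthInstance.maxHeartbeats 400000

open AlgebraicCurve ModularCurve IsLocalRing

noncomputable section

namespace Fermat.Agent.P7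

open Fermat.Agent.S37 Fermat.Agent.Red Fermat.Agent.Red.GV Fermat.Agent.Red.GV.Soft
  Fermat.Agent.LGC Fermat.Agent.P5

variable (A : ValuationSubring Kbar) (M p : ℕ) [NeZero M] [NeZero p]

/-- the reduction at `W_∞` (level `N`), with values in `k((q))`, `k = h13sK A`
(this IS `softR A N`, with the codomain written in the P5 vocabulary). -/
def h44slR (N : ℕ) [NeZero N] : softV A N →+* LaurentSeries (h13sK A) :=
  softR A N

/-- `f` is a **scaled reduction** at `W_∞` of the nonzero function `u` of level `M p`. -/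
def H44slRed (u : FF (M * p)) (f : h13sFt A M) : Prop :=
  u ≠ 0 ∧ ∃ c : Kbar, c ≠ 0 ∧ ∃ h : cst (M * p) c * u ∈ softV A (M * p),
    (cst (M * p) c * u)⁻¹ ∈ softV A (M * p) ∧
    h44slR A (M * p) ⟨cst (M * p) c * u, h⟩ = h13sIncl A M f

variable {A M p}

theorem h44sl_incl_injective : Function.Injective (h13sIncl A M) :=
  (h13sIncl A M).toRingHom.injective

theorem h44sl_cst_ne_zero {N : ℕ} {c : Kbar} (hc : c ≠ 0) : cst N c ≠ 0 := by
  intro h
  apply hc
  have h1 : algebraMap Kbar (FF N) c = algebraMap Kbar (FF N) 0 := by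
    rw [map_zero]
    exact h
  exact (algebraMap Kbar (FF N)).injective h1

theorem h44slR_apply (N : ℕ) [NeZero N] (x : softV A N) : h44slR A N x = softR A N x := rfl

theorem h44sl_red_ne_zero {u : FF (M * p)} {f : h13sFt A M} (h : H44slRed A M p u f) :
    f ≠ 0 := by
  obtain ⟨hu, c, hc, hm, hi, hr⟩ := h
  intro h0
  rw [h0, map_zero] at hr
  rcases (softR_eq_zero_iff A (M * p) ⟨_, hm⟩).mp hr with h1 | h1
  · exact mul_ne_zero (h44sl_cst_ne_zero hc) hu h1
  · exact h1 hi

/-- **existence of the scaled reduction.** -/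
theorem h44sl_exists_red (hp : p.Prime) (hM : ¬ p ∣ M) (hA : A.LiesOverPrime p)
    {u : FF (M * p)} (hu : u ≠ 0) : ∃ f : h13sFt A M, H44slRed A M p u f := by
  obtain ⟨c, hc, h1, h2⟩ := exists_cst_mul_unit_soft A (M * p) hp hA u hu
  obtain ⟨y, hy, hry⟩ := h44r_residue_degree_one_gaussV A M p hp hM hA _ h1
  exact ⟨h13sRed A M ⟨y, hy⟩, hu, c, hc, h1, h2, hry.symm⟩

/-! ### Uniqueness up to `k^×` -/

theorem h44sl_incl_algebraMap (a : h13sK A) :
    h13sIncl A M (algebraMap (h13sK A) (h13sFt A M) a) = HahnSeries.C a := by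
  rw [AlgHom.commutes, algebraMap_laurentSeries_eq_single]
  rfl

theorem h44slR_mul {N : ℕ} [NeZero N] {x y : FF N} (hx : x ∈ softV A N)
    (hy : y ∈ softV A N) (hxy : x * y ∈ softV A N) :
    h44slR A N ⟨x * y, hxy⟩ = h44slR A N ⟨x, hx⟩ * h44slR A N ⟨y, hy⟩ := by
  rw [← map_mul]
  rfl

theorem h44slR_congr {N : ℕ} [NeZero N] {x y : FF N} (hx : x ∈ softV A N)
    (hy : y ∈ softV A N) (hxy : x = y) :
    h44slR A N ⟨x, hx⟩ = h44slR A N ⟨y, hy⟩ := by
  subst hxy
  rfl

theorem h44slR_one {N : ℕ} [NeZero N] (h : (1 : FF N) ∈ softV A N) :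
    h44slR A N ⟨1, h⟩ = 1 :=
  map_one (h44slR A N)

theorem h44slR_inv {N : ℕ} [NeZero N] {x : FF N} (hx : x ∈ softV A N)
    (hxi : x⁻¹ ∈ softV A N) (hx0 : x ≠ 0) :
    h44slR A N ⟨x⁻¹, hxi⟩ = (h44slR A N ⟨x, hx⟩)⁻¹ := by
  have h1 : h44slR A N ⟨x, hx⟩ * h44slR A N ⟨x⁻¹, hxi⟩ = 1 := by
    rw [← map_mul]
    have h2 : (⟨x, hx⟩ * ⟨x⁻¹, hxi⟩ : softV A N) = 1 := Subtype.ext (mul_inv_cancel₀ hx0)
    rw [h2, map_one]
  exact eq_inv_of_mul_eq_one_right h1

theorem h44slR_cst {N : ℕ} [NeZero N] (a : A) (h : cst N (a : Kbar) ∈ softV A N) :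
    h44slR A N ⟨cst N (a : Kbar), h⟩ = HahnSeries.C (h13sPi A a) :=
  softR_cst A N a h

/-- **uniqueness**: two scaled reductions of `u` differ by a nonzero constant of `k`. -/
theorem h44sl_red_unique {u : FF (M * p)} {f f' : h13sFt A M}
    (h : H44slRed A M p u f) (h' : H44slRed A M p u f') :
    ∃ a : h13sK A, a ≠ 0 ∧ f' = algebraMap (h13sK A) (h13sFt A M) a * f := by
  have hf' : f' ≠ 0 := h44sl_red_ne_zero h'
  obtain ⟨hu, c, hc, hm, hi, hr⟩ := h
  obtain ⟨-, c', hc', hm', hi', hr'⟩ := h'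
  have h1 : cst (M * p) c ≠ 0 := h44sl_cst_ne_zero hc
  have hd : cst (M * p) (c' / c) = (cst (M * p) c' * u) * (cst (M * p) c * u)⁻¹ := by
    have h2 : cst (M * p) (c' / c) = cst (M * p) c' / cst (M * p) c :=
      map_div₀ (algebraMap Kbar (FF (M * p))) c' c
    rw [h2]
    field_simp
  have hdm : cst (M * p) (c' / c) ∈ softV A (M * p) := by
    rw [hd]
    exact (softV A (M * p)).mul_mem hm' hi
  have hdA : c' / c ∈ A := (cst_mem_softV_iff A (M * p) _).mp hdm
  have he : cst (M * p) c' * u = cst (M * p) (c' / c) * (cst (M * p) c * u) := by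
    rw [hd]
    have h3 : cst (M * p) c * u ≠ 0 := mul_ne_zero h1 hu
    field_simp
  have hm2 : cst (M * p) (c' / c) * (cst (M * p) c * u) ∈ softV A (M * p) := he ▸ hm'
  have h4 : h13sIncl A M f' =
      HahnSeries.C (h13sPi A ⟨c' / c, hdA⟩) * h13sIncl A M f := by
    rw [← hr', h44slR_congr hm' hm2 he, h44slR_mul hdm hm hm2, hr]
    congr 1
    exact h44slR_cst ⟨c' / c, hdA⟩ hdm
  refine ⟨h13sPi A ⟨c' / c, hdA⟩, ?_, ?_⟩
  · intro h0
    apply hf'
    apply h44sl_incl_injective
    rw [h4, h0, map_zero, zero_mul, map_zero]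
  · apply h44sl_incl_injective
    rw [map_mul, h44sl_incl_algebraMap, h4]

/-! ### Calculus of scaled reductions -/

theorem h44sl_red_one : H44slRed A M p (1 : FF (M * p)) 1 := by
  have h1 : cst (M * p) (1 : Kbar) * (1 : FF (M * p)) = 1 := by
    show algebraMap Kbar (FF (M * p)) 1 * 1 = 1
    rw [map_one, mul_one]
  have hm : cst (M * p) (1 : Kbar) * (1 : FF (M * p)) ∈ softV A (M * p) := by
    rw [h1]; exact (softV A (M * p)).one_mem
  refine ⟨one_ne_zero, 1, one_ne_zero, hm, ?_, ?_⟩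
  · rw [h1, inv_one]; exact (softV A (M * p)).one_mem
  · rw [h44slR_congr hm (softV A (M * p)).one_mem h1, h44slR_one, map_one]

theorem h44sl_red_mul {u v : FF (M * p)} {f g : h13sFt A M}
    (hu : H44slRed A M p u f) (hv : H44slRed A M p v g) : H44slRed A M p (u * v) (f * g) := by
  obtain ⟨hu0, c, hc, hm, hi, hr⟩ := hu
  obtain ⟨hv0, d, hd, hn, hj, hs⟩ := hv
  have he : cst (M * p) (c * d) * (u * v) = (cst (M * p) c * u) * (cst (M * p) d * v) := by
    have h2 : cst (M * p) (c * d) = cst (M * p) c * cst (M * p) d :=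
      map_mul (algebraMap Kbar (FF (M * p))) c d
    rw [h2]
    ring
  have hm2 : (cst (M * p) c * u) * (cst (M * p) d * v) ∈ softV A (M * p) :=
    (softV A (M * p)).mul_mem hm hn
  have hm3 : cst (M * p) (c * d) * (u * v) ∈ softV A (M * p) := he ▸ hm2
  refine ⟨mul_ne_zero hu0 hv0, c * d, mul_ne_zero hc hd, hm3, ?_, ?_⟩
  · rw [he, mul_inv]
    exact (softV A (M * p)).mul_mem hi hj
  · rw [h44slR_congr hm3 hm2 he, h44slR_mul hm hn hm2, hr, hs, map_mul]

theorem h44sl_red_inv {u : FF (M * p)} {f : h13sFt A M}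
    (hu : H44slRed A M p u f) : H44slRed A M p u⁻¹ f⁻¹ := by
  obtain ⟨hu0, c, hc, hm, hi, hr⟩ := hu
  have he : cst (M * p) c⁻¹ * u⁻¹ = (cst (M * p) c * u)⁻¹ := by
    have h2 : cst (M * p) c⁻¹ = (cst (M * p) c)⁻¹ :=
      map_inv₀ (algebraMap Kbar (FF (M * p))) c
    rw [h2, mul_inv]
  have hm3 : cst (M * p) c⁻¹ * u⁻¹ ∈ softV A (M * p) := he ▸ hi
  have hx0 : cst (M * p) c * u ≠ 0 := mul_ne_zero (h44sl_cst_ne_zero hc) hu0
  refine ⟨inv_ne_zero hu0, c⁻¹, inv_ne_zero hc, hm3, ?_, ?_⟩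
  · rw [he, inv_inv]
    exact hm
  · rw [h44slR_congr hm3 hi he, h44slR_inv hm hi hx0, hr, map_inv₀]

theorem h44sl_red_pow {u : FF (M * p)} {f : h13sFt A M}
    (hu : H44slRed A M p u f) (n : ℕ) : H44slRed A M p (u ^ n) (f ^ n) := by
  induction n with
  | zero => rw [pow_zero, pow_zero]; exact h44sl_red_one
  | succ n ih => rw [pow_succ, pow_succ]; exact h44sl_red_mul ih hu

theorem h44sl_red_cst {c : Kbar} (hc : c ≠ 0) : H44slRed A M p (cst (M * p) c) 1 := by
  have h1 : cst (M * p) c⁻¹ * cst (M * p) c = 1 := by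
    have h2 : cst (M * p) c⁻¹ = (cst (M * p) c)⁻¹ :=
      map_inv₀ (algebraMap Kbar (FF (M * p))) c
    rw [h2, inv_mul_cancel₀ (h44sl_cst_ne_zero hc)]
  have hm : cst (M * p) c⁻¹ * cst (M * p) c ∈ softV A (M * p) := by
    rw [h1]; exact (softV A (M * p)).one_mem
  refine ⟨h44sl_cst_ne_zero hc, c⁻¹, inv_ne_zero hc, hm, ?_, ?_⟩
  · rw [h1, inv_one]; exact (softV A (M * p)).one_mem
  · rw [h44slR_congr hm (softV A (M * p)).one_mem h1, h44slR_one, map_one]

/-- scaling by a nonzero constant does not change the scaled reductions. -/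
theorem h44sl_red_cst_mul {c : Kbar} (hc : c ≠ 0) {u : FF (M * p)} {f : h13sFt A M}
    (hu : H44slRed A M p u f) : H44slRed A M p (cst (M * p) c * u) f := by
  have h := h44sl_red_mul (h44sl_red_cst (A := A) (M := M) (p := p) hc) hu
  rwa [one_mul] at h

/-- **inertia invariance**: `τ u` and `u` have the same scaled reductions, for `τ` in the
inertia group of `A`. -/
theorem h44sl_red_gal {τ : GQ} (hτ : τ ∈ A.inertiaSubgroupIn ℚ) {u : FF (M * p)}
    {f : h13sFt A M} (hu : H44slRed A M p u f) :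
    H44slRed A M p (gal (M * p) τ • u) f := by
  obtain ⟨hu0, c, hc, hm, hi, hr⟩ := hu
  obtain ⟨hg, hgr⟩ := softR_gal_of_inertia A (M * p) hτ ⟨_, hm⟩
  obtain ⟨hgi, -⟩ := softR_gal_of_inertia A (M * p) hτ ⟨_, hi⟩
  have he : cst (M * p) (τ c) * (gal (M * p) τ • u) =
      gal (M * p) τ • (cst (M * p) c * u) := by
    rw [smul_mul', GalI.gal_smul_cst]
  have hτc : τ c ≠ 0 := by
    intro h0
    apply hc
    have h1 : τ c = τ 0 := by rw [h0, map_zero]
    exact (τ : Kbar ≃ₐ[ℚ] Kbar).injective h1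
  have hsu : gal (M * p) τ • u ≠ 0 := by
    intro h0
    apply hu0
    have h1 : gal (M * p) τ • u = gal (M * p) τ • (0 : FF (M * p)) := by
      rw [h0, smul_zero]
    exact MulAction.injective (gal (M * p) τ) h1
  have hm3 : cst (M * p) (τ c) * (gal (M * p) τ • u) ∈ softV A (M * p) := he ▸ hg
  have hgr' : h44slR A (M * p) ⟨gal (M * p) τ • (cst (M * p) c * u), hg⟩ =
      h44slR A (M * p) ⟨cst (M * p) c * u, hm⟩ := hgr
  refine ⟨hsu, τ c, hτc, hm3, ?_, ?_⟩
  · rw [he, ← smul_inv'']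
    exact hgi
  · rw [h44slR_congr hm3 hg he, hgr', hr]

/-! ### The order of the scaled reduction at a place of the special fibre -/

variable (A M p)

open Classical in
/-- **the order at the place `e` of `kC` of the scaled reduction of `u`** (`0` if `u = 0`). -/
def h44slOrd (u : FF (M * p)) (e : Place (h13sK A) (h13sFt A M)) : ℤ :=
  if h : ∃ f : h13sFt A M, H44slRed A M p u f then e.ord (Classical.choose h) else 0

/-- **the slope** `m_e(u) = ord_e(ū) mod p`. -/
def h44slSlope (u : FF (M * p)) (e : Place (h13sK A) (h13sFt A M)) : ZMod p :=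
  ((h44slOrd A M p u e : ℤ) : ZMod p)

variable {A M p}

/-- the order is computed by ANY scaled reduction. -/
theorem h44sl_ord_eq {u : FF (M * p)} {f : h13sFt A M} (h : H44slRed A M p u f)
    (e : Place (h13sK A) (h13sFt A M)) : h44slOrd A M p u e = e.ord f := by
  classical
  have hex : ∃ f : h13sFt A M, H44slRed A M p u f := ⟨f, h⟩
  unfold h44slOrd
  rw [dif_pos hex]
  obtain ⟨a, ha, hfa⟩ := h44sl_red_unique (Classical.choose_spec hex) h
  have hf0 : Classical.choose hex ≠ 0 := h44sl_red_ne_zero (Classical.choose_spec hex)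
  have ha0 : algebraMap (h13sK A) (h13sFt A M) a ≠ 0 := by
    intro h0
    apply h44sl_red_ne_zero h
    rw [hfa, h0, zero_mul]
  rw [hfa, Place.ord_mul e ha0 hf0, Fermat.Agent.S24.DiffPlace.ord_algebraMap, zero_add]

theorem h44sl_ord_zero (e : Place (h13sK A) (h13sFt A M)) :
    h44slOrd A M p (0 : FF (M * p)) e = 0 := by
  classical
  unfold h44slOrd
  rw [dif_neg]
  rintro ⟨f, hf⟩
  exact hf.1 rfl

theorem h44sl_ord_one (e : Place (h13sK A) (h13sFt A M)) :
    h44slOrd A M p (1 : FF (M * p)) e = 0 := by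
  rw [h44sl_ord_eq h44sl_red_one, Place.ord_one]

theorem h44sl_ord_cst (c : Kbar) (e : Place (h13sK A) (h13sFt A M)) :
    h44slOrd A M p (cst (M * p) c) e = 0 := by
  by_cases hc : c = 0
  · have h0 : cst (M * p) c = 0 := by
      rw [hc]
      exact map_zero (algebraMap Kbar (FF (M * p)))
    rw [h0, h44sl_ord_zero]
  · rw [h44sl_ord_eq (h44sl_red_cst hc), Place.ord_one]

section Exists

variable (hp : p.Prime) (hM : ¬ p ∣ M) (hA : A.LiesOverPrime p)

include hp hM hA

theorem h44sl_ord_mul {u v : FF (M * p)} (hu : u ≠ 0) (hv : v ≠ 0)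
    (e : Place (h13sK A) (h13sFt A M)) :
    h44slOrd A M p (u * v) e = h44slOrd A M p u e + h44slOrd A M p v e := by
  obtain ⟨f, hf⟩ := h44sl_exists_red hp hM hA hu
  obtain ⟨g, hg⟩ := h44sl_exists_red hp hM hA hv
  rw [h44sl_ord_eq (h44sl_red_mul hf hg), h44sl_ord_eq hf, h44sl_ord_eq hg,
    Place.ord_mul e (h44sl_red_ne_zero hf) (h44sl_red_ne_zero hg)]

theorem h44sl_ord_inv (u : FF (M * p)) (e : Place (h13sK A) (h13sFt A M)) :
    h44slOrd A M p u⁻¹ e = - h44slOrd A M p u e := by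
  by_cases hu : u = 0
  · rw [hu, inv_zero, h44sl_ord_zero, neg_zero]
  obtain ⟨f, hf⟩ := h44sl_exists_red hp hM hA hu
  rw [h44sl_ord_eq (h44sl_red_inv hf), h44sl_ord_eq hf, Place.ord_inv]

theorem h44sl_ord_pow (u : FF (M * p)) (n : ℕ) (e : Place (h13sK A) (h13sFt A M)) :
    h44slOrd A M p (u ^ n) e = n * h44slOrd A M p u e := by
  by_cases hu : u = 0
  · rcases Nat.eq_zero_or_pos n with hn | hn
    · rw [hn, pow_zero, h44sl_ord_one, Nat.cast_zero, zero_mul]
    · rw [hu, zero_pow hn.ne', h44sl_ord_zero, mul_zero]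
  obtain ⟨f, hf⟩ := h44sl_exists_red hp hM hA hu
  rw [h44sl_ord_eq (h44sl_red_pow hf n), h44sl_ord_eq hf, ← zpow_natCast, Place.ord_zpow]

theorem h44sl_ord_cst_mul {c : Kbar} (hc : c ≠ 0) (u : FF (M * p))
    (e : Place (h13sK A) (h13sFt A M)) :
    h44slOrd A M p (cst (M * p) c * u) e = h44slOrd A M p u e := by
  by_cases hu : u = 0
  · rw [hu, mul_zero]
  obtain ⟨f, hf⟩ := h44sl_exists_red hp hM hA hu
  rw [h44sl_ord_eq (h44sl_red_cst_mul hc hf), h44sl_ord_eq hf]

/-- **inertia invariance of the order.** -/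
theorem h44sl_ord_gal {τ : GQ} (hτ : τ ∈ A.inertiaSubgroupIn ℚ) (u : FF (M * p))
    (e : Place (h13sK A) (h13sFt A M)) :
    h44slOrd A M p (gal (M * p) τ • u) e = h44slOrd A M p u e := by
  by_cases hu : u = 0
  · rw [hu, smul_zero]
  obtain ⟨f, hf⟩ := h44sl_exists_red hp hM hA hu
  rw [h44sl_ord_eq (h44sl_red_gal hτ hf), h44sl_ord_eq hf]

/-! ### The slope -/

theorem h44sl_slope_mul {u v : FF (M * p)} (hu : u ≠ 0) (hv : v ≠ 0)
    (e : Place (h13sK A) (h13sFt A M)) :
    h44slSlope A M p (u * v) e = h44slSlope A M p u e + h44slSlope A M p v e := by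
  unfold h44slSlope
  rw [h44sl_ord_mul hp hM hA hu hv, Int.cast_add]

theorem h44sl_slope_inv (u : FF (M * p)) (e : Place (h13sK A) (h13sFt A M)) :
    h44slSlope A M p u⁻¹ e = - h44slSlope A M p u e := by
  unfold h44slSlope
  rw [h44sl_ord_inv hp hM hA, Int.cast_neg]

/-- the slope of a `p`-th power is `0`. -/
theorem h44sl_slope_pow_p (h : FF (M * p)) (e : Place (h13sK A) (h13sFt A M)) :
    h44slSlope A M p (h ^ p) e = 0 := by
  unfold h44slSlope
  rw [h44sl_ord_pow hp hM hA, Int.cast_mul, Int.cast_natCast, ZMod.natCast_self, zero_mul]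

theorem h44sl_slope_cst_mul {c : Kbar} (hc : c ≠ 0) (u : FF (M * p))
    (e : Place (h13sK A) (h13sFt A M)) :
    h44slSlope A M p (cst (M * p) c * u) e = h44slSlope A M p u e := by
  unfold h44slSlope
  rw [h44sl_ord_cst_mul hp hM hA hc]

/-- **inertia invariance of the slope.** -/
theorem h44sl_slope_gal {τ : GQ} (hτ : τ ∈ A.inertiaSubgroupIn ℚ) (u : FF (M * p))
    (e : Place (h13sK A) (h13sFt A M)) :
    h44slSlope A M p (gal (M * p) τ • u) e = h44slSlope A M p u e := by
  unfold h44slSlope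
  rw [h44sl_ord_gal hp hM hA hτ]

/-- **the slope is an invariant of the Kummer class**: `m_e(c u h ^ p) = m_e(u)`. -/
theorem h44sl_slope_twist {c : Kbar} (hc : c ≠ 0) {u h : FF (M * p)} (hu : u ≠ 0)
    (hh : h ≠ 0) (e : Place (h13sK A) (h13sFt A M)) :
    h44slSlope A M p (cst (M * p) c * u * h ^ p) e = h44slSlope A M p u e := by
  rw [h44sl_slope_mul hp hM hA (mul_ne_zero (h44sl_cst_ne_zero hc) hu) (pow_ne_zero p hh),
    h44sl_slope_pow_p hp hM hA, add_zero, h44sl_slope_cst_mul hp hM hA hc]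

end Exists

theorem h44sl_slope_zero (e : Place (h13sK A) (h13sFt A M)) :
    h44slSlope A M p (0 : FF (M * p)) e = 0 := by
  unfold h44slSlope
  rw [h44sl_ord_zero, Int.cast_zero]

theorem h44sl_slope_cst (c : Kbar) (e : Place (h13sK A) (h13sFt A M)) :
    h44slSlope A M p (cst (M * p) c) e = 0 := by
  unfold h44slSlope
  rw [h44sl_ord_cst, Int.cast_zero]

/-! ### The divisor of the scaled reduction and the sum formula (good levels) -/

/-- the degree of a divisor on a curve all of whose places have degree one. -/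
theorem h44sl_degree_eq_sum {K F : Type*} [Field K] [Field F] [Algebra K F]
    (hdeg : ∀ v : Place K F, v.deg = 1) (D : Divisor K F) (T : Finset (Place K F))
    (hT : D.support ⊆ T) : Divisor.degree D = ∑ v ∈ T, D v := by
  have h1 : Divisor.degree D = ∑ v ∈ D.support, D v := by
    show Finsupp.liftAddHom (fun v : Place K F => AddMonoidHom.mulRight (v.deg : ℤ)) D = _
    rw [Finsupp.liftAddHom_apply, Finsupp.sum]
    apply Finset.sum_congr rfl
    intro v _
    show D v * (v.deg : ℤ) = D v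
    rw [hdeg v, Nat.cast_one, mul_one]
  rw [h1]
  apply Finset.sum_subset hT
  intro v _ hv
  exact Finsupp.notMem_support_iff.mp hv

section Good

variable (hp : p.Prime) (hM : ¬ p ∣ M) (haux : auxLevel p ∣ M) (hA : A.LiesOverPrime p)

include hp hM haux hA

/-- **the divisor of the scaled reduction**: it has degree `0`. -/
theorem h44sl_div {u : FF (M * p)} (hu : u ≠ 0) :
    ∃ D : Divisor (h13sK A) (h13sFt A M),
      (∀ e : Place (h13sK A) (h13sFt A M), D e = h44slOrd A M p u e) ∧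
      Divisor.degree D = 0 := by
  obtain ⟨f, hf⟩ := h44sl_exists_red hp hM hA hu
  obtain ⟨D, hD, hdeg⟩ := (h26s_base p hp M hM haux A hA).pd f (h44sl_red_ne_zero hf)
  exact ⟨D, fun e => by rw [hD e, h44sl_ord_eq hf], hdeg⟩

/-- the sum of the orders of the scaled reduction over a finite set containing its zeros and
poles is `0`. -/
theorem h44sl_sum_ord (u : FF (M * p)) (S : Finset (Place (h13sK A) (h13sFt A M)))
    (hS : ∀ Q : Place (h13sK A) (h13sFt A M), Q ∉ S → h44slOrd A M p u Q = 0) :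
    ∑ e ∈ S, h44slOrd A M p u e = 0 := by
  by_cases hu : u = 0
  · apply Finset.sum_eq_zero
    intro e _
    rw [hu, h44sl_ord_zero]
  obtain ⟨D, hD, hdeg⟩ := h44sl_div hp hM haux hA hu
  have hsub : D.support ⊆ S := by
    intro v hv
    by_contra hvS
    exact (Finsupp.mem_support_iff.mp hv) (by rw [hD v, hS v hvS])
  rw [← hdeg, h44sl_degree_eq_sum (h26s_base p hp M hM haux A hA).deg_one D S hsub]
  exact Finset.sum_congr rfl fun e _ => (hD e).symm

/-- **the sum formula**: if `p ∣ ord_Q(ū)` for every place `Q` outside the finite set `S`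
(PURITY, with `S` = the supersingular places), then `∑_{e ∈ S} m_e(u) = 0`. -/
theorem h44sl_sum_slope (u : FF (M * p)) (S : Finset (Place (h13sK A) (h13sFt A M)))
    (hS : ∀ Q : Place (h13sK A) (h13sFt A M), Q ∉ S → (p : ℤ) ∣ h44slOrd A M p u Q) :
    ∑ e ∈ S, h44slSlope A M p u e = 0 := by
  classical
  by_cases hu : u = 0
  · apply Finset.sum_eq_zero
    intro e _
    rw [hu, h44sl_slope_zero]
  obtain ⟨D, hD, hdeg⟩ := h44sl_div hp hM haux hA hu
  have h1 : ∑ v ∈ S ∪ D.support, D v = 0 := by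
    rw [← h44sl_degree_eq_sum (h26s_base p hp M hM haux A hA).deg_one D (S ∪ D.support)
      Finset.subset_union_right, hdeg]
  have h2 : ∑ v ∈ S ∪ D.support, ((D v : ℤ) : ZMod p) = 0 := by
    rw [← Int.cast_sum, h1, Int.cast_zero]
  have h3 : ∑ e ∈ S, h44slSlope A M p u e = ∑ e ∈ S, ((D e : ℤ) : ZMod p) :=
    Finset.sum_congr rfl fun e _ => by rw [hD e]; rfl
  rw [h3, ← h2]
  apply Finset.sum_subset Finset.subset_union_left
  intro v _ hvS
  rw [hD v]
  exact (ZMod.intCast_zmod_eq_zero_iff_dvd _ p).mpr (hS v hvS)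

end Good

end Fermat.Agent.P7
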