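import Fermat.Agent.P7.H69PushHecke
import Fermat.Agent.Red.Kron.FrickeGal

/-!
# Wave 7, block (A) T-ABEL, leaf A3 PHI-RED, part 3 (helper69): `π^*` commutes with the Hecke
operators; `Φ = P ∘ π^* π_*`

`N ∣ M`, `π^* = P5.h69vPull h : J₀(N) →+ J₀(M)`, `r` a prime not dividing `M`.

* `h69w_gen_pull` : `F_{N q r} = F_{N q} ⊔ F_{N r}` for a prime `r ∤ N q` (Fricke involution
  `w_r` of `F_{N q r}` + GEN);
* `h69w_square_pull` : the square `F_N ⊆ F_{N r}`, `F_N ⊆ F_{N q}` is linearly disjoint;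
* `h69w_pull_heckeDivBar` : `π^* ∘ T_r = T_r ∘ π^*` on divisors (levels `N`, `N q`);
* `h69vPull_hecke` : `π^* (T_r x) = T_r (π^* x)` on `J₀`, for `N ∣ M`, `r ∤ M`;
* `h69vPull_act` : `π^* (P • x) = P • π^* x` for Hecke polynomials `P` in the `T_r`, `r ∤ M`;
* `h69wPhi_eq` : `Φ x = P • (π^* π_* x)`; `h69wTr_hecke`, `h69wPhi_hecke` : `π^* π_*` and `Φ`
  commute with the `T_r`, `r ∤ M`.
-/

set_option autoImplicit false
set_option linter.style.haveILetI false
set_option linter.unusedSectionVars false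

open AlgebraicCurve ModularCurve IntermediateField

noncomputable section

namespace Fermat.Agent.P7

open Fermat.Agent.S37 Fermat.Agent.P5
open Fermat.Agent.Red.HKMod
open Fermat.Agent.Red.HKComm
open Fermat.Agent.Red.Kron

/-- principal divisors of `F_M` (local instance). -/
local instance h69w_instPD' (M : ℕ) [NeZero M] : HasPrincipalDivisors Kbar (FF M) :=
  hasPrincipalDivisors_FF M

/-! ### The square -/

/-- `F_{N q r} = F_{N q} ⊔ F_{N r}` for a prime `r ∤ N q`. -/
theorem h69w_gen_pull (N q r : ℕ) [NeZero N] [NeZero q] [NeZero r] (hr : r.Prime)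
    (hrNq : ¬ r ∣ N * q) (ha : N * q * 1 ∣ N * q * r) (hb : N * r * 1 ∣ N * q * r) :
    (degenE 1 ha).fieldRange ⊔ (degenE 1 hb).fieldRange = ⊤ := by
  have hα : heckeAlphaBar Kbar (N * q) r = degenE 1 ha := heckeAlphaBar_eq_degenE (N * q) r
  have key : ∀ z : FF (N * q * r),
      kFricke (N * q) r hr hrNq z ∈ (degenE 1 ha).fieldRange ⊔ (degenE 1 hb).fieldRange := by
    have hle : IntermediateField.adjoin Kbar
        ({Fermat.Agent.S24.jBar (N * q * r),
          Fermat.Agent.S24.jdBar (N * q * r) (N * q * r) dvd_rfl} : Set (FF (N * q * r))) ≤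
        ((degenE 1 ha).fieldRange ⊔ (degenE 1 hb).fieldRange).comap
          ((kFricke (N * q) r hr hrNq : FF (N * q * r) ≃ₐ[Kbar] FF (N * q * r)) :
            FF (N * q * r) →ₐ[Kbar] FF (N * q * r)) := by
      rw [IntermediateField.adjoin_le_iff]
      rintro x (rfl | hx)
      · -- `w j = β j`, in the range of `F_{N r}`
        change (kFricke (N * q) r hr hrNq) (Fermat.Agent.S24.jBar (N * q * r)) ∈
          ((degenE 1 ha).fieldRange ⊔ (degenE 1 hb).fieldRange)
        have e1 : Fermat.Agent.S24.jBar (N * q * r) =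
            heckeAlphaBar Kbar (N * q) r (Fermat.Agent.S24.jBar (N * q)) :=
          (heckeAlphaBar_jBar (N * q) r).symm
        rw [e1, kFricke_alpha]
        refine (le_sup_right : (degenE 1 hb).fieldRange ≤ _) ?_
        refine ⟨heckeBetaBar Kbar N r (Fermat.Agent.S24.jBar N), ?_⟩
        apply Subtype.ext
        show ((degenE 1 hb (heckeBetaBar Kbar N r (Fermat.Agent.S24.jBar N)) : FF (N * q * r)) :
          LaurentSeries Kbar) = _
        rw [coe_degenE, qExpand_one_apply, coe_heckeBetaBar, coe_heckeBetaBar]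
        rfl
      · -- `w (j(q^{N q r})) = α (j(q^{N q}))`, in the range of `F_{N q}`
        rw [Set.mem_singleton_iff] at hx
        subst hx
        change (kFricke (N * q) r hr hrNq)
          (Fermat.Agent.S24.jdBar (N * q * r) (N * q * r) dvd_rfl) ∈
          ((degenE 1 ha).fieldRange ⊔ (degenE 1 hb).fieldRange)
        have e1 : Fermat.Agent.S24.jdBar (N * q * r) (N * q * r) dvd_rfl =
            heckeBetaBar Kbar (N * q) r (Fermat.Agent.S24.jdBar (N * q) (N * q) dvd_rfl) := by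
          rw [heckeBetaBar_eq_degenE (N * q) r,
            degenE_jdBar r (dvd_refl (N * q * r)) (N * q) dvd_rfl dvd_rfl]
        rw [e1, kFricke_beta, hα]
        exact (le_sup_left : (degenE 1 ha).fieldRange ≤ _) ⟨_, rfl⟩
    intro z
    have hz : z ∈ IntermediateField.adjoin Kbar
        ({Fermat.Agent.S24.jBar (N * q * r),
          Fermat.Agent.S24.jdBar (N * q * r) (N * q * r) dvd_rfl} : Set (FF (N * q * r))) := by
      rw [gen (N * q * r)]
      exact IntermediateField.mem_top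
    exact hle hz
  rw [eq_top_iff]
  intro y _
  have h1 := key (kFricke (N * q) r hr hrNq y)
  rwa [kFricke_kFricke] at h1

/-- the square of the degeneracy inclusions `F_N ⊆ F_{N r}` and `F_N ⊆ F_{N q}` is linearly
disjoint. -/
theorem h69w_square_pull (N q r : ℕ) [NeZero N] [NeZero q] [NeZero r] (hr : r.Prime)
    (hrNq : ¬ r ∣ N * q) (hα : N * 1 ∣ N * r) (ha : N * q * 1 ∣ N * q * r)
    (hb : N * r * 1 ∣ N * q * r) :
    finrankAlong Kbar (degenE 1 ha) = finrankAlong Kbar (degenE 1 hα) ∧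
      (degenE 1 ha).fieldRange ⊔ (degenE 1 hb).fieldRange = ⊤ := by
  refine ⟨?_, h69w_gen_pull N q r hr hrNq ha hb⟩
  have hrN : ¬ r ∣ N := fun hd => hrNq (Dvd.dvd.mul_right hd q)
  have h1 := h52deg_deg (N * q) (N * q * r) ha
  have h2 := h52deg_deg N (N * r) hα
  have h3 := hkdeg_psi_mul_prime (N * q) r (Nat.pos_of_ne_zero (NeZero.ne (N * q))) hr
  have h4 := hkdeg_psi_mul_prime N r (Nat.pos_of_ne_zero (NeZero.ne N)) hr
  rw [if_neg hrNq] at h3
  rw [if_neg hrN] at h4
  have hN : dedekindPsi N ≠ 0 := hksq_dedekindPsi_ne_zero N (NeZero.ne N)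
  have hNq : dedekindPsi (N * q) ≠ 0 := hksq_dedekindPsi_ne_zero _ (NeZero.ne (N * q))
  have e1 : finrankAlong Kbar (degenE 1 ha) = r + 1 := by
    rw [h3] at h1
    have : finrankAlong Kbar (degenE 1 ha) * dedekindPsi (N * q) =
        (r + 1) * dedekindPsi (N * q) := by rw [h1]; ring
    exact Nat.eq_of_mul_eq_mul_right (Nat.pos_of_ne_zero hNq) this
  have e2 : finrankAlong Kbar (degenE 1 hα) = r + 1 := by
    rw [h4] at h2
    have : finrankAlong Kbar (degenE 1 hα) * dedekindPsi N = (r + 1) * dedekindPsi N := by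
      rw [h2]; ring
    exact Nat.eq_of_mul_eq_mul_right (Nat.pos_of_ne_zero hN) this
  rw [e1, e2]

/-! ### Divisors -/

/-- `π^* ∘ T_r = T_r ∘ π^*` on divisors, levels `N ∣ N q`, `r ∤ N q`. -/
theorem h69w_pull_heckeDivBar (N q r : ℕ) [NeZero N] [NeZero q] [NeZero r] (hr : r.Prime)
    (hrNq : ¬ r ∣ N * q) (hβ : N * 1 ∣ N * q) (D : Divisor Kbar (FF N)) :
    Divisor.pullbackAlong (degenE 1 hβ) (isIntegral_degenE 1 hβ)
        (heckeDivBar (heckeAlphaBarIntegral N r) (heckeBetaBarIntegral N r) D)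
      = heckeDivBar (heckeAlphaBarIntegral (N * q) r) (heckeBetaBarIntegral (N * q) r)
          (Divisor.pullbackAlong (degenE 1 hβ) (isIntegral_degenE 1 hβ) D) := by
  have hα : N * 1 ∣ N * r := by
    rw [mul_one]
    exact dvd_mul_right _ _
  have ha : N * q * 1 ∣ N * q * r := by
    rw [mul_one]
    exact dvd_mul_right _ _
  have hb : N * r * 1 ∣ N * q * r := by
    rw [mul_one]
    exact ⟨q, by ring⟩
  obtain ⟨hdeg, hgen⟩ := h69w_square_pull N q r hr hrNq hα ha hb
  rw [heckeDivBar_eq_corrE (N * q) r, heckeDivBar_eq_corrE N r, corrE_apply, corrE_apply,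
    Fermat.Agent.S35.h41h_baseChange 1 1 hα hβ ha hb hdeg hgen]
  congr 1
  -- functoriality of the pull-back
  have hE : N * (r * 1) ∣ N * q * r := by
    rw [mul_one]
    exact ⟨q, by ring⟩
  have hE' : N * (1 * r) ∣ N * q * r := by
    rw [one_mul]
    exact ⟨q, by ring⟩
  have e1 : (degenE 1 hb).comp (degenE r (dvd_refl (N * r))) = degenE (r * 1) hE :=
    degenE_comp r 1 (dvd_refl (N * r)) hb hE
  have e2 : (degenE r (dvd_refl (N * q * r))).comp (degenE 1 hβ) = degenE (1 * r) hE' :=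
    degenE_comp 1 r hβ (dvd_refl (N * q * r)) hE'
  have e12 : (degenE 1 hb).comp (degenE r (dvd_refl (N * r))) =
      (degenE r (dvd_refl (N * q * r))).comp (degenE 1 hβ) := by
    rw [e1, e2]
    exact degenE_congr (mul_comm r 1) _ _
  have hi1 : ((degenE 1 hb).comp (degenE r (dvd_refl (N * r)))).toRingHom.IsIntegral := by
    rw [e1]
    exact isIntegral_degenE _ _
  have hi2 : ((degenE r (dvd_refl (N * q * r))).comp (degenE 1 hβ)).toRingHom.IsIntegral := by
    rw [e2]
    exact isIntegral_degenE _ _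
  rw [← Fermat.Agent.Red.GFF.pullbackAlong_comp (degenE r (dvd_refl (N * r))) (degenE 1 hb)
      (isIntegral_degenE r (dvd_refl (N * r))) (isIntegral_degenE 1 hb) hi1,
    ← Fermat.Agent.Red.GFF.pullbackAlong_comp (degenE 1 hβ) (degenE r (dvd_refl (N * q * r)))
      (isIntegral_degenE 1 hβ) (isIntegral_degenE r (dvd_refl (N * q * r))) hi2,
    hkc_pullbackAlong_congr e12 hi1 hi2]

/-! ### Classes -/

section Cls

variable {N M : ℕ} [NeZero N] [NeZero M] (h : N ∣ M)

/-- **`π^*` commutes with `T_r`**, `r ∤ M`. -/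
theorem h69vPull_hecke (r : Nat.Primes) (hr : ¬ (r : ℕ) ∣ M) (x : JZero N) :
    h69vPull h (heckeOperatorBar N r x) = heckeOperatorBar M r (h69vPull h x) := by
  haveI : NeZero (r : ℕ) := ⟨r.2.ne_zero⟩
  obtain ⟨q, rfl⟩ := h
  haveI : NeZero q := ⟨fun h0 => NeZero.ne (N * q) (by rw [h0, mul_zero])⟩
  have hβ : N * 1 ∣ N * q := by
    rw [mul_one]
    exact dvd_mul_right _ _
  obtain ⟨D, rfl⟩ := Pic0.mk_surjective x
  rw [heckeOperatorBar_mk N r D, h69vPull_mk, h69vPull_mk, heckeOperatorBar_mk (N * q) r]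
  congr 1
  apply Subtype.ext
  have e := h69w_pull_heckeDivBar N q r r.2 hr hβ (D : Divisor Kbar (FF N))
  rw [← hkc_pullbackAlong_congr (h69w_degen_eq_degenE (Dvd.intro q rfl) hβ)
    (h69v_hint (Dvd.intro q rfl)) (isIntegral_degenE 1 hβ)] at e
  exact e

/-- **`π^*` commutes with the Hecke polynomials** in the `T_r`, `r ∤ M`. -/
theorem h69vPull_act (P : MvPolynomial Nat.Primes ℤ)
    (hP : P ∈ MvPolynomial.supported ℤ {ℓ : Nat.Primes | ¬ (ℓ : ℕ) ∣ M}) (x : JZero N) :
    h69vPull h (h69wAct N P x) = h69wAct M P (h69vPull h x) := by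
  rw [MvPolynomial.supported_eq_adjoin_X] at hP
  induction hP using Algebra.adjoin_induction generalizing x with
  | mem Q hQ =>
    obtain ⟨ℓ, hℓ, rfl⟩ := hQ
    rw [h69wAct_X, h69wAct_X]
    exact h69vPull_hecke h ℓ hℓ x
  | algebraMap a =>
    have e : (algebraMap ℤ (MvPolynomial Nat.Primes ℤ) a) = MvPolynomial.C a := rfl
    rw [e, h69wAct_C, h69wAct_C, map_zsmul]
  | add Q R _ _ hQ hR =>
    have e1 : ∀ (L : ℕ) [NeZero L] (y : JZero L),
        h69wAct L (Q + R) y = h69wAct L Q y + h69wAct L R y := by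
      intro L _ y
      show heckeEvalBar _ (Q + R) y = heckeEvalBar _ Q y + heckeEvalBar _ R y
      rw [map_add]
      rfl
    rw [e1, e1, map_add, hQ, hR]
  | mul Q R _ _ hQ hR =>
    rw [h69wAct_mul, h69wAct_mul, hQ, hR]

/-- **`Φ = P ∘ π^* π_*`** for Hecke polynomials in the `T_r`, `r ∤ M`. -/
theorem h69wPhi_eq (P : MvPolynomial Nat.Primes ℤ)
    (hP : P ∈ MvPolynomial.supported ℤ {ℓ : Nat.Primes | ¬ (ℓ : ℕ) ∣ M}) (x : JZero M) :
    h69wPhi h P x = h69wAct M P (h69wTr h x) := by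
  rw [h69wPhi_apply, h69wTr_apply, h69vPull_act h P hP]

/-- `Φ = π^* π_* ∘ P` for Hecke polynomials in the `T_r`, `r ∤ M`. -/
theorem h69wPhi_eq' (P : MvPolynomial Nat.Primes ℤ)
    (hP : P ∈ MvPolynomial.supported ℤ {ℓ : Nat.Primes | ¬ (ℓ : ℕ) ∣ M}) (x : JZero M) :
    h69wPhi h P x = h69wTr h (h69wAct M P x) := by
  rw [h69wPhi_apply, h69wTr_apply, h69wPush_act h P hP]

/-- `π^* π_*` commutes with `T_r`, `r ∤ M`. -/
theorem h69wTr_hecke (r : Nat.Primes) (hr : ¬ (r : ℕ) ∣ M) (x : JZero M) :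
    h69wTr h (heckeOperatorBar M r x) = heckeOperatorBar M r (h69wTr h x) := by
  rw [h69wTr_apply, h69wTr_apply, h69wPush_hecke h r hr, h69vPull_hecke h r hr]

/-- **`Φ` commutes with `T_r`**, `r ∤ M` (`P` any Hecke polynomial). -/
theorem h69wPhi_hecke (P : MvPolynomial Nat.Primes ℤ) (r : Nat.Primes) (hr : ¬ (r : ℕ) ∣ M)
    (x : JZero M) :
    h69wPhi h P (heckeOperatorBar M r x) = heckeOperatorBar M r (h69wPhi h P x) := by
  rw [h69wPhi_apply, h69wPhi_apply, h69wPush_hecke h r hr, ← h69vPull_hecke h r hr]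
  congr 1
  rw [← h69wAct_X N r, ← h69wAct_mul, mul_comm, h69wAct_mul, h69wAct_X]

end Cls

end Fermat.Agent.P7
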