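import Fermat.Agent.P7.H76ToricTop
import Fermat.Agent.P7.H99W7Iface2

/-!
# Wave 7 (S44 / S40), block (T) TORIC: the last wire, prime by prime (helper76)

* `H76wToricRedAt p` : what the blocks (R) + (C) + (E) + (A) have to deliver at the prime `p`
  (the body of `H76wToricRed`): under the hypotheses of `H99wToricAt p` on `(M, A, β, x)`, the
  class `x` has a Kummer representative whose reduction at the Gauss valuation, read at the
  good level `goodLevel p M * p`, is a constant times a `p`-th power.
* `h76w_toricAt_of_red : H76wToricRedAt p → H99wToricAt p` (unconditional wire).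
* `h76w_toricRed_iff` : `H76wToricRed ↔ ∀ p, H76wToricRedAt p`.

Nothing is assumed.
-/

set_option autoImplicit false
set_option linter.unusedSectionVars false
set_option linter.unusedVariables false
set_option linter.style.haveILetI false
set_option synthInstance.maxHeartbeats 400000

open AlgebraicCurve ModularCurve

noncomputable section

namespace Fermat.Agent.P7

open Fermat.Agent.S37 Fermat.Agent.Red.KR Fermat.Agent.Red.Kron Fermat.Agent.LGC
  Fermat.Agent.S35 Fermat.Agent.P6
open Fermat.Agent.Red.GV Fermat.Agent.Red.GV.Soft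
open Fermat.Agent.Jac.K1 (IsKummerPair)

/-- **what (R) + (C) + (E) + (A) have to deliver at the prime `p`.** -/
def H76wToricRedAt (p : ℕ) : Prop :=
  ∀ (hp : p.Prime), p ≠ 2 → ∀ (M : ℕ) [NeZero M], ¬ p ∣ M →
    haveI : NeZero p := ⟨hp.ne_zero⟩
    ∀ A : ValuationSubring Kbar, A.LiesOverPrime p →
    ∀ (β : Kbar) (x : JZero (M * p)), H76wToricHyp p M A β x →
      ∃ w : FF (M * p), IsKummerPair p x w ∧
        H76wResPow A (goodLevel p M * p) p
          (degen (Nat.mul_dvd_mul_right (dvd_goodLevel p M) p) w)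

theorem h76w_toricRed_iff : H76wToricRed ↔ ∀ p : ℕ, H76wToricRedAt p :=
  ⟨fun h p hp => h p hp, fun h p hp => h p hp⟩

/-- **the last wire at the prime `p`.** -/
theorem h76w_toricAt_of_red {p : ℕ} (H : H76wToricRedAt p) : H99wToricAt p := by
  intro hp hp2 M _ hpM
  haveI : NeZero p := ⟨hp.ne_zero⟩
  intro A hA β hβ hβi hβp x hpx hα hβx hfix hEis hOld a ha e hae
  obtain ⟨w, hw, hres⟩ := H hp hp2 M hpM A hA β x
    ⟨hβ, hβi, hβp, hpx, hα, hβx, hfix, hEis, hOld⟩
  have hcyc : H11Cyc p 1 a e := by
    intro ζ hζ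
    rw [pow_one] at hζ
    exact hae ζ hζ
  have hw' : IsKummerPair (p ^ 1) x w := by
    rw [pow_one]
    exact hw
  have hres' : H76wResPow A (goodLevel p M * p) (p ^ 1)
      (degen (Nat.mul_dvd_mul_right (dvd_goodLevel p M) p) w) := by
    rw [pow_one]
    exact hres
  exact h76w_toric_of_resPow_good hp hp2 M hpM A hA a ha 1 e hcyc x w hw' hα hβx hres'

end Fermat.Agent.P7
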