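import Fermat.Agent.P7.H99W7TopGood
import Fermat.Agent.P7.H76ToricTopAt
import Fermat.Agent.P7.H33DescGood
import Fermat.Agent.P7.H19EigenFun
import Fermat.Agent.P7.H44Slope
import Fermat.Agent.P7.H69PullHecke

/-!
# Wave 7, T-TOP (twin, helper16, prefix `h16t_` / `H16t`): TORIC at `p ≥ 5` from the two end
shapes (I-1) SLOPE-ZERO and (I-2) DLOG

End shapes as frozen by helper98 (message of 09:16Z), stated here with the landed vocabulary:

* `H16tSlopeZero p` (I-1, blocks (R) + (C) + (E)), purely function-level at a GOOD level `M`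
  (`auxLevel p ∣ M`, `p ∤ M`): `u ≠ 0` in `FF (M p)`, `p ∣ div u`, `u` fixed by the stabiliser
  of the unit `β` in `I₁`, and a non-Eisenstein Hecke relation `T_l u = h ^ p u ^ c`
  (`l ∤ M p`, `p ∤ l + 1 - c`)  ⟹  `p ∣ ord_Q (ū)` at every place `Q` of the special fibre.
* `H16tDlog p` (I-2, block (A) = DLOG), any level `M` prime to `p ≥ 5`: `u` a Kummer function of
  `x`, `e • x = x` with `e` a Hecke polynomial killing `S₂(Γ₀(M))`, `p ∣ ord_Q` of the scaled
  reduction of `degen u` at every place of the special fibre of the good level  ⟹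
  `H76wResPow` at the good level.
* `h16t_toricGoodAt : 5 ≤ p → H16tSlopeZero p → H16tDlog p → H99wToricGoodAt p`
  (`H99wToricGoodAt` is the hypothesis of the landed `h99w_s44_final`).

Wiring: DESC (`h33w_desc_toric`, helper33), pull-back of the Hecke relation
(`h69vPull_hecke`, helper69; `h19e_eigen_fun`, helper19), the gate at the good level
(`h76w_toric_of_resPow_good`, helper76).
-/

set_option autoImplicit false
set_option linter.unusedSectionVars false
set_option linter.style.haveILetI false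
set_option synthInstance.maxHeartbeats 400000

open AlgebraicCurve ModularCurve

noncomputable section

namespace Fermat.Agent.P7

open Fermat.Agent.S37 Fermat.Agent.S35 Fermat.Agent.P6
open Fermat.Agent.Jac.K1 (IsKummerPair)
open Fermat.Agent.P5 (h69vPull h13sK h13sFt)

/-- **(I-1) SLOPE-ZERO at the prime `p`**, function-level, at a good level. -/
def H16tSlopeZero (p : ℕ) : Prop :=
  ∀ (hp : p.Prime), p ≠ 2 → ∀ (M : ℕ) [NeZero M], auxLevel p ∣ M → ¬ p ∣ M →
    haveI : NeZero p := ⟨hp.ne_zero⟩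
    ∀ A : ValuationSubring Kbar, A.LiesOverPrime p →
    ∀ β : Kbar, β ∈ A → β⁻¹ ∈ A →
      (∀ a ∈ A.inertiaSubgroupIn ℚ, H99wFixMu p a → a (β ^ p) = β ^ p) →
    ∀ u : FF (M * p), u ≠ 0 → (∀ v : Place Kbar (FF (M * p)), (p : ℤ) ∣ v.ord u) →
      (∀ a ∈ A.inertiaSubgroupIn ℚ, H99wFixMu p a → a β = β → gal (M * p) a • u = u) →
      (∃ l : Nat.Primes, ¬ (l : ℕ) ∣ M * p ∧ ∃ c : ℤ, ∃ h : FF (M * p), h ≠ 0 ∧
        (haveI : NeZero (l : ℕ) := ⟨l.2.ne_zero⟩; h19vT (M * p) (l : ℕ) u = h ^ p * u ^ c) ∧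
        ¬ (p : ℤ) ∣ ((l : ℕ) : ℤ) + 1 - c) →
      ∀ Q : Place (h13sK A) (h13sFt A M), (p : ℤ) ∣ h44slOrd A M p u Q

/-- **(I-2) DLOG at the prime `p`**. -/
def H16tDlog (p : ℕ) : Prop :=
  ∀ (hp : p.Prime), 5 ≤ p → ∀ (M : ℕ) [NeZero M], ¬ p ∣ M →
    haveI : NeZero p := ⟨hp.ne_zero⟩
    ∀ A : ValuationSubring Kbar, A.LiesOverPrime p →
    ∀ (x : JZero (M * p)) (u : FF (M * p)), IsKummerPair p x u →
      (∃ e : MvPolynomial Nat.Primes ℤ, (∀ ℓ ∈ e.vars, ¬ (ℓ : ℕ) ∣ M * p) ∧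
        H99wKillsCusp M e ∧ (letI := heckeModuleBar (M * p); e • x = x)) →
      (∀ Q : Place (h13sK A) (h13sFt A (goodLevel p M)),
        (p : ℤ) ∣ h44slOrd A (goodLevel p M) p
          (degen (Nat.mul_dvd_mul_right (dvd_goodLevel p M) p) u) Q) →
      H76wResPow A (goodLevel p M * p) p
        (degen (Nat.mul_dvd_mul_right (dvd_goodLevel p M) p) u)

/-- **T-TOP**: TORIC with Hecke primes prime to the good level, from (I-1) and (I-2). -/
theorem h16t_toricGoodAt {p : ℕ} (h5 : 5 ≤ p) (hS : H16tSlopeZero p) (hD : H16tDlog p) :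
    H99wToricGoodAt p := by
  intro hp hp2 M _ hpM
  haveI : NeZero p := ⟨hp.ne_zero⟩
  intro A hA β hβ hβi hβp x hpx hα hβx hfix hEis hOld a ha e hae
  have hdq : M * p ∣ goodLevel p M * p := Nat.mul_dvd_mul_right (dvd_goodLevel p M) p
  have hpM' : ¬ p ∣ goodLevel p M := not_dvd_goodLevel hp hpM
  -- DESC
  obtain ⟨w, hw, -, hk, hg, -⟩ := h33w_desc_toric p M A β x hpx hfix
  have hw0 : w ≠ 0 := hw.ne_zero
  have hu0 : degen hdq w ≠ 0 := h31s_degen_ne_zero hdq hw0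
  -- the Hecke relation at the good level
  have hrel : ∃ l : Nat.Primes, ¬ (l : ℕ) ∣ goodLevel p M * p ∧ ∃ c : ℤ,
      ∃ h : FF (goodLevel p M * p), h ≠ 0 ∧
        (haveI : NeZero (l : ℕ) := ⟨l.2.ne_zero⟩;
          h19vT (goodLevel p M * p) (l : ℕ) (degen hdq w) = h ^ p * degen hdq w ^ c) ∧
        ¬ (p : ℤ) ∣ ((l : ℕ) : ℤ) + 1 - c := by
    obtain ⟨l, hl, c, hc, hnE⟩ := hEis
    refine ⟨l, hl, c, ?_⟩
    have hc' : heckeOperatorBar (goodLevel p M * p) ⟨(l : ℕ), l.2⟩ (h69vPull hdq x)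
        = c • h69vPull hdq x := by
      have h1 := h69vPull_hecke hdq l hl x
      rw [hc, map_zsmul] at h1
      exact h1.symm
    obtain ⟨h, hh, he⟩ := h19e_eigen_fun (goodLevel p M * p) l.2 hp.ne_zero hk c hc'
    exact ⟨h, hh, he, hnE⟩
  -- (I-1) at the good level
  have hs := hS hp hp2 (goodLevel p M) (auxLevel_dvd_goodLevel p M) hpM' A hA β hβ hβi hβp
    (degen hdq w) hu0 (fun v => hk.dvd_ord v) hg hrel
  -- (I-2)
  have hOld' : ∃ e : MvPolynomial Nat.Primes ℤ, (∀ ℓ ∈ e.vars, ¬ (ℓ : ℕ) ∣ M * p) ∧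
      H99wKillsCusp M e ∧ (letI := heckeModuleBar (M * p); e • x = x) := by
    obtain ⟨e, he, h1, h2⟩ := hOld
    exact ⟨e, fun ℓ hℓ => h99w_not_dvd_of_good (he ℓ hℓ), h1, h2⟩
  have hres := hD hp h5 M hpM A hA x w hw hOld' hs
  -- the gate
  have hcyc : H11Cyc p 1 a e := by
    intro ζ hζ
    rw [pow_one] at hζ
    exact hae ζ hζ
  have hw' : IsKummerPair (p ^ 1) x w := by
    rw [pow_one]
    exact hw
  have hres' : H76wResPow A (goodLevel p M * p) (p ^ 1) (degen hdq w) := by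
    rw [pow_one]
    exact hres
  exact h76w_toric_of_resPow_good hp hp2 M hpM A hA a ha 1 e hcyc x w hw' hα hβx hres'

end Fermat.Agent.P7
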