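import Fermat.Agent.P7.H16S44Of
import Fermat.Agent.P7.H23ValI1

/-!
# Wave 7, T-TOP twin, CLASS-LEVEL form of (I-1) (helper16)

The end shape (I-1) of `P7/H16Top.lean` is function-level.  The landed blocks (`h5e_all`,
helper5; `h84t_all`, helper84) are class-level (`IsKummerPair p x u`, `T_ℓ x = c • x`) and use
`h23vI1 p A`.  This file states (I-1) in that form and wires it to the top, so that no converse
of `h19e_eigen_fun` is needed:

* `H16tSlopeZeroC p` : good level `M`, `β` a unit of `A` with `β ^ p ∈ Fix(I₁)`, `u` a Kummer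
  function of `x`, `u` fixed by the stabiliser of `β` in `I₁ = h23vI1 p A`, `T_ℓ x = c • x`
  with `ℓ ∤ M p`, `p ∤ ℓ + 1 - c`  ⟹  `p ∣ ord_Q(ū)` at every place `Q` of the special fibre.
* `h16t_toricGoodAt_C`, `h16t_s44_of_C` : the top and S44 from `H16tSlopeZeroC` and `H16tDlog`.
-/

set_option autoImplicit false
set_option linter.unusedSectionVars false
set_option linter.style.haveILetI false
set_option synthInstance.maxHeartbeats 400000

open AlgebraicCurve ModularCurve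
open WeierstrassCurve WeierstrassCurve.Affine WeierstrassCurve.Affine.Point

noncomputable section

namespace Fermat.Agent.P7

open Fermat.Agent.S37 Fermat.Agent.S35 Fermat.Agent.P6
open Fermat.Agent.Jac.K1 (IsKummerPair)
open Fermat.Agent.P5 (h69vPull h13sK h13sFt)

/-- **(I-1) SLOPE-ZERO at the prime `p`, class-level form.** -/
def H16tSlopeZeroC (p : ℕ) : Prop :=
  ∀ (hp : p.Prime), p ≠ 2 → ∀ (M : ℕ) [NeZero M], auxLevel p ∣ M → ¬ p ∣ M →
    haveI : NeZero p := ⟨hp.ne_zero⟩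
    ∀ A : ValuationSubring Kbar, A.LiesOverPrime p →
    ∀ β : Kbar, β ∈ A → β⁻¹ ∈ A →
      (∀ a ∈ h23vI1 p A, a (β ^ p) = β ^ p) →
    ∀ (x : JZero (M * p)) (u : FF (M * p)), IsKummerPair p x u →
      (∀ a ∈ h23vI1 p A, a β = β → gal (M * p) a • u = u) →
      ∀ (ℓ : ℕ) (hℓ : ℓ.Prime), ¬ ℓ ∣ M * p → ∀ c : ℤ,
        heckeOperatorBar (M * p) ⟨ℓ, hℓ⟩ x = c • x → ¬ (p : ℤ) ∣ (ℓ : ℤ) + 1 - c →
      ∀ Q : Place (h13sK A) (h13sFt A M), (p : ℤ) ∣ h44slOrd A M p u Q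

/-- **T-TOP**, from the class-level (I-1) and (I-2). -/
theorem h16t_toricGoodAt_C {p : ℕ} (h5 : 5 ≤ p) (hS : H16tSlopeZeroC p) (hD : H16tDlog p) :
    H99wToricGoodAt p := by
  intro hp hp2 M _ hpM
  haveI : NeZero p := ⟨hp.ne_zero⟩
  intro A hA β hβ hβi hβp x hpx hα hβx hfix hEis hOld a ha e hae
  have hdq : M * p ∣ goodLevel p M * p := Nat.mul_dvd_mul_right (dvd_goodLevel p M) p
  have hpM' : ¬ p ∣ goodLevel p M := not_dvd_goodLevel hp hpM
  -- DESC
  obtain ⟨w, hw, -, hk, hg, -⟩ := h33w_desc_toric p M A β x hpx hfix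
  -- the Hecke relation for the pull-back
  obtain ⟨l, hl, c, hc, hnE⟩ := hEis
  have hc' : heckeOperatorBar (goodLevel p M * p) ⟨(l : ℕ), l.2⟩ (h69vPull hdq x)
      = c • h69vPull hdq x := by
    have h1 := h69vPull_hecke hdq l hl x
    rw [hc, map_zsmul] at h1
    exact h1.symm
  -- (I-1) at the good level
  have hs := hS hp hp2 (goodLevel p M) (auxLevel_dvd_goodLevel p M) hpM' A hA β hβ hβi
    (fun a ha => hβp a ha.1 ha.2) (h69vPull hdq x) (degen hdq w) hk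
    (fun a ha hβa => hg a ha.1 ha.2 hβa) (l : ℕ) l.2 hl c hc' hnE
  -- (I-2)
  have hOld' : ∃ e : MvPolynomial Nat.Primes ℤ, (∀ ℓ ∈ e.vars, ¬ (ℓ : ℕ) ∣ M * p) ∧
      H99wKillsCusp M e ∧ (letI := heckeModuleBar (M * p); e • x = x) := by
    obtain ⟨e, he, h1, h2⟩ := hOld
    exact ⟨e, fun ℓ hℓ => h99w_not_dvd_of_good (he ℓ hℓ), h1, h2⟩
  have hres := hD hp h5 M hpM A hA x w hw hOld' hs
  -- the gate
  have hcyc : H11Cyc p 1 a e := by
    intro ζ hζ
    rw [pow_one] at hζ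
    exact hae ζ hζ
  have hw' : IsKummerPair (p ^ 1) x w := by
    rw [pow_one]
    exact hw
  have hres' : H76wResPow A (goodLevel p M * p) (p ^ 1) (degen hdq w) := by
    rw [pow_one]
    exact hres
  exact h76w_toric_of_resPow_good hp hp2 M hpM A hA a ha 1 e hcyc x w hw' hα hβx hres'

/-- **S44 from the class-level (I-1) and (I-2).** -/
theorem h16t_s44_of_C (hS : ∀ p : ℕ, 5 ≤ p → H16tSlopeZeroC p)
    (hD : ∀ p : ℕ, 5 ≤ p → H16tDlog p)
    (P : FreyPackage) {N : ℕ} (hcond : P.IsConductorLevel N) (hpN : P.p ∣ N)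
    (hirr : GaloisRepIsIrreducible (K := AlgebraicClosure ℚ) ℚ P.freyCurve P.p)
    (hmod : P.ModularRepOfLevel N) :
    ∃ M : ℕ, M ∣ N ∧ ¬ P.p ∣ M ∧ P.ModularRepOfLevel M :=
  h99w_s44_final (fun p h5 => h16t_toricGoodAt_C h5 (hS p h5) (hD p h5)) h34n_localFrey
    P hcond hpN hirr hmod

end Fermat.Agent.P7
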