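import Fermat.Agent.P7.H17Glue0
import Fermat.Agent.S13.FreyInt

/-!
# Wave 7 (row 38, target S44), leaf GLUE-2 for the Frey curve (helper17, prefix `h17f_`)

For S44 the curve `W` is an integral model of the Frey curve of a Frey package `P`.

* `h17f_c4` : `c₄` of the Frey curve is `a^{2p} + a^p b^p + b^{2p}`, an odd integer
  (`h17f_c4_odd`);
* `h17f_two_dvd_disc` : `2 ∣ Δ(W)` for **every** integral model `W` of the Frey curve
  (`c₄(W)³ (abc)^{2p} = 2⁸ c₄(E)³ Δ(W)` in `ℤ`, and `2¹⁰ ∣ (abc)^{2p}`);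
* `h17f_not_dvd_goodLevel` : a prime `ℓ ≠ 2`, `ℓ ∤ M p` does not divide `goodLevel p M * p`
  (`p` odd);
* `h17f_glue2_of_bad` : **GLUE-2 when `2` is bad for `W`**: if `W` is not residually modular of
  level `M` at `p`, some Hecke polynomial `e` in the variables `T_ℓ`, `ℓ` good for `W`,
  `ℓ ∤ goodLevel p M * p`, kills `S₂(Γ₀(M))` and `p ∤ e(a_ℓ(W))`;
* `h17f_glue2_frey` : GLUE-2 for every integral model of the Frey curve (no Galois step).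
-/

set_option autoImplicit false
set_option linter.style.haveILetI false
set_option linter.unusedSectionVars false

open AlgebraicCurve ModularCurve

noncomputable section

namespace Fermat.Agent.P7

open Fermat.Agent.S37 (goodLevel auxLevel)

/-- the integer `c₄` of the Frey curve. -/
def h17fC4 (P : FreyPackage) : ℤ :=
  (P.a ^ P.p) ^ 2 + P.a ^ P.p * P.b ^ P.p + (P.b ^ P.p) ^ 2

/-- `c₄` of the Frey curve. -/
theorem h17f_c4 (P : FreyPackage) : P.freyCurve.c₄ = ((h17fC4 P : ℤ) : ℚ) := by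
  simp only [WeierstrassCurve.c₄, WeierstrassCurve.b₂, WeierstrassCurve.b₄,
    FreyPackage.freyCurve, h17fC4]
  push_cast
  ring

/-- `c₄` of the Frey curve is odd. -/
theorem h17f_c4_odd (P : FreyPackage) : ¬ (2 : ℤ) ∣ h17fC4 P := by
  have hb : (2 : ℤ) ∣ P.b := Fermat.Agent.S13.frey_two_dvd_b P
  have ha : ¬ (2 : ℤ) ∣ P.a := by
    have h := Fermat.Agent.S13.frey_a_mod_four P
    omega
  have hbp : (2 : ℤ) ∣ P.b ^ P.p := dvd_pow hb P.hp0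
  have hap : ¬ (2 : ℤ) ∣ (P.a ^ P.p) ^ 2 := by
    intro h
    exact ha (Int.prime_two.dvd_of_dvd_pow (Int.prime_two.dvd_of_dvd_pow h))
  intro h
  apply hap
  have h1 : (2 : ℤ) ∣ P.a ^ P.p * P.b ^ P.p + (P.b ^ P.p) ^ 2 :=
    dvd_add (dvd_mul_of_dvd_right hbp _) (dvd_pow hbp (by norm_num))
  have h2 : (P.a ^ P.p) ^ 2 = h17fC4 P - (P.a ^ P.p * P.b ^ P.p + (P.b ^ P.p) ^ 2) := by
    rw [h17fC4]; ring
  rw [h2]
  exact dvd_sub h h1

/-- **`2` is bad for every integral model of the Frey curve.** -/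
theorem h17f_two_dvd_disc (P : FreyPackage) (W : WeierstrassCurve ℤ)
    (hW : W.IsIntegralModelOf P.freyCurve) : (2 : ℤ) ∣ W.Δ := by
  obtain ⟨C, hC⟩ := hW
  have hc4 : ((W.c₄ : ℤ) : ℚ) = ((C.u⁻¹ : ℚˣ) : ℚ) ^ 4 * P.freyCurve.c₄ := by
    rw [← WeierstrassCurve.variableChange_c₄, hC, WeierstrassCurve.map_c₄]
    rfl
  have hΔ : ((W.Δ : ℤ) : ℚ) = ((C.u⁻¹ : ℚˣ) : ℚ) ^ 12 * P.freyCurve.Δ := by
    rw [← WeierstrassCurve.variableChange_Δ, hC, WeierstrassCurve.map_Δ]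
    rfl
  have key : ((W.c₄ : ℤ) : ℚ) ^ 3 * ((2 : ℚ) ^ 8 * P.freyCurve.Δ) =
      (2 : ℚ) ^ 8 * P.freyCurve.c₄ ^ 3 * ((W.Δ : ℤ) : ℚ) := by
    rw [hc4, hΔ]
    ring
  rw [Fermat.Agent.S13.freyCurve_Δ, h17f_c4] at key
  have keyZ : W.c₄ ^ 3 * (((P.a * P.b * P.c) ^ P.p) ^ 2) = 2 ^ 8 * h17fC4 P ^ 3 * W.Δ := by
    exact_mod_cast key
  -- `2 ^ 10` divides the left hand side
  have hb : (2 : ℤ) ∣ P.b := Fermat.Agent.S13.frey_two_dvd_b P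
  have h2abc : (2 : ℤ) ∣ P.a * P.b * P.c :=
    dvd_mul_of_dvd_left (dvd_mul_of_dvd_right hb _) _
  have h5 : (2 : ℤ) ^ 5 ∣ (P.a * P.b * P.c) ^ P.p :=
    (pow_dvd_pow 2 P.hp5).trans (pow_dvd_pow_of_dvd h2abc P.p)
  have h10 : (2 : ℤ) ^ 10 ∣ ((P.a * P.b * P.c) ^ P.p) ^ 2 := by
    have := pow_dvd_pow_of_dvd h5 2
    rwa [← pow_mul] at this
  have h10' : (2 : ℤ) ^ 8 * 2 ^ 2 ∣ 2 ^ 8 * (h17fC4 P ^ 3 * W.Δ) := by
    have e : (2 : ℤ) ^ 8 * 2 ^ 2 = 2 ^ 10 := by norm_num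
    rw [e, ← mul_assoc, ← keyZ]
    exact dvd_mul_of_dvd_right h10 _
  have h4 : (2 : ℤ) ^ 2 ∣ h17fC4 P ^ 3 * W.Δ :=
    (mul_dvd_mul_iff_left (by norm_num : (2 : ℤ) ^ 8 ≠ 0)).mp h10'
  have h2 : (2 : ℤ) ∣ h17fC4 P ^ 3 * W.Δ := (dvd_pow_self 2 (by norm_num)).trans h4
  rcases Int.prime_two.dvd_or_dvd h2 with h | h
  · exact absurd (Int.prime_two.dvd_of_dvd_pow h) (h17f_c4_odd P)
  · exact h

/-- `2` is not a good prime for an integral model of the Frey curve. -/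
theorem h17f_not_good_two (P : FreyPackage) (W : WeierstrassCurve ℤ)
    (hW : W.IsIntegralModelOf P.freyCurve) : ¬ W.IsGoodPrimeFor 2 := by
  intro h
  exact h (by exact_mod_cast h17f_two_dvd_disc P W hW)

/-- a prime `ℓ ≠ 2` with `ℓ ∤ M p` does not divide `goodLevel p M * p` (`p ≠ 2`). -/
theorem h17f_not_dvd_goodLevel {p : ℕ} (hp2 : p ≠ 2) (M : ℕ) {ℓ : ℕ} (hℓ : ℓ.Prime)
    (hℓ2 : ℓ ≠ 2) (hℓM : ¬ ℓ ∣ M * p) : ¬ ℓ ∣ goodLevel p M * p := by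
  intro h
  rcases (Nat.Prime.dvd_mul hℓ).mp h with h1 | h1
  · have h2 : goodLevel p M ∣ M * 4 := by
      rw [goodLevel, auxLevel, if_neg hp2]
      exact Nat.lcm_dvd_mul M 4
    rcases (Nat.Prime.dvd_mul hℓ).mp (h1.trans h2) with h3 | h3
    · exact hℓM (dvd_mul_of_dvd_left h3 p)
    · have h4 : ℓ ∣ 2 ^ 2 := by norm_num; exact h3
      exact hℓ2 ((Nat.prime_dvd_prime_iff_eq hℓ Nat.prime_two).mp (hℓ.dvd_of_dvd_pow h4))
  · exact hℓM (dvd_mul_of_dvd_right h1 M)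

/-- **GLUE-2 when `2` is bad for `W`.**  If `W` is not residually modular of level `M` at the odd
prime `p`, there is a Hecke polynomial `e` in the variables `T_ℓ`, `ℓ` good for `W` and prime to
`goodLevel p M * p`, which kills the cusp forms of weight 2 and level `M` and whose value at the
system `a_ℓ(W)` is prime to `p`. -/
theorem h17f_glue2_of_bad (W : WeierstrassCurve ℤ) (hΔ : W.Δ ≠ 0) {p : ℕ} (hp : p.Prime)
    (hp2 : p ≠ 2) (M : ℕ) [NeZero M] (hpM : ¬ p ∣ M) (h2 : (2 : ℤ) ∣ W.Δ)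
    (hnot : ¬ W.IsResiduallyModularOfLevel p M) :
    ∃ e : MvPolynomial Nat.Primes ℤ,
      (∀ ℓ ∈ e.vars, ¬ (ℓ : ℕ) ∣ goodLevel p M * p) ∧
      (∀ ℓ ∈ e.vars, W.IsGoodPrimeFor (ℓ : ℕ)) ∧
      H99wKillsCusp M e ∧
      ¬ (p : ℤ) ∣ MvPolynomial.eval (fun ℓ : Nat.Primes => W.apOfModel (ℓ : ℕ)) e := by
  obtain ⟨e, hsupp, hkill, hev⟩ := h17g_glue0 W hΔ p hp M hpM hnot
  have hvars : ∀ ℓ ∈ e.vars, W.IsGoodPrimeFor (ℓ : ℕ) ∧ ¬ (ℓ : ℕ) ∣ M * p := fun ℓ hℓ =>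
    (MvPolynomial.mem_supported.mp hsupp) (Finset.mem_coe.mpr hℓ)
  refine ⟨e, fun ℓ hℓ => ?_, fun ℓ hℓ => (hvars ℓ hℓ).1, hkill, hev⟩
  obtain ⟨hgood, hℓM⟩ := hvars ℓ hℓ
  refine h17f_not_dvd_goodLevel hp2 M ℓ.2 ?_ hℓM
  intro h
  apply hgood
  rw [h]
  exact_mod_cast h2

/-- **GLUE-2 for the integral models of the Frey curve.** -/
theorem h17f_glue2_frey (P : FreyPackage) (W : WeierstrassCurve ℤ)
    (hW : W.IsIntegralModelOf P.freyCurve) (M : ℕ) [NeZero M] (hpM : ¬ P.p ∣ M)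
    (hnot : ¬ W.IsResiduallyModularOfLevel P.p M) :
    ∃ e : MvPolynomial Nat.Primes ℤ,
      (∀ ℓ ∈ e.vars, ¬ (ℓ : ℕ) ∣ goodLevel P.p M * P.p) ∧
      (∀ ℓ ∈ e.vars, W.IsGoodPrimeFor (ℓ : ℕ)) ∧
      H99wKillsCusp M e ∧
      ¬ (P.p : ℤ) ∣ MvPolynomial.eval (fun ℓ : Nat.Primes => W.apOfModel (ℓ : ℕ)) e := by
  have hΔ : W.Δ ≠ 0 := by
    obtain ⟨C, hC⟩ := hW
    intro h
    have h1 : (W.map (Int.castRingHom ℚ)).Δ = 0 := by
      rw [WeierstrassCurve.map_Δ, h, _root_.map_zero]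
    rw [← hC, WeierstrassCurve.variableChange_Δ] at h1
    rcases mul_eq_zero.1 h1 with h2 | h2
    · exact absurd h2 (pow_ne_zero _ (Units.ne_zero _))
    · exact Fermat.Agent.S13.freyCurve_Δ_ne_zero P h2
  exact h17f_glue2_of_bad W hΔ P.pp (by have := P.hp5; omega) M hpM
    (h17f_two_dvd_disc P W hW) hnot

end Fermat.Agent.P7
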