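import Fermat.Agent.S35.HK.FinalC
import Fermat.Agent.S35.HK.NewAsm
import Fermat.Agent.S35.H45Eig
import Fermat.Agent.S49.EigenChar
import Fermat.Prelude.Def_FLTPrelim_ModularRep

/-!
# Wave 7 (row 38, target S40), block (0) GLUE-DOWN (helper17, prefix `h17g_`)

`W` an integral Weierstrass curve with `Δ ≠ 0`, `p` a prime, `N > 0` a level.

* `h17gS W p N` : the finite set of the excluded primes: `p`, the primes dividing `N` and the
  primes of bad reduction of `W`;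
* `h17gIdeal W p N` : the ideal `𝔫 = (p, T_ℓ - a_ℓ(W) : ℓ ∉ S)` of `ℤ[T_ℓ]`;
* `h17g_modular_of_ne_top` : if `𝔫` generates a proper ideal of the Hecke algebra of
  `S₂(Γ₀(N))` away from `S`, then `W` is residually modular of level `N` at `p`
  (Deligne--Serre lifting + every character of the Hecke algebra is an eigenform);
* `h17g_glueDown` : **GLUE-DOWN.**  If `W` is NOT residually modular of level `N` at `p`, there
  are `t > 0` and a Hecke polynomial `P ∈ 1 + 𝔫` in the variables outside `S` such that `t P`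
  kills `J₀(N)[p ^ k]` for every `k` (converse key lemma `ConvKey`);
* `h17g_kills_part` : consequently `t` kills every point of `J₀(N)[p ^ k]` on which every
  element of `𝔫` is nilpotent (the part of the eigensystem `a_ℓ(W)` modulo `p`).
-/

set_option autoImplicit false
set_option linter.style.haveILetI false
set_option linter.unusedSectionVars false

open AlgebraicCurve ModularCurve

noncomputable section

namespace Fermat.Agent.P7

open Fermat.Agent.S30 (heckeTAll)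
open Fermat.Agent.S31 (TI_evS TI_tS TI_Sc TI_Kills TI_evS_X TI_coe_evS)
open Fermat.Agent.S35 (hkCut hkCut_mem_supported hk_evS_cut hk_evS_surjective ConvKey convKey
  h45e_eigenOfChar_core)

/-! ## The excluded primes and the ideal of the eigensystem -/

/-- the excluded primes: `p`, the primes dividing `N`, the bad primes of `W`. -/
def h17gS (W : WeierstrassCurve ℤ) (p N : ℕ) : Finset ℕ :=
  insert p (N.primeFactors ∪ W.Δ.natAbs.primeFactors)

theorem h17g_not_mem_S_iff (W : WeierstrassCurve ℤ) (hΔ : W.Δ ≠ 0) {p N : ℕ} (hN : N ≠ 0)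
    {ℓ : ℕ} (hℓ : ℓ.Prime) :
    ℓ ∉ h17gS W p N ↔ ℓ ≠ p ∧ ¬ ℓ ∣ N ∧ W.IsGoodPrimeFor ℓ := by
  have h1 : ℓ ∈ N.primeFactors ↔ ℓ ∣ N := by
    rw [Nat.mem_primeFactors]
    exact ⟨fun h => h.2.1, fun h => ⟨hℓ, h, hN⟩⟩
  have h2 : ℓ ∈ W.Δ.natAbs.primeFactors ↔ (ℓ : ℤ) ∣ W.Δ := by
    rw [Nat.mem_primeFactors, Int.natCast_dvd]
    exact ⟨fun h => h.2.1, fun h => ⟨hℓ, h, Int.natAbs_ne_zero.mpr hΔ⟩⟩
  rw [h17gS, Finset.mem_insert, Finset.mem_union, h1, h2, WeierstrassCurve.IsGoodPrimeFor]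
  tauto

theorem h17g_p_mem_S (W : WeierstrassCurve ℤ) (p N : ℕ) : p ∈ h17gS W p N :=
  Finset.mem_insert_self _ _

theorem h17g_mem_S_of_dvd (W : WeierstrassCurve ℤ) (p : ℕ) {N : ℕ} (hN : N ≠ 0) :
    ∀ r : ℕ, r.Prime → r ∣ N → r ∈ h17gS W p N := fun _ hr hrN =>
  Finset.mem_insert_of_mem (Finset.mem_union_left _ (Nat.mem_primeFactors.mpr ⟨hr, hrN, hN⟩))

/-- the generators of the ideal of the eigensystem. -/
def h17gGen (W : WeierstrassCurve ℤ) (p N : ℕ) : Set (MvPolynomial Nat.Primes ℤ) :=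
  {MvPolynomial.C (p : ℤ)} ∪
    {Q | ∃ ℓ : Nat.Primes, (ℓ : ℕ) ∉ h17gS W p N ∧
      Q = MvPolynomial.X ℓ - MvPolynomial.C (W.apOfModel ℓ)}

/-- the ideal `𝔫 = (p, T_ℓ - a_ℓ(W) : ℓ ∉ S)` of `ℤ[T_ℓ]`. -/
def h17gIdeal (W : WeierstrassCurve ℤ) (p N : ℕ) : Ideal (MvPolynomial Nat.Primes ℤ) :=
  Ideal.span (h17gGen W p N)

theorem h17g_C_mem (W : WeierstrassCurve ℤ) (p N : ℕ) :
    MvPolynomial.C (p : ℤ) ∈ h17gIdeal W p N :=
  Ideal.subset_span (Or.inl rfl)

theorem h17g_X_sub_mem (W : WeierstrassCurve ℤ) (p N : ℕ) (ℓ : Nat.Primes)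
    (hℓ : (ℓ : ℕ) ∉ h17gS W p N) :
    MvPolynomial.X ℓ - MvPolynomial.C (W.apOfModel ℓ) ∈ h17gIdeal W p N :=
  Ideal.subset_span (Or.inr ⟨ℓ, hℓ, rfl⟩)

/-- cutting off the variables in `S` preserves the ideal of the eigensystem. -/
theorem h17g_cut_mem (W : WeierstrassCurve ℤ) (p N : ℕ) {Q : MvPolynomial Nat.Primes ℤ}
    (hQ : Q ∈ h17gIdeal W p N) : hkCut (h17gS W p N) Q ∈ h17gIdeal W p N := by
  classical
  have hle : h17gIdeal W p N ≤
      (h17gIdeal W p N).comap (hkCut (h17gS W p N)).toRingHom := by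
    rw [h17gIdeal, Ideal.span_le]
    rintro Q (hQ | ⟨ℓ, hℓ, rfl⟩)
    · rw [Set.mem_singleton_iff] at hQ
      rw [hQ, SetLike.mem_coe, Ideal.mem_comap]
      show hkCut (h17gS W p N) (MvPolynomial.C (p : ℤ)) ∈ _
      rw [hkCut, MvPolynomial.aeval_C]
      exact h17g_C_mem W p N
    · rw [SetLike.mem_coe, Ideal.mem_comap]
      show hkCut (h17gS W p N) (MvPolynomial.X ℓ - MvPolynomial.C (W.apOfModel ℓ)) ∈ _
      rw [map_sub, hkCut, MvPolynomial.aeval_X, MvPolynomial.aeval_C, if_neg hℓ]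
      exact h17g_X_sub_mem W p N ℓ hℓ
  exact Ideal.mem_comap.mp (hle hQ)

/-! ## From a proper ideal of the Hecke algebra to an eigenform -/

/-- **Deligne--Serre.**  If the ideal of the eigensystem of `W` modulo `p` generates a proper
ideal of the Hecke algebra of level `N` away from `S`, then `W` is residually modular of level
`N` at `p`. -/
theorem h17g_modular_of_ne_top (W : WeierstrassCurve ℤ) (hΔ : W.Δ ≠ 0) (p N : ℕ) [NeZero N]
    (h : (h17gIdeal W p N).map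
      ((TI_evS N (h17gS W p N) : MvPolynomial Nat.Primes ℤ →ₐ[ℤ]
        CuspForm.heckeAlgebra N 2 (↑(h17gS W p N) : Set ℕ)) : MvPolynomial Nat.Primes ℤ →+*
        CuspForm.heckeAlgebra N 2 (↑(h17gS W p N) : Set ℕ)) ≠ ⊤) :
    W.IsResiduallyModularOfLevel p N := by
  classical
  set S : Finset ℕ := h17gS W p N with hS
  haveI : Module.Finite ℤ (CuspForm.heckeAlgebra N 2 (↑S : Set ℕ)) :=
    Fermat.Agent.S22.result N 2 (↑S : Set ℕ)
  haveI : FiniteDimensional ℂ (CuspForm (CongruenceSubgroup.Gamma0 N) 2) :=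
    Fermat.Agent.S49.finiteDimensional_cuspForm N 2
  set ev : MvPolynomial Nat.Primes ℤ →+* CuspForm.heckeAlgebra N 2 (↑S : Set ℕ) :=
    ((TI_evS N S : MvPolynomial Nat.Primes ℤ →ₐ[ℤ] CuspForm.heckeAlgebra N 2 (↑S : Set ℕ)) :
      MvPolynomial Nat.Primes ℤ →+* CuspForm.heckeAlgebra N 2 (↑S : Set ℕ)) with hev
  obtain ⟨𝔪₀, hmax₀, hle₀⟩ := Ideal.exists_le_maximal _ h
  haveI := hmax₀
  haveI : 𝔪₀.IsPrime := hmax₀.isPrime
  -- the tautological representation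
  let ρ : CuspForm.heckeAlgebra N 2 (↑S : Set ℕ) →+*
      Module.End ℂ (CuspForm (CongruenceSubgroup.Gamma0 N) 2) :=
    (CuspForm.heckeAlgebra N 2 (↑S : Set ℕ)).val.toRingHom
  have hρ : Function.Injective ρ := Subtype.val_injective
  obtain ⟨v, χ, -, -, hker⟩ := Fermat.Agent.S49.exists_eigenchar_ker_le ρ hρ 𝔪₀
  obtain ⟨χ', 𝔪', hχ', hmax', hmem⟩ := Fermat.Agent.S49.exists_integral_lift χ 𝔪₀ hker
  obtain ⟨g, hg, hgcoeff⟩ := h45e_eigenOfChar_core N (↑S : Set ℕ) χ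
  have hmem' : ∀ Q ∈ h17gIdeal W p N, χ' (ev Q) ∈ 𝔪' := fun Q hQ =>
    hmem _ (hle₀ (Ideal.mem_map_of_mem ev hQ))
  refine ⟨g, 𝔪', hg, hmax', ?_, ?_⟩
  · -- `p ∈ 𝔪'`
    have h1 := hmem' _ (h17g_C_mem W p N)
    have e1 : χ' (ev (MvPolynomial.C (p : ℤ))) = (p : integralClosure ℤ ℂ) := by
      rw [eq_intCast (MvPolynomial.C : ℤ →+* MvPolynomial Nat.Primes ℤ), map_intCast,
        map_intCast, Int.cast_natCast]
    rwa [e1] at h1
  · -- the congruences
    intro ℓ hℓ hgood hℓN hℓp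
    have hℓS : ℓ ∉ S := (h17g_not_mem_S_iff W hΔ (NeZero.ne N) hℓ).mpr ⟨hℓp, hℓN, hgood⟩
    have hℓS' : ℓ ∉ (↑S : Set ℕ) := fun h => hℓS (Finset.mem_coe.mp h)
    refine ⟨χ' (CuspForm.heckeAlgebra.T hℓ hℓN hℓS'), ?_, ?_⟩
    · rw [hχ', hgcoeff ℓ hℓ hℓN hℓS']
    · obtain ⟨ℓ', hℓ'⟩ : ∃ ℓ' : Nat.Primes, (ℓ' : ℕ) = ℓ := ⟨⟨ℓ, hℓ⟩, rfl⟩
      subst hℓ'
      have h1 := hmem' _ (h17g_X_sub_mem W p N ℓ' hℓS)
      have e1 : ev (MvPolynomial.X ℓ' - MvPolynomial.C (W.apOfModel (ℓ' : ℕ))) =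
          CuspForm.heckeAlgebra.T hℓ hℓN hℓS' -
            ((W.apOfModel (ℓ' : ℕ) : ℤ) : CuspForm.heckeAlgebra N 2 (↑S : Set ℕ)) := by
        rw [map_sub, eq_intCast (MvPolynomial.C : ℤ →+* MvPolynomial Nat.Primes ℤ),
          map_intCast]
        congr 1
        exact TI_evS_X N S ℓ' hℓN hℓS'
      rw [e1, map_sub, map_intCast] at h1
      exact h1

/-! ## GLUE-DOWN -/

/-- **GLUE-DOWN.**  If `W` is not residually modular of level `N` at `p`, there are `t > 0` and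
a Hecke polynomial `P ∈ 1 + 𝔫` in the variables outside `S` such that `t P` kills
`J₀(N)[p ^ k]` for every `k`. -/
theorem h17g_glueDown (W : WeierstrassCurve ℤ) (hΔ : W.Δ ≠ 0) {p : ℕ} (hp : p.Prime) (N : ℕ)
    [NeZero N] (hnot : ¬ W.IsResiduallyModularOfLevel p N) :
    ∃ (t : ℕ) (P : MvPolynomial Nat.Primes ℤ), 0 < t ∧
      P ∈ MvPolynomial.supported ℤ (TI_Sc (h17gS W p N)) ∧ P - 1 ∈ h17gIdeal W p N ∧
      ∀ k : ℕ, TI_Kills N (p ^ k) (MvPolynomial.C (t : ℤ) * P) := by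
  classical
  set S : Finset ℕ := h17gS W p N with hS
  have hSN : ∀ r : ℕ, r.Prime → r ∣ N → r ∈ S := h17g_mem_S_of_dvd W p (NeZero.ne N)
  set ev : MvPolynomial Nat.Primes ℤ →+* CuspForm.heckeAlgebra N 2 (↑S : Set ℕ) :=
    ((TI_evS N S : MvPolynomial Nat.Primes ℤ →ₐ[ℤ] CuspForm.heckeAlgebra N 2 (↑S : Set ℕ)) :
      MvPolynomial Nat.Primes ℤ →+* CuspForm.heckeAlgebra N 2 (↑S : Set ℕ)) with hev
  have hsurj : Function.Surjective ev := hk_evS_surjective N S hSN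
  -- the ideal is the unit ideal
  have htop : (h17gIdeal W p N).map ev = ⊤ := by
    by_contra h
    exact hnot (h17g_modular_of_ne_top W hΔ p N h)
  have h1 : (1 : CuspForm.heckeAlgebra N 2 (↑S : Set ℕ)) ∈ (h17gIdeal W p N).map ev := by
    rw [htop]
    exact Submodule.mem_top
  obtain ⟨Q, hQ, hQ1⟩ := (Ideal.mem_map_iff_of_surjective ev hsurj).mp h1
  -- the polynomial
  set P : MvPolynomial Nat.Primes ℤ := 1 - hkCut S Q with hP
  have hPsupp : P ∈ MvPolynomial.supported ℤ (TI_Sc S) :=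
    Subalgebra.sub_mem _ (Subalgebra.one_mem _) (hkCut_mem_supported S Q)
  have hPmem : P - 1 ∈ h17gIdeal W p N := by
    have e : P - 1 = -(hkCut S Q) := by rw [hP]; ring
    rw [e]
    exact (h17gIdeal W p N).neg_mem (h17g_cut_mem W p N hQ)
  have hPev : TI_evS N S P = 0 := by
    rw [hP, map_sub, map_one, hk_evS_cut]
    have : TI_evS N S Q = 1 := hQ1
    rw [this, sub_self]
  have hPzero : ((MvPolynomial.aeval (R := ℤ) (heckeTAll N) P :
      CuspForm.heckeAlgebra N 2 (∅ : Set ℕ)) :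
        Module.End ℂ (CuspForm (CongruenceSubgroup.Gamma0 N) 2)) = 0 := by
    rw [← TI_coe_evS hSN hPsupp, hPev]
    rfl
  obtain ⟨t, ht, hkey⟩ := convKey N
  refine ⟨t, P, ht, hPsupp, hPmem, fun k => ?_⟩
  refine hkey (p ^ k) P (pow_pos hp.pos k) ?_ hPzero
  intro ℓ hℓ hdvd
  have hℓS : (ℓ : ℕ) ∉ S := (MvPolynomial.mem_supported.mp hPsupp) (Finset.mem_coe.mpr hℓ)
  rcases (Nat.Prime.dvd_mul ℓ.2).mp hdvd with h | h
  · exact hℓS (hSN ℓ ℓ.2 h)
  · have h3 := ℓ.2.dvd_of_dvd_pow h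
    have h4 : (ℓ : ℕ) = p := (Nat.prime_dvd_prime_iff_eq ℓ.2 hp).mp h3
    exact hℓS (h4 ▸ h17g_p_mem_S W p N)

/-! ## The part of the eigensystem -/

/-- the part of `J₀(N)[p ^ k]` of the eigensystem of `W` modulo `p`: the points killed by
`p ^ k` on which every element of `𝔫` is nilpotent. -/
def h17gPart (W : WeierstrassCurve ℤ) (p N k : ℕ) [NeZero N] : Set (JZero N) :=
  letI := heckeModuleBar N
  {x | p ^ k • x = 0 ∧ ∀ Q ∈ h17gIdeal W p N, ∃ r : ℕ, (Q ^ r) • x = 0}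

/-- if `Q` is nilpotent at `x` and `t (1 - Q)` kills `x`, then `t` kills `x`. -/
theorem h17g_kills_of {R : Type*} [CommRing R] {J : Type*} [AddCommGroup J] [Module R J]
    (c Q : R) (x : J) (r : ℕ) (hQ : (Q ^ r) • x = 0) (hP : (c * (1 - Q)) • x = 0) :
    c • x = 0 := by
  have h1 : (∑ i ∈ Finset.range r, Q ^ i) * (1 - Q) = 1 - Q ^ r := geom_sum_mul_neg Q r
  have h2 : (1 - Q ^ r) • x = x := by rw [sub_smul, one_smul, hQ, sub_zero]
  calc c • x = c • ((1 - Q ^ r) • x) := by rw [h2]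
    _ = ((∑ i ∈ Finset.range r, Q ^ i) * (c * (1 - Q))) • x := by
        rw [← h1, ← mul_smul]
        congr 1
        ring
    _ = 0 := by rw [mul_smul, hP, smul_zero]

/-- **GLUE-DOWN, on the part of the eigensystem.**  If `W` is not residually modular of level
`N` at `p`, the part of `J₀(N)[p ^ ∞]` of the eigensystem of `W` modulo `p` is killed by a
fixed positive integer. -/
theorem h17g_kills_part (W : WeierstrassCurve ℤ) (hΔ : W.Δ ≠ 0) {p : ℕ} (hp : p.Prime) (N : ℕ)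
    [NeZero N] (hnot : ¬ W.IsResiduallyModularOfLevel p N) :
    ∃ t : ℕ, 0 < t ∧ ∀ (k : ℕ) (x : JZero N), x ∈ h17gPart W p N k → t • x = 0 := by
  obtain ⟨t, P, ht, -, hPmem, hkill⟩ := h17g_glueDown W hΔ hp N hnot
  refine ⟨t, ht, fun k x hx => ?_⟩
  letI := heckeModuleBar N
  obtain ⟨hxk, hxn⟩ := hx
  have hQ : 1 - P ∈ h17gIdeal W p N := by
    have e : 1 - P = -(P - 1) := by ring
    rw [e]
    exact (h17gIdeal W p N).neg_mem hPmem
  obtain ⟨r, hr⟩ := hxn (1 - P) hQ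
  have hP : ((MvPolynomial.C (t : ℤ) : MvPolynomial Nat.Primes ℤ) * (1 - (1 - P))) • x = 0 := by
    rw [sub_sub_cancel]
    exact hkill k x hxk
  have h := h17g_kills_of (MvPolynomial.C (t : ℤ) : MvPolynomial Nat.Primes ℤ) (1 - P) x r hr hP
  rw [heckeModuleBar_C_smul, natCast_zsmul] at h
  exact h

/-- **GLUE-DOWN, positive form.**  If the part of `J₀(N)[p ^ ∞]` of the eigensystem of `W`
modulo `p` has unbounded exponent, then `W` is residually modular of level `N` at `p`. -/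
theorem h17g_modular_of_unbounded (W : WeierstrassCurve ℤ) (hΔ : W.Δ ≠ 0) {p : ℕ}
    (hp : p.Prime) (N : ℕ) [NeZero N]
    (h : ∀ t : ℕ, 0 < t → ∃ (k : ℕ) (x : JZero N), x ∈ h17gPart W p N k ∧ t • x ≠ 0) :
    W.IsResiduallyModularOfLevel p N := by
  by_contra hnot
  obtain ⟨t, ht, hkill⟩ := h17g_kills_part W hΔ hp N hnot
  obtain ⟨k, x, hx, hne⟩ := h t ht
  exact hne (hkill k x hx)

/-- an eigenvector in `J₀(N)[p]` lies in the part of the eigensystem. -/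
theorem h17g_mem_part_of_eigen (W : WeierstrassCurve ℤ) (p N : ℕ) [NeZero N]
    (hc : HeckeOperatorsCommuteBar N) (x : JZero N) (hpx : p • x = 0)
    (hx : ∀ ℓ : Nat.Primes, (ℓ : ℕ) ∉ h17gS W p N →
      heckeOperatorBar N ℓ x = W.apOfModel (ℓ : ℕ) • x) :
    x ∈ h17gPart W p N 1 := by
  letI := heckeModuleBar N
  refine ⟨by rw [pow_one]; exact hpx, fun Q hQ => ⟨1, ?_⟩⟩
  rw [pow_one]
  -- the elements of `𝔫` kill `x`
  have hle : h17gIdeal W p N ≤
      (Submodule.span (MvPolynomial Nat.Primes ℤ) ({x} : Set (JZero N))).annihilator := by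
    rw [h17gIdeal, Ideal.span_le]
    rintro Q (hQ | ⟨ℓ, hℓ, rfl⟩)
    · rw [Set.mem_singleton_iff] at hQ
      rw [hQ, SetLike.mem_coe, Submodule.mem_annihilator_span_singleton,
        heckeModuleBar_C_smul, natCast_zsmul]
      exact hpx
    · rw [SetLike.mem_coe, Submodule.mem_annihilator_span_singleton, sub_smul,
        heckeModuleBar_C_smul]
      have e : (MvPolynomial.X ℓ : MvPolynomial Nat.Primes ℤ) • x = heckeOperatorBar N ℓ x :=
        heckeModuleBar_heckeGen_smul hc ℓ x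
      rw [e, hx ℓ hℓ, sub_self]
  exact (Submodule.mem_annihilator_span_singleton _ _).mp (hle hQ)

end Fermat.Agent.P7
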