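import Fermat.Agent.P7.H17GlueDown
import Fermat.Agent.S35.HK.H41PushCommAll
import Fermat.Agent.Red.HKComm.Main

/-!
# Wave 7 (S40), block (1) (helper17): the degeneracy maps and the part of the eigensystem

`W` an integral Weierstrass curve, `p` a prime, `M` a level with `p ∤ M` (only `M ≠ 0` is used).

* `h17n_S_mul`, `h17n_ideal_mul` : the excluded primes and the ideal `𝔫` of the eigensystem are
  the same at the levels `M * p` and `M`.
* `h17n_mem_part_iff` : membership in the part `h17gPart W p N k` can be tested on the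
  generators `T_ℓ - a_ℓ(W)`, `ℓ ∉ S`, of `𝔫`.
* `h17n_part_zsmul`, `h17n_part_add`, `h17n_part_gal`, `h17n_part_mono` : stability properties
  of the part.
* `h17n_pushAlpha_part`, `h17n_pushBeta_part` : the push-forwards `α_*`, `β_*` map the part at
  level `M * p` into the part at level `M`.
* `h17n_new` : if `W` is not residually modular of level `M` at `p`, there is `t > 0` such that
  `α_* (t x) = β_* (t x) = 0` for all `x` in the part at level `M * p` (any depth `k`):
  the `t`-multiples of the part are `p`-new.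
-/

set_option autoImplicit false
set_option linter.style.haveILetI false
set_option linter.unusedSectionVars false

open AlgebraicCurve ModularCurve

noncomputable section

namespace Fermat.Agent.P7

open Fermat.Agent.S35 (pushAlpha pushBeta)

/-! ## The levels `M * p` and `M` have the same ideal -/

theorem h17n_S_mul (W : WeierstrassCurve ℤ) {p : ℕ} (hp : p.Prime) {M : ℕ} (hM : M ≠ 0) :
    h17gS W p (M * p) = h17gS W p M := by
  unfold h17gS
  rw [Nat.primeFactors_mul hM hp.ne_zero, hp.primeFactors]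
  ext ℓ
  simp only [Finset.mem_insert, Finset.mem_union, Finset.mem_singleton]
  tauto

theorem h17n_ideal_mul (W : WeierstrassCurve ℤ) {p : ℕ} (hp : p.Prime) {M : ℕ} (hM : M ≠ 0) :
    h17gIdeal W p (M * p) = h17gIdeal W p M := by
  unfold h17gIdeal h17gGen
  rw [h17n_S_mul W hp hM]

/-! ## The part of the eigensystem, on generators -/

section Part

variable (W : WeierstrassCurve ℤ) (p N : ℕ) [NeZero N]

/-- the elements of the Hecke polynomial ring which are nilpotent at `x`. -/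
def h17nNil (x : JZero N) : Ideal (MvPolynomial Nat.Primes ℤ) :=
  letI := heckeModuleBar N
  (Ideal.torsionOf (MvPolynomial Nat.Primes ℤ) (JZero N) x).radical

theorem h17n_mem_nil {x : JZero N} {Q : MvPolynomial Nat.Primes ℤ} :
    Q ∈ h17nNil N x ↔ ∃ r : ℕ, (letI := heckeModuleBar N; (Q ^ r) • x = 0) := by
  letI := heckeModuleBar N
  unfold h17nNil
  constructor
  · rintro ⟨r, hr⟩
    exact ⟨r, (Ideal.mem_torsionOf_iff _ _).mp hr⟩
  · rintro ⟨r, hr⟩
    exact ⟨r, (Ideal.mem_torsionOf_iff _ _).mpr hr⟩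

theorem h17n_smul_zero (Q : MvPolynomial Nat.Primes ℤ) :
    (letI := heckeModuleBar N; Q • (0 : JZero N)) = 0 := by
  letI := heckeModuleBar N
  exact smul_zero Q

theorem h17n_natCast_smul (n : ℕ) (x : JZero N) :
    (letI := heckeModuleBar N; (MvPolynomial.C (n : ℤ) : MvPolynomial Nat.Primes ℤ) • x) =
      n • x := by
  rw [heckeModuleBar_C_smul, natCast_zsmul]

/-- the action of the Hecke polynomials commutes with the multiplication by integers. -/
theorem h17n_smul_zsmul (Q : MvPolynomial Nat.Primes ℤ) (a : ℤ) (x : JZero N) :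
    (letI := heckeModuleBar N; Q • (a • x)) = a • (letI := heckeModuleBar N; Q • x) := by
  letI := heckeModuleBar N
  rw [← heckeModuleBar_C_smul a x, ← heckeModuleBar_C_smul a (Q • x), ← mul_smul, ← mul_smul,
    mul_comm]

theorem h17n_smul_nsmul (Q : MvPolynomial Nat.Primes ℤ) (a : ℕ) (x : JZero N) :
    (letI := heckeModuleBar N; Q • (a • x)) = a • (letI := heckeModuleBar N; Q • x) := by
  rw [← natCast_zsmul, h17n_smul_zsmul, natCast_zsmul]

theorem h17n_mem_part_iff (k : ℕ) (x : JZero N) :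
    x ∈ h17gPart W p N k ↔ p ^ k • x = 0 ∧ h17gIdeal W p N ≤ h17nNil N x := by
  constructor
  · rintro ⟨h1, h2⟩
    exact ⟨h1, fun Q hQ => (h17n_mem_nil N).mpr (h2 Q hQ)⟩
  · rintro ⟨h1, h2⟩
    exact ⟨h1, fun Q hQ => (h17n_mem_nil N).mp (h2 hQ)⟩

/-- membership in the part can be tested on the generators of `𝔫`. -/
theorem h17n_mem_part_of_gen (k : ℕ) (x : JZero N) (hx : p ^ k • x = 0)
    (hgen : ∀ ℓ : Nat.Primes, (ℓ : ℕ) ∉ h17gS W p N → ∃ r : ℕ,
      (letI := heckeModuleBar N;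
        ((MvPolynomial.X ℓ - MvPolynomial.C (W.apOfModel ℓ) : MvPolynomial Nat.Primes ℤ) ^ r)
          • x = 0)) :
    x ∈ h17gPart W p N k := by
  letI := heckeModuleBar N
  rw [h17n_mem_part_iff]
  refine ⟨hx, ?_⟩
  rw [h17gIdeal, Ideal.span_le]
  rintro Q (hQ | ⟨ℓ, hℓ, rfl⟩)
  · rw [Set.mem_singleton_iff] at hQ
    rw [hQ, SetLike.mem_coe, h17n_mem_nil]
    refine ⟨k, ?_⟩
    rw [← map_pow]
    have e : ((p : ℤ) ^ k) = ((p ^ k : ℕ) : ℤ) := by push_cast; rfl
    rw [e, h17n_natCast_smul]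
    exact hx
  · rw [SetLike.mem_coe, h17n_mem_nil]
    exact hgen ℓ hℓ

theorem h17n_part_zero (k : ℕ) : (0 : JZero N) ∈ h17gPart W p N k := by
  letI := heckeModuleBar N
  exact ⟨smul_zero _, fun Q _ => ⟨0, smul_zero _⟩⟩

theorem h17n_nil_le_zsmul (a : ℤ) (x : JZero N) : h17nNil N x ≤ h17nNil N (a • x) := by
  intro Q hQ
  obtain ⟨r, hr⟩ := (h17n_mem_nil N).mp hQ
  refine (h17n_mem_nil N).mpr ⟨r, ?_⟩
  rw [h17n_smul_zsmul, hr]
  exact smul_zero a

theorem h17n_nil_le_smul (P : MvPolynomial Nat.Primes ℤ) (x : JZero N) :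
    h17nNil N x ≤ h17nNil N (letI := heckeModuleBar N; P • x) := by
  letI := heckeModuleBar N
  intro Q hQ
  obtain ⟨r, hr⟩ := (h17n_mem_nil N).mp hQ
  refine (h17n_mem_nil N).mpr ⟨r, ?_⟩
  rw [← mul_smul, mul_comm, mul_smul, hr]
  exact h17n_smul_zero N _

theorem h17n_nil_inf_le_add (x y : JZero N) :
    h17nNil N x ⊓ h17nNil N y ≤ h17nNil N (x + y) := by
  letI := heckeModuleBar N
  rintro Q ⟨hQx, hQy⟩
  obtain ⟨r, hr⟩ := (h17n_mem_nil N).mp hQx
  obtain ⟨s, hs⟩ := (h17n_mem_nil N).mp hQy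
  refine (h17n_mem_nil N).mpr ⟨r + s, ?_⟩
  have h1 : (Q ^ (r + s)) • x = 0 := by
    rw [pow_add, mul_comm, mul_smul, hr]
    exact h17n_smul_zero N _
  have h2 : (Q ^ (r + s)) • y = 0 := by
    rw [pow_add, mul_smul, hs]
    exact h17n_smul_zero N _
  have h3 : (Q ^ (r + s)) • (x + y) = (Q ^ (r + s)) • x + (Q ^ (r + s)) • y := smul_add _ _ _
  rw [h3, h1, h2, add_zero]

/-- the part is stable under the multiplication by integers. -/
theorem h17n_part_zsmul {k : ℕ} {x : JZero N} (hx : x ∈ h17gPart W p N k) (a : ℤ) :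
    a • x ∈ h17gPart W p N k := by
  rw [h17n_mem_part_iff] at hx ⊢
  refine ⟨?_, hx.2.trans (h17n_nil_le_zsmul N a x)⟩
  rw [← natCast_zsmul, smul_comm, natCast_zsmul, hx.1, smul_zero]

theorem h17n_part_nsmul {k : ℕ} {x : JZero N} (hx : x ∈ h17gPart W p N k) (a : ℕ) :
    a • x ∈ h17gPart W p N k := by
  rw [← natCast_zsmul]
  exact h17n_part_zsmul W p N hx a

/-- the part is stable under the Hecke polynomials. -/
theorem h17n_part_smul {k : ℕ} {x : JZero N} (hx : x ∈ h17gPart W p N k)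
    (P : MvPolynomial Nat.Primes ℤ) :
    (letI := heckeModuleBar N; P • x) ∈ h17gPart W p N k := by
  letI := heckeModuleBar N
  rw [h17n_mem_part_iff] at hx ⊢
  refine ⟨?_, hx.2.trans (h17n_nil_le_smul N P x)⟩
  rw [← h17n_smul_nsmul, hx.1]
  exact h17n_smul_zero N _

/-- the part is stable under addition. -/
theorem h17n_part_add {k : ℕ} {x y : JZero N} (hx : x ∈ h17gPart W p N k)
    (hy : y ∈ h17gPart W p N k) : x + y ∈ h17gPart W p N k := by
  rw [h17n_mem_part_iff] at hx hy ⊢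
  refine ⟨?_, (le_inf hx.2 hy.2).trans (h17n_nil_inf_le_add N x y)⟩
  rw [nsmul_add, hx.1, hy.1, add_zero]

/-- the part grows with the depth. -/
theorem h17n_part_mono {k k' : ℕ} (hk : k ≤ k') {x : JZero N} (hx : x ∈ h17gPart W p N k) :
    x ∈ h17gPart W p N k' := by
  rw [h17n_mem_part_iff] at hx ⊢
  refine ⟨?_, hx.2⟩
  obtain ⟨c, rfl⟩ := Nat.exists_eq_add_of_le hk
  rw [pow_add, mul_comm, mul_smul, hx.1, smul_zero]

/-- multiplication by `p` lowers the depth. -/
theorem h17n_part_p_smul {k : ℕ} {x : JZero N} (hx : x ∈ h17gPart W p N (k + 1)) :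
    p • x ∈ h17gPart W p N k := by
  have h := h17n_part_nsmul W p N hx p
  rw [h17n_mem_part_iff] at hx h ⊢
  refine ⟨?_, h.2⟩
  rw [← mul_smul, ← pow_succ]
  exact hx.1

end Part

/-! ## The push-forwards preserve the part -/

section Push

variable (W : WeierstrassCurve ℤ) {p : ℕ} (hp : p.Prime) (M : ℕ) [NeZero M] [NeZero p]

include hp

/-- an additive map `J₀(M p) → J₀(M)` commuting with the `T_ℓ`, `ℓ ∉ S`, maps the part at level
`M * p` into the part at level `M`. -/
theorem h17n_map_part (f : JZero (M * p) →+ JZero M)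
    (hf : ∀ ℓ : Nat.Primes, (ℓ : ℕ) ∉ h17gS W p M → ∀ x : JZero (M * p),
      f (heckeOperatorBar (M * p) ℓ x) = heckeOperatorBar M ℓ (f x))
    {k : ℕ} {x : JZero (M * p)} (hx : x ∈ h17gPart W p (M * p) k) :
    f x ∈ h17gPart W p M k := by
  letI i1 := heckeModuleBar (M * p)
  letI i2 := heckeModuleBar M
  have hc1 : HeckeOperatorsCommuteBar (M * p) :=
    Fermat.Agent.Red.HKComm.heckeOperatorsCommuteBar (M * p)
  have hc2 : HeckeOperatorsCommuteBar M := Fermat.Agent.Red.HKComm.heckeOperatorsCommuteBar M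
  have hM : M ≠ 0 := NeZero.ne M
  obtain ⟨hxk, hxn⟩ := hx
  refine h17n_mem_part_of_gen W p M k (f x) ?_ ?_
  · rw [← map_nsmul, hxk, map_zero]
  · intro ℓ hℓ
    set g : MvPolynomial Nat.Primes ℤ :=
      MvPolynomial.X ℓ - MvPolynomial.C (W.apOfModel ℓ) with hg
    have hℓ' : (ℓ : ℕ) ∉ h17gS W p (M * p) := by rw [h17n_S_mul W hp hM]; exact hℓ
    have hone : ∀ y : JZero (M * p), f (g • y) = g • f y := by
      intro y
      have e1 : g • y = heckeOperatorBar (M * p) ℓ y - (W.apOfModel ℓ) • y := by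
        rw [hg, sub_smul, heckeModuleBar_C_smul]
        congr 1
        exact heckeModuleBar_heckeGen_smul hc1 ℓ y
      have e2 : g • f y = heckeOperatorBar M ℓ (f y) - (W.apOfModel ℓ) • f y := by
        rw [hg, sub_smul, heckeModuleBar_C_smul]
        congr 1
        exact heckeModuleBar_heckeGen_smul hc2 ℓ (f y)
      rw [e1, e2, map_sub, map_zsmul, hf ℓ hℓ y]
    have hpow : ∀ (r : ℕ) (y : JZero (M * p)), f ((g ^ r) • y) = (g ^ r) • f y := by
      intro r
      induction r with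
      | zero => intro y; rw [pow_zero, one_smul, one_smul]
      | succ r ih => intro y; rw [pow_succ, mul_smul, mul_smul, ih, hone]
    obtain ⟨r, hr⟩ := hxn g (h17g_X_sub_mem W p (M * p) ℓ hℓ')
    exact ⟨r, by rw [← hpow, hr, map_zero]⟩

/-- `α_*` maps the part at level `M * p` into the part at level `M`. -/
theorem h17n_pushAlpha_part {k : ℕ} {x : JZero (M * p)} (hx : x ∈ h17gPart W p (M * p) k) :
    pushAlpha M p x ∈ h17gPart W p M k := by
  refine h17n_map_part W hp M (pushAlpha M p) (fun ℓ hℓ y => ?_) hx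
  have hℓ' : (ℓ : ℕ) ∉ h17gS W p (M * p) := by rw [h17n_S_mul W hp (NeZero.ne M)]; exact hℓ
  exact (Fermat.Agent.S35.h41g_pushHeckeComm M p hp ℓ
    (fun h => hℓ' (h17g_mem_S_of_dvd W p (NeZero.ne (M * p)) ℓ ℓ.2 h)) y).1

/-- `β_*` maps the part at level `M * p` into the part at level `M`. -/
theorem h17n_pushBeta_part {k : ℕ} {x : JZero (M * p)} (hx : x ∈ h17gPart W p (M * p) k) :
    pushBeta M p x ∈ h17gPart W p M k := by
  refine h17n_map_part W hp M (pushBeta M p) (fun ℓ hℓ y => ?_) hx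
  have hℓ' : (ℓ : ℕ) ∉ h17gS W p (M * p) := by rw [h17n_S_mul W hp (NeZero.ne M)]; exact hℓ
  exact (Fermat.Agent.S35.h41g_pushHeckeComm M p hp ℓ
    (fun h => hℓ' (h17g_mem_S_of_dvd W p (NeZero.ne (M * p)) ℓ ℓ.2 h)) y).2

/-- **Block (1), robust form.**  If `W` is not residually modular of level `M` at `p`, there is
`t > 0` such that the `t`-multiples of the part of the eigensystem at level `M * p` are `p`-new:
they are killed by `α_*` and by `β_*`. -/
theorem h17n_new (hΔ : W.Δ ≠ 0) (hnot : ¬ W.IsResiduallyModularOfLevel p M) :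
    ∃ t : ℕ, 0 < t ∧ ∀ (k : ℕ) (x : JZero (M * p)), x ∈ h17gPart W p (M * p) k →
      pushAlpha M p (t • x) = 0 ∧ pushBeta M p (t • x) = 0 := by
  obtain ⟨t, ht, hkill⟩ := h17g_kills_part W hΔ hp M hnot
  refine ⟨t, ht, fun k x hx => ⟨?_, ?_⟩⟩
  · rw [map_nsmul]
    exact hkill k _ (h17n_pushAlpha_part W hp M hx)
  · rw [map_nsmul]
    exact hkill k _ (h17n_pushBeta_part W hp M hx)

end Push

end Fermat.Agent.P7
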