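import Fermat.Agent.P7.H66S0Iface
import Fermat.Agent.P5.H26GenusFinal
import Fermat.Agent.P5.H26PushPole
import Fermat.Agent.P5.H40SFField
import Fermat.Agent.Red.HKComm.Deg
import Fermat.Agent.Red.GV.SoftGal
import Fermat.Agent.Red.GV.BarGalois

/-!
# Wave 7, DLOG at the non-good level, row H2-S0-A-DEGSF (helper18, twin; prefix `h18q_`)

`h18q_degSF : H66sDegSF` (frozen Prop of `P7/H66S0Iface.lean`, helper66): at a GOOD level `N`
there are `ψ(N)` Gauss-integral functions whose reductions are linearly independent over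
`k(j̄) ⊆ k((q))`.

* `h18q_finrank_sf` : `[kC(N) : k(j̄)] = ψ(N)` (the pole divisor of `j` reduces to the pole
  divisor of `j̄` (`h26s_push_pole`), the push-forward preserves the total mass, and the
  fundamental identities `H13rZeros` on both fibres; `[FF N : ℚ̄(j)] = ψ(N)`).
* `h18q_indep_incl` : linear independence over `k(j̄) ⊆ kC(N)` gives linear independence over
  `k(j̄) ⊆ k((q))` (transport along the inclusion).
-/

set_option autoImplicit false
set_option linter.unusedSectionVars false
set_option linter.style.haveILetI false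
set_option synthInstance.maxHeartbeats 400000
set_option maxHeartbeats 1600000

open AlgebraicCurve ModularCurve

noncomputable section

namespace Fermat.Agent.P7

open Fermat.Agent.S37 Fermat.Agent.Red.GV Fermat.Agent.Red.GV.Soft Fermat.Agent.P5

/-- the total mass of a divisor with nonnegative values `max 0 (- ord)` supported on the zero
set of `y`, `ord y⁻¹ = - ord y`. -/
theorem h18q_mass {K F : Type*} [Field K] [Field F] [Algebra K F]
    (D : Divisor K F) (x : F) (hD : ∀ v : Place K F, D v = max 0 (-(v.ord x)))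
    (s : Finset (Place K F)) (hs : ∀ v, v ∈ s ↔ 0 < v.ord x⁻¹) :
    D.sum (fun _ n => n) = ∑ v ∈ s, v.ord x⁻¹ := by
  classical
  have hsub : D.support ⊆ s := by
    intro v hv
    rw [Finsupp.mem_support_iff, hD v] at hv
    rw [hs v, Place.ord_inv]
    by_contra h
    apply hv
    exact max_eq_left (by omega)
  rw [Finsupp.sum_of_support_subset D hsub (fun _ n => n) (fun _ _ => rfl)]
  refine Finset.sum_congr rfl fun v hv => ?_
  have h1 := (hs v).1 hv
  rw [Place.ord_inv] at h1 ⊢
  rw [hD v]
  exact max_eq_right (by omega)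

/-- **`[kC(N) : k(j̄)] = ψ(N)` at a good level.** -/
theorem h18q_finrank_sf {p : ℕ} (hp : p.Prime) (N : ℕ) [NeZero N] (hN : ¬ p ∣ N)
    (haux : auxLevel p ∣ N) (A : ValuationSubring Kbar) (hA : A.LiesOverPrime p) :
    Module.finrank (IntermediateField.adjoin (h13sK A) {h26sJ A N}) (h13sFt A N)
      = dedekindPsi N := by
  classical
  obtain ⟨-, hZ, -⟩ := h26s_rest hp N hN haux A hA
  obtain ⟨s, hs, hsum⟩ := hZ (h26sJ A N)⁻¹ (Or.inr rfl)
  obtain ⟨s', hs', hsum'⟩ := h40r_zeros_FF N (jB N)⁻¹ (Or.inr rfl)
  obtain ⟨D, hD, -⟩ := h26s_exists_pole N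
  obtain ⟨r, hr⟩ := h88r_redDiv p hp N hN haux A hA
  have hpush := h26s_push_pole hp N hN A hA r hr D hD
  have hmassD : D.sum (fun _ n => n) = ∑ v ∈ s', v.ord (jB N)⁻¹ :=
    h18q_mass D (jB N) hD s' hs'
  have hmassP : (h13sPush r D).sum (fun _ n => n) = ∑ Q ∈ s, Q.ord (h26sJ A N)⁻¹ :=
    h18q_mass (h13sPush r D) (h26sJ A N) hpush s hs
  have hmass : (h13sPush r D).sum (fun _ n => n) = D.sum (fun _ n => n) := by
    unfold h13sPush
    exact Finsupp.sum_mapDomain_index (fun _ => rfl) (fun _ _ _ => rfl)
  have h1 : (Module.finrank (IntermediateField.adjoin (h13sK A) {h26sJ A N}) (h13sFt A N) : ℤ)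
      = (Module.finrank (IntermediateField.adjoin Kbar {jB N}) (FF N) : ℤ) := by
    rw [← hsum, ← hsum', ← hmassP, hmass, hmassD]
  have h2 : Module.finrank (IntermediateField.adjoin Kbar {jB N}) (FF N) = dedekindPsi N :=
    Fermat.Agent.Red.HKComm.hkdeg_finrank_jBar N
  rw [← h2]
  exact_mod_cast h1

/-- transport of linear independence along the inclusion of an intermediate field. -/
theorem h18q_indep_incl {k L : Type*} [Field k] [Field L] [Algebra k L]
    (E : IntermediateField k L) (x : E) {n : ℕ} (b : Fin n → E)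
    (hb : LinearIndependent (IntermediateField.adjoin k {x}) b) :
    LinearIndependent (IntermediateField.adjoin k {(x : L)}) (fun i => ((b i : E) : L)) := by
  classical
  rw [Fintype.linearIndependent_iff]
  intro g hg i
  have hmap : (IntermediateField.adjoin k {x}).map E.val
      = IntermediateField.adjoin k {(x : L)} := by
    rw [IntermediateField.adjoin_map, Set.image_singleton]
    rfl
  have hex : ∀ i, ∃ c : IntermediateField.adjoin k {x}, ((c : E) : L) = ((g i : _) : L) := by
    intro i
    have hmem : ((g i : _) : L) ∈ (IntermediateField.adjoin k {x}).map E.val := by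
      rw [hmap]
      exact (g i).2
    obtain ⟨c, hc, hcg⟩ := hmem
    exact ⟨⟨c, hc⟩, hcg⟩
  choose c hc using hex
  have hsum : ∑ i, c i • b i = 0 := by
    apply Subtype.ext
    have h1 : ((∑ i, c i • b i : E) : L) = (∑ i, g i • ((b i : E) : L) : L) := by
      rw [IntermediateField.coe_sum]
      refine Finset.sum_congr rfl fun i _ => ?_
      show (((c i : E) * b i : E) : L) = ((g i : _) : L) * ((b i : E) : L)
      rw [IntermediateField.coe_mul, hc i]
    rw [h1, hg]
    rfl
  have h0 := (Fintype.linearIndependent_iff.1 hb) c hsum i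
  apply Subtype.ext
  rw [← hc i, h0]
  rfl

/-- **(A) DEG-SF**, the exact frozen Prop of `P7/H66S0Iface.lean`. -/
theorem h18q_degSF : H66sDegSF := by
  intro p hp N _ hN haux A hA
  classical
  obtain ⟨-, -, hfin⟩ := h26s_rest hp N hN haux A hA
  haveI := hfin
  have hrank := h18q_finrank_sf hp N hN haux A hA
  let B := Module.finBasisOfFinrankEq (IntermediateField.adjoin (h13sK A) {h26sJ A N})
    (h13sFt A N) hrank
  have hB : LinearIndependent (IntermediateField.adjoin (h13sK A) {h26sJ A N}) (fun i => B i) :=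
    B.linearIndependent
  have hex : ∀ i, ∃ x : gaussV A N, h13sRed A N x = B i := fun i =>
    h40f_field p hp N hN haux A hA (B i)
  choose x hx using hex
  refine ⟨fun i => ⟨(x i : FF N), gaussV_le_softV A N (x i).2⟩, ?_⟩
  have hJ : h13sIncl A N (h26sJ A N) = jK (IsLocalRing.ResidueField A) := by
    show gaussR A N ⟨jB N, jB_mem_gaussV A N⟩ = _
    rw [gaussR_jB]
    rfl
  have hT := h18q_indep_incl (h13sF A N) (h26sJ A N) (fun i => B i) hB
  have hfun : (fun i => softR A N ⟨(x i : FF N), gaussV_le_softV A N (x i).2⟩)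
      = fun i => h13sIncl A N (B i) := by
    funext i
    rw [softR_eq_gaussR A N (x i : FF N) (gaussV_le_softV A N (x i).2) (x i).2, ← hx i]
    rfl
  rw [hfun]
  unfold h66sKj
  rw [← hJ]
  exact hT

end Fermat.Agent.P7
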