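import Mathlib

/-!
# W7 (S40), block (5b) T-CONST, leaf C4 H0: the ABSTRACT global `H⁰` argument (helper82)

Paper proof: finding 1353 (helper98), step (3).  Mathlib only.

Setting.  `A` a valuation ring (the constants), `F` a field over `A` (the function field),
`W₁`, `W₂` two subrings of `F` containing `A` (the two Gauss valuation rings `W_∞`, `W_0` of the
two components of the special fibre), `V = W₁ ⊓ W₂`, `𝔪 W = h82wM A W`.

Closed points of the special fibre: three families of subrings of `F` (the local rings)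
* `O₁ n ≤ W₁` (`n : P₁`, the closed points lying on the first component only),
* `O₂ n ≤ W₂` (`n : P₂`, the closed points lying on the second component only),
* `On e ≤ W₁ ⊓ W₂` (`e : E`, the nodes),
with
* **saturation**: `a f ∈ O`, `a ≠ 0` a constant, `f ∈ W` (resp. `V`) implies `f ∈ O`;
* **regular everywhere implies constant** on each component (`const₁`, `const₂`);
* **the branch values agree** at a node (`branch`).

Statement (`h82w_h0_core`).  `D₀ ∈ 𝔪` nonzero, `w ≡ 1` modulo `𝔪 V`, `Eu` a partition of unity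
(`Eu ∈ 𝔪 W₁`, `Eu - 1 ∈ 𝔪 W₂`), `ψ : E → A`, and
* (L1) at every `n : P_i` : `w ∈ O_i n · (1 + D₀ 𝔪 W_i)`,
* (L2) at every node `e` : `w ∈ On e · (1 + ψ_e D₀ Eu) (1 + D₀ 𝔪 V)`,
* the exact depth dichotomy `H82wDepth` for `w`.
Then `ψ_e ≡ ψ_e'` modulo `𝔪` for all nodes `e`, `e'`.

The exact depth dichotomy follows from discreteness (`h82w_depth`): `w` lies in a subring
`V₁ ≤ V` (the functions over a discretely valued field of constants) with a uniformiser `ϖ`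
(`V₁ ∩ 𝔪 V ⊆ ϖ V₁`), every residue class of `A` has a representative in `V₁`, and `A` has rank
one.  `h82w_h0` is the combination.

Every declaration is a definition or a proved theorem; nothing is assumed.
-/

set_option autoImplicit false
set_option linter.unusedSectionVars false
set_option linter.unusedVariables false

open IsLocalRing

namespace Fermat.Agent.P7

section H0

variable {A : Type*} [CommRing A] [IsDomain A] [ValuationRing A]
  {F : Type*} [Field F] [Algebra A F]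

/-- the set `𝔪_A · W`. -/
def h82wM (A : Type*) [CommRing A] [IsLocalRing A] {F : Type*} [Field F] [Algebra A F]
    (W : Subring F) : Set F :=
  {x | ∃ m ∈ maximalIdeal A, ∃ y ∈ W, x = algebraMap A F m * y}

theorem h82w_M_of {W : Subring F} {m : A} (hm : m ∈ maximalIdeal A) {y : F} (hy : y ∈ W) :
    algebraMap A F m * y ∈ h82wM A W :=
  ⟨m, hm, y, hy, rfl⟩

theorem h82w_M_zero (W : Subring F) : (0 : F) ∈ h82wM A W :=
  ⟨0, zero_mem _, 0, W.zero_mem, by simp⟩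

theorem h82w_M_mono {W W' : Subring F} (h : W ≤ W') {x : F} (hx : x ∈ h82wM A W) :
    x ∈ h82wM A W' := by
  obtain ⟨m, hm, y, hy, rfl⟩ := hx
  exact ⟨m, hm, y, h hy, rfl⟩

theorem h82w_M_mul {W : Subring F} {z x : F} (hz : z ∈ W) (hx : x ∈ h82wM A W) :
    z * x ∈ h82wM A W := by
  obtain ⟨m, hm, y, hy, rfl⟩ := hx
  exact ⟨m, hm, z * y, W.mul_mem hz hy, by ring⟩

theorem h82w_M_mul' {W : Subring F} {z x : F} (hz : z ∈ W) (hx : x ∈ h82wM A W) :
    x * z ∈ h82wM A W := by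
  rw [mul_comm]; exact h82w_M_mul hz hx

theorem h82w_M_neg {W : Subring F} {x : F} (hx : x ∈ h82wM A W) : -x ∈ h82wM A W := by
  obtain ⟨m, hm, y, hy, rfl⟩ := hx
  exact ⟨m, hm, -y, W.neg_mem hy, by ring⟩

theorem h82w_M_add {W : Subring F} (hA : ∀ a : A, algebraMap A F a ∈ W) {x y : F}
    (hx : x ∈ h82wM A W) (hy : y ∈ h82wM A W) : x + y ∈ h82wM A W := by
  obtain ⟨m, hm, x', hx', rfl⟩ := hx
  obtain ⟨n, hn, y', hy', rfl⟩ := hy
  rcases ValuationRing.dvd_total m n with ⟨c, rfl⟩ | ⟨c, rfl⟩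
  · exact ⟨m, hm, x' + algebraMap A F c * y', W.add_mem hx' (W.mul_mem (hA c) hy'), by
      rw [map_mul]; ring⟩
  · exact ⟨n, hn, algebraMap A F c * x' + y', W.add_mem (W.mul_mem (hA c) hx') hy', by
      rw [map_mul]; ring⟩

theorem h82w_M_sub {W : Subring F} (hA : ∀ a : A, algebraMap A F a ∈ W) {x y : F}
    (hx : x ∈ h82wM A W) (hy : y ∈ h82wM A W) : x - y ∈ h82wM A W := by
  rw [sub_eq_add_neg]; exact h82w_M_add hA hx (h82w_M_neg hy)

theorem h82w_M_const {W : Subring F} (hA : ∀ a : A, algebraMap A F a ∈ W) {m : A}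
    (hm : m ∈ maximalIdeal A) : algebraMap A F m ∈ h82wM A W :=
  ⟨m, hm, 1, W.one_mem, by ring⟩

theorem h82w_M_le {W : Subring F} (hA : ∀ a : A, algebraMap A F a ∈ W) {x : F}
    (hx : x ∈ h82wM A W) : x ∈ W := by
  obtain ⟨m, hm, y, hy, rfl⟩ := hx
  exact W.mul_mem (hA m) hy

/-- `𝔪 W₁ ∩ 𝔪 W₂ = 𝔪 (W₁ ⊓ W₂)`. -/
theorem h82w_M_inf {W₁ W₂ : Subring F} (hA₁ : ∀ a : A, algebraMap A F a ∈ W₁)
    (hA₂ : ∀ a : A, algebraMap A F a ∈ W₂) {x : F}
    (h₁ : x ∈ h82wM A W₁) (h₂ : x ∈ h82wM A W₂) : x ∈ h82wM A (W₁ ⊓ W₂) := by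
  obtain ⟨m, hm, y₁, hy₁, rfl⟩ := h₁
  obtain ⟨n, hn, y₂, hy₂, h⟩ := h₂
  by_cases hn0 : algebraMap A F n = 0
  · rw [hn0, zero_mul] at h
    rw [h]; exact h82w_M_zero _
  by_cases hm0 : algebraMap A F m = 0
  · rw [hm0, zero_mul]; exact h82w_M_zero _
  rcases ValuationRing.dvd_total m n with ⟨c, rfl⟩ | ⟨c, rfl⟩
  · -- `n = m c` : `y₁ = c y₂`
    have hy : y₁ = algebraMap A F c * y₂ := by
      apply mul_left_cancel₀ hm0
      rw [h, map_mul]; ring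
    refine ⟨m, hm, y₁, ⟨hy₁, ?_⟩, rfl⟩
    rw [hy]; exact W₂.mul_mem (hA₂ c) hy₂
  · -- `m = n c` : `y₂ = c y₁`
    have hy : y₂ = algebraMap A F c * y₁ := by
      apply mul_left_cancel₀ hn0
      rw [← h, map_mul]; ring
    refine ⟨n, hn, y₂, ⟨?_, hy₂⟩, h⟩
    rw [hy]; exact W₁.mul_mem (hA₁ c) hy₁

/-- a constant in `𝔪 W` lies in `𝔪`, if `𝔪 W` is a proper ideal. -/
theorem h82w_M_const_mem {W : Subring F} (hA : ∀ a : A, algebraMap A F a ∈ W)
    (hnt : ∀ m ∈ maximalIdeal A, ∀ y ∈ W, algebraMap A F m * y ≠ 1) {a : A}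
    (ha : algebraMap A F a ∈ h82wM A W) : a ∈ maximalIdeal A := by
  by_contra hna
  have hu : IsUnit a := by
    by_contra h
    exact hna ((IsLocalRing.mem_maximalIdeal a).mpr h)
  obtain ⟨u, rfl⟩ := hu
  obtain ⟨m, hm, y, hy, h⟩ := ha
  refine hnt m hm (algebraMap A F (↑u⁻¹ : A) * y) (W.mul_mem (hA _) hy) ?_
  have h1 : algebraMap A F (↑u⁻¹ : A) * algebraMap A F (u : A) = 1 := by
    rw [← map_mul, Units.inv_mul, map_one]
  calc algebraMap A F m * (algebraMap A F (↑u⁻¹ : A) * y)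
      = algebraMap A F (↑u⁻¹ : A) * (algebraMap A F m * y) := by ring
    _ = algebraMap A F (↑u⁻¹ : A) * algebraMap A F (u : A) := by rw [← h]
    _ = 1 := h1

/-- **the exact depth dichotomy** of `w` relative to the constants, at the depth `D₀`. -/
def H82wDepth (V : Subring F) (D₀ : A) (w : F) : Prop :=
  (∃ a₀ d₁ c : A, ∃ G ∈ V, c ∈ maximalIdeal A ∧ D₀ = d₁ * c ∧
      w = algebraMap A F a₀ + algebraMap A F d₁ * G ∧
      ¬ ∃ a : A, G - algebraMap A F a ∈ h82wM A V) ∨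
    ∃ a₀ : A, ∃ G ∈ V, w = algebraMap A F a₀ + algebraMap A F D₀ * G


/-- the local step of the `H⁰` argument: if `w = a₀ + d G = o (1 + d c T)` with `o ∈ O`
(a saturated local ring), then `G - c o T ∈ O`. -/
theorem h82w_local_step {W O : Subring F} (hO : O ≤ W)
    (hAO : ∀ a : A, algebraMap A F a ∈ O)
    (sat : ∀ a : A, a ≠ 0 → ∀ f ∈ W, algebraMap A F a * f ∈ O → f ∈ O)
    {d c a₀ : A} (hd : d ≠ 0) {w G o T : F} (hG : G ∈ W) (ho : o ∈ O) (hT : T ∈ W)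
    (hw : w = algebraMap A F a₀ + algebraMap A F d * G)
    (hw' : w = o * (1 + algebraMap A F (d * c) * T)) :
    G - algebraMap A F c * (o * T) ∈ O := by
  have hAW : ∀ a : A, algebraMap A F a ∈ W := fun a => hO (hAO a)
  refine sat d hd _ (W.sub_mem hG (W.mul_mem (hAW c) (W.mul_mem (hO ho) hT))) ?_
  have h : algebraMap A F d * (G - algebraMap A F c * (o * T)) = o - algebraMap A F a₀ := by
    have h1 : algebraMap A F a₀ + algebraMap A F d * G =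
        o * (1 + algebraMap A F (d * c) * T) := by rw [← hw, ← hw']
    rw [map_mul] at h1
    linear_combination h1
  rw [h]
  exact O.sub_mem ho (hAO a₀)

/-- **C4 H0, abstract core** (finding 1353, step (3)): the twists `ψ_e` at the nodes of a
function `w` with the local forms (L1), (L2) at the depth `D₀` are congruent modulo `𝔪`. -/
theorem h82w_h0_core
    (W₁ W₂ : Subring F)
    (hA₁ : ∀ a : A, algebraMap A F a ∈ W₁) (hA₂ : ∀ a : A, algebraMap A F a ∈ W₂)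
    {P₁ P₂ E : Type*} (O₁ : P₁ → Subring F) (O₂ : P₂ → Subring F) (On : E → Subring F)
    (hO₁ : ∀ n, O₁ n ≤ W₁) (hO₂ : ∀ n, O₂ n ≤ W₂) (hOn : ∀ e, On e ≤ W₁ ⊓ W₂)
    (hAO₁ : ∀ n (a : A), algebraMap A F a ∈ O₁ n)
    (hAO₂ : ∀ n (a : A), algebraMap A F a ∈ O₂ n)
    (hAOn : ∀ e (a : A), algebraMap A F a ∈ On e)
    (sat₁ : ∀ n, ∀ a : A, a ≠ 0 → ∀ f ∈ W₁, algebraMap A F a * f ∈ O₁ n → f ∈ O₁ n)
    (sat₂ : ∀ n, ∀ a : A, a ≠ 0 → ∀ f ∈ W₂, algebraMap A F a * f ∈ O₂ n → f ∈ O₂ n)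
    (satn : ∀ e, ∀ a : A, a ≠ 0 → ∀ f ∈ W₁ ⊓ W₂, algebraMap A F a * f ∈ On e → f ∈ On e)
    (const₁ : ∀ f ∈ W₁, (∀ n, ∃ o ∈ O₁ n, f - o ∈ h82wM A W₁) →
      (∀ e, ∃ o ∈ On e, f - o ∈ h82wM A W₁) → ∃ a : A, f - algebraMap A F a ∈ h82wM A W₁)
    (const₂ : ∀ f ∈ W₂, (∀ n, ∃ o ∈ O₂ n, f - o ∈ h82wM A W₂) →
      (∀ e, ∃ o ∈ On e, f - o ∈ h82wM A W₂) → ∃ a : A, f - algebraMap A F a ∈ h82wM A W₂)
    (branch : ∀ e, ∀ o ∈ On e, ∀ a₁ a₂ : A, o - algebraMap A F a₁ ∈ h82wM A W₁ →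
      o - algebraMap A F a₂ ∈ h82wM A W₂ → a₁ - a₂ ∈ maximalIdeal A)
    (D₀ : A) (hD₀ : D₀ ≠ 0) (hD₀m : D₀ ∈ maximalIdeal A)
    (w : F) (hw : w - 1 ∈ h82wM A (W₁ ⊓ W₂))
    (Eu : F) (hEu₁ : Eu ∈ h82wM A W₁) (hEu₂ : Eu - 1 ∈ h82wM A W₂)
    (ψ : E → A)
    (hL1₁ : ∀ n : P₁, ∃ o ∈ O₁ n, ∃ z ∈ h82wM A W₁, w = o * (1 + algebraMap A F D₀ * z))
    (hL1₂ : ∀ n : P₂, ∃ o ∈ O₂ n, ∃ z ∈ h82wM A W₂, w = o * (1 + algebraMap A F D₀ * z))
    (hL2 : ∀ e : E, ∃ o ∈ On e, ∃ z ∈ h82wM A (W₁ ⊓ W₂),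
      w = o * (1 + algebraMap A F (ψ e) * algebraMap A F D₀ * Eu) *
        (1 + algebraMap A F D₀ * z))
    (hdepth : H82wDepth (W₁ ⊓ W₂) D₀ w) :
    ∀ e e' : E, ψ e - ψ e' ∈ maximalIdeal A := by
  classical
  set V : Subring F := W₁ ⊓ W₂ with hV
  have hV₁ : V ≤ W₁ := inf_le_left
  have hV₂ : V ≤ W₂ := inf_le_right
  have hAV : ∀ a : A, algebraMap A F a ∈ V := fun a => ⟨hA₁ a, hA₂ a⟩
  have hEuW₁ : Eu ∈ W₁ := h82w_M_le hA₁ hEu₁
  have hEuW₂ : Eu ∈ W₂ := by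
    have := W₂.add_mem (h82w_M_le hA₂ hEu₂) W₂.one_mem
    simpa using this
  have hEuV : Eu ∈ V := ⟨hEuW₁, hEuW₂⟩
  -- the node datum in the form `w = o (1 + D₀ T)`
  have hnode : ∀ e : E, ∃ o ∈ On e, ∃ T ∈ V, w = o * (1 + algebraMap A F D₀ * T) ∧
      T - algebraMap A F (ψ e) * Eu ∈ h82wM A V := by
    intro e
    obtain ⟨o, ho, z, hz, h⟩ := hL2 e
    have hzV : z ∈ V := h82w_M_le hAV hz
    refine ⟨o, ho, algebraMap A F (ψ e) * Eu + z +
      algebraMap A F (ψ e) * algebraMap A F D₀ * Eu * z, ?_, ?_, ?_⟩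
    · exact V.add_mem (V.add_mem (V.mul_mem (hAV _) hEuV) hzV)
        (V.mul_mem (V.mul_mem (V.mul_mem (hAV _) (hAV _)) hEuV) hzV)
    · rw [h]; ring
    · have h1 : algebraMap A F (ψ e) * Eu + z +
          algebraMap A F (ψ e) * algebraMap A F D₀ * Eu * z - algebraMap A F (ψ e) * Eu =
          (1 + algebraMap A F (ψ e) * algebraMap A F D₀ * Eu) * z := by ring
      rw [h1]
      exact h82w_M_mul (V.add_mem V.one_mem (V.mul_mem (V.mul_mem (hAV _) (hAV _)) hEuV)) hz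
  rcases hdepth with ⟨a₀, d₁, c, G, hG, hc, hD, hwG, hnot⟩ | ⟨a₀, G, hG, hwG⟩
  · -- case (i): contradiction
    intro e e'
    exfalso
    have hd₁ : d₁ ≠ 0 := by
      rintro rfl
      exact hD₀ (by rw [hD, zero_mul])
    -- regularity at the points of the first component
    have hreg₁ : ∀ n, ∃ o ∈ O₁ n, G - o ∈ h82wM A W₁ := by
      intro n
      obtain ⟨o, ho, z, hz, h⟩ := hL1₁ n
      have hzW : z ∈ W₁ := h82w_M_le hA₁ hz
      have hstep := h82w_local_step (hO₁ n) (hAO₁ n) (sat₁ n) hd₁ (hV₁ hG) ho hzW hwG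
        (by rw [← hD]; exact h)
      refine ⟨_, hstep, ?_⟩
      have h1 : G - (G - algebraMap A F c * (o * z)) = algebraMap A F c * (o * z) := by ring
      rw [h1]
      exact h82w_M_of hc (W₁.mul_mem (hO₁ n ho) hzW)
    have hreg₂ : ∀ n, ∃ o ∈ O₂ n, G - o ∈ h82wM A W₂ := by
      intro n
      obtain ⟨o, ho, z, hz, h⟩ := hL1₂ n
      have hzW : z ∈ W₂ := h82w_M_le hA₂ hz
      have hstep := h82w_local_step (hO₂ n) (hAO₂ n) (sat₂ n) hd₁ (hV₂ hG) ho hzW hwG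
        (by rw [← hD]; exact h)
      refine ⟨_, hstep, ?_⟩
      have h1 : G - (G - algebraMap A F c * (o * z)) = algebraMap A F c * (o * z) := by ring
      rw [h1]
      exact h82w_M_of hc (W₂.mul_mem (hO₂ n ho) hzW)
    have hregn : ∀ e, ∃ o ∈ On e, G - o ∈ h82wM A V := by
      intro e
      obtain ⟨o, ho, T, hT, h, -⟩ := hnode e
      have hstep := h82w_local_step (hOn e) (hAOn e) (satn e) hd₁ hG ho hT hwG
        (by rw [← hD]; exact h)
      refine ⟨_, hstep, ?_⟩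
      have h1 : G - (G - algebraMap A F c * (o * T)) = algebraMap A F c * (o * T) := by ring
      rw [h1]
      exact h82w_M_of hc (V.mul_mem (hOn e ho) hT)
    obtain ⟨f₁, hf₁⟩ := const₁ G (hV₁ hG) hreg₁ (fun e => by
      obtain ⟨o, ho, h⟩ := hregn e
      exact ⟨o, ho, h82w_M_mono hV₁ h⟩)
    obtain ⟨f₂, hf₂⟩ := const₂ G (hV₂ hG) hreg₂ (fun e => by
      obtain ⟨o, ho, h⟩ := hregn e
      exact ⟨o, ho, h82w_M_mono hV₂ h⟩)
    obtain ⟨o, ho, hGo⟩ := hregn e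
    have hb := branch e o ho f₁ f₂
      (by
        have h1 : o - algebraMap A F f₁ = (G - algebraMap A F f₁) - (G - o) := by ring
        rw [h1]
        exact h82w_M_sub hA₁ hf₁ (h82w_M_mono hV₁ hGo))
      (by
        have h1 : o - algebraMap A F f₂ = (G - algebraMap A F f₂) - (G - o) := by ring
        rw [h1]
        exact h82w_M_sub hA₂ hf₂ (h82w_M_mono hV₂ hGo))
    apply hnot
    refine ⟨f₁, h82w_M_inf hA₁ hA₂ hf₁ ?_⟩
    have h1 : G - algebraMap A F f₁ = (G - algebraMap A F f₂) - algebraMap A F (f₁ - f₂) := by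
      rw [map_sub]; ring
    rw [h1]
    exact h82w_M_sub hA₂ hf₂ (h82w_M_const hA₂ hb)
  · -- case (ii)
    have hreg₁ : ∀ n, ∃ o ∈ O₁ n, G - o ∈ h82wM A W₁ := by
      intro n
      obtain ⟨o, ho, z, hz, h⟩ := hL1₁ n
      have hzW : z ∈ W₁ := h82w_M_le hA₁ hz
      have hstep := h82w_local_step (c := 1) (hO₁ n) (hAO₁ n) (sat₁ n) hD₀ (hV₁ hG) ho hzW hwG
        (by rw [mul_one]; exact h)
      refine ⟨_, hstep, ?_⟩
      have h1 : G - (G - algebraMap A F 1 * (o * z)) = o * z := by rw [map_one]; ring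
      rw [h1]
      exact h82w_M_mul (hO₁ n ho) hz
    have hreg₂ : ∀ n, ∃ o ∈ O₂ n, G - o ∈ h82wM A W₂ := by
      intro n
      obtain ⟨o, ho, z, hz, h⟩ := hL1₂ n
      have hzW : z ∈ W₂ := h82w_M_le hA₂ hz
      have hstep := h82w_local_step (c := 1) (hO₂ n) (hAO₂ n) (sat₂ n) hD₀ (hV₂ hG) ho hzW hwG
        (by rw [mul_one]; exact h)
      refine ⟨_, hstep, ?_⟩
      have h1 : G - (G - algebraMap A F 1 * (o * z)) = o * z := by rw [map_one]; ring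
      rw [h1]
      exact h82w_M_mul (hO₂ n ho) hz
    -- at a node: `G = o' + ψ_e Eu` modulo `𝔪 V`
    have hregn : ∀ e, ∃ o' ∈ On e, G - o' ∈ h82wM A W₁ ∧
        G - o' - algebraMap A F (ψ e) ∈ h82wM A W₂ := by
      intro e
      obtain ⟨o, ho, T, hT, h, hTψ⟩ := hnode e
      have hoV : o ∈ V := hOn e ho
      have hstep := h82w_local_step (c := 1) (hOn e) (hAOn e) (satn e) hD₀ hG ho hT hwG
        (by rw [mul_one]; exact h)
      -- `o ≡ 1`
      have ho1 : o - 1 ∈ h82wM A V := by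
        have h1 : o - 1 = (w - 1) - algebraMap A F D₀ * (o * T) := by rw [h]; ring
        rw [h1]
        exact h82w_M_sub hAV hw (h82w_M_of hD₀m (V.mul_mem hoV hT))
      -- `o T ≡ ψ Eu`
      have hoT : o * T - algebraMap A F (ψ e) * Eu ∈ h82wM A V := by
        have h1 : o * T - algebraMap A F (ψ e) * Eu =
            o * (T - algebraMap A F (ψ e) * Eu) + (o - 1) * (algebraMap A F (ψ e) * Eu) := by
          ring
        rw [h1]
        exact h82w_M_add hAV (h82w_M_mul hoV hTψ)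
          (h82w_M_mul' (V.mul_mem (hAV _) hEuV) ho1)
      refine ⟨_, hstep, ?_, ?_⟩
      · have h1 : G - (G - algebraMap A F 1 * (o * T)) =
            (o * T - algebraMap A F (ψ e) * Eu) + algebraMap A F (ψ e) * Eu := by
          rw [map_one]; ring
        rw [h1]
        exact h82w_M_add hA₁ (h82w_M_mono hV₁ hoT) (h82w_M_mul (hA₁ _) hEu₁)
      · have h1 : G - (G - algebraMap A F 1 * (o * T)) - algebraMap A F (ψ e) =
            (o * T - algebraMap A F (ψ e) * Eu) + algebraMap A F (ψ e) * (Eu - 1) := by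
          rw [map_one]; ring
        rw [h1]
        exact h82w_M_add hA₂ (h82w_M_mono hV₂ hoT) (h82w_M_mul (hA₂ _) hEu₂)
    obtain ⟨f₁, hf₁⟩ := const₁ G (hV₁ hG) hreg₁ (fun e => by
      obtain ⟨o, ho, h, -⟩ := hregn e
      exact ⟨o, ho, h⟩)
    obtain ⟨f₂, hf₂⟩ := const₂ G (hV₂ hG) hreg₂ (fun e => by
      obtain ⟨o, ho, -, h⟩ := hregn e
      refine ⟨o + algebraMap A F (ψ e), (On e).add_mem ho (hAOn e _), ?_⟩
      have h1 : G - (o + algebraMap A F (ψ e)) = G - o - algebraMap A F (ψ e) := by ring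
      rw [h1]; exact h)
    -- the comparison at a node
    have key : ∀ e, f₁ - (f₂ - ψ e) ∈ maximalIdeal A := by
      intro e
      obtain ⟨o, ho, h₁, h₂⟩ := hregn e
      refine branch e o ho f₁ (f₂ - ψ e) ?_ ?_
      · have h1 : o - algebraMap A F f₁ = (G - algebraMap A F f₁) - (G - o) := by ring
        rw [h1]
        exact h82w_M_sub hA₁ hf₁ h₁
      · have h1 : o - algebraMap A F (f₂ - ψ e) =
            (G - algebraMap A F f₂) - (G - o - algebraMap A F (ψ e)) := by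
          rw [map_sub]; ring
        rw [h1]
        exact h82w_M_sub hA₂ hf₂ h₂
    intro e e'
    have h := (maximalIdeal A).sub_mem (key e) (key e')
    have h1 : f₁ - (f₂ - ψ e) - (f₁ - (f₂ - ψ e')) = ψ e - ψ e' := by ring
    rwa [h1] at h


/-- **exact depth from discreteness.**  `V₁ ≤ V` a subring containing `w` (the functions over a
discretely valued subfield of constants), `ϖ ∈ 𝔪` nonzero with `V₁ ∩ 𝔪 V ⊆ ϖ V₁` (a uniformiser),
every residue class of `A` is represented by a constant of `V₁`, and some power of `ϖ` is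
divisible by `D₀`.  Then `w` has an exact depth relative to the constants. -/
theorem h82w_depth (V V₁ : Subring F) (hV₁ : V₁ ≤ V)
    (hAV : ∀ a : A, algebraMap A F a ∈ V)
    (ϖ : A) (hϖ : ϖ ∈ maximalIdeal A) (hϖV : algebraMap A F ϖ ∈ V₁)
    (hunif : ∀ x ∈ V₁, x ∈ h82wM A V → ∃ y ∈ V₁, x = algebraMap A F ϖ * y)
    (hres : ∀ a : A, ∃ a₁ : A, algebraMap A F a₁ ∈ V₁ ∧ a - a₁ ∈ maximalIdeal A)
    (D₀ : A) (k : ℕ) (hk : D₀ ∣ ϖ ^ k)
    (w : F) (hw : w ∈ V₁) : H82wDepth V D₀ w := by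
  classical
  -- the induction on the depth
  have hind : ∀ n : ℕ, n ≤ k → H82wDepth V D₀ w ∨
      ∃ a₀ : A, algebraMap A F a₀ ∈ V₁ ∧ ∃ G ∈ V₁,
        w = algebraMap A F a₀ + algebraMap A F (ϖ ^ n) * G := by
    intro n
    induction n with
    | zero =>
      intro _
      exact Or.inr ⟨0, by rw [map_zero]; exact V₁.zero_mem, w, hw, by simp⟩
    | succ n ih =>
      intro hn
      rcases ih (Nat.le_of_succ_le hn) with h | ⟨a₀, ha₀, G, hG, hwG⟩
      · exact Or.inl h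
      · rcases ValuationRing.dvd_total D₀ (ϖ ^ n) with ⟨c', hc'⟩ | ⟨c, hc⟩
        · -- `D₀ ∣ ϖ ^ n` : case (ii)
          refine Or.inl (Or.inr ⟨a₀, algebraMap A F c' * G, V.mul_mem (hAV c') (hV₁ hG), ?_⟩)
          rw [hwG, hc', map_mul]; ring
        · -- `D₀ = ϖ ^ n c`
          by_cases hcm : c ∈ maximalIdeal A
          · by_cases hconst : ∃ a : A, G - algebraMap A F a ∈ h82wM A V
            · -- one more step
              obtain ⟨a, ha⟩ := hconst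
              obtain ⟨a₁, ha₁, haa₁⟩ := hres a
              have hmem : G - algebraMap A F a₁ ∈ h82wM A V := by
                have h1 : G - algebraMap A F a₁ =
                    (G - algebraMap A F a) + algebraMap A F (a - a₁) := by
                  rw [map_sub]; ring
                rw [h1]
                exact h82w_M_add hAV ha (h82w_M_const hAV haa₁)
              obtain ⟨y, hy, hGy⟩ := hunif _ (V₁.sub_mem hG ha₁) hmem
              refine Or.inr ⟨a₀ + ϖ ^ n * a₁, ?_, y, hy, ?_⟩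
              · rw [map_add, map_mul, map_pow]
                exact V₁.add_mem ha₀ (V₁.mul_mem (V₁.pow_mem hϖV n) ha₁)
              · have h2 : G = algebraMap A F a₁ + algebraMap A F ϖ * y := by
                  rw [← hGy]; ring
                rw [hwG, map_add, map_mul, map_pow, map_pow, pow_succ]
                rw [h2]; ring
            · -- case (i)
              exact Or.inl (Or.inl ⟨a₀, ϖ ^ n, c, G, hV₁ hG, hcm, hc, hwG, hconst⟩)
          · -- `c` is a unit: `D₀ ∣ ϖ ^ n`, case (ii)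
            have hu : IsUnit c := by
              by_contra h
              exact hcm ((IsLocalRing.mem_maximalIdeal c).mpr h)
            obtain ⟨u, rfl⟩ := hu
            refine Or.inl (Or.inr ⟨a₀, algebraMap A F (↑u⁻¹ : A) * G,
              V.mul_mem (hAV _) (hV₁ hG), ?_⟩)
            rw [hwG, hc, ← mul_assoc, ← map_mul, mul_assoc, Units.mul_inv, mul_one]
  rcases hind k le_rfl with h | ⟨a₀, ha₀, G, hG, hwG⟩
  · exact h
  · obtain ⟨c', hc'⟩ := hk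
    refine Or.inr ⟨a₀, algebraMap A F c' * G, V.mul_mem (hAV c') (hV₁ hG), ?_⟩
    rw [hwG, hc', map_mul]; ring

/-- **C4 H0, abstract form with discreteness** (finding 1353, step (3)). -/
theorem h82w_h0
    (W₁ W₂ : Subring F)
    (hA₁ : ∀ a : A, algebraMap A F a ∈ W₁) (hA₂ : ∀ a : A, algebraMap A F a ∈ W₂)
    {P₁ P₂ E : Type*} (O₁ : P₁ → Subring F) (O₂ : P₂ → Subring F) (On : E → Subring F)
    (hO₁ : ∀ n, O₁ n ≤ W₁) (hO₂ : ∀ n, O₂ n ≤ W₂) (hOn : ∀ e, On e ≤ W₁ ⊓ W₂)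
    (hAO₁ : ∀ n (a : A), algebraMap A F a ∈ O₁ n)
    (hAO₂ : ∀ n (a : A), algebraMap A F a ∈ O₂ n)
    (hAOn : ∀ e (a : A), algebraMap A F a ∈ On e)
    (sat₁ : ∀ n, ∀ a : A, a ≠ 0 → ∀ f ∈ W₁, algebraMap A F a * f ∈ O₁ n → f ∈ O₁ n)
    (sat₂ : ∀ n, ∀ a : A, a ≠ 0 → ∀ f ∈ W₂, algebraMap A F a * f ∈ O₂ n → f ∈ O₂ n)
    (satn : ∀ e, ∀ a : A, a ≠ 0 → ∀ f ∈ W₁ ⊓ W₂, algebraMap A F a * f ∈ On e → f ∈ On e)
    (const₁ : ∀ f ∈ W₁, (∀ n, ∃ o ∈ O₁ n, f - o ∈ h82wM A W₁) →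
      (∀ e, ∃ o ∈ On e, f - o ∈ h82wM A W₁) → ∃ a : A, f - algebraMap A F a ∈ h82wM A W₁)
    (const₂ : ∀ f ∈ W₂, (∀ n, ∃ o ∈ O₂ n, f - o ∈ h82wM A W₂) →
      (∀ e, ∃ o ∈ On e, f - o ∈ h82wM A W₂) → ∃ a : A, f - algebraMap A F a ∈ h82wM A W₂)
    (branch : ∀ e, ∀ o ∈ On e, ∀ a₁ a₂ : A, o - algebraMap A F a₁ ∈ h82wM A W₁ →
      o - algebraMap A F a₂ ∈ h82wM A W₂ → a₁ - a₂ ∈ maximalIdeal A)
    -- discreteness
    (V₁ : Subring F) (hV₁ : V₁ ≤ W₁ ⊓ W₂)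
    (ϖ : A) (hϖ : ϖ ∈ maximalIdeal A) (hϖV : algebraMap A F ϖ ∈ V₁)
    (hunif : ∀ x ∈ V₁, x ∈ h82wM A (W₁ ⊓ W₂) → ∃ y ∈ V₁, x = algebraMap A F ϖ * y)
    (hres : ∀ a : A, ∃ a₁ : A, algebraMap A F a₁ ∈ V₁ ∧ a - a₁ ∈ maximalIdeal A)
    (harch : ∀ a : A, a ≠ 0 → ∃ k : ℕ, a ∣ ϖ ^ k)
    -- the function
    (D₀ : A) (hD₀ : D₀ ≠ 0) (hD₀m : D₀ ∈ maximalIdeal A)
    (w : F) (hwV₁ : w ∈ V₁) (hw : w - 1 ∈ h82wM A (W₁ ⊓ W₂))
    (Eu : F) (hEu₁ : Eu ∈ h82wM A W₁) (hEu₂ : Eu - 1 ∈ h82wM A W₂)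
    (ψ : E → A)
    (hL1₁ : ∀ n : P₁, ∃ o ∈ O₁ n, ∃ z ∈ h82wM A W₁, w = o * (1 + algebraMap A F D₀ * z))
    (hL1₂ : ∀ n : P₂, ∃ o ∈ O₂ n, ∃ z ∈ h82wM A W₂, w = o * (1 + algebraMap A F D₀ * z))
    (hL2 : ∀ e : E, ∃ o ∈ On e, ∃ z ∈ h82wM A (W₁ ⊓ W₂),
      w = o * (1 + algebraMap A F (ψ e) * algebraMap A F D₀ * Eu) *
        (1 + algebraMap A F D₀ * z)) :
    ∀ e e' : E, ψ e - ψ e' ∈ maximalIdeal A := by
  obtain ⟨k, hk⟩ := harch D₀ hD₀
  exact h82w_h0_core W₁ W₂ hA₁ hA₂ O₁ O₂ On hO₁ hO₂ hOn hAO₁ hAO₂ hAOn sat₁ sat₂ satn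
    const₁ const₂ branch D₀ hD₀ hD₀m w hw Eu hEu₁ hEu₂ ψ hL1₁ hL1₂ hL2
    (h82w_depth (W₁ ⊓ W₂) V₁ hV₁ (fun a => ⟨hA₁ a, hA₂ a⟩) ϖ hϖ hϖV hunif hres D₀ k hk w hwV₁)

end H0

end Fermat.Agent.P7
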