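import Mathlib
import Fermat.Agent.P7.H82H0Abs

/-!
# W7 (S40), block (5b) T-CONST, leaf C4 (I4): the exact depth dichotomy WITHOUT discreteness
(helper18)

`H82wDepth V D₀ w` (helper82, `P7/H82H0Abs.lean`) is the exact-depth dichotomy consumed by the
abstract `H⁰` core `h82w_h0_core` (finding 1353, step (3)).  helper82 derives it from
discreteness (`h82w_depth`).  Here it is derived from the local datum of `w` at ONE closed point
of the special fibre carrying a section (remark R1 of finding 1372):

* `O` the local ring at the point, inside a ring `W ⊇ V` (`W = W_∞`, `W_0` or `V` itself for a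
  node), saturated in `W`;
* `val : F → A` the value at a point of the generic fibre specialising to the closed point
  (`A`-linear on `O`, the identity on the constants);
* scaling: every nonzero `f ∈ V` is `d G` with `d ∈ A` and `G ∈ V`, `G ∉ 𝔪 V`
  (the Gauss valuations take their values in the value group of `A`);
* the local form `w = o (1 + D₀ T)`, `o ∈ O`, `T ∈ W`.

Proof: put `a₀ = val o` and scale `w - a₀ = d₁ G`.  If `D₀ ∣ d₁` we are in the second case.
Otherwise `D₀ = d₁ c`, `c ∈ 𝔪`, and `Z = G - c o T ∈ O` by saturation, `val Z = 0`; if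
`G - a ∈ 𝔪 V` then `Z - a ∈ O ∩ 𝔪 W`, so `a ∈ 𝔪` and `G ∈ 𝔪 V`, a contradiction.

Mathlib only (+ the definitions of `P7/H82H0Abs.lean`).
-/

set_option autoImplicit false
set_option linter.unusedSectionVars false
set_option linter.unusedVariables false

open IsLocalRing

namespace Fermat.Agent.P7

section Depth

variable {A : Type*} [CommRing A] [IsDomain A] [ValuationRing A]
  {F : Type*} [Field F] [Algebra A F]

/-- the value of an element of `O ∩ 𝔪 W` lies in `𝔪`. -/
theorem h18w_val_mem {W O : Subring F}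
    (hAF : Function.Injective (algebraMap A F))
    (sat : ∀ a : A, a ≠ 0 → ∀ f ∈ W, algebraMap A F a * f ∈ O → f ∈ O)
    (val : F → A)
    (hval_smul : ∀ o ∈ O, ∀ d : A, val (algebraMap A F d * o) = d * val o)
    {x : F} (hxO : x ∈ O) (hxm : x ∈ h82wM A W) : val x ∈ maximalIdeal A := by
  obtain ⟨μ, hμ, y, hy, rfl⟩ := hxm
  by_cases hμ0 : μ = 0
  · subst hμ0
    have h := hval_smul 0 O.zero_mem 0
    rw [map_zero, zero_mul] at h ⊢
    rw [h, zero_mul]
    exact zero_mem _
  · have hyO : y ∈ O := sat μ hμ0 y hy hxO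
    rw [hval_smul y hyO μ]
    exact Ideal.mul_mem_right _ _ hμ

/-- **the exact depth dichotomy from one closed point with a section.** -/
theorem h18w_depth_of_point
    (hAF : Function.Injective (algebraMap A F))
    (V W O : Subring F) (hVW : V ≤ W) (hOW : O ≤ W)
    (hAV : ∀ a : A, algebraMap A F a ∈ V)
    (hAO : ∀ a : A, algebraMap A F a ∈ O)
    (sat : ∀ a : A, a ≠ 0 → ∀ f ∈ W, algebraMap A F a * f ∈ O → f ∈ O)
    (val : F → A)
    (hval_sub : ∀ o ∈ O, ∀ a : A, val (o - algebraMap A F a) = val o - a)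
    (hval_smul : ∀ o ∈ O, ∀ d : A, val (algebraMap A F d * o) = d * val o)
    (scale : ∀ f ∈ V, f ≠ 0 →
      ∃ d : A, ∃ G ∈ V, f = algebraMap A F d * G ∧ G ∉ h82wM A V)
    (D₀ : A) (w : F) (hwV : w ∈ V)
    (hloc : ∃ o ∈ O, ∃ T ∈ W, w = o * (1 + algebraMap A F D₀ * T)) :
    H82wDepth V D₀ w := by
  classical
  have hAW : ∀ a : A, algebraMap A F a ∈ W := fun a => hVW (hAV a)
  obtain ⟨o, ho, T, hT, hw⟩ := hloc
  set a₀ : A := val o with ha₀
  by_cases hΔ : w - algebraMap A F a₀ = 0
  · -- `w` is the constant `a₀`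
    right
    refine ⟨a₀, 0, V.zero_mem, ?_⟩
    rw [mul_zero, add_zero]
    exact sub_eq_zero.mp hΔ
  obtain ⟨d₁, G, hG, hΔG, hGm⟩ := scale _ (V.sub_mem hwV (hAV a₀)) hΔ
  have hwG : w = algebraMap A F a₀ + algebraMap A F d₁ * G := by
    rw [← hΔG]; ring
  have hd₁ : d₁ ≠ 0 := by
    rintro rfl
    apply hΔ
    rw [hΔG, map_zero, zero_mul]
  rcases ValuationRing.dvd_total d₁ D₀ with ⟨c, hc⟩ | ⟨c', hc'⟩
  · by_cases hcm : c ∈ maximalIdeal A
    · -- the first case
      left
      refine ⟨a₀, d₁, c, G, hG, hcm, hc, hwG, ?_⟩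
      rintro ⟨a, ha⟩
      have hw' : w = o * (1 + algebraMap A F (d₁ * c) * T) := by rw [← hc]; exact hw
      have hZ : G - algebraMap A F c * (o * T) ∈ O :=
        h82w_local_step hOW hAO sat hd₁ (hVW hG) ho hT hwG hw'
      set Z : F := G - algebraMap A F c * (o * T) with hZdef
      -- `d₁ Z = o - a₀`
      have hdZ : algebraMap A F d₁ * Z = o - algebraMap A F a₀ := by
        have h1 : algebraMap A F a₀ + algebraMap A F d₁ * G =
            o * (1 + algebraMap A F (d₁ * c) * T) := by rw [← hwG, ← hw']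
        rw [map_mul] at h1
        rw [hZdef]
        linear_combination h1
      have hvZ : val Z = 0 := by
        have h1 : d₁ * val Z = 0 := by
          rw [← hval_smul Z hZ d₁, hdZ, hval_sub o ho a₀, ha₀, sub_self]
        exact (mul_eq_zero.mp h1).resolve_left hd₁
      -- `Z - a ∈ O ∩ 𝔪 W`
      have hZa : Z - algebraMap A F a ∈ h82wM A W := by
        have h1 : Z - algebraMap A F a =
            (G - algebraMap A F a) - algebraMap A F c * (o * T) := by rw [hZdef]; ring
        rw [h1]
        exact h82w_M_sub hAW (h82w_M_mono hVW ha)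
          (h82w_M_of hcm (W.mul_mem (hOW ho) hT))
      have hZaO : Z - algebraMap A F a ∈ O := O.sub_mem hZ (hAO a)
      have hva := h18w_val_mem hAF sat val hval_smul hZaO hZa
      rw [hval_sub Z hZ a, hvZ, zero_sub] at hva
      have ham : a ∈ maximalIdeal A := by
        have := (maximalIdeal A).neg_mem hva
        rwa [neg_neg] at this
      apply hGm
      have h2 : G = (G - algebraMap A F a) + algebraMap A F a := by ring
      rw [h2]
      exact h82w_M_add hAV ha (h82w_M_const hAV ham)
    · -- `c` is a unit: `D₀ ∣ d₁`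
      have hu : IsUnit c := by
        by_contra h
        exact hcm ((IsLocalRing.mem_maximalIdeal c).mpr h)
      obtain ⟨u, rfl⟩ := hu
      right
      refine ⟨a₀, algebraMap A F (↑u⁻¹ : A) * G, V.mul_mem (hAV _) hG, ?_⟩
      rw [hwG, hc, ← mul_assoc, ← map_mul, mul_assoc, Units.mul_inv, mul_one]
  · right
    refine ⟨a₀, algebraMap A F c' * G, V.mul_mem (hAV _) hG, ?_⟩
    rw [hwG, hc', map_mul, mul_assoc]

end Depth

end Fermat.Agent.P7
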