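import Fermat.Agent.P7.H18DepthLevel
import Fermat.Agent.Red.GGSection
import Fermat.Agent.Red.MatchLoc
import Fermat.Agent.LGC.Cusp21Ord

/-!
# W7 (S40/S44), block (5b) T-CONST, leaf C4 (I4): a closed point with a centred place (helper18)

`h18w_depth_level_fin` / `_inf` (`P7/H18DepthLevel.lean`) need ONE closed point of the special
fibre at which a place of the generic fibre is centred.  Every place `v` of `FF N` gives one:
if `t(v) ∈ A` on the chart `t`, otherwise on the chart `t⁻¹`.

* `h18w_center_of_value` : a place `v` with `t(v) ∈ A` is centred at the closed point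
  `φ_v⁻¹(𝔪_A)` of the chart `t` (`φ_v = chartEv`).
* `h18w_exists_center` : for every `t`, one of the two charts `t`, `t⁻¹` has a closed point
  with a centred place.
-/

set_option autoImplicit false
set_option linter.unusedSectionVars false
set_option linter.unusedVariables false
set_option linter.style.haveILetI false

open AlgebraicCurve ModularCurve WithZero IsLocalRing

noncomputable section

namespace Fermat.Agent.P7

open Fermat.Agent.S37 Fermat.Agent.Red Fermat.Agent.Red.GG Fermat.Agent.Red.GV
  Fermat.Agent.Red.Match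

section Center

variable (A : ValuationSubring Kbar) {N : ℕ} [NeZero N]

/-- a place with `t(v) ∈ A` is centred at a closed point of the special fibre of the chart
`t`. -/
theorem h18w_center_of_value (t : FF N) (v : Place Kbar (FF N))
    (hx : ∃ a : A, ValueAt v t (a : Kbar)) :
    ∃ 𝔫 : Ideal (chart N A t), 𝔫.IsMaximal ∧
      (maximalIdeal A).map (algebraMap A (chart N A t)) ≤ 𝔫 ∧
      ∃ i : ChartPlace N t, h26Centered (chart N A t) (chartVal N t) 𝔫 i := by
  have ht : t ∈ v.toValuationSubring := by
    obtain ⟨a, ha⟩ := hx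
    have h1 : t - cst N (a : Kbar) ∈ v.toValuationSubring :=
      v.toValuationSubring.nonunits_le ha
    have h2 : cst N (a : Kbar) ∈ v.toValuationSubring := cst_mem v _
    have := v.toValuationSubring.add_mem _ _ h1 h2
    simpa using this
  set φ : chart N A t →ₐ[A] A := chartEv A t v hx with hφ
  have hsurj : Function.Surjective (φ : chart N A t →+* A) := by
    intro a
    exact ⟨algebraMap A (chart N A t) a, by
      show φ (algebraMap A (chart N A t) a) = a
      rw [AlgHom.commutes]
      rfl⟩
  refine ⟨(maximalIdeal A).comap (φ : chart N A t →+* A),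
    Ideal.comap_isMaximal_of_surjective _ hsurj, ?_, ⟨v, ht⟩, ?_⟩
  · rw [Ideal.map_le_iff_le_comap]
    intro m hm
    rw [Ideal.mem_comap, Ideal.mem_comap]
    have : (φ : chart N A t →+* A) (algebraMap A (chart N A t) m) = m := by
      show φ (algebraMap A (chart N A t) m) = m
      rw [AlgHom.commutes]
      rfl
    rw [this]
    exact hm
  · intro b hb
    rw [Ideal.mem_comap]
    have h0 : φ b = 0 := (chartEv_eq_zero_iff A t v hx b).mpr hb
    show φ b ∈ maximalIdeal A
    rw [h0]
    exact zero_mem _

/-- **one of the two charts `t`, `t⁻¹` has a closed point with a centred place.** -/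
theorem h18w_exists_center (t : FF N) :
    (∃ 𝔫 : Ideal (chart N A t), 𝔫.IsMaximal ∧
      (maximalIdeal A).map (algebraMap A (chart N A t)) ≤ 𝔫 ∧
      ∃ i : ChartPlace N t, h26Centered (chart N A t) (chartVal N t) 𝔫 i) ∨
    (∃ 𝔫 : Ideal (chart N A t⁻¹), 𝔫.IsMaximal ∧
      (maximalIdeal A).map (algebraMap A (chart N A t⁻¹)) ≤ 𝔫 ∧
      ∃ i : ChartPlace N t⁻¹, h26Centered (chart N A t⁻¹) (chartVal N t⁻¹) 𝔫 i) := by
  obtain ⟨v, -⟩ := Fermat.Agent.LGC.h21c_exists_place_infty N
  by_cases hx : ∃ a : A, ValueAt v t (a : Kbar)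
  · exact Or.inl (h18w_center_of_value A t v hx)
  · right
    apply h18w_center_of_value A t⁻¹ v
    by_cases ht : t ∈ v.toValuationSubring
    · obtain ⟨c, hc⟩ := exists_valueAt v ht
      have hcA : c ∉ A := fun h => hx ⟨⟨c, h⟩, hc⟩
      have hc0 : c ≠ 0 := fun h => hcA (h ▸ A.zero_mem)
      have hinv : c⁻¹ ∈ A := (A.mem_or_inv_mem c).resolve_left hcA
      exact ⟨⟨c⁻¹, hinv⟩, valueAt_inv hc hc0⟩
    · refine ⟨0, ?_⟩
      unfold ValueAt
      have h1 : t⁻¹ ∈ v.toValuationSubring.nonunits := by
        rw [ValuationSubring.mem_nonunits_iff_or]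
        right
        rw [inv_inv]
        exact ht
      simpa only [cst, ZeroMemClass.coe_zero, map_zero, sub_zero] using h1

end Center

end Fermat.Agent.P7
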