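import Fermat.Agent.P7.H90Slope

/-!
# P7 (wave 7, S40), block (5b) (helper90): the normal form at a node, with slope

Vocabulary of `S35/H13TorNode.lean`.  For ANY function `u ≠ 0` whose orders at the places
centered at the node `𝔫` (`x y = a c`) are divisible by `r` (no hypothesis `u ≡ 1`):

`u = κ · x ^ m · ε · g₁ ^ r`, where

* `κ` is a nonzero constant, `m ∈ ℤ` is the **slope**, `ε` is a unit of `V` without zeros and
  poles centered at `𝔫` (a unit of `B_𝔫`);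
* `g₁ = ∏ (x - a_i) ^ (n_i)` is the generator of S35: `g₁ = x ^ s · ε∞` with `ε∞ ≡ 1` modulo
  `π W∞` and `g₁ = α · ε₀` with `ε₀ ≡ 1` modulo `π W₀`, `α = ∏ (- a_i) ^ (n_i)` a nonzero
  constant (`s = ∑ n_i`).

Consequences: `|u|_∞ = |κ|`, `|u|₀ = |κ| |a| ^ m |α| ^ r`, and the order at the node of the
reduction of `u / κ` on the first branch is `m + r s ≡ m` modulo `r`.
-/

set_option autoImplicit false
set_option linter.unusedSectionVars false
set_option linter.unusedVariables false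
set_option linter.style.haveILetI false

open WithZero IsLocalRing

namespace Fermat.Agent.P7

open Fermat.Agent.Red Fermat.Agent.LGC Fermat.Agent.S35 Fermat.Agent.P6

section Node

variable {A : Type*} [CommRing A] [IsDomain A] [ValuationRing A]
  {F : Type*} [Field F] [Algebra A F]
  {B : Subalgebra A F} {V : Subring F} {ι : Type*} {v : ι → Valuation F ℤᵐ⁰}

set_option maxHeartbeats 1600000 in
/-- **Normal form at a node, with slope.** -/
theorem h90s_node_normal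
    (hC : H26Chart B V v) (hAF : Function.Injective (algebraMap A F))
    (harch : ∀ c ∈ maximalIdeal A, c ≠ 0 → ∀ a : A, a ≠ 0 → ∃ k : ℕ, a ∣ c ^ k)
    (Winf W0 : Subring F)
    (hVWinf : ∀ x ∈ V, x ∈ Winf) (hVW0 : ∀ x ∈ V, x ∈ W0)
    (hWV : ∀ x : F, x ∈ Winf → x ∈ W0 → x ∈ V)
    (hinvinf : ∀ π ∈ maximalIdeal A, ∀ x ∈ Winf, (1 + algebraMap A F π * x)⁻¹ ∈ Winf)
    (hinv0 : ∀ π ∈ maximalIdeal A, ∀ x ∈ W0, (1 + algebraMap A F π * x)⁻¹ ∈ W0)
    (hntinf : ∀ π ∈ maximalIdeal A, ∀ x ∈ Winf, algebraMap A F π * x ≠ 1)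
    (hnt0 : ∀ π ∈ maximalIdeal A, ∀ x ∈ W0, algebraMap A F π * x ≠ 1)
    (hscinf : ∀ f : F, f ≠ 0 → ∃ κ : F, h13x_IsConst A κ ∧ κ ≠ 0 ∧
      f * κ⁻¹ ∈ Winf ∧ (f * κ⁻¹)⁻¹ ∈ Winf)
    (hsc0 : ∀ f : F, f ≠ 0 → ∃ κ : F, h13x_IsConst A κ ∧ κ ≠ 0 ∧
      f * κ⁻¹ ∈ W0 ∧ (f * κ⁻¹)⁻¹ ∈ W0)
    (𝔫 : Ideal B) [h𝔫 : 𝔫.IsPrime] (h𝔪𝔫 : (maximalIdeal A).map (algebraMap A B) ≤ 𝔫)
    (hninf : ∀ b : B, b ∉ 𝔫 → ((b : F))⁻¹ ∈ Winf)
    (hn0 : ∀ b : B, b ∉ 𝔫 → ((b : F))⁻¹ ∈ W0)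
    (x y c : B) (hx : x ∈ 𝔫) (hy : y ∈ 𝔫) (hc : c ∉ 𝔫) (a : A) (ha : a ≠ 0)
    (hxy : x * y = algebraMap A B a * c)
    (hxinf : ((x : F))⁻¹ ∈ Winf) (hy0 : ((y : F))⁻¹ ∈ W0)
    (hprin : ∀ z ∈ 𝔫, ∃ s, s ∉ 𝔫 ∧
      s * z ∈ Ideal.span {x, y} ⊔ (maximalIdeal A).map (algebraMap A B))
    (hsec : ∀ i, h26Centered B v 𝔫 i → ∃ φ : B →ₐ[A] A,
      (∀ b : B, φ b = 0 ↔ v i (b : F) < 1) ∧ (RingHom.ker (φ : B →+* A)).FG)
    (u : F) (hu : u ≠ 0) (r : ℕ) (hr : 0 < r)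
    (hru : ∀ i, ∃ n : ℤ, v i u = exp (-((r : ℤ) * n))) :
    ∃ (m s : ℤ) (κ α g₁ ε εinf ε0 : F) (π : A),
      π ∈ maximalIdeal A ∧ π ≠ 0 ∧
      h13x_IsConst A κ ∧ κ ≠ 0 ∧ h13x_IsConst A α ∧ α ≠ 0 ∧
      u = κ * (x : F) ^ m * ε * g₁ ^ r ∧
      ε ∈ V ∧ ε⁻¹ ∈ V ∧ (∀ k, h26Centered B v 𝔫 k → v k ε = 1) ∧
      g₁ = (x : F) ^ s * εinf ∧ εinf ∈ h26U π Winf ∧
      g₁ = α * ε0 ∧ ε0 ∈ h26U π W0 := by
  classical
  have hAV : ∀ a : A, algebraMap A F a ∈ V := fun a => hC.hBV _ (B.algebraMap_mem a)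
  have hAinf : ∀ a : A, algebraMap A F a ∈ Winf := fun a => hVWinf _ (hAV a)
  have hA0 : ∀ a : A, algebraMap A F a ∈ W0 := fun a => hVW0 _ (hAV a)
  have hBinf : ∀ b : B, (b : F) ∈ Winf := fun b => hVWinf _ (hC.hBV _ b.2)
  have hB0 : ∀ b : B, (b : F) ∈ W0 := fun b => hVW0 _ (hC.hBV _ b.2)
  have haF : algebraMap A F a ≠ 0 := fun h => ha (hAF (by rw [h, map_zero]))
  have ham : a ∈ maximalIdeal A := h90s_const_mem 𝔫 x y c hx hc a hxy
  have hc0 : (c : F) ≠ 0 := by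
    intro h0
    apply hc
    have : c = 0 := Subtype.ext h0
    rw [this]; exact 𝔫.zero_mem
  have hxyF : (x : F) * (y : F) = algebraMap A F a * (c : F) := by
    have := congrArg (Subtype.val) hxy
    simpa using this
  have hx0 : (x : F) ≠ 0 := by
    intro h0
    rw [h0, zero_mul] at hxyF
    exact mul_ne_zero haF hc0 hxyF.symm
  have hy0' : (y : F) ≠ 0 := by
    intro h0
    rw [h0, mul_zero] at hxyF
    exact mul_ne_zero haF hc0 hxyF.symm
  have hconst : ∀ k, h26Centered B v 𝔫 k → ∀ a' : A, a' ≠ 0 → v k (algebraMap A F a') = 1 := by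
    intro k hk a' ha'
    obtain ⟨ψ, hψker, -⟩ := hsec k hk
    exact h75p_const_of_section hC.hB k ψ hψker a' ha'
  -- the data at the centered places
  have hdata : ∀ i : ι, ∃ ai bi gi : A, h26Centered B v 𝔫 i →
      ai ∈ maximalIdeal A ∧ bi ∈ maximalIdeal A ∧ IsUnit gi ∧ ai * bi = a * gi ∧
      v i (x : F) = 1 ∧
      v i ((x : F) - algebraMap A F ai) = exp (-1 : ℤ) ∧
      (∀ k, h26Centered B v 𝔫 k → k ≠ i → v k ((x : F) - algebraMap A F ai) = 1) := by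
    intro i
    by_cases hi : h26Centered B v 𝔫 i
    · obtain ⟨φ, hφker, hφfg⟩ := hsec i hi
      have hkerle : RingHom.ker (φ : B →+* A) ≤ 𝔫 := fun b hb => hi b ((hφker b).mp hb)
      have hφ𝔫 := h26_section_local 𝔫 φ hkerle
      have hconst' : ∀ k, h26Centered B v 𝔫 k → v k (algebraMap A F a) = 1 :=
        fun k hk => hconst k hk a ha
      have hφxy : φ x * φ y = a * φ c := by
        have := congrArg φ hxy
        rw [map_mul, map_mul, AlgHom.commutes] at this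
        exact this
      have hφc : IsUnit (φ c) := by
        by_contra hnu
        have hm : φ c ∈ maximalIdeal A := hnu
        apply hc
        have h1 : c - algebraMap A B (φ c) ∈ 𝔫 := by
          apply hkerle
          rw [RingHom.mem_ker]
          show φ (c - algebraMap A B (φ c)) = 0
          rw [map_sub, AlgHom.commutes]
          exact sub_self _
        have h2 : algebraMap A B (φ c) ∈ 𝔫 := h𝔪𝔫 (Ideal.mem_map_of_mem _ hm)
        have h3 : c = (c - algebraMap A B (φ c)) + algebraMap A B (φ c) := by ring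
        rw [h3]
        exact 𝔫.add_mem h1 h2
      refine ⟨φ x, φ y, φ c, fun _ => ⟨hφ𝔫 x hx, hφ𝔫 y hy, hφc, hφxy, ?_,
        h75p_lp_node hC 𝔫 h𝔪𝔫 x y c hx hy hc a hxy hconst' hprin i hi φ hφker hφfg⟩⟩
      refine le_antisymm (hC.hB _ x.2 i) (not_lt.mp fun hlt => ?_)
      have h1 : φ x = 0 := (hφker x).mpr hlt
      rw [h1, zero_mul] at hφxy
      exact mul_ne_zero ha hφc.ne_zero hφxy.symm
    · exact ⟨0, 0, 0, fun h => (hi h).elim⟩
  choose ai bi gi hdat using hdata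
  choose n hn using hru
  set Z : Finset ι := (h26_finite_support hC u hu).toFinset with hZ
  set T : Finset ι := Z.filter (fun i => h26Centered B v 𝔫 i) with hT
  have hTc : ∀ i ∈ T, h26Centered B v 𝔫 i := fun i hi => (Finset.mem_filter.mp hi).2
  have hu1 : ∀ k, h26Centered B v 𝔫 k → k ∉ T → v k u = 1 := by
    intro k hk hkT
    by_contra hne
    apply hkT
    rw [hT, Finset.mem_filter, hZ, Set.Finite.mem_toFinset]
    exact ⟨hne, hk⟩
  have hvalx : ∀ k, h26Centered B v 𝔫 k → v k (x : F) = 1 := fun k hk =>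
    (hdat k hk).2.2.2.2.1
  -- the common modulus
  obtain ⟨d₁, hd₁, hd₁0, hd₁π, hd₁a⟩ := h26_common_divisor T ai
    (fun i hi => (hdat i (hTc i hi)).1) a ham ha
  obtain ⟨π, hπ, hπ0, hπd, hπb⟩ := h26_common_divisor T bi
    (fun i hi => (hdat i (hTc i hi)).2.1) d₁ hd₁ hd₁0
  have hπa : ∀ i ∈ T, π ∣ ai i := fun i hi => hπd.trans (hd₁a i hi)
  have hπinf : algebraMap A F π ∈ Winf := hAinf π
  have hπW0 : algebraMap A F π ∈ W0 := hA0 π
  -- the functions of (LP)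
  set G : ι → F := fun i => (x : F) - algebraMap A F (ai i) with hG
  have hG1 : ∀ i ∈ T, v i (G i) = exp (-1 : ℤ) := fun i hi => (hdat i (hTc i hi)).2.2.2.2.2.1
  have hG2 : ∀ i ∈ T, ∀ k, h26Centered B v 𝔫 k → k ≠ i → v k (G i) = 1 := fun i hi =>
    (hdat i (hTc i hi)).2.2.2.2.2.2
  set g₁ : F := ∏ i ∈ T, G i ^ n i with hg₁
  set sT : ℤ := ∑ i ∈ T, n i with hsT
  have hai0 : ∀ i ∈ T, algebraMap A F (ai i) ≠ 0 := by
    intro i hi h0
    have h1 : ai i = 0 := hAF (by rw [h0, map_zero])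
    have h2 := (hdat i (hTc i hi)).2.2.2.1
    rw [h1, zero_mul] at h2
    exact mul_ne_zero ha (hdat i (hTc i hi)).2.2.1.ne_zero h2.symm
  -- the first branch
  set ηinf : ι → F := fun i => 1 - algebraMap A F (ai i) * ((x : F))⁻¹ with hηinf
  have hηinfU : ∀ i ∈ T, ηinf i ∈ h26U π Winf := by
    intro i hi
    obtain ⟨q, hq⟩ := hπa i hi
    refine ⟨-(algebraMap A F q * ((x : F))⁻¹),
      Winf.neg_mem (Winf.mul_mem (hAinf q) hxinf), ?_⟩
    rw [hηinf]
    simp only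
    rw [hq, map_mul]
    ring
  have hGinf : ∀ i, G i = (x : F) * ηinf i := by
    intro i
    rw [hG, hηinf]
    simp only
    field_simp
  set εinf : F := ∏ i ∈ T, ηinf i ^ n i with hεinf
  have hεinfU : εinf ∈ h26U π Winf :=
    h26U_prod hπinf T _ fun i hi =>
      h26U_zpow hπinf (hinvinf π hπ) (hntinf π hπ) (hηinfU i hi) _
  have hg₁inf : g₁ = (x : F) ^ sT * εinf := by
    rw [hg₁, hεinf, hsT, ← h26_prod_zpow_const T (x : F) hx0 n, ← Finset.prod_mul_distrib]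
    refine Finset.prod_congr rfl fun i _ => ?_
    rw [hGinf i, mul_zpow]
  -- the second branch
  set η0 : ι → F := fun i => 1 - (x : F) * (algebraMap A F (ai i))⁻¹ with hη0
  have hη0U : ∀ i ∈ T, η0 i ∈ h26U π W0 := by
    intro i hi
    obtain ⟨q, hq⟩ := hπb i hi
    obtain ⟨gi', hgi'⟩ := (hdat i (hTc i hi)).2.2.1.exists_right_inv
    have hab := (hdat i (hTc i hi)).2.2.2.1
    have habF : algebraMap A F (ai i) * algebraMap A F (bi i) =
        algebraMap A F a * algebraMap A F (gi i) := by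
      rw [← map_mul, ← map_mul, hab]
    have hgF : algebraMap A F (gi i) * algebraMap A F gi' = 1 := by
      rw [← map_mul, hgi', map_one]
    refine ⟨-(algebraMap A F q * algebraMap A F gi' * (c : F) * ((y : F))⁻¹),
      W0.neg_mem (W0.mul_mem (W0.mul_mem (W0.mul_mem (hA0 q) (hA0 gi')) (hB0 c)) hy0), ?_⟩
    rw [hη0]
    simp only
    have hai := hai0 i hi
    have hbq : algebraMap A F (bi i) = algebraMap A F π * algebraMap A F q := by
      rw [← map_mul, hq]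
    have hxval : (x : F) = algebraMap A F a * (c : F) * ((y : F))⁻¹ := by
      field_simp
      exact hxyF
    have key : (x : F) * (algebraMap A F (ai i))⁻¹ =
        algebraMap A F π * (algebraMap A F q * algebraMap A F gi' * (c : F) * ((y : F))⁻¹) := by
      have h1 : algebraMap A F a = algebraMap A F (ai i) * algebraMap A F (bi i) *
          algebraMap A F gi' := by
        rw [habF, mul_assoc, hgF, mul_one]
      rw [hxval, h1, hbq]
      field_simp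
    rw [key]
    ring
  have hG0 : ∀ i ∈ T, G i = (-algebraMap A F (ai i)) * η0 i := by
    intro i hi
    have hai := hai0 i hi
    rw [hG, hη0]
    simp only
    field_simp
    ring
  set α : F := ∏ i ∈ T, (-algebraMap A F (ai i)) ^ n i with hα
  set ε0 : F := ∏ i ∈ T, η0 i ^ n i with hε0
  have hε0U : ε0 ∈ h26U π W0 :=
    h26U_prod hπW0 T _ fun i hi =>
      h26U_zpow hπW0 (hinv0 π hπ) (hnt0 π hπ) (hη0U i hi) _
  have hg₁0 : g₁ = α * ε0 := by
    rw [hg₁, hα, hε0, ← Finset.prod_mul_distrib]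
    refine Finset.prod_congr rfl fun i hi => ?_
    rw [hG0 i hi, mul_zpow]
  have hαc : h13x_IsConst A α :=
    h13x_isConst_prod T _ fun i _ =>
      h13x_isConst_zpow hAF (h13x_isConst_neg (h13x_isConst_algebraMap (ai i))) _
  have hα0 : α ≠ 0 := by
    rw [hα]
    exact Finset.prod_ne_zero_iff.mpr fun i hi =>
      zpow_ne_zero _ (neg_ne_zero.mpr (hai0 i hi))
  have hGi0 : ∀ i ∈ T, G i ≠ 0 := by
    intro i hi h0
    have h1 := hG1 i hi
    rw [h0, map_zero] at h1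
    exact exp_ne_zero h1.symm
  have hg₁0' : g₁ ≠ 0 := by
    rw [hg₁]
    exact Finset.prod_ne_zero_iff.mpr fun i hi => zpow_ne_zero _ (hGi0 i hi)
  -- the function `e`
  set e : F := u * (g₁ ^ r)⁻¹ with he
  have hval_e : ∀ k, h26Centered B v 𝔫 k → v k e = 1 := fun k hk =>
    h75s_val_one 𝔫 T G hG1 hG2 u r n (fun i _ => hn i) hu1 k hk
  have hue : u = e * g₁ ^ r := by
    rw [he, mul_assoc, inv_mul_cancel₀ (pow_ne_zero _ hg₁0'), mul_one]
  have he0 : e ≠ 0 := mul_ne_zero hu (inv_ne_zero (pow_ne_zero _ hg₁0'))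
  -- the slope of `e`
  obtain ⟨m, κ, hκc, hκ0, ε, heε, hεV, hεV', hεval⟩ := h90s_slope hC hAF harch Winf W0 hVWinf
    hVW0 hWV hntinf hnt0 hscinf hsc0 𝔫 hninf hn0 x y c hx hy hc a ha hxy hxinf hy0 hprin hvalx
    hconst e he0 hval_e
  refine ⟨m, sT, κ, α, g₁, ε, εinf, ε0, π, hπ, hπ0, hκc, hκ0, hαc, hα0, ?_, hεV, hεV', hεval,
    hg₁inf, hεinfU, hg₁0, hε0U⟩
  rw [hue, heε]

end Node

end Fermat.Agent.P7
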