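import Fermat.Agent.S35.H86TorAsm
import Fermat.Agent.P7.H90SlopeNF

/-!
# P7 (wave 7, S40), block (5b) (helper90): the normal form with slope at the nodes of level `M ℓ`

Level instance of `h90s_node_normal` (`P7/H90SlopeNF.lean`) at a node of the finite chart
`jSS M ℓ` of level `M ℓ` (`ℓ ∤ M` prime, `A` a valuation subring of `ℚ̄` over `ℓ`), in the
vocabulary of `S35.TorNodeAt`: node coordinates `x y = a c`, `W∞ = softV A (M ℓ)`,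
`W₀ = w⁻¹ W∞`, `ssV = W∞ ∩ W₀`.

* `h90s_isConst_cst` : the constants `cst N c` are constants in the sense of `h13x_IsConst`.
* `h90s_scale_inf`, `h90s_scale_zero` : Gauss scaling at `W∞` and `W₀`.
* `h90s_node_normal_level` : for ANY `u ≠ 0` with `r ∣ div u`:
  `u = κ · x ^ m · ε · g₁ ^ r`, `κ` a nonzero constant, `ε` a unit of `ssV` without zeros and
  poles centered at the node, `g₁ = x ^ s · ε∞ = α · ε₀`, `ε∞ ∈ 1 + π W∞`, `ε₀ ∈ 1 + π W₀`,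
  `α` a nonzero constant.  No auxiliary level is needed.
-/

set_option autoImplicit false
set_option linter.unusedSectionVars false
set_option linter.unusedVariables false
set_option linter.style.haveILetI false

open AlgebraicCurve ModularCurve WithZero IsLocalRing

noncomputable section

namespace Fermat.Agent.P7

open Fermat.Agent.S37 Fermat.Agent.Red Fermat.Agent.Red.GG Fermat.Agent.Red.GV
  Fermat.Agent.Red.GV.Soft Fermat.Agent.Red.Kron Fermat.Agent.Red.ModelO Fermat.Agent.LGC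
  Fermat.Agent.S35 Fermat.Agent.P6

/-- the constants of the function field are constants in the sense of `h13x_IsConst`. -/
theorem h90s_isConst_cst (A : ValuationSubring Kbar) (N : ℕ) (c : Kbar) :
    h13x_IsConst A (cst N c) := by
  rcases A.mem_or_inv_mem c with h | h
  · refine ⟨⟨c, h⟩, 1, one_ne_zero, ?_⟩
    rw [map_one, mul_one]
    rfl
  · by_cases hc : c = 0
    · refine ⟨0, 1, one_ne_zero, ?_⟩
      rw [hc, map_one, mul_one, map_zero]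
      exact map_zero _
    refine ⟨1, ⟨c⁻¹, h⟩, fun h0 => inv_ne_zero hc (congrArg Subtype.val h0), ?_⟩
    rw [map_one]
    have e : algebraMap A (FF N) ⟨c⁻¹, h⟩ = cst N c⁻¹ := rfl
    rw [e, cst, cst, ← map_mul, mul_inv_cancel₀ hc, map_one]

section Level

variable (A : ValuationSubring Kbar) (M : ℕ) {ℓ : ℕ} [NeZero M] [NeZero ℓ]

/-- Gauss scaling at `W∞`. -/
theorem h90s_scale_inf (hℓ : ℓ.Prime) (hA : A.LiesOverPrime ℓ) (f : FF (M * ℓ)) (hf : f ≠ 0) :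
    ∃ κ : FF (M * ℓ), h13x_IsConst A κ ∧ κ ≠ 0 ∧
      f * κ⁻¹ ∈ (h85cWinf A M ℓ hℓ hA).toSubring ∧
      (f * κ⁻¹)⁻¹ ∈ (h85cWinf A M ℓ hℓ hA).toSubring := by
  obtain ⟨c, hc, h1, h2⟩ := exists_cst_mul_unit_soft A (M * ℓ) hℓ hA f hf
  have hc0 : cst (M * ℓ) c ≠ 0 := by
    simpa only [cst, ne_eq, map_eq_zero] using hc
  have e : cst (M * ℓ) c⁻¹ = (cst (M * ℓ) c)⁻¹ := map_inv₀ (algebraMap Kbar (FF (M * ℓ))) c
  have e2 : f * (cst (M * ℓ) c⁻¹)⁻¹ = cst (M * ℓ) c * f := by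
    rw [e, inv_inv]
    exact mul_comm _ _
  refine ⟨cst (M * ℓ) c⁻¹, h90s_isConst_cst A (M * ℓ) c⁻¹, ?_, ?_, ?_⟩
  · rw [e]; exact inv_ne_zero hc0
  · rw [e2]; exact h1
  · rw [e2]; exact h2

/-- Gauss scaling at `W₀`. -/
theorem h90s_scale_zero (hℓ : ℓ.Prime) (hM : ¬ ℓ ∣ M) (hA : A.LiesOverPrime ℓ)
    (f : FF (M * ℓ)) (hf : f ≠ 0) :
    ∃ κ : FF (M * ℓ), h13x_IsConst A κ ∧ κ ≠ 0 ∧
      f * κ⁻¹ ∈ (h85cW0 A M ℓ hℓ hM hA).toSubring ∧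
      (f * κ⁻¹)⁻¹ ∈ (h85cW0 A M ℓ hℓ hM hA).toSubring := by
  have hwf : kFricke M ℓ hℓ hM f ≠ 0 :=
    (map_ne_zero_iff _ (kFricke M ℓ hℓ hM).injective).mpr hf
  obtain ⟨c, hc, h1, h2⟩ := exists_cst_mul_unit_soft A (M * ℓ) hℓ hA _ hwf
  have hc0 : cst (M * ℓ) c ≠ 0 := by
    simpa only [cst, ne_eq, map_eq_zero] using hc
  have e : cst (M * ℓ) c⁻¹ = (cst (M * ℓ) c)⁻¹ := map_inv₀ (algebraMap Kbar (FF (M * ℓ))) c
  have e2 : f * (cst (M * ℓ) c⁻¹)⁻¹ = cst (M * ℓ) c * f := by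
    rw [e, inv_inv]
    exact mul_comm _ _
  have e3 : kFricke M ℓ hℓ hM (cst (M * ℓ) c * f) = cst (M * ℓ) c * kFricke M ℓ hℓ hM f := by
    rw [map_mul, kFricke_cst]
  refine ⟨cst (M * ℓ) c⁻¹, h90s_isConst_cst A (M * ℓ) c⁻¹, ?_, ?_, ?_⟩
  · rw [e]; exact inv_ne_zero hc0
  · rw [e2]
    show kFricke M ℓ hℓ hM (cst (M * ℓ) c * f) ∈ softV A (M * ℓ)
    rw [e3]; exact h1
  · rw [e2]
    show kFricke M ℓ hℓ hM (cst (M * ℓ) c * f)⁻¹ ∈ softV A (M * ℓ)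
    rw [map_inv₀, e3]; exact h2

set_option maxHeartbeats 1600000 in
/-- **the normal form with slope at a node of level `M ℓ`.** -/
theorem h90s_node_normal_level (hℓ : ℓ.Prime) (hM : ¬ ℓ ∣ M) (hA : A.LiesOverPrime ℓ)
    (𝔫 : Ideal (chart (M * ℓ) A (jSS M ℓ))) (h𝔫 : 𝔫.IsMaximal)
    (hle : mExt A M ℓ (jSS M ℓ) ≤ 𝔫)
    (hboth : TorOnBoth A M ℓ hℓ hM hA (jSS M ℓ) 𝔫)
    (x y c : chart (M * ℓ) A (jSS M ℓ)) (hx : x ∈ 𝔫) (hy : y ∈ 𝔫) (hc : c ∉ 𝔫)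
    (a : A) (ha : a ≠ 0)
    (hxy : x * y = algebraMap A (chart (M * ℓ) A (jSS M ℓ)) a * c)
    (hprin : ∀ z ∈ 𝔫, ∃ s, s ∉ 𝔫 ∧ s * z ∈ Ideal.span {x, y} ⊔ mExt A M ℓ (jSS M ℓ))
    (hxinf : ((x : FF (M * ℓ)))⁻¹ ∈ h85cWinf A M ℓ hℓ hA)
    (hy0 : ((y : FF (M * ℓ)))⁻¹ ∈ h85cW0 A M ℓ hℓ hM hA)
    (u : FF (M * ℓ)) (hu : u ≠ 0) (r : ℕ) (hr : 0 < r)
    (hord : ∀ v : Place Kbar (FF (M * ℓ)), (r : ℤ) ∣ v.ord u) :
    ∃ (m s : ℤ) (κ α g₁ ε εinf ε0 : FF (M * ℓ)) (π : A),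
      π ∈ maximalIdeal A ∧ π ≠ 0 ∧
      h13x_IsConst A κ ∧ κ ≠ 0 ∧ h13x_IsConst A α ∧ α ≠ 0 ∧
      u = κ * (x : FF (M * ℓ)) ^ m * ε * g₁ ^ r ∧
      ε ∈ ssV A M ℓ ∧ ε⁻¹ ∈ ssV A M ℓ ∧
      (∀ k, h26Centered (chart (M * ℓ) A (jSS M ℓ)) (chartVal (M * ℓ) (jSS M ℓ)) 𝔫 k →
        chartVal (M * ℓ) (jSS M ℓ) k ε = 1) ∧
      g₁ = (x : FF (M * ℓ)) ^ s * εinf ∧ εinf ∈ h26U π (h85cWinf A M ℓ hℓ hA).toSubring ∧
      g₁ = α * ε0 ∧ ε0 ∈ h26U π (h85cW0 A M ℓ hℓ hM hA).toSubring := by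
  classical
  haveI := h𝔫.isPrime
  have hC₀ : IfaceSSChart A M ℓ (jSS M ℓ) := h85s_ifaceSSChart_fin A M ℓ hℓ hM hA
  have hF₀ : IfaceFinite (M * ℓ) A (jSS M ℓ) := h71_finite_fin' hℓ hM hA
  have hS₀ : IfaceSSSection A M ℓ (jSS M ℓ) := h85s_ifaceSSSection_of A M ℓ _ hF₀
  have hAF := algebraMap_injective_FF (M * ℓ) A
  have harch := harch_of_liesOver A hℓ hA
  obtain ⟨hbi, hb0⟩ := hboth
  exact h90s_node_normal hC₀ hAF harch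
    (h85cWinf A M ℓ hℓ hA).toSubring (h85cW0 A M ℓ hℓ hM hA).toSubring
    (fun x hx => h85c_ssV_le_Winf A M ℓ hℓ hA hx)
    (fun x hx => h85c_ssV_le_W0 A M ℓ hℓ hM hA hx)
    (h85c_hWV A M ℓ hℓ hM hA)
    (fun π hπ x hx => h86t_Winf_unit A M ℓ hℓ hA π hπ x hx)
    (fun π hπ x hx => h86t_W0_unit A M ℓ hℓ hM hA π hπ x hx)
    (fun π hπ x hx => h86t_Winf_nt A M ℓ hℓ hA π hπ x hx)
    (fun π hπ x hx => h86t_W0_nt A M ℓ hℓ hM hA π hπ x hx)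
    (fun f hf => h90s_scale_inf A M hℓ hA f hf)
    (fun f hf => h90s_scale_zero A M hℓ hM hA f hf)
    𝔫 hle
    (fun b hb => by_contra fun h => hb (hbi b h))
    (fun b hb => by_contra fun h => hb (hb0 b h))
    x y c hx hy hc a ha hxy hxinf hy0 hprin
    (fun i hi => hS₀ i 𝔫 h𝔫 hle hi)
    u hu r hr (exists_val_eq (M * ℓ) (jSS M ℓ) u hu r hord)

end Level

end Fermat.Agent.P7
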