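import Fermat.Agent.P7.H18DepthVal
import Fermat.Agent.P7.H90SlopeLevel
import Fermat.Agent.S35.H86TorFrob
import Fermat.Agent.LGC.SS85Chart
import Fermat.Agent.LGC.SS85Section
import Fermat.Agent.LGC.Fin71Final
import Fermat.Agent.Red.GateGoodOf

/-!
# W7 (S40/S44), block (5b) T-CONST, leaf C4 (I4), LEVEL instance (helper18)

Level `M ℓ` (`ℓ ∤ M` prime, `A` a valuation subring of `ℚ̄` over `ℓ`), `W∞ = h85cWinf`,
`W₀ = h85cW0`, `V = W∞ ⊓ W₀` (as subrings of `FF (M ℓ)`).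

* `h18w_cst_mem_Winf`, `h18w_cst_mem_W0` : the constants of `A` lie in `W∞`, `W₀`.
* `h18w_scale_level` : every nonzero `f ∈ W∞ ⊓ W₀` is `d G` with `d ∈ A`, `G ∈ W∞ ⊓ W₀`,
  `G ∉ 𝔪_A (W∞ ⊓ W₀)`.
* `h18w_depth_level` : **the exact depth dichotomy `H82wDepth (W∞ ⊓ W₀) D₀ w`** (hypothesis
  `hdepth` of helper82's `h82w_h0_core`) from the local form `w = o (1 + D₀ T)` of `w` at ONE
  closed point `𝔫` of a chart `t` (finite chart or chart at infinity) at which a place is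
  centred.  No discreteness, no Galois action.
* `h18w_depth_level_fin`, `h18w_depth_level_inf` : the two charts `jSS`, `jSS⁻¹`.
-/

set_option autoImplicit false
set_option linter.unusedSectionVars false
set_option linter.unusedVariables false
set_option linter.style.haveILetI false

open AlgebraicCurve ModularCurve WithZero IsLocalRing

noncomputable section

namespace Fermat.Agent.P7

open Fermat.Agent.S37 Fermat.Agent.Red Fermat.Agent.Red.GG Fermat.Agent.Red.GV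
  Fermat.Agent.Red.GV.Soft Fermat.Agent.Red.Kron Fermat.Agent.Red.ModelO Fermat.Agent.LGC
  Fermat.Agent.S35 Fermat.Agent.P6

section Level

variable (A : ValuationSubring Kbar) (M : ℕ) {ℓ : ℕ} [NeZero M] [NeZero ℓ]

/-- the constants of `A` lie in `W∞`. -/
theorem h18w_cst_mem_Winf (hℓ : ℓ.Prime) (hM : ¬ ℓ ∣ M) (hA : A.LiesOverPrime ℓ) (a : A) :
    algebraMap A (FF (M * ℓ)) a ∈ (h85cWinf A M ℓ hℓ hA).toSubring :=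
  h85c_ssV_le_Winf A M ℓ hℓ hA
    ((h85s_ifaceSSChart_fin A M ℓ hℓ hM hA).hBV _
      ((chart (M * ℓ) A (jSS M ℓ)).algebraMap_mem a))

/-- the constants of `A` lie in `W₀`. -/
theorem h18w_cst_mem_W0 (hℓ : ℓ.Prime) (hM : ¬ ℓ ∣ M) (hA : A.LiesOverPrime ℓ) (a : A) :
    algebraMap A (FF (M * ℓ)) a ∈ (h85cW0 A M ℓ hℓ hM hA).toSubring :=
  h85c_ssV_le_W0 A M ℓ hℓ hM hA
    ((h85s_ifaceSSChart_fin A M ℓ hℓ hM hA).hBV _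
      ((chart (M * ℓ) A (jSS M ℓ)).algebraMap_mem a))

/-- **scaling in `W∞ ⊓ W₀`.** -/
theorem h18w_scale_level (hℓ : ℓ.Prime) (hM : ¬ ℓ ∣ M) (hA : A.LiesOverPrime ℓ) :
    ∀ f ∈ (h85cWinf A M ℓ hℓ hA).toSubring ⊓ (h85cW0 A M ℓ hℓ hM hA).toSubring, f ≠ 0 →
      ∃ d : A, ∃ G ∈ (h85cWinf A M ℓ hℓ hA).toSubring ⊓ (h85cW0 A M ℓ hℓ hM hA).toSubring,
        f = algebraMap A (FF (M * ℓ)) d * G ∧
        G ∉ h82wM A ((h85cWinf A M ℓ hℓ hA).toSubring ⊓ (h85cW0 A M ℓ hℓ hM hA).toSubring) :=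
  h18w_scale (algebraMap_injective_FF (M * ℓ) A)
    (h85cWinf A M ℓ hℓ hA).toSubring (h85cW0 A M ℓ hℓ hM hA).toSubring
    (h18w_cst_mem_Winf A M hℓ hM hA) (h18w_cst_mem_W0 A M hℓ hM hA)
    (fun m hm x hx => h86t_Winf_nt A M ℓ hℓ hA m hm x hx)
    (fun m hm x hx => h86t_W0_nt A M ℓ hℓ hM hA m hm x hx)
    (fun f hf => h90s_scale_inf A M hℓ hA f hf)
    (fun f hf => h90s_scale_zero A M hℓ hM hA f hf)

/-- **the exact depth dichotomy at level `M ℓ`** from the local form of `w` at one closed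
point `𝔫` of a chart `t` at which a place `i` is centred.  `W` is `W∞`, `W₀` or `W∞ ⊓ W₀`,
`O` any ring of functions with denominators outside `𝔫`, saturated in `W`. -/
theorem h18w_depth_level (hℓ : ℓ.Prime) (hM : ¬ ℓ ∣ M) (hA : A.LiesOverPrime ℓ)
    (t : FF (M * ℓ)) (hfin : IfaceFinite (M * ℓ) A t)
    (𝔫 : Ideal (chart (M * ℓ) A t)) (h𝔫 : 𝔫.IsMaximal) (hle : mExt A M ℓ t ≤ 𝔫)
    (i : ChartPlace (M * ℓ) t)
    (hcen : h26Centered (chart (M * ℓ) A t) (chartVal (M * ℓ) t) 𝔫 i)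
    (W O : Subring (FF (M * ℓ)))
    (hVW : (h85cWinf A M ℓ hℓ hA).toSubring ⊓ (h85cW0 A M ℓ hℓ hM hA).toSubring ≤ W)
    (hOW : O ≤ W)
    (hAO : ∀ a : A, algebraMap A (FF (M * ℓ)) a ∈ O)
    (hO : ∀ f ∈ O, ∃ s : chart (M * ℓ) A t, s ∉ 𝔫 ∧ (s : FF (M * ℓ)) * f ∈ chart (M * ℓ) A t)
    (sat : ∀ a : A, a ≠ 0 → ∀ f ∈ W, algebraMap A (FF (M * ℓ)) a * f ∈ O → f ∈ O)
    (D₀ : A) (w : FF (M * ℓ))
    (hwV : w ∈ (h85cWinf A M ℓ hℓ hA).toSubring ⊓ (h85cW0 A M ℓ hℓ hM hA).toSubring)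
    (hloc : ∃ o ∈ O, ∃ T ∈ W, w = o * (1 + algebraMap A (FF (M * ℓ)) D₀ * T)) :
    H82wDepth ((h85cWinf A M ℓ hℓ hA).toSubring ⊓ (h85cW0 A M ℓ hℓ hM hA).toSubring) D₀ w := by
  obtain ⟨φ, hφker, -⟩ := h85s_ifaceSSSection_of A M ℓ t hfin i 𝔫 h𝔫 hle hcen
  have hker : RingHom.ker (φ : chart (M * ℓ) A t →+* A) ≤ 𝔫 := by
    intro b hb
    rw [RingHom.mem_ker] at hb
    exact hcen b ((hφker b).mp hb)
  exact h18w_depth_of_section (algebraMap_injective_FF (M * ℓ) A) (chart (M * ℓ) A t) 𝔫 hle φ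
    hker _ W O hVW hOW
    (fun a => ⟨h18w_cst_mem_Winf A M hℓ hM hA a, h18w_cst_mem_W0 A M hℓ hM hA a⟩)
    hAO hO sat (h18w_scale_level A M hℓ hM hA) D₀ w hwV hloc

/-- the exact depth dichotomy from a closed point of the finite chart. -/
theorem h18w_depth_level_fin (hℓ : ℓ.Prime) (hM : ¬ ℓ ∣ M) (hA : A.LiesOverPrime ℓ)
    (𝔫 : Ideal (chart (M * ℓ) A (jSS M ℓ))) (h𝔫 : 𝔫.IsMaximal)
    (hle : mExt A M ℓ (jSS M ℓ) ≤ 𝔫)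
    (i : ChartPlace (M * ℓ) (jSS M ℓ))
    (hcen : h26Centered (chart (M * ℓ) A (jSS M ℓ)) (chartVal (M * ℓ) (jSS M ℓ)) 𝔫 i)
    (W O : Subring (FF (M * ℓ)))
    (hVW : (h85cWinf A M ℓ hℓ hA).toSubring ⊓ (h85cW0 A M ℓ hℓ hM hA).toSubring ≤ W)
    (hOW : O ≤ W)
    (hAO : ∀ a : A, algebraMap A (FF (M * ℓ)) a ∈ O)
    (hO : ∀ f ∈ O, ∃ s : chart (M * ℓ) A (jSS M ℓ), s ∉ 𝔫 ∧
      (s : FF (M * ℓ)) * f ∈ chart (M * ℓ) A (jSS M ℓ))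
    (sat : ∀ a : A, a ≠ 0 → ∀ f ∈ W, algebraMap A (FF (M * ℓ)) a * f ∈ O → f ∈ O)
    (D₀ : A) (w : FF (M * ℓ))
    (hwV : w ∈ (h85cWinf A M ℓ hℓ hA).toSubring ⊓ (h85cW0 A M ℓ hℓ hM hA).toSubring)
    (hloc : ∃ o ∈ O, ∃ T ∈ W, w = o * (1 + algebraMap A (FF (M * ℓ)) D₀ * T)) :
    H82wDepth ((h85cWinf A M ℓ hℓ hA).toSubring ⊓ (h85cW0 A M ℓ hℓ hM hA).toSubring) D₀ w :=
  h18w_depth_level A M hℓ hM hA (jSS M ℓ) (h71_finite_fin' hℓ hM hA) 𝔫 h𝔫 hle i hcen W O hVW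
    hOW hAO hO sat D₀ w hwV hloc

/-- the exact depth dichotomy from a closed point of the chart at infinity. -/
theorem h18w_depth_level_inf (hℓ : ℓ.Prime) (hM : ¬ ℓ ∣ M) (hA : A.LiesOverPrime ℓ)
    (𝔫 : Ideal (chart (M * ℓ) A (jSS M ℓ)⁻¹)) (h𝔫 : 𝔫.IsMaximal)
    (hle : mExt A M ℓ (jSS M ℓ)⁻¹ ≤ 𝔫)
    (i : ChartPlace (M * ℓ) (jSS M ℓ)⁻¹)
    (hcen : h26Centered (chart (M * ℓ) A (jSS M ℓ)⁻¹) (chartVal (M * ℓ) (jSS M ℓ)⁻¹) 𝔫 i)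
    (W O : Subring (FF (M * ℓ)))
    (hVW : (h85cWinf A M ℓ hℓ hA).toSubring ⊓ (h85cW0 A M ℓ hℓ hM hA).toSubring ≤ W)
    (hOW : O ≤ W)
    (hAO : ∀ a : A, algebraMap A (FF (M * ℓ)) a ∈ O)
    (hO : ∀ f ∈ O, ∃ s : chart (M * ℓ) A (jSS M ℓ)⁻¹, s ∉ 𝔫 ∧
      (s : FF (M * ℓ)) * f ∈ chart (M * ℓ) A (jSS M ℓ)⁻¹)
    (sat : ∀ a : A, a ≠ 0 → ∀ f ∈ W, algebraMap A (FF (M * ℓ)) a * f ∈ O → f ∈ O)
    (D₀ : A) (w : FF (M * ℓ))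
    (hwV : w ∈ (h85cWinf A M ℓ hℓ hA).toSubring ⊓ (h85cW0 A M ℓ hℓ hM hA).toSubring)
    (hloc : ∃ o ∈ O, ∃ T ∈ W, w = o * (1 + algebraMap A (FF (M * ℓ)) D₀ * T)) :
    H82wDepth ((h85cWinf A M ℓ hℓ hA).toSubring ⊓ (h85cW0 A M ℓ hℓ hM hA).toSubring) D₀ w :=
  h18w_depth_level A M hℓ hM hA (jSS M ℓ)⁻¹ (h71_finite_inf' hℓ hM hA) 𝔫 h𝔫 hle i hcen W O hVW
    hOW hAO hO sat D₀ w hwV hloc

end Level

end Fermat.Agent.P7
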