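import Mathlib
import Fermat.Agent.P7.H18Depth

/-!
# W7 (S40), block (5b) T-CONST, leaf C4 (I4), chart form (helper18)

Chart-level inputs of `h18w_depth_of_point` (`P7/H18Depth.lean`), Mathlib only:

* `h18wVal B 𝔫 φ` : the value map `F → A` attached to a section `φ : B →ₐ[A] A` of the chart
  `B` through the closed point `𝔫` (`ker φ ≤ 𝔫`, `𝔪_A B ≤ 𝔫`): on the local ring
  `{f | ∃ s ∉ 𝔫, s f ∈ B}` it is `f ↦ φ(s f) / φ(s)`;
  `h18w_val_spec`, `h18w_val_sub`, `h18w_val_smul`.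
* `h18w_depth_of_section` : the exact depth dichotomy `H82wDepth V D₀ w` from the local form of
  `w` at ONE closed point `𝔫` of a chart carrying a section.
* `h18w_scale` : the scaling hypothesis of `h18w_depth_of_point` for `V = W₁ ⊓ W₂` from the
  Gauss scaling at `W₁` and at `W₂` (every nonzero function is a constant times a unit of
  `W_i`; shape of the landed `h90s_scale_inf`, `h90s_scale_zero`).
-/

set_option autoImplicit false
set_option linter.unusedSectionVars false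
set_option linter.unusedVariables false

open IsLocalRing

namespace Fermat.Agent.P7

section Val

variable {A : Type*} [CommRing A] [IsDomain A] [ValuationRing A]
  {F : Type*} [Field F] [Algebra A F]

/-- the value map attached to a section `φ` of the chart `B` through the closed point `𝔫`. -/
noncomputable def h18wVal (B : Subalgebra A F) (𝔫 : Ideal B) (φ : B →ₐ[A] A) (f : F) : A :=
  open Classical in
  if h : ∃ s : B, s ∉ 𝔫 ∧ (s : F) * f ∈ B then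
    Ring.inverse (φ h.choose) * φ ⟨(h.choose : F) * f, h.choose_spec.2⟩
  else 0

/-- a section through `𝔫` maps the complement of `𝔫` to units. -/
theorem h18w_phi_unit {B : Subalgebra A F} (𝔫 : Ideal B)
    (h𝔪𝔫 : (maximalIdeal A).map (algebraMap A B) ≤ 𝔫) (φ : B →ₐ[A] A)
    (hker : RingHom.ker (φ : B →+* A) ≤ 𝔫) {s : B} (hs : s ∉ 𝔫) : IsUnit (φ s) := by
  by_contra hne
  have hm : φ s ∈ maximalIdeal A := by rwa [mem_maximalIdeal, mem_nonunits_iff]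
  apply hs
  have h1 : s - algebraMap A B (φ s) ∈ 𝔫 := hker (by rw [RingHom.mem_ker]; simp)
  have h2 : algebraMap A B (φ s) ∈ 𝔫 := h𝔪𝔫 (Ideal.mem_map_of_mem _ hm)
  have := 𝔫.add_mem h1 h2
  simpa using this

/-- the value map is `φ(s f) / φ(s)` for every denominator `s ∉ 𝔫`. -/
theorem h18w_val_spec {B : Subalgebra A F} (𝔫 : Ideal B)
    (h𝔪𝔫 : (maximalIdeal A).map (algebraMap A B) ≤ 𝔫) (φ : B →ₐ[A] A)
    (hker : RingHom.ker (φ : B →+* A) ≤ 𝔫) {f : F} {s : B} (hs : s ∉ 𝔫)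
    (hsf : (s : F) * f ∈ B) :
    φ s * h18wVal B 𝔫 φ f = φ ⟨(s : F) * f, hsf⟩ := by
  classical
  have hex : ∃ s : B, s ∉ 𝔫 ∧ (s : F) * f ∈ B := ⟨s, hs, hsf⟩
  unfold h18wVal
  rw [dif_pos hex]
  have hu := h18w_phi_unit 𝔫 h𝔪𝔫 φ hker hex.choose_spec.1
  have key : φ s * φ ⟨(hex.choose : F) * f, hex.choose_spec.2⟩ =
      φ hex.choose * φ ⟨(s : F) * f, hsf⟩ := by
    rw [← map_mul, ← map_mul]
    congr 1
    apply Subtype.ext
    push_cast
    ring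
  calc φ s * (Ring.inverse (φ hex.choose) * φ ⟨(hex.choose : F) * f, hex.choose_spec.2⟩)
      = Ring.inverse (φ hex.choose) *
          (φ s * φ ⟨(hex.choose : F) * f, hex.choose_spec.2⟩) := by ring
    _ = Ring.inverse (φ hex.choose) * (φ hex.choose * φ ⟨(s : F) * f, hsf⟩) := by rw [key]
    _ = φ ⟨(s : F) * f, hsf⟩ := by
        rw [← mul_assoc, Ring.inverse_mul_cancel _ hu, one_mul]

/-- `val (o - a) = val o - a` on the local ring. -/
theorem h18w_val_sub {B : Subalgebra A F} (𝔫 : Ideal B)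
    (h𝔪𝔫 : (maximalIdeal A).map (algebraMap A B) ≤ 𝔫) (φ : B →ₐ[A] A)
    (hker : RingHom.ker (φ : B →+* A) ≤ 𝔫) {o : F}
    (ho : ∃ s : B, s ∉ 𝔫 ∧ (s : F) * o ∈ B) (a : A) :
    h18wVal B 𝔫 φ (o - algebraMap A F a) = h18wVal B 𝔫 φ o - a := by
  obtain ⟨s, hs, hso⟩ := ho
  have hu := h18w_phi_unit 𝔫 h𝔪𝔫 φ hker hs
  have hsa : (s : F) * (o - algebraMap A F a) ∈ B := by
    have e : (s : F) * (o - algebraMap A F a) = (s : F) * o - algebraMap A F a * (s : F) := by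
      ring
    rw [e]
    exact B.sub_mem hso (B.mul_mem (B.algebraMap_mem a) s.2)
  have h1 := h18w_val_spec 𝔫 h𝔪𝔫 φ hker hs hsa
  have h2 := h18w_val_spec 𝔫 h𝔪𝔫 φ hker hs hso
  have h3 : (⟨(s : F) * (o - algebraMap A F a), hsa⟩ : B) =
      ⟨(s : F) * o, hso⟩ - algebraMap A B a * s := by
    apply Subtype.ext
    push_cast
    ring
  rw [h3, map_sub, map_mul, AlgHom.commutes, ← h2] at h1
  have h4 : φ s * h18wVal B 𝔫 φ (o - algebraMap A F a) =
      φ s * (h18wVal B 𝔫 φ o - a) := by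
    rw [h1]
    simp only [Algebra.algebraMap_self, RingHom.id_apply]
    ring
  exact hu.mul_left_cancel h4

/-- `val (d o) = d val o` on the local ring. -/
theorem h18w_val_smul {B : Subalgebra A F} (𝔫 : Ideal B)
    (h𝔪𝔫 : (maximalIdeal A).map (algebraMap A B) ≤ 𝔫) (φ : B →ₐ[A] A)
    (hker : RingHom.ker (φ : B →+* A) ≤ 𝔫) {o : F}
    (ho : ∃ s : B, s ∉ 𝔫 ∧ (s : F) * o ∈ B) (d : A) :
    h18wVal B 𝔫 φ (algebraMap A F d * o) = d * h18wVal B 𝔫 φ o := by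
  obtain ⟨s, hs, hso⟩ := ho
  have hu := h18w_phi_unit 𝔫 h𝔪𝔫 φ hker hs
  have hsd : (s : F) * (algebraMap A F d * o) ∈ B := by
    have e : (s : F) * (algebraMap A F d * o) = algebraMap A F d * ((s : F) * o) := by ring
    rw [e]
    exact B.mul_mem (B.algebraMap_mem d) hso
  have h1 := h18w_val_spec 𝔫 h𝔪𝔫 φ hker hs hsd
  have h2 := h18w_val_spec 𝔫 h𝔪𝔫 φ hker hs hso
  have h3 : (⟨(s : F) * (algebraMap A F d * o), hsd⟩ : B) =
      algebraMap A B d * ⟨(s : F) * o, hso⟩ := by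
    apply Subtype.ext
    push_cast
    ring
  rw [h3, map_mul, AlgHom.commutes, ← h2] at h1
  have h4 : φ s * h18wVal B 𝔫 φ (algebraMap A F d * o) =
      φ s * (d * h18wVal B 𝔫 φ o) := by
    rw [h1]
    simp only [Algebra.algebraMap_self, RingHom.id_apply]
    ring
  exact hu.mul_left_cancel h4

/-- **the exact depth dichotomy from the local form at one closed point of a chart carrying a
section.** -/
theorem h18w_depth_of_section
    (hAF : Function.Injective (algebraMap A F))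
    (B : Subalgebra A F) (𝔫 : Ideal B)
    (h𝔪𝔫 : (maximalIdeal A).map (algebraMap A B) ≤ 𝔫) (φ : B →ₐ[A] A)
    (hker : RingHom.ker (φ : B →+* A) ≤ 𝔫)
    (V W O : Subring F) (hVW : V ≤ W) (hOW : O ≤ W)
    (hAV : ∀ a : A, algebraMap A F a ∈ V)
    (hAO : ∀ a : A, algebraMap A F a ∈ O)
    (hO : ∀ f ∈ O, ∃ s : B, s ∉ 𝔫 ∧ (s : F) * f ∈ B)
    (sat : ∀ a : A, a ≠ 0 → ∀ f ∈ W, algebraMap A F a * f ∈ O → f ∈ O)
    (scale : ∀ f ∈ V, f ≠ 0 →
      ∃ d : A, ∃ G ∈ V, f = algebraMap A F d * G ∧ G ∉ h82wM A V)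
    (D₀ : A) (w : F) (hwV : w ∈ V)
    (hloc : ∃ o ∈ O, ∃ T ∈ W, w = o * (1 + algebraMap A F D₀ * T)) :
    H82wDepth V D₀ w :=
  h18w_depth_of_point hAF V W O hVW hOW hAV hAO sat (h18wVal B 𝔫 φ)
    (fun o ho a => h18w_val_sub 𝔫 h𝔪𝔫 φ hker (hO o ho) a)
    (fun o ho d => h18w_val_smul 𝔫 h𝔪𝔫 φ hker (hO o ho) d)
    scale D₀ w hwV hloc

/-- a constant `p / q` lying in a ring `W` with `1 ∉ 𝔪_A W` is an element of `A`. -/
theorem h18w_const_mem {W : Subring F}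
    (hAF : Function.Injective (algebraMap A F))
    (hnt : ∀ m ∈ maximalIdeal A, ∀ y ∈ W, algebraMap A F m * y ≠ 1)
    {κ : F} (hκW : κ ∈ W)
    (hκ : ∃ p q : A, q ≠ 0 ∧ κ * algebraMap A F q = algebraMap A F p) :
    ∃ d : A, κ = algebraMap A F d := by
  obtain ⟨p, q, hq, hpq⟩ := hκ
  have hqF : algebraMap A F q ≠ 0 := fun h => hq (hAF (by rw [h, map_zero]))
  rcases ValuationRing.dvd_total q p with ⟨c, hc⟩ | ⟨c, hc⟩
  · -- `p = q c` : `κ = c`
    refine ⟨c, ?_⟩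
    apply mul_right_cancel₀ hqF
    rw [hpq, hc, map_mul]
    ring
  · -- `q = p c` : `κ c = 1`
    by_cases hcm : c ∈ maximalIdeal A
    · exfalso
      have hpF : algebraMap A F p ≠ 0 := by
        intro h
        apply hqF
        rw [hc, map_mul, h, zero_mul]
      apply hnt c hcm κ hκW
      apply mul_right_cancel₀ hpF
      rw [one_mul]
      calc algebraMap A F c * κ * algebraMap A F p
          = κ * (algebraMap A F p * algebraMap A F c) := by ring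
        _ = κ * algebraMap A F q := by rw [hc, map_mul]
        _ = algebraMap A F p := hpq
    · have hu : IsUnit c := by
        by_contra h
        exact hcm ((IsLocalRing.mem_maximalIdeal c).mpr h)
      obtain ⟨u, rfl⟩ := hu
      refine ⟨(↑u⁻¹ : A), ?_⟩
      have hpF : algebraMap A F p ≠ 0 := by
        intro h
        apply hqF
        rw [hc, map_mul, h, zero_mul]
      have huF : algebraMap A F (u : A) ≠ 0 := by
        intro h
        apply hqF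
        rw [hc, map_mul, h, mul_zero]
      apply mul_right_cancel₀ hqF
      rw [hpq, hc, map_mul]
      have h1 : algebraMap A F (↑u⁻¹ : A) * algebraMap A F (u : A) = 1 := by
        rw [← map_mul, Units.inv_mul, map_one]
      calc algebraMap A F p = algebraMap A F p *
            (algebraMap A F (↑u⁻¹ : A) * algebraMap A F (u : A)) := by rw [h1, mul_one]
        _ = algebraMap A F (↑u⁻¹ : A) * (algebraMap A F p * algebraMap A F (u : A)) := by ring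

/-- **scaling in `V = W₁ ⊓ W₂`** from the Gauss scaling at `W₁` and at `W₂`. -/
theorem h18w_scale
    (hAF : Function.Injective (algebraMap A F))
    (W₁ W₂ : Subring F)
    (hA₁ : ∀ a : A, algebraMap A F a ∈ W₁) (hA₂ : ∀ a : A, algebraMap A F a ∈ W₂)
    (hnt₁ : ∀ m ∈ maximalIdeal A, ∀ y ∈ W₁, algebraMap A F m * y ≠ 1)
    (hnt₂ : ∀ m ∈ maximalIdeal A, ∀ y ∈ W₂, algebraMap A F m * y ≠ 1)
    (hsc₁ : ∀ f : F, f ≠ 0 → ∃ κ : F,
      (∃ p q : A, q ≠ 0 ∧ κ * algebraMap A F q = algebraMap A F p) ∧ κ ≠ 0 ∧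
        f * κ⁻¹ ∈ W₁ ∧ (f * κ⁻¹)⁻¹ ∈ W₁)
    (hsc₂ : ∀ f : F, f ≠ 0 → ∃ κ : F,
      (∃ p q : A, q ≠ 0 ∧ κ * algebraMap A F q = algebraMap A F p) ∧ κ ≠ 0 ∧
        f * κ⁻¹ ∈ W₂ ∧ (f * κ⁻¹)⁻¹ ∈ W₂) :
    ∀ f ∈ W₁ ⊓ W₂, f ≠ 0 →
      ∃ d : A, ∃ G ∈ W₁ ⊓ W₂, f = algebraMap A F d * G ∧ G ∉ h82wM A (W₁ ⊓ W₂) := by
  intro f hf hf0
  obtain ⟨hf₁, hf₂⟩ := hf
  obtain ⟨κ₁, hκ₁c, hκ₁0, hg₁, hg₁'⟩ := hsc₁ f hf0
  obtain ⟨κ₂, hκ₂c, hκ₂0, hg₂, hg₂'⟩ := hsc₂ f hf0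
  -- the constants lie in `A`
  have hκ₁W : κ₁ ∈ W₁ := by
    have e : κ₁ = f * (f * κ₁⁻¹)⁻¹ := by
      field_simp
    rw [e]; exact W₁.mul_mem hf₁ hg₁'
  have hκ₂W : κ₂ ∈ W₂ := by
    have e : κ₂ = f * (f * κ₂⁻¹)⁻¹ := by
      field_simp
    rw [e]; exact W₂.mul_mem hf₂ hg₂'
  obtain ⟨d₁, hd₁⟩ := h18w_const_mem hAF hnt₁ hκ₁W hκ₁c
  obtain ⟨d₂, hd₂⟩ := h18w_const_mem hAF hnt₂ hκ₂W hκ₂c
  have hd₁F : algebraMap A F d₁ ≠ 0 := hd₁ ▸ hκ₁0
  have hd₂F : algebraMap A F d₂ ≠ 0 := hd₂ ▸ hκ₂0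
  rcases ValuationRing.dvd_total d₁ d₂ with ⟨c, hc⟩ | ⟨c, hc⟩
  · -- `d₂ = d₁ c` : scale by `d₁`
    refine ⟨d₁, f * κ₁⁻¹, ⟨hg₁, ?_⟩, ?_, ?_⟩
    · have hcF : algebraMap A F c ≠ 0 := by
        intro h
        apply hd₂F
        rw [hc, map_mul, h, mul_zero]
      have e : f * κ₁⁻¹ = algebraMap A F c * (f * κ₂⁻¹) := by
        rw [hd₁, hd₂, hc, map_mul]
        field_simp
      rw [e]
      exact W₂.mul_mem (hA₂ c) hg₂
    · rw [hd₁]
      field_simp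
    · rintro ⟨m, hm, y, hy, hmy⟩
      apply hnt₁ m hm (y * (f * κ₁⁻¹)⁻¹) (W₁.mul_mem hy.1 hg₁')
      have hne : f * κ₁⁻¹ ≠ 0 := mul_ne_zero hf0 (inv_ne_zero hκ₁0)
      rw [← mul_assoc, ← hmy, mul_inv_cancel₀ hne]
  · -- `d₁ = d₂ c` : scale by `d₂`
    refine ⟨d₂, f * κ₂⁻¹, ⟨?_, hg₂⟩, ?_, ?_⟩
    · have hcF : algebraMap A F c ≠ 0 := by
        intro h
        apply hd₁F
        rw [hc, map_mul, h, mul_zero]
      have e : f * κ₂⁻¹ = algebraMap A F c * (f * κ₁⁻¹) := by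
        rw [hd₁, hd₂, hc, map_mul]
        field_simp
      rw [e]
      exact W₁.mul_mem (hA₁ c) hg₁
    · rw [hd₂]
      field_simp
    · rintro ⟨m, hm, y, hy, hmy⟩
      apply hnt₂ m hm (y * (f * κ₂⁻¹)⁻¹) (W₂.mul_mem hy.2 hg₂')
      have hne : f * κ₂⁻¹ ≠ 0 := mul_ne_zero hf0 (inv_ne_zero hκ₂0)
      rw [← mul_assoc, ← hmy, mul_inv_cancel₀ hne]

end Val

end Fermat.Agent.P7
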