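import Fermat.Agent.Red.Nz.Final
import Fermat.Agent.Red.GateGoodMain

/-!
# Wave 7 (S40), block (5d) RED-EQUIV (helper18): NORMALIZE for every exponent, and RED-PRINC

Setting of P-RED (`S37/Defs.lean`, `S37/Gate.lean`): `ℓ` a prime, `M` a good level (`ℓ ∤ M`,
`auxLevel ℓ ∣ M`), `A` a valuation subring of `ℚ̄` over `ℓ`, `redKer M A` the divisors reducing
to zero, `redKerPic M A` their classes ("kernel of reduction"), `CongOne A w` (`w ≡ 1` modulo
`𝔪_A`).

* `h18s_normalize` : **NORMALIZE for every exponent** `r : ℤ` (in particular `r = ℓ`, `r = 1`):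
  a function whose divisor is `r` times a divisor of `redKer` can be scaled by a constant to be
  `≡ 1`.  (The landed `S37.IfaceNormalize` is stated for the primes `r ≠ ℓ`; the proof is the
  same.)
* `h18s_red_princ` : **RED-PRINC**.  If `div u = r · D₁ + R` with `R ∈ redKer` and the class of
  `D₁` lies in `redKerPic` (the reduction class `c(x)` vanishes), then `c · u / h ^ r ≡ 1` for a
  constant `c ≠ 0` and a function `h ≠ 0`: the Gauss reduction of `u` is a constant times an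
  `r`-th power.
-/

set_option autoImplicit false

open AlgebraicCurve ModularCurve Polynomial

noncomputable section

namespace Fermat.Agent.P7

open Fermat.Agent.S37 Fermat.Agent.Red.GV Fermat.Agent.Red.Match Fermat.Agent.Red
  Fermat.Agent.Red.Nz

/-- **NORMALIZE for every exponent.** -/
theorem h18s_normalize {ℓ : ℕ} (hℓ : ℓ.Prime) (M : ℕ) [NeZero M] (hM : ¬ ℓ ∣ M)
    (haux : auxLevel ℓ ∣ M) (A : ValuationSubring Kbar) (hA : A.LiesOverPrime ℓ)
    (r : ℤ) (D : Divisor Kbar (FF M)) (hD : D ∈ redKer M A)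
    (u : FF M) (hu : u ≠ 0) (hdiv : ∀ v : Place Kbar (FF M), v.ord u = r * D v) :
    ∃ c : Kbar, c ≠ 0 ∧ CongOne A (cst M c * u) := by
  have hloc : LocUnit := locUnit_of_gg (ggInputs_of_pieces GG.gatePieces)
  have : IsAlgClosed (IsLocalRing.ResidueField A) :=
    Fermat.Agent.S18.h72_residueField_isAlgClosed A
  obtain ⟨c₀, hc₀, hxV, hxiV⟩ := exists_cst_mul_unit A M hℓ hM hA u hu
  have hcst0 : cst M c₀ ≠ 0 := by
    simpa only [cst, ne_eq, map_eq_zero] using hc₀
  have hx0 : cst M c₀ * u ≠ 0 := mul_ne_zero hcst0 hu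
  have hord : ∀ v : Place Kbar (FF M), v.ord (cst M c₀ * u) = (r : ℤ) * D v := by
    intro v
    rw [v.ord_mul hcst0 hu, Fermat.Agent.S24.DiffPlace.ord_algebraMap, zero_add, hdiv]
  obtain ⟨hfin, hinf⟩ := hloc ℓ hℓ M hM haux A hA (cst M c₀ * u) hx0 hxV hxiV
  have hRf := modelFin_le_gaussV A M hℓ hM hA
  have hRi := modelInf_le_gaussV A M hℓ hM hA
  have hjV : jB M ∈ gaussV A M := hRf (h89_jB_mem_modelFin M A)
  have hjiV : (jB M)⁻¹ ∈ gaussV A M := hRi (h89_jB_inv_mem_modelInf M A)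
  -- Step 1: the reduction lies in the image of the finite chart
  have h1 : ∃ a : modelFin M A, h89_red (modelFin M A) hRf a =
      gaussR A M ⟨cst M c₀ * u, hxV⟩ := by
    apply h89_mem_range_of_local
    intro n hn hker
    have hmax : maxExt A (modelFin M A) ≤ n := (h89_maxExt_le_ker _ hRf).trans hker
    have hdz : LocDegZero A (modelFin M A) n (cst M c₀ * u) :=
      locDegZero_of_mem_redKer _ n (fun v w h => centeredAt_fin_of_sameRed h) hD _ r hord
    obtain ⟨a, b, -, hb, hab⟩ := hfin n hn hmax hdz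
    exact ⟨a, b, hb, h89_red_eq_of_gaussSmall _ hRf hxV a b hab⟩
  -- Step 2: the reduction lies in the image of the chart at infinity
  have h2 : ∃ a : modelInf M A, h89_red (modelInf M A) hRi a =
      gaussR A M ⟨cst M c₀ * u, hxV⟩ := by
    apply h89_mem_range_of_local
    intro n hn hker
    have hmax : maxExt A (modelInf M A) ≤ n := (h89_maxExt_le_ker _ hRi).trans hker
    by_cases hj : (⟨(jB M)⁻¹, h89_jB_inv_mem_modelInf M A⟩ : modelInf M A) ∈ n
    · have hdz : LocDegZero A (modelInf M A) n (cst M c₀ * u) :=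
        locDegZero_of_mem_redKer _ n (fun v w h => centeredAt_inf_of_sameRed hj h) hD _ r hord
      obtain ⟨a, b, -, hb, hab⟩ := hinf n hn hmax (fun _ => hj) hdz
      exact ⟨a, b, hb, h89_red_eq_of_gaussSmall _ hRi hxV a b hab⟩
    · obtain ⟨a, ha⟩ := h1
      have ha1 : (evalF M A (jB M)).IsIntegralElem (a : FF M) :=
        (isIntegralElem_subtype_iff M A (jB M) a).mp a.2
      obtain ⟨m, hm⟩ := h89_isIntegralElem_inv_pow_mul _ (jB M) (h89_jB_ne_zero M) (a : FF M) ha1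
      have hm' : (jB M)⁻¹ ^ m * (a : FF M) ∈ modelInf M A :=
        (isIntegralElem_subtype_iff M A (jB M)⁻¹ _).mpr hm
      refine ⟨⟨_, hm'⟩, (⟨(jB M)⁻¹, h89_jB_inv_mem_modelInf M A⟩ : modelInf M A) ^ m,
        fun h => hj (hn.isPrime.mem_of_pow_mem m h), ?_⟩
      rw [← ha, h89_red_apply, h89_red_apply, h89_red_apply, ← map_mul]
      exact h89_gaussR_congr _ _ (mul_comm _ _)
  -- Step 3: the reduction is algebraic over `k`, hence constant
  obtain ⟨a, ha⟩ := h1
  obtain ⟨b, hb⟩ := h2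
  have hi1 := h89_isIntegralElem_red (jB M) hjV (a : FF M) a.2 (hRf a.2)
  have hi2 := h89_isIntegralElem_red (jB M)⁻¹ hjiV (b : FF M) b.2 (hRi b.2)
  rw [h89_red_apply] at ha hb
  rw [ha] at hi1
  rw [hb] at hi2
  have hjinv : gaussR A M ⟨(jB M)⁻¹, hjiV⟩ = (gaussR A M ⟨jB M, hjV⟩)⁻¹ := by
    have h3 : (⟨jB M, hjV⟩ : gaussV A M) * ⟨(jB M)⁻¹, hjiV⟩ = 1 :=
      Subtype.ext (mul_inv_cancel₀ (h89_jB_ne_zero M))
    have h4 := congrArg (gaussR A M) h3
    rw [map_mul, map_one] at h4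
    exact eq_inv_of_mul_eq_one_right h4
  rw [hjinv] at hi2
  have halg := h89_isAlgebraic_of_isIntegralElem _ _ hi1 hi2
  obtain ⟨c, hc⟩ := h89_exists_algebraMap_eq_of_isAlgebraic halg
  rw [h89_algebraMap_eq_C] at hc
  obtain ⟨c', rfl⟩ := IsLocalRing.residue_surjective c
  -- `c'` is a unit of `A`
  have hxne : gaussR A M ⟨cst M c₀ * u, hxV⟩ ≠ 0 := by
    intro h0
    rcases (gaussR_eq_zero_iff A M hℓ hM hA _).mp h0 with h3 | h3
    · exact hx0 h3
    · exact h3 hxiV
  have hc'u : IsUnit c' := by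
    by_contra hnu
    apply hxne
    rw [← hc, (IsLocalRing.residue_eq_zero_iff c').mpr hnu, map_zero]
  obtain ⟨d, hd⟩ := hc'u.exists_left_inv
  have hd0 : (d : Kbar) ≠ 0 := by
    intro h0
    have h3 : ((d * c' : A) : Kbar) = 0 := by
      rw [MulMemClass.coe_mul, h0, zero_mul]
    rw [hd] at h3
    exact one_ne_zero h3
  refine ⟨(d : Kbar) * c₀, mul_ne_zero hd0 hc₀, ?_⟩
  rw [congOne_iff_gaussR A M hℓ hM hA]
  have heq : cst M ((d : Kbar) * c₀) * u = cst M (d : Kbar) * (cst M c₀ * u) := by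
    simp only [cst, map_mul]
    ring
  have hmem : cst M ((d : Kbar) * c₀) * u ∈ gaussV A M := by
    rw [heq]
    exact mul_mem (h89_cst_mem_gaussV d) hxV
  refine ⟨hmem, ?_⟩
  have h5 : (⟨cst M ((d : Kbar) * c₀) * u, hmem⟩ : gaussV A M) =
      ⟨cst M (d : Kbar), h89_cst_mem_gaussV d⟩ * ⟨cst M c₀ * u, hxV⟩ := Subtype.ext heq
  rw [h5, map_mul, h89_gaussR_cst, ← hc, ← map_mul, ← map_mul, hd, map_one, map_one]

/-- **RED-PRINC.**  If `div u = r · D₁ + R` with `R ∈ redKer` and the class of `D₁` lies in the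
kernel of reduction `redKerPic`, then `c · u · f ^ r ≡ 1` for a constant `c ≠ 0` and a function
`f ≠ 0`: the Gauss reduction of `u` is a constant times an `r`-th power. -/
theorem h18s_red_princ {ℓ : ℕ} (hℓ : ℓ.Prime) (M : ℕ) [NeZero M] (hM : ¬ ℓ ∣ M)
    (haux : auxLevel ℓ ∣ M) (A : ValuationSubring Kbar) (hA : A.LiesOverPrime ℓ)
    (r : ℕ) (u : FF M) (hu : u ≠ 0) (D₁ : Divisor.degZero (K := Kbar) (F := FF M))
    (R : Divisor Kbar (FF M)) (hR : R ∈ redKer M A)
    (hdiv : ∀ v : Place Kbar (FF M), v.ord u = (r : ℤ) * (D₁ : Divisor Kbar (FF M)) v + R v)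
    (hc : Pic0.mk D₁ ∈ redKerPic M A) :
    ∃ c : Kbar, c ≠ 0 ∧ ∃ f : FF M, f ≠ 0 ∧ CongOne A (cst M c * (u * f ^ r)) := by
  obtain ⟨D', hD', hmk⟩ := hc
  have h1 : -D₁ + D' ∈ (Divisor.principal (K := Kbar) (F := FF M)).addSubgroupOf
      (Divisor.degZero (K := Kbar) (F := FF M)) := QuotientAddGroup.eq.mp hmk
  obtain ⟨f, hf, hfD⟩ : Divisor.IsPrincipal ((-D₁ + D' : Divisor.degZero (K := Kbar)
      (F := FF M)) : Divisor Kbar (FF M)) := h1
  have hw0 : u * f ^ r ≠ 0 := mul_ne_zero hu (pow_ne_zero _ hf)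
  have hDmem : R + (r : ℤ) • (D' : Divisor Kbar (FF M)) ∈ redKer M A :=
    (redKer M A).add_mem hR ((redKer M A).zsmul_mem hD' _)
  have hord : ∀ v : Place Kbar (FF M),
      v.ord (u * f ^ r) = 1 * (R + (r : ℤ) • (D' : Divisor Kbar (FF M))) v := by
    intro v
    have h2 := hfD v
    have h3 : ((-D₁ + D' : Divisor.degZero (K := Kbar) (F := FF M)) : Divisor Kbar (FF M)) v =
        -((D₁ : Divisor Kbar (FF M)) v) + (D' : Divisor Kbar (FF M)) v := by
      simp
    rw [h3] at h2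
    have h4 : v.ord (f ^ r) = (r : ℤ) * v.ord f := by
      rw [← zpow_natCast, v.ord_zpow]
    rw [v.ord_mul hu (pow_ne_zero _ hf), hdiv v, h4, ← h2, one_mul, Finsupp.add_apply,
      Finsupp.smul_apply, smul_eq_mul]
    ring
  obtain ⟨c, hc0, hcong⟩ := h18s_normalize hℓ M hM haux A hA 1 _ hDmem (u * f ^ r) hw0 hord
  exact ⟨c, hc0, f, hf, hcong⟩

end Fermat.Agent.P7
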