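import Fermat.Agent.P7.H19EigenFun

/-!
# Wave 7 (S44 / S40), block (E) T-EIS, adapter (helper19): from functions to classes

The converse of `P7/H19EigenFun.lean`: the end shape (I-1) SLOPE-ZERO (`H16tSlopeZero`, helper16 /
helper98) is function-level (`u ≠ 0`, `p ∣ div u`, `T_l u = h ^ p · u ^ c`), the landed T-EIS
assembly (`h5e_all`, helper5) is class-level (`IsKummerPair p x u`, `T_l x = c • x`).

* `h19c_exists_class` : `u ≠ 0` with `n ∣ div u` is a Kummer representative of a class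
  `x ∈ J₀(N)` (`x = [(1/n) div u]`).
* `h19c_eigen_class` : `IsKummerPair n x u` and `T_l u = h ^ n · u ^ c` `⟹` `T_l x = c • x`.
* `h19c_gal_class` : `IsKummerPair n x u` and `σ u = h ^ n · u ^ c` `⟹` `σ • x = c • x`.
* `h19c_class_of_fun` : both at once: `u ≠ 0`, `n ∣ div u`, `T_l u = h ^ n · u ^ c` `⟹`
  `∃ x, IsKummerPair n x u ∧ T_l x = c • x`.
-/

set_option autoImplicit false
set_option linter.unusedSectionVars false
set_option linter.style.haveILetI false

open ModularCurve AlgebraicCurve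

noncomputable section

namespace Fermat.Agent.P7

open Fermat.Agent.S37 Fermat.Agent.Jac.K1

section Abs

variable {K F : Type*} [Field K] [Field F] [Algebra K F]

/-- a function whose divisor is divisible by `n` is a Kummer representative. -/
theorem h19c_exists_class_abs [HasPrincipalDivisors K F] {n : ℕ} (hn : n ≠ 0) {u : F}
    (hu : u ≠ 0) (hord : ∀ v : Place K F, (n : ℤ) ∣ v.ord u) :
    ∃ x : Pic0 K F, IsKummerPair n x u := by
  obtain ⟨D, hD, hdeg⟩ := HasPrincipalDivisors.exists_divisor (K := K) u hu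
  let E : Divisor K F := D.mapRange (fun a : ℤ => a / (n : ℤ)) (Int.zero_ediv _)
  have hE : ∀ v : Place K F, (n : ℤ) * E v = v.ord u := by
    intro v
    show (n : ℤ) * (D v / (n : ℤ)) = v.ord u
    rw [hD v]
    exact Int.mul_ediv_cancel' (hord v)
  have hnE : (n : ℤ) • E = D := by
    ext v
    rw [Finsupp.smul_apply, smul_eq_mul, hE, hD]
  have hdegE : Divisor.degree E = 0 := by
    have h1 : (n : ℤ) • Divisor.degree E = 0 := by rw [← map_zsmul, hnE, hdeg]
    rcases smul_eq_zero.1 h1 with h | h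
    · exact absurd h (Int.natCast_ne_zero.2 hn)
    · exact h
  exact ⟨Pic0.mk ⟨E, Divisor.mem_degZero.2 hdegE⟩, hu, ⟨E, Divisor.mem_degZero.2 hdegE⟩, rfl, hE⟩

/-- `g = κ · h ^ n · u ^ c` with `g` representing `y` and `u` representing `x`: `y = c • x`. -/
theorem h19c_class_rel [HasPrincipalDivisors K F] {n : ℕ} (hn : n ≠ 0) {x y : Pic0 K F}
    {u g h : F} (hx : IsKummerPair n x u) (hy : IsKummerPair n y g) (c : ℤ) (hh : h ≠ 0)
    (hrel : g = h ^ n * u ^ c) : y = c • x := by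
  have h1 : IsKummerPair n (0 : Pic0 K F) (h ^ n) := IsKummerPair.pow hh
  have h2 : IsKummerPair n (0 + c • x) (h ^ n * u ^ c) := h1.mul (h19e_kummer_zsmul hx c)
  rw [zero_add, ← hrel] at h2
  exact IsKummerPair.class_unique hn hy h2

end Abs

section Level

variable (N : ℕ) [NeZero N]

/-- a function of level `N` whose divisor is divisible by `n` is a Kummer representative of a
class of `J₀(N)`. -/
theorem h19c_exists_class {n : ℕ} (hn : n ≠ 0) {u : FF N} (hu : u ≠ 0)
    (hord : ∀ v : Place Kbar (FF N), (n : ℤ) ∣ v.ord u) :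
    ∃ x : JZero N, IsKummerPair n x u :=
  haveI := hasPrincipalDivisors_FF N
  h19c_exists_class_abs hn hu hord

/-- `T_l u = h ^ n · u ^ c` `⟹` `T_l x = c • x`. -/
theorem h19c_eigen_class {l : ℕ} (hl : l.Prime) {n : ℕ} (hn : n ≠ 0) {x : JZero N}
    {u : FF N} (hx : IsKummerPair n x u) (c : ℤ) {h : FF N} (hh : h ≠ 0)
    (hrel : haveI : NeZero l := ⟨hl.ne_zero⟩
      h19vT N l u = h ^ n * u ^ c) :
    heckeOperatorBar N ⟨l, hl⟩ x = c • x := by
  haveI : NeZero l := ⟨hl.ne_zero⟩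
  haveI := hasPrincipalDivisors_FF N
  exact h19c_class_rel hn hx (h19v_kummer_T N hl hx) c hh hrel

/-- `σ u = h ^ n · u ^ c` `⟹` `σ • x = c • x`. -/
theorem h19c_gal_class {n : ℕ} (hn : n ≠ 0) {x : JZero N} {u : FF N}
    (hx : IsKummerPair n x u) (σ : GQ) (c : ℤ) {h : FF N} (hh : h ≠ 0)
    (hrel : gal N σ • u = h ^ n * u ^ c) : σ • x = c • x := by
  haveI := hasPrincipalDivisors_FF N
  exact h19c_class_rel hn hx (kummerPair_JZero_galois N hx σ) c hh hrel

/-- `σ u = u` `⟹` `σ • x = x`. -/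
theorem h19c_gal_fix {n : ℕ} (hn : n ≠ 0) {x : JZero N} {u : FF N}
    (hx : IsKummerPair n x u) (σ : GQ) (hrel : gal N σ • u = u) : σ • x = x := by
  have h := h19c_gal_class N hn hx σ 1 (h := 1) one_ne_zero
    (by rw [hrel, one_pow, one_mul, zpow_one])
  rwa [one_smul] at h

/-- from functions to classes: `u ≠ 0`, `n ∣ div u`, `T_l u = h ^ n · u ^ c` `⟹`
`∃ x, IsKummerPair n x u ∧ T_l x = c • x`. -/
theorem h19c_class_of_fun {l : ℕ} (hl : l.Prime) {n : ℕ} (hn : n ≠ 0) {u : FF N} (hu : u ≠ 0)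
    (hord : ∀ v : Place Kbar (FF N), (n : ℤ) ∣ v.ord u) (c : ℤ) {h : FF N} (hh : h ≠ 0)
    (hrel : haveI : NeZero l := ⟨hl.ne_zero⟩
      h19vT N l u = h ^ n * u ^ c) :
    ∃ x : JZero N, IsKummerPair n x u ∧ heckeOperatorBar N ⟨l, hl⟩ x = c • x := by
  obtain ⟨x, hx⟩ := h19c_exists_class N hn hu hord
  exact ⟨x, hx, h19c_eigen_class N hl hn hx c hh hrel⟩

end Level

end Fermat.Agent.P7
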