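import Fermat.Agent.P7.H19EigenFun
import Fermat.Agent.P7.H44Slope

/-!
# Wave 7 (S40 / S44), block (E) T-EIS, step (iii) (helper19): the slope of an eigenclass

`p ∤ M` a prime, `A` over `p`, `N = M p`, `e` a place of the special fibre `kC = h13sFt A M`,
`m_e(u) = h44slSlope A M p u e ∈ ZMod p` the slope (helper44, `P7/H44Slope.lean`),
`T_l u = Nm_α (β u)` (`h19vT`).

* `h19es_ord_zpow`, `h19es_slope_zpow` : `ord_e`, `m_e` of an integral power.
* `h19es_slope_rel` : `g = h ^ p · u ^ c` `⟹` `m_e(g) = c · m_e(u)`.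
* `h19es_slope_kummer` : two Kummer representatives `u` of `x` and `g` of `y = c • x`
  (`p`-torsion classes of `J₀(M p)`): `m_e(g) = c · m_e(u)`.  In particular (`c = 1`) the slope
  depends only on the class.
* `h19es_slope_T` : **(iii)** `T_l x = c • x` `⟹` `m_e(T_l u) = c · m_e(u)`.
* `h19es_slope_gal` : `σ • x = c • x` `⟹` `m_e(σ u) = c · m_e(u)` (any `σ ∈ G_ℚ`).
* `h19es_slope_toric` : if `σ` lies in the inertia group of `A` and `σ • x = c • x` with
  `c ≢ 1` modulo `p`, then all slopes of `u` vanish.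
-/

set_option autoImplicit false
set_option linter.unusedSectionVars false
set_option linter.style.haveILetI false

open ModularCurve AlgebraicCurve

noncomputable section

namespace Fermat.Agent.P7

open Fermat.Agent.S37 Fermat.Agent.Jac.K1 Fermat.Agent.P5

variable {A : ValuationSubring Kbar} {M p : ℕ} [NeZero M] [NeZero p]

section Slope

variable (hp : p.Prime) (hM : ¬ p ∣ M) (hA : A.LiesOverPrime p)

include hp hM hA

/-- the order of the scaled reduction of an integral power. -/
theorem h19es_ord_zpow (u : FF (M * p)) (c : ℤ) (e : Place (h13sK A) (h13sFt A M)) :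
    h44slOrd A M p (u ^ c) e = c * h44slOrd A M p u e := by
  obtain ⟨n, rfl | rfl⟩ := c.eq_nat_or_neg
  · rw [zpow_natCast, h44sl_ord_pow hp hM hA]
  · rw [zpow_neg, zpow_natCast, h44sl_ord_inv hp hM hA, h44sl_ord_pow hp hM hA]
    ring

/-- the slope of an integral power. -/
theorem h19es_slope_zpow (u : FF (M * p)) (c : ℤ) (e : Place (h13sK A) (h13sFt A M)) :
    h44slSlope A M p (u ^ c) e = (c : ZMod p) * h44slSlope A M p u e := by
  unfold h44slSlope
  rw [h19es_ord_zpow hp hM hA, Int.cast_mul]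

/-- `g = h ^ p · u ^ c` `⟹` `m_e(g) = c · m_e(u)`. -/
theorem h19es_slope_rel {u g h : FF (M * p)} (hu : u ≠ 0) (hh : h ≠ 0) (c : ℤ)
    (hg : g = h ^ p * u ^ c) (e : Place (h13sK A) (h13sFt A M)) :
    h44slSlope A M p g e = (c : ZMod p) * h44slSlope A M p u e := by
  rw [hg, h44sl_slope_mul hp hM hA (pow_ne_zero p hh) (zpow_ne_zero c hu),
    h44sl_slope_pow_p hp hM hA, zero_add, h19es_slope_zpow hp hM hA]

/-- two Kummer representatives `u` of `x` and `g` of `y = c • x`: `m_e(g) = c · m_e(u)`. -/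
theorem h19es_slope_kummer {x y : JZero (M * p)} {u g : FF (M * p)}
    (hx : IsKummerPair p x u) (hy : IsKummerPair p y g) (c : ℤ) (hc : y = c • x)
    (e : Place (h13sK A) (h13sFt A M)) :
    h44slSlope A M p g e = (c : ZMod p) * h44slSlope A M p u e := by
  obtain ⟨h, hh, hg⟩ := h19e_kummer_rel_FF (M * p) hp.ne_zero hx hy c hc
  exact h19es_slope_rel hp hM hA hx.ne_zero hh c hg e

/-- the slope depends only on the class. -/
theorem h19es_slope_class {x : JZero (M * p)} {u g : FF (M * p)}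
    (hx : IsKummerPair p x u) (hy : IsKummerPair p x g)
    (e : Place (h13sK A) (h13sFt A M)) :
    h44slSlope A M p g e = h44slSlope A M p u e := by
  have h := h19es_slope_kummer hp hM hA hx hy 1 (one_smul ℤ x).symm e
  rwa [Int.cast_one, one_mul] at h

/-- **(iii)** `T_l x = c • x` `⟹` `m_e(T_l u) = c · m_e(u)`. -/
theorem h19es_slope_T {l : ℕ} (hl : l.Prime) {x : JZero (M * p)} {u : FF (M * p)}
    (hu : IsKummerPair p x u) (c : ℤ)
    (hc : heckeOperatorBar (M * p) ⟨l, hl⟩ x = c • x)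
    (e : Place (h13sK A) (h13sFt A M)) :
    haveI : NeZero l := ⟨hl.ne_zero⟩
    h44slSlope A M p (h19vT (M * p) l u) e = (c : ZMod p) * h44slSlope A M p u e := by
  haveI : NeZero l := ⟨hl.ne_zero⟩
  exact h19es_slope_kummer hp hM hA hu (h19v_kummer_T (M * p) hl hu) c hc e

/-- `σ • x = c • x` `⟹` `m_e(σ u) = c · m_e(u)`. -/
theorem h19es_slope_gal {x : JZero (M * p)} {u : FF (M * p)}
    (hu : IsKummerPair p x u) (σ : GQ) (c : ℤ) (hc : σ • x = c • x)
    (e : Place (h13sK A) (h13sFt A M)) :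
    h44slSlope A M p (gal (M * p) σ • u) e = (c : ZMod p) * h44slSlope A M p u e :=
  h19es_slope_kummer hp hM hA hu (kummerPair_JZero_galois (M * p) hu σ) c hc e

/-- if `σ` lies in the inertia group of `A` and `σ • x = c • x` with `c ≢ 1` modulo `p`, then
all slopes of `u` vanish. -/
theorem h19es_slope_toric {x : JZero (M * p)} {u : FF (M * p)}
    (hu : IsKummerPair p x u) {σ : GQ} (hσ : σ ∈ A.inertiaSubgroupIn ℚ) (c : ℤ)
    (hc : σ • x = c • x) (hc1 : ¬ (p : ℤ) ∣ c - 1)
    (e : Place (h13sK A) (h13sFt A M)) :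
    h44slSlope A M p u e = 0 := by
  haveI : Fact p.Prime := ⟨hp⟩
  have h1 := h19es_slope_gal hp hM hA hu σ c hc e
  rw [h44sl_slope_gal hp hM hA hσ] at h1
  have h2 : ((c : ZMod p) - 1) * h44slSlope A M p u e = 0 := by
    rw [sub_mul, one_mul, ← h1, sub_self]
  rcases mul_eq_zero.mp h2 with h | h
  · exfalso
    apply hc1
    have h3 : ((c - 1 : ℤ) : ZMod p) = 0 := by
      rw [Int.cast_sub, Int.cast_one]
      exact h
    exact (ZMod.intCast_zmod_eq_zero_iff_dvd _ p).mp h3
  · exact h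

end Slope

end Fermat.Agent.P7
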