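import Mathlib

/-!
# Wave 7 (S44), block LOCAL-FREY, leaf KOLCHIN (helper19): unipotent groups on a plane

`k` a field, `V` a `k`-vector space of dimension `2`, `ρ : G →* End_k V` with
`(ρ g - 1) ^ 2 = 0` for every `g`, `s ∈ G` with `ρ s ≠ 1`, `N_g = ρ g - 1`.

* `h19k_ker_eq_range` : `N² = 0`, `N ≠ 0` on a plane `⟹` `ker N = range N` is a line.
* `h19k_eq_smul` : `N' = i • N` as soon as `N'` kills `ker N` and maps into `ker N`.
* `h19k_kolchin` : **Kolchin for a plane**: for every `a` there is `i : k` with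
  `ρ a v = v + i • (ρ s v - v)` for all `v`.
* `h19k_kolchin_sub` : the same for a subgroup `H ≤ Γ`, `ρ : Γ →* End_k V` unipotent on `H`.
* `h19k_line` : `ker (ρ s - 1) = range (ρ s - 1)` has dimension `1`; `h19k_fix_line` : every
  `ρ a`, `a ∈ H`, fixes `T = ρ s v₀ - v₀`.
* `h19k_stab_trivial` : if `a ∈ H` fixes ONE vector `v₀` with `ρ s v₀ ≠ v₀`, then `ρ a = 1`.
* `h19k_normal`, `h19k_normal_eigen` : **normal subgroup form**: if `b s b⁻¹ ∈ H`, then `ρ b`
  preserves the line `L = range (ρ s - 1)`; `ρ b T = c • T` for `T = ρ s v₀ - v₀ ≠ 0`.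
* `h19k_zmod` : the case `k = ZMod p`: `ρ a v = v + i • (ρ s v - v)` with `i : ℕ`, `i < p`, and
  `ρ a = ρ (s ^ i)` (the image of `H` is cyclic, generated by `ρ s`).
* `h19k_unip_of_apply` : the action form `g² v - 2 g v + v = 0` of unipotency;
  `h19k_pow_apply` : `(ρ s) ^ n v = v + n • (ρ s v - v)`.
-/

set_option autoImplicit false

open Module

noncomputable section

namespace Fermat.Agent.P7

section Plane

variable {k V : Type*} [Field k] [AddCommGroup V] [Module k V]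

/-- `N² = 0`, `N ≠ 0` on a plane: `ker N = range N` is a line. -/
theorem h19k_ker_eq_range (hV : finrank k V = 2) (N : Module.End k V) (hN2 : N * N = 0)
    (hN : N ≠ 0) :
    LinearMap.ker N = LinearMap.range N ∧ finrank k (LinearMap.range N) = 1 := by
  have : FiniteDimensional k V := Module.finite_of_finrank_pos (by omega)
  have hle : LinearMap.range N ≤ LinearMap.ker N := by
    rintro _ ⟨v, rfl⟩
    rw [LinearMap.mem_ker]
    have h := LinearMap.congr_fun hN2 v
    simpa using h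
  have hsum := LinearMap.finrank_range_add_finrank_ker N
  have hr : 0 < finrank k (LinearMap.range N) := by
    rw [Module.finrank_pos_iff_exists_ne_zero]
    by_contra hcon
    have hcon' : ∀ x : LinearMap.range N, x = 0 := fun x =>
      by_contra fun hx => hcon ⟨x, hx⟩
    apply hN
    ext v
    have h := hcon' ⟨N v, LinearMap.mem_range_self N v⟩
    simpa using congrArg Subtype.val h
  have hmono := Submodule.finrank_mono hle
  have h1 : finrank k (LinearMap.range N) = 1 := by omega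
  have h2 : finrank k (LinearMap.ker N) = 1 := by omega
  exact ⟨(Submodule.eq_of_le_of_finrank_eq hle (by rw [h1, h2])).symm, h1⟩

/-- elements of a line are multiples of any nonzero element. -/
theorem h19k_line_smul {L : Submodule k V} (hL : finrank k L = 1) {u x : V} (hu : u ∈ L)
    (hu0 : u ≠ 0) (hx : x ∈ L) : ∃ c : k, x = c • u := by
  have hu' : (⟨u, hu⟩ : L) ≠ 0 := fun h => hu0 (congrArg Subtype.val h)
  obtain ⟨c, hc⟩ := (finrank_eq_one_iff_of_nonzero' (⟨u, hu⟩ : L) hu').mp hL ⟨x, hx⟩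
  exact ⟨c, by simpa using (congrArg Subtype.val hc).symm⟩

/-- two lines with a common nonzero vector are equal. -/
theorem h19k_line_eq {L L' : Submodule k V} (hL : finrank k L = 1) (hL' : finrank k L' = 1)
    {x : V} (hx : x ∈ L) (hx' : x ∈ L') (hx0 : x ≠ 0) : L = L' := by
  apply le_antisymm
  · intro y hy
    obtain ⟨c, rfl⟩ := h19k_line_smul hL hx hx0 hy
    exact L'.smul_mem c hx'
  · intro y hy
    obtain ⟨c, rfl⟩ := h19k_line_smul hL' hx' hx0 hy
    exact L.smul_mem c hx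

/-- `N' = i • N` as soon as `N'` kills `ker N` and maps into `ker N`. -/
theorem h19k_eq_smul (hV : finrank k V = 2) (N N' : Module.End k V) (hN2 : N * N = 0)
    (hN : N ≠ 0) (hker : ∀ v, N v = 0 → N' v = 0) (hran : ∀ v, N (N' v) = 0) :
    ∃ i : k, ∀ v, N' v = i • N v := by
  obtain ⟨hkr, h1⟩ := h19k_ker_eq_range hV N hN2 hN
  have hL : finrank k (LinearMap.ker N) = 1 := by rw [hkr]; exact h1
  obtain ⟨v₀, hv₀⟩ : ∃ v₀, N v₀ ≠ 0 := by
    by_contra hcon
    have hcon' : ∀ v, N v = 0 := fun v => by_contra fun hv => hcon ⟨v, hv⟩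
    exact hN (LinearMap.ext fun v => by simpa using hcon' v)
  have hu : N v₀ ∈ LinearMap.ker N := by
    rw [hkr]
    exact LinearMap.mem_range_self N v₀
  obtain ⟨i, hi⟩ := h19k_line_smul hL hu hv₀ (LinearMap.mem_ker.mpr (hran v₀))
  refine ⟨i, fun v => ?_⟩
  have hNv : N v ∈ LinearMap.ker N := by
    rw [hkr]
    exact LinearMap.mem_range_self N v
  obtain ⟨c, hc⟩ := h19k_line_smul hL hu hv₀ hNv
  have h0 : N (v - c • v₀) = 0 := by
    rw [map_sub, map_smul, hc, sub_self]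
  have h2 := hker _ h0
  rw [map_sub, map_smul, sub_eq_zero] at h2
  rw [h2, hi, hc, smul_smul, smul_smul, mul_comm]

variable {G : Type*} [Group G]

/-- the key step: two unipotent elements of a unipotent group on a plane have the same line. -/
theorem h19k_same_line (hV : finrank k V = 2) (ρ : G →* Module.End k V)
    (hun : ∀ g, (ρ g - 1) * (ρ g - 1) = 0) {s a : G} (hs : ρ s ≠ 1) (ha : ρ a ≠ 1) :
    LinearMap.ker (ρ a - 1) = LinearMap.ker (ρ s - 1) := by
  have : FiniteDimensional k V := Module.finite_of_finrank_pos (by omega)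
  have hs' : ρ s - 1 ≠ 0 := sub_ne_zero.mpr hs
  have ha' : ρ a - 1 ≠ 0 := sub_ne_zero.mpr ha
  obtain ⟨hks, h1s⟩ := h19k_ker_eq_range hV _ (hun s) hs'
  obtain ⟨hka, h1a⟩ := h19k_ker_eq_range hV _ (hun a) ha'
  have hLs : finrank k (LinearMap.ker (ρ s - 1)) = 1 := by rw [hks]; exact h1s
  have hLa : finrank k (LinearMap.ker (ρ a - 1)) = 1 := by rw [hka]; exact h1a
  by_contra hne
  -- a nonzero vector `v` of `L_s`
  obtain ⟨v, hv, hv0⟩ : ∃ v, v ∈ LinearMap.ker (ρ s - 1) ∧ v ≠ 0 := by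
    have hpos : 0 < finrank k (LinearMap.ker (ρ s - 1)) := by omega
    obtain ⟨x, hx⟩ := Module.finrank_pos_iff_exists_ne_zero.mp hpos
    exact ⟨x, x.2, fun h => hx (Subtype.ext h)⟩
  have hsv : ρ s v = v := by
    have := LinearMap.mem_ker.mp hv
    rwa [LinearMap.sub_apply, Module.End.one_apply, sub_eq_zero] at this
  -- `w = N_a v ≠ 0`, `w ∈ L_a`
  set w := (ρ a - 1) v with hw
  have hw0 : w ≠ 0 := by
    intro h0
    exact hne (h19k_line_eq hLa hLs (LinearMap.mem_ker.mpr h0) hv hv0)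
  have hwa : w ∈ LinearMap.ker (ρ a - 1) := by
    rw [hka]
    exact LinearMap.mem_range_self _ v
  have haw : ρ a w = w := by
    have := LinearMap.mem_ker.mp hwa
    rwa [LinearMap.sub_apply, Module.End.one_apply, sub_eq_zero] at this
  -- `u = N_s w ≠ 0`, `u ∈ L_s`
  set u := (ρ s - 1) w with hu
  have hu0 : u ≠ 0 := by
    intro h0
    exact hne (h19k_line_eq hLa hLs hwa (LinearMap.mem_ker.mpr h0) hw0)
  have hus : u ∈ LinearMap.ker (ρ s - 1) := by
    rw [hks]
    exact LinearMap.mem_range_self _ w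
  -- `(ρ (a s) - 1)² v = u + N_a u`
  have h1 : (ρ (a * s) - 1) v = w := by
    rw [LinearMap.sub_apply, Module.End.one_apply, map_mul, Module.End.mul_apply, hsv, hw,
      LinearMap.sub_apply, Module.End.one_apply]
  have hsw : ρ s w = w + u := by
    rw [hu, LinearMap.sub_apply, Module.End.one_apply]
    abel
  have h2 : (ρ (a * s) - 1) w = u + (ρ a - 1) u := by
    rw [LinearMap.sub_apply, Module.End.one_apply, map_mul, Module.End.mul_apply, hsw, map_add,
      haw, LinearMap.sub_apply, Module.End.one_apply]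
    abel
  have h3 : (ρ (a * s) - 1) ((ρ (a * s) - 1) v) = 0 := by
    have := LinearMap.congr_fun (hun (a * s)) v
    simpa using this
  rw [h1, h2] at h3
  -- `u ∈ L_s ∩ L_a`
  have hua : u ∈ LinearMap.ker (ρ a - 1) := by
    rw [hka]
    refine ⟨-u, ?_⟩
    rw [map_neg]
    exact (eq_neg_of_add_eq_zero_right h3).symm ▸ (neg_neg _)
  exact hne (h19k_line_eq hLa hLs hua hus hu0)

/-- **Kolchin for a plane.** -/
theorem h19k_kolchin (hV : finrank k V = 2) (ρ : G →* Module.End k V)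
    (hun : ∀ g, (ρ g - 1) * (ρ g - 1) = 0) {s : G} (hs : ρ s ≠ 1) (a : G) :
    ∃ i : k, ∀ v, ρ a v = v + i • (ρ s v - v) := by
  by_cases ha : ρ a = 1
  · exact ⟨0, fun v => by rw [ha, zero_smul, add_zero, Module.End.one_apply]⟩
  have hs' : ρ s - 1 ≠ 0 := sub_ne_zero.mpr hs
  have ha' : ρ a - 1 ≠ 0 := sub_ne_zero.mpr ha
  have hsame := h19k_same_line hV ρ hun hs ha
  obtain ⟨hka, -⟩ := h19k_ker_eq_range hV _ (hun a) ha'
  obtain ⟨i, hi⟩ := h19k_eq_smul hV (ρ s - 1) (ρ a - 1) (hun s) hs'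
    (fun v hv => by
      have : v ∈ LinearMap.ker (ρ a - 1) := by
        rw [hsame]
        exact LinearMap.mem_ker.mpr hv
      exact LinearMap.mem_ker.mp this)
    (fun v => by
      have : (ρ a - 1) v ∈ LinearMap.ker (ρ s - 1) := by
        rw [← hsame, hka]
        exact LinearMap.mem_range_self _ v
      exact LinearMap.mem_ker.mp this)
  refine ⟨i, fun v => ?_⟩
  have h := hi v
  rw [LinearMap.sub_apply, Module.End.one_apply, LinearMap.sub_apply, Module.End.one_apply] at h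
  rw [← h]
  abel

/-- the action form of unipotency: `g² v - 2 g v + v = 0` for all `v`. -/
theorem h19k_unip_of_apply (f : Module.End k V)
    (h : ∀ v, f (f v) - (2 : ℤ) • f v + v = 0) : (f - 1) * (f - 1) = 0 := by
  ext v
  have h1 := h v
  simp only [Module.End.mul_apply, LinearMap.sub_apply, Module.End.one_apply, map_sub,
    LinearMap.zero_apply]
  rw [← h1, two_smul]
  abel

/-- a unipotent element fixes `f x - x`. -/
theorem h19k_unip_fix (f : Module.End k V) (hf : (f - 1) * (f - 1) = 0) (x : V) :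
    f (f x - x) = f x - x := by
  have h := LinearMap.congr_fun hf x
  simp only [Module.End.mul_apply, LinearMap.sub_apply, Module.End.one_apply, map_sub,
    LinearMap.zero_apply] at h
  rw [map_sub]
  exact sub_eq_zero.mp h

/-- powers of a unipotent element. -/
theorem h19k_pow_apply (f : Module.End k V) (hf : (f - 1) * (f - 1) = 0) (n : ℕ) (v : V) :
    (f ^ n) v = v + n • (f v - v) := by
  have hff : ∀ x, f (f x - x) = f x - x := h19k_unip_fix f hf
  induction n with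
  | zero => simp
  | succ n ih =>
    rw [pow_succ', Module.End.mul_apply, ih, map_add, map_nsmul, hff, succ_nsmul]
    abel

end Plane

section Sub

variable {k V : Type*} [Field k] [AddCommGroup V] [Module k V]
variable {Γ : Type*} [Group Γ]

/-- **Kolchin for a plane**, subgroup form. -/
theorem h19k_kolchin_sub (hV : finrank k V = 2) (ρ : Γ →* Module.End k V) (H : Subgroup Γ)
    (hun : ∀ g ∈ H, (ρ g - 1) * (ρ g - 1) = 0) {s : Γ} (hs : s ∈ H) (hs1 : ρ s ≠ 1)
    {a : Γ} (ha : a ∈ H) : ∃ i : k, ∀ v, ρ a v = v + i • (ρ s v - v) :=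
  h19k_kolchin hV (ρ.comp H.subtype) (fun g => hun g g.2) (s := ⟨s, hs⟩) hs1 ⟨a, ha⟩

/-- the line `L = ker (ρ s - 1) = range (ρ s - 1)`. -/
theorem h19k_line (hV : finrank k V = 2) (ρ : Γ →* Module.End k V) {s : Γ}
    (hun : (ρ s - 1) * (ρ s - 1) = 0) (hs1 : ρ s ≠ 1) :
    LinearMap.ker (ρ s - 1) = LinearMap.range (ρ s - 1) ∧
      finrank k (LinearMap.range (ρ s - 1)) = 1 :=
  h19k_ker_eq_range hV _ hun (sub_ne_zero.mpr hs1)

/-- `T = s v₀ - v₀` is fixed by `s`. -/
theorem h19k_fix_T (ρ : Γ →* Module.End k V) {s : Γ}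
    (hun : (ρ s - 1) * (ρ s - 1) = 0) (v₀ : V) : ρ s (ρ s v₀ - v₀) = ρ s v₀ - v₀ :=
  h19k_unip_fix (ρ s) hun v₀

/-- every element of the unipotent group fixes the line `L` pointwise. -/
theorem h19k_fix_line (hV : finrank k V = 2) (ρ : Γ →* Module.End k V) (H : Subgroup Γ)
    (hun : ∀ g ∈ H, (ρ g - 1) * (ρ g - 1) = 0) {s : Γ} (hs : s ∈ H) (hs1 : ρ s ≠ 1)
    {a : Γ} (ha : a ∈ H) (v₀ : V) : ρ a (ρ s v₀ - v₀) = ρ s v₀ - v₀ := by
  obtain ⟨i, hi⟩ := h19k_kolchin_sub hV ρ H hun hs hs1 ha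
  rw [hi, h19k_fix_T ρ (hun s hs), sub_self, smul_zero, add_zero]

/-- **the stabiliser of a moved vector is trivial**: if `a` fixes one `v₀` with `s v₀ ≠ v₀`,
then `ρ a = 1`. -/
theorem h19k_stab_trivial (hV : finrank k V = 2) (ρ : Γ →* Module.End k V) (H : Subgroup Γ)
    (hun : ∀ g ∈ H, (ρ g - 1) * (ρ g - 1) = 0) {s : Γ} (hs : s ∈ H) {v₀ : V}
    (hv₀ : ρ s v₀ ≠ v₀) {a : Γ} (ha : a ∈ H) (hav : ρ a v₀ = v₀) (v : V) : ρ a v = v := by
  have hs1 : ρ s ≠ 1 := fun h => hv₀ (by rw [h, Module.End.one_apply])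
  obtain ⟨i, hi⟩ := h19k_kolchin_sub hV ρ H hun hs hs1 ha
  have h0 := hi v₀
  rw [hav] at h0
  have h1 : i • (ρ s v₀ - v₀) = 0 := by
    have := h0.symm
    rwa [add_eq_left] at this
  rcases smul_eq_zero.mp h1 with h | h
  · rw [hi, h, zero_smul, add_zero]
  · exact absurd (sub_eq_zero.mp h) hv₀

/-- **normal subgroup form**: if `b s b⁻¹` lies in the unipotent group, `ρ b` preserves the line
`L = range (ρ s - 1)`. -/
theorem h19k_normal (hV : finrank k V = 2) (ρ : Γ →* Module.End k V) (H : Subgroup Γ)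
    (hun : ∀ g ∈ H, (ρ g - 1) * (ρ g - 1) = 0) {s : Γ} (hs : s ∈ H) (hs1 : ρ s ≠ 1)
    {b : Γ} (hb : b * s * b⁻¹ ∈ H) {v : V} (hv : v ∈ LinearMap.range (ρ s - 1)) :
    ρ b v ∈ LinearMap.range (ρ s - 1) := by
  have hbb : ∀ x, ρ b⁻¹ (ρ b x) = x := fun x => by
    rw [← Module.End.mul_apply, ← map_mul, inv_mul_cancel, map_one, Module.End.one_apply]
  have hc1 : ρ (b * s * b⁻¹) ≠ 1 := by
    intro h
    apply hs1
    ext x
    have h2 := LinearMap.congr_fun h (ρ b x)
    rw [map_mul, map_mul, Module.End.mul_apply, Module.End.mul_apply, hbb,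
      Module.End.one_apply] at h2
    have h3 := congrArg (ρ b⁻¹) h2
    rw [hbb, hbb] at h3
    rw [h3, Module.End.one_apply]
  have hsame := h19k_same_line hV (ρ.comp H.subtype) (fun g => hun g g.2)
    (s := ⟨s, hs⟩) (a := ⟨b * s * b⁻¹, hb⟩) hs1 hc1
  obtain ⟨hks, -⟩ := h19k_line hV ρ (hun s hs) hs1
  rw [← hks]
  have hsame' : LinearMap.ker (ρ (b * s * b⁻¹) - 1) = LinearMap.ker (ρ s - 1) := hsame
  rw [← hsame', LinearMap.mem_ker, LinearMap.sub_apply, Module.End.one_apply, sub_eq_zero,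
    map_mul, map_mul, Module.End.mul_apply, Module.End.mul_apply, hbb]
  have hv' : v ∈ LinearMap.ker (ρ s - 1) := by rw [hks]; exact hv
  have := LinearMap.mem_ker.mp hv'
  rw [LinearMap.sub_apply, Module.End.one_apply, sub_eq_zero] at this
  rw [this]

/-- **normal subgroup form**, eigenvalue: `ρ b T = c • T` for `T = s v₀ - v₀ ≠ 0`. -/
theorem h19k_normal_eigen (hV : finrank k V = 2) (ρ : Γ →* Module.End k V) (H : Subgroup Γ)
    (hun : ∀ g ∈ H, (ρ g - 1) * (ρ g - 1) = 0) {s : Γ} (hs : s ∈ H) {v₀ : V}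
    (hv₀ : ρ s v₀ ≠ v₀) {b : Γ} (hb : b * s * b⁻¹ ∈ H) :
    ∃ c : k, ρ b (ρ s v₀ - v₀) = c • (ρ s v₀ - v₀) := by
  have hs1 : ρ s ≠ 1 := fun h => hv₀ (by rw [h, Module.End.one_apply])
  obtain ⟨-, h1⟩ := h19k_line hV ρ (hun s hs) hs1
  have hT : ρ s v₀ - v₀ ∈ LinearMap.range (ρ s - 1) :=
    ⟨v₀, by rw [LinearMap.sub_apply, Module.End.one_apply]⟩
  exact h19k_line_smul h1 hT (sub_ne_zero.mpr hv₀) (h19k_normal hV ρ H hun hs hs1 hb hT)

/-- the image of the unipotent group is generated by `ρ s`: `ρ a = ρ (s ^ i)`, `k = ZMod p`. -/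
theorem h19k_zmod {p : ℕ} [Fact p.Prime] {V : Type*} [AddCommGroup V] [Module (ZMod p) V]
    (hV : finrank (ZMod p) V = 2) (ρ : Γ →* Module.End (ZMod p) V) (H : Subgroup Γ)
    (hun : ∀ g ∈ H, (ρ g - 1) * (ρ g - 1) = 0) {s : Γ} (hs : s ∈ H) (hs1 : ρ s ≠ 1)
    {a : Γ} (ha : a ∈ H) :
    ∃ i : ℕ, i < p ∧ (∀ v, ρ a v = v + i • (ρ s v - v)) ∧ ρ a = ρ (s ^ i) := by
  obtain ⟨i, hi⟩ := h19k_kolchin_sub hV ρ H hun hs hs1 ha
  have h1 : ∀ v, ρ a v = v + i.val • (ρ s v - v) := fun v => by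
    rw [hi v, ← Nat.cast_smul_eq_nsmul (ZMod p) i.val, ZMod.natCast_zmod_val]
  refine ⟨i.val, ZMod.val_lt i, h1, ?_⟩
  ext v
  rw [map_pow, h19k_pow_apply (ρ s) (hun s hs), h1]

end Sub

end Fermat.Agent.P7
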