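import Fermat.Agent.P7.H19Kolchin
import Fermat.Agent.P7.H99W7Iface2
import Fermat.Agent.P7.H23ValI1
import Fermat.Agent.Tors.Qbar

/-!
# Wave 7 (S44), block LOCAL-FREY, leaf KOLCHIN, instance for `W[p]` (helper19)

`W / ℤ` with `Δ ≠ 0`, `p` a prime, `A` a valuation subring of `ℚ̄`, `I = A.inertiaSubgroupIn ℚ`,
`I₁ = h23vI1 p A` (the elements of `I` fixing `μ_p`), `V = W[p] = H99wTors W p`, ORD = the
hypothesis of `H99wLocalAt W p` at `A` (`(a - 1)(a - ε(a)) = 0` on `V` for `a ∈ I`).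

* `h19k_W_unip` : ORD `⟹` every `a ∈ I₁` is unipotent on `V`.
* `h19k_conj_mem` : `I₁` is normal in `I`.
* `h19k_W` : **Kolchin for `W[p]`.**  Given ORD, `s ∈ I₁` and `P₀ ∈ V` with `T = s P₀ - P₀ ≠ 0`:
  1. every `a ∈ I₁` has an exponent `i < p` with `a P = P + i (s P - P)` for all `P`;
  2. every `a ∈ I₁` with `a P₀ = P₀` acts trivially on `V`;
  3. every `a ∈ I₁` fixes `T`;
  4. every `b ∈ I` has `b T = c T` for some `c : ℕ`.
* `h19k_W_trivial` : if no `s ∈ I₁` moves a point, `I₁` acts trivially on `V`.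
-/

set_option autoImplicit false
set_option linter.unusedSectionVars false
set_option linter.style.haveILetI false

open AlgebraicCurve ModularCurve WeierstrassCurve WeierstrassCurve.Affine
  WeierstrassCurve.Affine.Point

noncomputable section

namespace Fermat.Agent.P7

open Fermat.Agent.S37

/-- `I₁` is normal in `I`. -/
theorem h19k_conj_mem (p : ℕ) (A : ValuationSubring Kbar) {s b : GQ} (hs : s ∈ h23vI1 p A)
    (hb : b ∈ A.inertiaSubgroupIn ℚ) : b * s * b⁻¹ ∈ h23vI1 p A := by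
  refine ⟨(A.inertiaSubgroupIn ℚ).mul_mem ((A.inertiaSubgroupIn ℚ).mul_mem hb hs.1)
    ((A.inertiaSubgroupIn ℚ).inv_mem hb), fun μ hμ => ?_⟩
  have h1 : (b⁻¹ μ) ^ p = 1 := by rw [← map_pow, hμ, map_one]
  rw [AlgEquiv.mul_apply, AlgEquiv.mul_apply, hs.2 _ h1, ← AlgEquiv.mul_apply, mul_inv_cancel,
    AlgEquiv.one_apply]

variable (W : WeierstrassCurve ℤ) {p : ℕ} (A : ValuationSubring Kbar)

/-- the mod `p` representation on `W[p]`. -/
abbrev h19kRho (W : WeierstrassCurve ℤ) (p : ℕ) : GQ →* Module.End (ZMod p) (H99wTors W p) :=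
  galoisRepModuleEnd (K := Kbar) ℚ (W.map (Int.castRingHom ℚ)).toAffine p

theorem h19kRho_apply (a : GQ) (P : H99wTors W p) : h19kRho W p a P = a • P := rfl

/-- ORD `⟹` every `a ∈ I₁` is unipotent on `W[p]`. -/
theorem h19k_W_unip [Fact p.Prime]
    (hord : ∀ a ∈ A.inertiaSubgroupIn ℚ, ∀ e : ℕ, (∀ μ : Kbar, μ ^ p = 1 → a μ = μ ^ e) →
      ∀ P : H99wTors W p, a • a • P - ((1 : ℤ) + e) • a • P + e • P = 0)
    {a : GQ} (ha : a ∈ h23vI1 p A) :
    (h19kRho W p a - 1) * (h19kRho W p a - 1) = 0 := by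
  apply h19k_unip_of_apply
  intro P
  have h := hord a ha.1 1 (fun μ hμ => by rw [pow_one]; exact ha.2 μ hμ) P
  rw [h19kRho_apply, h19kRho_apply]
  rw [one_smul] at h
  have e2 : ((1 : ℤ) + ((1 : ℕ) : ℤ)) = 2 := by norm_num
  rw [e2] at h
  exact h

/-- **Kolchin for `W[p]`.** -/
theorem h19k_W (hΔ : W.Δ ≠ 0) (hp : p.Prime)
    (hord : ∀ a ∈ A.inertiaSubgroupIn ℚ, ∀ e : ℕ, (∀ μ : Kbar, μ ^ p = 1 → a μ = μ ^ e) →
      ∀ P : H99wTors W p, a • a • P - ((1 : ℤ) + e) • a • P + e • P = 0)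
    {s : GQ} (hs : s ∈ h23vI1 p A) {P₀ : H99wTors W p} (hP₀ : s • P₀ ≠ P₀) :
    (∀ a ∈ h23vI1 p A, ∃ i : ℕ, i < p ∧ ∀ P : H99wTors W p, a • P = P + i • (s • P - P)) ∧
    (∀ a ∈ h23vI1 p A, a • P₀ = P₀ → ∀ P : H99wTors W p, a • P = P) ∧
    (∀ a ∈ h23vI1 p A, a • (s • P₀ - P₀) = s • P₀ - P₀) ∧
    (∀ b ∈ A.inertiaSubgroupIn ℚ, ∃ c : ℕ, b • (s • P₀ - P₀) = c • (s • P₀ - P₀)) := by
  haveI : Fact p.Prime := ⟨hp⟩
  have hΔ' : (W.map (Int.castRingHom ℚ)).Δ ≠ 0 := by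
    rw [WeierstrassCurve.map_Δ]
    simpa using hΔ
  have hV : Module.finrank (ZMod p) (H99wTors W p) = 2 :=
    Fermat.Agent.Tors.finrank_torsionBy_qbar (W.map (Int.castRingHom ℚ)) hΔ' p
  have hun : ∀ g ∈ h23vI1 p A, (h19kRho W p g - 1) * (h19kRho W p g - 1) = 0 :=
    fun g hg => h19k_W_unip W A hord hg
  have hs1 : h19kRho W p s ≠ 1 := fun h => hP₀ (by
    have h2 := LinearMap.congr_fun h P₀
    rw [h19kRho_apply, Module.End.one_apply] at h2
    exact h2)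
  have hP₀' : h19kRho W p s P₀ ≠ P₀ := by
    rw [h19kRho_apply]
    exact hP₀
  refine ⟨fun a ha => ?_, fun a ha haP P => ?_, fun a ha => ?_, fun b hb => ?_⟩
  · obtain ⟨i, hi, h1, -⟩ := h19k_zmod hV (h19kRho W p) (h23vI1 p A) hun hs hs1 ha
    refine ⟨i, hi, fun P => ?_⟩
    have h2 := h1 P
    rw [h19kRho_apply, h19kRho_apply] at h2
    exact h2
  · have haP' : h19kRho W p a P₀ = P₀ := by
      rw [h19kRho_apply]
      exact haP
    have h2 := h19k_stab_trivial hV (h19kRho W p) (h23vI1 p A) hun hs hP₀' ha haP' P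
    rw [h19kRho_apply] at h2
    exact h2
  · have h2 := h19k_fix_line hV (h19kRho W p) (h23vI1 p A) hun hs hs1 ha P₀
    rw [h19kRho_apply, h19kRho_apply] at h2
    exact h2
  · obtain ⟨c, hc⟩ := h19k_normal_eigen hV (h19kRho W p) (h23vI1 p A) hun hs hP₀'
      (h19k_conj_mem p A hs hb)
    refine ⟨c.val, ?_⟩
    rw [← Nat.cast_smul_eq_nsmul (ZMod p) c.val, ZMod.natCast_zmod_val]
    rw [h19kRho_apply, h19kRho_apply] at hc
    exact hc

/-- if no element of `I₁` moves a point of `W[p]`, then `β = 1` works in `H99wLocalAt`. -/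
theorem h19k_W_trivial
    (htriv : ∀ s ∈ h23vI1 p A, ∀ P : H99wTors W p, s • P = P) :
    ∃ β : Kbar, β ∈ A ∧ β⁻¹ ∈ A ∧
      (∀ a ∈ A.inertiaSubgroupIn ℚ, H99wFixMu p a → a (β ^ p) = β ^ p) ∧
      ∀ a ∈ A.inertiaSubgroupIn ℚ, H99wFixMu p a → a β = β →
        ∀ P : H99wTors W p, a • P = P :=
  ⟨1, A.one_mem, by rw [inv_one]; exact A.one_mem, fun a _ _ => by rw [one_pow, map_one],
    fun a ha hmu _ P => htriv a ⟨ha, hmu⟩ P⟩

end Fermat.Agent.P7
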