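import Mathlib.RingTheory.LaurentSeries
import Mathlib.RingTheory.RootsOfUnity.PrimitiveRoots
import Fermat.Prelude.Def_ModularCurve_X0
import Fermat.Agent.Red.Kron.Twist

/-!
# Wave 7, block (A) of T-TORIC, DLOG route: the formal part (helper96)

`K` a field, `LaurentSeries K = K((q))`.

* `h96dTheta x = q dx/dq` (coefficientwise `n • xₙ`), a derivation: `h96d_theta_mul`.
* `h96dLog x = θ x / x`, additive on products (`h96d_log_mul`, `h96d_log_prod`), zero on
  constants and on `p`-th powers in characteristic `p` (`h96d_log_pow_char`).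
* `h96d_theta_eq_zero_iff` : in characteristic `p`, `θ x = 0` iff `x ∈ K((q^p))`.
* `h96dU ℓ`, `h96dT ℓ = U_ℓ + ℓ • V_ℓ` : the formal Hecke operator of weight 2 on `K((q))`.
* `h96d_log_hecke` : **dlog of the Hecke norm**.  If
  `V(t^ℓ) = U(t^{ℓ²}) · ∏_{b<ℓ} U(ζ^b t)` (the series formula of the Hecke norm, landed as
  `h57r_T_series` / `h57r_T_red`) then `dlog V = T_ℓ (dlog U)`.
-/

set_option autoImplicit false

open HahnSeries ModularCurve

noncomputable section

namespace Fermat.Agent.P7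

open Fermat.Agent.Red.Kron

variable {K : Type*} [Field K]

/-- `θ x = q dx/dq`. -/
def h96dTheta (s : LaurentSeries K) : LaurentSeries K where
  coeff n := (n : K) * s.coeff n
  isPWO_support' := s.isPWO_support.mono (fun n hn => by
    simp only [Function.mem_support, ne_eq] at hn ⊢
    exact fun h0 => hn (by rw [h0, mul_zero]))

@[simp] theorem h96d_coeff_theta (s : LaurentSeries K) (n : ℤ) :
    (h96dTheta s).coeff n = (n : K) * s.coeff n := rfl

theorem h96d_support_theta (s : LaurentSeries K) : (h96dTheta s).support ⊆ s.support := by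
  intro n hn
  simp only [HahnSeries.mem_support, h96d_coeff_theta, ne_eq] at hn ⊢
  exact fun h0 => hn (by rw [h0, mul_zero])

theorem h96d_theta_zero : h96dTheta (0 : LaurentSeries K) = 0 := by
  ext n
  simp

theorem h96d_theta_add (x y : LaurentSeries K) :
    h96dTheta (x + y) = h96dTheta x + h96dTheta y := by
  ext n
  simp [mul_add]

theorem h96d_theta_neg (x : LaurentSeries K) : h96dTheta (-x) = -h96dTheta x := by
  ext n
  simp

theorem h96d_theta_sub (x y : LaurentSeries K) :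
    h96dTheta (x - y) = h96dTheta x - h96dTheta y := by
  ext n
  simp [mul_sub]

theorem h96d_theta_smul (c : K) (x : LaurentSeries K) :
    h96dTheta (c • x) = c • h96dTheta x := by
  ext n
  simp only [h96d_coeff_theta, HahnSeries.coeff_smul, smul_eq_mul]
  ring

theorem h96d_theta_nsmul (m : ℕ) (x : LaurentSeries K) :
    h96dTheta (m • x) = m • h96dTheta x := by
  induction m with
  | zero => simp [h96d_theta_zero]
  | succ m ih => rw [succ_nsmul, succ_nsmul, h96d_theta_add, ih]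

theorem h96d_theta_single (k : ℤ) (a : K) :
    h96dTheta (HahnSeries.single k a : LaurentSeries K) = HahnSeries.single k ((k : K) * a) := by
  ext n
  rw [h96d_coeff_theta]
  by_cases h : n = k
  · subst h
    simp
  · rw [HahnSeries.coeff_single_of_ne h, HahnSeries.coeff_single_of_ne h, mul_zero]

theorem h96d_theta_one : h96dTheta (1 : LaurentSeries K) = 0 := by
  have h : (1 : LaurentSeries K) = HahnSeries.single 0 1 := rfl
  rw [h, h96d_theta_single]
  simp

theorem h96d_theta_C (a : K) : h96dTheta (HahnSeries.C a : LaurentSeries K) = 0 := by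
  have h : (HahnSeries.C a : LaurentSeries K) = HahnSeries.single 0 a := rfl
  rw [h, h96d_theta_single]
  simp

/-- **Leibniz rule.** -/
theorem h96d_theta_mul (x y : LaurentSeries K) :
    h96dTheta (x * y) = h96dTheta x * y + x * h96dTheta y := by
  ext n
  rw [h96d_coeff_theta, HahnSeries.coeff_add, HahnSeries.coeff_mul,
    HahnSeries.coeff_mul_left' (x := h96dTheta x) (y := y) x.isPWO_support
      (h96d_support_theta x),
    HahnSeries.coeff_mul_right' (x := x) (y := h96dTheta y) y.isPWO_support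
      (h96d_support_theta y),
    Finset.mul_sum, ← Finset.sum_add_distrib]
  refine Finset.sum_congr rfl fun ij hij => ?_
  have hn : ij.1 + ij.2 = n := (Finset.mem_antidiagonal.mp hij).2.2
  rw [h96d_coeff_theta, h96d_coeff_theta, ← hn]
  push_cast
  ring

theorem h96d_theta_pow (x : LaurentSeries K) (m : ℕ) :
    h96dTheta (x ^ (m + 1)) = ((m + 1 : ℕ) : LaurentSeries K) * x ^ m * h96dTheta x := by
  induction m with
  | zero => simp
  | succ m ih =>
    rw [pow_succ, h96d_theta_mul, ih]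
    push_cast
    ring

/-- in characteristic `p`, `θ` kills `p`-th powers. -/
theorem h96d_theta_pow_char (p : ℕ) [hp : Fact p.Prime] [CharP K p] (x : LaurentSeries K) :
    h96dTheta (x ^ p) = 0 := by
  obtain ⟨m, hm⟩ : ∃ m, p = m + 1 := ⟨p - 1, (Nat.succ_pred_eq_of_pos hp.out.pos).symm⟩
  have hc : ((p : ℕ) : LaurentSeries K) = 0 := by
    have h1 : ((p : ℕ) : LaurentSeries K) = HahnSeries.C ((p : ℕ) : K) := by
      rw [map_natCast]
    rw [h1, CharP.cast_eq_zero, map_zero]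
  conv_lhs => rw [hm]
  rw [h96d_theta_pow, ← hm, hc, zero_mul, zero_mul]

theorem h96d_theta_inv (x : LaurentSeries K) (hx : x ≠ 0) :
    h96dTheta x⁻¹ = -(h96dTheta x * x⁻¹ * x⁻¹) := by
  have h1 : h96dTheta (x * x⁻¹) = 0 := by rw [mul_inv_cancel₀ hx, h96d_theta_one]
  rw [h96d_theta_mul] at h1
  have h2 : x * h96dTheta x⁻¹ = -(h96dTheta x * x⁻¹) := by
    rw [eq_neg_iff_add_eq_zero, add_comm]
    exact h1
  calc h96dTheta x⁻¹ = x⁻¹ * (x * h96dTheta x⁻¹) := by
        rw [← mul_assoc, inv_mul_cancel₀ hx, one_mul]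
    _ = -(h96dTheta x * x⁻¹ * x⁻¹) := by rw [h2]; ring

/-- in characteristic `p`: `θ x = 0` iff `x` is a series in `q ^ p`. -/
theorem h96d_theta_eq_zero_iff (p : ℕ) [CharP K p] (x : LaurentSeries K) :
    h96dTheta x = 0 ↔ ∀ n : ℤ, ¬ (p : ℤ) ∣ n → x.coeff n = 0 := by
  constructor
  · intro h n hn
    have h1 : (h96dTheta x).coeff n = 0 := by rw [h]; rfl
    rw [h96d_coeff_theta] at h1
    rcases mul_eq_zero.mp h1 with h2 | h2
    · exact absurd ((CharP.intCast_eq_zero_iff K p n).mp h2) hn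
    · exact h2
  · intro h
    ext n
    rw [h96d_coeff_theta]
    by_cases hn : (p : ℤ) ∣ n
    · rw [(CharP.intCast_eq_zero_iff K p n).mpr hn, zero_mul]
      rfl
    · rw [h n hn, mul_zero]
      rfl

/-! ### The logarithmic derivative -/

/-- `dlog x = θ x / x`. -/
def h96dLog (x : LaurentSeries K) : LaurentSeries K := h96dTheta x * x⁻¹

theorem h96d_log_one : h96dLog (1 : LaurentSeries K) = 0 := by
  rw [h96dLog, h96d_theta_one, zero_mul]

theorem h96d_log_C (a : K) : h96dLog (HahnSeries.C a : LaurentSeries K) = 0 := by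
  rw [h96dLog, h96d_theta_C, zero_mul]

theorem h96d_log_mul {x y : LaurentSeries K} (hx : x ≠ 0) (hy : y ≠ 0) :
    h96dLog (x * y) = h96dLog x + h96dLog y := by
  rw [h96dLog, h96dLog, h96dLog, h96d_theta_mul, mul_inv]
  field_simp

theorem h96d_log_inv {x : LaurentSeries K} (hx : x ≠ 0) : h96dLog x⁻¹ = -h96dLog x := by
  rw [h96dLog, h96dLog, h96d_theta_inv x hx, inv_inv]
  field_simp

theorem h96d_log_prod {ι : Type*} (s : Finset ι) (f : ι → LaurentSeries K)
    (hf : ∀ i ∈ s, f i ≠ 0) :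
    h96dLog (∏ i ∈ s, f i) = ∑ i ∈ s, h96dLog (f i) := by
  classical
  induction s using Finset.induction_on with
  | empty => simp [h96d_log_one]
  | insert a s ha ih =>
    rw [Finset.prod_insert ha, Finset.sum_insert ha,
      h96d_log_mul (hf a (Finset.mem_insert_self a s))
        (Finset.prod_ne_zero_iff.mpr fun i hi => hf i (Finset.mem_insert_of_mem hi)),
      ih fun i hi => hf i (Finset.mem_insert_of_mem hi)]

theorem h96d_log_pow {x : LaurentSeries K} (hx : x ≠ 0) (m : ℕ) :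
    h96dLog (x ^ m) = m • h96dLog x := by
  induction m with
  | zero => simp [h96d_log_one]
  | succ m ih => rw [pow_succ, h96d_log_mul (pow_ne_zero m hx) hx, ih, succ_nsmul]

theorem h96d_log_pow_char (p : ℕ) [Fact p.Prime] [CharP K p] (x : LaurentSeries K) :
    h96dLog (x ^ p) = 0 := by
  rw [h96dLog, h96d_theta_pow_char, zero_mul]

theorem h96d_log_eq_zero_iff {x : LaurentSeries K} (hx : x ≠ 0) :
    h96dLog x = 0 ↔ h96dTheta x = 0 := by
  rw [h96dLog, mul_eq_zero]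
  exact ⟨fun h => h.resolve_right (inv_ne_zero hx), Or.inl⟩

/-! ### Substitutions `q ↦ q ^ ℓ` and `q ↦ ω q` -/

theorem h96d_theta_qExpand (ℓ : ℕ) [NeZero ℓ] (x : LaurentSeries K) :
    h96dTheta (qExpand K ℓ x) = ℓ • qExpand K ℓ (h96dTheta x) := by
  ext n
  rw [h96d_coeff_theta, HahnSeries.coeff_smul]
  by_cases hn : (ℓ : ℤ) ∣ n
  · obtain ⟨m, rfl⟩ := hn
    rw [qExpand_coeff_mul, qExpand_coeff_mul, h96d_coeff_theta, nsmul_eq_mul]
    push_cast
    ring
  · rw [qExpand_coeff_of_not_dvd ℓ _ hn, qExpand_coeff_of_not_dvd ℓ _ hn, mul_zero, smul_zero]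

theorem h96d_theta_twistK (ω : K) (x : LaurentSeries K) :
    h96dTheta (twistK ω x) = twistK ω (h96dTheta x) := by
  ext n
  simp only [h96d_coeff_theta, coeff_twistK]
  ring

theorem h96d_twistK_inv {ω : K} (hω : ω ≠ 0) (x : LaurentSeries K) :
    twistK ω x⁻¹ = (twistK ω x)⁻¹ := by
  by_cases hx : x = 0
  · subst hx
    rw [inv_zero, twistK_zero, inv_zero]
  · have h1 : twistK ω x * twistK ω x⁻¹ = 1 := by
      rw [← twistK_mul hω, mul_inv_cancel₀ hx, twistK_one]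
    exact (eq_inv_of_mul_eq_one_right h1)

theorem h96d_twistK_ne_zero {ω : K} (hω : ω ≠ 0) {x : LaurentSeries K} (hx : x ≠ 0) :
    twistK ω x ≠ 0 := by
  intro h
  have h1 : twistK ω x * twistK ω x⁻¹ = 1 := by
    rw [← twistK_mul hω, mul_inv_cancel₀ hx, twistK_one]
  rw [h, zero_mul] at h1
  exact zero_ne_one h1

theorem h96d_log_qExpand (ℓ : ℕ) [NeZero ℓ] (x : LaurentSeries K) :
    h96dLog (qExpand K ℓ x) = ℓ • qExpand K ℓ (h96dLog x) := by
  rw [h96dLog, h96dLog, h96d_theta_qExpand, map_mul, map_inv₀, smul_mul_assoc]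

theorem h96d_log_twistK {ω : K} (hω : ω ≠ 0) (x : LaurentSeries K) :
    h96dLog (twistK ω x) = twistK ω (h96dLog x) := by
  rw [h96dLog, h96dLog, h96d_theta_twistK, twistK_mul hω, h96d_twistK_inv hω]

/-! ### The formal Hecke operator of weight 2 -/

/-- `U_ℓ (∑ aₙ qⁿ) = ∑ a_{ℓ n} qⁿ`. -/
def h96dU (ℓ : ℕ) [NeZero ℓ] (s : LaurentSeries K) : LaurentSeries K :=
  HahnSeries.ofSuppBddBelow (fun n : ℤ => s.coeff ((ℓ : ℤ) * n))
    ⟨min s.order 0, fun m hm' => by
      by_contra hlt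
      have hm : m < min s.order 0 := not_le.mp hlt
      have hℓ : (1 : ℤ) ≤ ℓ := by exact_mod_cast Nat.pos_of_ne_zero (NeZero.ne ℓ)
      have h2 : m < 0 := lt_of_lt_of_le hm (min_le_right _ _)
      have h3 : m < s.order := lt_of_lt_of_le hm (min_le_left _ _)
      have h4 : (ℓ : ℤ) * m ≤ m := by nlinarith
      exact hm' (HahnSeries.coeff_eq_zero_of_lt_order (lt_of_le_of_lt h4 h3))⟩

@[simp] theorem h96d_coeff_U (ℓ : ℕ) [NeZero ℓ] (s : LaurentSeries K) (n : ℤ) :
    (h96dU ℓ s).coeff n = s.coeff ((ℓ : ℤ) * n) := rfl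

theorem h96d_U_add (ℓ : ℕ) [NeZero ℓ] (x y : LaurentSeries K) :
    h96dU ℓ (x + y) = h96dU ℓ x + h96dU ℓ y := by
  ext n
  simp

theorem h96d_U_zero (ℓ : ℕ) [NeZero ℓ] : h96dU ℓ (0 : LaurentSeries K) = 0 := by
  ext n
  simp

theorem h96d_U_neg (ℓ : ℕ) [NeZero ℓ] (x : LaurentSeries K) :
    h96dU ℓ (-x) = -h96dU ℓ x := by
  ext n
  simp

theorem h96d_U_smul (ℓ : ℕ) [NeZero ℓ] (c : K) (x : LaurentSeries K) :
    h96dU ℓ (c • x) = c • h96dU ℓ x := by
  ext n
  simp

/-- the formal Hecke operator `T_ℓ = U_ℓ + ℓ V_ℓ` of weight 2: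
`aₙ(T_ℓ ω) = a_{ℓ n}(ω) + ℓ a_{n/ℓ}(ω)`. -/
def h96dT (ℓ : ℕ) [NeZero ℓ] (s : LaurentSeries K) : LaurentSeries K :=
  h96dU ℓ s + ℓ • qExpand K ℓ s

theorem h96d_T_add (ℓ : ℕ) [NeZero ℓ] (x y : LaurentSeries K) :
    h96dT ℓ (x + y) = h96dT ℓ x + h96dT ℓ y := by
  rw [h96dT, h96dT, h96dT, h96d_U_add, map_add, smul_add]
  abel

theorem h96d_T_zero (ℓ : ℕ) [NeZero ℓ] : h96dT ℓ (0 : LaurentSeries K) = 0 := by
  rw [h96dT, h96d_U_zero, map_zero, smul_zero, add_zero]

theorem h96d_T_neg (ℓ : ℕ) [NeZero ℓ] (x : LaurentSeries K) :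
    h96dT ℓ (-x) = -h96dT ℓ x := by
  rw [h96dT, h96dT, h96d_U_neg, map_neg, smul_neg, neg_add]

theorem h96d_coeff_T_mul (ℓ : ℕ) [NeZero ℓ] (s : LaurentSeries K) (n : ℤ) :
    (h96dT ℓ s).coeff ((ℓ : ℤ) * n) = s.coeff ((ℓ : ℤ) * ((ℓ : ℤ) * n)) + (ℓ : K) * s.coeff n := by
  rw [h96dT, HahnSeries.coeff_add, h96d_coeff_U, HahnSeries.coeff_smul, qExpand_coeff_mul,
    nsmul_eq_mul]

theorem h96d_coeff_T_of_not_dvd (ℓ : ℕ) [NeZero ℓ] (s : LaurentSeries K) {n : ℤ}
    (hn : ¬ (ℓ : ℤ) ∣ n) :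
    (h96dT ℓ s).coeff n = s.coeff ((ℓ : ℤ) * n) := by
  rw [h96dT, HahnSeries.coeff_add, h96d_coeff_U, HahnSeries.coeff_smul,
    qExpand_coeff_of_not_dvd ℓ _ hn, smul_zero, add_zero]

/-- the sum of the twists by the `ℓ`-th roots of unity. -/
theorem h96d_sum_twistK (ℓ : ℕ) [NeZero ℓ] {ζ : K} (hζ : IsPrimitiveRoot ζ ℓ)
    (x : LaurentSeries K) :
    ∑ b ∈ Finset.range ℓ, twistK (ζ ^ b) x = ℓ • qExpand K ℓ (h96dU ℓ x) := by
  have hζ0 : ζ ≠ 0 := hζ.ne_zero (NeZero.ne ℓ)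
  ext n
  rw [HahnSeries.coeff_sum, HahnSeries.coeff_smul]
  simp only [coeff_twistK]
  rw [← Finset.mul_sum]
  have hpow : ∀ b : ℕ, (ζ ^ b) ^ n = (ζ ^ n) ^ b := by
    intro b
    rw [← zpow_natCast, ← zpow_mul, mul_comm, zpow_mul, zpow_natCast]
  simp only [hpow]
  by_cases hn : (ℓ : ℤ) ∣ n
  · obtain ⟨m, rfl⟩ := hn
    have h1 : ζ ^ ((ℓ : ℤ) * m) = 1 := by
      rw [zpow_mul, zpow_natCast, hζ.pow_eq_one, one_zpow]
    rw [qExpand_coeff_mul, h96d_coeff_U, h1]
    simp only [one_pow, Finset.sum_const, Finset.card_range, nsmul_eq_mul, mul_one]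
    ring
  · rw [qExpand_coeff_of_not_dvd ℓ _ hn, smul_zero]
    have h1 : (ζ ^ n) ^ ℓ = 1 := by
      rw [← zpow_natCast, ← zpow_mul, mul_comm, zpow_mul, zpow_natCast, hζ.pow_eq_one, one_zpow]
    have h2 : ζ ^ n ≠ 1 := by
      intro h
      exact hn ((hζ.zpow_eq_one_iff_dvd n).mp h)
    have h3 : ∑ b ∈ Finset.range ℓ, (ζ ^ n) ^ b = 0 := by
      have := mul_neg_geom_sum (ζ ^ n) ℓ
      rw [h1, sub_self] at this
      rcases mul_eq_zero.mp this with h4 | h4
      · exact absurd (sub_eq_zero.mp h4).symm h2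
      · exact h4
    rw [h3, mul_zero]

/-- **dlog of the Hecke norm**: if `V(t^ℓ) = U(t^{ℓ²}) · ∏_{b<ℓ} U(ζ^b t)` then
`dlog V = T_ℓ (dlog U)`. -/
theorem h96d_log_hecke (ℓ : ℕ) [NeZero ℓ] (hℓ : (ℓ : K) ≠ 0) {ζ : K}
    (hζ : IsPrimitiveRoot ζ ℓ) {U V : LaurentSeries K} (hU : U ≠ 0)
    (h : qExpand K ℓ V = qExpand K ℓ (qExpand K ℓ U) *
      ∏ b ∈ Finset.range ℓ, twistK (ζ ^ b) U) :
    h96dLog V = h96dT ℓ (h96dLog U) := by
  have hζ0 : ζ ≠ 0 := hζ.ne_zero (NeZero.ne ℓ)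
  have hq : qExpand K ℓ (qExpand K ℓ U) ≠ 0 := fun h0 =>
    hU (qExpand_injective ℓ (qExpand_injective ℓ (by rw [h0, map_zero, map_zero])))
  have ht : ∀ b ∈ Finset.range ℓ, twistK (ζ ^ b) U ≠ 0 := fun b _ =>
    h96d_twistK_ne_zero (pow_ne_zero b hζ0) hU
  have h1 := congrArg h96dLog h
  rw [h96d_log_mul hq (Finset.prod_ne_zero_iff.mpr ht), h96d_log_prod _ _ ht,
    h96d_log_qExpand, h96d_log_qExpand, h96d_log_qExpand] at h1
  have h2 : ∑ b ∈ Finset.range ℓ, h96dLog (twistK (ζ ^ b) U) =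
      ℓ • qExpand K ℓ (h96dU ℓ (h96dLog U)) := by
    rw [← h96d_sum_twistK ℓ hζ]
    exact Finset.sum_congr rfl fun b _ => h96d_log_twistK (pow_ne_zero b hζ0) U
  rw [h2] at h1
  have h1' : ℓ • qExpand K ℓ (h96dLog V) = ℓ • qExpand K ℓ (h96dT ℓ (h96dLog U)) := by
    rw [h1, h96dT, map_add, smul_add, add_comm]
  have hinj : Function.Injective fun x : LaurentSeries K => ℓ • x := by
    intro x y hxy
    simp only [nsmul_eq_mul] at hxy
    have hc : ((ℓ : ℕ) : LaurentSeries K) ≠ 0 := by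
      have h1 : ((ℓ : ℕ) : LaurentSeries K) = HahnSeries.C ((ℓ : ℕ) : K) := by
        rw [map_natCast]
      rw [h1]
      exact fun h0 => hℓ (HahnSeries.C_injective (by rw [h0, map_zero]))
    exact mul_left_cancel₀ hc hxy
  exact qExpand_injective ℓ (hinj h1')

end Fermat.Agent.P7
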