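import Mathlib
import Fermat.Agent.P7.H96Dlog

/-!
# Wave 7, DLOG route, leaf DL2 (local half): residues of `f · dlog g` and norms (helper38)

`K` algebraically closed of characteristic zero, `F` a field over `K` with an expansion
`ι : F →ₐ[K] K((q))`; `f : F` with a pole of order `n = [F : K(f)]` at `q = 0` and `π : F` of
order one (so the place `q = 0` is the only place over `f = ∞`, totally ramified).

* `h38rSub r` : the substitution `q ↦ r(q)` on `K((q))` (`r = c q + …`, `c ≠ 0`);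
  `h38r_theta_sub` (chain rule for `θ = q d/dq`), `h38r_resid_sub` (invariance of the residue).
* `h38rGam s ζ` : the substitution `q ↦ s⁻¹(ζ s(q))`; for `ι f = s⁻ⁿ` and `ζⁿ = 1` it fixes
  `ι K(f)` (`h38rGam_fix`) and preserves the residue pairing (`h38rGam_resid`).
* `h38r_norm_eq_prod` : `ι (N_{F/K(f)} g) = ∏_ζ γ_ζ (ι g)`.
* `h38r_norm` : `n · a₀(x · dlog g) = a₀(x · dlog N g)` for `x ∈ K(f)`.
* `h38r_resid` : if `N g = c ∏ (f - aᵢ)^{mᵢ}` then `a₀(f · dlog g) = - ∑ mᵢ aᵢ`.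
-/

set_option autoImplicit false

open PowerSeries

noncomputable section

namespace Fermat.Agent.P7

variable {K : Type*} [Field K]

/-- constant coefficient of a substitution. -/
theorem h38r_constantCoeff_subst (r : K⟦X⟧) (hr : constantCoeff r = 0) (φ : K⟦X⟧) :
    constantCoeff (subst r φ) = constantCoeff φ := by
  have hs : HasSubst r := HasSubst.of_constantCoeff_zero' hr
  have h1 : φ = C (constantCoeff φ) + (φ - C (constantCoeff φ)) := by ring
  have h2 : constantCoeff (φ - C (constantCoeff φ)) = 0 := by simp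
  conv_lhs => rw [h1]
  rw [subst_add hs, map_add]
  have h3 : constantCoeff (subst r (φ - C (constantCoeff φ))) = 0 :=
    constantCoeff_subst_eq_zero hr _ h2
  rw [h3, add_zero]
  have h4 : subst r (C (constantCoeff φ) : K⟦X⟧) = C (constantCoeff φ) := by
    rw [subst_C]; rfl
  rw [h4]
  simp

/-- coefficient one of a substitution. -/
theorem h38r_coeff_one_subst (r : K⟦X⟧) (hr : constantCoeff r = 0) (φ : K⟦X⟧) :
    coeff 1 (subst r φ) = coeff 1 φ * coeff 1 r := by
  have hs : HasSubst r := HasSubst.of_constantCoeff_zero' hr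
  have h1 : ∀ ψ : K⟦X⟧, coeff 1 ψ = constantCoeff (d⁄dX K ψ) := by
    intro ψ
    rw [← coeff_zero_eq_constantCoeff_apply, coeff_derivative]
    simp
  rw [h1, derivative_subst hs, map_mul, h38r_constantCoeff_subst r hr, ← h1, ← h1]

/-- substitution of a series of order one is injective. -/
theorem h38r_subst_ne_zero (r : K⟦X⟧) (hr : constantCoeff r = 0) (hr1 : coeff 1 r ≠ 0)
    (φ : K⟦X⟧) (hφ : φ ≠ 0) : subst r φ ≠ 0 := by
  have hs : HasSubst r := HasSubst.of_constantCoeff_zero' hr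
  have hr0 : r ≠ 0 := fun h => hr1 (by rw [h]; simp)
  have h1 : X ^ φ.order.toNat * divXPowOrder φ = φ := X_pow_order_mul_divXPowOrder
  have h2 : constantCoeff (divXPowOrder φ) ≠ 0 := by
    rw [constantCoeff_divXPowOrder]
    exact coeff_order hφ
  rw [← h1, subst_mul hs, subst_pow hs, subst_X hs]
  refine mul_ne_zero (pow_ne_zero _ hr0) ?_
  intro h3
  apply h2
  rw [← h38r_constantCoeff_subst r hr, h3, map_zero]

/-- `θ` on power series: `θ φ = X φ'`. -/
theorem h38r_theta_coe (φ : K⟦X⟧) :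
    h96dTheta (HahnSeries.ofPowerSeries ℤ K φ) =
      HahnSeries.ofPowerSeries ℤ K (X * d⁄dX K φ) := by
  ext n
  rw [h96d_coeff_theta]
  rcases lt_or_ge n 0 with hn | hn
  · have h1 : ∀ ψ : K⟦X⟧, (HahnSeries.ofPowerSeries ℤ K ψ).coeff n = 0 := by
      intro ψ
      rw [PowerSeries.coeff_coe, if_pos hn]
    rw [h1, h1, mul_zero]
  · obtain ⟨m, rfl⟩ := Int.eq_ofNat_of_zero_le hn
    rw [LaurentSeries.coeff_coe_powerSeries, LaurentSeries.coeff_coe_powerSeries]
    rcases m with _ | m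
    · simp
    · rw [show X * d⁄dX K φ = d⁄dX K φ * X from mul_comm _ _, coeff_succ_mul_X,
        coeff_derivative]
      push_cast
      ring

/-- `coeff 0 (θ x) = 0`. -/
theorem h38r_coeff_zero_theta (x : LaurentSeries K) : (h96dTheta x).coeff 0 = 0 := by
  rw [h96d_coeff_theta]
  simp

theorem h38r_coe_inv (u : K⟦X⟧) (hu : constantCoeff u ≠ 0) :
    (HahnSeries.ofPowerSeries ℤ K u)⁻¹ = HahnSeries.ofPowerSeries ℤ K u⁻¹ := by
  have h1 : u * u⁻¹ = 1 := PowerSeries.mul_inv_cancel u hu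
  have h2 : HahnSeries.ofPowerSeries ℤ K u * HahnSeries.ofPowerSeries ℤ K u⁻¹ = 1 := by
    rw [← map_mul, h1, map_one]
  exact inv_eq_of_mul_eq_one_right h2

/-- `dlog` of a power series with nonzero constant term is a power series without
constant term. -/
theorem h38r_coeff_zero_log_coe (u : K⟦X⟧) (hu : constantCoeff u ≠ 0) :
    (h96dLog (HahnSeries.ofPowerSeries ℤ K u)).coeff 0 = 0 := by
  rw [h96dLog, h38r_theta_coe, h38r_coe_inv u hu, ← map_mul]
  have := LaurentSeries.coeff_coe_powerSeries (X * d⁄dX K u * u⁻¹) 0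
  simp only [Nat.cast_zero] at this
  rw [this]
  simp [mul_assoc]

/-- **the residue of `dlog` is the order.** -/
theorem h38r_coeff_zero_log (y : LaurentSeries K) (hy : y ≠ 0) :
    (h96dLog y).coeff 0 = (y.order : K) := by
  have h1 := LaurentSeries.single_order_mul_powerSeriesPart y
  have hu : constantCoeff y.powerSeriesPart ≠ 0 := by
    rw [← PowerSeries.coeff_zero_eq_constantCoeff_apply, LaurentSeries.powerSeriesPart_coeff]
    simpa using (HahnSeries.coeff_order_eq_zero (x := y)).not.mpr hy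
  have hs : (HahnSeries.single y.order (1 : K) : LaurentSeries K) ≠ 0 := by
    simp
  have hc : HahnSeries.ofPowerSeries ℤ K y.powerSeriesPart ≠ 0 := by
    intro h
    rw [h, mul_zero] at h1
    exact hy h1.symm
  conv_lhs => rw [← h1]
  rw [h96d_log_mul hs hc, HahnSeries.coeff_add, h38r_coeff_zero_log_coe _ hu, add_zero,
    h96dLog, h96d_theta_single, mul_one]
  have h2 : (HahnSeries.single y.order (1 : K) : LaurentSeries K)⁻¹
      = HahnSeries.single (-y.order) (1 : K) := by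
    apply inv_eq_of_mul_eq_one_right
    rw [HahnSeries.single_mul_single]
    simp
  rw [h2, HahnSeries.single_mul_single]
  simp


/-! ### Substitution on Laurent series -/

/-- the substitution `q ↦ r` on power series, with values in Laurent series. -/
def h38rSub0 (r : K⟦X⟧) (hr : constantCoeff r = 0) : K⟦X⟧ →+* LaurentSeries K :=
  (HahnSeries.ofPowerSeries ℤ K).comp
    (substAlgHom (R := K) (HasSubst.of_constantCoeff_zero' hr)).toRingHom

theorem h38rSub0_apply (r : K⟦X⟧) (hr : constantCoeff r = 0) (φ : K⟦X⟧) :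
    h38rSub0 r hr φ = HahnSeries.ofPowerSeries ℤ K (subst r φ) := by
  rw [h38rSub0, RingHom.comp_apply]
  congr 1
  exact congrFun (coe_substAlgHom (HasSubst.of_constantCoeff_zero' hr)) φ

theorem h38rSub0_injective (r : K⟦X⟧) (hr : constantCoeff r = 0) (hr1 : coeff 1 r ≠ 0) :
    Function.Injective (h38rSub0 r hr) := by
  rw [injective_iff_map_eq_zero]
  intro φ h
  by_contra hφ
  rw [h38rSub0_apply] at h
  exact h38r_subst_ne_zero r hr hr1 φ hφ (HahnSeries.ofPowerSeries_injective (by rw [h, map_zero]))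

/-- the substitution `q ↦ r` on `K((q))` as a ring homomorphism. -/
def h38rSubR (r : K⟦X⟧) (hr : constantCoeff r = 0) (hr1 : coeff 1 r ≠ 0) :
    LaurentSeries K →+* LaurentSeries K :=
  IsFractionRing.lift (A := K⟦X⟧) (g := h38rSub0 r hr) (h38rSub0_injective r hr hr1)

theorem h38rSubR_coe (r : K⟦X⟧) (hr : constantCoeff r = 0) (hr1 : coeff 1 r ≠ 0) (φ : K⟦X⟧) :
    h38rSubR r hr hr1 (HahnSeries.ofPowerSeries ℤ K φ) =
      HahnSeries.ofPowerSeries ℤ K (subst r φ) := by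
  have h2 := IsFractionRing.lift_algebraMap (A := K⟦X⟧) (K := LaurentSeries K)
    (g := h38rSub0 r hr) (h38rSub0_injective r hr hr1) φ
  rw [← h38rSub0_apply r hr φ]
  exact h2

/-- **the substitution `q ↦ r`** on `K((q))`, for `r = c q + …`, `c ≠ 0`. -/
def h38rSub (r : K⟦X⟧) (hr : constantCoeff r = 0) (hr1 : coeff 1 r ≠ 0) :
    LaurentSeries K →ₐ[K] LaurentSeries K where
  toRingHom := h38rSubR r hr hr1
  commutes' c := by
    have h0 : algebraMap K (LaurentSeries K) c = HahnSeries.C c :=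
      LaurentSeries.algebraMap_apply (K := K) c
    rw [h0]
    show h38rSubR r hr hr1 (HahnSeries.C c) = HahnSeries.C c
    rw [← PowerSeries.coe_C, h38rSubR_coe]
    congr 1
    rw [subst_C]
    rfl

theorem h38rSub_coe (r : K⟦X⟧) (hr : constantCoeff r = 0) (hr1 : coeff 1 r ≠ 0) (φ : K⟦X⟧) :
    h38rSub r hr hr1 (HahnSeries.ofPowerSeries ℤ K φ) =
      HahnSeries.ofPowerSeries ℤ K (subst r φ) :=
  h38rSubR_coe r hr hr1 φ

/-- every Laurent series is a quotient of power series. -/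
theorem h38r_exists_frac (z : LaurentSeries K) :
    ∃ a b : K⟦X⟧, b ≠ 0 ∧
      z = HahnSeries.ofPowerSeries ℤ K a * (HahnSeries.ofPowerSeries ℤ K b)⁻¹ := by
  obtain ⟨a, b, hb, h⟩ := IsFractionRing.div_surjective (A := K⟦X⟧) z
  refine ⟨a, b, nonZeroDivisors.ne_zero hb, ?_⟩
  rw [← h, div_eq_mul_inv]
  rfl

/-- `θ` of a quotient. -/
theorem h38r_theta_div (a b : LaurentSeries K) (hb : b ≠ 0) :
    h96dTheta (a * b⁻¹) = (h96dTheta a * b - a * h96dTheta b) * (b⁻¹ * b⁻¹) := by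
  rw [h96d_theta_mul, h96d_theta_inv b hb]
  field_simp
  ring

/-- **chain rule** for the substitution `q ↦ r`. -/
theorem h38r_theta_sub (r : K⟦X⟧) (hr : constantCoeff r = 0) (hr1 : coeff 1 r ≠ 0)
    (z : LaurentSeries K) :
    h96dTheta (h38rSub r hr hr1 z) =
      h38rSub r hr hr1 (h96dTheta z) * h96dLog (HahnSeries.ofPowerSeries ℤ K r) := by
  have hs : HasSubst r := HasSubst.of_constantCoeff_zero' hr
  have hr0 : r ≠ 0 := fun h => hr1 (by rw [h]; simp)
  have hr0' : HahnSeries.ofPowerSeries ℤ K r ≠ 0 := fun h =>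
    hr0 (HahnSeries.ofPowerSeries_injective (by rw [h, map_zero]))
  -- the power series case
  have key : ∀ φ : K⟦X⟧, h96dTheta (h38rSub r hr hr1 (HahnSeries.ofPowerSeries ℤ K φ)) =
      h38rSub r hr hr1 (h96dTheta (HahnSeries.ofPowerSeries ℤ K φ)) *
        h96dLog (HahnSeries.ofPowerSeries ℤ K r) := by
    intro φ
    rw [h38rSub_coe, h38r_theta_coe, h38r_theta_coe, h38rSub_coe, derivative_subst hs,
      subst_mul hs, subst_X hs, h96dLog, h38r_theta_coe]
    simp only [map_mul]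
    field_simp
  obtain ⟨a, b, hb, rfl⟩ := h38r_exists_frac z
  have hb' : HahnSeries.ofPowerSeries ℤ K b ≠ 0 := fun h =>
    hb (HahnSeries.ofPowerSeries_injective (by rw [h, map_zero]))
  have hρb : h38rSub r hr hr1 (HahnSeries.ofPowerSeries ℤ K b) ≠ 0 := by
    rw [h38rSub_coe]
    exact fun h => h38r_subst_ne_zero r hr hr1 b hb
      (HahnSeries.ofPowerSeries_injective (by rw [h, map_zero]))
  rw [map_mul, map_inv₀, h38r_theta_div _ _ hρb, key a, key b, h38r_theta_div _ _ hb']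
  simp only [map_mul, map_sub, map_inv₀]
  ring


/-- the order of a power series `r = c q + …`, `c ≠ 0`, is one. -/
theorem h38r_order_coe (r : K⟦X⟧) (hr : constantCoeff r = 0) (hr1 : coeff 1 r ≠ 0) :
    (HahnSeries.ofPowerSeries ℤ K r).order = 1 := by
  have hc1 : (HahnSeries.ofPowerSeries ℤ K r).coeff 1 ≠ 0 := by
    have := LaurentSeries.coeff_coe_powerSeries r 1
    simp only [Nat.cast_one] at this
    rw [this]
    exact hr1
  have hne : HahnSeries.ofPowerSeries ℤ K r ≠ 0 := fun h => hc1 (by rw [h]; rfl)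
  refine le_antisymm (HahnSeries.order_le_of_coeff_ne_zero hc1) ?_
  rw [HahnSeries.le_order_iff_forall hne]
  intro j hj
  rw [PowerSeries.coeff_coe]
  split_ifs with h0
  · rfl
  · have hj0 : j = 0 := by omega
    subst hj0
    simpa using hr

/-- an antiderivative for `θ` (characteristic zero). -/
def h38rPrim (z : LaurentSeries K) : LaurentSeries K where
  coeff n := (n : K)⁻¹ * z.coeff n
  isPWO_support' := z.isPWO_support.mono (fun n hn => by
    simp only [Function.mem_support, ne_eq] at hn ⊢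
    exact fun h0 => hn (by rw [h0, mul_zero]))

theorem h38r_theta_prim [CharZero K] (z : LaurentSeries K) :
    h96dTheta (h38rPrim z) = z - HahnSeries.C (z.coeff 0) := by
  ext n
  rw [h96d_coeff_theta, HahnSeries.coeff_sub]
  show (n : K) * ((n : K)⁻¹ * z.coeff n) = _
  by_cases hn : n = 0
  · subst hn
    simp
  · have hn' : (n : K) ≠ 0 := Int.cast_ne_zero.mpr hn
    rw [← mul_assoc, mul_inv_cancel₀ hn', one_mul]
    have : (HahnSeries.C (z.coeff 0) : LaurentSeries K).coeff n = 0 :=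
      HahnSeries.coeff_single_of_ne hn
    rw [this, sub_zero]

/-- **invariance of the residue** under the substitution `q ↦ r`. -/
theorem h38r_resid_sub [CharZero K] (r : K⟦X⟧) (hr : constantCoeff r = 0) (hr1 : coeff 1 r ≠ 0)
    (z : LaurentSeries K) :
    (h38rSub r hr hr1 z * h96dLog (HahnSeries.ofPowerSeries ℤ K r)).coeff 0 = z.coeff 0 := by
  have hr0' : HahnSeries.ofPowerSeries ℤ K r ≠ 0 := by
    intro h
    have := h38r_order_coe r hr hr1
    rw [h, HahnSeries.order_zero] at this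
    exact zero_ne_one this
  have h1 : z = HahnSeries.C (z.coeff 0) + h96dTheta (h38rPrim z) := by
    rw [h38r_theta_prim]; ring
  have h2 : h38rSub r hr hr1 (HahnSeries.C (z.coeff 0)) = HahnSeries.C (z.coeff 0) := by
    have := (h38rSub r hr hr1).commutes (z.coeff 0)
    rwa [LaurentSeries.algebraMap_apply (K := K)] at this
  conv_lhs => rw [h1]
  rw [map_add, add_mul, ← h38r_theta_sub, HahnSeries.coeff_add, h38r_coeff_zero_theta, add_zero,
    h2, HahnSeries.C_mul_eq_smul, HahnSeries.coeff_smul, h38r_coeff_zero_log _ hr0',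
    h38r_order_coe r hr hr1]
  simp


/-! ### The conjugating substitutions `q ↦ s⁻¹(ζ s(q))` -/

theorem h38r_cc_smul (s : K⟦X⟧) (hs0 : constantCoeff s = 0) (ζ : K) :
    constantCoeff (ζ • s) = 0 := by
  rw [smul_eq_C_mul, map_mul, hs0, mul_zero]

/-- the series `r_ζ = s⁻¹ ∘ (ζ s)`. -/
def h38rConj (s : K⟦X⟧) (hs1 : coeff 1 s ≠ 0) (ζ : K) : K⟦X⟧ :=
  subst (ζ • s) (s.substInvOfIsUnit (Ne.isUnit hs1))

theorem h38r_conj_constantCoeff (s : K⟦X⟧) (hs0 : constantCoeff s = 0) (hs1 : coeff 1 s ≠ 0)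
    (ζ : K) : constantCoeff (h38rConj s hs1 ζ) = 0 := by
  rw [h38rConj]
  exact constantCoeff_subst_eq_zero (h38r_cc_smul s hs0 ζ) _ (constantCoeff_substInvOfIsUnit _ _)

theorem h38r_conj_coeff_one (s : K⟦X⟧) (hs0 : constantCoeff s = 0) (hs1 : coeff 1 s ≠ 0)
    (ζ : K) : coeff 1 (h38rConj s hs1 ζ) = ζ := by
  rw [h38rConj, h38r_coeff_one_subst _ (h38r_cc_smul s hs0 ζ), coeff_one_substInvOfIsUnit]
  have h1 : ((Ne.isUnit hs1).unit⁻¹ : Kˣ) = (Units.mk0 _ hs1)⁻¹ := by
    congr 1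
    ext
    rfl
  rw [h1]
  simp only [map_smul, smul_eq_mul, Units.val_inv_eq_inv_val, Units.val_mk0]
  field_simp

theorem h38r_conj_subst (s : K⟦X⟧) (hs0 : constantCoeff s = 0) (hs1 : coeff 1 s ≠ 0)
    (ζ : K) : subst (h38rConj s hs1 ζ) s = ζ • s := by
  have hQ : HasSubst (s.substInvOfIsUnit (Ne.isUnit hs1)) := HasSubst.substInvOfIsUnit _ _
  have hζ : HasSubst (ζ • s) := HasSubst.of_constantCoeff_zero' (h38r_cc_smul s hs0 ζ)
  rw [h38rConj, ← subst_comp_subst_apply hQ hζ, subst_substInvOfIsUnit_right s hs0, subst_X hζ]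

theorem h38r_conj_subst_pow (s : K⟦X⟧) (hs0 : constantCoeff s = 0) (hs1 : coeff 1 s ≠ 0)
    (ζ : K) (n : ℕ) (hζ : ζ ^ n = 1) : subst (h38rConj s hs1 ζ) (s ^ n) = s ^ n := by
  have hc : HasSubst (h38rConj s hs1 ζ) :=
    HasSubst.of_constantCoeff_zero' (h38r_conj_constantCoeff s hs0 hs1 ζ)
  rw [subst_pow hc, h38r_conj_subst s hs0 hs1, smul_pow, hζ, one_smul]

/-- the automorphism-like substitution `γ_ζ` of `K((q))`. -/
def h38rGam (s : K⟦X⟧) (hs0 : constantCoeff s = 0) (hs1 : coeff 1 s ≠ 0) (ζ : Kˣ) :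
    LaurentSeries K →ₐ[K] LaurentSeries K :=
  h38rSub (h38rConj s hs1 ζ) (h38r_conj_constantCoeff s hs0 hs1 ζ)
    (by rw [h38r_conj_coeff_one s hs0 hs1]; exact ζ.ne_zero)

theorem h38rGam_coe (s : K⟦X⟧) (hs0 : constantCoeff s = 0) (hs1 : coeff 1 s ≠ 0) (ζ : Kˣ)
    (φ : K⟦X⟧) :
    h38rGam s hs0 hs1 ζ (HahnSeries.ofPowerSeries ℤ K φ) =
      HahnSeries.ofPowerSeries ℤ K (subst (h38rConj s hs1 ζ) φ) :=
  h38rSub_coe _ _ _ φ

/-- `γ_ζ` fixes `s ^ n` when `ζ ^ n = 1`. -/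
theorem h38rGam_pow (s : K⟦X⟧) (hs0 : constantCoeff s = 0) (hs1 : coeff 1 s ≠ 0) (ζ : Kˣ)
    (n : ℕ) (hζ : ζ ^ n = 1) :
    h38rGam s hs0 hs1 ζ (HahnSeries.ofPowerSeries ℤ K (s ^ n)) =
      HahnSeries.ofPowerSeries ℤ K (s ^ n) := by
  rw [h38rGam_coe, h38r_conj_subst_pow s hs0 hs1 ζ n]
  have := congrArg Units.val hζ
  simpa using this

/-- **`γ_ζ` preserves the residue pairing** `(x, g) ↦ a₀(x · dlog g)`. -/
theorem h38rGam_resid [CharZero K] (s : K⟦X⟧) (hs0 : constantCoeff s = 0) (hs1 : coeff 1 s ≠ 0)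
    (ζ : Kˣ) (x g : LaurentSeries K) :
    (h38rGam s hs0 hs1 ζ x * h96dLog (h38rGam s hs0 hs1 ζ g)).coeff 0 =
      (x * h96dLog g).coeff 0 := by
  have h1 : h38rGam s hs0 hs1 ζ x * h96dLog (h38rGam s hs0 hs1 ζ g) =
      h38rGam s hs0 hs1 ζ (x * h96dLog g) *
        h96dLog (HahnSeries.ofPowerSeries ℤ K (h38rConj s hs1 ζ)) := by
    rw [h96dLog, h96dLog, h38rGam, h38r_theta_sub, map_mul, map_mul, map_inv₀]
    ring
  rw [h1, h38rGam, h38r_resid_sub]


/-! ### The norm is the product of the conjugates -/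

section Norm

open IntermediateField

variable [IsAlgClosed K] [CharZero K] {F : Type*} [Field F] [Algebra K F]

omit [IsAlgClosed K] [CharZero K] in
/-- `γ_ζ` fixes the image of `K(f)` when `ι f = (s ^ n)⁻¹`, `ζ ^ n = 1`. -/
theorem h38rGam_fix (ι : F →ₐ[K] LaurentSeries K) (f : F) (n : ℕ)
    (s : K⟦X⟧) (hs0 : constantCoeff s = 0) (hs1 : coeff 1 s ≠ 0)
    (hsf : ι f = (HahnSeries.ofPowerSeries ℤ K (s ^ n))⁻¹)
    (ζ : Kˣ) (hζ : ζ ^ n = 1) (e : K⟮f⟯) :
    h38rGam s hs0 hs1 ζ (ι (e : F)) = ι (e : F) := by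
  have h1 : ((h38rGam s hs0 hs1 ζ).comp ι).comp K⟮f⟯.val = ι.comp K⟮f⟯.val := by
    refine IntermediateField.algHom_ext_of_eq_adjoin K (S := K⟮f⟯) rfl ?_
    intro x hx
    rw [Set.mem_singleton_iff] at hx
    subst hx
    show h38rGam s hs0 hs1 ζ (ι x) = ι x
    rw [hsf, map_inv₀, h38rGam_pow s hs0 hs1 ζ n hζ]
  exact DFunLike.congr_fun h1 e

set_option maxHeartbeats 800000 in
/-- **the norm to `K(f)` is the product of the `n` conjugates `γ_ζ ∘ ι`.** -/
theorem h38r_norm_eq_prod (ι : F →ₐ[K] LaurentSeries K) (f : F) (n : ℕ) [NeZero n]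
    (hfin : Module.finrank K⟮f⟯ F = n)
    (s : K⟦X⟧) (hs0 : constantCoeff s = 0) (hs1 : coeff 1 s ≠ 0)
    (hsf : ι f = (HahnSeries.ofPowerSeries ℤ K (s ^ n))⁻¹)
    (π : F) (ϖ : K⟦X⟧) (hϖ : ι π = HahnSeries.ofPowerSeries ℤ K ϖ) (hϖ1 : coeff 1 ϖ ≠ 0) :
    ∃ Z : Finset Kˣ, Z.card = n ∧ (∀ ζ ∈ Z, ζ ^ n = 1) ∧ ∀ g : F,
      ι (algebraMap K⟮f⟯ F (Algebra.norm K⟮f⟯ g)) =
        ∏ ζ ∈ Z, h38rGam s hs0 hs1 ζ (ι g) := by
  classical
  letI : Fintype (rootsOfUnity n K) := Fintype.ofFinite _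
  haveI : FiniteDimensional K⟮f⟯ F :=
    Module.finite_of_finrank_pos (by rw [hfin]; exact Nat.pos_of_ne_zero (NeZero.ne n))
  let Ω := AlgebraicClosure (LaurentSeries K)
  let j : LaurentSeries K →+* Ω := algebraMap (LaurentSeries K) Ω
  have hj : Function.Injective j := (algebraMap (LaurentSeries K) Ω).injective
  letI : Algebra K⟮f⟯ Ω := (j.comp (ι.toRingHom.comp (algebraMap K⟮f⟯ F))).toAlgebra
  let σ : rootsOfUnity n K → (F →ₐ[K⟮f⟯] Ω) := fun ζ =>
    { toRingHom := j.comp ((h38rGam s hs0 hs1 (ζ : Kˣ)).toRingHom.comp ι.toRingHom)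
      commutes' := fun e => congrArg j
        (h38rGam_fix ι f n s hs0 hs1 hsf (ζ : Kˣ) ((mem_rootsOfUnity _ _).mp ζ.2) e) }
  have hσ : ∀ (ζ : rootsOfUnity n K) (x : F),
      σ ζ x = j (h38rGam s hs0 hs1 (ζ : Kˣ) (ι x)) := fun _ _ => rfl
  have hinj : Function.Injective σ := by
    intro ζ ζ' h
    have h1 := DFunLike.congr_fun h π
    rw [hσ, hσ, hϖ, h38rGam_coe, h38rGam_coe] at h1
    have h2 := HahnSeries.ofPowerSeries_injective (hj h1)
    have h3 := congrArg (coeff 1) h2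
    rw [h38r_coeff_one_subst _ (h38r_conj_constantCoeff s hs0 hs1 _),
      h38r_coeff_one_subst _ (h38r_conj_constantCoeff s hs0 hs1 _),
      h38r_conj_coeff_one s hs0 hs1, h38r_conj_coeff_one s hs0 hs1] at h3
    exact Subtype.ext (Units.ext (mul_left_cancel₀ hϖ1 h3))
  have hcard0 : Fintype.card (rootsOfUnity n K) = n := by
    obtain ⟨ζ₀, hζ₀⟩ := HasEnoughRootsOfUnity.exists_primitiveRoot K n
    rw [Fintype.card_eq_nat_card, hζ₀.card_rootsOfUnity]
  have hcard : Fintype.card (rootsOfUnity n K) = Fintype.card (F →ₐ[K⟮f⟯] Ω) := by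
    rw [AlgHom.card K⟮f⟯ F Ω, hfin, hcard0]
  have hbij : Function.Bijective σ := (Fintype.bijective_iff_injective_and_card σ).mpr ⟨hinj, hcard⟩
  refine ⟨Finset.univ.map ⟨fun ζ : rootsOfUnity n K => (ζ : Kˣ), Subtype.val_injective⟩, ?_, ?_, ?_⟩
  · rw [Finset.card_map, Finset.card_univ, hcard0]
  · intro ζ hζ
    obtain ⟨ζ', -, rfl⟩ := Finset.mem_map.mp hζ
    exact (mem_rootsOfUnity _ _).mp ζ'.2
  · intro g
    have hnorm := Algebra.norm_eq_prod_embeddings K⟮f⟯ Ω g
    apply hj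
    rw [Finset.prod_map, map_prod]
    calc j (ι (algebraMap K⟮f⟯ F (Algebra.norm K⟮f⟯ g)))
        = algebraMap K⟮f⟯ Ω (Algebra.norm K⟮f⟯ g) := rfl
      _ = ∏ τ : F →ₐ[K⟮f⟯] Ω, τ g := hnorm
      _ = ∏ ζ : rootsOfUnity n K, σ ζ g := (hbij.prod_comp (fun τ => τ g)).symm
      _ = _ := Finset.prod_congr rfl fun ζ _ => hσ ζ g

end Norm


/-! ### Roots and uniformisers -/

section Root

variable [IsAlgClosed K] [CharZero K]

/-- `n`-th roots of power series with nonzero constant coefficient (Hensel). -/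
theorem h38r_exists_root (n : ℕ) (hn : 0 < n) (u : K⟦X⟧) (hu : constantCoeff u ≠ 0) :
    ∃ v : K⟦X⟧, v ^ n = u := by
  obtain ⟨c₀, hc₀⟩ := IsAlgClosed.exists_pow_nat_eq (constantCoeff u) hn
  have hc₀ne : c₀ ≠ 0 := by
    rintro rfl
    rw [zero_pow hn.ne'] at hc₀
    exact hu hc₀.symm
  have h1 : (Polynomial.X ^ n - Polynomial.C u : Polynomial K⟦X⟧).eval
      (C c₀) ∈ (Ideal.span {X} : Ideal K⟦X⟧) := by
    rw [Ideal.mem_span_singleton, X_dvd_iff]
    simp [hc₀]
  have h2 : IsUnit (Ideal.Quotient.mk (Ideal.span {X} : Ideal K⟦X⟧)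
      ((Polynomial.X ^ n - Polynomial.C u : Polynomial K⟦X⟧).derivative.eval (C c₀))) := by
    apply IsUnit.map
    have h3 : (Polynomial.X ^ n - Polynomial.C u : Polynomial K⟦X⟧).derivative.eval
        (C c₀) = C ((n : K) * c₀ ^ (n - 1)) := by
      simp [Polynomial.derivative_X_pow]
    rw [h3]
    apply IsUnit.map
    exact (mul_ne_zero (Nat.cast_ne_zero.mpr hn.ne') (pow_ne_zero _ hc₀ne)).isUnit
  obtain ⟨a, ha, -⟩ := HenselianRing.is_henselian (R := K⟦X⟧)
    (I := Ideal.span {X})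
    (Polynomial.X ^ n - Polynomial.C u) (Polynomial.monic_X_pow_sub_C u hn.ne')
    (C c₀) h1 h2
  refine ⟨a, ?_⟩
  have := ha
  simp only [Polynomial.IsRoot, Polynomial.eval_sub, Polynomial.eval_pow, Polynomial.eval_X,
    Polynomial.eval_C, sub_eq_zero] at this
  exact this

omit [IsAlgClosed K] [CharZero K] in
theorem h38r_cc_powerSeriesPart (y : LaurentSeries K) (hy : y ≠ 0) :
    constantCoeff y.powerSeriesPart ≠ 0 := by
  rw [← PowerSeries.coeff_zero_eq_constantCoeff_apply, LaurentSeries.powerSeriesPart_coeff]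
  simpa using (HahnSeries.coeff_order_eq_zero (x := y)).not.mpr hy

/-- a Laurent series of order `-n`, `n > 0`, is `(s ^ n)⁻¹` for a power series `s = c q + …`. -/
theorem h38r_exists_s (y : LaurentSeries K) (n : ℕ) (hn : 0 < n) (hy : y.order = -(n : ℤ)) :
    ∃ s : K⟦X⟧, constantCoeff s = 0 ∧ coeff 1 s ≠ 0 ∧
      y = (HahnSeries.ofPowerSeries ℤ K (s ^ n))⁻¹ := by
  have hy0 : y ≠ 0 := by
    intro h
    rw [h, HahnSeries.order_zero] at hy
    omega
  have ht0 : y⁻¹ ≠ 0 := inv_ne_zero hy0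
  have hto : (n : ℤ) = (y⁻¹).order := by
    have h1 := HahnSeries.order_mul hy0 ht0
    rw [mul_inv_cancel₀ hy0, HahnSeries.order_one, hy] at h1
    omega
  have hu := h38r_cc_powerSeriesPart _ ht0
  obtain ⟨v, hv⟩ := h38r_exists_root n hn _ hu
  have hv0 : constantCoeff v ≠ 0 := by
    intro h
    apply hu
    rw [← hv, map_pow, h, zero_pow hn.ne']
  refine ⟨X * v, by simp, ?_, ?_⟩
  · rw [show X * v = v * X from mul_comm _ _, show (1 : ℕ) = 0 + 1 from rfl, coeff_succ_mul_X]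
    simpa using hv0
  · rw [mul_pow, hv, LaurentSeries.X_order_mul_powerSeriesPart hto, inv_inv]

omit [IsAlgClosed K] [CharZero K] in
/-- a Laurent series of order one is a power series `c q + …`, `c ≠ 0`. -/
theorem h38r_exists_unif (y : LaurentSeries K) (hy : y.order = 1) :
    ∃ ϖ : K⟦X⟧, y = HahnSeries.ofPowerSeries ℤ K ϖ ∧ coeff 1 ϖ ≠ 0 := by
  have hy0 : y ≠ 0 := by
    intro h
    rw [h, HahnSeries.order_zero] at hy
    omega
  have hu := h38r_cc_powerSeriesPart _ hy0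
  have h1 : ((1 : ℕ) : ℤ) = y.order := by rw [hy]; rfl
  refine ⟨X ^ 1 * y.powerSeriesPart, (LaurentSeries.X_order_mul_powerSeriesPart h1).symm, ?_⟩
  rw [pow_one, show X * y.powerSeriesPart = y.powerSeriesPart * X from mul_comm _ _,
    show (1 : ℕ) = 0 + 1 from rfl, coeff_succ_mul_X, PowerSeries.coeff_zero_eq_constantCoeff_apply]
  exact hu

end Root


/-! ### The residue formulas -/

section Main

open IntermediateField

variable [IsAlgClosed K] [CharZero K] {F : Type*} [Field F] [Algebra K F]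

omit [IsAlgClosed K] [CharZero K] in
theorem h38rGam_ne_zero (s : K⟦X⟧) (hs0 : constantCoeff s = 0) (hs1 : coeff 1 s ≠ 0) (ζ : Kˣ)
    {z : LaurentSeries K} (hz : z ≠ 0) : h38rGam s hs0 hs1 ζ z ≠ 0 := fun h =>
  hz ((h38rGam s hs0 hs1 ζ).toRingHom.injective (by rw [AlgHom.toRingHom_eq_coe, RingHom.coe_coe, h, map_zero]))

/-- **LOCAL NORM FORMULA for residues.**  `ι : F → K((q))`, `f` with a pole of order
`n = [F : K(f)]` at `q = 0`, `π` of order one.  Then for `x ∈ K(f)` and `g ≠ 0`: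
`n · a₀(x · dlog g) = a₀(x · dlog (N_{F/K(f)} g))`. -/
theorem h38r_norm (ι : F →ₐ[K] LaurentSeries K) (f : F) (n : ℕ) (hn : 0 < n)
    (hf : (ι f).order = -(n : ℤ)) (hfin : Module.finrank K⟮f⟯ F = n)
    (π : F) (hπ : (ι π).order = 1) (x : K⟮f⟯) (g : F) (hg : g ≠ 0) :
    (n : K) * (ι (x : F) * h96dLog (ι g)).coeff 0 =
      (ι (x : F) * h96dLog (ι (algebraMap K⟮f⟯ F (Algebra.norm K⟮f⟯ g)))).coeff 0 := by
  classical
  haveI : NeZero n := ⟨hn.ne'⟩
  obtain ⟨s, hs0, hs1, hsf⟩ := h38r_exists_s (ι f) n hn hf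
  obtain ⟨ϖ, hϖ, hϖ1⟩ := h38r_exists_unif (ι π) hπ
  obtain ⟨Z, hZc, hZ, hN⟩ := h38r_norm_eq_prod ι f n hfin s hs0 hs1 hsf π ϖ hϖ hϖ1
  have hιg : ι g ≠ 0 := fun h => hg (ι.toRingHom.injective (by
    rw [AlgHom.toRingHom_eq_coe, RingHom.coe_coe, h, map_zero]))
  rw [hN g, h96d_log_prod _ _ (fun ζ _ => h38rGam_ne_zero s hs0 hs1 ζ hιg), Finset.mul_sum,
    HahnSeries.coeff_sum]
  have hterm : ∀ ζ ∈ Z, (ι (x : F) * h96dLog (h38rGam s hs0 hs1 ζ (ι g))).coeff 0 =
      (ι (x : F) * h96dLog (ι g)).coeff 0 := by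
    intro ζ hζ
    conv_lhs => rw [← h38rGam_fix ι f n s hs0 hs1 hsf ζ (hZ ζ hζ) x]
    exact h38rGam_resid s hs0 hs1 ζ _ _
  rw [Finset.sum_congr rfl hterm, Finset.sum_const, hZc, nsmul_eq_mul]

omit [IsAlgClosed K] [CharZero K] in
/-- `a₀(y · dlog (y - a)) = a · ord y` for `y` with a pole. -/
theorem h38r_resid_linear (y : LaurentSeries K) (n : ℕ) (hn : 0 < n) (hy : y.order = -(n : ℤ))
    (a : K) :
    (y * h96dLog (y - HahnSeries.C a)).coeff 0 = -((n : K) * a) := by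
  have hcn : y.coeff (-(n : ℤ)) ≠ 0 := by
    have hy0 : y ≠ 0 := by
      intro h
      rw [h, HahnSeries.order_zero] at hy
      omega
    rw [← hy]
    exact (HahnSeries.coeff_order_eq_zero (x := y)).not.mpr hy0
  have hC : ∀ j : ℤ, j ≠ 0 → (HahnSeries.C a : LaurentSeries K).coeff j = 0 :=
    fun j hj => HahnSeries.coeff_single_of_ne hj
  have hc2 : (y - HahnSeries.C a).coeff (-(n : ℤ)) ≠ 0 := by
    rw [HahnSeries.coeff_sub, hC _ (by omega), sub_zero]
    exact hcn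
  have hne : y - HahnSeries.C a ≠ 0 := fun h => hc2 (by rw [h]; rfl)
  have hord : (y - HahnSeries.C a).order = -(n : ℤ) := by
    refine le_antisymm (HahnSeries.order_le_of_coeff_ne_zero hc2) ?_
    rw [HahnSeries.le_order_iff_forall hne]
    intro j hj
    rw [HahnSeries.coeff_sub, hC _ (by omega), sub_zero]
    exact HahnSeries.coeff_eq_zero_of_lt_order (by rw [hy]; exact hj)
  have h1 : y * h96dLog (y - HahnSeries.C a) =
      h96dTheta y + HahnSeries.C a * h96dLog (y - HahnSeries.C a) := by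
    rw [h96dLog, h96d_theta_sub, h96d_theta_C, sub_zero]
    field_simp
    ring
  rw [h1, HahnSeries.coeff_add, h38r_coeff_zero_theta, zero_add, HahnSeries.C_mul_eq_smul,
    HahnSeries.coeff_smul, h38r_coeff_zero_log _ hne, hord]
  simp
  ring

omit [IsAlgClosed K] [CharZero K] in
theorem h38r_log_zpow {x : LaurentSeries K} (hx : x ≠ 0) (m : ℤ) :
    h96dLog (x ^ m) = (m : LaurentSeries K) * h96dLog x := by
  obtain ⟨k, rfl | rfl⟩ := Int.eq_nat_or_neg m
  · rw [zpow_natCast, h96d_log_pow hx, nsmul_eq_mul]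
    simp
  · rw [zpow_neg, zpow_natCast, h96d_log_inv (pow_ne_zero _ hx), h96d_log_pow hx, nsmul_eq_mul]
    simp

/-- **DL2, LOCAL HALF.**  If `N_{F/K(f)} g = c ∏ (f - aᵢ)^{mᵢ}` then
`a₀(f · dlog g) = - ∑ mᵢ aᵢ`. -/
theorem h38r_resid {α : Type*} (ι : F →ₐ[K] LaurentSeries K) (f : F) (n : ℕ) (hn : 0 < n)
    (hf : (ι f).order = -(n : ℤ)) (hfin : Module.finrank K⟮f⟯ F = n)
    (π : F) (hπ : (ι π).order = 1) (g : F) (hg : g ≠ 0)
    (T : Finset α) (a : α → K) (m : α → ℤ) (c : K) (hc : c ≠ 0)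
    (hN : algebraMap K⟮f⟯ F (Algebra.norm K⟮f⟯ g) =
      algebraMap K F c * ∏ i ∈ T, (f - algebraMap K F (a i)) ^ (m i)) :
    (ι f * h96dLog (ι g)).coeff 0 = -∑ i ∈ T, (m i : K) * a i := by
  classical
  have hmain := h38r_norm ι f n hn hf hfin π hπ (AdjoinSimple.gen K f) g hg
  rw [AdjoinSimple.coe_gen, hN] at hmain
  have hιa : ∀ b : K, ι (algebraMap K F b) = HahnSeries.C b := fun b => by
    rw [AlgHom.commutes, LaurentSeries.algebraMap_apply (K := K)]
  have hCc : (HahnSeries.C c : LaurentSeries K) ≠ 0 := by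
    intro h
    apply hc
    have := congrArg (fun z : LaurentSeries K => z.coeff 0) h
    simpa using this
  have hfa : ∀ i, ι f - HahnSeries.C (a i) ≠ 0 := by
    intro i h
    have h1 := h38r_resid_linear (ι f) n hn hf (a i)
    have hy0 : (ι f).coeff (-(n : ℤ)) ≠ 0 := by
      have hy0 : ι f ≠ 0 := by
        intro h
        rw [h, HahnSeries.order_zero] at hf
        omega
      rw [← hf]
      exact (HahnSeries.coeff_order_eq_zero (x := ι f)).not.mpr hy0
    apply hy0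
    have h2 := congrArg (fun z : LaurentSeries K => z.coeff (-(n : ℤ))) h
    simp only [HahnSeries.coeff_sub, HahnSeries.coeff_zero] at h2
    rw [show (HahnSeries.C (a i) : LaurentSeries K).coeff (-(n : ℤ)) = 0 from
      HahnSeries.coeff_single_of_ne (by omega), sub_zero] at h2
    exact h2
  have hlog : h96dLog (ι (algebraMap K F c * ∏ i ∈ T, (f - algebraMap K F (a i)) ^ (m i))) =
      ∑ i ∈ T, (m i : LaurentSeries K) * h96dLog (ι f - HahnSeries.C (a i)) := by
    rw [map_mul, map_prod, hιa, h96d_log_mul hCc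
      (Finset.prod_ne_zero_iff.mpr fun i _ => by
        rw [map_zpow₀, map_sub, hιa]; exact zpow_ne_zero _ (hfa i)),
      h96d_log_C, zero_add, h96d_log_prod _ _ (fun i _ => by
        rw [map_zpow₀, map_sub, hιa]; exact zpow_ne_zero _ (hfa i))]
    refine Finset.sum_congr rfl fun i _ => ?_
    rw [map_zpow₀, map_sub, hιa, h38r_log_zpow (hfa i)]
  rw [hlog, Finset.mul_sum, HahnSeries.coeff_sum] at hmain
  have hterm : ∀ i ∈ T, (ι f * ((m i : LaurentSeries K) *
      h96dLog (ι f - HahnSeries.C (a i)))).coeff 0 = -((n : K) * ((m i : K) * a i)) := by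
    intro i _
    have h1 : ι f * ((m i : LaurentSeries K) * h96dLog (ι f - HahnSeries.C (a i))) =
        (m i : K) • (ι f * h96dLog (ι f - HahnSeries.C (a i))) := by
      rw [← HahnSeries.C_mul_eq_smul]
      have : (HahnSeries.C ((m i : ℤ) : K) : LaurentSeries K) = ((m i : ℤ) : LaurentSeries K) := by
        rw [map_intCast]
      rw [this]
      ring
    rw [h1, HahnSeries.coeff_smul, h38r_resid_linear (ι f) n hn hf (a i)]
    simp
    ring
  rw [Finset.sum_congr rfl hterm] at hmain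
  have hn0 : (n : K) ≠ 0 := Nat.cast_ne_zero.mpr hn.ne'
  apply mul_left_cancel₀ hn0
  rw [hmain, mul_neg, Finset.mul_sum, ← Finset.sum_neg_distrib]

end Main

end Fermat.Agent.P7
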