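import Mathlib
import Fermat.Agent.P7.H38ResNorm
import Fermat.Agent.Red.GFF
import Fermat.Agent.Red.Desc.Val

/-!
# Wave 7, DLOG route, leaf DL2 (global half): the residue identity (helper38)

`F` a function field over an algebraically closed field `K` of characteristic zero
(`HasPrincipalDivisors K F`), `ι : F →ₐ[K] K((q))` an expansion at the place `oo`
(`oo.ord x = (ι x).order`), `f` regular off `oo` with a pole at `oo`, `F` finite over `K(f)`.

* `h38g_le_finrank`, `h38g_finrank_le` : `[F : K(f)]` is the pole order of `f` at `oo`.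
* `h38g_fiber` : over a finite value `a` of `f`, the places over the place of `K(f)` are exactly
  the zeros of `f - a`, and `f - a` is a uniformiser of `K(f)` there.
* `h38g_resid` : **`a₀(f · θ(g)/g) = - ∑_{v ≠ oo} ord_v(g) · f(v)`** for every `g ≠ 0`
  (norm-divisor formula of `Red/GFF` + the local norm formula `h38r_resid`).
-/

set_option autoImplicit false
set_option linter.unusedSectionVars false

open AlgebraicCurve IntermediateField

noncomputable section

namespace Fermat.Agent.P7

open Fermat.Agent.S24.DiffPlace Fermat.Agent.Red.Desc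

variable {K F : Type*} [Field K] [IsAlgClosed K] [CharZero K] [Field F] [Algebra K F]
  [HasPrincipalDivisors K F]

/-- the order of `f - b` at a place where `f` takes another value `a ≠ b`. -/
theorem h38g_ord_sub_other (w : Place K F) (f : F) (a b : K)
    (ha : 0 < w.ord (f - algebraMap K F a)) (hab : a ≠ b) :
    f - algebraMap K F b ≠ 0 ∧ w.ord (f - algebraMap K F b) = 0 := by
  have hx : algebraMap K F (a - b) ≠ 0 := by
    rw [Ne, map_eq_zero]
    exact sub_ne_zero.mpr hab
  have hx0 : w.ord (algebraMap K F (a - b)) = 0 := ord_algebraMap w _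
  have h := ord_eq_of_ge_sub (v := w) (x := algebraMap K F (a - b))
    (y := f - algebraMap K F b) hx (by
      have h1 : algebraMap K F (a - b) - (f - algebraMap K F b) = -(f - algebraMap K F a) := by
        rw [map_sub]; ring
      rw [h1, hx0]
      exact (Ge.of_le (by omega)).neg)
  exact ⟨h.1, by rw [h.2, hx0]⟩

/-- the order of `f - b` at a pole of `f`. -/
theorem h38g_ord_sub_pole (w : Place K F) (f : F) (b : K) (hf : w.ord f < 0) :
    f - algebraMap K F b ≠ 0 ∧ w.ord (f - algebraMap K F b) = w.ord f := by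
  have hf0 : f ≠ 0 := by
    rintro rfl
    simp at hf
  refine ord_eq_of_ge_sub (v := w) (x := f) (y := f - algebraMap K F b) hf0 ?_
  rw [sub_sub_cancel]
  rcases eq_or_ne b 0 with rfl | hb
  · rw [map_zero]; exact Ge.zero _
  · exact Ge.of_le (by rw [ord_algebraMap]; omega)

/-- **degree zero**: the orders of a nonzero function add up to zero. -/
theorem h38g_sum_ord (x : F) (halg : Algebra.IsAlgebraic K⟮x⟯ F) (y : F) (hy : y ≠ 0) :
    ∃ T : Finset (Place K F), (∀ v, v ∈ T ↔ v.ord y ≠ 0) ∧ ∑ v ∈ T, v.ord y = 0 := by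
  obtain ⟨D, hD, hdeg⟩ := HasPrincipalDivisors.exists_divisor (K := K) y hy
  refine ⟨D.support, fun v => by rw [Finsupp.mem_support_iff, hD], ?_⟩
  rw [degree_eq_sum (fun v => place_deg_eq_one x halg v) D] at hdeg
  rw [← hdeg, Finsupp.sum]
  exact Finset.sum_congr rfl fun v _ => (hD v).symm

omit [CharZero K] [HasPrincipalDivisors K F] in
theorem h38g_mem_range_of_isAlgebraic (y : F) (hy : IsAlgebraic K y) :
    ∃ c : K, y = algebraMap K F c := by
  have hint : IsIntegral K y := hy.isIntegral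
  refine ⟨-(minpoly K y).coeff 0, ?_⟩
  have hq : (minpoly K y).leadingCoeff = 1 := minpoly.monic hint
  have h : (minpoly K y).degree = 1 :=
    IsAlgClosed.degree_eq_one_of_irreducible K (minpoly.irreducible hint)
  have h2 : Polynomial.aeval y (minpoly K y) = 0 := minpoly.aeval K y
  rw [Polynomial.eq_X_add_C_of_degree_eq_one h, hq, Polynomial.C_1, one_mul,
    Polynomial.aeval_add, Polynomial.aeval_X, Polynomial.aeval_C, add_eq_zero_iff_eq_neg] at h2
  rw [map_neg]
  exact h2

/-- a function without zeros and poles is constant. -/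
theorem h38g_const (x : F) (halg : Algebra.IsAlgebraic K⟮x⟯ F) (oo : Place K F) (y : F)
    (hy : y ≠ 0) (h : ∀ v : Place K F, v.ord y = 0) : ∃ c : K, c ≠ 0 ∧ y = algebraMap K F c := by
  by_cases htr : Transcendental K y
  · exfalso
    obtain ⟨c, hc⟩ := exists_ord_sub_const_pos x halg oo htr (by rw [h oo])
    have hne : y - algebraMap K F c ≠ 0 := by
      intro h0
      rw [h0] at hc
      simp at hc
    obtain ⟨T, hT, hsum⟩ := h38g_sum_ord x halg _ hne
    have hoo : oo ∈ T := (hT oo).mpr (by omega)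
    have hnn : ∀ v ∈ T, 0 ≤ v.ord (y - algebraMap K F c) := by
      intro v _
      apply ord_nonneg_of_mem
      exact sub_mem (mem_of_ord_nonneg v (by rw [h v])) (v.algebraMap_mem' c)
    have := Finset.single_le_sum hnn hoo
    omega
  · have halgy : IsAlgebraic K y := by
      by_contra h0
      exact htr h0
    obtain ⟨c, hc⟩ := h38g_mem_range_of_isAlgebraic y halgy
    refine ⟨c, ?_, hc⟩
    rintro rfl
    rw [map_zero] at hc
    exact hy hc


/-! ### The degree of `F / K(f)` -/

section Degree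

open PowerSeries

set_option maxHeartbeats 800000 in
/-- the `n` conjugating substitutions give `n ≤ [F : K(f)]`. -/
theorem h38g_le_finrank (ι : F →ₐ[K] LaurentSeries K) (f : F) (n : ℕ) (hn : 0 < n)
    (hf : (ι f).order = -(n : ℤ)) [FiniteDimensional K⟮f⟯ F]
    (π : F) (hπ : (ι π).order = 1) : n ≤ Module.finrank K⟮f⟯ F := by
  classical
  haveI : NeZero n := ⟨hn.ne'⟩
  obtain ⟨s, hs0, hs1, hsf⟩ := h38r_exists_s (ι f) n hn hf
  obtain ⟨ϖ, hϖ, hϖ1⟩ := h38r_exists_unif (ι π) hπ
  letI : Fintype (rootsOfUnity n K) := Fintype.ofFinite _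
  let Ω := AlgebraicClosure (LaurentSeries K)
  let j : LaurentSeries K →+* Ω := algebraMap (LaurentSeries K) Ω
  have hj : Function.Injective j := (algebraMap (LaurentSeries K) Ω).injective
  letI : Algebra K⟮f⟯ Ω := (j.comp (ι.toRingHom.comp (algebraMap K⟮f⟯ F))).toAlgebra
  let σ : rootsOfUnity n K → (F →ₐ[K⟮f⟯] Ω) := fun ζ =>
    { toRingHom := j.comp ((h38rGam s hs0 hs1 (ζ : Kˣ)).toRingHom.comp ι.toRingHom)
      commutes' := fun e => congrArg j
        (h38rGam_fix ι f n s hs0 hs1 hsf (ζ : Kˣ) ((mem_rootsOfUnity _ _).mp ζ.2) e) }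
  have hσ : ∀ (ζ : rootsOfUnity n K) (x : F),
      σ ζ x = j (h38rGam s hs0 hs1 (ζ : Kˣ) (ι x)) := fun _ _ => rfl
  have hinj : Function.Injective σ := by
    intro ζ ζ' h
    have h1 := DFunLike.congr_fun h π
    rw [hσ, hσ, hϖ, h38rGam_coe, h38rGam_coe] at h1
    have h2 := HahnSeries.ofPowerSeries_injective (hj h1)
    have h3 := congrArg (coeff 1) h2
    rw [h38r_coeff_one_subst _ (h38r_conj_constantCoeff s hs0 hs1 _),
      h38r_coeff_one_subst _ (h38r_conj_constantCoeff s hs0 hs1 _),
      h38r_conj_coeff_one s hs0 hs1, h38r_conj_coeff_one s hs0 hs1] at h3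
    exact Subtype.ext (Units.ext (mul_left_cancel₀ hϖ1 h3))
  have hcard0 : Fintype.card (rootsOfUnity n K) = n := by
    obtain ⟨ζ₀, hζ₀⟩ := HasEnoughRootsOfUnity.exists_primitiveRoot K n
    rw [Fintype.card_eq_nat_card, hζ₀.card_rootsOfUnity]
  have h1 := Fintype.card_le_of_injective σ hinj
  rw [AlgHom.card K⟮f⟯ F Ω, hcard0] at h1
  exact h1

end Degree

section Fiber

variable (oo : Place K F) (f : F) [FiniteDimensional K⟮f⟯ F]

/-- the place of `K(f)` under a place of `F`. -/
abbrev h38gBase (w : Place K F) : Place K K⟮f⟯ := w.restrict K⟮f⟯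

theorem h38g_isAlg : Algebra.IsAlgebraic K⟮f⟯ F := Algebra.IsAlgebraic.of_finite _ _

theorem h38g_ord_gen_sub (w : Place K F) (a : K) :
    w.ord (f - algebraMap K F a) =
      (w.ramificationIndex K⟮f⟯ : ℤ) *
        (h38gBase f w).ord (AdjoinSimple.gen K f - algebraMap K K⟮f⟯ a) := by
  rw [← Place.ord_restrict]
  congr 1

theorem h38g_ord_gen (w : Place K F) :
    w.ord f = (w.ramificationIndex K⟮f⟯ : ℤ) * (h38gBase f w).ord (AdjoinSimple.gen K f) := by
  rw [← Place.ord_restrict]
  congr 1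

/-- **`[F : K(f)] ≤ n`** for `f` regular off `oo` with a pole of order `n` at `oo`. -/
theorem h38g_finrank_le (hreg : ∀ v : Place K F, v ≠ oo → 0 ≤ v.ord f) (n : ℕ)
    (hoo : oo.ord f = -(n : ℤ)) (hn : 0 < n) :
    Module.finrank K⟮f⟯ F ≤ n := by
  classical
  have hfund := Fermat.Agent.Red.GFF.sum_ramificationIndex_eq_finrank (K := K) (F := K⟮f⟯)
    (F' := F) f (h38gBase f oo)
  have hepos : 0 < oo.ramificationIndex K⟮f⟯ := oo.ramificationIndex_pos (F := K⟮f⟯)
  have hbase : (h38gBase f oo).ord (AdjoinSimple.gen K f) < 0 := by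
    have h1 := h38g_ord_gen f oo
    rw [hoo] at h1
    by_contra h2
    push Not at h2
    have : 0 ≤ (oo.ramificationIndex K⟮f⟯ : ℤ) * (h38gBase f oo).ord (AdjoinSimple.gen K f) :=
      mul_nonneg (by positivity) h2
    omega
  have hfib : (h38gBase f oo).fiber F = {oo} := by
    ext w
    rw [Place.mem_fiber, Finset.mem_singleton]
    constructor
    · intro hw
      by_contra hne
      have h1 := h38g_ord_gen f w
      have h2 : h38gBase f w = h38gBase f oo := hw
      rw [h2] at h1
      have h3 := hreg w hne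
      have hwpos : 0 < w.ramificationIndex K⟮f⟯ := w.ramificationIndex_pos (F := K⟮f⟯)
      have : (w.ramificationIndex K⟮f⟯ : ℤ) * (h38gBase f oo).ord (AdjoinSimple.gen K f) < 0 :=
        mul_neg_of_pos_of_neg (by exact_mod_cast hwpos) hbase
      omega
    · rintro rfl
      rfl
  rw [hfib, Finset.sum_singleton] at hfund
  have h1 := h38g_ord_gen f oo
  rw [hoo] at h1
  have h2 : (oo.ramificationIndex K⟮f⟯ : ℤ) ≤ n := by
    have h3 : (h38gBase f oo).ord (AdjoinSimple.gen K f) ≤ -1 := by omega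
    nlinarith
  have : (Module.finrank K⟮f⟯ F : ℤ) ≤ n := by rw [← hfund]; exact h2
  exact_mod_cast this

end Fiber


section FiberFin

variable (oo : Place K F) (f : F) [FiniteDimensional K⟮f⟯ F]

set_option maxHeartbeats 800000 in
/-- **the fibre over a finite value**: for `w ≠ oo` with `f(w) = a`, the function `f - a` is a
uniformiser of `K(f)` at the place under `w`, and the places over it are exactly the places
`w' ≠ oo` with `f(w') = a`. -/
theorem h38g_fiber (hreg : ∀ v : Place K F, v ≠ oo → 0 ≤ v.ord f) (n : ℕ)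
    (hoo : oo.ord f = -(n : ℤ)) (hn : 0 < n) (hfin : Module.finrank K⟮f⟯ F = n)
    (fv : Place K F → K) (hfv : ∀ v : Place K F, v ≠ oo → 0 < v.ord (f - algebraMap K F (fv v)))
    (w : Place K F) (hw : w ≠ oo) :
    (h38gBase f w).ord (AdjoinSimple.gen K f - algebraMap K K⟮f⟯ (fv w)) = 1 ∧
      ∀ w' : Place K F, w' ∈ (h38gBase f w).fiber F ↔ (w' ≠ oo ∧ fv w' = fv w) := by
  classical
  have halg : Algebra.IsAlgebraic K⟮f⟯ F := h38g_isAlg f
  set a := fv w with ha
  set y := f - algebraMap K F a with hy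
  have hyoo := h38g_ord_sub_pole oo f a (by rw [hoo]; omega)
  have hy0 : y ≠ 0 := hyoo.1
  have hyoo' : oo.ord y = -(n : ℤ) := by rw [hy, hyoo.2, hoo]
  obtain ⟨T, hT, hsum⟩ := h38g_sum_ord f halg y hy0
  have hooT : oo ∈ T := (hT oo).mpr (by rw [hyoo']; omega)
  -- the zeros of `y`
  have hZ : ∀ v : Place K F, v ∈ T.erase oo ↔ (v ≠ oo ∧ fv v = a) := by
    intro v
    rw [Finset.mem_erase, hT]
    constructor
    · rintro ⟨hv, hv0⟩
      refine ⟨hv, ?_⟩
      by_contra hne
      exact hv0 (h38g_ord_sub_other v f (fv v) a (hfv v hv) hne).2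
    · rintro ⟨hv, hva⟩
      refine ⟨hv, ?_⟩
      have := hfv v hv
      rw [hva] at this
      exact this.ne'
  have hZpos : ∀ v ∈ T.erase oo, 0 < v.ord y := by
    intro v hv
    obtain ⟨hv1, hv2⟩ := (hZ v).mp hv
    have := hfv v hv1
    rwa [hv2] at this
  have hsumZ : ∑ v ∈ T.erase oo, v.ord y = n := by
    have := Finset.add_sum_erase T (fun v => v.ord y) hooT
    rw [hsum, hyoo'] at this
    omega
  -- the base place
  set k := (h38gBase f w).ord (AdjoinSimple.gen K f - algebraMap K K⟮f⟯ a) with hk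
  have hwy : w.ord y = (w.ramificationIndex K⟮f⟯ : ℤ) * k := h38g_ord_gen_sub f w a
  have hwpos : 0 < w.ord y := hfv w hw
  have hepos : ∀ w' : Place K F, 0 < (w'.ramificationIndex K⟮f⟯ : ℤ) := fun w' => by
    exact_mod_cast w'.ramificationIndex_pos (F := K⟮f⟯)
  have hkpos : 0 < k := by
    by_contra h
    push Not at h
    have := mul_nonpos_of_nonneg_of_nonpos (hepos w).le h
    omega
  have hfibord : ∀ w' ∈ (h38gBase f w).fiber F,
      w'.ord y = (w'.ramificationIndex K⟮f⟯ : ℤ) * k := by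
    intro w' hw'
    have h1 := h38g_ord_gen_sub f w' a
    have h2 : h38gBase f w' = h38gBase f w := Place.mem_fiber.mp hw'
    rw [h2] at h1
    exact h1
  have hfibsub : (h38gBase f w).fiber F ⊆ T.erase oo := by
    intro w' hw'
    have h1 := hfibord w' hw'
    have h2 : 0 < w'.ord y := by rw [h1]; exact mul_pos (hepos w') hkpos
    rw [Finset.mem_erase, hT]
    refine ⟨?_, by omega⟩
    rintro rfl
    rw [hyoo'] at h2
    omega
  have hfund := Fermat.Agent.Red.GFF.sum_ramificationIndex_eq_finrank (K := K) (F := K⟮f⟯)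
    (F' := F) f (h38gBase f w)
  rw [hfin] at hfund
  have hsumfib : ∑ w' ∈ (h38gBase f w).fiber F, w'.ord y = n * k := by
    rw [Finset.sum_congr rfl hfibord, ← Finset.sum_mul, hfund]
  have hle : ∑ w' ∈ (h38gBase f w).fiber F, w'.ord y ≤ ∑ v ∈ T.erase oo, v.ord y :=
    Finset.sum_le_sum_of_subset_of_nonneg hfibsub fun v hv _ => (hZpos v hv).le
  rw [hsumfib, hsumZ] at hle
  have hk1 : k = 1 := by
    have hn' : (0 : ℤ) < n := by exact_mod_cast hn
    nlinarith
  refine ⟨hk1, fun w' => ?_⟩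
  rw [← hZ]
  constructor
  · exact fun h => hfibsub h
  · intro hw'
    by_contra hnot
    have h1 : w'.ord y + ∑ w' ∈ (h38gBase f w).fiber F, w'.ord y ≤
        ∑ v ∈ T.erase oo, v.ord y := by
      have h2 := Finset.sum_insert (f := fun v : Place K F => v.ord y) hnot
      rw [← h2]
      exact Finset.sum_le_sum_of_subset_of_nonneg
        (Finset.insert_subset hw' hfibsub) fun v hv _ => (hZpos v hv).le
    rw [hsumfib, hsumZ, hk1] at h1
    have := hZpos w' hw'
    omega

end FiberFin


section Final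

omit [IsAlgClosed K] [CharZero K] [HasPrincipalDivisors K F] in
theorem h38g_ord_prod_zpow {α : Type*} (w : Place K F) (S : Finset α) (x : α → F) (m : α → ℤ)
    (hx : ∀ i ∈ S, x i ≠ 0) :
    w.ord (∏ i ∈ S, x i ^ m i) = ∑ i ∈ S, m i * w.ord (x i) := by
  classical
  induction S using Finset.induction_on with
  | empty => simp
  | insert a s ha ih =>
    rw [Finset.prod_insert ha, Finset.sum_insert ha,
      w.ord_mul (zpow_ne_zero _ (hx a (Finset.mem_insert_self a s)))
        (Finset.prod_ne_zero_iff.mpr fun i hi => zpow_ne_zero _ (hx i (Finset.mem_insert_of_mem hi))),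
      w.ord_zpow, ih fun i hi => hx i (Finset.mem_insert_of_mem hi)]

set_option maxHeartbeats 1600000 in
/-- **DL2 (residue identity), abstract function-field form.**  `F` a function field over an
algebraically closed field `K` of characteristic zero with an expansion `ι : F → K((q))` at the
place `oo`; `f` regular off `oo` with a pole at `oo`, `fv v` the value of `f` at `v ≠ oo`.
Then for every `g ≠ 0`:  `a₀(f · θ(g)/g) = - ∑_{v ≠ oo} ord_v(g) · f(v)`. -/
theorem h38g_resid (ι : F →ₐ[K] LaurentSeries K) (oo : Place K F)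
    (hι : ∀ x : F, x ≠ 0 → oo.ord x = (ι x).order)
    (f : F) [FiniteDimensional K⟮f⟯ F]
    (hreg : ∀ v : Place K F, v ≠ oo → 0 ≤ v.ord f) (hpole : oo.ord f < 0)
    (fv : Place K F → K) (hfv : ∀ v : Place K F, v ≠ oo → 0 < v.ord (f - algebraMap K F (fv v)))
    (g : F) (hg : g ≠ 0) (S : Finset (Place K F)) (hS1 : oo ∉ S)
    (hS2 : ∀ v : Place K F, v ≠ oo → v.ord g ≠ 0 → v ∈ S) :
    (ι f * h96dLog (ι g)).coeff 0 = -∑ v ∈ S, (v.ord g : K) * fv v := by
  classical
  have halg : Algebra.IsAlgebraic K⟮f⟯ F := h38g_isAlg f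
  obtain ⟨n, hn⟩ : ∃ n : ℕ, oo.ord f = -(n : ℤ) := ⟨(-oo.ord f).toNat, by omega⟩
  have hn0 : 0 < n := by omega
  have hf0 : f ≠ 0 := by
    rintro rfl
    simp at hpole
  have hιf : (ι f).order = -(n : ℤ) := by rw [← hι f hf0, hn]
  obtain ⟨π, hπ0, hπ⟩ := exists_ord_eq_one (v := oo)
  have hιπ : (ι π).order = 1 := by rw [← hι π hπ0, hπ]
  have hfin : Module.finrank K⟮f⟯ F = n :=
    le_antisymm (h38g_finrank_le oo f hreg n hn hn0) (h38g_le_finrank ι f n hn0 hιf π hιπ)
  -- the norm and the product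
  set N : K⟮f⟯ := Algebra.norm K⟮f⟯ g with hN
  have hN0 : N ≠ 0 := by
    rw [hN, Ne, Algebra.norm_eq_zero_iff]
    exact hg
  have hNF0 : algebraMap K⟮f⟯ F N ≠ 0 := by
    rw [Ne, map_eq_zero]; exact hN0
  have hfac : ∀ v ∈ S, f - algebraMap K F (fv v) ≠ 0 := fun v _ =>
    (h38g_ord_sub_pole oo f (fv v) hpole).1
  set P : F := ∏ v ∈ S, (f - algebraMap K F (fv v)) ^ (v.ord g) with hP
  have hP0 : P ≠ 0 := Finset.prod_ne_zero_iff.mpr fun v hv => zpow_ne_zero _ (hfac v hv)
  -- orders at the finite places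
  have hfinite : ∀ w : Place K F, w ≠ oo → w.ord (algebraMap K⟮f⟯ F N) = w.ord P := by
    intro w hw
    obtain ⟨hk1, hfib⟩ := h38g_fiber oo f hreg n hn hn0 hfin fv hfv w hw
    have he : w.ord (f - algebraMap K F (fv w)) = (w.ramificationIndex K⟮f⟯ : ℤ) := by
      rw [h38g_ord_gen_sub f w (fv w), hk1, mul_one]
    have hnorm : ∑ w' ∈ (w.restrict K⟮f⟯).fiber F, w'.ord g = (w.restrict K⟮f⟯).ord N :=
      Fermat.Agent.Red.GFF.sum_fiber_ord_eq_ord_norm (K := K) (F := K⟮f⟯)
        (F' := F) f (h38gBase f w) g hg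
    have hsub : S.filter (fun v => fv v = fv w) ⊆ (h38gBase f w).fiber F := by
      intro v hv
      rw [Finset.mem_filter] at hv
      exact (hfib v).mpr ⟨fun h => hS1 (h ▸ hv.1), hv.2⟩
    have hsum1 : ∑ w' ∈ (w.restrict K⟮f⟯).fiber F, w'.ord g =
        ∑ v ∈ S.filter (fun v => fv v = fv w), v.ord g := by
      symm
      refine Finset.sum_subset hsub fun w' hw' hnot => ?_
      obtain ⟨h1, h2⟩ := (hfib w').mp hw'
      by_contra h0
      exact hnot (Finset.mem_filter.mpr ⟨hS2 w' h1 h0, h2⟩)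
    rw [Place.ord_restrict (F := K⟮f⟯) w N, ← hnorm, hsum1, hP,
      h38g_ord_prod_zpow w S _ _ hfac, Finset.sum_filter, Finset.mul_sum]
    refine Finset.sum_congr rfl fun v hv => ?_
    split_ifs with h
    · rw [h, he]; ring
    · rw [(h38g_ord_sub_other w f (fv w) (fv v) (hfv w hw) (fun h' => h h'.symm)).2]
      ring
  -- the quotient is constant
  set y : F := algebraMap K⟮f⟯ F N * P⁻¹ with hy
  have hy0 : y ≠ 0 := mul_ne_zero hNF0 (inv_ne_zero hP0)
  have hyfin : ∀ w : Place K F, w ≠ oo → w.ord y = 0 := by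
    intro w hw
    rw [hy, w.ord_mul hNF0 (inv_ne_zero hP0), w.ord_inv, hfinite w hw]
    ring
  have hyall : ∀ w : Place K F, w.ord y = 0 := by
    intro w
    by_cases hw : w = oo
    · subst hw
      obtain ⟨T, hT, hsum⟩ := h38g_sum_ord f halg y hy0
      by_contra h0
      have hTeq : T = {w} := by
        ext v
        rw [hT, Finset.mem_singleton]
        constructor
        · intro hv
          by_contra hne
          exact hv (hyfin v hne)
        · rintro rfl
          exact h0
      rw [hTeq, Finset.sum_singleton] at hsum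
      exact h0 hsum
    · exact hyfin w hw
  obtain ⟨c, hc0, hc⟩ := h38g_const f halg oo y hy0 hyall
  have hNP : algebraMap K⟮f⟯ F (Algebra.norm K⟮f⟯ g) =
      algebraMap K F c * ∏ v ∈ S, (f - algebraMap K F (fv v)) ^ (v.ord g) := by
    rw [← hc, hy, ← hP, ← hN]
    field_simp
  exact h38r_resid ι f n hn0 hιf hfin π hιπ g hg S fv (fun v => v.ord g) c hc0 hNP

end Final

end Fermat.Agent.P7
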