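import Mathlib
import Fermat.Agent.P7.H38ResGlob
import Fermat.Agent.Red.HKMod
import Fermat.Agent.S37.Defs

/-!
# Wave 7, DLOG route, leaf DL2: the residue identity for `FF M` (helper38)

* `h38f_finite_adjoin` : a function field finite over `K(x)` is finite over `K(f)` for every
  transcendental `f`.
* `h38g_resid_gen` : `h38g_resid` with finiteness over `K(x)` for some `x`.
* `h38g_resid_FF` : **DL2 for `FF M`** (`K = ℚ̄`, `ι` = the inclusion `FF M ⊆ ℚ̄((q))`,
  `oo` any place with `oo.ord = q`-order, values in the `ValueAt` vocabulary of `S37/Defs`):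
  `a₀(f · θ(g)/g) = - ∑_{v ≠ oo} ord_v(g) · f(v)`.
-/

set_option autoImplicit false
set_option linter.unusedSectionVars false

open AlgebraicCurve IntermediateField ModularCurve

noncomputable section

namespace Fermat.Agent.P7

open Fermat.Agent.S24.DiffPlace Fermat.Agent.Red.Desc Fermat.Agent.S37

section General

variable {K F : Type*} [Field K] [Field F] [Algebra K F]

/-- a function field finite over `K(x)` is finite over `K(f)` for every transcendental `f`. -/
theorem h38f_finite_adjoin (x f : F) [FiniteDimensional K⟮x⟯ F] (hf : Transcendental K f) :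
    FiniteDimensional K⟮f⟯ F := by
  have halg : Algebra.IsAlgebraic K⟮f⟯ F :=
    isAlgebraic_adjoin_of_transcendental x f (Algebra.IsAlgebraic.of_finite _ _) hf
  have h1 : Algebra.EssFiniteType K K⟮x⟯ :=
    IntermediateField.essFiniteType_iff.mpr
      (IntermediateField.fg_adjoin_of_finite (Set.finite_singleton x))
  have h2 : Algebra.EssFiniteType K⟮x⟯ F := inferInstance
  have h3 : Algebra.EssFiniteType K F := Algebra.EssFiniteType.comp K K⟮x⟯ F
  have h4 : Algebra.EssFiniteType K⟮f⟯ F := Algebra.EssFiniteType.of_comp K K⟮f⟯ F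
  exact Algebra.finite_of_essFiniteType_of_isAlgebraic

variable [IsAlgClosed K] [CharZero K] [HasPrincipalDivisors K F]

/-- `h38g_resid` with finiteness over `K(x)` for some `x`. -/
theorem h38g_resid_gen (x : F) [FiniteDimensional K⟮x⟯ F]
    (ι : F →ₐ[K] LaurentSeries K) (oo : Place K F)
    (hι : ∀ y : F, y ≠ 0 → oo.ord y = (ι y).order)
    (f : F) (hreg : ∀ v : Place K F, v ≠ oo → 0 ≤ v.ord f) (hpole : oo.ord f < 0)
    (fv : Place K F → K) (hfv : ∀ v : Place K F, v ≠ oo → 0 < v.ord (f - algebraMap K F (fv v)))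
    (g : F) (hg : g ≠ 0) (S : Finset (Place K F)) (hS1 : oo ∉ S)
    (hS2 : ∀ v : Place K F, v ≠ oo → v.ord g ≠ 0 → v ∈ S) :
    (ι f * h96dLog (ι g)).coeff 0 = -∑ v ∈ S, (v.ord g : K) * fv v := by
  haveI : FiniteDimensional K⟮f⟯ F :=
    h38f_finite_adjoin x f (transcendental_of_ord_ne_zero oo (by omega))
  exact h38g_resid ι oo hι f hreg hpole fv hfv g hg S hS1 hS2

end General

/-- a nonzero element of the maximal ideal has positive order. -/
theorem h38g_ord_pos_of_nonunits {K F : Type*} [Field K] [Field F] [Algebra K F]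
    (v : Place K F) (x : F) (hx : x ≠ 0) (h : x ∈ v.toValuationSubring.nonunits) :
    0 < v.ord x := by
  rw [ValuationSubring.mem_nonunits_iff_or, or_iff_right hx, ← ord_nonneg_iff_mem, v.ord_inv] at h
  omega

/-- a function with a pole is not constant. -/
theorem h38g_sub_const_ne_zero {K F : Type*} [Field K] [Field F] [Algebra K F]
    (oo : Place K F) (f : F) (hpole : oo.ord f < 0) (a : K) : f - algebraMap K F a ≠ 0 := by
  intro h
  rw [sub_eq_zero] at h
  rw [h, ord_algebraMap] at hpole
  exact lt_irrefl _ hpole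

/-- **DL2 (RES-ID) for `FF M`.**  `oo` a place of `FF M` whose order is the `q`-order, `f`
regular off `oo` with a pole at `oo`, `fv v` the value of `f` at `v ≠ oo`.  Then for `g ≠ 0`
and every finite set `S` of places `≠ oo` containing the zeros and poles of `g` off `oo`:
`a₀(f · θ(g)/g) = - ∑_{v ∈ S} ord_v(g) · f(v)`. -/
theorem h38g_resid_FF (M : ℕ) [NeZero M] (oo : Place Kbar (FF M))
    (hoo : ∀ y : FF M, y ≠ 0 → oo.ord y = ((y : FF M) : LaurentSeries Kbar).order)
    (f : FF M) (hreg : ∀ v : Place Kbar (FF M), v ≠ oo → 0 ≤ v.ord f) (hpole : oo.ord f < 0)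
    (fv : Place Kbar (FF M) → Kbar)
    (hfv : ∀ v : Place Kbar (FF M), v ≠ oo → ValueAt v f (fv v))
    (g : FF M) (hg : g ≠ 0) (S : Finset (Place Kbar (FF M))) (hS1 : oo ∉ S)
    (hS2 : ∀ v : Place Kbar (FF M), v ≠ oo → v.ord g ≠ 0 → v ∈ S) :
    (((f : FF M) : LaurentSeries Kbar) * h96dLog ((g : FF M) : LaurentSeries Kbar)).coeff 0 =
      -∑ v ∈ S, (v.ord g : Kbar) * fv v := by
  haveI := Fermat.Agent.Red.HKMod.finiteDimensional_jBar M
  haveI := Fermat.Agent.Red.HKMod.hasPrincipalDivisors_FF M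
  have hfv' : ∀ v : Place Kbar (FF M), v ≠ oo →
      0 < v.ord (f - algebraMap Kbar (FF M) (fv v)) := fun v hv =>
    h38g_ord_pos_of_nonunits v _ (h38g_sub_const_ne_zero oo f hpole (fv v)) (hfv v hv)
  exact h38g_resid_gen (Fermat.Agent.S24.jBar M) (modularFunctionFieldBar M).val oo hoo f hreg
    hpole fv hfv' g hg S hS1 hS2

end Fermat.Agent.P7
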