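import Mathlib
import Fermat.Agent.P7.H38ResFF

/-!
# Wave 7, DLOG route, leaf DL2: the residue identity for `FF M`, all `f` (helper38)

`h38g_resid_FF_all` : the statement of `h38g_resid_FF` without the hypothesis that `f` has a
pole at `oo` (a function regular everywhere is constant and the identity is the degree-zero
formula), and `h38g_resid_gen_all`, the same for any function field.
-/

set_option autoImplicit false
set_option linter.unusedSectionVars false

open AlgebraicCurve IntermediateField ModularCurve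

noncomputable section

namespace Fermat.Agent.P7

open Fermat.Agent.S24.DiffPlace Fermat.Agent.Red.Desc Fermat.Agent.S37

section General

variable {K F : Type*} [Field K] [Field F] [Algebra K F]
variable [IsAlgClosed K] [CharZero K] [HasPrincipalDivisors K F]

/-- a function regular at every place is constant. -/
theorem h38g_const_of_regular (x : F) [FiniteDimensional K⟮x⟯ F] (oo : Place K F) (f : F)
    (hreg : ∀ v : Place K F, 0 ≤ v.ord f) : ∃ c : K, f = algebraMap K F c := by
  have halg : Algebra.IsAlgebraic K⟮x⟯ F := Algebra.IsAlgebraic.of_finite _ _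
  rcases eq_or_ne f 0 with rfl | hf
  · exact ⟨0, (map_zero _).symm⟩
  · obtain ⟨T, hT, hsum⟩ := h38g_sum_ord x halg f hf
    have h0 : ∀ v : Place K F, v.ord f = 0 := by
      intro v
      by_contra hv
      have hvT : v ∈ T := (hT v).mpr hv
      have h1 := Finset.single_le_sum (f := fun w : Place K F => w.ord f)
        (fun w _ => hreg w) hvT
      have h2 := hreg v
      omega
    obtain ⟨c, -, hc⟩ := h38g_const x halg oo f hf h0
    exact ⟨c, hc⟩

/-- the degree-zero formula in the shape `∑_{v ∈ S} ord_v g = - ord_oo g`. -/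
theorem h38g_sum_ord_off (x : F) [FiniteDimensional K⟮x⟯ F] (oo : Place K F) (g : F)
    (hg : g ≠ 0) (S : Finset (Place K F)) (hS1 : oo ∉ S)
    (hS2 : ∀ v : Place K F, v ≠ oo → v.ord g ≠ 0 → v ∈ S) :
    ∑ v ∈ S, v.ord g = -oo.ord g := by
  classical
  have halg : Algebra.IsAlgebraic K⟮x⟯ F := Algebra.IsAlgebraic.of_finite _ _
  obtain ⟨T, hT, hsum⟩ := h38g_sum_ord x halg g hg
  have h1 : ∑ v ∈ insert oo S, v.ord g = ∑ v ∈ T, v.ord g := by
    symm
    apply Finset.sum_subset
    · intro v hv
      rcases eq_or_ne v oo with rfl | hvo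
      · exact Finset.mem_insert_self _ _
      · exact Finset.mem_insert_of_mem (hS2 v hvo ((hT v).mp hv))
    · intro v _ hv
      by_contra h
      exact hv ((hT v).mpr h)
  rw [Finset.sum_insert (f := fun v : Place K F => v.ord g) hS1, hsum] at h1
  omega

/-- **DL2 for any function field, all `f` regular off `oo`** (values in the shape
`f - f(v) ∈ 𝔪_v`). -/
theorem h38g_resid_gen_all (x : F) [FiniteDimensional K⟮x⟯ F]
    (ι : F →ₐ[K] LaurentSeries K) (oo : Place K F)
    (hι : ∀ y : F, y ≠ 0 → oo.ord y = (ι y).order)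
    (f : F) (hreg : ∀ v : Place K F, v ≠ oo → 0 ≤ v.ord f)
    (fv : Place K F → K)
    (hfv : ∀ v : Place K F, v ≠ oo →
      f - algebraMap K F (fv v) ∈ v.toValuationSubring.nonunits)
    (g : F) (hg : g ≠ 0) (S : Finset (Place K F)) (hS1 : oo ∉ S)
    (hS2 : ∀ v : Place K F, v ≠ oo → v.ord g ≠ 0 → v ∈ S) :
    (ι f * h96dLog (ι g)).coeff 0 = -∑ v ∈ S, (v.ord g : K) * fv v := by
  by_cases hpole : oo.ord f < 0
  · have hfv' : ∀ v : Place K F, v ≠ oo → 0 < v.ord (f - algebraMap K F (fv v)) := fun v hv =>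
      h38g_ord_pos_of_nonunits v _ (h38g_sub_const_ne_zero oo f hpole (fv v)) (hfv v hv)
    exact h38g_resid_gen x ι oo hι f hreg hpole fv hfv' g hg S hS1 hS2
  · have hreg' : ∀ v : Place K F, 0 ≤ v.ord f := by
      intro v
      rcases eq_or_ne v oo with rfl | hv
      · omega
      · exact hreg v hv
    obtain ⟨c, rfl⟩ := h38g_const_of_regular x oo f hreg'
    have hval : ∀ v : Place K F, v ≠ oo → fv v = c := by
      intro v hv
      by_contra hne
      have h1 := hfv v hv
      rw [← map_sub] at h1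
      have hne' : algebraMap K F (c - fv v) ≠ 0 := by
        rw [Ne, map_eq_zero, sub_eq_zero]
        exact fun h => hne h.symm
      have h2 := h38g_ord_pos_of_nonunits v _ hne' h1
      rw [ord_algebraMap] at h2
      exact lt_irrefl _ h2
    have hιg : ι g ≠ 0 := by
      rw [Ne, map_eq_zero]
      exact hg
    have hsum := h38g_sum_ord_off x oo g hg S hS1 hS2
    have hsumK : ∑ v ∈ S, (v.ord g : K) = -(oo.ord g : K) := by
      have := congrArg (fun n : ℤ => (n : K)) hsum
      simpa using this
    have hR : ∑ v ∈ S, (v.ord g : K) * fv v = -(oo.ord g : K) * c := by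
      rw [← hsumK, Finset.sum_mul]
      refine Finset.sum_congr rfl fun v hv => ?_
      rw [hval v (fun h => hS1 (h ▸ hv))]
    rw [hR, AlgHom.commutes, LaurentSeries.algebraMap_apply (K := K), HahnSeries.C_mul_eq_smul,
      HahnSeries.coeff_smul, h38r_coeff_zero_log _ hιg, ← hι g hg, smul_eq_mul]
    ring

end General

/-- **DL2 (RES-ID) for `FF M`, all `f` regular off `oo`** (no pole hypothesis). -/
theorem h38g_resid_FF_all (M : ℕ) [NeZero M] (oo : Place Kbar (FF M))
    (hoo : ∀ y : FF M, y ≠ 0 → oo.ord y = ((y : FF M) : LaurentSeries Kbar).order)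
    (f : FF M) (hreg : ∀ v : Place Kbar (FF M), v ≠ oo → 0 ≤ v.ord f)
    (fv : Place Kbar (FF M) → Kbar)
    (hfv : ∀ v : Place Kbar (FF M), v ≠ oo → ValueAt v f (fv v))
    (g : FF M) (hg : g ≠ 0) (S : Finset (Place Kbar (FF M))) (hS1 : oo ∉ S)
    (hS2 : ∀ v : Place Kbar (FF M), v ≠ oo → v.ord g ≠ 0 → v ∈ S) :
    (((f : FF M) : LaurentSeries Kbar) * h96dLog ((g : FF M) : LaurentSeries Kbar)).coeff 0 =
      -∑ v ∈ S, (v.ord g : Kbar) * fv v := by
  have := Fermat.Agent.Red.HKMod.finiteDimensional_jBar M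
  have := Fermat.Agent.Red.HKMod.hasPrincipalDivisors_FF M
  exact h38g_resid_gen_all (Fermat.Agent.S24.jBar M) (modularFunctionFieldBar M).val oo hoo f
    hreg fv hfv g hg S hS1 hS2

end Fermat.Agent.P7
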