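import Fermat.Agent.P7.H96Dlog
import Fermat.Agent.Red.GV.Defs

/-!
# Wave 7, DLOG at the level `M`, leaf (6) RED of ORTH(M) (twin, helper59, prefix `h59r_`)

`A` a valuation subring of a field `K`, `π : A →+* k` a ring homomorphism to a field,
`a, b ∈ A((q))`, `b` invertible in `A((q))` (e.g. a power series with unit constant term).
Then the constant term of `a · dlog b` (computed in `K((q))`) lies in `A`, and its image under
`π` is the constant term of `ā · dlog b̄` (computed in `k((q))`).

* `h59rTheta` : `θ = q d/dq` on `R((q))` for a commutative ring `R`;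
  `h59r_theta_map` : `coeffMap f (θ s) = h96dTheta (coeffMap f s)`.
* `h59r_log_map` : `b c = 1` in `R((q))` ⟹ `h96dLog (coeffMap f b) = coeffMap f (θ b · c)`.
* `h59r_red_of_inv`, `h59r_red_ps`, `h59r_red` : the statement, for `b` with an inverse, for
  `b` a power series with unit constant term, and in coefficient form.
* `h59r_red_all` : the whole series `a · dlog b` is `embA` of a series over `A` whose `redA` is
  `ā · dlog b̄`.

Mathlib + the definitions `embA`, `redA`, `h96dLog` only.  Nothing is assumed.
-/

set_option autoImplicit false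

open HahnSeries ModularCurve

noncomputable section

namespace Fermat.Agent.P7

open Fermat.Agent.Red.GV

/-- `θ = q d/dq` on `R((q))`, `R` any commutative ring. -/
def h59rTheta {R : Type*} [CommRing R] (s : LaurentSeries R) : LaurentSeries R where
  coeff n := (n : R) * s.coeff n
  isPWO_support' := s.isPWO_support.mono (fun n hn => by
    simp only [Function.mem_support, ne_eq] at hn ⊢
    exact fun h0 => hn (by rw [h0, mul_zero]))

@[simp] theorem h59r_coeff_theta {R : Type*} [CommRing R] (s : LaurentSeries R) (n : ℤ) :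
    (h59rTheta s).coeff n = (n : R) * s.coeff n := rfl

/-- `θ` commutes with coefficientwise ring homomorphisms. -/
theorem h59r_theta_map {R : Type*} [CommRing R] {L : Type*} [Field L] (f : R →+* L)
    (s : LaurentSeries R) : coeffMap f (h59rTheta s) = h96dTheta (coeffMap f s) := by
  ext n
  simp [coeffMap_coeff]

/-- `dlog` of the image of an invertible series. -/
theorem h59r_log_map {R : Type*} [CommRing R] {L : Type*} [Field L] (f : R →+* L)
    (b c : LaurentSeries R) (hbc : b * c = 1) :
    h96dLog (coeffMap f b) = coeffMap f (h59rTheta b * c) := by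
  have h1 : coeffMap f b * coeffMap f c = 1 := by
    rw [← map_mul, hbc, map_one]
  have h2 : (coeffMap f b)⁻¹ = coeffMap f c := inv_eq_of_mul_eq_one_right h1
  unfold h96dLog
  rw [h2, map_mul, h59r_theta_map]

/-- **RED, series form**: `a · dlog b` over `K` comes from `A((q))` and reduces to
`ā · dlog b̄`. -/
theorem h59r_red_all {K : Type} [Field K] (A : ValuationSubring K) {k : Type} [Field k]
    (π : A →+* k) (a b c : LaurentSeries A) (hbc : b * c = 1) :
    ∃ w : LaurentSeries A, embA A a * h96dLog (embA A b) = embA A w ∧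
      redA π a * h96dLog (redA π b) = redA π w := by
  refine ⟨a * (h59rTheta b * c), ?_, ?_⟩
  · unfold embA
    rw [h59r_log_map _ b c hbc, ← map_mul]
  · unfold redA
    rw [h59r_log_map _ b c hbc, ← map_mul]

/-- **RED** for `b` with an inverse in `A((q))`. -/
theorem h59r_red_of_inv {K : Type} [Field K] (A : ValuationSubring K) {k : Type} [Field k]
    (π : A →+* k) (a b c : LaurentSeries A) (hbc : b * c = 1) :
    ∃ x : A, (embA A a * h96dLog (embA A b)).coeff 0 = (x : K) ∧
      (redA π a * h96dLog (redA π b)).coeff 0 = π x := by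
  obtain ⟨w, h1, h2⟩ := h59r_red_all A π a b c hbc
  refine ⟨w.coeff 0, ?_, ?_⟩
  · rw [h1]
    unfold embA
    rw [coeffMap_coeff]
    rfl
  · rw [h2]
    unfold redA
    rw [coeffMap_coeff]

/-- a power series with unit constant term is invertible in `A((q))`. -/
theorem h59r_exists_inv {R : Type*} [CommRing R] (b₀ : PowerSeries R)
    (hb : IsUnit (PowerSeries.constantCoeff b₀)) :
    ∃ c : LaurentSeries R, HahnSeries.ofPowerSeries ℤ R b₀ * c = 1 := by
  have hu : IsUnit b₀ := PowerSeries.isUnit_iff_constantCoeff.mpr hb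
  obtain ⟨u, rfl⟩ := hu
  refine ⟨HahnSeries.ofPowerSeries ℤ R (↑u⁻¹ : PowerSeries R), ?_⟩
  rw [← map_mul, Units.mul_inv, map_one]

/-- **RED** for `b` a power series with unit constant term. -/
theorem h59r_red_ps {K : Type} [Field K] (A : ValuationSubring K) {k : Type} [Field k]
    (π : A →+* k) (a : LaurentSeries A) (b₀ : PowerSeries A)
    (hb : IsUnit (PowerSeries.constantCoeff b₀)) :
    ∃ x : A, (embA A a * h96dLog (embA A (HahnSeries.ofPowerSeries ℤ A b₀))).coeff 0 = (x : K) ∧
      (redA π a * h96dLog (redA π (HahnSeries.ofPowerSeries ℤ A b₀))).coeff 0 = π x := by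
  obtain ⟨c, hc⟩ := h59r_exists_inv b₀ hb
  exact h59r_red_of_inv A π a _ c hc

/-- a Laurent series without negative terms is a power series. -/
theorem h59r_eq_ofPowerSeries {R : Type*} [CommRing R] (b : LaurentSeries R)
    (hneg : ∀ n : ℤ, n < 0 → b.coeff n = 0) :
    b = HahnSeries.ofPowerSeries ℤ R (PowerSeries.mk fun n : ℕ => b.coeff (n : ℤ)) := by
  ext n
  have h := PowerSeries.coeff_coe (R := R) (f := PowerSeries.mk fun n : ℕ => b.coeff (n : ℤ)) n
  rw [h]
  split_ifs with hn
  · exact hneg n hn
  · rw [PowerSeries.coeff_mk, Int.natAbs_of_nonneg (not_lt.mp hn)]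

/-- **RED**, coefficient form: `b` has no negative terms and a unit constant term. -/
theorem h59r_red {K : Type} [Field K] (A : ValuationSubring K) {k : Type} [Field k]
    (π : A →+* k) (a b : LaurentSeries A) (hneg : ∀ n : ℤ, n < 0 → b.coeff n = 0)
    (hb : IsUnit (b.coeff 0)) :
    ∃ x : A, (embA A a * h96dLog (embA A b)).coeff 0 = (x : K) ∧
      (redA π a * h96dLog (redA π b)).coeff 0 = π x := by
  have hb' := h59r_eq_ofPowerSeries b hneg
  have hu : IsUnit (PowerSeries.constantCoeff (PowerSeries.mk fun n : ℕ => b.coeff (n : ℤ))) := by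
    rw [← PowerSeries.coeff_zero_eq_constantCoeff_apply, PowerSeries.coeff_mk]
    exact_mod_cast hb
  obtain ⟨c, hc⟩ := h59r_exists_inv _ hu
  rw [← hb'] at hc
  exact h59r_red_of_inv A π a b c hc

end Fermat.Agent.P7
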