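import Fermat.Agent.P7.H26IntIface

/-!
# Wave 7, DLOG at the level `M`, leaf DL4-M-CONST piece (c) (helper94, prefix `h94y_`):
`H26iIntAbs → H26iInt`

An element of the chart at infinity `modelInf M A` is Gauss-integral (`modelInf_le_gaussV`) and
integral over `A[1/j]`; the `q`-expansion of `1/j` has coefficients in `A` (`exists_jinvA`), so
the `q`-expansion of the element is integral over `A((q))`, and INT-ABS applies.
-/

set_option autoImplicit false
set_option linter.unusedSectionVars false

open AlgebraicCurve ModularCurve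

noncomputable section

namespace Fermat.Agent.P7

open Fermat.Agent.S37 Fermat.Agent.Red.GV Fermat.Agent.Red.GV.Asm Fermat.Agent.P5
  Fermat.Agent.S28

/-- integrality over `A[1/j]` implies integrality over `A((q))`. -/
theorem h94y_isIntegralElem_embA (A : ValuationSubring Kbar) (x : LaurentSeries Kbar)
    (hx : (evalA A (jK Kbar)⁻¹).IsIntegralElem x) : (embA A).IsIntegralElem x := by
  obtain ⟨P, hP, hPx⟩ := hx
  obtain ⟨y, -, hy, -⟩ := exists_jinvA A (IsLocalRing.residue A)
  refine ⟨P.map (evalC y), hP.map _, ?_⟩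
  rw [Polynomial.eval₂_map, embA_comp_evalC, hy]
  exact hPx

/-- the `q`-expansion of an element of the chart at infinity is integral over `A((q))`. -/
theorem h94y_modelInf_isIntegralElem (A : ValuationSubring Kbar) (M : ℕ) [NeZero M] (f : FF M)
    (hf : f ∈ modelInf M A) : (embA A).IsIntegralElem ((f : FF M) : LaurentSeries Kbar) :=
  h94y_isIntegralElem_embA A _ ((mem_modelInf_iff M A f).mp hf)

/-- the `q`-expansion of an element of the finite chart is integral over `A((q))`. -/
theorem h94y_modelFin_isIntegralElem (A : ValuationSubring Kbar) (M : ℕ) [NeZero M] (f : FF M)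
    (hf : f ∈ modelFin M A) : (embA A).IsIntegralElem ((f : FF M) : LaurentSeries Kbar) := by
  obtain ⟨P, hP, hPx⟩ := (mem_modelFin_iff M A f).mp hf
  refine ⟨P.map (evalC (jqModC A)), hP.map _, ?_⟩
  rw [Polynomial.eval₂_map, embA_comp_evalC, embA_jqModC]
  exact hPx

/-- **piece (c)**: INT-ABS implies INT. -/
theorem h94y_int (h : H26iIntAbs) : H26iInt := by
  intro ℓ hℓ M _ hM A hA f hf
  exact h A _ ((mem_gaussV_iff A M f).mp (modelInf_le_gaussV A M hℓ hM hA hf))
    (h94y_modelInf_isIntegralElem A M f hf)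

/-- INT for the finite chart as well (same proof). -/
theorem h94y_int_fin (h : H26iIntAbs) (ℓ : ℕ) (hℓ : ℓ.Prime) (M : ℕ) [NeZero M] (hM : ¬ ℓ ∣ M)
    (A : ValuationSubring Kbar) (hA : A.LiesOverPrime ℓ) (f : FF M) (hf : f ∈ modelFin M A) :
    ∃ y : LaurentSeries A, embA A y = ((f : FF M) : LaurentSeries Kbar) :=
  h A _ ((mem_gaussV_iff A M f).mp (modelFin_le_gaussV A M hℓ hM hA hf))
    (h94y_modelFin_isIntegralElem A M f hf)

end Fermat.Agent.P7
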