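import Fermat.Agent.P7.H19OrthTop
import Fermat.Agent.P7.H38ResFFAll
import Fermat.Agent.P7.H59DlogRed
import Fermat.Agent.P7.H94IntOfAbs
import Fermat.Agent.P7.H37GapM

/-!
# Wave 7, DLOG at the level `M`: the ASSEMBLY of ORTH(M) (helper19, prefix `h19o_` / `H19o`)

`p ≥ 5`, `M` prime to `p`, `A` over `p`, `k` its residue field, `Q` the place `∞` of `FF M`.

* `h19o_int_regOff` : **INT for the functions regular off `∞`**, from `H26iInt` (helper26's
  frozen Prop: the chart at infinity has `A`-integral `q`-expansions): a Gauss-integral `f` of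
  level `M` regular off `∞` has `q`-expansion `embA a`, `a ∈ A((q))`, and `gaussR f = redA a`.
* `H19oLiftAt A M Q s₀` : the **LIFT datum** for a normalised reduction `s₀` (= output of LIFT +
  S0 + PS-INT + SUM): `g ∈ FF M`, `g ≠ 0`, with `q`-expansion `embA b`, `b` invertible in
  `A((q))`, `redA b = a · s₀ ^ d` (`a ≠ 0`, `d ≠ 0` in `k`), and for every Gauss-integral `f`
  regular off `∞` a value function `fv` and a finite set `S ∌ ∞` containing the zeros and poles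
  of `g` off `∞` with `∑_{v ∈ S} ord_v(g) f(v) ∈ 𝔪_A`.
* `H19oResAt A M Q s₀` : the same with the last clause replaced by "the characteristic-zero
  residue `a₀(f · dlog g)` lies in `𝔪_A`"; `h19o_res_of_lift` (DL2 `h38g_resid_FF_all`).
* `h19o_orth_of_resAt`, `h19o_orth_of_liftAt` : `H26iInt` + LIFT datum `⟹`
  `a₀(gaussR f · dlog s₀) = 0` (RED `h59r_red_of_inv` + INT for `f`).
* `H19oResM p`, `h19o_orthNorm_of_res`, `h19o_orthM_of_res` : the residue form.
* `H19oLiftM p` : the LIFT datum exists for every normalised Gauss unit.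
* `h19o_orthNorm_of_lift : H26iInt → H19oLiftM p → H19oOrthNormM p`,
  `h19o_orthM_of_lift : H26iInt → H19oLiftM p → H3gOrthM p`.

Every declaration is a proved theorem or a `Prop`-valued definition; nothing is assumed.
-/

set_option autoImplicit false
set_option linter.unusedSectionVars false
set_option linter.unusedVariables false
set_option linter.style.haveILetI false
set_option synthInstance.maxHeartbeats 400000

open ModularCurve AlgebraicCurve IsLocalRing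

noncomputable section

namespace Fermat.Agent.P7

open Fermat.Agent.S37 Fermat.Agent.Red Fermat.Agent.Red.GV Fermat.Agent.Red.GV.Soft
  Fermat.Agent.LGC Fermat.Agent.Jac.K1 Fermat.Agent.P5

section H19oInt

variable {ℓ : ℕ} (M : ℕ) [NeZero M] (A : ValuationSubring Kbar) (Q : Place Kbar (FF M))

/-- **INT for the functions regular off `∞`.** -/
theorem h19o_int_regOff (hInt : H26iInt) (hℓ : ℓ.Prime) (hM : ¬ ℓ ∣ M)
    (hA : A.LiesOverPrime ℓ)
    (hQ : ∀ f : FF M, f ≠ 0 → ((f : FF M) : LaurentSeries Kbar).order = Q.ord f)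
    (f : FF M) (hfV : f ∈ gaussV A M)
    (hf : ∀ v : Place Kbar (FF M), v ≠ Q → 0 ≤ v.ord f) :
    ∃ a : LaurentSeries A, embA A a = ((f : FF M) : LaurentSeries Kbar) ∧
      redA (IsLocalRing.residue A) a = gaussR A M ⟨f, hfV⟩ := by
  have hj0 : jB M ≠ 0 := Fermat.Agent.Red.ModelO.h85_jB_ne_zero M
  have htV : (jB M)⁻¹ ∈ gaussV A M := jB_inv_mem_gaussV A M hℓ hM hA
  suffices h : ∃ a : LaurentSeries A, embA A a = ((f : FF M) : LaurentSeries Kbar) by
    obtain ⟨a, ha⟩ := h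
    exact ⟨a, ha, (gaussRed_of_embA A (IsLocalRing.residue A) M ⟨f, hfV⟩ a ha).symm⟩
  rcases eq_or_ne f 0 with rfl | hf0
  · exact ⟨0, by rw [map_zero]; rfl⟩
  obtain ⟨n, hn⟩ : ∃ n : ℕ, -(n : ℤ) ≤ Q.ord f := ⟨(-Q.ord f).toNat, by omega⟩
  have hgV : (jB M)⁻¹ ^ n * f ∈ gaussV A M := Subring.mul_mem _ (Subring.pow_mem _ htV n) hfV
  have hQt : Q.ord (jB M)⁻¹ = 1 := by
    rw [← hQ _ (inv_ne_zero hj0)]
    have e : ((((jB M)⁻¹ : FF M)) : LaurentSeries Kbar) = (jqModC Kbar)⁻¹ := by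
      show _ = (jK Kbar)⁻¹
      rw [← coe_jB M]
      rfl
    rw [e]
    have h2 := h37g_pe_order_map_inv (RingHom.id (LaurentSeries Kbar)) (jqModC Kbar)
    simp only [RingHom.id_apply] at h2
    rw [h2, h37g_order_jqModC]
    norm_num
  have hgInf : (jB M)⁻¹ ^ n * f ∈ modelInf M A := by
    refine h58h_mem_modelInf_of_top M A hℓ hM hA hgV (h58h_regular_inf M _ (fun v hv => ?_))
    apply Fermat.Agent.S24.DiffPlace.mem_of_ord_nonneg v
    rw [h58h_ord_pow_mul M v n (inv_ne_zero hj0) hf0]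
    have h1 : 0 ≤ v.ord (jB M)⁻¹ := Fermat.Agent.S24.DiffPlace.ord_nonneg_of_mem v hv
    by_cases hvQ : v = Q
    · subst hvQ
      rw [hQt]
      omega
    · have h2 := hf v hvQ
      have h3 : 0 ≤ (n : ℤ) * v.ord (jB M)⁻¹ := mul_nonneg (Int.natCast_nonneg n) h1
      omega
  obtain ⟨y, hy⟩ := hInt ℓ hℓ M hM A hA _ hgInf
  refine ⟨jqModC A ^ n * y, ?_⟩
  rw [map_mul, map_pow, embA_jqModC, hy]
  have e1 : f = jB M ^ n * ((jB M)⁻¹ ^ n * f) := by
    rw [← mul_assoc, ← mul_pow, mul_inv_cancel₀ hj0, one_pow, one_mul]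
  have e2 : ((f : FF M) : LaurentSeries Kbar) =
      ((jB M : FF M) : LaurentSeries Kbar) ^ n *
        (((jB M)⁻¹ ^ n * f : FF M) : LaurentSeries Kbar) := by
    conv_lhs => rw [e1]
    push_cast
    rfl
  rw [e2, coe_jB M]

end H19oInt

section H19oAsm

variable {ℓ : ℕ} (A : ValuationSubring Kbar) (M : ℕ) [NeZero M] (Q : Place Kbar (FF M))

/-- **the LIFT datum** for a normalised reduction `s₀` (output of LIFT + S0 + PS-INT + SUM). -/
def H19oLiftAt (s₀ : LaurentSeries (ResidueField A)) : Prop :=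
  ∃ (g : FF M) (b c : LaurentSeries A) (a : ResidueField A) (d : ℕ),
    g ≠ 0 ∧ a ≠ 0 ∧ ((d : ℕ) : ResidueField A) ≠ 0 ∧
    embA A b = ((g : FF M) : LaurentSeries Kbar) ∧ b * c = 1 ∧
    redA (IsLocalRing.residue A) b = HahnSeries.C a * s₀ ^ d ∧
    ∀ (f : FF M), f ∈ gaussV A M → (∀ v : Place Kbar (FF M), v ≠ Q → 0 ≤ v.ord f) →
      ∃ (fv : Place Kbar (FF M) → Kbar) (S : Finset (Place Kbar (FF M))),
        (∀ v : Place Kbar (FF M), v ≠ Q → ValueAt v f (fv v)) ∧ Q ∉ S ∧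
        (∀ v : Place Kbar (FF M), v ≠ Q → v.ord g ≠ 0 → v ∈ S) ∧
        (∑ v ∈ S, (v.ord g : Kbar) * fv v) ∈ A.nonunits

/-- **the LIFT datum, residue form**: as `H19oLiftAt`, the last clause replaced by its
consequence "the characteristic-zero residue `a₀(f · dlog g)` lies in `𝔪_A`" (so that ANY form
of DL2, e.g. helper83's norm form with the sum over the places of the good level, can be used
by the provider). -/
def H19oResAt (s₀ : LaurentSeries (ResidueField A)) : Prop :=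
  ∃ (g : FF M) (b c : LaurentSeries A) (a : ResidueField A) (d : ℕ),
    g ≠ 0 ∧ a ≠ 0 ∧ ((d : ℕ) : ResidueField A) ≠ 0 ∧
    embA A b = ((g : FF M) : LaurentSeries Kbar) ∧ b * c = 1 ∧
    redA (IsLocalRing.residue A) b = HahnSeries.C a * s₀ ^ d ∧
    ∀ (f : FF M), f ∈ gaussV A M → (∀ v : Place Kbar (FF M), v ≠ Q → 0 ≤ v.ord f) →
      (((f : FF M) : LaurentSeries Kbar) *
        h96dLog ((g : FF M) : LaurentSeries Kbar)).coeff 0 ∈ A.nonunits

variable {A M Q}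

/-- the sum form of the LIFT datum gives the residue form (DL2, helper38). -/
theorem h19o_res_of_lift
    (hQ : ∀ f : FF M, f ≠ 0 → ((f : FF M) : LaurentSeries Kbar).order = Q.ord f)
    {s₀ : LaurentSeries (ResidueField A)} (hL : H19oLiftAt A M Q s₀) :
    H19oResAt A M Q s₀ := by
  obtain ⟨g, b, c, a, d, hg0, ha0, hd0, hb, hbc, hred, hsum⟩ := hL
  refine ⟨g, b, c, a, d, hg0, ha0, hd0, hb, hbc, hred, fun f hfV hf => ?_⟩
  obtain ⟨fv, S, hfv, hS1, hS2, hmem⟩ := hsum f hfV hf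
  have hoo : ∀ y : FF M, y ≠ 0 → Q.ord y = ((y : FF M) : LaurentSeries Kbar).order :=
    fun y hy => (hQ y hy).symm
  rw [h38g_resid_FF_all M Q hoo f hf fv hfv g hg0 S hS1 hS2]
  rw [ValuationSubring.mem_nonunits_iff] at hmem ⊢
  rwa [Valuation.map_neg]

/-- **ORTH from the LIFT datum**: DL2 (helper38) + RED (helper59) + INT for `f`. -/
theorem h19o_orth_of_resAt (hInt : H26iInt) (hℓ : ℓ.Prime) (hM : ¬ ℓ ∣ M)
    (hA : A.LiesOverPrime ℓ)
    (hQ : ∀ f : FF M, f ≠ 0 → ((f : FF M) : LaurentSeries Kbar).order = Q.ord f)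
    {s₀ : LaurentSeries (ResidueField A)} (hs₀ : s₀ ≠ 0) (hL : H19oResAt A M Q s₀)
    (f : FF M) (hfV : f ∈ gaussV A M)
    (hf : ∀ v : Place Kbar (FF M), v ≠ Q → 0 ≤ v.ord f) :
    (gaussR A M ⟨f, hfV⟩ * h96dLog s₀).coeff 0 = 0 := by
  obtain ⟨g, b, c, a, d, hg0, ha0, hd0, hb, hbc, hred, hres⟩ := hL
  have hmem := hres f hfV hf
  obtain ⟨af, haf, hraf⟩ := h19o_int_regOff M A Q hInt hℓ hM hA hQ f hfV hf
  obtain ⟨x, hx1, hx2⟩ := h59r_red_of_inv A (IsLocalRing.residue A) af b c hbc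
  rw [haf, hb] at hx1
  -- `x ∈ 𝔪_A`
  have hxm : (x : Kbar) ∈ A.nonunits := by
    rw [← hx1]
    exact hmem
  have hx0 : IsLocalRing.residue A x = 0 := by
    apply residue_eq_zero_of_nonunit A x hxm
  rw [hraf, hred, hx0] at hx2
  -- `dlog (a s₀ ^ d) = d · dlog s₀`
  have hCa : (HahnSeries.C a : LaurentSeries (ResidueField A)) ≠ 0 := h3g_C_ne_zero ha0
  have hlog : h96dLog (HahnSeries.C a * s₀ ^ d) =
      HahnSeries.C ((d : ℕ) : ResidueField A) * h96dLog s₀ := by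
    rw [h96d_log_mul hCa (pow_ne_zero d hs₀), h96d_log_C, zero_add]
    have h1 := h88d_log_zpow hs₀ (d : ℤ)
    rw [zpow_natCast] at h1
    rw [h1]
    push_cast
    rfl
  rw [hlog, mul_left_comm, h88d_coeff_C_mul] at hx2
  rcases mul_eq_zero.mp hx2 with h | h
  · exact absurd h hd0
  · exact h

/-- **ORTH from the LIFT datum, sum form.** -/
theorem h19o_orth_of_liftAt (hInt : H26iInt) (hℓ : ℓ.Prime) (hM : ¬ ℓ ∣ M)
    (hA : A.LiesOverPrime ℓ)
    (hQ : ∀ f : FF M, f ≠ 0 → ((f : FF M) : LaurentSeries Kbar).order = Q.ord f)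
    {s₀ : LaurentSeries (ResidueField A)} (hs₀ : s₀ ≠ 0) (hL : H19oLiftAt A M Q s₀)
    (f : FF M) (hfV : f ∈ gaussV A M)
    (hf : ∀ v : Place Kbar (FF M), v ≠ Q → 0 ≤ v.ord f) :
    (gaussR A M ⟨f, hfV⟩ * h96dLog s₀).coeff 0 = 0 :=
  h19o_orth_of_resAt hInt hℓ hM hA hQ hs₀ (h19o_res_of_lift hQ hL) f hfV hf

end H19oAsm

/-- **LIFT(M)**: the LIFT datum exists for every normalised Gauss unit of level `M`. -/
def H19oLiftM (p : ℕ) : Prop :=
  ∀ (hp : p.Prime), 5 ≤ p → ∀ (M : ℕ) [NeZero M], ¬ p ∣ M →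
    ∀ A : ValuationSubring Kbar, A.LiesOverPrime p →
    ∀ Q : Place Kbar (FF M),
      (∀ f : FF M, f ≠ 0 → ((f : FF M) : LaurentSeries Kbar).order = Q.ord f) →
    ∀ (y : FF M) (hy : y ∈ softV A M)
      (hg : degen (dvd_goodLevel p M) y ∈ gaussV A (goodLevel p M)),
      y ≠ 0 → y⁻¹ ∈ softV A M →
      (degen (dvd_goodLevel p M) y)⁻¹ ∈ gaussV A (goodLevel p M) →
      (softR A M ⟨y, hy⟩).order = 0 →
      (∀ Q' : Place (h13sK A) (h13sFt A (goodLevel p M)),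
        (p : ℤ) ∣ Q'.ord (h13sRed A (goodLevel p M) ⟨degen (dvd_goodLevel p M) y, hg⟩)) →
      H19oLiftAt A M Q (softR A M ⟨y, hy⟩)

/-- **LIFT(M), residue form.** -/
def H19oResM (p : ℕ) : Prop :=
  ∀ (hp : p.Prime), 5 ≤ p → ∀ (M : ℕ) [NeZero M], ¬ p ∣ M →
    ∀ A : ValuationSubring Kbar, A.LiesOverPrime p →
    ∀ Q : Place Kbar (FF M),
      (∀ f : FF M, f ≠ 0 → ((f : FF M) : LaurentSeries Kbar).order = Q.ord f) →
    ∀ (y : FF M) (hy : y ∈ softV A M)
      (hg : degen (dvd_goodLevel p M) y ∈ gaussV A (goodLevel p M)),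
      y ≠ 0 → y⁻¹ ∈ softV A M →
      (degen (dvd_goodLevel p M) y)⁻¹ ∈ gaussV A (goodLevel p M) →
      (softR A M ⟨y, hy⟩).order = 0 →
      (∀ Q' : Place (h13sK A) (h13sFt A (goodLevel p M)),
        (p : ℤ) ∣ Q'.ord (h13sRed A (goodLevel p M) ⟨degen (dvd_goodLevel p M) y, hg⟩)) →
      H19oResAt A M Q (softR A M ⟨y, hy⟩)

theorem h19o_resM_of_liftM {p : ℕ} (hL : H19oLiftM p) : H19oResM p := by
  intro hp h5 M _ hM A hA Q hQ y hy hg hy0 hyi hgi ho hQ'
  exact h19o_res_of_lift hQ (hL hp h5 M hM A hA Q hQ y hy hg hy0 hyi hgi ho hQ')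

/-- **normalised ORTH(M) from INT and LIFT(M), residue form.** -/
theorem h19o_orthNorm_of_res {p : ℕ} (hInt : H26iInt) (hL : H19oResM p) :
    H19oOrthNormM p := by
  intro hp h5 M _ hM A hA Q hQ y hy hg hy0 hyi hgi ho hQ' f hf hreg
  have hs₀ : softR A M ⟨y, hy⟩ ≠ 0 := (softR_ne_zero_iff A M ⟨y, hy⟩).mpr ⟨hy0, hyi⟩
  exact h19o_orth_of_resAt hInt hp hM hA hQ hs₀
    (hL hp h5 M hM A hA Q hQ y hy hg hy0 hyi hgi ho hQ') f hf hreg

/-- **ORTH(M) (helper3's frozen leaf) from INT and LIFT(M), residue form.** -/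
theorem h19o_orthM_of_res {p : ℕ} (hInt : H26iInt) (hL : H19oResM p) : H3gOrthM p :=
  h19o_orthM_of_norm (h19o_orthNorm_of_res hInt hL)

/-- **normalised ORTH(M) from INT and LIFT(M).** -/
theorem h19o_orthNorm_of_lift {p : ℕ} (hInt : H26iInt) (hL : H19oLiftM p) :
    H19oOrthNormM p := by
  intro hp h5 M _ hM A hA Q hQ y hy hg hy0 hyi hgi ho hQ' f hf hreg
  have hs₀ : softR A M ⟨y, hy⟩ ≠ 0 := (softR_ne_zero_iff A M ⟨y, hy⟩).mpr ⟨hy0, hyi⟩
  exact h19o_orth_of_liftAt hInt hp hM hA hQ hs₀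
    (hL hp h5 M hM A hA Q hQ y hy hg hy0 hyi hgi ho hQ') f hf hreg

/-- **ORTH(M) (helper3's frozen leaf) from INT and LIFT(M).** -/
theorem h19o_orthM_of_lift {p : ℕ} (hInt : H26iInt) (hL : H19oLiftM p) : H3gOrthM p :=
  h19o_orthM_of_norm (h19o_orthNorm_of_lift hInt hL)

end Fermat.Agent.P7
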