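import Fermat.Agent.P7.H26DlogGap
import Fermat.Agent.P5.H26GenusFinal
import Fermat.Agent.P5.H3RRFin
import Fermat.Agent.S28.RAsm
import Fermat.Agent.Red.GV.BarGalois

/-!
# P7 (wave 7, row 38), block (A) route DLOG, leaf DL4 GAP, level instance (helper26)

`M` a good level (`ℓ ∤ M`, `auxLevel ℓ ∣ M`), `A` over `ℓ`, `k = h13sK A`,
`kC = h13sFt A M ⊆ k((q))` (inclusion `h13sIncl A M`).

* `h26g_exists_place` (generic): a ring homomorphism `ι : F → K((q))` with constants of order
  `≥ 0` and some `t` with `ord (ι t) = 1` defines a place `v` of `F` with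
  `v.ord f = ord (ι f)`;
* `h26g_count` (generic): weak genus `g` + such a place `⟹` the count of the pole orders of
  the expansions of the functions regular off `v`;
* `h26g_gap_generic` : `dim Ω(V) ≤ g` for every `V` containing these expansions;
* `h26g_place_inf` : the place `∞̄` of `kC` (`ord = ` order of the `q`-expansion);
* `h26g_gap_level` : **DL4 at the level**, with `g` the common weak genus of `FF M` and `kC`.
-/

set_option autoImplicit false
set_option linter.unusedSectionVars false
set_option linter.unusedVariables false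
set_option linter.style.longLine false

open AlgebraicCurve ModularCurve Module

noncomputable section

namespace Fermat.Agent.P7

open Fermat.Agent.S37 Fermat.Agent.Red.GV Fermat.Agent.P5

section Emb

variable {K F : Type*} [Field K] [Field F] (ι : F →+* LaurentSeries K)

theorem h26g_map_ne_zero {f : F} (hf : f ≠ 0) : ι f ≠ 0 :=
  (map_ne_zero ι).mpr hf

theorem h26g_order_map_mul {f g : F} (hf : f ≠ 0) (hg : g ≠ 0) :
    (ι (f * g)).order = (ι f).order + (ι g).order := by
  rw [map_mul]
  exact HahnSeries.order_mul (h26g_map_ne_zero ι hf) (h26g_map_ne_zero ι hg)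

theorem h26g_order_map_inv (f : F) : (ι f⁻¹).order = -(ι f).order := by
  rcases eq_or_ne f 0 with rfl | hf
  · simp
  · have h := h26g_order_map_mul ι hf (inv_ne_zero hf)
    rw [mul_inv_cancel₀ hf, map_one, HahnSeries.order_one] at h
    linarith

theorem h26g_order_map_add {f g : F} (hf : 0 ≤ (ι f).order) (hg : 0 ≤ (ι g).order) :
    0 ≤ (ι (f + g)).order := by
  rcases eq_or_ne (f + g) 0 with h0 | h0
  · rw [h0, map_zero, HahnSeries.order_zero]
  · have hne : ι f + ι g ≠ 0 := by
      rw [← map_add]; exact h26g_map_ne_zero ι h0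
    have h := HahnSeries.min_order_le_order_add hne
    rw [map_add]
    exact le_trans (le_min hf hg) h

theorem h26g_order_map_mul_nonneg {f g : F} (hf : 0 ≤ (ι f).order) (hg : 0 ≤ (ι g).order) :
    0 ≤ (ι (f * g)).order := by
  rcases eq_or_ne f 0 with rfl | hf0
  · simp
  rcases eq_or_ne g 0 with rfl | hg0
  · simp
  rw [h26g_order_map_mul ι hf0 hg0]
  exact add_nonneg hf hg

theorem h26g_order_map_zpow (f : F) (n : ℤ) : (ι (f ^ n)).order = n * (ι f).order := by
  rcases eq_or_ne f 0 with rfl | hf
  · rcases eq_or_ne n 0 with rfl | hn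
    · simp
    · rw [zero_zpow n hn]; simp
  induction n using Int.induction_on with
  | zero => simp
  | succ n ih =>
    rw [zpow_add_one₀ hf, h26g_order_map_mul ι (zpow_ne_zero _ hf) hf, ih]
    ring
  | pred n ih =>
    rw [zpow_sub_one₀ hf, h26g_order_map_mul ι (zpow_ne_zero _ hf) (inv_ne_zero hf), ih,
      h26g_order_map_inv]
    ring

/-- The valuation subring `{f | 0 ≤ ord (ι f)}`. -/
def h26gValSubring : ValuationSubring F where
  carrier := {f | 0 ≤ (ι f).order}
  mul_mem' := fun {a b} ha hb => h26g_order_map_mul_nonneg ι ha hb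
  one_mem' := by
    show 0 ≤ (ι 1).order
    rw [map_one, HahnSeries.order_one]
  add_mem' := fun {a b} ha hb => h26g_order_map_add ι ha hb
  zero_mem' := by
    show 0 ≤ (ι 0).order
    rw [map_zero, HahnSeries.order_zero]
  neg_mem' := fun {a} ha => by
    show 0 ≤ (ι (-a)).order
    rw [map_neg, HahnSeries.order_neg]
    exact ha
  mem_or_inv_mem' := fun x => by
    show 0 ≤ (ι x).order ∨ 0 ≤ (ι x⁻¹).order
    rw [h26g_order_map_inv]
    rcases le_total 0 (ι x).order with h | h
    · exact Or.inl h
    · exact Or.inr (by linarith)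

theorem h26g_mem_valSubring {f : F} : f ∈ h26gValSubring ι ↔ 0 ≤ (ι f).order :=
  Iff.rfl

theorem h26g_isPrincipalIdealRing : IsPrincipalIdealRing (h26gValSubring ι) := by
  refine ⟨fun I => ?_⟩
  by_cases hI : I = ⊥
  · exact ⟨⟨0, by rw [hI]; simp⟩⟩
  have hex : ∃ a ∈ I, a ≠ 0 := Submodule.exists_mem_ne_zero_of_ne_bot hI
  have hne : ∃ n : ℕ, ∃ a ∈ I, a ≠ 0 ∧ (ι (a : F)).order = (n : ℤ) := by
    obtain ⟨a, haI, ha0⟩ := hex
    have ha : 0 ≤ (ι (a : F)).order := a.2
    exact ⟨(ι (a : F)).order.toNat, a, haI, ha0, (Int.toNat_of_nonneg ha).symm⟩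
  classical
  obtain ⟨a, haI, ha0, han⟩ := Nat.find_spec hne
  have hmin : ∀ b ∈ I, b ≠ 0 → (ι (a : F)).order ≤ (ι (b : F)).order := by
    intro b hbI hb0
    have hb : 0 ≤ (ι (b : F)).order := b.2
    have h := Nat.find_min' hne ⟨b, hbI, hb0, (Int.toNat_of_nonneg hb).symm⟩
    rw [han]
    calc ((Nat.find hne : ℕ) : ℤ) ≤ ((ι (b : F)).order.toNat : ℤ) := by exact_mod_cast h
      _ = (ι (b : F)).order := Int.toNat_of_nonneg hb
  have haF : (a : F) ≠ 0 := fun h => ha0 (Subtype.ext h)
  refine ⟨⟨a, ?_⟩⟩
  apply le_antisymm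
  · intro b hbI
    rw [Submodule.mem_span_singleton]
    rcases eq_or_ne b 0 with rfl | hb0
    · exact ⟨0, by simp⟩
    have hbF : (b : F) ≠ 0 := fun h => hb0 (Subtype.ext h)
    have hc : (b : F) * (a : F)⁻¹ ∈ h26gValSubring ι := by
      rw [h26g_mem_valSubring, h26g_order_map_mul ι hbF (inv_ne_zero haF), h26g_order_map_inv]
      have := hmin b hbI hb0
      linarith
    refine ⟨⟨(b : F) * (a : F)⁻¹, hc⟩, ?_⟩
    apply Subtype.ext
    show (b : F) * (a : F)⁻¹ * (a : F) = (b : F)
    field_simp
  · rw [Submodule.span_singleton_le_iff_mem]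
    exact haI

end Emb

/-- a ring homomorphism `ι : F → K((q))` with constants of order `≥ 0` and some `t` with
`ord (ι t) = 1` defines a place `v` of `F` with `v.ord f = ord (ι f)`. -/
theorem h26g_exists_place {K F : Type*} [Field K] [Field F] [Algebra K F]
    (ι : F →+* LaurentSeries K) (hconst : ∀ a : K, 0 ≤ (ι (algebraMap K F a)).order)
    (t : F) (ht : (ι t).order = 1) :
    ∃ v : Place K F, ∀ f : F, f ≠ 0 → v.ord f = (ι f).order := by
  have ht0 : t ≠ 0 := by
    rintro rfl
    rw [map_zero, HahnSeries.order_zero] at ht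
    exact zero_ne_one ht
  obtain ⟨v, hv⟩ : ∃ v : Place K F, v.toValuationSubring = h26gValSubring ι :=
    ⟨{ toValuationSubring := h26gValSubring ι
       algebraMap_mem' := fun a => by
         rw [h26g_mem_valSubring]
         exact hconst a
       ne_top' := by
         intro htop
         have hmem : t⁻¹ ∈ h26gValSubring ι := by rw [htop]; exact ValuationSubring.mem_top _
         rw [h26g_mem_valSubring, h26g_order_map_inv] at hmem
         linarith
       isPrincipalIdealRing' := h26g_isPrincipalIdealRing ι }, rfl⟩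
  have hvmem : ∀ f : F, f ∈ v.toValuationSubring ↔ 0 ≤ (ι f).order := fun f => by
    rw [hv]; exact Iff.rfl
  have hunit : ∀ u : v.toValuationSubringˣ, (ι ((u : v.toValuationSubring) : F)).order = 0 := by
    intro u
    have h1 : 0 ≤ (ι ((u : v.toValuationSubring) : F)).order :=
      (hvmem _).mp (u : v.toValuationSubring).2
    have h2 : 0 ≤ (ι (((u⁻¹ : v.toValuationSubringˣ) : v.toValuationSubring) : F)).order :=
      (hvmem _).mp ((u⁻¹ : v.toValuationSubringˣ) : v.toValuationSubring).2
    have h3 : (((u⁻¹ : v.toValuationSubringˣ) : v.toValuationSubring) : F)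
        = ((u : v.toValuationSubring) : F)⁻¹ := by
      have hmul : ((u : v.toValuationSubring) : F)
          * (((u⁻¹ : v.toValuationSubringˣ) : v.toValuationSubring) : F) = 1 := by
        have h := congrArg (fun x : v.toValuationSubring => (x : F)) u.mul_inv
        exact h
      exact eq_inv_of_mul_eq_one_right hmul
    rw [h3, h26g_order_map_inv] at h2
    linarith
  obtain ⟨π, hπ⟩ := IsDiscreteValuationRing.exists_irreducible v.toValuationSubring
  have hπF : (π : F) ≠ 0 := fun h => hπ.ne_zero (Subtype.ext h)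
  have hπ0 : 0 ≤ (ι (π : F)).order := (hvmem _).mp π.2
  have hπpos : 0 < (ι (π : F)).order := by
    rcases hπ0.lt_or_eq with h | h
    · exact h
    · exfalso
      apply hπ.not_isUnit
      have hinv : (π : F)⁻¹ ∈ v.toValuationSubring := by
        rw [hvmem, h26g_order_map_inv, ← h]; simp
      refine ⟨⟨π, ⟨(π : F)⁻¹, hinv⟩, ?_, ?_⟩, rfl⟩
      · apply Subtype.ext
        show (π : F) * (π : F)⁻¹ = 1
        exact mul_inv_cancel₀ hπF
      · apply Subtype.ext
        show (π : F)⁻¹ * (π : F) = 1
        exact inv_mul_cancel₀ hπF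
  have hgen : ∀ f : F, f ≠ 0 → (ι f).order = (ι (π : F)).order * v.ord f := by
    intro f hf
    obtain ⟨u, hu⟩ := v.exists_unit_mul_zpow hf hπ
    have huF : ((u : v.toValuationSubring) : F) ≠ 0 := by
      intro h
      exact u.ne_zero (Subtype.ext h)
    conv_lhs => rw [hu]
    rw [h26g_order_map_mul ι huF (zpow_ne_zero _ hπF), hunit u, zero_add,
      h26g_order_map_zpow, mul_comm]
  have hone : (ι (π : F)).order = 1 := by
    have h1 := hgen t ht0
    rw [ht] at h1
    exact Int.eq_one_of_mul_eq_one_right hπpos.le h1.symm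
  refine ⟨v, fun f hf => ?_⟩
  rw [hgen f hf, hone, one_mul]

section Count

variable {K F : Type*} [Field K] [Field F] [Algebra K F]

/-- the count of the pole orders at `v` from Riemann's inequality. -/
theorem h26g_count (hB : H13rBase K F) (g : ℕ) (hg : H13rIsGenus K F g)
    (ι : F →+* LaurentSeries K) (v : Place K F)
    (hv : ∀ f : F, f ≠ 0 → v.ord f = (ι f).order)
    (V : Submodule K (LaurentSeries K))
    (hV : ∀ f : F, (∀ w : Place K F, w ≠ v → 0 ≤ w.ord f) → ι f ∈ V) (n : ℕ) :
    ∃ S : Finset ℕ, (∀ m ∈ S, 1 ≤ m ∧ m ≤ n ∧ h26gIsPole V m) ∧ n ≤ S.card + g := by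
  classical
  obtain ⟨hfin, hstep, -, hzero⟩ := h3r_fin (K := K) (F := F) hB
  have key : ∀ n : ℕ, ∃ S : Finset ℕ, (∀ m ∈ S, 1 ≤ m ∧ m ≤ n ∧ h26gIsPole V m) ∧
      h13rL K F (Finsupp.single v (n : ℤ)) ≤ S.card + 1 := by
    intro n
    induction n with
    | zero =>
      refine ⟨∅, by simp, ?_⟩
      have e : (Finsupp.single v ((0 : ℕ) : ℤ) : Divisor K F) = 0 := by simp
      rw [e, hzero]
      simp
    | succ n ih =>
      obtain ⟨S, hS, hSc⟩ := ih
      have eD : (Finsupp.single v ((n + 1 : ℕ) : ℤ) : Divisor K F) =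
          Finsupp.single v (n : ℤ) + Finsupp.single v 1 := by
        rw [← Finsupp.single_add]
        push_cast
        rfl
      by_cases hle : h13rL K F (Finsupp.single v ((n + 1 : ℕ) : ℤ)) ≤
          h13rL K F (Finsupp.single v (n : ℤ))
      · exact ⟨S, fun m hm => ⟨(hS m hm).1, (hS m hm).2.1.trans (Nat.le_succ n), (hS m hm).2.2⟩,
          hle.trans hSc⟩
      · -- a new pole order
        have hnot : ¬ riemannRochSpace (Finsupp.single v ((n + 1 : ℕ) : ℤ) : Divisor K F) ≤
            riemannRochSpace (Finsupp.single v (n : ℤ)) := by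
          intro hsub
          apply hle
          have := hfin (Finsupp.single v (n : ℤ))
          exact Submodule.finrank_mono hsub
        obtain ⟨f, hf1, hf2⟩ := SetLike.not_le_iff_exists.mp hnot
        have hf0 : f ≠ 0 := by
          rintro rfl
          exact hf2 (Submodule.zero_mem _)
        rw [mem_riemannRochSpace_iff] at hf1 hf2
        push Not at hf2
        obtain ⟨w, -, hw⟩ := hf2
        have hwv : w = v := by
          by_contra hne
          have h1 := (hf1 w).resolve_left hf0
          rw [Finsupp.single_apply, if_neg (Ne.symm hne)] at h1 hw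
          omega
        rw [hwv] at hw
        have h1 := (hf1 v).resolve_left hf0
        rw [Finsupp.single_apply, if_pos rfl] at h1 hw
        have hord : v.ord f = -((n + 1 : ℕ) : ℤ) := by
          push_cast at h1 hw ⊢
          omega
        have hreg : ∀ w' : Place K F, w' ≠ v → 0 ≤ w'.ord f := by
          intro w' hne
          have h2 := (hf1 w').resolve_left hf0
          rw [Finsupp.single_apply, if_neg (Ne.symm hne)] at h2
          simpa using h2
        have hιf : ι f ≠ 0 := h26g_map_ne_zero ι hf0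
        have hpole : h26gIsPole V (n + 1) := by
          refine ⟨ι f, hV f hreg, fun i hi => ?_, ?_⟩
          · apply HahnSeries.coeff_eq_zero_of_lt_order
            rw [← hv f hf0, hord]
            exact hi
          · have := (HahnSeries.coeff_order_eq_zero.not).mpr hιf
            rwa [← hv f hf0, hord] at this
        refine ⟨insert (n + 1) S, ?_, ?_⟩
        · intro m hm
          rcases Finset.mem_insert.mp hm with rfl | hm
          · exact ⟨Nat.succ_le_succ (Nat.zero_le _), le_rfl, hpole⟩
          · exact ⟨(hS m hm).1, (hS m hm).2.1.trans (Nat.le_succ n), (hS m hm).2.2⟩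
        · have hnS : n + 1 ∉ S := fun h => by
            have := (hS _ h).2.1
            omega
          rw [Finset.card_insert_of_notMem hnS]
          have h2 := hstep (Finsupp.single v (n : ℤ)) v
          rw [← eD] at h2
          omega
  obtain ⟨S, hS, hSc⟩ := key n
  refine ⟨S, hS, ?_⟩
  have h1 := hg.1 (Finsupp.single v (n : ℤ))
  rw [Divisor.degree_single, hB.deg_one v] at h1
  push_cast at h1
  have h2 : (h13rL K F (Finsupp.single v (n : ℤ)) : ℤ) ≤ (S.card : ℤ) + 1 := by
    exact_mod_cast hSc
  have h3 : (n : ℤ) ≤ (S.card : ℤ) + g := by linarith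
  exact_mod_cast h3

/-- **DL4, generic form**: `dim Ω(V) ≤ g` for every `V` containing the expansions of the
functions which are regular off `v`. -/
theorem h26g_gap_generic (hB : H13rBase K F) (g : ℕ) (hg : H13rIsGenus K F g)
    (ι : F →+* LaurentSeries K) (v : Place K F)
    (hv : ∀ f : F, f ≠ 0 → v.ord f = (ι f).order)
    (V : Submodule K (LaurentSeries K))
    (hV : ∀ f : F, (∀ w : Place K F, w ≠ v → 0 ≤ w.ord f) → ι f ∈ V) :
    Module.Finite K (h26gOmega V) ∧ finrank K (h26gOmega V) ≤ g :=
  h26g_gap_le_of_count V g (h26g_count hB g hg ι v hv V hV)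

end Count

section Level

variable (A : ValuationSubring Kbar) (M : ℕ) [NeZero M]

/-- the expansion of the reduction of `j` is the `q`-expansion of `j` over `k`. -/
theorem h26g_incl_j :
    h13sIncl A M (h26sJ A M) = jqModC (IsLocalRing.ResidueField A) := by
  show h13sIncl A M (h13sRed A M ⟨jB M, jB_mem_gaussV A M⟩) = _
  rw [h13sIncl_red]
  exact gaussR_jB A M

/-- the inclusion `kC ⊆ k((q))` as a ring homomorphism. -/
def h26gIota : h13sFt A M →+* LaurentSeries (h13sK A) := (h13sIncl A M).toRingHom

theorem h26gIota_apply (f : h13sFt A M) : h26gIota A M f = h13sIncl A M f := rfl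

/-- **the place `∞̄`** of the special fibre: its order is the order of the `q`-expansion. -/
theorem h26g_place_inf :
    ∃ Q : Place (h13sK A) (h13sFt A M), ∀ f : h13sFt A M, f ≠ 0 →
      Q.ord f = (h13sIncl A M f).order := by
  refine h26g_exists_place (K := h13sK A) (F := h13sFt A M) (h26gIota A M)
    (fun a => ?_) (h26sJ A M)⁻¹ ?_
  · have e : (h13sIncl A M) (algebraMap (h13sK A) (h13sFt A M) a) =
        algebraMap (h13sK A) (LaurentSeries (h13sK A)) a := (h13sIncl A M).commutes a
    rw [h26gIota_apply, e, h40f_algebraMap_eq, HahnSeries.order_C]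
  · have h1 := h26g_order_map_inv (h26gIota A M) (h26sJ A M)
    have h2 : (h26gIota A M (h26sJ A M)).order = -1 := by
      rw [h26gIota_apply, h26g_incl_j]
      exact Fermat.Agent.S28.Asm.order_jqModC' _
    rw [h1, h2]
    norm_num

/-- **DL4 GAP at the level**: `g` the common weak genus of `FF M` and of the special fibre,
`Q` the place `∞̄`, `V` any subspace of `k((q))` containing the expansions of the functions of
the special fibre which are regular off `∞̄`: `dim_k Ω(V) ≤ g`. -/
theorem h26g_gap_level {ℓ : ℕ} (hℓ : ℓ.Prime) (hM : ¬ ℓ ∣ M) (haux : auxLevel ℓ ∣ M)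
    (hA : A.LiesOverPrime ℓ) :
    ∃ g : ℕ, H13rIsGenus Kbar (FF M) g ∧ H13rIsGenus (h13sK A) (h13sFt A M) g ∧
      ∀ (Q : Place (h13sK A) (h13sFt A M)),
        (∀ f : h13sFt A M, f ≠ 0 → Q.ord f = (h13sIncl A M f).order) →
        ∀ V : Submodule (h13sK A) (LaurentSeries (h13sK A)),
          (∀ f : h13sFt A M, (∀ w : Place (h13sK A) (h13sFt A M), w ≠ Q → 0 ≤ w.ord f) →
            h13sIncl A M f ∈ V) →
          Module.Finite (h13sK A) (h26gOmega V) ∧ finrank (h13sK A) (h26gOmega V) ≤ g := by
  obtain ⟨g, hg1, hg2⟩ := h26s_genus ℓ hℓ M hM haux A hA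
  refine ⟨g, hg1, hg2, fun Q hQ V hV => ?_⟩
  exact h26g_gap_generic (h26s_base ℓ hℓ M hM haux A hA) g hg2 (h26gIota A M) Q hQ V hV

end Level

end Fermat.Agent.P7
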