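import Fermat.Agent.P6.H94Iter
import Fermat.Agent.P6.H71PU

/-!
# P7 (wave 7, S40), block (T) TORIC, leaf START (helper71)

`A` a valuation subring of `ℚ̄` over the prime `ℓ`, `W = softV A N` the Gauss valuation ring of
level `N` (`q`-expansion at `∞`), `softR` the reduction to `k((q))`.

* `h71w_start_of_res` : a Gauss-integral function `u` whose reduction is the `r`-th power of
  the reduction of a Gauss-integral `h` (and is not `0`) is `h ^ r * (1 + c s)` with `c ∈ 𝔪_A`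
  nonzero and `s` Gauss-integral.
* `h71w_start_of_res_cst` : the same for a function scaled by a constant.
* `h71w_res_of_start` : conversely, `u = h ^ r * (1 + c s)` (`h ≠ 0`, `c ∈ 𝔪_A`) has, after
  scaling by a constant, a reduction which is an `r`-th power.
* `h71w_deep_of_res` : the START hypothesis of `H11TwGate` (`h94iDeep` at a depth `c ∈ 𝔪_A`)
  from `red_∞ (c₀ u) = (red_∞ h) ^ r`.
-/

set_option autoImplicit false
set_option linter.style.haveILetI false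
set_option linter.unusedSectionVars false
set_option synthInstance.maxHeartbeats 400000

open AlgebraicCurve ModularCurve IsLocalRing Polynomial

noncomputable section

namespace Fermat.Agent.P7

open Fermat.Agent.Red.GV Fermat.Agent.Red.GV.Soft Fermat.Agent.Red.Kron Fermat.Agent.LGC
  Fermat.Agent.S37 Fermat.Agent.Red Fermat.Agent.P6

section Start

variable (A : ValuationSubring Kbar) (N : ℕ) [NeZero N] {ℓ : ℕ}

/-- **START from the reduction**: if the reduction of `u` is the `r`-th power of the reduction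
of `h` and is not `0`, then `u = h ^ r * (1 + c s)`, `c ∈ 𝔪_A` nonzero, `s` Gauss-integral. -/
theorem h71w_start_of_res (hℓ : ℓ.Prime) (hA : A.LiesOverPrime ℓ) (r : ℕ) (hr : 0 < r)
    (u h : FF N) (hu : u ∈ softV A N) (hh : h ∈ softV A N)
    (hres : softR A N ⟨u, hu⟩ = softR A N ⟨h, hh⟩ ^ r) (hne : softR A N ⟨u, hu⟩ ≠ 0) :
    h ≠ 0 ∧ ∃ c : Kbar, c ∈ A.nonunits ∧ c ≠ 0 ∧ ∃ s ∈ softV A N,
      u = h ^ r * (1 + cst N c * s) := by
  have hhr : softR A N ⟨h, hh⟩ ≠ 0 := by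
    intro h0
    exact hne (by rw [hres, h0, zero_pow hr.ne'])
  obtain ⟨hh0, hhi⟩ := (softR_ne_zero_iff A N ⟨h, hh⟩).mp hhr
  refine ⟨hh0, ?_⟩
  have hpi : (h ^ r)⁻¹ ∈ softV A N := by
    rw [← inv_pow]
    exact pow_mem hhi r
  have hy : u * (h ^ r)⁻¹ - 1 ∈ softV A N := sub_mem (mul_mem hu hpi) (one_mem _)
  have hhrne : h ^ r ≠ 0 := pow_ne_zero r hh0
  have hry : softR A N ⟨_, hy⟩ = 0 := by
    have e : (⟨u * (h ^ r)⁻¹ - 1, hy⟩ : softV A N) = ⟨u, hu⟩ * ⟨(h ^ r)⁻¹, hpi⟩ - 1 := rfl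
    have e2 : (⟨h, hh⟩ : softV A N) ^ r * ⟨(h ^ r)⁻¹, hpi⟩ = 1 := by
      apply Subtype.ext
      show h ^ r * (h ^ r)⁻¹ = 1
      exact mul_inv_cancel₀ hhrne
    rw [e, map_sub, map_mul, map_one, hres, ← map_pow, ← map_mul, e2, map_one, sub_self]
  obtain ⟨π, hπ, hπ0, z, hz, hyz⟩ := h71u_exists_depth A N hℓ hA _ hy hry
  refine ⟨π, hπ, hπ0, z, hz, ?_⟩
  rw [← hyz]
  field_simp
  ring

/-- **START from the reduction, scaled form**: `u ≠ 0`, `c₀ u` Gauss-integral with reduction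
`(red h) ^ r ≠ 0`  `⟹`  `u = H ^ r * (1 + c s)` with `H ≠ 0`, `c ∈ 𝔪_A` nonzero, `s`
Gauss-integral. -/
theorem h71w_start_of_res_cst (hℓ : ℓ.Prime) (hA : A.LiesOverPrime ℓ) (r : ℕ) (hr : 0 < r)
    (u h : FF N) (c₀ : Kbar) (hc₀ : c₀ ≠ 0) (hu : cst N c₀ * u ∈ softV A N)
    (hh : h ∈ softV A N)
    (hres : softR A N ⟨cst N c₀ * u, hu⟩ = softR A N ⟨h, hh⟩ ^ r)
    (hne : softR A N ⟨cst N c₀ * u, hu⟩ ≠ 0) :
    ∃ H : FF N, H ≠ 0 ∧ ∃ c : Kbar, c ∈ A.nonunits ∧ c ≠ 0 ∧ ∃ s ∈ softV A N,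
      u = H ^ r * (1 + cst N c * s) := by
  obtain ⟨hh0, c, hc, hc0, s, hs, e⟩ :=
    h71w_start_of_res A N hℓ hA r hr (cst N c₀ * u) h hu hh hres hne
  obtain ⟨γ, hγ⟩ := IsAlgClosed.exists_pow_nat_eq (c₀⁻¹) hr
  have hγ0 : γ ≠ 0 := by
    intro h0
    rw [h0, zero_pow hr.ne'] at hγ
    exact inv_ne_zero hc₀ hγ.symm
  have hcγ : cst N γ ≠ 0 := by
    rw [Ne, map_eq_zero_iff _ (algebraMap Kbar (FF N)).injective]
    exact hγ0
  have hcc : cst N c₀ ≠ 0 := by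
    rw [Ne, map_eq_zero_iff _ (algebraMap Kbar (FF N)).injective]
    exact hc₀
  have hγr : cst N γ ^ r * cst N c₀ = 1 := by
    rw [← map_pow, hγ, ← map_mul, inv_mul_cancel₀ hc₀, map_one]
  refine ⟨cst N γ * h, mul_ne_zero hcγ hh0, c, hc, hc0, s, hs, ?_⟩
  have e1 : u = cst N γ ^ r * (cst N c₀ * u) := by
    rw [← mul_assoc, hγr, one_mul]
  rw [e1, e, mul_pow, mul_assoc]

/-- **the converse**: `u = h ^ r * (1 + c s)` with `h ≠ 0`, `c ∈ 𝔪_A`, `s` Gauss-integral has,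
after scaling by a constant, a reduction which is a nonzero `r`-th power. -/
theorem h71w_res_of_start (hℓ : ℓ.Prime) (hA : A.LiesOverPrime ℓ) (r : ℕ)
    (u h : FF N) (hh0 : h ≠ 0) (c : Kbar) (hc : c ∈ A.nonunits) (s : FF N)
    (hs : s ∈ softV A N) (e : u = h ^ r * (1 + cst N c * s)) :
    ∃ (c₀ : Kbar) (g : FF N), c₀ ≠ 0 ∧ ∃ (hu : cst N c₀ * u ∈ softV A N) (hg : g ∈ softV A N),
      softR A N ⟨cst N c₀ * u, hu⟩ = softR A N ⟨g, hg⟩ ^ r ∧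
        softR A N ⟨g, hg⟩ ≠ 0 := by
  obtain ⟨c₁, hc₁, hg, hgi⟩ := exists_cst_mul_unit_soft A N hℓ hA h hh0
  have hcA : c ∈ A := A.nonunits_le hc
  have hcW : cst N c ∈ softV A N := (cst_mem_softV_iff A N c).mpr hcA
  have h1 : 1 + cst N c * s ∈ softV A N := add_mem (one_mem _) (mul_mem hcW hs)
  have hu' : cst N (c₁ ^ r) * u = (cst N c₁ * h) ^ r * (1 + cst N c * s) := by
    rw [e, mul_pow, show cst N (c₁ ^ r) = cst N c₁ ^ r from map_pow (algebraMap Kbar (FF N)) c₁ r,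
      mul_assoc]
  have hu : cst N (c₁ ^ r) * u ∈ softV A N := by
    rw [hu']
    exact mul_mem (pow_mem hg r) h1
  have hgne : softR A N ⟨cst N c₁ * h, hg⟩ ≠ 0 := by
    rw [softR_ne_zero_iff]
    have hcc : cst N c₁ ≠ 0 := by
      rw [Ne, map_eq_zero_iff _ (algebraMap Kbar (FF N)).injective]
      exact hc₁
    exact ⟨mul_ne_zero hcc hh0, hgi⟩
  refine ⟨c₁ ^ r, cst N c₁ * h, pow_ne_zero r hc₁, hu, hg, ?_, hgne⟩
  have e2 : (⟨cst N (c₁ ^ r) * u, hu⟩ : softV A N) =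
      ⟨cst N c₁ * h, hg⟩ ^ r * (1 + ⟨cst N c, hcW⟩ * ⟨s, hs⟩) := Subtype.ext hu'
  rw [e2, map_mul, map_pow, map_add, map_one, map_mul, h71u_softR_cst_nonunit A N hc hcW,
    zero_mul, add_zero, mul_one]

end Start

section Deep

variable (A : ValuationSubring Kbar) (M ℓ : ℕ) [NeZero M] [NeZero ℓ]

/-- **the START hypothesis of `H11TwGate`** (`∃ c ∈ 𝔪_A, h94iDeep A M ℓ r u c`) from the
reduction at `W_∞`: `u ≠ 0`, `red_∞ (c₀ u) = (red_∞ h) ^ r ≠ 0`. -/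
theorem h71w_deep_of_res (hℓ : ℓ.Prime) (hA : A.LiesOverPrime ℓ) (r : ℕ) (hr : 0 < r)
    (u h : FF (M * ℓ)) (c₀ : Kbar) (hc₀ : c₀ ≠ 0)
    (hu : cst (M * ℓ) c₀ * u ∈ softV A (M * ℓ)) (hh : h ∈ softV A (M * ℓ))
    (hres : softR A (M * ℓ) ⟨cst (M * ℓ) c₀ * u, hu⟩ = softR A (M * ℓ) ⟨h, hh⟩ ^ r)
    (hne : softR A (M * ℓ) ⟨cst (M * ℓ) c₀ * u, hu⟩ ≠ 0) :
    ∃ c ∈ A.nonunits, h94iDeep A M ℓ r u c := by
  obtain ⟨H, hH, c, hc, -, s, hs, e⟩ :=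
    h71w_start_of_res_cst A (M * ℓ) hℓ hA r hr u h c₀ hc₀ hu hh hres hne
  exact ⟨c, hc, H, hH, s, hs, e⟩

/-- the converse of `h71w_deep_of_res`. -/
theorem h71w_res_of_deep (hℓ : ℓ.Prime) (hA : A.LiesOverPrime ℓ) (r : ℕ)
    (u : FF (M * ℓ)) (c : Kbar) (hc : c ∈ A.nonunits) (hd : h94iDeep A M ℓ r u c) :
    ∃ (c₀ : Kbar) (g : FF (M * ℓ)), c₀ ≠ 0 ∧
      ∃ (hu : cst (M * ℓ) c₀ * u ∈ softV A (M * ℓ)) (hg : g ∈ softV A (M * ℓ)),
        softR A (M * ℓ) ⟨cst (M * ℓ) c₀ * u, hu⟩ = softR A (M * ℓ) ⟨g, hg⟩ ^ r ∧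
          softR A (M * ℓ) ⟨g, hg⟩ ≠ 0 := by
  obtain ⟨h, hh0, s, hs, e⟩ := hd
  exact h71w_res_of_start A (M * ℓ) hℓ hA r u h hh0 c hc s hs e

end Deep

end Fermat.Agent.P7
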