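import Fermat.Agent.P6.H60WApprox
import Fermat.Agent.P7.H71Gauss7

/-!
# P7 (wave 7, S40), block (5d) RED-EQUIV, leaf RES-DEG-1 (helper26)

`ℓ ∤ M` prime, `A` a valuation subring of `ℚ̄` over `ℓ`, `k` its residue field,
`W_∞ = softV A (M ℓ)` the Gauss valuation ring of level `M ℓ` (`q`-expansion at `∞`),
`softR` the reduction to `k((q))`, `α : F_M → F_{M ℓ}` the degeneracy map.

The component `C_∞` of the special fibre of `X₀(M ℓ)` maps isomorphically to the special fibre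
of `X₀(M)` under `α`.  In terms of function fields: the residue field of `W_∞` IS the residue
field of the Gauss valuation of level `M`.

* `h26w_resdeg` : for every `x ∈ W_∞` there is a Gauss-integral `y` of level `M` with
  `red y = red_∞ x`  (weak approximation `h60w_approx_add` + the norm formula
  `h71n_norm_alpha_red`: `y = Nm_α x'` with `x' ≡ x` at `W_∞` and `x' ≡ 1` at `W_0`).
* `h26w_range_eq` : the two reduction maps have the same image in `k((q))`.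
* `h26w_resdeg_alpha` : `x = α y + c s`, `c ∈ 𝔪_A` nonzero, `s ∈ W_∞`.
* `h26w_resdeg_unit` : if `x` is a unit of `W_∞` then `y` is a Gauss unit of level `M`.
* `h26w_deep_of_level` : the START hypothesis of `H11TwGate` from a level `M` root:
  `red_∞ (c₀ u) = (red g) ^ r ≠ 0` with `g` Gauss-integral of level `M`.
* `h26w_deep_of_level_cst` : the same with a constant: `red_∞ (c₀ u) = κ (red g) ^ r`,
  `κ ≠ 0` a constant of the residue field.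
-/

set_option autoImplicit false
set_option linter.style.haveILetI false
set_option linter.unusedSectionVars false
set_option synthInstance.maxHeartbeats 400000

open AlgebraicCurve ModularCurve IsLocalRing Polynomial

noncomputable section

namespace Fermat.Agent.P7

open Fermat.Agent.Red.GV Fermat.Agent.Red.GV.Soft Fermat.Agent.Red.Kron Fermat.Agent.LGC
  Fermat.Agent.S37 Fermat.Agent.Red Fermat.Agent.P6 Fermat.Agent.S35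

variable (A : ValuationSubring Kbar) (M ℓ : ℕ) [NeZero M] [NeZero ℓ]

/-- **RES-DEG-1**: the residue field of `W_∞` (level `M ℓ`) is the residue field of the Gauss
valuation of level `M`. -/
theorem h26w_resdeg (hℓ : ℓ.Prime) (hM : ¬ ℓ ∣ M) (hA : A.LiesOverPrime ℓ)
    (x : FF (M * ℓ)) (hx : x ∈ softV A (M * ℓ)) :
    ∃ (y : FF M) (hy : y ∈ softV A M), softR A M ⟨y, hy⟩ = softR A (M * ℓ) ⟨x, hx⟩ := by
  have hπ := isResidueMap_residue A ℓ hA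
  haveI : Fact ℓ.Prime := ⟨hℓ⟩
  haveI : CharP (ResidueField A) ℓ := Base.h80_charP A _ ℓ hπ
  haveI : ExpChar (ResidueField A) ℓ := ExpChar.prime hℓ
  have hd : (ℓ : Kbar) ∈ A.nonunits := hA
  have hdA : (ℓ : Kbar) ∈ A := A.nonunits_le hd
  have hd0 : (ℓ : Kbar) ≠ 0 := Nat.cast_ne_zero.mpr hℓ.ne_zero
  obtain ⟨h, z, z', hz, hz', hh, hwh⟩ :=
    h60w_approx_add A M ℓ hℓ hM hA x 1 (ℓ : Kbar) hdA hd0
  have hcd : cst (M * ℓ) (ℓ : Kbar) ∈ softV A (M * ℓ) :=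
    (cst_mem_softV_iff A (M * ℓ) _).mpr hdA
  have hcd0 : softR A (M * ℓ) ⟨_, hcd⟩ = 0 := softR_cst_of_nonunit A (M * ℓ) _ hd hcd
  have hhV : h ∈ softV A (M * ℓ) := by
    rw [hh]
    exact add_mem hx (mul_mem hcd hz)
  have hone : cst (M * ℓ) (1 : Kbar) = 1 := map_one (algebraMap Kbar (FF (M * ℓ)))
  have hw1 : kFricke M ℓ hℓ hM (1 : FF (M * ℓ)) = 1 := map_one _
  have hwV : cst (M * ℓ) 1 * kFricke M ℓ hℓ hM h ∈ softV A (M * ℓ) := by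
    rw [hwh, hone, one_mul, hw1]
    exact add_mem (one_mem _) (mul_mem hcd hz')
  obtain ⟨hn, hred⟩ := h71n_norm_alpha_red A M ℓ hℓ hM hA h 1 hhV hwV
  refine ⟨_, hn, ?_⟩
  rw [hred]
  have e1 : (⟨h, hhV⟩ : softV A (M * ℓ)) = ⟨x, hx⟩ + ⟨_, hcd⟩ * ⟨z, hz⟩ :=
    Subtype.ext hh
  have e2 : (⟨cst (M * ℓ) 1 * kFricke M ℓ hℓ hM h, hwV⟩ : softV A (M * ℓ)) =
      1 + ⟨_, hcd⟩ * ⟨z', hz'⟩ := by
    apply Subtype.ext
    show cst (M * ℓ) 1 * kFricke M ℓ hℓ hM h = 1 + cst (M * ℓ) (ℓ : Kbar) * z'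
    rw [hwh, hone, one_mul, hw1]
  rw [e1, e2, map_add, map_mul, map_add, map_one, map_mul, hcd0, zero_mul, zero_mul,
    add_zero, add_zero, map_one, mul_one]

/-- the two reduction maps have the same image in `k((q))`. -/
theorem h26w_range_eq (hℓ : ℓ.Prime) (hM : ¬ ℓ ∣ M) (hA : A.LiesOverPrime ℓ) :
    Set.range (softR A (M * ℓ)) = Set.range (softR A M) := by
  ext f
  constructor
  · rintro ⟨⟨x, hx⟩, rfl⟩
    obtain ⟨y, hy, e⟩ := h26w_resdeg A M ℓ hℓ hM hA x hx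
    exact ⟨⟨y, hy⟩, e⟩
  · rintro ⟨⟨y, hy⟩, rfl⟩
    have hα : heckeAlphaBar Kbar M ℓ y ∈ softV A (M * ℓ) :=
      (alpha_mem_softV_iff A ℓ y).mpr hy
    exact ⟨⟨_, hα⟩, softR_alpha A ℓ ⟨y, hy⟩ hα⟩

/-- **RES-DEG-1, congruence form**: `x = α y + c s` with `c ∈ 𝔪_A` nonzero and `s ∈ W_∞`. -/
theorem h26w_resdeg_alpha (hℓ : ℓ.Prime) (hM : ¬ ℓ ∣ M) (hA : A.LiesOverPrime ℓ)
    (x : FF (M * ℓ)) (hx : x ∈ softV A (M * ℓ)) :
    ∃ y ∈ softV A M, ∃ c ∈ A.nonunits, c ≠ 0 ∧ ∃ s ∈ softV A (M * ℓ),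
      x = heckeAlphaBar Kbar M ℓ y + cst (M * ℓ) c * s := by
  obtain ⟨y, hy, e⟩ := h26w_resdeg A M ℓ hℓ hM hA x hx
  have hα : heckeAlphaBar Kbar M ℓ y ∈ softV A (M * ℓ) :=
    (alpha_mem_softV_iff A ℓ y).mpr hy
  have eα : softR A (M * ℓ) ⟨_, hα⟩ = softR A M ⟨y, hy⟩ := softR_alpha A ℓ ⟨y, hy⟩ hα
  have hsub : x - heckeAlphaBar Kbar M ℓ y ∈ softV A (M * ℓ) := sub_mem hx hα
  have h0 : softR A (M * ℓ) ⟨_, hsub⟩ = 0 := by
    have e' : (⟨_, hsub⟩ : softV A (M * ℓ)) = ⟨x, hx⟩ - ⟨_, hα⟩ := rfl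
    rw [e', map_sub, eα, e, sub_self]
  obtain ⟨c, hc, hc0, s, hs, es⟩ := h71u_exists_depth A (M * ℓ) hℓ hA _ hsub h0
  refine ⟨y, hy, c, hc, hc0, s, hs, ?_⟩
  rw [← es]
  ring

/-- if `x` is a unit of `W_∞`, every `y` with the same reduction is a Gauss unit. -/
theorem h26w_resdeg_unit (hℓ : ℓ.Prime) (hM : ¬ ℓ ∣ M) (hA : A.LiesOverPrime ℓ)
    (x : FF (M * ℓ)) (hx : x ∈ softV A (M * ℓ)) (hxi : x⁻¹ ∈ softV A (M * ℓ)) (hx0 : x ≠ 0) :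
    ∃ (y : FF M) (hy : y ∈ softV A M), y ≠ 0 ∧ y⁻¹ ∈ softV A M ∧
      softR A M ⟨y, hy⟩ = softR A (M * ℓ) ⟨x, hx⟩ := by
  obtain ⟨y, hy, e⟩ := h26w_resdeg A M ℓ hℓ hM hA x hx
  have hne : softR A (M * ℓ) ⟨x, hx⟩ ≠ 0 :=
    (softR_ne_zero_iff A (M * ℓ) ⟨x, hx⟩).mpr ⟨hx0, hxi⟩
  have hne' : softR A M ⟨y, hy⟩ ≠ 0 := by rw [e]; exact hne
  obtain ⟨hy0, hyi⟩ := (softR_ne_zero_iff A M ⟨y, hy⟩).mp hne'
  exact ⟨y, hy, hy0, hyi, e⟩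

/-- **START from a level `M` root**: if `red_∞ (c₀ u) = (red g) ^ r ≠ 0` with `g`
Gauss-integral of level `M`, then `u` has positive depth at `W_∞`. -/
theorem h26w_deep_of_level (hℓ : ℓ.Prime) (hA : A.LiesOverPrime ℓ) (r : ℕ) (hr : 0 < r)
    (u : FF (M * ℓ)) (g : FF M) (c₀ : Kbar) (hc₀ : c₀ ≠ 0)
    (hu : cst (M * ℓ) c₀ * u ∈ softV A (M * ℓ)) (hg : g ∈ softV A M)
    (hres : softR A (M * ℓ) ⟨cst (M * ℓ) c₀ * u, hu⟩ = softR A M ⟨g, hg⟩ ^ r)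
    (hne : softR A (M * ℓ) ⟨cst (M * ℓ) c₀ * u, hu⟩ ≠ 0) :
    ∃ c ∈ A.nonunits, h94iDeep A M ℓ r u c := by
  have hα : heckeAlphaBar Kbar M ℓ g ∈ softV A (M * ℓ) :=
    (alpha_mem_softV_iff A ℓ g).mpr hg
  have eα : softR A (M * ℓ) ⟨_, hα⟩ = softR A M ⟨g, hg⟩ := softR_alpha A ℓ ⟨g, hg⟩ hα
  refine h71w_deep_of_res A M ℓ hℓ hA r hr u (heckeAlphaBar Kbar M ℓ g) c₀ hc₀ hu hα ?_ hne
  rw [hres, eα]

/-- **START from a level `M` root, with a constant**: `red_∞ (c₀ u) = κ (red g) ^ r`,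
`κ = residue of a unit `a` of `A`. -/
theorem h26w_deep_of_level_cst (hℓ : ℓ.Prime) (hA : A.LiesOverPrime ℓ) (r : ℕ) (hr : 0 < r)
    (u : FF (M * ℓ)) (g : FF M) (c₀ : Kbar) (hc₀ : c₀ ≠ 0) (a : Kbar) (ha : a ∈ A)
    (hai : a⁻¹ ∈ A) (ha0 : a ≠ 0)
    (hu : cst (M * ℓ) c₀ * u ∈ softV A (M * ℓ)) (hg : g ∈ softV A M)
    (hres : softR A (M * ℓ) ⟨cst (M * ℓ) c₀ * u, hu⟩ =
      HahnSeries.C (IsLocalRing.residue A ⟨a, ha⟩) * softR A M ⟨g, hg⟩ ^ r)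
    (hne : softR A (M * ℓ) ⟨cst (M * ℓ) c₀ * u, hu⟩ ≠ 0) :
    ∃ c ∈ A.nonunits, h94iDeep A M ℓ r u c := by
  have hcai : cst (M * ℓ) a⁻¹ ∈ softV A (M * ℓ) := (cst_mem_softV_iff A (M * ℓ) _).mpr hai
  have hca : cst (M * ℓ) a ∈ softV A (M * ℓ) := (cst_mem_softV_iff A (M * ℓ) _).mpr ha
  have hmul : cst (M * ℓ) a⁻¹ * cst (M * ℓ) a = 1 := by
    rw [← map_mul, inv_mul_cancel₀ ha0]
    exact map_one (algebraMap Kbar (FF (M * ℓ)))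
  have e1 : cst (M * ℓ) (a⁻¹ * c₀) * u = cst (M * ℓ) a⁻¹ * (cst (M * ℓ) c₀ * u) := by
    rw [show cst (M * ℓ) (a⁻¹ * c₀) = cst (M * ℓ) a⁻¹ * cst (M * ℓ) c₀ from
      map_mul (algebraMap Kbar (FF (M * ℓ))) a⁻¹ c₀, mul_assoc]
  have hu' : cst (M * ℓ) (a⁻¹ * c₀) * u ∈ softV A (M * ℓ) := by
    rw [e1]
    exact mul_mem hcai hu
  have hra : softR A (M * ℓ) ⟨_, hca⟩ = HahnSeries.C (IsLocalRing.residue A ⟨a, ha⟩) :=
    softR_cst A (M * ℓ) ⟨a, ha⟩ hca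
  have hprod : softR A (M * ℓ) ⟨_, hcai⟩ * softR A (M * ℓ) ⟨_, hca⟩ = 1 := by
    rw [← map_mul]
    have : (⟨_, hcai⟩ : softV A (M * ℓ)) * ⟨_, hca⟩ = 1 := Subtype.ext hmul
    rw [this, map_one]
  have hres' : softR A (M * ℓ) ⟨cst (M * ℓ) (a⁻¹ * c₀) * u, hu'⟩ =
      softR A M ⟨g, hg⟩ ^ r := by
    have e2 : (⟨cst (M * ℓ) (a⁻¹ * c₀) * u, hu'⟩ : softV A (M * ℓ)) =
        ⟨_, hcai⟩ * ⟨_, hu⟩ := Subtype.ext e1
    rw [e2, map_mul, hres, ← mul_assoc, ← hra, hprod, one_mul]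
  have hne' : softR A (M * ℓ) ⟨cst (M * ℓ) (a⁻¹ * c₀) * u, hu'⟩ ≠ 0 := by
    have e2 : (⟨cst (M * ℓ) (a⁻¹ * c₀) * u, hu'⟩ : softV A (M * ℓ)) =
        ⟨_, hcai⟩ * ⟨_, hu⟩ := Subtype.ext e1
    rw [e2, map_mul]
    refine mul_ne_zero ?_ hne
    intro h0
    rw [h0, zero_mul] at hprod
    exact zero_ne_one hprod
  exact h26w_deep_of_level A M ℓ hℓ hA r hr u g (a⁻¹ * c₀)
    (mul_ne_zero (inv_ne_zero ha0) hc₀) hu' hg hres' hne'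

end Fermat.Agent.P7
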