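import Fermat.Agent.P7.H96Dlog

/-!
# Wave 7, block (A), DLOG route: residue calculus on `K((q))` and the local trace formula
(helper88)

`θ = q d/dq = h96dTheta`, `dlog = h96dLog`, `a₀ = coeff 0` (the residue of `x dq/q`).

* `h88dGe x m` : all coefficients of `x` below `m` vanish (`ord x ≥ m`, also for `x = 0`).
* `h88d_coeff_theta` : `a₀ (θ x) = 0` (exact differentials have no residue).
* `h88d_coeff_log` : `a₀ (dlog u) = order u`.
* `h88d_coeff_mul_log_sub` : `a₀ (f * dlog (f - a)) = a * order (f - a)` (every characteristic).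
* `h88d_exists_primitive` : in characteristic zero a series without constant term is `θ Z`.
* `h88d_dense` : a subfield containing an element of order `1` is dense in `K((q))`.
* `h88d_local_trace` : **the local trace formula** `a₀ (ι (T H) θ(ι f)) = n a₀ (ι H θ(ι f))` for
  an abstract trace `T` commuting with the derivation `d = d/df`.
-/

set_option autoImplicit false

open HahnSeries

noncomputable section

namespace Fermat.Agent.P7

variable {K : Type*} [Field K]

/-- `ord x ≥ m` (all coefficients below `m` vanish); true for `x = 0`. -/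
def h88dGe (x : LaurentSeries K) (m : ℤ) : Prop := ∀ k : ℤ, k < m → x.coeff k = 0

theorem h88d_ge_iff (x : LaurentSeries K) (m : ℤ) :
    h88dGe x m ↔ (m : WithTop ℤ) ≤ x.orderTop := by
  rw [HahnSeries.le_orderTop_iff_forall]
  constructor
  · intro h j hj
    exact h j (WithTop.coe_lt_coe.mp hj)
  · intro h j hj
    exact h j (WithTop.coe_lt_coe.mpr hj)

theorem h88d_ge_zero (m : ℤ) : h88dGe (0 : LaurentSeries K) m := fun _ _ => rfl

theorem h88d_ge_mono {x : LaurentSeries K} {m m' : ℤ} (h : h88dGe x m) (hm : m' ≤ m) :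
    h88dGe x m' := fun k hk => h k (lt_of_lt_of_le hk hm)

theorem h88d_ge_order (x : LaurentSeries K) : h88dGe x x.order :=
  fun _ hk => HahnSeries.coeff_eq_zero_of_lt_order hk

theorem h88d_ge_add {x y : LaurentSeries K} {m : ℤ} (hx : h88dGe x m) (hy : h88dGe y m) :
    h88dGe (x + y) m := fun k hk => by
  rw [HahnSeries.coeff_add, hx k hk, hy k hk, add_zero]

theorem h88d_ge_neg {x : LaurentSeries K} {m : ℤ} (hx : h88dGe x m) : h88dGe (-x) m :=
  fun k hk => by rw [HahnSeries.coeff_neg, hx k hk, neg_zero]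

theorem h88d_ge_sub {x y : LaurentSeries K} {m : ℤ} (hx : h88dGe x m) (hy : h88dGe y m) :
    h88dGe (x - y) m := fun k hk => by
  rw [HahnSeries.coeff_sub, hx k hk, hy k hk, sub_zero]

theorem h88d_ge_smul {x : LaurentSeries K} {m : ℤ} (c : K) (hx : h88dGe x m) :
    h88dGe (c • x) m := fun k hk => by
  rw [HahnSeries.coeff_smul, hx k hk, smul_zero]

theorem h88d_ge_theta {x : LaurentSeries K} {m : ℤ} (hx : h88dGe x m) :
    h88dGe (h96dTheta x) m := fun k hk => by
  rw [h96d_coeff_theta, hx k hk, mul_zero]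

theorem h88d_ge_mul {x y : LaurentSeries K} {a b : ℤ} (hx : h88dGe x a) (hy : h88dGe y b) :
    h88dGe (x * y) (a + b) := by
  rw [h88d_ge_iff] at hx hy ⊢
  calc ((a + b : ℤ) : WithTop ℤ) = (a : WithTop ℤ) + (b : WithTop ℤ) := WithTop.coe_add a b
    _ ≤ x.orderTop + y.orderTop := add_le_add hx hy
    _ ≤ (x * y).orderTop := HahnSeries.orderTop_add_le_mul

theorem h88d_le_order {x : LaurentSeries K} {m : ℤ} (hx : h88dGe x m) (h0 : x ≠ 0) :
    m ≤ x.order := (HahnSeries.le_order_iff_forall h0).mpr hx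

theorem h88d_order_inv {x : LaurentSeries K} (hx : x ≠ 0) : (x⁻¹).order = -x.order := by
  have h1 : (x * x⁻¹).order = x.order + (x⁻¹).order :=
    HahnSeries.order_mul hx (inv_ne_zero hx)
  rw [mul_inv_cancel₀ hx, HahnSeries.order_one] at h1
  omega

theorem h88d_ge_inv {x : LaurentSeries K} (hx : x ≠ 0) : h88dGe x⁻¹ (-x.order) := by
  rw [← h88d_order_inv hx]
  exact h88d_ge_order _

theorem h88d_coeff_zero_of_ge {x : LaurentSeries K} {m : ℤ} (hx : h88dGe x m) (hm : 0 < m) :
    x.coeff 0 = 0 := hx 0 hm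

/-- exact differentials have no residue. -/
theorem h88d_coeff_theta (x : LaurentSeries K) : (h96dTheta x).coeff 0 = 0 := by
  rw [h96d_coeff_theta]
  simp

theorem h88d_coeff_C_mul (c : K) (x : LaurentSeries K) (k : ℤ) :
    (HahnSeries.C c * x).coeff k = c * x.coeff k := by
  rw [HahnSeries.C_mul_eq_smul, HahnSeries.coeff_smul, smul_eq_mul]

theorem h88d_algebraMap (c : K) :
    algebraMap K (LaurentSeries K) c = HahnSeries.C c :=
  LaurentSeries.algebraMap_apply K c

theorem h88d_ge_C_mul {x : LaurentSeries K} {m : ℤ} (c : K) (hx : h88dGe x m) :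
    h88dGe (HahnSeries.C c * x) m := fun k hk => by
  rw [h88d_coeff_C_mul, hx k hk, mul_zero]

/-- `θ u - (ord u) u` has order `> ord u`. -/
theorem h88d_theta_sub_ge (u : LaurentSeries K) :
    h88dGe (h96dTheta u - HahnSeries.C ((u.order : ℤ) : K) * u) (u.order + 1) := by
  intro k hk
  rw [HahnSeries.coeff_sub, h96d_coeff_theta, h88d_coeff_C_mul]
  rcases lt_or_eq_of_le (Int.lt_add_one_iff.mp hk) with h | h
  · rw [HahnSeries.coeff_eq_zero_of_lt_order h, mul_zero, mul_zero, sub_zero]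
  · rw [h, sub_self]

/-- **the residue of `dlog u` is the order of `u`.** -/
theorem h88d_coeff_log {u : LaurentSeries K} (hu : u ≠ 0) :
    (h96dLog u).coeff 0 = ((u.order : ℤ) : K) := by
  have h1 : h96dLog u = (h96dTheta u - HahnSeries.C ((u.order : ℤ) : K) * u) * u⁻¹
      + HahnSeries.C ((u.order : ℤ) : K) * (1 : LaurentSeries K) := by
    rw [h96dLog, sub_mul, mul_assoc, mul_inv_cancel₀ hu]
    ring
  have h2 : h88dGe ((h96dTheta u - HahnSeries.C ((u.order : ℤ) : K) * u) * u⁻¹)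
      (u.order + 1 + -u.order) :=
    h88d_ge_mul (h88d_theta_sub_ge u) (h88d_ge_inv hu)
  rw [h1, HahnSeries.coeff_add, h2 0 (by omega), zero_add, h88d_coeff_C_mul,
    HahnSeries.coeff_one]
  simp

theorem h88d_add_C_mul_log {g : LaurentSeries K} (a : K) (h : g ≠ 0) :
    (g + HahnSeries.C a) * h96dLog g = h96dTheta g + HahnSeries.C a * h96dLog g := by
  rw [add_mul, h96dLog, mul_comm g, mul_assoc, inv_mul_cancel₀ h, mul_one]

/-- `a₀ (f dlog (f - a)) = a · ord (f - a)`, in every characteristic. -/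
theorem h88d_coeff_mul_log_sub (f : LaurentSeries K) (a : K)
    (h : f - HahnSeries.C a ≠ 0) :
    (f * h96dLog (f - HahnSeries.C a)).coeff 0 = a * (((f - HahnSeries.C a).order : ℤ) : K) := by
  have h1 : f * h96dLog (f - HahnSeries.C a)
      = h96dTheta (f - HahnSeries.C a) + HahnSeries.C a * h96dLog (f - HahnSeries.C a) := by
    rw [← h88d_add_C_mul_log a h, sub_add_cancel]
  rw [h1, HahnSeries.coeff_add, h88d_coeff_theta, zero_add, h88d_coeff_C_mul,
    h88d_coeff_log h]

/-! ### primitives (characteristic zero) -/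

/-- the primitive `∑_{k ≠ 0} (W_k / k) q^k`. -/
def h88dPrim (W : LaurentSeries K) : LaurentSeries K where
  coeff n := W.coeff n / (n : K)
  isPWO_support' := W.isPWO_support.mono (fun n hn => by
    simp only [Function.mem_support, ne_eq] at hn ⊢
    exact fun h0 => hn (by rw [h0, zero_div]))

@[simp] theorem h88d_coeff_prim (W : LaurentSeries K) (n : ℤ) :
    (h88dPrim W).coeff n = W.coeff n / (n : K) := rfl

theorem h88d_theta_prim [CharZero K] (W : LaurentSeries K) (h0 : W.coeff 0 = 0) :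
    h96dTheta (h88dPrim W) = W := by
  ext n
  rw [h96d_coeff_theta, h88d_coeff_prim]
  by_cases hn : n = 0
  · subst hn
    simp [h0]
  · have h : (n : K) ≠ 0 := Int.cast_ne_zero.mpr hn
    field_simp

theorem h88d_exists_primitive [CharZero K] (W : LaurentSeries K) (h0 : W.coeff 0 = 0) :
    ∃ Z : LaurentSeries K, h96dTheta Z = W := ⟨h88dPrim W, h88d_theta_prim W h0⟩

/-! ### density of a subfield with a uniformiser -/

theorem h88d_order_zpow {x : LaurentSeries K} (hx : x ≠ 0) (m : ℤ) :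
    (x ^ m).order = m * x.order := by
  cases m with
  | ofNat k =>
    rw [Int.ofNat_eq_natCast, zpow_natCast, HahnSeries.order_pow]
    simp
  | negSucc k =>
    rw [zpow_negSucc, h88d_order_inv (pow_ne_zero _ hx), HahnSeries.order_pow]
    simp only [nsmul_eq_mul, Int.negSucc_eq]
    push_cast
    ring

theorem h88d_ne_zero_of_order {x : LaurentSeries K} (h : x.order ≠ 0) : x ≠ 0 := by
  rintro rfl
  exact h HahnSeries.order_zero

/-- **density.** if `ι π` has order `1`, every Laurent series is approximated to any order by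
elements of `ι F`. -/
theorem h88d_dense_aux {F : Type*} [Field F] [Algebra K F] (ι : F →ₐ[K] LaurentSeries K)
    (π : F) (hπ : (ι π).order = 1) :
    ∀ (j : ℕ) (Z : LaurentSeries K) (m : ℤ), h88dGe Z m →
      ∃ G : F, h88dGe (ι G - Z) (m + j) := by
  have hπ0 : ι π ≠ 0 := h88d_ne_zero_of_order (by rw [hπ]; exact one_ne_zero)
  intro j
  induction j with
  | zero =>
    intro Z m hZ
    refine ⟨0, ?_⟩
    rw [map_zero, zero_sub]
    exact h88d_ge_mono (h88d_ge_neg hZ) (by simp)
  | succ j ih =>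
    intro Z m hZ
    have hP0 : (ι π) ^ m ≠ 0 := zpow_ne_zero m hπ0
    have hPo : ((ι π) ^ m).order = m := by rw [h88d_order_zpow hπ0, hπ, mul_one]
    have hb : ((ι π) ^ m).coeff m ≠ 0 := by
      intro h0
      apply hP0
      rw [← HahnSeries.coeff_order_eq_zero, hPo]
      exact h0
    set a : K := Z.coeff m with ha
    set b : K := ((ι π) ^ m).coeff m with hbdef
    set G1 : F := algebraMap K F (a / b) * π ^ m with hG1
    have hιG1 : ι G1 = HahnSeries.C (a / b) * (ι π) ^ m := by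
      rw [hG1, map_mul, AlgHom.commutes, map_zpow₀, h88d_algebraMap]
    have hZ1 : h88dGe (Z - ι G1) (m + 1) := by
      intro k hk
      rw [HahnSeries.coeff_sub, hιG1, h88d_coeff_C_mul]
      rcases lt_or_eq_of_le (Int.lt_add_one_iff.mp hk) with h | h
      · rw [hZ k h, HahnSeries.coeff_eq_zero_of_lt_order (by rw [hPo]; exact h), mul_zero,
          sub_zero]
      · rw [h, ← ha, ← hbdef, div_mul_cancel₀ a hb, sub_self]
    obtain ⟨G', hG'⟩ := ih (Z - ι G1) (m + 1) hZ1
    refine ⟨G' + G1, ?_⟩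
    have h3 : ι (G' + G1) - Z = ι G' - (Z - ι G1) := by
      rw [map_add]
      ring
    rw [h3]
    exact h88d_ge_mono hG' (by push_cast; omega)

theorem h88d_dense {F : Type*} [Field F] [Algebra K F] (ι : F →ₐ[K] LaurentSeries K)
    (π : F) (hπ : (ι π).order = 1) (Z : LaurentSeries K) (N : ℤ) :
    ∃ G : F, h88dGe (ι G - Z) N := by
  obtain ⟨G, hG⟩ := h88d_dense_aux ι π hπ (N - Z.order).toNat Z Z.order (h88d_ge_order Z)
  refine ⟨G, h88d_ge_mono hG ?_⟩
  have := Int.self_le_toNat (N - Z.order)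
  omega

/-! ### the local trace formula -/

theorem h88d_order_theta [CharZero K] {x : LaurentSeries K} (h : x.order ≠ 0) :
    (h96dTheta x).order = x.order ∧ h96dTheta x ≠ 0 := by
  have hx : x ≠ 0 := h88d_ne_zero_of_order h
  have hc : (h96dTheta x).coeff x.order ≠ 0 := by
    rw [h96d_coeff_theta]
    exact mul_ne_zero (Int.cast_ne_zero.mpr h)
      (fun h0 => hx (HahnSeries.coeff_order_eq_zero.mp h0))
  have h0 : h96dTheta x ≠ 0 := by
    intro h0
    rw [h0] at hc
    exact hc rfl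
  exact ⟨le_antisymm (HahnSeries.order_le_of_coeff_ne_zero hc)
    (h88d_le_order (h88d_ge_theta (h88d_ge_order x)) h0), h0⟩

/-- **The local trace formula at a totally ramified place, abstract Laurent form.**
`F` a field with an embedding `ι` into `K((q))` (the expansion at the place `∞`), `f ∈ F` with a
pole of order `n` there, `d = d/df` a derivation of `F` (chain rule `hA2`), `T` an abstract trace:
`K`-linear, commuting with `d` (`h1`), with `T (dπ/π) = d(Nπ)/Nπ` for one element `π` of order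
`1` whose "norm" `Nπ` has order `n` (`h2`, `h3`), and continuous (`h4`).  Then the residue
`ρ(H) = a₀ (ι H · θ(ι f))` satisfies `ρ(T H) = n ρ(H)`. -/
theorem h88d_local_trace [CharZero K] {F : Type*} [Field F] [Algebra K F]
    (ι : F →ₐ[K] LaurentSeries K) (d T : F →ₗ[K] F) (f π Nπ : F) (n : ℕ) (hn : 0 < n)
    (hf : (ι f).order = -(n : ℤ)) (hπ : (ι π).order = 1)
    (hA2 : ∀ G : F, ι (d G) * h96dTheta (ι f) = h96dTheta (ι G))
    (h1 : ∀ G : F, T (d G) = d (T G))
    (hN0 : Nπ ≠ 0) (h2 : T (d π / π) = d Nπ / Nπ)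
    (h3 : (ι Nπ).order = (n : ℤ))
    (h4 : ∃ c : ℤ, ∀ (X : F) (m : ℤ), h88dGe (ι X) m → h88dGe (ι (T X)) (m - c))
    (H : F) :
    (ι (T H) * h96dTheta (ι f)).coeff 0 = (n : K) * (ι H * h96dTheta (ι f)).coeff 0 := by
  obtain ⟨c, hc⟩ := h4
  have hfo : (ι f).order ≠ 0 := by rw [hf]; omega
  obtain ⟨hYo, hY0⟩ := h88d_order_theta hfo
  rw [hf] at hYo
  set Y0 : LaurentSeries K := h96dTheta (ι f) with hY
  have hπ0 : ι π ≠ 0 := h88d_ne_zero_of_order (by rw [hπ]; exact one_ne_zero)
  have hπF : π ≠ 0 := fun h => hπ0 (by rw [h, map_zero])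
  have hNι : ι Nπ ≠ 0 := fun h => hN0 ((map_eq_zero ι).mp h)
  -- logarithmic differentials
  have hlog : ∀ G : F, G ≠ 0 → ι (d G / G) * Y0 = h96dLog (ι G) := by
    intro G hG
    rw [map_div₀, div_eq_mul_inv, mul_right_comm, hA2, h96dLog]
  set c0 : K := (ι H * Y0).coeff 0 with hc0
  set W : LaurentSeries K := ι H * Y0 - HahnSeries.C c0 * h96dLog (ι π) with hW
  have hW0 : W.coeff 0 = 0 := by
    rw [hW, HahnSeries.coeff_sub, h88d_coeff_C_mul, h88d_coeff_log hπ0, hπ, ← hc0]
    simp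
  obtain ⟨Z, hZ⟩ := h88d_exists_primitive W hW0
  obtain ⟨G, hG⟩ := h88d_dense ι π hπ Z (c + 1)
  set err : F := H - d G - algebraMap K F c0 * (d π / π) with herr
  have herrY : ι err * Y0 = -h96dTheta (ι G - Z) := by
    rw [herr, map_sub, map_sub, map_mul, AlgHom.commutes, sub_mul, sub_mul, hA2, mul_assoc,
      hlog π hπF, h88d_algebraMap, h96d_theta_sub, hZ, hW]
    ring
  have herr1 : h88dGe (ι err * Y0) (c + 1) := by
    rw [herrY]
    exact h88d_ge_neg (h88d_ge_theta hG)
  have herr2 : h88dGe (ι err) (c + 1 + n) := by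
    have h5 : ι err = (ι err * Y0) * Y0⁻¹ := by
      rw [mul_assoc, mul_inv_cancel₀ hY0, mul_one]
    rw [h5]
    have h6 := h88d_ge_mul herr1 (h88d_ge_inv hY0)
    rw [hYo, neg_neg] at h6
    exact h6
  have herr3 : h88dGe (ι (T err)) (n + 1) :=
    h88d_ge_mono (hc err _ herr2) (by omega)
  have herr4 : (ι (T err) * Y0).coeff 0 = 0 := by
    have h7 := h88d_ge_mul herr3 (h88d_ge_order Y0)
    rw [hYo] at h7
    exact h7 0 (by omega)
  have hH : H = err + d G + algebraMap K F c0 * (d π / π) := by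
    rw [herr]
    ring
  have hTH : T H = T err + d (T G) + algebraMap K F c0 * (d Nπ / Nπ) := by
    conv_lhs => rw [hH]
    rw [map_add, map_add, h1, ← Algebra.smul_def, map_smul, h2, Algebra.smul_def]
  have hfin : ι (T H) * Y0
      = ι (T err) * Y0 + h96dTheta (ι (T G)) + HahnSeries.C c0 * h96dLog (ι Nπ) := by
    rw [hTH, map_add, map_add, map_mul, AlgHom.commutes, add_mul, add_mul, hA2, mul_assoc,
      hlog Nπ hN0, h88d_algebraMap]
  rw [hfin, HahnSeries.coeff_add, HahnSeries.coeff_add, herr4, h88d_coeff_theta,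
    h88d_coeff_C_mul, h88d_coeff_log hNι, h3]
  simp [mul_comm]

/-! ### the residue of `f dlog g` from the norm of `g` -/

theorem h88d_log_zpow {x : LaurentSeries K} (hx : x ≠ 0) (m : ℤ) :
    h96dLog (x ^ m) = HahnSeries.C (m : K) * h96dLog x := by
  have hnat : ∀ k : ℕ, h96dLog (x ^ k) = HahnSeries.C (k : K) * h96dLog x := by
    intro k
    rw [h96d_log_pow hx, HahnSeries.C_mul_eq_smul]
    exact (Nat.cast_smul_eq_nsmul K k (h96dLog x)).symm
  cases m with
  | ofNat k =>
    rw [Int.ofNat_eq_natCast, zpow_natCast, hnat]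
    simp
  | negSucc k =>
    rw [zpow_negSucc, h96d_log_inv (pow_ne_zero _ hx), hnat, Int.cast_negSucc, map_neg, neg_mul]

theorem h88d_order_sub_C {x : LaurentSeries K} (hx : x.order < 0) (a : K) :
    (x - HahnSeries.C a).order = x.order ∧ x - HahnSeries.C a ≠ 0 := by
  have hx0 : x ≠ 0 := h88d_ne_zero_of_order (ne_of_lt hx)
  have hC : ∀ k : ℤ, k < 0 → (HahnSeries.C a : LaurentSeries K).coeff k = 0 := by
    intro k hk
    rw [HahnSeries.C_apply]
    exact HahnSeries.coeff_single_of_ne (ne_of_lt hk)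
  have hc : (x - HahnSeries.C a).coeff x.order ≠ 0 := by
    rw [HahnSeries.coeff_sub, hC _ hx, sub_zero]
    exact fun h0 => hx0 (HahnSeries.coeff_order_eq_zero.mp h0)
  have h0 : x - HahnSeries.C a ≠ 0 := by
    intro h0
    rw [h0] at hc
    exact hc rfl
  refine ⟨le_antisymm (HahnSeries.order_le_of_coeff_ne_zero hc) ?_, h0⟩
  apply h88d_le_order _ h0
  intro k hk
  rw [HahnSeries.coeff_sub, HahnSeries.coeff_eq_zero_of_lt_order hk, hC k (lt_trans hk hx),
    sub_zero]

/-- `a₀ (x · dlog (c ∏ (x - aᵢ)^{mᵢ})) = ord x · ∑ mᵢ aᵢ` for `x` with a pole. -/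
theorem h88d_coeff_mul_log_prod {I : Type*} (s : Finset I) (a : I → K) (m : I → ℤ)
    (c : K) (hc : c ≠ 0) {x : LaurentSeries K} (hx : x.order < 0) :
    (x * h96dLog (HahnSeries.C c * ∏ i ∈ s, (x - HahnSeries.C (a i)) ^ (m i))).coeff 0
      = ((x.order : ℤ) : K) * ∑ i ∈ s, (m i : K) * a i := by
  have hfac : ∀ i ∈ s, (x - HahnSeries.C (a i)) ^ (m i) ≠ 0 :=
    fun i _ => zpow_ne_zero _ (h88d_order_sub_C hx (a i)).2
  have hC0 : (HahnSeries.C c : LaurentSeries K) ≠ 0 := by
    intro h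
    have h1 : (HahnSeries.C c : LaurentSeries K).coeff 0 = c := by
      rw [HahnSeries.C_apply, HahnSeries.coeff_single_same]
    rw [h] at h1
    exact hc h1.symm
  rw [h96d_log_mul hC0 (Finset.prod_ne_zero_iff.mpr hfac), h96d_log_C, zero_add,
    h96d_log_prod s _ hfac, Finset.mul_sum, HahnSeries.coeff_sum, Finset.mul_sum]
  refine Finset.sum_congr rfl fun i _ => ?_
  rw [h88d_log_zpow (h88d_order_sub_C hx (a i)).2, mul_left_comm, h88d_coeff_C_mul,
    h88d_coeff_mul_log_sub x (a i) (h88d_order_sub_C hx (a i)).2, (h88d_order_sub_C hx (a i)).1]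
  ring

/-- **DL2, local half, abstract form.**  With the data of `h88d_local_trace`, an abstract norm
`N` with `T (dG/G) = d(N G)/N G`, `T` linear over `f`, and `N g = c ∏ (f - aᵢ)^{mᵢ}`:
`a₀ (ι f · dlog (ι g)) = - ∑ mᵢ aᵢ`. -/
theorem h88d_resid [CharZero K] {F : Type*} [Field F] [Algebra K F]
    (ι : F →ₐ[K] LaurentSeries K) (d T : F →ₗ[K] F) (N : F → F) (f π : F) (n : ℕ)
    (hn : 0 < n) (hf : (ι f).order = -(n : ℤ)) (hπ : (ι π).order = 1)
    (hA2 : ∀ G : F, ι (d G) * h96dTheta (ι f) = h96dTheta (ι G))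
    (h1 : ∀ G : F, T (d G) = d (T G))
    (hTf : ∀ X : F, T (f * X) = f * T X)
    (hN : ∀ G : F, G ≠ 0 → N G ≠ 0 ∧ T (d G / G) = d (N G) / N G)
    (h3 : (ι (N π)).order = (n : ℤ))
    (h4 : ∃ c : ℤ, ∀ (X : F) (m : ℤ), h88dGe (ι X) m → h88dGe (ι (T X)) (m - c))
    (g : F) (hg : g ≠ 0) {I : Type*} (s : Finset I) (a : I → K) (m : I → ℤ) (c : K)
    (hc : c ≠ 0)
    (hNg : N g = algebraMap K F c * ∏ i ∈ s, (f - algebraMap K F (a i)) ^ (m i)) :
    (ι f * h96dLog (ι g)).coeff 0 = - ∑ i ∈ s, (m i : K) * a i := by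
  have hπ0 : ι π ≠ 0 := h88d_ne_zero_of_order (by rw [hπ]; exact one_ne_zero)
  have hπF : π ≠ 0 := fun h => hπ0 (by rw [h, map_zero])
  have hlog : ∀ G : F, G ≠ 0 → ι (d G / G) * h96dTheta (ι f) = h96dLog (ι G) := by
    intro G _
    rw [map_div₀, div_eq_mul_inv, mul_right_comm, hA2, h96dLog]
  have hT := h88d_local_trace ι d T f π (N π) n hn hf hπ hA2 h1 (hN π hπF).1 (hN π hπF).2 h3 h4
    (f * (d g / g))
  rw [hTf, (hN g hg).2, map_mul, map_mul, mul_assoc, mul_assoc, hlog g hg,
    hlog (N g) (hN g hg).1] at hT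
  have hιN : ι (N g) = HahnSeries.C c * ∏ i ∈ s, (ι f - HahnSeries.C (a i)) ^ (m i) := by
    rw [hNg, map_mul, AlgHom.commutes, h88d_algebraMap, map_prod]
    congr 1
    refine Finset.prod_congr rfl fun i _ => ?_
    rw [map_zpow₀, map_sub, AlgHom.commutes, h88d_algebraMap]
  have hfo : (ι f).order < 0 := by rw [hf]; omega
  rw [hιN, h88d_coeff_mul_log_prod s a m c hc hfo, hf] at hT
  have hn0 : (n : K) ≠ 0 := Nat.cast_ne_zero.mpr (Nat.pos_iff_ne_zero.mp hn)
  have h5 : (n : K) * (ι f * h96dLog (ι g)).coeff 0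
      = (n : K) * (- ∑ i ∈ s, (m i : K) * a i) := by
    rw [← hT]
    push_cast
    ring
  exact mul_left_cancel₀ hn0 h5

end Fermat.Agent.P7
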