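import Fermat.Agent.P7.H3DlogTop
import Fermat.Agent.P7.H44Slope
import Fermat.Agent.P7.H26DlogGapLevel
import Fermat.Agent.P7.H26ResDeg
import Fermat.Agent.P7.H88ResLocal

/-!
# Wave 7, DLOG at the level `M`, ORTH(M): step (0) "normalise the order" and the bridge from the
hypothesis of the end shape (I-2) (helper19, prefix `h19o_`)

`p` a prime, `M` prime to `p`, `A` a valuation subring of `ℚ̄` over `p`, `k` its residue field,
`u ∈ FF (M p)` nonzero, `s ∈ k((q))` a scaled reduction of `u` (`H3gRed A (M p) u s`), and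

`(hord)`  `p ∣ h44slOrd A (goodLevel p M) p (degen u) Q` for every place `Q` of the special fibre
of the good level (this is verbatim the hypothesis of `H16tDlog`).

* `h19o_red_slRed` : a scaled reduction in the sense `H3gRed` (values in `k((q))`) is the
  expansion of a scaled reduction in the sense `H44slRed` (values in `kC`), at every level prime
  to `p`.
* `h19o_ord_eq` : under `H3gRed A (Mg p) w s`, `h13sIncl f = s`: `h44slOrd w Q = Q.ord f`.
* `h19o_dvd_order` : `(hord) ⟹ p ∣ ord_q s`.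
* `h19o_coeff_zero` : `(hord) ⟹ a₀(dlog s) = 0`.
* `h19o_softR_zpow` : integral powers of Gauss units.
* `h19o_norm` : **the normalised representative**: there is a Gauss unit `y` of level `M` with
  `ord_q (softR y) = 0`, `dlog (softR y) = dlog s`, `softR y = s · j̄ ^ (ord_q s)`, and
  `softR y` is the expansion of `f₀ ∈ kC(goodLevel)` with `p ∣ ord_Q f₀` for every `Q`.
* `h19o_orth_of_norm` : orthogonality of `dlog s` to a set of series follows from the
  orthogonality for the normalised representative.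

Every declaration is a proved theorem; nothing is assumed.
-/

set_option autoImplicit false
set_option linter.unusedSectionVars false
set_option linter.unusedVariables false
set_option linter.style.haveILetI false
set_option synthInstance.maxHeartbeats 400000

open ModularCurve AlgebraicCurve IsLocalRing

noncomputable section

namespace Fermat.Agent.P7

open Fermat.Agent.S37 Fermat.Agent.Red Fermat.Agent.Red.GV Fermat.Agent.Red.GV.Soft
  Fermat.Agent.LGC Fermat.Agent.Jac.K1 Fermat.Agent.P5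

section H19oNorm

variable (A : ValuationSubring Kbar) {p : ℕ} (hp : p.Prime) (hA : A.LiesOverPrime p)

include hp hA in
/-- a scaled reduction with values in `k((q))` is the expansion of a scaled reduction with
values in `kC`. -/
theorem h19o_red_slRed (Mg : ℕ) [NeZero Mg] [NeZero p] (hMg : ¬ p ∣ Mg) {w : FF (Mg * p)}
    {s : LaurentSeries (ResidueField A)} (hs : H3gRed A (Mg * p) w s) :
    ∃ f : h13sFt A Mg, h13sIncl A Mg f = s ∧ H44slRed A Mg p w f := by
  obtain ⟨hw, c, hc, hm, hi, hr⟩ := hs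
  obtain ⟨y, hy, hry⟩ := h44r_residue_degree_one_gaussV A Mg p hp hMg hA _ hm
  have hf : h13sIncl A Mg (h13sRed A Mg ⟨y, hy⟩) = s := by
    rw [h13sIncl_red, hry, hr]
  refine ⟨h13sRed A Mg ⟨y, hy⟩, hf, hw, c, hc, hm, hi, ?_⟩
  rw [hf]
  exact hr

include hp hA in
/-- the order of the scaled reduction, computed with `H3gRed`. -/
theorem h19o_ord_eq (Mg : ℕ) [NeZero Mg] [NeZero p] (hMg : ¬ p ∣ Mg) {w : FF (Mg * p)}
    {s : LaurentSeries (ResidueField A)} (hs : H3gRed A (Mg * p) w s)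
    {f : h13sFt A Mg} (hf : h13sIncl A Mg f = s) (Q : Place (h13sK A) (h13sFt A Mg)) :
    h44slOrd A Mg p w Q = Q.ord f := by
  obtain ⟨f', hf', hr'⟩ := h19o_red_slRed A hp hA Mg hMg hs
  have e : f' = f := h44sl_incl_injective (hf'.trans hf.symm)
  rw [← e]
  exact h44sl_ord_eq hr' Q

include hp hA in
/-- **`p ∣ ord_q s`** from the hypothesis of the end shape (I-2). -/
theorem h19o_dvd_order (M : ℕ) [NeZero M] [NeZero p] (hM : ¬ p ∣ M) {u : FF (M * p)}
    {s : LaurentSeries (ResidueField A)} (hs : H3gRed A (M * p) u s)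
    (hord : ∀ Q : Place (h13sK A) (h13sFt A (goodLevel p M)),
      (p : ℤ) ∣ h44slOrd A (goodLevel p M) p
        (degen (Nat.mul_dvd_mul_right (dvd_goodLevel p M) p) u) Q) :
    (p : ℤ) ∣ s.order := by
  have hMg : ¬ p ∣ goodLevel p M := not_dvd_goodLevel hp hM
  have hs' := h3g_red_degen A (Nat.mul_dvd_mul_right (dvd_goodLevel p M) p) hs
  obtain ⟨f, hf, hr⟩ := h19o_red_slRed A hp hA (goodLevel p M) hMg hs'
  obtain ⟨Q, hQ⟩ := h26g_place_inf A (goodLevel p M)
  have hf0 : f ≠ 0 := h44sl_red_ne_zero hr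
  have h1 := hord Q
  rw [h44sl_ord_eq hr Q, hQ f hf0, hf] at h1
  exact h1

include hp hA in
/-- **`a₀(dlog s) = 0`** from the hypothesis of the end shape (I-2). -/
theorem h19o_coeff_zero (M : ℕ) [NeZero M] [NeZero p] (hM : ¬ p ∣ M) {u : FF (M * p)}
    {s : LaurentSeries (ResidueField A)} (hs : H3gRed A (M * p) u s)
    (hord : ∀ Q : Place (h13sK A) (h13sFt A (goodLevel p M)),
      (p : ℤ) ∣ h44slOrd A (goodLevel p M) p
        (degen (Nat.mul_dvd_mul_right (dvd_goodLevel p M) p) u) Q) :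
    (h96dLog s).coeff 0 = 0 := by
  haveI : CharP (ResidueField A) p := h3g_charP A hp hA
  obtain ⟨a, ha⟩ := h19o_dvd_order A hp hA M hM hs hord
  rw [h88d_coeff_log (h3g_red_ne_zero hs), ha]
  push_cast
  rw [CharP.cast_eq_zero, zero_mul]

/-- integral powers of a Gauss unit. -/
theorem h19o_softR_zpow {N : ℕ} [NeZero N] {x : FF N} (hx : x ∈ softV A N)
    (hxi : x⁻¹ ∈ softV A N) (hx0 : x ≠ 0) (a : ℤ) :
    ∃ h : x ^ a ∈ softV A N, (x ^ a)⁻¹ ∈ softV A N ∧
      softR A N ⟨x ^ a, h⟩ = (softR A N ⟨x, hx⟩) ^ a := by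
  have hnat : ∀ n : ℕ, ∃ h : x ^ n ∈ softV A N, (x ^ n)⁻¹ ∈ softV A N ∧
      softR A N ⟨x ^ n, h⟩ = (softR A N ⟨x, hx⟩) ^ n := by
    intro n
    have h1 : x ^ n ∈ softV A N := pow_mem hx n
    have h2 : (x ^ n)⁻¹ ∈ softV A N := by
      rw [← inv_pow]
      exact pow_mem hxi n
    refine ⟨h1, h2, ?_⟩
    rw [← map_pow]
    rfl
  obtain ⟨n, rfl | rfl⟩ := a.eq_nat_or_neg
  · obtain ⟨h1, h2, h3⟩ := hnat n
    have hm : x ^ (n : ℤ) ∈ softV A N := by rw [zpow_natCast]; exact h1
    refine ⟨hm, by rw [zpow_natCast]; exact h2, ?_⟩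
    rw [h3g_softR_congr hm h1 (zpow_natCast x n), h3, zpow_natCast]
  · obtain ⟨h1, h2, h3⟩ := hnat n
    have e : x ^ (-(n : ℤ)) = (x ^ n)⁻¹ := by rw [zpow_neg, zpow_natCast]
    have hm : x ^ (-(n : ℤ)) ∈ softV A N := by rw [e]; exact h2
    refine ⟨hm, by rw [e, inv_inv]; exact h1, ?_⟩
    rw [h3g_softR_congr hm h2 e, h3g_softR_inv h1 h2 (pow_ne_zero n hx0), h3, zpow_neg,
      zpow_natCast]

/-- `j` is a Gauss unit of every level, with reduction `j̄`. -/
theorem h19o_j_unit (N : ℕ) [NeZero N] :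
    ∃ h : jB N ∈ softV A N, (jB N)⁻¹ ∈ softV A N ∧ jB N ≠ 0 ∧
      softR A N ⟨jB N, h⟩ = jqModC (ResidueField A) := by
  have h : jB N ∈ softV A N := gaussV_le_softV A N (jB_mem_gaussV A N)
  have e : softR A N ⟨jB N, h⟩ = jqModC (ResidueField A) := by
    rw [softR_eq_gaussR A N (jB N) h (jB_mem_gaussV A N)]
    exact gaussR_jB A N
  have hne : softR A N ⟨jB N, h⟩ ≠ 0 := by
    rw [e]
    exact ModularCurve.jqModC_ne_zero_of_nontrivial _
  obtain ⟨h0, hi⟩ := (softR_ne_zero_iff A N ⟨jB N, h⟩).mp hne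
  exact ⟨h, hi, h0, e⟩

include hp hA in
/-- **ORTH(M), step (0): the normalised representative.**  Under the hypothesis of the end shape
(I-2) there is a Gauss unit `y` of level `M` whose reduction has `q`-order `0`, the same `dlog`
as `s`, equals `s · j̄ ^ (ord_q s)`, and is the expansion of an element `f₀` of the function
field of the special fibre of the good level all of whose orders are divisible by `p`. -/
theorem h19o_norm (M : ℕ) [NeZero M] [NeZero p] (hM : ¬ p ∣ M) {u : FF (M * p)}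
    {s : LaurentSeries (ResidueField A)} (hs : H3gRed A (M * p) u s)
    (hord : ∀ Q : Place (h13sK A) (h13sFt A (goodLevel p M)),
      (p : ℤ) ∣ h44slOrd A (goodLevel p M) p
        (degen (Nat.mul_dvd_mul_right (dvd_goodLevel p M) p) u) Q) :
    ∃ (y : FF M) (hy : y ∈ softV A M), y ≠ 0 ∧ y⁻¹ ∈ softV A M ∧
      (softR A M ⟨y, hy⟩).order = 0 ∧
      h96dLog (softR A M ⟨y, hy⟩) = h96dLog s ∧
      softR A M ⟨y, hy⟩ = s * jqModC (ResidueField A) ^ s.order ∧
      ∃ f₀ : h13sFt A (goodLevel p M),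
        h13sIncl A (goodLevel p M) f₀ = softR A M ⟨y, hy⟩ ∧
        ∀ Q : Place (h13sK A) (h13sFt A (goodLevel p M)), (p : ℤ) ∣ Q.ord f₀ := by
  haveI : CharP (ResidueField A) p := h3g_charP A hp hA
  have hs0 : s ≠ 0 := h3g_red_ne_zero hs
  have hdvd : (p : ℤ) ∣ s.order := h19o_dvd_order A hp hA M hM hs hord
  have hMg : ¬ p ∣ goodLevel p M := not_dvd_goodLevel hp hM
  have hs' := h3g_red_degen A (Nat.mul_dvd_mul_right (dvd_goodLevel p M) p) hs
  obtain ⟨f, hf, hr⟩ := h19o_red_slRed A hp hA (goodLevel p M) hMg hs'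
  have hf0 : f ≠ 0 := h44sl_red_ne_zero hr
  obtain ⟨hu, c, hc, hm, hi, hrs⟩ := hs
  have hx0 : cst (M * p) c * u ≠ 0 := mul_ne_zero (h3g_cst_ne_zero hc) hu
  obtain ⟨y₁, hy₁, hy₁0, hy₁i, e₁⟩ := h26w_resdeg_unit A M p hp hM hA _ hm hi hx0
  rw [hrs] at e₁
  obtain ⟨hJ, hJi, hJ0, eJ⟩ := h19o_j_unit A M
  obtain ⟨hJa, hJai, eJa⟩ := h19o_softR_zpow A hJ hJi hJ0 s.order
  rw [eJ] at eJa
  have hjq : jqModC (ResidueField A) ≠ 0 := ModularCurve.jqModC_ne_zero_of_nontrivial _
  have hjqa : jqModC (ResidueField A) ^ s.order ≠ 0 := zpow_ne_zero _ hjq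
  have hy : y₁ * jB M ^ s.order ∈ softV A M := (softV A M).mul_mem hy₁ hJa
  have hyi : (y₁ * jB M ^ s.order)⁻¹ ∈ softV A M := by
    rw [mul_inv]
    exact (softV A M).mul_mem hy₁i hJai
  have ey : softR A M ⟨y₁ * jB M ^ s.order, hy⟩ = s * jqModC (ResidueField A) ^ s.order := by
    rw [h3g_softR_mul hy₁ hJa hy, e₁, eJa]
  have hcast : ((s.order : ℤ) : ResidueField A) = 0 := by
    obtain ⟨a, ha⟩ := hdvd
    rw [ha]
    push_cast
    rw [CharP.cast_eq_zero, zero_mul]
  refine ⟨y₁ * jB M ^ s.order, hy, mul_ne_zero hy₁0 (zpow_ne_zero _ hJ0), hyi, ?_, ?_, ey, ?_⟩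
  · rw [ey, HahnSeries.order_mul hs0 hjqa, h88d_order_zpow hjq,
      Fermat.Agent.S28.Asm.order_jqModC']
    ring
  · rw [ey, h96d_log_mul hs0 hjqa, h88d_log_zpow hjq, hcast, map_zero, zero_mul, add_zero]
  · refine ⟨f * h26sJ A (goodLevel p M) ^ s.order, ?_, fun Q => ?_⟩
    · rw [ey, map_mul, map_zpow₀, hf, h26g_incl_j]
      rfl
    · have hJ0' : h26sJ A (goodLevel p M) ≠ 0 := by
        intro h0
        have h1 := h26g_incl_j A (goodLevel p M)
        rw [h0, map_zero] at h1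
        exact hjq h1.symm
      rw [Place.ord_mul Q hf0 (zpow_ne_zero _ hJ0'), Place.ord_zpow]
      have h1 : (p : ℤ) ∣ Q.ord f := by
        have h2 := hord Q
        rwa [h44sl_ord_eq hr Q] at h2
      exact dvd_add h1 (Dvd.dvd.mul_right hdvd _)

/-- **ORTH for `s` from ORTH for the normalised representative**: the two `dlog`s agree. -/
theorem h19o_orth_of_norm {k : Type*} [Field k] {s s₀ : LaurentSeries k}
    (h : h96dLog s₀ = h96dLog s) (V : Set (LaurentSeries k))
    (hV : ∀ f ∈ V, (f * h96dLog s₀).coeff 0 = 0) :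
    ∀ f ∈ V, (f * h96dLog s).coeff 0 = 0 := by
  intro f hf
  rw [← h]
  exact hV f hf

include hp hA in
/-- the element of `kC` of the good level with expansion `softR y` IS the reduction of
`degen y`. -/
theorem h19o_red_degen_eq (M : ℕ) [NeZero M] (hM : ¬ p ∣ M) {y : FF M} (hy : y ∈ softV A M)
    (hg : degen (dvd_goodLevel p M) y ∈ gaussV A (goodLevel p M))
    {f₀ : h13sFt A (goodLevel p M)}
    (hf₀ : h13sIncl A (goodLevel p M) f₀ = softR A M ⟨y, hy⟩) :
    h13sRed A (goodLevel p M) ⟨degen (dvd_goodLevel p M) y, hg⟩ = f₀ := by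
  apply h44sl_incl_injective
  have hsoft : degen (dvd_goodLevel p M) y ∈ softV A (goodLevel p M) :=
    (degen_mem_softV_iff A (dvd_goodLevel p M) y).mpr hy
  rw [h13sIncl_red, hf₀, ← softR_eq_gaussR A (goodLevel p M) _ hsoft hg]
  exact softR_degen A (dvd_goodLevel p M) ⟨y, hy⟩ hsoft

include hp hA in
/-- **the normalised representative, reduction form**: as `h19o_norm`, with `f₀` written as the
reduction of `degen y` at the good level. -/
theorem h19o_norm_red (M : ℕ) [NeZero M] [NeZero p] (hM : ¬ p ∣ M) {u : FF (M * p)}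
    {s : LaurentSeries (ResidueField A)} (hs : H3gRed A (M * p) u s)
    (hord : ∀ Q : Place (h13sK A) (h13sFt A (goodLevel p M)),
      (p : ℤ) ∣ h44slOrd A (goodLevel p M) p
        (degen (Nat.mul_dvd_mul_right (dvd_goodLevel p M) p) u) Q) :
    ∃ (y : FF M) (hy : y ∈ softV A M)
      (hg : degen (dvd_goodLevel p M) y ∈ gaussV A (goodLevel p M)),
      y ≠ 0 ∧ y⁻¹ ∈ softV A M ∧
      (degen (dvd_goodLevel p M) y)⁻¹ ∈ gaussV A (goodLevel p M) ∧
      (softR A M ⟨y, hy⟩).order = 0 ∧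
      h96dLog (softR A M ⟨y, hy⟩) = h96dLog s ∧
      h13sIncl A (goodLevel p M)
        (h13sRed A (goodLevel p M) ⟨degen (dvd_goodLevel p M) y, hg⟩) = softR A M ⟨y, hy⟩ ∧
      ∀ Q : Place (h13sK A) (h13sFt A (goodLevel p M)),
        (p : ℤ) ∣ Q.ord (h13sRed A (goodLevel p M) ⟨degen (dvd_goodLevel p M) y, hg⟩) := by
  obtain ⟨y, hy, hy0, hyi, ho, hl, -, f₀, hf₀, hQ⟩ := h19o_norm A hp hA M hM hs hord
  have hMg : ¬ p ∣ goodLevel p M := not_dvd_goodLevel hp hM
  have hsoft : degen (dvd_goodLevel p M) y ∈ softV A (goodLevel p M) :=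
    (degen_mem_softV_iff A (dvd_goodLevel p M) y).mpr hy
  have hg : degen (dvd_goodLevel p M) y ∈ gaussV A (goodLevel p M) :=
    softV_le_gaussV A (goodLevel p M) hp hMg hA hsoft
  have hsofti : (degen (dvd_goodLevel p M) y)⁻¹ ∈ softV A (goodLevel p M) := by
    rw [← map_inv₀]
    exact (degen_mem_softV_iff A (dvd_goodLevel p M) _).mpr hyi
  have hgi : (degen (dvd_goodLevel p M) y)⁻¹ ∈ gaussV A (goodLevel p M) :=
    softV_le_gaussV A (goodLevel p M) hp hMg hA hsofti
  have e := h19o_red_degen_eq A hp hA M hM hy hg hf₀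
  refine ⟨y, hy, hg, hy0, hyi, hgi, ho, hl, ?_, ?_⟩
  · rw [e]
    exact hf₀
  · intro Q
    rw [e]
    exact hQ Q

end H19oNorm

end Fermat.Agent.P7
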