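import Fermat.Agent.P7.H37Count
import Fermat.Agent.P7.H39GenusWH
import Fermat.Agent.P7.H15GenusDescent
import Fermat.Agent.P7.H9GenusWire

/-!
# Wave 7, block (A), DLOG leaf DL6B GENUS-MATCH: final assembly (helper37, prefix `h37m_`)

The weak genus of `FF M` over `ℚ̄` (P5, `H13rIsGenus`: Riemann's theorem without duality) is at
most `dim S₂(Γ₀(M))`, UNCONDITIONALLY.  Assembly of the four landed leaves

* GM-1a `h39o_gWH : H15gWH` (helper39),
* GM-1b `h37c_count : H15gWH → H15gCount` (helper37),
* GM-2  `h15g_descent : H15gDescent` (helper15),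
* GM-3  `h9g_genusMatch : H15gCount → H15gDescent → H15gGenusMatch` (helper9).
-/

set_option autoImplicit false

open ModularCurve AlgebraicCurve UpperHalfPlane CongruenceSubgroup
open scoped MatrixGroups Manifold

noncomputable section

namespace Fermat.Agent.P7

open Fermat.Agent.S24 (Kbar FF)

/-- **GM-1b, unconditional**: the count over `ℂ`. -/
theorem h37m_count : H15gCount := h37c_count h39o_gWH

/-- **DL6B GENUS-MATCH, frozen `Prop`.** -/
theorem h37m_genusMatch : H15gGenusMatch := h9g_genusMatch h37m_count h15g_descent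

/-- **DL6B GENUS-MATCH, unfolded**: the weak genus of `FF M` is at most `dim S₂(Γ₀(M))`. -/
theorem h37m_genus_le (M : ℕ) [NeZero M] (g : ℕ)
    (hg : Fermat.Agent.P5.H13rIsGenus Kbar (FF M) g) :
    g ≤ Module.finrank ℂ (CuspForm (Gamma0 M) 2) :=
  h37m_genusMatch M g hg

end Fermat.Agent.P7
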