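import Fermat.Agent.P7.H37GapM
import Fermat.Agent.P7.H37GenusMatch
import Fermat.Agent.P5.H26GenusWire

/-!
# Wave 7, block (A), route DLOG: DL4 at the level `M` against `dim S₂` (helper37)

`h37n_gap_cusp` : CONST(M) ⟹ `dim_k Ω(LL(M)) ≤ dim_ℂ S₂(Γ₀(M))`, for ANY level `M` prime to `ℓ`:
`h37n_gap` (DL4 at level `M`) + the landed GENUS-MATCH (`h37m_genus_le`) + the existence of the
weak genus (`h26s_genus_generic`).
-/

set_option autoImplicit false
set_option linter.unusedSectionVars false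

open AlgebraicCurve ModularCurve IsLocalRing CongruenceSubgroup

noncomputable section

namespace Fermat.Agent.P7

open Fermat.Agent.S37 Fermat.Agent.Red.GV Fermat.Agent.P5

/-- **DL4 at the level `M`, cusp-form bound.** -/
theorem h37n_gap_cusp {ℓ : ℕ} (M : ℕ) [NeZero M] (A : ValuationSubring Kbar)
    (Q : Place Kbar (FF M)) (hℓ : ℓ.Prime) (hM : ¬ ℓ ∣ M) (hA : A.LiesOverPrime ℓ)
    (hQ : ∀ f : FF M, f ≠ 0 → ((f : FF M) : LaurentSeries Kbar).order = Q.ord f)
    (hC : H37nConst M A Q) :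
    Module.Finite (ResidueField A) (h26gOmega (h37nLL M A Q)) ∧
      Module.finrank (ResidueField A) (h26gOmega (h37nLL M A Q)) ≤
        Module.finrank ℂ (CuspForm (Gamma0 M) 2) := by
  obtain ⟨g, hg⟩ := h26s_genus_generic M
  obtain ⟨h1, h2⟩ := h37n_gap M A Q hℓ hM hA hQ hC g hg
  exact ⟨h1, h2.trans (h37m_genus_le M g hg)⟩

end Fermat.Agent.P7
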