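import Fermat.Agent.S35.H71Norm
import Fermat.Agent.S35.H58Norm

/-!
# Wave 7 (S40), block (5d) RED-EQUIV, function-level core (helper57): Hecke norms and the Gauss
valuation in cross characteristic

`A` a valuation subring of `ℚ̄` over a prime `p`, `N` ANY level, `ℓ ∤ N` a prime (`ℓ = p` is
allowed), `α, β : F_N → F_{Nℓ}` the degeneracy maps, `softV A N` the `q`-expansion Gauss
valuation ring of level `N`, `softR` its reduction to `k((q))`.

* `h57rT N ℓ u = Nm_α (β u)` : the **Hecke norm** on functions; `T_ℓ (div u) = div (h57rT u)`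
  for the prelude correspondence `heckeDivBar` (`α_* ∘ β^*`).
* `h57r_T_series` : `(T_ℓ u)(t^ℓ) = u(t^{ℓ²}) · ∏_{b<ℓ} u(ζ^b t)`  (`t = q^{1/ℓ}`).
* `h57r_T_red` : `u ∈ softV A N` ⟹ `T_ℓ u ∈ softV A N` and
  `red (T_ℓ u)(t^ℓ) = (red u)(t^{ℓ²}) · ∏_{b<ℓ} (red u)(ζ̄^b t)`.
* `h57r_T_red_congr` : the reduction of `T_ℓ u` only depends on the reduction of `u`.
* `h57r_T_deep` : `u ∈ 1 + c · softV` ⟹ `T_ℓ u ∈ 1 + c · softV` (every depth `c ∈ A`).
* `h57r_T_alpha` : the Hecke norm commutes with the degeneracy map `α : F_M → F_{M d}`.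
-/

set_option autoImplicit false
set_option linter.style.haveILetI false
set_option linter.unusedSectionVars false
set_option synthInstance.maxHeartbeats 400000

open AlgebraicCurve ModularCurve IsLocalRing Polynomial

noncomputable section

namespace Fermat.Agent.P7

open Fermat.Agent.S37 Fermat.Agent.Red Fermat.Agent.Red.GV Fermat.Agent.Red.GV.Soft
  Fermat.Agent.Red.TRK Fermat.Agent.Red.Kron Fermat.Agent.LGC Fermat.Agent.S35

/-- **the Hecke norm** `T_ℓ u = Nm_α (β u)` on the functions of level `N`. -/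
def h57rT (N ℓ : ℕ) [NeZero N] [NeZero ℓ] (u : FF N) : FF N :=
  letI := algebraAlong (heckeAlphaBar Kbar N ℓ)
  Algebra.norm (FF N) (heckeBetaBar Kbar N ℓ u)

section Series

variable (N ℓ : ℕ) [NeZero N] [NeZero ℓ]

theorem h57r_T_one : h57rT N ℓ 1 = 1 := by
  letI := algebraAlong (heckeAlphaBar Kbar N ℓ)
  show Algebra.norm (FF N) (heckeBetaBar Kbar N ℓ 1) = 1
  rw [map_one, map_one]

theorem h57r_T_mul (u v : FF N) : h57rT N ℓ (u * v) = h57rT N ℓ u * h57rT N ℓ v := by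
  letI := algebraAlong (heckeAlphaBar Kbar N ℓ)
  show Algebra.norm (FF N) (heckeBetaBar Kbar N ℓ (u * v)) = _
  rw [map_mul, map_mul]
  rfl

/-- **the series formula of the Hecke norm**: `(T_ℓ u)(t^ℓ) = u(t^{ℓ²}) · ∏_{b<ℓ} u(ζ^b t)`. -/
theorem h57r_T_series (hℓ : ℓ.Prime) (hN : ¬ ℓ ∣ N) (ζ : Kbar) (hζ : IsPrimitiveRoot ζ ℓ)
    (u : FF N) :
    qExpand Kbar ℓ ((h57rT N ℓ u : FF N) : LaurentSeries Kbar) =
      qExpand Kbar ℓ (qExpand Kbar ℓ ((u : FF N) : LaurentSeries Kbar)) *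
        ∏ b ∈ Finset.range ℓ, twistK (ζ ^ b) ((u : FF N) : LaurentSeries Kbar) := by
  have h := h71n_norm_series N ℓ hℓ hN ζ hζ (heckeBetaBar Kbar N ℓ u)
  rw [kFricke_beta N ℓ hℓ hN u] at h
  simp only [coe_heckeBetaBar, coe_heckeAlphaBar] at h
  exact h

end Series

/-! ### The reduction of the Hecke norm -/

section Red

variable (A : ValuationSubring Kbar) (N ℓ : ℕ) [NeZero N] [NeZero ℓ]

theorem h57r_coe_unit_pow (ζ : Aˣ) (b : ℕ) :
    ((((ζ ^ b : Aˣ) : A)) : Kbar) = (((ζ : A)) : Kbar) ^ b := by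
  rw [Units.val_pow_eq_pow_val]
  rfl

/-- **the reduction of the Hecke norm**, any residue characteristic `p` (`ℓ = p` allowed):
`T_ℓ` preserves the Gauss valuation ring and
`red (T_ℓ u)(t^ℓ) = (red u)(t^{ℓ²}) · ∏_{b<ℓ} (red u)(ζ̄^b t)`. -/
theorem h57r_T_red {p : ℕ} (hp : p.Prime) (hA : A.LiesOverPrime p) (hℓ : ℓ.Prime)
    (hN : ¬ ℓ ∣ N) (ζ : Aˣ) (hζ : IsPrimitiveRoot (((ζ : A)) : Kbar) ℓ)
    (u : FF N) (hu : u ∈ softV A N) :
    ∃ hn : h57rT N ℓ u ∈ softV A N,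
      qExpand (ResidueField A) ℓ (softR A N ⟨_, hn⟩) =
        qExpand (ResidueField A) ℓ (qExpand (ResidueField A) ℓ (softR A N ⟨u, hu⟩)) *
          ∏ b ∈ Finset.range ℓ, twistK ((residue A (ζ : A)) ^ b) (softR A N ⟨u, hu⟩) := by
  have hser := h57r_T_series N ℓ hℓ hN (((ζ : A)) : Kbar) hζ u
  set n : FF N := h57rT N ℓ u with hn_def
  set x0 : softOT A (residue A) := softIncl A N ⟨u, hu⟩ with hx0
  have hx0c : (x0 : LaurentSeries Kbar) = ((u : FF N) : LaurentSeries Kbar) := rfl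
  have hS1 : qExpand Kbar ℓ ((u : FF N) : LaurentSeries Kbar) ∈ softOT A (residue A) :=
    mem_softOT_qExpand A _ ℓ hu
  have hS1red : softRedT A (residue A) ⟨_, hS1⟩ =
      qExpand (ResidueField A) ℓ (softR A N ⟨u, hu⟩) :=
    softRedT_qExpand A (residue A) ℓ x0 hS1
  have hS2 : qExpand Kbar ℓ (qExpand Kbar ℓ ((u : FF N) : LaurentSeries Kbar)) ∈
      softOT A (residue A) := mem_softOT_qExpand A _ ℓ hS1
  have hS2red : softRedT A (residue A) ⟨_, hS2⟩ =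
      qExpand (ResidueField A) ℓ (qExpand (ResidueField A) ℓ (softR A N ⟨u, hu⟩)) := by
    rw [← hS1red]
    exact softRedT_qExpand A (residue A) ℓ ⟨_, hS1⟩ hS2
  have hT : ∀ b : ℕ, ∃ h : twistK ((((ζ : A)) : Kbar) ^ b) ((u : FF N) : LaurentSeries Kbar) ∈
      softOT A (residue A),
      softRedT A (residue A) ⟨_, h⟩ =
        twistK ((residue A (ζ : A)) ^ b) (softR A N ⟨u, hu⟩) := by
    intro b
    have hmem : twistK ((((ζ ^ b : Aˣ) : A)) : Kbar) (x0 : LaurentSeries Kbar) ∈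
        softOT A (residue A) := h44g_isFrac_twistK (ζ ^ b) x0.2
    have hred := h58n_softRedT_twistK (ζ ^ b) x0 hmem
    have hπ : residue A ((ζ ^ b : Aˣ) : A) = (residue A (ζ : A)) ^ b := by
      rw [Units.val_pow_eq_pow_val, map_pow]
    have hmem' : twistK ((((ζ : A)) : Kbar) ^ b) ((u : FF N) : LaurentSeries Kbar) ∈
        softOT A (residue A) := by
      rw [← h57r_coe_unit_pow A ζ b, ← hx0c]
      exact hmem
    refine ⟨hmem', ?_⟩
    have e : (⟨_, hmem'⟩ : softOT A (residue A)) = ⟨_, hmem⟩ := by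
      apply Subtype.ext
      show twistK ((((ζ : A)) : Kbar) ^ b) ((u : FF N) : LaurentSeries Kbar) =
        twistK ((((ζ ^ b : Aˣ) : A)) : Kbar) (x0 : LaurentSeries Kbar)
      rw [h57r_coe_unit_pow A ζ b, hx0c]
    rw [e, hred, hπ]
    rfl
  choose hTm hTr using hT
  obtain ⟨Q, hQ⟩ : ∃ Q : softOT A (residue A),
      Q = ⟨_, hS2⟩ * ∏ b ∈ Finset.range ℓ, ⟨_, hTm b⟩ := ⟨_, rfl⟩
  have hQcoe : (Q : LaurentSeries Kbar) = qExpand Kbar ℓ ((n : FF N) : LaurentSeries Kbar) := by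
    rw [hser, hQ, Subring.coe_mul, ← Subring.coe_subtype, map_prod]
    rfl
  have hQred : softRedT A (residue A) Q =
      qExpand (ResidueField A) ℓ (qExpand (ResidueField A) ℓ (softR A N ⟨u, hu⟩)) *
        ∏ b ∈ Finset.range ℓ, twistK ((residue A (ζ : A)) ^ b) (softR A N ⟨u, hu⟩) := by
    rw [hQ, map_mul, map_prod, hS2red, Finset.prod_congr rfl (fun b _ => hTr b)]
  have hβn : heckeBetaBar Kbar N ℓ n ∈ softV A (N * ℓ) := by
    rw [mem_softV_iff, coe_heckeBetaBar, ← hQcoe]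
    exact Q.2
  have hn : n ∈ softV A N := (beta_mem_softV_iff A hp hA ℓ n).mp hβn
  refine ⟨hn, ?_⟩
  rw [← softR_beta A ℓ ⟨n, hn⟩ hβn, ← hQred]
  show softRedT A _ (softIncl A (N * ℓ) ⟨heckeBetaBar Kbar N ℓ n, hβn⟩) = softRedT A _ Q
  congr 1
  apply Subtype.ext
  rw [coe_softIncl, hQcoe, coe_heckeBetaBar]

/-- **the reduction of the Hecke norm only depends on the reduction.** -/
theorem h57r_T_red_congr {p : ℕ} (hp : p.Prime) (hA : A.LiesOverPrime p) (hℓ : ℓ.Prime)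
    (hN : ¬ ℓ ∣ N) (u v : FF N) (hu : u ∈ softV A N) (hv : v ∈ softV A N)
    (huv : softR A N ⟨u, hu⟩ = softR A N ⟨v, hv⟩)
    (hTu : h57rT N ℓ u ∈ softV A N) (hTv : h57rT N ℓ v ∈ softV A N) :
    softR A N ⟨_, hTu⟩ = softR A N ⟨_, hTv⟩ := by
  haveI : NeZero ((ℓ : ℕ) : Kbar) := ⟨by exact_mod_cast NeZero.ne ℓ⟩
  obtain ⟨ζ₀, hζ₀⟩ := HasEnoughRootsOfUnity.exists_primitiveRoot Kbar ℓ
  obtain ⟨ζ, hζ⟩ := h44g_exists_unit_of_pow_eq_one A hℓ.ne_zero hζ₀.pow_eq_one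
  rw [← hζ] at hζ₀
  obtain ⟨h1, e1⟩ := h57r_T_red A N ℓ hp hA hℓ hN ζ hζ₀ u hu
  obtain ⟨h2, e2⟩ := h57r_T_red A N ℓ hp hA hℓ hN ζ hζ₀ v hv
  apply qExpand_injective (R := ResidueField A) ℓ
  rw [e1, e2, huv]

/-- `T_ℓ (u⁻¹) = (T_ℓ u)⁻¹`. -/
theorem h57r_T_inv (u : FF N) (hu0 : u ≠ 0) : h57rT N ℓ u⁻¹ = (h57rT N ℓ u)⁻¹ := by
  have h1 : h57rT N ℓ u⁻¹ * h57rT N ℓ u = 1 := by
    rw [← h57r_T_mul, inv_mul_cancel₀ hu0, h57r_T_one]
  exact eq_inv_of_mul_eq_one_left h1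

theorem h57r_T_ne_zero (u : FF N) (hu0 : u ≠ 0) : h57rT N ℓ u ≠ 0 := by
  intro h0
  have h1 : h57rT N ℓ u⁻¹ * h57rT N ℓ u = 1 := by
    rw [← h57r_T_mul, inv_mul_cancel₀ hu0, h57r_T_one]
  rw [h0, mul_zero] at h1
  exact zero_ne_one h1

/-- `T_ℓ` maps the units of the Gauss valuation ring to units. -/
theorem h57r_T_inv_mem {p : ℕ} (hp : p.Prime) (hA : A.LiesOverPrime p) (hℓ : ℓ.Prime)
    (hN : ¬ ℓ ∣ N) (u : FF N) (hu0 : u ≠ 0) (hu' : u⁻¹ ∈ softV A N) :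
    (h57rT N ℓ u)⁻¹ ∈ softV A N := by
  haveI : NeZero ((ℓ : ℕ) : Kbar) := ⟨by exact_mod_cast NeZero.ne ℓ⟩
  obtain ⟨ζ₀, hζ₀⟩ := HasEnoughRootsOfUnity.exists_primitiveRoot Kbar ℓ
  obtain ⟨ζ, hζ⟩ := h44g_exists_unit_of_pow_eq_one A hℓ.ne_zero hζ₀.pow_eq_one
  rw [← hζ] at hζ₀
  obtain ⟨h1, -⟩ := h57r_T_red A N ℓ hp hA hℓ hN ζ hζ₀ u⁻¹ hu'
  rw [← h57r_T_inv N ℓ u hu0]
  exact h1

/-- **constants**: `T_ℓ (c) = c ^ (ℓ + 1)`. -/
theorem h57r_T_cst (hℓ : ℓ.Prime) (hN : ¬ ℓ ∣ N) (c : Kbar) :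
    h57rT N ℓ (cst N c) = cst N (c ^ (ℓ + 1)) := by
  letI := algebraAlong (heckeAlphaBar Kbar N ℓ)
  have h1 : heckeBetaBar Kbar N ℓ (cst N c) = algebraMap (FF N) (FF (N * ℓ)) (cst N c) := by
    show heckeBetaBar Kbar N ℓ (algebraMap Kbar (FF N) c) =
      heckeAlphaBar Kbar N ℓ (algebraMap Kbar (FF N) c)
    rw [AlgHom.commutes, AlgHom.commutes]
  show Algebra.norm (FF N) (heckeBetaBar Kbar N ℓ (cst N c)) = _
  rw [h1, Algebra.norm_algebraMap, finrank_heckeAlphaBar N ℓ hℓ hN]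
  exact (map_pow (algebraMap Kbar (FF N)) c (ℓ + 1)).symm

/-- **deep congruences are preserved**: `u ∈ 1 + c · softV` ⟹ `T_ℓ u ∈ 1 + c · softV`. -/
theorem h57r_T_deep {p : ℕ} (hp : p.Prime) (hA : A.LiesOverPrime p) (hℓ : ℓ.Prime)
    (hN : ¬ ℓ ∣ N) (c : Kbar) (hc : c ∈ A) (s : FF N) (hs : s ∈ softV A N) :
    ∃ s' ∈ softV A N, h57rT N ℓ (1 + cst N c * s) = 1 + cst N c * s' := by
  by_cases hc0 : c = 0
  · refine ⟨0, zero_mem _, ?_⟩
    rw [mul_zero, add_zero, hc0]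
    have h0 : cst N (0 : Kbar) = 0 := map_zero (algebraMap Kbar (FF N))
    rw [h0, zero_mul, add_zero, h57r_T_one]
  haveI : NeZero ((ℓ : ℕ) : Kbar) := ⟨by exact_mod_cast NeZero.ne ℓ⟩
  obtain ⟨ζ₀, hζ₀⟩ := HasEnoughRootsOfUnity.exists_primitiveRoot Kbar ℓ
  obtain ⟨ζ, hζ⟩ := h44g_exists_unit_of_pow_eq_one A hℓ.ne_zero hζ₀.pow_eq_one
  rw [← hζ] at hζ₀
  set u : FF N := 1 + cst N c * s with hu_def
  have hser := h57r_T_series N ℓ hℓ hN (((ζ : A)) : Kbar) hζ₀ u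
  -- the set `1 + C c · softOT`
  set R : Subring (LaurentSeries Kbar) := softOT A (residue A) with hR
  have hCc : (HahnSeries.C c : LaurentSeries Kbar) ∈ R := by
    have h1 : cst N c ∈ softV A N := (cst_mem_softV_iff A N c).mpr hc
    have h2 : ((cst N c : FF N) : LaurentSeries Kbar) ∈ R := h1
    rwa [soft_coe_cst] at h2
  have hone : ∀ x y : LaurentSeries Kbar,
      (∃ a ∈ R, x = 1 + HahnSeries.C c * a) → (∃ a ∈ R, y = 1 + HahnSeries.C c * a) →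
      ∃ a ∈ R, x * y = 1 + HahnSeries.C c * a := by
    rintro x y ⟨a, ha, rfl⟩ ⟨b, hb, rfl⟩
    exact ⟨a + b + HahnSeries.C c * (a * b),
      R.add_mem (R.add_mem ha hb) (R.mul_mem hCc (R.mul_mem ha hb)), by ring⟩
  have hprod : ∀ (m : ℕ) (f : ℕ → LaurentSeries Kbar),
      (∀ b, ∃ a ∈ R, f b = 1 + HahnSeries.C c * a) →
      ∃ a ∈ R, ∏ b ∈ Finset.range m, f b = 1 + HahnSeries.C c * a := by
    intro m f hf
    induction m with
    | zero => exact ⟨0, R.zero_mem, by simp⟩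
    | succ m ih =>
      rw [Finset.prod_range_succ]
      exact hone _ _ ih (hf m)
  have hus : ((u : FF N) : LaurentSeries Kbar) =
      1 + HahnSeries.C c * ((s : FF N) : LaurentSeries Kbar) := by
    rw [hu_def]
    have h1 : (((1 + cst N c * s : FF N)) : LaurentSeries Kbar) =
        1 + ((cst N c : FF N) : LaurentSeries Kbar) * ((s : FF N) : LaurentSeries Kbar) := rfl
    rw [h1, soft_coe_cst]
  have hsR : ((s : FF N) : LaurentSeries Kbar) ∈ R := hs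
  have hS1 : qExpand Kbar ℓ ((s : FF N) : LaurentSeries Kbar) ∈ R :=
    mem_softOT_qExpand A _ ℓ hsR
  have hS2 : qExpand Kbar ℓ (qExpand Kbar ℓ ((s : FF N) : LaurentSeries Kbar)) ∈ R :=
    mem_softOT_qExpand A _ ℓ hS1
  have h1 : ∃ a ∈ R, qExpand Kbar ℓ (qExpand Kbar ℓ ((u : FF N) : LaurentSeries Kbar)) =
      1 + HahnSeries.C c * a := by
    refine ⟨_, hS2, ?_⟩
    rw [hus, map_add, map_add, map_one, map_one, map_mul, map_mul, qExpand_C, qExpand_C]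
  have h2 : ∀ b : ℕ, ∃ a ∈ R,
      twistK ((((ζ : A)) : Kbar) ^ b) ((u : FF N) : LaurentSeries Kbar) =
        1 + HahnSeries.C c * a := by
    intro b
    have hu0 : (((ζ ^ b : Aˣ) : A) : Kbar) ≠ 0 := by
      intro h0
      have h1 : ((ζ ^ b : Aˣ) : A) = 0 := Subtype.ext h0
      exact (ζ ^ b).ne_zero h1
    have hmem : twistK ((((ζ ^ b : Aˣ) : A)) : Kbar) ((s : FF N) : LaurentSeries Kbar) ∈ R :=
      h44g_isFrac_twistK (ζ ^ b) hsR
    refine ⟨_, hmem, ?_⟩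
    rw [← h57r_coe_unit_pow A ζ b, hus, twistK_add, twistK_one, twistK_mul hu0, twistK_C]
  obtain ⟨a₁, ha₁, e₁⟩ := h1
  obtain ⟨a₂, ha₂, e₂⟩ := hprod ℓ _ h2
  obtain ⟨a, ha, e⟩ := hone _ _ ⟨a₁, ha₁, e₁⟩ ⟨a₂, ha₂, e₂⟩
  rw [← hser] at e
  -- descend
  set s' : FF N := cst N c⁻¹ * (h57rT N ℓ u - 1) with hs'
  have hcc : cst N c * cst N c⁻¹ = 1 := by
    rw [← map_mul, mul_inv_cancel₀ hc0, map_one]
  have hTs : h57rT N ℓ u = 1 + cst N c * s' := by
    rw [hs', ← mul_assoc, hcc, one_mul]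
    ring
  refine ⟨s', ?_, hTs⟩
  have hβ : heckeBetaBar Kbar N ℓ s' ∈ softV A (N * ℓ) := by
    rw [mem_softV_iff, coe_heckeBetaBar]
    have h3 : qExpand Kbar ℓ ((s' : FF N) : LaurentSeries Kbar) = a := by
      have h4 : ((h57rT N ℓ u : FF N) : LaurentSeries Kbar) =
          1 + HahnSeries.C c * ((s' : FF N) : LaurentSeries Kbar) := by
        rw [hTs]
        have h5 : (((1 + cst N c * s' : FF N)) : LaurentSeries Kbar) =
            1 + ((cst N c : FF N) : LaurentSeries Kbar) *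
              ((s' : FF N) : LaurentSeries Kbar) := rfl
        rw [h5, soft_coe_cst]
      rw [h4, map_add, map_one, map_mul, qExpand_C] at e
      have hC0 : (HahnSeries.C c : LaurentSeries Kbar) ≠ 0 := by
        intro h0
        apply hc0
        have := congrArg (fun f : LaurentSeries Kbar => f.coeff 0) h0
        simpa using this
      have h6 : HahnSeries.C c * qExpand Kbar ℓ ((s' : FF N) : LaurentSeries Kbar) =
          HahnSeries.C c * a := by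
        linear_combination e
      exact mul_left_cancel₀ hC0 h6
    rw [h3]
    exact ha
  exact (beta_mem_softV_iff A hp hA ℓ s').mp hβ

end Red

/-! ### The Hecke norm and the degeneracy map `α` -/

section Alpha

variable (M d ℓ : ℕ) [NeZero M] [NeZero d] [NeZero ℓ]

/-- **the Hecke norm commutes with the degeneracy map `α : F_M → F_{M d}`** (`ℓ ∤ M d`). -/
theorem h57r_T_alpha (hℓ : ℓ.Prime) (hM : ¬ ℓ ∣ M * d) (u : FF M) :
    h57rT (M * d) ℓ (heckeAlphaBar Kbar M d u) = heckeAlphaBar Kbar M d (h57rT M ℓ u) := by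
  haveI : NeZero ((ℓ : ℕ) : Kbar) := ⟨by exact_mod_cast NeZero.ne ℓ⟩
  obtain ⟨ζ, hζ⟩ := HasEnoughRootsOfUnity.exists_primitiveRoot Kbar ℓ
  have hM' : ¬ ℓ ∣ M := fun h => hM (Dvd.dvd.mul_right h d)
  have h1 := h57r_T_series (M * d) ℓ hℓ hM ζ hζ (heckeAlphaBar Kbar M d u)
  have h2 := h57r_T_series M ℓ hℓ hM' ζ hζ u
  rw [coe_heckeAlphaBar] at h1
  rw [← h2] at h1
  have h3 := qExpand_injective (R := Kbar) ℓ h1
  apply Subtype.ext
  rw [h3, coe_heckeAlphaBar]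

end Alpha

end Fermat.Agent.P7
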