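import Fermat.Agent.P7.H3PolyDlog
import Fermat.Agent.P7.H3HeckeFml
import Fermat.Agent.P7.H96Dlog
import Fermat.Agent.P7.H57NormRed
import Fermat.Agent.P7.H19EigenFun
import Fermat.Agent.Red.HKComm.Main

/-!
# Wave 7 (row 38), block (A), DLOG route, leaf DL8-POLY: the level instance (helper3)

`A` a valuation subring of `ℚ̄` over a prime `p`, `N` ANY level, `k = ResidueField A`.

* `H3gRed A N u s` : `s ∈ k((q))` is a **scaled reduction** of `u ∈ FF N`, `u ≠ 0`, at the Gauss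
  valuation `W_∞ = softV A N` (some constant multiple `c u` is a unit of `W_∞` with reduction `s`);
  existence, uniqueness up to `k^×`, calculus, and the reduction of the Hecke norm
  (`h3g_red_T`, from helper57's `h57r_T_red`).
* `h3gOm A N u : ℕ → k` : **the coefficient sequence of `dlog` of the scaled reduction of `u`**
  (`0` for `u = 0`); `h3g_om_eq` (computed by ANY scaled reduction), `h3g_om_mul`, `h3g_om_inv`,
  `h3g_om_zpow`, `h3g_om_cst`, `h3g_om_pow_p`, `h3g_om_kummer` (constant on the Kummer functions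
  of one class), `h3g_om_T` (`ω (T_ℓ u) = T_ℓ^fml (ω u)` for `ℓ ∤ N p`).
* `h3g_fix_level` : **`e • x = x`, `u` a Kummer function of `x` `⟹` `e(T^fml) ω(u) = ω(u)`**
  (`e` a Hecke polynomial in the `T_ℓ`, `ℓ ∤ N p`).
* `h3g_zero_level` : if moreover `e(T^fml) ω(u) = 0`, then `θ s = 0` for every scaled reduction
  `s` of `u`.

Every declaration is a definition or a proved theorem; nothing is assumed.
-/

set_option autoImplicit false
set_option linter.unusedSectionVars false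
set_option linter.unusedVariables false
set_option linter.style.haveILetI false
set_option synthInstance.maxHeartbeats 400000

open ModularCurve AlgebraicCurve IsLocalRing

noncomputable section

namespace Fermat.Agent.P7

open Fermat.Agent.S37 Fermat.Agent.Red Fermat.Agent.Red.GV Fermat.Agent.Red.GV.Soft
  Fermat.Agent.Red.TRK Fermat.Agent.Red.Kron Fermat.Agent.LGC Fermat.Agent.Jac.K1

section H3gRedSec

variable (A : ValuationSubring Kbar) (N : ℕ) [NeZero N]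

/-- `s` is a scaled reduction at `W_∞` of the nonzero function `u` of level `N`. -/
def H3gRed (u : FF N) (s : LaurentSeries (ResidueField A)) : Prop :=
  u ≠ 0 ∧ ∃ c : Kbar, c ≠ 0 ∧ ∃ h : cst N c * u ∈ softV A N,
    (cst N c * u)⁻¹ ∈ softV A N ∧ softR A N ⟨cst N c * u, h⟩ = s

variable {A N}

theorem h3g_cst_ne_zero {c : Kbar} (hc : c ≠ 0) : cst N c ≠ 0 := by
  intro h
  apply hc
  have h2 : algebraMap Kbar (FF N) c = algebraMap Kbar (FF N) 0 := by
    rw [map_zero]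
    exact h
  exact (algebraMap Kbar (FF N)).injective h2

theorem h3g_red_ne_zero {u : FF N} {s : LaurentSeries (ResidueField A)}
    (h : H3gRed A N u s) : s ≠ 0 := by
  obtain ⟨hu, c, hc, hm, hi, hr⟩ := h
  intro h0
  rw [h0] at hr
  rcases (softR_eq_zero_iff A N ⟨_, hm⟩).mp hr with h1 | h1
  · exact mul_ne_zero (h3g_cst_ne_zero hc) hu h1
  · exact h1 hi

theorem h3g_exists_red {p : ℕ} (hp : p.Prime) (hA : A.LiesOverPrime p) {u : FF N}
    (hu : u ≠ 0) : ∃ s : LaurentSeries (ResidueField A), H3gRed A N u s := by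
  obtain ⟨c, hc, h1, h2⟩ := exists_cst_mul_unit_soft A N hp hA u hu
  exact ⟨_, hu, c, hc, h1, h2, rfl⟩

theorem h3g_softR_congr {x y : FF N} (hx : x ∈ softV A N) (hy : y ∈ softV A N) (hxy : x = y) :
    softR A N ⟨x, hx⟩ = softR A N ⟨y, hy⟩ := by
  subst hxy
  rfl

theorem h3g_softR_mul {x y : FF N} (hx : x ∈ softV A N) (hy : y ∈ softV A N)
    (hxy : x * y ∈ softV A N) :
    softR A N ⟨x * y, hxy⟩ = softR A N ⟨x, hx⟩ * softR A N ⟨y, hy⟩ := by
  rw [← map_mul]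
  rfl

theorem h3g_softR_inv {x : FF N} (hx : x ∈ softV A N) (hxi : x⁻¹ ∈ softV A N) (hx0 : x ≠ 0) :
    softR A N ⟨x⁻¹, hxi⟩ = (softR A N ⟨x, hx⟩)⁻¹ := by
  have h1 : softR A N ⟨x, hx⟩ * softR A N ⟨x⁻¹, hxi⟩ = 1 := by
    rw [← map_mul]
    have h2 : (⟨x, hx⟩ * ⟨x⁻¹, hxi⟩ : softV A N) = 1 := Subtype.ext (mul_inv_cancel₀ hx0)
    rw [h2, map_one]
  exact eq_inv_of_mul_eq_one_right h1

/-- **uniqueness**: two scaled reductions differ by a nonzero constant of `k`. -/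
theorem h3g_red_unique {u : FF N} {s s' : LaurentSeries (ResidueField A)}
    (h : H3gRed A N u s) (h' : H3gRed A N u s') :
    ∃ a : ResidueField A, a ≠ 0 ∧ s' = HahnSeries.C a * s := by
  have hs' : s' ≠ 0 := h3g_red_ne_zero h'
  obtain ⟨hu, c, hc, hm, hi, hr⟩ := h
  obtain ⟨-, c', hc', hm', hi', hr'⟩ := h'
  have h1 : cst N c ≠ 0 := h3g_cst_ne_zero hc
  have hd : cst N (c' / c) = (cst N c' * u) * (cst N c * u)⁻¹ := by
    have h2 : cst N (c' / c) = cst N c' / cst N c := map_div₀ (algebraMap Kbar (FF N)) c' c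
    rw [h2]
    field_simp
  have hdm : cst N (c' / c) ∈ softV A N := by
    rw [hd]
    exact (softV A N).mul_mem hm' hi
  have hdA : c' / c ∈ A := (cst_mem_softV_iff A N _).mp hdm
  have he : cst N c' * u = cst N (c' / c) * (cst N c * u) := by
    rw [hd]
    have h3 : cst N c * u ≠ 0 := mul_ne_zero h1 hu
    field_simp
  have hm2 : cst N (c' / c) * (cst N c * u) ∈ softV A N := he ▸ hm'
  have h4 : s' = HahnSeries.C (residue A ⟨c' / c, hdA⟩) * s := by
    rw [← hr', h3g_softR_congr hm' hm2 he, h3g_softR_mul hdm hm hm2, hr]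
    congr 1
    exact softR_cst A N ⟨c' / c, hdA⟩ hdm
  refine ⟨residue A ⟨c' / c, hdA⟩, ?_, h4⟩
  intro h0
  apply hs'
  rw [h4, h0, map_zero, zero_mul]

theorem h3g_red_one : H3gRed A N (1 : FF N) 1 := by
  have h1 : cst N (1 : Kbar) * (1 : FF N) = 1 := by
    show algebraMap Kbar (FF N) 1 * 1 = 1
    rw [map_one, mul_one]
  have hm : cst N (1 : Kbar) * (1 : FF N) ∈ softV A N := by
    rw [h1]; exact (softV A N).one_mem
  refine ⟨one_ne_zero, 1, one_ne_zero, hm, ?_, ?_⟩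
  · rw [h1, inv_one]; exact (softV A N).one_mem
  · rw [h3g_softR_congr hm (softV A N).one_mem h1]
    exact map_one (softR A N)

theorem h3g_red_mul {u v : FF N} {s t : LaurentSeries (ResidueField A)}
    (hu : H3gRed A N u s) (hv : H3gRed A N v t) : H3gRed A N (u * v) (s * t) := by
  obtain ⟨hu0, c, hc, hm, hi, hr⟩ := hu
  obtain ⟨hv0, d, hd, hn, hj, hs⟩ := hv
  have he : cst N (c * d) * (u * v) = (cst N c * u) * (cst N d * v) := by
    have h2 : cst N (c * d) = cst N c * cst N d := map_mul (algebraMap Kbar (FF N)) c d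
    rw [h2]
    ring
  have hm2 : (cst N c * u) * (cst N d * v) ∈ softV A N := (softV A N).mul_mem hm hn
  have hm3 : cst N (c * d) * (u * v) ∈ softV A N := he ▸ hm2
  refine ⟨mul_ne_zero hu0 hv0, c * d, mul_ne_zero hc hd, hm3, ?_, ?_⟩
  · rw [he, mul_inv]
    exact (softV A N).mul_mem hi hj
  · rw [h3g_softR_congr hm3 hm2 he, h3g_softR_mul hm hn hm2, hr, hs]

theorem h3g_red_inv {u : FF N} {s : LaurentSeries (ResidueField A)}
    (hu : H3gRed A N u s) : H3gRed A N u⁻¹ s⁻¹ := by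
  obtain ⟨hu0, c, hc, hm, hi, hr⟩ := hu
  have he : cst N c⁻¹ * u⁻¹ = (cst N c * u)⁻¹ := by
    have h2 : cst N c⁻¹ = (cst N c)⁻¹ := map_inv₀ (algebraMap Kbar (FF N)) c
    rw [h2, mul_inv]
  have hm3 : cst N c⁻¹ * u⁻¹ ∈ softV A N := he ▸ hi
  have hx0 : cst N c * u ≠ 0 := mul_ne_zero (h3g_cst_ne_zero hc) hu0
  refine ⟨inv_ne_zero hu0, c⁻¹, inv_ne_zero hc, hm3, ?_, ?_⟩
  · rw [he, inv_inv]
    exact hm
  · rw [h3g_softR_congr hm3 hi he, h3g_softR_inv hm hi hx0, hr]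

theorem h3g_red_cst {c : Kbar} (hc : c ≠ 0) : H3gRed A N (cst N c) 1 := by
  have h1 : cst N c⁻¹ * cst N c = 1 := by
    have h2 : cst N c⁻¹ = (cst N c)⁻¹ := map_inv₀ (algebraMap Kbar (FF N)) c
    rw [h2, inv_mul_cancel₀ (h3g_cst_ne_zero hc)]
  have hm : cst N c⁻¹ * cst N c ∈ softV A N := by
    rw [h1]; exact (softV A N).one_mem
  refine ⟨h3g_cst_ne_zero hc, c⁻¹, inv_ne_zero hc, hm, ?_, ?_⟩
  · rw [h1, inv_one]; exact (softV A N).one_mem
  · rw [h3g_softR_congr hm (softV A N).one_mem h1]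
    exact map_one (softR A N)

end H3gRedSec

section H3gArith

variable (A : ValuationSubring Kbar) {p : ℕ} (hp : p.Prime) (hA : A.LiesOverPrime p)

include hp hA in
/-- the residue field of `A` has characteristic `p`. -/
theorem h3g_charP : CharP (ResidueField A) p := by
  have hpA : (p : Kbar) ∈ A := A.nonunits_subset hA
  have h1 : residue A ⟨(p : Kbar), hpA⟩ = 0 := residue_eq_zero_of_nonunit A ⟨_, hpA⟩ hA
  have h2 : (⟨(p : Kbar), hpA⟩ : A) = ((p : ℕ) : A) := by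
    apply Subtype.ext
    simp
  rw [h2, map_natCast] at h1
  exact (CharP.charP_iff_prime_eq_zero hp).mpr h1

include hp hA in
theorem h3g_natCast_ne_zero {ℓ : ℕ} (hℓ : ℓ.Prime) (hℓp : ℓ ≠ p) :
    ((ℓ : ℕ) : ResidueField A) ≠ 0 := by
  haveI := h3g_charP A hp hA
  intro h
  have h1 : p ∣ ℓ := (CharP.cast_eq_zero_iff (ResidueField A) p ℓ).mp h
  exact hℓp ((Nat.prime_dvd_prime_iff_eq hp hℓ).mp h1).symm

include hp hA in
/-- the reduction of a primitive `ℓ`-th root of unity, `ℓ ≠ p` prime, is primitive. -/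
theorem h3g_prim_residue {ℓ : ℕ} (hℓ : ℓ.Prime) (hℓp : ℓ ≠ p) (ζ : Aˣ)
    (hζ : IsPrimitiveRoot (((ζ : A)) : Kbar) ℓ) :
    IsPrimitiveRoot (residue A (ζ : A)) ℓ := by
  have h1 : ((ζ : A)) ^ ℓ = 1 := by
    apply Subtype.ext
    have := hζ.pow_eq_one
    simpa using this
  have h2 : (residue A (ζ : A)) ^ ℓ = 1 := by
    rw [← map_pow, h1, map_one]
  have h3 : ∑ j ∈ Finset.range ℓ, ((ζ : A)) ^ j = 0 := by
    apply Subtype.ext
    have := hζ.geom_sum_eq_zero hℓ.one_lt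
    simpa using this
  have h4 : residue A (ζ : A) ≠ 1 := by
    intro h
    have h5 := congrArg (residue A) h3
    rw [map_sum, map_zero] at h5
    simp only [map_pow, h, one_pow, Finset.sum_const, Finset.card_range, nsmul_eq_mul,
      mul_one] at h5
    exact h3g_natCast_ne_zero A hp hA hℓ hℓp h5
  haveI : Fact ℓ.Prime := ⟨hℓ⟩
  have h6 : orderOf (residue A (ζ : A)) = ℓ := orderOf_eq_prime h2 h4
  have h7 := IsPrimitiveRoot.orderOf (residue A (ζ : A))
  rwa [h6] at h7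

end H3gArith

section H3gT

variable (A : ValuationSubring Kbar) {p : ℕ} (hp : p.Prime) (hA : A.LiesOverPrime p)
  (N : ℕ) [NeZero N]

include hp hA in
/-- **the scaled reduction of the Hecke norm.** -/
theorem h3g_red_T {ℓ : ℕ} [NeZero ℓ] (hℓ : ℓ.Prime) (hN : ¬ ℓ ∣ N) (ζ : Aˣ)
    (hζ : IsPrimitiveRoot (((ζ : A)) : Kbar) ℓ) {u : FF N}
    {s : LaurentSeries (ResidueField A)} (h : H3gRed A N u s) :
    ∃ s' : LaurentSeries (ResidueField A), H3gRed A N (h57rT N ℓ u) s' ∧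
      qExpand (ResidueField A) ℓ s' =
        qExpand (ResidueField A) ℓ (qExpand (ResidueField A) ℓ s) *
          ∏ b ∈ Finset.range ℓ, twistK ((residue A (ζ : A)) ^ b) s := by
  obtain ⟨hu, c, hc, hm, hi, hr⟩ := h
  have hx0 : cst N c * u ≠ 0 := mul_ne_zero (h3g_cst_ne_zero hc) hu
  obtain ⟨hn, e⟩ := h57r_T_red A N ℓ hp hA hℓ hN ζ hζ (cst N c * u) hm
  have hinv := h57r_T_inv_mem A N ℓ hp hA hℓ hN (cst N c * u) hx0 hi
  have hT : h57rT N ℓ (cst N c * u) = cst N (c ^ (ℓ + 1)) * h57rT N ℓ u := by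
    rw [h57r_T_mul, h57r_T_cst N ℓ hℓ hN c]
  have hn' : cst N (c ^ (ℓ + 1)) * h57rT N ℓ u ∈ softV A N := hT ▸ hn
  refine ⟨softR A N ⟨_, hn⟩, ⟨h57r_T_ne_zero N ℓ u hu, c ^ (ℓ + 1),
    pow_ne_zero _ hc, hn', ?_, ?_⟩, ?_⟩
  · rw [← hT]
    exact hinv
  · exact h3g_softR_congr hn' hn hT.symm
  · rw [e, hr]

end H3gT

section H3gOmSec

variable (A : ValuationSubring Kbar) (N : ℕ) [NeZero N]

/-- **the coefficient sequence of `dlog` of the scaled reduction** of `u` (`0` for `u = 0`). -/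
def h3gOm (u : FF N) : ℕ → ResidueField A :=
  letI := Classical.propDecidable (∃ s : LaurentSeries (ResidueField A), H3gRed A N u s)
  if h : ∃ s : LaurentSeries (ResidueField A), H3gRed A N u s then
    fun n : ℕ => (h96dLog h.choose).coeff (n : ℤ)
  else 0

variable {A N}

theorem h3g_C_ne_zero {a : ResidueField A} (ha : a ≠ 0) :
    (HahnSeries.C a : LaurentSeries (ResidueField A)) ≠ 0 := by
  intro h
  apply ha
  have h2 : (HahnSeries.C a : LaurentSeries (ResidueField A)) = HahnSeries.C 0 := by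
    rw [map_zero]
    exact h
  exact HahnSeries.C_injective h2

/-- `dlog` does not see the scaling. -/
theorem h3g_log_unique {u : FF N} {s s' : LaurentSeries (ResidueField A)}
    (h : H3gRed A N u s) (h' : H3gRed A N u s') : h96dLog s' = h96dLog s := by
  obtain ⟨a, ha, e⟩ := h3g_red_unique h h'
  rw [e, h96d_log_mul (h3g_C_ne_zero ha) (h3g_red_ne_zero h), h96d_log_C, zero_add]

/-- `h3gOm` is computed by ANY scaled reduction. -/
theorem h3g_om_eq {u : FF N} {s : LaurentSeries (ResidueField A)} (h : H3gRed A N u s) :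
    h3gOm A N u = fun n : ℕ => (h96dLog s).coeff (n : ℤ) := by
  have hex : ∃ s : LaurentSeries (ResidueField A), H3gRed A N u s := ⟨s, h⟩
  unfold h3gOm
  rw [dif_pos hex, h3g_log_unique h hex.choose_spec]

theorem h3g_om_one : h3gOm A N (1 : FF N) = 0 := by
  rw [h3g_om_eq h3g_red_one, h96d_log_one]
  rfl

theorem h3g_om_cst {c : Kbar} (hc : c ≠ 0) : h3gOm A N (cst N c) = 0 := by
  rw [h3g_om_eq (h3g_red_cst hc), h96d_log_one]
  rfl

end H3gOmSec

section H3gOmCalc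

variable (A : ValuationSubring Kbar) {p : ℕ} (hp : p.Prime) (hA : A.LiesOverPrime p)
  (N : ℕ) [NeZero N]

include hp hA in
theorem h3g_om_mul {u v : FF N} (hu : u ≠ 0) (hv : v ≠ 0) :
    h3gOm A N (u * v) = h3gOm A N u + h3gOm A N v := by
  obtain ⟨s, hs⟩ := h3g_exists_red hp hA hu
  obtain ⟨t, ht⟩ := h3g_exists_red hp hA hv
  rw [h3g_om_eq (h3g_red_mul hs ht), h3g_om_eq hs, h3g_om_eq ht,
    h96d_log_mul (h3g_red_ne_zero hs) (h3g_red_ne_zero ht)]
  funext n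
  simp

include hp hA in
theorem h3g_om_inv {u : FF N} (hu : u ≠ 0) : h3gOm A N u⁻¹ = -h3gOm A N u := by
  obtain ⟨s, hs⟩ := h3g_exists_red hp hA hu
  rw [h3g_om_eq (h3g_red_inv hs), h3g_om_eq hs, h96d_log_inv (h3g_red_ne_zero hs)]
  funext n
  simp

include hp hA in
theorem h3g_om_pow {u : FF N} (hu : u ≠ 0) (n : ℕ) :
    h3gOm A N (u ^ n) = n • h3gOm A N u := by
  induction n with
  | zero => rw [pow_zero, zero_smul]; exact h3g_om_one
  | succ n ih =>
    rw [pow_succ, h3g_om_mul A hp hA N (pow_ne_zero n hu) hu, ih, succ_nsmul]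

include hp hA in
theorem h3g_om_zpow {u : FF N} (hu : u ≠ 0) (z : ℤ) :
    h3gOm A N (u ^ z) = z • h3gOm A N u := by
  obtain ⟨n, rfl | rfl⟩ := z.eq_nat_or_neg
  · rw [zpow_natCast, h3g_om_pow A hp hA N hu, natCast_zsmul]
  · rw [zpow_neg, zpow_natCast, h3g_om_inv A hp hA N (pow_ne_zero n hu),
      h3g_om_pow A hp hA N hu, neg_smul, natCast_zsmul]

include hp hA in
/-- `ω` kills the `p`-th powers. -/
theorem h3g_om_pow_p {h : FF N} (hh : h ≠ 0) : h3gOm A N (h ^ p) = 0 := by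
  haveI := h3g_charP A hp hA
  rw [h3g_om_pow A hp hA N hh]
  funext n
  rw [Pi.smul_apply, nsmul_eq_mul, CharP.cast_eq_zero, zero_mul]
  rfl

include hp hA in
/-- **`ω` is an invariant of the Kummer class.** -/
theorem h3g_om_kummer {x : JZero N} {u u' : FF N} (hu : IsKummerPair p x u)
    (hu' : IsKummerPair p x u') : h3gOm A N u = h3gOm A N u' := by
  obtain ⟨c, hc, h, hh, e⟩ := hu.unique (constantsOnly_FF N) hu'
  have e' : u' = cst N c * h ^ p * u := e
  have h1 : cst N c * h ^ p ≠ 0 := mul_ne_zero (h3g_cst_ne_zero hc) (pow_ne_zero p hh)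
  rw [e', h3g_om_mul A hp hA N h1 hu.ne_zero,
    h3g_om_mul A hp hA N (h3g_cst_ne_zero hc) (pow_ne_zero p hh), h3g_om_cst hc,
    h3g_om_pow_p A hp hA N hh, zero_add, zero_add]

/-- the coefficients of `h96dT` are given by the formal operator `h3fT`. -/
theorem h3g_coeff_T (ℓ : ℕ) [NeZero ℓ] (s : LaurentSeries (ResidueField A)) :
    (fun n : ℕ => (h96dT ℓ s).coeff (n : ℤ)) =
      h3fT (ResidueField A) ℓ (fun n : ℕ => s.coeff (n : ℤ)) := by
  funext n
  by_cases h : ℓ ∣ n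
  · obtain ⟨m, rfl⟩ := h
    rw [h3f_T_of_dvd _ (Dvd.intro m rfl), Nat.mul_div_cancel_left m (Nat.pos_of_ne_zero (NeZero.ne ℓ))]
    have h1 := h96d_coeff_T_mul ℓ s (m : ℤ)
    have e1 : ((ℓ * m : ℕ) : ℤ) = (ℓ : ℤ) * (m : ℤ) := by push_cast; ring
    have e2 : ((ℓ * m * ℓ : ℕ) : ℤ) = (ℓ : ℤ) * ((ℓ : ℤ) * (m : ℤ)) := by push_cast; ring
    rw [e1, e2, h1]
  · rw [h3f_T_of_not_dvd _ h]
    have h' : ¬ (ℓ : ℤ) ∣ (n : ℤ) := fun hd => h (Int.natCast_dvd_natCast.mp hd)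
    have h1 := h96d_coeff_T_of_not_dvd ℓ s h'
    have e1 : ((n * ℓ : ℕ) : ℤ) = (ℓ : ℤ) * (n : ℤ) := by push_cast; ring
    rw [e1, h1]

include hp hA in
/-- **`ω (T_ℓ u) = T_ℓ^fml (ω u)`** for a prime `ℓ ∤ N p`. -/
theorem h3g_om_T {ℓ : ℕ} [NeZero ℓ] (hℓ : ℓ.Prime) (hN : ¬ ℓ ∣ N) (hℓp : ℓ ≠ p) {u : FF N}
    (hu : u ≠ 0) :
    h3gOm A N (h57rT N ℓ u) = h3fT (ResidueField A) ℓ (h3gOm A N u) := by
  haveI : NeZero ((ℓ : ℕ) : Kbar) := ⟨by exact_mod_cast NeZero.ne ℓ⟩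
  obtain ⟨ζ₀, hζ₀⟩ := HasEnoughRootsOfUnity.exists_primitiveRoot Kbar ℓ
  obtain ⟨ζ, hζ⟩ := h44g_exists_unit_of_pow_eq_one A hℓ.ne_zero hζ₀.pow_eq_one
  rw [← hζ] at hζ₀
  obtain ⟨s, hs⟩ := h3g_exists_red hp hA hu
  obtain ⟨s', hs', e⟩ := h3g_red_T A hp hA N hℓ hN ζ hζ₀ hs
  have hlog : h96dLog s' = h96dT ℓ (h96dLog s) :=
    h96d_log_hecke ℓ (h3g_natCast_ne_zero A hp hA hℓ hℓp)
      (h3g_prim_residue A hp hA hℓ hℓp ζ hζ₀) (h3g_red_ne_zero hs) e
  rw [h3g_om_eq hs', h3g_om_eq hs, hlog]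
  exact h3g_coeff_T A ℓ (h96dLog s)

end H3gOmCalc

section H3gFinal

variable (A : ValuationSubring Kbar) {p : ℕ} (hp : p.Prime) (hA : A.LiesOverPrime p)
  (N : ℕ) [NeZero N]

/-- the function-level Hecke operator `T_ℓ u = Nm_α (β u)`, indexed by `Nat.Primes`. -/
def h3gNm (ℓ : Nat.Primes) (u : FF N) : FF N :=
  haveI : NeZero (ℓ : ℕ) := ⟨ℓ.2.ne_zero⟩
  h57rT N ℓ u

theorem h3g_Nm_eq (ℓ : Nat.Primes) (u : FF N) :
    h3gNm N ℓ u = (haveI : NeZero (ℓ : ℕ) := ⟨ℓ.2.ne_zero⟩; h19vT N ℓ u) := rfl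

/-- `T_ℓ u` is a Kummer function of `X_ℓ • x`. -/
theorem h3g_kummer_T (ℓ : Nat.Primes) {m : ℕ} {x : JZero N} {u : FF N}
    (hx : IsKummerPair m x u) :
    IsKummerPair m
      (letI := heckeModuleBar N; (MvPolynomial.X ℓ : MvPolynomial Nat.Primes ℤ) • x)
      (h3gNm N ℓ u) := by
  have hc := Fermat.Agent.Red.HKComm.heckeOperatorsCommuteBar N
  have h1 : (letI := heckeModuleBar N; (MvPolynomial.X ℓ : MvPolynomial Nat.Primes ℤ) • x) =
      heckeOperatorBar N ℓ x := heckeModuleBar_heckeGen_smul hc ℓ x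
  rw [h1]
  exact h19v_kummer_T N ℓ.2 hx

include hp hA in
/-- **DL8-POLY, level form**: `e • x = x` and `u` a Kummer function of `x` give
`e(T^fml) ω(u) = ω(u)`, for every Hecke polynomial `e` in the `T_ℓ`, `ℓ ∤ N p`. -/
theorem h3g_fix_level (e : MvPolynomial Nat.Primes ℤ) (he : ∀ ℓ ∈ e.vars, ¬ (ℓ : ℕ) ∣ N * p)
    (x : JZero N) (u : FF N) (hx : IsKummerPair p x u)
    (hex : (letI := heckeModuleBar N; e • x = x)) :
    h3fEval (ResidueField A) e (h3gOm A N u) = h3gOm A N u := by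
  letI := heckeModuleBar N
  have he' : e ∈ MvPolynomial.supported ℤ {ℓ : Nat.Primes | ¬ (ℓ : ℕ) ∣ N * p} := by
    rw [MvPolynomial.mem_supported]
    intro ℓ hℓ
    exact he ℓ (by simpa using hℓ)
  refine h3g_poly_fix (J := JZero N) (F := FF N) (R := ResidueField A)
    (V := ℕ → ResidueField A) {ℓ : Nat.Primes | ¬ (ℓ : ℕ) ∣ N * p}
    (fun x u => IsKummerPair p x u) (h3gNm N) (h3gOm A N) (h3fEval (ResidueField A))
    ?_ ?_ ?_ ?_ ?_ ?_ ?_ he' x u hx hex
  · intro x u z hxu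
    exact h19e_kummer_zsmul hxu z
  · intro x y u v hxu hyv
    exact hxu.mul hyv
  · intro ℓ _ x u hxu
    exact h3g_kummer_T N ℓ hxu
  · intro x u u' hxu hxu'
    exact h3g_om_kummer A hp hA N hxu hxu'
  · intro x u z hxu
    exact h3g_om_zpow A hp hA N hxu.ne_zero z
  · intro x y u v hxu hyv
    exact h3g_om_mul A hp hA N hxu.ne_zero hyv.ne_zero
  · intro ℓ hℓ x u hxu
    have hℓN : ¬ (ℓ : ℕ) ∣ N := fun h => hℓ (Dvd.dvd.mul_right h p)
    have hℓp : (ℓ : ℕ) ≠ p := fun h => hℓ (h ▸ Dvd.intro_left N rfl)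
    haveI : NeZero (ℓ : ℕ) := ⟨ℓ.2.ne_zero⟩
    rw [h3f_eval_X]
    exact h3g_om_T A hp hA N ℓ.2 hℓN hℓp hxu.ne_zero

/-- `dlog` of a nonzero Laurent series has no terms of negative degree. -/
theorem h3g_log_coeff_neg {K : Type*} [Field K] {s : LaurentSeries K} (hs : s ≠ 0) {n : ℤ}
    (hn : n < 0) : (h96dLog s).coeff n = 0 := by
  by_cases hθ : h96dTheta s = 0
  · rw [h96dLog, hθ, zero_mul]
    rfl
  have hsi : s⁻¹ ≠ 0 := inv_ne_zero hs
  have h1 : s.order ≤ (h96dTheta s).order := by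
    apply HahnSeries.order_le_of_coeff_ne_zero
    have h2 : (h96dTheta s).coeff (h96dTheta s).order ≠ 0 :=
      HahnSeries.coeff_order_eq_zero.not.mpr hθ
    exact h96d_support_theta s h2
  have h3 : s.order + s⁻¹.order = 0 := by
    rw [← HahnSeries.order_mul hs hsi, mul_inv_cancel₀ hs, HahnSeries.order_one]
  have h4 : (h96dLog s).order = (h96dTheta s).order + s⁻¹.order := by
    rw [h96dLog, HahnSeries.order_mul hθ hsi]
  apply HahnSeries.coeff_eq_zero_of_lt_order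
  rw [h4]
  omega

include hp hA in
/-- **DL8-POLY, conclusion**: if moreover `e(T^fml)` kills `ω(u)`, then `θ s = 0` for every
scaled reduction `s` of `u`. -/
theorem h3g_zero_level (e : MvPolynomial Nat.Primes ℤ) (he : ∀ ℓ ∈ e.vars, ¬ (ℓ : ℕ) ∣ N * p)
    (x : JZero N) (u : FF N) (hx : IsKummerPair p x u)
    (hex : (letI := heckeModuleBar N; e • x = x))
    (hkill : h3fEval (ResidueField A) e (h3gOm A N u) = 0)
    {s : LaurentSeries (ResidueField A)} (hs : H3gRed A N u s) :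
    h96dTheta s = 0 := by
  have h1 : h3gOm A N u = 0 := by
    rw [← h3g_fix_level A hp hA N e he x u hx hex, hkill]
  have h2 : h96dLog s = 0 := by
    ext n
    rcases lt_or_ge n 0 with hn | hn
    · rw [h3g_log_coeff_neg (h3g_red_ne_zero hs) hn]
      rfl
    · obtain ⟨m, rfl⟩ := Int.eq_ofNat_of_zero_le hn
      have h3 := congrFun h1 m
      rw [h3g_om_eq hs] at h3
      exact h3
  exact (h96d_log_eq_zero_iff (h3g_red_ne_zero hs)).mp h2

end H3gFinal

end Fermat.Agent.P7
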