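import Fermat.Agent.P7.H72DlogMid
import Fermat.Agent.P7.H10SbarKill
import Fermat.Agent.P7.H3PolyDlogLevel
import Fermat.Agent.P7.H37GenusMatch

/-!
# Wave 7 (S44), block (A) by DLOG: the MID assembly at the level (helper72, prefix `h72w_`)

`A` a valuation subring of `ℚ̄` over the prime `p`, `k = ResidueField A`, `M` ANY level,
`V` ANY subspace of `k((q))` (in the application: the span of the reductions at `W_∞` of the
functions of level `M` regular off `∞`), `Ω(V) = h26gOmega V`.

Inputs, all for the SAME `V`: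

* (GAP)  `Ω(V)` is finite-dimensional of dimension `≤ g`, `g` a weak genus of `FF M`
  (`H13rIsGenus Kbar (FF M) g`);
* (CUSP-ORTH-RED)  for every generator `w` of `S̄(M) = h10wSbar M k` (reduction of the coefficient
  sequence of an integral cusp form of weight 2 and level `M`): `h72wSer w ∈ Ω(V)`;
* (ORTH)  `dlog s ∈ Ω(V)` for a scaled reduction `s` of the Kummer function `u`.

Landed and used here: GENUS-MATCH `h37m_genus_le` (`g ≤ dim S₂`), LATTICE `h10w_sbar_finrank`
(`dim S₂ ≤ dim S̄`), `h10w_sbar_kill` (a Hecke polynomial killing `S₂(Γ₀(M))` kills `S̄(M)`),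
DL8-POLY `h3g_zero_level`.

* `h72w_omega_eq_sbar` : `Ω(V) = S̄(M)` (as series).
* `h72w_om_mem_sbar` : `ω(u) = h3gOm A N u ∈ S̄(M)` (any level `N` for `u`).
* `h72w_kill` : `e(T^fml) ω(u) = 0` for every Hecke polynomial `e` killing `S₂(Γ₀(M))`
  [= hypothesis `hkill` of `h3g_zero_level`].
* `h72w_theta_zero` : `θ s = 0` for `u` a Kummer function of `x : JZero (M * p)` with
  `e • x = x`.

Every declaration is a proved theorem; nothing is assumed.
-/

set_option autoImplicit false
set_option linter.unusedSectionVars false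
set_option linter.unusedVariables false
set_option linter.style.haveILetI false
set_option synthInstance.maxHeartbeats 400000

open ModularCurve AlgebraicCurve IsLocalRing ModularFormClass CongruenceSubgroup

open Fermat.Agent.S30 (heckeTAll)

noncomputable section

namespace Fermat.Agent.P7

open Fermat.Agent.S37 Fermat.Agent.Red Fermat.Agent.Red.GV Fermat.Agent.Red.GV.Soft
  Fermat.Agent.Red.TRK Fermat.Agent.Red.Kron Fermat.Agent.LGC Fermat.Agent.Jac.K1

section H72wMid

variable (A : ValuationSubring Kbar) {p : ℕ} (hp : p.Prime) (hA : A.LiesOverPrime p)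
  (M : ℕ) [NeZero M]

include hp hA in
/-- **MID-1**: `Ω(V) = S̄(M)` (as series), from (GAP) and (CUSP-ORTH-RED). -/
theorem h72w_omega_eq_sbar
    (V : Submodule (ResidueField A) (LaurentSeries (ResidueField A)))
    (g : ℕ) (hg : Fermat.Agent.P5.H13rIsGenus Kbar (FF M) g)
    (hfin : Module.Finite (ResidueField A) (h26gOmega V))
    (hgap : Module.finrank (ResidueField A) (h26gOmega V) ≤ g)
    (hcusp : ∀ w ∈ h10wSbarGen M (ResidueField A), h72wSer w ∈ h26gOmega V) :
    (h10wSbar M (ResidueField A)).map h72wSerLin = h26gOmega V := by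
  haveI : Fact p.Prime := ⟨hp⟩
  haveI : CharP (ResidueField A) p := h3g_charP A hp hA
  have h1 : g ≤ Module.finrank ℂ (CuspForm (Gamma0 M) 2) := h37m_genus_le M g hg
  have h2 := h10w_sbar_finrank M p (ResidueField A)
  exact h72w_mid V (h10wSbar M (ResidueField A)) hfin (hgap.trans (h1.trans h2))
    (h72w_ser_mem_of_gen V _ hcusp)

include hp hA in
/-- **MID-2**: `ω(u) ∈ S̄(M)`, from (GAP), (CUSP-ORTH-RED) and (ORTH). -/
theorem h72w_om_mem_sbar
    (V : Submodule (ResidueField A) (LaurentSeries (ResidueField A)))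
    (g : ℕ) (hg : Fermat.Agent.P5.H13rIsGenus Kbar (FF M) g)
    (hfin : Module.Finite (ResidueField A) (h26gOmega V))
    (hgap : Module.finrank (ResidueField A) (h26gOmega V) ≤ g)
    (hcusp : ∀ w ∈ h10wSbarGen M (ResidueField A), h72wSer w ∈ h26gOmega V)
    (N : ℕ) [NeZero N] (u : FF N) {s : LaurentSeries (ResidueField A)}
    (hs : H3gRed A N u s) (horth : h96dLog s ∈ h26gOmega V) :
    h3gOm A N u ∈ h10wSbar M (ResidueField A) := by
  haveI : Fact p.Prime := ⟨hp⟩
  haveI : CharP (ResidueField A) p := h3g_charP A hp hA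
  have h1 : g ≤ Module.finrank ℂ (CuspForm (Gamma0 M) 2) := h37m_genus_le M g hg
  have h2 := h10w_sbar_finrank M p (ResidueField A)
  refine h72w_mid_mem V (h10wSbar M (ResidueField A)) hfin (hgap.trans (h1.trans h2))
    (h72w_ser_mem_of_gen V _ hcusp) horth (fun n => ?_)
  rw [h3g_om_eq hs]

include hp hA in
/-- **MID-3** `= hkill` of `h3g_zero_level`: a Hecke polynomial killing `S₂(Γ₀(M))` kills
`ω(u)`. -/
theorem h72w_kill
    (V : Submodule (ResidueField A) (LaurentSeries (ResidueField A)))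
    (g : ℕ) (hg : Fermat.Agent.P5.H13rIsGenus Kbar (FF M) g)
    (hfin : Module.Finite (ResidueField A) (h26gOmega V))
    (hgap : Module.finrank (ResidueField A) (h26gOmega V) ≤ g)
    (hcusp : ∀ w ∈ h10wSbarGen M (ResidueField A), h72wSer w ∈ h26gOmega V)
    (N : ℕ) [NeZero N] (u : FF N) {s : LaurentSeries (ResidueField A)}
    (hs : H3gRed A N u s) (horth : h96dLog s ∈ h26gOmega V)
    (e : MvPolynomial Nat.Primes ℤ) (hvars : ∀ ℓ ∈ e.vars, ¬ (ℓ : ℕ) ∣ M)
    (hkill : ((MvPolynomial.aeval (R := ℤ) (heckeTAll M) e :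
      CuspForm.heckeAlgebra M 2 (∅ : Set ℕ)) :
        Module.End ℂ (CuspForm (Gamma0 M) 2)) = 0) :
    h3fEval (ResidueField A) e (h3gOm A N u) = 0 :=
  h10w_sbar_kill M (ResidueField A) e hvars hkill
    (h72w_om_mem_sbar A hp hA M V g hg hfin hgap hcusp N u hs horth)

include hp hA in
/-- **MID, conclusion**: `θ s = 0` for every scaled reduction `s` of a Kummer function `u` of
`x : JZero (M * p)` with `e • x = x`, `e` a Hecke polynomial in the `T_ℓ`, `ℓ ∤ M p`, killing
`S₂(Γ₀(M))`; from (GAP), (CUSP-ORTH-RED), (ORTH). -/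
theorem h72w_theta_zero [NeZero (M * p)]
    (V : Submodule (ResidueField A) (LaurentSeries (ResidueField A)))
    (g : ℕ) (hg : Fermat.Agent.P5.H13rIsGenus Kbar (FF M) g)
    (hfin : Module.Finite (ResidueField A) (h26gOmega V))
    (hgap : Module.finrank (ResidueField A) (h26gOmega V) ≤ g)
    (hcusp : ∀ w ∈ h10wSbarGen M (ResidueField A), h72wSer w ∈ h26gOmega V)
    (e : MvPolynomial Nat.Primes ℤ) (he : ∀ ℓ ∈ e.vars, ¬ (ℓ : ℕ) ∣ M * p)
    (hkill : ((MvPolynomial.aeval (R := ℤ) (heckeTAll M) e :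
      CuspForm.heckeAlgebra M 2 (∅ : Set ℕ)) :
        Module.End ℂ (CuspForm (Gamma0 M) 2)) = 0)
    (x : JZero (M * p)) (u : FF (M * p)) (hx : IsKummerPair p x u)
    (hex : (letI := heckeModuleBar (M * p); e • x = x))
    {s : LaurentSeries (ResidueField A)} (hs : H3gRed A (M * p) u s)
    (horth : h96dLog s ∈ h26gOmega V) :
    h96dTheta s = 0 := by
  have hvars : ∀ ℓ ∈ e.vars, ¬ (ℓ : ℕ) ∣ M := fun ℓ hℓ h => he ℓ hℓ (Dvd.dvd.mul_right h p)
  have he' : ∀ ℓ ∈ e.vars, ¬ (ℓ : ℕ) ∣ M * p * p := by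
    intro ℓ hℓ h
    rcases (Nat.Prime.dvd_mul ℓ.2).1 h with h1 | h1
    · exact he ℓ hℓ h1
    · exact he ℓ hℓ (Dvd.dvd.mul_left h1 M)
  exact h3g_zero_level A hp hA (M * p) e he' x u hx hex
    (h72w_kill A hp hA M V g hg hfin hgap hcusp (M * p) u hs horth e hvars hkill) hs

/-- (ORTH) in unfolded form: `dlog s ∈ Ω(V)` as soon as the constant term of `dlog s` vanishes
and `a₀(f · dlog s) = 0` for `f ∈ V` (the terms of negative degree of `dlog s` vanish
automatically). -/
theorem h72w_orth_of {K : Type*} [Field K] (V : Submodule K (LaurentSeries K))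
    {s : LaurentSeries K} (hs : s ≠ 0) (h0 : (h96dLog s).coeff 0 = 0)
    (h : ∀ f ∈ V, (f * h96dLog s).coeff 0 = 0) : h96dLog s ∈ h26gOmega V := by
  refine ⟨fun m hm => ?_, h⟩
  rcases lt_or_eq_of_le hm with hm | rfl
  · exact h3g_log_coeff_neg hs hm
  · exact h0

end H72wMid

end Fermat.Agent.P7
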