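import Fermat.Agent.P7.H3DlogI2
import Fermat.Agent.P7.H72DlogMidLevel
import Fermat.Agent.P7.H37GapMCusp
import Fermat.Agent.P7.H26DlogGapLevel

/-!
# Wave 7 (row 38), block (A), DLOG route: the FINAL wiring of (I-2) from the three leaves at the
level `M` (helper3, prefix `h3g_` / `H3g`)

`p ≥ 5` prime, `M` ANY level prime to `p`, `A` a valuation subring of `ℚ̄` over `p`,
`k = ResidueField A`, `Q` the place `∞` of `FF M` (`ord_Q = q`-order), and
`V = h37nLL M A Q` (helper37): the `k`-span of the reductions `gaussR f` of the Gauss-integral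
functions `f` of level `M` which are regular off `Q`.

The three leaves, in their WEAKEST (most primitive) form, all for this `V`:

* `H3gConstM p` — **CONST(M)** `= H37nConst M A Q` (helper37's frozen Prop) for all data;
* `H3gCuspRed p` — **CUSP-ORTH-RED**: `a₀(gaussR f · h̄) = 0` for the generators `h̄` of `S̄(M)`;
* `H3gOrthM p` — **ORTH(M)**: for a Kummer function `u` of level `M p` with `degen u` pure at
  the good level there is a scaled reduction `s` of `u` with `a₀(gaussR f · dlog s) = 0`.

Results: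

* `h3g_log_coeff_zero` : the constant term of `dlog s` is `ord_q s`;
* `h3g_order_dvd` : purity at the good level gives `p ∣ ord_q s`;
* `h3g_in_of_leaves : H3gConstM p → H3gCuspRed p → H3gOrthM p → H3gDlogIn p`;
* `h3g_dlog_of_leaves : … → H16tDlog p`;
* `h3g_s44_of_leaves` : the frozen statement S44 from (I-1) `H16tSlopeZero` and the three leaves.

Every declaration is a proved theorem or a `Prop`-valued definition; nothing is assumed.
-/

set_option autoImplicit false
set_option linter.unusedSectionVars false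
set_option linter.unusedVariables false
set_option linter.style.haveILetI false
set_option synthInstance.maxHeartbeats 400000

open ModularCurve AlgebraicCurve IsLocalRing

noncomputable section

namespace Fermat.Agent.P7

open Fermat.Agent.S37 Fermat.Agent.S35 Fermat.Agent.P6
open Fermat.Agent.Red Fermat.Agent.Red.GV Fermat.Agent.Red.GV.Soft
open Fermat.Agent.Jac.K1 (IsKummerPair)
open Fermat.Agent.P5 (h69vPull h13sK h13sFt h13sIncl h13sRed)

/-- the constant term of `dlog s` is the order of `s`. -/
theorem h3g_log_coeff_zero {K : Type*} [Field K] {s : LaurentSeries K} (hs : s ≠ 0) :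
    (h96dLog s).coeff 0 = ((s.order : ℤ) : K) := by
  set L := h96dLog s with hL
  set L0 := L.coeff 0 with hL0
  have hθ : h96dTheta s = s * L := by
    rw [hL, h96dLog]
    field_simp
  set L' := L - HahnSeries.C L0 with hL'
  have hdec : s * L = s * HahnSeries.C L0 + s * L' := by
    rw [hL']
    ring
  have hL'coeff : ∀ n : ℤ, n ≤ 0 → L'.coeff n = 0 := by
    intro n hn
    rw [hL', HahnSeries.coeff_sub]
    rcases lt_or_eq_of_le hn with h | rfl
    · rw [h3g_log_coeff_neg hs h, HahnSeries.C_apply,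
        HahnSeries.coeff_single_of_ne (ne_of_lt h), sub_zero]
    · rw [HahnSeries.C_apply, HahnSeries.coeff_single_same, hL0, sub_self]
  have h2 : (s * L').coeff s.order = 0 := by
    rcases eq_or_ne L' 0 with h0 | h0
    · rw [h0, mul_zero]
      rfl
    · apply HahnSeries.coeff_eq_zero_of_lt_order
      rw [HahnSeries.order_mul hs h0]
      have h3 : 0 < L'.order := by
        by_contra hle
        rw [not_lt] at hle
        exact (HahnSeries.coeff_order_eq_zero.not.mpr h0) (hL'coeff _ hle)
      omega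
  have h4 : (h96dTheta s).coeff s.order = ((s.order : ℤ) : K) * s.coeff s.order := rfl
  have h5 : (s * L).coeff s.order = s.coeff s.order * L0 := by
    rw [hdec, HahnSeries.coeff_add, h2, add_zero, HahnSeries.C_apply,
      HahnSeries.coeff_mul_single_zero]
  have h6 : s.coeff s.order ≠ 0 := HahnSeries.coeff_order_eq_zero.not.mpr hs
  rw [hθ, h5] at h4
  have h7 : s.coeff s.order * L0 = s.coeff s.order * ((s.order : ℤ) : K) := by
    rw [h4]
    ring
  exact mul_left_cancel₀ h6 h7

section H3gFinal

variable (A : ValuationSubring Kbar) {p : ℕ} (hp : p.Prime) (hA : A.LiesOverPrime p)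

include hp hA in
/-- **purity at the good level gives `p ∣ ord_q s`** for every scaled reduction `s` of `u`. -/
theorem h3g_order_dvd (M : ℕ) [NeZero M] [NeZero p] (hM : ¬ p ∣ M) (u : FF (M * p))
    (hpure : ∀ Q : Place (h13sK A) (h13sFt A (goodLevel p M)),
      (p : ℤ) ∣ h44slOrd A (goodLevel p M) p
        (degen (Nat.mul_dvd_mul_right (dvd_goodLevel p M) p) u) Q)
    {s : LaurentSeries (ResidueField A)} (hs : H3gRed A (M * p) u s) :
    (p : ℤ) ∣ s.order := by
  have hdq : M * p ∣ goodLevel p M * p := Nat.mul_dvd_mul_right (dvd_goodLevel p M) p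
  have hs' : H3gRed A (goodLevel p M * p) (degen hdq u) s := h3g_red_degen A hdq hs
  have hs0 : s ≠ 0 := h3g_red_ne_zero hs
  have hu0 : degen hdq u ≠ 0 := hs'.1
  obtain ⟨f, hf⟩ := h44sl_exists_red (A := A) (M := goodLevel p M) hp
    (not_dvd_goodLevel hp hM) hA hu0
  have hf' : H3gRed A (goodLevel p M * p) (degen hdq u) (h13sIncl A (goodLevel p M) f) := hf
  obtain ⟨a, ha, hsa⟩ := h3g_red_unique hs' hf'
  obtain ⟨Q, hQ⟩ := h26g_place_inf (A := A) (M := goodLevel p M)
  have hf0 : f ≠ 0 := h44sl_red_ne_zero hf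
  have h1 := hpure Q
  rw [h44sl_ord_eq hf Q, hQ f hf0] at h1
  have hCa : (HahnSeries.C a : LaurentSeries (ResidueField A)) ≠ 0 := by
    intro h
    apply ha
    have := congrArg (fun t : LaurentSeries (ResidueField A) => t.coeff 0) h
    simpa using this
  have h2 : (HahnSeries.C a * s).order = s.order := by
    rw [HahnSeries.order_mul hCa hs0, HahnSeries.order_C, zero_add]
  have h3 : (h13sIncl A (goodLevel p M) f).order = s.order := by
    rw [← h2]
    exact congrArg HahnSeries.order hsa
  rw [← h3]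
  exact h1

end H3gFinal

/-- **CONST(M)** for all data (`= H37nConst`, helper37's frozen Prop). -/
def H3gConstM (p : ℕ) : Prop :=
  ∀ (hp : p.Prime), 5 ≤ p → ∀ (M : ℕ) [NeZero M], ¬ p ∣ M →
    ∀ A : ValuationSubring Kbar, A.LiesOverPrime p →
    ∀ Q : Place Kbar (FF M),
      (∀ f : FF M, f ≠ 0 → ((f : FF M) : LaurentSeries Kbar).order = Q.ord f) →
      H37nConst M A Q

/-- **CUSP-ORTH-RED**, primitive form: the reduction of a Gauss-integral function regular off
`∞` is orthogonal to the reductions of the integral cusp forms of weight 2 and level `M`. -/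
def H3gCuspRed (p : ℕ) : Prop :=
  ∀ (hp : p.Prime), 5 ≤ p → ∀ (M : ℕ) [NeZero M], ¬ p ∣ M →
    ∀ A : ValuationSubring Kbar, A.LiesOverPrime p →
    ∀ Q : Place Kbar (FF M),
      (∀ f : FF M, f ≠ 0 → ((f : FF M) : LaurentSeries Kbar).order = Q.ord f) →
    ∀ (f : FF M) (hf : f ∈ gaussV A M), (∀ v : Place Kbar (FF M), v ≠ Q → 0 ≤ v.ord f) →
    ∀ w ∈ h10wSbarGen M (ResidueField A),
      (gaussR A M ⟨f, hf⟩ * h72wSer w).coeff 0 = 0

/-- **ORTH(M)**, primitive form: some scaled reduction `s` of a Kummer function `u` of level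
`M p`, with `degen u` pure at the good level, has `dlog s` orthogonal to the reductions of the
Gauss-integral functions of level `M` regular off `∞`. -/
def H3gOrthM (p : ℕ) : Prop :=
  ∀ (hp : p.Prime), 5 ≤ p → ∀ (M : ℕ) [NeZero M], ¬ p ∣ M →
    haveI : NeZero p := ⟨hp.ne_zero⟩
    ∀ A : ValuationSubring Kbar, A.LiesOverPrime p →
    ∀ Q : Place Kbar (FF M),
      (∀ f : FF M, f ≠ 0 → ((f : FF M) : LaurentSeries Kbar).order = Q.ord f) →
    ∀ (x : JZero (M * p)) (u : FF (M * p)), IsKummerPair p x u →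
      (∀ Q' : Place (h13sK A) (h13sFt A (goodLevel p M)),
        (p : ℤ) ∣ h44slOrd A (goodLevel p M) p
          (degen (Nat.mul_dvd_mul_right (dvd_goodLevel p M) p) u) Q') →
    ∃ s : LaurentSeries (ResidueField A), H3gRed A (M * p) u s ∧
      ∀ (f : FF M) (hf : f ∈ gaussV A M), (∀ v : Place Kbar (FF M), v ≠ Q → 0 ≤ v.ord f) →
        (gaussR A M ⟨f, hf⟩ * h96dLog s).coeff 0 = 0

/-- **the single DLOG input from the three leaves at the level `M`.** -/
theorem h3g_in_of_leaves {p : ℕ} (hC : H3gConstM p) (hK : H3gCuspRed p) (hO : H3gOrthM p) :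
    H3gDlogIn p := by
  intro hp h5 M _ hpM
  haveI : NeZero p := ⟨hp.ne_zero⟩
  intro A hA x u hxu hpure
  obtain ⟨Q, hQ⟩ := h37n_place_infty M
  obtain ⟨g, hg⟩ := Fermat.Agent.P5.h26s_genus_generic M
  obtain ⟨hfin, hgap⟩ := h37n_gap M A Q hp hpM hA hQ (hC hp h5 M hpM A hA Q hQ) g hg
  -- (CUSP)
  have hcusp : ∀ w ∈ h10wSbarGen M (ResidueField A),
      h72wSer w ∈ h26gOmega (h37nLL M A Q) := by
    intro w hw
    rw [h72w_ser_mem_omega]
    refine ⟨?_, ?_⟩
    · obtain ⟨h, c, hc, rfl⟩ := hw
      have h0 : c 0 = 0 := by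
        have h1 := hc 0
        rw [Fermat.Agent.S49.qCoeff_zero_index] at h1
        exact_mod_cast h1.symm
      show ((c 0 : ℤ) : ResidueField A) = 0
      rw [h0, Int.cast_zero]
    · intro f hf
      unfold h37nLL at hf
      induction hf using Submodule.span_induction with
      | mem y hy =>
        obtain ⟨f, hf, hreg, rfl⟩ := hy
        exact hK hp h5 M hpM A hA Q hQ f hf hreg w hw
      | zero =>
        rw [zero_mul]
        rfl
      | add a b _ _ ha hb => rw [add_mul, HahnSeries.coeff_add, ha, hb, add_zero]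
      | smul c a _ ha =>
        rw [← HahnSeries.C_mul_eq_smul, mul_assoc, HahnSeries.C_mul_eq_smul,
          HahnSeries.coeff_smul, ha, smul_zero]
  -- (ORTH)
  obtain ⟨s, hs, hOs⟩ := hO hp h5 M hpM A hA Q hQ x u hxu hpure
  have hs0 : s ≠ 0 := h3g_red_ne_zero hs
  haveI : CharP (ResidueField A) p := h3g_charP A hp hA
  have horth : h96dLog s ∈ h26gOmega (h37nLL M A Q) := by
    apply h72w_orth_of (h37nLL M A Q) hs0
    · rw [h3g_log_coeff_zero hs0]
      obtain ⟨d, hd⟩ := h3g_order_dvd A hp hA M hpM u hpure hs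
      rw [hd]
      push_cast
      rw [CharP.cast_eq_zero (ResidueField A) p, zero_mul]
    · intro f hf
      unfold h37nLL at hf
      induction hf using Submodule.span_induction with
      | mem y hy =>
        obtain ⟨f, hf, hreg, rfl⟩ := hy
        exact hOs f hf hreg
      | zero =>
        rw [zero_mul]
        rfl
      | add a b _ _ ha hb => rw [add_mul, HahnSeries.coeff_add, ha, hb, add_zero]
      | smul c a _ ha =>
        rw [← HahnSeries.C_mul_eq_smul, mul_assoc, HahnSeries.C_mul_eq_smul,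
          HahnSeries.coeff_smul, ha, smul_zero]
  exact h72w_om_mem_sbar A hp hA M (h37nLL M A Q) g hg hfin hgap hcusp (M * p) u hs horth

/-- (I-2) in helper16's shape from the three leaves. -/
theorem h3g_dlog_of_leaves {p : ℕ} (hC : H3gConstM p) (hK : H3gCuspRed p) (hO : H3gOrthM p) :
    H16tDlog p :=
  h3g_dlog_of_in (h3g_in_of_leaves hC hK hO)

/-- **the frozen statement S44** from (I-1) SLOPE-ZERO and the three DLOG leaves. -/
theorem h3g_s44_of_leaves (hS : ∀ p : ℕ, 5 ≤ p → H16tSlopeZero p)
    (hC : ∀ p : ℕ, 5 ≤ p → H3gConstM p) (hK : ∀ p : ℕ, 5 ≤ p → H3gCuspRed p)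
    (hO : ∀ p : ℕ, 5 ≤ p → H3gOrthM p)
    (P : FreyPackage) {N : ℕ} (hcond : P.IsConductorLevel N) (hpN : P.p ∣ N)
    (hirr : WeierstrassCurve.Affine.Point.GaloisRepIsIrreducible (K := AlgebraicClosure ℚ) ℚ
      P.freyCurve P.p)
    (hmod : P.ModularRepOfLevel N) :
    ∃ M : ℕ, M ∣ N ∧ ¬ P.p ∣ M ∧ P.ModularRepOfLevel M :=
  h3g_s44_of_in hS (fun p h5 => h3g_in_of_leaves (hC p h5) (hK p h5) (hO p h5))
    P hcond hpN hirr hmod

end Fermat.Agent.P7
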