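import Fermat.Agent.P7.H19OrthNorm
import Fermat.Agent.P7.H3DlogFinal

/-!
# Wave 7, DLOG at the level `M`: ORTH(M) (helper3's frozen leaf `H3gOrthM`) from its NORMALISED
form (helper19, prefix `h19o_` / `H19o`)

* `H19oOrthNormM p` : **ORTH(M), normalised form** (= the statement after step (0) of finding
  1473): `y` a Gauss unit of level `M` (`y, y⁻¹ ∈ softV A M`) whose reduction has `q`-order `0`
  and whose reduction at the good level (`h13sRed (degen y)`) has all its orders divisible by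
  `p`; then `a₀(gaussR f · dlog (softR y)) = 0` for every Gauss-integral `f` of level `M` regular
  off `∞`.
* `h19o_orthM_of_norm : H19oOrthNormM p → H3gOrthM p`.

Every declaration is a proved theorem or a `Prop`-valued definition; nothing is assumed.
-/

set_option autoImplicit false
set_option linter.unusedSectionVars false
set_option linter.unusedVariables false
set_option linter.style.haveILetI false
set_option synthInstance.maxHeartbeats 400000

open ModularCurve AlgebraicCurve IsLocalRing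

noncomputable section

namespace Fermat.Agent.P7

open Fermat.Agent.S37 Fermat.Agent.Red Fermat.Agent.Red.GV Fermat.Agent.Red.GV.Soft
  Fermat.Agent.LGC Fermat.Agent.Jac.K1 Fermat.Agent.P5

/-- **ORTH(M), normalised form.** -/
def H19oOrthNormM (p : ℕ) : Prop :=
  ∀ (hp : p.Prime), 5 ≤ p → ∀ (M : ℕ) [NeZero M], ¬ p ∣ M →
    ∀ A : ValuationSubring Kbar, A.LiesOverPrime p →
    ∀ Q : Place Kbar (FF M),
      (∀ f : FF M, f ≠ 0 → ((f : FF M) : LaurentSeries Kbar).order = Q.ord f) →
    ∀ (y : FF M) (hy : y ∈ softV A M)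
      (hg : degen (dvd_goodLevel p M) y ∈ gaussV A (goodLevel p M)),
      y ≠ 0 → y⁻¹ ∈ softV A M →
      (degen (dvd_goodLevel p M) y)⁻¹ ∈ gaussV A (goodLevel p M) →
      (softR A M ⟨y, hy⟩).order = 0 →
      (∀ Q' : Place (h13sK A) (h13sFt A (goodLevel p M)),
        (p : ℤ) ∣ Q'.ord (h13sRed A (goodLevel p M) ⟨degen (dvd_goodLevel p M) y, hg⟩)) →
      ∀ (f : FF M) (hf : f ∈ gaussV A M), (∀ v : Place Kbar (FF M), v ≠ Q → 0 ≤ v.ord f) →
        (gaussR A M ⟨f, hf⟩ * h96dLog (softR A M ⟨y, hy⟩)).coeff 0 = 0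

/-- **ORTH(M) from its normalised form** (step (0): `y = y₁ · j ^ (ord_q s)`). -/
theorem h19o_orthM_of_norm {p : ℕ} (h : H19oOrthNormM p) : H3gOrthM p := by
  intro hp h5 M _ hM
  haveI : NeZero p := ⟨hp.ne_zero⟩
  intro A hA Q hQ x u hxu hpure
  obtain ⟨s, hs⟩ := h3g_exists_red (A := A) (N := M * p) hp hA hxu.ne_zero
  refine ⟨s, hs, fun f hf hreg => ?_⟩
  obtain ⟨y, hy, hg, hy0, hyi, hgi, ho, hl, -, hQ'⟩ := h19o_norm_red A hp hA M hM hs hpure
  rw [← hl]
  exact h hp h5 M hM A hA Q hQ y hy hg hy0 hyi hgi ho hQ' f hf hreg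

end Fermat.Agent.P7
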