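import Fermat.Agent.P7.H60AbelClass
import Fermat.Agent.P7.H26ResDeg

/-!
# Wave 7 (S40), block (A) T-ABEL, leaf T-ABEL-CLASS-N (helper60)

`p` a prime, `M` a good level (`p ∤ M`, `auxLevel p ∣ M`), `N = M p`, `A` a valuation subring of
`ℚ̄` over `p`, `W_∞ = softV A (M p)` the Gauss valuation ring of level `N` at `∞`,
`F~ = h13sFt A M` the function field of the special fibre of level `M` (= the residue field of
`W_∞`: RES-DEG, helper26).

* `h60bRedInf … : softV A (M p) →+* h13sFt A M` : the reduction at `W_∞`, with values in `F~`;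
  `h60b_incl_redInf : h13sIncl (redInf x) = softR x`.
* `H60bPres A M p n x D u` : `(D, u)` is a PRESENTATION of the class `x ∈ J₀(M p)`:
  `x = [D]`, `div u = n D`, `u` a unit of `W_∞`.
* `h60bX0 … n : AddSubgroup (JZero (M p))` : the classes with a presentation `(D, u)` such that
  `n ∣ ord_Q ū` at EVERY place `Q` of `F~` (all slopes `0` + purity).
* `h60bC … n : h60bX0 … n →+ JZero M ⧸ redKerPic M A` : **the class map** `c`;
  `h60b_C_spec` : `c x = h60aCls n ū` for EVERY presentation `(D, u)` of `x` (well defined).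
* `h60b_start` : `c x = 0` ⟹ START: `∃ c ∈ 𝔪_A, h94iDeep A M p n u c` for every presentation.
-/

set_option autoImplicit false
set_option linter.unusedSectionVars false
set_option linter.unusedVariables false
set_option linter.style.longLine false
set_option linter.style.haveILetI false
set_option synthInstance.maxHeartbeats 400000

open AlgebraicCurve ModularCurve

noncomputable section

namespace Fermat.Agent.P7

open Fermat.Agent.S37 Fermat.Agent.Red.GV Fermat.Agent.Red.GV.Soft Fermat.Agent.P5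
  Fermat.Agent.P6

variable {M : ℕ} [NeZero M] {A : ValuationSubring Kbar} {p : ℕ} [NeZero p]

/-! ### The reduction at `W_∞` with values in the special fibre field of level `M` -/

/-- the reductions at `W_∞` lie in the special fibre field of level `M`. -/
theorem h60b_softR_mem (hp : p.Prime) (hM : ¬ p ∣ M) (hA : A.LiesOverPrime p)
    (x : softV A (M * p)) : softR A (M * p) x ∈ h13sF A M := by
  obtain ⟨y, hy, e⟩ := h26w_resdeg A M p hp hM hA (x : FF (M * p)) x.2
  have hy' : y ∈ gaussV A M := softV_le_gaussV A M hp hM hA hy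
  have e2 : softR A (M * p) x = gaussR A M ⟨y, hy'⟩ := by
    rw [← softR_eq_gaussR A M y hy hy', e]
  rw [e2]
  exact IntermediateField.subset_adjoin _ _ ⟨⟨y, hy'⟩, rfl⟩

/-- **the reduction at `W_∞`**, with values in the function field of the special fibre of
level `M`. -/
def h60bRedInf (hp : p.Prime) (hM : ¬ p ∣ M) (hA : A.LiesOverPrime p) :
    softV A (M * p) →+* h13sFt A M :=
  RingHom.codRestrict (softR A (M * p)) (h13sF A M) (h60b_softR_mem hp hM hA)

theorem h60b_incl_redInf (hp : p.Prime) (hM : ¬ p ∣ M) (hA : A.LiesOverPrime p)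
    (x : softV A (M * p)) :
    h13sIncl A M (h60bRedInf hp hM hA x) = softR A (M * p) x := rfl

theorem h60b_redInf_eq_zero_iff (hp : p.Prime) (hM : ¬ p ∣ M) (hA : A.LiesOverPrime p)
    (x : softV A (M * p)) : h60bRedInf hp hM hA x = 0 ↔ softR A (M * p) x = 0 := by
  constructor
  · intro h
    have h1 := congrArg (h13sIncl A M) h
    rwa [h60b_incl_redInf, map_zero] at h1
  · intro h
    apply h60q_incl_injective A M
    rw [h60b_incl_redInf, h, map_zero]
    rfl

/-- the reduction of a unit of `W_∞` is not `0`. -/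
theorem h60b_redInf_ne_zero (hp : p.Prime) (hM : ¬ p ∣ M) (hA : A.LiesOverPrime p)
    {u : FF (M * p)} (hu : u ∈ softV A (M * p)) (hui : u⁻¹ ∈ softV A (M * p)) (hu0 : u ≠ 0) :
    h60bRedInf hp hM hA ⟨u, hu⟩ ≠ 0 := by
  rw [Ne, h60b_redInf_eq_zero_iff]
  exact (softR_ne_zero_iff A (M * p) ⟨u, hu⟩).mpr ⟨hu0, hui⟩

/-- the reduction at `W_∞` of `α y` is the reduction of `y`. -/
theorem h60b_redInf_eq_of_level (hp : p.Prime) (hM : ¬ p ∣ M) (hA : A.LiesOverPrime p)
    {u : FF (M * p)} (hu : u ∈ softV A (M * p)) {y : FF M} (hy : y ∈ gaussV A M)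
    (e : softR A M ⟨y, gaussV_le_softV A M hy⟩ = softR A (M * p) ⟨u, hu⟩) :
    h60bRedInf hp hM hA ⟨u, hu⟩ = h13sRed A M ⟨y, hy⟩ := by
  apply h60q_incl_injective A M
  rw [h60b_incl_redInf, h13sIncl_red, ← e]
  exact softR_eq_gaussR A M y _ hy

/-- the reduction of a constant. -/
theorem h60b_redInf_cst (hp : p.Prime) (hM : ¬ p ∣ M) (hA : A.LiesOverPrime p) (a : A)
    (h : cst (M * p) (a : Kbar) ∈ softV A (M * p)) :
    h60bRedInf hp hM hA ⟨cst (M * p) (a : Kbar), h⟩ =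
      algebraMap (h13sK A) (h13sFt A M) (h13sPi A a) := by
  apply h60q_incl_injective A M
  rw [h60b_incl_redInf, softR_cst, AlgHom.commutes, h40f_algebraMap_eq]
  rfl

/-! ### The reduction of a function (junk value `0` outside `W_∞`) -/

open scoped Classical in
/-- the reduction at `W_∞` of a function of level `M p` (`0` if it is not integral). -/
def h60bRedU (hp : p.Prime) (hM : ¬ p ∣ M) (hA : A.LiesOverPrime p) (u : FF (M * p)) :
    h13sFt A M :=
  if h : u ∈ softV A (M * p) then h60bRedInf hp hM hA ⟨u, h⟩ else 0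

theorem h60b_redU_of_mem (hp : p.Prime) (hM : ¬ p ∣ M) (hA : A.LiesOverPrime p)
    {u : FF (M * p)} (h : u ∈ softV A (M * p)) :
    h60bRedU hp hM hA u = h60bRedInf hp hM hA ⟨u, h⟩ := dif_pos h

theorem h60b_incl_redU (hp : p.Prime) (hM : ¬ p ∣ M) (hA : A.LiesOverPrime p)
    {u : FF (M * p)} (h : u ∈ softV A (M * p)) :
    h13sIncl A M (h60bRedU hp hM hA u) = softR A (M * p) ⟨u, h⟩ := by
  rw [h60b_redU_of_mem hp hM hA h, h60b_incl_redInf]

theorem h60b_redU_one (hp : p.Prime) (hM : ¬ p ∣ M) (hA : A.LiesOverPrime p) :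
    h60bRedU hp hM hA (1 : FF (M * p)) = 1 := by
  rw [h60b_redU_of_mem hp hM hA (one_mem _)]
  exact map_one (h60bRedInf hp hM hA)

theorem h60b_redU_mul (hp : p.Prime) (hM : ¬ p ∣ M) (hA : A.LiesOverPrime p)
    {u u' : FF (M * p)} (h : u ∈ softV A (M * p)) (h' : u' ∈ softV A (M * p)) :
    h60bRedU hp hM hA (u * u') = h60bRedU hp hM hA u * h60bRedU hp hM hA u' := by
  rw [h60b_redU_of_mem hp hM hA h, h60b_redU_of_mem hp hM hA h',
    h60b_redU_of_mem hp hM hA (mul_mem h h'), ← map_mul]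
  rfl

theorem h60b_redU_pow (hp : p.Prime) (hM : ¬ p ∣ M) (hA : A.LiesOverPrime p)
    {u : FF (M * p)} (h : u ∈ softV A (M * p)) (n : ℕ) :
    h60bRedU hp hM hA (u ^ n) = h60bRedU hp hM hA u ^ n := by
  rw [h60b_redU_of_mem hp hM hA h, h60b_redU_of_mem hp hM hA (pow_mem h n), ← map_pow]
  rfl

theorem h60b_redU_ne_zero (hp : p.Prime) (hM : ¬ p ∣ M) (hA : A.LiesOverPrime p)
    {u : FF (M * p)} (hu : u ∈ softV A (M * p)) (hui : u⁻¹ ∈ softV A (M * p)) (hu0 : u ≠ 0) :
    h60bRedU hp hM hA u ≠ 0 := by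
  rw [h60b_redU_of_mem hp hM hA hu]
  exact h60b_redInf_ne_zero hp hM hA hu hui hu0

theorem h60b_redU_inv (hp : p.Prime) (hM : ¬ p ∣ M) (hA : A.LiesOverPrime p)
    {u : FF (M * p)} (hu : u ∈ softV A (M * p)) (hui : u⁻¹ ∈ softV A (M * p)) (hu0 : u ≠ 0) :
    h60bRedU hp hM hA u⁻¹ = (h60bRedU hp hM hA u)⁻¹ := by
  have h1 := h60b_redU_mul hp hM hA hui hu
  rw [inv_mul_cancel₀ hu0, h60b_redU_one] at h1
  exact eq_inv_of_mul_eq_one_left h1.symm

/-- the reduction of a unit constant. -/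
theorem h60b_redU_cst (hp : p.Prime) (hM : ¬ p ∣ M) (hA : A.LiesOverPrime p) {a : Kbar}
    (ha : a ∈ A) (hai : a⁻¹ ∈ A) (ha0 : a ≠ 0) :
    ∃ c : h13sK A, c ≠ 0 ∧
      h60bRedU hp hM hA (cst (M * p) a) = algebraMap (h13sK A) (h13sFt A M) c := by
  have h : cst (M * p) a ∈ softV A (M * p) := (cst_mem_softV_iff A (M * p) a).mpr ha
  have hi : (cst (M * p) a)⁻¹ ∈ softV A (M * p) := by
    have e : (cst (M * p) a)⁻¹ = cst (M * p) a⁻¹ :=
      (map_inv₀ (algebraMap Kbar (FF (M * p))) a).symm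
    rw [e]
    exact (cst_mem_softV_iff A (M * p) a⁻¹).mpr hai
  have h0 : cst (M * p) a ≠ 0 := by
    rwa [Ne, map_eq_zero_iff _ (algebraMap Kbar (FF (M * p))).injective]
  have e1 : h60bRedU hp hM hA (cst (M * p) a) =
      algebraMap (h13sK A) (h13sFt A M) (h13sPi A ⟨a, ha⟩) := by
    rw [h60b_redU_of_mem hp hM hA h]
    exact h60b_redInf_cst hp hM hA ⟨a, ha⟩ h
  refine ⟨h13sPi A ⟨a, ha⟩, ?_, e1⟩
  intro hc
  have h2 := h60b_redU_ne_zero hp hM hA h hi h0
  rw [e1, hc, map_zero] at h2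
  exact h2 rfl

/-! ### Presentations of a class -/

/-- `(D, u)` is a presentation of the class `x` of level `M p`: `x = [D]`, `div u = n D`,
`u` a unit of `W_∞`. -/
structure H60bPres (A : ValuationSubring Kbar) (M p : ℕ) [NeZero M] [NeZero p] (n : ℕ)
    (x : JZero (M * p)) (D : Divisor.degZero (K := Kbar) (F := FF (M * p)))
    (u : FF (M * p)) : Prop where
  cls : Pic0.mk D = x
  div : ∀ v : Place Kbar (FF (M * p)),
    v.ord u = (n : ℤ) * (D : Divisor Kbar (FF (M * p))) v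
  mem : u ∈ softV A (M * p)
  inv_mem : u⁻¹ ∈ softV A (M * p)
  ne_zero : u ≠ 0

theorem h60b_pres_zero (n : ℕ) : H60bPres A M p n 0 0 1 where
  cls := rfl
  div v := by rw [Place.ord_one, AddSubgroup.coe_zero, Finsupp.zero_apply, mul_zero]
  mem := one_mem _
  inv_mem := by rw [inv_one]; exact one_mem _
  ne_zero := one_ne_zero

theorem h60b_pres_add {n : ℕ} {x x' : JZero (M * p)}
    {D D' : Divisor.degZero (K := Kbar) (F := FF (M * p))} {u u' : FF (M * p)}
    (h : H60bPres A M p n x D u) (h' : H60bPres A M p n x' D' u') :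
    H60bPres A M p n (x + x') (D + D') (u * u') where
  cls := by rw [Pic0.mk_add, h.cls, h'.cls]
  div v := by
    rw [v.ord_mul h.ne_zero h'.ne_zero, h.div v, h'.div v, AddSubgroup.coe_add,
      Finsupp.add_apply, mul_add]
  mem := mul_mem h.mem h'.mem
  inv_mem := by rw [mul_inv]; exact mul_mem h.inv_mem h'.inv_mem
  ne_zero := mul_ne_zero h.ne_zero h'.ne_zero

theorem h60b_pres_neg {n : ℕ} {x : JZero (M * p)}
    {D : Divisor.degZero (K := Kbar) (F := FF (M * p))} {u : FF (M * p)}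
    (h : H60bPres A M p n x D u) : H60bPres A M p n (-x) (-D) u⁻¹ where
  cls := by rw [← h.cls]; rfl
  div v := by
    rw [v.ord_inv, h.div v, AddSubgroup.coe_neg, Finsupp.neg_apply, mul_neg]
  mem := h.inv_mem
  inv_mem := by rw [inv_inv]; exact h.mem
  ne_zero := inv_ne_zero h.ne_zero

/-- a presentation is killed by `n`. -/
theorem h60b_pres_nsmul {n : ℕ} {x : JZero (M * p)}
    {D : Divisor.degZero (K := Kbar) (F := FF (M * p))} {u : FF (M * p)}
    (h : H60bPres A M p n x D u) : n • x = 0 := by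
  rw [← h.cls]
  have e : n • (Pic0.mk D : JZero (M * p)) = Pic0.mk (n • D) := rfl
  rw [e, h60r_mk_eq_zero_iff_gen]
  refine ⟨u, h.ne_zero, fun v => ?_⟩
  rw [AddSubgroup.coe_nsmul, Finsupp.smul_apply, nsmul_eq_mul]
  exact (h.div v).symm

/-- every class killed by `n` has a presentation. -/
theorem h60b_exists_pres (hp : p.Prime) (hA : A.LiesOverPrime p) {n : ℕ}
    {x : JZero (M * p)} (hx : n • x = 0) :
    ∃ (D : Divisor.degZero (K := Kbar) (F := FF (M * p))) (u : FF (M * p)),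
      H60bPres A M p n x D u := by
  obtain ⟨D, rfl⟩ := Pic0.mk_surjective x
  have e : n • (Pic0.mk D : JZero (M * p)) = Pic0.mk (n • D) := rfl
  rw [e, h60r_mk_eq_zero_iff_gen] at hx
  obtain ⟨f, hf, hDf⟩ := hx
  obtain ⟨c, hc, hu, hui⟩ := exists_cst_mul_unit_soft A (M * p) hp hA f hf
  have hc' : cst (M * p) c ≠ 0 := by
    rwa [Ne, map_eq_zero_iff _ (algebraMap Kbar (FF (M * p))).injective]
  refine ⟨D, cst (M * p) c * f, rfl, fun v => ?_, hu, hui, mul_ne_zero hc' hf⟩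
  rw [v.ord_mul hc' hf, Fermat.Agent.S24.DiffPlace.ord_algebraMap, zero_add, ← hDf v,
    AddSubgroup.coe_nsmul, Finsupp.smul_apply, nsmul_eq_mul]

/-- **comparison of two presentations of the same class**: `u' = a · u · g ^ n` with `a` a
unit of `A` and `g` a unit of `W_∞`. -/
theorem h60b_pres_compare (hp : p.Prime) (hA : A.LiesOverPrime p) {n : ℕ}
    {x : JZero (M * p)} {D D' : Divisor.degZero (K := Kbar) (F := FF (M * p))}
    {u u' : FF (M * p)} (h : H60bPres A M p n x D u) (h' : H60bPres A M p n x D' u') :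
    ∃ (a : Kbar) (g : FF (M * p)), a ∈ A ∧ a⁻¹ ∈ A ∧ a ≠ 0 ∧ g ∈ softV A (M * p) ∧
      g⁻¹ ∈ softV A (M * p) ∧ g ≠ 0 ∧ u' = cst (M * p) a * u * g ^ n := by
  have h1 : (Pic0.mk (D' - D) : JZero (M * p)) = 0 := by
    have e : (Pic0.mk (D' - D) : JZero (M * p)) = Pic0.mk D' - Pic0.mk D := rfl
    rw [e, h.cls, h'.cls, sub_self]
  rw [h60r_mk_eq_zero_iff_gen] at h1
  obtain ⟨f, hf, hDf⟩ := h1
  obtain ⟨b, hb, hg, hgi⟩ := exists_cst_mul_unit_soft A (M * p) hp hA f hf
  have hb' : cst (M * p) b ≠ 0 := by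
    rwa [Ne, map_eq_zero_iff _ (algebraMap Kbar (FF (M * p))).injective]
  set g : FF (M * p) := cst (M * p) b * f with hgdef
  have hg0 : g ≠ 0 := mul_ne_zero hb' hf
  have hordg : ∀ v : Place Kbar (FF (M * p)), v.ord g =
      (D' : Divisor Kbar (FF (M * p))) v - (D : Divisor Kbar (FF (M * p))) v := by
    intro v
    rw [hgdef, v.ord_mul hb' hf, Fermat.Agent.S24.DiffPlace.ord_algebraMap, zero_add, ← hDf v,
      AddSubgroup.coe_sub, Finsupp.sub_apply]
  -- `w = u' / (u g ^ n)` is a constant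
  set w : FF (M * p) := u' * (u * g ^ n)⁻¹ with hwdef
  have hden : u * g ^ n ≠ 0 := mul_ne_zero h.ne_zero (pow_ne_zero n hg0)
  have hw0 : w ≠ 0 := mul_ne_zero h'.ne_zero (inv_ne_zero hden)
  have hordw : ∀ v : Place Kbar (FF (M * p)), 0 ≤ v.ord w := by
    intro v
    rw [hwdef, v.ord_mul h'.ne_zero (inv_ne_zero hden), v.ord_inv,
      v.ord_mul h.ne_zero (pow_ne_zero n hg0), Fermat.Agent.Jac.K1.ord_pow, h.div v, h'.div v,
      hordg v]
    apply le_of_eq
    ring
  obtain ⟨a, ha⟩ := (h40r_base_FF (N := M * p)).const w hordw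
  have ha' : cst (M * p) a = w := ha
  have ha0 : a ≠ 0 := by
    rintro rfl
    apply hw0
    rw [← ha']
    exact map_zero _
  have hwV : w ∈ softV A (M * p) := by
    rw [hwdef, mul_inv, ← inv_pow]
    exact mul_mem h'.mem (mul_mem h.inv_mem (pow_mem hgi n))
  have hwiV : w⁻¹ ∈ softV A (M * p) := by
    rw [hwdef, mul_inv, inv_inv]
    exact mul_mem h'.inv_mem (mul_mem h.mem (pow_mem hg n))
  have haA : a ∈ A := by
    rw [← cst_mem_softV_iff A (M * p) a, ha']
    exact hwV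
  have haiA : a⁻¹ ∈ A := by
    rw [← cst_mem_softV_iff A (M * p) a⁻¹]
    have e : cst (M * p) a⁻¹ = (cst (M * p) a)⁻¹ := map_inv₀ (algebraMap Kbar (FF (M * p))) a
    rw [e, ha']
    exact hwiV
  refine ⟨a, g, haA, haiA, ha0, hg, hgi, hg0, ?_⟩
  rw [ha', hwdef, mul_assoc, mul_assoc, inv_mul_cancel₀ hden, mul_one]

/-! ### The subgroup `X₀` and the class map -/

/-- the reduction of `u' = a · u · g ^ n`. -/
theorem h60b_redU_compare (hp : p.Prime) (hM : ¬ p ∣ M) (hA : A.LiesOverPrime p) {n : ℕ}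
    {a : Kbar} {g u : FF (M * p)} (ha : a ∈ A) (hai : a⁻¹ ∈ A) (ha0 : a ≠ 0)
    (hg : g ∈ softV A (M * p)) (hu : u ∈ softV A (M * p)) :
    ∃ c : h13sK A, c ≠ 0 ∧ h60bRedU hp hM hA (cst (M * p) a * u * g ^ n) =
      algebraMap (h13sK A) (h13sFt A M) c * h60bRedU hp hM hA u * h60bRedU hp hM hA g ^ n := by
  obtain ⟨c, hc, e⟩ := h60b_redU_cst (M := M) hp hM hA ha hai ha0
  have hcV : cst (M * p) a ∈ softV A (M * p) := (cst_mem_softV_iff A (M * p) a).mpr ha
  refine ⟨c, hc, ?_⟩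
  rw [h60b_redU_mul hp hM hA (mul_mem hcV hu) (pow_mem hg n), h60b_redU_mul hp hM hA hcV hu,
    h60b_redU_pow hp hM hA hg, e]

/-- two presentations of the same class: the divisibility and the class agree. -/
theorem h60b_cls_compare (hp : p.Prime) (hM : ¬ p ∣ M) (haux : auxLevel p ∣ M)
    (hA : A.LiesOverPrime p) {n : ℕ} (hn : 0 < n)
    {x : JZero (M * p)} {D D' : Divisor.degZero (K := Kbar) (F := FF (M * p))}
    {u u' : FF (M * p)} (h : H60bPres A M p n x D u) (h' : H60bPres A M p n x D' u')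
    (hd : H60aDiv A M n (h60bRedU hp hM hA u)) :
    H60aDiv A M n (h60bRedU hp hM hA u') ∧
      h60aCls hp hM haux hA n (h60bRedU hp hM hA u') =
        h60aCls hp hM haux hA n (h60bRedU hp hM hA u) := by
  obtain ⟨a, g, haA, haiA, ha0, hg, hgi, hg0, e⟩ := h60b_pres_compare hp hA h h'
  obtain ⟨c, hc, e2⟩ := h60b_redU_compare (n := n) hp hM hA haA haiA ha0 hg h.mem
  have hgb : h60bRedU hp hM hA g ≠ 0 := h60b_redU_ne_zero hp hM hA hg hgi hg0
  have d1 : H60aDiv A M n (algebraMap (h13sK A) (h13sFt A M) c) := h60a_div_const n hc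
  have d2 : H60aDiv A M n (h60bRedU hp hM hA g ^ n) := h60a_div_pow n hgb
  rw [e, e2]
  refine ⟨h60a_div_mul (h60a_div_mul d1 hd) d2, ?_⟩
  rw [h60a_cls_mul hp hM haux hA hn (h60a_div_mul d1 hd) d2,
    h60a_cls_mul hp hM haux hA hn d1 hd, h60a_cls_const hp hM haux hA hn hc,
    h60a_cls_pow hp hM haux hA hn hgb]
  abel

/-- **the subgroup `X₀`** of the classes of level `M p` with a presentation `(D, u)` such that
`n ∣ ord_Q ū` at every place `Q` of the special fibre of level `M`. -/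
def h60bX0 (hp : p.Prime) (hM : ¬ p ∣ M) (hA : A.LiesOverPrime p) (n : ℕ) :
    AddSubgroup (JZero (M * p)) where
  carrier := {x | ∃ u : FF (M * p),
    (∃ D : Divisor.degZero (K := Kbar) (F := FF (M * p)), H60bPres A M p n x D u) ∧
      H60aDiv A M n (h60bRedU hp hM hA u)}
  zero_mem' := ⟨1, ⟨0, h60b_pres_zero n⟩, by
    rw [h60b_redU_one]
    exact ⟨one_ne_zero, fun Q => by rw [Place.ord_one]; exact dvd_zero _⟩⟩
  add_mem' := by
    rintro x x' ⟨u, ⟨D, h⟩, hd⟩ ⟨u', ⟨D', h'⟩, hd'⟩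
    refine ⟨u * u', ⟨D + D', h60b_pres_add h h'⟩, ?_⟩
    rw [h60b_redU_mul hp hM hA h.mem h'.mem]
    exact h60a_div_mul hd hd'
  neg_mem' := by
    rintro x ⟨u, ⟨D, h⟩, hd⟩
    refine ⟨u⁻¹, ⟨-D, h60b_pres_neg h⟩, ?_⟩
    rw [h60b_redU_inv hp hM hA h.mem h.inv_mem h.ne_zero]
    exact h60a_div_inv hd

theorem h60b_mem_X0 (hp : p.Prime) (hM : ¬ p ∣ M) (hA : A.LiesOverPrime p) {n : ℕ}
    {x : JZero (M * p)} :
    x ∈ h60bX0 hp hM hA n ↔ ∃ u : FF (M * p),
      (∃ D : Divisor.degZero (K := Kbar) (F := FF (M * p)), H60bPres A M p n x D u) ∧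
        H60aDiv A M n (h60bRedU hp hM hA u) := Iff.rfl

/-- the classes of `X₀` are killed by `n`. -/
theorem h60b_nsmul_of_mem (hp : p.Prime) (hM : ¬ p ∣ M) (hA : A.LiesOverPrime p) {n : ℕ}
    {x : JZero (M * p)} (hx : x ∈ h60bX0 hp hM hA n) : n • x = 0 := by
  obtain ⟨u, ⟨D, h⟩, -⟩ := hx
  exact h60b_pres_nsmul h

open scoped Classical in
/-- the class map, as a function (junk value `0` outside `X₀`). -/
def h60bCfun (hp : p.Prime) (hM : ¬ p ∣ M) (haux : auxLevel p ∣ M)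
    (hA : A.LiesOverPrime p) (n : ℕ) (x : JZero (M * p)) : JZero M ⧸ redKerPic M A :=
  if h : ∃ u : FF (M * p),
      (∃ D : Divisor.degZero (K := Kbar) (F := FF (M * p)), H60bPres A M p n x D u) ∧
        H60aDiv A M n (h60bRedU hp hM hA u)
  then h60aCls hp hM haux hA n (h60bRedU hp hM hA (Classical.choose h)) else 0

/-- **WELL DEFINED**: for `x ∈ X₀` and EVERY presentation `(D, u)` of `x`: `n ∣ div ū` and
`c x = c(ū)`. -/
theorem h60b_Cfun_spec (hp : p.Prime) (hM : ¬ p ∣ M) (haux : auxLevel p ∣ M)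
    (hA : A.LiesOverPrime p) {n : ℕ} (hn : 0 < n) {x : JZero (M * p)}
    (hx : x ∈ h60bX0 hp hM hA n) {D : Divisor.degZero (K := Kbar) (F := FF (M * p))}
    {u : FF (M * p)} (h : H60bPres A M p n x D u) :
    H60aDiv A M n (h60bRedU hp hM hA u) ∧
      h60bCfun hp hM haux hA n x = h60aCls hp hM haux hA n (h60bRedU hp hM hA u) := by
  have hex : ∃ u : FF (M * p),
      (∃ D : Divisor.degZero (K := Kbar) (F := FF (M * p)), H60bPres A M p n x D u) ∧
        H60aDiv A M n (h60bRedU hp hM hA u) := hx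
  obtain ⟨⟨D₀, h₀⟩, hd₀⟩ := Classical.choose_spec hex
  obtain ⟨h1, h2⟩ := h60b_cls_compare hp hM haux hA hn h₀ h hd₀
  refine ⟨h1, ?_⟩
  unfold h60bCfun
  rw [dif_pos hex]
  exact h2.symm

/-- **the class map** `c : X₀ →+ J₀(M) ⧸ (kernel of reduction)`. -/
def h60bC (hp : p.Prime) (hM : ¬ p ∣ M) (haux : auxLevel p ∣ M)
    (hA : A.LiesOverPrime p) {n : ℕ} (hn : 0 < n) :
    h60bX0 (M := M) hp hM hA n →+ JZero M ⧸ redKerPic M A where
  toFun x := h60bCfun hp hM haux hA n (x : JZero (M * p))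
  map_zero' := by
    have h := (h60b_Cfun_spec hp hM haux hA hn (h60bX0 hp hM hA n).zero_mem
      (h60b_pres_zero (A := A) (M := M) (p := p) n)).2
    rw [h60b_redU_one, h60a_cls_one hp hM haux hA hn] at h
    exact h
  map_add' := by
    rintro ⟨x, hx⟩ ⟨x', hx'⟩
    obtain ⟨u, ⟨D, h⟩, hd⟩ := hx
    obtain ⟨u', ⟨D', h'⟩, hd'⟩ := hx'
    have hx0 : x ∈ h60bX0 hp hM hA n := ⟨u, ⟨D, h⟩, hd⟩
    have hx0' : x' ∈ h60bX0 hp hM hA n := ⟨u', ⟨D', h'⟩, hd'⟩
    have e1 := (h60b_Cfun_spec hp hM haux hA hn hx0 h).2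
    have e2 := (h60b_Cfun_spec hp hM haux hA hn hx0' h').2
    have e3 := (h60b_Cfun_spec hp hM haux hA hn ((h60bX0 hp hM hA n).add_mem hx0 hx0')
      (h60b_pres_add h h')).2
    show h60bCfun hp hM haux hA n (x + x') =
      h60bCfun hp hM haux hA n x + h60bCfun hp hM haux hA n x'
    rw [e1, e2, e3, h60b_redU_mul hp hM hA h.mem h'.mem, h60a_cls_mul hp hM haux hA hn hd hd']

/-- **WELL DEFINED**: `c x = c(ū)` for every presentation `(D, u)` of `x ∈ X₀`. -/
theorem h60b_C_spec (hp : p.Prime) (hM : ¬ p ∣ M) (haux : auxLevel p ∣ M)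
    (hA : A.LiesOverPrime p) {n : ℕ} (hn : 0 < n) {x : JZero (M * p)}
    (hx : x ∈ h60bX0 hp hM hA n) {D : Divisor.degZero (K := Kbar) (F := FF (M * p))}
    {u : FF (M * p)} (h : H60bPres A M p n x D u) :
    h60bC hp hM haux hA hn ⟨x, hx⟩ = h60aCls hp hM haux hA n (h60bRedU hp hM hA u) :=
  (h60b_Cfun_spec hp hM haux hA hn hx h).2

theorem h60b_div_of_mem (hp : p.Prime) (hM : ¬ p ∣ M) (haux : auxLevel p ∣ M)
    (hA : A.LiesOverPrime p) {n : ℕ} (hn : 0 < n) {x : JZero (M * p)}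
    (hx : x ∈ h60bX0 hp hM hA n) {D : Divisor.degZero (K := Kbar) (F := FF (M * p))}
    {u : FF (M * p)} (h : H60bPres A M p n x D u) :
    H60aDiv A M n (h60bRedU hp hM hA u) :=
  (h60b_Cfun_spec hp hM haux hA hn hx h).1

/-! ### `c x = 0` gives the START congruence -/

/-- **START**: if `c x = 0` then every Kummer function `u` of `x` is an `n`-th power modulo
`𝔪_A` at `W_∞` (the start hypothesis of `H11TwGate`). -/
theorem h60b_start (hp : p.Prime) (hM : ¬ p ∣ M) (haux : auxLevel p ∣ M)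
    (hA : A.LiesOverPrime p) {n : ℕ} (hn : 0 < n) {x : JZero (M * p)}
    (hx : x ∈ h60bX0 hp hM hA n) (hc : h60bC hp hM haux hA hn ⟨x, hx⟩ = 0)
    {D : Divisor.degZero (K := Kbar) (F := FF (M * p))} {u : FF (M * p)}
    (h : H60bPres A M p n x D u) :
    ∃ c ∈ A.nonunits, h94iDeep A M p n u c := by
  have hd := h60b_div_of_mem hp hM haux hA hn hx h
  rw [h60b_C_spec hp hM haux hA hn hx h, h60a_cls_eq_zero_iff hp hM haux hA hn hd] at hc
  obtain ⟨g, hg⟩ := hc
  obtain ⟨y, hy⟩ := h40f_red_surjective A M hp hM hA g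
  have hyS : (y : FF M) ∈ softV A M := gaussV_le_softV A M y.2
  have h1 : cst (M * p) (1 : Kbar) * u = u := by
    rw [show cst (M * p) (1 : Kbar) = 1 from map_one _, one_mul]
  have hu1 : cst (M * p) (1 : Kbar) * u ∈ softV A (M * p) := by rw [h1]; exact h.mem
  have e1 : softR A (M * p) ⟨cst (M * p) (1 : Kbar) * u, hu1⟩ = softR A (M * p) ⟨u, h.mem⟩ := by
    congr 1
    exact Subtype.ext h1
  have e2 : softR A (M * p) ⟨u, h.mem⟩ = softR A M ⟨(y : FF M), hyS⟩ ^ n := by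
    rw [← h60b_incl_redU hp hM hA h.mem, hg, map_pow, ← hy, h13sIncl_red,
      softR_eq_gaussR A M (y : FF M) hyS y.2]
    rfl
  refine h26w_deep_of_level A M p hp hA n hn u (y : FF M) 1 one_ne_zero hu1 hyS ?_ ?_
  · rw [e1, e2]
  · rw [e1]
    exact (softR_ne_zero_iff A (M * p) ⟨u, h.mem⟩).mpr ⟨h.ne_zero, h.inv_mem⟩

end Fermat.Agent.P7
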