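import Fermat.Agent.P7.H85Slope
import Fermat.Agent.P7.H60ClassInf
import Fermat.Agent.P5.H60RedDivTop
import Fermat.Agent.LGC.H20CompInfFinal

/-!
# P7 (wave 7, S40), block (T) TORIC, row T-RHO-PURITY part 2 (helper85): the places of the
special fibre and the closed points of the component `C∞` of level `M ℓ`

`ℓ` a prime, `M` a good level, `A` over `ℓ`, `F~ = h13sFt A M` the function field of the special
fibre of level `M`, `W∞ = softV A (M ℓ)`, `ρ = h60bRedInf : W∞ → F~` the reduction (helper60).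
`B = chart (M ℓ) A t` a chart of level `M ℓ` (`t = j` or `t = 1/j`), `R = modelAt M A t₀` the
chart of level `M` (`t₀ = j` or `1/j`), linked by `B = α(R) + ker ρ` (`H85wLink`).

* `h85wRho`  : `ρ` restricted to `B`;
* `H85wAt Q 𝔫` : the local ring of the place `Q` of `F~` is the localisation of `ρ(B)` at `𝔫`:
  `y ∈ O_Q ↔ ∃ a b ∈ B, b ∉ 𝔫, y ρ(b) = ρ(a)`;
* `h85w_at_iff`   : for a prime `𝔫 ⊇ ker ρ` and `n = α⁻¹ 𝔫` : `H88rAt R n Q ↔ H85wAt Q 𝔫`;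
* `h85w_exists_point` : every closed point `n` of the chart of level `M` is `α⁻¹ 𝔫` for a closed
  point `𝔫 ⊇ ker ρ` of the chart of level `M ℓ`;
* `h85w_comap_isMaximal` : conversely `α⁻¹ 𝔫` is a closed point.
-/

set_option autoImplicit false
set_option linter.unusedSectionVars false
set_option linter.unusedVariables false
set_option linter.style.haveILetI false
set_option linter.style.longLine false
set_option synthInstance.maxHeartbeats 400000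

open AlgebraicCurve ModularCurve WithZero IsLocalRing

noncomputable section

namespace Fermat.Agent.P7

open Fermat.Agent.S37 Fermat.Agent.Red Fermat.Agent.Red.GG Fermat.Agent.Red.GV
  Fermat.Agent.Red.GV.Soft Fermat.Agent.LGC Fermat.Agent.S35 Fermat.Agent.P5 Fermat.Agent.P6
  Fermat.Agent.Red.Nz Fermat.Agent.Red.ModelO

/-- the link between the chart `t` of level `M ℓ` and the chart `t₀` of level `M`:
`B ⊆ W∞`, `R ⊆ V`, `α R ⊆ B`, `B = α R + ker ρ`, `R ∩ ker red ⊆ 𝔪_A R`. -/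
structure H85wLink (A : ValuationSubring Kbar) (M ℓ : ℕ) [NeZero M] [NeZero ℓ]
    (t : FF (M * ℓ)) (t₀ : FF M) : Prop where
  hBW : ∀ b : chart (M * ℓ) A t, (b : FF (M * ℓ)) ∈ softV A (M * ℓ)
  hRV : modelAt M A t₀ ≤ gaussV A M
  hα : ∀ x ∈ modelAt M A t₀, heckeAlphaBar Kbar M ℓ x ∈ modelAt (M * ℓ) A t
  hsurj : ∀ b ∈ modelAt (M * ℓ) A t, ∃ x ∈ modelAt M A t₀,
    ∃ h : b - heckeAlphaBar Kbar M ℓ x ∈ softV A (M * ℓ), softR A (M * ℓ) ⟨_, h⟩ = 0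
  hsmall : ∀ z : modelAt M A t₀, GaussSmall A M (z : FF M) → z ∈ maxExt A (modelAt M A t₀)

section Link

variable {A : ValuationSubring Kbar} {M ℓ : ℕ} [NeZero M] [NeZero ℓ]
  (hℓ : ℓ.Prime) (hM : ¬ ℓ ∣ M) (hA : A.LiesOverPrime ℓ)
  {t : FF (M * ℓ)} {t₀ : FF M}

/-- the inclusion of a chart of level `M ℓ` into `W∞`. -/
def h85wIn (hBW : ∀ b : chart (M * ℓ) A t, (b : FF (M * ℓ)) ∈ softV A (M * ℓ)) :
    chart (M * ℓ) A t →+* softV A (M * ℓ) where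
  toFun b := ⟨(b : FF (M * ℓ)), hBW b⟩
  map_one' := rfl
  map_mul' _ _ := rfl
  map_zero' := rfl
  map_add' _ _ := rfl

/-- the reduction at `W∞` restricted to a chart of level `M ℓ`, with values in `F~`. -/
def h85wRho (hBW : ∀ b : chart (M * ℓ) A t, (b : FF (M * ℓ)) ∈ softV A (M * ℓ)) :
    chart (M * ℓ) A t →+* h13sFt A M :=
  (h60bRedInf hℓ hM hA).comp (h85wIn hBW)

theorem h85w_rho_apply (hBW : ∀ b : chart (M * ℓ) A t, (b : FF (M * ℓ)) ∈ softV A (M * ℓ))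
    (b : chart (M * ℓ) A t) :
    h85wRho hℓ hM hA hBW b = h60bRedInf hℓ hM hA ⟨(b : FF (M * ℓ)), hBW b⟩ := rfl

theorem h85w_incl_rho (hBW : ∀ b : chart (M * ℓ) A t, (b : FF (M * ℓ)) ∈ softV A (M * ℓ))
    (b : chart (M * ℓ) A t) :
    h13sIncl A M (h85wRho hℓ hM hA hBW b) = h85wRed A M ℓ ⟨(b : FF (M * ℓ)), hBW b⟩ := rfl

/-- `α` as a ring homomorphism between the charts. -/
def h85wAl (L : H85wLink A M ℓ t t₀) : modelAt M A t₀ →+* chart (M * ℓ) A t where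
  toFun x := ⟨heckeAlphaBar Kbar M ℓ (x : FF M), L.hα _ x.2⟩
  map_one' := Subtype.ext (map_one _)
  map_mul' _ _ := Subtype.ext (map_mul _ _ _)
  map_zero' := Subtype.ext (map_zero _)
  map_add' _ _ := Subtype.ext (map_add _ _ _)

theorem h85w_al_coe (L : H85wLink A M ℓ t t₀) (x : modelAt M A t₀) :
    ((h85wAl L x : chart (M * ℓ) A t) : FF (M * ℓ)) = heckeAlphaBar Kbar M ℓ (x : FF M) := rfl

/-- `ρ (α x) = red x`. -/
theorem h85w_rho_al (L : H85wLink A M ℓ t t₀) (x : modelAt M A t₀) :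
    h85wRho hℓ hM hA L.hBW (h85wAl L x) = h60qRedR L.hRV x := by
  have hx : (x : FF M) ∈ gaussV A M := L.hRV x.2
  have hxs : (x : FF M) ∈ softV A M := gaussV_le_softV A M hx
  rw [h85w_rho_apply, h60q_redR_apply]
  exact h60b_redInf_eq_of_level hℓ hM hA _ hx (softR_alpha A ℓ ⟨_, hxs⟩ _).symm

/-- `B = α R + ker ρ`. -/
theorem h85w_rho_surj (L : H85wLink A M ℓ t t₀) (b : chart (M * ℓ) A t) :
    ∃ x : modelAt M A t₀, h85wRho hℓ hM hA L.hBW b = h60qRedR L.hRV x := by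
  obtain ⟨x, hx, h, h0⟩ := L.hsurj b b.2
  refine ⟨⟨x, hx⟩, ?_⟩
  rw [← h85w_rho_al hℓ hM hA L ⟨x, hx⟩]
  have e : h85wRho hℓ hM hA L.hBW (b - h85wAl L ⟨x, hx⟩) = 0 := by
    rw [h85w_rho_apply, h60b_redInf_eq_zero_iff]
    exact h0
  rw [map_sub, sub_eq_zero] at e
  exact e

/-- `ker red ∩ R ⊆ 𝔪_A R ⊆ n`. -/
theorem h85w_red_ker (L : H85wLink A M ℓ t t₀) (n : Ideal (modelAt M A t₀))
    (hmax : maxExt A (modelAt M A t₀) ≤ n) (z : modelAt M A t₀)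
    (hz : h60qRedR L.hRV z = 0) : z ∈ n := by
  apply hmax
  apply L.hsmall
  refine ⟨L.hRV z.2, ?_⟩
  have h1 := congrArg (h13sIncl A M) hz
  rw [h60q_redR_apply, h13sIncl_red, map_zero] at h1
  exact h1

/-- the local ring of `Q` is the localisation of `ρ(B)` at `𝔫`. -/
def H85wAt (hBW : ∀ b : chart (M * ℓ) A t, (b : FF (M * ℓ)) ∈ softV A (M * ℓ))
    (Q : Place (h13sK A) (h13sFt A M)) (𝔫 : Ideal (chart (M * ℓ) A t)) : Prop :=
  ∀ y : h13sFt A M, y ∈ Q.toValuationSubring ↔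
    ∃ a b : chart (M * ℓ) A t, b ∉ 𝔫 ∧
      y * h85wRho hℓ hM hA hBW b = h85wRho hℓ hM hA hBW a

/-- `H88rAt` in the vocabulary of the reduction hom. -/
theorem h85w_at_level_iff (L : H85wLink A M ℓ t t₀) (n : Ideal (modelAt M A t₀))
    (Q : Place (h13sK A) (h13sFt A M)) :
    H88rAt A M (modelAt M A t₀) n Q ↔
      ∀ y : h13sFt A M, y ∈ Q.toValuationSubring ↔
        ∃ a b : modelAt M A t₀, b ∉ n ∧ y * h60qRedR L.hRV b = h60qRedR L.hRV a := by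
  constructor
  · intro h y
    rw [h y]
    constructor
    · rintro ⟨a, b, ha, hb, hbn, e⟩
      exact ⟨a, b, hbn, e⟩
    · rintro ⟨a, b, hbn, e⟩
      exact ⟨a, b, L.hRV a.2, L.hRV b.2, hbn, e⟩
  · intro h y
    rw [h y]
    constructor
    · rintro ⟨a, b, hbn, e⟩
      exact ⟨a, b, L.hRV a.2, L.hRV b.2, hbn, e⟩
    · rintro ⟨a, b, ha, hb, hbn, e⟩
      exact ⟨a, b, hbn, e⟩

/-- **the places at corresponding closed points agree.** -/
theorem h85w_at_iff (L : H85wLink A M ℓ t t₀) (𝔫 : Ideal (chart (M * ℓ) A t))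
    (hker : ∀ b : chart (M * ℓ) A t, h85wRho hℓ hM hA L.hBW b = 0 → b ∈ 𝔫)
    (Q : Place (h13sK A) (h13sFt A M)) :
    H88rAt A M (modelAt M A t₀) (𝔫.comap (h85wAl L)) Q ↔ H85wAt hℓ hM hA L.hBW Q 𝔫 := by
  rw [h85w_at_level_iff L]
  have key : ∀ y : h13sFt A M,
      (∃ a b : modelAt M A t₀, b ∉ 𝔫.comap (h85wAl L) ∧
        y * h60qRedR L.hRV b = h60qRedR L.hRV a) ↔
      ∃ a b : chart (M * ℓ) A t, b ∉ 𝔫 ∧
        y * h85wRho hℓ hM hA L.hBW b = h85wRho hℓ hM hA L.hBW a := by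
    intro y
    constructor
    · rintro ⟨a, b, hb, e⟩
      refine ⟨h85wAl L a, h85wAl L b, fun h => hb (Ideal.mem_comap.mpr h), ?_⟩
      rw [h85w_rho_al, h85w_rho_al]
      exact e
    · rintro ⟨a, b, hb, e⟩
      obtain ⟨a', ha'⟩ := h85w_rho_surj hℓ hM hA L a
      obtain ⟨b', hb'⟩ := h85w_rho_surj hℓ hM hA L b
      refine ⟨a', b', ?_, ?_⟩
      · intro h
        rw [Ideal.mem_comap] at h
        apply hb
        have h1 : b - h85wAl L b' ∈ 𝔫 := hker _ (by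
          rw [map_sub, h85w_rho_al, hb', sub_self])
        have := 𝔫.add_mem h1 h
        rwa [sub_add_cancel] at this
      · rw [← ha', ← hb']
        exact e
  constructor
  · intro h y
    rw [h y, key y]
  · intro h y
    rw [h y, key y]

/-- `α⁻¹ 𝔫` is a closed point of the special fibre of the chart of level `M`. -/
theorem h85w_comap_isMaximal (L : H85wLink A M ℓ t t₀) (𝔫 : Ideal (chart (M * ℓ) A t))
    (h𝔫 : 𝔫.IsMaximal)
    (hker : ∀ b : chart (M * ℓ) A t, h85wRho hℓ hM hA L.hBW b = 0 → b ∈ 𝔫) :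
    (𝔫.comap (h85wAl L)).IsMaximal ∧ maxExt A (modelAt M A t₀) ≤ 𝔫.comap (h85wAl L) := by
  constructor
  · rw [Ideal.isMaximal_iff]
    refine ⟨fun h => h𝔫.ne_top ((Ideal.eq_top_iff_one _).mpr (by
      rw [Ideal.mem_comap, map_one] at h; exact h)), ?_⟩
    intro J x hJ hx hxJ
    have hx' : h85wAl L x ∉ 𝔫 := fun h => hx (Ideal.mem_comap.mpr h)
    obtain ⟨b', i, hi, e⟩ := h𝔫.exists_inv hx'
    obtain ⟨x', hx''⟩ := h85w_rho_surj hℓ hM hA L b'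
    -- `x' x - 1 ∈ α⁻¹ 𝔫`
    have h1 : x' * x - 1 ∈ 𝔫.comap (h85wAl L) := by
      rw [Ideal.mem_comap]
      have h2 : h85wAl L (x' * x - 1) + i ∈ 𝔫 := by
        apply hker
        have e' := congrArg (h85wRho hℓ hM hA L.hBW) e
        rw [map_add, map_mul, map_one, hx'', h85w_rho_al] at e'
        rw [map_add, h85w_rho_al, map_sub, map_mul, map_one]
        rw [← e']
        ring
      have := 𝔫.sub_mem h2 hi
      rwa [add_sub_cancel_right] at this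
    have h3 : x' * x - (x' * x - 1) ∈ J := J.sub_mem (J.mul_mem_left x' hxJ) (hJ h1)
    rwa [sub_sub_cancel] at h3
  · rw [maxExt, Ideal.span_le]
    rintro x ⟨a, ha, hx⟩
    rw [SetLike.mem_coe, Ideal.mem_comap]
    apply hker
    rw [h85w_rho_al]
    apply h60q_incl_injective A M
    rw [h60q_redR_apply, h13sIncl_red, map_zero]
    have hxV : cst M a ∈ gaussV A M := by rw [← hx]; exact L.hRV x.2
    have e : (⟨(x : FF M), L.hRV x.2⟩ : gaussV A M) = ⟨cst M a, hxV⟩ := Subtype.ext hx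
    rw [e]
    exact gaussR_cst_of_nonunit A M hA a ha hxV

/-- **every closed point of the chart of level `M` lifts to the component `C∞` of level
`M ℓ`.** -/
theorem h85w_exists_point (L : H85wLink A M ℓ t t₀) (n : Ideal (modelAt M A t₀))
    (hn : n.IsMaximal) (hmax : maxExt A (modelAt M A t₀) ≤ n) :
    ∃ 𝔫 : Ideal (chart (M * ℓ) A t), 𝔫.IsMaximal ∧
      (∀ b : chart (M * ℓ) A t, h85wRho hℓ hM hA L.hBW b = 0 → b ∈ 𝔫) ∧
      𝔫.comap (h85wAl L) = n := by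
  have hmem : ∀ x x' : modelAt M A t₀, h60qRedR L.hRV x = h60qRedR L.hRV x' → x ∈ n →
      x' ∈ n := by
    intro x x' e hx
    have h1 : x' - x ∈ n := h85w_red_ker L n hmax _ (by rw [map_sub, e, sub_self])
    have := n.add_mem h1 hx
    rwa [sub_add_cancel] at this
  let 𝔫 : Ideal (chart (M * ℓ) A t) :=
    { carrier := {b | ∃ x ∈ n, h85wRho hℓ hM hA L.hBW b = h60qRedR L.hRV x}
      add_mem' := by
        rintro b b' ⟨x, hx, e⟩ ⟨x', hx', e'⟩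
        exact ⟨x + x', n.add_mem hx hx', by rw [map_add, map_add, e, e']⟩
      zero_mem' := ⟨0, n.zero_mem, by rw [map_zero, map_zero]⟩
      smul_mem' := by
        rintro c b ⟨x, hx, e⟩
        obtain ⟨y, hy⟩ := h85w_rho_surj hℓ hM hA L c
        exact ⟨y * x, n.mul_mem_left y hx, by rw [smul_eq_mul, map_mul, map_mul, e, hy]⟩ }
  have h𝔫mem : ∀ b : chart (M * ℓ) A t,
      b ∈ 𝔫 ↔ ∃ x ∈ n, h85wRho hℓ hM hA L.hBW b = h60qRedR L.hRV x := fun b => Iff.rfl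
  have hcomap : 𝔫.comap (h85wAl L) = n := by
    ext x
    rw [Ideal.mem_comap, h𝔫mem]
    constructor
    · rintro ⟨x', hx', e⟩
      rw [h85w_rho_al] at e
      exact hmem x' x e.symm hx'
    · intro hx
      exact ⟨x, hx, h85w_rho_al hℓ hM hA L x⟩
  have hker : ∀ b : chart (M * ℓ) A t, h85wRho hℓ hM hA L.hBW b = 0 → b ∈ 𝔫 :=
    fun b hb => ⟨0, n.zero_mem, by rw [hb, map_zero]⟩
  refine ⟨𝔫, ?_, hker, hcomap⟩
  rw [Ideal.isMaximal_iff]
  constructor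
  · intro h1
    have : (1 : modelAt M A t₀) ∈ 𝔫.comap (h85wAl L) := by
      rw [Ideal.mem_comap, map_one]; exact h1
    rw [hcomap] at this
    exact hn.ne_top ((Ideal.eq_top_iff_one _).mpr this)
  · intro J b hJ hb hbJ
    obtain ⟨x, hx⟩ := h85w_rho_surj hℓ hM hA L b
    have hxn : x ∉ n := fun h => hb ⟨x, h, hx⟩
    obtain ⟨x', i, hi, e⟩ := hn.exists_inv hxn
    -- `b (α x') - 1 ∈ 𝔫`
    have h1 : h85wAl L x' * b - 1 ∈ 𝔫 := by
      refine ⟨-i, n.neg_mem hi, ?_⟩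
      rw [map_sub, map_mul, map_one, h85w_rho_al, hx, map_neg, ← map_mul, ← map_one
        (h60qRedR L.hRV), ← map_sub, ← map_neg]
      congr 1
      rw [← e]
      ring
    have h3 : h85wAl L x' * b - (h85wAl L x' * b - 1) ∈ J :=
      J.sub_mem (J.mul_mem_left _ hbJ) (hJ h1)
    rwa [sub_sub_cancel] at h3

/-- a place at `𝔫` is centred at `𝔫`. -/
theorem h85w_at_unit (hBW : ∀ b : chart (M * ℓ) A t, (b : FF (M * ℓ)) ∈ softV A (M * ℓ))
    (Q : Place (h13sK A) (h13sFt A M)) (𝔫 : Ideal (chart (M * ℓ) A t)) (h𝔫 : 𝔫.IsPrime)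
    (hker : ∀ b : chart (M * ℓ) A t, h85wRho hℓ hM hA hBW b = 0 → b ∈ 𝔫)
    (hQ : H85wAt hℓ hM hA hBW Q 𝔫) (b : chart (M * ℓ) A t) :
    h85wRho hℓ hM hA hBW b ∈ Q.toValuationSubring ∧
      (b ∉ 𝔫 → (h85wRho hℓ hM hA hBW b)⁻¹ ∈ Q.toValuationSubring) := by
  have h1 : (1 : chart (M * ℓ) A t) ∉ 𝔫 := fun h => h𝔫.ne_top ((Ideal.eq_top_iff_one _).mpr h)
  refine ⟨(hQ _).mpr ⟨b, 1, h1, by rw [map_one, mul_one]⟩, fun hb => ?_⟩
  have hb0 : h85wRho hℓ hM hA hBW b ≠ 0 := fun h => hb (hker b h)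
  exact (hQ _).mpr ⟨1, b, hb, by rw [map_one, inv_mul_cancel₀ hb0]⟩

end Link

/-! ### The two charts -/

section Charts

variable (A : ValuationSubring Kbar) (M : ℕ) {ℓ : ℕ} [NeZero M] [NeZero ℓ]
  (hℓ : ℓ.Prime) (hM : ¬ ℓ ∣ M) (haux : auxLevel ℓ ∣ M) (hA : A.LiesOverPrime ℓ)

include hℓ hM haux hA in
/-- the link for the finite charts. -/
theorem h85w_link_fin : H85wLink A M ℓ (jSS M ℓ) (jB M) where
  hBW := h62i_mem_soft A M hℓ hM hA
  hRV := modelFin_le_gaussV A M hℓ hM hA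
  hα := fun x hx => h4f_alpha_mem A M ℓ hx
  hsurj := fun b hb => by
    obtain ⟨x, hx, -, h, h0⟩ := h20ci_hsurj_fin A M ℓ hℓ hM haux hA b hb
    exact ⟨x, hx, h, h0⟩
  hsmall := h60p_mem_of_gaussSmall_fin hℓ hM hA

include hℓ hM haux hA in
/-- the link for the charts at infinity. -/
theorem h85w_link_inf : H85wLink A M ℓ (jSS M ℓ)⁻¹ (jB M)⁻¹ where
  hBW := fun b => by
    obtain ⟨x, hx, -, h, -⟩ := h20ci_hsurj_inf A M ℓ hℓ hM haux hA b b.2
    have hxs : heckeAlphaBar Kbar M ℓ x ∈ softV A (M * ℓ) :=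
      (alpha_mem_softV_iff A ℓ x).mpr (gaussV_le_softV A M (modelInf_le_gaussV A M hℓ hM hA hx))
    have := (softV A (M * ℓ)).add_mem h hxs
    rwa [sub_add_cancel] at this
  hRV := modelInf_le_gaussV A M hℓ hM hA
  hα := fun x hx => h4f_alpha_inv_mem A M ℓ hx
  hsurj := fun b hb => by
    obtain ⟨x, hx, -, h, h0⟩ := h20ci_hsurj_inf A M ℓ hℓ hM haux hA b hb
    exact ⟨x, hx, h, h0⟩
  hsmall := h60p_mem_of_gaussSmall_inf hℓ hM hA

/-- on the finite chart `ker ρ = P∞`. -/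
theorem h85w_ker_fin (b : chart (M * ℓ) A (jSS M ℓ)) :
    h85wRho hℓ hM hA (h62i_mem_soft A M hℓ hM hA) b = 0 ↔ b ∈ h62i_Pinf A M hℓ hM hA := by
  rw [h85w_rho_apply, h60b_redInf_eq_zero_iff, h62i_mem_Pinf_iff_softR]

include haux in
/-- **the place at a closed point of the component `C∞` of the finite chart of level `M ℓ`.** -/
theorem h85w_exists_place_fin (𝔫 : Ideal (chart (M * ℓ) A (jSS M ℓ))) (h𝔫 : 𝔫.IsMaximal)
    (hPinf : h62i_Pinf A M hℓ hM hA ≤ 𝔫) :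
    ∃ Q : Place (h13sK A) (h13sFt A M),
      H85wAt hℓ hM hA (h62i_mem_soft A M hℓ hM hA) Q 𝔫 ∧ H85wCentred A M ℓ Q 𝔫 := by
  have L := h85w_link_fin A M hℓ hM haux hA
  have hker : ∀ b : chart (M * ℓ) A (jSS M ℓ), h85wRho hℓ hM hA L.hBW b = 0 → b ∈ 𝔫 :=
    fun b hb => hPinf ((h85w_ker_fin A M hℓ hM hA b).mp hb)
  obtain ⟨hn, hmax⟩ := h85w_comap_isMaximal hℓ hM hA L 𝔫 h𝔫 hker
  obtain ⟨Q, hQ, -⟩ := (h60q_place ℓ hℓ M hM haux A hA).1 (𝔫.comap (h85wAl L)) hn hmax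
  have hQ' : H85wAt hℓ hM hA L.hBW Q 𝔫 := (h85w_at_iff hℓ hM hA L 𝔫 hker Q).mp hQ
  refine ⟨Q, hQ', fun b hb => ?_⟩
  obtain ⟨h1, h2⟩ := h85w_at_unit hℓ hM hA L.hBW Q 𝔫 h𝔫.isPrime hker hQ' b
  exact ⟨h85wRho hℓ hM hA L.hBW b, rfl, h1, h2⟩

include haux in
/-- **every place of the special fibre has a centre** on the component `C∞` of level `M ℓ`:
a closed point of the finite chart, or a cusp (a closed point of the chart at infinity
containing `1 / j`). -/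
theorem h85w_exists_centre (Q : Place (h13sK A) (h13sFt A M)) :
    (∃ 𝔫 : Ideal (chart (M * ℓ) A (jSS M ℓ)), 𝔫.IsMaximal ∧ h62i_Pinf A M hℓ hM hA ≤ 𝔫 ∧
      H85wAt hℓ hM hA (h85w_link_fin A M hℓ hM haux hA).hBW Q 𝔫 ∧ H85wCentred A M ℓ Q 𝔫) ∨
    (∃ 𝔫 : Ideal (chart (M * ℓ) A (jSS M ℓ)⁻¹), 𝔫.IsMaximal ∧
      (∀ b : chart (M * ℓ) A (jSS M ℓ)⁻¹,
        h85wRho hℓ hM hA (h85w_link_inf A M hℓ hM haux hA).hBW b = 0 → b ∈ 𝔫) ∧
      (⟨(jSS M ℓ)⁻¹, h85_self_mem_modelAt (M * ℓ) A (jSS M ℓ)⁻¹⟩ :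
        chart (M * ℓ) A (jSS M ℓ)⁻¹) ∈ 𝔫 ∧
      H85wAt hℓ hM hA (h85w_link_inf A M hℓ hM haux hA).hBW Q 𝔫) := by
  rcases h60q_surj ℓ hℓ M hM haux A hA Q with ⟨n, hn, hmax, hQ⟩ | ⟨n, hn, hmax, hj, hQ⟩
  · left
    have L := h85w_link_fin A M hℓ hM haux hA
    obtain ⟨𝔫, h𝔫, hker, hcomap⟩ := h85w_exists_point hℓ hM hA L n hn hmax
    have hQ' : H85wAt hℓ hM hA L.hBW Q 𝔫 := by
      rw [← h85w_at_iff hℓ hM hA L 𝔫 hker Q, hcomap]
      exact hQ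
    have hPinf : h62i_Pinf A M hℓ hM hA ≤ 𝔫 :=
      fun b hb => hker b ((h85w_ker_fin A M hℓ hM hA b).mpr hb)
    refine ⟨𝔫, h𝔫, hPinf, hQ', fun b hb => ?_⟩
    obtain ⟨h1, h2⟩ := h85w_at_unit hℓ hM hA L.hBW Q 𝔫 h𝔫.isPrime hker hQ' b
    exact ⟨h85wRho hℓ hM hA L.hBW b, rfl, h1, h2⟩
  · right
    have L := h85w_link_inf A M hℓ hM haux hA
    obtain ⟨𝔫, h𝔫, hker, hcomap⟩ := h85w_exists_point hℓ hM hA L n hn hmax
    have hQ' : H85wAt hℓ hM hA L.hBW Q 𝔫 := by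
      rw [← h85w_at_iff hℓ hM hA L 𝔫 hker Q, hcomap]
      exact hQ
    refine ⟨𝔫, h𝔫, hker, ?_, hQ'⟩
    have hjm : (jB M)⁻¹ ∈ modelInf M A := h85_self_mem_modelAt M A (jB M)⁻¹
    have h1 : (⟨(jB M)⁻¹, hjm⟩ : modelAt M A (jB M)⁻¹) ∈ 𝔫.comap (h85wAl L) := by
      rw [hcomap]
      exact hj hjm
    rw [Ideal.mem_comap] at h1
    have e : h85wAl L ⟨(jB M)⁻¹, hjm⟩ =
        (⟨(jSS M ℓ)⁻¹, h85_self_mem_modelAt (M * ℓ) A (jSS M ℓ)⁻¹⟩ :
          chart (M * ℓ) A (jSS M ℓ)⁻¹) :=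
      Subtype.ext (map_inv₀ (heckeAlphaBar Kbar M ℓ) (jB M))
    rw [e] at h1
    exact h1

end Charts

end Fermat.Agent.P7
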