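import Fermat.Agent.P7.H44SlopeNF
import Fermat.Agent.P7.H85SlopeCtr

/-!
# P7 (wave 7), block (T) TORIC, rows T-RHO-SLOPE / T-RHO-PURITY: the place of the special fibre
at a node (helper6)

`p` a prime, `M` a good level (`auxLevel p ∣ M`, `p ∤ M`), `A` over `p`, `𝔫` a closed point of
the finite chart of level `M p` on the component `C∞` (`P∞ ≤ 𝔫`) with node coordinates
`x y = a c`, `a ∈ 𝔪_A`, `𝔫 = (x, y) + 𝔪_A B` locally, `x` a unit of `W∞`.

* `h6n_ord_eq_one` : abstract: a generator of the maximal ideal of the local ring of a place has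
  order `1`.
* `h6n_ord_chart`  : `ord_e` of a chart element which is a unit of `W∞` is `ord_e` of its
  reduction `ρ b`.
* `h6n_ord_unit`   : chart elements outside `𝔫` have order `0` at a place at `𝔫`.
* `h6n_place_node` : **the place at the node**: the place `e` of helper85
  (`h85w_exists_place_fin`, `H85wAt e 𝔫`) satisfies helper44's `H44slAt A M p 𝔫 x e`:
  `ord_e(x̄) = 1` and the units of `ssV` without zeros and poles centred at `𝔫` have order `0`.
* `h6n_place_node_of_both` : the same from `TorOnBoth` instead of `P∞ ≤ 𝔫`.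

Nothing is assumed: every statement is proved.
-/

set_option autoImplicit false
set_option linter.style.haveILetI false
set_option linter.unusedSectionVars false
set_option linter.unusedVariables false
set_option linter.style.longLine false
set_option synthInstance.maxHeartbeats 400000

open AlgebraicCurve ModularCurve IsLocalRing

noncomputable section

namespace Fermat.Agent.P7

open Fermat.Agent.S37 Fermat.Agent.Red Fermat.Agent.Red.GG Fermat.Agent.Red.GV
  Fermat.Agent.Red.GV.Soft Fermat.Agent.LGC Fermat.Agent.S35 Fermat.Agent.P5 Fermat.Agent.P6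
  Fermat.Agent.Red.Nz Fermat.Agent.Red.ModelO

/-- a generator of the maximal ideal of the local ring of a place has order `1`. -/
theorem h6n_ord_eq_one {K F : Type*} [Field K] [Field F] [Algebra K F] (Q : Place K F) {ϖ : F}
    (hϖ : Q.toValuationSubring.valuation ϖ < 1)
    (hgen : ∀ z : F, Q.toValuationSubring.valuation z < 1 →
      ∃ t ∈ Q.toValuationSubring, z = t * ϖ) : Q.ord ϖ = 1 := by
  have hϖO : ϖ ∈ Q.toValuationSubring :=
    (Q.toValuationSubring.valuation_le_one_iff ϖ).mp hϖ.le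
  have hirr : Irreducible (⟨ϖ, hϖO⟩ : Q.toValuationSubring) := by
    rw [IsDiscreteValuationRing.irreducible_iff_uniformizer]
    apply le_antisymm
    · intro z hz
      rw [Ideal.mem_span_singleton']
      have h1 : (z : F) ∈ Q.toValuationSubring.nonunits :=
        ValuationSubring.coe_mem_nonunits_iff.mpr hz
      rw [ValuationSubring.mem_nonunits_iff] at h1
      obtain ⟨t, ht, hzt⟩ := hgen z h1
      exact ⟨⟨t, ht⟩, Subtype.ext hzt.symm⟩
    · rw [Ideal.span_le, Set.singleton_subset_iff]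
      have h1 : ((⟨ϖ, hϖO⟩ : Q.toValuationSubring) : F) ∈ Q.toValuationSubring.nonunits :=
        hϖ
      exact ValuationSubring.coe_mem_nonunits_iff.mp h1
  exact Q.ord_coe_irreducible hirr

/-- an element of a valuation subring with inverse in the subring has order `0`. -/
theorem h6n_ord_eq_zero {K F : Type*} [Field K] [Field F] [Algebra K F] (Q : Place K F) {f : F}
    (hf0 : f ≠ 0) (hf : f ∈ Q.toValuationSubring) (hfi : f⁻¹ ∈ Q.toValuationSubring) :
    Q.ord f = 0 := by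
  let u : (Q.toValuationSubring)ˣ :=
    ⟨⟨f, hf⟩, ⟨f⁻¹, hfi⟩, Subtype.ext (mul_inv_cancel₀ hf0), Subtype.ext (inv_mul_cancel₀ hf0)⟩
  exact Q.ord_coe_unit u

variable {A : ValuationSubring Kbar} {M p : ℕ} [NeZero M] [NeZero p]

/-- a chart element outside `P∞` is a unit of `W∞`. -/
theorem h6n_inv_mem_soft (hp : p.Prime) (hM : ¬ p ∣ M) (hA : A.LiesOverPrime p)
    (b : chart (M * p) A (jSS M p)) (hb : b ∉ h62i_Pinf A M hp hM hA) :
    (b : FF (M * p)) ≠ 0 ∧ ((b : FF (M * p)))⁻¹ ∈ softV A (M * p) := by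
  have h1 : ¬ (b : FF (M * p)) ∈ (softRing A (M * p) hp hA).nonunits :=
    fun h => hb ((h62i_mem_Pinf A M hp hM hA b).mpr h)
  rw [ValuationSubring.mem_nonunits_iff, not_lt] at h1
  have h2 : (softRing A (M * p) hp hA).valuation (b : FF (M * p)) ≤ 1 :=
    ((softRing A (M * p) hp hA).valuation_le_one_iff _).mpr (h62i_mem_soft A M hp hM hA b)
  have h3 : (softRing A (M * p) hp hA).valuation (b : FF (M * p)) = 1 := le_antisymm h2 h1
  have hb0 : (b : FF (M * p)) ≠ 0 := by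
    intro h0
    rw [h0, map_zero] at h3
    exact zero_ne_one h3
  refine ⟨hb0, ?_⟩
  have h4 : (softRing A (M * p) hp hA).valuation ((b : FF (M * p)))⁻¹ ≤ 1 := by
    rw [map_inv₀, h3, inv_one]
  exact ((softRing A (M * p) hp hA).valuation_le_one_iff _).mp h4

/-- `ord_e` of a chart element which is a unit of `W∞` is `ord_e` of its reduction. -/
theorem h6n_ord_chart (hp : p.Prime) (hM : ¬ p ∣ M) (hA : A.LiesOverPrime p)
    (b : chart (M * p) A (jSS M p)) (hb : b ∉ h62i_Pinf A M hp hM hA)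
    (e : Place (h13sK A) (h13sFt A M)) :
    h44slOrd A M p (b : FF (M * p)) e =
      e.ord (h85wRho hp hM hA (h62i_mem_soft A M hp hM hA) b) := by
  obtain ⟨hb0, hbi⟩ := h6n_inv_mem_soft hp hM hA b hb
  exact h44sl_ord_eq (h44sl_red_of_unit (h62i_mem_soft A M hp hM hA b) hbi hb0
    (h85w_incl_rho hp hM hA (h62i_mem_soft A M hp hM hA) b).symm) e

/-- chart elements outside `𝔫` have order `0` at a place at `𝔫`. -/
theorem h6n_ord_unit (hp : p.Prime) (hM : ¬ p ∣ M) (hA : A.LiesOverPrime p)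
    (𝔫 : Ideal (chart (M * p) A (jSS M p))) (h𝔫 : 𝔫.IsPrime)
    (hPinf : h62i_Pinf A M hp hM hA ≤ 𝔫)
    (e : Place (h13sK A) (h13sFt A M))
    (he : H85wAt hp hM hA (h62i_mem_soft A M hp hM hA) e 𝔫)
    (b : chart (M * p) A (jSS M p)) (hb : b ∉ 𝔫) :
    h44slOrd A M p (b : FF (M * p)) e = 0 := by
  have hker : ∀ b : chart (M * p) A (jSS M p),
      h85wRho hp hM hA (h62i_mem_soft A M hp hM hA) b = 0 → b ∈ 𝔫 :=
    fun b hb => hPinf ((h85w_ker_fin A M hp hM hA b).mp hb)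
  obtain ⟨h1, h2⟩ := h85w_at_unit hp hM hA (h62i_mem_soft A M hp hM hA) e 𝔫 h𝔫 hker he b
  rw [h6n_ord_chart hp hM hA b (fun h => hb (hPinf h)) e]
  exact h6n_ord_eq_zero e (fun h0 => hb (hker b h0)) h1 (h2 hb)

set_option maxHeartbeats 1600000 in
/-- **a place at a node sits at the node**: every place `Q` whose local ring is the
localisation of `ρ(B)` at the node `𝔫` (helper85's `H85wAt`) satisfies helper44's
`H44slAt A M p 𝔫 x Q`. -/
theorem h6n_at_node (hp : p.Prime) (hM : ¬ p ∣ M) (hA : A.LiesOverPrime p)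
    (𝔫 : Ideal (chart (M * p) A (jSS M p))) (h𝔫 : 𝔫.IsMaximal)
    (hPinf : h62i_Pinf A M hp hM hA ≤ 𝔫)
    (x y c : chart (M * p) A (jSS M p)) (hx : x ∈ 𝔫) (hx0 : (x : FF (M * p)) ≠ 0)
    (a : A) (ham : a ∈ maximalIdeal A)
    (hxy : x * y = algebraMap A (chart (M * p) A (jSS M p)) a * c)
    (hprin : ∀ z ∈ 𝔫, ∃ s, s ∉ 𝔫 ∧ s * z ∈ Ideal.span {x, y} ⊔ mExt A M p (jSS M p))
    (hxinf : ((x : FF (M * p)))⁻¹ ∈ h85cWinf A M p hp hA)
    (Q : Place (h13sK A) (h13sFt A M))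
    (hQ : H85wAt hp hM hA (h62i_mem_soft A M hp hM hA) Q 𝔫) :
    H44slAt A M p 𝔫 (x : FF (M * p)) Q := by
  classical
  haveI h𝔫p : 𝔫.IsPrime := h𝔫.isPrime
  have hker : ∀ b : chart (M * p) A (jSS M p),
      h85wRho hp hM hA (h62i_mem_soft A M hp hM hA) b = 0 → b ∈ 𝔫 :=
    fun b hb => hPinf ((h85w_ker_fin A M hp hM hA b).mp hb)
  have hunit := h85w_at_unit hp hM hA (h62i_mem_soft A M hp hM hA) Q 𝔫 h𝔫p hker hQ
  have hm0 : ∀ μ ∈ mExt A M p (jSS M p),
      h85wRho hp hM hA (h62i_mem_soft A M hp hM hA) μ = 0 :=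
    fun μ hμ => (h85w_ker_fin A M hp hM hA μ).mpr (h62i_m_le_Pinf A M hp hM hA hμ)
  -- `x ∉ P∞`
  have hxP : x ∉ h62i_Pinf A M hp hM hA := by
    intro h
    have h1 := (h62i_mem_Pinf A M hp hM hA x).mp h
    rw [ValuationSubring.mem_nonunits_iff] at h1
    have h2 : (softRing A (M * p) hp hA).valuation ((x : FF (M * p)))⁻¹ ≤ 1 :=
      ((softRing A (M * p) hp hA).valuation_le_one_iff _).mpr hxinf
    rw [map_inv₀] at h2
    have hv0 : (softRing A (M * p) hp hA).valuation (x : FF (M * p)) ≠ 0 :=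
      (Valuation.ne_zero_iff _).mpr hx0
    have h3 : 1 ≤ (softRing A (M * p) hp hA).valuation (x : FF (M * p)) :=
      (inv_le_one₀ (zero_lt_iff.mpr hv0)).mp h2
    exact absurd h1 (not_lt.mpr h3)
  set ρ := h85wRho hp hM hA (h62i_mem_soft A M hp hM hA) with hρ
  have hQ' : ∀ y : h13sFt A M, y ∈ Q.toValuationSubring ↔
      ∃ a b : chart (M * p) A (jSS M p), b ∉ 𝔫 ∧ y * ρ b = ρ a := hQ
  have hρx0 : ρ x ≠ 0 := fun h => hxP ((h85w_ker_fin A M hp hM hA x).mp h)
  have hρy : ρ y = 0 := by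
    have h1 : ρ x * ρ y = 0 := by
      rw [← map_mul, hxy, map_mul, hm0 _ (Ideal.mem_map_of_mem _ ham), zero_mul]
    exact (mul_eq_zero.mp h1).resolve_left hρx0
  refine ⟨?_, ?_⟩
  · -- `ord_Q(x̄) = 1`
    rw [h6n_ord_chart hp hM hA x hxP Q]
    apply h6n_ord_eq_one Q
    · by_contra hcon
      rw [not_lt] at hcon
      have h1 : (ρ x)⁻¹ ∈ Q.toValuationSubring := by
        rw [← ValuationSubring.valuation_le_one_iff, map_inv₀]
        exact inv_le_one_of_one_le₀ hcon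
      obtain ⟨a', b', hb', hab⟩ := (hQ' _).mp h1
      have h2 : ρ (b' - a' * x) = 0 := by
        rw [map_sub, map_mul, ← hab]
        field_simp
        ring
      have h3 : b' - a' * x ∈ 𝔫 := hker _ h2
      have h4 : b' ∈ 𝔫 := by
        have := 𝔫.add_mem h3 (𝔫.mul_mem_left a' hx)
        rwa [sub_add_cancel] at this
      exact hb' h4
    · intro z hz
      have hzO : z ∈ Q.toValuationSubring :=
        (Q.toValuationSubring.valuation_le_one_iff z).mp hz.le
      obtain ⟨a', b', hb', hab⟩ := (hQ' z).mp hzO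
      have hρb : ρ b' ≠ 0 := fun h => hb' (hker b' h)
      have ha' : a' ∈ 𝔫 := by
        by_contra hcon
        obtain ⟨-, h2⟩ := hunit a'
        obtain ⟨h3, -⟩ := hunit b'
        have h4 : (ρ a')⁻¹ ∈ Q.toValuationSubring := h2 hcon
        have hρa : ρ a' ≠ 0 := fun h => hcon (hker a' h)
        have hz0 : z ≠ 0 := by
          intro h0
          rw [h0, zero_mul] at hab
          exact hρa hab.symm
        have h5 : z⁻¹ = ρ b' * (ρ a')⁻¹ := by
          rw [← hab]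
          field_simp
        have h6 : z⁻¹ ∈ Q.toValuationSubring := by
          rw [h5]
          exact mul_mem h3 h4
        have h7 : Q.toValuationSubring.valuation z⁻¹ ≤ 1 :=
          (Q.toValuationSubring.valuation_le_one_iff _).mpr h6
        rw [map_inv₀] at h7
        have h8 : 1 ≤ Q.toValuationSubring.valuation z :=
          (inv_le_one₀ (zero_lt_iff.mpr ((Valuation.ne_zero_iff _).mpr hz0))).mp h7
        exact absurd hz (not_lt.mpr h8)
      obtain ⟨s, hs, hsz⟩ := hprin a' ha'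
      obtain ⟨y1, hy1, μ, hμ, hsum⟩ := Submodule.mem_sup.mp hsz
      obtain ⟨r1, r2, hr⟩ := Ideal.mem_span_pair.mp hy1
      have h1 : ρ s * ρ a' = ρ r1 * ρ x := by
        rw [← map_mul, ← hsum, ← hr, map_add, map_add, map_mul, map_mul, hρy, hm0 μ hμ]
        ring
      have hρs : ρ s ≠ 0 := fun h => hs (hker s h)
      refine ⟨ρ r1 * (ρ s)⁻¹ * (ρ b')⁻¹, ?_, ?_⟩
      · exact mul_mem (mul_mem (hunit r1).1 ((hunit s).2 hs)) ((hunit b').2 hb')
      · have h2 : z = ρ a' * (ρ b')⁻¹ := by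
          rw [← hab]
          field_simp
        have h3 : ρ a' = ρ r1 * ρ x * (ρ s)⁻¹ := by
          rw [← h1]
          field_simp
        rw [h2, h3]
        ring
  · -- units
    intro ε hε hεi hεc
    by_cases hε0 : ε = 0
    · rw [hε0]
      exact h44sl_ord_zero Q
    have hC₀ : IfaceSSChart A M p (jSS M p) := h85s_ifaceSSChart_fin A M p hp hM hA
    obtain ⟨s, hs, hs1, hs2⟩ :=
      h75s_unit_aux hC₀.hfin hC₀.hint hC₀.hB hC₀.hBV hC₀.hQEP 𝔫 ε hε hεi hεc
    have h12 : (⟨(s : FF (M * p)) * ε, hs1⟩ : chart (M * p) A (jSS M p)) *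
        ⟨(s : FF (M * p)) * ε⁻¹, hs2⟩ = s * s := by
      apply Subtype.ext
      show (s : FF (M * p)) * ε * ((s : FF (M * p)) * ε⁻¹) = (s : FF (M * p)) * (s : FF (M * p))
      field_simp
    have hb1 : (⟨(s : FF (M * p)) * ε, hs1⟩ : chart (M * p) A (jSS M p)) ∉ 𝔫 := by
      intro h
      have h1 : s * s ∈ 𝔫 := by
        rw [← h12]
        exact 𝔫.mul_mem_right _ h
      exact (h𝔫p.mem_or_mem h1).elim hs hs
    have hs0 : (s : FF (M * p)) ≠ 0 :=
      (h6n_inv_mem_soft hp hM hA s (fun h => hs (hPinf h))).1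
    have h1 : h44slOrd A M p ((s : FF (M * p)) * ε) Q = 0 :=
      h6n_ord_unit hp hM hA 𝔫 h𝔫p hPinf Q hQ ⟨(s : FF (M * p)) * ε, hs1⟩ hb1
    have h2 := h6n_ord_unit hp hM hA 𝔫 h𝔫p hPinf Q hQ s hs
    have h3 := h44sl_ord_mul hp hM hA hs0 hε0 Q
    rw [h1, h2, zero_add] at h3
    exact h3.symm

/-- `TorOnBoth` gives `P∞ ≤ 𝔫`. -/
theorem h6n_Pinf_le_of_both (hp : p.Prime) (hM : ¬ p ∣ M) (hA : A.LiesOverPrime p)
    (𝔫 : Ideal (chart (M * p) A (jSS M p)))
    (hboth : TorOnBoth A M p hp hM hA (jSS M p) 𝔫) : h62i_Pinf A M hp hM hA ≤ 𝔫 := by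
  intro b hb
  by_cases hb0 : (b : FF (M * p)) = 0
  · have : b = 0 := Subtype.ext hb0
    rw [this]
    exact 𝔫.zero_mem
  apply hboth.1 b
  intro hbi
  have h1 := (h62i_mem_Pinf A M hp hM hA b).mp hb
  rw [ValuationSubring.mem_nonunits_iff] at h1
  have h2 : (softRing A (M * p) hp hA).valuation ((b : FF (M * p)))⁻¹ ≤ 1 :=
    ((softRing A (M * p) hp hA).valuation_le_one_iff _).mpr hbi
  rw [map_inv₀] at h2
  have h3 : 1 ≤ (softRing A (M * p) hp hA).valuation (b : FF (M * p)) :=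
    (inv_le_one₀ (zero_lt_iff.mpr ((Valuation.ne_zero_iff _).mpr hb0))).mp h2
  exact absurd h1 (not_lt.mpr h3)

/-- `x ≠ 0` from the node equation. -/
theorem h6n_x_ne_zero (𝔫 : Ideal (chart (M * p) A (jSS M p)))
    (x y c : chart (M * p) A (jSS M p)) (hc : c ∉ 𝔫) (a : A) (ha : a ≠ 0)
    (hxy : x * y = algebraMap A (chart (M * p) A (jSS M p)) a * c) :
    (x : FF (M * p)) ≠ 0 := by
  intro h0
  have hx0' : x = 0 := Subtype.ext h0
  rw [hx0', zero_mul] at hxy
  have hc0 : c ≠ 0 := fun h => hc (h ▸ 𝔫.zero_mem)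
  have h1 : algebraMap A (chart (M * p) A (jSS M p)) a = 0 :=
    (mul_eq_zero.mp hxy.symm).resolve_right hc0
  have h2 : algebraMap A (FF (M * p)) a = 0 := by
    have := congrArg (fun t : chart (M * p) A (jSS M p) => (t : FF (M * p))) h1
    simpa using this
  exact ha (algebraMap_injective_FF (M * p) A (by rw [h2, map_zero]))

/-- **a place at a node sits at the node**, with the binders of `h44sl_slope_node` (helper44)
and `h90s_node_normal_level` (helper90), plus `a ∈ 𝔪_A`. -/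
theorem h6n_at_node_of_both (hp : p.Prime) (hM : ¬ p ∣ M) (hA : A.LiesOverPrime p)
    (𝔫 : Ideal (chart (M * p) A (jSS M p))) (h𝔫 : 𝔫.IsMaximal)
    (hboth : TorOnBoth A M p hp hM hA (jSS M p) 𝔫)
    (x y c : chart (M * p) A (jSS M p)) (hx : x ∈ 𝔫) (hc : c ∉ 𝔫)
    (a : A) (ha : a ≠ 0) (ham : a ∈ maximalIdeal A)
    (hxy : x * y = algebraMap A (chart (M * p) A (jSS M p)) a * c)
    (hprin : ∀ z ∈ 𝔫, ∃ s, s ∉ 𝔫 ∧ s * z ∈ Ideal.span {x, y} ⊔ mExt A M p (jSS M p))
    (hxinf : ((x : FF (M * p)))⁻¹ ∈ h85cWinf A M p hp hA)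
    (Q : Place (h13sK A) (h13sFt A M))
    (hQ : H85wAt hp hM hA (h62i_mem_soft A M hp hM hA) Q 𝔫) :
    H44slAt A M p 𝔫 (x : FF (M * p)) Q :=
  h6n_at_node hp hM hA 𝔫 h𝔫 (h6n_Pinf_le_of_both hp hM hA 𝔫 hboth) x y c hx
    (h6n_x_ne_zero 𝔫 x y c hc a ha hxy) a ham hxy hprin hxinf Q hQ

/-- **the place at the node exists** (good level). -/
theorem h6n_place_node (hp : p.Prime) (hM : ¬ p ∣ M) (haux : auxLevel p ∣ M)
    (hA : A.LiesOverPrime p)
    (𝔫 : Ideal (chart (M * p) A (jSS M p))) (h𝔫 : 𝔫.IsMaximal)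
    (hboth : TorOnBoth A M p hp hM hA (jSS M p) 𝔫)
    (x y c : chart (M * p) A (jSS M p)) (hx : x ∈ 𝔫) (hc : c ∉ 𝔫)
    (a : A) (ha : a ≠ 0) (ham : a ∈ maximalIdeal A)
    (hxy : x * y = algebraMap A (chart (M * p) A (jSS M p)) a * c)
    (hprin : ∀ z ∈ 𝔫, ∃ s, s ∉ 𝔫 ∧ s * z ∈ Ideal.span {x, y} ⊔ mExt A M p (jSS M p))
    (hxinf : ((x : FF (M * p)))⁻¹ ∈ h85cWinf A M p hp hA) :
    ∃ e : Place (h13sK A) (h13sFt A M),
      H85wAt hp hM hA (h62i_mem_soft A M hp hM hA) e 𝔫 ∧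
      H44slAt A M p 𝔫 (x : FF (M * p)) e := by
  obtain ⟨Q, hQ, -⟩ := h85w_exists_place_fin A M hp hM haux hA 𝔫 h𝔫
    (h6n_Pinf_le_of_both hp hM hA 𝔫 hboth)
  exact ⟨Q, hQ, h6n_at_node_of_both hp hM hA 𝔫 h𝔫 hboth x y c hx hc a ha ham hxy hprin hxinf
    Q hQ⟩

/-- two places at the same closed point are equal. -/
theorem h6n_at_unique (hp : p.Prime) (hM : ¬ p ∣ M) (hA : A.LiesOverPrime p)
    (𝔫 : Ideal (chart (M * p) A (jSS M p)))
    (Q Q' : Place (h13sK A) (h13sFt A M))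
    (hQ : H85wAt hp hM hA (h62i_mem_soft A M hp hM hA) Q 𝔫)
    (hQ' : H85wAt hp hM hA (h62i_mem_soft A M hp hM hA) Q' 𝔫) : Q = Q' := by
  apply Place.toValuationSubring_injective
  ext y
  rw [hQ y, hQ' y]

end Fermat.Agent.P7
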