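import Fermat.Agent.P7.H85SlopeCusp
import Fermat.Agent.P7.H44Slope

/-!
# P7 (wave 7, S40), block (T) TORIC, row T-RHO-PURITY part 3 (helper85): bridges

* `h85w_at_unique` : the place at a closed point is unique (`H85wAt Q 𝔫`, `H85wAt Q' 𝔫` ⟹
  `Q = Q'`);
* `h85w_ord_cst_mul` : constants do not change the divisor;
* `h85w_purity_slope` : **purity in the vocabulary of T-RHO-SLOPE** (helper44): for EVERY
  `u ≠ 0` with `r ∣ div u` and every place `Q` : `r ∣ h44slOrd u Q` or `Q` is supersingular;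
* `h85w_all_of_ss` : if `r ∣ ord_Q (ρ u)` at the supersingular places, then at all places.
-/

set_option autoImplicit false
set_option linter.unusedSectionVars false
set_option linter.unusedVariables false
set_option linter.style.haveILetI false
set_option linter.style.longLine false
set_option synthInstance.maxHeartbeats 400000

open AlgebraicCurve ModularCurve WithZero IsLocalRing

noncomputable section

namespace Fermat.Agent.P7

open Fermat.Agent.S37 Fermat.Agent.Red Fermat.Agent.Red.GG Fermat.Agent.Red.GV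
  Fermat.Agent.Red.GV.Soft Fermat.Agent.LGC Fermat.Agent.S35 Fermat.Agent.P5 Fermat.Agent.P6

section Unique

variable {A : ValuationSubring Kbar} {M ℓ : ℕ} [NeZero M] [NeZero ℓ]
  (hℓ : ℓ.Prime) (hM : ¬ ℓ ∣ M) (hA : A.LiesOverPrime ℓ) {t : FF (M * ℓ)}

/-- **the place at a closed point is unique.** -/
theorem h85w_at_unique
    (hBW : ∀ b : chart (M * ℓ) A t, (b : FF (M * ℓ)) ∈ softV A (M * ℓ))
    {Q Q' : Place (h13sK A) (h13sFt A M)} {𝔫 : Ideal (chart (M * ℓ) A t)}
    (hQ : H85wAt hℓ hM hA hBW Q 𝔫) (hQ' : H85wAt hℓ hM hA hBW Q' 𝔫) : Q = Q' := by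
  apply Place.ext
  ext y
  rw [hQ y, hQ' y]

end Unique

section Bridge

variable (A : ValuationSubring Kbar) (M : ℕ) {p : ℕ} [NeZero M] [NeZero p]
  (hp : p.Prime) (hM : ¬ p ∣ M) (haux : auxLevel p ∣ M) (hA : A.LiesOverPrime p)

omit [NeZero M] [NeZero p] in
/-- constants have trivial divisor. -/
theorem h85w_ord_cst (N : ℕ) {c : Kbar} (hc : c ≠ 0) (v : Place Kbar (FF N)) :
    v.ord (cst N c) = 0 := by
  have h1 : cst N c ∈ v.toValuationSubring := v.algebraMap_mem' c
  have h2 : cst N c⁻¹ ∈ v.toValuationSubring := v.algebraMap_mem' c⁻¹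
  have e : cst N c * cst N c⁻¹ = 1 := by
    rw [← map_mul, mul_inv_cancel₀ hc, map_one]
  have e' : cst N c⁻¹ * cst N c = 1 := by rw [mul_comm]; exact e
  exact v.ord_coe_unit ⟨⟨_, h1⟩, ⟨_, h2⟩, Subtype.ext e, Subtype.ext e'⟩

omit [NeZero M] [NeZero p] in
theorem h85w_ord_cst_mul (N : ℕ) {c : Kbar} (hc : c ≠ 0) {u : FF N} (hu : u ≠ 0)
    (v : Place Kbar (FF N)) : v.ord (cst N c * u) = v.ord u := by
  have hc0 : cst N c ≠ 0 := fun h0 =>
    hc ((algebraMap Kbar (FF N)).injective (h0.trans (map_zero _).symm))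
  rw [v.ord_mul hc0 hu, h85w_ord_cst N hc, zero_add]

include haux in
/-- **PURITY in the vocabulary of T-RHO-SLOPE.** -/
theorem h85w_purity_slope (r : ℕ) (u : FF (M * p)) (hu0 : u ≠ 0)
    (hr : ∀ v : Place Kbar (FF (M * p)), (r : ℤ) ∣ v.ord u)
    (Q : Place (h13sK A) (h13sFt A M)) :
    (r : ℤ) ∣ h44slOrd A M p u Q ∨ H85wSS A M hp hM hA Q := by
  obtain ⟨f, hf⟩ := h44sl_exists_red hp hM hA hu0
  have hf' := hf
  obtain ⟨-, c, hc, h, hinv, e⟩ := hf'
  have hc0 : cst (M * p) c ≠ 0 := fun h0 =>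
    hc ((algebraMap Kbar (FF (M * p))).injective (h0.trans (map_zero _).symm))
  have hr' : ∀ v : Place Kbar (FF (M * p)), (r : ℤ) ∣ v.ord (cst (M * p) c * u) := by
    intro v
    rw [h85w_ord_cst_mul (M * p) hc hu0]
    exact hr v
  rcases h85w_purity_all A M hp hM haux hA r _ h (mul_ne_zero hc0 hu0) hinv hr' Q with h1 | h1
  · left
    rw [h44sl_ord_eq hf Q]
    have e2 : h60bRedInf hp hM hA ⟨cst (M * p) c * u, h⟩ = f := by
      apply h44sl_incl_injective
      rw [h60b_incl_redInf]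
      exact e
    rw [← e2]
    exact h1
  · exact Or.inr h1

include haux in
/-- if `r ∣ ord_Q (ρ u)` at the supersingular places, then at all places. -/
theorem h85w_all_of_ss (r : ℕ) (u : FF (M * p)) (hu : u ∈ softV A (M * p)) (hu0 : u ≠ 0)
    (hui : u⁻¹ ∈ softV A (M * p))
    (hr : ∀ v : Place Kbar (FF (M * p)), (r : ℤ) ∣ v.ord u)
    (hss : ∀ Q : Place (h13sK A) (h13sFt A M), H85wSS A M hp hM hA Q →
      (r : ℤ) ∣ Q.ord (h60bRedInf hp hM hA ⟨u, hu⟩))
    (Q : Place (h13sK A) (h13sFt A M)) :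
    (r : ℤ) ∣ Q.ord (h60bRedInf hp hM hA ⟨u, hu⟩) := by
  rcases h85w_purity_all A M hp hM haux hA r u hu hu0 hui hr Q with h1 | h1
  · exact h1
  · exact hss Q h1

include haux in
/-- the same in the vocabulary of T-RHO-SLOPE. -/
theorem h85w_all_of_ss_slope (r : ℕ) (u : FF (M * p)) (hu0 : u ≠ 0)
    (hr : ∀ v : Place Kbar (FF (M * p)), (r : ℤ) ∣ v.ord u)
    (hss : ∀ Q : Place (h13sK A) (h13sFt A M), H85wSS A M hp hM hA Q →
      (r : ℤ) ∣ h44slOrd A M p u Q)
    (Q : Place (h13sK A) (h13sFt A M)) : (r : ℤ) ∣ h44slOrd A M p u Q := by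
  rcases h85w_purity_slope A M hp hM haux hA r u hu0 hr Q with h1 | h1
  · exact h1
  · exact hss Q h1

end Bridge

end Fermat.Agent.P7
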