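import Fermat.Agent.P7.H90NFAdapt
import Fermat.Agent.P7.H6NodePlace
import Fermat.Agent.P7.H85SlopeBridge
import Fermat.Agent.P7.H19EigenSlope
import Fermat.Agent.P7.H57NormRed

/-!
# Wave 7 (S44 / S40), block (E) T-EIS, the slope link (helper19)

`p ∤ M` prime, good level (`auxLevel p ∣ M`), `A` over `p`, `𝔫` a crossing point of the finite
chart of level `M p`, `e` the place of the special fibre at `𝔫` (helper85 `H85wAt`),
`m_e(u) = h44slSlope A M p u e` the slope (helper44).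

The node forms consumed by (C) (`H84aNFNode`, helper84) and by (E) (`H50tNodeForm`, helper50)
record an exponent `m` of the node coordinate `x`; in these shapes alone `m` is NOT determined
modulo `p` by `u` (a unit of `ssV` may have zeros of multiplicity `p` in the annulus).  For the
normal form of helper90 (`h90g_node_rat`: unit part a unit of the local ring `B_𝔫`) it is:

* `h19l_ord_unitAt` : a unit of `B_𝔫` has order `0` at the place at `𝔫`.
* `h19l_nfNode` : **the node form with slope link** = `h90g_nfNode` (same `m`, `γP`, `γQ`,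
  `H84aNFNode`, `H50tNodeForm`) PLUS `ord_e(ū) = m + p s` at the place `e` at `𝔫`; hence
  `m_e(u) = m mod p` (`h19l_nfNode_slope`).
* `h19l_T_eq` : `h57rT = h19vT` (the four twins of `T_l` on functions are the same term).
* `h19l_hm` : **the hypothesis `hm` of `h27g_eis_top_pow`**: if `x` is an eigenclass,
  `T_l x = c • x`, `u` a Kummer representative, and `m`, `m'` are exponents with
  `m_e(u) = m`, `m_e(T_l u) = m'` modulo `p`, then `p ∣ m' - c m`.
* `h19l_ord_of_dvd` : the end product: `p ∣ m` `⟹` `p ∣ ord_e(ū)`.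
* `h19l_all_of_nodes` : if `p ∣ ord_e(ū)` at the places at ALL crossing points, then
  `p ∣ ord_Q(ū)` at every place `Q` of the special fibre (PURITY, helper85).
-/

set_option autoImplicit false
set_option linter.unusedSectionVars false
set_option linter.unusedVariables false
set_option linter.style.longLine false
set_option linter.style.haveILetI false
set_option synthInstance.maxHeartbeats 400000
set_option maxHeartbeats 1000000

open AlgebraicCurve ModularCurve WithZero IsLocalRing Polynomial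

noncomputable section

namespace Fermat.Agent.P7

open Fermat.Agent.S37 Fermat.Agent.S37.GalI Fermat.Agent.Red Fermat.Agent.Red.GG
  Fermat.Agent.Red.GV Fermat.Agent.Red.GV.Soft Fermat.Agent.Red.ModelO Fermat.Agent.Red.Kron
  Fermat.Agent.LGC Fermat.Agent.S35 Fermat.Agent.P5 Fermat.Agent.P6

variable (A : ValuationSubring Kbar) (M : ℕ) {p : ℕ} [NeZero M] [NeZero p]

/-- a unit of the local ring `B_𝔫` has order `0` at the place at `𝔫`. -/
theorem h19l_ord_unitAt (hp : p.Prime) (hM : ¬ p ∣ M) (hA : A.LiesOverPrime p)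
    (𝔫 : Ideal (chart (M * p) A (jSS M p))) (h𝔫 : 𝔫.IsPrime)
    (hPinf : h62i_Pinf A M hp hM hA ≤ 𝔫)
    (e : Place (h13sK A) (h13sFt A M))
    (he : H85wAt hp hM hA (h62i_mem_soft A M hp hM hA) e 𝔫)
    {ε : FF (M * p)} (hε0 : ε ≠ 0)
    (hes : ∃ t : chart (M * p) A (jSS M p), t ∉ 𝔫 ∧
      (t : FF (M * p)) * ε ∈ chart (M * p) A (jSS M p) ∧
      (t : FF (M * p)) * ε⁻¹ ∈ chart (M * p) A (jSS M p)) :
    h44slOrd A M p ε e = 0 := by
  obtain ⟨t, ht, h1, h2⟩ := hes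
  have ht0 : (t : FF (M * p)) ≠ 0 := by
    intro h0
    apply ht
    have : t = 0 := Subtype.ext h0
    rw [this]
    exact 𝔫.zero_mem
  set b1 : chart (M * p) A (jSS M p) := ⟨(t : FF (M * p)) * ε, h1⟩ with hb1
  set b2 : chart (M * p) A (jSS M p) := ⟨(t : FF (M * p)) * ε⁻¹, h2⟩ with hb2
  have hprod : b1 * b2 = t * t := by
    apply Subtype.ext
    show (t : FF (M * p)) * ε * ((t : FF (M * p)) * ε⁻¹) = (t : FF (M * p)) * (t : FF (M * p))
    field_simp
  have hb1n : b1 ∉ 𝔫 := by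
    intro hmem
    have h3 : t * t ∈ 𝔫 := by
      rw [← hprod]
      exact 𝔫.mul_mem_right b2 hmem
    rcases h𝔫.mem_or_mem h3 with h | h <;> exact ht h
  have ho1 := h6n_ord_unit hp hM hA 𝔫 h𝔫 hPinf e he b1 hb1n
  have ho2 := h6n_ord_unit hp hM hA 𝔫 h𝔫 hPinf e he t ht
  have ho3 : h44slOrd A M p ((t : FF (M * p)) * ε) e =
      h44slOrd A M p (t : FF (M * p)) e + h44slOrd A M p ε e :=
    h44sl_ord_mul hp hM hA ht0 hε0 e
  have ho1' : h44slOrd A M p ((t : FF (M * p)) * ε) e = 0 := ho1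
  rw [ho1', ho2, zero_add] at ho3
  exact ho3.symm

set_option maxHeartbeats 4000000 in
/-- **the node form with slope link**: `h90g_nfNode` (helper90) with the additional
information `ord_e(ū) = m + p s` at the place(s) `e` at the node `𝔫`. -/
theorem h19l_nfNode (hp : p.Prime) (hM : ¬ p ∣ M) (haux : auxLevel p ∣ M)
    (hA : A.LiesOverPrime p)
    (𝔫 : Ideal (chart (M * p) A (jSS M p))) (h𝔫 : 𝔫.IsMaximal)
    (hPinf : h62i_Pinf A M hp hM hA ≤ 𝔫) (hP0 : h62i_P0 A M hp hM hA ≤ 𝔫)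
    {b : GQ} (hb : b ∈ A.inertiaSubgroupIn ℚ) (δ : A)
    (u : FF (M * p)) (hu : u ≠ 0)
    (hru : ∀ i, h26Centered (chart (M * p) A (jSS M p)) (chartVal (M * p) (jSS M p)) 𝔫 i →
      ∃ n : ℤ, chartVal (M * p) (jSS M p) i u = exp (-((p : ℤ) * n)))
    (hvar : ∀ z : A, (∀ σ (hσ : σ ∈ A.inertiaSubgroupIn ℚ), gal (M * p) σ • u = u →
      h56pTheta A hσ z = z) → ∃ c : A, h56pTheta A hb z = z * (1 + δ * c)) :
    ∃ (m : ℤ) (γP γQ : A), γP ≠ 0 ∧ γQ ≠ 0 ∧
      H84aNFNode ((h56pTau (M * p) b : FF (M * p) ≃+* FF (M * p)) : FF (M * p) →+* FF (M * p))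
        (h56pTheta A hb) δ p (h85cWinf A M p hp hA).toSubring
        (h85cW0 A M p hp hM hA).toSubring
        (h62yO (chart (M * p) A (jSS M p)) 𝔫 h𝔫.isPrime).toSubring ((p : ℕ) : A) u m γP γQ ∧
      H50tNodeForm A M hp hM hA 𝔫 u p m ((γP : Kbar) / (γQ : Kbar)) ∧
      ∃ s : ℤ, ∀ e : Place (h13sK A) (h13sFt A M),
        H85wAt hp hM hA (h62i_mem_soft A M hp hM hA) e 𝔫 →
          h44slOrd A M p u e = m + p * s := by
  classical
  have hprime := h𝔫.isPrime
  have hle : mExt A M p (jSS M p) ≤ 𝔫 := le_trans (h62i_m_le_Pinf A M hp hM hA) hPinf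
  have hC₀ : IfaceSSChart A M p (jSS M p) := h85s_ifaceSSChart_fin A M p hp hM hA
  have hAF := algebraMap_injective_FF (M * p) A
  obtain ⟨x, y, c, hxf, hyf, hcf, hx𝔫, hy𝔫, hc𝔫, hxy, hgen, hxW, hyW, hall⟩ :=
    h90g_node_rat A M hp hM haux hA 𝔫 h𝔫 hPinf hP0
  obtain ⟨m, s, θ, e, Tp, Tm, a, d, n, π, εinf, ε0, hθ, hθ0, he, he', hes, hdisj, hT, hue,
    hrat, hπ, hπ0, hεinf, hε0, hginf, hg0⟩ := hall u hu p hp.ne_zero hru
  have hp0 : ((p : ℕ) : A) ≠ 0 := h20n_natCast_ne_zero A p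
  obtain ⟨haF, hc0, hx0, hy0, hxyF⟩ := h62j_ne_zero hAF 𝔫 x y c hc𝔫 ((p : ℕ) : A) hp0 hxy
  have ha0 : ∀ i, i ∈ Tp ∨ i ∈ Tm → a i ≠ 0 := by
    intro i hi h0
    have h1 := (hT i hi).2.2.1
    rw [h0, zero_mul] at h1
    exact hp0 h1.symm
  set P : A[X] := h91yPoly Tp a n with hP
  set Q : A[X] := h91yPoly Tm a n with hQ
  have hPγ : P.coeff 0 ≠ 0 := h90g_coeff_zero_ne A Tp a n fun i hi => ha0 i (Or.inl hi)
  have hQγ : Q.coeff 0 ≠ 0 := h90g_coeff_zero_ne A Tm a n fun i hi => ha0 i (Or.inr hi)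
  -- the unit `E`
  set b' : FF (M * p) →+* FF (M * p) :=
    ((h56pTau (M * p) b : FF (M * p) ≃+* FF (M * p)) : FF (M * p) →+* FF (M * p)) with hb'
  obtain ⟨heO, heO'⟩ := h91i_unitAt_mem_O A M 𝔫 hprime hes
  obtain ⟨h1, h1'⟩ := h91i_const_quot_O A M hp hA hb 𝔫 hprime hθ hθ0
  obtain ⟨h2, h2'⟩ := h91i_quot_unit A M hp hM hA hb (h63p_gal_jSS M p b) hC₀ 𝔫 hprime hle
    heO heO'
  have he0 : e ≠ 0 := by
    intro h0
    rw [h0, mul_zero, zero_mul] at hue
    exact hu hue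
  have hE0 : θ * e ≠ 0 := mul_ne_zero hθ0 he0
  have hbθ0 : h56pTau (M * p) b θ ≠ 0 := (_root_.map_ne_zero _).mpr hθ0
  have hbe0 : h56pTau (M * p) b e ≠ 0 := (_root_.map_ne_zero _).mpr he0
  have hE1 : b' (θ * e) * (θ * e)⁻¹ ∈
      (h62yO (chart (M * p) A (jSS M p)) 𝔫 hprime).toSubring := by
    have e1 : b' (θ * e) * (θ * e)⁻¹ =
        (h56pTau (M * p) b θ * θ⁻¹) * (h56pTau (M * p) b e * e⁻¹) := by
      show h56pTau (M * p) b (θ * e) * (θ * e)⁻¹ = _
      rw [map_mul]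
      field_simp
    rw [e1]
    exact (h62yO (chart (M * p) A (jSS M p)) 𝔫 hprime).mul_mem h1 h2
  have hE2 : (θ * e) * (b' (θ * e))⁻¹ ∈
      (h62yO (chart (M * p) A (jSS M p)) 𝔫 hprime).toSubring := by
    have e1 : (θ * e) * (b' (θ * e))⁻¹ =
        (h56pTau (M * p) b θ * θ⁻¹)⁻¹ * (h56pTau (M * p) b e * e⁻¹)⁻¹ := by
      show (θ * e) * (h56pTau (M * p) b (θ * e))⁻¹ = _
      rw [map_mul]
      field_simp
    rw [e1]
    exact (h62yO (chart (M * p) A (jSS M p)) 𝔫 hprime).mul_mem h1' h2'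
  have hxp : (x : FF (M * p)) * (algebraMap A (FF (M * p)) ((p : ℕ) : A))⁻¹ ∈
      (h85cW0 A M p hp hM hA).toSubring := by
    have e1 : (x : FF (M * p)) * (algebraMap A (FF (M * p)) ((p : ℕ) : A))⁻¹ =
        (c : FF (M * p)) * ((y : FF (M * p)))⁻¹ := by
      rw [← div_eq_mul_inv, ← div_eq_mul_inv, div_eq_div_iff haF hy0, hxyF]
      exact mul_comm _ _
    rw [e1]
    exact Subring.mul_mem _ (h50t_chart_mem_zero hp hM hA c) hyW
  refine ⟨m, P.coeff 0, Q.coeff 0, hPγ, hQγ, ?_, ?_, s, ?_⟩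
  · refine ⟨(x : FF (M * p)), P, Q, θ * e, hx0, h50t_chart_mem_inf hp hM hA x, hxW, hxf b,
      hxp, h91yPoly_monic Tp a n,
      h91yPoly_coeff_mem Tp a n (fun i hi => (hT i (Or.inl hi)).1), hPγ,
      h91yPoly_inside Tp a d n ((p : ℕ) : A) (fun i hi => (hT i (Or.inl hi)).2.1)
        (fun i hi => (hT i (Or.inl hi)).2.2.1),
      h90g_hvar A M hb δ u hvar P (fun σ hσ hσu => (hrat σ hσ hσu).1),
      h91yPoly_monic Tm a n,
      h91yPoly_coeff_mem Tm a n (fun i hi => (hT i (Or.inr hi)).1), hQγ,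
      h91yPoly_inside Tm a d n ((p : ℕ) : A) (fun i hi => (hT i (Or.inr hi)).2.1)
        (fun i hi => (hT i (Or.inr hi)).2.2.1),
      h90g_hvar A M hb δ u hvar Q (fun σ hσ hσu => (hrat σ hσ hσu).2),
      hE0, hE1, hE2, rfl, rfl, ?_⟩
    rw [hue]
    ring
  · obtain ⟨p', q', hq', hpq⟩ := hθ
    have hqF : algebraMap A (FF (M * p)) q' ≠ 0 := fun h => hq' (hAF (by rw [h, map_zero]))
    have hθc : θ = cst (M * p) ((p' : Kbar) / (q' : Kbar)) := by
      have e1 : algebraMap A (FF (M * p)) q' = cst (M * p) (q' : Kbar) := rfl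
      have e2 : algebraMap A (FF (M * p)) p' = cst (M * p) (p' : Kbar) := rfl
      show θ = algebraMap Kbar (FF (M * p)) ((p' : Kbar) / (q' : Kbar))
      rw [map_div₀]
      exact (eq_div_iff hqF).mpr hpq
    have hκ0 : (p' : Kbar) / (q' : Kbar) ≠ 0 := by
      intro h0
      rw [h0] at hθc
      exact hθ0 (hθc.trans (map_zero (algebraMap Kbar (FF (M * p)))))
    have hα0 : ((P.coeff 0 : A) : Kbar) / ((Q.coeff 0 : A) : Kbar) ≠ 0 := by
      refine div_ne_zero ?_ ?_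
      · intro h0
        exact hPγ (Subtype.ext h0)
      · intro h0
        exact hQγ (Subtype.ext h0)
    have hαc : cst (M * p) (((P.coeff 0 : A) : Kbar) / ((Q.coeff 0 : A) : Kbar)) =
        algebraMap A (FF (M * p)) (P.coeff 0) * (algebraMap A (FF (M * p)) (Q.coeff 0))⁻¹ := by
      show algebraMap Kbar (FF (M * p)) (((P.coeff 0 : A) : Kbar) / ((Q.coeff 0 : A) : Kbar)) = _
      rw [map_div₀, div_eq_mul_inv]
      rfl
    refine ⟨h62x_torOnBoth A M hp hM hA 𝔫 hPinf hP0, x, y, c, hc𝔫, hxy, hxW, hyW, s,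
      (p' : Kbar) / (q' : Kbar),
      aeval (x : FF (M * p)) P * (aeval (x : FF (M * p)) Q)⁻¹, e, εinf, ε0, π, hπ, hκ0, hα0,
      ?_, he, he', hginf, hεinf, ?_, hε0⟩
    · rw [← hθc]
      exact hue
    · rw [hαc]
      exact hg0
  · -- the slope link
    intro e₀ he₀
    have ham : ((p : ℕ) : A) ∈ maximalIdeal A := by
      rw [GG.mem_maximalIdeal_iff]
      have hcast : (((p : ℕ) : A) : Kbar) = (p : Kbar) := rfl
      rw [hcast]
      exact hA
    have hat : H44slAt A M p 𝔫 (x : FF (M * p)) e₀ :=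
      h6n_at_node hp hM hA 𝔫 h𝔫 hPinf x y c hx𝔫 hx0 ((p : ℕ) : A) ham hxy hgen hxW e₀ he₀
    have hεinf' : εinf ∈ h26U π (softV A (M * p)) := hεinf
    have hord := h44sl_ord_of_normal hp hM hA e₀ hπ hθ hθ0 hx0 he0 hue hginf hεinf'
    rw [hord, hat.1, h19l_ord_unitAt A M hp hM hA 𝔫 hprime hPinf e₀ he₀ he0 hes, mul_one,
      add_zero]

/-- the slope from the order. -/
theorem h19l_slope_of_ord {u : FF (M * p)} {e : Place (h13sK A) (h13sFt A M)} {m s : ℤ}
    (h : h44slOrd A M p u e = m + p * s) : h44slSlope A M p u e = (m : ZMod p) := by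
  unfold h44slSlope
  rw [h, Int.cast_add, Int.cast_mul, Int.cast_natCast, ZMod.natCast_self, zero_mul, add_zero]

/-- the twins of `T_l` on functions are the same term. -/
theorem h19l_T_eq (N l : ℕ) [NeZero N] [NeZero l] (u : FF N) : h57rT N l u = h19vT N l u := rfl

/-- **the hypothesis `hm` of `h27g_eis_top_pow`**: for an eigenclass `T_l x = c • x` with Kummer
representative `u`, exponents `m`, `m'` of node forms (with slope link) of `u` and `T_l u` at the
same place satisfy `p ∣ m' - c m`. -/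
theorem h19l_hm (hp : p.Prime) (hM : ¬ p ∣ M) (hA : A.LiesOverPrime p)
    {l : ℕ} (hl : l.Prime) {x : JZero (M * p)} {u : FF (M * p)}
    (hu : Fermat.Agent.Jac.K1.IsKummerPair p x u) (c : ℤ)
    (hc : heckeOperatorBar (M * p) ⟨l, hl⟩ x = c • x)
    (e : Place (h13sK A) (h13sFt A M)) {m m' s s' : ℤ}
    (ho : h44slOrd A M p u e = m + p * s)
    (ho' : haveI : NeZero l := ⟨hl.ne_zero⟩
      h44slOrd A M p (h57rT (M * p) l u) e = m' + p * s') :
    (p : ℤ) ∣ m' - c * m := by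
  haveI : NeZero l := ⟨hl.ne_zero⟩
  have h1 := h19l_slope_of_ord A M ho
  have h2 := h19l_slope_of_ord A M ho'
  have h3 := h19es_slope_T hp hM hA hl hu c hc e
  rw [← h19l_T_eq, h2, h1] at h3
  have h4 : ((m' - c * m : ℤ) : ZMod p) = 0 := by
    rw [Int.cast_sub, Int.cast_mul, h3, sub_self]
  exact (ZMod.intCast_zmod_eq_zero_iff_dvd _ p).mp h4

/-- the end product at one place: `p ∣ m` `⟹` `p ∣ ord_e(ū)`. -/
theorem h19l_ord_of_dvd {u : FF (M * p)} {e : Place (h13sK A) (h13sFt A M)} {m s : ℤ}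
    (h : h44slOrd A M p u e = m + p * s) (hm : (p : ℤ) ∣ m) :
    (p : ℤ) ∣ h44slOrd A M p u e := by
  rw [h]
  exact dvd_add hm (dvd_mul_right _ _)

/-- the end product: if `p ∣ ord_e(ū)` at the places at all the crossing points, then
`p ∣ ord_Q(ū)` at EVERY place `Q` of the special fibre (PURITY off the crossing points). -/
theorem h19l_all_of_nodes (hp : p.Prime) (hM : ¬ p ∣ M) (haux : auxLevel p ∣ M)
    (hA : A.LiesOverPrime p) (u : FF (M * p)) (hu0 : u ≠ 0)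
    (hr : ∀ v : Place Kbar (FF (M * p)), (p : ℤ) ∣ v.ord u)
    (hnode : ∀ 𝔫 : Ideal (chart (M * p) A (jSS M p)), 𝔫.IsMaximal →
      h62i_Pinf A M hp hM hA ≤ 𝔫 → h62i_P0 A M hp hM hA ≤ 𝔫 →
      ∀ e : Place (h13sK A) (h13sFt A M),
        H85wAt hp hM hA (h62i_mem_soft A M hp hM hA) e 𝔫 → (p : ℤ) ∣ h44slOrd A M p u e)
    (Q : Place (h13sK A) (h13sFt A M)) : (p : ℤ) ∣ h44slOrd A M p u Q :=
  h85w_all_of_ss_slope A M hp hM haux hA p u hu0 hr
    (fun Q' ⟨𝔫, h𝔫, h1, h2, h3⟩ => hnode 𝔫 h𝔫 h1 h2 Q' h3) Q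

end Fermat.Agent.P7
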