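import Fermat.Agent.P7.H19SlopeLink

/-!
# Wave 7 (S44 / S40), block (E) T-EIS, the slope link with rationality (helper19)

`h19l_nfNode_full` = `h19l_nfNode` (`P7/H19SlopeLink.lean`) PLUS the rationality of the node
constant: `γP / γQ` is fixed by every element of the inertia group of `A` fixing `u`
(the hypotheses `hfix`, `hfix'` of `h27g_eis_top_pow` for an `I_β`-fixed Kummer function `u`).

* `h19l_nfNode_full` : at a crossing point `𝔫`, for `u ≠ 0` with `p ∣ div u` near `𝔫`: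
  `∃ m γP γQ`, `H84aNFNode … u m γP γQ`, `H50tNodeForm … u p m (γP / γQ)`,
  `ord_e(ū) = m + p s` at the place `e` at `𝔫`, and `σ (γP / γQ) = γP / γQ` for `σ ∈ I`,
  `σ u = u`.
* `h19l_nfNode_kummer` : the same for a Kummer representative `u` of a `p`-torsion class.
-/

set_option autoImplicit false
set_option linter.unusedSectionVars false
set_option linter.unusedVariables false
set_option linter.style.longLine false
set_option linter.style.haveILetI false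
set_option synthInstance.maxHeartbeats 400000
set_option maxHeartbeats 1000000

open AlgebraicCurve ModularCurve WithZero IsLocalRing Polynomial

noncomputable section

namespace Fermat.Agent.P7

open Fermat.Agent.S37 Fermat.Agent.S37.GalI Fermat.Agent.Red Fermat.Agent.Red.GG
  Fermat.Agent.Red.GV Fermat.Agent.Red.GV.Soft Fermat.Agent.Red.ModelO Fermat.Agent.Red.Kron
  Fermat.Agent.LGC Fermat.Agent.S35 Fermat.Agent.P5 Fermat.Agent.P6

variable (A : ValuationSubring Kbar) (M : ℕ) {p : ℕ} [NeZero M] [NeZero p]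

set_option maxHeartbeats 4000000 in
/-- **the node form with slope link and rationality**: `h90g_nfNode` (helper90) with the
additional information `ord_e(ū) = m + p s` at the place(s) `e` at the node `𝔫`, and the node
constant `γP / γQ` fixed by every inertia element fixing `u`. -/
theorem h19l_nfNode_full (hp : p.Prime) (hM : ¬ p ∣ M) (haux : auxLevel p ∣ M)
    (hA : A.LiesOverPrime p)
    (𝔫 : Ideal (chart (M * p) A (jSS M p))) (h𝔫 : 𝔫.IsMaximal)
    (hPinf : h62i_Pinf A M hp hM hA ≤ 𝔫) (hP0 : h62i_P0 A M hp hM hA ≤ 𝔫)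
    {b : GQ} (hb : b ∈ A.inertiaSubgroupIn ℚ) (δ : A)
    (u : FF (M * p)) (hu : u ≠ 0)
    (hru : ∀ i, h26Centered (chart (M * p) A (jSS M p)) (chartVal (M * p) (jSS M p)) 𝔫 i →
      ∃ n : ℤ, chartVal (M * p) (jSS M p) i u = exp (-((p : ℤ) * n)))
    (hvar : ∀ z : A, (∀ σ (hσ : σ ∈ A.inertiaSubgroupIn ℚ), gal (M * p) σ • u = u →
      h56pTheta A hσ z = z) → ∃ c : A, h56pTheta A hb z = z * (1 + δ * c)) :
    ∃ (m : ℤ) (γP γQ : A), γP ≠ 0 ∧ γQ ≠ 0 ∧
      H84aNFNode ((h56pTau (M * p) b : FF (M * p) ≃+* FF (M * p)) : FF (M * p) →+* FF (M * p))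
        (h56pTheta A hb) δ p (h85cWinf A M p hp hA).toSubring
        (h85cW0 A M p hp hM hA).toSubring
        (h62yO (chart (M * p) A (jSS M p)) 𝔫 h𝔫.isPrime).toSubring ((p : ℕ) : A) u m γP γQ ∧
      H50tNodeForm A M hp hM hA 𝔫 u p m ((γP : Kbar) / (γQ : Kbar)) ∧
      (∃ s : ℤ, ∀ e : Place (h13sK A) (h13sFt A M),
        H85wAt hp hM hA (h62i_mem_soft A M hp hM hA) e 𝔫 →
          h44slOrd A M p u e = m + p * s) ∧
      ∀ σ ∈ A.inertiaSubgroupIn ℚ, gal (M * p) σ • u = u →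
        σ ((γP : Kbar) / (γQ : Kbar)) = (γP : Kbar) / (γQ : Kbar) := by
  classical
  have hprime := h𝔫.isPrime
  have hle : mExt A M p (jSS M p) ≤ 𝔫 := le_trans (h62i_m_le_Pinf A M hp hM hA) hPinf
  have hC₀ : IfaceSSChart A M p (jSS M p) := h85s_ifaceSSChart_fin A M p hp hM hA
  have hAF := algebraMap_injective_FF (M * p) A
  obtain ⟨x, y, c, hxf, hyf, hcf, hx𝔫, hy𝔫, hc𝔫, hxy, hgen, hxW, hyW, hall⟩ :=
    h90g_node_rat A M hp hM haux hA 𝔫 h𝔫 hPinf hP0
  obtain ⟨m, s, θ, e, Tp, Tm, a, d, n, π, εinf, ε0, hθ, hθ0, he, he', hes, hdisj, hT, hue,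
    hrat, hπ, hπ0, hεinf, hε0, hginf, hg0⟩ := hall u hu p hp.ne_zero hru
  have hp0 : ((p : ℕ) : A) ≠ 0 := h20n_natCast_ne_zero A p
  obtain ⟨haF, hc0, hx0, hy0, hxyF⟩ := h62j_ne_zero hAF 𝔫 x y c hc𝔫 ((p : ℕ) : A) hp0 hxy
  have ha0 : ∀ i, i ∈ Tp ∨ i ∈ Tm → a i ≠ 0 := by
    intro i hi h0
    have h1 := (hT i hi).2.2.1
    rw [h0, zero_mul] at h1
    exact hp0 h1.symm
  set P : A[X] := h91yPoly Tp a n with hP
  set Q : A[X] := h91yPoly Tm a n with hQ
  have hPγ : P.coeff 0 ≠ 0 := h90g_coeff_zero_ne A Tp a n fun i hi => ha0 i (Or.inl hi)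
  have hQγ : Q.coeff 0 ≠ 0 := h90g_coeff_zero_ne A Tm a n fun i hi => ha0 i (Or.inr hi)
  -- the unit `E`
  set b' : FF (M * p) →+* FF (M * p) :=
    ((h56pTau (M * p) b : FF (M * p) ≃+* FF (M * p)) : FF (M * p) →+* FF (M * p)) with hb'
  obtain ⟨heO, heO'⟩ := h91i_unitAt_mem_O A M 𝔫 hprime hes
  obtain ⟨h1, h1'⟩ := h91i_const_quot_O A M hp hA hb 𝔫 hprime hθ hθ0
  obtain ⟨h2, h2'⟩ := h91i_quot_unit A M hp hM hA hb (h63p_gal_jSS M p b) hC₀ 𝔫 hprime hle
    heO heO'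
  have he0 : e ≠ 0 := by
    intro h0
    rw [h0, mul_zero, zero_mul] at hue
    exact hu hue
  have hE0 : θ * e ≠ 0 := mul_ne_zero hθ0 he0
  have hbθ0 : h56pTau (M * p) b θ ≠ 0 := (_root_.map_ne_zero _).mpr hθ0
  have hbe0 : h56pTau (M * p) b e ≠ 0 := (_root_.map_ne_zero _).mpr he0
  have hE1 : b' (θ * e) * (θ * e)⁻¹ ∈
      (h62yO (chart (M * p) A (jSS M p)) 𝔫 hprime).toSubring := by
    have e1 : b' (θ * e) * (θ * e)⁻¹ =
        (h56pTau (M * p) b θ * θ⁻¹) * (h56pTau (M * p) b e * e⁻¹) := by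
      show h56pTau (M * p) b (θ * e) * (θ * e)⁻¹ = _
      rw [map_mul]
      field_simp
    rw [e1]
    exact (h62yO (chart (M * p) A (jSS M p)) 𝔫 hprime).mul_mem h1 h2
  have hE2 : (θ * e) * (b' (θ * e))⁻¹ ∈
      (h62yO (chart (M * p) A (jSS M p)) 𝔫 hprime).toSubring := by
    have e1 : (θ * e) * (b' (θ * e))⁻¹ =
        (h56pTau (M * p) b θ * θ⁻¹)⁻¹ * (h56pTau (M * p) b e * e⁻¹)⁻¹ := by
      show (θ * e) * (h56pTau (M * p) b (θ * e))⁻¹ = _
      rw [map_mul]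
      field_simp
    rw [e1]
    exact (h62yO (chart (M * p) A (jSS M p)) 𝔫 hprime).mul_mem h1' h2'
  have hxp : (x : FF (M * p)) * (algebraMap A (FF (M * p)) ((p : ℕ) : A))⁻¹ ∈
      (h85cW0 A M p hp hM hA).toSubring := by
    have e1 : (x : FF (M * p)) * (algebraMap A (FF (M * p)) ((p : ℕ) : A))⁻¹ =
        (c : FF (M * p)) * ((y : FF (M * p)))⁻¹ := by
      rw [← div_eq_mul_inv, ← div_eq_mul_inv, div_eq_div_iff haF hy0, hxyF]
      exact mul_comm _ _
    rw [e1]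
    exact Subring.mul_mem _ (h50t_chart_mem_zero hp hM hA c) hyW
  refine ⟨m, P.coeff 0, Q.coeff 0, hPγ, hQγ, ?_, ?_, ⟨s, ?_⟩, ?_⟩
  · refine ⟨(x : FF (M * p)), P, Q, θ * e, hx0, h50t_chart_mem_inf hp hM hA x, hxW, hxf b,
      hxp, h91yPoly_monic Tp a n,
      h91yPoly_coeff_mem Tp a n (fun i hi => (hT i (Or.inl hi)).1), hPγ,
      h91yPoly_inside Tp a d n ((p : ℕ) : A) (fun i hi => (hT i (Or.inl hi)).2.1)
        (fun i hi => (hT i (Or.inl hi)).2.2.1),
      h90g_hvar A M hb δ u hvar P (fun σ hσ hσu => (hrat σ hσ hσu).1),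
      h91yPoly_monic Tm a n,
      h91yPoly_coeff_mem Tm a n (fun i hi => (hT i (Or.inr hi)).1), hQγ,
      h91yPoly_inside Tm a d n ((p : ℕ) : A) (fun i hi => (hT i (Or.inr hi)).2.1)
        (fun i hi => (hT i (Or.inr hi)).2.2.1),
      h90g_hvar A M hb δ u hvar Q (fun σ hσ hσu => (hrat σ hσ hσu).2),
      hE0, hE1, hE2, rfl, rfl, ?_⟩
    rw [hue]
    ring
  · obtain ⟨p', q', hq', hpq⟩ := hθ
    have hqF : algebraMap A (FF (M * p)) q' ≠ 0 := fun h => hq' (hAF (by rw [h, map_zero]))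
    have hθc : θ = cst (M * p) ((p' : Kbar) / (q' : Kbar)) := by
      have e1 : algebraMap A (FF (M * p)) q' = cst (M * p) (q' : Kbar) := rfl
      have e2 : algebraMap A (FF (M * p)) p' = cst (M * p) (p' : Kbar) := rfl
      show θ = algebraMap Kbar (FF (M * p)) ((p' : Kbar) / (q' : Kbar))
      rw [map_div₀]
      exact (eq_div_iff hqF).mpr hpq
    have hκ0 : (p' : Kbar) / (q' : Kbar) ≠ 0 := by
      intro h0
      rw [h0] at hθc
      exact hθ0 (hθc.trans (map_zero (algebraMap Kbar (FF (M * p)))))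
    have hα0 : ((P.coeff 0 : A) : Kbar) / ((Q.coeff 0 : A) : Kbar) ≠ 0 := by
      refine div_ne_zero ?_ ?_
      · intro h0
        exact hPγ (Subtype.ext h0)
      · intro h0
        exact hQγ (Subtype.ext h0)
    have hαc : cst (M * p) (((P.coeff 0 : A) : Kbar) / ((Q.coeff 0 : A) : Kbar)) =
        algebraMap A (FF (M * p)) (P.coeff 0) * (algebraMap A (FF (M * p)) (Q.coeff 0))⁻¹ := by
      show algebraMap Kbar (FF (M * p)) (((P.coeff 0 : A) : Kbar) / ((Q.coeff 0 : A) : Kbar)) = _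
      rw [map_div₀, div_eq_mul_inv]
      rfl
    refine ⟨h62x_torOnBoth A M hp hM hA 𝔫 hPinf hP0, x, y, c, hc𝔫, hxy, hxW, hyW, s,
      (p' : Kbar) / (q' : Kbar),
      aeval (x : FF (M * p)) P * (aeval (x : FF (M * p)) Q)⁻¹, e, εinf, ε0, π, hπ, hκ0, hα0,
      ?_, he, he', hginf, hεinf, ?_, hε0⟩
    · rw [← hθc]
      exact hue
    · rw [hαc]
      exact hg0
  · -- the slope link
    intro e₀ he₀
    have ham : ((p : ℕ) : A) ∈ maximalIdeal A := by
      rw [GG.mem_maximalIdeal_iff]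
      have hcast : (((p : ℕ) : A) : Kbar) = (p : Kbar) := rfl
      rw [hcast]
      exact hA
    have hat : H44slAt A M p 𝔫 (x : FF (M * p)) e₀ :=
      h6n_at_node hp hM hA 𝔫 h𝔫 hPinf x y c hx𝔫 hx0 ((p : ℕ) : A) ham hxy hgen hxW e₀ he₀
    have hεinf' : εinf ∈ h26U π (softV A (M * p)) := hεinf
    have hord := h44sl_ord_of_normal hp hM hA e₀ hπ hθ hθ0 hx0 he0 hue hginf hεinf'
    rw [hord, hat.1, h19l_ord_unitAt A M hp hM hA 𝔫 hprime hPinf e₀ he₀ he0 hes, mul_one,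
      add_zero]
  · -- rationality of the node constant
    intro σ hσ hσu
    obtain ⟨hP', hQ'⟩ := hrat σ hσ hσu
    have h1 : h56pTheta A hσ (P.coeff 0) = P.coeff 0 := by
      have := congrArg (fun R : A[X] => R.coeff 0) hP'
      simpa [Polynomial.coeff_map] using this
    have h2 : h56pTheta A hσ (Q.coeff 0) = Q.coeff 0 := by
      have := congrArg (fun R : A[X] => R.coeff 0) hQ'
      simpa [Polynomial.coeff_map] using this
    have h1' : σ ((P.coeff 0 : A) : Kbar) = ((P.coeff 0 : A) : Kbar) := by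
      rw [← h56p_coe_theta A hσ, h1]
    have h2' : σ ((Q.coeff 0 : A) : Kbar) = ((Q.coeff 0 : A) : Kbar) := by
      rw [← h56p_coe_theta A hσ, h2]
    rw [map_div₀, h1', h2']

/-- **the node form of a Kummer representative** (slope link + rationality). -/
theorem h19l_nfNode_kummer (hp : p.Prime) (hM : ¬ p ∣ M) (haux : auxLevel p ∣ M)
    (hA : A.LiesOverPrime p)
    (𝔫 : Ideal (chart (M * p) A (jSS M p))) (h𝔫 : 𝔫.IsMaximal)
    (hPinf : h62i_Pinf A M hp hM hA ≤ 𝔫) (hP0 : h62i_P0 A M hp hM hA ≤ 𝔫)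
    {b : GQ} (hb : b ∈ A.inertiaSubgroupIn ℚ) (δ : A)
    {x : JZero (M * p)} {u : FF (M * p)} (hu : Fermat.Agent.Jac.K1.IsKummerPair p x u)
    (hvar : ∀ z : A, (∀ σ (hσ : σ ∈ A.inertiaSubgroupIn ℚ), gal (M * p) σ • u = u →
      h56pTheta A hσ z = z) → ∃ c : A, h56pTheta A hb z = z * (1 + δ * c)) :
    ∃ (m : ℤ) (γP γQ : A), γP ≠ 0 ∧ γQ ≠ 0 ∧
      H84aNFNode ((h56pTau (M * p) b : FF (M * p) ≃+* FF (M * p)) : FF (M * p) →+* FF (M * p))
        (h56pTheta A hb) δ p (h85cWinf A M p hp hA).toSubring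
        (h85cW0 A M p hp hM hA).toSubring
        (h62yO (chart (M * p) A (jSS M p)) 𝔫 h𝔫.isPrime).toSubring ((p : ℕ) : A) u m γP γQ ∧
      H50tNodeForm A M hp hM hA 𝔫 u p m ((γP : Kbar) / (γQ : Kbar)) ∧
      (∃ s : ℤ, ∀ e : Place (h13sK A) (h13sFt A M),
        H85wAt hp hM hA (h62i_mem_soft A M hp hM hA) e 𝔫 →
          h44slOrd A M p u e = m + p * s) ∧
      ∀ σ ∈ A.inertiaSubgroupIn ℚ, gal (M * p) σ • u = u →
        σ ((γP : Kbar) / (γQ : Kbar)) = (γP : Kbar) / (γQ : Kbar) :=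
  h19l_nfNode_full A M hp hM haux hA 𝔫 h𝔫 hPinf hP0 hb δ u hu.ne_zero
    (fun i _ => exists_val_eq (M * p) (jSS M p) u hu.ne_zero p (fun v => hu.dvd_ord v) i) hvar

end Fermat.Agent.P7
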