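import Fermat.Agent.Red.Kron.NormSym
import Fermat.Agent.LGC.Res44
import Fermat.Agent.LGC.SS85Comp

/-!
# Wave 7 (S40), block (5c), leaf VAL-HECKE (helper19), part A: the Gauss valuation at `∞`

`A` a valuation subring of `ℚ̄` over a prime `p`, `N` ANY level, `l` a prime with `l ∤ N`
(`l = p` allowed in part A), `α, β : F_N → F_{N l}` the two degeneracy maps.  The multiplicative
Hecke operator on functions is `T_l u = Nm_α (β u)` (`= Nm_β (α u)`, Fricke symmetry of the norm,
`Kron.norm_alpha_along_beta_eq`).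

By the landed norm formula (`Kron.norm_beta_eq`)

  `T_l u (t ^ l) = u (t ^ (l ^ 2)) · ∏_{b < l} u (ζ ^ b t)`,

every factor on the right is a Gauss-integral fraction when `u` is, so `T_l` preserves the Gauss
valuation ring `W_∞ = softV A N` and its units, and `T_l (c u) = c ^ (l + 1) T_l u` for
constants: the Gauss valuation of `T_l u` is `l + 1` times the Gauss valuation of `u`.

* `h19vT N l u` : the function `T_l u = Nm_α (β u)`.
* `h19v_T_mul`, `h19v_T_inv`, `h19v_T_one`, `h19v_T_cst`, `h19v_T_ne_zero`.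
* `h19v_T_mem_softV` : `u ∈ W_∞ ⇒ T_l u ∈ W_∞`.
* `h19v_T_unit_softV` : `u` a unit of `W_∞` `⇒` `T_l u` a unit of `W_∞`.
* `h19v_T_scaled_inf` : `c u` a unit of `W_∞` `⇒` `c ^ (l + 1) T_l u` a unit of `W_∞`.
-/

set_option autoImplicit false
set_option linter.unusedSectionVars false
set_option linter.style.haveILetI false

open ModularCurve AlgebraicCurve

noncomputable section

namespace Fermat.Agent.P7

open Fermat.Agent.S37 Fermat.Agent.Red Fermat.Agent.Red.GV Fermat.Agent.Red.GV.Soft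
  Fermat.Agent.Red.Kron Fermat.Agent.Red.TRK Fermat.Agent.LGC

section Def

variable (N l : ℕ) [NeZero N] [NeZero l]

/-- the multiplicative Hecke operator `T_l u = Nm_α (β u)` on functions of level `N`. -/
def h19vT (u : FF N) : FF N :=
  letI := algebraAlong (heckeAlphaBar Kbar N l)
  Algebra.norm (FF N) (heckeBetaBar Kbar N l u)

theorem h19v_T_mul (u v : FF N) : h19vT N l (u * v) = h19vT N l u * h19vT N l v := by
  letI := algebraAlong (heckeAlphaBar Kbar N l)
  show Algebra.norm (FF N) (heckeBetaBar Kbar N l (u * v)) = _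
  rw [map_mul, map_mul]
  rfl

theorem h19v_T_one : h19vT N l 1 = 1 := by
  letI := algebraAlong (heckeAlphaBar Kbar N l)
  show Algebra.norm (FF N) (heckeBetaBar Kbar N l 1) = _
  rw [map_one, map_one]

theorem h19v_T_zero : h19vT N l 0 = 0 := by
  have h := Fermat.Agent.Red.KR.normAlong_zero (heckeAlphaBar Kbar N l)
    (Fermat.Agent.Red.HKMod.finiteAlong_heckeAlphaBar N l)
  show Fermat.Agent.Red.KR.normAlong (heckeAlphaBar Kbar N l) (heckeBetaBar Kbar N l 0) = 0
  rw [map_zero]
  exact h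

theorem h19v_T_inv (u : FF N) : h19vT N l u⁻¹ = (h19vT N l u)⁻¹ := by
  by_cases hu : u = 0
  · rw [hu, inv_zero, h19v_T_zero, inv_zero]
  · have h1 : h19vT N l u⁻¹ * h19vT N l u = 1 := by
      rw [← h19v_T_mul, inv_mul_cancel₀ hu, h19v_T_one]
    exact eq_inv_of_mul_eq_one_left h1

theorem h19v_T_ne_zero {u : FF N} (hu : u ≠ 0) : h19vT N l u ≠ 0 := by
  intro h0
  have h1 : h19vT N l u⁻¹ * h19vT N l u = 1 := by
    rw [← h19v_T_mul, inv_mul_cancel₀ hu, h19v_T_one]
  rw [h0, mul_zero] at h1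
  exact zero_ne_one h1

end Def

section Series

variable (N l : ℕ) [NeZero N] [NeZero l]

/-- the norm formula in the vocabulary of `h19vT`. -/
theorem h19v_T_series (hl : l.Prime) (hN : ¬ l ∣ N) (ζ : Kbar) (hζ : IsPrimitiveRoot ζ l)
    (u : FF N) :
    qExpand Kbar l ((h19vT N l u : FF N) : LaurentSeries Kbar) =
      qExpand Kbar (l * l) (u : LaurentSeries Kbar) *
        ∏ b ∈ Finset.range l, twistK (ζ ^ b) (u : LaurentSeries Kbar) :=
  norm_beta_eq N l hl hN ζ hζ u

/-- `T_l u = Nm_β (α u)` as well. -/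
theorem h19v_T_eq_norm_beta (hl : l.Prime) (hN : ¬ l ∣ N) (u : FF N) :
    h19vT N l u =
      (letI := algebraAlong (heckeBetaBar Kbar N l);
        Algebra.norm (FF N) (heckeAlphaBar Kbar N l u)) :=
  (norm_alpha_along_beta_eq N l hl hN u).symm

end Series

section Gauss

variable (A : ValuationSubring Kbar) {p : ℕ} (hp : p.Prime) (hA : A.LiesOverPrime p)
  (N l : ℕ) [NeZero N] [NeZero l]

include hp hA in
/-- **`T_l` preserves the Gauss valuation ring at `∞`.** -/
theorem h19v_T_mem_softV (hl : l.Prime) (hN : ¬ l ∣ N) {u : FF N} (hu : u ∈ softV A N) :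
    h19vT N l u ∈ softV A N := by
  obtain ⟨ζ, hζ⟩ : ∃ ζ : Kbar, IsPrimitiveRoot ζ l :=
    HasEnoughRootsOfUnity.exists_primitiveRoot Kbar l
  have hs : ((u : FF N) : LaurentSeries Kbar) ∈ softOT A (IsLocalRing.residue A) := hu
  have h1 : qExpand Kbar (l * l) ((u : FF N) : LaurentSeries Kbar) ∈
      softOT A (IsLocalRing.residue A) :=
    mem_softOT_qExpand A _ (l * l) hs
  have h2 : ∀ b ∈ Finset.range l, twistK (ζ ^ b) ((u : FF N) : LaurentSeries Kbar) ∈
      softOT A (IsLocalRing.residue A) := by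
    intro b _
    obtain ⟨w, hw⟩ := h44g_exists_unit_of_pow_eq_one A (NeZero.ne l)
      (show (ζ ^ b) ^ l = 1 by rw [← pow_mul, mul_comm, pow_mul, hζ.pow_eq_one, one_pow])
    rw [← hw]
    exact h44r_twistK_mem_softOT w hs
  have h3 : qExpand Kbar l ((h19vT N l u : FF N) : LaurentSeries Kbar) ∈
      softOT A (IsLocalRing.residue A) := by
    rw [h19v_T_series N l hl hN ζ hζ u]
    exact mul_mem h1 (Subring.prod_mem _ h2)
  have h4 : heckeBetaBar Kbar N l (h19vT N l u) ∈ softV A (N * l) := by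
    rw [mem_softV_iff, coe_heckeBetaBar]
    exact h3
  exact (beta_mem_softV_iff A hp hA l (h19vT N l u)).mp h4

include hp hA in
/-- **`T_l` preserves the units of the Gauss valuation ring at `∞`.** -/
theorem h19v_T_unit_softV (hl : l.Prime) (hN : ¬ l ∣ N) {u : FF N} (hu : u ∈ softV A N)
    (hu' : u⁻¹ ∈ softV A N) :
    h19vT N l u ∈ softV A N ∧ (h19vT N l u)⁻¹ ∈ softV A N := by
  refine ⟨h19v_T_mem_softV A hp hA N l hl hN hu, ?_⟩
  rw [← h19v_T_inv]
  exact h19v_T_mem_softV A hp hA N l hl hN hu'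

/-- `T_l` of a constant: `T_l c = c ^ (l + 1)`. -/
theorem h19v_T_cst (hl : l.Prime) (hN : ¬ l ∣ N) (c : Kbar) :
    h19vT N l (cst N c) = cst N (c ^ (l + 1)) := by
  have h1 : heckeBetaBar Kbar N l (cst N c) = heckeAlphaBar Kbar N l (cst N c) := by
    rw [cst, AlgHom.commutes, AlgHom.commutes]
  have h2 := Fermat.Agent.Red.KR.normAlong_map (heckeAlphaBar Kbar N l) (cst N c)
  have hfr : finrankAlong Kbar (heckeAlphaBar Kbar N l) = l + 1 :=
    finrank_heckeAlphaBar N l hl hN
  show Fermat.Agent.Red.KR.normAlong (heckeAlphaBar Kbar N l) (heckeBetaBar Kbar N l (cst N c))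
    = _
  rw [h1, h2, hfr, cst, cst, map_pow]

include hp hA in
/-- **the Gauss valuation at `∞` of `T_l u` is `l + 1` times that of `u`**: if `c u` is a unit
of `W_∞` then `c ^ (l + 1) T_l u` is a unit of `W_∞`. -/
theorem h19v_T_scaled_inf (hl : l.Prime) (hN : ¬ l ∣ N) (c : Kbar) {u : FF N}
    (hu : cst N c * u ∈ softV A N) (hu' : (cst N c * u)⁻¹ ∈ softV A N) :
    cst N (c ^ (l + 1)) * h19vT N l u ∈ softV A N ∧
      (cst N (c ^ (l + 1)) * h19vT N l u)⁻¹ ∈ softV A N := by
  have h := h19v_T_unit_softV A hp hA N l hl hN hu hu'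
  rwa [h19v_T_mul, h19v_T_cst N l hl hN] at h

end Gauss

end Fermat.Agent.P7
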