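import Fermat.Agent.P7.H19ValHecke
import Fermat.Agent.S35.H31Desc
import Fermat.Agent.S35.HK.H41PushComm
import Fermat.Agent.Red.EST.Assembly

/-!
# Wave 7 (S40), block (5c), leaf VAL-HECKE (helper19), part B: the Gauss valuation at `0`

`p` a prime, `M` a level with `p ∤ M`, `N = M p`, `w = kFricke M p` the Fricke involution of
`F_N`, `W_∞ = softV A N`, `W_0 = w⁻¹ W_∞` (`LGC.h85cW0`), `l` a prime with `l ∤ M p`.

* `h19vW M p l` : the Fricke involution at `p` of the level `M l p`, transported to `F_{M p l}`.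
* `h19v_W_alpha`, `h19v_W_beta` : it restricts to `w` along `α_l` and along `β_l`
  (landed `S35.h31s_kFricke_degen`, `S35.h41h_fricke_degenE`).
* `h19v_fricke_T` : **`T_l` commutes with the Fricke involution at `p`**:
  `w (T_l u) = T_l (w u)` (equivariance of the norm, `Algebra.norm_eq_of_equiv_equiv`).
* `h19v_T_mem_W0`, `h19v_T_unit_W0`, `h19v_T_scaled_zero` : `T_l` preserves `W_0`, its units,
  and multiplies the Gauss valuation at `0` by `l + 1`.
* `h19v_valHecke` : **VAL-HECKE**: if `c_∞ u` is a unit of `W_∞` and `c_0 u` is a unit of `W_0`,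
  then `c_∞ ^ (l + 1) T_l u` is a unit of `W_∞` and `c_0 ^ (l + 1) T_l u` is a unit of `W_0`;
  i.e. `v_∞ (T_l u) = (l + 1) v_∞ (u)`, `v_0 (T_l u) = (l + 1) v_0 (u)`,
  `j (T_l u) = (l + 1) j (u)` for `j = v_0 - v_∞`.
* `h19v_kummer_T` : Kummer dictionary: if `f` is a Kummer representative of `y ∈ J₀(N)[m]`,
  then `T_l f` is a Kummer representative of `T_l y` (`heckeOperatorBar`).
-/

set_option autoImplicit false
set_option linter.unusedSectionVars false
set_option linter.style.haveILetI false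

open ModularCurve AlgebraicCurve

noncomputable section

namespace Fermat.Agent.P7

open Fermat.Agent.S37 Fermat.Agent.Red Fermat.Agent.Red.GV Fermat.Agent.Red.GV.Soft
  Fermat.Agent.Red.Kron Fermat.Agent.Red.TRK Fermat.Agent.LGC Fermat.Agent.Red.HKComm
  Fermat.Agent.S35

section Fricke

variable (M p l : ℕ) [NeZero M] [NeZero p] [NeZero l]

theorem h19v_dvd₁ : M * p * l ∣ M * l * p := dvd_of_eq (Nat.mul_right_comm M p l)

theorem h19v_dvd₂ : M * l * p ∣ M * p * l := dvd_of_eq (Nat.mul_right_comm M l p)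

/-- the level cast `F_{M p l} ≃ F_{M l p}` (identity on `q`-expansions). -/
def h19vCast : FF (M * p * l) ≃+* FF (M * l * p) :=
  RingEquiv.ofRingHom
    (degen (h19v_dvd₁ M p l)).toRingHom
    (degen (h19v_dvd₂ M p l)).toRingHom
    (RingHom.ext fun x => Subtype.ext
      ((coe_degen (h19v_dvd₁ M p l) (degen (h19v_dvd₂ M p l) x)).trans
        (coe_degen (h19v_dvd₂ M p l) x)))
    (RingHom.ext fun x => Subtype.ext
      ((coe_degen (h19v_dvd₂ M p l) (degen (h19v_dvd₁ M p l) x)).trans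
        (coe_degen (h19v_dvd₁ M p l) x)))

theorem h19v_coe_cast (x : FF (M * p * l)) :
    ((h19vCast M p l x : FF (M * l * p)) : LaurentSeries Kbar) = (x : LaurentSeries Kbar) :=
  coe_degen (h19v_dvd₁ M p l) x

theorem h19v_coe_cast_symm (x : FF (M * l * p)) :
    (((h19vCast M p l).symm x : FF (M * p * l)) : LaurentSeries Kbar) =
      (x : LaurentSeries Kbar) :=
  coe_degen (h19v_dvd₂ M p l) x

variable (hp : p.Prime) (hM : ¬ p ∣ M) (hMl : ¬ p ∣ M * l)

/-- the Fricke involution at `p` of the level `M l p`, transported to `F_{M p l}`. -/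
def h19vW : FF (M * p * l) ≃+* FF (M * p * l) :=
  (h19vCast M p l).trans
    ((kFricke (M * l) p hp hMl).toRingEquiv.trans (h19vCast M p l).symm)

theorem h19v_W_apply (x : FF (M * p * l)) :
    h19vW M p l hp hMl x =
      (h19vCast M p l).symm (kFricke (M * l) p hp hMl (h19vCast M p l x)) := rfl

/-- the transported Fricke involution restricts to `w` along `α_l`. -/
theorem h19v_W_alpha (y : FF (M * p)) :
    h19vW M p l hp hMl (heckeAlphaBar Kbar (M * p) l y) =
      heckeAlphaBar Kbar (M * p) l (kFricke M p hp hM y) := by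
  have hd : M ∣ M * l := dvd_mul_right M l
  have h1 : h19vCast M p l (heckeAlphaBar Kbar (M * p) l y) =
      degen (Nat.mul_dvd_mul_right hd p) y :=
    Subtype.ext (by rw [h19v_coe_cast, coe_heckeAlphaBar, coe_degen])
  rw [h19v_W_apply, h1, h31s_kFricke_degen p hp hM hMl hd y]
  exact Subtype.ext (by rw [h19v_coe_cast_symm, coe_degen, coe_heckeAlphaBar])

/-- the transported Fricke involution restricts to `w` along `β_l`. -/
theorem h19v_W_beta (y : FF (M * p)) :
    h19vW M p l hp hMl (heckeBetaBar Kbar (M * p) l y) =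
      heckeBetaBar Kbar (M * p) l (kFricke M p hp hM y) := by
  have hb : M * p * l ∣ M * l * p := h19v_dvd₁ M p l
  have h1 : h19vCast M p l (heckeBetaBar Kbar (M * p) l y) = degenE l hb y :=
    Subtype.ext (by rw [h19v_coe_cast, coe_heckeBetaBar, coe_degenE])
  rw [h19v_W_apply, h1, h41h_fricke_degenE M p l hp hM hMl hb y]
  exact Subtype.ext (by rw [h19v_coe_cast_symm, coe_degenE, coe_heckeBetaBar])

include hMl in
/-- **`T_l` commutes with the Fricke involution at `p`.** -/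
theorem h19v_fricke_T (u : FF (M * p)) :
    kFricke M p hp hM (h19vT (M * p) l u) = h19vT (M * p) l (kFricke M p hp hM u) := by
  letI := algebraAlong (heckeAlphaBar Kbar (M * p) l)
  have he : RingHom.comp (algebraMap (FF (M * p)) (FF (M * p * l)))
      ((kFricke M p hp hM).toRingEquiv : FF (M * p) →+* FF (M * p)) =
      RingHom.comp ((h19vW M p l hp hMl : FF (M * p * l) ≃+* FF (M * p * l)) :
        FF (M * p * l) →+* FF (M * p * l)) (algebraMap (FF (M * p)) (FF (M * p * l))) :=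
    RingHom.ext fun y => (h19v_W_alpha M p l hp hM hMl y).symm
  have h := Algebra.norm_eq_of_equiv_equiv (kFricke M p hp hM).toRingEquiv
    (h19vW M p l hp hMl) he (heckeBetaBar Kbar (M * p) l u)
  have h2 : (h19vW M p l hp hMl) (heckeBetaBar Kbar (M * p) l u) =
      heckeBetaBar Kbar (M * p) l (kFricke M p hp hM u) := h19v_W_beta M p l hp hM hMl u
  rw [h2] at h
  show kFricke M p hp hM (Algebra.norm (FF (M * p)) (heckeBetaBar Kbar (M * p) l u)) =
    Algebra.norm (FF (M * p)) (heckeBetaBar Kbar (M * p) l (kFricke M p hp hM u))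
  rw [h]
  exact (kFricke M p hp hM).toRingEquiv.apply_symm_apply _

end Fricke

section Gauss

variable (A : ValuationSubring Kbar) (M p l : ℕ) [NeZero M] [NeZero p] [NeZero l]
  (hp : p.Prime) (hM : ¬ p ∣ M) (hA : A.LiesOverPrime p)

include hp hM in
/-- `p ∤ M l` if `p ∤ M` and `l ∤ M p`. -/
theorem h19v_not_dvd (hl : l.Prime) (hlN : ¬ l ∣ M * p) : ¬ p ∣ M * l := by
  intro h
  rcases (Nat.Prime.dvd_mul hp).mp h with h1 | h1
  · exact hM h1
  · have : p = l := (Nat.prime_dvd_prime_iff_eq hp hl).mp h1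
    exact hlN (this ▸ dvd_mul_left p M)

/-- **`T_l` preserves the Gauss valuation ring at `0`.** -/
theorem h19v_T_mem_W0 (hl : l.Prime) (hlN : ¬ l ∣ M * p) {u : FF (M * p)}
    (hu : u ∈ h85cW0 A M p hp hM hA) : h19vT (M * p) l u ∈ h85cW0 A M p hp hM hA := by
  rw [h85c_mem_W0_iff] at hu ⊢
  rw [h19v_fricke_T M p l hp hM (h19v_not_dvd M p l hp hM hl hlN)]
  exact h19v_T_mem_softV A hp hA (M * p) l hl hlN hu

/-- **`T_l` preserves the units of the Gauss valuation ring at `0`.** -/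
theorem h19v_T_unit_W0 (hl : l.Prime) (hlN : ¬ l ∣ M * p) {u : FF (M * p)}
    (hu : u ∈ h85cW0 A M p hp hM hA) (hu' : u⁻¹ ∈ h85cW0 A M p hp hM hA) :
    h19vT (M * p) l u ∈ h85cW0 A M p hp hM hA ∧
      (h19vT (M * p) l u)⁻¹ ∈ h85cW0 A M p hp hM hA := by
  refine ⟨h19v_T_mem_W0 A M p l hp hM hA hl hlN hu, ?_⟩
  rw [← h19v_T_inv]
  exact h19v_T_mem_W0 A M p l hp hM hA hl hlN hu'

/-- **the Gauss valuation at `0` of `T_l u` is `l + 1` times that of `u`.** -/
theorem h19v_T_scaled_zero (hl : l.Prime) (hlN : ¬ l ∣ M * p) (c : Kbar) {u : FF (M * p)}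
    (hu : cst (M * p) c * u ∈ h85cW0 A M p hp hM hA)
    (hu' : (cst (M * p) c * u)⁻¹ ∈ h85cW0 A M p hp hM hA) :
    cst (M * p) (c ^ (l + 1)) * h19vT (M * p) l u ∈ h85cW0 A M p hp hM hA ∧
      (cst (M * p) (c ^ (l + 1)) * h19vT (M * p) l u)⁻¹ ∈ h85cW0 A M p hp hM hA := by
  have h := h19v_T_unit_W0 A M p l hp hM hA hl hlN hu hu'
  rwa [h19v_T_mul, h19v_T_cst (M * p) l hl hlN] at h

/-- **VAL-HECKE**: `T_l` multiplies both Gauss valuations of level `M p` by `l + 1`. -/
theorem h19v_valHecke (hl : l.Prime) (hlN : ¬ l ∣ M * p) (u : FF (M * p)) (c₁ c₀ : Kbar)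
    (h₁ : cst (M * p) c₁ * u ∈ softV A (M * p))
    (h₁' : (cst (M * p) c₁ * u)⁻¹ ∈ softV A (M * p))
    (h₀ : cst (M * p) c₀ * u ∈ h85cW0 A M p hp hM hA)
    (h₀' : (cst (M * p) c₀ * u)⁻¹ ∈ h85cW0 A M p hp hM hA) :
    (cst (M * p) (c₁ ^ (l + 1)) * h19vT (M * p) l u ∈ softV A (M * p) ∧
      (cst (M * p) (c₁ ^ (l + 1)) * h19vT (M * p) l u)⁻¹ ∈ softV A (M * p)) ∧
    (cst (M * p) (c₀ ^ (l + 1)) * h19vT (M * p) l u ∈ h85cW0 A M p hp hM hA ∧
      (cst (M * p) (c₀ ^ (l + 1)) * h19vT (M * p) l u)⁻¹ ∈ h85cW0 A M p hp hM hA) :=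
  ⟨h19v_T_scaled_inf A hp hA (M * p) l hl hlN c₁ h₁ h₁',
    h19v_T_scaled_zero A M p l hp hM hA hl hlN c₀ h₀ h₀'⟩

end Gauss

section Kummer

open Fermat.Agent.Jac.K1 Fermat.Agent.Red.HKMod

/-- **Kummer dictionary for `T_l`**: if `f` is a Kummer representative of `y ∈ J₀(N)[m]`, then
`T_l f = Nm_α (β f)` is a Kummer representative of `T_l y`. -/
theorem h19v_kummer_T (N : ℕ) [NeZero N] {l : ℕ} (hl : l.Prime) {m : ℕ} {y : JZero N}
    {f : FF N} (hf : IsKummerPair m y f) :
    haveI : NeZero l := ⟨hl.ne_zero⟩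
    IsKummerPair m (heckeOperatorBar N ⟨l, hl⟩ y) (h19vT N l f) := by
  haveI : NeZero l := ⟨hl.ne_zero⟩
  have := hasPrincipalDivisors_FF (N * l)
  have h1 := hf.correspondence (heckeBetaBar Kbar N l) (heckeAlphaBar Kbar N l)
    (heckeBetaBarIntegral N l) (heckeAlphaBarIntegral N l)
    (fundamentalIdentityAlong_heckeBetaBar N l) (finiteAlong_heckeAlphaBar N l)
    (normFormulaAlong_heckeAlphaBar N l)
  have h2 : heckeOperatorBar N ⟨l, hl⟩ y
      = Pic0.correspondence (heckeBetaBar Kbar N l) (heckeAlphaBar Kbar N l)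
          (heckeBetaBarIntegral N l) (heckeAlphaBarIntegral N l)
          (fundamentalIdentityAlong_heckeBetaBar N l) (finiteAlong_heckeAlphaBar N l)
          (normFormulaAlong_heckeAlphaBar N l) y := by
    change heckeOperatorAlong Kbar N l y = _
    rw [heckeOperatorAlong_eq_heckePic0Bar]
    rfl
  rw [h2]
  exact h1

end Kummer

end Fermat.Agent.P7
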