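import Fermat.Agent.P7.H1IntModel
import Fermat.Agent.P7.H37GapM
import Fermat.Agent.Red.MatchLoc
import Fermat.Agent.Red.SM.Ram
import Fermat.Agent.P5.H40RRInst
import Fermat.Agent.P5.H58DictG

/-!
# Wave 7, DLOG at the level `M`: (S2) `r(∞) = Q_∞`, unconditional (helper1, prefix `h1i_`)

`M` a good level, `A` over `ℓ`, `r` the reduction map of places (`H13sIsRed A M r`), `oo` the
`q`-order place of `FF M`, `Q` the `q`-order place of the special fibre.

* `h1i_s2 : H26iS2` (exact frozen Prop of `P7/H26IntIface.lean`): `r oo = Q`.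

Proof: RED-DIV for the Gauss unit `1 / j` gives a cusp `v₀` with `r v₀ = Q`; for `f` in the chart at
infinity the values `a = f(v₀)` and `b = f(oo)` (= the constant term of the `q`-expansion, in `A` by
INT `h1i_int`) are congruent modulo `𝔪_A`: otherwise `f - a` is a Gauss unit whose reduction has
`q`-order `0` (INT), regular on the fibre of `Q` (non-finite places) with a zero at `v₀`,
contradicting RED-DIV.  Hence `SameRed A v₀ oo` and `r oo = r v₀ = Q`.
-/

set_option autoImplicit false
set_option linter.unusedSectionVars false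
set_option linter.style.haveILetI false
set_option maxHeartbeats 800000

open AlgebraicCurve ModularCurve IsLocalRing

noncomputable section

namespace Fermat.Agent.P7

open Fermat.Agent.S37 Fermat.Agent.Red.GV Fermat.Agent.P5 Fermat.Agent.Red.Match

/-- the value of a push-forward. -/
theorem h1i_push_apply {α β : Type*} [DecidableEq β] (r : α → β) (D : α →₀ ℤ) (b : β) :
    Finsupp.mapDomain r D b = ∑ a ∈ D.support, if r a = b then D a else 0 := by
  rw [Finsupp.mapDomain, Finsupp.sum_apply, Finsupp.sum]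
  simp only [Finsupp.single_apply]

/-- a positive push-forward has a positive term. -/
theorem h1i_exists_pos_of_push_pos {α β : Type*} (r : α → β) (D : α →₀ ℤ) (b : β)
    (h : 0 < Finsupp.mapDomain r D b) : ∃ a, r a = b ∧ 0 < D a := by
  classical
  rw [h1i_push_apply] at h
  by_contra hno
  push Not at hno
  have : ∑ a ∈ D.support, (if r a = b then D a else 0) ≤ 0 := by
    refine Finset.sum_nonpos fun a _ => ?_
    split_ifs with ha
    · exact hno a ha
    · exact le_rfl
  omega

/-- a push-forward with nonnegative terms and one positive term is positive. -/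
theorem h1i_push_pos {α β : Type*} (r : α → β) (D : α →₀ ℤ) (b : β)
    (hnn : ∀ a, r a = b → 0 ≤ D a) (a₀ : α) (ha₀ : r a₀ = b) (hpos : 0 < D a₀) :
    0 < Finsupp.mapDomain r D b := by
  classical
  rw [h1i_push_apply]
  have hmem : a₀ ∈ D.support := Finsupp.mem_support_iff.2 hpos.ne'
  have h1 : (if r a₀ = b then D a₀ else 0) ≤ ∑ a ∈ D.support, if r a = b then D a else 0 := by
    refine Finset.single_le_sum (f := fun a => if r a = b then D a else 0) (fun a _ => ?_) hmem
    show 0 ≤ if r a = b then D a else 0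
    split_ifs with ha
    · exact hnn a ha
    · exact le_rfl
  rw [if_pos ha₀] at h1
  omega

section Level

variable {ℓ : ℕ} (M : ℕ) [NeZero M] (A : ValuationSubring Kbar)

/-- a pole of `j` is not a finite place. -/
theorem h1i_not_isFinAt_of_pole (v : Place Kbar (FF M)) (hv : 0 < v.ord (jB M)⁻¹) :
    ¬ IsFinAt A v := by
  rintro ⟨a, -, hja⟩
  have h1 : jB M - cst M a ∈ v.toValuationSubring :=
    ValuationSubring.nonunits_subset hja
  have h2 : cst M a ∈ v.toValuationSubring := v.algebraMap_mem' a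
  have h3 : jB M ∈ v.toValuationSubring := by
    have := v.toValuationSubring.add_mem _ _ h1 h2
    simpa using this
  have h4 := Fermat.Agent.S24.DiffPlace.ord_nonneg_of_mem v h3
  rw [Place.ord_inv] at hv
  omega

/-- at a non-finite place `1 / j` is regular. -/
theorem h1i_jinv_mem_of_not_isFinAt (v : Place Kbar (FF M)) (hv : ¬ IsFinAt A v) :
    (jB M)⁻¹ ∈ v.toValuationSubring := by
  obtain ⟨a, -, ha⟩ := exists_valueAt_inv_of_not_isFinAt (A := A) hv
  have h1 : (jB M)⁻¹ - cst M a ∈ v.toValuationSubring := ValuationSubring.nonunits_subset ha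
  have h2 : cst M a ∈ v.toValuationSubring := v.algebraMap_mem' a
  have := v.toValuationSubring.add_mem _ _ h1 h2
  simpa using this

end Level

/-- **(S2)** (exact frozen Prop of `P7/H26IntIface.lean`), unconditional. -/
theorem h1i_s2 : H26iS2 := by
  intro ℓ hℓ M _ hM haux A hA r hr Q hQ oo hoo
  classical
  obtain ⟨hsurj, hfib, hRD⟩ := hr
  have hB : H13rBase Kbar (FF M) := h40r_base_FF (N := M)
  have hj0 : jB M ≠ 0 := Fermat.Agent.Red.ModelO.h85_jB_ne_zero M
  have ht0 : (jB M)⁻¹ ≠ 0 := inv_ne_zero hj0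
  have htV : (jB M)⁻¹ ∈ gaussV A M := jB_inv_mem_gaussV A M hℓ hM hA
  have htiV : ((jB M)⁻¹)⁻¹ ∈ gaussV A M := by
    rw [inv_inv]
    exact jB_mem_gaussV A M
  -- the reduction of `1 / j` has order `1`
  have hredt : gaussR A M ⟨(jB M)⁻¹, htV⟩ = (jqModC (ResidueField A))⁻¹ :=
    h37n_gaussR_jinv M A hℓ hM hA
  have hordk : ((jqModC (ResidueField A))⁻¹).order = 1 := by
    have h2 := h37g_pe_order_map_inv (RingHom.id (LaurentSeries (ResidueField A)))
      (jqModC (ResidueField A))
    simp only [RingHom.id_apply] at h2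
    rw [h2, h37g_order_jqModC]
    norm_num
  have hord1 : (h13sIncl A M (h13sRed A M ⟨(jB M)⁻¹, htV⟩)).order = 1 := by
    have h := hordk
    rw [← hredt] at h
    exact h
  have hredt0 : h13sRed A M ⟨(jB M)⁻¹, htV⟩ ≠ 0 := by
    intro h0
    rw [h0, map_zero, HahnSeries.order_zero] at hord1
    exact zero_ne_one hord1
  have hQt : Q.ord (h13sRed A M ⟨(jB M)⁻¹, htV⟩) = 1 := by
    rw [hQ _ hredt0]
    exact hord1
  obtain ⟨D, hD, -⟩ := hB.pd (jB M)⁻¹ ht0
  have hpush := hRD (jB M)⁻¹ htV htiV D hD Q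
  rw [hQt] at hpush
  -- a cusp in the fibre of `Q`
  obtain ⟨v₀, hv₀Q, hv₀pos⟩ : ∃ v₀, r v₀ = Q ∧ 0 < D v₀ :=
    h1i_exists_pos_of_push_pos r D Q (by
      have : Finsupp.mapDomain r D Q = 1 := hpush
      omega)
  rw [hD v₀] at hv₀pos
  have hv₀fin : ¬ IsFinAt A v₀ := h1i_not_isFinAt_of_pole M A v₀ hv₀pos
  -- `oo` is a cusp
  have hoot : oo.ord (jB M)⁻¹ = 1 := by
    rw [hoo _ ht0]
    have e : ((((jB M)⁻¹ : FF M)) : LaurentSeries Kbar) = (jqModC Kbar)⁻¹ := by
      show _ = (jK Kbar)⁻¹
      rw [← coe_jB M]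
      rfl
    rw [e]
    have h2 := h37g_pe_order_map_inv (RingHom.id (LaurentSeries Kbar)) (jqModC Kbar)
    simp only [RingHom.id_apply] at h2
    rw [h2, h37g_order_jqModC]
    norm_num
  have hoofin : ¬ IsFinAt A oo := h1i_not_isFinAt_of_pole M A oo (by rw [hoot]; norm_num)
  -- the fibre of `Q` consists of non-finite places
  have hfibfin : ∀ v : Place Kbar (FF M), r v = Q → ¬ IsFinAt A v := by
    intro v hv
    have hs : SameRed A v v₀ := (hfib v v₀).1 (by rw [hv, hv₀Q])
    rcases hs with ⟨-, h2, -⟩ | ⟨h1, -, -⟩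
    · exact absurd h2 hv₀fin
    · exact h1
  -- congruence of the values
  have hcong : ∀ f ∈ modelInf M A, CongAt A v₀ oo f := by
    intro f hf
    obtain ⟨a, ha⟩ := exists_valueAt_modelInf hv₀fin ⟨f, hf⟩
    obtain ⟨b, hb⟩ := exists_valueAt_modelInf hoofin ⟨f, hf⟩
    refine ⟨(a : Kbar), (b : Kbar), a.2, b.2, ha, hb, ?_⟩
    by_contra hab
    -- `G = f - a`
    have haM : cst M (a : Kbar) ∈ modelInf M A := cst_mem_modelAt M A _ a.2
    have hGM : f - cst M (a : Kbar) ∈ modelInf M A := Subring.sub_mem _ hf haM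
    have hGV : f - cst M (a : Kbar) ∈ gaussV A M := modelInf_le_gaussV A M hℓ hM hA hGM
    obtain ⟨y, hy, hyred⟩ := h1i_int_red hℓ M hM A hA _ hGM hGV
    -- the constant term of `G` is `b - a`
    have hGoo : f - cst M (a : Kbar) - cst M ((b : Kbar) - (a : Kbar)) ∈
        oo.toValuationSubring.nonunits := by
      have e : f - cst M (a : Kbar) - cst M ((b : Kbar) - (a : Kbar)) = f - cst M (b : Kbar) := by
        simp only [cst, map_sub]
        ring
      rw [e]
      exact hb
    have hcoeff0 : (((f - cst M (a : Kbar) : FF M)) : LaurentSeries Kbar).coeff 0 =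
        (b : Kbar) - (a : Kbar) := by
      set G' : FF M := f - cst M (a : Kbar) - cst M ((b : Kbar) - (a : Kbar)) with hG'
      have e : ((f - cst M (a : Kbar) : FF M) : LaurentSeries Kbar) =
          (G' : LaurentSeries Kbar) + HahnSeries.C ((b : Kbar) - (a : Kbar)) := by
        rw [← coe_cst M ((b : Kbar) - (a : Kbar))]
        have : f - cst M (a : Kbar) = G' + cst M ((b : Kbar) - (a : Kbar)) := by
          rw [hG']
          ring
        rw [this]
        rfl
      rw [e, HahnSeries.coeff_add]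
      have h0 : (G' : LaurentSeries Kbar).coeff 0 = 0 := by
        rcases eq_or_ne G' 0 with h | h
        · rw [h]
          rfl
        · have hpos := Fermat.Agent.Red.SM.h31_ord_pos_of_mem_nonunits oo hGoo h
          rw [hoo _ h] at hpos
          exact HahnSeries.coeff_eq_zero_of_lt_order hpos
      rw [h0, zero_add]
      simp
    -- the reduction of `G` has order `0`
    have hneg : ∀ i : ℤ, i < 0 → (gaussR A M ⟨f - cst M (a : Kbar), hGV⟩).coeff i = 0 :=
      h37n_red_modelInf M A hℓ hM hA _ hGM hGV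
    have hy0 : ((y.coeff 0 : A) : Kbar) = (b : Kbar) - (a : Kbar) := by
      rw [← hcoeff0, ← hy]
      rfl
    have hunit : residue A (y.coeff 0) ≠ 0 := by
      intro h0
      rw [residue_eq_zero_iff] at h0
      apply hab
      have h1 : ((y.coeff 0 : A) : Kbar) ∈ A.nonunits := by
        rw [ValuationSubring.mem_nonunits_iff_exists_mem_maximalIdeal]
        exact ⟨(y.coeff 0).2, h0⟩
      rw [hy0] at h1
      have h2 : (a : Kbar) - (b : Kbar) = -((b : Kbar) - (a : Kbar)) := by ring
      rw [h2]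
      exact (ValuationSubring.nonunits A).neg_mem h1
    have hredc0 : (gaussR A M ⟨f - cst M (a : Kbar), hGV⟩).coeff 0 ≠ 0 := by
      rw [hyred]
      exact hunit
    have hredne : gaussR A M ⟨f - cst M (a : Kbar), hGV⟩ ≠ 0 := by
      intro h0
      rw [h0, HahnSeries.coeff_zero] at hredc0
      exact hredc0 rfl
    have hordG : (gaussR A M ⟨f - cst M (a : Kbar), hGV⟩).order = 0 := by
      apply le_antisymm
      · exact HahnSeries.order_le_of_coeff_ne_zero hredc0
      · exact h37n_order_nonneg hredne hneg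
    have hG0 : f - cst M (a : Kbar) ≠ 0 := by
      intro h0
      apply hredne
      have : (⟨f - cst M (a : Kbar), hGV⟩ : gaussV A M) = 0 := Subtype.ext h0
      rw [this, map_zero]
    have hGiV : (f - cst M (a : Kbar))⁻¹ ∈ gaussV A M := by
      haveI : Fact ℓ.Prime := ⟨hℓ⟩
      exact inv_mem_gaussSubring_of_gaussRed_ne_zero A _ M ℓ (isResidueMap_residue A ℓ hA) hM
        ⟨f - cst M (a : Kbar), hGV⟩ hredne
    have hordG' : (h13sIncl A M (h13sRed A M ⟨f - cst M (a : Kbar), hGV⟩)).order = 0 :=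
      hordG
    have hredG0 : h13sRed A M ⟨f - cst M (a : Kbar), hGV⟩ ≠ 0 := by
      intro h0
      apply hredne
      have h1 : h13sIncl A M (h13sRed A M ⟨f - cst M (a : Kbar), hGV⟩) = 0 := by
        rw [h0, map_zero]
      exact h1
    have hQG : Q.ord (h13sRed A M ⟨f - cst M (a : Kbar), hGV⟩) = 0 := by
      rw [hQ _ hredG0]
      exact hordG'
    obtain ⟨DG, hDG, -⟩ := hB.pd (f - cst M (a : Kbar)) hG0
    have hpushG := hRD _ hGV hGiV DG hDG Q
    rw [hQG] at hpushG
    have hposG : 0 < Finsupp.mapDomain r DG Q := by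
      refine h1i_push_pos r DG Q (fun v hv => ?_) v₀ hv₀Q ?_
      · rw [hDG v]
        apply Fermat.Agent.S24.DiffPlace.ord_nonneg_of_mem v
        exact h58h_modelAt_regular M A (jB M)⁻¹ hGM v
          (h1i_jinv_mem_of_not_isFinAt M A v (hfibfin v hv))
      · rw [hDG v₀]
        exact Fermat.Agent.Red.SM.h31_ord_pos_of_mem_nonunits v₀ ha hG0
    have : Finsupp.mapDomain r DG Q = 0 := hpushG
    omega
  have hsame : SameRed A v₀ oo := Or.inr ⟨hv₀fin, hoofin, hcong⟩
  rw [← (hfib v₀ oo).2 hsame, hv₀Q]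

end Fermat.Agent.P7
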