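import Fermat.Agent.P7.H3DlogFinal2
import Fermat.Agent.P7.H10CuspOrthHcusp
import Fermat.Agent.P7.H1S2

/-!
# Wave 7 (row 38), DLOG: two of the three leaves of `P7/H3DlogFinal`, closed (helper1)

* `h1k_cuspRed p : H3gCuspRed p` : CUSP-ORTH-RED in the primitive form of `P7/H3DlogFinal.lean`,
  adapter of the landed `h10x_cuspOrthRed_gauss` (helper10).
* `h1k_constM p : H3gConstM p` : CONST(M), from the landed `h3g_constM_of_S2` (helper3) and
  `h1i_s2 : H26iS2`.
* `h1k_s44_of_orth` : the frozen statement S44 from ORTH(M) alone.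
-/

set_option autoImplicit false
set_option linter.unusedSectionVars false
set_option linter.style.haveILetI false

open ModularCurve AlgebraicCurve IsLocalRing

noncomputable section

namespace Fermat.Agent.P7

open Fermat.Agent.S37 Fermat.Agent.Red.GV

/-- **CUSP-ORTH-RED**, primitive form (leaf (2) of `P7/H3DlogFinal`). -/
theorem h1k_cuspRed (p : ℕ) : H3gCuspRed p := by
  intro hp _ M _ hpM A hA Q hQ f hf hreg w hw
  obtain ⟨h, c, hc, rfl⟩ := hw
  exact h10x_cuspOrthRed_gauss hp A hA M hpM f (h10x_regOff_of_place M Q hQ f hreg) hf h c hc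

/-- **CONST(M)** (leaf (1) of `P7/H3DlogFinal`). -/
theorem h1k_constM (p : ℕ) : H3gConstM p := h3g_constM_of_S2 h1i_s2 p

/-- **the frozen statement S44 from ORTH(M) alone** (`(S2)`, CONST(M), CUSP-ORTH-RED and (I-1)
are discharged). -/
theorem h1k_s44_of_orth (hO : ∀ p : ℕ, 5 ≤ p → H3gOrthM p)
    (P : FreyPackage) {N : ℕ} (hcond : P.IsConductorLevel N) (hpN : P.p ∣ N)
    (hirr : WeierstrassCurve.Affine.Point.GaloisRepIsIrreducible (K := AlgebraicClosure ℚ) ℚ
      P.freyCurve P.p)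
    (hmod : P.ModularRepOfLevel N) :
    ∃ M : ℕ, M ∣ N ∧ ¬ P.p ∣ M ∧ P.ModularRepOfLevel M :=
  h3g_s44_of_S2 h1i_s2 (fun p _ => h1k_cuspRed p) hO P hcond hpN hirr hmod

end Fermat.Agent.P7
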