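import Fermat.Agent.P5.H68RRFin
import Fermat.Agent.S24.DiffPlace

/-!
# Wave 7, DLOG at the level `M`, leaf (S2a) of H2-EXACT (helper1, prefix `h1x_`)

Abstract function-field statement (weak Riemann-Roch vocabulary of `P5/H13RRIface`):
for a place `Q₀` and a finite set `T` of places there is `m₀` such that for every `m ≥ m₀`
there is a function `G` with a pole of EXACT order `m` at `Q₀`, regular off `Q₀`, and of order `0`
(a unit) at every place of `T` different from `Q₀`.

Proof: RR-LARGE gives `ℓ(m Q₀) = ℓ((m - 1) Q₀) + 1` for `m` large, hence a function `G₀` of exact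
pole order `m`; a translate `G₀ + c` by a constant has the same poles, and at every place of `T`
at most one constant `c` makes `G₀ + c` vanish; the field of constants is infinite.
-/

set_option autoImplicit false
set_option linter.unusedSectionVars false

open AlgebraicCurve

noncomputable section

namespace Fermat.Agent.P7

open Fermat.Agent.P5

variable {K F : Type*} [Field K] [Field F] [Algebra K F]

/-- a translate by a constant keeps a pole. -/
theorem h1x_ord_add_const_of_neg (v : Place K F) (x : F) (c : K) (hx : v.ord x < 0) :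
    x + algebraMap K F c ≠ 0 ∧ v.ord (x + algebraMap K F c) = v.ord x := by
  have hx0 : x ≠ 0 := fun h => by rw [h, v.ord_zero] at hx; exact lt_irrefl _ hx
  have h1 : ¬ v.adicValuation x ≤ 1 := (v.not_adicValuation_le_one_iff).mpr hx
  have h2 : v.adicValuation (x + algebraMap K F c) = v.adicValuation x :=
    Valuation.map_add_eq_of_lt_left _
      (lt_of_le_of_lt (v.adicValuation_algebraMap_le_one c) (not_le.1 h1))
  have hne : x + algebraMap K F c ≠ 0 := by
    intro h
    rw [h, map_zero] at h2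
    exact v.adicValuation_ne_zero hx0 h2.symm
  refine ⟨hne, ?_⟩
  rw [v.adicValuation_eq_exp_neg_ord hne, v.adicValuation_eq_exp_neg_ord hx0] at h2
  have h3 := WithZero.exp_injective h2
  linarith

/-- a translate by a constant of a regular function is regular. -/
theorem h1x_ord_add_const_nonneg (v : Place K F) (x : F) (c : K) (hx : 0 ≤ v.ord x) :
    0 ≤ v.ord (x + algebraMap K F c) := by
  have h1 : v.adicValuation x ≤ 1 := (v.adicValuation_le_one_iff).2 (Or.inr hx)
  have h2 : v.adicValuation (x + algebraMap K F c) ≤ 1 :=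
    le_trans (Valuation.map_add _ _ _) (max_le h1 (v.adicValuation_algebraMap_le_one c))
  rcases (v.adicValuation_le_one_iff).1 h2 with h | h
  · rw [h, v.ord_zero]
  · exact h

/-- at most one translate of `x` vanishes at `v`. -/
theorem h1x_bad_unique (hinj : Function.Injective (algebraMap K F)) (v : Place K F) (x : F)
    (c c' : K) (h : 0 < v.ord (x + algebraMap K F c))
    (h' : 0 < v.ord (x + algebraMap K F c')) : c = c' := by
  by_contra hcc
  have hd : c - c' ≠ 0 := sub_ne_zero.2 hcc
  have hd' : algebraMap K F (c - c') ≠ 0 := fun h0 => hd (hinj (by rw [h0, map_zero]))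
  have hlt : ∀ y : F, 0 < v.ord y → v.adicValuation y < 1 := by
    intro y hy
    have hy0 : y ≠ 0 := fun h0 => by rw [h0, v.ord_zero] at hy; exact lt_irrefl _ hy
    rw [v.adicValuation_eq_exp_neg_ord hy0, ← WithZero.exp_zero, WithZero.exp_lt_exp]
    linarith
  have h1 := hlt _ h
  have h2 := hlt _ h'
  have h3 : algebraMap K F (c - c') = (x + algebraMap K F c) - (x + algebraMap K F c') := by
    rw [map_sub]
    ring
  have h4 : v.adicValuation (algebraMap K F (c - c')) < 1 := by
    rw [h3]
    exact lt_of_le_of_lt (Valuation.map_sub _ _ _) (max_lt h1 h2)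
  have h5 : v.adicValuation (algebraMap K F (c - c')) = 1 := by
    rw [v.adicValuation_eq_exp_neg_ord hd', Fermat.Agent.S24.DiffPlace.ord_algebraMap v (c - c'),
      neg_zero, WithZero.exp_zero]
  rw [h5] at h4
  exact lt_irrefl _ h4

/-- **exact pole order**: for `m` large there is a function regular off `Q₀` with a pole of
exact order `m` at `Q₀`. -/
theorem h1x_exact_pole (hB : H13rBase K F) (g : ℕ) (hg : H13rIsGenus K F g) (Q₀ : Place K F) :
    ∃ m₀ : ℕ, ∀ m : ℕ, m₀ ≤ m → ∃ G : F, G ≠ 0 ∧ Q₀.ord G = -(m : ℤ) ∧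
      ∀ v : Place K F, v ≠ Q₀ → 0 ≤ v.ord G := by
  obtain ⟨⟨c, hc⟩, -⟩ := h68r_large K F hB g hg
  obtain ⟨hfin, -, -, -⟩ := h68r_fin K F hB
  refine ⟨(c + 1).toNat + 1, fun m hm => ?_⟩
  have hm1 : 1 ≤ m := by omega
  have hmc : c ≤ (m : ℤ) - 1 := by
    have := Int.self_le_toNat (c + 1)
    omega
  have hdeg : ∀ n : ℤ, Divisor.degree (Finsupp.single Q₀ n : Divisor K F) = n := by
    intro n
    rw [Divisor.degree_single, hB.deg_one Q₀]
    simp
  have e1 := hc (Finsupp.single Q₀ (m : ℤ)) (by rw [hdeg]; linarith)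
  have e2 := hc (Finsupp.single Q₀ ((m : ℤ) - 1)) (by rw [hdeg]; exact hmc)
  rw [hdeg] at e1 e2
  have hlt : h13rL K F (Finsupp.single Q₀ ((m : ℤ) - 1)) <
      h13rL K F (Finsupp.single Q₀ (m : ℤ)) := by
    have : (h13rL K F (Finsupp.single Q₀ ((m : ℤ) - 1)) : ℤ) <
        (h13rL K F (Finsupp.single Q₀ (m : ℤ)) : ℤ) := by linarith
    exact_mod_cast this
  have hex : ∃ G : F, G ∈ riemannRochSpace (Finsupp.single Q₀ (m : ℤ) : Divisor K F) ∧
      G ∉ riemannRochSpace (Finsupp.single Q₀ ((m : ℤ) - 1) : Divisor K F) := by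
    by_contra hno
    push Not at hno
    have hle : riemannRochSpace (Finsupp.single Q₀ (m : ℤ) : Divisor K F) ≤
        riemannRochSpace (Finsupp.single Q₀ ((m : ℤ) - 1) : Divisor K F) := fun G hG => hno G hG
    have := hfin (Finsupp.single Q₀ ((m : ℤ) - 1))
    have := Submodule.finrank_mono hle
    unfold h13rL at hlt
    omega
  obtain ⟨G, hG1, hG2⟩ := hex
  rw [mem_riemannRochSpace_iff] at hG1 hG2
  push Not at hG2
  obtain ⟨w, hw0, hw⟩ := hG2
  have hwQ : w = Q₀ := by
    by_contra hne
    have h1 := (hG1 w).resolve_left hw0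
    have e0 : ∀ n : ℤ, (Finsupp.single Q₀ n : Divisor K F) w = 0 := fun n => by
      classical
      rw [Finsupp.single_apply, if_neg (Ne.symm hne)]
    rw [e0] at h1 hw
    linarith
  subst hwQ
  refine ⟨G, hw0, ?_, fun v hv => ?_⟩
  · have h1 := (hG1 w).resolve_left hw0
    rw [Finsupp.single_eq_same] at h1 hw
    linarith
  · have h1 := (hG1 v).resolve_left hw0
    have e0 : (Finsupp.single w (m : ℤ) : Divisor K F) v = 0 := by
      classical
      rw [Finsupp.single_apply, if_neg (Ne.symm hv)]
    rw [e0] at h1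
    linarith

/-- **(S2a), abstract form**: for `m` large there is a function regular off `Q₀`, with a pole of
exact order `m` at `Q₀`, and of order `0` at every place of the finite set `T` other than
`Q₀`. -/
theorem h1x_exact [Infinite K] (hB : H13rBase K F) (g : ℕ) (hg : H13rIsGenus K F g)
    (Q₀ : Place K F) (T : Finset (Place K F)) :
    ∃ m₀ : ℕ, ∀ m : ℕ, m₀ ≤ m → ∃ G : F, G ≠ 0 ∧ Q₀.ord G = -(m : ℤ) ∧
      (∀ v : Place K F, v ≠ Q₀ → 0 ≤ v.ord G) ∧
      ∀ v ∈ T, v ≠ Q₀ → v.ord G = 0 := by
  obtain ⟨m₀, hm₀⟩ := h1x_exact_pole hB g hg Q₀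
  refine ⟨m₀ + 1, fun m hm => ?_⟩
  obtain ⟨G, hG0, hGQ, hGv⟩ := hm₀ m (by omega)
  have hneg : Q₀.ord G < 0 := by
    rw [hGQ]
    have : (0 : ℤ) < (m : ℤ) := by exact_mod_cast (by omega : 0 < m)
    linarith
  -- the bad constants
  let B : Place K F → Set K := fun v => {c : K | 0 < v.ord (G + algebraMap K F c)}
  have hBfin : ∀ v : Place K F, (B v).Finite := by
    intro v
    apply Set.Subsingleton.finite
    intro c hc c' hc'
    exact h1x_bad_unique hB.inj v G c c' hc hc'
  have hU : (⋃ v ∈ (T : Set (Place K F)), B v).Finite :=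
    Set.Finite.biUnion T.finite_toSet fun v _ => hBfin v
  obtain ⟨c, hc⟩ := hU.exists_notMem
  rw [Set.mem_iUnion₂] at hc
  push Not at hc
  obtain ⟨hne, hord⟩ := h1x_ord_add_const_of_neg Q₀ G c hneg
  refine ⟨G + algebraMap K F c, hne, by rw [hord, hGQ], fun v hv => ?_, fun v hvT hv => ?_⟩
  · exact h1x_ord_add_const_nonneg v G c (hGv v hv)
  · have h1 := h1x_ord_add_const_nonneg v G c (hGv v hv)
    have h2 : ¬ 0 < v.ord (G + algebraMap K F c) := hc v (Finset.mem_coe.2 hvT)
    omega

end Fermat.Agent.P7
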