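import Fermat.Agent.P7.H1ExactSF
import Fermat.Agent.P5.H26GenusFinal

/-!
# Wave 7, DLOG at the level `M`, leaf (S2a) of H2-EXACT, LEVEL INSTANCE (helper1, prefix `h1x_`)

Special fibre of a good level `M` (`auxLevel p ∣ M`, `p ∤ M`), `A` over `p`,
`kC = h13sFt A M` over `k = h13sK A`:

* `h1x_exact_level` : for every place `Q₀` of `kC` and every finite set `T` of places there is
  `m₀` such that for all `m ≥ m₀` there is `Gb ∈ kC`, `Gb ≠ 0`, with `ord_{Q₀} Gb = -m`, regular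
  off `Q₀`, and `ord_Q Gb = 0` for every `Q ∈ T`, `Q ≠ Q₀`.
* `h1x_exact_level_j` : the same with `T` = the poles of `j̄ = h26sJ A M`:
  `ord_Q Gb = 0` at every pole `Q ≠ Q₀` of `j̄`.
-/

set_option autoImplicit false
set_option linter.unusedSectionVars false

open AlgebraicCurve ModularCurve

noncomputable section

namespace Fermat.Agent.P7

open Fermat.Agent.P5 Fermat.Agent.S37

/-- **(S2a) at the level**, arbitrary finite set `T`. -/
theorem h1x_exact_level {p : ℕ} (hp : p.Prime) (M : ℕ) [NeZero M] (hM : ¬ p ∣ M)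
    (haux : auxLevel p ∣ M) (A : ValuationSubring Kbar) (hA : A.LiesOverPrime p)
    (Q₀ : Place (h13sK A) (h13sFt A M)) (T : Finset (Place (h13sK A) (h13sFt A M))) :
    ∃ m₀ : ℕ, ∀ m : ℕ, m₀ ≤ m → ∃ G : h13sFt A M, G ≠ 0 ∧ Q₀.ord G = -(m : ℤ) ∧
      (∀ v : Place (h13sK A) (h13sFt A M), v ≠ Q₀ → 0 ≤ v.ord G) ∧
      ∀ v ∈ T, v ≠ Q₀ → v.ord G = 0 := by
  haveI : IsAlgClosed (h13sK A) := Fermat.Agent.S18.h72_residueField_isAlgClosed A
  obtain ⟨g, -, hg⟩ := h26s_genus p hp M hM haux A hA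
  exact h1x_exact (h26s_base p hp M hM haux A hA) g hg Q₀ T

/-- the poles of `j̄` form a finite set. -/
theorem h1x_poles_j_finite {p : ℕ} (hp : p.Prime) (M : ℕ) [NeZero M] (hM : ¬ p ∣ M)
    (haux : auxLevel p ∣ M) (A : ValuationSubring Kbar) (hA : A.LiesOverPrime p) :
    ∃ T : Finset (Place (h13sK A) (h13sFt A M)),
      ∀ v : Place (h13sK A) (h13sFt A M), v ∈ T ↔ v.ord (h26sJ A M) < 0 := by
  obtain ⟨-, -, hZ⟩ := h26s_zerosSF p hp M hM haux A hA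
  obtain ⟨s, hs, -⟩ := hZ (h26sJ A M)⁻¹ (Or.inr rfl)
  refine ⟨s, fun v => ?_⟩
  rw [hs v, Place.ord_inv]
  constructor <;> intro h <;> linarith

/-- **(S2a) at the level**, `T` = the poles of `j̄`. -/
theorem h1x_exact_level_j {p : ℕ} (hp : p.Prime) (M : ℕ) [NeZero M] (hM : ¬ p ∣ M)
    (haux : auxLevel p ∣ M) (A : ValuationSubring Kbar) (hA : A.LiesOverPrime p)
    (Q₀ : Place (h13sK A) (h13sFt A M)) :
    ∃ m₀ : ℕ, ∀ m : ℕ, m₀ ≤ m → ∃ G : h13sFt A M, G ≠ 0 ∧ Q₀.ord G = -(m : ℤ) ∧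
      (∀ v : Place (h13sK A) (h13sFt A M), v ≠ Q₀ → 0 ≤ v.ord G) ∧
      ∀ v : Place (h13sK A) (h13sFt A M), v ≠ Q₀ → v.ord (h26sJ A M) < 0 → v.ord G = 0 := by
  obtain ⟨T, hT⟩ := h1x_poles_j_finite hp M hM haux A hA
  obtain ⟨m₀, hm₀⟩ := h1x_exact_level hp M hM haux A hA Q₀ T
  refine ⟨m₀, fun m hm => ?_⟩
  obtain ⟨G, h0, h1, h2, h3⟩ := hm₀ m hm
  exact ⟨G, h0, h1, h2, fun v hv hj => h3 v ((hT v).2 hj) hv⟩

end Fermat.Agent.P7
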