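import Fermat.Agent.Red.GV.Bar
import Fermat.Agent.P5.H13SFIface

/-!
# P7 (wave 7), block (A) DLOG at the level `M`, leaf DL4-M-CONST: frozen interface for (S2)
(helper26)

`ι : FF M → ℚ̄((q))` the `q`-expansion, `A` a valuation subring of `ℚ̄` over `ℓ ∤ M`.

The reduction map of places `r` sends the `q`-order place `∞` of the generic fibre to the
`q`-order place of the special fibre (S2).  This is NOT formal: it needs

* `H26iInt` (INT): the elements of the chart at infinity have `A`-integral `q`-expansions.

INT follows from an elementary statement on Laurent series: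

* `H26iIntAbs` (INT-ABS): a Gauss-integral Laurent series (`InOTA`: `Q(j) x ∈ A((q))`, `Q ∈ A[X]`
  with nonzero reduction) which is integral over `A((q))` lies in `A((q))`;
* `H26iCore` (CORE): the case of one zero `δ` in the disc, in power series form: `z ∈ K[[q]]`
  integral over `A[[q]]`, `z (T - δ) ∈ A[[q]]`, `T = q · unit`, `δ ∈ 𝔪_A`, `δ ≠ 0`
  `⇒ z ∈ A[[q]]`.

Every item is a `Prop`; nothing is assumed.
-/

set_option autoImplicit false

open AlgebraicCurve ModularCurve

noncomputable section

namespace Fermat.Agent.P7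

open Fermat.Agent.S37 Fermat.Agent.Red.GV Fermat.Agent.P5

/-- **CORE**: one zero in the disc, power series form. -/
def H26iCore : Prop :=
  ∀ (A : ValuationSubring Kbar) (T x : PowerSeries A) (z : PowerSeries Kbar) (δ : A),
    (δ : Kbar) ∈ A.nonunits → δ ≠ 0 →
    PowerSeries.coeff 0 T = 0 → IsUnit (PowerSeries.coeff 1 T) →
    z * PowerSeries.map A.subtype (T - PowerSeries.C δ) = PowerSeries.map A.subtype x →
    (PowerSeries.map A.subtype).IsIntegralElem z →
    ∃ y : PowerSeries A, PowerSeries.map A.subtype y = z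

/-- **INT-ABS**: a Gauss-integral Laurent series which is integral over `A((q))` has
coefficients in `A`. -/
def H26iIntAbs : Prop :=
  ∀ (A : ValuationSubring Kbar) (x : LaurentSeries Kbar),
    InOTA A (IsLocalRing.residue A) x → (embA A).IsIntegralElem x →
    ∃ y : LaurentSeries A, embA A y = x

/-- **INT**: the elements of the chart at infinity have `A`-integral `q`-expansions. -/
def H26iInt : Prop :=
  ∀ (ℓ : ℕ), ℓ.Prime → ∀ (M : ℕ) [NeZero M], ¬ ℓ ∣ M →
    ∀ A : ValuationSubring Kbar, A.LiesOverPrime ℓ →
      ∀ f : FF M, f ∈ modelInf M A →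
        ∃ y : LaurentSeries A, embA A y = ((f : FF M) : LaurentSeries Kbar)

/-- **(S2)**: the reduction map of places sends the `q`-order place of the generic fibre to
the `q`-order place of the special fibre. -/
def H26iS2 : Prop :=
  ∀ (ℓ : ℕ), ℓ.Prime → ∀ (M : ℕ) [NeZero M], ¬ ℓ ∣ M → auxLevel ℓ ∣ M →
    ∀ A : ValuationSubring Kbar, A.LiesOverPrime ℓ →
    ∀ r : Place Kbar (FF M) → Place (h13sK A) (h13sFt A M), H13sIsRed A M r →
    ∀ Q : Place (h13sK A) (h13sFt A M),
      (∀ f : h13sFt A M, f ≠ 0 → Q.ord f = (h13sIncl A M f).order) →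
    ∀ oo : Place Kbar (FF M),
      (∀ f : FF M, f ≠ 0 → oo.ord f = ((f : FF M) : LaurentSeries Kbar).order) →
      r oo = Q

end Fermat.Agent.P7
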