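import Fermat.Agent.P7.H1IntAbs
import Fermat.Agent.P7.H26IntIface
import Fermat.Agent.P5.H72Arch

/-!
# Wave 7, DLOG at the level `M`: INT-ABS, unconditional (helper1, prefix `h1i_`)

* `h1i_arch_all` : every valuation subring of `ℚ̄` is archimedean (`P5.H96Arch`): either it lies
  over a prime number (landed `h72a_archQbar`) or it is `ℚ̄` itself.
* `h1i_intAbs : H26iIntAbs` : the frozen Prop of `P7/H26IntIface.lean` (helper26), with the short
  proof of `P7/H1IntAbs.lean` (almost integral ⟹ integral); the CORE statement `H26iCore` is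
  not used.
-/

set_option autoImplicit false
set_option linter.unusedSectionVars false
set_option linter.style.haveILetI false

open ModularCurve

noncomputable section

namespace Fermat.Agent.P7

open Fermat.Agent.S37 Fermat.Agent.Red.GV Fermat.Agent.P5

/-- if no prime number is a non-unit of `A`, every nonzero natural number is a unit of `A`. -/
theorem h1i_inv_natCast_mem (A : ValuationSubring Kbar)
    (h : ∀ ℓ : ℕ, ℓ.Prime → (ℓ : Kbar) ∉ A.nonunits) (n : ℕ) (hn : n ≠ 0) :
    ((n : Kbar))⁻¹ ∈ A := by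
  induction n using Nat.strong_induction_on with
  | _ n ih =>
    rcases Nat.lt_or_ge n 2 with h2 | h2
    · have h1 : n = 1 := by omega
      subst h1
      simp [A.one_mem]
    · have hℓ : (n.minFac).Prime := Nat.minFac_prime (by omega)
      obtain ⟨m, hm⟩ := Nat.minFac_dvd n
      have hm0 : m ≠ 0 := by
        rintro rfl
        rw [mul_zero] at hm
        exact hn hm
      have hmlt : m < n := by
        have h2' := hℓ.two_le
        have hmpos : 0 < m := Nat.pos_of_ne_zero hm0
        calc m < n.minFac * m := by nlinarith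
          _ = n := hm.symm
      have hℓinv : ((n.minFac : ℕ) : Kbar)⁻¹ ∈ A := by
        have h3 : ((n.minFac : ℕ) : Kbar) ∈ A := natCast_mem A _
        have h4 := h _ hℓ
        rw [ValuationSubring.mem_nonunits_iff, not_lt] at h4
        rw [← A.valuation_le_one_iff, map_inv₀]
        have h5 : A.valuation ((n.minFac : ℕ) : Kbar) = 1 :=
          le_antisymm ((A.valuation_le_one_iff _).2 h3) h4
        rw [h5, inv_one]
      have e : ((n : ℕ) : Kbar)⁻¹ = ((n.minFac : ℕ) : Kbar)⁻¹ * ((m : ℕ) : Kbar)⁻¹ := by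
        conv_lhs => rw [hm]
        push_cast
        rw [mul_inv]
      rw [e]
      exact A.mul_mem _ _ hℓinv (ih m hmlt hm0)

/-- a valuation subring of `ℚ̄` in which no prime number is a non-unit is `ℚ̄`. -/
theorem h1i_mem_of_no_prime (A : ValuationSubring Kbar)
    (h : ∀ ℓ : ℕ, ℓ.Prime → (ℓ : Kbar) ∉ A.nonunits) (x : Kbar) : x ∈ A := by
  have halg : IsAlgebraic ℤ x :=
    (IsFractionRing.isAlgebraic_iff ℤ ℚ Kbar).mpr
      ((AlgebraicClosure.isAlgebraic ℚ).isAlgebraic x)
  obtain ⟨y, hy0, hy⟩ := halg.exists_integral_multiple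
  have hyA : (y : Kbar) * x ∈ A := by
    have h1 : IsIntegral A (y • x) := hy.tower_top
    obtain ⟨z, hz⟩ := IsIntegrallyClosed.isIntegral_iff.mp h1
    have h2 : y • x ∈ A := by
      rw [← hz]
      exact z.2
    rwa [zsmul_eq_mul] at h2
  have hn0 : y.natAbs ≠ 0 := Int.natAbs_ne_zero.mpr hy0
  have hinv := h1i_inv_natCast_mem A h y.natAbs hn0
  have hyK : (y : Kbar) ≠ 0 := by exact_mod_cast hy0
  have hyinv : ((y : Kbar))⁻¹ ∈ A := by
    rcases Int.natAbs_eq y with h1 | h1
    · have e : (y : Kbar) = ((y.natAbs : ℕ) : Kbar) := by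
        conv_lhs => rw [h1]
        simp
      rw [e]
      exact hinv
    · have e : (y : Kbar) = -((y.natAbs : ℕ) : Kbar) := by
        conv_lhs => rw [h1]
        simp
      rw [e, inv_neg]
      exact A.neg_mem _ hinv
  have e : x = ((y : Kbar))⁻¹ * ((y : Kbar) * x) := by
    rw [← mul_assoc, inv_mul_cancel₀ hyK, one_mul]
  rw [e]
  exact A.mul_mem _ _ hyinv hyA

/-- **every valuation subring of `ℚ̄` is archimedean.** -/
theorem h1i_arch_all (A : ValuationSubring Kbar) : H96Arch A := by
  by_cases h : ∃ ℓ : ℕ, ℓ.Prime ∧ (ℓ : Kbar) ∈ A.nonunits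
  · obtain ⟨ℓ, hℓ, hA⟩ := h
    exact h72a_archQbar A ℓ hℓ hA
  · push Not at h
    intro y c hy _ _
    have hy0 : y = 0 := by
      by_contra hne
      rw [ValuationSubring.mem_nonunits_iff] at hy
      have h1 : y⁻¹ ∈ A := h1i_mem_of_no_prime A h y⁻¹
      rw [← A.valuation_le_one_iff, map_inv₀] at h1
      have h2 : A.valuation y ≠ 0 := (map_ne_zero _).2 hne
      have h3 : 1 ≤ A.valuation y := by
        by_contra hlt
        rw [not_le] at hlt
        have := one_lt_inv₀ (zero_lt_iff.2 h2) |>.2 hlt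
        exact absurd h1 (not_le.2 this)
      exact absurd hy (not_lt.2 h3)
    exact ⟨1, 0, A.zero_mem, by rw [hy0, pow_one, mul_zero]⟩

/-- **INT-ABS** (exact frozen Prop of `P7/H26IntIface.lean`), unconditional. -/
theorem h1i_intAbs : H26iIntAbs := by
  intro A x hx hint
  exact h1i_intAbs_of_arch A (h1i_arch_all A) (IsLocalRing.residue A) x hx hint

end Fermat.Agent.P7
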