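import Fermat.Agent.Red.GV.OT
import Fermat.Agent.Red.GV.Series
import Fermat.Agent.P5.H96ClosIface

/-!
# Wave 7, DLOG at the level `M`: INT-ABS by the archimedean property (helper1, prefix `h1i_`)

`K` a field, `A` a valuation subring of `K` which is ARCHIMEDEAN (`P5.H96Arch A`: powers of a
non-unit become divisible by any nonzero element of `A`), `S = embA(A((q))) ⊆ K((q))` the ring of
the Laurent series with coefficients in `A`.

* `h1i_arch_mem` : `lc ≠ 0`, `lc * a ^ m ∈ A` for all `m`  ⟹  `a ∈ A`.
* `h1i_almost`   : (almost integral ⟹ integral) `c ≠ 0`, `c * x ^ n ∈ S` for all `n`  ⟹  `x ∈ S`.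
* `h1i_intAbs_of_arch` : a Gauss-integral Laurent series (`InOTA`) which is integral over `S`
  lies in `S`.

No root peeling, no Newton/Hensel argument.
-/

set_option autoImplicit false
set_option linter.unusedSectionVars false
set_option linter.style.haveILetI false

open ModularCurve

noncomputable section

namespace Fermat.Agent.P7

open Fermat.Agent.Red.GV Fermat.Agent.S28 Fermat.Agent.P5

variable {K : Type} [Field K] (A : ValuationSubring K)

/-- in an archimedean valuation ring: `lc ≠ 0` and `lc * a ^ m ∈ A` for all `m` force `a ∈ A`. -/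
theorem h1i_arch_mem (hArch : H96Arch A) (lc a : K) (hlc : lc ≠ 0)
    (h : ∀ m : ℕ, lc * a ^ m ∈ A) : a ∈ A := by
  by_contra ha
  have ha0 : a ≠ 0 := fun h0 => ha (h0 ▸ A.zero_mem)
  have hlcA : lc ∈ A := by simpa using h 0
  have hy : a⁻¹ ∈ A.nonunits := by
    rw [ValuationSubring.mem_nonunits_iff]
    have h1 : ¬ A.valuation a ≤ 1 := fun hle => ha ((A.valuation_le_one_iff a).1 hle)
    rw [not_le] at h1
    rw [map_inv₀]
    exact inv_lt_one_of_one_lt₀ h1
  obtain ⟨n, b, hb, hnb⟩ := hArch a⁻¹ lc hy hlcA hlc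
  have hb0 : b ≠ 0 := by
    rintro rfl
    rw [mul_zero] at hnb
    exact pow_ne_zero n (inv_ne_zero ha0) hnb
  have h1 := h (n + 1)
  have h2 : lc * a ^ (n + 1) * b = a := by
    have h3 : lc * b = a⁻¹ ^ n := hnb.symm
    calc lc * a ^ (n + 1) * b = (lc * b) * a ^ (n + 1) := by ring
      _ = a⁻¹ ^ n * a ^ (n + 1) := by rw [h3]
      _ = a := by
        rw [pow_succ, ← mul_assoc, ← mul_pow, inv_mul_cancel₀ ha0, one_pow, one_mul]
  apply ha
  rw [← h2]
  exact A.mul_mem _ _ h1 hb

/-- the leading coefficient of a power. -/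
theorem h1i_leadingCoeff_pow (x : LaurentSeries K) (m : ℕ) :
    (x ^ m).leadingCoeff = x.leadingCoeff ^ m := by
  induction m with
  | zero => simp
  | succ m ih => rw [pow_succ, HahnSeries.leadingCoeff_mul, ih, pow_succ]

/-- all the coefficients of the leading coefficient are coefficients. -/
theorem h1i_leadingCoeff_mem (z : LaurentSeries K) (hz : ∀ i : ℤ, z.coeff i ∈ A) :
    z.leadingCoeff ∈ A := by
  rw [HahnSeries.leadingCoeff_eq]
  exact hz _

/-- the Laurent series with coefficients in `A` form a subring: membership of a product of a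
power sum. -/
theorem h1i_mem_range_iff (x : LaurentSeries K) :
    x ∈ (embA A).range ↔ ∀ i : ℤ, x.coeff i ∈ A := by
  rw [RingHom.mem_range]
  exact exists_embA_eq_iff A x

/-- **almost integral ⟹ integral** for Laurent series over an archimedean valuation ring. -/
theorem h1i_almost (hArch : H96Arch A) (c x : LaurentSeries K) (hc : c ≠ 0)
    (h : ∀ n : ℕ, c * x ^ n ∈ (embA A).range) : x ∈ (embA A).range := by
  rw [h1i_mem_range_iff]
  -- strong induction on the index
  have key : ∀ i₀ : ℤ, (∀ j : ℤ, j < i₀ → x.coeff j ∈ A) → x.coeff i₀ ∈ A := by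
    intro i₀ hlow
    by_cases ha0 : x.coeff i₀ = 0
    · rw [ha0]
      exact A.zero_mem
    -- the tail `x'` of `x` from `i₀` on
    have hbdd : BddBelow (Function.support fun i : ℤ => if i₀ ≤ i then x.coeff i else 0) := by
      refine ⟨i₀, fun i hi => ?_⟩
      by_contra hlt
      exact hi (by simp only [if_neg hlt])
    set x' : LaurentSeries K :=
      HahnSeries.ofSuppBddBelow (fun i : ℤ => if i₀ ≤ i then x.coeff i else 0) hbdd with hx'
    have hx'c : ∀ i : ℤ, x'.coeff i = if i₀ ≤ i then x.coeff i else 0 := fun i => by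
      rw [hx', HahnSeries.coeff_ofSuppBddBelow]
    have hg : x - x' ∈ (embA A).range := by
      rw [h1i_mem_range_iff]
      intro i
      rw [HahnSeries.coeff_sub, hx'c]
      by_cases hi : i₀ ≤ i
      · rw [if_pos hi, sub_self]
        exact A.zero_mem
      · rw [if_neg hi, sub_zero]
        exact hlow i (not_le.1 hi)
    have hx'0 : x'.coeff i₀ = x.coeff i₀ := by rw [hx'c, if_pos le_rfl]
    have hx'ne : x' ≠ 0 := by
      intro h0
      rw [h0, HahnSeries.coeff_zero] at hx'0
      exact ha0 hx'0.symm
    have hord : x'.order = i₀ := by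
      apply le_antisymm
      · exact HahnSeries.order_le_of_coeff_ne_zero (by rw [hx'0]; exact ha0)
      · by_contra hlt
        rw [not_le] at hlt
        have h1 := hx'c x'.order
        rw [if_neg (not_le.2 hlt)] at h1
        exact hx'ne (HahnSeries.coeff_order_eq_zero.1 h1)
    have hlead : x'.leadingCoeff = x.coeff i₀ := by
      rw [HahnSeries.leadingCoeff_eq, hord, hx'0]
    -- `c * x' ^ m` has coefficients in `A`
    have hpow : ∀ m : ℕ, c * x' ^ m ∈ (embA A).range := by
      intro m
      have e : x' = x + -(x - x') := by ring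
      rw [e, add_pow, Finset.mul_sum]
      refine Subring.sum_mem _ fun k _ => ?_
      have e2 : c * (x ^ k * (-(x - x')) ^ (m - k) * ((m.choose k : ℕ) : LaurentSeries K)) =
          (c * x ^ k) * (-(x - x')) ^ (m - k) * ((m.choose k : ℕ) : LaurentSeries K) := by ring
      rw [e2]
      exact Subring.mul_mem _ (Subring.mul_mem _ (h k)
        (Subring.pow_mem _ (Subring.neg_mem _ hg) _)) (natCast_mem _ _)
    apply h1i_arch_mem A hArch c.leadingCoeff (x.coeff i₀)
      (HahnSeries.leadingCoeff_ne_zero.2 hc)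
    intro m
    have h1 := h1i_leadingCoeff_mem A _ ((h1i_mem_range_iff A _).1 (hpow m))
    rw [HahnSeries.leadingCoeff_mul, h1i_leadingCoeff_pow, hlead] at h1
    exact h1
  -- conclude by induction
  rcases eq_or_ne x 0 with rfl | hx
  · intro i
    rw [HahnSeries.coeff_zero]
    exact A.zero_mem
  have hind : ∀ n : ℕ, ∀ j : ℤ, j < x.order + n → x.coeff j ∈ A := by
    intro n
    induction n with
    | zero =>
      intro j hj
      rw [Nat.cast_zero, add_zero] at hj
      rw [HahnSeries.coeff_eq_zero_of_lt_order hj]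
      exact A.zero_mem
    | succ n ih =>
      intro j hj
      rcases lt_or_eq_of_le (show j ≤ x.order + n by push_cast at hj; omega) with h1 | h1
      · exact ih j h1
      · rw [h1]
        exact key _ ih
  intro i
  exact hind (i - x.order + 1).toNat i (by
    have := Int.self_le_toNat (i - x.order + 1)
    omega)

/-- **INT-ABS from the archimedean property**: a Gauss-integral Laurent series which is
integral over `A((q))` has coefficients in `A`. -/
theorem h1i_intAbs_of_arch (hArch : H96Arch A) {k : Type} [Field k] (π : A →+* k)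
    (x : LaurentSeries K) (hx : InOTA A π x) (hint : (embA A).IsIntegralElem x) :
    ∃ y : LaurentSeries A, embA A y = x := by
  obtain ⟨Q, hQ, y₀, hy₀⟩ := hx
  obtain ⟨p, hp, hpx⟩ := hint
  -- `c₀ = Q(j)` is a nonzero element of `S`
  have hc₀ : evalA A (jK K) Q = embA A (OTA_jA A Q) := (OTA_embA_jA A Q).symm
  have hc₀ne : evalA A (jK K) Q ≠ 0 := by
    rw [hc₀]
    intro h0
    have h1 : OTA_jA A Q = 0 := OTA_embA_injective A (by rw [h0, map_zero])
    have h2 := OTA_redA_jA A π Q
    rw [h1, map_zero] at h2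
    exact evalC_jqModC_ne_zero k _ hQ h2.symm
  set c₀ : LaurentSeries K := evalA A (jK K) Q with hc₀def
  have hc₀S : c₀ ∈ (embA A).range := ⟨_, hc₀.symm⟩
  have hc₀x : c₀ * x ∈ (embA A).range := ⟨y₀, hy₀⟩
  set d := p.natDegree with hd
  have hrange : ∃ y, embA A y = x := by
    have hmem : x ∈ (embA A).range := by
      apply h1i_almost A hArch (c₀ ^ d) x (pow_ne_zero d hc₀ne)
      intro n
      -- `x ^ n = (X ^ n %ₘ p)(x)`
      have e1 : x ^ n = Polynomial.eval₂ (embA A) x (Polynomial.X ^ n %ₘ p) := by
        have h1 := Polynomial.modByMonic_add_div (Polynomial.X ^ n : Polynomial (LaurentSeries A)) p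
        have h2 := congrArg (Polynomial.eval₂ (embA A) x) h1
        rw [Polynomial.eval₂_add, Polynomial.eval₂_mul, hpx, zero_mul, add_zero,
          Polynomial.eval₂_pow, Polynomial.eval₂_X] at h2
        exact h2.symm
      have hdeg : (Polynomial.X ^ n %ₘ p).natDegree < d + 1 :=
        Nat.lt_succ_of_le (Polynomial.natDegree_modByMonic_le _ hp)
      rw [e1, Polynomial.eval₂_eq_sum_range' (embA A) hdeg x, Finset.mul_sum]
      refine Subring.sum_mem _ fun i hi => ?_
      have hi' : i ≤ d := Nat.lt_succ_iff.1 (Finset.mem_range.1 hi)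
      have e2 : c₀ ^ d * (embA A ((Polynomial.X ^ n %ₘ p).coeff i) * x ^ i) =
          embA A ((Polynomial.X ^ n %ₘ p).coeff i) * (c₀ ^ (d - i) * (c₀ * x) ^ i) := by
        have e3 : c₀ ^ d = c₀ ^ (d - i) * c₀ ^ i := by
          rw [← pow_add, Nat.sub_add_cancel hi']
        rw [e3, mul_pow]
        ring
      rw [e2]
      exact Subring.mul_mem _ ⟨_, rfl⟩
        (Subring.mul_mem _ (Subring.pow_mem _ hc₀S _) (Subring.pow_mem _ hc₀x _))
    exact hmem
  exact hrange

end Fermat.Agent.P7
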