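import Fermat.Agent.P7.H1Int

/-!
# Wave 7, DLOG at the level `M`: INT, unconditional (helper1, prefix `h1i_`)

* `h1i_int : H26iInt` (exact frozen Prop of `P7/H26IntIface.lean`): every element of the chart
  at infinity `modelInf M A` (`ℓ ∤ M`, `A` over `ℓ`) has an `A`-integral `q`-expansion.
* `h1i_int_coeff` : coefficient form; `h1i_int_red` : its reduction is the coefficientwise
  reduction.

From `h1i_intAbs` (`P7/H1Int.lean`): the elements of `modelInf` are Gauss-integral
(`modelInf_le_gaussV`) and integral over `A[1/j] ⊆ A((q))`.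
-/

set_option autoImplicit false
set_option linter.unusedSectionVars false
set_option linter.style.haveILetI false

open ModularCurve

noncomputable section

namespace Fermat.Agent.P7

open Fermat.Agent.S37 Fermat.Agent.Red.GV Fermat.Agent.P5

/-- **INT** (exact frozen Prop of `P7/H26IntIface.lean`), unconditional. -/
theorem h1i_int : H26iInt := by
  intro ℓ hℓ M _ hM A hA f hf
  have hfV : f ∈ gaussV A M := modelInf_le_gaussV A M hℓ hM hA hf
  have hx : InOTA A (IsLocalRing.residue A) ((f : FF M) : LaurentSeries Kbar) :=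
    (mem_gaussV_iff A M f).1 hfV
  obtain ⟨p, hp, hpx⟩ := (mem_modelInf_iff M A f).1 hf
  obtain ⟨tA, -, htA, -⟩ := Asm.exists_jinvA A (IsLocalRing.residue A)
  let ψ : Polynomial A →+* LaurentSeries A :=
    Polynomial.eval₂RingHom (HahnSeries.C : A →+* LaurentSeries A) tA
  have hψ : (embA A).comp ψ = evalA A (jK Kbar)⁻¹ := by
    apply Polynomial.ringHom_ext
    · intro a
      show embA A (ψ (Polynomial.C a)) = evalA A (jK Kbar)⁻¹ (Polynomial.C a)
      have e1 : ψ (Polynomial.C a) = HahnSeries.C a := Polynomial.eval₂_C _ _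
      have e2 : evalA A (jK Kbar)⁻¹ (Polynomial.C a) = HahnSeries.C (a : Kbar) :=
        Polynomial.eval₂_C _ _
      rw [e1, e2, Asm.embA_C]
    · show embA A (ψ Polynomial.X) = evalA A (jK Kbar)⁻¹ Polynomial.X
      have e1 : ψ Polynomial.X = tA := Polynomial.eval₂_X _ _
      have e2 : evalA A (jK Kbar)⁻¹ Polynomial.X = (jK Kbar)⁻¹ := Polynomial.eval₂_X _ _
      rw [e1, e2, htA]
  have hint : (embA A).IsIntegralElem ((f : FF M) : LaurentSeries Kbar) := by
    refine ⟨p.map ψ, hp.map ψ, ?_⟩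
    rw [Polynomial.eval₂_map, hψ]
    exact hpx
  exact h1i_intAbs A _ hx hint

/-- **INT**, coefficient form. -/
theorem h1i_int_coeff {ℓ : ℕ} (hℓ : ℓ.Prime) (M : ℕ) [NeZero M] (hM : ¬ ℓ ∣ M)
    (A : ValuationSubring Kbar) (hA : A.LiesOverPrime ℓ) (f : FF M) (hf : f ∈ modelInf M A)
    (n : ℤ) : ((f : FF M) : LaurentSeries Kbar).coeff n ∈ A :=
  (exists_embA_eq_iff A _).1 (h1i_int ℓ hℓ M hM A hA f hf) n

/-- the reduction of an element of the chart at infinity is the coefficientwise reduction of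
its `q`-expansion. -/
theorem h1i_int_red {ℓ : ℕ} (hℓ : ℓ.Prime) (M : ℕ) [NeZero M] (hM : ¬ ℓ ∣ M)
    (A : ValuationSubring Kbar) (hA : A.LiesOverPrime ℓ) (f : FF M) (hf : f ∈ modelInf M A)
    (hfV : f ∈ gaussV A M) :
    ∃ y : LaurentSeries A, embA A y = ((f : FF M) : LaurentSeries Kbar) ∧
      gaussR A M ⟨f, hfV⟩ = redA (IsLocalRing.residue A) y := by
  obtain ⟨y, hy⟩ := h1i_int ℓ hℓ M hM A hA f hf
  exact ⟨y, hy, gaussRed_of_embA A (IsLocalRing.residue A) M ⟨f, hfV⟩ y hy⟩

end Fermat.Agent.P7
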