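import Mathlib

/-!
# W7 / block (A) DLOG, leaf DL5 (CUSP-ORTH): the analytic core (Mathlib only)

A holomorphic function `g` on the upper half plane with `g (z + 1) = g z` and
`g (-1 / z) = z ^ 2 * g z` (weight `2` for `SL(2, ℤ)`, no growth condition) has vanishing
period: `∫ t in 0..1, g (z + t) = 0`.

Proof: `g` has a primitive `Φ` on the upper half plane (exhaustion by discs); for the two
generators `S z = -1 / z` and `T z = z + 1` the function `Φ ∘ γ - Φ` is constant (`c_S`, `c_T`);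
`S ∘ S = id` gives `2 c_S = 0` and `(S ∘ T) ^ 3 = id` gives `3 (c_S + c_T) = 0`; finally
`c_T = Φ (z + 1) - Φ z` is the period.
-/

set_option autoImplicit false

open Complex Metric Set

noncomputable section

namespace Fermat.Agent.P7

/-- the open upper half plane as a subset of `ℂ`. -/
def h1pU : Set ℂ := {z : ℂ | 0 < z.im}

theorem h1p_mem_U {z : ℂ} : z ∈ h1pU ↔ 0 < z.im := Iff.rfl

theorem h1p_isOpen_U : IsOpen h1pU := isOpen_lt continuous_const Complex.continuous_im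

theorem h1p_isPreconnected_U : IsPreconnected h1pU :=
  (convex_halfSpace_im_gt (0 : ℝ)).isPreconnected

theorem h1p_ne_zero {z : ℂ} (hz : z ∈ h1pU) : z ≠ 0 := by
  intro h
  rw [h1p_mem_U, h] at hz
  simp at hz

theorem h1p_add_one_mem {z : ℂ} (hz : z ∈ h1pU) : z + 1 ∈ h1pU := by
  rw [h1p_mem_U] at hz ⊢
  simpa using hz

theorem h1p_add_real_mem {z : ℂ} (hz : z ∈ h1pU) (t : ℝ) : z + (t : ℂ) ∈ h1pU := by
  rw [h1p_mem_U] at hz ⊢
  simpa using hz

theorem h1p_neg_inv_mem {z : ℂ} (hz : z ∈ h1pU) : -z⁻¹ ∈ h1pU := by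
  have h0 := h1p_ne_zero hz
  rw [h1p_mem_U] at hz ⊢
  rw [Complex.neg_im, Complex.inv_im, neg_div, neg_neg]
  exact div_pos hz (Complex.normSq_pos.mpr h0)

/-! ## The exhaustion by discs and the primitive -/

/-- the exhausting discs of the upper half plane. -/
def h1pBall (n : ℕ) : Set ℂ := ball ((((n : ℝ) + 1 : ℝ) : ℂ) * I) ((n : ℝ) + 1)

theorem h1p_mem_ball_iff (n : ℕ) (z : ℂ) :
    z ∈ h1pBall n ↔ z.re ^ 2 + z.im ^ 2 < 2 * ((n : ℝ) + 1) * z.im := by
  have hpos : (0 : ℝ) < (n : ℝ) + 1 := by positivity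
  unfold h1pBall
  rw [mem_ball, Complex.dist_eq_re_im, Real.sqrt_lt' hpos]
  simp only [Complex.mul_re, Complex.ofReal_re, Complex.I_re, Complex.ofReal_im, Complex.I_im,
    Complex.mul_im, mul_zero, mul_one, sub_zero, add_zero, sub_self]
  constructor
  · intro h; nlinarith
  · intro h; nlinarith

theorem h1p_ball_subset (n : ℕ) : h1pBall n ⊆ h1pU := by
  intro z hz
  rw [h1p_mem_ball_iff] at hz
  rw [h1p_mem_U]
  have hpos : (0 : ℝ) < (n : ℝ) + 1 := by positivity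
  by_contra hneg
  push Not at hneg
  nlinarith [sq_nonneg z.re, sq_nonneg z.im]

theorem h1p_I_mem_ball (n : ℕ) : I ∈ h1pBall n := by
  rw [h1p_mem_ball_iff]
  have hn : (0 : ℝ) ≤ (n : ℝ) := Nat.cast_nonneg n
  simp only [Complex.I_re, Complex.I_im]
  nlinarith

theorem h1p_ball_mono {n m : ℕ} (h : n ≤ m) : h1pBall n ⊆ h1pBall m := by
  intro z hz
  have hzU := h1p_ball_subset n hz
  rw [h1p_mem_U] at hzU
  rw [h1p_mem_ball_iff] at hz ⊢
  have hnm : (n : ℝ) ≤ (m : ℝ) := by exact_mod_cast h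
  nlinarith

theorem h1p_exists_ball {z : ℂ} (hz : z ∈ h1pU) : ∃ n : ℕ, z ∈ h1pBall n := by
  rw [h1p_mem_U] at hz
  obtain ⟨n, hn⟩ := exists_nat_gt ((z.re ^ 2 + z.im ^ 2) / (2 * z.im))
  refine ⟨n, ?_⟩
  rw [h1p_mem_ball_iff]
  have h2 : (0 : ℝ) < 2 * z.im := by positivity
  rw [div_lt_iff₀ h2] at hn
  nlinarith

theorem h1p_isOpen_ball (n : ℕ) : IsOpen (h1pBall n) := isOpen_ball

theorem h1p_isPreconnected_ball (n : ℕ) : IsPreconnected (h1pBall n) :=
  (convex_ball _ _).isPreconnected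

/-- a holomorphic function on the upper half plane has a primitive. -/
theorem h1p_exists_primitive {g : ℂ → ℂ} (hg : DifferentiableOn ℂ g h1pU) :
    ∃ Φ : ℂ → ℂ, ∀ z ∈ h1pU, HasDerivAt Φ (g z) z := by
  classical
  have hprim : ∀ n : ℕ, ∃ Φ : ℂ → ℂ, Φ I = 0 ∧ ∀ x ∈ h1pBall n, HasDerivAt Φ (g x) x :=
    fun n => (DifferentiableOn.isExactOn_ball (hg.mono (h1p_ball_subset n))).with_val_at I 0
  choose Φ hΦ0 hΦ using hprim
  have heq : ∀ n m : ℕ, n ≤ m → ∀ z ∈ h1pBall n, Φ n z = Φ m z := by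
    intro n m hnm
    exact IsOpen.eqOn_of_deriv_eq (h1p_isOpen_ball n) (h1p_isPreconnected_ball n)
      (fun x hx => (hΦ n x hx).differentiableAt.differentiableWithinAt)
      (fun x hx => (hΦ m x (h1p_ball_mono hnm hx)).differentiableAt.differentiableWithinAt)
      (fun x hx => by rw [(hΦ n x hx).deriv, (hΦ m x (h1p_ball_mono hnm hx)).deriv])
      (h1p_I_mem_ball n) (by rw [hΦ0, hΦ0])
  refine ⟨fun z => if hz : z ∈ h1pU then Φ (Nat.find (h1p_exists_ball hz)) z else 0,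
    fun z hz => ?_⟩
  have hzn : z ∈ h1pBall (Nat.find (h1p_exists_ball hz)) := Nat.find_spec (h1p_exists_ball hz)
  have key : ∀ w ∈ h1pBall (Nat.find (h1p_exists_ball hz)),
      (fun z => if hz : z ∈ h1pU then Φ (Nat.find (h1p_exists_ball hz)) z else 0) w
        = Φ (Nat.find (h1p_exists_ball hz)) w := by
    intro w hw
    have hwU := h1p_ball_subset _ hw
    simp only [dif_pos hwU]
    have hle : Nat.find (h1p_exists_ball hwU) ≤ Nat.find (h1p_exists_ball hz) :=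
      Nat.find_min' _ hw
    exact heq _ _ hle w (Nat.find_spec (h1p_exists_ball hwU))
  exact (hΦ _ z hzn).congr_of_eventuallyEq
    (Filter.eventuallyEq_of_mem ((h1p_isOpen_ball _).mem_nhds hzn) key)

/-! ## Constancy of `Φ ∘ m - Φ` -/

theorem h1p_const_of_map {g Φ : ℂ → ℂ} (hΦ : ∀ z ∈ h1pU, HasDerivAt Φ (g z) z)
    {m m' : ℂ → ℂ} (hm : ∀ z ∈ h1pU, HasDerivAt m (m' z) z)
    (hmU : ∀ z ∈ h1pU, m z ∈ h1pU) (hinv : ∀ z ∈ h1pU, g (m z) * m' z = g z) :
    ∃ c : ℂ, ∀ z ∈ h1pU, Φ (m z) - Φ z = c := by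
  have hd : ∀ z ∈ h1pU, HasDerivAt (fun z => Φ (m z) - Φ z) 0 z := by
    intro z hz
    have h1 : HasDerivAt (Φ ∘ m) (g (m z) * m' z) z :=
      (hΦ (m z) (hmU z hz)).comp z (hm z hz)
    have h2 := h1.sub (hΦ z hz)
    rw [hinv z hz, sub_self] at h2
    exact h2
  exact IsOpen.exists_is_const_of_deriv_eq_zero h1p_isOpen_U h1p_isPreconnected_U
    (fun z hz => (hd z hz).differentiableAt.differentiableWithinAt)
    (fun z hz => (hd z hz).deriv)

/-! ## The period as a difference of values of the primitive -/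

theorem h1p_period_eq_sub {g Φ : ℂ → ℂ} (hg : DifferentiableOn ℂ g h1pU)
    (hΦ : ∀ z ∈ h1pU, HasDerivAt Φ (g z) z) {z : ℂ} (hz : z ∈ h1pU) :
    ∫ t in (0 : ℝ)..1, g (z + (t : ℂ)) = Φ (z + 1) - Φ z := by
  have hderiv : ∀ t ∈ uIcc (0 : ℝ) 1,
      HasDerivAt (fun t : ℝ => Φ (z + (t : ℂ))) (g (z + (t : ℂ))) t := by
    intro t _
    have h1 : HasDerivAt (fun w : ℂ => Φ (z + w)) (g (z + (t : ℂ))) (t : ℂ) :=
      HasDerivAt.comp_const_add z (t : ℂ) (hΦ _ (h1p_add_real_mem hz t))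
    exact h1.comp_ofReal
  have hcont : ContinuousOn (fun t : ℝ => g (z + (t : ℂ))) (uIcc (0 : ℝ) 1) := by
    have h1 : ContinuousOn (fun t : ℝ => z + (t : ℂ)) (uIcc (0 : ℝ) 1) :=
      (continuous_const.add Complex.continuous_ofReal).continuousOn
    exact hg.continuousOn.comp h1 (fun t _ => h1p_add_real_mem hz t)
  have h := intervalIntegral.integral_eq_sub_of_hasDerivAt hderiv hcont.intervalIntegrable
  simpa using h

/-! ## The main statement -/

/-- **Analytic core of CUSP-ORTH**: a holomorphic function on the upper half plane which is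
invariant of weight `2` under `z ↦ z + 1` and `z ↦ -1 / z` has vanishing period. -/
theorem h1p_period_eq_zero {g : ℂ → ℂ} (hg : DifferentiableOn ℂ g h1pU)
    (hT : ∀ z ∈ h1pU, g (z + 1) = g z) (hS : ∀ z ∈ h1pU, g (-z⁻¹) = z ^ 2 * g z)
    {z : ℂ} (hz : z ∈ h1pU) :
    ∫ t in (0 : ℝ)..1, g (z + (t : ℂ)) = 0 := by
  obtain ⟨Φ, hΦ⟩ := h1p_exists_primitive hg
  -- the two constants
  obtain ⟨cS, hcS⟩ := h1p_const_of_map hΦ (m := fun z => -z⁻¹) (m' := fun z => (z ^ 2)⁻¹)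
    (fun z hz => by
      have h := (hasDerivAt_inv (h1p_ne_zero hz)).neg
      rwa [neg_neg] at h)
    (fun z hz => h1p_neg_inv_mem hz)
    (fun z hz => by
      have h0 := h1p_ne_zero hz
      rw [hS z hz]
      field_simp)
  obtain ⟨cT, hcT⟩ := h1p_const_of_map hΦ (m := fun z => z + 1) (m' := fun _ => 1)
    (fun z _ => (hasDerivAt_id z).add_const 1)
    (fun z hz => h1p_add_one_mem hz)
    (fun z hz => by
      rw [hT z hz, mul_one])
  -- `S ∘ S = id`
  have hS2 : cS = 0 := by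
    have h1 := hcS z hz
    have h2 := hcS (-z⁻¹) (h1p_neg_inv_mem hz)
    have h3 : -(-z⁻¹)⁻¹ = z := by
      rw [inv_neg, neg_neg, inv_inv]
    rw [h3] at h2
    have h4 : 2 * cS = 0 := by linear_combination -h1 - h2
    simpa using h4
  -- `(S ∘ T) ^ 3 = id`
  have hU : ∀ w ∈ h1pU, Φ (-(w + 1)⁻¹) - Φ w = cS + cT := by
    intro w hw
    have h1 := hcT w hw
    have h2 := hcS (w + 1) (h1p_add_one_mem hw)
    linear_combination h1 + h2
  have hUmem : ∀ w ∈ h1pU, -(w + 1)⁻¹ ∈ h1pU :=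
    fun w hw => h1p_neg_inv_mem (h1p_add_one_mem hw)
  have hT0 : cT = 0 := by
    have hz1 := hUmem z hz
    have hz2 := hUmem _ hz1
    have h1 := hU z hz
    have h2 := hU _ hz1
    have h3 := hU _ hz2
    have h4 : -(-(-(z + 1)⁻¹ + 1)⁻¹ + 1)⁻¹ = z := by
      have ha : z + 1 ≠ 0 := h1p_ne_zero (h1p_add_one_mem hz)
      have hb : -(z + 1)⁻¹ + 1 ≠ 0 := h1p_ne_zero (h1p_add_one_mem hz1)
      have hc : -(-(z + 1)⁻¹ + 1)⁻¹ + 1 ≠ 0 := h1p_ne_zero (h1p_add_one_mem hz2)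
      have h0 := h1p_ne_zero hz
      have hb' : -(z + 1)⁻¹ + 1 = z / (z + 1) := by field_simp; ring
      rw [hb', inv_div]
      have hc' : -((z + 1) / z) + 1 = -(1 / z) := by field_simp; ring
      rw [hc', one_div, inv_neg, neg_neg, inv_inv]
    rw [h4] at h3
    have h5 : 3 * (cS + cT) = 0 := by linear_combination -h1 - h2 - h3
    have h6 : cS + cT = 0 := by simpa using h5
    rw [hS2, zero_add] at h6
    exact h6
  rw [h1p_period_eq_sub hg hΦ hz, hcT z hz, hT0]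

end Fermat.Agent.P7

namespace Fermat.Agent.P7

open UpperHalfPlane
open scoped Manifold

/-- the same statement for functions on `ℍ`. -/
theorem h1p_period_eq_zero_uhp {G : ℍ → ℂ} (hG : MDifferentiable 𝓘(ℂ) 𝓘(ℂ) G)
    (hT : ∀ τ : ℍ, G ((1 : ℝ) +ᵥ τ) = G τ)
    (hS : ∀ τ : ℍ, G (ModularGroup.S • τ) = (τ : ℂ) ^ 2 * G τ) (τ : ℍ) :
    ∫ t in (0 : ℝ)..1, G (t +ᵥ τ) = 0 := by
  have hg : DifferentiableOn ℂ (G ∘ ofComplex) h1pU := UpperHalfPlane.mdifferentiable_iff.mp hG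
  have hof : ∀ z : ℂ, ∀ hz : z ∈ h1pU, ofComplex z = ⟨z, hz⟩ :=
    fun z hz => ofComplex_apply_of_im_pos hz
  have h := h1p_period_eq_zero (g := G ∘ ofComplex) hg
    (fun z hz => by
      simp only [Function.comp_apply]
      rw [hof z hz, hof (z + 1) (h1p_add_one_mem hz), ← hT ⟨z, hz⟩]
      congr 1
      apply UpperHalfPlane.ext
      simp [UpperHalfPlane.coe_vadd, add_comm])
    (fun z hz => by
      simp only [Function.comp_apply]
      rw [hof z hz, hof (-z⁻¹) (h1p_neg_inv_mem hz)]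
      have h1 := hS ⟨z, hz⟩
      rw [UpperHalfPlane.modular_S_smul] at h1
      have h2 : (⟨-z⁻¹, h1p_neg_inv_mem hz⟩ : ℍ)
          = UpperHalfPlane.mk (-((⟨z, hz⟩ : ℍ) : ℂ))⁻¹ (⟨z, hz⟩ : ℍ).im_inv_neg_coe_pos := by
        apply UpperHalfPlane.ext
        show -z⁻¹ = (-z)⁻¹
        rw [inv_neg]
      rw [h2]
      exact h1)
    (z := (τ : ℂ)) τ.im_pos
  rw [← h]
  refine intervalIntegral.integral_congr (fun t _ => ?_)
  simp only [Function.comp_apply]
  congr 1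
  rw [← ofComplex_apply (t +ᵥ τ)]
  congr 1
  simp [UpperHalfPlane.coe_vadd, add_comm]

end Fermat.Agent.P7
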