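import Mathlib
import Fermat.Prelude.Def_FLTPrelim_FreyPackage
import Fermat.Prelude.Def_FLTPrelim_Modularity
import Fermat.Agent.S13.FreyInt

/-!
# Wave 7 (S44): every integral model of the Frey curve is bad at `2` (helper21)

`h21f_two_dvd_disc : W.IsIntegralModelOf P.freyCurve → (2 : ℤ) ∣ W.Δ`
(indeed `h21f_four_dvd_disc : (4 : ℤ) ∣ W.Δ`).

Consequence for the top of S44: the primes good for `W` are odd, so every Hecke prime produced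
by NON-EIS (`exists_good_prime_not_eisenstein'`) and by GLUE (`h17g_glue0`, a polynomial in the
`T_ℓ`, `ℓ ∈ H99wGood W (M' * p)`) is prime to `goodLevel p M' * p = lcm(M', 4) * p`
(`h21f_not_dvd_goodLevel`).  No congruence at `ℓ = 2` is needed for the Frey curve.

Proof: `c₄(W)³ Δ(E) = c₄(E)³ Δ(W)` (both sides scale by `u⁻¹²`), `2⁸ Δ(E) = (abc)^{2p}`,
`c₄(E) = a^{2p} + a^p b^p + b^{2p}` is odd and `2^{2p} ∣ (abc)^{2p}` with `2p ≥ 10`.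
-/

set_option autoImplicit false

namespace Fermat.Agent.P7

open WeierstrassCurve

/-- `c₄` of the Frey curve. -/
theorem h21f_frey_c₄ (P : FreyPackage) :
    P.freyCurve.c₄ =
      ((P.a : ℚ) ^ P.p) ^ 2 + (P.a : ℚ) ^ P.p * (P.b : ℚ) ^ P.p + ((P.b : ℚ) ^ P.p) ^ 2 := by
  simp only [WeierstrassCurve.c₄, WeierstrassCurve.b₂, WeierstrassCurve.b₄,
    FreyPackage.freyCurve]
  ring

/-- the integral identity `c₄(W)³ (abc)^{2p} = 2⁸ c₄(E)³ Δ(W)` for an integral model `W`. -/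
theorem h21f_key (P : FreyPackage) (W : WeierstrassCurve ℤ)
    (hW : W.IsIntegralModelOf P.freyCurve) :
    W.c₄ ^ 3 * ((P.a * P.b * P.c) ^ P.p) ^ 2 =
      2 ^ 8 * ((P.a ^ P.p) ^ 2 + P.a ^ P.p * P.b ^ P.p + (P.b ^ P.p) ^ 2) ^ 3 * W.Δ := by
  obtain ⟨C, hC⟩ := hW
  have hΔ : ((W.Δ : ℤ) : ℚ) = (((C.u⁻¹ : ℚˣ) : ℚ)) ^ 12 * P.freyCurve.Δ := by
    have h1 : (W.map (Int.castRingHom ℚ)).Δ = ((W.Δ : ℤ) : ℚ) := by
      rw [WeierstrassCurve.map_Δ]; rfl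
    rw [← h1, ← hC, WeierstrassCurve.variableChange_Δ]
  have hc : ((W.c₄ : ℤ) : ℚ) = (((C.u⁻¹ : ℚˣ) : ℚ)) ^ 4 * P.freyCurve.c₄ := by
    have h1 : (W.map (Int.castRingHom ℚ)).c₄ = ((W.c₄ : ℤ) : ℚ) := by
      rw [WeierstrassCurve.map_c₄]; rfl
    rw [← h1, ← hC, WeierstrassCurve.variableChange_c₄]
  have hD := Fermat.Agent.S13.freyCurve_Δ P
  have hc4 := h21f_frey_c₄ P
  have key : ((W.c₄ : ℤ) : ℚ) ^ 3 * ((((P.a : ℚ) * P.b * P.c) ^ P.p) ^ 2) =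
      2 ^ 8 * (((P.a : ℚ) ^ P.p) ^ 2 + (P.a : ℚ) ^ P.p * (P.b : ℚ) ^ P.p +
        ((P.b : ℚ) ^ P.p) ^ 2) ^ 3 * ((W.Δ : ℤ) : ℚ) := by
    rw [← hD, ← hc4, hΔ, hc]
    ring
  exact_mod_cast key

/-- `a` is odd. -/
theorem h21f_not_two_dvd_a (P : FreyPackage) : ¬ (2 : ℤ) ∣ P.a := by
  intro h
  have h4 := Fermat.Agent.S13.frey_a_mod_four P
  omega

/-- `c₄` of the Frey curve is odd. -/
theorem h21f_c₄_odd (P : FreyPackage) :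
    ¬ (2 : ℤ) ∣ (P.a ^ P.p) ^ 2 + P.a ^ P.p * P.b ^ P.p + (P.b ^ P.p) ^ 2 := by
  intro h
  have h2 : Prime (2 : ℤ) := Int.prime_two
  have hb : (2 : ℤ) ∣ P.b ^ P.p :=
    dvd_pow (Fermat.Agent.S13.frey_two_dvd_b P) P.hp0
  have h1 : (2 : ℤ) ∣ P.a ^ P.p * P.b ^ P.p + (P.b ^ P.p) ^ 2 :=
    dvd_add (Dvd.dvd.mul_left hb _) (dvd_pow hb two_ne_zero)
  have h3 : (2 : ℤ) ∣ (P.a ^ P.p) ^ 2 := by
    have e : (P.a ^ P.p) ^ 2 = ((P.a ^ P.p) ^ 2 + P.a ^ P.p * P.b ^ P.p + (P.b ^ P.p) ^ 2) -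
        (P.a ^ P.p * P.b ^ P.p + (P.b ^ P.p) ^ 2) := by ring
    rw [e]
    exact dvd_sub h h1
  exact h21f_not_two_dvd_a P (h2.dvd_of_dvd_pow (h2.dvd_of_dvd_pow h3))

/-- **every integral model of the Frey curve has `4 ∣ Δ`.** -/
theorem h21f_four_dvd_disc (P : FreyPackage) (W : WeierstrassCurve ℤ)
    (hW : W.IsIntegralModelOf P.freyCurve) : (4 : ℤ) ∣ W.Δ := by
  have key := h21f_key P W hW
  have hp5 := P.hp5
  -- `2 ^ 10 ∣ (abc)^{2p}`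
  have hb : (2 : ℤ) ^ 10 ∣ ((P.a * P.b * P.c) ^ P.p) ^ 2 := by
    obtain ⟨m, hm⟩ := Fermat.Agent.S13.frey_two_dvd_b P
    have e2 : P.p * 2 = 10 + (2 * P.p - 10) := by omega
    have e : ((P.a * P.b * P.c) ^ P.p) ^ 2 =
        (2 : ℤ) ^ 10 * (2 ^ (2 * P.p - 10) * ((P.a * m * P.c) ^ P.p) ^ 2) := by
      have e3 : P.a * P.b * P.c = 2 * (P.a * m * P.c) := by rw [hm]; ring
      rw [e3, ← pow_mul, ← pow_mul, mul_pow, e2, pow_add]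
      ring
    rw [e]
    exact Dvd.intro _ rfl
  have h1 : (2 : ℤ) ^ 10 ∣
      2 ^ 8 * ((P.a ^ P.p) ^ 2 + P.a ^ P.p * P.b ^ P.p + (P.b ^ P.p) ^ 2) ^ 3 * W.Δ := by
    rw [← key]
    exact Dvd.dvd.mul_left hb _
  have h2 : (2 : ℤ) ^ 2 ∣
      ((P.a ^ P.p) ^ 2 + P.a ^ P.p * P.b ^ P.p + (P.b ^ P.p) ^ 2) ^ 3 * W.Δ := by
    have e : (2 : ℤ) ^ 10 = 2 ^ 8 * 2 ^ 2 := by norm_num
    rw [e, mul_assoc] at h1
    exact (mul_dvd_mul_iff_left (by norm_num : (2 : ℤ) ^ 8 ≠ 0)).mp h1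
  have hcop : IsCoprime ((2 : ℤ) ^ 2)
      (((P.a ^ P.p) ^ 2 + P.a ^ P.p * P.b ^ P.p + (P.b ^ P.p) ^ 2) ^ 3) := by
    apply IsCoprime.pow
    exact (Int.prime_two.irreducible.coprime_iff_not_dvd).mpr (h21f_c₄_odd P)
  have h3 : (2 : ℤ) ^ 2 ∣ W.Δ := hcop.dvd_of_dvd_mul_left h2
  have e4 : (4 : ℤ) = 2 ^ 2 := by norm_num
  rw [e4]
  exact h3

/-- **every integral model of the Frey curve is bad at `2`.** -/
theorem h21f_two_dvd_disc (P : FreyPackage) (W : WeierstrassCurve ℤ)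
    (hW : W.IsIntegralModelOf P.freyCurve) : (2 : ℤ) ∣ W.Δ :=
  Dvd.dvd.trans ⟨2, by norm_num⟩ (h21f_four_dvd_disc P W hW)

/-- `2` is not a good prime of an integral model of the Frey curve. -/
theorem h21f_not_good_two (P : FreyPackage) (W : WeierstrassCurve ℤ)
    (hW : W.IsIntegralModelOf P.freyCurve) : ¬ W.IsGoodPrimeFor 2 := by
  intro h
  exact h (by exact_mod_cast h21f_two_dvd_disc P W hW)

/-- a good prime of an integral model of the Frey curve is odd. -/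
theorem h21f_good_ne_two (P : FreyPackage) (W : WeierstrassCurve ℤ)
    (hW : W.IsIntegralModelOf P.freyCurve) {ℓ : ℕ} (hℓ : W.IsGoodPrimeFor ℓ) : ℓ ≠ 2 := by
  rintro rfl
  exact h21f_not_good_two P W hW hℓ

/-- an odd prime not dividing `M * p` does not divide `lcm(M, 4) * p`. -/
theorem h21f_not_dvd_lcm_four {ℓ M p : ℕ} (hℓ : ℓ.Prime) (hℓ2 : ℓ ≠ 2)
    (h : ¬ ℓ ∣ M * p) : ¬ ℓ ∣ Nat.lcm M 4 * p := by
  intro hd
  rcases (Nat.Prime.dvd_mul hℓ).mp hd with h1 | h1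
  · have h2 : ℓ ∣ M * 4 := Dvd.dvd.trans h1 (Nat.lcm_dvd_mul M 4)
    rcases (Nat.Prime.dvd_mul hℓ).mp h2 with h3 | h3
    · exact h (Dvd.dvd.mul_right h3 p)
    · have e4 : (4 : ℕ) = 2 ^ 2 := by norm_num
      rw [e4] at h3
      have h4 : ℓ ∣ 2 := hℓ.dvd_of_dvd_pow h3
      exact hℓ2 ((Nat.prime_dvd_prime_iff_eq hℓ Nat.prime_two).mp h4)
  · exact h (Dvd.dvd.mul_left h1 M)

end Fermat.Agent.P7
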