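import Fermat.Agent.P7.H23Break

/-!
# Wave 7 (S40), row T-C1-BREAK (helper23): the `𝔽_p`-valued form of the break

Same frame as `P7/H23Break.lean`.  For `γ ∈ Lˣ = Fix(I_β)ˣ` there is `j < p` with
`b γ / γ ≡ 1 + j δ` modulo `δ 𝔪_A`, and `j = 0` iff `v(γ)` lies in the value group of
`K₁ = Fix(I₁)`.

* `H23wBreakS p A ζ β b δ` : the strong frozen shape.
* `h23w_breakS` : a strong break depth exists.
* `h23w_breakS_weak` : the strong shape implies `H23wBreak`.
* `h23w_psi_unique`, `h23w_psi_mul`, `h23w_psi_inv`, `h23w_psi_eq` : the exponent `j` is unique,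
  additive modulo `p`, and equal exponents give a quotient in the value group of `K₁`.
-/

set_option autoImplicit false
set_option linter.style.haveILetI false
set_option linter.unusedSectionVars false

open Fermat.Agent.PT.Loc Fermat.Agent.S56F Fermat.Agent.PT.Bridge

open scoped Pointwise

noncomputable section

namespace Fermat.Agent.P7

/-- the strong frozen shape of row T-C1-BREAK: `b γ / γ ≡ 1 + j δ` modulo `δ 𝔪_A`. -/
def H23wBreakS (p : ℕ) (A : ValuationSubring Qb) (ζ β : Qb) (b : GQ) (δ : Qb) : Prop :=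
  δ ≠ 0 ∧ δ ∈ A.nonunits ∧ (ζ - 1) * δ⁻¹ ∈ A.nonunits ∧
    ∀ γ : Qb, γ ≠ 0 → (∀ a ∈ h23vI1 p A, a β = β → a γ = γ) →
      ∃ j : ℕ, j < p ∧ (b γ * γ⁻¹ - 1) * δ⁻¹ - (j : Qb) ∈ A.nonunits ∧
        (j = 0 ↔ ∃ n : ℤ, A.valuation γ ^ (p - 1) = A.valuation (p : Qb) ^ n)

variable {p : ℕ} [Fact p.Prime]

/-- `(1 + δ) ^ i - 1 = δ u_i` with `u_i - i ∈ 𝔪_A`. -/
theorem h23w_pow_sub_one_near (A : ValuationSubring Qb) {δ : Qb} (hδ : δ ∈ A.nonunits) (i : ℕ) :
    ∃ u : Qb, (1 + δ) ^ i - 1 = δ * u ∧ u - (i : Qb) ∈ A.nonunits := by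
  obtain ⟨u, hu, w, hw, huw⟩ :=
    h23w_pow_sub_one A (Fermat.Agent.Bridge.mem_of_mem_nonunits A hδ) i
  refine ⟨u, hu, ?_⟩
  rw [huw, add_sub_cancel_left]
  exact Fermat.Agent.Bridge.mul_mem_nonunits_left A hδ hw

/-- **BREAK, strong normalised form** (`β ≡ 1` modulo `𝔪_A`). -/
theorem h23w_coreS (hp2 : p ≠ 2) (A : ValuationSubring Qb) (hA : A.LiesOverPrime p)
    {ζ : Qb} (hζ : IsPrimitiveRoot ζ p)
    {β : Qb} (hβ0 : β ≠ 0) (hβA : β ∈ A) (hβA' : β⁻¹ ∈ A) (hβ1 : β - 1 ∈ A.nonunits)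
    (hβ : ∀ a ∈ h23vI1 p A, a (β ^ p) = β ^ p)
    {b : GQ} (hb : b ∈ h23vI1 p A) (hbβ : b β = ζ * β) :
    H23wBreakS p A ζ β b ((ζ - 1) * β * (β - 1)⁻¹) := by
  classical
  have hp : p.Prime := Fact.out
  have hζ1 : ζ ≠ 1 := hζ.ne_one hp.one_lt
  have hζ1' : ζ - 1 ≠ 0 := sub_ne_zero.mpr hζ1
  have hbζ : b ζ = ζ := hb.2 ζ hζ.pow_eq_one
  have hx0 : β - 1 ≠ 0 := by
    intro h0
    have h1 : β = 1 := sub_eq_zero.mp h0
    rw [h1, map_one, mul_one] at hbβ
    exact hζ1 hbβ.symm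
  have hvβ : A.valuation β = 1 := h23v_val_eq_one hβ0 hβA hβA'
  have ht0 : 0 < A.valuation (ζ - 1) :=
    zero_lt_iff.mpr ((Valuation.ne_zero_iff _).mpr hζ1')
  have hr0 : 0 < A.valuation (β - 1) := zero_lt_iff.mpr ((Valuation.ne_zero_iff _).mpr hx0)
  have hr1 : A.valuation (β - 1) < 1 := (ValuationSubring.mem_nonunits_iff A).mp hβ1
  have htr : A.valuation (ζ - 1) < A.valuation (β - 1) :=
    h23w_lemmaA A hζ1 hβ0 hβA hβA' hb.1 hbζ hbβ
  have hy0 : β ^ p - 1 ≠ 0 := by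
    intro h0
    have h1 := h23w_val_pow_sub_one A hζ htr
    rw [h0, map_zero] at h1
    exact (pow_ne_zero p hr0.ne') h1.symm
  have hyfix : ∀ a ∈ h23vI1 p A, a (β ^ p - 1) = β ^ p - 1 := by
    intro a ha
    rw [map_sub, map_one, hβ a ha]
  obtain ⟨s, hs⟩ := h23w_val_K1 hp2 A hA hζ hy0 hyfix
  rw [h23w_val_pow_sub_one A hζ htr] at hs
  have hN : ∀ k : ℕ, 0 < k → k < p → ∀ n : ℤ,
      A.valuation (β - 1) ^ k ≠ A.valuation (ζ - 1) ^ n :=
    fun k hk0 hkp n => h23w_not_pow ht0 htr hr1 hs hk0 hkp n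
  -- the depth
  obtain ⟨δ, hδ⟩ : ∃ δ : Qb, δ = (ζ - 1) * β * (β - 1)⁻¹ := ⟨_, rfl⟩
  rw [← hδ]
  have hδ0 : δ ≠ 0 := by
    rw [hδ]
    exact mul_ne_zero (mul_ne_zero hζ1' hβ0) (inv_ne_zero hx0)
  have hvδ : A.valuation δ = A.valuation (ζ - 1) * (A.valuation (β - 1))⁻¹ := by
    rw [hδ, map_mul, map_mul, map_inv₀, hvβ, mul_one]
  have hδm : δ ∈ A.nonunits := by
    rw [ValuationSubring.mem_nonunits_iff, hvδ]
    calc A.valuation (ζ - 1) * (A.valuation (β - 1))⁻¹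
        < A.valuation (β - 1) * (A.valuation (β - 1))⁻¹ :=
          mul_lt_mul_of_pos_right htr (inv_pos.mpr hr0)
      _ = 1 := mul_inv_cancel₀ hr0.ne'
  have hbx : b (β - 1) = (β - 1) * (1 + δ) := by
    rw [map_sub, map_one, hbβ, hδ]
    field_simp
    ring
  refine ⟨hδ0, hδm, ?_, ?_⟩
  · have h1 : (ζ - 1) * δ⁻¹ = (β - 1) * β⁻¹ := by
      rw [hδ]
      field_simp
    rw [h1]
    exact Fermat.Agent.Bridge.mul_mem_nonunits_left A hβ1 hβA'
  intro γ hγ0 hγ
  obtain ⟨d, hd, hγd⟩ := h23w_expand A hβ0 hβ hγ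
  choose u hu hu1 using fun i : ℕ => h23w_pow_sub_one_near A hδm i
  obtain ⟨T, hT⟩ : ∃ T : ℕ → Qb, ∀ i, T i = d i * (β - 1) ^ i := ⟨_, fun _ => rfl⟩
  have hγT : γ = ∑ i ∈ Finset.range p, T i := by
    rw [hγd]
    exact Finset.sum_congr rfl fun i _ => (hT i).symm
  have hbγ : b γ - γ = δ * ∑ i ∈ Finset.range p, T i * u i := by
    rw [hγT, map_sum, ← Finset.sum_sub_distrib, Finset.mul_sum]
    refine Finset.sum_congr rfl fun i _ => ?_
    rw [hT, map_mul, map_pow, hd i b hb, hbx, mul_pow]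
    linear_combination (d i * (β - 1) ^ i) * hu i
  have hvd : ∀ i, d i ≠ 0 → ∃ n : ℤ, A.valuation (d i) = A.valuation (ζ - 1) ^ n :=
    fun i hi => h23w_val_K1 hp2 A hA hζ hi (hd i)
  have hnot : ∀ j : ℕ, 0 < j → j < p → T j ≠ 0 → ∀ n : ℤ,
      A.valuation (T j) ≠ A.valuation (ζ - 1) ^ n := by
    intro j hj0 hjp hTj n heq
    have hdj : d j ≠ 0 := by
      rw [hT] at hTj
      exact left_ne_zero_of_mul hTj
    obtain ⟨m, hm⟩ := hvd j hdj
    rw [hT, map_mul, map_pow, hm] at heq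
    refine hN j hj0 hjp (n - m) ?_
    rw [zpow_sub₀ ht0.ne', ← heq, mul_comm]
    exact (mul_div_cancel_right₀ _ (zpow_ne_zero m ht0.ne')).symm
  have hdist : ∀ i ∈ Finset.range p, ∀ j ∈ Finset.range p, i < j → T i ≠ 0 → T j ≠ 0 →
      A.valuation (T i) ≠ A.valuation (T j) := by
    intro i hi j hj hij hTi hTj heq
    have hdi : d i ≠ 0 := by
      rw [hT] at hTi
      exact left_ne_zero_of_mul hTi
    have hdj : d j ≠ 0 := by
      rw [hT] at hTj
      exact left_ne_zero_of_mul hTj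
    obtain ⟨m, hm⟩ := hvd i hdi
    obtain ⟨n, hn⟩ := hvd j hdj
    rw [hT, hT, map_mul, map_mul, map_pow, map_pow, hm, hn] at heq
    have hjp : j < p := Finset.mem_range.mp hj
    refine hN (j - i) (by omega) (by omega) (m - n) ?_
    have hri : A.valuation (β - 1) ^ i ≠ 0 := pow_ne_zero i hr0.ne'
    have h1 : A.valuation (β - 1) ^ j =
        A.valuation (β - 1) ^ (j - i) * A.valuation (β - 1) ^ i := by
      rw [← pow_add, Nat.sub_add_cancel hij.le]
    rw [h1, ← mul_assoc] at heq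
    have h2 := mul_right_cancel₀ hri heq
    rw [zpow_sub₀ ht0.ne', h2, mul_comm]
    exact (mul_div_cancel_right₀ _ (zpow_ne_zero n ht0.ne')).symm
  -- the dominant term
  obtain ⟨j, hj, hmax⟩ := Finset.exists_max_image (Finset.range p)
    (fun i => A.valuation (T i)) ⟨0, Finset.mem_range.mpr hp.pos⟩
  have hTj : T j ≠ 0 := by
    intro h0
    apply hγ0
    rw [hγT]
    refine Finset.sum_eq_zero fun i hi => ?_
    have h1 := hmax i hi
    simp only [h0, map_zero] at h1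
    exact (Valuation.zero_iff _).mp (le_antisymm h1 zero_le)
  have hvTj : 0 < A.valuation (T j) := zero_lt_iff.mpr ((Valuation.ne_zero_iff _).mpr hTj)
  have hlt : ∀ i ∈ Finset.range p, i ≠ j → A.valuation (T i) < A.valuation (T j) := by
    intro i hi hij
    by_cases hTi : T i = 0
    · rw [hTi, map_zero]
      exact hvTj
    · refine lt_of_le_of_ne (hmax i hi) ?_
      rcases lt_or_gt_of_ne hij with h | h
      · exact hdist i hi j hj h hTi hTj
      · exact (hdist j hj i hi h hTj hTi).symm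
  have hvγ : A.valuation γ = A.valuation (T j) := by
    rw [hγT]
    refine Valuation.map_sum_eq_of_lt _ hj fun i hi => ?_
    rw [Finset.mem_sdiff, Finset.mem_singleton] at hi
    exact hlt i hi.1 hi.2
  have hjp : j < p := Finset.mem_range.mp hj
  have hquot : (b γ * γ⁻¹ - 1) * δ⁻¹ - (j : Qb) =
      (∑ i ∈ Finset.range p, T i * (u i - (j : Qb))) * γ⁻¹ := by
    have h1 : b γ = γ + δ * ∑ i ∈ Finset.range p, T i * u i := by
      rw [← hbγ]
      ring
    have h2 : ∑ i ∈ Finset.range p, T i * (u i - (j : Qb)) =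
        ∑ i ∈ Finset.range p, T i * u i - (j : Qb) * γ := by
      rw [hγT, Finset.mul_sum, ← Finset.sum_sub_distrib]
      refine Finset.sum_congr rfl fun i _ => ?_
      ring
    rw [h2, h1]
    field_simp
    ring
  refine ⟨j, hjp, ?_, ?_⟩
  · rw [hquot, ValuationSubring.mem_nonunits_iff, map_mul, map_inv₀, hvγ]
    have h1 : A.valuation (∑ i ∈ Finset.range p, T i * (u i - (j : Qb))) <
        A.valuation (T j) := by
      refine Valuation.map_sum_lt _ hvTj.ne' fun i hi => ?_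
      rw [map_mul]
      by_cases hij : i = j
      · subst hij
        calc A.valuation (T i) * A.valuation (u i - (i : Qb))
            < A.valuation (T i) * 1 :=
              mul_lt_mul_of_pos_left ((ValuationSubring.mem_nonunits_iff A).mp (hu1 i)) hvTj
          _ = A.valuation (T i) := mul_one _
      · have h2 : A.valuation (u i - (j : Qb)) ≤ 1 := by
          rw [A.valuation_le_one_iff]
          have h3 : u i - (j : Qb) = (u i - (i : Qb)) + ((i : Qb) - (j : Qb)) := by ring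
          rw [h3]
          exact A.add_mem _ _ (Fermat.Agent.Bridge.mem_of_mem_nonunits A (hu1 i))
            (sub_mem (natCast_mem A i) (natCast_mem A j))
        exact (mul_le_of_le_one_right zero_le h2).trans_lt (hlt i hi hij)
    calc A.valuation (∑ i ∈ Finset.range p, T i * (u i - (j : Qb))) * (A.valuation (T j))⁻¹
        < A.valuation (T j) * (A.valuation (T j))⁻¹ :=
          mul_lt_mul_of_pos_right h1 (inv_pos.mpr hvTj)
      _ = 1 := mul_inv_cancel₀ hvTj.ne'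
  · constructor
    · intro hj0
      subst hj0
      have hd0 : d 0 ≠ 0 := by
        rw [hT] at hTj
        exact left_ne_zero_of_mul hTj
      obtain ⟨n, hn⟩ := hvd 0 hd0
      refine ⟨n, h23w_val_K1_conv A hA hζ ?_⟩
      rw [hvγ, hT, pow_zero, mul_one, hn]
    · rintro ⟨n, hn⟩
      by_contra hj0
      have h1 := h23w_val_of_pow A hA hζ hn
      rw [hvγ] at h1
      exact hnot j (Nat.pos_of_ne_zero hj0) hjp hTj n h1

/-- **BREAK, strong form** (row T-C1-BREAK): a strong break depth exists. -/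
theorem h23w_breakS (hp2 : p ≠ 2) (A : ValuationSubring Qb) (hA : A.LiesOverPrime p)
    {ζ : Qb} (hζ : IsPrimitiveRoot ζ p)
    {β : Qb} (hβ0 : β ≠ 0) (hβA : β ∈ A) (hβA' : β⁻¹ ∈ A)
    (hβ : ∀ a ∈ h23vI1 p A, a (β ^ p) = β ^ p)
    {b : GQ} (hb : b ∈ h23vI1 p A) (hbβ : b β = ζ * β) :
    ∃ δ : Qb, H23wBreakS p A ζ β b δ := by
  obtain ⟨β₁, h0, hA1, hA1', h1, hfix, hbβ₁, -, hback⟩ :=
    h23w_normalise A hA hζ hβ0 hβA hβA' hβ hb hbβ
  have hc := h23w_coreS hp2 A hA hζ h0 hA1 hA1' h1 hfix hb hbβ₁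
  exact ⟨_, hc.1, hc.2.1, hc.2.2.1, fun γ hγ0 hγ =>
    hc.2.2.2 γ hγ0 fun a ha haβ₁ => hγ a ha (hback a ha haβ₁)⟩

end Fermat.Agent.P7
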