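import Fermat.Agent.P7.H23BreakT

/-!
# Wave 7 (S40), row T-C1-BREAK (a) (helper23): the value group of `L = Fix(I_β)`

Same frame as `P7/H23Break.lean`.

* `h23w_dominant` : (normalised `β ≡ 1`) every `γ ∈ Lˣ` has `v(γ) = v(d) v(β - 1) ^ j` with
  `j < p` and `d ∈ Fix(I₁)ˣ`.
* `h23w_val_L` : **(a)** `v(γ) ^ p = v(ζ - 1) ^ n` for some `n : ℤ`, for every `γ ∈ Lˣ`
  (`p v(Lˣ) ⊆ v(K₁ˣ)`).
* `h23w_val_L'` : the same in the form `v(γ) ^ (p * (p - 1)) = v(p) ^ n`.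
* `h23w_val_map` : `v(b γ) = v(γ)` for `γ ∈ L`.
-/

set_option autoImplicit false
set_option linter.style.haveILetI false
set_option linter.unusedSectionVars false

open Fermat.Agent.PT.Loc Fermat.Agent.S56F Fermat.Agent.PT.Bridge

open scoped Pointwise

noncomputable section

namespace Fermat.Agent.P7

variable {p : ℕ} [Fact p.Prime]

/-- the dominant term of `γ ∈ Lˣ` in the expansion in powers of `β - 1`. -/
theorem h23w_dominant (hp2 : p ≠ 2) (A : ValuationSubring Qb) (hA : A.LiesOverPrime p)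
    {ζ : Qb} (hζ : IsPrimitiveRoot ζ p)
    {β : Qb} (hβ0 : β ≠ 0) (hβA : β ∈ A) (hβA' : β⁻¹ ∈ A) (hβ1 : β - 1 ∈ A.nonunits)
    (hβ : ∀ a ∈ h23vI1 p A, a (β ^ p) = β ^ p)
    {b : GQ} (hb : b ∈ h23vI1 p A) (hbβ : b β = ζ * β)
    {γ : Qb} (hγ0 : γ ≠ 0) (hγ : ∀ a ∈ h23vI1 p A, a β = β → a γ = γ) :
    ∃ j : ℕ, j < p ∧ ∃ d : Qb, d ≠ 0 ∧ (∀ a ∈ h23vI1 p A, a d = d) ∧
      A.valuation γ = A.valuation d * A.valuation (β - 1) ^ j := by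
  classical
  have hp : p.Prime := Fact.out
  have hζ1 : ζ ≠ 1 := hζ.ne_one hp.one_lt
  have hζ1' : ζ - 1 ≠ 0 := sub_ne_zero.mpr hζ1
  have hbζ : b ζ = ζ := hb.2 ζ hζ.pow_eq_one
  have hx0 : β - 1 ≠ 0 := by
    intro h0
    have h1 : β = 1 := sub_eq_zero.mp h0
    rw [h1, map_one, mul_one] at hbβ
    exact hζ1 hbβ.symm
  have ht0 : 0 < A.valuation (ζ - 1) :=
    zero_lt_iff.mpr ((Valuation.ne_zero_iff _).mpr hζ1')
  have hr0 : 0 < A.valuation (β - 1) := zero_lt_iff.mpr ((Valuation.ne_zero_iff _).mpr hx0)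
  have hr1 : A.valuation (β - 1) < 1 := (ValuationSubring.mem_nonunits_iff A).mp hβ1
  have htr : A.valuation (ζ - 1) < A.valuation (β - 1) :=
    h23w_lemmaA A hζ1 hβ0 hβA hβA' hb.1 hbζ hbβ
  have hy0 : β ^ p - 1 ≠ 0 := by
    intro h0
    have h1 := h23w_val_pow_sub_one A hζ htr
    rw [h0, map_zero] at h1
    exact (pow_ne_zero p hr0.ne') h1.symm
  have hyfix : ∀ a ∈ h23vI1 p A, a (β ^ p - 1) = β ^ p - 1 := by
    intro a ha
    rw [map_sub, map_one, hβ a ha]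
  obtain ⟨s, hs⟩ := h23w_val_K1 hp2 A hA hζ hy0 hyfix
  rw [h23w_val_pow_sub_one A hζ htr] at hs
  have hN : ∀ k : ℕ, 0 < k → k < p → ∀ n : ℤ,
      A.valuation (β - 1) ^ k ≠ A.valuation (ζ - 1) ^ n :=
    fun k hk0 hkp n => h23w_not_pow ht0 htr hr1 hs hk0 hkp n
  obtain ⟨d, hd, hγd⟩ := h23w_expand A hβ0 hβ hγ
  obtain ⟨T, hT⟩ : ∃ T : ℕ → Qb, ∀ i, T i = d i * (β - 1) ^ i := ⟨_, fun _ => rfl⟩
  have hγT : γ = ∑ i ∈ Finset.range p, T i := by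
    rw [hγd]
    exact Finset.sum_congr rfl fun i _ => (hT i).symm
  have hvd : ∀ i, d i ≠ 0 → ∃ n : ℤ, A.valuation (d i) = A.valuation (ζ - 1) ^ n :=
    fun i hi => h23w_val_K1 hp2 A hA hζ hi (hd i)
  have hdist : ∀ i ∈ Finset.range p, ∀ j ∈ Finset.range p, i < j → T i ≠ 0 → T j ≠ 0 →
      A.valuation (T i) ≠ A.valuation (T j) := by
    intro i hi j hj hij hTi hTj heq
    have hdi : d i ≠ 0 := by
      rw [hT] at hTi
      exact left_ne_zero_of_mul hTi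
    have hdj : d j ≠ 0 := by
      rw [hT] at hTj
      exact left_ne_zero_of_mul hTj
    obtain ⟨m, hm⟩ := hvd i hdi
    obtain ⟨n, hn⟩ := hvd j hdj
    rw [hT, hT, map_mul, map_mul, map_pow, map_pow, hm, hn] at heq
    have hjp : j < p := Finset.mem_range.mp hj
    refine hN (j - i) (by omega) (by omega) (m - n) ?_
    have hri : A.valuation (β - 1) ^ i ≠ 0 := pow_ne_zero i hr0.ne'
    have h1 : A.valuation (β - 1) ^ j =
        A.valuation (β - 1) ^ (j - i) * A.valuation (β - 1) ^ i := by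
      rw [← pow_add, Nat.sub_add_cancel hij.le]
    rw [h1, ← mul_assoc] at heq
    have h2 := mul_right_cancel₀ hri heq
    rw [zpow_sub₀ ht0.ne', h2, mul_comm]
    exact (mul_div_cancel_right₀ _ (zpow_ne_zero n ht0.ne')).symm
  obtain ⟨j, hj, hmax⟩ := Finset.exists_max_image (Finset.range p)
    (fun i => A.valuation (T i)) ⟨0, Finset.mem_range.mpr hp.pos⟩
  have hTj : T j ≠ 0 := by
    intro h0
    apply hγ0
    rw [hγT]
    refine Finset.sum_eq_zero fun i hi => ?_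
    have h1 := hmax i hi
    simp only [h0, map_zero] at h1
    exact (Valuation.zero_iff _).mp (le_antisymm h1 zero_le)
  have hvTj : 0 < A.valuation (T j) := zero_lt_iff.mpr ((Valuation.ne_zero_iff _).mpr hTj)
  have hlt : ∀ i ∈ Finset.range p, i ≠ j → A.valuation (T i) < A.valuation (T j) := by
    intro i hi hij
    by_cases hTi : T i = 0
    · rw [hTi, map_zero]
      exact hvTj
    · refine lt_of_le_of_ne (hmax i hi) ?_
      rcases lt_or_gt_of_ne hij with h | h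
      · exact hdist i hi j hj h hTi hTj
      · exact (hdist j hj i hi h hTj hTi).symm
  have hvγ : A.valuation γ = A.valuation (T j) := by
    rw [hγT]
    refine Valuation.map_sum_eq_of_lt _ hj fun i hi => ?_
    rw [Finset.mem_sdiff, Finset.mem_singleton] at hi
    exact hlt i hi.1 hi.2
  have hdj : d j ≠ 0 := by
    rw [hT] at hTj
    exact left_ne_zero_of_mul hTj
  refine ⟨j, Finset.mem_range.mp hj, d j, hdj, hd j, ?_⟩
  rw [hvγ, hT, map_mul, map_pow]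

/-- **(a), normalised**: `v(γ) ^ p ∈ v(ζ - 1) ^ ℤ` for `γ ∈ Lˣ`. -/
theorem h23w_val_L_core (hp2 : p ≠ 2) (A : ValuationSubring Qb) (hA : A.LiesOverPrime p)
    {ζ : Qb} (hζ : IsPrimitiveRoot ζ p)
    {β : Qb} (hβ0 : β ≠ 0) (hβA : β ∈ A) (hβA' : β⁻¹ ∈ A) (hβ1 : β - 1 ∈ A.nonunits)
    (hβ : ∀ a ∈ h23vI1 p A, a (β ^ p) = β ^ p)
    {b : GQ} (hb : b ∈ h23vI1 p A) (hbβ : b β = ζ * β)
    {γ : Qb} (hγ0 : γ ≠ 0) (hγ : ∀ a ∈ h23vI1 p A, a β = β → a γ = γ) :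
    ∃ n : ℤ, A.valuation γ ^ p = A.valuation (ζ - 1) ^ n := by
  have hp : p.Prime := Fact.out
  have hζ1 : ζ ≠ 1 := hζ.ne_one hp.one_lt
  have hbζ : b ζ = ζ := hb.2 ζ hζ.pow_eq_one
  have htr : A.valuation (ζ - 1) < A.valuation (β - 1) :=
    h23w_lemmaA A hζ1 hβ0 hβA hβA' hb.1 hbζ hbβ
  have hr0 : A.valuation (β - 1) ≠ 0 := by
    intro h0
    rw [h0] at htr
    exact absurd htr (not_lt.mpr zero_le)
  have hy0 : β ^ p - 1 ≠ 0 := by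
    intro h0
    have h1 := h23w_val_pow_sub_one A hζ htr
    rw [h0, map_zero] at h1
    exact (pow_ne_zero p hr0) h1.symm
  have hyfix : ∀ a ∈ h23vI1 p A, a (β ^ p - 1) = β ^ p - 1 := by
    intro a ha
    rw [map_sub, map_one, hβ a ha]
  obtain ⟨s, hs⟩ := h23w_val_K1 hp2 A hA hζ hy0 hyfix
  rw [h23w_val_pow_sub_one A hζ htr] at hs
  obtain ⟨j, -, d, hd0, hdfix, hv⟩ :=
    h23w_dominant hp2 A hA hζ hβ0 hβA hβA' hβ1 hβ hb hbβ hγ0 hγ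
  obtain ⟨m, hm⟩ := h23w_val_K1 hp2 A hA hζ hd0 hdfix
  have ht0 : A.valuation (ζ - 1) ≠ 0 :=
    (Valuation.ne_zero_iff _).mpr (sub_ne_zero.mpr hζ1)
  refine ⟨m * p + s * j, ?_⟩
  rw [hv, mul_pow, hm, ← pow_mul, mul_comm j p, pow_mul, hs, zpow_add₀ ht0, zpow_mul,
    zpow_natCast, zpow_mul, zpow_natCast]

/-- **(a)** (row T-C1-BREAK): `p v(Lˣ) ⊆ v(K₁ˣ)`: `v(γ) ^ p = v(ζ - 1) ^ n`. -/
theorem h23w_val_L (hp2 : p ≠ 2) (A : ValuationSubring Qb) (hA : A.LiesOverPrime p)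
    {ζ : Qb} (hζ : IsPrimitiveRoot ζ p)
    {β : Qb} (hβ0 : β ≠ 0) (hβA : β ∈ A) (hβA' : β⁻¹ ∈ A)
    (hβ : ∀ a ∈ h23vI1 p A, a (β ^ p) = β ^ p)
    {b : GQ} (hb : b ∈ h23vI1 p A) (hbβ : b β = ζ * β)
    {γ : Qb} (hγ0 : γ ≠ 0) (hγ : ∀ a ∈ h23vI1 p A, a β = β → a γ = γ) :
    ∃ n : ℤ, A.valuation γ ^ p = A.valuation (ζ - 1) ^ n := by
  obtain ⟨β₁, h0, hA1, hA1', h1, hfix, hbβ₁, -, hback⟩ :=
    h23w_normalise A hA hζ hβ0 hβA hβA' hβ hb hbβ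
  exact h23w_val_L_core hp2 A hA hζ h0 hA1 hA1' h1 hfix hb hbβ₁ hγ0
    fun a ha haβ₁ => hγ a ha (hback a ha haβ₁)

/-- **(a)**, in terms of `v(p)`: `v(γ) ^ (p (p - 1)) = v(p) ^ n`. -/
theorem h23w_val_L' (hp2 : p ≠ 2) (A : ValuationSubring Qb) (hA : A.LiesOverPrime p)
    {ζ : Qb} (hζ : IsPrimitiveRoot ζ p)
    {β : Qb} (hβ0 : β ≠ 0) (hβA : β ∈ A) (hβA' : β⁻¹ ∈ A)
    (hβ : ∀ a ∈ h23vI1 p A, a (β ^ p) = β ^ p)
    {b : GQ} (hb : b ∈ h23vI1 p A) (hbβ : b β = ζ * β)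
    {γ : Qb} (hγ0 : γ ≠ 0) (hγ : ∀ a ∈ h23vI1 p A, a β = β → a γ = γ) :
    ∃ n : ℤ, A.valuation γ ^ (p * (p - 1)) = A.valuation (p : Qb) ^ n := by
  obtain ⟨n, hn⟩ := h23w_val_L hp2 A hA hζ hβ0 hβA hβA' hβ hb hbβ hγ0 hγ
  refine ⟨n, ?_⟩
  rw [pow_mul, hn, ← h23w_val_zeta A hA hζ, ← zpow_natCast, ← zpow_mul, mul_comm, zpow_mul,
    zpow_natCast]

/-- `b` preserves the valuation on `L`. -/
theorem h23w_val_map (A : ValuationSubring Qb) {ζ β : Qb} {b : GQ}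
    {δ : Qb} (h : H23wBreak p A ζ β b δ) {γ : Qb}
    (hγ : ∀ a ∈ h23vI1 p A, a β = β → a γ = γ) : A.valuation (b γ) = A.valuation γ := by
  by_cases hγ0 : γ = 0
  · rw [hγ0, map_zero]
  · obtain ⟨hδ0, hδ, -, hall⟩ := h
    obtain ⟨h1, -⟩ := hall γ hγ0 hγ
    have h2 : b γ = γ * (1 + δ * ((b γ * γ⁻¹ - 1) * δ⁻¹)) := by
      field_simp
      ring
    rw [h2, map_mul, h23v_val_one_add (Fermat.Agent.Bridge.mul_mem_nonunits_left A hδ h1),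
      mul_one]

end Fermat.Agent.P7
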