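import Fermat.Agent.P7.H23BreakU
import Fermat.Agent.P7.H20Break

/-!
# Wave 7 (S40/S44), leaf C1 BREAK (helper23): the consumer forms for C3 / C5

Same frame as `P7/H23Break.lean`.

* `h23w_var_mul` : for `z ∈ L = Fix(I_β)` (zero allowed) there is `c ∈ A` with
  `b z = z (1 + δ c)`: the hypothesis `hvar` of the normal forms `H84aNFSmooth`, `H84aNFNode`
  of `P7/H84Asm.lean`.
* `h23w_p_delta` : `p δ = δ ^ p m₀` with `m₀ ∈ 𝔪_A` (the hypothesis `hpδ` of `h84a_phase`),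
  from helper20's `h20b_p_delta`.
* `h23w_phase_val` : the last step of (C): `b Γ / Γ ∈ 1 + δ 𝔪_A` for `Γ ∈ Lˣ` implies
  `v(Γ) ^ (p - 1) = v(p) ^ n`.
* `h23w_all` : everything at once: for `β` a unit of `A` with `β ^ p ∈ Fix(I₁)` and `b β = ζ β`
  there is `δ` with all the properties above.
-/

set_option autoImplicit false
set_option linter.style.haveILetI false
set_option linter.unusedSectionVars false

open Fermat.Agent.PT.Loc Fermat.Agent.S56F Fermat.Agent.PT.Bridge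

open scoped Pointwise

noncomputable section

namespace Fermat.Agent.P7

variable {p : ℕ} [Fact p.Prime]

/-- **multiplicative variation**: `b z = z (1 + δ c)` with `c ∈ A`, for every `z ∈ L`. -/
theorem h23w_var_mul (A : ValuationSubring Qb) {ζ β : Qb} {b : GQ}
    {δ : Qb} (h : H23wBreak p A ζ β b δ) {z : Qb}
    (hz : ∀ a ∈ h23vI1 p A, a β = β → a z = z) : ∃ c ∈ A, b z = z * (1 + δ * c) := by
  by_cases hz0 : z = 0
  · exact ⟨0, A.zero_mem, by rw [hz0, map_zero, zero_mul]⟩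
  · obtain ⟨hδ0, -, -, hall⟩ := h
    obtain ⟨h1, -⟩ := hall z hz0 hz
    refine ⟨(b z * z⁻¹ - 1) * δ⁻¹, h1, ?_⟩
    field_simp
    ring

/-- `p δ = δ ^ p m₀` with `m₀ ∈ 𝔪_A`. -/
theorem h23w_p_delta (A : ValuationSubring Qb) {ζ β : Qb} (hζ : IsPrimitiveRoot ζ p) {b : GQ}
    {δ : Qb} (h : H23wBreak p A ζ β b δ) :
    ∃ m₀ ∈ A.nonunits, (p : Qb) * δ = δ ^ p * m₀ :=
  h20b_p_delta A (Fact.out : p.Prime) hζ h.1 h.2.2.1

/-- **the last step of (C)**: a phase `b Γ / Γ ∈ 1 + δ 𝔪_A` puts `v(Γ)` in the value group of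
`Fix(I₁)`. -/
theorem h23w_phase_val (A : ValuationSubring Qb) {ζ β : Qb} {b : GQ}
    {δ : Qb} (h : H23wBreak p A ζ β b δ) {Γ : Qb} (hΓ0 : Γ ≠ 0)
    (hΓ : ∀ a ∈ h23vI1 p A, a β = β → a Γ = Γ)
    {m : Qb} (hm : m ∈ A.nonunits) (hph : b Γ = Γ * (1 + δ * m)) :
    ∃ n : ℤ, A.valuation Γ ^ (p - 1) = A.valuation (p : Qb) ^ n := by
  obtain ⟨hδ0, -, -, hall⟩ := h
  obtain ⟨-, h2⟩ := hall Γ hΓ0 hΓ
  refine h2.mp ?_
  have h3 : (b Γ * Γ⁻¹ - 1) * δ⁻¹ = m := by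
    rw [hph]
    field_simp
    ring
  rw [h3]
  exact hm

/-- **C1 BREAK, everything at once**. -/
theorem h23w_all (hp2 : p ≠ 2) (A : ValuationSubring Qb) (hA : A.LiesOverPrime p)
    {ζ : Qb} (hζ : IsPrimitiveRoot ζ p)
    {β : Qb} (hβ0 : β ≠ 0) (hβA : β ∈ A) (hβA' : β⁻¹ ∈ A)
    (hβ : ∀ a ∈ h23vI1 p A, a (β ^ p) = β ^ p)
    {b : GQ} (hb : b ∈ h23vI1 p A) (hbβ : b β = ζ * β) :
    ∃ δ : Qb, δ ≠ 0 ∧ δ ∈ A.nonunits ∧ (ζ - 1) * δ⁻¹ ∈ A.nonunits ∧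
      (∃ m₀ ∈ A.nonunits, (p : Qb) * δ = δ ^ p * m₀) ∧
      (∀ z : Qb, (∀ a ∈ h23vI1 p A, a β = β → a z = z) → ∃ c ∈ A, b z = z * (1 + δ * c)) ∧
      (∀ z : Qb, z ∈ A.nonunits → (∀ a ∈ h23vI1 p A, a β = β → a z = z) →
        (b z - z) * δ⁻¹ ∈ A.nonunits) ∧
      (∀ Γ : Qb, Γ ≠ 0 → (∀ a ∈ h23vI1 p A, a β = β → a Γ = Γ) →
        ∀ m ∈ A.nonunits, b Γ = Γ * (1 + δ * m) →
          ∃ n : ℤ, A.valuation Γ ^ (p - 1) = A.valuation (p : Qb) ^ n) := by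
  obtain ⟨δ, hS⟩ := h23w_breakS hp2 A hA hζ hβ0 hβA hβA' hβ hb hbβ
  have hW := h23w_breakS_weak A hA hS
  exact ⟨δ, hW.1, hW.2.1, hW.2.2.1, h23w_p_delta A hζ hW,
    fun z hz => h23w_var_mul A hW hz,
    fun z hzA hz => h23w_var_nonunit A hW hzA hz,
    fun Γ hΓ0 hΓ m hm hph => h23w_phase_val A hW hΓ0 hΓ hm hph⟩

end Fermat.Agent.P7
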