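import Fermat.Agent.P7.H23BreakV

/-!
# Wave 7 (S44), leaf C1 BREAK (helper23): the tame / wild dichotomy for the assembly of (C)

Same frame as `P7/H23Break.lean`: `A` over the odd prime `p`, `I₁ = h23vI1 p A`, `β ≠ 0` with
`β ^ p ∈ Fix(I₁)`.

* `h23w_dichotomy` : either every `a ∈ I₁` fixes `β` (TAME: `Fix(I_β) = Fix(I₁)`), or there are
  `b ∈ I₁` and a primitive `p`-th root of unity `ζ` with `b β = ζ β` (WILD).
* `h23w_wild` : in the wild case, for `β` a unit of `A`, there are `b`, `ζ`, `δ` with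
  `H23wBreakS p A ζ β b δ` (hence `H23wBreak p A ζ β b δ`), `b ∈ A.inertiaSubgroupIn ℚ`.
* `h23w_cases` : the two cases in one statement, in the shape consumed by the level theorems
  (`h84w_const`, `h78l_const_exists`, `h27g_eis_top*` take `hbreak : H23wBreak p A ζ β b δ`,
  `hb : b ∈ A.inertiaSubgroupIn ℚ`, `hζ : IsPrimitiveRoot ζ p`; the tame theorems of
  `P7/H50Tame.lean` take elements fixed by `I₁`).
* `h23w_mem_I1_iff`, `h23w_fix_of_inertia` : translation between `a ∈ h23vI1 p A` and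
  `a ∈ A.inertiaSubgroupIn ℚ` with `∀ μ, μ ^ p = 1 → a μ = μ`.
-/

set_option autoImplicit false
set_option linter.style.haveILetI false
set_option linter.unusedSectionVars false

open Fermat.Agent.PT.Loc Fermat.Agent.S56F Fermat.Agent.PT.Bridge

open scoped Pointwise

noncomputable section

namespace Fermat.Agent.P7

variable {p : ℕ} [Fact p.Prime]

/-- membership in `I₁`, unfolded. -/
theorem h23w_mem_I1_iff (A : ValuationSubring Qb) (a : GQ) :
    a ∈ h23vI1 p A ↔ a ∈ A.inertiaSubgroupIn ℚ ∧ ∀ μ : Qb, μ ^ p = 1 → a μ = μ := Iff.rfl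

/-- a statement over `I_β ⊆ I₁` from the same statement over the inertia elements fixing
`μ_p` and `β`. -/
theorem h23w_fix_of_inertia (A : ValuationSubring Qb) {β : Qb} {P : GQ → Prop}
    (h : ∀ a ∈ A.inertiaSubgroupIn ℚ, (∀ μ : Qb, μ ^ p = 1 → a μ = μ) → a β = β → P a) :
    ∀ a ∈ h23vI1 p A, a β = β → P a :=
  fun a ha haβ => h a ha.1 ha.2 haβ

/-- and conversely. -/
theorem h23w_inertia_of_fix (A : ValuationSubring Qb) {β : Qb} {P : GQ → Prop}
    (h : ∀ a ∈ h23vI1 p A, a β = β → P a) :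
    ∀ a ∈ A.inertiaSubgroupIn ℚ, (∀ μ : Qb, μ ^ p = 1 → a μ = μ) → a β = β → P a :=
  fun a ha hμ haβ => h a ⟨ha, hμ⟩ haβ

/-- **the dichotomy**: TAME (`β ∈ Fix(I₁)`) or WILD (`b β = ζ β` with `ζ` primitive). -/
theorem h23w_dichotomy (A : ValuationSubring Qb) {β : Qb} (hβ0 : β ≠ 0)
    (hβ : ∀ a ∈ h23vI1 p A, a (β ^ p) = β ^ p) :
    (∀ a ∈ h23vI1 p A, a β = β) ∨
      ∃ b ∈ h23vI1 p A, ∃ ζ : Qb, IsPrimitiveRoot ζ p ∧ b β = ζ * β := by
  have hp : p.Prime := Fact.out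
  by_cases hex : ∃ b ∈ h23vI1 p A, b β ≠ β
  · right
    obtain ⟨b, hb, hbβ⟩ := hex
    refine ⟨b, hb, b β / β, ?_, ?_⟩
    · have hζp : (b β / β) ^ p = 1 := by
        rw [div_pow, ← map_pow, hβ b hb, div_self (pow_ne_zero _ hβ0)]
      have hζ1 : b β / β ≠ 1 := by
        intro h
        apply hbβ
        rwa [div_eq_one_iff_eq hβ0] at h
      have h1 : orderOf (b β / β) = p := orderOf_eq_prime hζp hζ1
      have h2 := IsPrimitiveRoot.orderOf (b β / β)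
      rwa [h1] at h2
    · rw [div_mul_cancel₀ _ hβ0]
  · left
    intro a ha
    by_contra h
    exact hex ⟨a, ha, h⟩

/-- **the wild case**: a strong break depth for some generator `b`. -/
theorem h23w_wild (hp2 : p ≠ 2) (A : ValuationSubring Qb) (hA : A.LiesOverPrime p)
    {β : Qb} (hβ0 : β ≠ 0) (hβA : β ∈ A) (hβA' : β⁻¹ ∈ A)
    (hβ : ∀ a ∈ h23vI1 p A, a (β ^ p) = β ^ p)
    (hwild : ¬ ∀ a ∈ h23vI1 p A, a β = β) :
    ∃ (b : GQ) (ζ δ : Qb), b ∈ h23vI1 p A ∧ b ∈ A.inertiaSubgroupIn ℚ ∧ IsPrimitiveRoot ζ p ∧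
      b β = ζ * β ∧ H23wBreakS p A ζ β b δ ∧ H23wBreak p A ζ β b δ := by
  rcases h23w_dichotomy A hβ0 hβ with h | ⟨b, hb, ζ, hζ, hbβ⟩
  · exact absurd h hwild
  · obtain ⟨δ, hS⟩ := h23w_breakS hp2 A hA hζ hβ0 hβA hβA' hβ hb hbβ
    exact ⟨b, ζ, δ, hb, hb.1, hζ, hbβ, hS, h23w_breakS_weak A hA hS⟩

/-- **the two cases in one statement**: a property `P` of the elements of `Fix(I_β)` which
holds (TAME) for the elements fixed by `I₁` and (WILD) whenever a break datum exists, holds. -/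
theorem h23w_cases (hp2 : p ≠ 2) (A : ValuationSubring Qb) (hA : A.LiesOverPrime p)
    {β : Qb} (hβ0 : β ≠ 0) (hβA : β ∈ A) (hβA' : β⁻¹ ∈ A)
    (hβ : ∀ a ∈ h23vI1 p A, a (β ^ p) = β ^ p) {C : Prop}
    (htame : (∀ a ∈ h23vI1 p A, a β = β) → C)
    (hwild : ∀ (b : GQ) (ζ δ : Qb), b ∈ h23vI1 p A → b ∈ A.inertiaSubgroupIn ℚ →
      IsPrimitiveRoot ζ p → b β = ζ * β → H23wBreakS p A ζ β b δ → H23wBreak p A ζ β b δ → C) :
    C := by
  by_cases h : ∀ a ∈ h23vI1 p A, a β = β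
  · exact htame h
  · obtain ⟨b, ζ, δ, hb, hbI, hζ, hbβ, hS, hW⟩ := h23w_wild hp2 A hA hβ0 hβA hβA' hβ h
    exact hwild b ζ δ hb hbI hζ hbβ hS hW

end Fermat.Agent.P7
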