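import Fermat.Agent.P7.H23BreakW

/-!
# Wave 7 (S44), leaf C1 BREAK (helper23): the break datum exists in BOTH cases (no case split)

Same frame as `P7/H23Break.lean`: `A` over the odd prime `p`, `I₁ = h23vI1 p A`, `β` a unit of `A`
with `β ^ p ∈ Fix(I₁)`.

In the TAME case (every `a ∈ I₁` fixes `β`, so `Fix(I_β) = Fix(I₁)`) the frozen shapes
`H23wBreak p A ζ β b δ` / `H23wBreakS p A ζ β b δ` hold for EVERY `b ∈ I₁` (e.g. `b = 1`), every
`ζ` and every depth `0 < v(δ) < v(ζ - 1)`: `b γ = γ` on `Fix(I₁)` and the value group of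
`Fix(I₁)` is `ℤ v(p) / (p - 1)` (`h23v_val`).  Hence the level theorems which take
`hbreak : H23wBreak p A ζ β b δ`, `hb : b ∈ A.inertiaSubgroupIn ℚ`, `hζ : IsPrimitiveRoot ζ p`
(`h90k_const`, `h84w_const`, `h78l_const_exists`, `h5e_all`, `h27g_eis_top*`) can be fed WITHOUT
distinguishing the tame and the wild case:

* `h23w_exists_depth` : a depth `δ ≠ 0`, `δ ∈ 𝔪_A`, `(ζ - 1) / δ ∈ 𝔪_A` (a square root of `ζ - 1`).
* `h23w_break_tame`, `h23w_breakS_tame` : the tame case, any `b ∈ I₁`.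
* `h23w_break_any` : **uniform BREAK**: there are `b ∈ I₁`, a primitive `p`-th root of unity `ζ`
  and `δ` with `H23wBreakS p A ζ β b δ` and `H23wBreak p A ζ β b δ`; moreover either (tame) every
  element of `I₁` fixes `β`, or (wild) `b β = ζ β`.
-/

set_option autoImplicit false
set_option linter.style.haveILetI false
set_option linter.unusedSectionVars false

open Fermat.Agent.PT.Loc Fermat.Agent.S56F Fermat.Agent.PT.Bridge

open scoped Pointwise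

noncomputable section

namespace Fermat.Agent.P7

variable {p : ℕ} [Fact p.Prime]

/-- `ζ - 1` is in the maximal ideal. -/
theorem h23w_zeta_sub_one_mem (A : ValuationSubring Qb) (hA : A.LiesOverPrime p)
    {ζ : Qb} (hζ : IsPrimitiveRoot ζ p) : ζ - 1 ∈ A.nonunits := by
  have h1 := h23w_val_zeta A hA hζ
  have h2 : A.valuation (p : Qb) < 1 := (ValuationSubring.mem_nonunits_iff A).1 hA
  apply Fermat.Agent.Bridge.mem_nonunits_of_pow_mem A (n := p - 1)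
  rw [ValuationSubring.mem_nonunits_iff, map_pow, h1]
  exact h2

/-- a depth strictly between `0` and `v(ζ - 1)`. -/
theorem h23w_exists_depth (A : ValuationSubring Qb) (hA : A.LiesOverPrime p)
    {ζ : Qb} (hζ : IsPrimitiveRoot ζ p) :
    ∃ δ : Qb, δ ≠ 0 ∧ δ ∈ A.nonunits ∧ (ζ - 1) * δ⁻¹ ∈ A.nonunits := by
  have hp : p.Prime := Fact.out
  have hζ1 : ζ - 1 ≠ 0 := sub_ne_zero.2 (hζ.ne_one hp.one_lt)
  obtain ⟨δ, hδ⟩ := IsAlgClosed.exists_pow_nat_eq (ζ - 1) (n := 2) (by norm_num)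
  have hδ0 : δ ≠ 0 := by
    intro h
    rw [h] at hδ
    exact hζ1 (by rw [← hδ]; norm_num)
  have hm := h23w_zeta_sub_one_mem A hA hζ
  have hδm : δ ∈ A.nonunits := by
    apply Fermat.Agent.Bridge.mem_nonunits_of_pow_mem A (n := 2)
    rw [hδ]
    exact hm
  refine ⟨δ, hδ0, hδm, ?_⟩
  have h4 : (ζ - 1) * δ⁻¹ = δ := by
    rw [← hδ, pow_two, mul_assoc, mul_inv_cancel₀ hδ0, mul_one]
  rw [h4]
  exact hδm

/-- **the tame case, strong shape**: if every element of `I₁` fixes `β`, every `b ∈ I₁` and every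
depth `δ` give a break datum (with `j = 0`). -/
theorem h23w_breakS_tame (hp2 : p ≠ 2) (A : ValuationSubring Qb) (hA : A.LiesOverPrime p)
    {ζ β δ : Qb} {b : GQ} (hb : b ∈ h23vI1 p A)
    (hδ0 : δ ≠ 0) (hδ : δ ∈ A.nonunits) (hζδ : (ζ - 1) * δ⁻¹ ∈ A.nonunits)
    (htame : ∀ a ∈ h23vI1 p A, a β = β) : H23wBreakS p A ζ β b δ := by
  have hp : p.Prime := Fact.out
  refine ⟨hδ0, hδ, hζδ, fun γ hγ0 hγ => ?_⟩
  have hfix : ∀ a ∈ h23vI1 p A, a γ = γ := fun a ha => hγ a ha (htame a ha)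
  have h1 : (b γ * γ⁻¹ - 1) * δ⁻¹ = 0 := by
    rw [hfix b hb, mul_inv_cancel₀ hγ0, sub_self, zero_mul]
  refine ⟨0, hp.pos, ?_, ?_⟩
  · rw [h1, Nat.cast_zero, sub_zero]
    rw [ValuationSubring.mem_nonunits_iff, map_zero]
    exact zero_lt_one
  · exact ⟨fun _ => h23v_val hp2 A hA hγ0 hfix, fun _ => rfl⟩

/-- **the tame case**: if every element of `I₁` fixes `β`, every `b ∈ I₁` and every depth `δ`
give a break datum. -/
theorem h23w_break_tame (hp2 : p ≠ 2) (A : ValuationSubring Qb) (hA : A.LiesOverPrime p)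
    {ζ β δ : Qb} {b : GQ} (hb : b ∈ h23vI1 p A)
    (hδ0 : δ ≠ 0) (hδ : δ ∈ A.nonunits) (hζδ : (ζ - 1) * δ⁻¹ ∈ A.nonunits)
    (htame : ∀ a ∈ h23vI1 p A, a β = β) : H23wBreak p A ζ β b δ :=
  h23w_breakS_weak A hA (h23w_breakS_tame hp2 A hA hb hδ0 hδ hζδ htame)

/-- **uniform BREAK**: for `β ∈ A` with `β⁻¹ ∈ A` and `β ^ p ∈ Fix(I₁)` (`β = 0` allowed) there are
`b ∈ I₁`, a primitive `p`-th root of unity `ζ` and a depth `δ` with `H23wBreakS p A ζ β b δ` and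
`H23wBreak p A ζ β b δ`; either every element of `I₁` fixes `β` (tame), or `b β = ζ β` (wild). -/
theorem h23w_break_any (hp2 : p ≠ 2) (A : ValuationSubring Qb) (hA : A.LiesOverPrime p)
    {β : Qb} (hβA : β ∈ A) (hβA' : β⁻¹ ∈ A)
    (hβ : ∀ a ∈ h23vI1 p A, a (β ^ p) = β ^ p) :
    ∃ (b : GQ) (ζ δ : Qb), b ∈ h23vI1 p A ∧ b ∈ A.inertiaSubgroupIn ℚ ∧ IsPrimitiveRoot ζ p ∧
      H23wBreakS p A ζ β b δ ∧ H23wBreak p A ζ β b δ ∧
      ((∀ a ∈ h23vI1 p A, a β = β) ∨ b β = ζ * β) := by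
  have hp : p.Prime := Fact.out
  by_cases h : ∀ a ∈ h23vI1 p A, a β = β
  · haveI : NeZero ((p : ℕ) : Qb) := ⟨by exact_mod_cast hp.ne_zero⟩
    obtain ⟨ζ, hζ⟩ := HasEnoughRootsOfUnity.exists_primitiveRoot Qb p
    obtain ⟨δ, hδ0, hδ, hζδ⟩ := h23w_exists_depth A hA hζ
    have h1 : (1 : GQ) ∈ h23vI1 p A := (h23vI1 p A).one_mem
    exact ⟨1, ζ, δ, h1, h1.1, hζ, h23w_breakS_tame hp2 A hA h1 hδ0 hδ hζδ h,
      h23w_break_tame hp2 A hA h1 hδ0 hδ hζδ h, Or.inl h⟩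
  · have hβ0 : β ≠ 0 := by
      intro h0
      apply h
      intro a _
      rw [h0, map_zero]
    obtain ⟨b, ζ, δ, hb, hbI, hζ, hbβ, hS, hW⟩ := h23w_wild hp2 A hA hβ0 hβA hβA' hβ h
    exact ⟨b, ζ, δ, hb, hbI, hζ, hS, hW, Or.inr hbβ⟩

/-- **uniform BREAK, inertia form** (the hypotheses of `H99wToricGoodAt`): `β ∈ A`, `β⁻¹ ∈ A`,
`β ^ p` fixed by the inertia elements fixing `μ_p`. -/
theorem h23w_break_any' (hp2 : p ≠ 2) (A : ValuationSubring Qb) (hA : A.LiesOverPrime p)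
    {β : Qb} (hβA : β ∈ A) (hβA' : β⁻¹ ∈ A)
    (hβ : ∀ a ∈ A.inertiaSubgroupIn ℚ, (∀ μ : Qb, μ ^ p = 1 → a μ = μ) → a (β ^ p) = β ^ p) :
    ∃ (b : GQ) (ζ δ : Qb), b ∈ A.inertiaSubgroupIn ℚ ∧ (∀ μ : Qb, μ ^ p = 1 → b μ = μ) ∧
      IsPrimitiveRoot ζ p ∧ H23wBreakS p A ζ β b δ ∧ H23wBreak p A ζ β b δ := by
  obtain ⟨b, ζ, δ, hb, hbI, hζ, hS, hW, _⟩ :=
    h23w_break_any hp2 A hA hβA hβA' (fun a ha => hβ a ha.1 ha.2)
  exact ⟨b, ζ, δ, hbI, hb.2, hζ, hS, hW⟩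

end Fermat.Agent.P7
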