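import Fermat.Agent.P7.H23KumChar
import Fermat.Agent.S56F.FLO8Kum_helper34
import Fermat.Agent.S56F.FLC5Final_helper89
import Fermat.Agent.S56F.FLD4_helper7
import Fermat.Agent.S56F.FLD1_helper45
import Fermat.Agent.S56F.FLD0_helper89
import Fermat.Agent.PT.Bridge.Unram

/-!
# Wave 7 (S40), row KUM-B (helper23): an element of inertia which is trivial on the unit
Kummer classes and moves `p ^ (1 / p)`

Local frame of the pillar S56F: `Om p = PadicAlgCl p`, `Gq p = Gal(Om p / ℚ_p)`, `inertia p`,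
`cycExp p g 1` (`g` is trivial on `μ_p`), `I₁ = {g ∈ inertia p | cycExp p g 1}` (`h34k_I1`).

* `h23kS1 p` : the field `K₁` of the elements fixed by `I₁` (`= ℚ_p^ur(ζ_p)`);
* `h23kS2 p` : the units `β` of `Om p` with `β ^ p ∈ K₁` (`p`-th roots of units of `K₁`);
* `h23k_not_mem` : for `p` odd and `ϖ ^ p = p`:  `ϖ ∉ K₁(β : β ∈ h23kS2 p)`.
  [Kummer duality (`h23k_char_span`) reduces to `ϖ = y ∏ β_i ^ m_i` with `y ∈ K₁`; then the norm
  of `y` to the inertia field has absolute value `‖p‖ ^ ((p - 1) / p)`, which is not in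
  `‖p‖ ^ ℤ` (`h45f_norm_of_fixed`).]
* `h23k_kumB` : **KUM-B**: for `ζ` a primitive `p`-th root of unity there is `b ∈ inertia p`,
  trivial on `μ_p`, fixing `K₁` and every `β ∈ h23kS2 p`, with `b ϖ = ζ ϖ`.
-/

set_option autoImplicit false
set_option linter.style.haveILetI false
set_option linter.unusedSectionVars false

open Fermat.Agent.PT.Loc Fermat.Agent.S56F

noncomputable section

namespace Fermat.Agent.P7

variable {p : ℕ} [Fact p.Prime]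

/-- the elements of `Om p` fixed by `I₁` (the field `ℚ_p^ur(ζ_p)`). -/
def h23kS1 (p : ℕ) [Fact p.Prime] : Set (Om p) :=
  {x | ∀ g : Gq p, h34k_I1 p g → g x = x}

/-- the units of `Om p` whose `p`-th power is fixed by `I₁`. -/
def h23kS2 (p : ℕ) [Fact p.Prime] : Set (Om p) :=
  {β | ‖β‖ = 1 ∧ ∀ g : Gq p, h34k_I1 p g → g (β ^ p) = β ^ p}

/-! ## The Kummer exponent -/

/-- existence of the Kummer exponent. -/
theorem h23k_exists_exp {ζ : Om p} (hζ : IsPrimitiveRoot ζ p) {t : Om p} (ht : t ≠ 0)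
    {g : Gq p} (hg : g (t ^ p) = t ^ p) : ∃ k : ZMod p, g t = ζ ^ k.val * t := by
  have hp : p.Prime := Fact.out
  haveI : NeZero p := ⟨hp.ne_zero⟩
  have h1 : (g t / t) ^ p = 1 := by
    rw [div_pow, ← map_pow, hg, div_self (pow_ne_zero _ ht)]
  obtain ⟨i, hi, h2⟩ := hζ.eq_pow_of_pow_eq_one h1
  refine ⟨(i : ZMod p), ?_⟩
  rw [ZMod.val_natCast, Nat.mod_eq_of_lt hi, h2, div_mul_cancel₀ _ ht]

/-- the Kummer exponent satisfies its equation. -/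
theorem h23k_kum_spec {ζ : Om p} (hζ : IsPrimitiveRoot ζ p) {t : Om p} (ht : t ≠ 0)
    {g : Gq p} (hg : g (t ^ p) = t ^ p) : g t = ζ ^ (kum p ζ t g).val * t := by
  have h := h23k_exists_exp hζ ht hg
  unfold kum
  rw [dif_pos h]
  exact h.choose_spec

/-- uniqueness of the Kummer exponent. -/
theorem h23k_kum_unique {ζ : Om p} (hζ : IsPrimitiveRoot ζ p) {t : Om p} (ht : t ≠ 0)
    {g : Gq p} {k : ZMod p} (hk : g t = ζ ^ k.val * t) : kum p ζ t g = k := by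
  have hp : p.Prime := Fact.out
  haveI : NeZero p := ⟨hp.ne_zero⟩
  have h : ∃ k : ZMod p, g t = ζ ^ k.val * t := ⟨k, hk⟩
  have h1 : g t = ζ ^ (kum p ζ t g).val * t := by
    unfold kum
    rw [dif_pos h]
    exact h.choose_spec
  rw [hk] at h1
  have h2 : ζ ^ k.val = ζ ^ (kum p ζ t g).val := mul_right_cancel₀ ht h1
  have h3 := (h34k_pow_eq_iff hζ _ _).mp h2
  rw [ZMod.natCast_zmod_val, ZMod.natCast_zmod_val] at h3
  exact h3.symm

/-- additivity of the Kummer exponent on automorphisms fixing `ζ`. -/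
theorem h23k_kum_mul {ζ : Om p} (hζ : IsPrimitiveRoot ζ p) {t : Om p} (ht : t ≠ 0)
    {g h : Gq p} (hg : g (t ^ p) = t ^ p) (hh : h (t ^ p) = t ^ p) (hgζ : g ζ = ζ) :
    kum p ζ t (g * h) = kum p ζ t g + kum p ζ t h := by
  have hp : p.Prime := Fact.out
  haveI : NeZero p := ⟨hp.ne_zero⟩
  apply h23k_kum_unique hζ ht
  rw [AlgEquiv.mul_apply, h23k_kum_spec hζ ht hh, map_mul, map_pow, hgζ,
    h23k_kum_spec hζ ht hg, ← mul_assoc, ← pow_add]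
  congr 1
  apply h34k_root_pow_eq hζ.pow_eq_one
  push_cast
  rw [ZMod.natCast_zmod_val, ZMod.natCast_zmod_val, ZMod.natCast_zmod_val, add_comm]

/-- the subgroup `I₁`. -/
def h23kI1 (p : ℕ) [Fact p.Prime] : Subgroup (Gq p) where
  carrier := {g | h34k_I1 p g}
  mul_mem' := by
    intro a b ha hb
    refine ⟨(inertia p).mul_mem ha.1 hb.1, fun μ hμ => ?_⟩
    rw [AlgEquiv.mul_apply, hb.2 μ hμ, pow_one, ha.2 μ hμ, pow_one]
  one_mem' := ⟨(inertia p).one_mem, fun μ _ => by rw [AlgEquiv.one_apply, pow_one]⟩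
  inv_mem' := by
    intro a ha
    refine ⟨(inertia p).inv_mem ha.1, fun μ hμ => ?_⟩
    have h1 : a μ = μ := by rw [ha.2 μ hμ, pow_one]
    rw [pow_one]
    calc a⁻¹ μ = a⁻¹ (a μ) := by rw [h1]
      _ = μ := h34k_inv_apply' a μ

theorem h23k_mem_I1 {g : Gq p} : g ∈ h23kI1 p ↔ h34k_I1 p g := Iff.rfl

/-! ## `ϖ` is not in the field generated by the unit Kummer classes -/

/-- the norm of `ϖ`. -/
theorem h23k_norm_varpi {ϖ : Om p} (hϖ : ϖ ^ p = (p : Om p)) : ‖ϖ‖ ^ p = (p : ℝ)⁻¹ := by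
  rw [← norm_pow, hϖ]
  exact h96b_norm_q p

theorem h23k_varpi_ne_zero {ϖ : Om p} (hϖ : ϖ ^ p = (p : Om p)) : ϖ ≠ 0 := by
  have hp : p.Prime := Fact.out
  intro h
  rw [h, zero_pow hp.ne_zero] at hϖ
  exact h96b_q_ne_zero p hϖ.symm

/-- an element `y ≠ 0` fixed by `I₁` has `‖y‖ ^ (p - 1) ∈ ‖p‖ ^ ℤ`. -/
theorem h23k_norm_of_fixed_I1 (hp2 : p ≠ 2) {y : Om p} (hy0 : y ≠ 0)
    (hy : ∀ g : Gq p, h34k_I1 p g → g y = y) :
    ∃ j : ℤ, ‖y‖ ^ (p - 1) = ((p : ℝ)⁻¹) ^ j := by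
  have hp : p.Prime := Fact.out
  haveI : NeZero p := ⟨hp.ne_zero⟩
  haveI : NeZero ((p : ℕ) : Om p) := ⟨h96b_q_ne_zero p⟩
  obtain ⟨ζ, hζ⟩ : ∃ ζ : Om p, IsPrimitiveRoot ζ p :=
    HasEnoughRootsOfUnity.exists_primitiveRoot (Om p) p
  obtain ⟨σ₀, hσ₀, hord⟩ := h34k_exists_gen hp2 h89f_fundSurjective h7c_cycFund hζ
  have hgen : h34k_Gen hζ σ₀ := ⟨hσ₀, hord⟩
  set Ny : Om p := ∏ i ∈ Finset.range (p - 1), (σ₀ ^ i) y with hNy
  have hN1 : ∀ g : Gq p, h34k_I1 p g → g Ny = Ny := by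
    intro g hg
    rw [hNy, map_prod]
    refine Finset.prod_congr rfl fun i _ => ?_
    have h1 : h34k_I1 p ((σ₀ ^ i)⁻¹ * g * σ₀ ^ i) := h34k_I1_conj hζ hg (σ₀ ^ i)
    have h2 := hy _ h1
    rw [AlgEquiv.mul_apply, AlgEquiv.mul_apply] at h2
    have h3 := congrArg (σ₀ ^ i) h2
    rwa [h34k_inv_apply] at h3
  have hN0 : σ₀ Ny = Ny := by
    have hp1 : 0 < p - 1 := by have := hp.two_le; omega
    have h1 : σ₀ Ny = ∏ i ∈ Finset.range (p - 1), (σ₀ ^ (i + 1)) y := by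
      rw [hNy, map_prod]
      refine Finset.prod_congr rfl fun i _ => ?_
      rw [pow_succ', AlgEquiv.mul_apply]
    have h2 : (∏ i ∈ Finset.range (p - 1), (σ₀ ^ (i + 1)) y) * (σ₀ ^ 0) y =
        Ny * (σ₀ ^ (p - 1)) y := by
      rw [hNy, ← Finset.prod_range_succ' (fun i => (σ₀ ^ i) y) (p - 1),
        Finset.prod_range_succ]
    rw [hy _ hgen.pow_mem_I1, pow_zero, AlgEquiv.one_apply] at h2
    rw [h1]
    exact mul_right_cancel₀ hy0 h2
  have hNfix := hgen.fixed hN1 hN0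
  have hN0' : Ny ≠ 0 := by
    rw [hNy]
    refine Finset.prod_ne_zero_iff.mpr fun i _ => ?_
    exact (map_ne_zero _).mpr hy0
  have hNnorm : ‖Ny‖ = ‖y‖ ^ (p - 1) := by
    rw [hNy, norm_prod]
    have h1 : ∀ i ∈ Finset.range (p - 1), ‖(σ₀ ^ i) y‖ = ‖y‖ := fun i _ => h34k_norm_map _ _
    rw [Finset.prod_congr rfl h1, Finset.prod_const, Finset.card_range]
  obtain ⟨j, hj⟩ := h45f_norm_of_fixed p hN0' hNfix
  exact ⟨j, by rw [← hNnorm, hj]⟩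

/-- **the field generated by `K₁` and the unit Kummer classes does not contain `ϖ`.** -/
theorem h23k_not_mem (hp2 : p ≠ 2) {ϖ : Om p} (hϖ : ϖ ^ p = (p : Om p)) :
    ϖ ∉ IntermediateField.adjoin ℚ_[p] (h23kS1 p ∪ h23kS2 p) := by
  classical
  have hp : p.Prime := Fact.out
  haveI : NeZero p := ⟨hp.ne_zero⟩
  haveI : NeZero ((p : ℕ) : Om p) := ⟨h96b_q_ne_zero p⟩
  obtain ⟨ζ, hζ⟩ : ∃ ζ : Om p, IsPrimitiveRoot ζ p :=
    HasEnoughRootsOfUnity.exists_primitiveRoot (Om p) p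
  have hϖ0 := h23k_varpi_ne_zero hϖ
  intro hmem
  obtain ⟨T, hTS, hT⟩ := IntermediateField.exists_finset_of_mem_adjoin hmem
  -- the index type: the elements of `T` in `h23kS2`
  let T₂ : Finset (Om p) := T.filter (· ∈ h23kS2 p)
  have hT₂ : ∀ t : T₂, (t : Om p) ∈ h23kS2 p := fun t => (Finset.mem_filter.mp t.2).2
  have hT₂0 : ∀ t : T₂, (t : Om p) ≠ 0 := fun t h => by
    have h1 := (hT₂ t).1
    rw [h, norm_zero] at h1
    exact zero_ne_one h1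
  have hfixζ : ∀ g : h23kI1 p, (g : Gq p) ζ = ζ := fun g =>
    h34k_I1_fix_root g.2 hζ.pow_eq_one
  have hfixϖp : ∀ g : Gq p, g (ϖ ^ p) = ϖ ^ p := fun g => by
    rw [hϖ, map_natCast]
  let φ : h23kI1 p → T₂ → ZMod p := fun g t => kum p ζ (t : Om p) (g : Gq p)
  let κ : h23kI1 p → ZMod p := fun g => kum p ζ ϖ (g : Gq p)
  have hφ : ∀ g h, φ (g * h) = φ g + φ h := by
    intro g h
    funext t
    exact h23k_kum_mul hζ (hT₂0 t) ((hT₂ t).2 _ g.2) ((hT₂ t).2 _ h.2) (hfixζ g)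
  have hκ : ∀ g h, κ (g * h) = κ g + κ h := fun g h =>
    h23k_kum_mul hζ hϖ0 (hfixϖp _) (hfixϖp _) (hfixζ g)
  have hker : ∀ g, φ g = 0 → κ g = 0 := by
    intro g hg
    have hfixT : ∀ t ∈ (T : Set (Om p)), (g : Gq p) t = t := by
      intro t ht
      rcases hTS ht with h1 | h2
      · exact h1 _ g.2
      · have ht2 : t ∈ T₂ := Finset.mem_filter.mpr ⟨ht, h2⟩
        have h3 : kum p ζ t (g : Gq p) = 0 := congrFun hg ⟨t, ht2⟩
        have h4 := h23k_kum_spec hζ (hT₂0 ⟨t, ht2⟩) (h2.2 _ g.2)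
        rw [h3, ZMod.val_zero, pow_zero, one_mul] at h4
        exact h4
    have hg' : (g : Gq p) ∈
        (IntermediateField.adjoin ℚ_[p] (T : Set (Om p))).fixingSubgroup :=
      (Fermat.Agent.PT.Bridge.h23b_mem_fixingSubgroup_adjoin_iff _ _).mpr hfixT
    have hfixϖ : (g : Gq p) ϖ = ϖ := hg' ⟨ϖ, hT⟩
    apply h23k_kum_unique hζ hϖ0
    rw [ZMod.val_zero, pow_zero, one_mul, hfixϖ]
  obtain ⟨m, hm⟩ := h23k_char_span φ κ hφ hκ hker
  set Pr : Om p := ∏ t : T₂, (t : Om p) ^ (m t).val with hPr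
  have hPr0 : Pr ≠ 0 := Finset.prod_ne_zero_iff.mpr fun t _ => pow_ne_zero _ (hT₂0 t)
  have hPrnorm : ‖Pr‖ = 1 := by
    rw [hPr, norm_prod]
    refine Finset.prod_eq_one fun t _ => ?_
    rw [norm_pow, (hT₂ t).1, one_pow]
  set y : Om p := ϖ * Pr⁻¹ with hy
  have hy0 : y ≠ 0 := mul_ne_zero hϖ0 (inv_ne_zero hPr0)
  have hynorm : ‖y‖ = ‖ϖ‖ := by rw [hy, norm_mul, norm_inv, hPrnorm, inv_one, mul_one]
  have hyfix : ∀ g : Gq p, h34k_I1 p g → g y = y := by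
    intro g hg
    have hgPr : g Pr = ζ ^ (∑ t : T₂, (kum p ζ (t : Om p) g).val * (m t).val) * Pr := by
      rw [hPr, map_prod, ← Finset.prod_pow_eq_pow_sum, ← Finset.prod_mul_distrib]
      refine Finset.prod_congr rfl fun t _ => ?_
      rw [map_pow, h23k_kum_spec hζ (hT₂0 t) ((hT₂ t).2 g hg), mul_pow, pow_mul]
    have hgϖ : g ϖ = ζ ^ (kum p ζ ϖ g).val * ϖ := h23k_kum_spec hζ hϖ0 (hfixϖp g)
    have hexp : ζ ^ (kum p ζ ϖ g).val =
        ζ ^ (∑ t : T₂, (kum p ζ (t : Om p) g).val * (m t).val) := by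
      apply h34k_root_pow_eq hζ.pow_eq_one
      have h1 : κ ⟨g, hg⟩ = ∑ i, m i * φ ⟨g, hg⟩ i := hm ⟨g, hg⟩
      push_cast
      simp only [ZMod.natCast_zmod_val]
      rw [show kum p ζ ϖ g = κ ⟨g, hg⟩ from rfl, h1]
      exact Finset.sum_congr rfl fun t _ => mul_comm _ _
    have hz : ζ ^ (∑ t : T₂, (kum p ζ (t : Om p) g).val * (m t).val) ≠ 0 :=
      pow_ne_zero _ (hζ.ne_zero hp.ne_zero)
    rw [hy, map_mul, map_inv₀, hgPr, hgϖ, hexp, mul_inv]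
    field_simp
  obtain ⟨j, hj⟩ := h23k_norm_of_fixed_I1 hp2 hy0 hyfix
  -- contradiction: `(p⁻¹) ^ (p j) = (p⁻¹) ^ (p - 1)`
  have hpR : (1 : ℝ) < p := by exact_mod_cast hp.one_lt
  have h1 : ((p : ℝ)⁻¹) ^ (j * p) = ((p : ℝ)⁻¹) ^ ((p - 1 : ℕ) : ℤ) := by
    rw [zpow_mul, ← hj, zpow_natCast, zpow_natCast, hynorm, ← pow_mul, mul_comm, pow_mul,
      h23k_norm_varpi hϖ]
  have hb0 : (0 : ℝ) < (p : ℝ)⁻¹ := inv_pos.mpr (by linarith)
  have hb1 : ((p : ℝ)⁻¹) ≠ 1 := (inv_lt_one_of_one_lt₀ hpR).ne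
  have hinj : j * p = ((p - 1 : ℕ) : ℤ) := zpow_right_injective₀ hb0 hb1 h1
  have hdvd : (p : ℤ) ∣ ((p - 1 : ℕ) : ℤ) := ⟨j, by rw [← hinj, mul_comm]⟩
  have hdvd' : p ∣ p - 1 := by exact_mod_cast hdvd
  have h2 := Nat.le_of_dvd (by have := hp.two_le; omega) hdvd'
  have h3 := hp.two_le
  omega

/-- powers of an automorphism fixing `x` fix `x`. -/
theorem h23k_pow_fix {σ : Gq p} {x : Om p} (h : σ x = x) (n : ℕ) : (σ ^ n) x = x := by
  induction n with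
  | zero => rw [pow_zero, AlgEquiv.one_apply]
  | succ n ih => rw [pow_succ, AlgEquiv.mul_apply, h, ih]

/-- **KUM-B.**  For `p` odd, `ζ` a primitive `p`-th root of unity and `ϖ ^ p = p`, there is an
element `b` of `I₁` (inertia, trivial on `μ_p`) which fixes `K₁ = Fix(I₁)` and every unit `β`
with `β ^ p ∈ K₁`, and with `b ϖ = ζ ϖ`. -/
theorem h23k_kumB (hp2 : p ≠ 2) {ζ ϖ : Om p} (hζ : IsPrimitiveRoot ζ p)
    (hϖ : ϖ ^ p = (p : Om p)) :
    ∃ b : Gq p, h34k_I1 p b ∧ (∀ x ∈ h23kS1 p, b x = x) ∧ (∀ β ∈ h23kS2 p, b β = β) ∧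
      b ϖ = ζ * ϖ := by
  have hp : p.Prime := Fact.out
  haveI : NeZero p := ⟨hp.ne_zero⟩
  haveI : IsGalois ℚ_[p] (Om p) := IsAlgClosure.isGalois ℚ_[p] (Om p)
  have hnot := h23k_not_mem hp2 hϖ
  obtain ⟨σ, hσL, hσϖ⟩ : ∃ σ ∈
      (IntermediateField.adjoin ℚ_[p] (h23kS1 p ∪ h23kS2 p)).fixingSubgroup, σ ϖ ≠ ϖ := by
    by_contra hcon
    apply hnot
    have h1 : ϖ ∈ IntermediateField.fixedField
        (IntermediateField.adjoin ℚ_[p] (h23kS1 p ∪ h23kS2 p)).fixingSubgroup := by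
      rw [IntermediateField.mem_fixedField_iff]
      intro σ hσ
      by_contra h2
      exact hcon ⟨σ, hσ, h2⟩
    rwa [InfiniteGalois.fixedField_fixingSubgroup] at h1
  have hσS : ∀ x ∈ h23kS1 p ∪ h23kS2 p, σ x = x :=
    (Fermat.Agent.PT.Bridge.h23b_mem_fixingSubgroup_adjoin_iff _ _).mp hσL
  have hσI : σ ∈ inertia p := by
    apply h45f_mem_inertia_of_fix_roots p σ
    intro w m hm hpm hw
    refine hσS w (Or.inl fun g hg => ?_)
    exact (h89d0_inertiaIffRoots p g).mp hg.1 w m hm hpm hw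
  have hσc : cycExp p σ 1 := by
    intro μ hμ
    rw [pow_one]
    exact hσS μ (Or.inl fun g hg => h34k_I1_fix_root hg hμ)
  have hσ1 : h34k_I1 p σ := ⟨hσI, hσc⟩
  have hϖ0 := h23k_varpi_ne_zero hϖ
  have hfixϖp : ∀ g : Gq p, g (ϖ ^ p) = ϖ ^ p := fun g => by rw [hϖ, map_natCast]
  set k := kum p ζ ϖ σ with hk
  have hkspec : σ ϖ = ζ ^ k.val * ϖ := h23k_kum_spec hζ hϖ0 (hfixϖp σ)
  have hk0 : k ≠ 0 := by
    intro h
    rw [h, ZMod.val_zero, pow_zero, one_mul] at hkspec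
    exact hσϖ hkspec
  have hpow : ∀ n : ℕ, (σ ^ n) ϖ = ζ ^ (n * k.val) * ϖ := by
    intro n
    induction n with
    | zero => rw [pow_zero, AlgEquiv.one_apply, zero_mul, pow_zero, one_mul]
    | succ n ih =>
      rw [pow_succ', AlgEquiv.mul_apply, ih, map_mul, map_pow,
        h34k_I1_fix_root hσ1 hζ.pow_eq_one, hkspec, ← mul_assoc, ← pow_add]
      congr 2
      ring
  refine ⟨σ ^ (k⁻¹).val, (h23kI1 p).pow_mem hσ1 _, fun x hx => ?_, fun β hβ => ?_, ?_⟩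
  · exact h23k_pow_fix (hσS x (Or.inl hx)) _
  · exact h23k_pow_fix (hσS β (Or.inr hβ)) _
  · rw [hpow]
    have h1 : ζ ^ ((k⁻¹).val * k.val) = ζ ^ 1 := by
      apply h34k_root_pow_eq hζ.pow_eq_one
      push_cast
      rw [ZMod.natCast_zmod_val, ZMod.natCast_zmod_val, inv_mul_cancel₀ hk0]
    rw [h1, pow_one]

/-- **KUM-B**, in the vocabulary of `PeuRamRep`. -/
theorem h23k_kumB' (hp2 : p ≠ 2) {ζ ϖ : Om p} (hζ : IsPrimitiveRoot ζ p)
    (hϖ : ϖ ^ p = (p : Om p)) :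
    ∃ b ∈ inertia p, cycExp p b 1 ∧
      (∀ x : Om p, (∀ g ∈ inertia p, cycExp p g 1 → g x = x) → b x = x) ∧
      (∀ β : Om p, ‖β‖ = 1 → (∀ g ∈ inertia p, cycExp p g 1 → g (β ^ p) = β ^ p) → b β = β) ∧
      b ϖ = ζ * ϖ := by
  obtain ⟨b, hb, h1, h2, h3⟩ := h23k_kumB hp2 hζ hϖ
  exact ⟨b, hb.1, hb.2, fun x hx => h1 x fun g hg => hx g hg.1 hg.2,
    fun β hβ hβp => h2 β ⟨hβ, fun g hg => hβp g hg.1 hg.2⟩, h3⟩

end Fermat.Agent.P7
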