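import Mathlib

/-!
# Wave 7 (S40), row KUM-B, abstract part (helper23): characters of exponent `p`

`h23k_char_span` : let `G` be a group, `ι` a finite type, `φ : G → ι → ZMod p` and
`κ : G → ZMod p` additive characters (`φ (g * h) = φ g + φ h`, `κ (g * h) = κ g + κ h`).
If `κ` vanishes on the common kernel of the `φ · i`, then `κ` is a `ZMod p`-linear combination
of the `φ · i`.  (Duality of finite-dimensional `𝔽_p`-vector spaces; this is the group-theoretic
half of Kummer duality.)
-/

set_option autoImplicit false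

namespace Fermat.Agent.P7

/-- a character which vanishes on the common kernel of finitely many characters is a linear
combination of them. -/
theorem h23k_char_span {p : ℕ} [Fact p.Prime] {G : Type*} [Group G] {ι : Type*} [Fintype ι]
    [DecidableEq ι]
    (φ : G → ι → ZMod p) (κ : G → ZMod p)
    (hφ : ∀ g h, φ (g * h) = φ g + φ h) (hκ : ∀ g h, κ (g * h) = κ g + κ h)
    (hker : ∀ g, φ g = 0 → κ g = 0) :
    ∃ m : ι → ZMod p, ∀ g, κ g = ∑ i, m i * φ g i := by
  classical
  have hφ1 : φ 1 = 0 := by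
    have h := hφ 1 1
    rw [mul_one] at h
    exact left_eq_add.mp h
  have hκ1 : κ 1 = 0 := by
    have h := hκ 1 1
    rw [mul_one] at h
    exact left_eq_add.mp h
  have hφinv : ∀ g, φ g⁻¹ = - φ g := by
    intro g
    have h := hφ g⁻¹ g
    rw [inv_mul_cancel, hφ1] at h
    exact eq_neg_of_add_eq_zero_left h.symm
  have hκinv : ∀ g, κ g⁻¹ = - κ g := by
    intro g
    have h := hκ g⁻¹ g
    rw [inv_mul_cancel, hκ1] at h
    exact eq_neg_of_add_eq_zero_left h.symm
  -- the graph of `(φ, κ)`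
  let R : AddSubgroup ((ι → ZMod p) × ZMod p) :=
    { carrier := {x | ∃ g, x = (φ g, κ g)}
      zero_mem' := ⟨1, by rw [hφ1, hκ1]; rfl⟩
      add_mem' := by
        rintro _ _ ⟨g, rfl⟩ ⟨h, rfl⟩
        exact ⟨g * h, by rw [hφ, hκ]; rfl⟩
      neg_mem' := by
        rintro _ ⟨g, rfl⟩
        exact ⟨g⁻¹, by rw [hφinv, hκinv]; rfl⟩ }
  let P : Submodule (ZMod p) ((ι → ZMod p) × ZMod p) := AddSubgroup.toZModSubmodule p R
  have hx : ((0 : ι → ZMod p), (1 : ZMod p)) ∉ P := by
    rintro ⟨g, hg⟩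
    have h1 : φ g = 0 := (congrArg Prod.fst hg).symm
    have h2 : κ g = 1 := (congrArg Prod.snd hg).symm
    rw [hker g h1] at h2
    exact zero_ne_one h2
  obtain ⟨f, hf1, hf2⟩ := Submodule.exists_dual_map_eq_bot_of_notMem hx inferInstance
  have hvan : ∀ g, f (φ g, κ g) = 0 := by
    intro g
    have h1 : f (φ g, κ g) ∈ P.map f := Submodule.mem_map_of_mem ⟨g, rfl⟩
    rw [hf2] at h1
    exact (Submodule.mem_bot _).mp h1
  set c : ZMod p := f (0, 1) with hc
  have hsplit : ∀ (v : ι → ZMod p) (t : ZMod p), f (v, t) = f (v, 0) + t * c := by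
    intro v t
    have h1 : ((v, t) : (ι → ZMod p) × ZMod p) = (v, 0) + t • ((0 : ι → ZMod p), (1 : ZMod p)) := by
      ext <;> simp
    rw [h1, map_add, map_smul, smul_eq_mul]
  have hsum : ∀ v : ι → ZMod p, f (v, 0) = ∑ i, v i * f (Pi.single i 1, 0) := by
    intro v
    have h1 : ((v, (0 : ZMod p)) : (ι → ZMod p) × ZMod p) =
        ∑ i, v i • ((Pi.single i (1 : ZMod p) : ι → ZMod p), (0 : ZMod p)) := by
      ext j
      · simp [Finset.sum_apply, Pi.single_apply, Prod.fst_sum]
      · simp [Prod.snd_sum]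
    conv_lhs => rw [h1]
    rw [map_sum]
    exact Finset.sum_congr rfl fun i _ => by rw [map_smul, smul_eq_mul]
  refine ⟨fun i => - c⁻¹ * f (Pi.single i 1, 0), fun g => ?_⟩
  have h1 := hvan g
  rw [hsplit, hsum] at h1
  have h2 : κ g * c = - ∑ i, φ g i * f (Pi.single i 1, 0) := by
    linear_combination h1
  have h3 : κ g = (κ g * c) * c⁻¹ := by
    rw [mul_assoc, mul_inv_cancel₀ hf1, mul_one]
  rw [h3, h2, neg_mul, Finset.sum_mul, ← Finset.sum_neg_distrib]
  exact Finset.sum_congr rfl fun i _ => by ring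

end Fermat.Agent.P7
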