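import Fermat.Agent.P7.H23KumTame
import Fermat.Agent.PT.Bridge.Inertia
import Fermat.Agent.PT.Bridge.LocGrpE

/-!
# Wave 7 (S40), row KUM-B, global form (helper23)

`A` a valuation subring of `ℚ̄` over the odd prime `p`, `I = A.inertiaSubgroupIn ℚ`,
`I₁ = {g ∈ I | g = id on μ_p}`, `ζ ∈ ℚ̄` a primitive `p`-th root of unity, `ϖ ∈ ℚ̄`, `ϖ ^ p = p`.

`H23kGood p A ζ ϖ b` : the element `b ∈ G_ℚ`
* lies in `I` and is trivial on `μ_p`;
* `b ϖ = ζ ϖ`;
* fixes the field `Fix(I₁)` and every unit `β` of `A` with `β ^ p ∈ Fix(I₁)`;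
* has the tame symbol: for `y ≠ 0` with `y ^ p ∈ Fix(I)` there is `n : ℤ` with `y ^ p / p ^ n` a
  unit of `A` and `b y = ζ ^ n y`;
* is the conjugate `g⁻¹ r(b₀) g` (`r = localGaloisToGlobal p`, `g⁻¹ • padicPlace p = A`) of a
  local element `b₀ ∈ inertia p` which acts trivially on every locally flat representation of
  `Gal(ℚ̄_p / ℚ_p)` in ordinary normal form (rank 2, determinant cyclotomic).

`h23k_exists_good` : such a `b` exists.
-/

set_option autoImplicit false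
set_option linter.style.haveILetI false
set_option linter.unusedSectionVars false

open Fermat.Agent.PT.Loc Fermat.Agent.S56F Fermat.Agent.PT.Bridge

open scoped Pointwise

noncomputable section

namespace Fermat.Agent.P7

/-- the good element of the inertia group at `A`. -/
structure H23kGood (p : ℕ) [Fact p.Prime] (A : ValuationSubring Qb) (ζ ϖ : Qb) (b : GQ) :
    Prop where
  mem : b ∈ A.inertiaSubgroupIn ℚ
  fix_mu : ∀ μ : Qb, μ ^ p = 1 → b μ = μ
  move : b ϖ = ζ * ϖ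
  fix_field : ∀ x : Qb,
    (∀ g ∈ A.inertiaSubgroupIn ℚ, (∀ μ : Qb, μ ^ p = 1 → g μ = μ) → g x = x) → b x = x
  fix_unit : ∀ β : Qb, β ∈ A → β⁻¹ ∈ A →
    (∀ g ∈ A.inertiaSubgroupIn ℚ, (∀ μ : Qb, μ ^ p = 1 → g μ = μ) → g (β ^ p) = β ^ p) →
      b β = β
  tame : ∀ y : Qb, y ≠ 0 → (∀ g ∈ A.inertiaSubgroupIn ℚ, g (y ^ p) = y ^ p) →
    ∃ n : ℤ, y ^ p * ((p : Qb) ^ n)⁻¹ ∈ A ∧ (p : Qb) ^ n * (y ^ p)⁻¹ ∈ A ∧
      b y = ζ ^ ((n : ZMod p)).val * y
  loc : ∃ (g : GQ) (b₀ : Gq p), g⁻¹ • padicPlace p = A ∧ b = g⁻¹ * localGaloisToGlobal p b₀ * g ∧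
    b₀ ∈ inertia p ∧ cycExp p b₀ 1 ∧
    ∀ (k : Type) [Field k] [Finite k] [CharP k p] (V : Type) [AddCommGroup V] [Module k V]
      [Module.Finite k V] (ρ : Gq p →* Module.End k V), LocHyp p ρ →
      ∀ v₀ : V, OrdNF p ρ v₀ → LocFlat p V (fun σ v => ρ σ v) → ∀ v : V, ρ b₀ v = v

variable {p : ℕ} [Fact p.Prime]

/-- the basic transport formula. -/
theorem h23k_transport (g : GQ) (h₀ : Gq p) (x : Qb) :
    padicEmbedding p (g ((g⁻¹ * localGaloisToGlobal p h₀ * g) x)) =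
      h₀ (padicEmbedding p (g x)) := by
  rw [AlgEquiv.mul_apply, AlgEquiv.mul_apply, ← padicEmbedding_localGaloisToGlobal]
  congr 1
  rw [← AlgEquiv.mul_apply, mul_inv_cancel, AlgEquiv.one_apply]

/-- `ι ∘ g` is injective. -/
theorem h23k_inj (g : GQ) {x y : Qb}
    (h : padicEmbedding p (g x) = padicEmbedding p (g y)) : x = y :=
  g.injective (h23b_padicEmbedding_injective p h)

/-- membership in a translate of `padicPlace p`. -/
theorem h23k_mem_smul (g : GQ) (x : Qb) :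
    x ∈ g⁻¹ • padicPlace p ↔ ‖padicEmbedding p (g x)‖ ≤ 1 := by
  rw [ValuationSubring.mem_pointwise_smul_iff_inv_smul_mem, inv_inv, AlgEquiv.smul_def,
    mem_padicPlace_iff]
  exact Iff.rfl

/-- conjugates of local inertia elements are in the inertia group of the translate. -/
theorem h23k_conj_mem (g : GQ) {h₀ : Gq p} (hh : h₀ ∈ inertia p) :
    g⁻¹ * localGaloisToGlobal p h₀ * g ∈ (g⁻¹ • padicPlace p).inertiaSubgroupIn ℚ :=
  (h23b_mem_inertia_conj_iff p g _).mpr ⟨h₀, (h89d0_inertiaIffRoots p h₀).mp hh, rfl⟩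

/-- conjugates of elements of the local `I₁` fix `μ_p`. -/
theorem h23k_conj_fix_mu (g : GQ) {h₀ : Gq p} (hc : cycExp p h₀ 1) {μ : Qb} (hμ : μ ^ p = 1) :
    (g⁻¹ * localGaloisToGlobal p h₀ * g) μ = μ := by
  apply h23k_inj (p := p) g
  rw [h23k_transport]
  have h1 : (padicEmbedding p (g μ)) ^ p = 1 := by rw [← map_pow, ← map_pow, hμ, map_one, map_one]
  rw [hc _ h1, pow_one]

/-- **KUM-B, global form.** -/
theorem h23k_exists_good (hp2 : p ≠ 2) (A : ValuationSubring Qb) (hA : A.LiesOverPrime p)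
    {ζ ϖ : Qb} (hζ : IsPrimitiveRoot ζ p) (hϖ : ϖ ^ p = (p : Qb)) :
    ∃ b : GQ, H23kGood p A ζ ϖ b := by
  have hp : p.Prime := Fact.out
  obtain ⟨g, hg⟩ := h23b_exists_smul_padicPlace p hA
  have hinj : Function.Injective (fun x : Qb => padicEmbedding p (g x)) :=
    fun x y h => h23k_inj (p := p) g h
  have hζ' : IsPrimitiveRoot (padicEmbedding p (g ζ)) p :=
    hζ.map_of_injective (f := ((padicEmbedding p).toRingHom.comp g.toAlgHom.toRingHom)) hinj
  have hϖ' : (padicEmbedding p (g ϖ)) ^ p = (p : Om p) := by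
    rw [← map_pow, ← map_pow, hϖ, map_natCast, map_natCast]
  obtain ⟨b₀, hb₀I, hb₀c, hb₀ϖ, hb₀1, hb₀2, hb₀flat⟩ := h23k_exists_b hp2 hζ' hϖ'
  have hb₀S2 : ∀ β ∈ h23kS2 p, b₀ β = β := fun β hβ =>
    hb₀2 β hβ.1 fun h hhI hhc => hβ.2 h ⟨hhI, hhc⟩
  subst hg
  refine ⟨g⁻¹ * localGaloisToGlobal p b₀ * g, ?_⟩
  -- local fixed elements from global fixed elements
  have hloc1 : ∀ x : Qb,
      (∀ c ∈ (g⁻¹ • padicPlace p).inertiaSubgroupIn ℚ, (∀ μ : Qb, μ ^ p = 1 → c μ = μ) →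
        c x = x) →
      ∀ h ∈ inertia p, cycExp p h 1 → h (padicEmbedding p (g x)) = padicEmbedding p (g x) := by
    intro x hx h hhI hhc
    rw [← h23k_transport, hx _ (h23k_conj_mem g hhI) fun μ hμ => h23k_conj_fix_mu g hhc hμ]
  have hloc0 : ∀ x : Qb,
      (∀ c ∈ (g⁻¹ • padicPlace p).inertiaSubgroupIn ℚ, c x = x) →
      ∀ h ∈ inertia p, h (padicEmbedding p (g x)) = padicEmbedding p (g x) := by
    intro x hx h hhI
    rw [← h23k_transport, hx _ (h23k_conj_mem g hhI)]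
  refine
    { mem := h23k_conj_mem g hb₀I
      fix_mu := fun μ hμ => h23k_conj_fix_mu g hb₀c hμ
      move := ?_
      fix_field := ?_
      fix_unit := ?_
      tame := ?_
      loc := ⟨g, b₀, rfl, rfl, hb₀I, hb₀c, hb₀flat⟩ }
  · apply h23k_inj (p := p) g
    rw [h23k_transport, hb₀ϖ, map_mul, map_mul]
  · intro x hx
    apply h23k_inj (p := p) g
    rw [h23k_transport]
    exact hb₀1 _ (hloc1 x hx)
  · intro β hβ hβi hβp
    apply h23k_inj (p := p) g
    rw [h23k_transport]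
    by_cases hβ0 : β = 0
    · rw [hβ0, map_zero, map_zero, map_zero]
    have h1 : ‖padicEmbedding p (g β)‖ ≤ 1 := (h23k_mem_smul g β).mp hβ
    have h2 : ‖padicEmbedding p (g β⁻¹)‖ ≤ 1 := (h23k_mem_smul g β⁻¹).mp hβi
    rw [map_inv₀, map_inv₀, norm_inv] at h2
    have h3 : ‖padicEmbedding p (g β)‖ = 1 := by
      have hpos : 0 < ‖padicEmbedding p (g β)‖ := by
        rw [norm_pos_iff]
        intro h0
        exact hβ0 (h23k_inj (p := p) g (by rw [h0, map_zero, map_zero]))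
      exact le_antisymm h1 ((inv_le_one₀ hpos).mp h2)
    refine hb₀2 _ h3 ?_
    have h4 := hloc1 (β ^ p) hβp
    rw [map_pow, map_pow] at h4
    exact h4
  · intro y hy0 hy
    have hy0' : padicEmbedding p (g y) ≠ 0 := by
      intro h0
      exact hy0 (h23k_inj (p := p) g (by rw [h0, map_zero, map_zero]))
    have hyfix : ∀ h ∈ inertia p, h ((padicEmbedding p (g y)) ^ p) =
        (padicEmbedding p (g y)) ^ p := by
      have h4 := hloc0 (y ^ p) hy
      rw [map_pow, map_pow] at h4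
      exact h4
    obtain ⟨n, hn, hbn⟩ := h23k_tame hζ' hϖ' hb₀S2 hb₀ϖ hy0' hyfix
    have hpn : ‖padicEmbedding p (g ((p : Qb) ^ n))‖ = ((p : ℝ)⁻¹) ^ n := by
      rw [map_zpow₀, map_zpow₀, map_natCast, map_natCast, norm_zpow, h96b_norm_q p]
    have hyn : ‖padicEmbedding p (g (y ^ p))‖ = ((p : ℝ)⁻¹) ^ n := by
      rw [map_pow, map_pow, norm_pow, hn]
    have hne : ((p : ℝ)⁻¹) ^ n ≠ 0 :=
      zpow_ne_zero n (inv_ne_zero (by exact_mod_cast hp.ne_zero))
    refine ⟨n, ?_, ?_, ?_⟩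
    · rw [h23k_mem_smul, map_mul, map_mul, norm_mul, map_inv₀, map_inv₀, norm_inv, hpn, hyn,
        mul_inv_cancel₀ hne]
    · rw [h23k_mem_smul, map_mul, map_mul, norm_mul, map_inv₀, map_inv₀, norm_inv, hpn, hyn,
        mul_inv_cancel₀ hne]
    · apply h23k_inj (p := p) g
      rw [h23k_transport, hbn, map_mul, map_mul, map_pow, map_pow]

end Fermat.Agent.P7
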