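import Fermat.Agent.P7.H23KumB
import Fermat.Agent.S56F.FLO45Final_helper4

/-!
# Wave 7 (S40), row KUM-B, corollary (helper23): the element `b` of KUM-B acts trivially on
every locally flat representation in ordinary normal form

* `h23k_trivial_of_peuRamRep` : if `ρ` is in ordinary normal form (`OrdNF p ρ v₀`) and its
  extension class is a unit Kummer class (`PeuRamRep p ρ v₀`), then every `b ∈ I₁` which fixes the
  `p`-th roots of the units of `K₁ = Fix(I₁)` (`h23kS2 p`) acts trivially: `ρ b = 1`.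
* `h23k_trivial_of_locFlat` : the same for `ρ` locally flat (landed `h4o_ordPeuRep`).
* `h23k_exists_b` : **the packaged form**: for `p` odd, `ζ` a primitive `p`-th root of unity and
  `ϖ ^ p = p` there is ONE `b ∈ inertia p`, trivial on `μ_p`, with `b ϖ = ζ ϖ`, which acts
  trivially on EVERY locally flat `ρ` (rank 2, `det = cyclotomic`) in ordinary normal form.
  So a representation on which `b` acts non trivially is not flat ("très ramifié").
-/

set_option autoImplicit false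
set_option linter.style.haveILetI false
set_option linter.unusedSectionVars false

open Fermat.Agent.PT.Loc Fermat.Agent.S56F

noncomputable section

namespace Fermat.Agent.P7

variable {p : ℕ} [Fact p.Prime]

/-- a nonzero element of a field of characteristic `p` is detected by an additive map to
`ZMod p`. -/
theorem h23k_exists_addHom {k : Type} [Field k] [CharP k p] {c : k} (hc : c ≠ 0) :
    ∃ l : k →+ ZMod p, l c ≠ 0 := by
  letI : Algebra (ZMod p) k := ZMod.algebra k p
  obtain ⟨f, hf⟩ := Module.Projective.exists_dual_ne_zero (ZMod p) hc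
  exact ⟨f.toAddMonoidHom, hf⟩

/-- a unit Kummer class is killed by every element of `I₁` fixing the `p`-th roots of the units
of `K₁`. -/
theorem h23k_trivial_of_peuRamRep {k : Type} [Field k] [CharP k p] {V : Type}
    [AddCommGroup V] [Module k V] (ρ : Gq p →* Module.End k V) (v₀ : V)
    (hNF : OrdNF p ρ v₀) (hpeu : PeuRamRep p ρ v₀)
    {b : Gq p} (hb : h34k_I1 p b) (hbfix : ∀ β ∈ h23kS2 p, b β = β) (v : V) :
    ρ b v = v := by
  have hp : p.Prime := Fact.out
  haveI : NeZero p := ⟨hp.ne_zero⟩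
  haveI : NeZero ((p : ℕ) : Om p) := ⟨h96b_q_ne_zero p⟩
  obtain ⟨ζ, hζ⟩ : ∃ ζ : Om p, IsPrimitiveRoot ζ p :=
    HasEnoughRootsOfUnity.exists_primitiveRoot (Om p) p
  obtain ⟨c, hc⟩ := hNF.inert_quot b hb.1 v
  by_contra hne
  have hc0 : c ≠ 0 := by
    intro h
    rw [h, zero_smul, sub_eq_zero] at hc
    exact hne hc
  obtain ⟨l, hl⟩ := h23k_exists_addHom (p := p) hc0
  obtain ⟨β, hβ1, hβ⟩ := hpeu ζ hζ.pow_eq_one (hζ.ne_one hp.one_lt) v l
  have hβ0 : β ≠ 0 := fun h => by
    rw [h, norm_zero] at hβ1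
    exact zero_ne_one hβ1
  have hβS : β ∈ h23kS2 p := by
    refine ⟨hβ1, fun g hg => ?_⟩
    obtain ⟨c', hc'⟩ := hNF.inert_quot g hg.1 v
    rw [map_pow, hβ g hg.1 hg.2 c' hc', mul_pow, ← pow_mul, Nat.mul_comm, pow_mul,
      hζ.pow_eq_one, one_pow, one_mul]
  have h1 := hβ b hb.1 hb.2 c hc
  rw [hbfix β hβS] at h1
  have h2 : ζ ^ (l c).val = ζ ^ 0 := by
    rw [pow_zero]
    have h3 : ζ ^ (l c).val * β = 1 * β := by rw [one_mul, ← h1]
    exact mul_right_cancel₀ hβ0 h3
  have h4 := (h34k_pow_eq_iff hζ _ _).mp h2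
  rw [ZMod.natCast_zmod_val, Nat.cast_zero] at h4
  exact hl h4

/-- the same for a locally flat representation (landed `h4o_ordPeuRep`). -/
theorem h23k_trivial_of_locFlat {k : Type} [Field k] [Finite k] [CharP k p] {V : Type}
    [AddCommGroup V] [Module k V] [Module.Finite k V] (ρ : Gq p →* Module.End k V)
    (hH : LocHyp p ρ) (v₀ : V) (hNF : OrdNF p ρ v₀)
    (hfl : LocFlat p V (fun σ v => ρ σ v))
    {b : Gq p} (hb : h34k_I1 p b) (hbfix : ∀ β ∈ h23kS2 p, b β = β) (v : V) :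
    ρ b v = v :=
  h23k_trivial_of_peuRamRep ρ v₀ hNF (h4o_ordPeuRep p k V ρ hH v₀ hNF hfl) hb hbfix v

/-- **KUM-B, packaged.**  One element `b` of the inertia group, trivial on `μ_p`, with
`b ϖ = ζ ϖ`, which acts trivially on every locally flat representation in ordinary normal
form. -/
theorem h23k_exists_b (hp2 : p ≠ 2) {ζ ϖ : Om p} (hζ : IsPrimitiveRoot ζ p)
    (hϖ : ϖ ^ p = (p : Om p)) :
    ∃ b ∈ inertia p, cycExp p b 1 ∧ b ϖ = ζ * ϖ ∧
      (∀ x : Om p, (∀ g ∈ inertia p, cycExp p g 1 → g x = x) → b x = x) ∧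
      (∀ β : Om p, ‖β‖ = 1 → (∀ g ∈ inertia p, cycExp p g 1 → g (β ^ p) = β ^ p) → b β = β) ∧
      ∀ (k : Type) [Field k] [Finite k] [CharP k p] (V : Type) [AddCommGroup V] [Module k V]
        [Module.Finite k V] (ρ : Gq p →* Module.End k V), LocHyp p ρ →
        ∀ v₀ : V, OrdNF p ρ v₀ → LocFlat p V (fun σ v => ρ σ v) → ∀ v : V, ρ b v = v := by
  obtain ⟨b, hb, h1, h2, h3⟩ := h23k_kumB hp2 hζ hϖ
  refine ⟨b, hb.1, hb.2, h3, fun x hx => h1 x fun g hg => hx g hg.1 hg.2,
    fun β hβ hβp => h2 β ⟨hβ, fun g hg => hβp g hg.1 hg.2⟩, ?_⟩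
  intro k _ _ _ V _ _ _ ρ hH v₀ hNF hfl v
  exact h23k_trivial_of_locFlat ρ hH v₀ hNF hfl hb h2 v

end Fermat.Agent.P7
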