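import Fermat.Agent.P7.H23KumPeu

/-!
# Wave 7 (S40), row KUM-B, the tame symbol of `b` (helper23)

Let `b` be the element of KUM-B (`h23k_kumB`): `b ∈ I₁`, `b = id` on the `p`-th roots of the
units of `K₁ = Fix(I₁)`, `b ϖ = ζ ϖ` (`ϖ ^ p = p`).

* `h23k_zeta_zpow` : `ζ ^ n = ζ ^ (n : ZMod p).val` for `n : ℤ`.
* `h23k_tame` : **the tame symbol**: if `y ≠ 0` and `y ^ p` is fixed by the inertia group
  (`y ^ p ∈ ℚ_p^ur`), then `‖y‖ ^ p = ‖p‖ ^ n` for an integer `n` and `b y = ζ ^ n · y`.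
  In words: `b` acts on `c ^ (1 / p)`, `c ∈ ℚ_p^ur`, through `ζ ^ v_p(c)`.
* `h23k_tame_unit` : in particular `b y = y` when `‖y‖ = 1`.
-/

set_option autoImplicit false
set_option linter.style.haveILetI false
set_option linter.unusedSectionVars false

open Fermat.Agent.PT.Loc Fermat.Agent.S56F

noncomputable section

namespace Fermat.Agent.P7

variable {p : ℕ} [Fact p.Prime]

/-- integer powers of a `p`-th root of unity. -/
theorem h23k_zeta_zpow {ζ : Om p} (hζ : ζ ^ p = 1) (n : ℤ) :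
    ζ ^ n = ζ ^ ((n : ZMod p)).val := by
  have hp : p.Prime := Fact.out
  haveI : NeZero p := ⟨hp.ne_zero⟩
  have hζ0 : ζ ≠ 0 := by
    intro h
    rw [h, zero_pow hp.ne_zero] at hζ
    exact zero_ne_one hζ
  -- `n = val + p * t`
  have h1 : ((((n : ZMod p)).val : ℤ) : ZMod p) = (n : ZMod p) := by
    rw [Int.cast_natCast, ZMod.natCast_zmod_val]
  obtain ⟨t, ht⟩ : (p : ℤ) ∣ n - (((n : ZMod p)).val : ℤ) := by
    rw [← ZMod.intCast_zmod_eq_zero_iff_dvd]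
    push_cast
    rw [ZMod.natCast_zmod_val, sub_self]
  have h2 : n = (((n : ZMod p)).val : ℤ) + (p : ℤ) * t := by rw [← ht]; ring
  conv_lhs => rw [h2]
  rw [zpow_add₀ hζ0, zpow_mul, zpow_natCast, zpow_natCast, hζ, one_zpow, mul_one]

/-- **the tame symbol of `b`.** -/
theorem h23k_tame {ζ ϖ : Om p} (hζ : IsPrimitiveRoot ζ p) (hϖ : ϖ ^ p = (p : Om p))
    {b : Gq p} (hb2 : ∀ β ∈ h23kS2 p, b β = β) (hbϖ : b ϖ = ζ * ϖ)
    {y : Om p} (hy0 : y ≠ 0) (hy : ∀ g ∈ inertia p, g (y ^ p) = y ^ p) :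
    ∃ n : ℤ, ‖y‖ ^ p = ((p : ℝ)⁻¹) ^ n ∧ b y = ζ ^ ((n : ZMod p)).val * y := by
  have hp : p.Prime := Fact.out
  haveI : NeZero p := ⟨hp.ne_zero⟩
  have hϖ0 := h23k_varpi_ne_zero hϖ
  obtain ⟨n, hn⟩ := h45f_norm_of_fixed p (pow_ne_zero p hy0) hy
  rw [norm_pow] at hn
  refine ⟨n, hn, ?_⟩
  -- `β = y / ϖ ^ n`
  set β : Om p := y * (ϖ ^ n)⁻¹ with hβ
  have hϖn0 : ϖ ^ n ≠ 0 := zpow_ne_zero n hϖ0
  have hβp : β ^ p = y ^ p * ((p : Om p) ^ n)⁻¹ := by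
    rw [hβ, mul_pow, inv_pow, ← zpow_natCast (ϖ ^ n) p, ← zpow_mul, mul_comm n (p : ℤ),
      zpow_mul, zpow_natCast, hϖ]
  have hβnorm : ‖β‖ = 1 := by
    have h1 : ‖β‖ ^ p = 1 := by
      rw [← norm_pow, hβp, norm_mul, norm_inv, norm_zpow, norm_pow, hn, h96b_norm_q p]
      exact mul_inv_cancel₀ (zpow_ne_zero n (inv_ne_zero (by exact_mod_cast hp.ne_zero)))
    exact (pow_eq_one_iff_of_nonneg (norm_nonneg β) hp.ne_zero).mp h1
  have hβS : β ∈ h23kS2 p := by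
    refine ⟨hβnorm, fun g hg => ?_⟩
    rw [hβp, map_mul, hy g hg.1, map_inv₀, map_zpow₀, map_natCast]
  have hbβ := hb2 β hβS
  have hyβ : y = β * ϖ ^ n := by rw [hβ, mul_assoc, inv_mul_cancel₀ hϖn0, mul_one]
  have hζ0 : ζ ≠ 0 := hζ.ne_zero hp.ne_zero
  calc b y = b β * (b ϖ) ^ n := by
        conv_lhs => rw [hyβ]
        rw [map_mul, map_zpow₀]
    _ = β * (ζ * ϖ) ^ n := by rw [hbβ, hbϖ]
    _ = ζ ^ n * (β * ϖ ^ n) := by rw [mul_zpow]; ring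
    _ = ζ ^ ((n : ZMod p)).val * y := by rw [← hyβ, h23k_zeta_zpow hζ.pow_eq_one]

/-- `b` fixes the `p`-th roots of the units of the inertia field. -/
theorem h23k_tame_unit {b : Gq p} (hb2 : ∀ β ∈ h23kS2 p, b β = β)
    {y : Om p} (hy1 : ‖y‖ = 1) (hy : ∀ g ∈ inertia p, g (y ^ p) = y ^ p) : b y = y :=
  hb2 y ⟨hy1, fun g hg => hy g hg.1⟩

end Fermat.Agent.P7
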