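import Fermat.Agent.P7.H23KumB
import Fermat.Agent.P7.H23ValRes
import Fermat.Agent.P7.H24PeuTr
import Fermat.Agent.S56F.FLO8b_helper84
import Fermat.Agent.S56F.FLC1_helper7

/-!
# Wave 7 (S40), leaf T-C1-BREAK, LOCAL frame, strong (`𝔽_p`-valued) form (helper24, `h24b_`)

`Om p = ℚ̄_p`, `I₁ = {g ∈ inertia p | g = 1 on μ_p}`, `β` a unit with `β ^ p ∈ Fix(I₁)`,
`b ∈ I₁` with `b β = ζ β` (`ζ` a primitive `p`-th root of unity), `I_β = Stab_{I₁}(β)`.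

For `w` a unit fixed by `I₁` with `‖β - w‖ < 1` (a Teichmüller representative of `β`) put
`x₀ = β / w - 1` and `δ = b(x₀) / x₀ - 1 = (ζ - 1) β / (β - w)`.  Then

* `‖ζ - 1‖ < ‖δ‖ < 1` (`h24b_delta_lt`, `h24b_delta_gt`): the break is shallower than `ζ - 1`
  (this is where `β` is a unit);
* `h24b_break_loc` : for every `γ ≠ 0` fixed by `I_β` there is `j < p` with
  `‖(b γ / γ - 1) / δ - j‖ < 1`, and `j = 0 ↔ ‖γ‖ ^ (p - 1) ∈ p ^ ℤ`
  (i.e. `ψ(γ) = j ∈ 𝔽_p`, and `ψ(γ) = 0` iff `v(γ)` is a value of `Fix(I₁)`).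
-/

set_option autoImplicit false
set_option linter.unusedSectionVars false
set_option linter.style.haveILetI false

open Fermat.Agent.PT.Loc Fermat.Agent.S56F

noncomputable section

namespace Fermat.Agent.P7

variable {p : ℕ} [Fact p.Prime]

/-! ## Resolvents in the local frame -/

theorem h24b_fix_zeta {g : Gq p} (hg : h34k_I1 p g) {ζ : Om p} (hζ : ζ ^ p = 1) : g ζ = ζ := by
  rw [hg.2 ζ hζ, pow_one]

theorem h24b_pow_apply {ζ β : Om p} {b : Gq p} (hbζ : b ζ = ζ) (hbβ : b β = ζ * β) (k : ℕ) :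
    (b ^ k) β = ζ ^ k * β := by
  induction k with
  | zero => rw [pow_zero, AlgEquiv.one_apply, pow_zero, one_mul]
  | succ k ih =>
    rw [pow_succ', AlgEquiv.mul_apply, ih, map_mul, map_pow, hbζ, hbβ, pow_succ]
    ring

theorem h24b_inv_pow_apply {ζ β : Om p} {b : Gq p} (hbζ : b ζ = ζ)
    (hbβ : b β = ζ * β) (k : ℕ) : (b ^ k)⁻¹ (ζ ^ k * β) = β := by
  rw [← h24b_pow_apply hbζ hbβ k, ← AlgEquiv.mul_apply, inv_mul_cancel, AlgEquiv.one_apply]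

theorem h24b_exists_exp {ζ : Om p} (hζ : IsPrimitiveRoot ζ p) {β : Om p} (hβ0 : β ≠ 0)
    {c : Gq p} (hc : c (β ^ p) = β ^ p) : ∃ k : ℕ, c β = ζ ^ k * β := by
  have hp : p.Prime := Fact.out
  haveI : NeZero p := ⟨hp.ne_zero⟩
  have h1 : (c β / β) ^ p = 1 := by
    rw [div_pow, ← map_pow, hc, div_self (pow_ne_zero _ hβ0)]
  obtain ⟨i, -, h2⟩ := hζ.eq_pow_of_pow_eq_one h1
  exact ⟨i, by rw [h2, div_mul_cancel₀ _ hβ0]⟩

/-- the resolvents of an `I_β`-fixed element, divided by `β ^ j`, are fixed by `I₁`. -/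
theorem h24b_res_fixed_I1 {ζ : Om p} (hζ : IsPrimitiveRoot ζ p)
    {β : Om p} (hβ0 : β ≠ 0) (hβ : ∀ a ∈ h23kI1 p, a (β ^ p) = β ^ p)
    {b : Gq p} (hb : b ∈ h23kI1 p) (hbβ : b β = ζ * β)
    {x : Om p} (hx : ∀ a ∈ h23kI1 p, a β = β → a x = x) (j : ℕ) :
    ∀ s ∈ h23kI1 p, s (h23vRes ζ b p x j * (β ^ j)⁻¹) = h23vRes ζ b p x j * (β ^ j)⁻¹ := by
  have hp : p.Prime := Fact.out
  have hζ0 : ζ ≠ 0 := hζ.ne_zero hp.ne_zero
  have hbζ : b ζ = ζ := h24b_fix_zeta hb hζ.pow_eq_one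
  have hbp : (b ^ p) x = x := by
    refine hx _ ((h23kI1 p).pow_mem hb p) ?_
    rw [h24b_pow_apply hbζ hbβ, hζ.pow_eq_one, one_mul]
  have hconj : ∀ a ∈ h23kI1 p, a β = β → ∀ i, a ((b ^ i) x) = (b ^ i) x := by
    intro a ha haβ i
    have h1 : (b ^ i)⁻¹ * a * b ^ i ∈ h23kI1 p :=
      (h23kI1 p).mul_mem ((h23kI1 p).mul_mem
        ((h23kI1 p).inv_mem ((h23kI1 p).pow_mem hb i)) ha) ((h23kI1 p).pow_mem hb i)
    have h2 : ((b ^ i)⁻¹ * a * b ^ i) β = β := by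
      rw [AlgEquiv.mul_apply, AlgEquiv.mul_apply, h24b_pow_apply hbζ hbβ, map_mul, map_pow,
        h24b_fix_zeta ha hζ.pow_eq_one, haβ, h24b_inv_pow_apply hbζ hbβ]
    have h3 := hx _ h1 h2
    rw [AlgEquiv.mul_apply, AlgEquiv.mul_apply] at h3
    have h4 := congrArg (b ^ i) h3
    rwa [← AlgEquiv.mul_apply (b ^ i) (b ^ i)⁻¹, mul_inv_cancel, AlgEquiv.one_apply] at h4
  have hRpow : ∀ k : ℕ, (b ^ k) (h23vRes ζ b p x j) = ζ ^ (j * k) * h23vRes ζ b p x j := by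
    intro k
    induction k with
    | zero => rw [pow_zero, AlgEquiv.one_apply, mul_zero, pow_zero, one_mul]
    | succ k ih =>
      rw [pow_succ', AlgEquiv.mul_apply, ih, map_mul, map_pow, hbζ,
        h23v_res_eigen hζ.pow_eq_one hζ0 hbζ hbp j, ← mul_assoc, ← pow_add, mul_add, mul_one]
  intro s hs
  obtain ⟨k, hk⟩ := h24b_exists_exp hζ hβ0 (hβ s hs)
  set a : Gq p := (b ^ k)⁻¹ * s with ha
  have haI : a ∈ h23kI1 p :=
    (h23kI1 p).mul_mem ((h23kI1 p).inv_mem ((h23kI1 p).pow_mem hb k)) hs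
  have haβ : a β = β := by
    rw [ha, AlgEquiv.mul_apply, hk, h24b_inv_pow_apply hbζ hbβ]
  have hs' : s = b ^ k * a := by rw [ha, mul_inv_cancel_left]
  have haR : a (h23vRes ζ b p x j) = h23vRes ζ b p x j :=
    h23v_res_fixed a (h24b_fix_zeta haI hζ.pow_eq_one) (hconj a haI haβ) j
  have hsR : s (h23vRes ζ b p x j) = ζ ^ (j * k) * h23vRes ζ b p x j := by
    rw [hs', AlgEquiv.mul_apply, haR, hRpow]
  rw [map_mul, map_inv₀, map_pow, hsR, hk, mul_pow, ← pow_mul, mul_comm k j, mul_inv]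
  have hz : ζ ^ (j * k) ≠ 0 := pow_ne_zero _ hζ0
  field_simp

/-- **resolvent expansion**: `Fix(I_β) = ∑_{j < p} Fix(I₁) β ^ j`. -/
theorem h24b_resolvent {ζ : Om p} (hζ : IsPrimitiveRoot ζ p)
    {β : Om p} (hβ0 : β ≠ 0) (hβ : ∀ a ∈ h23kI1 p, a (β ^ p) = β ^ p)
    {b : Gq p} (hb : b ∈ h23kI1 p) (hbβ : b β = ζ * β)
    {x : Om p} (hx : ∀ a ∈ h23kI1 p, a β = β → a x = x) :
    ∃ c : ℕ → Om p, (∀ j, ∀ a ∈ h23kI1 p, a (c j) = c j) ∧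
      x = ∑ j ∈ Finset.range p, c j * β ^ j := by
  have hp : p.Prime := Fact.out
  refine ⟨fun j => h23vRes ζ b p x j * (β ^ j)⁻¹,
    fun j => h24b_res_fixed_I1 hζ hβ0 hβ hb hbβ hx j, ?_⟩
  have hpK : ((p : ℕ) : Om p) ≠ 0 := h96b_q_ne_zero p
  conv_lhs => rw [← h23v_res_sum hp hζ hpK b x]
  refine Finset.sum_congr rfl fun j _ => ?_
  rw [mul_assoc, inv_mul_cancel₀ (pow_ne_zero _ hβ0), mul_one]

/-- re-expansion in powers of `x₀ = β - 1`. -/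
theorem h24b_expand {ζ : Om p} (hζ : IsPrimitiveRoot ζ p)
    {β : Om p} (hβ0 : β ≠ 0) (hβ : ∀ a ∈ h23kI1 p, a (β ^ p) = β ^ p)
    {b : Gq p} (hb : b ∈ h23kI1 p) (hbβ : b β = ζ * β)
    {x : Om p} (hx : ∀ a ∈ h23kI1 p, a β = β → a x = x) :
    ∃ d : ℕ → Om p, (∀ i, ∀ a ∈ h23kI1 p, a (d i) = d i) ∧
      x = ∑ i ∈ Finset.range p, d i * (β - 1) ^ i := by
  obtain ⟨c, hc, hxc⟩ := h24b_resolvent hζ hβ0 hβ hb hbβ hx
  refine ⟨fun i => ∑ j ∈ Finset.range p, (j.choose i : Om p) * c j, fun i a ha => ?_, ?_⟩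
  · rw [map_sum]
    refine Finset.sum_congr rfl fun j _ => ?_
    rw [map_mul, map_natCast, hc j a ha]
  · have hpow : ∀ j ∈ Finset.range p,
        β ^ j = ∑ i ∈ Finset.range p, (j.choose i : Om p) * (β - 1) ^ i := by
      intro j hj
      have hj' : j < p := Finset.mem_range.mp hj
      have h1 : β = (β - 1) + 1 := by ring
      conv_lhs => rw [h1, add_pow]
      have h2 : Finset.range (j + 1) ⊆ Finset.range p :=
        Finset.range_subset_range.mpr (by omega)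
      rw [← Finset.sum_subset h2]
      · refine Finset.sum_congr rfl fun i _ => ?_
        rw [one_pow, mul_one, mul_comm]
      · intro i _ hi
        have hi' : j < i := by
          rw [Finset.mem_range] at hi
          omega
        rw [Nat.choose_eq_zero_of_lt hi', Nat.cast_zero, zero_mul]
    rw [hxc]
    calc ∑ j ∈ Finset.range p, c j * β ^ j
        = ∑ j ∈ Finset.range p, ∑ i ∈ Finset.range p,
            ((j.choose i : Om p) * c j) * (β - 1) ^ i := by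
          refine Finset.sum_congr rfl fun j hj => ?_
          rw [hpow j hj, Finset.mul_sum]
          refine Finset.sum_congr rfl fun i _ => ?_
          ring
      _ = ∑ i ∈ Finset.range p, ∑ j ∈ Finset.range p,
            ((j.choose i : Om p) * c j) * (β - 1) ^ i := Finset.sum_comm
      _ = _ := by
          refine Finset.sum_congr rfl fun i _ => ?_
          rw [Finset.sum_mul]

/-! ## Elementary lemmas -/

/-- integer arithmetic: the exponents `p m + N i`, `0 ≤ i < p`, are pairwise distinct. -/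
theorem h24b_arith {q : ℕ} (hq : q.Prime) {N : ℤ} (hN0 : 0 < N) (hNq : N < q) {m m' : ℤ}
    {i i' : ℕ} (hi : i < q) (hi' : i' < q)
    (h : (q : ℤ) * m + N * i = q * m' + N * i') : i = i' := by
  have h1 : (q : ℤ) ∣ N * ((i : ℤ) - i') := ⟨m' - m, by linear_combination h⟩
  have hqz : Prime (q : ℤ) := Nat.prime_iff_prime_int.mp hq
  rcases hqz.dvd_or_dvd h1 with h2 | h2
  · exact absurd (Int.le_of_dvd hN0 h2) (not_le.mpr hNq)
  · have h3 : ((i : ℤ) - i') = 0 := by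
      apply Int.eq_zero_of_abs_lt_dvd h2
      rw [abs_lt]
      constructor <;> omega
    omega

/-- `‖(1 + δ) ^ i - 1 - i δ‖ ≤ ‖δ‖ ^ 2`. -/
theorem h24b_binom {δ : Om p} (hδ : ‖δ‖ ≤ 1) (i : ℕ) :
    ‖(1 + δ) ^ i - 1 - (i : Om p) * δ‖ ≤ ‖δ‖ ^ 2 := by
  have h1δ : ‖1 + δ‖ ≤ 1 := by
    refine (IsUltrametricDist.norm_add_le_max _ _).trans (max_le ?_ hδ)
    rw [norm_one]
  induction i with
  | zero =>
    simp only [pow_zero, sub_self, Nat.cast_zero, zero_mul, norm_zero]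
    positivity
  | succ i ih =>
    have h1 : (1 + δ) ^ (i + 1) - 1 - ((i + 1 : ℕ) : Om p) * δ
        = (1 + δ) * ((1 + δ) ^ i - 1 - (i : Om p) * δ) + (i : Om p) * δ ^ 2 := by
      push_cast
      ring
    rw [h1]
    refine (IsUltrametricDist.norm_add_le_max _ _).trans (max_le ?_ ?_)
    · rw [norm_mul]
      calc ‖1 + δ‖ * ‖(1 + δ) ^ i - 1 - (i : Om p) * δ‖ ≤ 1 * ‖δ‖ ^ 2 :=
            mul_le_mul h1δ ih (norm_nonneg _) zero_le_one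
        _ = ‖δ‖ ^ 2 := one_mul _
    · rw [norm_mul, norm_pow]
      calc ‖(i : Om p)‖ * ‖δ‖ ^ 2 ≤ 1 * ‖δ‖ ^ 2 :=
            mul_le_mul_of_nonneg_right (h34k_norm_natCast_le i) (by positivity)
        _ = ‖δ‖ ^ 2 := one_mul _

/-- `‖(1 + δ) ^ i - 1‖ ≤ ‖δ‖`. -/
theorem h24b_pow_sub_one {δ : Om p} (hδ : ‖δ‖ ≤ 1) (i : ℕ) : ‖(1 + δ) ^ i - 1‖ ≤ ‖δ‖ := by
  have h1δ : ‖1 + δ‖ ≤ 1 := by
    refine (IsUltrametricDist.norm_add_le_max _ _).trans (max_le ?_ hδ)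
    rw [norm_one]
  have h := h7g_norm_pow_sub_one_le h1δ i
  rwa [add_sub_cancel_left] at h

/-- **unique maximal term** of an ultrametric sum with pairwise distinct nonzero norms. -/
theorem h24b_unique_max (n : ℕ) (t : ℕ → Om p)
    (hdist : ∀ i < n, ∀ i' < n, t i ≠ 0 → t i' ≠ 0 → ‖t i‖ = ‖t i'‖ → i = i')
    (hsum : ∑ i ∈ Finset.range n, t i ≠ 0) :
    ∃ i₀ < n, t i₀ ≠ 0 ∧ (∀ i < n, i ≠ i₀ → ‖t i‖ < ‖t i₀‖) ∧
      ‖∑ i ∈ Finset.range n, t i‖ = ‖t i₀‖ := by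
  classical
  have hne : (Finset.range n).Nonempty := by
    rw [Finset.nonempty_iff_ne_empty]
    intro h
    rw [h, Finset.sum_empty] at hsum
    exact hsum rfl
  obtain ⟨i₀, hi₀, hmax⟩ := Finset.exists_max_image (Finset.range n) (fun i => ‖t i‖) hne
  have hi₀' : i₀ < n := Finset.mem_range.mp hi₀
  have ht0 : t i₀ ≠ 0 := by
    intro h0
    apply hsum
    refine Finset.sum_eq_zero fun i hi => ?_
    have h1 := hmax i hi
    simp only [h0, norm_zero] at h1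
    exact norm_le_zero_iff.mp h1
  have hlt : ∀ i < n, i ≠ i₀ → ‖t i‖ < ‖t i₀‖ := by
    intro i hi hne'
    refine lt_of_le_of_ne (hmax i (Finset.mem_range.mpr hi)) fun heq => ?_
    by_cases hti : t i = 0
    · rw [hti, norm_zero] at heq
      exact ht0 (norm_eq_zero.mp heq.symm)
    · exact hne' (hdist i hi i₀ hi₀' hti ht0 heq)
  refine ⟨i₀, hi₀', ht0, hlt, ?_⟩
  have hsplit : ∑ i ∈ Finset.range n, t i = t i₀ + ∑ i ∈ (Finset.range n).erase i₀, t i :=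
    (Finset.add_sum_erase _ _ hi₀).symm
  have hrest : ‖∑ i ∈ (Finset.range n).erase i₀, t i‖ < ‖t i₀‖ := by
    by_cases he : ((Finset.range n).erase i₀).Nonempty
    · obtain ⟨i, hi, hle⟩ := IsUltrametricDist.exists_norm_finsetSum_le_of_nonempty he t
      have hi1 := Finset.mem_erase.mp hi
      exact lt_of_le_of_lt hle (hlt i (Finset.mem_range.mp hi1.2) hi1.1)
    · rw [Finset.not_nonempty_iff_eq_empty] at he
      rw [he, Finset.sum_empty, norm_zero]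
      exact norm_pos_iff.mpr ht0
  rw [hsplit, IsUltrametricDist.norm_add_eq_max_of_norm_ne_norm hrest.ne']
  exact max_eq_left hrest.le

/-! ## The break, normalised case `‖β - 1‖ < 1` -/

/-- `‖ζ - 1‖ < ‖β - 1‖`: the Kummer generator is NOT congruent to `1` modulo `ζ - 1`. -/
theorem h24b_x0_gt {ζ β : Om p} {b : Gq p} (hζ : IsPrimitiveRoot ζ p) (hb : b ∈ inertia p)
    (hbζ : b ζ = ζ) (hβ1 : ‖β - 1‖ < 1) (hbβ : b β = ζ * β) : ‖ζ - 1‖ < ‖β - 1‖ := by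
  by_contra hcon
  rw [not_lt] at hcon
  have hp : p.Prime := Fact.out
  have hζ1 : ζ - 1 ≠ 0 := sub_ne_zero.mpr (hζ.ne_one hp.one_lt)
  have hy : ‖(β - 1) / (ζ - 1)‖ ≤ 1 := by
    rw [norm_div]
    exact div_le_one_of_le₀ hcon (norm_nonneg _)
  have h1 : ‖b ((β - 1) / (ζ - 1)) - (β - 1) / (ζ - 1)‖ < 1 := hb _ hy
  have h2 : b ((β - 1) / (ζ - 1)) - (β - 1) / (ζ - 1) = β := by
    rw [map_div₀, map_sub, map_sub, map_one, hbζ, hbβ]
    field_simp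
    ring
  rw [h2, h24q_norm_eq_one hβ1] at h1
  exact lt_irrefl _ h1

/-- `‖β ^ p - 1‖ = ‖β - 1‖ ^ p` when `‖ζ - 1‖ < ‖β - 1‖`. -/
theorem h24b_norm_pow_sub_one {ζ β : Om p} (hζ : IsPrimitiveRoot ζ p)
    (h : ‖ζ - 1‖ < ‖β - 1‖) : ‖β ^ p - 1‖ = ‖β - 1‖ ^ p := by
  classical
  have hp : p.Prime := Fact.out
  haveI : NeZero p := ⟨hp.ne_zero⟩
  have hprod : β ^ p - 1 = ∏ ω ∈ Polynomial.nthRootsFinset p (1 : Om p), (β - ω) := by
    have h1 := congrArg (Polynomial.eval β) (Polynomial.X_pow_sub_one_eq_prod hp.pos hζ)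
    rw [Polynomial.eval_prod] at h1
    simpa using h1
  rw [hprod, norm_prod]
  have h2 : ∀ ω ∈ Polynomial.nthRootsFinset p (1 : Om p), ‖β - ω‖ = ‖β - 1‖ := by
    intro ω hω
    have hωp : ω ^ p = 1 := (Polynomial.mem_nthRootsFinset hp.pos 1).mp hω
    obtain ⟨i, -, rfl⟩ := hζ.eq_pow_of_pow_eq_one hωp
    have h3 : ‖ζ ^ i - 1‖ ≤ ‖ζ - 1‖ :=
      h7g_norm_pow_sub_one_le (h7g_norm_root_of_unity hp.ne_zero hζ.pow_eq_one).le i
    have h4 : β - ζ ^ i = (β - 1) + -(ζ ^ i - 1) := by ring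
    have h5 : ‖-(ζ ^ i - 1)‖ < ‖β - 1‖ := by
      rw [norm_neg]
      exact lt_of_le_of_lt h3 h
    rw [h4, IsUltrametricDist.norm_add_eq_max_of_norm_ne_norm h5.ne']
    exact max_eq_left h5.le
  rw [Finset.prod_congr rfl h2, Finset.prod_const, hζ.card_nthRootsFinset]

/-- the exponent `N` of `x₀ = β - 1`: `‖x₀‖ ^ (p (p - 1)) = p ^ (-N)` with `0 < N < p`. -/
theorem h24b_exists_N (hp2 : p ≠ 2) {ζ β : Om p} (hζ : IsPrimitiveRoot ζ p)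
    (hβp : ∀ a ∈ h23kI1 p, a (β ^ p) = β ^ p)
    (hlt : ‖ζ - 1‖ < ‖β - 1‖) (hβ1 : ‖β - 1‖ < 1) :
    ∃ N : ℤ, 0 < N ∧ N < p ∧ ‖β - 1‖ ^ (p * (p - 1)) = ((p : ℝ)⁻¹) ^ N := by
  have hp : p.Prime := Fact.out
  have hq0 : (0 : ℝ) < (p : ℝ)⁻¹ := inv_pos.mpr (by exact_mod_cast hp.pos)
  have hq1 : ((p : ℝ)⁻¹) < 1 := inv_lt_one_of_one_lt₀ (by exact_mod_cast hp.one_lt)
  have hx0pos : 0 < ‖β - 1‖ := lt_of_le_of_lt (norm_nonneg _) hlt
  have hpp : p * (p - 1) ≠ 0 := by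
    have := hp.two_le
    exact Nat.mul_ne_zero hp.ne_zero (by omega)
  have hy0 : β ^ p - 1 ≠ 0 := by
    rw [← norm_pos_iff, h24b_norm_pow_sub_one hζ hlt]
    exact pow_pos hx0pos p
  have hyfix : ∀ g : Gq p, h34k_I1 p g → g (β ^ p - 1) = β ^ p - 1 := by
    intro g hg
    rw [map_sub, map_one, hβp g hg]
  obtain ⟨N, hN⟩ := h23k_norm_of_fixed_I1 hp2 hy0 hyfix
  rw [h24b_norm_pow_sub_one hζ hlt, ← pow_mul] at hN
  refine ⟨N, ?_, ?_, hN⟩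
  · have h1 : ((p : ℝ)⁻¹) ^ N < ((p : ℝ)⁻¹) ^ (0 : ℤ) := by
      rw [← hN, zpow_zero]
      exact pow_lt_one₀ (norm_nonneg _) hβ1 hpp
    exact (zpow_lt_zpow_iff_right_of_lt_one₀ hq0 hq1).mp h1
  · have h1 : ‖ζ - 1‖ ^ (p * (p - 1)) = ((p : ℝ)⁻¹) ^ ((p : ℕ) : ℤ) := by
      rw [mul_comm, pow_mul, h7g_norm_zeta_sub_one hζ, h7g_norm_p, zpow_natCast]
    have h2 : ((p : ℝ)⁻¹) ^ ((p : ℕ) : ℤ) < ((p : ℝ)⁻¹) ^ N := by
      rw [← hN, ← h1]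
      exact pow_lt_pow_left₀ hlt (norm_nonneg _) hpp
    exact (zpow_lt_zpow_iff_right_of_lt_one₀ hq0 hq1).mp h2

/-- the norm of a term `d x₀ ^ i`, `d ∈ Fix(I₁)`. -/
theorem h24b_norm_term (hp2 : p ≠ 2) {x₀ : Om p} {N : ℤ}
    (hN : ‖x₀‖ ^ (p * (p - 1)) = ((p : ℝ)⁻¹) ^ N) {d : Om p} (hd0 : d ≠ 0)
    (hd : ∀ a ∈ h23kI1 p, a d = d) (i : ℕ) :
    ∃ m : ℤ, ‖d * x₀ ^ i‖ ^ (p * (p - 1)) = ((p : ℝ)⁻¹) ^ ((p : ℤ) * m + N * i) := by
  have hp : p.Prime := Fact.out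
  have hq0 : ((p : ℝ)⁻¹) ≠ 0 := inv_ne_zero (by exact_mod_cast hp.ne_zero)
  obtain ⟨m, hm⟩ := h23k_norm_of_fixed_I1 hp2 hd0 (fun g hg => hd g hg)
  refine ⟨m, ?_⟩
  have e1 : ‖d‖ ^ (p * (p - 1)) = ((p : ℝ)⁻¹) ^ ((p : ℤ) * m) := by
    rw [mul_comm p (p - 1), pow_mul, hm, ← zpow_natCast (((p : ℝ)⁻¹) ^ m) p, ← zpow_mul,
      mul_comm]
  have e2 : (‖x₀‖ ^ i) ^ (p * (p - 1)) = ((p : ℝ)⁻¹) ^ (N * i) := by
    rw [← pow_mul, mul_comm i, pow_mul, hN, ← zpow_natCast (((p : ℝ)⁻¹) ^ N) i, ← zpow_mul]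
  rw [norm_mul, norm_pow, mul_pow, e1, e2, ← zpow_add₀ hq0]

/-- **BREAK, normalised case** `‖β - 1‖ < 1`, with `δ = b(x₀)/x₀ - 1 = (ζ - 1) β / (β - 1)`. -/
theorem h24b_break_norm (hp2 : p ≠ 2) {ζ β : Om p} (hζ : IsPrimitiveRoot ζ p)
    (hβ1 : ‖β - 1‖ < 1) (hβp : ∀ a ∈ h23kI1 p, a (β ^ p) = β ^ p)
    {b : Gq p} (hb : b ∈ h23kI1 p) (hbβ : b β = ζ * β) :
    ‖ζ - 1‖ < ‖(ζ - 1) * β / (β - 1)‖ ∧ ‖(ζ - 1) * β / (β - 1)‖ < 1 ∧
    ∀ γ : Om p, γ ≠ 0 → (∀ a ∈ h23kI1 p, a β = β → a γ = γ) →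
      ∃ j : ℕ, j < p ∧ ‖(b γ / γ - 1) / ((ζ - 1) * β / (β - 1)) - (j : Om p)‖ < 1 ∧
        (j = 0 ↔ ∃ n : ℤ, ‖γ‖ ^ (p - 1) = ((p : ℝ)⁻¹) ^ n) := by
  classical
  have hp : p.Prime := Fact.out
  have hq0 : (0 : ℝ) < (p : ℝ)⁻¹ := inv_pos.mpr (by exact_mod_cast hp.pos)
  have hq1 : ((p : ℝ)⁻¹) < 1 := inv_lt_one_of_one_lt₀ (by exact_mod_cast hp.one_lt)
  have hbI : b ∈ inertia p := hb.1
  have hbζ : b ζ = ζ := h24b_fix_zeta hb hζ.pow_eq_one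
  have hlt : ‖ζ - 1‖ < ‖β - 1‖ := h24b_x0_gt hζ hbI hbζ hβ1 hbβ
  have hβn : ‖β‖ = 1 := h24q_norm_eq_one hβ1
  have hβ0 : β ≠ 0 := by
    intro h
    rw [h, norm_zero] at hβn
    exact zero_ne_one hβn
  have hζ1 : ζ - 1 ≠ 0 := sub_ne_zero.mpr (hζ.ne_one hp.one_lt)
  have hζpos : 0 < ‖ζ - 1‖ := norm_pos_iff.mpr hζ1
  have hx0pos : 0 < ‖β - 1‖ := lt_trans hζpos hlt
  have hx0 : β - 1 ≠ 0 := norm_pos_iff.mp hx0pos
  obtain ⟨δ, hδdef⟩ : ∃ δ : Om p, δ = (ζ - 1) * β / (β - 1) := ⟨_, rfl⟩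
  rw [← hδdef]
  have hδn : ‖δ‖ = ‖ζ - 1‖ / ‖β - 1‖ := by
    rw [hδdef, norm_div, norm_mul, hβn, mul_one]
  have hδlt : ‖δ‖ < 1 := by
    rw [hδn, div_lt_one hx0pos]
    exact hlt
  have hδgt : ‖ζ - 1‖ < ‖δ‖ := by
    rw [hδn, lt_div_iff₀ hx0pos]
    exact mul_lt_of_lt_one_right hζpos hβ1
  have hδpos : 0 < ‖δ‖ := lt_trans hζpos hδgt
  have hδ0 : δ ≠ 0 := norm_pos_iff.mp hδpos
  have hbx0 : b (β - 1) = (β - 1) * (1 + δ) := by
    rw [map_sub, map_one, hbβ, hδdef]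
    field_simp
    ring
  obtain ⟨N, hN0, hNp, hN⟩ := h24b_exists_N hp2 hζ hβp hlt hβ1
  refine ⟨hδgt, hδlt, fun γ hγ0 hγ => ?_⟩
  obtain ⟨d, hd, hγd⟩ := h24b_expand hζ hβ0 hβp hb hbβ hγ
  set t : ℕ → Om p := fun i => d i * (β - 1) ^ i with ht
  have hdne : ∀ i, t i ≠ 0 → d i ≠ 0 := by
    intro i hti hdi
    apply hti
    rw [ht]
    simp only [hdi, zero_mul]
  have hdist : ∀ i < p, ∀ i' < p, t i ≠ 0 → t i' ≠ 0 → ‖t i‖ = ‖t i'‖ → i = i' := by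
    intro i hi i' hi' hti hti' heq
    obtain ⟨m, hm⟩ := h24b_norm_term hp2 hN (hdne i hti) (hd i) i
    obtain ⟨m', hm'⟩ := h24b_norm_term hp2 hN (hdne i' hti') (hd i') i'
    have h1 : ((p : ℝ)⁻¹) ^ ((p : ℤ) * m + N * i) = ((p : ℝ)⁻¹) ^ ((p : ℤ) * m' + N * i') := by
      rw [← hm, ← hm']
      show ‖t i‖ ^ _ = ‖t i'‖ ^ _
      rw [heq]
    exact h24b_arith hp hN0 hNp hi hi' (zpow_right_injective₀ hq0 hq1.ne h1)
  have hsum : ∑ i ∈ Finset.range p, t i ≠ 0 := by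
    rw [← hγd]
    exact hγ0
  obtain ⟨i₀, hi₀, ht0, hmax, hnorm⟩ := h24b_unique_max p t hdist hsum
  have hγn : ‖γ‖ = ‖t i₀‖ := by
    rw [← hnorm, ← hγd]
  have hγpos : 0 < ‖γ‖ := norm_pos_iff.mpr hγ0
  refine ⟨i₀, hi₀, ?_, ?_⟩
  · -- the estimate
    have hbγ : b γ = ∑ i ∈ Finset.range p, t i * (1 + δ) ^ i := by
      conv_lhs => rw [hγd]
      rw [map_sum]
      refine Finset.sum_congr rfl fun i _ => ?_
      rw [map_mul, map_pow, hd i b hb, hbx0, mul_pow, ← mul_assoc]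
    have hE : b γ - γ - (i₀ : Om p) * δ * γ
        = ∑ i ∈ Finset.range p, t i * ((1 + δ) ^ i - 1 - (i₀ : Om p) * δ) := by
      rw [hbγ]
      conv_lhs => rw [hγd]
      rw [Finset.mul_sum, ← Finset.sum_sub_distrib, ← Finset.sum_sub_distrib]
      refine Finset.sum_congr rfl fun i _ => ?_
      ring
    have hterm : ∀ i ∈ Finset.range p,
        ‖t i * ((1 + δ) ^ i - 1 - (i₀ : Om p) * δ)‖ < ‖δ‖ * ‖γ‖ := by
      intro i hi
      have hi' : i < p := Finset.mem_range.mp hi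
      rw [norm_mul]
      by_cases hii : i = i₀
      · have h1 : ‖(1 + δ) ^ i - 1 - (i₀ : Om p) * δ‖ ≤ ‖δ‖ ^ 2 := by
          rw [hii]
          exact h24b_binom hδlt.le i₀
        have h2 : ‖δ‖ ^ 2 < ‖δ‖ := by
          rw [pow_two]
          exact mul_lt_of_lt_one_right hδpos hδlt
        have h3 : ‖t i‖ = ‖γ‖ := by rw [hγn, hii]
        rw [h3, mul_comm]
        exact mul_lt_mul_of_pos_right (lt_of_le_of_lt h1 h2) hγpos
      · have h1 : ‖(1 + δ) ^ i - 1 - (i₀ : Om p) * δ‖ ≤ ‖δ‖ := by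
          rw [sub_eq_add_neg]
          refine (IsUltrametricDist.norm_add_le_max _ _).trans (max_le ?_ ?_)
          · exact h24b_pow_sub_one hδlt.le i
          · rw [norm_neg, norm_mul]
            calc ‖(i₀ : Om p)‖ * ‖δ‖ ≤ 1 * ‖δ‖ :=
                  mul_le_mul_of_nonneg_right (h34k_norm_natCast_le i₀) (norm_nonneg _)
              _ = ‖δ‖ := one_mul _
        have h2 : ‖t i‖ < ‖γ‖ := by
          rw [hγn]
          exact hmax i hi' hii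
        calc ‖t i‖ * ‖(1 + δ) ^ i - 1 - (i₀ : Om p) * δ‖ ≤ ‖t i‖ * ‖δ‖ :=
              mul_le_mul_of_nonneg_left h1 (norm_nonneg _)
          _ < ‖γ‖ * ‖δ‖ := mul_lt_mul_of_pos_right h2 hδpos
          _ = ‖δ‖ * ‖γ‖ := mul_comm _ _
    have hEn : ‖b γ - γ - (i₀ : Om p) * δ * γ‖ < ‖δ‖ * ‖γ‖ := by
      rw [hE]
      have hne : (Finset.range p).Nonempty := ⟨0, Finset.mem_range.mpr hp.pos⟩
      obtain ⟨i, hi, hle⟩ := IsUltrametricDist.exists_norm_finsetSum_le_of_nonempty hne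
        (fun i => t i * ((1 + δ) ^ i - 1 - (i₀ : Om p) * δ))
      exact lt_of_le_of_lt hle (hterm i hi)
    have hfin : (b γ / γ - 1) / δ - (i₀ : Om p) = (b γ - γ - (i₀ : Om p) * δ * γ) / (δ * γ) := by
      field_simp
    rw [hfin, norm_div, norm_mul, div_lt_one (mul_pos hδpos hγpos)]
    exact hEn
  · -- the value group criterion
    constructor
    · intro h0
      have h1 : ‖γ‖ = ‖d 0‖ := by
        rw [hγn, h0, ht]
        simp only [pow_zero, mul_one]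
      have hd0 : d 0 ≠ 0 := hdne 0 (by rw [← h0]; exact ht0)
      obtain ⟨n, hn⟩ := h23k_norm_of_fixed_I1 hp2 hd0 (fun g hg => hd 0 g hg)
      exact ⟨n, by rw [h1, hn]⟩
    · rintro ⟨n, hn⟩
      obtain ⟨m, hm⟩ := h24b_norm_term hp2 hN (hdne i₀ ht0) (hd i₀) i₀
      have h1 : ‖γ‖ ^ (p * (p - 1)) = ((p : ℝ)⁻¹) ^ ((p : ℤ) * n + N * (0 : ℕ)) := by
        rw [mul_comm p (p - 1), pow_mul, hn, ← zpow_natCast (((p : ℝ)⁻¹) ^ n) p, ← zpow_mul,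
          mul_comm n, Nat.cast_zero, mul_zero, add_zero]
      have h2 : ((p : ℝ)⁻¹) ^ ((p : ℤ) * n + N * (0 : ℕ))
          = ((p : ℝ)⁻¹) ^ ((p : ℤ) * m + N * i₀) := by
        rw [← h1, hγn]
        exact hm
      exact (h24b_arith hp hN0 hNp hp.pos hi₀ (zpow_right_injective₀ hq0 hq1.ne h2)).symm

/-- **BREAK, local frame, general unit `β`**: `w` a Teichmüller representative of `β`
(`w ^ m = 1`, `p ∤ m`, `‖β - w‖ < 1`), `δ = (ζ - 1) β / (β - w)`. -/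
theorem h24b_break_loc (hp2 : p ≠ 2) {ζ β : Om p} (hζ : IsPrimitiveRoot ζ p)
    (hβp : ∀ a ∈ h23kI1 p, a (β ^ p) = β ^ p)
    {b : Gq p} (hb : b ∈ h23kI1 p) (hbβ : b β = ζ * β)
    {w : Om p} (hw : h84u_IsMu p w) (hwβ : ‖β - w‖ < 1) :
    ‖ζ - 1‖ < ‖(ζ - 1) * β / (β - w)‖ ∧ ‖(ζ - 1) * β / (β - w)‖ < 1 ∧
    ∀ γ : Om p, γ ≠ 0 → (∀ a ∈ h23kI1 p, a β = β → a γ = γ) →
      ∃ j : ℕ, j < p ∧ ‖(b γ / γ - 1) / ((ζ - 1) * β / (β - w)) - (j : Om p)‖ < 1 ∧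
        (j = 0 ↔ ∃ n : ℤ, ‖γ‖ ^ (p - 1) = ((p : ℝ)⁻¹) ^ n) := by
  have hw0 : w ≠ 0 := h84u_isMu_ne_zero hw
  have hwn : ‖w‖ = 1 := h84u_isMu_norm hw
  have hwfix : ∀ a ∈ h23kI1 p, a w = w := fun a ha => h84u_isMu_fix hw ha.1
  have h1 : ‖β / w - 1‖ < 1 := by
    have e : β / w - 1 = (β - w) / w := by
      field_simp
    rw [e, norm_div, hwn, div_one]
    exact hwβ
  have h2 : ∀ a ∈ h23kI1 p, a ((β / w) ^ p) = (β / w) ^ p := by
    intro a ha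
    rw [div_pow, map_div₀, hβp a ha, map_pow, hwfix a ha]
  have h3 : b (β / w) = ζ * (β / w) := by
    rw [map_div₀, hbβ, hwfix b hb, mul_div_assoc]
  have hδ : (ζ - 1) * (β / w) / (β / w - 1) = (ζ - 1) * β / (β - w) := by
    have hne : β - w ≠ 0 := by
      intro h
      have h4 : β / w - 1 = 0 := by
        rw [sub_eq_zero] at h
        rw [h, div_self hw0, sub_self]
      have hp : p.Prime := Fact.out
      have h5 := h24b_x0_gt hζ hb.1 (h24b_fix_zeta hb hζ.pow_eq_one) h1 h3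
      rw [h4, norm_zero] at h5
      exact absurd h5 (not_lt.mpr (norm_nonneg _))
    have hne' : β / w - 1 ≠ 0 := by
      intro h
      apply hne
      rw [sub_eq_zero, div_eq_one_iff_eq hw0] at h
      rw [h, sub_self]
    field_simp
  obtain ⟨hA, hB, hC⟩ := h24b_break_norm hp2 hζ h1 h2 hb h3
  rw [hδ] at hA hB hC
  refine ⟨hA, hB, fun γ hγ0 hγ => hC γ hγ0 fun a ha haβ => hγ a ha ?_⟩
  have h4 : a β = a (β / w * w) := by rw [div_mul_cancel₀ _ hw0]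
  rw [h4, map_mul, haβ, hwfix a ha, div_mul_cancel₀ _ hw0]

end Fermat.Agent.P7
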