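import Mathlib
import Fermat.Agent.P5.H78RRLeaves

/-!
# Wave 7 (row 38), block (A), route DLOG, leaf DL4 GAP: abstract form (helper24, prefix `h24d_`)

`F / K` an abstract function field in the Prelude vocabulary (`Place K F`, `riemannRochSpace`),
with the basic facts `H13rBase K F` and a weak genus `g` (`H13rIsGenus K F g`, Riemann's theorem
of P5).  `P` a place and `ι : F →+* K((q))` an expansion at `P`
(`(ι f).order = P.ord f` for `f ≠ 0`).

* `h24dLL P` : the functions which are regular off `P`;
* `h24dOmega P ι` : the `K`-space of the `w ∈ q K[[q]]` with `a₀(ι f * w) = 0` for all `f`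
  regular off `P` (the "regular differentials" `w dq/q`, by residue duality);
* `h24d_gap` : there is a set `S` of exactly `g` positive integers (the gaps at `P`) such that
  an element of `h24dOmega P ι` whose coefficients at `S` vanish is `0`;
* `h24d_finrank_le` : `h24dOmega P ι` is finite-dimensional of dimension `≤ g`.
-/

set_option autoImplicit false
set_option linter.style.haveILetI false
set_option linter.unusedSectionVars false
set_option linter.unusedVariables false

open AlgebraicCurve

noncomputable section

namespace Fermat.Agent.P7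

open Fermat.Agent.P5

/-! ## A coefficient of a product of Laurent series -/

/-- if the coefficients of `x` vanish below `a` and those of `y` below `b`, then the coefficient
of `x * y` at `a + b` is the product of the coefficients at `a` and `b`. -/
theorem h24d_coeff_mul_of_bdd {R : Type*} [Semiring R] [NoZeroDivisors R]
    (x y : HahnSeries ℤ R) (a b : ℤ)
    (hx : ∀ i : ℤ, i < a → x.coeff i = 0) (hy : ∀ j : ℤ, j < b → y.coeff j = 0) :
    (x * y).coeff (a + b) = x.coeff a * y.coeff b := by
  classical
  rw [HahnSeries.coeff_mul]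
  refine Finset.sum_eq_single (a, b) ?_ ?_
  · intro ij hij hne
    exfalso
    apply hne
    obtain ⟨h1, h2, h3⟩ := Finset.mem_antidiagonal.mp hij
    have h1' : a ≤ ij.1 := by
      by_contra hlt
      exact h1 (hx _ (not_le.mp hlt))
    have h2' : b ≤ ij.2 := by
      by_contra hlt
      exact h2 (hy _ (not_le.mp hlt))
    have e1 : ij.1 = a := by omega
    have e2 : ij.2 = b := by omega
    exact Prod.ext e1 e2
  · intro hab
    by_contra hne
    apply hab
    refine Finset.mem_antidiagonal.mpr ⟨?_, ?_, rfl⟩
    · intro h0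
      apply hne
      have : x.coeff a = 0 := h0
      rw [this, zero_mul]
    · intro h0
      apply hne
      have : y.coeff b = 0 := h0
      rw [this, mul_zero]

section Abstract

variable {K F : Type*} [Field K] [Field F] [Algebra K F]

/-- the functions which are regular off `P`. -/
def h24dLL (P : Place K F) : Set F := {f | ∀ v : Place K F, v ≠ P → 0 ≤ v.ord f}

/-- the orthogonal of the functions regular off `P` in `q K[[q]]`, for the pairing
`⟨f, w⟩ = a₀(ι f * w)`. -/
def h24dOmega (P : Place K F) (ι : F →+* LaurentSeries K) : Submodule K (LaurentSeries K) where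
  carrier := {w | (∀ n : ℤ, n ≤ 0 → w.coeff n = 0) ∧
    ∀ f ∈ h24dLL P, (ι f * w).coeff 0 = 0}
  zero_mem' := by
    refine ⟨fun n _ => by simp, fun f _ => by simp⟩
  add_mem' := by
    rintro w₁ w₂ ⟨h1, h1'⟩ ⟨h2, h2'⟩
    refine ⟨fun n hn => ?_, fun f hf => ?_⟩
    · rw [HahnSeries.coeff_add, h1 n hn, h2 n hn, add_zero]
    · rw [mul_add, HahnSeries.coeff_add, h1' f hf, h2' f hf, add_zero]
  smul_mem' := by
    rintro c w ⟨h1, h1'⟩
    refine ⟨fun n hn => ?_, fun f hf => ?_⟩
    · rw [HahnSeries.coeff_smul, h1 n hn, smul_zero]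
    · rw [← HahnSeries.C_mul_eq_smul, mul_left_comm, HahnSeries.C_mul_eq_smul,
        HahnSeries.coeff_smul, h1' f hf, smul_zero]

theorem h24d_mem_omega {P : Place K F} {ι : F →+* LaurentSeries K} {w : LaurentSeries K} :
    w ∈ h24dOmega P ι ↔ (∀ n : ℤ, n ≤ 0 → w.coeff n = 0) ∧
      ∀ f ∈ h24dLL P, (ι f * w).coeff 0 = 0 := Iff.rfl

/-- the divisor `n P`. -/
def h24dDiv (P : Place K F) (n : ℕ) : Divisor K F := Finsupp.single P (n : ℤ)

theorem h24dDiv_succ (P : Place K F) (n : ℕ) :
    h24dDiv P (n + 1) = h24dDiv P n + Finsupp.single P 1 := by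
  unfold h24dDiv
  rw [← Finsupp.single_add]
  push_cast
  rfl

theorem h24dDiv_le (P : Place K F) (n : ℕ) : h24dDiv P n ≤ h24dDiv P (n + 1) := by
  rw [h24dDiv_succ]
  refine Finsupp.le_def.mpr fun v => ?_
  rw [Finsupp.add_apply]
  have : (0 : ℤ) ≤ (Finsupp.single P (1 : ℤ)) v := by
    classical
    rw [Finsupp.single_apply]
    split_ifs <;> norm_num
  omega

theorem h24d_degree (hB : H13rBase K F) (P : Place K F) (n : ℕ) :
    Divisor.degree (h24dDiv P n) = n := by
  unfold h24dDiv
  rw [Divisor.degree_single, hB.deg_one P]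
  simp

/-- `ℓ(n P)`. -/
def h24dEll (P : Place K F) (n : ℕ) : ℕ := h13rL K F (h24dDiv P n)

theorem h24dEll_zero (hB : H13rBase K F) (P : Place K F) : h24dEll P 0 = 1 := by
  have h := (h78q_fin hB).2.2.2
  unfold h24dEll h24dDiv
  simpa using h

theorem h24dEll_mono (hB : H13rBase K F) (P : Place K F) (n : ℕ) :
    h24dEll P n ≤ h24dEll P (n + 1) := by
  unfold h24dEll h13rL
  haveI := h78q_finite hB (h24dDiv P (n + 1))
  exact Submodule.finrank_mono (h78p_L_mono (h24dDiv_le P n))

theorem h24dEll_succ_le (hB : H13rBase K F) (P : Place K F) (n : ℕ) :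
    h24dEll P (n + 1) ≤ h24dEll P n + 1 := by
  have h := (h78q_fin hB).2.1 (h24dDiv P n) P
  unfold h24dEll
  rw [h24dDiv_succ]
  exact h

/-- at a non-gap `n + 1` there is a function regular off `P` with a pole of exact order `n + 1`
at `P`. -/
theorem h24d_exists_pole (hB : H13rBase K F) (P : Place K F) (n : ℕ)
    (h : h24dEll P n ≠ h24dEll P (n + 1)) :
    ∃ f : F, f ≠ 0 ∧ f ∈ h24dLL P ∧ P.ord f = -((n : ℤ) + 1) := by
  classical
  have hle : riemannRochSpace (h24dDiv P n) ≤ riemannRochSpace (h24dDiv P (n + 1)) :=
    h78p_L_mono (h24dDiv_le P n)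
  haveI := h78q_finite hB (h24dDiv P (n + 1))
  haveI := h78q_finite hB (h24dDiv P n)
  have hne : riemannRochSpace (h24dDiv P n) ≠ riemannRochSpace (h24dDiv P (n + 1)) := by
    intro heq
    apply h
    unfold h24dEll h13rL
    rw [heq]
  obtain ⟨f, hf, hfn⟩ := SetLike.exists_of_lt (lt_of_le_of_ne hle hne)
  have hf0 : f ≠ 0 := by
    rintro rfl
    exact hfn (Submodule.zero_mem _)
  have hf' := mem_riemannRochSpace_iff.mp hf
  have hoff : ∀ v : Place K F, v ≠ P → 0 ≤ v.ord f := by
    intro v hv
    rcases hf' v with h0 | h1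
    · exact absurd h0 hf0
    · have : (h24dDiv P (n + 1)) v = 0 := by
        unfold h24dDiv
        rw [Finsupp.single_apply, if_neg (Ne.symm hv)]
      rw [this] at h1
      simpa using h1
  have hP1 : -((n : ℤ) + 1) ≤ P.ord f := by
    rcases hf' P with h0 | h1
    · exact absurd h0 hf0
    · have : (h24dDiv P (n + 1)) P = (n : ℤ) + 1 := by
        unfold h24dDiv
        rw [Finsupp.single_apply, if_pos rfl]
        push_cast
        rfl
      rw [this] at h1
      exact h1
  have hP2 : P.ord f < -(n : ℤ) := by
    by_contra hge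
    apply hfn
    rw [mem_riemannRochSpace_iff]
    intro v
    right
    by_cases hv : v = P
    · subst hv
      have : (h24dDiv v n) v = (n : ℤ) := by
        unfold h24dDiv
        rw [Finsupp.single_apply, if_pos rfl]
      rw [this]
      omega
    · have : (h24dDiv P n) v = 0 := by
        unfold h24dDiv
        rw [Finsupp.single_apply, if_neg (Ne.symm hv)]
      rw [this]
      simpa using hoff v hv
  exact ⟨f, hf0, hoff, by omega⟩

/-- the counting of the gaps below `m`. -/
theorem h24d_count (hB : H13rBase K F) (P : Place K F) (m : ℕ) :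
    h24dEll P m + ((Finset.range m).filter
      (fun n => h24dEll P n = h24dEll P (n + 1))).card = m + 1 := by
  classical
  induction m with
  | zero => simp [h24dEll_zero hB P]
  | succ m ih =>
    rw [Finset.range_add_one, Finset.filter_insert]
    have h1 := h24dEll_mono hB P m
    have h2 := h24dEll_succ_le hB P m
    by_cases hgap : h24dEll P m = h24dEll P (m + 1)
    · rw [if_pos hgap, Finset.card_insert_of_notMem (by simp)]
      omega
    · rw [if_neg hgap]
      omega

/-- **DL4 GAP, abstract form**: an element of `Ω` is determined by its coefficients at the `g`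
gaps of `P`. -/
theorem h24d_gap (hB : H13rBase K F) {g : ℕ} (hg : H13rIsGenus K F g) (P : Place K F)
    (ι : F →+* LaurentSeries K) (hι : ∀ f : F, f ≠ 0 → (ι f).order = P.ord f) :
    ∃ S : Finset ℕ, S.card = g ∧ (∀ n ∈ S, 1 ≤ n) ∧
      ∀ w ∈ h24dOmega P ι, (∀ n ∈ S, w.coeff (n : ℤ) = 0) → w = 0 := by
  classical
  obtain ⟨⟨c, hc⟩, -⟩ := h78q_large hB g hg
  set N : ℕ := c.toNat with hN
  have hcN : c ≤ (N : ℤ) := Int.self_le_toNat c
  -- the value of `ℓ` above `N`
  have hlarge : ∀ n : ℕ, N ≤ n → (h24dEll P n : ℤ) + g = n + 1 := by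
    intro n hn
    have h := hc (h24dDiv P n) (by rw [h24d_degree hB]; exact_mod_cast hcN.trans (by exact_mod_cast hn))
    rw [h24d_degree hB] at h
    exact h
  set S₀ : Finset ℕ := (Finset.range N).filter (fun n => h24dEll P n = h24dEll P (n + 1))
    with hS₀
  have hcard : S₀.card = g := by
    have h1 := h24d_count hB P N
    have h2 := hlarge N le_rfl
    rw [← hS₀] at h1
    have h1' : (h24dEll P N : ℤ) + S₀.card = N + 1 := by exact_mod_cast h1
    have : (S₀.card : ℤ) = g := by omega
    exact_mod_cast this
  refine ⟨S₀.map ⟨fun n => n + 1, fun a b h => Nat.succ_injective h⟩, ?_, ?_, ?_⟩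
  · rw [Finset.card_map, hcard]
  · intro n hn
    rw [Finset.mem_map] at hn
    obtain ⟨m, -, rfl⟩ := hn
    exact Nat.le_add_left 1 m
  · intro w hw hS
    obtain ⟨hw0, hworth⟩ := hw
    -- all coefficients vanish
    have hall : ∀ n : ℕ, w.coeff ((n : ℤ) + 1) = 0 := by
      intro n
      induction n using Nat.strong_induction_on with
      | _ n ih =>
        by_cases hgap : h24dEll P n = h24dEll P (n + 1)
        · by_cases hnN : n < N
          · have hmem : n + 1 ∈ S₀.map ⟨fun n => n + 1, fun a b h => Nat.succ_injective h⟩ := by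
              rw [Finset.mem_map]
              exact ⟨n, by rw [hS₀, Finset.mem_filter, Finset.mem_range]; exact ⟨hnN, hgap⟩, rfl⟩
            have := hS (n + 1) hmem
            simpa using this
          · exfalso
            have h1 := hlarge n (not_lt.mp hnN)
            have h2 := hlarge (n + 1) (by omega)
            rw [hgap] at h1
            push_cast at h2
            omega
        · obtain ⟨f, hf0, hfLL, hford⟩ := h24d_exists_pole hB P n hgap
          have hιf0 : ι f ≠ 0 := by
            intro h0
            exact hf0 ((map_eq_zero ι).mp h0)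
          have hord : (ι f).order = -((n : ℤ) + 1) := by rw [hι f hf0, hford]
          have hxlow : ∀ i : ℤ, i < -((n : ℤ) + 1) → (ι f).coeff i = 0 := by
            intro i hi
            apply HahnSeries.coeff_eq_zero_of_lt_order
            rw [hord]
            exact hi
          have hylow : ∀ j : ℤ, j < (n : ℤ) + 1 → w.coeff j = 0 := by
            intro j hj
            by_cases hj0 : j ≤ 0
            · exact hw0 j hj0
            · have hjpos : 0 < j := not_le.mp hj0
              obtain ⟨m, hm⟩ : ∃ m : ℕ, j = (m : ℤ) + 1 := ⟨(j - 1).toNat, by omega⟩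
              rw [hm]
              apply ih m
              omega
          have key := h24d_coeff_mul_of_bdd (ι f) w (-((n : ℤ) + 1)) ((n : ℤ) + 1) hxlow hylow
          rw [neg_add_cancel, hworth f hfLL] at key
          have hlead : (ι f).coeff (-((n : ℤ) + 1)) ≠ 0 := by
            rw [← hord]
            exact fun h => hιf0 (HahnSeries.coeff_order_eq_zero.mp h)
          rcases mul_eq_zero.mp key.symm with h | h
          · exact absurd h hlead
          · exact h
    ext j
    rw [HahnSeries.coeff_zero]
    by_cases hj0 : j ≤ 0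
    · exact hw0 j hj0
    · obtain ⟨m, hm⟩ : ∃ m : ℕ, j = (m : ℤ) + 1 := ⟨(j - 1).toNat, by omega⟩
      rw [hm]
      exact hall m

/-- **DL4 GAP, dimension form**: `Ω` is finite-dimensional of dimension at most `g`. -/
theorem h24d_finrank_le (hB : H13rBase K F) {g : ℕ} (hg : H13rIsGenus K F g) (P : Place K F)
    (ι : F →+* LaurentSeries K) (hι : ∀ f : F, f ≠ 0 → (ι f).order = P.ord f) :
    Module.Finite K (h24dOmega P ι) ∧ Module.finrank K (h24dOmega P ι) ≤ g := by
  classical
  obtain ⟨S, hS, -, hinj⟩ := h24d_gap hB hg P ι hι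
  let φ : (h24dOmega P ι) →ₗ[K] (S → K) :=
    { toFun := fun w n => (w : LaurentSeries K).coeff ((n : ℕ) : ℤ)
      map_add' := fun w₁ w₂ => by
        funext n
        simp
      map_smul' := fun c w => by
        funext n
        simp }
  have hφ : Function.Injective φ := by
    rw [injective_iff_map_eq_zero]
    intro w hw
    apply Subtype.ext
    apply hinj w w.2
    intro n hn
    exact congrFun hw ⟨n, hn⟩
  haveI : Module.Finite K (h24dOmega P ι) := Module.Finite.of_injective φ hφ
  refine ⟨inferInstance, ?_⟩
  have h := LinearMap.finrank_le_finrank_of_injective hφ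
  rw [Module.finrank_pi, Fintype.card_coe, hS] at h
  exact h

end Abstract

end Fermat.Agent.P7
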