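import Fermat.Agent.Jac.FinalHK
import Fermat.Agent.Jac.DictCFinal
import Fermat.Agent.Jac.ConvFinal
import Fermat.Agent.Jac.CuspRoot
import Fermat.Agent.S21.E.Defs
import Fermat.Agent.S28.Cusp
import Fermat.Agent.S28.Bridge

/-!
# Wave 7, block (A), DLOG kill gate DL6B (GENUS-MATCH), leaf (K1): AN → FC with pole bounds
(helper39, prefix `h39o_`)

`h39o_k1` : a weakly holomorphic `Γ₀(M)`-invariant function `f` of degree `≤ d`
(`S21.E.IsWH (Gamma0 M) d f`: holomorphic on `ℍ`, invariant, `Δ ^ d * (f ∘ g)` bounded at `i∞` for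
all `g ∈ SL₂(ℤ)`) is (the analytic representative of) an element `F` of the function field
`FC M` of `X₀(M)` over `ℂ`, and `F ∈ L(d · (j)_∞)`:
`ord_v F ≥ 0` where `ord_v j ≥ 0` and `ord_v F ≥ d · ord_v j` where `ord_v j < 0`.

Route: `Jac.conv` (CONV) + `Jac.dictC` (every place of `FC M` is a germ or a cusp embedding).
-/

set_option autoImplicit false
set_option linter.style.haveILetI false
set_option linter.unusedSectionVars false

open ModularCurve AlgebraicCurve UpperHalfPlane CongruenceSubgroup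
open scoped MatrixGroups Manifold

noncomputable section

namespace Fermat.Agent.P7

open Fermat.Agent.S28 (HasTExp tParam deltaAn cEmb)
open Fermat.Agent.S24 (tayAt)
open Fermat.Agent.Jac

/-- a function with an expansion in `𝕋 = exp (2πiτ/N)` is `N`-periodic. -/
theorem h39o_periodic_of_hasTExp {N : ℕ} (hN : 0 < N) {g : ℍ → ℂ} {s : LaurentSeries ℂ}
    (hs : HasTExp N g s) (τ : ℍ) : g ((N : ℝ) +ᵥ τ) = g τ := by
  obtain ⟨M, p, -, hsum⟩ := hs
  have h1 := hsum ((N : ℝ) +ᵥ τ)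
  rw [h72_tParam_vadd hN] at h1
  have h2 := h1.unique (hsum τ)
  exact mul_right_cancel₀ (pow_ne_zero M (Fermat.Agent.S28.tParam_ne_zero N τ)) h2

/-- a holomorphic `N`-periodic function which is bounded at `i∞` has a power series expansion
in `𝕋 = exp (2πiτ/N)`. -/
theorem h39o_hasTExp_of_bdd {N : ℕ} (hN : 0 < N) {D : ℍ → ℂ} (hD : MDiff D)
    (hper : ∀ τ : ℍ, D ((N : ℝ) +ᵥ τ) = D τ) (hb : IsBoundedAtImInfty D) :
    ∃ P : PowerSeries ℂ, HasTExp N D (HahnSeries.ofPowerSeries ℤ ℂ P) := by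
  have hNr : (0 : ℝ) < (N : ℝ) := by exact_mod_cast hN
  have hper' : Function.Periodic (D ∘ ofComplex) (N : ℝ) := by
    have h := h72_periodic_mul_tParam hN hper 0
    simpa using h
  refine ⟨UpperHalfPlane.qExpansion (N : ℝ) D, 0, UpperHalfPlane.qExpansion (N : ℝ) D, by simp,
    fun τ => ?_⟩
  have := UpperHalfPlane.hasSum_qExpansion hNr hper' hD hb τ
  simpa [smul_eq_mul, tParam] using this

/-- invariance under `Γ₀(N)` gives `N`-periodicity of all translates. -/
theorem h39o_comp_smul_periodic {N : ℕ} {f : ℍ → ℂ}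
    (hinv : ∀ γ ∈ Gamma0 N, ∀ z : ℍ, f (γ • z) = f z) (g : SL(2, ℤ)) (τ : ℍ) :
    f (g • ((N : ℝ) +ᵥ τ)) = f (g • τ) := by
  have h1 : ((N : ℝ) +ᵥ τ) = ModularGroup.T ^ (N : ℤ) • τ := by
    rw [UpperHalfPlane.modular_T_zpow_smul]
    simp
  have h2 : g • (ModularGroup.T ^ (N : ℤ) • τ) =
      (g * ModularGroup.T ^ (N : ℤ) * g⁻¹) • (g • τ) := by
    rw [mul_smul, mul_smul, inv_smul_smul]
  rw [h1, h2]
  exact hinv _ (h72_conj_T_pow_mem N g) (g • τ)

/-- the expansion of `1 / Δ` at level `N`. -/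
theorem h39o_hasTExp_delta_inv (N : ℕ) [NeZero N] :
    HasTExp N (fun τ => (deltaAn τ)⁻¹) (qExpand ℂ N (cEmb deltaSeries)⁻¹) :=
  Fermat.Agent.S28.h19_hasTExp_deltaAn_inv.of_one

theorem h39o_order_delta_inv (N : ℕ) [NeZero N] :
    (qExpand ℂ N (cEmb deltaSeries)⁻¹).order = -(N : ℤ) := by
  rw [Fermat.Agent.S28.order_qExpand]
  have h0 : (cEmb deltaSeries) ≠ 0 := by
    intro h
    have := Fermat.Agent.S28.Cusp.order_cEmb_deltaSeries
    rw [h, HahnSeries.order_zero] at this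
    exact zero_ne_one this
  have h1 : ((cEmb deltaSeries)⁻¹ * cEmb deltaSeries).order
      = ((cEmb deltaSeries)⁻¹).order + (cEmb deltaSeries).order :=
    HahnSeries.order_mul (inv_ne_zero h0) h0
  rw [inv_mul_cancel₀ h0, HahnSeries.order_one,
    Fermat.Agent.S28.Cusp.order_cEmb_deltaSeries] at h1
  have h2 : ((cEmb deltaSeries)⁻¹).order = -1 := by omega
  rw [h2]
  ring

/-- **expansions at the cusps of a weakly holomorphic function**, with the bound on the order. -/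
theorem h39o_cusp_exp (M : ℕ) [NeZero M] (d : ℕ) (f : ℍ → ℂ)
    (hf : Fermat.Agent.S21.E.IsWH (Gamma0 M) d f) (g : SL(2, ℤ)) :
    ∃ p : LaurentSeries ℂ, HasTExp M (fun τ => f (g • τ)) p ∧ -((M : ℤ) * d) ≤ p.order := by
  have hM : 0 < M := Nat.pos_of_ne_zero (NeZero.ne M)
  -- the bounded function `Δ ^ d * (f ∘ g)`
  set D : ℍ → ℂ := fun z => ModularForm.discriminant z ^ d * f (g • z) with hD
  have hΔ : MDiff (fun z : ℍ => ModularForm.discriminant z) :=
    CuspFormClass.holo CuspForm.discriminant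
  have hDhol : MDiff D := (hΔ.pow d).mul (h72_mdiff_comp_smul hf.holo g)
  have hΔper : ∀ τ : ℍ, ModularForm.discriminant ((M : ℝ) +ᵥ τ) = ModularForm.discriminant τ :=
    fun τ => h39o_periodic_of_hasTExp hM
      (Fermat.Agent.S28.hasTExp_deltaAn.of_one (N := M)) τ
  have hDper : ∀ τ : ℍ, D ((M : ℝ) +ᵥ τ) = D τ := by
    intro τ
    simp only [hD]
    rw [hΔper, h39o_comp_smul_periodic hf.inv g τ]
  obtain ⟨P, hP⟩ := h39o_hasTExp_of_bdd hM hDhol hDper (hf.bdd g)
  have h1 := (h39o_hasTExp_delta_inv M).pow hM d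
  have h2 := hP.mul hM h1
  have hfun : ∀ τ : ℍ, (D * (fun τ => (deltaAn τ)⁻¹) ^ d) τ = f (g • τ) := by
    intro τ
    have hne : ModularForm.discriminant τ ≠ 0 := ModularForm.discriminant_ne_zero τ
    simp only [Pi.mul_apply, Pi.pow_apply, hD, deltaAn]
    rw [inv_pow]
    field_simp
  refine ⟨_, h2.congr hfun, ?_⟩
  -- the order
  by_cases h0 : HahnSeries.ofPowerSeries ℤ ℂ P * (qExpand ℂ M (cEmb deltaSeries)⁻¹) ^ d = 0
  · rw [h0, HahnSeries.order_zero]
    have : (0 : ℤ) ≤ (M : ℤ) * d := by positivity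
    omega
  · have hP0 : HahnSeries.ofPowerSeries ℤ ℂ P ≠ 0 := left_ne_zero_of_mul h0
    have hq0 : (qExpand ℂ M (cEmb deltaSeries)⁻¹) ^ d ≠ 0 := right_ne_zero_of_mul h0
    have hq1 : qExpand ℂ M (cEmb deltaSeries)⁻¹ ≠ 0 := fun h => hq0 (by
      rw [h]
      rcases Nat.eq_zero_or_pos d with hd | hd
      · exfalso
        rw [h, hd, pow_zero] at hq0
        -- `1 ≠ 0` cannot be contradicted: in this case the order bound is trivial
        exact absurd rfl (fun _ : (0 : ℕ) = 0 => by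
          have := h39o_order_delta_inv M
          rw [h, HahnSeries.order_zero] at this
          have hM' : (0 : ℤ) < (M : ℤ) := by exact_mod_cast hM
          omega)
      · exact zero_pow hd.ne')
    rw [HahnSeries.order_mul hP0 hq0, HahnSeries.order_pow, h39o_order_delta_inv]
    have hPnn : 0 ≤ (HahnSeries.ofPowerSeries ℤ ℂ P).order := by
      have hP' : P ≠ 0 := fun h => hP0 (by rw [h, map_zero])
      rw [h11_order_ofPowerSeries hP']
      positivity
    have e : d • (-(M : ℤ)) = -((M : ℤ) * d) := by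
      rw [nsmul_eq_mul]
      ring
    rw [e]
    omega


/-- **DL6B, leaf (K1).**  A weakly holomorphic `Γ₀(M)`-invariant function of degree `≤ d` is an
element of `FC M`, lying in `L(d · (j)_∞)`. -/
theorem h39o_k1 (M : ℕ) [NeZero M] (d : ℕ) (f : ℍ → ℂ)
    (hf : Fermat.Agent.S21.E.IsWH (Gamma0 M) d f) :
    ∃ F : FC M, HasTExp 1 f (F : LaurentSeries ℂ) ∧ IsAnC M F f 1 ∧
      ∀ v : Place ℂ (FC M), (0 ≤ v.ord (jC M) → 0 ≤ v.ord F) ∧
        (v.ord (jC M) < 0 → (d : ℤ) * v.ord (jC M) ≤ v.ord F) := by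
  have hM : 0 < M := Nat.pos_of_ne_zero (NeZero.ne M)
  have hcusp : CuspMero M f := fun g => by
    obtain ⟨p, hp, -⟩ := h39o_cusp_exp M d f hf g
    exact ⟨p, hp⟩
  obtain ⟨s, hs, hsmem⟩ := conv M f hf.holo (fun γ τ => hf.inv γ γ.2 τ) hcusp
  set F : FC M := ⟨s, hsmem⟩ with hF
  have hone : ∀ g : SL(2, ℤ), HasTExp M (fun τ => (1 : ℍ → ℂ) (g • τ)) 1 := fun g =>
    (Fermat.Agent.S28.HasTExp.one M).congr (fun _ => rfl)
  have hAn : IsAnC M F f 1 :=
    { holoP := hf.holo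
      holoQ := mdifferentiable_const
      Q_ne := by
        intro h
        have := congrFun h UpperHalfPlane.I
        simp at this
      invP := hf.inv
      invQ := fun _ _ _ => rfl
      expP := hcusp
      expQ := fun g => ⟨1, hone g⟩
      rel := ⟨s, 1, hs, (Fermat.Agent.S28.HasTExp.one 1).congr (fun _ => rfl), by
        rw [mul_one]⟩ }
  refine ⟨F, hs, hAn, fun v => ?_⟩
  obtain ⟨E, m, hm, hord, hcase⟩ := dictC M v
  have hm' : (0 : ℤ) < (m : ℤ) := by exact_mod_cast hm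
  by_cases hF0 : F = 0
  · rw [hF0, Place.ord_zero]
    refine ⟨fun _ => le_refl _, fun hj => ?_⟩
    exact mul_nonpos_of_nonneg_of_nonpos (by positivity) hj.le
  have hEF : (E F).order = (m : ℤ) * v.ord F := hord F hF0
  have hEF0 : E F ≠ 0 := (map_ne_zero E).mpr hF0
  rcases hcase with ⟨τ₀, g, hgerm, -⟩ | ⟨g, hcuspE, -⟩
  · -- a point of the upper half plane
    have h1 := hgerm.2 F f 1 hAn
    have h2 : tayAt τ₀ (fun τ => (1 : ℍ → ℂ) (g⁻¹ • τ)) = 1 := by
      have : (fun τ : ℍ => (1 : ℍ → ℂ) (g⁻¹ • τ)) = fun _ => (1 : ℂ) := rfl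
      rw [this, Fermat.Agent.S24.tayAt_const]
      simp
    rw [h2, map_one, mul_one] at h1
    have hT0 : tayAt τ₀ (fun τ => f (g⁻¹ • τ)) ≠ 0 := by
      intro h
      rw [h, map_zero] at h1
      exact hEF0 h1
    have h3 : 0 ≤ (E F).order := by
      rw [h1, h11_order_ofPowerSeries hT0]
      positivity
    rw [hEF] at h3
    have h4 : 0 ≤ v.ord F := (mul_nonneg_iff_of_pos_left hm').mp h3
    refine ⟨fun _ => h4, fun hj => le_trans ?_ h4⟩
    exact mul_nonpos_of_nonneg_of_nonpos (by positivity) hj.le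
  · -- a cusp
    obtain ⟨p, hp, hpord⟩ := h39o_cusp_exp M d f hf g⁻¹
    have h1 := hcuspE.2 F f 1 p 1 hAn hp (hone g⁻¹)
    rw [mul_one] at h1
    have hj1 := hcuspE.2 (jC M) Fermat.Agent.S28.jAn 1 (Fermat.Agent.S24.h84_p0 M) 1
      (h27_isAnC_jC anC M)
      ((Fermat.Agent.S28.Cusp.hasTExp_jAn'.of_one (N := M)).congr
        (fun τ => (Fermat.Agent.S28.jAn_smul g⁻¹ τ).symm))
      (hone g⁻¹)
    rw [mul_one] at hj1
    have hj0 : jC M ≠ 0 := by
      intro h
      rw [h, map_zero] at hj1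
      have := Fermat.Agent.S24.h84_order_p0 M
      rw [← hj1, HahnSeries.order_zero] at this
      have hM' : (0 : ℤ) < (M : ℤ) := by exact_mod_cast hM
      omega
    have hEj : (E (jC M)).order = (m : ℤ) * v.ord (jC M) := hord (jC M) hj0
    rw [hj1, Fermat.Agent.S24.h84_order_p0] at hEj
    rw [h1] at hEF
    have hM' : (0 : ℤ) < (M : ℤ) := by exact_mod_cast hM
    have hjneg : v.ord (jC M) < 0 := by
      by_contra hcon
      rw [not_lt] at hcon
      have : 0 ≤ (m : ℤ) * v.ord (jC M) := mul_nonneg hm'.le hcon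
      omega
    refine ⟨fun h0 => absurd h0 (not_le.mpr hjneg), fun _ => ?_⟩
    have h5 : (m : ℤ) * ((d : ℤ) * v.ord (jC M)) ≤ (m : ℤ) * v.ord F := by
      have e : (m : ℤ) * ((d : ℤ) * v.ord (jC M)) = (d : ℤ) * ((m : ℤ) * v.ord (jC M)) := by ring
      rw [e, ← hEj, ← hEF]
      have e2 : (d : ℤ) * -(M : ℤ) = -((M : ℤ) * d) := by ring
      rw [e2]
      exact hpord
    exact le_of_mul_le_mul_left h5 hm'

end Fermat.Agent.P7
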