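import Fermat.Agent.P7.H24GenusAlgDesc
import Fermat.Agent.P7.H39WHField
import Fermat.Agent.P7.H28GenusMatch
import Fermat.Agent.S28.H84BridgeTExp
import Fermat.Agent.S49.QCoeff
import Fermat.Agent.S21.EPrim.JFun

/-!
# Wave 7 (row 38), DLOG, kill gate GENUS-MATCH, leaf GM3 = `H28gAlg` (helper24, prefix `h24k_`)

Linearly independent modular forms `h_i` of weight `12 n` on `Γ₀(M)` with rational
`q`-expansions give `ℚ̄`-linearly independent elements `y_i = h_i / Δ ^ n` of `L(n (j)_∞)` in the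
function field `FF M` of `X₀(M)` over `ℚ̄`.

* `h24k_wh_of_form` : `h / Δ ^ n` is weakly holomorphic of degree `≤ n` (`S21.E.IsWH`);
* `h24k_hasTExp_form`, `h24k_hasTExp_quot` : its expansion is `qExp(h) · Δ(q) ^ (-n)`;
* helper39's `h39o_k1` (AN → FC with pole bounds) + `h24k_desc` (descent `ℂ → ℚ̄`);
* `h24k_alg : H28gAlg` (the exact frozen Prop of `P7/H28GenusMatch`).
-/

set_option autoImplicit false
set_option linter.unusedSectionVars false
set_option linter.style.haveILetI false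

open ModularCurve AlgebraicCurve UpperHalfPlane CongruenceSubgroup ModularForm
open scoped MatrixGroups Manifold ModularForm

noncomputable section

namespace Fermat.Agent.P7

open Fermat.Agent.S28 (HasTExp tParam deltaAn cEmb)
open Fermat.Agent.Jac (FC jC)

/-- `h / Δ ^ n` is holomorphic. -/
theorem h24k_mdiff_quot (M : ℕ) (n : ℕ) (h : ModularForm (Gamma0 M) (12 * (n : ℤ))) :
    MDiff (fun z : ℍ => h z / ModularForm.discriminant z ^ n) := by
  rw [UpperHalfPlane.mdifferentiable_iff]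
  have h1 : DifferentiableOn ℂ ((h : ℍ → ℂ) ∘ ofComplex) {z | 0 < z.im} :=
    UpperHalfPlane.mdifferentiable_iff.1 (ModularFormClass.holo h)
  have hΔ : DifferentiableOn ℂ ((ModularForm.discriminant : ℍ → ℂ) ∘ ofComplex) {z | 0 < z.im} :=
    UpperHalfPlane.mdifferentiable_iff.1 (ModularFormClass.holo CuspForm.discriminant)
  have e : ((fun z : ℍ => h z / ModularForm.discriminant z ^ n) ∘ ofComplex) =
      fun w => ((h : ℍ → ℂ) ∘ ofComplex) w /
        (((ModularForm.discriminant : ℍ → ℂ) ∘ ofComplex) w) ^ n := by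
    funext w
    simp
  rw [e]
  exact h1.div (hΔ.pow n) (fun w _ => pow_ne_zero _ (ModularForm.discriminant_ne_zero _))

/-- the transformation rule of a form of weight `12 n` on `Γ₀(M)` against `Δ ^ n`. -/
theorem h24k_slash_quot (M : ℕ) (n : ℕ) (h : ModularForm (Gamma0 M) (12 * (n : ℤ)))
    (g : SL(2, ℤ)) (z : ℍ) :
    ModularForm.discriminant z ^ n * (h (g • z) / ModularForm.discriminant (g • z) ^ n) =
      ((h : ℍ → ℂ) ∣[(12 * (n : ℤ))] g) z := by
  rw [ModularForm.SL_slash_apply, Fermat.Agent.S21.EPrim.discriminant_smul]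
  have hd : denom (Matrix.SpecialLinearGroup.mapGL ℝ g) z ≠ 0 := denom_ne_zero _ z
  have hΔ : ModularForm.discriminant z ≠ 0 := ModularForm.discriminant_ne_zero z
  have e1 : (denom (Matrix.SpecialLinearGroup.mapGL ℝ g) z ^ (12 : ℤ) *
      ModularForm.discriminant z) ^ n =
      denom (Matrix.SpecialLinearGroup.mapGL ℝ g) z ^ (12 * (n : ℤ)) *
        ModularForm.discriminant z ^ n := by
    rw [mul_pow, zpow_mul, zpow_natCast]
  rw [e1, zpow_neg]
  have hdn : denom (Matrix.SpecialLinearGroup.mapGL ℝ g) z ^ (12 * (n : ℤ)) ≠ 0 :=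
    zpow_ne_zero _ hd
  have hΔn : ModularForm.discriminant z ^ n ≠ 0 := pow_ne_zero _ hΔ
  have hd' : (denom g z) = denom (Matrix.SpecialLinearGroup.mapGL ℝ g) z := rfl
  rw [hd']
  field_simp

/-- **GM3 (a)**: `h / Δ ^ n` is weakly holomorphic of degree `≤ n`. -/
theorem h24k_wh_of_form (M : ℕ) [NeZero M] (n : ℕ) (h : ModularForm (Gamma0 M) (12 * (n : ℤ))) :
    Fermat.Agent.S21.E.IsWH (Gamma0 M) n (fun z => h z / ModularForm.discriminant z ^ n) := by
  refine ⟨h24k_mdiff_quot M n h, ?_, ?_⟩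
  · intro γ hγ z
    have h1 := h24k_slash_quot M n h γ z
    have h2 : ((h : ℍ → ℂ) ∣[(12 * (n : ℤ))] γ) = (h : ℍ → ℂ) :=
      SlashInvariantForm.slash_action_eqn h _ ⟨γ, hγ, rfl⟩
    rw [h2] at h1
    have hΔn : ModularForm.discriminant z ^ n ≠ 0 :=
      pow_ne_zero _ (ModularForm.discriminant_ne_zero z)
    show h (γ • z) / ModularForm.discriminant (γ • z) ^ n = h z / ModularForm.discriminant z ^ n
    rw [eq_div_iff hΔn, mul_comm]
    exact h1
  · intro g
    have hb : IsBoundedAtImInfty ((h : ℍ → ℂ) ∣[(12 * (n : ℤ))] g) :=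
      ModularFormClass.bdd_at_infty_slash h g
    have e : (fun z : ℍ => ModularForm.discriminant z ^ n *
        (h (g • z) / ModularForm.discriminant (g • z) ^ n)) =
        ((h : ℍ → ℂ) ∣[(12 * (n : ℤ))] g) := funext (h24k_slash_quot M n h g)
    rw [e]
    exact hb

/-- **GM3 (b)**: the `q`-expansion of a form on `Γ₀(M)` is its `𝕋`-expansion at level one. -/
theorem h24k_hasTExp_form (M : ℕ) [NeZero M] (k : ℤ) (h : ModularForm (Gamma0 M) k) :
    HasTExp 1 (fun τ => h τ) (HahnSeries.ofPowerSeries ℤ ℂ (qExpansion 1 h)) := by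
  refine ⟨0, qExpansion 1 h, ?_, fun τ => ?_⟩
  · simp
  · have hs := ModularForm.hasSum_qExpansion (f := h) one_pos
      (Fermat.Agent.S49.one_mem_strictPeriods M) τ
    simpa [tParam] using hs

/-- the expansion of `h / Δ ^ n`. -/
theorem h24k_hasTExp_quot (M : ℕ) [NeZero M] (n : ℕ) (h : ModularForm (Gamma0 M) (12 * (n : ℤ))) :
    HasTExp 1 (fun z => h z / ModularForm.discriminant z ^ n)
      (HahnSeries.ofPowerSeries ℤ ℂ (qExpansion 1 h) * ((cEmb deltaSeries)⁻¹) ^ n) := by
  have h1 := (h24k_hasTExp_form M _ h).mul one_pos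
    (Fermat.Agent.S28.h19_hasTExp_deltaAn_inv.pow one_pos n)
  refine h1.congr (fun τ => ?_)
  simp only [Pi.mul_apply, Pi.pow_apply, deltaAn, div_eq_mul_inv, inv_pow]

/-- the rational Laurent series `(Σ r_m q^m) · Δ(q) ^ (-n)`. -/
def h24kSer (n : ℕ) (r : ℕ → ℚ) : LaurentSeries ℚ :=
  HahnSeries.ofPowerSeries ℤ ℚ (PowerSeries.mk r) * (deltaSeries⁻¹) ^ n

/-- the expansion of `h / Δ ^ n` comes from `ℚ̄` (even from `ℚ`). -/
theorem h24k_ser_eq (M : ℕ) [NeZero M] (n : ℕ) (h : ModularForm (Gamma0 M) (12 * (n : ℤ)))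
    (r : ℕ → ℚ) (hr : ∀ m : ℕ, ModularFormClass.qCoeff (⇑h) m = (r m : ℂ)) :
    coeffMap Fermat.Agent.S24.embC (coeffEmb Fermat.Agent.S24.Kbar (h24kSer n r)) =
      HahnSeries.ofPowerSeries ℤ ℂ (qExpansion 1 h) * ((cEmb deltaSeries)⁻¹) ^ n := by
  rw [← Fermat.Agent.Jac.h49_coeffEmb_eq]
  show cEmb (h24kSer n r) = _
  rw [h24kSer, map_mul, map_pow, map_inv₀, Fermat.Agent.S28.h84_cEmb_ofPowerSeries]
  congr 2
  ext m
  rw [PowerSeries.coeff_map, PowerSeries.coeff_mk]
  have := hr m
  rw [ModularFormClass.qCoeff] at this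
  rw [this]
  simp

/-- evaluation of a linear combination of modular forms. -/
theorem h24k_sum_apply (M : ℕ) {k : ℤ} {ι : Type} (s : Finset ι)
    (a : ι → ℂ) (h : ι → ModularForm (Gamma0 M) k) (z : ℍ) :
    (∑ j ∈ s, a j • h j) z = ∑ j ∈ s, a j * h j z := by
  classical
  induction s using Finset.induction_on with
  | empty => simp
  | insert j s hj ih =>
    rw [Finset.sum_insert hj, Finset.sum_insert hj, add_apply, ih,
      smul_apply, smul_eq_mul]

/-- **GM3**: the frozen Prop `H28gAlg` of `P7/H28GenusMatch`. -/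
theorem h24k_alg : H28gAlg := by
  intro M _ n d h hli hrat
  classical
  choose r hr using hrat
  have key : ∀ i, ∃ y : Fermat.Agent.S24.FF M,
      (y : LaurentSeries Fermat.Agent.S24.Kbar) =
        coeffEmb Fermat.Agent.S24.Kbar (h24kSer n (r i)) ∧ H24kBdd M n y := by
    intro i
    obtain ⟨F, hF, -, hbd⟩ := h39o_k1 M n _ (h24k_wh_of_form M n (h i))
    have hFs : (F : LaurentSeries ℂ) =
        coeffMap Fermat.Agent.S24.embC (coeffEmb Fermat.Agent.S24.Kbar (h24kSer n (r i))) := by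
      rw [h24k_ser_eq M n (h i) (r i) (hr i)]
      exact Fermat.Agent.S28.HasTExp.unique one_pos hF (h24k_hasTExp_quot M n (h i))
    exact h24k_desc M n _ F hFs hbd
  choose y hy hybd using key
  refine ⟨y, ?_, fun i v => hybd i v⟩
  rw [Fintype.linearIndependent_iff]
  intro c hc i
  -- the relation in `ℚ̄((q))`
  have h1 : ∑ j, HahnSeries.single (0 : ℤ) (c j) *
      (y j : LaurentSeries Fermat.Agent.S24.Kbar) = 0 := by
    have h0 := congrArg (fun x : Fermat.Agent.S24.FF M =>
      (x : LaurentSeries Fermat.Agent.S24.Kbar)) hc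
    simp only [IntermediateField.coe_sum, IntermediateField.coe_smul,
      ZeroMemClass.coe_zero] at h0
    rw [← h0]
    refine Finset.sum_congr rfl (fun j _ => ?_)
    rw [Algebra.smul_def, algebraMap_laurentSeries_eq_single]
  -- the relation in `ℂ((q))`
  have h2 : ∑ j, HahnSeries.C (Fermat.Agent.S24.embC (c j)) *
      (HahnSeries.ofPowerSeries ℤ ℂ (qExpansion 1 (h j)) * ((cEmb deltaSeries)⁻¹) ^ n) = 0 := by
    have h0 := congrArg (coeffMap Fermat.Agent.S24.embC) h1
    rw [map_sum, map_zero] at h0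
    rw [← h0]
    refine Finset.sum_congr rfl (fun j _ => ?_)
    rw [map_mul, hy j, h24k_ser_eq M n (h j) (r j) (hr j), coeffMap_single]
    rfl
  -- the relation between the functions
  have h3 : HasTExp 1 (∑ j, fun z : ℍ => Fermat.Agent.S24.embC (c j) *
      (h j z / ModularForm.discriminant z ^ n)) 0 := by
    rw [← h2]
    exact Fermat.Agent.S28.HasTExp.finset_sum _
      (fun j _ => (h24k_hasTExp_quot M n (h j)).const_mul one_pos _)
  have h4 := Fermat.Agent.Jac.h29_eq_zero_of_hasTExp_zero h3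
  have h5 : ∑ j, Fermat.Agent.S24.embC (c j) • h j = 0 := by
    ext z
    rw [h24k_sum_apply, zero_apply]
    have h6 := congrFun h4 z
    simp only [Finset.sum_apply, Pi.zero_apply] at h6
    have hΔn : ModularForm.discriminant z ^ n ≠ 0 :=
      pow_ne_zero _ (ModularForm.discriminant_ne_zero z)
    have h7 : (∑ j, Fermat.Agent.S24.embC (c j) * h j z) / ModularForm.discriminant z ^ n = 0 := by
      rw [Finset.sum_div, ← h6]
      exact Finset.sum_congr rfl (fun j _ => by rw [mul_div_assoc])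
    rcases div_eq_zero_iff.1 h7 with h8 | h8
    · exact h8
    · exact absurd h8 hΔn
  have h9 := (Fintype.linearIndependent_iff.1 hli) _ h5 i
  exact (map_eq_zero_iff _ (RingHom.injective _)).1 h9

end Fermat.Agent.P7
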