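import Fermat.Agent.Jac.FinalHK
import Fermat.Agent.Jac.ConvFinal
import Fermat.Agent.S37.Defs

/-!
# Wave 7 (row 38), DLOG, kill gate GENUS-MATCH, leaf GM3 part (c): descent of one element
(helper24, prefix `h24k_`)

`Y ∈ F_ℂ` (function field of `X₀(M)` over `ℂ`) with coefficients in `ℚ̄` and with the pole bounds
`Y ∈ L_ℂ(d (j)_∞)` descends to `y ∈ F = FF M` with `y ∈ L_ℚ̄(d (j)_∞)`:
landed `Jac.desc` (DESC0) + `Jac.baseChangeOrd` (BCORD).
-/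

set_option autoImplicit false

open ModularCurve AlgebraicCurve UpperHalfPlane CongruenceSubgroup
open scoped MatrixGroups Manifold

noncomputable section

namespace Fermat.Agent.P7

open Fermat.Agent.S24 (Kbar FF embC jBar)
open Fermat.Agent.Jac (FC jC desc baseChangeOrd h49_coeffEmb_eq)

/-- the pole bound `Y ∈ L(d (j)_∞)` over `ℂ`. -/
def H24kBddC (M : ℕ) [NeZero M] (d : ℕ) (Y : FC M) : Prop :=
  ∀ v : Place ℂ (FC M), (0 ≤ v.ord (jC M) → 0 ≤ v.ord Y) ∧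
    (v.ord (jC M) < 0 → (d : ℤ) * v.ord (jC M) ≤ v.ord Y)

/-- the pole bound `y ∈ L(d (j)_∞)` over `ℚ̄`. -/
def H24kBdd (M : ℕ) [NeZero M] (d : ℕ) (y : FF M) : Prop :=
  ∀ v : Place Kbar (FF M), (d : ℤ) * min 0 (v.ord (jBar M)) ≤ v.ord y

/-- **GM3 (c)**: descent of an element of `L_ℂ(d (j)_∞)` with coefficients in `ℚ̄`. -/
theorem h24k_desc (M : ℕ) [NeZero M] (d : ℕ) (y₀ : LaurentSeries Kbar) (Y : FC M)
    (hY : (Y : LaurentSeries ℂ) = coeffMap embC y₀) (hbd : H24kBddC M d Y) :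
    ∃ y : FF M, (y : LaurentSeries Kbar) = y₀ ∧ H24kBdd M d y := by
  have hmem : y₀ ∈ modularFunctionFieldBar M := by
    apply desc M y₀
    rw [← hY]
    exact Y.2
  refine ⟨⟨y₀, hmem⟩, rfl, fun v₀ => ?_⟩
  obtain ⟨v, hv⟩ := baseChangeOrd M v₀
  have h1 : v.ord Y = v₀.ord (⟨y₀, hmem⟩ : FF M) := hv ⟨y₀, hmem⟩ Y hY
  have h2 : v.ord (jC M) = v₀.ord (jBar M) :=
    hv (jBar M) (jC M) (h49_coeffEmb_eq jq)
  rw [← h1, ← h2]
  obtain ⟨ha, hb⟩ := hbd v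
  rcases lt_or_ge (v.ord (jC M)) 0 with hlt | hge
  · rw [min_eq_right hlt.le]
    exact hb hlt
  · rw [min_eq_left hge, mul_zero]
    exact ha hge

end Fermat.Agent.P7
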