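import Fermat.Agent.P7.H66CountLevel
import Fermat.Agent.P7.H28GenusMatch
import Fermat.Agent.P7.H10RatBasis

/-!
# Wave 7, DLOG, row DL6B GENUS-MATCH: the frozen leaf `H28gCount` (GM1), unconditional (helper66)

`h66g_gCount : H28gCount` : there is `G ≤ dim S₂(Γ₀(M))` with
`n μ + 1 ≤ dim M_{12 n}(Γ₀(M)) + G` for all large `n`.

From `h66g_count_level` (`n μ + 1 - G` independent weakly holomorphic functions `w` of degree
`≤ n`) and the bridge `w ↦ Δ ^ n * w` into `M_{12 n}(Γ₀(M))` (`h66gForm`).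
-/

set_option autoImplicit false
set_option linter.style.haveILetI false

open UpperHalfPlane hiding I
open Complex Filter Function Topology
open scoped Manifold MatrixGroups ModularForm Real

namespace Fermat.Agent.P7

noncomputable section

open Fermat.Agent.S21.E Fermat.Agent.S21.EPrim

local notation "Δ" => ModularForm.discriminant

/-- the slash of `Δ ^ n * w` of weight `12 n` by `g ∈ SL(2,ℤ)`. -/
theorem h66g_slash (n : ℕ) (w : ℍ → ℂ) (g : SL(2, ℤ)) (z : ℍ) :
    ((fun z : ℍ => Δ z ^ n * w z) ∣[(12 * (n : ℤ))] g) z = Δ z ^ n * w (g • z) := by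
  rw [ModularForm.SL_slash_apply]
  show Δ (g • z) ^ n * w (g • z) * _ = _
  rw [discriminant_smul]
  have hd : denom (Matrix.SpecialLinearGroup.mapGL ℝ g) z ≠ 0 := denom_ne_zero _ z
  have hdd : denom (Matrix.SpecialLinearGroup.toGL
      ((Matrix.SpecialLinearGroup.map (Int.castRingHom ℝ)) g)) z =
      denom (Matrix.SpecialLinearGroup.mapGL ℝ g) z := rfl
  have e : (denom (Matrix.SpecialLinearGroup.mapGL ℝ g) z ^ (12 : ℤ)) ^ n *
      denom (Matrix.SpecialLinearGroup.toGL
        ((Matrix.SpecialLinearGroup.map (Int.castRingHom ℝ)) g)) z ^ (-(12 * (n : ℤ))) = 1 := by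
    have h1 : (denom (Matrix.SpecialLinearGroup.mapGL ℝ g) z ^ (12 : ℤ)) ^ n =
        denom (Matrix.SpecialLinearGroup.mapGL ℝ g) z ^ (12 * (n : ℤ)) := by
      rw [← zpow_natCast, ← zpow_mul]
    rw [h1, hdd, ← zpow_add₀ hd, add_neg_cancel, zpow_zero]
  calc (denom (Matrix.SpecialLinearGroup.mapGL ℝ g) z ^ (12 : ℤ) * Δ z) ^ n * w (g • z) *
        denom (Matrix.SpecialLinearGroup.toGL
          ((Matrix.SpecialLinearGroup.map (Int.castRingHom ℝ)) g)) z ^ (-(12 * (n : ℤ)))
      = ((denom (Matrix.SpecialLinearGroup.mapGL ℝ g) z ^ (12 : ℤ)) ^ n *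
          denom (Matrix.SpecialLinearGroup.toGL
            ((Matrix.SpecialLinearGroup.map (Int.castRingHom ℝ)) g)) z ^ (-(12 * (n : ℤ)))) *
          (Δ z ^ n * w (g • z)) := by
        rw [mul_pow]; ring
    _ = Δ z ^ n * w (g • z) := by rw [e, one_mul]

/-- the modular form `Δ ^ n * w` of weight `12 n` attached to a weakly holomorphic function of
degree `≤ n`. -/
def h66gForm {Γ : Subgroup SL(2, ℤ)} [Γ.FiniteIndex] {n : ℕ} {w : ℍ → ℂ} (hw : IsWH Γ n w) :
    ModularForm (Γ : Subgroup (GL (Fin 2) ℝ)) (12 * (n : ℤ)) :=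
  Fermat.Agent.S22.h20_mkModularForm (𝒢 := (Γ : Subgroup (GL (Fin 2) ℝ))) (12 * (n : ℤ))
    (fun z : ℍ => Δ z ^ n * w z)
    (by
      have h := (Min.mdiff_disc.pow n).mul hw.holo
      exact h)
    (by
      rintro _ ⟨γ, hγ, rfl⟩
      ext z
      have h1 := h66g_slash n w γ z
      rw [hw.inv γ hγ z] at h1
      exact h1)
    (by
      intro g
      have h1 := hw.bdd g
      have e : ((fun z : ℍ => Δ z ^ n * w z) ∣[(12 * (n : ℤ))] g) =
          fun z : ℍ => Δ z ^ n * w (g • z) := by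
        ext z
        exact h66g_slash n w g z
      rw [e]
      exact h1)

theorem h66gForm_apply {Γ : Subgroup SL(2, ℤ)} [Γ.FiniteIndex] {n : ℕ} {w : ℍ → ℂ}
    (hw : IsWH Γ n w) (z : ℍ) : h66gForm hw z = Δ z ^ n * w z := rfl

/-- the bridge preserves linear independence. -/
theorem h66g_form_indep {Γ : Subgroup SL(2, ℤ)} [Γ.FiniteIndex] {n d : ℕ}
    (w : Fin d → ℍ → ℂ) (hw : ∀ i, IsWH Γ n (w i)) (hli : LinearIndependent ℂ w) :
    LinearIndependent ℂ (fun i => h66gForm (hw i)) := by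
  rw [Fintype.linearIndependent_iff] at hli ⊢
  intro c hc
  refine hli c ?_
  ext z
  have h1 : (∑ i, c i • h66gForm (hw i)) z = 0 := by rw [hc]; rfl
  have h3 : ∀ s : Finset (Fin d), (∑ i ∈ s, c i • h66gForm (hw i)) z =
      ∑ i ∈ s, c i * (Δ z ^ n * w i z) := by
    intro s
    induction s using Finset.induction_on with
    | empty =>
      rw [Finset.sum_empty, Finset.sum_empty]
      rfl
    | insert a s ha ih =>
      rw [Finset.sum_insert ha, Finset.sum_insert ha, ← ih]
      rfl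
  have h2 : (∑ i, c i • h66gForm (hw i)) z = Δ z ^ n * ∑ i, c i * w i z := by
    rw [h3, Finset.mul_sum]
    refine Finset.sum_congr rfl fun i _ => ?_
    ring
  rw [h2] at h1
  have hΔ : Δ z ^ n ≠ 0 := pow_ne_zero _ (ModularForm.discriminant_ne_zero z)
  have h4 := (mul_eq_zero.mp h1).resolve_left hΔ
  simpa [Finset.sum_apply] using h4

/-- **GM1, frozen shape of `P7/H28GenusMatch.lean`.** -/
theorem h66g_gCount : H28gCount := by
  intro M _
  obtain ⟨G, n₀, hG, hcount⟩ := h66g_count_level M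
  refine ⟨G, n₀, hG, fun n hn => ?_⟩
  obtain ⟨w, hw, hli⟩ := hcount n hn
  have hF := h66g_form_indep w hw hli
  haveI : FiniteDimensional ℂ (ModularForm (CongruenceSubgroup.Gamma0 M) (12 * (n : ℤ))) :=
    h10w_modularForm_finite M (12 * (n : ℤ))
  have h1 := hF.fintype_card_le_finrank
  rw [Fintype.card_fin] at h1
  omega

end

end Fermat.Agent.P7
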