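import Fermat.Agent.P7.H28GenusMatch
import Fermat.Agent.P7.H66GCount
import Fermat.Agent.P7.H10GRat
import Fermat.Agent.P7.H24GenusAlg

/-!
# Wave 7 (row 38), DLOG, kill gate GENUS-MATCH, final wire on the `H28` route (helper24)

`h24k_genus_le` : the P5 weak genus of `FF M` is at most `dim S₂(Γ₀(M))`, UNCONDITIONALLY:
helper28's assembly `h28g_genus_le` with the three leaves
`h66g_gCount : H28gCount` (helper66), `h10w_gRat : H28gRat` (helper10), `h24k_alg : H28gAlg`.
(Independent twin of `P7/H15GenusMatch`, `P7/H37GenusMatch`, `P7/H9GenusMatchFinal`.)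
-/

set_option autoImplicit false

open AlgebraicCurve ModularCurve CongruenceSubgroup

noncomputable section

namespace Fermat.Agent.P7

open Fermat.Agent.S37 Fermat.Agent.P5

/-- **GENUS-MATCH** (route `H28`): `g_weak(FF M) ≤ dim S₂(Γ₀(M))`. -/
theorem h24k_genus_le (M : ℕ) [NeZero M] (g : ℕ) (hg : H13rIsGenus Kbar (FF M) g) :
    g ≤ Module.finrank ℂ (CuspForm (Gamma0 M) 2) :=
  h28g_genus_le h66g_gCount h10w_gRat h24k_alg M g hg

end Fermat.Agent.P7
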