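import Mathlib

/-!
# Wave 7 (S40), blocks (3) and (6): the END algebra (helper64, prefix `h64w_`)

Pure linear algebra over a field `k`, for a two-dimensional representation `ρ` of a group `I`
(an inertia group at `p`) whose determinant is a character `ε` with `ε s₀ ≠ 1` for some `s₀`
(the mod `p` cyclotomic character, `p` odd).

* `h64w_scalar_false` : block (6).  `I` cannot act on `V` through the scalars `ε`
  (a "toric" `V`): `det = ε ^ 2 ≠ ε`.
* `h64w_scalar_false'` : the same with an arbitrary scalar character `χ` and `det = ε`,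
  `ε = χ` not assumed: `χ ^ 2 = ε` and `χ = ε` on `I` is what is excluded.
* `h64wK ρ` : the span of all `ρ b v - v`.
* `h64w_line_of_star` : block (3).  From the monodromy identity
  `(ρ a - ε a)(ρ b - 1) = 0` (STAR) the submodule `K = ∑ (ρ b - 1) V` is a LINE, `I` acts on
  `K` through `ε` and trivially on `V / K`.
* `h64w_trivial_of_K_eq_bot`, `h64w_unique_line` : `K` is the only line on which `I` acts by
  `ε`, and the only line with trivial action on the quotient.
-/

set_option autoImplicit false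

namespace Fermat.Agent.P7

variable {k : Type*} [Field k] {V : Type*} [AddCommGroup V] [Module k V]
variable {I : Type*}

/-- Block (6): inertia cannot act through a scalar character `χ` when `det = χ` and `χ s₀ ≠ 1`. -/
theorem h64w_scalar_false (hV : Module.finrank k V = 2)
    (ρ : I → Module.End k V) (χ : I → k)
    (hscal : ∀ g v, ρ g v = χ g • v)
    (hdet : ∀ g, LinearMap.det (ρ g) = χ g)
    (s₀ : I) (h0 : χ s₀ ≠ 0) (h1 : χ s₀ ≠ 1) : False := by
  have hρ : ρ s₀ = χ s₀ • (LinearMap.id : V →ₗ[k] V) := by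
    ext v
    simp [hscal]
  have hd := hdet s₀
  rw [hρ, LinearMap.det_smul, LinearMap.det_id, hV, mul_one] at hd
  have : χ s₀ * (χ s₀ - 1) = 0 := by
    have : χ s₀ ^ 2 - χ s₀ = 0 := sub_eq_zero.mpr hd
    linear_combination this
  rcases mul_eq_zero.mp this with h | h
  · exact h0 h
  · exact h1 (sub_eq_zero.mp h)

/-- Block (6), two characters: if inertia acts through the scalars `χ`, `det = ε` and
`χ = ε`, contradiction as soon as `ε s₀ ≠ 0, 1`. -/
theorem h64w_scalar_false' (hV : Module.finrank k V = 2)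
    (ρ : I → Module.End k V) (χ ε : I → k)
    (hscal : ∀ g v, ρ g v = χ g • v)
    (hdet : ∀ g, LinearMap.det (ρ g) = ε g)
    (hχε : ∀ g, χ g = ε g)
    (s₀ : I) (h0 : ε s₀ ≠ 0) (h1 : ε s₀ ≠ 1) : False :=
  h64w_scalar_false hV ρ χ hscal (fun g => by rw [hdet, hχε]) s₀
    (by rw [hχε]; exact h0) (by rw [hχε]; exact h1)

/-- The span of all `ρ b v - v`. -/
def h64wK (ρ : I → Module.End k V) : Submodule k V :=
  Submodule.span k {x | ∃ (b : I) (v : V), x = ρ b v - v}

theorem h64w_sub_mem_K (ρ : I → Module.End k V) (b : I) (v : V) :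
    ρ b v - v ∈ h64wK ρ :=
  Submodule.subset_span ⟨b, v, rfl⟩

/-- STAR gives: inertia acts on `K` through `ε`. -/
theorem h64w_act_on_K (ρ : I → Module.End k V) (ε : I → k)
    (hstar : ∀ a b v, ρ a (ρ b v - v) = ε a • (ρ b v - v))
    (a : I) (x : V) (hx : x ∈ h64wK ρ) : ρ a x = ε a • x := by
  induction hx using Submodule.span_induction with
  | mem x hx =>
    obtain ⟨b, v, rfl⟩ := hx
    exact hstar a b v
  | zero => simp
  | add x y _ _ hx hy => rw [map_add, hx, hy, smul_add]
  | smul c x _ hx => rw [map_smul, hx, smul_comm]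

/-- If `K = 0` the action is trivial. -/
theorem h64w_trivial_of_K_eq_bot (ρ : I → Module.End k V) (hK : h64wK ρ = ⊥)
    (b : I) (v : V) : ρ b v = v := by
  have h := h64w_sub_mem_K ρ b v
  rw [hK, Submodule.mem_bot] at h
  exact sub_eq_zero.mp h

/-- **Block (3).** STAR + `det = ε` + `ε s₀ ≠ 1`: `K = ∑ (ρ b - 1) V` is a line, inertia acts on it
through `ε` and trivially on the quotient. -/
theorem h64w_line_of_star (hV : Module.finrank k V = 2)
    (ρ : I → Module.End k V) (ε : I → k)
    (hdet : ∀ g, LinearMap.det (ρ g) = ε g)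
    (hstar : ∀ a b v, ρ a (ρ b v - v) = ε a • (ρ b v - v))
    (s₀ : I) (h0 : ε s₀ ≠ 0) (h1 : ε s₀ ≠ 1) :
    Module.finrank k (h64wK ρ) = 1 ∧
      (∀ a, ∀ x ∈ h64wK ρ, ρ a x = ε a • x) ∧
      (∀ b v, ρ b v - v ∈ h64wK ρ) := by
  have : Module.Finite k V := Module.finite_of_finrank_eq_succ hV
  refine ⟨?_, fun a x hx => h64w_act_on_K ρ ε hstar a x hx, h64w_sub_mem_K ρ⟩
  -- `K ≠ ⊥`
  have hne_bot : h64wK ρ ≠ ⊥ := by
    intro hK
    have hρ : ρ s₀ = LinearMap.id := by
      ext v
      simpa using h64w_trivial_of_K_eq_bot ρ hK s₀ v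
    have hd := hdet s₀
    rw [hρ, LinearMap.det_id] at hd
    exact h1 hd.symm
  -- `K ≠ ⊤`
  have hne_top : h64wK ρ ≠ ⊤ := by
    intro hK
    exact h64w_scalar_false hV ρ ε
      (fun g v => h64w_act_on_K ρ ε hstar g v (by rw [hK]; exact Submodule.mem_top))
      hdet s₀ h0 h1
  have hpos : 0 < Module.finrank k (h64wK ρ) := by
    rw [Module.finrank_pos_iff_exists_ne_zero]
    obtain ⟨x, hx, hx0⟩ := (Submodule.ne_bot_iff _).mp hne_bot
    exact ⟨⟨x, hx⟩, fun h => hx0 (congrArg Subtype.val h)⟩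
  have hlt : Module.finrank k (h64wK ρ) < 2 := by
    rw [← hV]
    exact Submodule.finrank_lt hne_top
  omega

/-- Uniqueness: a proper submodule `L` with trivial action on `V / L` contains `K`; if `L` is
a line it is `K` (under the hypotheses of `h64w_line_of_star`). -/
theorem h64w_unique_line (hV : Module.finrank k V = 2)
    (ρ : I → Module.End k V) (ε : I → k)
    (hdet : ∀ g, LinearMap.det (ρ g) = ε g)
    (hstar : ∀ a b v, ρ a (ρ b v - v) = ε a • (ρ b v - v))
    (s₀ : I) (h0 : ε s₀ ≠ 0) (h1 : ε s₀ ≠ 1)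
    (L : Submodule k V) (hL : Module.finrank k L = 1)
    (hquot : ∀ b v, ρ b v - v ∈ L) : L = h64wK ρ := by
  have : Module.Finite k V := Module.finite_of_finrank_eq_succ hV
  have hle : h64wK ρ ≤ L := by
    apply Submodule.span_le.mpr
    rintro x ⟨b, v, rfl⟩
    exact hquot b v
  have hK := (h64w_line_of_star hV ρ ε hdet hstar s₀ h0 h1).1
  exact (Submodule.eq_of_le_of_finrank_eq hle (by rw [hK, hL])).symm

end Fermat.Agent.P7
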