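import Fermat.Agent.P6.H48FlatOrd
import Fermat.Agent.P7.H64End
import Fermat.Agent.S56F.FLO2_helper89
import Fermat.Agent.S56F.FLO45Final_helper4

/-!
# Wave 7 (S40), row L-PEU, LOCAL CORE (helper24, prefix `h24p_`)

S56F local language (`Om p`, `Gq p`, `inertia p`, `cycExp`, `LocFlat`).

`h24p_core`: `p` odd, `V` of dimension `2` over `ZMod p`, `ρ : Gq p →* End V` with
`det ρ = ` cyclotomic character, `LocFlat`, and **elementwise ordinarity on inertia**
(`(ρ σ - 1)(ρ σ - a) = 0` for `σ` in inertia acting on `μ_p` by `a`-th powers).  Then for every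
primitive `p`-th root of unity `ζ` there is a unit `β` of `Om p` such that every `g` in
`I₁ = {g ∈ inertia, g = 1 on μ_p}` has `g β = ζ ^ j β`, and every `g ∈ I₁` fixing `β` acts
trivially on `V` (the representation is peu ramifiée, with ONE Kummer generator).

Route: nice order over inertia (`LocFlat`) → landed local FLAT-ORD `h48c_flatOrdLoc` gives STAR
`(ρ a - ε a)(ρ b - 1) = 0` → `K = ∑ (ρ b - 1) V` is a `Gq p`-stable line (`h64w_line_of_star`,
the cyclotomic character is ramified) → characteristic polynomials split, `LocHyp` →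
`h89o_ordNFExists` → `h4o_ordPeuRep`.

Intermediate results: `h24p_star` (STAR), `h24p_line` (the stable line), `h24p_locHyp`,
`h24p_ordNF`.
-/

set_option autoImplicit false
set_option linter.unusedSectionVars false
set_option linter.style.haveILetI false

open Fermat.Agent.PT.Loc Fermat.Agent.S56F Fermat.Agent.P6 Polynomial

noncomputable section

namespace Fermat.Agent.P7

section Core

variable {p : ℕ} [Fact p.Prime] {V : Type} [AddCommGroup V] [Module (ZMod p) V]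

/-- the representation as a homomorphism to the additive endomorphisms. -/
def h24pAdd (ρ : Gq p →* Module.End (ZMod p) V) : Gq p →* AddMonoid.End V where
  toFun σ := (ρ σ).toAddMonoidHom
  map_one' := by
    rw [map_one]
    rfl
  map_mul' σ τ := by
    rw [map_mul]
    rfl

theorem h24pAdd_apply (ρ : Gq p →* Module.End (ZMod p) V) (σ : Gq p) (v : V) :
    h24pAdd ρ σ v = ρ σ v := rfl

theorem h24p_nsmul (a : ℕ) (v : V) : ((a : ℕ) : ZMod p) • v = a • v :=
  Nat.cast_smul_eq_nsmul (ZMod p) a v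

/-- **STAR** from elementwise ordinarity (landed local FLAT-ORD). -/
theorem h24p_star (hp2 : p ≠ 2) [Module.Finite (ZMod p) V]
    (ρ : Gq p →* Module.End (ZMod p) V)
    (hflat : LocFlat p V (fun σ v => ρ σ v))
    (hord : ∀ σ ∈ inertia p, ∀ a : ℕ, cycExp p σ a →
      ∀ v, ρ σ (ρ σ v - ((a : ℕ) : ZMod p) • v) = ρ σ v - ((a : ℕ) : ZMod p) • v) :
    ∀ a ∈ inertia p, ∀ b ∈ inertia p, ∀ e : ℕ, cycExp p a e →
      ∀ v, ρ a (ρ b v - v) = ((e : ℕ) : ZMod p) • (ρ b v - v) := by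
  haveI : Finite V := Module.finite_of_finite (ZMod p)
  obtain ⟨𝓗, hnice⟩ := hflat (inertia p)
  have hconj : ∀ τ : Gq p, 𝓗.ConjStable τ := fun τ =>
    hnice.conj τ (fun g hg => h89o_conj_mem_inertia hg τ)
      (fun g hg => h89o_conj_mem_inertia' hg τ)
  have htors : ∀ x : V, p ^ 1 • x = 0 := by
    intro x
    rw [pow_one, ← h24p_nsmul (p := p) p x, ZMod.natCast_self, zero_smul]
  have hnil : ∀ σ ∈ inertia p, ∀ a : ℕ, cycExp p σ a →
      IsNilpotent ((h24pAdd ρ σ - 1) * (h24pAdd ρ σ - (a : AddMonoid.End V))) := by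
    intro σ hσ a ha
    have h0 : (h24pAdd ρ σ - 1) * (h24pAdd ρ σ - (a : AddMonoid.End V)) = 0 := by
      apply AddMonoidHom.ext
      intro v
      change ρ σ (ρ σ v - a • v) - (ρ σ v - a • v) = 0
      rw [← h24p_nsmul (p := p) a v, hord σ hσ a ha v, sub_self]
    rw [h0]
    exact IsNilpotent.zero
  have hstar := h48c_flatOrdLoc p hp2 1 V (h24pAdd ρ) htors 𝓗 hconj hnil
  intro a ha b hb e he v
  have h1 := hstar b hb a ha e (fun μ hμ => he μ (by rwa [pow_one] at hμ))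
  have h2 := congrArg (fun f : AddMonoid.End V => f v) h1
  change ρ a (ρ b v - v) - e • (ρ b v - v) = 0 at h2
  rw [h24p_nsmul]
  exact sub_eq_zero.mp h2

variable [Module.Finite (ZMod p) V]

/-- the representation is invertible, so its determinant does not vanish. -/
theorem h24p_det_ne_zero (ρ : Gq p →* Module.End (ZMod p) V) (σ : Gq p) :
    LinearMap.det (ρ σ) ≠ 0 := by
  intro h
  have h1 : LinearMap.det (ρ σ) * LinearMap.det (ρ σ⁻¹) = 1 := by
    rw [← LinearMap.det_comp]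
    have : (ρ σ).comp (ρ σ⁻¹) = LinearMap.id := by
      have h2 : ρ σ * ρ σ⁻¹ = 1 := by rw [← map_mul, mul_inv_cancel, map_one]
      exact h2
    rw [this, LinearMap.det_id]
  rw [h, zero_mul] at h1
  exact zero_ne_one h1

/-- **The stable line**: a non-zero vector `v₀` spanning a `Gq p`-stable line on which inertia
acts through the cyclotomic character and trivially on the quotient. -/
theorem h24p_line (hp2 : p ≠ 2) (hrank : Module.finrank (ZMod p) V = 2)
    (ρ : Gq p →* Module.End (ZMod p) V)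
    (hdet : ∀ (σ : Gq p) (a : ℕ), cycExp p σ a → LinearMap.det (ρ σ) = ((a : ℕ) : ZMod p))
    (hflat : LocFlat p V (fun σ v => ρ σ v))
    (hord : ∀ σ ∈ inertia p, ∀ a : ℕ, cycExp p σ a →
      ∀ v, ρ σ (ρ σ v - ((a : ℕ) : ZMod p) • v) = ρ σ v - ((a : ℕ) : ZMod p) • v) :
    ∃ v₀ : V, OrdNF p ρ v₀ := by
  classical
  have hstar := h24p_star hp2 ρ hflat hord
  -- the inertia group as a type
  let ρI : (inertia p) → Module.End (ZMod p) V := fun g => ρ g.1
  let ε : (inertia p) → ZMod p := fun g => LinearMap.det (ρ g.1)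
  have hε : ∀ (g : inertia p) (a : ℕ), cycExp p g.1 a → ((a : ℕ) : ZMod p) = ε g :=
    fun g a ha => (hdet g.1 a ha).symm
  have hstarI : ∀ (a b : inertia p) (v : V), ρI a (ρI b v - v) = ε a • (ρI b v - v) := by
    intro a b v
    obtain ⟨e, he⟩ := h89o_exists_cycExp a.1
    rw [← hε a e he]
    exact hstar a.1 a.2 b.1 b.2 e he v
  obtain ⟨σ₀, hσ₀, hram⟩ := h89o_exists_ram (p := p) hp2 (ZMod p)
  have h1 : ε ⟨σ₀, hσ₀⟩ ≠ 1 := by
    obtain ⟨e, he⟩ := h89o_exists_cycExp σ₀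
    rw [← hε ⟨σ₀, hσ₀⟩ e he]
    exact hram e he
  obtain ⟨hK1, hKact, hKquot⟩ := h64w_line_of_star hrank ρI ε (fun _ => rfl) hstarI
    ⟨σ₀, hσ₀⟩ (h24p_det_ne_zero ρ σ₀) h1
  -- a generator
  obtain ⟨⟨v₀, hv₀K⟩, hv₀ne, hv₀gen⟩ := finrank_eq_one_iff'.mp hK1
  have hv₀0 : v₀ ≠ 0 := fun h => hv₀ne (Subtype.ext h)
  have hgen : ∀ w ∈ h64wK ρI, ∃ c : ZMod p, w = c • v₀ := by
    intro w hw
    obtain ⟨c, hc⟩ := hv₀gen ⟨w, hw⟩
    exact ⟨c, (congrArg Subtype.val hc).symm⟩
  -- stability under `Gq p`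
  have hstab : ∀ (τ : Gq p), ∀ w ∈ h64wK ρI, ρ τ w ∈ h64wK ρI := by
    intro τ w hw
    induction hw using Submodule.span_induction with
    | mem x hx =>
      obtain ⟨b, v, rfl⟩ := hx
      have e1 : ρ τ (ρI b v - v)
          = ρI ⟨τ * b.1 * τ⁻¹, h89o_conj_mem_inertia b.2 τ⟩ (ρ τ v) - ρ τ v := by
        show ρ τ (ρ b.1 v - v) = ρ (τ * b.1 * τ⁻¹) (ρ τ v) - ρ τ v
        rw [map_sub, ← Module.End.mul_apply, ← Module.End.mul_apply, ← map_mul, ← map_mul,
          inv_mul_cancel_right]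
      rw [e1]
      exact h64w_sub_mem_K ρI _ _
    | zero =>
      rw [map_zero]
      exact Submodule.zero_mem _
    | add x y _ _ hx hy =>
      rw [map_add]
      exact Submodule.add_mem _ hx hy
    | smul c x _ hx =>
      rw [map_smul]
      exact Submodule.smul_mem _ c hx
  refine ⟨v₀, hv₀0, fun σ => ?_, fun σ hσ a ha => ?_, fun σ hσ v => ?_⟩
  · obtain ⟨c, hc⟩ := hgen _ (hstab σ v₀ hv₀K)
    exact ⟨c, hc⟩
  · have := hKact ⟨σ, hσ⟩ v₀ hv₀K
    rw [hε ⟨σ, hσ⟩ a ha]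
    exact this
  · obtain ⟨c, hc⟩ := hgen _ (hKquot ⟨σ, hσ⟩ v)
    exact ⟨c, hc⟩

/-- an endomorphism of a plane with an eigenvector has a split characteristic polynomial. -/
theorem h24p_charpoly_split (hrank : Module.finrank (ZMod p) V = 2)
    (f : Module.End (ZMod p) V) {v : V} (hv : v ≠ 0) {α : ZMod p} (hf : f v = α • v) :
    ∃ α' β' : ZMod p, LinearMap.charpoly f = (X - C α') * (X - C β') := by
  classical
  obtain ⟨w, hli⟩ := exists_linearIndependent_pair_of_one_lt_finrank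
    (by rw [hrank]; norm_num) hv
  let b : Module.Basis (Fin 2) (ZMod p) V :=
    basisOfLinearIndependentOfCardEqFinrank hli (by rw [Fintype.card_fin, hrank])
  have hb0 : b 0 = v := by simp [b]
  have e00 : LinearMap.toMatrix b b f 0 0 = α := by
    rw [LinearMap.toMatrix_apply, hb0, hf, ← hb0]; simp
  have e10 : LinearMap.toMatrix b b f 1 0 = 0 := by
    rw [LinearMap.toMatrix_apply, hb0, hf, ← hb0]; simp
  refine ⟨α, LinearMap.toMatrix b b f 1 1, ?_⟩
  rw [← LinearMap.charpoly_toMatrix f b, Matrix.charpoly_fin_two, Matrix.trace_fin_two,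
    Matrix.det_fin_two, e00, e10]
  simp only [map_add, map_mul, mul_zero, sub_zero]
  ring

/-- the local hypotheses of S56F hold. -/
theorem h24p_locHyp (hp2 : p ≠ 2) (hrank : Module.finrank (ZMod p) V = 2)
    (ρ : Gq p →* Module.End (ZMod p) V)
    (hdet : ∀ (σ : Gq p) (a : ℕ), cycExp p σ a → LinearMap.det (ρ σ) = ((a : ℕ) : ZMod p))
    {v₀ : V} (hv₀ : OrdNF p ρ v₀) : LocHyp p ρ where
  odd := hp2
  rank := hrank
  split := fun σ => by
    obtain ⟨a, ha⟩ := hv₀.stable σ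
    exact h24p_charpoly_split hrank (ρ σ) hv₀.ne ha
  det := hdet

/-- **LOCAL CORE of L-PEU.** -/
theorem h24p_core (hp2 : p ≠ 2) (hrank : Module.finrank (ZMod p) V = 2)
    (ρ : Gq p →* Module.End (ZMod p) V)
    (hdet : ∀ (σ : Gq p) (a : ℕ), cycExp p σ a → LinearMap.det (ρ σ) = ((a : ℕ) : ZMod p))
    (hflat : LocFlat p V (fun σ v => ρ σ v))
    (hord : ∀ σ ∈ inertia p, ∀ a : ℕ, cycExp p σ a →
      ∀ v, ρ σ (ρ σ v - ((a : ℕ) : ZMod p) • v) = ρ σ v - ((a : ℕ) : ZMod p) • v)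
    (ζ : Om p) (hζ : ζ ^ p = 1) (hζ1 : ζ ≠ 1) :
    ∃ β : Om p, ‖β‖ = 1 ∧
      (∀ g ∈ inertia p, cycExp p g 1 → ∃ j : ℕ, g β = ζ ^ j * β) ∧
      ∀ g ∈ inertia p, cycExp p g 1 → g β = β → ∀ v, ρ g v = v := by
  classical
  have hp : p.Prime := Fact.out
  obtain ⟨v₀, hNF⟩ := h24p_line hp2 hrank ρ hdet hflat hord
  have hρ : LocHyp p ρ := h24p_locHyp hp2 hrank ρ hdet hNF
  have hpeu := h4o_ordPeuRep p (ZMod p) V ρ hρ v₀ hNF hflat
  obtain ⟨v₁, hli⟩ := exists_linearIndependent_pair_of_one_lt_finrank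
    (by rw [hrank]; norm_num) hNF.ne
  obtain ⟨β, hβ, hβg⟩ := hpeu ζ hζ hζ1 v₁ (AddMonoidHom.id (ZMod p))
  have hβ0 : β ≠ 0 := by
    intro h
    rw [h, norm_zero] at hβ
    exact zero_ne_one hβ
  refine ⟨β, hβ, fun g hg hg1 => ?_, fun g hg hg1 hfix v => ?_⟩
  · obtain ⟨b, hb⟩ := hNF.inert_quot g hg v₁
    exact ⟨_, hβg g hg hg1 b hb⟩
  · obtain ⟨b, hb⟩ := hNF.inert_quot g hg v₁
    have h1 := hβg g hg hg1 b hb
    rw [hfix, AddMonoidHom.id_apply] at h1
    have h2 : ζ ^ b.val = 1 := by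
      have h3 : ζ ^ b.val * β = 1 * β := by rw [one_mul]; exact h1.symm
      exact mul_right_cancel₀ hβ0 h3
    have hord' : orderOf ζ = p := orderOf_eq_prime hζ hζ1
    have h4 : p ∣ b.val := by
      have h6 := orderOf_dvd_of_pow_eq_one h2
      rw [hord'] at h6
      exact h6
    have h5 : b.val = 0 := Nat.eq_zero_of_dvd_of_lt h4 (ZMod.val_lt b)
    have hb0 : b = 0 := (ZMod.val_eq_zero b).mp h5
    rw [hb0, zero_smul] at hb
    have hv1 : ρ g v₁ = v₁ := sub_eq_zero.mp hb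
    have hv0 : ρ g v₀ = v₀ := by
      have := hNF.inert_line g hg 1 hg1
      rwa [Nat.cast_one, one_smul] at this
    obtain ⟨x, y, rfl⟩ := h89o_expand hrank v₀ v₁ hli v
    rw [map_add, map_smul, map_smul, hv0, hv1]

end Core

end Fermat.Agent.P7
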