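import Mathlib
import Fermat.Agent.S21.E.RHRho.Chart

/-!
# Wave 7, block (A), DLOG leaf DL5 (CUSP-ORTH), part 1: primitives on the upper half plane
(helper39, prefix `h39j_`)

* `h39j_exists_primitive` : a holomorphic function on `{0 < Im z}` has a primitive there
  (Cayley transform to the unit disc + Mathlib's `DifferentiableOn.isExactOn_ball`);
* `h39j_primitive_periodic` : if `F (z + 1) = F z` and `F (-1/z) = z ^ 2 * F z` on the upper half
  plane (weight `2` invariance under `T` and `S`), every primitive `Φ` of `F` satisfies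
  `Φ (z + 1) = Φ z`  (evaluate `Φ ∘ S - Φ` at the fixed point `i` of `S` and
  `Φ ∘ S ∘ T - Φ` at the fixed point `ρ` of `S T`).
-/

set_option autoImplicit false

open Complex Metric Set
open Fermat.Agent.S21.E Fermat.Agent.S21.E.RHRho

noncomputable section

namespace Fermat.Agent.P7

/-- the open upper half plane as a subset of `ℂ`. -/
def h39jU : Set ℂ := {z : ℂ | 0 < z.im}

theorem h39j_isOpen_U : IsOpen h39jU := isOpen_lt continuous_const Complex.continuous_im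

theorem h39j_convex_U : Convex ℝ h39jU := by
  have : h39jU = Complex.imCLM ⁻¹' (Set.Ioi (0 : ℝ)) := rfl
  rw [this]
  exact (convex_Ioi (0 : ℝ)).is_linear_preimage Complex.imCLM.isLinear

theorem h39j_hasDerivAt_psiC {w : ℂ} (hw : ‖w‖ < 1) :
    HasDerivAt psiC (((rho : ℂ) - rhoc) / (1 - w) ^ 2) w := by
  have h1 : HasDerivAt (fun w : ℂ => (rho : ℂ) - rhoc * w) (-rhoc) w := by
    have := ((hasDerivAt_id w).const_mul rhoc).const_sub (rho : ℂ)
    simpa using this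
  have h2 : HasDerivAt (fun w : ℂ => (1 : ℂ) - w) (-1) w := by
    have := (hasDerivAt_id w).const_sub (1 : ℂ)
    simpa using this
  have h3 := h1.div h2 (one_sub_ne hw)
  have e : (-rhoc * (1 - w) - ((rho : ℂ) - rhoc * w) * -1) / (1 - w) ^ 2 =
      ((rho : ℂ) - rhoc) / (1 - w) ^ 2 := by
    congr 1
    ring
  rw [e] at h3
  exact h3

/-- the Cayley chart as a function on `ℂ`. -/
def h39jPhiC (z : ℂ) : ℂ := (z - (rho : ℂ)) / (z - rhoc)

theorem h39j_sub_rhoc_ne {z : ℂ} (hz : z ∈ h39jU) : z - rhoc ≠ 0 :=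
  upper_sub_rhoc_ne ⟨z, hz⟩

theorem h39j_phiC_eq {z : ℂ} (hz : z ∈ h39jU) : h39jPhiC z = phi ⟨z, hz⟩ := rfl

theorem h39j_norm_phiC {z : ℂ} (hz : z ∈ h39jU) : ‖h39jPhiC z‖ < 1 := by
  rw [h39j_phiC_eq hz]
  have := Fermat.Agent.S21.E.RHRho.psiC_phi ⟨z, hz⟩
  -- `‖phi z‖ < 1`
  unfold phi
  have h0 : z - rhoc ≠ 0 := h39j_sub_rhoc_ne hz
  show ‖(z - (rho : ℂ)) / (z - rhoc)‖ < 1
  rw [norm_div, div_lt_one (norm_pos_iff.mpr h0)]
  have h1 : ‖z - (rho : ℂ)‖ ^ 2 < ‖z - rhoc‖ ^ 2 := by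
    rw [← Complex.normSq_eq_norm_sq, ← Complex.normSq_eq_norm_sq, Complex.normSq_apply,
      Complex.normSq_apply]
    simp only [Complex.sub_re, Complex.sub_im, rho_re, rho_im, rhoc_re, rhoc_im]
    have h2 : 0 < z.im := hz
    have h3 : 0 < Real.sqrt 3 := by positivity
    nlinarith [mul_pos h2 h3]
  exact lt_of_pow_lt_pow_left₀ 2 (norm_nonneg _) h1

theorem h39j_psiC_phiC {z : ℂ} (hz : z ∈ h39jU) : psiC (h39jPhiC z) = z := by
  rw [h39j_phiC_eq hz]
  exact Fermat.Agent.S21.E.RHRho.psiC_phi ⟨z, hz⟩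

theorem h39j_hasDerivAt_phiC {z : ℂ} (hz : z ∈ h39jU) :
    HasDerivAt h39jPhiC (((rho : ℂ) - rhoc) / (z - rhoc) ^ 2) z := by
  have h1 : HasDerivAt (fun z : ℂ => z - (rho : ℂ)) 1 z := (hasDerivAt_id z).sub_const _
  have h2 : HasDerivAt (fun z : ℂ => z - rhoc) 1 z := (hasDerivAt_id z).sub_const _
  have h3 := h1.div h2 (h39j_sub_rhoc_ne hz)
  have e : (1 * (z - rhoc) - (z - (rho : ℂ)) * 1) / (z - rhoc) ^ 2 =
      ((rho : ℂ) - rhoc) / (z - rhoc) ^ 2 := by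
    congr 1
    ring
  rw [e] at h3
  exact h3

/-- **primitives on the upper half plane.** -/
theorem h39j_exists_primitive {F : ℂ → ℂ} (hF : DifferentiableOn ℂ F h39jU) :
    ∃ Φ : ℂ → ℂ, ∀ z ∈ h39jU, HasDerivAt Φ (F z) z := by
  -- the transported function on the disc
  set K : ℂ → ℂ := fun w => F (psiC w) * (((rho : ℂ) - rhoc) / (1 - w) ^ 2) with hK
  have hKd : DifferentiableOn ℂ K (ball (0 : ℂ) 1) := by
    intro w hw
    have hw' : ‖w‖ < 1 := by simpa using hw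
    have hpsi : psiC w ∈ h39jU := psiC_im_pos hw'
    have h1 : DifferentiableAt ℂ F (psiC w) :=
      hF.differentiableAt (h39j_isOpen_U.mem_nhds hpsi)
    have h2 : DifferentiableAt ℂ psiC w := (h39j_hasDerivAt_psiC hw').differentiableAt
    have h3 : DifferentiableAt ℂ (fun w => F (psiC w)) w := h1.comp w h2
    have h4 : DifferentiableAt ℂ (fun w : ℂ => ((rho : ℂ) - rhoc) / (1 - w) ^ 2) w := by
      refine DifferentiableAt.div (differentiableAt_const _) ?_ (pow_ne_zero 2 (one_sub_ne hw'))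
      fun_prop
    exact (h3.mul h4).differentiableWithinAt
  obtain ⟨Ψ, hΨ⟩ := hKd.isExactOn_ball
  refine ⟨fun z => Ψ (h39jPhiC z), fun z hz => ?_⟩
  have hw' : ‖h39jPhiC z‖ < 1 := h39j_norm_phiC hz
  have hw : h39jPhiC z ∈ ball (0 : ℂ) 1 := by simpa using hw'
  have h1 := hΨ _ hw
  have h2 := h39j_hasDerivAt_phiC hz
  have h3 := HasDerivAt.comp z h1 h2
  have e : K (h39jPhiC z) * (((rho : ℂ) - rhoc) / (z - rhoc) ^ 2) = F z := by
    rw [hK]
    simp only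
    rw [h39j_psiC_phiC hz]
    have h0 : z - rhoc ≠ 0 := h39j_sub_rhoc_ne hz
    have h5 : (1 : ℂ) - h39jPhiC z = ((rho : ℂ) - rhoc) / (z - rhoc) := by
      unfold h39jPhiC
      field_simp
      ring
    rw [h5]
    have h6 : (rho : ℂ) - rhoc ≠ 0 := rho_sub_rhoc_ne
    field_simp
  rw [e] at h3
  exact h3

end Fermat.Agent.P7

namespace Fermat.Agent.P7

theorem h39j_ne_zero {z : ℂ} (hz : z ∈ h39jU) : z ≠ 0 := by
  intro h
  have h1 : (0 : ℝ) < z.im := hz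
  rw [h] at h1
  simp at h1

theorem h39j_neg_inv_mem {z : ℂ} (hz : z ∈ h39jU) : -z⁻¹ ∈ h39jU := by
  have hz0 : z ≠ 0 := h39j_ne_zero hz
  show 0 < (-z⁻¹).im
  rw [Complex.neg_im, Complex.inv_im, neg_div, neg_neg]
  exact div_pos hz (Complex.normSq_pos.mpr hz0)

theorem h39j_add_one_mem {z : ℂ} (hz : z ∈ h39jU) : z + 1 ∈ h39jU := by
  have h1 : (0 : ℝ) < z.im := hz
  show 0 < (z + 1).im
  simpa using h1

theorem h39j_hasDerivAt_neg_inv {z : ℂ} (hz0 : z ≠ 0) :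
    HasDerivAt (fun z : ℂ => -z⁻¹) ((z ^ 2)⁻¹) z := by
  have h := (hasDerivAt_inv hz0).fun_neg
  rw [neg_neg] at h
  exact h

/-- a function on the upper half plane with zero derivative is constant. -/
theorem h39j_const_of_deriv_zero {A : ℂ → ℂ} (hA : ∀ z ∈ h39jU, HasDerivAt A 0 z)
    {x y : ℂ} (hx : x ∈ h39jU) (hy : y ∈ h39jU) : A x = A y := by
  have hd : DifferentiableOn ℂ A h39jU := fun z hz =>
    (hA z hz).differentiableAt.differentiableWithinAt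
  refine h39j_isOpen_U.is_const_of_deriv_eq_zero h39j_convex_U.isPreconnected hd ?_ hx hy
  intro z hz
  exact (hA z hz).deriv

/-- **periodicity of the primitive** of a function of weight `2` for `S` and `T`. -/
theorem h39j_primitive_periodic {F Φ : ℂ → ℂ} (hΦ : ∀ z ∈ h39jU, HasDerivAt Φ (F z) z)
    (hT : ∀ z ∈ h39jU, F (z + 1) = F z) (hS : ∀ z ∈ h39jU, F (-z⁻¹) = z ^ 2 * F z) :
    ∀ z ∈ h39jU, Φ (z + 1) = Φ z := by
  -- Step 1: `Φ (-1/z) = Φ z`
  have h1 : ∀ z ∈ h39jU, HasDerivAt (fun z => Φ (-z⁻¹) - Φ z) 0 z := by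
    intro z hz
    have hz0 := h39j_ne_zero hz
    have ha : HasDerivAt (fun z : ℂ => Φ (-z⁻¹)) (F (-z⁻¹) * (z ^ 2)⁻¹) z :=
      HasDerivAt.comp (h₂ := Φ) (h := fun z : ℂ => -z⁻¹) z
        (hΦ _ (h39j_neg_inv_mem hz)) (h39j_hasDerivAt_neg_inv hz0)
    have hb := ha.sub (hΦ z hz)
    have e : F (-z⁻¹) * (z ^ 2)⁻¹ - F z = 0 := by
      rw [hS z hz]
      field_simp
      ring
    rw [e] at hb
    exact hb
  have hI : Complex.I ∈ h39jU := by
    show 0 < Complex.I.im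
    simp
  have hS1 : ∀ z ∈ h39jU, Φ (-z⁻¹) = Φ z := by
    intro z hz
    have h : Φ (-z⁻¹) - Φ z = Φ (-(Complex.I)⁻¹) - Φ Complex.I :=
      h39j_const_of_deriv_zero h1 hz hI
    have e : -(Complex.I)⁻¹ = Complex.I := by
      rw [Complex.inv_I, neg_neg]
    rw [e, sub_self] at h
    exact sub_eq_zero.mp h
  -- Step 2: `Φ (-1/(z+1)) = Φ z`
  have h2 : ∀ z ∈ h39jU, HasDerivAt (fun z => Φ (-(z + 1)⁻¹) - Φ z) 0 z := by
    intro z hz
    have hz1 := h39j_add_one_mem hz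
    have hz0 := h39j_ne_zero hz1
    have hsh : HasDerivAt (fun z : ℂ => z + 1) 1 z := (hasDerivAt_id z).add_const 1
    have hin : HasDerivAt (fun z : ℂ => -(z + 1)⁻¹) (((z + 1) ^ 2)⁻¹ * 1) z :=
      HasDerivAt.comp (h₂ := fun w : ℂ => -w⁻¹) (h := fun z : ℂ => z + 1) z
        (h39j_hasDerivAt_neg_inv hz0) hsh
    have ha : HasDerivAt (fun z : ℂ => Φ (-(z + 1)⁻¹))
        (F (-(z + 1)⁻¹) * (((z + 1) ^ 2)⁻¹ * 1)) z :=
      HasDerivAt.comp (h₂ := Φ) (h := fun z : ℂ => -(z + 1)⁻¹) z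
        (hΦ _ (h39j_neg_inv_mem hz1)) hin
    have hb := ha.sub (hΦ z hz)
    have e : F (-(z + 1)⁻¹) * (((z + 1) ^ 2)⁻¹ * 1) - F z = 0 := by
      rw [hS (z + 1) hz1, hT z hz]
      field_simp
      ring
    rw [e] at hb
    exact hb
  have hρ : (rho : ℂ) ∈ h39jU := rho_im_pos
  have hS2 : ∀ z ∈ h39jU, Φ (-(z + 1)⁻¹) = Φ z := by
    intro z hz
    have h : Φ (-(z + 1)⁻¹) - Φ z = Φ (-((rho : ℂ) + 1)⁻¹) - Φ (rho : ℂ) :=
      h39j_const_of_deriv_zero h2 hz hρ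
    have hρ1 : (rho : ℂ) + 1 ≠ 0 := h39j_ne_zero (h39j_add_one_mem hρ)
    have e : -((rho : ℂ) + 1)⁻¹ = (rho : ℂ) := by
      have hsq := rho_sq
      field_simp
      linear_combination -hsq
    rw [e, sub_self] at h
    exact sub_eq_zero.mp h
  intro z hz
  rw [← hS1 (z + 1) (h39j_add_one_mem hz), hS2 z hz]

end Fermat.Agent.P7
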