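import Mathlib
import Fermat.Agent.S28.LevelOne
import Fermat.Agent.P7.H39Prim

/-!
# Wave 7, block (A), DLOG leaf DL5 (CUSP-ORTH), part 2: the analytic core
(helper39, prefix `h39j_`)

`h39j_core` : let `H : ℍ → ℂ` be holomorphic, invariant of weight `2` under `Γ₀(N)`, with a
Laurent expansion `s` in `q = exp (2πiτ)` at `i∞`, and such that `H ∣[2] g` tends to `0` at `i∞`
for every `g ∈ SL₂(ℤ)` outside `Γ₀(N)` (i.e. at every cusp which is not equivalent to `∞`).
Then the constant term of `s` vanishes.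

This is the residue theorem for the differential `H dτ` on `X₀(N)` (its only pole is at the cusp
`∞`).  Proof: the trace `G = ∑_{x ∈ SL₂(ℤ)/Γ₀(N)} H ∣[2] (out x)⁻¹` is invariant of weight `2`
under `SL₂(ℤ)`; a primitive `Φ` of `G` on `ℍ` satisfies `Φ (z + 1) = Φ z`
(`h39j_primitive_periodic`); `G = (polar part) + s₀ + (a function tending to `0` at `i∞`)`, and
the polar part has an explicit periodic primitive; the mean value inequality on the segment
`[iY, iY + 1]` gives `‖s₀‖ ≤ ε` for every `ε > 0`.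
-/

set_option autoImplicit false
set_option linter.style.haveILetI false
set_option linter.unusedSectionVars false

open Complex Metric Set UpperHalfPlane CongruenceSubgroup
open scoped MatrixGroups Manifold ModularForm

noncomputable section

namespace Fermat.Agent.P7

open Fermat.Agent.S28 (HasTExp tParam)

/-! ## the trace to level one -/

/-- the trace to level one of a weight `2` function (sum over `SL₂(ℤ) / Γ₀(N)` of the slashes by
the inverses of the representatives). -/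
def h39jTr (N : ℕ) [NeZero N] (H : ℍ → ℂ) : ℍ → ℂ :=
  letI : Fintype (SL(2, ℤ) ⧸ Gamma0 N) := Subgroup.fintypeQuotientOfFiniteIndex
  ∑ x : SL(2, ℤ) ⧸ Gamma0 N, H ∣[(2 : ℤ)] (Quotient.out x)⁻¹

theorem h39j_slash_congr (N : ℕ) [NeZero N] (H : ℍ → ℂ)
    (hinv : ∀ γ ∈ Gamma0 N, H ∣[(2 : ℤ)] γ = H) {a b : SL(2, ℤ)}
    (hab : a * b⁻¹ ∈ Gamma0 N) : H ∣[(2 : ℤ)] a = H ∣[(2 : ℤ)] b := by
  have h1 : a = (a * b⁻¹) * b := by group
  rw [h1, SlashAction.slash_mul, hinv _ hab]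

theorem h39j_tr_slash (N : ℕ) [NeZero N] (H : ℍ → ℂ)
    (hinv : ∀ γ ∈ Gamma0 N, H ∣[(2 : ℤ)] γ = H) (γ : SL(2, ℤ)) :
    h39jTr N H ∣[(2 : ℤ)] γ = h39jTr N H := by
  letI : Fintype (SL(2, ℤ) ⧸ Gamma0 N) := Subgroup.fintypeQuotientOfFiniteIndex
  unfold h39jTr
  rw [SlashAction.sum_slash]
  have hterm : ∀ x : SL(2, ℤ) ⧸ Gamma0 N,
      (H ∣[(2 : ℤ)] (Quotient.out x)⁻¹) ∣[(2 : ℤ)] γ
        = H ∣[(2 : ℤ)] (Quotient.out (γ⁻¹ • x))⁻¹ := by
    intro x
    rw [← SlashAction.slash_mul]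
    apply h39j_slash_congr N H hinv
    have h1 : ((γ⁻¹ * Quotient.out x : SL(2, ℤ)) : SL(2, ℤ) ⧸ Gamma0 N)
        = ((Quotient.out (γ⁻¹ • x) : SL(2, ℤ)) : SL(2, ℤ) ⧸ Gamma0 N) := by
      rw [QuotientGroup.out_eq']
      have : ((γ⁻¹ * Quotient.out x : SL(2, ℤ)) : SL(2, ℤ) ⧸ Gamma0 N)
          = γ⁻¹ • ((Quotient.out x : SL(2, ℤ)) : SL(2, ℤ) ⧸ Gamma0 N) := rfl
      rw [this, QuotientGroup.out_eq']
    have h2 := QuotientGroup.eq.mp h1
    have e : (Quotient.out x)⁻¹ * γ * ((Quotient.out (γ⁻¹ • x))⁻¹)⁻¹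
        = (γ⁻¹ * Quotient.out x)⁻¹ * Quotient.out (γ⁻¹ • x) := by group
    rw [e]
    exact h2
  rw [Finset.sum_congr rfl (fun x _ => hterm x)]
  exact Equiv.sum_comp (MulAction.toPerm (γ⁻¹ : SL(2, ℤ)))
    (fun y : SL(2, ℤ) ⧸ Gamma0 N => H ∣[(2 : ℤ)] (Quotient.out y)⁻¹)

theorem h39j_mdiff_slash {H : ℍ → ℂ} (hH : MDiff H) (g : SL(2, ℤ)) :
    MDiff (H ∣[(2 : ℤ)] g) := by
  rw [ModularForm.SL_slash]
  exact hH.slash 2 _

theorem h39j_diffOn_of_mdiff {f : ℍ → ℂ} (hf : MDiff f) :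
    DifferentiableOn ℂ (fun z : ℂ => f (ofComplex z)) h39jU :=
  UpperHalfPlane.mdifferentiable_iff.mp hf

theorem h39j_tr_diffOn (N : ℕ) [NeZero N] {H : ℍ → ℂ} (hH : MDiff H) :
    DifferentiableOn ℂ (fun z : ℂ => h39jTr N H (ofComplex z)) h39jU := by
  letI : Fintype (SL(2, ℤ) ⧸ Gamma0 N) := Subgroup.fintypeQuotientOfFiniteIndex
  have h : (fun z : ℂ => h39jTr N H (ofComplex z))
      = fun z : ℂ => ∑ x : SL(2, ℤ) ⧸ Gamma0 N,
          (H ∣[(2 : ℤ)] (Quotient.out x)⁻¹) (ofComplex z) := by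
    funext z
    unfold h39jTr
    rw [Finset.sum_apply]
  rw [h]
  exact DifferentiableOn.fun_sum fun x _ => h39j_diffOn_of_mdiff (h39j_mdiff_slash hH _)

/-- the trace is the function itself plus a function tending to `0` at `i∞`. -/
theorem h39j_tr_sub_isZero (N : ℕ) [NeZero N] (H : ℍ → ℂ)
    (hinv : ∀ γ ∈ Gamma0 N, H ∣[(2 : ℤ)] γ = H)
    (hzero : ∀ g : SL(2, ℤ), g ∉ Gamma0 N → IsZeroAtImInfty (H ∣[(2 : ℤ)] g)) :
    IsZeroAtImInfty (fun τ => h39jTr N H τ - H τ) := by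
  letI : Fintype (SL(2, ℤ) ⧸ Gamma0 N) := Subgroup.fintypeQuotientOfFiniteIndex
  classical
  set x0 : SL(2, ℤ) ⧸ Gamma0 N := ((1 : SL(2, ℤ)) : SL(2, ℤ) ⧸ Gamma0 N) with hx0
  have hout : ∀ x : SL(2, ℤ) ⧸ Gamma0 N, Quotient.out x ∈ Gamma0 N ↔ x = x0 := by
    intro x
    constructor
    · intro h
      have h1 : ((1 : SL(2, ℤ)) : SL(2, ℤ) ⧸ Gamma0 N)
          = ((Quotient.out x : SL(2, ℤ)) : SL(2, ℤ) ⧸ Gamma0 N) := by
        rw [QuotientGroup.eq]
        simpa using h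
      rw [QuotientGroup.out_eq'] at h1
      exact h1.symm
    · intro h
      have h1 : ((1 : SL(2, ℤ)) : SL(2, ℤ) ⧸ Gamma0 N)
          = ((Quotient.out x : SL(2, ℤ)) : SL(2, ℤ) ⧸ Gamma0 N) := by
        rw [QuotientGroup.out_eq', h]
      have h2 := QuotientGroup.eq.mp h1
      simpa using h2
  have h0 : H ∣[(2 : ℤ)] (Quotient.out x0)⁻¹ = H :=
    hinv _ ((Gamma0 N).inv_mem ((hout x0).mpr rfl))
  have hsum : ∀ τ, h39jTr N H τ - H τ
      = ∑ x ∈ (Finset.univ : Finset (SL(2, ℤ) ⧸ Gamma0 N)).erase x0,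
          (H ∣[(2 : ℤ)] (Quotient.out x)⁻¹) τ := by
    intro τ
    unfold h39jTr
    rw [Finset.sum_apply, ← Finset.add_sum_erase _ _ (Finset.mem_univ x0), h0]
    ring
  have hfun : (fun τ => h39jTr N H τ - H τ)
      = fun τ => ∑ x ∈ (Finset.univ : Finset (SL(2, ℤ) ⧸ Gamma0 N)).erase x0,
          (H ∣[(2 : ℤ)] (Quotient.out x)⁻¹) τ := funext hsum
  rw [hfun]
  have ht : Filter.Tendsto (fun τ => ∑ x ∈ (Finset.univ : Finset (SL(2, ℤ) ⧸ Gamma0 N)).erase x0,
      (H ∣[(2 : ℤ)] (Quotient.out x)⁻¹) τ) atImInfty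
      (nhds (∑ x ∈ (Finset.univ : Finset (SL(2, ℤ) ⧸ Gamma0 N)).erase x0, (0 : ℂ))) := by
    refine tendsto_finsetSum _ fun x hx => ?_
    have hx' : x ≠ x0 := Finset.ne_of_mem_erase hx
    have hng : (Quotient.out x)⁻¹ ∉ Gamma0 N := fun h =>
      hx' ((hout x).mp (by simpa using (Gamma0 N).inv_mem h))
    exact hzero _ hng
  rw [Finset.sum_const_zero] at ht
  exact ht


/-! ## weight `2` invariance on the level of `ℂ` -/

theorem h39j_T_inv {G : ℍ → ℂ} (hT : G ∣[(2 : ℤ)] ModularGroup.T = G) :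
    ∀ z ∈ h39jU, G (ofComplex (z + 1)) = G (ofComplex z) := by
  intro z hz
  have hz1 := h39j_add_one_mem hz
  have h1 : ofComplex (z + 1) = ModularGroup.T • ofComplex z := by
    rw [UpperHalfPlane.modular_T_smul]
    apply UpperHalfPlane.ext
    rw [UpperHalfPlane.coe_vadd, ofComplex_apply_of_im_pos hz1, ofComplex_apply_of_im_pos hz]
    simp [add_comm]
  have h2 := congrFun hT (ofComplex z)
  rw [ModularForm.SL_slash_apply] at h2
  have h3 : denom (ModularGroup.T : SL(2, ℤ)) (ofComplex z) = 1 := by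
    rw [ModularGroup.denom_apply]
    simp [ModularGroup.T]
  rw [h3] at h2
  rw [h1]
  simpa using h2

theorem h39j_S_inv {G : ℍ → ℂ} (hS : G ∣[(2 : ℤ)] ModularGroup.S = G) :
    ∀ z ∈ h39jU, G (ofComplex (-z⁻¹)) = z ^ 2 * G (ofComplex z) := by
  intro z hz
  have hz1 := h39j_neg_inv_mem hz
  have hz0 := h39j_ne_zero hz
  have h1 : ofComplex (-z⁻¹) = ModularGroup.S • ofComplex z := by
    rw [UpperHalfPlane.modular_S_smul]
    apply UpperHalfPlane.ext
    rw [ofComplex_apply_of_im_pos hz1, ofComplex_apply_of_im_pos hz]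
    simp [inv_neg]
  have h2 := congrFun hS (ofComplex z)
  rw [ModularForm.SL_slash_apply] at h2
  have h3 : denom (ModularGroup.S : SL(2, ℤ)) (ofComplex z) = z := by
    rw [ModularGroup.denom_S, ofComplex_apply_of_im_pos hz]
  rw [h3] at h2
  rw [h1, ← h2]
  rw [zpow_neg, zpow_ofNat]
  field_simp


/-! ## the polar part and its primitive -/

/-- the exponent `2πi (i - M)`. -/
def h39jC (M i : ℕ) : ℂ := 2 * Real.pi * Complex.I * ((i : ℂ) - (M : ℂ))

theorem h39j_C_ne_zero {M i : ℕ} (hi : i < M) : h39jC M i ≠ 0 := by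
  unfold h39jC
  have h1 : (2 * Real.pi * Complex.I : ℂ) ≠ 0 := Complex.two_pi_I_ne_zero
  have h2 : ((i : ℂ) - (M : ℂ)) ≠ 0 := by
    rw [sub_ne_zero]
    exact_mod_cast hi.ne
  exact mul_ne_zero h1 h2

theorem h39j_exp_C (M i : ℕ) : Complex.exp (h39jC M i) = 1 := by
  have h : h39jC M i = (((i : ℤ) - (M : ℤ) : ℤ) : ℂ) * (2 * Real.pi * Complex.I) := by
    unfold h39jC
    push_cast
    ring
  rw [h]
  exact Complex.exp_int_mul_two_pi_mul_I _

/-- the polar part. -/
def h39jNeg (M : ℕ) (p : PowerSeries ℂ) (z : ℂ) : ℂ :=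
  ∑ i ∈ Finset.range M, PowerSeries.coeff i p * Complex.exp (h39jC M i * z)

/-- the primitive of the polar part. -/
def h39jNegPrim (M : ℕ) (p : PowerSeries ℂ) (z : ℂ) : ℂ :=
  ∑ i ∈ Finset.range M, PowerSeries.coeff i p * (Complex.exp (h39jC M i * z) / h39jC M i)

theorem h39j_hasDerivAt_negPrim (M : ℕ) (p : PowerSeries ℂ) (z : ℂ) :
    HasDerivAt (h39jNegPrim M p) (h39jNeg M p z) z := by
  unfold h39jNeg
  have hfun : h39jNegPrim M p = fun z => ∑ i ∈ Finset.range M,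
      PowerSeries.coeff i p * (Complex.exp (h39jC M i * z) / h39jC M i) := rfl
  rw [hfun]
  refine HasDerivAt.fun_sum fun i hi => ?_
  have hc : h39jC M i ≠ 0 := h39j_C_ne_zero (Finset.mem_range.mp hi)
  have h1 : HasDerivAt (fun z : ℂ => h39jC M i * z) (h39jC M i) z := by
    simpa using (hasDerivAt_id z).const_mul (h39jC M i)
  have h2 := (h1.cexp.div_const (h39jC M i)).const_mul (PowerSeries.coeff i p)
  have e : PowerSeries.coeff i p * (Complex.exp (h39jC M i * z) * h39jC M i / h39jC M i)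
      = PowerSeries.coeff i p * Complex.exp (h39jC M i * z) := by
    rw [mul_div_assoc, div_self hc, mul_one]
  rw [e] at h2
  exact h2

theorem h39j_negPrim_periodic (M : ℕ) (p : PowerSeries ℂ) (z : ℂ) :
    h39jNegPrim M p (z + 1) = h39jNegPrim M p z := by
  unfold h39jNegPrim
  refine Finset.sum_congr rfl fun i _ => ?_
  rw [mul_add, mul_one, Complex.exp_add, h39j_exp_C, mul_one]

theorem h39j_tParam_one (τ : ℍ) : tParam 1 τ = Complex.exp (2 * Real.pi * Complex.I * (τ : ℂ)) := by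
  unfold tParam Function.Periodic.qParam
  simp

/-- the polar part in terms of the parameter `q`. -/
theorem h39j_neg_eq (M : ℕ) (p : PowerSeries ℂ) (τ : ℍ) :
    h39jNeg M p (τ : ℂ)
      = (∑ i ∈ Finset.range M, PowerSeries.coeff i p * tParam 1 τ ^ i) / tParam 1 τ ^ M := by
  unfold h39jNeg
  rw [Finset.sum_div]
  refine Finset.sum_congr rfl fun i _ => ?_
  rw [mul_div_assoc]
  congr 1
  rw [h39j_tParam_one, ← Complex.exp_nat_mul, ← Complex.exp_nat_mul, ← Complex.exp_sub]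
  congr 1
  unfold h39jC
  ring

/-! ## the core -/

/-- **DL5, analytic core.**  The constant term of a weight `2` invariant holomorphic function for
`Γ₀(N)` which vanishes at all cusps not equivalent to `∞` is zero. -/
theorem h39j_core (N : ℕ) [NeZero N] (H : ℍ → ℂ) (hH : MDiff H)
    (hinv : ∀ γ ∈ Gamma0 N, H ∣[(2 : ℤ)] γ = H)
    (s : LaurentSeries ℂ) (hs : HasTExp 1 H s)
    (hzero : ∀ g : SL(2, ℤ), g ∉ Gamma0 N → IsZeroAtImInfty (H ∣[(2 : ℤ)] g)) :
    s.coeff 0 = 0 := by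
  obtain ⟨M, p, rfl, hsum⟩ := hs
  -- the constant term
  have hc0 : (HahnSeries.single (-(M : ℤ)) (1 : ℂ) *
      HahnSeries.ofPowerSeries ℤ ℂ p).coeff 0 = PowerSeries.coeff M p := by
    have h0 : (0 : ℤ) = (M : ℤ) - M := by ring
    rw [h0, HahnSeries.coeff_single_mul, one_mul, sub_neg_eq_add, sub_add_cancel,
      HahnSeries.ofPowerSeries_apply_coeff]
  rw [hc0]
  -- the regular part
  set a : ℕ → ℂ := fun n => PowerSeries.coeff (n + M) p with ha
  set gM : ℍ → ℂ := fun τ => H τ - h39jNeg M p (τ : ℂ) with hgM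
  have hq0 : ∀ τ : ℍ, tParam 1 τ ≠ 0 := fun τ => Function.Periodic.qParam_ne_zero _
  have hgsum : ∀ τ : ℍ, HasSum (fun n : ℕ => a n * tParam 1 τ ^ n) (gM τ) := by
    intro τ
    have h1 := (hasSum_nat_add_iff' (f := fun n : ℕ => PowerSeries.coeff n p * tParam 1 τ ^ n)
      M).mpr (hsum τ)
    have h2 : HasSum (fun n : ℕ => (a n * tParam 1 τ ^ n) * tParam 1 τ ^ M)
        (gM τ * tParam 1 τ ^ M) := by
      have e1 : (fun n : ℕ => (a n * tParam 1 τ ^ n) * tParam 1 τ ^ M)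
          = fun n : ℕ => PowerSeries.coeff (n + M) p * tParam 1 τ ^ (n + M) := by
        funext n
        rw [ha, pow_add]
        ring
      have e2 : gM τ * tParam 1 τ ^ M = H τ * tParam 1 τ ^ M
          - ∑ i ∈ Finset.range M, PowerSeries.coeff i p * tParam 1 τ ^ i := by
        rw [hgM]
        simp only
        rw [h39j_neg_eq, sub_mul, div_mul_cancel₀ _ (pow_ne_zero M (hq0 τ))]
      rw [e1, e2]
      exact h1
    exact (hasSum_mul_right_iff (pow_ne_zero M (hq0 τ))).mp h2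
  obtain ⟨C, hC0, hC⟩ := Fermat.Agent.S28.LevelOne.exists_bound_of_hasSum a gM hgsum
  have ha0 : a 0 = PowerSeries.coeff M p := by
    rw [ha]
    simp
  -- the trace and its primitive
  set G : ℍ → ℂ := h39jTr N H with hG
  have hGinv : ∀ γ : SL(2, ℤ), G ∣[(2 : ℤ)] γ = G := h39j_tr_slash N H hinv
  obtain ⟨Φ, hΦ⟩ := h39j_exists_primitive (h39j_tr_diffOn N hH)
  have hΦper : ∀ z ∈ h39jU, Φ (z + 1) = Φ z :=
    h39j_primitive_periodic hΦ (h39j_T_inv (hGinv _)) (h39j_S_inv (hGinv _))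
  have hR1 : IsZeroAtImInfty (fun τ => G τ - H τ) := h39j_tr_sub_isZero N H hinv hzero
  -- the function `Ψ`
  set Ψ : ℂ → ℂ := fun z => Φ z - h39jNegPrim M p z - PowerSeries.coeff M p * z with hΨ
  have hΨd : ∀ z ∈ h39jU, HasDerivAt Ψ
      (G (ofComplex z) - h39jNeg M p z - PowerSeries.coeff M p) z := by
    intro z hz
    have h1 := (hΦ z hz).sub (h39j_hasDerivAt_negPrim M p z)
    have h2 : HasDerivAt (fun z : ℂ => PowerSeries.coeff M p * z) (PowerSeries.coeff M p) z := by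
      simpa using (hasDerivAt_id z).const_mul (PowerSeries.coeff M p)
    exact h1.sub h2
  -- the key estimate
  have key : ∀ ε : ℝ, 0 < ε → ‖PowerSeries.coeff M p‖ ≤ ε := by
    intro ε hε
    obtain ⟨A1, hA1⟩ := (UpperHalfPlane.isZeroAtImInfty_iff.mp hR1) (ε / 2) (half_pos hε)
    have ht : Filter.Tendsto (fun y : ℝ => C * Real.exp (-2 * Real.pi * y)) Filter.atTop
        (nhds 0) := by
      have h1 : Filter.Tendsto (fun y : ℝ => 2 * Real.pi * y) Filter.atTop Filter.atTop :=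
        Filter.Tendsto.const_mul_atTop (by positivity) Filter.tendsto_id
      have h2 := Real.tendsto_exp_neg_atTop_nhds_zero.comp h1
      have h3 := h2.const_mul C
      rw [mul_zero] at h3
      refine h3.congr fun y => ?_
      simp only [Function.comp_apply]
      congr 2
      ring
    obtain ⟨A2, hA2⟩ := Filter.eventually_atTop.mp
      ((tendsto_order.mp ht).2 (ε / 2) (half_pos hε))
    set Y : ℝ := max (max A1 A2) 2 with hY
    have hY1 : A1 ≤ Y := le_trans (le_max_left _ _) (le_max_left _ _)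
    have hY2 : A2 ≤ Y := le_trans (le_max_right _ _) (le_max_left _ _)
    have hY3 : (2 : ℝ) ≤ Y := le_max_right _ _
    set S : Set ℂ := {z : ℂ | Y ≤ z.im} with hS
    have hSconv : Convex ℝ S := by
      have : S = Complex.imCLM ⁻¹' (Set.Ici Y) := rfl
      rw [this]
      exact (convex_Ici Y).is_linear_preimage Complex.imCLM.isLinear
    have hY0 : (0 : ℝ) < Y := by linarith
    have hSU : ∀ z ∈ S, z ∈ h39jU := fun z hz => lt_of_lt_of_le hY0 hz
    have hbound : ∀ z ∈ S, ‖G (ofComplex z) - h39jNeg M p z - PowerSeries.coeff M p‖ ≤ ε := by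
      intro z hz
      have hzU := hSU z hz
      set τ : ℍ := ofComplex z with hτ
      have hτz : (τ : ℂ) = z := by
        rw [hτ, ofComplex_apply_of_im_pos hzU]
      have hτim : τ.im = z.im := by
        rw [← hτz]
        rfl
      have hzY : Y ≤ τ.im := by rw [hτim]; exact hz
      have e : G τ - h39jNeg M p z - PowerSeries.coeff M p
          = (G τ - H τ) + (gM τ - a 0) := by
        have e0 : gM τ = H τ - h39jNeg M p z := by
          rw [hgM]
          simp only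
          rw [hτz]
        rw [e0, ha0]
        ring
      rw [e]
      have b1 : ‖G τ - H τ‖ ≤ ε / 2 := hA1 τ (le_trans hY1 hzY)
      have b2 : ‖gM τ - a 0‖ ≤ ε / 2 := by
        have h1 := hC τ (le_trans hY3 hzY)
        rw [Fermat.Agent.S28.LevelOne.norm_tParam_one] at h1
        have h2 : C * Real.exp (-2 * Real.pi * τ.im) ≤ C * Real.exp (-2 * Real.pi * Y) := by
          refine mul_le_mul_of_nonneg_left ?_ hC0
          apply Real.exp_le_exp.mpr
          have : 0 < Real.pi := Real.pi_pos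
          nlinarith
        have h3 := hA2 Y hY2
        linarith
      calc ‖(G τ - H τ) + (gM τ - a 0)‖ ≤ ‖G τ - H τ‖ + ‖gM τ - a 0‖ := norm_add_le _ _
        _ ≤ ε := by linarith
    have hz1 : ((Y : ℂ) * Complex.I) ∈ S := by
      show Y ≤ ((Y : ℂ) * Complex.I).im
      simp
    have hz2 : ((Y : ℂ) * Complex.I + 1) ∈ S := by
      show Y ≤ ((Y : ℂ) * Complex.I + 1).im
      simp
    have hmv := Convex.norm_image_sub_le_of_norm_hasDerivWithin_le
      (f := Ψ) (f' := fun z => G (ofComplex z) - h39jNeg M p z - PowerSeries.coeff M p)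
      (s := S) (C := ε)
      (fun z hz => (hΨd z (hSU z hz)).hasDerivWithinAt) hbound hSconv hz1 hz2
    have e1 : Ψ ((Y : ℂ) * Complex.I + 1) - Ψ ((Y : ℂ) * Complex.I)
        = - PowerSeries.coeff M p := by
      rw [hΨ]
      simp only
      rw [hΦper _ (hSU _ hz1), h39j_negPrim_periodic]
      ring
    have e2 : ((Y : ℂ) * Complex.I + 1) - ((Y : ℂ) * Complex.I) = 1 := by ring
    rw [e1, e2, norm_neg, norm_one, mul_one] at hmv
    exact hmv
  have hle : ‖PowerSeries.coeff M p‖ ≤ 0 := by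
    refine le_of_forall_pos_le_add fun ε hε => ?_
    rw [zero_add]
    exact key ε hε
  exact norm_le_zero_iff.mp hle

end Fermat.Agent.P7
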