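import Fermat.Agent.P7.H7CuspOrthQ
import Fermat.Agent.S28.ADefs

/-!
# Wave 7, DLOG leaf DL5 (CUSP-ORTH): consumer form (helper7, prefix `h7co_`)

* `H7coAn N f A` : `A : ℍ → ℂ` is a holomorphic `Γ₀(N)`-invariant function with Laurent
  expansion `f` at the cusp `∞` (`S28.HasTExp 1 A f`) which is bounded at `i∞` after translation
  by every `g ∈ SL(2, ℤ)` outside `Γ₀(N)` (= regular at the cusps different from `∞`).
* `h7co_cuspOrth` : for such an `A` and every weight two cusp form `h` on `Γ₀(N)` the constant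
  term of `f * qExpansion 1 h` vanishes.

The DICTIONARY (every `f` in the function field which is regular at all places except the cusp
`∞` has such an `A`) is a separate leaf.
-/

set_option autoImplicit false

open UpperHalfPlane ModularForm CongruenceSubgroup Matrix.SpecialLinearGroup
open scoped MatrixGroups Manifold

noncomputable section

namespace Fermat.Agent.P7

open Fermat.Agent.S28 (HasTExp tParam)

/-- `A` is an analytic representative, regular off the cusp `∞`, of the Laurent series `f`. -/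
structure H7coAn (N : ℕ) (f : LaurentSeries ℂ) (A : ℍ → ℂ) : Prop where
  holo : MDiff A
  inv : ∀ γ ∈ Gamma0 N, ∀ τ : ℍ, A (γ • τ) = A τ
  exp : HasTExp 1 A f
  bdd : ∀ g : SL(2, ℤ), g ∉ Gamma0 N → IsBoundedAtImInfty (fun τ : ℍ => A (g • τ))

/-- **DL5 (CUSP-ORTH), consumer form.** -/
theorem h7co_cuspOrth (N : ℕ) [NeZero N] (h : CuspForm (Gamma0 N) 2) (f : LaurentSeries ℂ)
    (A : ℍ → ℂ) (hA : H7coAn N f A) :
    (f * HahnSeries.ofPowerSeries ℤ ℂ (qExpansion 1 h)).coeff 0 = 0 := by
  obtain ⟨M, p, hf, hsum⟩ := hA.exp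
  have hexp : ∀ τ : ℍ, HasSum
      (fun n : ℕ => PowerSeries.coeff n p * Function.Periodic.qParam 1 (τ : ℂ) ^ n)
      (A τ * Function.Periodic.qParam 1 (τ : ℂ) ^ M) := by
    intro τ
    have := hsum τ
    simpa [tParam] using this
  have hcore := h7co_core N h A hA.holo hA.inv M p hexp hA.bdd
  rw [hf, mul_assoc, ← map_mul]
  have e : (0 : ℤ) = (M : ℤ) + (-(M : ℤ)) := by ring
  rw [e, HahnSeries.coeff_single_mul_add, one_mul, HahnSeries.ofPowerSeries_apply_coeff]
  exact hcore

end Fermat.Agent.P7
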