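import Mathlib
import Fermat.Agent.P7.H14Wt2Const
import Fermat.Agent.P7.H39CuspOrth
import Fermat.Agent.P7.H7CuspOrth
import Fermat.Agent.P7.H96Dlog
import Fermat.Agent.S28.TExp

/-!
# Wave 7 (row 38), DLOG, leaf (R0), analytic form (helper24, prefix `h24r_`)

For two holomorphic `Γ₀(N)`-invariant functions `A`, `B` on the upper half plane which are regular
at all cusps different from `∞` (`H7coAn`), with expansions `f`, `g` at `∞`, the constant term of
`f · θ g` (`θ = q d/dq`) vanishes: the differential `A dB` has no residue at `∞`.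

* `h24r_hasTExp_D` : termwise derivative, `HasTExp 1 G s → HasTExp 1 (D G) (θ s)`;
* `h24r_isZero_D` : the derivative of a holomorphic function bounded at `i∞` tends to `0` at `i∞`
  (Cauchy estimate);
* `h24r_R0an` : the residue statement, from helper39's `h39j_core` applied to `H = A · D B`.
-/

set_option autoImplicit false
set_option linter.unusedSectionVars false
set_option linter.style.haveILetI false

open UpperHalfPlane ModularForm CongruenceSubgroup Function.Periodic Filter Topology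
open scoped MatrixGroups Manifold

noncomputable section

namespace Fermat.Agent.P7

open Fermat.Agent.S28 (HasTExp tParam)

/-- **termwise derivative of an expansion at the cusp `∞`.** -/
theorem h24r_hasTExp_D {G : ℍ → ℂ} {s : LaurentSeries ℂ} (hs : HasTExp 1 G s) :
    HasTExp 1 (Derivative.normalizedDerivOfComplex G) (h96dTheta s) := by
  obtain ⟨M, p, rfl, hsum⟩ := hs
  set c : ℕ → ℂ := fun n => PowerSeries.coeff n p with hc
  have hsum' : ∀ τ : ℍ, HasSum (fun n : ℕ => c n * qParam ((1 : ℕ) : ℝ) (τ : ℂ) ^ n)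
      (G τ * qParam ((1 : ℕ) : ℝ) (τ : ℂ) ^ M) := hsum
  have h1r : (0 : ℝ) < ((1 : ℕ) : ℝ) := by norm_num
  -- convergence on the unit disc
  have hp : ∀ z : ℂ, ‖z‖ < 1 → Summable (fun n => c n * z ^ n) := by
    intro z hz
    rcases eq_or_ne z 0 with h0 | h0
    · subst h0
      refine summable_of_ne_finset_zero (s := {0}) (fun n hn => ?_)
      have hn0 : n ≠ 0 := by simpa using hn
      simp [hn0]
    · have him : 0 < (invQParam ((1 : ℕ) : ℝ) z).im := by
        rw [im_invQParam]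
        have h1 : Real.log ‖z‖ < 0 := Real.log_neg (norm_pos_iff.2 h0) hz
        have h2 : -((1 : ℕ) : ℝ) / (2 * Real.pi) < 0 :=
          div_neg_of_neg_of_pos (neg_lt_zero.2 h1r) (by positivity)
        exact mul_pos_of_neg_of_neg h2 h1
      have h3 := (hsum' ⟨invQParam ((1 : ℕ) : ℝ) z, him⟩).summable
      have h4 : qParam ((1 : ℕ) : ℝ) ((⟨invQParam ((1 : ℕ) : ℝ) z, him⟩ : ℍ) : ℂ) = z :=
        qParam_right_inv h1r.ne' h0
      rw [h4] at h3
      exact h3
  refine ⟨M, PowerSeries.mk (fun n => ((n : ℂ) - M) * c n), ?_, fun τ => ?_⟩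
  · -- the series identity
    ext k
    rw [h96d_coeff_theta]
    rcases lt_or_ge k (-(M : ℤ)) with hk | hk
    · rw [Fermat.Agent.S28.coeff_single_mul_ofPowerSeries_of_lt _ _ hk,
        Fermat.Agent.S28.coeff_single_mul_ofPowerSeries_of_lt _ _ hk, mul_zero]
    · obtain ⟨n, hn⟩ : ∃ n : ℕ, k = -(M : ℤ) + n := ⟨(k + M).toNat, by omega⟩
      rw [hn, Fermat.Agent.S28.coeff_single_mul_ofPowerSeries,
        Fermat.Agent.S28.coeff_single_mul_ofPowerSeries, PowerSeries.coeff_mk]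
      push_cast
      ring
  · -- the sum
    show HasSum (fun n : ℕ => PowerSeries.coeff n (PowerSeries.mk (fun n => ((n : ℂ) - M) * c n)) *
        qParam ((1 : ℕ) : ℝ) (τ : ℂ) ^ n)
      (Derivative.normalizedDerivOfComplex G τ * qParam ((1 : ℕ) : ℝ) (τ : ℂ) ^ M)
    have hw1 : ‖qParam ((1 : ℕ) : ℝ) (τ : ℂ)‖ < 1 := norm_qParam_lt_one h1r τ.im_pos
    have hw0 : qParam ((1 : ℕ) : ℝ) (τ : ℂ) ≠ 0 := qParam_ne_zero _
    obtain ⟨hd, hdiff⟩ := h14k_series_deriv c hp _ hw1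
    have hP : HasDerivAt (fun z : ℂ => ∑' n, c n * z ^ n)
        (deriv (fun z : ℂ => ∑' n, c n * z ^ n) (qParam ((1 : ℕ) : ℝ) (τ : ℂ)))
        (qParam ((1 : ℕ) : ℝ) (τ : ℂ)) := hdiff.hasDerivAt
    have hq := h14k_hasDerivAt_qParam 1 (τ : ℂ)
    have hPq : HasDerivAt (fun z : ℂ => (fun z : ℂ => ∑' n, c n * z ^ n) (qParam ((1 : ℕ) : ℝ) z))
        (deriv (fun z : ℂ => ∑' n, c n * z ^ n) (qParam ((1 : ℕ) : ℝ) (τ : ℂ)) *
          (2 * Real.pi * Complex.I / ((1 : ℕ) : ℂ) * qParam ((1 : ℕ) : ℝ) (τ : ℂ))) (τ : ℂ) :=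
      hP.comp (τ : ℂ) hq
    have hpw : HasDerivAt (fun z : ℂ => qParam ((1 : ℕ) : ℝ) z ^ M)
        ((M : ℂ) * qParam ((1 : ℕ) : ℝ) (τ : ℂ) ^ (M - 1) *
          (2 * Real.pi * Complex.I / ((1 : ℕ) : ℂ) * qParam ((1 : ℕ) : ℝ) (τ : ℂ))) (τ : ℂ) :=
      hq.pow M
    have hqM : qParam ((1 : ℕ) : ℝ) (τ : ℂ) ^ M ≠ 0 := pow_ne_zero M hw0
    have hdiv := hPq.fun_div hpw hqM
    have hev : (G ∘ ofComplex) =ᶠ[𝓝 (τ : ℂ)] fun z : ℂ =>
        (fun z : ℂ => ∑' n, c n * z ^ n) (qParam ((1 : ℕ) : ℝ) z) /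
          qParam ((1 : ℕ) : ℝ) z ^ M := by
      filter_upwards [isOpen_upperHalfPlaneSet.mem_nhds τ.im_pos] with z hz
      have h5 := (hsum' ⟨z, hz⟩).tsum_eq
      simp only [Function.comp_apply, ofComplex_apply_of_im_pos hz]
      rw [eq_div_iff (pow_ne_zero _ (qParam_ne_zero _))]
      exact h5.symm
    have hderiv := (hdiv.congr_of_eventuallyEq hev).deriv
    beta_reduce at hderiv
    have hrel : (M : ℂ) * qParam ((1 : ℕ) : ℝ) (τ : ℂ) ^ (M - 1) * qParam ((1 : ℕ) : ℝ) (τ : ℂ)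
        = (M : ℂ) * qParam ((1 : ℕ) : ℝ) (τ : ℂ) ^ M := by
      rcases Nat.eq_zero_or_pos M with hM | hM
      · subst hM; simp
      · rw [mul_assoc, ← pow_succ, Nat.sub_add_cancel hM]
    -- the two sums
    have h1 : HasSum (fun n : ℕ => (n : ℂ) * c n * qParam ((1 : ℕ) : ℝ) (τ : ℂ) ^ n)
        (qParam ((1 : ℕ) : ℝ) (τ : ℂ) *
          deriv (fun z : ℂ => ∑' n, c n * z ^ n) (qParam ((1 : ℕ) : ℝ) (τ : ℂ))) := by
      have h6 := hd.mul_left (qParam ((1 : ℕ) : ℝ) (τ : ℂ))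
      have e : (fun n : ℕ => qParam ((1 : ℕ) : ℝ) (τ : ℂ) *
          ((n : ℂ) * c n * qParam ((1 : ℕ) : ℝ) (τ : ℂ) ^ (n - 1))) =
          fun n : ℕ => (n : ℂ) * c n * qParam ((1 : ℕ) : ℝ) (τ : ℂ) ^ n := by
        funext n
        rcases Nat.eq_zero_or_pos n with hn | hn
        · subst hn; simp
        · have h7 : qParam ((1 : ℕ) : ℝ) (τ : ℂ) ^ n =
              qParam ((1 : ℕ) : ℝ) (τ : ℂ) ^ (n - 1) * qParam ((1 : ℕ) : ℝ) (τ : ℂ) := by
            rw [← pow_succ, Nat.sub_add_cancel hn]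
          rw [h7]
          ring
      rw [e] at h6
      exact h6
    have h2 : HasSum (fun n : ℕ => (M : ℂ) * (c n * qParam ((1 : ℕ) : ℝ) (τ : ℂ) ^ n))
        ((M : ℂ) * ∑' n, c n * qParam ((1 : ℕ) : ℝ) (τ : ℂ) ^ n) :=
      ((hp _ hw1).hasSum).mul_left _
    have h3 := h1.sub h2
    have e3 : (fun n : ℕ => PowerSeries.coeff n (PowerSeries.mk (fun n => ((n : ℂ) - M) * c n)) *
        qParam ((1 : ℕ) : ℝ) (τ : ℂ) ^ n) =
        fun n : ℕ => (n : ℂ) * c n * qParam ((1 : ℕ) : ℝ) (τ : ℂ) ^ n -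
          (M : ℂ) * (c n * qParam ((1 : ℕ) : ℝ) (τ : ℂ) ^ n) := by
      funext n
      rw [PowerSeries.coeff_mk]
      ring
    rw [e3]
    have e4 : Derivative.normalizedDerivOfComplex G τ * qParam ((1 : ℕ) : ℝ) (τ : ℂ) ^ M =
        qParam ((1 : ℕ) : ℝ) (τ : ℂ) *
          deriv (fun z : ℂ => ∑' n, c n * z ^ n) (qParam ((1 : ℕ) : ℝ) (τ : ℂ)) -
        (M : ℂ) * ∑' n, c n * qParam ((1 : ℕ) : ℝ) (τ : ℂ) ^ n := by
      unfold Derivative.normalizedDerivOfComplex
      rw [hderiv]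
      have hpi : (2 * (Real.pi : ℂ) * Complex.I) ≠ 0 := Complex.two_pi_I_ne_zero
      generalize qParam ((1 : ℕ) : ℝ) (τ : ℂ) ^ (M - 1) = Y at hrel ⊢
      generalize qParam ((1 : ℕ) : ℝ) (τ : ℂ) ^ M = X at hrel hqM ⊢
      generalize deriv (fun z : ℂ => ∑' n, c n * z ^ n) (qParam ((1 : ℕ) : ℝ) (τ : ℂ)) = F' at *
      generalize (∑' n, c n * qParam ((1 : ℕ) : ℝ) (τ : ℂ) ^ n) = F0 at *
      generalize qParam ((1 : ℕ) : ℝ) (τ : ℂ) = Q at *
      simp only [Nat.cast_one, div_one]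
      field_simp
      linear_combination (-F0) * hrel
    rw [e4]
    exact h3

/-- **Cauchy estimate**: the derivative of a holomorphic function which is bounded at `i∞` tends
to `0` at `i∞`. -/
theorem h24r_isZero_D {F : ℍ → ℂ} (hF : MDiff F) (hb : IsBoundedAtImInfty F) :
    IsZeroAtImInfty (Derivative.normalizedDerivOfComplex F) := by
  rw [UpperHalfPlane.isBoundedAtImInfty_iff] at hb
  obtain ⟨C, Y₀, hC⟩ := hb
  rw [UpperHalfPlane.isZeroAtImInfty_iff]
  intro ε hε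
  have hFd : DifferentiableOn ℂ (F ∘ ofComplex) {z : ℂ | 0 < z.im} :=
    UpperHalfPlane.mdifferentiable_iff.1 hF
  have hpi : (0 : ℝ) < Real.pi := Real.pi_pos
  refine ⟨max (2 * max Y₀ 1) (|C| / (Real.pi * ε)), fun τ hτ => ?_⟩
  have hτ1 : 2 * max Y₀ 1 ≤ τ.im := le_trans (le_max_left _ _) hτ
  have hτ2 : |C| / (Real.pi * ε) ≤ τ.im := le_trans (le_max_right _ _) hτ
  have hY1 : (1 : ℝ) ≤ max Y₀ 1 := le_max_right _ _
  have hY0 : Y₀ ≤ max Y₀ 1 := le_max_left _ _
  have him : 0 < τ.im := τ.im_pos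
  set R : ℝ := τ.im / 2 with hR
  have hR0 : 0 < R := by rw [hR]; linarith
  -- points of the closed ball
  have hball : ∀ z ∈ Metric.closedBall (τ : ℂ) R, max Y₀ 1 ≤ z.im := by
    intro z hz
    rw [Metric.mem_closedBall, Complex.dist_eq] at hz
    have h1 : |(z - (τ : ℂ)).im| ≤ ‖z - (τ : ℂ)‖ := Complex.abs_im_le_norm _
    have h2 : -(R) ≤ (z - (τ : ℂ)).im := by
      have := neg_abs_le ((z - (τ : ℂ)).im)
      linarith
    rw [Complex.sub_im] at h2
    have h3 : ((τ : ℂ)).im = τ.im := rfl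
    rw [h3] at h2
    rw [hR] at h2
    linarith
  have hd : DiffContOnCl ℂ (F ∘ ofComplex) (Metric.ball (τ : ℂ) R) := by
    refine hFd.diffContOnCl_ball (fun z hz => ?_)
    have := hball z hz
    show 0 < z.im
    linarith
  have hsph : ∀ z ∈ Metric.sphere (τ : ℂ) R, ‖(F ∘ ofComplex) z‖ ≤ |C| := by
    intro z hz
    have hz' : z ∈ Metric.closedBall (τ : ℂ) R := Metric.sphere_subset_closedBall hz
    have h1 := hball z hz'
    have hzim : 0 < z.im := by linarith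
    rw [Function.comp_apply, ofComplex_apply_of_im_pos hzim]
    refine le_trans (hC ⟨z, hzim⟩ ?_) (le_abs_self C)
    show Y₀ ≤ z.im
    linarith
  have hcauchy := Complex.norm_deriv_le_of_forall_mem_sphere_norm_le hR0 hd hsph
  unfold Derivative.normalizedDerivOfComplex
  rw [norm_mul, norm_inv]
  have hn : ‖(2 * (Real.pi : ℂ) * Complex.I)‖ = 2 * Real.pi := by
    rw [norm_mul, norm_mul, Complex.norm_I, mul_one, Complex.norm_real, Real.norm_eq_abs,
      abs_of_pos hpi]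
    simp
  rw [hn]
  have h4 : (2 * Real.pi)⁻¹ * ‖deriv (F ∘ ofComplex) (τ : ℂ)‖ ≤ (2 * Real.pi)⁻¹ * (|C| / R) :=
    mul_le_mul_of_nonneg_left hcauchy (by positivity)
  refine le_trans h4 ?_
  have h5 : |C| ≤ τ.im * (Real.pi * ε) := by
    have := (div_le_iff₀ (by positivity : (0 : ℝ) < Real.pi * ε)).1 hτ2
    linarith
  rw [hR]
  have h6 : (2 * Real.pi)⁻¹ * (|C| / (τ.im / 2)) = |C| / (τ.im * Real.pi) := by
    field_simp
  rw [h6, div_le_iff₀ (by positivity : (0 : ℝ) < τ.im * Real.pi)]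
  linarith [h5]

/-- the slash action of weight `0` is composition. -/
theorem h24r_slash_zero (F : ℍ → ℂ) (γ : SL(2, ℤ)) :
    F ∣[(0 : ℤ)] γ = fun τ : ℍ => F (γ • τ) := by
  ext τ
  rw [ModularForm.SL_slash_apply]
  simp

/-- translates of a holomorphic function are holomorphic. -/
theorem h24r_mdiff_comp {F : ℍ → ℂ} (hF : MDiff F) (γ : SL(2, ℤ)) :
    MDiff (fun τ : ℍ => F (γ • τ)) := by
  have h : MDiff (F ∣[(0 : ℤ)] γ) := by
    rw [ModularForm.SL_slash]
    exact hF.slash 0 _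
  rwa [h24r_slash_zero] at h

/-- **(R0), analytic form**: the differential `A dB` has no residue at the cusp `∞`. -/
theorem h24r_R0an (N : ℕ) [NeZero N] (f g : LaurentSeries ℂ) (A B : ℍ → ℂ)
    (hA : H7coAn N f A) (hB : H7coAn N g B) : (f * h96dTheta g).coeff 0 = 0 := by
  have hDB : MDiff (Derivative.normalizedDerivOfComplex B) :=
    Derivative.normalizedDerivOfComplex_mdifferentiable hB.holo
  have hslash : ∀ γ : SL(2, ℤ), (A * Derivative.normalizedDerivOfComplex B) ∣[(2 : ℤ)] γ =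
      (fun τ : ℍ => A (γ • τ)) *
        Derivative.normalizedDerivOfComplex (fun τ : ℍ => B (γ • τ)) := by
    intro γ
    have h1 : (A * Derivative.normalizedDerivOfComplex B) ∣[((0 : ℤ) + 2)] γ =
        (A ∣[(0 : ℤ)] γ) * (Derivative.normalizedDerivOfComplex B ∣[(2 : ℤ)] γ) :=
      ModularForm.mul_slash_SL2 0 2 γ A (Derivative.normalizedDerivOfComplex B)
    have h2 := Derivative.normalizedDerivOfComplex_SL_slash (k := 0) hB.holo (γ := γ)
    have h3 : Derivative.normalizedDerivOfComplex (B ∣[(0 : ℤ)] γ) =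
        Derivative.normalizedDerivOfComplex B ∣[(2 : ℤ)] γ := by
      rw [h2]
      ext τ
      simp
    rw [zero_add] at h1
    rw [h1, ← h3, h24r_slash_zero, h24r_slash_zero]
  refine h39j_core N (A * Derivative.normalizedDerivOfComplex B) (hA.holo.mul hDB) ?_
    (f * h96dTheta g) (hA.exp.mul one_pos (h24r_hasTExp_D hB.exp)) ?_
  · intro γ hγ
    rw [hslash γ]
    have e1 : (fun τ : ℍ => A (γ • τ)) = A := funext (hA.inv γ hγ)
    have e2 : (fun τ : ℍ => B (γ • τ)) = B := funext (hB.inv γ hγ)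
    rw [e1, e2]
  · intro γ hγ
    rw [hslash γ, mul_comm]
    exact (h24r_isZero_D (h24r_mdiff_comp hB.holo γ) (hB.bdd γ hγ)).mul_boundedAtFilter
      (hA.bdd γ hγ)

end Fermat.Agent.P7
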