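import Fermat.Agent.P7.H24ResZero
import Fermat.Agent.P7.H7CuspOrthDict
import Fermat.Agent.P7.H39DictBar

/-!
# Wave 7 (row 38), DLOG, leaf (R0) at the level `FF N` (helper24, prefix `h24r_`)

For `f, g` in the function field `FF N` of `X₀(N)` over `ℚ̄` which are regular at every place
different from the `q`-order place `∞`, the constant term of `f · θ g` (`θ = q d/dq` on
`q`-expansions) vanishes: the differential `f dg` has no residue at `∞`.

* `h24r_R0_C` : the same over `ℂ` (`FC N`), from `h24r_R0an` + helper7's dictionary `h7co_dict`;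
* `h24r_R0_FF` : over `ℚ̄`, by helper39's adapter `h39b_adapter`.
-/

set_option autoImplicit false
set_option linter.unusedSectionVars false
set_option linter.style.haveILetI false

open ModularCurve AlgebraicCurve UpperHalfPlane CongruenceSubgroup
open scoped MatrixGroups Manifold

noncomputable section

namespace Fermat.Agent.P7

open Fermat.Agent.S24 (Kbar FF embC jBar)
open Fermat.Agent.Jac (FC jC)

/-- `x ∈ FF N` is regular at every place different from the `q`-order place. -/
def H24rRegOff (N : ℕ) (x : FF N) : Prop :=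
  ∀ w : Place Kbar (FF N),
    (∃ f : FF N, f ≠ 0 ∧ w.ord f ≠ (f : LaurentSeries Kbar).order) → 0 ≤ w.ord x

/-- `θ` commutes with a change of coefficients. -/
theorem h24r_coeffMap_theta {K L : Type*} [Field K] [Field L] (φ : K →+* L)
    (x : LaurentSeries K) : coeffMap φ (h96dTheta x) = h96dTheta (coeffMap φ x) := by
  ext n
  rw [coeffMap_coeff, h96d_coeff_theta, h96d_coeff_theta, coeffMap_coeff, map_mul, map_intCast]

/-- **(R0) over `ℂ`.** -/
theorem h24r_R0_C (N : ℕ) [NeZero N] (F G : FC N) (hF : H7coRegOff N F) (hG : H7coRegOff N G) :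
    ((F : LaurentSeries ℂ) * h96dTheta (G : LaurentSeries ℂ)).coeff 0 = 0 := by
  obtain ⟨A, hA, -⟩ := h7co_dict N F hF
  obtain ⟨B, hB, -⟩ := h7co_dict N G hG
  exact h24r_R0an N _ _ A B hA hB

/-- **(R0) over `ℚ̄`**: for `f, g ∈ FF N` regular off `∞`, the constant term of `f · θ g`
vanishes. -/
theorem h24r_R0_FF (N : ℕ) [NeZero N] (f g : FF N) (hf : H24rRegOff N f) (hg : H24rRegOff N g) :
    ((f : LaurentSeries Kbar) * h96dTheta (g : LaurentSeries Kbar)).coeff 0 = 0 := by
  have hF : H7coRegOff N (h39bBC N f) := h39b_adapter N f (h39bBC N f) rfl hf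
  have hG : H7coRegOff N (h39bBC N g) := h39b_adapter N g (h39bBC N g) rfl hg
  have h := h24r_R0_C N _ _ hF hG
  rw [h39b_coe_BC, h39b_coe_BC, ← h24r_coeffMap_theta, ← map_mul, coeffMap_coeff] at h
  exact (map_eq_zero_iff embC (RingHom.injective _)).1 h

end Fermat.Agent.P7
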