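import Fermat.Agent.P7.H96Sep
import Fermat.Agent.P5.H26GenusFinal
import Fermat.Agent.S28.RAsm

/-!
# Wave 7, block (A) of T-TORIC, DLOG route, leaf DL1 SEP at the special fibre (helper96)

`p` a prime, `M` a good level (`p ∤ M`, `auxLevel p ∣ M`), `A` a valuation subring of `ℚ̄` over
`p`, `kC = h13sFt A M ⊆ k((q))` the function field of the special fibre.

* `h96e_order_j` : the `q`-expansion of `j̄ = h26sJ A M` has order `-1`.
* `h96e_sep_special` : `ū ∈ kC` with `θ ū = 0` (i.e. `ū ∈ k((q^p))`) is a `p`-th power in `kC`.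
* `h96e_sep_special'` : the same from the vanishing of the coefficients.
-/

set_option autoImplicit false
set_option linter.style.haveILetI false
set_option linter.unusedSectionVars false

open AlgebraicCurve ModularCurve

noncomputable section

namespace Fermat.Agent.P7

open Fermat.Agent.S37 Fermat.Agent.Red.GV Fermat.Agent.P5

/-- the `q`-expansion of `j̄` has order `-1`. -/
theorem h96e_order_j (A : ValuationSubring Kbar) (M : ℕ) [NeZero M] :
    (h13sIncl A M (h26sJ A M)).order = -1 := by
  have h1 : h13sIncl A M (h26sJ A M) = jqModC (IsLocalRing.ResidueField A) := by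
    rw [h26sJ, h13sIncl_red]
    exact gaussR_jB A M
  rw [h1]
  exact Fermat.Agent.S28.Asm.order_jqModC' _

/-- **SEP at the special fibre.** -/
theorem h96e_sep_special {p : ℕ} (hp : p.Prime) (M : ℕ) [NeZero M] (hM : ¬ p ∣ M)
    (haux : auxLevel p ∣ M) (A : ValuationSubring Kbar) (hA : A.LiesOverPrime p)
    (u : h13sFt A M) (hu : h96dTheta (h13sIncl A M u) = 0) :
    ∃ w : h13sFt A M, u = w ^ p := by
  haveI : Fact p.Prime := ⟨hp⟩
  haveI : CharP (h13sK A) p :=
    (Base.h80_charP A (IsLocalRing.residue A) p (isResidueMap_residue A p hA) :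
      CharP (IsLocalRing.ResidueField A) p)
  haveI : IsAlgClosed (h13sK A) := Fermat.Agent.S18.h72_residueField_isAlgClosed A
  have hk : ∀ a : h13sK A, ∃ b : h13sK A, b ^ p = a := fun a =>
    IsAlgClosed.exists_pow_nat_eq a hp.pos
  haveI : FiniteDimensional (IntermediateField.adjoin (h13sK A) {h26sJ A M}) (h13sFt A M) :=
    (h26s_rest hp M hM haux A hA).2.2
  have ht : ¬ (p : ℤ) ∣ (h13sIncl A M (h26sJ A M)).order := by
    rw [h96e_order_j]
    intro h
    have h1 : (p : ℤ) ∣ 1 := (dvd_neg.mp h)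
    have h2 : p ∣ 1 := by exact_mod_cast h1
    exact hp.one_lt.ne' (Nat.dvd_one.mp h2)
  exact h96e_sep p hk (h13sIncl A M) (h26sJ A M) ht u hu

/-- **SEP at the special fibre**, coefficient form. -/
theorem h96e_sep_special' {p : ℕ} (hp : p.Prime) (M : ℕ) [NeZero M] (hM : ¬ p ∣ M)
    (haux : auxLevel p ∣ M) (A : ValuationSubring Kbar) (hA : A.LiesOverPrime p)
    (u : h13sFt A M) (hu : ∀ n : ℤ, ¬ (p : ℤ) ∣ n → (h13sIncl A M u).coeff n = 0) :
    ∃ w : h13sFt A M, u = w ^ p := by
  haveI : Fact p.Prime := ⟨hp⟩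
  haveI : CharP (h13sK A) p :=
    (Base.h80_charP A (IsLocalRing.residue A) p (isResidueMap_residue A p hA) :
      CharP (IsLocalRing.ResidueField A) p)
  exact h96e_sep_special hp M hM haux A hA u ((h96d_theta_eq_zero_iff p _).mpr hu)

end Fermat.Agent.P7
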