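import Mathlib
import Fermat.Agent.P7.H96SepInst

/-!
# Wave 7, block (A), route DLOG: the field fact (HP) `F = F ^ p (t)` (helper25, prefix `h25h_`)

`F` a field of characteristic `p`, `δ : F → V` a derivation over `ι : F →+* V` (`V` a domain).

* `h25h_ker` : if `δ t ≠ 0`, the powers `1, t, …, t ^ (p - 1)` are linearly independent over
  `F ^ p` (differentiate a relation of minimal degree).
* `h25h_surj` : if `F = F ^ p (t₀)` and `1, t, …, t ^ (p - 1)` are independent over `F ^ p`,
  then `F = F ^ p (t)` (matrix of the coordinates of the `t ^ j`).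
* `h25h_HP` : in the frame of helper96's `h96e_decomp` / `h96e_sep` (`F ⊆ k((q))`,
  `p ∤ ord t₀`, `F` finite over `k(t₀)`): `F = F ^ p (t)` for EVERY `t` which is not a `p`-th
  power.
* `h25h_HP_special` : the special fibre `kC = h13sFt A M` at a good level.

This is the hypothesis (HP) of `h25l_orth` (`P7/H25DlogLoc.lean`).
-/

set_option autoImplicit false
set_option linter.style.haveILetI false
set_option linter.unusedSectionVars false

open AlgebraicCurve ModularCurve

noncomputable section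

namespace Fermat.Agent.P7

section Abs

variable {F : Type*} [Field F] {p : ℕ} [hp : Fact p.Prime] [CharP F p]

/-- **independence.**  `δ` a derivation over `ι` with `δ t ≠ 0`: a relation
`∑_{j < n} c_j ^ p t ^ j = 0`, `n ≤ p`, is trivial. -/
theorem h25h_ker {V : Type*} [CommRing V] [IsDomain V] (ι : F →+* V) (δ : F → V)
    (hadd : ∀ x y, δ (x + y) = δ x + δ y)
    (hmul : ∀ x y, δ (x * y) = ι x * δ y + ι y * δ x)
    (t : F) (hδt : δ t ≠ 0) :
    ∀ n : ℕ, n ≤ p → ∀ c : ℕ → F, ∑ j ∈ Finset.range n, c j ^ p * t ^ j = 0 →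
      ∀ j, j < n → c j = 0 := by
  have hd0 : δ 0 = 0 := by
    have h := hadd 0 0
    rw [add_zero] at h
    exact left_eq_add.mp h
  have hd1 : δ 1 = 0 := by
    have h := hmul 1 1
    rw [mul_one, map_one, one_mul] at h
    exact left_eq_add.mp h
  have hpV : (p : V) = 0 := by
    have h := map_natCast ι p
    rw [CharP.cast_eq_zero F p, map_zero] at h
    exact h.symm
  have hdpow : ∀ (x : F) (n : ℕ), δ (x ^ n) = (n : V) * ι x ^ (n - 1) * δ x := by
    intro x n
    induction n with
    | zero => simp [hd1]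
    | succ n ih =>
      rw [pow_succ, hmul, ih, map_pow]
      rcases Nat.eq_zero_or_pos n with rfl | hn
      · simp
      · obtain ⟨m, rfl⟩ : ∃ m, n = m + 1 := ⟨n - 1, by omega⟩
        simp only [Nat.add_sub_cancel, Nat.cast_add, Nat.cast_one]
        ring
  have hdsum : ∀ (s : Finset ℕ) (a : ℕ → F), δ (∑ i ∈ s, a i) = ∑ i ∈ s, δ (a i) := by
    intro s a
    induction s using Finset.induction_on with
    | empty => simpa using hd0
    | insert i s hi ih => rw [Finset.sum_insert hi, Finset.sum_insert hi, hadd, ih]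
  intro n
  induction n with
  | zero => intro _ c _ j hj; omega
  | succ n ih =>
    intro hn c hc
    -- differentiate
    have h1 : δ (∑ j ∈ Finset.range (n + 1), c j ^ p * t ^ j) = 0 := by rw [hc, hd0]
    rw [hdsum] at h1
    have h2 : ∀ j, δ (c j ^ p * t ^ j) = ι (c j ^ p * (j : F) * t ^ (j - 1)) * δ t := by
      intro j
      rw [hmul, hdpow (c j) p, hpV, zero_mul, zero_mul, mul_zero, add_zero, hdpow t j]
      simp only [map_mul, map_pow, map_natCast]
      ring
    rw [Finset.sum_congr rfl fun j _ => h2 j, ← Finset.sum_mul] at h1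
    have h3 : ∑ j ∈ Finset.range (n + 1), ι (c j ^ p * (j : F) * t ^ (j - 1)) = 0 :=
      (mul_eq_zero.1 h1).resolve_right hδt
    rw [← map_sum] at h3
    have h4 : ∑ j ∈ Finset.range (n + 1), c j ^ p * (j : F) * t ^ (j - 1) = 0 :=
      ι.injective (by rw [h3, map_zero])
    rw [Finset.sum_range_succ'] at h4
    simp only [Nat.cast_zero, mul_zero, zero_mul, add_zero, Nat.add_sub_cancel] at h4
    have h5 : ∑ i ∈ Finset.range n, (((i + 1 : ℕ) : F) * c (i + 1)) ^ p * t ^ i = 0 := by
      rw [← h4]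
      refine Finset.sum_congr rfl fun i _ => ?_
      have h6 : (((i + 1 : ℕ) : F)) ^ p = ((i + 1 : ℕ) : F) := by
        have := map_natCast (frobenius F p) (i + 1)
        rwa [frobenius_def] at this
      rw [mul_pow, h6]
      ring
    have h7 := ih (by omega) (fun i => ((i + 1 : ℕ) : F) * c (i + 1)) h5
    have h8 : ∀ j, 1 ≤ j → j < n + 1 → c j = 0 := by
      intro j hj1 hj2
      obtain ⟨i, rfl⟩ : ∃ i, j = i + 1 := ⟨j - 1, by omega⟩
      have h9 := h7 i (by omega)
      have h10 : ((i + 1 : ℕ) : F) ≠ 0 := by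
        rw [Ne, CharP.cast_eq_zero_iff F p]
        intro hdvd
        have := Nat.le_of_dvd (by omega) hdvd
        omega
      exact (mul_eq_zero.1 h9).resolve_left h10
    intro j hj
    rcases Nat.eq_zero_or_pos j with rfl | hj0
    · rw [Finset.sum_range_succ'] at hc
      have h11 : ∑ i ∈ Finset.range n, c (i + 1) ^ p * t ^ (i + 1) = 0 :=
        Finset.sum_eq_zero fun i hi => by
          rw [h8 (i + 1) (by omega) (by have := Finset.mem_range.1 hi; omega),
            zero_pow hp.out.ne_zero, zero_mul]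
      rw [h11, zero_add, pow_zero, mul_one] at hc
      exact pow_eq_zero_iff hp.out.ne_zero |>.1 hc
    · exact h8 j hj0 hj

/-- **change of `p`-basis.**  If `F = F ^ p (t₀)` and `1, t, …, t ^ (p - 1)` are independent
over `F ^ p`, then `F = F ^ p (t)`. -/
theorem h25h_surj (t₀ t : F)
    (hsurj : ∀ w : F, ∃ a : Fin p → F, w = ∑ i : Fin p, a i ^ p * t₀ ^ (i : ℕ))
    (hker : ∀ c : Fin p → F, ∑ i : Fin p, c i ^ p * t ^ (i : ℕ) = 0 → c = 0) :
    ∀ w : F, ∃ c : Fin p → F, w = ∑ i : Fin p, c i ^ p * t ^ (i : ℕ) := by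
  classical
  choose W hW using fun j : Fin p => hsurj (t ^ (j : ℕ))
  set Mat : Matrix (Fin p) (Fin p) F := Matrix.of W with hMat
  have hΦ : ∀ c : Fin p → F, ∑ j : Fin p, c j ^ p * t ^ (j : ℕ) =
      ∑ i : Fin p, (Matrix.vecMul c Mat i) ^ p * t₀ ^ (i : ℕ) := by
    intro c
    have h1 : ∀ i : Fin p, (Matrix.vecMul c Mat i) ^ p = ∑ j : Fin p, c j ^ p * W j i ^ p := by
      intro i
      rw [Matrix.vecMul, dotProduct, sum_pow_char]
      refine Finset.sum_congr rfl fun j _ => ?_
      rw [hMat, Matrix.of_apply, mul_pow]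
    calc ∑ j : Fin p, c j ^ p * t ^ (j : ℕ)
        = ∑ j : Fin p, c j ^ p * ∑ i : Fin p, W j i ^ p * t₀ ^ (i : ℕ) := by
          refine Finset.sum_congr rfl fun j _ => ?_
          rw [← hW j]
      _ = ∑ j : Fin p, ∑ i : Fin p, c j ^ p * W j i ^ p * t₀ ^ (i : ℕ) := by
          refine Finset.sum_congr rfl fun j _ => ?_
          rw [Finset.mul_sum]
          exact Finset.sum_congr rfl fun i _ => by ring
      _ = ∑ i : Fin p, ∑ j : Fin p, c j ^ p * W j i ^ p * t₀ ^ (i : ℕ) := Finset.sum_comm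
      _ = ∑ i : Fin p, (Matrix.vecMul c Mat i) ^ p * t₀ ^ (i : ℕ) := by
          refine Finset.sum_congr rfl fun i _ => ?_
          rw [h1 i, Finset.sum_mul]
  have hinj : Function.Injective Mat.vecMul := by
    have h0 : ∀ c : Fin p → F, Matrix.vecMul c Mat = 0 → c = 0 := by
      intro c hc
      apply hker
      rw [hΦ c, hc]
      simp [zero_pow hp.out.ne_zero]
    intro c c' hcc
    have hcc' : Matrix.vecMul c Mat = Matrix.vecMul c' Mat := hcc
    have h1 : Matrix.vecMul (c - c') Mat = 0 := by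
      rw [Matrix.sub_vecMul, hcc', sub_self]
    exact sub_eq_zero.1 (h0 _ h1)
  have hunit : IsUnit Mat := Matrix.vecMul_injective_iff_isUnit.1 hinj
  have hsur : Function.Surjective Mat.vecMul := Matrix.vecMul_surjective_iff_isUnit.2 hunit
  intro w
  obtain ⟨a, ha⟩ := hsurj w
  obtain ⟨c, hc⟩ := hsur a
  have hc' : Matrix.vecMul c Mat = a := hc
  refine ⟨c, ?_⟩
  rw [hΦ c, hc']
  exact ha

end Abs

section Laurent

variable {k : Type*} [Field k] (p : ℕ) [hp : Fact p.Prime] [CharP k p]
  {F : Type*} [Field F] [Algebra k F]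

/-- **(HP)** in the frame of `h96e_decomp`: `F = F ^ p (t)` for every `t` which is not a `p`-th
power. -/
theorem h25h_HP (hk : ∀ a : k, ∃ b : k, b ^ p = a) (ι : F →ₐ[k] LaurentSeries k) (t₀ : F)
    (ht₀ : ¬ (p : ℤ) ∣ (ι t₀).order)
    [FiniteDimensional (IntermediateField.adjoin k {t₀}) F]
    (t : F) (ht : ∀ s : F, s ^ p ≠ t) (w : F) :
    ∃ c : Fin p → F, w = ∑ i : Fin p, c i ^ p * t ^ (i : ℕ) := by
  haveI : CharP F p := charP_of_injective_algebraMap (algebraMap k F).injective p
  have hsurj : ∀ w : F, ∃ a : Fin p → F, w = ∑ i : Fin p, a i ^ p * t₀ ^ (i : ℕ) := by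
    intro w
    obtain ⟨a, ha⟩ := h96e_decomp p hk ι t₀ ht₀ w
    refine ⟨fun i => a i, ?_⟩
    rw [ha, ← Fin.sum_univ_eq_sum_range (fun j => t₀ ^ j * a j ^ p) p]
    exact Finset.sum_congr rfl fun i _ => mul_comm _ _
  have hδt : h96dTheta (ι t) ≠ 0 := by
    intro h
    obtain ⟨s, hs⟩ := h96e_sep p hk ι t₀ ht₀ t h
    exact ht s hs.symm
  have hker : ∀ c : Fin p → F, ∑ i : Fin p, c i ^ p * t ^ (i : ℕ) = 0 → c = 0 := by
    intro c hc
    have h1 := h25h_ker (p := p) (ι : F →+* LaurentSeries k) (fun x => h96dTheta (ι x))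
      (fun x y => by
        show h96dTheta (ι (x + y)) = _
        rw [map_add, h96d_theta_add])
      (fun x y => by
        show h96dTheta (ι (x * y)) = _
        rw [map_mul, h96d_theta_mul]
        simp only [RingHom.coe_coe]
        ring)
      t hδt p le_rfl (fun j => if h : j < p then c ⟨j, h⟩ else 0)
      (by
        rw [← Fin.sum_univ_eq_sum_range
          (fun j => (if h : j < p then c ⟨j, h⟩ else 0) ^ p * t ^ j) p, ← hc]
        refine Finset.sum_congr rfl fun i _ => ?_
        rw [dif_pos i.2])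
    funext i
    have h2 := h1 i i.2
    rw [dif_pos i.2] at h2
    exact h2
  exact h25h_surj t₀ t hsurj hker w

end Laurent

open Fermat.Agent.S37 Fermat.Agent.Red.GV Fermat.Agent.P5

/-- **(HP) at the special fibre.** -/
theorem h25h_HP_special {p : ℕ} (hp : p.Prime) (M : ℕ) [NeZero M] (hM : ¬ p ∣ M)
    (haux : auxLevel p ∣ M) (A : ValuationSubring Kbar) (hA : A.LiesOverPrime p)
    (t : h13sFt A M) (ht : ∀ s : h13sFt A M, s ^ p ≠ t) (w : h13sFt A M) :
    ∃ c : Fin p → h13sFt A M, w = ∑ i : Fin p, c i ^ p * t ^ (i : ℕ) := by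
  haveI : Fact p.Prime := ⟨hp⟩
  haveI : CharP (h13sK A) p :=
    (Base.h80_charP A (IsLocalRing.residue A) p (isResidueMap_residue A p hA) :
      CharP (IsLocalRing.ResidueField A) p)
  haveI : IsAlgClosed (h13sK A) := Fermat.Agent.S18.h72_residueField_isAlgClosed A
  have hk : ∀ a : h13sK A, ∃ b : h13sK A, b ^ p = a := fun a =>
    IsAlgClosed.exists_pow_nat_eq a hp.pos
  haveI : FiniteDimensional (IntermediateField.adjoin (h13sK A) {h26sJ A M}) (h13sFt A M) :=
    (h26s_rest hp M hM haux A hA).2.2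
  have ht₀ : ¬ (p : ℤ) ∣ (h13sIncl A M (h26sJ A M)).order := by
    rw [h96e_order_j]
    intro h
    have h1 : (p : ℤ) ∣ 1 := (dvd_neg.mp h)
    have h2 : p ∣ 1 := by exact_mod_cast h1
    exact hp.one_lt.ne' (Nat.dvd_one.mp h2)
  exact h25h_HP p hk (h13sIncl A M) (h26sJ A M) ht₀ t ht w

end Fermat.Agent.P7
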