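import Mathlib
import Fermat.Agent.P5.H68RRLarge

/-!
# Wave 7, block (A), route DLOG: the local algebra leaf LOC (helper25, prefix `h25l_`)

Abstract function field `F / k` in the Prelude vocabulary (`AlgebraicCurve.Place`), of
characteristic `p`, with the weak Riemann–Roch package of P5 (`H13rBase`, `H13rIsGenus`), a place
`Q₀` ("`∞`"), the ring `B` of the functions regular off `Q₀` (`h25lReg Q₀`), a derivation
`δ : F → V` over a ring homomorphism `ι : F →+* V` (instance: `V = k((q))`, `δ = θ ∘ ι`,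
`θ = q d/dq`) and an additive functional `ρ : V →+ G` (instance: the coefficient of `q ^ 0`).

Hypotheses:

* (R0p) `ρ (ι x * δ y) = 0` for `x y ∈ B` (the residue theorem for the differentials regular off
  `Q₀`; at the level it is the reduction of the analytic statement in characteristic `0`);
* (HP) `F = F ^ p (t)` for every `t ∉ F ^ p`.

Conclusion (`h25l_orth`): if `u ≠ 0` has all its orders off `Q₀` divisible by `p`, then
`ρ (ι (f / u) * δ u) = 0` for every `f ∈ B`: the logarithmic differential `δ u / u` is orthogonal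
to the functions regular off `Q₀`.

Mathlib + Prelude + the landed RR leaves of P5 only.
-/

set_option autoImplicit false
set_option linter.style.haveILetI false
set_option linter.unusedSectionVars false

open AlgebraicCurve WithZero

noncomputable section

namespace Fermat.Agent.P7

open Fermat.Agent.P5

variable {k F : Type*} [Field k] [Field F] [Algebra k F]

/-- `x` is regular at every place except `Q₀`. -/
def h25lReg (Q₀ : Place k F) (x : F) : Prop :=
  ∀ v : Place k F, v ≠ Q₀ → x ∈ v.toValuationSubring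

section Reg

variable {Q₀ : Place k F}

theorem h25lReg_zero : h25lReg Q₀ (0 : F) := fun v _ => v.toValuationSubring.zero_mem

theorem h25lReg_one : h25lReg Q₀ (1 : F) := fun v _ => v.toValuationSubring.one_mem

theorem h25lReg_cst (a : k) : h25lReg Q₀ (algebraMap k F a) := fun v _ => v.algebraMap_mem' a

theorem h25lReg_add {x y : F} (hx : h25lReg Q₀ x) (hy : h25lReg Q₀ y) : h25lReg Q₀ (x + y) :=
  fun v hv => add_mem (hx v hv) (hy v hv)

theorem h25lReg_neg {x : F} (hx : h25lReg Q₀ x) : h25lReg Q₀ (-x) :=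
  fun v hv => neg_mem (hx v hv)

theorem h25lReg_sub {x y : F} (hx : h25lReg Q₀ x) (hy : h25lReg Q₀ y) : h25lReg Q₀ (x - y) :=
  fun v hv => sub_mem (hx v hv) (hy v hv)

theorem h25lReg_mul {x y : F} (hx : h25lReg Q₀ x) (hy : h25lReg Q₀ y) : h25lReg Q₀ (x * y) :=
  fun v hv => mul_mem (hx v hv) (hy v hv)

theorem h25lReg_pow {x : F} (hx : h25lReg Q₀ x) (n : ℕ) : h25lReg Q₀ (x ^ n) :=
  fun v hv => pow_mem (hx v hv) n

theorem h25lReg_of_ord {x : F} (hx : ∀ v : Place k F, v ≠ Q₀ → 0 ≤ v.ord x) : h25lReg Q₀ x :=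
  fun v hv => h68r_mem_of_ord_nonneg v (Or.inr (hx v hv))

end Reg

/-! ### Valuations -/

theorem h25l_mem_iff (v : Place k F) {x : F} :
    x ∈ v.toValuationSubring ↔ v.adicValuation x ≤ 1 := by
  constructor
  · exact fun h => v.adicValuation_le_one_of_mem h
  · intro h
    exact h68r_mem_of_ord_nonneg v (v.adicValuation_le_one_iff.1 h)

theorem h25l_val_eq_one_iff (v : Place k F) {x : F} (hx : x ≠ 0) :
    v.adicValuation x = 1 ↔ v.ord x = 0 := by
  rw [v.adicValuation_eq_exp_neg_ord hx]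
  constructor
  · intro h
    have h1 : exp (-v.ord x) = exp (0 : ℤ) := by rw [h]; simp
    have := WithZero.exp_injective h1
    omega
  · intro h
    rw [h]; simp

/-- a value `< 1` is `≤ exp (-1)`. -/
theorem h25l_val_le_of_lt_one (v : Place k F) {x : F} (hx : v.adicValuation x < 1) :
    v.adicValuation x ≤ exp (-1 : ℤ) := by
  rcases eq_or_ne x 0 with rfl | hx0
  · simp
  · rw [v.adicValuation_eq_exp_neg_ord hx0] at hx ⊢
    have h1 : exp (-v.ord x) < exp (0 : ℤ) := by simpa using hx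
    rw [exp_lt_exp] at h1
    rw [exp_le_exp]
    omega

/-! ### Riemann–Roch: elements with an exact order at `v`, regular off `Q₀` -/

/-- **(EX)**: for `v ≠ Q₀` and a divisor `E` there is `e ≠ 0` with `|e|_w ≤ exp (- E w)` at every
`w ≠ Q₀, v` and `|e|_v = exp (- E v)` exactly. -/
theorem h25l_exists_exact (hB : H13rBase k F) {g : ℕ} (hg : H13rIsGenus k F g)
    (Q₀ v : Place k F) (hv : v ≠ Q₀) (E : Divisor k F) :
    ∃ e : F, e ≠ 0 ∧
      (∀ w : Place k F, w ≠ Q₀ → w ≠ v → w.adicValuation e ≤ exp (-(E w))) ∧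
      v.adicValuation e = exp (-(E v)) := by
  classical
  obtain ⟨⟨c, hc⟩, -⟩ := h68r_large k F hB g hg
  set N : ℤ := c + Divisor.degree E + 2 with hN
  set D : Divisor k F := Finsupp.single Q₀ N - E with hD
  set D' : Divisor k F := D - Finsupp.single v 1 with hD'
  have hdegD : Divisor.degree D = N - Divisor.degree E := by
    rw [hD, map_sub, Divisor.degree_single, hB.deg_one Q₀]
    simp
  have hdegD' : Divisor.degree D' = N - Divisor.degree E - 1 := by
    rw [hD', map_sub, hdegD, Divisor.degree_single, hB.deg_one v]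
    simp
  have h1 := hc D (by rw [hdegD]; omega)
  have h2 := hc D' (by rw [hdegD']; omega)
  have hle : D' ≤ D := by
    rw [hD']
    have h0 : (0 : Divisor k F) ≤ Finsupp.single v 1 := by
      rw [Finsupp.le_def]
      intro w
      rw [Finsupp.single_apply]
      split_ifs <;> simp
    exact sub_le_self D h0
  have hLle : riemannRochSpace D' ≤ riemannRochSpace D := h68r_riemannRochSpace_mono hle
  have hne : riemannRochSpace D' ≠ riemannRochSpace D := by
    intro h
    have h3 : h13rL k F D' = h13rL k F D := by unfold h13rL; rw [h]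
    rw [h3, hdegD'] at h2
    rw [hdegD] at h1
    omega
  obtain ⟨e, heD, heD'⟩ : ∃ e, e ∈ riemannRochSpace D ∧ e ∉ riemannRochSpace D' := by
    by_contra hcon
    push Not at hcon
    exact hne (le_antisymm hLle hcon)
  have he0 : e ≠ 0 := by
    rintro rfl
    exact heD' (Submodule.zero_mem _)
  have hDw : ∀ w : Place k F, w ≠ Q₀ → D w = -(E w) := by
    intro w hw
    rw [hD, Finsupp.sub_apply, Finsupp.single_apply, if_neg (Ne.symm hw)]
    simp
  have hD'w : ∀ w : Place k F, w ≠ v → D' w = D w := by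
    intro w hw
    rw [hD', Finsupp.sub_apply, Finsupp.single_apply, if_neg (Ne.symm hw)]
    simp
  have hD'v : D' v = D v - 1 := by
    rw [hD', Finsupp.sub_apply, Finsupp.single_apply, if_pos rfl]
  refine ⟨e, he0, ?_, ?_⟩
  · intro w hw _
    have := heD w
    rwa [hDw w hw] at this
  · have h3 : ¬ v.adicValuation e ≤ exp (D' v) := by
      intro h
      apply heD'
      intro w
      by_cases hwv : w = v
      · subst hwv; exact h
      · show w.adicValuation e ≤ exp (D' w)
        rw [hD'w w hwv]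
        exact heD w
    have h4 : v.adicValuation e ≤ exp (D v) := heD v
    rw [hD'v, hDw v hv] at h3
    rw [hDw v hv] at h4
    rw [v.adicValuation_eq_exp_neg_ord he0] at h3 h4 ⊢
    rw [exp_le_exp] at h3 h4
    congr 1
    omega

/-- **(UNIF)**: a uniformiser at `v ≠ Q₀` which is regular off `Q₀`. -/
theorem h25l_exists_unif (hB : H13rBase k F) {g : ℕ} (hg : H13rIsGenus k F g)
    (Q₀ v : Place k F) (hv : v ≠ Q₀) :
    ∃ t : F, h25lReg Q₀ t ∧ v.adicValuation t = exp (-1 : ℤ) := by
  classical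
  obtain ⟨e, -, h1, h2⟩ := h25l_exists_exact hB hg Q₀ v hv (Finsupp.single v 1)
  rw [Finsupp.single_eq_same] at h2
  refine ⟨e, ?_, h2⟩
  intro w hw
  rw [h25l_mem_iff]
  by_cases hwv : w = v
  · subst hwv
    rw [h2]
    have h3 : exp (-1 : ℤ) ≤ exp (0 : ℤ) := exp_le_exp.2 (by norm_num)
    simpa using h3
  · have := h1 w hw hwv
    rw [Finsupp.single_apply, if_neg (Ne.symm hwv)] at this
    simpa using this

/-- **(DEN)**: an element regular at `v ≠ Q₀` is a quotient `a / b` of functions regular off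
`Q₀` with `b` a unit at `v`. -/
theorem h25l_exists_den (hB : H13rBase k F) {g : ℕ} (hg : H13rIsGenus k F g)
    (Q₀ v : Place k F) (hv : v ≠ Q₀) (z : F) (hz : z ∈ v.toValuationSubring) :
    ∃ b : F, h25lReg Q₀ b ∧ v.adicValuation b = 1 ∧ h25lReg Q₀ (b * z) := by
  classical
  rcases eq_or_ne z 0 with rfl | hz0
  · exact ⟨1, h25lReg_one, by simp, by simpa using h25lReg_zero⟩
  obtain ⟨D, hD, -⟩ := hB.pd z hz0
  set E : Divisor k F := Finsupp.erase v (D.mapRange (fun n : ℤ => max 0 (-n)) (by simp)) with hE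
  have hEv : E v = 0 := by rw [hE, Finsupp.erase_same]
  have hEw : ∀ w : Place k F, w ≠ v → E w = max 0 (-(w.ord z)) := by
    intro w hw
    rw [hE, Finsupp.erase_ne hw, Finsupp.mapRange_apply, hD w]
  obtain ⟨b, hb0, h1, h2⟩ := h25l_exists_exact hB hg Q₀ v hv E
  rw [hEv] at h2
  have h2' : v.adicValuation b = 1 := by simpa using h2
  refine ⟨b, ?_, h2', ?_⟩
  · intro w hw
    rw [h25l_mem_iff]
    by_cases hwv : w = v
    · subst hwv; rw [h2']
    · refine (h1 w hw hwv).trans ?_
      rw [hEw w hwv]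
      have : exp (-(max 0 (-(w.ord z)))) ≤ exp (0 : ℤ) := exp_le_exp.2 (by omega)
      simpa using this
  · intro w hw
    rw [h25l_mem_iff, map_mul]
    by_cases hwv : w = v
    · subst hwv
      rw [h2', one_mul]
      exact (h25l_mem_iff w).1 hz
    · have h3 := h1 w hw hwv
      rw [hEw w hwv] at h3
      rw [w.adicValuation_eq_exp_neg_ord hz0]
      calc w.adicValuation b * exp (-w.ord z)
          ≤ exp (-(max 0 (-(w.ord z)))) * exp (-w.ord z) := by gcongr
        _ = exp (-(max 0 (-(w.ord z))) + -w.ord z) := by rw [← WithZero.exp_add]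
        _ ≤ exp (0 : ℤ) := exp_le_exp.2 (by omega)
        _ = 1 := by simp

/-- **(RES)**: the residue field of a place of degree one is `k`. -/
theorem h25l_exists_cst (hB : H13rBase k F) (v : Place k F) (z : F)
    (hz : z ∈ v.toValuationSubring) :
    ∃ a : k, v.adicValuation (z - algebraMap k F a) < 1 := by
  have hdeg : Module.finrank k v.ResidueField = 1 := hB.deg_one v
  have h1 := (finrank_eq_one_iff_of_nonzero' (1 : v.ResidueField) one_ne_zero).1 hdeg
  obtain ⟨a, ha⟩ := h1 (IsLocalRing.residue v.toValuationSubring ⟨z, hz⟩)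
  refine ⟨a, ?_⟩
  have h2 : IsLocalRing.residue v.toValuationSubring
      (⟨z, hz⟩ - algebraMap k v.toValuationSubring a) = 0 := by
    rw [map_sub, ← ha, Algebra.smul_def, mul_one]
    rw [sub_eq_zero]
    rfl
  rw [IsLocalRing.residue_eq_zero_iff] at h2
  set y : v.toValuationSubring := ⟨z, hz⟩ - algebraMap k v.toValuationSubring a with hy
  have hyF : (y : F) = z - algebraMap k F a := by
    rw [hy]; rfl
  rw [← hyF]
  have h3 : ¬ IsUnit y := by
    rwa [IsLocalRing.mem_maximalIdeal, mem_nonunits_iff] at h2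
  have h4 : v.adicValuation (y : F) ≤ 1 := v.adicValuation_le_one_of_mem y.2
  rcases h4.lt_or_eq with h5 | h5
  · exact h5
  · exact absurd ((v.adicValuation_coe_eq_one_iff y).1 h5) h3

/-! ### The coefficients of `w = ∑ c_i ^ p t ^ i` are regular at `v` -/

theorem h25l_ord_pow (v : Place k F) (x : F) (n : ℕ) : v.ord (x ^ n) = n * v.ord x := by
  rw [← zpow_natCast, v.ord_zpow]

theorem h25l_ord_of_val (v : Place k F) {t : F} (ht : v.adicValuation t = exp (-1 : ℤ)) :
    t ≠ 0 ∧ v.ord t = 1 := by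
  have ht0 : t ≠ 0 := by
    rintro rfl
    rw [map_zero] at ht
    exact exp_ne_zero ht.symm
  refine ⟨ht0, ?_⟩
  rw [v.adicValuation_eq_exp_neg_ord ht0] at ht
  have := WithZero.exp_injective ht
  omega

/-- **(DV)**: if `∑_{i < p} c_i ^ p t ^ i` is regular at `v` and `t` is a uniformiser at `v`,
every `c_i` is regular at `v` (the orders `p ord (c_i) + i` are pairwise distinct). -/
theorem h25l_coeff_mem {p : ℕ} (hp : p.Prime) (v : Place k F) {t : F}
    (ht : v.adicValuation t = exp (-1 : ℤ)) (c : Fin p → F)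
    (hw : ∑ i : Fin p, c i ^ p * t ^ (i : ℕ) ∈ v.toValuationSubring) :
    ∀ i, c i ∈ v.toValuationSubring := by
  classical
  obtain ⟨ht0, hordt⟩ := h25l_ord_of_val v ht
  set φ : Fin p → ℤᵐ⁰ := fun i => v.adicValuation (c i ^ p * t ^ (i : ℕ)) with hφ
  have hterm : ∀ i, c i ≠ 0 → φ i = exp (-((p : ℤ) * v.ord (c i) + ((i : ℕ) : ℤ))) := by
    intro i hi
    have h1 : c i ^ p * t ^ (i : ℕ) ≠ 0 := mul_ne_zero (pow_ne_zero _ hi) (pow_ne_zero _ ht0)
    show v.adicValuation (c i ^ p * t ^ (i : ℕ)) = _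
    rw [v.adicValuation_eq_exp_neg_ord h1, v.ord_mul (pow_ne_zero _ hi) (pow_ne_zero _ ht0),
      h25l_ord_pow, h25l_ord_pow, hordt, mul_one]
  have hzero : ∀ i, c i = 0 → φ i = 0 := by
    intro i hi
    show v.adicValuation (c i ^ p * t ^ (i : ℕ)) = 0
    rw [hi, zero_pow hp.ne_zero, zero_mul, map_zero]
  have hp0 : (0 : ℤ) ≤ (p : ℤ) := by positivity
  by_contra hcon
  push Not at hcon
  obtain ⟨i0, hi0⟩ := hcon
  have hi0' : c i0 ≠ 0 := by
    intro h
    rw [h] at hi0
    exact hi0 (zero_mem _)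
  have hord0 : v.ord (c i0) < 0 := by
    by_contra h
    push Not at h
    exact hi0 (h68r_mem_of_ord_nonneg v (Or.inr h))
  obtain ⟨j, -, hj⟩ := Finset.exists_max_image Finset.univ φ ⟨i0, Finset.mem_univ _⟩
  have hφi0 : 1 < φ i0 := by
    rw [hterm i0 hi0']
    have h0 : (0 : ℤ) < -((p : ℤ) * v.ord (c i0) + ((i0 : ℕ) : ℤ)) := by
      have h1 : ((i0 : ℕ) : ℤ) < p := by exact_mod_cast i0.2
      have h2 : (p : ℤ) * v.ord (c i0) ≤ (p : ℤ) * (-1) :=
        mul_le_mul_of_nonneg_left (by omega) hp0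
      linarith
    have h3 := exp_lt_exp.2 h0
    simpa using h3
  have hφj : 1 < φ j := lt_of_lt_of_le hφi0 (hj i0 (Finset.mem_univ _))
  have hφj0 : φ j ≠ 0 := ne_of_gt (lt_trans zero_lt_one hφj)
  have hj0 : c j ≠ 0 := fun h => hφj0 (hzero j h)
  have hlt : ∀ i ∈ Finset.univ.erase j, v.adicValuation (c i ^ p * t ^ (i : ℕ)) < φ j := by
    intro i hi
    have hij : i ≠ j := Finset.ne_of_mem_erase hi
    have hle : φ i ≤ φ j := hj i (Finset.mem_univ _)
    rcases hle.lt_or_eq with h | h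
    · exact h
    · exfalso
      have hci : c i ≠ 0 := by
        intro h0
        rw [hzero i h0] at h
        exact hφj0 h.symm
      rw [hterm i hci, hterm j hj0] at h
      have h3 := WithZero.exp_injective h
      have hi' : ((i : ℕ) : ℤ) < p := by exact_mod_cast i.2
      have hj' : ((j : ℕ) : ℤ) < p := by exact_mod_cast j.2
      have hi0 : (0 : ℤ) ≤ ((i : ℕ) : ℤ) := by positivity
      have hj0' : (0 : ℤ) ≤ ((j : ℕ) : ℤ) := by positivity
      have hq : ((i : ℕ) : ℤ) - ((j : ℕ) : ℤ) = (p : ℤ) * (v.ord (c j) - v.ord (c i)) := by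
        linarith
      have hq0 : v.ord (c j) - v.ord (c i) = 0 := by
        by_contra hq0
        rcases lt_or_gt_of_ne hq0 with h6 | h6
        · have : (p : ℤ) * (v.ord (c j) - v.ord (c i)) ≤ (p : ℤ) * (-1) :=
            mul_le_mul_of_nonneg_left (by omega) hp0
          linarith
        · have : (p : ℤ) * 1 ≤ (p : ℤ) * (v.ord (c j) - v.ord (c i)) :=
            mul_le_mul_of_nonneg_left (by omega) hp0
          linarith
      rw [hq0, mul_zero] at hq
      have h5 : ((i : ℕ) : ℤ) = ((j : ℕ) : ℤ) := by linarith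
      exact hij (Fin.ext (by exact_mod_cast h5))
  have hsum : v.adicValuation (∑ i ∈ Finset.univ.erase j, c i ^ p * t ^ (i : ℕ)) < φ j :=
    Valuation.map_sum_lt _ hφj0 hlt
  have htot : v.adicValuation (∑ i : Fin p, c i ^ p * t ^ (i : ℕ)) = φ j := by
    rw [← Finset.add_sum_erase Finset.univ _ (Finset.mem_univ j)]
    exact Valuation.map_add_eq_of_lt_left _ hsum
  have h7 := (h25l_mem_iff v).1 hw
  rw [htot] at h7
  exact absurd h7 (not_le.2 hφj)

/-! ### Derivations over a ring homomorphism -/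

section Deriv

variable {V : Type*} [CommRing V] (ι : F →+* V) (δ : F → V)

theorem h25l_d_zero (hadd : ∀ x y, δ (x + y) = δ x + δ y) : δ 0 = 0 := by
  have h := hadd 0 0
  rw [add_zero] at h
  exact left_eq_add.mp h

theorem h25l_d_one (hmul : ∀ x y, δ (x * y) = ι x * δ y + ι y * δ x) : δ 1 = 0 := by
  have h := hmul 1 1
  rw [mul_one, map_one, one_mul] at h
  exact left_eq_add.mp h

theorem h25l_d_sum (hadd : ∀ x y, δ (x + y) = δ x + δ y) {α : Type*} (s : Finset α)
    (a : α → F) : δ (∑ i ∈ s, a i) = ∑ i ∈ s, δ (a i) := by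
  classical
  induction s using Finset.induction_on with
  | empty => simpa using h25l_d_zero δ hadd
  | insert i s hi ih => rw [Finset.sum_insert hi, Finset.sum_insert hi, hadd, ih]

theorem h25l_d_pow (hmul : ∀ x y, δ (x * y) = ι x * δ y + ι y * δ x) (x : F) (n : ℕ) :
    δ (x ^ n) = (n : V) * ι x ^ (n - 1) * δ x := by
  induction n with
  | zero => simp [h25l_d_one ι δ hmul]
  | succ n ih =>
    rw [pow_succ, hmul, ih, map_pow]
    rcases Nat.eq_zero_or_pos n with rfl | hn
    · simp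
    · obtain ⟨m, rfl⟩ : ∃ m, n = m + 1 := ⟨n - 1, by omega⟩
      simp only [Nat.add_sub_cancel, Nat.cast_add, Nat.cast_one]
      ring

theorem h25l_d_pow_char (hmul : ∀ x y, δ (x * y) = ι x * δ y + ι y * δ x) {p : ℕ}
    [CharP F p] (x : F) : δ (x ^ p) = 0 := by
  have hp : (p : V) = 0 := by
    have h := map_natCast ι p
    rw [CharP.cast_eq_zero F p, map_zero] at h
    exact h.symm
  rw [h25l_d_pow ι δ hmul, hp, zero_mul, zero_mul]

end Deriv

/-! ### Step B: the logarithmic differential is regular at every `v ≠ Q₀` -/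

/-- **(LOC-B)**: at a place `v ≠ Q₀` where `p ∣ ord_v u`, the logarithmic differential
`δ u / u` is `(a / b) δ t` with `a, b, t` regular off `Q₀` and `b` a unit at `v`. -/
theorem h25l_local {p : ℕ} (hp : p.Prime) [CharP F p] (hB : H13rBase k F) {g : ℕ}
    (hg : H13rIsGenus k F g) (Q₀ : Place k F)
    (hHP : ∀ t : F, (∀ s : F, s ^ p ≠ t) → ∀ w : F, ∃ c : Fin p → F,
      w = ∑ i : Fin p, c i ^ p * t ^ (i : ℕ))
    {V : Type*} [CommRing V] (ι : F →+* V) (δ : F → V)
    (hadd : ∀ x y, δ (x + y) = δ x + δ y)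
    (hmul : ∀ x y, δ (x * y) = ι x * δ y + ι y * δ x)
    (v : Place k F) (hv : v ≠ Q₀) (u : F) (hu : u ≠ 0) (hup : (p : ℤ) ∣ v.ord u) :
    ∃ b a t : F, h25lReg Q₀ b ∧ v.adicValuation b = 1 ∧ h25lReg Q₀ a ∧ h25lReg Q₀ t ∧
      ι b * (ι u⁻¹ * δ u) = ι a * δ t := by
  classical
  obtain ⟨t, htreg, htval⟩ := h25l_exists_unif hB hg Q₀ v hv
  obtain ⟨ht0, hordt⟩ := h25l_ord_of_val v htval
  have htmem : t ∈ v.toValuationSubring := htreg v hv
  have htp : ∀ s : F, s ^ p ≠ t := by
    intro s hs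
    have h1 : v.ord (s ^ p) = 1 := by rw [hs, hordt]
    rw [h25l_ord_pow] at h1
    have h2 : (p : ℤ) ∣ 1 := ⟨v.ord s, h1.symm⟩
    have h3 : p ∣ 1 := by exact_mod_cast h2
    exact hp.one_lt.ne' (Nat.dvd_one.1 h3)
  obtain ⟨m, hm⟩ := hup
  set s : F := t ^ m with hs
  have hs0 : s ≠ 0 := zpow_ne_zero m ht0
  have hsp0 : s ^ p ≠ 0 := pow_ne_zero p hs0
  have hords : v.ord (s ^ p) = v.ord u := by
    rw [h25l_ord_pow, hs, v.ord_zpow, hordt, mul_one, hm]
  set w : F := u * (s ^ p)⁻¹ with hw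
  have hw0 : w ≠ 0 := mul_ne_zero hu (inv_ne_zero hsp0)
  have hordw : v.ord w = 0 := by
    rw [hw, v.ord_mul hu (inv_ne_zero hsp0), v.ord_inv, hords]
    ring
  have hwval : v.adicValuation w = 1 := (h25l_val_eq_one_iff v hw0).2 hordw
  have hwmem : w ∈ v.toValuationSubring := (h25l_mem_iff v).2 hwval.le
  have hwinvmem : w⁻¹ ∈ v.toValuationSubring := by
    rw [h25l_mem_iff, map_inv₀, hwval, inv_one]
  have huw : u = w * s ^ p := by
    rw [hw, mul_assoc, inv_mul_cancel₀ hsp0, mul_one]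
  have hwinv : w⁻¹ = u⁻¹ * s ^ p := by
    rw [hw, mul_inv, inv_inv]
  obtain ⟨c, hc⟩ := hHP t htp w
  have hcmem : ∀ i, c i ∈ v.toValuationSubring :=
    h25l_coeff_mem hp v htval c (by rw [← hc]; exact hwmem)
  set cc : F := ∑ i : Fin p, c i ^ p * ((i : ℕ) : F) * t ^ ((i : ℕ) - 1) with hcc
  have hccmem : cc ∈ v.toValuationSubring := by
    rw [hcc]
    refine sum_mem fun i _ => ?_
    exact mul_mem (mul_mem (pow_mem (hcmem i) p) (natCast_mem _ _)) (pow_mem htmem _)
  have hδw : δ w = ι cc * δ t := by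
    have h1 : δ w = δ (∑ i : Fin p, c i ^ p * t ^ (i : ℕ)) := congrArg δ hc
    rw [h1, h25l_d_sum δ hadd, hcc, map_sum, Finset.sum_mul]
    refine Finset.sum_congr rfl fun i _ => ?_
    rw [hmul, h25l_d_pow_char ι δ hmul (c i), mul_zero, add_zero, h25l_d_pow ι δ hmul t]
    simp only [map_mul, map_pow, map_natCast]
    ring
  have hδu : δ u = ι (s ^ p) * δ w := by
    have h1 : δ u = δ (w * s ^ p) := congrArg δ huw
    rw [h1, hmul, h25l_d_pow_char ι δ hmul s, mul_zero, zero_add]
  have hz : w⁻¹ * cc ∈ v.toValuationSubring := mul_mem hwinvmem hccmem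
  obtain ⟨b, hbreg, hbval, hbz⟩ := h25l_exists_den hB hg Q₀ v hv (w⁻¹ * cc) hz
  refine ⟨b, b * (w⁻¹ * cc), t, hbreg, hbval, hbz, htreg, ?_⟩
  rw [hδu, hδw, hwinv]
  simp only [map_mul]
  ring

/-! ### Step C: an ideal of `B` without zeros off `Q₀` is the unit ideal -/

/-- **(LOC-C)**: a subset `I` of the functions regular off `Q₀` which is stable under addition
and under multiplication by the functions regular off `Q₀`, and which contains a unit at every
place `v ≠ Q₀`, contains `1`. -/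
theorem h25l_ideal_top (hB : H13rBase k F) (Q₀ : Place k F) (I : F → Prop) (hI0 : I 0)
    (hIadd : ∀ x y, I x → I y → I (x + y))
    (hImul : ∀ x y, h25lReg Q₀ x → I y → I (x * y))
    (hIreg : ∀ x, I x → h25lReg Q₀ x)
    (hloc : ∀ v : Place k F, v ≠ Q₀ → ∃ b, I b ∧ v.adicValuation b = 1) : I 1 := by
  classical
  haveI := hB.infinite
  obtain ⟨v₁, hv₁⟩ := exists_ne Q₀
  obtain ⟨b₀, hb₀I, hb₀v⟩ := hloc v₁ hv₁
  have hb₀0 : b₀ ≠ 0 := by
    rintro rfl
    rw [map_zero] at hb₀v
    exact zero_ne_one hb₀v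
  have hb₀reg := hIreg b₀ hb₀I
  obtain ⟨D, hD, -⟩ := hB.pd b₀ hb₀0
  -- the first order congruences
  have hkey : ∀ T : Finset (Place k F), (∀ w ∈ T, w ≠ Q₀) →
      ∃ P : F, h25lReg Q₀ P ∧ I (1 - P) ∧ ∀ w ∈ T, w.adicValuation P < 1 := by
    intro T
    induction T using Finset.induction_on with
    | empty =>
      intro _
      exact ⟨1, h25lReg_one, by simpa using hI0, by simp⟩
    | insert w T hwT ih =>
      intro hT
      have hwQ : w ≠ Q₀ := hT w (Finset.mem_insert_self _ _)
      obtain ⟨P, hPreg, hPI, hPT⟩ := ih fun x hx => hT x (Finset.mem_insert_of_mem hx)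
      obtain ⟨b, hbI, hbw⟩ := hloc w hwQ
      have hb0 : b ≠ 0 := by
        rintro rfl
        rw [map_zero] at hbw
        exact zero_ne_one hbw
      have hbinv : b⁻¹ ∈ w.toValuationSubring := by
        rw [h25l_mem_iff, map_inv₀, hbw, inv_one]
      obtain ⟨a, ha⟩ := h25l_exists_cst hB w b⁻¹ hbinv
      set y : F := algebraMap k F a * b with hy
      have hyI : I y := hImul _ _ (h25lReg_cst a) hbI
      have hyreg := hIreg y hyI
      have hyw : w.adicValuation (1 - y) < 1 := by
        have h1 : 1 - y = b * (b⁻¹ - algebraMap k F a) := by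
          rw [hy, mul_sub, mul_inv_cancel₀ hb0]
          ring
        rw [h1, map_mul, hbw, one_mul]
        exact ha
      refine ⟨P * (1 - y), h25lReg_mul hPreg (h25lReg_sub h25lReg_one hyreg), ?_, ?_⟩
      · have h1 : 1 - P * (1 - y) = (1 - P) + P * y := by ring
        rw [h1]
        exact hIadd _ _ hPI (hImul _ _ hPreg hyI)
      · intro x hx
        rw [map_mul]
        rcases Finset.mem_insert.1 hx with rfl | hxT
        · have h2 : x.adicValuation P ≤ 1 := (h25l_mem_iff x).1 (hPreg x hwQ)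
          calc x.adicValuation P * x.adicValuation (1 - y)
              ≤ 1 * x.adicValuation (1 - y) := by gcongr
            _ = x.adicValuation (1 - y) := one_mul _
            _ < 1 := hyw
        · have hxQ : x ≠ Q₀ := hT x hx
          have h2 : x.adicValuation (1 - y) ≤ 1 :=
            (h25l_mem_iff x).1 (h25lReg_sub h25lReg_one hyreg x hxQ)
          calc x.adicValuation P * x.adicValuation (1 - y)
              ≤ x.adicValuation P * 1 := by gcongr
            _ = x.adicValuation P := mul_one _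
            _ < 1 := hPT x hxT
  obtain ⟨P, hPreg, hPI, hPT⟩ := hkey (D.support.erase Q₀) fun w hw => Finset.ne_of_mem_erase hw
  set N : ℕ := ∑ w ∈ D.support.erase Q₀, (D w).toNat with hN
  -- `P ^ N / b₀` is regular off `Q₀`
  have hquot : h25lReg Q₀ (P ^ N * b₀⁻¹) := by
    intro w hw
    rw [h25l_mem_iff, map_mul, map_pow, map_inv₀, w.adicValuation_eq_exp_neg_ord hb₀0, ← hD w]
    by_cases hwD : w ∈ D.support
    · have hwT : w ∈ D.support.erase Q₀ := Finset.mem_erase.2 ⟨hw, hwD⟩
      have h1 : w.adicValuation P ≤ exp (-1 : ℤ) := h25l_val_le_of_lt_one w (hPT w hwT)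
      have h2 : (D w).toNat ≤ N :=
        Finset.single_le_sum (f := fun w => (D w).toNat) (fun _ _ => Nat.zero_le _) hwT
      have h3 : 0 ≤ D w := by
        rw [hD w]
        exact h68r_ord_nonneg_of_mem w (hb₀reg w hw)
      have h4 : w.adicValuation P ^ N ≤ exp (-(N : ℤ)) := by
        calc w.adicValuation P ^ N ≤ exp (-1 : ℤ) ^ N := by gcongr
          _ = exp (-(N : ℤ)) := by
            rw [← exp_nsmul]
            simp
      calc w.adicValuation P ^ N * (exp (-(D w)))⁻¹
          ≤ exp (-(N : ℤ)) * (exp (-(D w)))⁻¹ := by gcongr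
        _ = exp (-(N : ℤ) + D w) := by
            rw [← exp_neg, neg_neg, ← exp_add]
        _ ≤ exp (0 : ℤ) := exp_le_exp.2 (by omega)
        _ = 1 := by simp
    · have h0 : D w = 0 := Finsupp.notMem_support_iff.1 hwD
      rw [h0]
      simp only [neg_zero, exp_zero, inv_one, mul_one]
      exact pow_le_one₀ zero_le ((h25l_mem_iff w).1 (hPreg w hw))
  have hPN : I (P ^ N) := by
    have h1 : P ^ N = P ^ N * b₀⁻¹ * b₀ := by
      rw [mul_assoc, inv_mul_cancel₀ hb₀0, mul_one]
    rw [h1]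
    exact hImul _ _ hquot hb₀I
  have hgeo : I (1 - P ^ N) := by
    have h1 : 1 - P ^ N = (∑ i ∈ Finset.range N, P ^ i) * (1 - P) := by
      rw [mul_comm]
      exact (mul_neg_geom_sum P N).symm
    rw [h1]
    refine hImul _ _ ?_ hPI
    intro w hw
    exact sum_mem fun i _ => pow_mem (hPreg w hw) i
  have h1 : (1 : F) = (1 - P ^ N) + P ^ N := by ring
  rw [h1]
  exact hIadd _ _ hgeo hPN

/-! ### The orthogonality theorem -/

/-- **LOC** (leaf of the route DLOG).  `F / k` a function field of characteristic `p` with the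
weak Riemann–Roch package, `δ` a derivation over `ι : F →+* V`, `ρ : V →+ G` with
(R0p) `ρ (ι x * δ y) = 0` for `x, y` regular off `Q₀`, and (HP) `F = F ^ p (t)` for `t ∉ F ^ p`.
If all the orders of `u ≠ 0` off `Q₀` are divisible by `p`, the logarithmic differential
`δ u / u` is orthogonal to the functions regular off `Q₀`. -/
theorem h25l_orth {p : ℕ} (hp : p.Prime) [CharP F p] (hB : H13rBase k F) {g : ℕ}
    (hg : H13rIsGenus k F g) (Q₀ : Place k F)
    (hHP : ∀ t : F, (∀ s : F, s ^ p ≠ t) → ∀ w : F, ∃ c : Fin p → F,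
      w = ∑ i : Fin p, c i ^ p * t ^ (i : ℕ))
    {V : Type*} [CommRing V] (ι : F →+* V) (δ : F → V)
    (hadd : ∀ x y, δ (x + y) = δ x + δ y)
    (hmul : ∀ x y, δ (x * y) = ι x * δ y + ι y * δ x)
    {G : Type*} [AddCommGroup G] (ρ : V →+ G)
    (hR0 : ∀ x y : F, h25lReg Q₀ x → h25lReg Q₀ y → ρ (ι x * δ y) = 0)
    (u : F) (hu : u ≠ 0) (hup : ∀ v : Place k F, v ≠ Q₀ → (p : ℤ) ∣ v.ord u)
    (f : F) (hf : h25lReg Q₀ f) :
    ρ (ι (f * u⁻¹) * δ u) = 0 := by
  obtain ⟨ω, hω⟩ : ∃ ω : V, ω = ι u⁻¹ * δ u := ⟨_, rfl⟩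
  have hI1 := h25l_ideal_top hB Q₀
    (fun b => h25lReg Q₀ b ∧ ∀ f' : F, h25lReg Q₀ f' → ρ (ι (f' * b) * ω) = 0)
    ⟨h25lReg_zero, fun f' _ => by simp⟩
    (fun x y hx hy => ⟨h25lReg_add hx.1 hy.1, fun f' hf' => by
      rw [mul_add, map_add, add_mul, map_add, hx.2 f' hf', hy.2 f' hf', add_zero]⟩)
    (fun x y hx hy => ⟨h25lReg_mul hx hy.1, fun f' hf' => by
      have h0 : f' * (x * y) = f' * x * y := (mul_assoc _ _ _).symm
      rw [h0]
      exact hy.2 (f' * x) (h25lReg_mul hf' hx)⟩)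
    (fun x hx => hx.1)
    (fun v hv => by
      obtain ⟨b, a, t, hbreg, hbval, hareg, htreg, hrel⟩ :=
        h25l_local hp hB hg Q₀ hHP ι δ hadd hmul v hv u hu (hup v hv)
      refine ⟨b, ⟨hbreg, fun f' hf' => ?_⟩, hbval⟩
      have h1 : ι (f' * b) * ω = ι (f' * a) * δ t := by
        rw [hω, map_mul, mul_assoc, hrel, ← mul_assoc, ← map_mul]
      rw [h1]
      exact hR0 _ _ (h25lReg_mul hf' hareg) htreg)
  have h2 := hI1.2 f hf
  rw [mul_one] at h2
  have h3 : ι (f * u⁻¹) * δ u = ι f * ω := by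
    rw [hω, map_mul, mul_assoc]
  rw [h3]
  exact h2

end Fermat.Agent.P7
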