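import Fermat.Agent.P7.H16Top
import Fermat.Agent.P7.H3PolyDlogLevel
import Fermat.Agent.P7.H10LatticeCusp
import Fermat.Agent.P7.H26DlogGap
import Fermat.Agent.P7.H15GenusMatch

/-!
# Wave 7, block (A), DLOG: the assembly of the end shape (I-2) `H16tDlog` (helper86, prefix
`h86d_` / `H86d`)

`ω(u) = h3gOm A (M p) u` (helper3) is the coefficient sequence of `dlog` of the scaled reduction
of a Kummer function `u` of level `M p`; `Sbar(M) = h10wSbar M k` (helper10) the span of the
reductions of the integral weight-2 cusp forms of level `M`; `Ω(V) = h26gOmega V` (helper26).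

* `h86d_kill_sbar` : a Hecke polynomial `e` (variables prime to `M`) which kills `S₂(Γ₀(M))`
  kills `Sbar(M)` formally.
* `H86dSbar p` : frozen Prop "`ω(u) ∈ Sbar(M)`" (= DL3 + DL4 + DL5 + DL6 + GENUS-MATCH).
* `H86dEnd p` : frozen Prop DL8-END: `θ s = 0` for a scaled reduction `s` of `u` gives
  `H76wResPow` at the good level.
* `h86d_dlog : H86dSbar p → H86dEnd p → H16tDlog p`.
* `h86dSer` : the series `∑ w n q ^ n` of a sequence; `h86d_mem_sbar_of_omega` : the dimension
  argument `Sbar ≤ Ω(V)`, `dim Ω(V) ≤ dim Sbar` `⟹` `Ω(V) = Sbar`.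
* `H86dOmega p` : frozen Prop: at every level `M` prime to `p` there is a space `V` of Laurent
  series with (CUSP) `Sbar(M) ≤ Ω(V)`, (GAP) `dim Ω(V) ≤ g` for a weak genus `g` of `FF M`,
  (ORTH) `ω(u) ∈ Ω(V)`.
* `h86d_sbar_of_omega : H86dOmega p → H86dSbar p` (landed GENUS-MATCH + DL6).
* `h86d_dlog_of_omega : H86dOmega p → H86dEnd p → H16tDlog p`.
-/

set_option autoImplicit false
set_option linter.unusedSectionVars false
set_option linter.unusedVariables false
set_option linter.style.haveILetI false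
set_option synthInstance.maxHeartbeats 400000

open AlgebraicCurve ModularCurve IsLocalRing

noncomputable section

namespace Fermat.Agent.P7

open Fermat.Agent.S37 Fermat.Agent.S35 Fermat.Agent.P6
open Fermat.Agent.Jac.K1 (IsKummerPair)
open Fermat.Agent.P5 (h13sK h13sFt)
open Fermat.Agent.Red.GV.Soft

/-- a Hecke polynomial (variables prime to `M`) which kills `S₂(Γ₀(M))` kills `Sbar(M)`. -/
theorem h86d_kill_sbar (M : ℕ) [NeZero M] {k : Type*} [Field k]
    (e : MvPolynomial Nat.Primes ℤ) (hvars : ∀ ℓ ∈ e.vars, ¬ (ℓ : ℕ) ∣ M)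
    (hkill : H99wKillsCusp M e) {w : ℕ → k} (hw : w ∈ h10wSbar M k) :
    h3fEval k e w = 0 := by
  unfold h10wSbar at hw
  induction hw using Submodule.span_induction with
  | mem w hw =>
    obtain ⟨h, c, hc, rfl⟩ := hw
    have h1 := h3f_kills_eval M (Int.castRingHom k) e hvars hkill h c hc
    simpa using h1
  | zero => exact map_zero _
  | add x y _ _ hx hy => rw [map_add, hx, hy, add_zero]
  | smul a x _ hx => rw [map_smul, hx, smul_zero]

/-- **(DL-SBAR)**: `ω(u) ∈ Sbar(M)`. -/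
def H86dSbar (p : ℕ) : Prop :=
  ∀ (hp : p.Prime), 5 ≤ p → ∀ (M : ℕ) [NeZero M], ¬ p ∣ M →
    haveI : NeZero p := ⟨hp.ne_zero⟩
    ∀ A : ValuationSubring Kbar, A.LiesOverPrime p →
    ∀ (x : JZero (M * p)) (u : FF (M * p)), IsKummerPair p x u →
      (∀ Q : Place (h13sK A) (h13sFt A (goodLevel p M)),
        (p : ℤ) ∣ h44slOrd A (goodLevel p M) p
          (degen (Nat.mul_dvd_mul_right (dvd_goodLevel p M) p) u) Q) →
      h3gOm A (M * p) u ∈ h10wSbar M (ResidueField A)

/-- **(DL8-END)**: `θ s = 0` for a scaled reduction `s` of `u` gives `H76wResPow` at the good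
level. -/
def H86dEnd (p : ℕ) : Prop :=
  ∀ (hp : p.Prime), 5 ≤ p → ∀ (M : ℕ) [NeZero M], ¬ p ∣ M →
    haveI : NeZero p := ⟨hp.ne_zero⟩
    ∀ A : ValuationSubring Kbar, A.LiesOverPrime p →
    ∀ (u : FF (M * p)) (s : LaurentSeries (ResidueField A)), H3gRed A (M * p) u s →
      h96dTheta s = 0 →
      H76wResPow A (goodLevel p M * p) p
        (degen (Nat.mul_dvd_mul_right (dvd_goodLevel p M) p) u)

/-- **DLOG, assembly of (I-2)**. -/
theorem h86d_dlog {p : ℕ} (hS : H86dSbar p) (hE : H86dEnd p) : H16tDlog p := by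
  intro hp h5 M _ hpM
  haveI : NeZero p := ⟨hp.ne_zero⟩
  intro A hA x u hxu hOld hslope
  obtain ⟨e, hvars, hkill, hex⟩ := hOld
  have hvarsM : ∀ ℓ ∈ e.vars, ¬ (ℓ : ℕ) ∣ M := fun ℓ hℓ h =>
    hvars ℓ hℓ (Dvd.dvd.mul_right h p)
  have hvarsN : ∀ ℓ ∈ e.vars, ¬ (ℓ : ℕ) ∣ M * p * p := by
    intro ℓ hℓ h
    rcases (Nat.Prime.dvd_mul ℓ.2).1 h with h1 | h1
    · exact hvars ℓ hℓ h1
    · exact hvars ℓ hℓ (Dvd.dvd.mul_left h1 M)
  have hω := hS hp h5 M hpM A hA x u hxu hslope
  have h0 : h3fEval (ResidueField A) e (h3gOm A (M * p) u) = 0 :=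
    h86d_kill_sbar M e hvarsM hkill hω
  obtain ⟨s, hs⟩ := h3g_exists_red (A := A) (N := M * p) hp hA hxu.ne_zero
  have hθ : h96dTheta s = 0 := h3g_zero_level A hp hA (M * p) e hvarsN x u hxu hex h0 hs
  exact hE hp h5 M hpM A hA u s hs hθ

/-! ### The dimension argument -/

section Ser

variable {k : Type*} [Field k]

/-- the series `∑ w n q ^ n` of a sequence. -/
def h86dSer : (ℕ → k) →ₗ[k] LaurentSeries k where
  toFun w := HahnSeries.ofPowerSeries ℤ k (PowerSeries.mk w)
  map_add' a b := by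
    rw [← map_add]
    congr 1
  map_smul' c a := by
    rw [RingHom.id_apply, ← HahnSeries.C_mul_eq_smul]
    have h1 : (HahnSeries.C c : LaurentSeries k) =
        HahnSeries.ofPowerSeries ℤ k (PowerSeries.C c) := (HahnSeries.ofPowerSeries_C c).symm
    rw [h1, ← map_mul]
    congr 1
    ext n
    simp

theorem h86d_ser_coeff (w : ℕ → k) (n : ℕ) : (h86dSer w).coeff (n : ℤ) = w n := by
  show (HahnSeries.ofPowerSeries ℤ k (PowerSeries.mk w)).coeff (n : ℤ) = w n
  rw [HahnSeries.ofPowerSeries_apply_coeff, PowerSeries.coeff_mk]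

theorem h86d_ser_injective : Function.Injective (h86dSer (k := k)) := by
  intro a b h
  funext n
  rw [← h86d_ser_coeff a n, ← h86d_ser_coeff b n, h]

/-- **the dimension argument**: `Sbar ≤ Ω`, `dim Ω ≤ dim Sbar` give `Ω ≤ Sbar`. -/
theorem h86d_mem_of_omega (S : Submodule k (ℕ → k)) [Module.Finite k S]
    (Ω : Submodule k (LaurentSeries k)) [Module.Finite k Ω]
    (hcusp : ∀ w ∈ S, h86dSer w ∈ Ω)
    (hdim : Module.finrank k Ω ≤ Module.finrank k S)
    {w : ℕ → k} (hw : h86dSer w ∈ Ω) : w ∈ S := by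
  have hle : S.map h86dSer ≤ Ω := by
    rintro _ ⟨a, ha, rfl⟩
    exact hcusp a ha
  have h1 : Module.finrank k (S.map (h86dSer (k := k))) = Module.finrank k S :=
    (Submodule.equivMapOfInjective h86dSer h86d_ser_injective S).finrank_eq.symm
  have heq : S.map h86dSer = Ω :=
    Submodule.eq_of_le_of_finrank_le hle (by rw [h1]; exact hdim)
  rw [← heq] at hw
  obtain ⟨a, ha, hab⟩ := hw
  rw [← h86d_ser_injective hab]
  exact ha

end Ser

/-- **(DL-OMEGA)**: at every level `M` prime to `p` there is a space `V` of Laurent series over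
the residue field with (CUSP) `Sbar(M) ≤ Ω(V)`, (GAP) `dim Ω(V) ≤ g` for a weak genus `g` of
`FF M`, and (ORTH) `ω(u) ∈ Ω(V)` for every Kummer function `u` of level `M p` with
`p ∣ ord_Q` of the scaled reduction of `degen u` at every place of the special fibre of the good
level. -/
def H86dOmega (p : ℕ) : Prop :=
  ∀ (hp : p.Prime), 5 ≤ p → ∀ (M : ℕ) [NeZero M], ¬ p ∣ M →
    haveI : NeZero p := ⟨hp.ne_zero⟩
    ∀ A : ValuationSubring Kbar, A.LiesOverPrime p →
    ∃ V : Submodule (ResidueField A) (LaurentSeries (ResidueField A)),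
      (∀ w ∈ h10wSbar M (ResidueField A), h86dSer w ∈ h26gOmega V) ∧
      (∃ g : ℕ, Fermat.Agent.P5.H13rIsGenus Kbar (FF M) g ∧
        Module.Finite (ResidueField A) (h26gOmega V) ∧
        Module.finrank (ResidueField A) (h26gOmega V) ≤ g) ∧
      (∀ (x : JZero (M * p)) (u : FF (M * p)), IsKummerPair p x u →
        (∀ Q : Place (h13sK A) (h13sFt A (goodLevel p M)),
          (p : ℤ) ∣ h44slOrd A (goodLevel p M) p
            (degen (Nat.mul_dvd_mul_right (dvd_goodLevel p M) p) u) Q) →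
        h86dSer (h3gOm A (M * p) u) ∈ h26gOmega V)

/-- `Ω = Sbar` from GENUS-MATCH and DL6. -/
theorem h86d_sbar_of_omega {p : ℕ} (hΩ : H86dOmega p) : H86dSbar p := by
  intro hp h5 M _ hpM
  haveI : NeZero p := ⟨hp.ne_zero⟩
  intro A hA x u hxu hslope
  obtain ⟨V, hcusp, ⟨g, hg, hfin, hgap⟩, horth⟩ := hΩ hp h5 M hpM A hA
  haveI : Fact p.Prime := ⟨hp⟩
  haveI : CharP (ResidueField A) p := h3g_charP A hp hA
  haveI : Module.Finite (ResidueField A) (h10wSbar M (ResidueField A)) :=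
    h10w_sbar_finite M p (ResidueField A)
  haveI := hfin
  have h1 : g ≤ Module.finrank ℂ (CuspForm (CongruenceSubgroup.Gamma0 M) 2) :=
    h15g_genus_le M g hg
  have h2 := h10w_sbar_finrank M p (ResidueField A)
  exact h86d_mem_of_omega (h10wSbar M (ResidueField A)) (h26gOmega V) hcusp
    (hgap.trans (h1.trans h2)) (horth x u hxu hslope)

/-- **DLOG, assembly of (I-2) from the `Ω`-interface and DL8-END.** -/
theorem h86d_dlog_of_omega {p : ℕ} (hΩ : H86dOmega p) (hE : H86dEnd p) : H16tDlog p :=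
  h86d_dlog (h86d_sbar_of_omega hΩ) hE

end Fermat.Agent.P7
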