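import Fermat.Agent.P7.H3DlogTop
import Fermat.Agent.P7.H44Slope
import Fermat.Agent.P7.H26ResDeg
import Fermat.Agent.P7.H26DlogGapLevel
import Fermat.Agent.P7.H38ResNorm
import Fermat.Agent.P7.H86DlogAsm

/-!
# Wave 7, block (A), route DLOG: the input adapters of ORTH(M) (helper25, prefix `h25a_`)

Binders of the end shape (`H86dOmega` / `H3gDlogIn`): `p` prime, `M` prime to `p`, `A` over `p`,
`u : FF (M * p)` with a scaled reduction `s` (`H3gRed A (M * p) u s`) and the slope hypothesis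

`hslope : ∀ Q, (p : ℤ) ∣ h44slOrd A (goodLevel p M) p (degen _ u) Q`.

* `h25a_level_lift` (A1) : `s = softR y` for a Gauss unit `y` of level `M` (landed RES-DEG).
* `h25a_slope_lift` (A2) : `s = h13sIncl f` for an `f` in the function field of the special
  fibre of the good level, with `p ∣ ord_Q f` at every place `Q`.
* `h25a_order_dvd`, `h25a_log_coeff_zero`, `h25a_log_coeff_nonpos` (A3) : `p ∣ ord_q s`, and
  `dlog s` has no term of degree `≤ 0`.
* `h25a_ser_om` : `h86dSer (h3gOm A (M * p) u) = h96dLog s`.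
* `h25a_mem_omega` : **ORTH in the shape of `H86dOmega`** from the orthogonality relations
  `a₀(f · dlog s) = 0`, `f ∈ V`.
* `h25a_normalise` (A4) : the normalisation `ord_q s = 0`: a Gauss unit `y'` of level `M`, with
  reduction `s' = s · t̄ ^ (p n)` of `q`-order `0`, `dlog s' = dlog s`, `s' = h13sIncl f'` with
  `p ∣ ord_Q f'` at every place `Q` of the special fibre of the good level.
-/

set_option autoImplicit false
set_option linter.unusedSectionVars false
set_option linter.unusedVariables false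
set_option linter.style.haveILetI false
set_option synthInstance.maxHeartbeats 400000

open ModularCurve AlgebraicCurve IsLocalRing

noncomputable section

namespace Fermat.Agent.P7

open Fermat.Agent.S37 Fermat.Agent.Red Fermat.Agent.Red.GV Fermat.Agent.Red.GV.Soft
  Fermat.Agent.LGC Fermat.Agent.P5

section H25aSec

variable (A : ValuationSubring Kbar) {p : ℕ} (hp : p.Prime) (hA : A.LiesOverPrime p)
  (M : ℕ) [NeZero M] [NeZero p] (hM : ¬ p ∣ M)

include hp hA hM

/-- **(A1)** a scaled reduction of a function of level `M p` is the reduction of a Gauss unit of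
level `M`. -/
theorem h25a_level_lift {u : FF (M * p)} {s : LaurentSeries (ResidueField A)}
    (hs : H3gRed A (M * p) u s) :
    ∃ (y : FF M) (hy : y ∈ softV A M), y ≠ 0 ∧ y⁻¹ ∈ softV A M ∧ softR A M ⟨y, hy⟩ = s := by
  obtain ⟨hu, c, hc, hm, hi, hr⟩ := hs
  obtain ⟨y, hy, hy0, hyi, e⟩ := h26w_resdeg_unit A M p hp hM hA (cst (M * p) c * u) hm hi
    (mul_ne_zero (h3g_cst_ne_zero hc) hu)
  exact ⟨y, hy, hy0, hyi, e.trans hr⟩

/-- **(A2)** the slope hypothesis, in terms of a scaled reduction `s`. -/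
theorem h25a_slope_lift {u : FF (M * p)} {s : LaurentSeries (ResidueField A)}
    (hs : H3gRed A (M * p) u s)
    (hslope : ∀ Q : Place (h13sK A) (h13sFt A (goodLevel p M)),
      (p : ℤ) ∣ h44slOrd A (goodLevel p M) p
        (degen (Nat.mul_dvd_mul_right (dvd_goodLevel p M) p) u) Q) :
    ∃ f : h13sFt A (goodLevel p M), f ≠ 0 ∧ h13sIncl A (goodLevel p M) f = s ∧
      ∀ Q : Place (h13sK A) (h13sFt A (goodLevel p M)), (p : ℤ) ∣ Q.ord f := by
  have hMg : ¬ p ∣ goodLevel p M := not_dvd_goodLevel hp hM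
  have hs' := h3g_red_degen A (Nat.mul_dvd_mul_right (dvd_goodLevel p M) p) hs
  obtain ⟨hu, c, hc, hm, hi, hr⟩ := hs'
  obtain ⟨y, hy, hry⟩ := h44r_residue_degree_one_gaussV A (goodLevel p M) p hp hMg hA _ hm
  have hf : h13sIncl A (goodLevel p M) (h13sRed A (goodLevel p M) ⟨y, hy⟩) = s := by
    rw [h13sIncl_red, hry, hr]
  have hred : H44slRed A (goodLevel p M) p
      (degen (Nat.mul_dvd_mul_right (dvd_goodLevel p M) p) u)
      (h13sRed A (goodLevel p M) ⟨y, hy⟩) :=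
    ⟨hu, c, hc, hm, hi, by rw [h44slR_apply, hr, hf]⟩
  refine ⟨_, h44sl_red_ne_zero hred, hf, fun Q => ?_⟩
  rw [← h44sl_ord_eq hred Q]
  exact hslope Q

/-- **(A3)** `p ∣ ord_q s`. -/
theorem h25a_order_dvd {u : FF (M * p)} {s : LaurentSeries (ResidueField A)}
    (hs : H3gRed A (M * p) u s)
    (hslope : ∀ Q : Place (h13sK A) (h13sFt A (goodLevel p M)),
      (p : ℤ) ∣ h44slOrd A (goodLevel p M) p
        (degen (Nat.mul_dvd_mul_right (dvd_goodLevel p M) p) u) Q) :
    (p : ℤ) ∣ s.order := by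
  obtain ⟨f, hf0, hf, hdiv⟩ := h25a_slope_lift A hp hA M hM hs hslope
  obtain ⟨Q, hQ⟩ := h26g_place_inf A (goodLevel p M)
  have h := hdiv Q
  rw [hQ f hf0, hf] at h
  exact h

/-- **(A3)** the constant term of `dlog s` vanishes. -/
theorem h25a_log_coeff_zero {u : FF (M * p)} {s : LaurentSeries (ResidueField A)}
    (hs : H3gRed A (M * p) u s)
    (hslope : ∀ Q : Place (h13sK A) (h13sFt A (goodLevel p M)),
      (p : ℤ) ∣ h44slOrd A (goodLevel p M) p
        (degen (Nat.mul_dvd_mul_right (dvd_goodLevel p M) p) u) Q) :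
    (h96dLog s).coeff 0 = 0 := by
  haveI : CharP (ResidueField A) p := h3g_charP A hp hA
  obtain ⟨a, ha⟩ := h25a_order_dvd A hp hA M hM hs hslope
  rw [h38r_coeff_zero_log s (h3g_red_ne_zero hs), ha]
  push_cast
  rw [CharP.cast_eq_zero, zero_mul]

/-- **(A3)** `dlog s` has no term of degree `≤ 0`. -/
theorem h25a_log_coeff_nonpos {u : FF (M * p)} {s : LaurentSeries (ResidueField A)}
    (hs : H3gRed A (M * p) u s)
    (hslope : ∀ Q : Place (h13sK A) (h13sFt A (goodLevel p M)),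
      (p : ℤ) ∣ h44slOrd A (goodLevel p M) p
        (degen (Nat.mul_dvd_mul_right (dvd_goodLevel p M) p) u) Q)
    (m : ℤ) (hm : m ≤ 0) : (h96dLog s).coeff m = 0 := by
  rcases hm.lt_or_eq with h | h
  · exact h3g_log_coeff_neg (h3g_red_ne_zero hs) h
  · rw [h]
    exact h25a_log_coeff_zero A hp hA M hM hs hslope

omit hp hA hM in
/-- the series of `ω(u)` is `dlog s`. -/
theorem h25a_ser_om {N : ℕ} [NeZero N] {u : FF N} {s : LaurentSeries (ResidueField A)}
    (hs : H3gRed A N u s) :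
    h86dSer (h3gOm A N u) = h96dLog s := by
  ext n
  rcases lt_or_ge n 0 with hn | hn
  · rw [h3g_log_coeff_neg (h3g_red_ne_zero hs) hn]
    show (HahnSeries.ofPowerSeries ℤ (ResidueField A) (PowerSeries.mk (h3gOm A N u))).coeff n = 0
    have h := PowerSeries.coeff_coe (PowerSeries.mk (h3gOm A N u)) n
    rw [if_pos hn] at h
    exact h
  · obtain ⟨m, rfl⟩ := Int.eq_ofNat_of_zero_le hn
    rw [h86d_ser_coeff, h3g_om_eq hs]

/-- **ORTH in the shape of `H86dOmega`**, from the orthogonality relations. -/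
theorem h25a_mem_omega {u : FF (M * p)} {s : LaurentSeries (ResidueField A)}
    (hs : H3gRed A (M * p) u s)
    (hslope : ∀ Q : Place (h13sK A) (h13sFt A (goodLevel p M)),
      (p : ℤ) ∣ h44slOrd A (goodLevel p M) p
        (degen (Nat.mul_dvd_mul_right (dvd_goodLevel p M) p) u) Q)
    (V : Submodule (ResidueField A) (LaurentSeries (ResidueField A)))
    (horth : ∀ f ∈ V, (f * h96dLog s).coeff 0 = 0) :
    h86dSer (h3gOm A (M * p) u) ∈ h26gOmega V := by
  rw [h25a_ser_om A hs]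
  exact ⟨fun m hm => h25a_log_coeff_nonpos A hp hA M hM hs hslope m hm, horth⟩

/-- **ORTH in the shape of `H86dOmega`**, from the orthogonality relations for SOME scaled
reduction (no `s` in the statement). -/
theorem h25a_mem_omega' {u : FF (M * p)} (hu : u ≠ 0)
    (hslope : ∀ Q : Place (h13sK A) (h13sFt A (goodLevel p M)),
      (p : ℤ) ∣ h44slOrd A (goodLevel p M) p
        (degen (Nat.mul_dvd_mul_right (dvd_goodLevel p M) p) u) Q)
    (V : Submodule (ResidueField A) (LaurentSeries (ResidueField A)))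
    (horth : ∀ s : LaurentSeries (ResidueField A), H3gRed A (M * p) u s →
      ∀ f ∈ V, (f * h96dLog s).coeff 0 = 0) :
    h86dSer (h3gOm A (M * p) u) ∈ h26gOmega V := by
  obtain ⟨s, hs⟩ := h3g_exists_red (A := A) (N := M * p) hp hA hu
  exact h25a_mem_omega A hp hA M hM hs hslope V (horth s hs)

end H25aSec

/-! ### The normalisation `ord_q s = 0` -/

section H25aNorm

variable (A : ValuationSubring Kbar) {p : ℕ} (hp : p.Prime) (hA : A.LiesOverPrime p)
  (M : ℕ) [NeZero M] [NeZero p] (hM : ¬ p ∣ M)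

/-- the twist of a reduction datum by a `p n`-th power. -/
theorem h25a_twist (Mg : ℕ) [NeZero Mg] [Fact p.Prime] [CharP (ResidueField A) p]
    {y : FF M} (hy : y ∈ softV A M) (hy0 : y ≠ 0)
    (hyi : y⁻¹ ∈ softV A M) {f : h13sFt A Mg} (hf0 : f ≠ 0)
    (hfy : h13sIncl A Mg f = softR A M ⟨y, hy⟩)
    (hdiv : ∀ Q : Place (h13sK A) (h13sFt A Mg), (p : ℤ) ∣ Q.ord f)
    {T : FF M} (hT : T ∈ softV A M) (hT0 : T ≠ 0) (hTi : T⁻¹ ∈ softV A M)
    {Tf : h13sFt A Mg} (hTf : h13sIncl A Mg Tf = softR A M ⟨T, hT⟩) (n : ℕ) :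
    ∃ (y' : FF M) (hy' : y' ∈ softV A M) (f' : h13sFt A Mg), y' ≠ 0 ∧ y'⁻¹ ∈ softV A M ∧
      softR A M ⟨y', hy'⟩ = softR A M ⟨y, hy⟩ * softR A M ⟨T, hT⟩ ^ (p * n) ∧
      f' ≠ 0 ∧ h13sIncl A Mg f' = softR A M ⟨y', hy'⟩ ∧
      (∀ Q : Place (h13sK A) (h13sFt A Mg), (p : ℤ) ∣ Q.ord f') ∧
      (softR A M ⟨y', hy'⟩).order =
        (softR A M ⟨y, hy⟩).order + ((p * n : ℕ) : ℤ) * (softR A M ⟨T, hT⟩).order ∧
      h96dLog (softR A M ⟨y', hy'⟩) = h96dLog (softR A M ⟨y, hy⟩) := by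
  have hs0 : softR A M ⟨y, hy⟩ ≠ 0 := (softR_ne_zero_iff A M ⟨y, hy⟩).mpr ⟨hy0, hyi⟩
  have ht0 : softR A M ⟨T, hT⟩ ≠ 0 := (softR_ne_zero_iff A M ⟨T, hT⟩).mpr ⟨hT0, hTi⟩
  have hTf0 : Tf ≠ 0 := by
    intro h
    apply ht0
    rw [← hTf, h]
    exact map_zero _
  have hmem : y * T ^ (p * n) ∈ softV A M := mul_mem hy (pow_mem hT _)
  have hmemi : (y * T ^ (p * n))⁻¹ ∈ softV A M := by
    rw [mul_inv, ← inv_pow]
    exact mul_mem hyi (pow_mem hTi _)
  have hred : softR A M ⟨y * T ^ (p * n), hmem⟩ =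
      softR A M ⟨y, hy⟩ * softR A M ⟨T, hT⟩ ^ (p * n) := by
    rw [← map_pow, ← map_mul]
    rfl
  refine ⟨y * T ^ (p * n), hmem, f * Tf ^ (p * n), mul_ne_zero hy0 (pow_ne_zero _ hT0), hmemi,
    hred, mul_ne_zero hf0 (pow_ne_zero _ hTf0), ?_, fun Q => ?_, ?_, ?_⟩
  · have h1 : h13sIncl A Mg (f * Tf ^ (p * n)) =
        h13sIncl A Mg f * h13sIncl A Mg Tf ^ (p * n) := by
      rw [map_mul, map_pow]
    rw [h1, hfy, hTf]
    exact hred.symm
  · rw [Place.ord_mul Q hf0 (pow_ne_zero _ hTf0), ← zpow_natCast, Place.ord_zpow]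
    refine dvd_add (hdiv Q) ?_
    rw [Nat.cast_mul, mul_assoc]
    exact dvd_mul_right _ _
  · rw [hred, HahnSeries.order_mul hs0 (pow_ne_zero _ ht0), HahnSeries.order_pow, nsmul_eq_mul]
  · rw [hred, h96d_log_mul hs0 (pow_ne_zero _ ht0), pow_mul', h96d_log_pow_char, add_zero]

include hp hA hM in
/-- **(A4) normalisation.**  Under the slope hypothesis there are a Gauss unit `y'` of level
`M` and an `f'` in the function field of the special fibre of the good level with the same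
reduction `s'`, of `q`-order `0`, with `dlog s' = dlog s` and `p ∣ ord_Q f'` at every place. -/
theorem h25a_normalise {u : FF (M * p)} {s : LaurentSeries (ResidueField A)}
    (hs : H3gRed A (M * p) u s)
    (hslope : ∀ Q : Place (h13sK A) (h13sFt A (goodLevel p M)),
      (p : ℤ) ∣ h44slOrd A (goodLevel p M) p
        (degen (Nat.mul_dvd_mul_right (dvd_goodLevel p M) p) u) Q) :
    ∃ (y' : FF M) (hy' : y' ∈ softV A M) (f' : h13sFt A (goodLevel p M)),
      y' ≠ 0 ∧ y'⁻¹ ∈ softV A M ∧ f' ≠ 0 ∧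
      h13sIncl A (goodLevel p M) f' = softR A M ⟨y', hy'⟩ ∧
      (∀ Q : Place (h13sK A) (h13sFt A (goodLevel p M)), (p : ℤ) ∣ Q.ord f') ∧
      (softR A M ⟨y', hy'⟩).order = 0 ∧
      h96dLog (softR A M ⟨y', hy'⟩) = h96dLog s := by
  haveI : Fact p.Prime := ⟨hp⟩
  haveI : CharP (ResidueField A) p := h3g_charP A hp hA
  obtain ⟨y, hy, hy0, hyi, hys⟩ := h25a_level_lift A hp hA M hM hs
  obtain ⟨f, hf0, hf, hdiv⟩ := h25a_slope_lift A hp hA M hM hs hslope
  obtain ⟨a, ha⟩ := h25a_order_dvd A hp hA M hM hs hslope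
  have hfy : h13sIncl A (goodLevel p M) f = softR A M ⟨y, hy⟩ := by rw [hf, hys]
  -- the function `j` and its reduction
  have hJ : jB M ∈ softV A M := gaussV_le_softV A M (jB_mem_gaussV A M)
  have hJr : softR A M ⟨jB M, hJ⟩ = jqModC (ResidueField A) := by
    rw [softR_eq_gaussR A M (jB M) hJ (jB_mem_gaussV A M)]
    exact gaussR_jB A M
  have hJne : softR A M ⟨jB M, hJ⟩ ≠ 0 := by
    rw [hJr]
    intro h
    have h1 := Fermat.Agent.S28.Asm.order_jqModC' (ResidueField A)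
    rw [h, HahnSeries.order_zero] at h1
    omega
  obtain ⟨hJ0, hJi⟩ := (softR_ne_zero_iff A M ⟨jB M, hJ⟩).mp hJne
  have hJf : h13sIncl A (goodLevel p M) (h26sJ A (goodLevel p M)) = softR A M ⟨jB M, hJ⟩ := by
    rw [h26g_incl_j, hJr]
  have hJio : (softR A M ⟨(jB M)⁻¹, hJi⟩).order = 1 := by
    rw [h3g_softR_inv hJ hJi hJ0, hJr]
    have h1 := Fermat.Agent.S28.Asm.order_jqModC' (ResidueField A)
    have hne : jqModC (ResidueField A) ≠ 0 := by
      rw [← hJr]; exact hJne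
    have h2 : (jqModC (ResidueField A)).order + (jqModC (ResidueField A))⁻¹.order = 0 := by
      rw [← HahnSeries.order_mul hne (inv_ne_zero hne), mul_inv_cancel₀ hne,
        HahnSeries.order_one]
    omega
  have hJif : h13sIncl A (goodLevel p M) (h26sJ A (goodLevel p M))⁻¹ =
      softR A M ⟨(jB M)⁻¹, hJi⟩ := by
    have h1 : h13sIncl A (goodLevel p M) (h26sJ A (goodLevel p M))⁻¹ =
        (h13sIncl A (goodLevel p M) (h26sJ A (goodLevel p M)))⁻¹ := map_inv₀ _ _
    rw [h1, hJf]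
    exact (h3g_softR_inv hJ hJi hJ0).symm
  rcases le_total 0 a with h0 | h0
  · -- multiply by `j ^ (p a)`
    obtain ⟨n, hn⟩ := Int.eq_ofNat_of_zero_le h0
    obtain ⟨y', hy', f', h1, h2, h3, h4, h5, h6, h7, h8⟩ :=
      h25a_twist A M (goodLevel p M) hy hy0 hyi hf0 hfy hdiv hJ hJ0 hJi hJf n
    refine ⟨y', hy', f', h1, h2, h4, h5, h6, ?_, ?_⟩
    · rw [h7, hys, ha, hJr, Fermat.Agent.S28.Asm.order_jqModC', hn]
      push_cast
      ring
    · rw [h8, hys]
  · -- multiply by `j ^ (- p |a|)`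
    obtain ⟨n, hn⟩ := Int.eq_ofNat_of_zero_le (neg_nonneg.mpr h0)
    have hJi0 : (jB M)⁻¹ ≠ 0 := inv_ne_zero hJ0
    have hJii : ((jB M)⁻¹)⁻¹ ∈ softV A M := by rw [inv_inv]; exact hJ
    obtain ⟨y', hy', f', h1, h2, h3, h4, h5, h6, h7, h8⟩ :=
      h25a_twist A M (goodLevel p M) hy hy0 hyi hf0 hfy hdiv hJi hJi0 hJii hJif n
    refine ⟨y', hy', f', h1, h2, h4, h5, h6, ?_, ?_⟩
    · rw [h7, hys, ha, hJio]
      have : a = -(n : ℤ) := by omega
      rw [this]
      push_cast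
      ring
    · rw [h8, hys]

end H25aNorm

end Fermat.Agent.P7
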