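import Fermat.Agent.P7.H37GapM
import Fermat.Agent.P7.H10IntQIface
import Fermat.Agent.Red.GV.SoftGal

/-!
# Wave 7, block (A), DLOG at the level `M`: adapters between the shapes of
"`f` regular off `∞_M`" (helper59, prefix `h59a_`)

The leaves of DLOG at the level `M` use three vocabularies for the same objects:

* helper10 (INT-Q, CUSP-ORTH-RED): `H10xRegOff M f`
  (`∀ w, (∃ g ≠ 0, w.ord g ≠ order g) → 0 ≤ w.ord f`), `softV`, `softR`;
* helper37 (DL4 at level `M`): a place `Q` with `order f = Q.ord f`, `∀ v ≠ Q, 0 ≤ v.ord f`,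
  `gaussV`, `gaussR`, the span `h37nLL M A Q`, `Ω = h26gOmega (h37nLL M A Q)`;
* helper38 (DL2 at level `M`): a place `oo` with `oo.ord y = order y`, `∀ v ≠ oo, 0 ≤ v.ord f`.

Here:

* `h59a_place_eq_of_ord` : two places with the same order function are equal;
  `h59a_place_unique` : the `q`-order place of `FF M` is unique;
* `h59a_exists_ne_ord` : `w ≠ Q` ⟹ some `g ≠ 0` has `w.ord g ≠ Q.ord g`;
* `h59a_regOff_iff` : `H10xRegOff M f ↔ ∀ v ≠ Q, 0 ≤ v.ord f`;
* `h59a_softR_mem_LL`, `h59a_gaussR_mem_LL` : the reductions lie in `h37nLL M A Q`;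
* `h59a_mem_omega_iff_gauss`, `h59a_mem_omega_iff_soft`, `h59a_mem_omega_iff_regOff` :
  `w ∈ Ω(LL(M))` iff `w` has no term of degree `≤ 0` and `a₀(red f · w) = 0` for every
  Gauss-integral `f` regular off `∞_M`, in each of the three vocabularies.

Nothing is assumed.
-/

set_option autoImplicit false
set_option linter.unusedSectionVars false
set_option linter.style.haveILetI false

open AlgebraicCurve ModularCurve IsLocalRing

noncomputable section

namespace Fermat.Agent.P7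

open Fermat.Agent.S37 Fermat.Agent.Red.GV Fermat.Agent.Red.GV.Soft Fermat.Agent.P5

/-- two places with the same order function are equal. -/
theorem h59a_place_eq_of_ord {K F : Type*} [Field K] [Field F] [Algebra K F]
    (v w : Place K F) (h : ∀ f : F, f ≠ 0 → v.ord f = w.ord f) : v = w := by
  apply Place.ext
  ext f
  rcases eq_or_ne f 0 with rfl | hf
  · exact ⟨fun _ => w.toValuationSubring.zero_mem, fun _ => v.toValuationSubring.zero_mem⟩
  · rw [← Fermat.Agent.S24.DiffPlace.ord_nonneg_iff_mem, ← Fermat.Agent.S24.DiffPlace.ord_nonneg_iff_mem,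
      h f hf]

/-- distinct places are separated by the order of some nonzero function. -/
theorem h59a_exists_ne_ord {K F : Type*} [Field K] [Field F] [Algebra K F]
    {v w : Place K F} (h : v ≠ w) : ∃ g : F, g ≠ 0 ∧ v.ord g ≠ w.ord g := by
  by_contra hno
  exact h (h59a_place_eq_of_ord v w fun f hf => by
    by_contra hne
    exact hno ⟨f, hf, hne⟩)

section Level

variable (M : ℕ) [NeZero M]

/-- the `q`-order place of `FF M` is unique. -/
theorem h59a_place_unique (Q Q' : Place Kbar (FF M))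
    (hQ : ∀ f : FF M, f ≠ 0 → ((f : FF M) : LaurentSeries Kbar).order = Q.ord f)
    (hQ' : ∀ f : FF M, f ≠ 0 → ((f : FF M) : LaurentSeries Kbar).order = Q'.ord f) :
    Q = Q' :=
  h59a_place_eq_of_ord Q Q' fun f hf => (hQ f hf).symm.trans (hQ' f hf)

/-- the `q`-order place, in the orientation of helper38 (`oo.ord y = order y`). -/
theorem h59a_place_infty :
    ∃ oo : Place Kbar (FF M), ∀ y : FF M, y ≠ 0 →
      oo.ord y = ((y : FF M) : LaurentSeries Kbar).order := by
  obtain ⟨Q, hQ⟩ := h37n_place_infty M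
  exact ⟨Q, fun y hy => (hQ y hy).symm⟩

/-- **the two shapes of "regular off `∞_M`" agree.** -/
theorem h59a_regOff_iff (Q : Place Kbar (FF M))
    (hQ : ∀ f : FF M, f ≠ 0 → ((f : FF M) : LaurentSeries Kbar).order = Q.ord f) (f : FF M) :
    H10xRegOff M f ↔ ∀ v : Place Kbar (FF M), v ≠ Q → 0 ≤ v.ord f := by
  constructor
  · intro h v hv
    obtain ⟨g, hg, hne⟩ := h59a_exists_ne_ord hv
    exact h v ⟨g, hg, fun e => hne (e.trans (hQ g hg))⟩
  · rintro h w ⟨g, hg, hne⟩
    refine h w ?_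
    rintro rfl
    exact hne (hQ g hg).symm

/-- the same with the orientation `oo.ord y = order y`. -/
theorem h59a_regOff_iff' (oo : Place Kbar (FF M))
    (hoo : ∀ y : FF M, y ≠ 0 → oo.ord y = ((y : FF M) : LaurentSeries Kbar).order) (f : FF M) :
    H10xRegOff M f ↔ ∀ v : Place Kbar (FF M), v ≠ oo → 0 ≤ v.ord f :=
  h59a_regOff_iff M oo (fun y hy => (hoo y hy).symm) f

variable (A : ValuationSubring Kbar) (Q : Place Kbar (FF M))

/-- the reduction of a Gauss-integral function regular off `Q` lies in `LL(M)`. -/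
theorem h59a_gaussR_mem_LL (f : FF M) (hf : f ∈ gaussV A M)
    (hreg : ∀ v : Place Kbar (FF M), v ≠ Q → 0 ≤ v.ord f) :
    gaussR A M ⟨f, hf⟩ ∈ h37nLL M A Q :=
  Submodule.subset_span ⟨f, hf, hreg, rfl⟩

/-- the same for `softV` / `softR`. -/
theorem h59a_softR_mem_LL {ℓ : ℕ} (hℓ : ℓ.Prime) (hM : ¬ ℓ ∣ M) (hA : A.LiesOverPrime ℓ)
    (f : FF M) (hf : f ∈ softV A M)
    (hreg : ∀ v : Place Kbar (FF M), v ≠ Q → 0 ≤ v.ord f) :
    softR A M ⟨f, hf⟩ ∈ h37nLL M A Q := by
  have hf' : f ∈ gaussV A M := softV_le_gaussV A M hℓ hM hA hf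
  rw [softR_eq_gaussR A M f hf hf']
  exact h59a_gaussR_mem_LL M A Q f hf' hreg

/-- **membership in `Ω(LL(M))`, `gaussV` vocabulary.** -/
theorem h59a_mem_omega_iff_gauss (w : LaurentSeries (ResidueField A)) :
    w ∈ h26gOmega (h37nLL M A Q) ↔
      (∀ m : ℤ, m ≤ 0 → w.coeff m = 0) ∧
        ∀ (f : FF M) (hf : f ∈ gaussV A M),
          (∀ v : Place Kbar (FF M), v ≠ Q → 0 ≤ v.ord f) →
            (gaussR A M ⟨f, hf⟩ * w).coeff 0 = 0 := by
  constructor
  · rintro ⟨h1, h2⟩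
    exact ⟨h1, fun f hf hreg => h2 _ (h59a_gaussR_mem_LL M A Q f hf hreg)⟩
  · rintro ⟨h1, h2⟩
    refine ⟨h1, fun y hy => ?_⟩
    induction hy using Submodule.span_induction with
    | mem y hy =>
      obtain ⟨f, hf, hreg, rfl⟩ := hy
      exact h2 f hf hreg
    | zero => rw [zero_mul]; rfl
    | add x y _ _ hx hy => rw [add_mul, HahnSeries.coeff_add, hx, hy, add_zero]
    | smul c x _ hx =>
      rw [← HahnSeries.C_mul_eq_smul, mul_assoc, HahnSeries.C_mul_eq_smul,
        HahnSeries.coeff_smul, hx, smul_zero]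

/-- **membership in `Ω(LL(M))`, `softV` vocabulary.** -/
theorem h59a_mem_omega_iff_soft {ℓ : ℕ} (hℓ : ℓ.Prime) (hM : ¬ ℓ ∣ M) (hA : A.LiesOverPrime ℓ)
    (w : LaurentSeries (ResidueField A)) :
    w ∈ h26gOmega (h37nLL M A Q) ↔
      (∀ m : ℤ, m ≤ 0 → w.coeff m = 0) ∧
        ∀ (f : FF M) (hf : f ∈ softV A M),
          (∀ v : Place Kbar (FF M), v ≠ Q → 0 ≤ v.ord f) →
            (softR A M ⟨f, hf⟩ * w).coeff 0 = 0 := by
  rw [h59a_mem_omega_iff_gauss]
  constructor
  · rintro ⟨h1, h2⟩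
    refine ⟨h1, fun f hf hreg => ?_⟩
    have hf' : f ∈ gaussV A M := softV_le_gaussV A M hℓ hM hA hf
    rw [softR_eq_gaussR A M f hf hf']
    exact h2 f hf' hreg
  · rintro ⟨h1, h2⟩
    refine ⟨h1, fun f hf hreg => ?_⟩
    have hf' : f ∈ softV A M := gaussV_le_softV A M hf
    rw [← softR_eq_gaussR A M f hf' hf]
    exact h2 f hf' hreg

/-- **membership in `Ω(LL(M))`, vocabulary of INT-Q** (`H10xRegOff`, `softV`, `softR`). -/
theorem h59a_mem_omega_iff_regOff {ℓ : ℕ} (hℓ : ℓ.Prime) (hM : ¬ ℓ ∣ M)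
    (hA : A.LiesOverPrime ℓ)
    (hQ : ∀ f : FF M, f ≠ 0 → ((f : FF M) : LaurentSeries Kbar).order = Q.ord f)
    (w : LaurentSeries (ResidueField A)) :
    w ∈ h26gOmega (h37nLL M A Q) ↔
      (∀ m : ℤ, m ≤ 0 → w.coeff m = 0) ∧
        ∀ (f : FF M) (hf : f ∈ softV A M), H10xRegOff M f →
          (softR A M ⟨f, hf⟩ * w).coeff 0 = 0 := by
  rw [h59a_mem_omega_iff_soft M A Q hℓ hM hA]
  constructor
  · rintro ⟨h1, h2⟩
    exact ⟨h1, fun f hf hreg => h2 f hf ((h59a_regOff_iff M Q hQ f).1 hreg)⟩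
  · rintro ⟨h1, h2⟩
    exact ⟨h1, fun f hf hreg => h2 f hf ((h59a_regOff_iff M Q hQ f).2 hreg)⟩

end Level

end Fermat.Agent.P7
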