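import Fermat.Agent.P7.H16Top
import Fermat.Agent.P7.H99S44Final
import Fermat.Agent.P7.H34MultFrey

/-!
# Wave 7 (S44): T-TOP with the DLOG block in its GOOD-LEVEL shape, and the full chain (helper99)

`H16tDlog p` (helper16, P7/H16Top.lean) lets the Hecke polynomial `e` contain every `T_ℓ` with
`ℓ ∤ M p`.  The top `h99w_s44_final` only provides polynomials whose variables are prime to
`goodLevel p M * p` (`H99wToricGoodAt`), so the block (A) = DLOG may be proved under this STRONGER
hypothesis on `e`: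

* `H99wDlogGoodAt p` : the statement of `H16tDlog p` with `¬ ℓ ∣ goodLevel p M * p` for the
  variables of `e` (everything else verbatim);
* `h99w_dlogGood_of : H16tDlog p → H99wDlogGoodAt p`;
* `h99w_toricGood_of_dlogGood : 5 ≤ p → H16tSlopeZero p → H99wDlogGoodAt p → H99wToricGoodAt p`;
* `h99w_s44_chain` : the frozen statement S44 from `(I-1)` and `(I-2)` (good shape) for all
  `p ≥ 5` (LOCAL-MULT `h34n_localFrey` and "bad at `2`" are landed and used inside).

Nothing is assumed.
-/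

set_option autoImplicit false
set_option linter.unusedSectionVars false
set_option linter.style.haveILetI false
set_option synthInstance.maxHeartbeats 400000

open AlgebraicCurve ModularCurve

noncomputable section

namespace Fermat.Agent.P7

open Fermat.Agent.S37 Fermat.Agent.S35 Fermat.Agent.P6
open Fermat.Agent.Jac.K1 (IsKummerPair)
open Fermat.Agent.P5 (h69vPull h13sK h13sFt)

/-- **(I-2) DLOG at the prime `p`, good-level shape**: the variables of the Hecke polynomial are
prime to `goodLevel p M * p`. -/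
def H99wDlogGoodAt (p : ℕ) : Prop :=
  ∀ (hp : p.Prime), 5 ≤ p → ∀ (M : ℕ) [NeZero M], ¬ p ∣ M →
    haveI : NeZero p := ⟨hp.ne_zero⟩
    ∀ A : ValuationSubring Kbar, A.LiesOverPrime p →
    ∀ (x : JZero (M * p)) (u : FF (M * p)), IsKummerPair p x u →
      (∃ e : MvPolynomial Nat.Primes ℤ, (∀ ℓ ∈ e.vars, ¬ (ℓ : ℕ) ∣ goodLevel p M * p) ∧
        H99wKillsCusp M e ∧ (letI := heckeModuleBar (M * p); e • x = x)) →
      (∀ Q : Place (h13sK A) (h13sFt A (goodLevel p M)),
        (p : ℤ) ∣ h44slOrd A (goodLevel p M) p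
          (degen (Nat.mul_dvd_mul_right (dvd_goodLevel p M) p) u) Q) →
      H76wResPow A (goodLevel p M * p) p
        (degen (Nat.mul_dvd_mul_right (dvd_goodLevel p M) p) u)

/-- the shape of helper16 implies the good-level shape. -/
theorem h99w_dlogGood_of {p : ℕ} (h : H16tDlog p) : H99wDlogGoodAt p := by
  intro hp h5 M _ hpM
  haveI : NeZero p := ⟨hp.ne_zero⟩
  intro A hA x u hu hOld hs
  obtain ⟨e, he, h1, h2⟩ := hOld
  exact h hp h5 M hpM A hA x u hu ⟨e, fun ℓ hℓ => h99w_not_dvd_of_good (he ℓ hℓ), h1, h2⟩ hs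

/-- **T-TOP, good-level shape**: TORIC with Hecke primes prime to the good level, from (I-1)
and (I-2) in its good-level shape. -/
theorem h99w_toricGood_of_dlogGood {p : ℕ} (h5 : 5 ≤ p) (hS : H16tSlopeZero p)
    (hD : H99wDlogGoodAt p) : H99wToricGoodAt p := by
  intro hp hp2 M _ hpM
  haveI : NeZero p := ⟨hp.ne_zero⟩
  intro A hA β hβ hβi hβp x hpx hα hβx hfix hEis hOld a ha e hae
  have hdq : M * p ∣ goodLevel p M * p := Nat.mul_dvd_mul_right (dvd_goodLevel p M) p
  have hpM' : ¬ p ∣ goodLevel p M := not_dvd_goodLevel hp hpM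
  -- DESC
  obtain ⟨w, hw, -, hk, hg, -⟩ := h33w_desc_toric p M A β x hpx hfix
  have hw0 : w ≠ 0 := hw.ne_zero
  have hu0 : degen hdq w ≠ 0 := h31s_degen_ne_zero hdq hw0
  -- the Hecke relation at the good level
  have hrel : ∃ l : Nat.Primes, ¬ (l : ℕ) ∣ goodLevel p M * p ∧ ∃ c : ℤ,
      ∃ h : FF (goodLevel p M * p), h ≠ 0 ∧
        (haveI : NeZero (l : ℕ) := ⟨l.2.ne_zero⟩;
          h19vT (goodLevel p M * p) (l : ℕ) (degen hdq w) = h ^ p * degen hdq w ^ c) ∧
        ¬ (p : ℤ) ∣ ((l : ℕ) : ℤ) + 1 - c := by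
    obtain ⟨l, hl, c, hc, hnE⟩ := hEis
    refine ⟨l, hl, c, ?_⟩
    have hc' : heckeOperatorBar (goodLevel p M * p) ⟨(l : ℕ), l.2⟩ (h69vPull hdq x)
        = c • h69vPull hdq x := by
      have h1 := h69vPull_hecke hdq l hl x
      rw [hc, map_zsmul] at h1
      exact h1.symm
    obtain ⟨h, hh, he⟩ := h19e_eigen_fun (goodLevel p M * p) l.2 hp.ne_zero hk c hc'
    exact ⟨h, hh, he, hnE⟩
  -- (I-1) at the good level
  have hs := hS hp hp2 (goodLevel p M) (auxLevel_dvd_goodLevel p M) hpM' A hA β hβ hβi hβp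
    (degen hdq w) hu0 (fun v => hk.dvd_ord v) hg hrel
  -- (I-2), good-level shape
  have hres := hD hp h5 M hpM A hA x w hw hOld hs
  -- the gate
  have hcyc : H11Cyc p 1 a e := by
    intro ζ hζ
    rw [pow_one] at hζ
    exact hae ζ hζ
  have hw' : IsKummerPair (p ^ 1) x w := by
    rw [pow_one]
    exact hw
  have hres' : H76wResPow A (goodLevel p M * p) (p ^ 1) (degen hdq w) := by
    rw [pow_one]
    exact hres
  exact h76w_toric_of_resPow_good hp hp2 M hpM A hA a ha 1 e hcyc x w hw' hα hβx hres'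

/-- **the full chain**: the frozen statement S44 from the end shapes (I-1) SLOPE-ZERO and
(I-2) DLOG (good-level shape) for all primes `p ≥ 5`. -/
theorem h99w_s44_chain (hS : ∀ p : ℕ, 5 ≤ p → H16tSlopeZero p)
    (hD : ∀ p : ℕ, 5 ≤ p → H99wDlogGoodAt p)
    (P : FreyPackage) {N : ℕ} (hcond : P.IsConductorLevel N) (hpN : P.p ∣ N)
    (hirr : WeierstrassCurve.Affine.Point.GaloisRepIsIrreducible (K := AlgebraicClosure ℚ) ℚ
      P.freyCurve P.p)
    (hmod : P.ModularRepOfLevel N) :
    ∃ M : ℕ, M ∣ N ∧ ¬ P.p ∣ M ∧ P.ModularRepOfLevel M :=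
  h99w_s44_final (fun p h5 => h99w_toricGood_of_dlogGood h5 (hS p h5) (hD p h5))
    h34n_localFrey P hcond hpN hirr hmod

end Fermat.Agent.P7
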