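import Fermat.Agent.P7.H3DlogTop
import Fermat.Agent.P7.H99TTopGood

/-!
# Wave 7 (row 38), block (A), DLOG route: (I-2) from ONE input (helper3)

`H3gDlogIn p` is the single statement left open by the landed DLOG leaves DL1 (SEP), DL7a/DL7b
(formal Hecke operators and `θ`), DL8-POLY and DL8-TOP:

> `u` a Kummer function of `x ∈ J₀(M p)[p]` (`p ∤ M`, `p ≥ 5`), `degen u` pure at the good level
> (`p ∣ ord_Q` of its scaled reduction at every place `Q` of the special fibre)
> `⟹`  the logarithmic derivative `ω(u) = θ(ū)/ū` (coefficient sequence `h3gOm A (M p) u`)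
> lies in `S̄(M) = h10wSbar M k`, the span of the reductions of the integral weight-2 cusp forms
> of level `M`.

* `h3g_dlog_of_in : H3gDlogIn p → H16tDlog p`
* `h3g_dlogGood_of_in : H3gDlogIn p → H99wDlogGoodAt p`
* `h3g_s44_of_in` : the frozen statement S44 from (I-1) `H16tSlopeZero` and `H3gDlogIn`
  for all `p ≥ 5`.

Every declaration is a proved theorem (or a `Prop`-valued definition); nothing is assumed.
-/

set_option autoImplicit false
set_option linter.unusedSectionVars false
set_option linter.unusedVariables false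
set_option linter.style.haveILetI false
set_option synthInstance.maxHeartbeats 400000

open ModularCurve AlgebraicCurve IsLocalRing

noncomputable section

namespace Fermat.Agent.P7

open Fermat.Agent.S37 Fermat.Agent.S35 Fermat.Agent.P6
open Fermat.Agent.Jac.K1 (IsKummerPair)
open Fermat.Agent.P5 (h69vPull h13sK h13sFt)

/-- **the single open input of (I-2)**: purity of `degen u` at the good level puts the
logarithmic derivative of the reduction of `u` into `S̄(M)`. -/
def H3gDlogIn (p : ℕ) : Prop :=
  ∀ (hp : p.Prime), 5 ≤ p → ∀ (M : ℕ) [NeZero M], ¬ p ∣ M →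
    haveI : NeZero p := ⟨hp.ne_zero⟩
    ∀ A : ValuationSubring Kbar, A.LiesOverPrime p →
    ∀ (x : JZero (M * p)) (u : FF (M * p)), IsKummerPair p x u →
      (∀ Q : Place (h13sK A) (h13sFt A (goodLevel p M)),
        (p : ℤ) ∣ h44slOrd A (goodLevel p M) p
          (degen (Nat.mul_dvd_mul_right (dvd_goodLevel p M) p) u) Q) →
      h3gOm A (M * p) u ∈ h10wSbar M (ResidueField A)

/-- (I-2) in helper16's shape from the single input. -/
theorem h3g_dlog_of_in {p : ℕ} (h : H3gDlogIn p) : H16tDlog p := by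
  intro hp h5 M _ hpM
  haveI : NeZero p := ⟨hp.ne_zero⟩
  intro A hA x u hu hOld hs
  obtain ⟨e, he, h1, h2⟩ := hOld
  exact h3g_dlog_resPow_sbar A hp hA M hpM e he h1 x u hu h2 (h hp h5 M hpM A hA x u hu hs)

/-- (I-2) in the good-level shape from the single input. -/
theorem h3g_dlogGood_of_in {p : ℕ} (h : H3gDlogIn p) : H99wDlogGoodAt p :=
  h99w_dlogGood_of (h3g_dlog_of_in h)

/-- **the frozen statement S44** from (I-1) SLOPE-ZERO and the single DLOG input. -/
theorem h3g_s44_of_in (hS : ∀ p : ℕ, 5 ≤ p → H16tSlopeZero p)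
    (hI : ∀ p : ℕ, 5 ≤ p → H3gDlogIn p)
    (P : FreyPackage) {N : ℕ} (hcond : P.IsConductorLevel N) (hpN : P.p ∣ N)
    (hirr : WeierstrassCurve.Affine.Point.GaloisRepIsIrreducible (K := AlgebraicClosure ℚ) ℚ
      P.freyCurve P.p)
    (hmod : P.ModularRepOfLevel N) :
    ∃ M : ℕ, M ∣ N ∧ ¬ P.p ∣ M ∧ P.ModularRepOfLevel M :=
  h99w_s44_chain hS (fun p h5 => h3g_dlogGood_of_in (hI p h5)) P hcond hpN hirr hmod

end Fermat.Agent.P7
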