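import Fermat.Agent.P7.H5EisTame
import Fermat.Agent.P7.H16TopC

/-!
# P7 (wave 7, row 38), block T-TORIC: atom (I-1) SLOPE-ZERO, class form, UNCONDITIONAL (helper5)

* `h5t_slopeZeroC : ∀ p, H16tSlopeZeroC p` : the class-level form of (I-1) (helper16,
  `P7/H16TopC.lean`): at a good level `M`, for an odd prime `p ∤ M`, `A` over `p`, `β` a unit of
  `A` with `β ^ p ∈ Fix(I₁)`, a Kummer representative `u` (fixed by the stabiliser of `β` in
  `I₁`) of a class `x` with `T_ℓ x = c x`, `ℓ ∤ M p`, `p ∤ ℓ + 1 - c` has `p ∣ ord_Q(ū)` at every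
  place `Q` of the special fibre.
* `h5t_toricGoodAt` : `H99wToricGoodAt p` (`p ≥ 5`) from the single remaining atom (I-2)
  `H16tDlog p`.

Nothing is assumed: every statement is proved.
-/

set_option autoImplicit false
set_option linter.unusedSectionVars false
set_option linter.unusedVariables false
set_option linter.style.longLine false
set_option linter.style.haveILetI false
set_option synthInstance.maxHeartbeats 400000

open AlgebraicCurve ModularCurve

noncomputable section

namespace Fermat.Agent.P7

/-- **(I-1) SLOPE-ZERO, class form.** -/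
theorem h5t_slopeZeroC (p : ℕ) : H16tSlopeZeroC p := by
  intro hp hp2 M _ haux hM
  haveI : NeZero p := ⟨hp.ne_zero⟩
  intro A hA β hβA hβA' hβ x u hu hfix ℓ hℓ hℓN c hc hne Q
  exact h5t_kummer_all A M hp hp2 hM haux hA hℓ hℓN hβA hβA' hβ hu hfix c hc hne Q

/-- **toric at `p ≥ 5`** from the single remaining atom (I-2). -/
theorem h5t_toricGoodAt {p : ℕ} (h5 : 5 ≤ p) (hD : H16tDlog p) : H99wToricGoodAt p :=
  h16t_toricGoodAt_C h5 (h5t_slopeZeroC p) hD

end Fermat.Agent.P7
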