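import Fermat.Agent.P7.H72DlogMidLevel
import Fermat.Agent.P7.H37GapMCusp
import Fermat.Agent.P7.H3DlogI2
import Fermat.Agent.P7.H5SlopeZero

/-!
# Wave 7 (S44), block (A) by DLOG: (I-2) and S44 from THREE level inputs (helper72, `h72w_`)

`p ≥ 5` prime, `M` ANY level prime to `p`, `A` a valuation subring of `ℚ̄` over `p`,
`k = ResidueField A`, `Q` the `q`-order place of `FF M`, `LL(M) = h37nLL M A Q` (helper37: the
`k`-span of the reductions of the Gauss-integral functions of level `M` regular off `Q`),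
`Ω(M) = h26gOmega (h37nLL M A Q)`.

The three inputs (frozen `Prop`s, in the landed vocabulary):

* `H72wConst p` — **CONST(M)** `= H37nConst M A Q` (helper37's hypothesis, hole (H1));
* `H72wCusp p` — **CUSP-ORTH-RED**: for every generator `w` of `S̄(M)` (reduction of the
  coefficient sequence of a cusp form with integral `q`-expansion), `h72wSer w ∈ Ω(M)`;
* `H72wOrth p` — **ORTH(M)**: for a Kummer function `u` of `x : JZero (M * p)`, pure at the good
  level, some scaled reduction `s` of `u` has `dlog s ∈ Ω(M)`.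

Results:

* `h72w_dlogIn : H72wConst p → H72wCusp p → H72wOrth p → H3gDlogIn p` (helper3's single open
  input `ω(u) ∈ S̄(M)`), via `h37n_gap_cusp` (GAP at level `M` + GENUS-MATCH), LATTICE
  `h10w_sbar_finrank` and the abstract core `h72w_mid_mem`;
* `h72w_dlog : … → H16tDlog p`;
* `h72w_s44_of_three` : **the frozen statement S44** from the three inputs for all `p ≥ 5`
  (with the landed (I-1) `h5t_slopeZeroC` and LOCAL-MULT inside `h16t_s44_of_C`).

Every declaration is a `Prop`-valued definition or a proved theorem; nothing is assumed.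
-/

set_option autoImplicit false
set_option linter.unusedSectionVars false
set_option linter.unusedVariables false
set_option linter.style.haveILetI false
set_option synthInstance.maxHeartbeats 400000

open ModularCurve AlgebraicCurve IsLocalRing ModularFormClass CongruenceSubgroup

noncomputable section

namespace Fermat.Agent.P7

open Fermat.Agent.S37 Fermat.Agent.S35 Fermat.Agent.P6
open Fermat.Agent.Jac.K1 (IsKummerPair)
open Fermat.Agent.P5 (h69vPull h13sK h13sFt)

/-- **CONST(M)** at every level `M` prime to `p` (helper37's `H37nConst`). -/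
def H72wConst (p : ℕ) : Prop :=
  ∀ (hp : p.Prime), 5 ≤ p → ∀ (M : ℕ) [NeZero M], ¬ p ∣ M →
    ∀ A : ValuationSubring Kbar, A.LiesOverPrime p →
    ∀ Q : Place Kbar (FF M),
      (∀ f : FF M, f ≠ 0 → ((f : FF M) : LaurentSeries Kbar).order = Q.ord f) →
      H37nConst M A Q

/-- **CUSP-ORTH-RED** at every level `M` prime to `p`: the reductions of the integral cusp forms
of weight 2 and level `M` lie in `Ω(M)`. -/
def H72wCusp (p : ℕ) : Prop :=
  ∀ (hp : p.Prime), 5 ≤ p → ∀ (M : ℕ) [NeZero M], ¬ p ∣ M →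
    ∀ A : ValuationSubring Kbar, A.LiesOverPrime p →
    ∀ Q : Place Kbar (FF M),
      (∀ f : FF M, f ≠ 0 → ((f : FF M) : LaurentSeries Kbar).order = Q.ord f) →
      ∀ w ∈ h10wSbarGen M (ResidueField A), h72wSer w ∈ h26gOmega (h37nLL M A Q)

/-- **ORTH(M)**: `dlog` of a scaled reduction of a Kummer function which is pure at the good
level lies in `Ω(M)`. -/
def H72wOrth (p : ℕ) : Prop :=
  ∀ (hp : p.Prime), 5 ≤ p → ∀ (M : ℕ) [NeZero M], ¬ p ∣ M →
    haveI : NeZero p := ⟨hp.ne_zero⟩
    ∀ A : ValuationSubring Kbar, A.LiesOverPrime p →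
    ∀ Q : Place Kbar (FF M),
      (∀ f : FF M, f ≠ 0 → ((f : FF M) : LaurentSeries Kbar).order = Q.ord f) →
    ∀ (x : JZero (M * p)) (u : FF (M * p)), IsKummerPair p x u →
      (∀ Q' : Place (h13sK A) (h13sFt A (goodLevel p M)),
        (p : ℤ) ∣ h44slOrd A (goodLevel p M) p
          (degen (Nat.mul_dvd_mul_right (dvd_goodLevel p M) p) u) Q') →
      ∃ s : LaurentSeries (ResidueField A), H3gRed A (M * p) u s ∧
        h96dLog s ∈ h26gOmega (h37nLL M A Q)

/-- **`ω(u) ∈ S̄(M)`** (helper3's single open input of (I-2)) from the three level inputs. -/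
theorem h72w_dlogIn {p : ℕ} (hC : H72wConst p) (hK : H72wCusp p) (hO : H72wOrth p) :
    H3gDlogIn p := by
  intro hp h5 M _ hpM
  haveI : NeZero p := ⟨hp.ne_zero⟩
  intro A hA x u hu hpure
  haveI : Fact p.Prime := ⟨hp⟩
  haveI : CharP (ResidueField A) p := h3g_charP A hp hA
  obtain ⟨Q, hQ⟩ := h37n_place_infty (M := M)
  obtain ⟨hfin, hgap⟩ := h37n_gap_cusp M A Q hp hpM hA hQ (hC hp h5 M hpM A hA Q hQ)
  obtain ⟨s, hs, horth⟩ := hO hp h5 M hpM A hA Q hQ x u hu hpure
  have h2 := h10w_sbar_finrank M p (ResidueField A)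
  refine h72w_mid_mem (h37nLL M A Q) (h10wSbar M (ResidueField A)) hfin (hgap.trans h2)
    (h72w_ser_mem_of_gen _ _ (hK hp h5 M hpM A hA Q hQ)) horth (fun n => ?_)
  rw [h3g_om_eq hs]

/-- **(I-2)** from the three level inputs. -/
theorem h72w_dlog {p : ℕ} (hC : H72wConst p) (hK : H72wCusp p) (hO : H72wOrth p) :
    H16tDlog p :=
  h3g_dlog_of_in (h72w_dlogIn hC hK hO)

/-- **the frozen statement S44** from the three level inputs CONST(M), CUSP-ORTH-RED, ORTH(M)
for all `p ≥ 5`. -/
theorem h72w_s44_of_three (hC : ∀ p : ℕ, 5 ≤ p → H72wConst p)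
    (hK : ∀ p : ℕ, 5 ≤ p → H72wCusp p) (hO : ∀ p : ℕ, 5 ≤ p → H72wOrth p)
    (P : FreyPackage) {N : ℕ} (hcond : P.IsConductorLevel N) (hpN : P.p ∣ N)
    (hirr : WeierstrassCurve.Affine.Point.GaloisRepIsIrreducible (K := AlgebraicClosure ℚ) ℚ
      P.freyCurve P.p)
    (hmod : P.ModularRepOfLevel N) :
    ∃ M : ℕ, M ∣ N ∧ ¬ P.p ∣ M ∧ P.ModularRepOfLevel M :=
  h16t_s44_of_C (fun p _ => h5t_slopeZeroC p)
    (fun p h5 => h72w_dlog (hC p h5) (hK p h5) (hO p h5)) P hcond hpN hirr hmod

end Fermat.Agent.P7
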