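import Fermat.Agent.P7.H25OrthAdapt
import Fermat.Agent.P7.H72DlogIn
import Fermat.Agent.P7.H59RegOff

/-!
# Wave 7, block (A), route DLOG: ORTH(M) from its NORMALISED CORE (helper25, prefix `h25a_`)

`H72wOrth p` (helper72, the third input of `h72w_s44_of_three`) is reduced, by the adapters of
`P7/H25OrthAdapt.lean`, to the normalised statement of finding 1473:

> `H25aOrthCore p` : `p ≥ 5`, `M` prime to `p`, `A` over `p`, `Q` the `q`-order place of `FF M`;
> `y` a Gauss unit of level `M` whose reduction `s = softR y` has `q`-order `0` and is the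
> expansion of an `f'` in the function field of the special fibre of the good level with
> `p ∣ ord_{Q'} f'` at every place `Q'`;  then `a₀(softR f · dlog s) = 0` for every
> `f ∈ softV A M` regular off `Q`.

* `h25a_orth_of_core : H25aOrthCore p → H72wOrth p`;
* `h25a_s44_of_core` : the frozen statement S44 from `H72wConst`, `H72wCusp`, `H25aOrthCore`.

Every declaration is a `Prop`-valued definition or a proved theorem; nothing is assumed.
-/

set_option autoImplicit false
set_option linter.unusedSectionVars false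
set_option linter.unusedVariables false
set_option linter.style.haveILetI false
set_option synthInstance.maxHeartbeats 400000

open ModularCurve AlgebraicCurve IsLocalRing

noncomputable section

namespace Fermat.Agent.P7

open Fermat.Agent.S37 Fermat.Agent.Red Fermat.Agent.Red.GV Fermat.Agent.Red.GV.Soft
  Fermat.Agent.LGC
open Fermat.Agent.Jac.K1 (IsKummerPair)
open Fermat.Agent.P5 (h13sK h13sFt h13sIncl)

/-- **ORTH(M), normalised core** (finding 1473, steps (1)–(7) after the normalisation (0)). -/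
def H25aOrthCore (p : ℕ) : Prop :=
  ∀ (hp : p.Prime), 5 ≤ p → ∀ (M : ℕ) [NeZero M], ¬ p ∣ M →
    ∀ A : ValuationSubring Kbar, A.LiesOverPrime p →
    ∀ Q : Place Kbar (FF M),
      (∀ f : FF M, f ≠ 0 → ((f : FF M) : LaurentSeries Kbar).order = Q.ord f) →
    ∀ (y : FF M) (hy : y ∈ softV A M) (f' : h13sFt A (goodLevel p M)),
      y ≠ 0 → y⁻¹ ∈ softV A M → f' ≠ 0 →
      h13sIncl A (goodLevel p M) f' = softR A M ⟨y, hy⟩ →
      (∀ Q' : Place (h13sK A) (h13sFt A (goodLevel p M)), (p : ℤ) ∣ Q'.ord f') →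
      (softR A M ⟨y, hy⟩).order = 0 →
      ∀ (f : FF M) (hf : f ∈ softV A M),
        (∀ v : Place Kbar (FF M), v ≠ Q → 0 ≤ v.ord f) →
          (softR A M ⟨f, hf⟩ * h96dLog (softR A M ⟨y, hy⟩)).coeff 0 = 0

/-- **ORTH(M) from its normalised core.** -/
theorem h25a_orth_of_core {p : ℕ} (hcore : H25aOrthCore p) : H72wOrth p := by
  intro hp h5 M _ hpM
  haveI : NeZero p := ⟨hp.ne_zero⟩
  intro A hA Q hQ x u hu hslope
  obtain ⟨s, hs⟩ := h3g_exists_red (A := A) (N := M * p) hp hA hu.ne_zero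
  refine ⟨s, hs, ?_⟩
  obtain ⟨y', hy', f', h1, h2, h3, h4, h5', h6, h7⟩ :=
    h25a_normalise A hp hA M hpM hs hslope
  rw [h59a_mem_omega_iff_soft M A Q hp hpM hA]
  refine ⟨fun m hm => h25a_log_coeff_nonpos A hp hA M hpM hs hslope m hm, fun f hf hreg => ?_⟩
  rw [← h7]
  exact hcore hp h5 M hpM A hA Q hQ y' hy' f' h1 h2 h3 h4 h5' h6 f hf hreg

/-- **the frozen statement S44** from CONST(M), CUSP-ORTH-RED and the normalised core of
ORTH(M), for all `p ≥ 5`. -/
theorem h25a_s44_of_core (hC : ∀ p : ℕ, 5 ≤ p → H72wConst p)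
    (hK : ∀ p : ℕ, 5 ≤ p → H72wCusp p) (hO : ∀ p : ℕ, 5 ≤ p → H25aOrthCore p)
    (P : FreyPackage) {N : ℕ} (hcond : P.IsConductorLevel N) (hpN : P.p ∣ N)
    (hirr : WeierstrassCurve.Affine.Point.GaloisRepIsIrreducible (K := AlgebraicClosure ℚ) ℚ
      P.freyCurve P.p)
    (hmod : P.ModularRepOfLevel N) :
    ∃ M : ℕ, M ∣ N ∧ ¬ P.p ∣ M ∧ P.ModularRepOfLevel M :=
  h72w_s44_of_three hC hK (fun p h5 => h25a_orth_of_core (hO p h5)) P hcond hpN hirr hmod

end Fermat.Agent.P7
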