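import Fermat.Agent.P6.H94NewDepth
import Fermat.Agent.P6.H60WApprox
import Fermat.Agent.S36.H74Val
import Fermat.Agent.S13.L2Frey
import Fermat.Agent.LGC.Unip

/-!
# P7 (wave 7, S40), block (5b), leaf 5B-UNIFORM (helper25): the depth ladder is uniform

`ℓ ∤ M` prime, `A` a valuation subring of `ℚ̄` over `ℓ`, `W_∞ = softV A (M ℓ)`, `w = kFricke`,
`α, β : F_M → F_{M ℓ}` the degeneracy maps, `Nb` the norm along `β`.

The ladder operator `Ψ(u) = w(u) / α(Nb u)` commutes with the Galois action, and for a new `u`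
(both norms are `r`-th powers) `Ψ(u)` is `w(u)` up to an `r`-th power and is new again.  The
landed depth lemma `h71p_depth_beta` gives, for EVERY `b` at once:

  `b(u) / u ∈ const · (1 + e W_∞)`  ⟹  `b(Ψ u) / Ψ u ∈ const · (1 + d W_∞)`  (`d ∣ e ℓ`, `d ∣ e²`).

Hence (`h25u_uniform`): for a new `u ≠ 0` and a set `B` of elements of the inertia group with a
common start depth, for every nonzero `d ∈ 𝔪_A` there is ONE `H ≠ 0`, fixed by every `σ` fixing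
`u`, such that for `u' = u / H ^ r` and all `b ∈ B`:
`b(u') / u' ∈ const · (1 + d W_∞)` and `w (b(u') / u') ∈ const · (1 + d W_∞)`.
-/

set_option autoImplicit false
set_option linter.style.haveILetI false
set_option linter.unusedSectionVars false
set_option linter.unusedVariables false
set_option synthInstance.maxHeartbeats 400000

open AlgebraicCurve ModularCurve IsLocalRing

noncomputable section

namespace Fermat.Agent.P7

open Fermat.Agent.S37 Fermat.Agent.Red Fermat.Agent.Red.GV Fermat.Agent.Red.GV.Soft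
  Fermat.Agent.Red.Kron Fermat.Agent.Red.TRK Fermat.Agent.LGC Fermat.Agent.S35
  Fermat.Agent.S36 Fermat.Agent.P6 Fermat.Agent.P5

/-! ### Constants -/

/-- a nonzero constant function. -/
def h25uCst (N : ℕ) (x : FF N) : Prop := ∃ c : Kbar, c ≠ 0 ∧ x = cst N c

theorem h25uCst_ne_zero {N : ℕ} {x : FF N} (hx : h25uCst N x) : x ≠ 0 := by
  obtain ⟨c, hc, rfl⟩ := hx
  rw [Ne, map_eq_zero_iff _ (algebraMap Kbar (FF N)).injective]
  exact hc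

theorem h25uCst_one (N : ℕ) : h25uCst N (1 : FF N) :=
  ⟨1, one_ne_zero, (map_one (algebraMap Kbar (FF N))).symm⟩

theorem h25uCst_mul {N : ℕ} {x y : FF N} (hx : h25uCst N x) (hy : h25uCst N y) :
    h25uCst N (x * y) := by
  obtain ⟨c, hc, rfl⟩ := hx
  obtain ⟨d, hd, rfl⟩ := hy
  exact ⟨c * d, mul_ne_zero hc hd, (map_mul (algebraMap Kbar (FF N)) c d).symm⟩

theorem h25uCst_inv {N : ℕ} {x : FF N} (hx : h25uCst N x) : h25uCst N x⁻¹ := by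
  obtain ⟨c, hc, rfl⟩ := hx
  exact ⟨c⁻¹, inv_ne_zero hc, (map_inv₀ (algebraMap Kbar (FF N)) c).symm⟩

theorem h25uCst_div {N : ℕ} {x y : FF N} (hx : h25uCst N x) (hy : h25uCst N y) :
    h25uCst N (x / y) := by
  rw [div_eq_mul_inv]
  exact h25uCst_mul hx (h25uCst_inv hy)

theorem h25uCst_pow {N : ℕ} {x : FF N} (hx : h25uCst N x) (n : ℕ) : h25uCst N (x ^ n) := by
  obtain ⟨c, hc, rfl⟩ := hx
  exact ⟨c ^ n, pow_ne_zero n hc, (map_pow (algebraMap Kbar (FF N)) c n).symm⟩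

theorem h25uCst_gal {N : ℕ} (σ : GQ) {x : FF N} (hx : h25uCst N x) :
    h25uCst N (gal N σ • x) := by
  obtain ⟨c, hc, rfl⟩ := hx
  exact ⟨σ c, (map_ne_zero_iff _ σ.injective).mpr hc, Fermat.Agent.S37.GalI.gal_smul_cst σ c⟩

section Level

variable (A : ValuationSubring Kbar) (M ℓ : ℕ) [NeZero M] [NeZero ℓ]

theorem h25uCst_fricke (hℓ : ℓ.Prime) (hM : ¬ ℓ ∣ M) {x : FF (M * ℓ)}
    (hx : h25uCst (M * ℓ) x) : h25uCst (M * ℓ) (kFricke M ℓ hℓ hM x) := by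
  obtain ⟨c, hc, rfl⟩ := hx
  exact ⟨c, hc, (kFricke M ℓ hℓ hM).commutes c⟩

/-- the norm along `β` of a constant is a constant. -/
theorem h25uCst_Nb {x : FF (M * ℓ)} (hx : h25uCst (M * ℓ) x) : h25uCst M (h94iNb M ℓ x) := by
  obtain ⟨c, hc, rfl⟩ := hx
  unfold h94iNb
  letI := algebraAlong (heckeBetaBar Kbar M ℓ)
  have e : cst (M * ℓ) c = algebraMap (FF M) (FF (M * ℓ)) (cst M c) :=
    ((heckeBetaBar Kbar M ℓ).commutes c).symm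
  rw [e, Algebra.norm_algebraMap]
  exact h25uCst_pow ⟨c, hc, rfl⟩ _

theorem h25uCst_alpha {x : FF M} (hx : h25uCst M x) :
    h25uCst (M * ℓ) (heckeAlphaBar Kbar M ℓ x) := by
  obtain ⟨c, hc, rfl⟩ := hx
  exact ⟨c, hc, (heckeAlphaBar Kbar M ℓ).commutes c⟩

/-! ### The ladder operator -/

/-- the ladder operator `Ψ(u) = w(u) / α(Nb u)`. -/
def h25uPsi (hℓ : ℓ.Prime) (hM : ¬ ℓ ∣ M) (u : FF (M * ℓ)) : FF (M * ℓ) :=
  kFricke M ℓ hℓ hM u / heckeAlphaBar Kbar M ℓ (h94iNb M ℓ u)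

theorem h25u_fricke_ne_zero (hℓ : ℓ.Prime) (hM : ¬ ℓ ∣ M) {u : FF (M * ℓ)} (hu : u ≠ 0) :
    kFricke M ℓ hℓ hM u ≠ 0 := fun h0 =>
  hu ((map_eq_zero_iff _ (kFricke M ℓ hℓ hM).injective).mp h0)

theorem h25u_alphaNb_ne_zero {u : FF (M * ℓ)} (hu : u ≠ 0) :
    heckeAlphaBar Kbar M ℓ (h94iNb M ℓ u) ≠ 0 := fun h0 =>
  h94n_Nb_ne_zero M ℓ hu ((map_eq_zero_iff _ (heckeAlphaBar Kbar M ℓ).toRingHom.injective).mp h0)

theorem h25uPsi_ne_zero (hℓ : ℓ.Prime) (hM : ¬ ℓ ∣ M) {u : FF (M * ℓ)} (hu : u ≠ 0) :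
    h25uPsi M ℓ hℓ hM u ≠ 0 :=
  div_ne_zero (h25u_fricke_ne_zero M ℓ hℓ hM hu) (h25u_alphaNb_ne_zero M ℓ hu)

/-- the Galois action on a quotient. -/
theorem h25u_gal_div {N : ℕ} (σ : GQ) (x y : FF N) :
    gal N σ • (x / y) = gal N σ • x / gal N σ • y := by
  rw [← h83g_galHom_apply, ← h83g_galHom_apply, ← h83g_galHom_apply, map_div₀]

theorem h25u_gal_mul {N : ℕ} (σ : GQ) (x y : FF N) :
    gal N σ • (x * y) = gal N σ • x * gal N σ • y := by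
  rw [← h83g_galHom_apply, ← h83g_galHom_apply, ← h83g_galHom_apply, map_mul]

theorem h25u_gal_pow {N : ℕ} (σ : GQ) (x : FF N) (n : ℕ) :
    gal N σ • (x ^ n) = (gal N σ • x) ^ n := by
  rw [← h83g_galHom_apply, ← h83g_galHom_apply, map_pow]

theorem h25u_gal_one {N : ℕ} (σ : GQ) : gal N σ • (1 : FF N) = 1 := by
  rw [← h83g_galHom_apply, map_one]

theorem h25u_gal_add {N : ℕ} (σ : GQ) (x y : FF N) :
    gal N σ • (x + y) = gal N σ • x + gal N σ • y := by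
  rw [← h83g_galHom_apply, ← h83g_galHom_apply, ← h83g_galHom_apply, map_add]

/-- **`Ψ` commutes with the Galois action.** -/
theorem h25uPsi_gal (hℓ : ℓ.Prime) (hM : ¬ ℓ ∣ M) (σ : GQ) (u : FF (M * ℓ)) :
    gal (M * ℓ) σ • h25uPsi M ℓ hℓ hM u = h25uPsi M ℓ hℓ hM (gal (M * ℓ) σ • u) := by
  unfold h25uPsi
  rw [h25u_gal_div, h83g_gal_alpha, h94n_gal_Nb]
  congr 1
  exact (kFricke_gal M ℓ hℓ hM σ u).symm

/-- `Ψ` of a product. -/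
theorem h25uPsi_mul (hℓ : ℓ.Prime) (hM : ¬ ℓ ∣ M) (x y : FF (M * ℓ)) :
    h25uPsi M ℓ hℓ hM (x * y) = h25uPsi M ℓ hℓ hM x * h25uPsi M ℓ hℓ hM y := by
  unfold h25uPsi
  rw [map_mul, h94iNb_mul, map_mul, mul_div_mul_comm]

/-- `Ψ` of a quotient. -/
theorem h25uPsi_div (hℓ : ℓ.Prime) (hM : ¬ ℓ ∣ M) (x : FF (M * ℓ)) {y : FF (M * ℓ)}
    (hy : y ≠ 0) :
    h25uPsi M ℓ hℓ hM (x / y) = h25uPsi M ℓ hℓ hM x / h25uPsi M ℓ hℓ hM y := by
  rw [eq_div_iff (h25uPsi_ne_zero M ℓ hℓ hM hy), ← h25uPsi_mul, div_mul_cancel₀ x hy]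

/-- `Ψ` of a constant is a constant. -/
theorem h25uPsi_cst (hℓ : ℓ.Prime) (hM : ¬ ℓ ∣ M) {x : FF (M * ℓ)}
    (hx : h25uCst (M * ℓ) x) : h25uCst (M * ℓ) (h25uPsi M ℓ hℓ hM x) :=
  h25uCst_div (h25uCst_fricke M ℓ hℓ hM hx) (h25uCst_alpha M ℓ (h25uCst_Nb M ℓ hx))

/-! ### Uniform depth -/

/-- `b(u) / u ∈ const · (1 + d W_∞)`. -/
def h25uDeep (N : ℕ) (b : GQ) (u : FF N) (d : Kbar) : Prop :=
  ∃ k : FF N, h25uCst N k ∧ ∃ s ∈ softV A N, gal N b • u / u = k * (1 + cst N d * s)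

omit [NeZero M] [NeZero ℓ] in
/-- the depth is monotone. -/
theorem h25uDeep_mono {N : ℕ} {b : GQ} {u : FF N} {c d : Kbar} (hd : d ≠ 0)
    (hcd : c * d⁻¹ ∈ A) (h : h25uDeep A N b u c) : h25uDeep A N b u d := by
  obtain ⟨k, hk, s, hs, e⟩ := h
  refine ⟨k, hk, cst N (c * d⁻¹) * s, mul_mem ((cst_mem_softV_iff A N _).mpr hcd) hs, ?_⟩
  rw [e, ← mul_assoc (cst N d), ← map_mul, mul_comm c, ← mul_assoc, mul_inv_cancel₀ hd, one_mul]

/-- **the step**: `b(u)/u ∈ const · (1 + e W_∞)` gives `b(Ψ u)/Ψ u ∈ const · (1 + d W_∞)` for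
every nonzero `d ∈ 𝔪_A` dividing `e ℓ` and `e²`. -/
theorem h25u_step (hℓ : ℓ.Prime) (hM : ¬ ℓ ∣ M) (hA : A.LiesOverPrime ℓ) (b : GQ)
    {u : FF (M * ℓ)} (hu : u ≠ 0) {e d : Kbar} (he : e ∈ A) (hd : d ∈ A.nonunits)
    (hd0 : d ≠ 0) (hd1 : e * ℓ * d⁻¹ ∈ A) (hd2 : e ^ 2 * d⁻¹ ∈ A)
    (h : h25uDeep A (M * ℓ) b u e) :
    h25uDeep A (M * ℓ) b (h25uPsi M ℓ hℓ hM u) d := by
  obtain ⟨k, hk, s, hs, e₁⟩ := h
  have hk0 : k ≠ 0 := h25uCst_ne_zero hk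
  have hbu : gal (M * ℓ) b • u ≠ 0 := h94n_gal_ne_zero b hu
  set y : FF (M * ℓ) := 1 + cst (M * ℓ) e * s with hy
  have hy0 : y ≠ 0 := by
    intro h0
    rw [h0, mul_zero] at e₁
    exact div_ne_zero hbu hu e₁
  obtain ⟨z, hz, hdep⟩ := h71p_depth_beta A M ℓ hℓ hM hA y hy0 e he s hs rfl d hd0 hd1 hd2
  obtain ⟨hz0, z', hz', hinv⟩ := h94i_inv_one_add A M ℓ hd hz
  -- `Ψ y = (1 + d z)⁻¹`
  have hΨy : h25uPsi M ℓ hℓ hM y = 1 + cst (M * ℓ) d * z' := by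
    unfold h25uPsi
    rw [← hinv]
    have h1 : heckeAlphaBar Kbar M ℓ (h94iNb M ℓ y) =
        kFricke M ℓ hℓ hM y * (1 + cst (M * ℓ) d * z) := hdep
    rw [h1]
    have h2 := h25u_fricke_ne_zero M ℓ hℓ hM hy0
    field_simp
  -- `b(u)/u = k y`
  have hq : gal (M * ℓ) b • u / u = k * y := e₁
  have hΨ : gal (M * ℓ) b • h25uPsi M ℓ hℓ hM u / h25uPsi M ℓ hℓ hM u =
      h25uPsi M ℓ hℓ hM k * h25uPsi M ℓ hℓ hM y := by
    rw [h25uPsi_gal, ← h25uPsi_div M ℓ hℓ hM _ hu, hq, h25uPsi_mul]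
  exact ⟨h25uPsi M ℓ hℓ hM k, h25uPsi_cst M ℓ hℓ hM hk, z', hz', by rw [hΨ, hΨy]⟩

/-! ### New functions -/

/-- for a new `u`, `Ψ(u)` is `w(u)` up to an `r`-th power. -/
theorem h25uPsi_new_pow (hℓ : ℓ.Prime) (hM : ¬ ℓ ∣ M) {r : ℕ} {u : FF (M * ℓ)} (hu : u ≠ 0)
    (hN : h94iNew M ℓ r u) :
    ∃ g : FF M, h94iNb M ℓ u = g ^ r ∧
      h25uPsi M ℓ hℓ hM u = kFricke M ℓ hℓ hM u / heckeAlphaBar Kbar M ℓ g ^ r := by
  obtain ⟨-, g, hg⟩ := hN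
  exact ⟨g, hg, by unfold h25uPsi; rw [hg, map_pow]⟩

/-- for a new `u ≠ 0`, `Ψ(u)` is new. -/
theorem h25uPsi_new (hℓ : ℓ.Prime) (hM : ¬ ℓ ∣ M) {r : ℕ} {u : FF (M * ℓ)} (hu : u ≠ 0)
    (hN : h94iNew M ℓ r u) : h94iNew M ℓ r (h25uPsi M ℓ hℓ hM u) := by
  obtain ⟨g, hg, e⟩ := h25uPsi_new_pow M ℓ hℓ hM hu hN
  have h1 := h94iNew_mul_pow M ℓ (h94iNew_fricke M ℓ hℓ hM hN) ((heckeAlphaBar Kbar M ℓ g)⁻¹)
  have e2 : kFricke M ℓ hℓ hM u * (heckeAlphaBar Kbar M ℓ g)⁻¹ ^ r =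
      h25uPsi M ℓ hℓ hM u := by
    rw [e, inv_pow, div_eq_mul_inv]
  rwa [e2] at h1

/-! ### The calculus of the uniform depth -/

omit [NeZero M] [NeZero ℓ] in
theorem h25uDeep_cst {N : ℕ} (b : GQ) {k : FF N} (hk : h25uCst N k) (d : Kbar) :
    h25uDeep A N b k d :=
  ⟨gal N b • k / k, h25uCst_div (h25uCst_gal b hk) hk, 0, zero_mem _, by
    rw [mul_zero, add_zero, mul_one]⟩

omit [NeZero M] [NeZero ℓ] in
theorem h25uDeep_mul {N : ℕ} [NeZero N] {b : GQ} {x y : FF N} {d : Kbar} (hd : d ∈ A)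
    (hx : h25uDeep A N b x d) (hy : h25uDeep A N b y d) : h25uDeep A N b (x * y) d := by
  obtain ⟨k₁, hk₁, s₁, hs₁, e₁⟩ := hx
  obtain ⟨k₂, hk₂, s₂, hs₂, e₂⟩ := hy
  obtain ⟨s, hs, e⟩ := h60w_one_add_mul A N hd hs₁ hs₂
  refine ⟨k₁ * k₂, h25uCst_mul hk₁ hk₂, s, hs, ?_⟩
  rw [h25u_gal_mul, ← div_mul_div_comm, e₁, e₂, ← e]
  ring

omit [NeZero M] [NeZero ℓ] in
theorem h25uDeep_inv {N : ℕ} [NeZero N] {b : GQ} {x : FF N} {d : Kbar} (hd : d ∈ A.nonunits)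
    (hx : h25uDeep A N b x d) : h25uDeep A N b x⁻¹ d := by
  obtain ⟨k, hk, s, hs, e⟩ := hx
  obtain ⟨-, s', hs', e'⟩ := h60w_one_add_inv A N hd hs
  refine ⟨k⁻¹, h25uCst_inv hk, s', hs', ?_⟩
  have h1 : gal N b • x⁻¹ / x⁻¹ = (gal N b • x / x)⁻¹ := by
    rw [← h83g_galHom_apply, ← h83g_galHom_apply, map_inv₀, inv_div_inv, inv_div]
  rw [h1, e, mul_inv, e']

omit [NeZero M] [NeZero ℓ] in
theorem h25uDeep_pow {N : ℕ} [NeZero N] {b : GQ} {x : FF N} {d : Kbar} (hd : d ∈ A)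
    (hx : h25uDeep A N b x d) (n : ℕ) : h25uDeep A N b (x ^ n) d := by
  induction n with
  | zero =>
    rw [pow_zero]
    exact h25uDeep_cst A b (h25uCst_one N) d
  | succ n ih =>
    rw [pow_succ]
    exact h25uDeep_mul A hd ih hx

omit [NeZero M] [NeZero ℓ] in
/-- `1 + d z` has depth `d` (inertia preserves the valuation and the Gauss ring). -/
theorem h25uDeep_one_add {N : ℕ} [NeZero N] {q : ℕ} (hq : q.Prime) (hA : A.LiesOverPrime q)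
    {b : GQ} (hb : b ∈ A.inertiaSubgroupIn ℚ) {d : Kbar} (hd : d ∈ A.nonunits) (hd0 : d ≠ 0)
    {z : FF N} (hz : z ∈ softV A N) : h25uDeep A N b (1 + cst N d * z) d := by
  have hdA : d ∈ A := A.nonunits_le hd
  have hv := Fermat.Agent.S13.L2.inertia_valuation_eq A hq hA hb d
  have hmem : b d * d⁻¹ ∈ A := by
    rw [← A.valuation_le_one_iff, map_mul, map_inv₀, hv]
    rw [mul_inv_cancel₀ ((Valuation.ne_zero_iff _).mpr hd0)]
  have hbz : gal N b • z ∈ softV A N :=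
    gal_smul_mem_softV A N b (mem_decomp_of_mem_inertia A hb) z hz
  have e1 : gal N b • (1 + cst N d * z) = 1 + cst N d * (cst N (b d * d⁻¹) * gal N b • z) := by
    rw [h25u_gal_add, h25u_gal_one, h25u_gal_mul, Fermat.Agent.S37.GalI.gal_smul_cst,
      ← mul_assoc, ← map_mul]
    congr 3
    field_simp
  obtain ⟨-, s', hs', e'⟩ := h60w_one_add_inv A N hd hz
  obtain ⟨s, hs, e⟩ := h60w_one_add_mul A N hdA
    (mul_mem ((cst_mem_softV_iff A N _).mpr hmem) hbz) hs'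
  refine ⟨1, h25uCst_one N, s, hs, ?_⟩
  rw [one_mul, e1, div_eq_mul_inv, e', e]

/-! ### The leading coefficient -/

/-- the leading coefficient of a Laurent series commutes with an injective change of
coefficients. -/
theorem h25u_leadingCoeff_coeffMap {R S : Type*} [CommRing R] [CommRing S] (f : R →+* S)
    (hf : Function.Injective f) (x : LaurentSeries R) :
    (coeffMap f x).leadingCoeff = f x.leadingCoeff := by
  by_cases hx : x = 0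
  · rw [hx, map_zero, HahnSeries.leadingCoeff_zero, HahnSeries.leadingCoeff_zero, map_zero]
  have h1 : (coeffMap f x).coeff x.order ≠ 0 := by
    rw [coeffMap_coeff]
    intro h
    exact hx (HahnSeries.coeff_order_eq_zero.mp (hf (h.trans (map_zero f).symm)))
  have hle : (coeffMap f x).order ≤ x.order := HahnSeries.order_le_of_coeff_ne_zero h1
  have hy : coeffMap f x ≠ 0 := HahnSeries.ne_zero_of_coeff_ne_zero h1
  have h2 : x.coeff (coeffMap f x).order ≠ 0 := by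
    intro h
    have h3 : (coeffMap f x).coeff (coeffMap f x).order = 0 := by
      rw [coeffMap_coeff, h, map_zero]
    exact hy (HahnSeries.coeff_order_eq_zero.mp h3)
  have hge : x.order ≤ (coeffMap f x).order := HahnSeries.order_le_of_coeff_ne_zero h2
  rw [HahnSeries.leadingCoeff_eq, HahnSeries.leadingCoeff_eq, le_antisymm hle hge,
    coeffMap_coeff]

/-- the leading coefficient of the `q`-expansion. -/
def h25uLead (N : ℕ) (x : FF N) : Kbar := ((x : FF N) : LaurentSeries Kbar).leadingCoeff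

omit [NeZero M] [NeZero ℓ] in
theorem h25uLead_ne_zero {N : ℕ} {x : FF N} (hx : x ≠ 0) : h25uLead N x ≠ 0 := by
  unfold h25uLead
  rw [HahnSeries.leadingCoeff_ne_zero]
  intro h
  exact hx (Subtype.ext h)

omit [NeZero M] [NeZero ℓ] in
theorem h25uLead_cst_mul {N : ℕ} (c : Kbar) (x : FF N) :
    h25uLead N (cst N c * x) = c * h25uLead N x := by
  unfold h25uLead
  have e : ((cst N c * x : FF N) : LaurentSeries Kbar) =
      HahnSeries.C c * ((x : FF N) : LaurentSeries Kbar) := by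
    rw [← soft_coe_cst N c]
    rfl
  rw [e, HahnSeries.leadingCoeff_mul]
  congr 1
  exact HahnSeries.leadingCoeff_of_single

omit [NeZero M] [NeZero ℓ] in
theorem h25uLead_gal {N : ℕ} (σ : GQ) (x : FF N) :
    h25uLead N (gal N σ • x) = σ (h25uLead N x) := by
  unfold h25uLead
  rw [coe_gal_smul]
  exact h25u_leadingCoeff_coeffMap (σ : Kbar →+* Kbar) σ.injective _

/-- the normalisation of `x`: leading coefficient one. -/
def h25uNorm (N : ℕ) (x : FF N) : FF N := x / cst N (h25uLead N x)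

omit [NeZero M] [NeZero ℓ] in
theorem h25u_cstLead_ne_zero {N : ℕ} {x : FF N} (hx : x ≠ 0) : cst N (h25uLead N x) ≠ 0 := by
  rw [Ne, map_eq_zero_iff _ (algebraMap Kbar (FF N)).injective]
  exact h25uLead_ne_zero hx

omit [NeZero M] [NeZero ℓ] in
theorem h25uNorm_ne_zero {N : ℕ} {x : FF N} (hx : x ≠ 0) : h25uNorm N x ≠ 0 :=
  div_ne_zero hx (h25u_cstLead_ne_zero hx)

omit [NeZero M] [NeZero ℓ] in
theorem h25uNorm_eq {N : ℕ} {x : FF N} (hx : x ≠ 0) :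
    x = cst N (h25uLead N x) * h25uNorm N x := by
  unfold h25uNorm
  rw [mul_div_cancel₀ _ (h25u_cstLead_ne_zero hx)]

omit [NeZero M] [NeZero ℓ] in
/-- an eigenfunction of `σ` (constant multiplier) has a `σ`-fixed normalisation. -/
theorem h25uNorm_gal {N : ℕ} {σ : GQ} {x : FF N} (hx : x ≠ 0) {k : FF N} (hk : h25uCst N k)
    (h : gal N σ • x = k * x) : gal N σ • h25uNorm N x = h25uNorm N x := by
  obtain ⟨c, hc, rfl⟩ := hk
  have hc' : cst N c ≠ 0 := h25uCst_ne_zero ⟨c, hc, rfl⟩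
  have hl := h25u_cstLead_ne_zero hx
  unfold h25uNorm
  rw [h25u_gal_div, Fermat.Agent.S37.GalI.gal_smul_cst, ← h25uLead_gal, h, h25uLead_cst_mul,
    show cst N (c * h25uLead N x) = cst N c * cst N (h25uLead N x) from
      map_mul (algebraMap Kbar (FF N)) c _]
  field_simp

omit [NeZero M] [NeZero ℓ] in
/-- a function whose `r`-th power is an eigenfunction of `σ` is an eigenfunction of `σ`. -/
theorem h25u_eigen_root {N : ℕ} {r : ℕ} (hr : r ≠ 0) (σ : GQ) {y : FF N} (hy : y ≠ 0)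
    {k : FF N} (hk : h25uCst N k) (h : gal N σ • (y ^ r) = k * y ^ r) :
    ∃ k' : FF N, h25uCst N k' ∧ gal N σ • y = k' * y := by
  obtain ⟨c, hc, rfl⟩ := hk
  obtain ⟨γ, hγ⟩ := IsAlgClosed.exists_pow_nat_eq c (Nat.pos_of_ne_zero hr)
  have hγ0 : γ ≠ 0 := by
    intro h0
    rw [h0, zero_pow hr] at hγ
    exact hc hγ.symm
  have hcγ : cst N γ ≠ 0 := h25uCst_ne_zero ⟨γ, hγ0, rfl⟩
  have hz : (gal N σ • y / (cst N γ * y)) ^ r = 1 := by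
    rw [div_pow, mul_pow, ← h25u_gal_pow, h, ← map_pow, hγ]
    exact div_self (mul_ne_zero (h25uCst_ne_zero ⟨c, hc, rfl⟩) (pow_ne_zero r hy))
  obtain ⟨ω, hω, hzω⟩ := h63_const_of_pow_eq_one _ r hr hz
  have hω0 : ω ≠ 0 := by
    intro h0
    rw [h0, zero_pow hr] at hω
    exact zero_ne_one hω
  refine ⟨cst N ω * cst N γ, h25uCst_mul ⟨ω, hω0, rfl⟩ ⟨γ, hγ0, rfl⟩, ?_⟩
  rw [mul_assoc, ← hzω, div_mul_cancel₀ _ (mul_ne_zero hcγ hy)]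

/-! ### Representatives -/

/-- `v` is a new representative of the class of `t` modulo `r`-th powers and constants:
`v = k · t / H ^ r`, with `H` fixed by every `σ` fixing `t`. -/
def h25uRep (r : ℕ) (t v : FF (M * ℓ)) : Prop :=
  v ≠ 0 ∧ h94iNew M ℓ r v ∧ ∃ H k : FF (M * ℓ), H ≠ 0 ∧ h25uCst (M * ℓ) k ∧
    v = k * (t / H ^ r) ∧ ∀ σ : GQ, gal (M * ℓ) σ • t = t → gal (M * ℓ) σ • H = H

theorem h25uRep_refl {r : ℕ} {t : FF (M * ℓ)} (ht : t ≠ 0) (hN : h94iNew M ℓ r t) :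
    h25uRep M ℓ r t t :=
  ⟨ht, hN, 1, 1, one_ne_zero, h25uCst_one _, by rw [one_pow, div_one, one_mul],
    fun σ _ => h25u_gal_one σ⟩

/-- **the step on representatives**: `Ψ v` represents `w t`. -/
theorem h25uRep_step (hℓ : ℓ.Prime) (hM : ¬ ℓ ∣ M) {r : ℕ} (hr : r ≠ 0) {t v : FF (M * ℓ)}
    (h : h25uRep M ℓ r t v) :
    h25uRep M ℓ r (kFricke M ℓ hℓ hM t) (h25uPsi M ℓ hℓ hM v) := by
  obtain ⟨hv0, hvN, H, k, hH, hk, e, hfix⟩ := h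
  obtain ⟨g, hg, eΨ⟩ := h25uPsi_new_pow M ℓ hℓ hM hv0 hvN
  set G : FF (M * ℓ) := heckeAlphaBar Kbar M ℓ g with hGdef
  have hGr : G ^ r = heckeAlphaBar Kbar M ℓ (h94iNb M ℓ v) := by rw [hGdef, hg, map_pow]
  have hG0 : G ≠ 0 := by
    intro h0
    have h1 := h25u_alphaNb_ne_zero M ℓ hv0
    rw [← hGr, h0, zero_pow hr] at h1
    exact h1 rfl
  have hk0 : k ≠ 0 := h25uCst_ne_zero hk
  have hwH : kFricke M ℓ hℓ hM H ≠ 0 := h25u_fricke_ne_zero M ℓ hℓ hM hH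
  have hL0 := h25u_cstLead_ne_zero hG0
  have hNG := h25uNorm_ne_zero hG0
  refine ⟨h25uPsi_ne_zero M ℓ hℓ hM hv0, h25uPsi_new M ℓ hℓ hM hv0 hvN,
    kFricke M ℓ hℓ hM H * h25uNorm (M * ℓ) G,
    kFricke M ℓ hℓ hM k / cst (M * ℓ) (h25uLead (M * ℓ) G) ^ r,
    mul_ne_zero hwH hNG,
    h25uCst_div (h25uCst_fricke M ℓ hℓ hM hk)
      (h25uCst_pow ⟨_, h25uLead_ne_zero hG0, rfl⟩ r), ?_, ?_⟩
  · rw [eΨ, e, map_mul, map_div₀, map_pow]
    have hG' : G ^ r = (cst (M * ℓ) (h25uLead (M * ℓ) G) * h25uNorm (M * ℓ) G) ^ r := by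
      rw [← h25uNorm_eq hG0]
    rw [hG']
    field_simp
    ring
  · intro σ hσ
    -- `σ` fixes `t`
    have hσt : gal (M * ℓ) σ • t = t := by
      have h1 := congrArg (kFricke M ℓ hℓ hM) hσ
      rw [kFricke_kFricke] at h1
      have h2 : kFricke M ℓ hℓ hM (gal (M * ℓ) σ • kFricke M ℓ hℓ hM t) =
          gal (M * ℓ) σ • kFricke M ℓ hℓ hM (kFricke M ℓ hℓ hM t) :=
        kFricke_gal M ℓ hℓ hM σ _
      rw [h2, kFricke_kFricke] at h1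
      exact h1
    have hσH : gal (M * ℓ) σ • H = H := hfix σ hσt
    have hσwH : gal (M * ℓ) σ • kFricke M ℓ hℓ hM H = kFricke M ℓ hℓ hM H := by
      have h2 : kFricke M ℓ hℓ hM (gal (M * ℓ) σ • H) =
          gal (M * ℓ) σ • kFricke M ℓ hℓ hM H := kFricke_gal M ℓ hℓ hM σ _
      rw [← h2, hσH]
    -- `v` is an eigenfunction of `σ`
    have hσv : gal (M * ℓ) σ • v = (gal (M * ℓ) σ • k / k) * v := by
      rw [e, h25u_gal_mul, h25u_gal_div, h25u_gal_pow, hσt, hσH]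
      field_simp
    have hk₁ : h25uCst (M * ℓ) (gal (M * ℓ) σ • k / k) := h25uCst_div (h25uCst_gal σ hk) hk
    -- `G ^ r` is an eigenfunction of `σ`
    have hσG : gal (M * ℓ) σ • (G ^ r) =
        heckeAlphaBar Kbar M ℓ (h94iNb M ℓ (gal (M * ℓ) σ • k / k)) * G ^ r := by
      rw [hGr, h83g_gal_alpha, h94n_gal_Nb, hσv, h94iNb_mul, map_mul]
    obtain ⟨k₃, hk₃, hσG'⟩ := h25u_eigen_root hr σ hG0
      (h25uCst_alpha M ℓ (h25uCst_Nb M ℓ hk₁)) hσG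
    rw [h25u_gal_mul, hσwH, h25uNorm_gal hG0 hk₃ hσG']

/-! ### The uniform ladder -/

/-- the step at the depths `e ^ (n + 1) → e ^ (n + 2)`. -/
theorem h25u_step_pow (hℓ : ℓ.Prime) (hM : ¬ ℓ ∣ M) (hA : A.LiesOverPrime ℓ) (b : GQ)
    {v : FF (M * ℓ)} (hv : v ≠ 0) {e : Kbar} (he : e ∈ A.nonunits) (he0 : e ≠ 0)
    (hel : (ℓ : Kbar) * e⁻¹ ∈ A) (n : ℕ) (h : h25uDeep A (M * ℓ) b v (e ^ (n + 1))) :
    h25uDeep A (M * ℓ) b (h25uPsi M ℓ hℓ hM v) (e ^ (n + 2)) := by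
  have heA : e ∈ A := A.nonunits_le he
  refine h25u_step A M ℓ hℓ hM hA b hv (pow_mem heA (n + 1))
    (h94i_pow_mem_nonunits A he (n + 2) (by omega)) (pow_ne_zero _ he0) ?_ ?_ h
  · have e1 : e ^ (n + 1) * (ℓ : Kbar) * (e ^ (n + 2))⁻¹ = (ℓ : Kbar) * e⁻¹ := by
      rw [pow_succ e (n + 1)]
      field_simp
    rw [e1]
    exact hel
  · have e1 : (e ^ (n + 1)) ^ 2 * (e ^ (n + 2))⁻¹ = e ^ n := by
      field_simp
      ring
    rw [e1]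
    exact pow_mem heA n

/-- **THE UNIFORM LADDER.**  For a new `u ≠ 0` and a set `B` of Galois elements with a common
start depth `e`: for every `n` there are representatives `v₁` of `u` and `v₂` of `w u` with
`b(v₁)/v₁ ∈ const · (1 + e ^ (2 n + 1) W_∞)`, `b(v₂)/v₂ ∈ const · (1 + e ^ (2 n + 2) W_∞)` for
ALL `b ∈ B`. -/
theorem h25u_iter (hℓ : ℓ.Prime) (hM : ¬ ℓ ∣ M) (hA : A.LiesOverPrime ℓ) {r : ℕ} (hr : r ≠ 0)
    {u : FF (M * ℓ)} (hu : u ≠ 0) (hN : h94iNew M ℓ r u) (B : Set GQ) {e : Kbar}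
    (he : e ∈ A.nonunits) (he0 : e ≠ 0) (hel : (ℓ : Kbar) * e⁻¹ ∈ A)
    (hstart : ∀ b ∈ B, h25uDeep A (M * ℓ) b u e) :
    ∀ n : ℕ, ∃ v₁ v₂ : FF (M * ℓ), h25uRep M ℓ r u v₁ ∧
      h25uRep M ℓ r (kFricke M ℓ hℓ hM u) v₂ ∧
      (∀ b ∈ B, h25uDeep A (M * ℓ) b v₁ (e ^ (2 * n + 1))) ∧
      (∀ b ∈ B, h25uDeep A (M * ℓ) b v₂ (e ^ (2 * n + 2))) := by
  intro n
  induction n with
  | zero =>
    have h1 : ∀ b ∈ B, h25uDeep A (M * ℓ) b u (e ^ (0 + 1)) := by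
      intro b hb
      rw [zero_add, pow_one]
      exact hstart b hb
    refine ⟨u, h25uPsi M ℓ hℓ hM u, h25uRep_refl M ℓ hu hN,
      h25uRep_step M ℓ hℓ hM hr (h25uRep_refl M ℓ hu hN), h1, ?_⟩
    intro b hb
    exact h25u_step_pow A M ℓ hℓ hM hA b hu he he0 hel 0 (h1 b hb)
  | succ n ih =>
    obtain ⟨v₁, v₂, hr₁, hr₂, hd₁, hd₂⟩ := ih
    have hv₂0 : v₂ ≠ 0 := hr₂.1
    have hr₁' : h25uRep M ℓ r u (h25uPsi M ℓ hℓ hM v₂) := by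
      have h := h25uRep_step M ℓ hℓ hM hr hr₂
      rwa [kFricke_kFricke] at h
    have hd₁' : ∀ b ∈ B, h25uDeep A (M * ℓ) b (h25uPsi M ℓ hℓ hM v₂)
        (e ^ (2 * (n + 1) + 1)) := by
      intro b hb
      have h := h25u_step_pow A M ℓ hℓ hM hA b hv₂0 he he0 hel (2 * n + 1) (hd₂ b hb)
      have e1 : 2 * (n + 1) + 1 = 2 * n + 1 + 2 := by ring
      rw [e1]
      exact h
    refine ⟨h25uPsi M ℓ hℓ hM v₂, h25uPsi M ℓ hℓ hM (h25uPsi M ℓ hℓ hM v₂), hr₁',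
      h25uRep_step M ℓ hℓ hM hr hr₁', hd₁', ?_⟩
    intro b hb
    have h := h25u_step_pow A M ℓ hℓ hM hA b hr₁'.1 he he0 hel (2 * (n + 1)) (hd₁' b hb)
    exact h

/-! ### A Galois-fixed partition of unity and the glue -/

/-- **boost** with the explicit partition `1 - (1 - E ^ n) ^ n`. -/
theorem h25u_boost {F : Type*} [CommRing F] (W : Subring F) {G : Type*} [FunLike G F F]
    [RingHomClass G F F] (w : G) {π E z z' : F} (hπ : π ∈ W) (hz : z ∈ W) (hz' : z' ∈ W)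
    (hE : E = 1 + π * z) (hwE : w E = π * z') (n : ℕ) :
    ∃ y y' : F, y ∈ W ∧ y' ∈ W ∧ 1 - (1 - E ^ n) ^ n = 1 + π ^ n * y ∧
      w (1 - (1 - E ^ n) ^ n) = π ^ n * y' := by
  have hEW : E ∈ W := by rw [hE]; exact W.add_mem W.one_mem (W.mul_mem hπ hz)
  have hSW : ∑ i ∈ Finset.range n, E ^ i ∈ W := W.sum_mem fun i _ => W.pow_mem hEW i
  have h1 : 1 - E ^ n = (1 - E) * ∑ i ∈ Finset.range n, E ^ i := (mul_neg_geom_sum E n).symm
  have h3 : 1 - E = π * (-z) := by rw [hE]; ring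
  have hwEW : w E ∈ W := by rw [hwE]; exact W.mul_mem hπ hz'
  have htW : (w E) ^ n ∈ W := W.pow_mem hwEW n
  have hQW : ∑ j ∈ Finset.range n, (1 - (w E) ^ n) ^ j ∈ W :=
    W.sum_mem fun j _ => W.pow_mem (W.sub_mem W.one_mem htW) j
  have h2 : 1 - (1 - (w E) ^ n) ^ n =
      (w E) ^ n * ∑ j ∈ Finset.range n, (1 - (w E) ^ n) ^ j := by
    rw [← mul_neg_geom_sum (1 - (w E) ^ n) n]
    ring
  refine ⟨-((-z) * ∑ i ∈ Finset.range n, E ^ i) ^ n,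
    z' ^ n * ∑ j ∈ Finset.range n, (1 - (w E) ^ n) ^ j, ?_, ?_, ?_, ?_⟩
  · exact W.neg_mem (W.pow_mem (W.mul_mem (W.neg_mem hz) hSW) n)
  · exact W.mul_mem (W.pow_mem hz' n) hQW
  · rw [h1, h3, mul_assoc, mul_pow]
    ring
  · rw [map_sub, map_one, map_pow, map_sub, map_one, map_pow, h2, hwE, mul_pow]
    ring

/-- **a Galois-fixed partition of unity of every depth** at the two Gauss valuations. -/
theorem h25u_partition (hℓ : ℓ.Prime) (hM : ¬ ℓ ∣ M) (hA : A.LiesOverPrime ℓ)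
    (d : Kbar) (hd : d ∈ A) (hd0 : d ≠ 0) :
    ∃ E z z' : FF (M * ℓ), (∀ σ : GQ, gal (M * ℓ) σ • E = E) ∧ z ∈ softV A (M * ℓ) ∧
      z' ∈ softV A (M * ℓ) ∧ E = 1 + cst (M * ℓ) d * z ∧
      kFricke M ℓ hℓ hM E = cst (M * ℓ) d * z' := by
  obtain ⟨he, hwe, hre, hrwe⟩ := h44r_sep A M ℓ hℓ hM hA
  have h1 : h44r_e M ℓ - 1 ∈ softV A (M * ℓ) := sub_mem he (one_mem _)
  have hr1 : softR A (M * ℓ) ⟨_, h1⟩ = 0 := by
    have e : (⟨_, h1⟩ : softV A (M * ℓ)) = ⟨_, he⟩ - 1 := rfl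
    rw [e, map_sub, map_one, hre, sub_self]
  obtain ⟨π₁, hπ₁, hπ₁0, z₁, hz₁, e₁⟩ := h71u_exists_depth A (M * ℓ) hℓ hA _ h1 hr1
  obtain ⟨π₂, hπ₂, hπ₂0, z₂, hz₂, e₂⟩ := h71u_exists_depth A (M * ℓ) hℓ hA _ hwe hrwe
  have e₁' : h44r_e M ℓ = 1 + cst (M * ℓ) π₁ * z₁ := by rw [← e₁]; ring
  -- a common depth `π`
  obtain ⟨π, hπ, hπ0, z, z', hz, hz', hE, hwE⟩ : ∃ π : Kbar, π ∈ A.nonunits ∧ π ≠ 0 ∧
      ∃ z z' : FF (M * ℓ), z ∈ softV A (M * ℓ) ∧ z' ∈ softV A (M * ℓ) ∧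
        h44r_e M ℓ = 1 + cst (M * ℓ) π * z ∧
        kFricke M ℓ hℓ hM (h44r_e M ℓ) = cst (M * ℓ) π * z' := by
    rcases A.mem_or_inv_mem (π₁ * π₂⁻¹) with h | h
    · have hπ : π₁ = π₂ * (π₁ * π₂⁻¹) := by field_simp
      obtain ⟨z, hz, hz'⟩ := h71u_depth_mono A (M * ℓ) h hπ ⟨z₁, hz₁, e₁⟩
      exact ⟨π₂, hπ₂, hπ₂0, z, z₂, hz, hz₂, by rw [← hz']; ring, e₂⟩
    · have hπ : π₂ = π₁ * (π₁ * π₂⁻¹)⁻¹ := by field_simp
      obtain ⟨z, hz, hz'⟩ := h71u_depth_mono A (M * ℓ) h hπ ⟨z₂, hz₂, e₂⟩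
      exact ⟨π₁, hπ₁, hπ₁0, z₁, z, hz₁, hz, e₁', hz'⟩
  obtain ⟨n, a, ha, hn⟩ := h72a_archQbar A ℓ hℓ hA π d hπ hd hd0
  have hπW : cst (M * ℓ) π ∈ softV A (M * ℓ) :=
    (cst_mem_softV_iff A (M * ℓ) π).mpr (A.nonunits_le hπ)
  obtain ⟨y, y', hy, hy', hE', hwE'⟩ :=
    h25u_boost (softV A (M * ℓ)) (kFricke M ℓ hℓ hM) hπW hz hz' hE hwE n
  have hpow : cst (M * ℓ) π ^ n = cst (M * ℓ) d * cst (M * ℓ) a := by
    rw [← map_pow, hn]
    exact map_mul (algebraMap Kbar (FF (M * ℓ))) d a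
  have haW : cst (M * ℓ) a ∈ softV A (M * ℓ) := (cst_mem_softV_iff A (M * ℓ) a).mpr ha
  refine ⟨1 - (1 - h44r_e M ℓ ^ n) ^ n, cst (M * ℓ) a * y, cst (M * ℓ) a * y', ?_,
    mul_mem haW hy, mul_mem haW hy', ?_, ?_⟩
  · intro σ
    rw [← h83g_galHom_apply, map_sub, map_one, map_pow, map_sub, map_one, map_pow,
      h83g_galHom_apply, h74v_e_fixed]
  · rw [hE', hpow, mul_assoc]
  · rw [hwE', hpow, mul_assoc]

/-- **multiplicative weak approximation with Galois descent**: the glued function is fixed by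
every `σ` fixing the two given functions. -/
theorem h25u_approx (hℓ : ℓ.Prime) (hM : ¬ ℓ ∣ M) (hA : A.LiesOverPrime ℓ)
    (x y : FF (M * ℓ)) (hx : x ≠ 0) (hy : y ≠ 0) (d : Kbar) (hd : d ∈ A.nonunits)
    (hd0 : d ≠ 0) :
    ∃ h z z' : FF (M * ℓ), h ≠ 0 ∧ z ∈ softV A (M * ℓ) ∧ z' ∈ softV A (M * ℓ) ∧
      h = x * (1 + cst (M * ℓ) d * z) ∧
      kFricke M ℓ hℓ hM h = kFricke M ℓ hℓ hM y * (1 + cst (M * ℓ) d * z') ∧
      ∀ σ : GQ, gal (M * ℓ) σ • x = x → gal (M * ℓ) σ • y = y → gal (M * ℓ) σ • h = h := by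
  have hdA : d ∈ A := A.nonunits_le hd
  obtain ⟨c₁, hc₁, hc₁0, hu₁⟩ := h60w_exists_scale A (M * ℓ) hℓ hA (y * x⁻¹ - 1)
  obtain ⟨c₂, hc₂, hc₂0, hu₂⟩ :=
    h60w_exists_scale A (M * ℓ) hℓ hA (kFricke M ℓ hℓ hM (x * y⁻¹ - 1))
  obtain ⟨E, z, z', hEfix, hz, hz', hE, hwE⟩ := h25u_partition A M ℓ hℓ hM hA (d * c₁ * c₂)
    (A.mul_mem _ _ (A.mul_mem _ _ hdA hc₁) hc₂) (mul_ne_zero (mul_ne_zero hd0 hc₁0) hc₂0)
  have hc₁W : cst (M * ℓ) c₁ ∈ softV A (M * ℓ) := (cst_mem_softV_iff A (M * ℓ) c₁).mpr hc₁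
  have hc₂W : cst (M * ℓ) c₂ ∈ softV A (M * ℓ) := (cst_mem_softV_iff A (M * ℓ) c₂).mpr hc₂
  have hD : cst (M * ℓ) (d * c₁ * c₂) = cst (M * ℓ) d * cst (M * ℓ) c₁ * cst (M * ℓ) c₂ := by
    rw [show cst (M * ℓ) (d * c₁ * c₂) = cst (M * ℓ) (d * c₁) * cst (M * ℓ) c₂ from
      map_mul (algebraMap Kbar (FF (M * ℓ))) (d * c₁) c₂,
      show cst (M * ℓ) (d * c₁) = cst (M * ℓ) d * cst (M * ℓ) c₁ from
      map_mul (algebraMap Kbar (FF (M * ℓ))) d c₁]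
  have hzW : -(cst (M * ℓ) c₂ * z * (cst (M * ℓ) c₁ * (y * x⁻¹ - 1))) ∈ softV A (M * ℓ) :=
    neg_mem (mul_mem (mul_mem hc₂W hz) hu₁)
  have hh : E * x + (1 - E) * y =
      x * (1 + cst (M * ℓ) d * -(cst (M * ℓ) c₂ * z * (cst (M * ℓ) c₁ * (y * x⁻¹ - 1)))) := by
    rw [hE, hD]
    field_simp
    ring
  have hwy : kFricke M ℓ hℓ hM y ≠ 0 := h25u_fricke_ne_zero M ℓ hℓ hM hy
  refine ⟨E * x + (1 - E) * y, _,
    cst (M * ℓ) c₁ * z' * (cst (M * ℓ) c₂ * kFricke M ℓ hℓ hM (x * y⁻¹ - 1)),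
    ?_, hzW, mul_mem (mul_mem hc₁W hz') hu₂, hh, ?_, ?_⟩
  · rw [hh]
    exact mul_ne_zero hx (h60w_one_add_inv A (M * ℓ) hd hzW).1
  · rw [map_add, map_mul, map_mul, map_sub, map_one, hwE, hD, map_sub, map_mul, map_one,
      map_inv₀]
    field_simp
    ring
  · intro σ hσx hσy
    rw [← h83g_galHom_apply, map_add, map_mul, map_mul, map_sub, map_one, h83g_galHom_apply,
      h83g_galHom_apply, h83g_galHom_apply, hEfix σ, hσx, hσy]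

/-! ### The uniform deep representative -/

/-- **5B-UNIFORM.**  `u ≠ 0` new, `B` a set of elements of the inertia group with a common start
depth.  For every nonzero `d ∈ 𝔪_A` there is ONE `H ≠ 0`, fixed by every `σ` fixing `u`, such
that `u' = u / H ^ r` satisfies, for ALL `b ∈ B`: `b(u')/u' ∈ const · (1 + d W_∞)` and
`b(w u')/(w u') = w (b(u')/u') ∈ const · (1 + d W_∞)` (depth `d` at `W_∞` and at `W_0`, with
two constants). -/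
theorem h25u_uniform (hℓ : ℓ.Prime) (hM : ¬ ℓ ∣ M) (hA : A.LiesOverPrime ℓ) {r : ℕ}
    (hr : r ≠ 0) {u : FF (M * ℓ)} (hu : u ≠ 0) (hN : h94iNew M ℓ r u) (B : Set GQ)
    (hB : ∀ b ∈ B, b ∈ A.inertiaSubgroupIn ℚ)
    (hstart : ∃ e ∈ A.nonunits, e ≠ 0 ∧ ∀ b ∈ B, h25uDeep A (M * ℓ) b u e)
    (d : Kbar) (hd : d ∈ A.nonunits) (hd0 : d ≠ 0) :
    ∃ H : FF (M * ℓ), H ≠ 0 ∧
      (∀ σ : GQ, gal (M * ℓ) σ • u = u → gal (M * ℓ) σ • H = H) ∧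
      ∀ b ∈ B, h25uDeep A (M * ℓ) b (u / H ^ r) d ∧
        h25uDeep A (M * ℓ) b (kFricke M ℓ hℓ hM (u / H ^ r)) d := by
  have hdA : d ∈ A := A.nonunits_le hd
  have hℓ0 : (ℓ : Kbar) ≠ 0 := by exact_mod_cast hℓ.ne_zero
  -- a start depth dividing `ℓ`
  obtain ⟨e, he, he0, hel, hst⟩ : ∃ e ∈ A.nonunits, e ≠ 0 ∧ (ℓ : Kbar) * e⁻¹ ∈ A ∧
      ∀ b ∈ B, h25uDeep A (M * ℓ) b u e := by
    obtain ⟨c, hc, hc0, hst⟩ := hstart
    by_cases hcl : (ℓ : Kbar) * c⁻¹ ∈ A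
    · exact ⟨c, hc, hc0, hcl, hst⟩
    · refine ⟨(ℓ : Kbar), hA, hℓ0, ?_, fun b hb => ?_⟩
      · rw [mul_inv_cancel₀ hℓ0]
        exact one_mem _
      · refine h25uDeep_mono A hℓ0 ?_ (hst b hb)
        rcases A.mem_or_inv_mem ((ℓ : Kbar) * c⁻¹) with h | h
        · exact (hcl h).elim
        · rwa [mul_inv, inv_inv, mul_comm] at h
  have heA : e ∈ A := A.nonunits_le he
  obtain ⟨n, a, ha, hna⟩ := h72a_archQbar A ℓ hℓ hA e d he hdA hd0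
  obtain ⟨v₁, v₂, hr₁, hr₂, hd₁, hd₂⟩ :=
    h25u_iter A M ℓ hℓ hM hA hr hu hN B he he0 hel hst n
  have hdiv₁ : e ^ (2 * n + 1) * d⁻¹ ∈ A := by
    have e1 : e ^ (2 * n + 1) * d⁻¹ = a * e ^ (n + 1) := by
      have e2 : e ^ (2 * n + 1) = e ^ n * e ^ (n + 1) := by rw [← pow_add]; congr 1; ring
      rw [e2, hna]
      field_simp
    rw [e1]
    exact mul_mem ha (pow_mem heA _)
  have hdiv₂ : e ^ (2 * n + 2) * d⁻¹ ∈ A := by
    have e1 : e ^ (2 * n + 2) * d⁻¹ = a * e ^ (n + 2) := by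
      have e2 : e ^ (2 * n + 2) = e ^ n * e ^ (n + 2) := by rw [← pow_add]; congr 1; ring
      rw [e2, hna]
      field_simp
    rw [e1]
    exact mul_mem ha (pow_mem heA _)
  obtain ⟨hv₁0, -, H₁, k₁, hH₁, hk₁, e₁, hfix₁⟩ := hr₁
  obtain ⟨hv₂0, -, H₂, k₂, hH₂, hk₂, e₂, hfix₂⟩ := hr₂
  have hk₁0 : k₁ ≠ 0 := h25uCst_ne_zero hk₁
  have hk₂0 : k₂ ≠ 0 := h25uCst_ne_zero hk₂
  have hwH₂ : kFricke M ℓ hℓ hM H₂ ≠ 0 := h25u_fricke_ne_zero M ℓ hℓ hM hH₂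
  obtain ⟨H, z, z', hH0, hz, hz', hH, hwH, hHfix⟩ :=
    h25u_approx A M ℓ hℓ hM hA H₁ (kFricke M ℓ hℓ hM H₂) hH₁ hwH₂ d hd hd0
  rw [kFricke_kFricke] at hwH
  obtain ⟨hz0, -⟩ := h60w_one_add_inv A (M * ℓ) hd hz
  obtain ⟨hz0', -⟩ := h60w_one_add_inv A (M * ℓ) hd hz'
  refine ⟨H, hH0, ?_, ?_⟩
  · intro σ hσ
    have hσw : gal (M * ℓ) σ • kFricke M ℓ hℓ hM u = kFricke M ℓ hℓ hM u := by
      have h2 : kFricke M ℓ hℓ hM (gal (M * ℓ) σ • u) =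
          gal (M * ℓ) σ • kFricke M ℓ hℓ hM u := kFricke_gal M ℓ hℓ hM σ _
      rw [← h2, hσ]
    have hσH₂ : gal (M * ℓ) σ • kFricke M ℓ hℓ hM H₂ = kFricke M ℓ hℓ hM H₂ := by
      have h2 : kFricke M ℓ hℓ hM (gal (M * ℓ) σ • H₂) =
          gal (M * ℓ) σ • kFricke M ℓ hℓ hM H₂ := kFricke_gal M ℓ hℓ hM σ _
      rw [← h2, hfix₂ σ hσw]
    exact hHfix σ (hfix₁ σ hσ) hσH₂
  · intro b hb
    have hbI := hB b hb
    have hone : ∀ {t : FF (M * ℓ)}, t ∈ softV A (M * ℓ) →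
        h25uDeep A (M * ℓ) b (((1 + cst (M * ℓ) d * t) ^ r)⁻¹) d := fun ht =>
      h25uDeep_inv A hd (h25uDeep_pow A hdA (h25uDeep_one_add A hℓ hA hbI hd hd0 ht) r)
    constructor
    · have e3 : u / H ^ r = k₁⁻¹ * v₁ * ((1 + cst (M * ℓ) d * z) ^ r)⁻¹ := by
        rw [e₁, hH, mul_pow]
        field_simp
      rw [e3]
      exact h25uDeep_mul A hdA (h25uDeep_mul A hdA (h25uDeep_cst A b (h25uCst_inv hk₁) d)
        (h25uDeep_mono A hd0 hdiv₁ (hd₁ b hb))) (hone hz)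
    · have e3 : kFricke M ℓ hℓ hM (u / H ^ r) =
          k₂⁻¹ * v₂ * ((1 + cst (M * ℓ) d * z') ^ r)⁻¹ := by
        rw [map_div₀, map_pow, hwH, e₂, mul_pow]
        field_simp
      rw [e3]
      exact h25uDeep_mul A hdA (h25uDeep_mul A hdA (h25uDeep_cst A b (h25uCst_inv hk₂) d)
        (h25uDeep_mono A hd0 hdiv₂ (hd₂ b hb))) (hone hz')

/-! ### The start -/

/-- **START**: for `σ` in the inertia group, `σ(u)/u ∈ const · (1 + c W_∞)` for some nonzero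
`c ∈ 𝔪_A`. -/
theorem h25u_start (hℓ : ℓ.Prime) (hA : A.LiesOverPrime ℓ) {σ : GQ}
    (hσ : σ ∈ A.inertiaSubgroupIn ℚ) {u : FF (M * ℓ)} (hu : u ≠ 0) :
    ∃ c ∈ A.nonunits, c ≠ 0 ∧ h25uDeep A (M * ℓ) σ u c := by
  obtain ⟨e, he, hy, hyi⟩ := exists_cst_mul_unit_soft A (M * ℓ) hℓ hA u hu
  have hke : h25uCst (M * ℓ) (cst (M * ℓ) e) := ⟨e, he, rfl⟩
  have he0 : cst (M * ℓ) e ≠ 0 := h25uCst_ne_zero hke
  have hy0 : cst (M * ℓ) e * u ≠ 0 := mul_ne_zero he0 hu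
  obtain ⟨hzV, hzR⟩ := h75q_congOne_of_unit A (M * ℓ) hσ hy0 hy hyi
  set z : FF (M * ℓ) := gal (M * ℓ) σ • (cst (M * ℓ) e * u) / (cst (M * ℓ) e * u) with hz
  have hσk : gal (M * ℓ) σ • cst (M * ℓ) e ≠ 0 := h94n_gal_ne_zero σ he0
  have hx : gal (M * ℓ) σ • u / u = (cst (M * ℓ) e / gal (M * ℓ) σ • cst (M * ℓ) e) * z := by
    rw [hz, h25u_gal_mul]
    field_simp
  have hk : h25uCst (M * ℓ) (cst (M * ℓ) e / gal (M * ℓ) σ • cst (M * ℓ) e) :=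
    h25uCst_div hke (h25uCst_gal σ hke)
  have hℓ0 : (ℓ : Kbar) ≠ 0 := by exact_mod_cast hℓ.ne_zero
  by_cases hz1 : z = 1
  · refine ⟨(ℓ : Kbar), hA, hℓ0, _, hk, 0, zero_mem _, ?_⟩
    rw [hx, hz1, mul_zero, add_zero]
  · have hz10 : z - 1 ≠ 0 := sub_ne_zero.mpr hz1
    have hz1V : z - 1 ∈ softV A (M * ℓ) := sub_mem hzV (one_mem _)
    have hred : softR A (M * ℓ) ⟨z - 1, hz1V⟩ = 0 := by
      have h1 : (⟨z - 1, hz1V⟩ : softV A (M * ℓ)) = ⟨z, hzV⟩ - 1 := rfl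
      rw [h1, map_sub, map_one, hzR, sub_self]
    obtain ⟨c, hc, hc0, hcs⟩ := h75q_exists_scale_of_red_zero A (M * ℓ) hℓ hA hz10 hz1V hred
    refine ⟨c, hc, hc0, _, hk, cst (M * ℓ) c⁻¹ * (z - 1), hcs, ?_⟩
    rw [hx, ← mul_assoc (cst (M * ℓ) c), ← map_mul, mul_inv_cancel₀ hc0, map_one, one_mul,
      add_sub_cancel]

/-- a common start depth for a finite set of elements of the inertia group. -/
theorem h25u_start_finset (hℓ : ℓ.Prime) (hA : A.LiesOverPrime ℓ) {u : FF (M * ℓ)}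
    (hu : u ≠ 0) (B : Finset GQ) (hB : ∀ b ∈ B, b ∈ A.inertiaSubgroupIn ℚ) :
    ∃ e ∈ A.nonunits, e ≠ 0 ∧ ∀ b ∈ B, h25uDeep A (M * ℓ) b u e := by
  classical
  induction B using Finset.induction_on with
  | empty =>
    refine ⟨(ℓ : Kbar), hA, by exact_mod_cast hℓ.ne_zero, fun b hb => ?_⟩
    exact absurd hb (Finset.notMem_empty b)
  | insert b₀ B hb₀ ih =>
    obtain ⟨e, he, he0, hst⟩ := ih fun b hb => hB b (Finset.mem_insert_of_mem hb)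
    obtain ⟨c, hc, hc0, hst₀⟩ := h25u_start A M ℓ hℓ hA (hB b₀ (Finset.mem_insert_self b₀ B)) hu
    rcases A.mem_or_inv_mem (c * e⁻¹) with h | h
    · -- `e ∣ c`
      refine ⟨e, he, he0, fun b hb => ?_⟩
      rcases Finset.mem_insert.mp hb with rfl | hb'
      · exact h25uDeep_mono A he0 h hst₀
      · exact hst b hb'
    · -- `c ∣ e`
      have h' : e * c⁻¹ ∈ A := by rwa [mul_inv, inv_inv, mul_comm] at h
      refine ⟨c, hc, hc0, fun b hb => ?_⟩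
      rcases Finset.mem_insert.mp hb with rfl | hb'
      · exact hst₀
      · exact h25uDeep_mono A hc0 h' (hst b hb')

/-- **5B-UNIFORM, finite form.**  `u ≠ 0` new, `B` a finite set of elements of the inertia
group: for every nonzero `d ∈ 𝔪_A` there is ONE `H ≠ 0`, fixed by every `σ` fixing `u`, such
that `u' = u / H ^ r` has depth `d` at `W_∞` and at `W_0` for all `b ∈ B`. -/
theorem h25u_uniform_finset (hℓ : ℓ.Prime) (hM : ¬ ℓ ∣ M) (hA : A.LiesOverPrime ℓ) {r : ℕ}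
    (hr : r ≠ 0) {u : FF (M * ℓ)} (hu : u ≠ 0) (hN : h94iNew M ℓ r u) (B : Finset GQ)
    (hB : ∀ b ∈ B, b ∈ A.inertiaSubgroupIn ℚ)
    (d : Kbar) (hd : d ∈ A.nonunits) (hd0 : d ≠ 0) :
    ∃ H : FF (M * ℓ), H ≠ 0 ∧
      (∀ σ : GQ, gal (M * ℓ) σ • u = u → gal (M * ℓ) σ • H = H) ∧
      ∀ b ∈ B, h25uDeep A (M * ℓ) b (u / H ^ r) d ∧
        h25uDeep A (M * ℓ) b (kFricke M ℓ hℓ hM (u / H ^ r)) d :=
  h25u_uniform A M ℓ hℓ hM hA hr hu hN (↑B) (fun b hb => hB b (Finset.mem_coe.mp hb))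
    (by
      obtain ⟨e, he, he0, hst⟩ := h25u_start_finset A M ℓ hℓ hA hu B hB
      exact ⟨e, he, he0, fun b hb => hst b (Finset.mem_coe.mp hb)⟩) d hd hd0

/-- the two depths as ONE statement about `b(u')/u'`: it lies in `k (1 + d W_∞)` and its
image under `w` lies in `k' (1 + d W_∞)`, `k`, `k'` nonzero constants. -/
theorem h25uDeep_fricke_iff (hℓ : ℓ.Prime) (hM : ¬ ℓ ∣ M) (b : GQ) (x : FF (M * ℓ))
    (d : Kbar) :
    h25uDeep A (M * ℓ) b (kFricke M ℓ hℓ hM x) d ↔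
      ∃ k : FF (M * ℓ), h25uCst (M * ℓ) k ∧ ∃ s ∈ softV A (M * ℓ),
        kFricke M ℓ hℓ hM (gal (M * ℓ) b • x / x) = k * (1 + cst (M * ℓ) d * s) := by
  have e : gal (M * ℓ) b • kFricke M ℓ hℓ hM x / kFricke M ℓ hℓ hM x =
      kFricke M ℓ hℓ hM (gal (M * ℓ) b • x / x) := by
    rw [map_div₀]
    congr 1
    exact (kFricke_gal M ℓ hℓ hM b x).symm
  unfold h25uDeep
  rw [e]

end Level

end Fermat.Agent.P7
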