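import Fermat.Agent.P7.H57PullClass
import Fermat.Agent.P5.H57DiscGauss
import Fermat.Agent.P5.H71RepAbs
import Fermat.Agent.Red.NormLocAux

/-!
# Wave 7 (S44), DLOG at the non-good level: SYM-LITE by TRANSFER (helper57, prefix `h57s_`)

`N ∣ M`, `M` a good level for `p` (`p ∤ M`, `auxLevel p ∣ M`), `A` over `p`, `r` the reduction map
of places of level `M` (`H13sIsRed A M r`), `π = degen : F_N → F_M`.  `N` is ANY level dividing
`M` (e.g. `M = goodLevel p N`).

For a Gauss unit `y` of level `N` and a place `w₀` of `F_N`, let `δ` be the degree of the part of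
`div y` on the residue disc of `w₀` (the places `w` with `SameRed A w w₀`).  Then for EVERY place
`c` of `F_M` over `w₀`

  `ord_{r c} (red (π y)) = n_c * δ`,   `n_c = (r_* π^* [w₀]) (r c) ≥ 1`.

Only RED-DIV at the good level `M` (`H13sIsRed`), the conservation of number
(`ifaceTransferRed`, ANY levels) and `h69w_restrict_sameRed` are used: no norms, no exact
function, no residue degrees, no Galois theory.

* `h57sMult h r c` : the multiplicity `n_c`; `h57s_mult_pos`.
* `h57s_ord` : the formula above.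
* `h57s_nonneg_iff`, `h57s_eq_zero_iff`, `h57s_pos_iff` : the sign of `ord_{r c} (red (π y))` does
  not depend on the place `c` over `w₀` (**SYM**).
* `h57s_symLite`, `h57s_symLite_zero` : **SYM-LITE** (instance shape of row H2-SYMLITE): if the
  place `r c∞` is the `q`-order place of the special fibre, then `0 ≤ ord_q (softR y)` implies
  `0 ≤ ord_{r c} (red (π y))` for every place `c` over the place below `c∞` (and `= 0` if
  `ord_q = 0`).
-/

set_option autoImplicit false
set_option linter.unusedSectionVars false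
set_option linter.unusedVariables false
set_option linter.style.haveILetI false

open AlgebraicCurve ModularCurve IsLocalRing

noncomputable section

namespace Fermat.Agent.P7

open Fermat.Agent.S37 Fermat.Agent.Jac.K1 Fermat.Agent.Red.HKMod Fermat.Agent.Red.CH0
open Fermat.Agent.Red.GV Fermat.Agent.Red.GV.Soft Fermat.Agent.P5

variable {p : ℕ} {N M : ℕ} [NeZero N] [NeZero M] {A : ValuationSubring Kbar}

/-! ### The part of a divisor on a residue disc -/

open Classical in
/-- the part of `D` on the residue disc of `w₀`. -/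
def h57sIn (A : ValuationSubring Kbar) (w₀ : Place Kbar (FF N)) (D : Divisor Kbar (FF N)) :
    Divisor Kbar (FF N) :=
  Finsupp.filter (fun w => SameRed A w w₀) D

open Classical in
/-- the part of `D` off the residue disc of `w₀`. -/
def h57sOut (A : ValuationSubring Kbar) (w₀ : Place Kbar (FF N)) (D : Divisor Kbar (FF N)) :
    Divisor Kbar (FF N) :=
  Finsupp.filter (fun w => ¬ SameRed A w w₀) D

theorem h57s_in_add_out (w₀ : Place Kbar (FF N)) (D : Divisor Kbar (FF N)) :
    h57sIn A w₀ D + h57sOut A w₀ D = D := by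
  classical
  exact Finsupp.filter_add_filter_not D _

theorem h57s_out_apply_of_sameRed {w₀ w : Place Kbar (FF N)} (D : Divisor Kbar (FF N))
    (hw : SameRed A w w₀) : h57sOut A w₀ D w = 0 := by
  classical
  unfold h57sOut
  rw [Finsupp.filter_apply_neg]
  exact fun h => h hw

/-- the total mass of the part of `D` on the disc of `w₀`. -/
def h57sMass (A : ValuationSubring Kbar) (w₀ : Place Kbar (FF N)) (D : Divisor Kbar (FF N)) :
    ℤ :=
  ∑ w ∈ (h57sIn A w₀ D).support, h57sIn A w₀ D w

/-- `D_in - mass • [w₀]` lies in the kernel of reduction. -/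
theorem h57s_in_sub_mem (w₀ : Place Kbar (FF N)) (D : Divisor Kbar (FF N)) :
    h57sIn A w₀ D - h57sMass A w₀ D • Finsupp.single w₀ (1 : ℤ) ∈ redKer N A := by
  classical
  set E := h57sIn A w₀ D with hE
  have h1 : ∑ w ∈ E.support, Finsupp.single w (E w) = E := Finsupp.sum_single E
  have h2 : ∑ w ∈ E.support, E w • (Finsupp.single w (1 : ℤ) - Finsupp.single w₀ (1 : ℤ)) =
      E - h57sMass A w₀ D • Finsupp.single w₀ (1 : ℤ) := by
    have h3 : ∀ w ∈ E.support, E w • (Finsupp.single w (1 : ℤ) - Finsupp.single w₀ (1 : ℤ)) =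
        Finsupp.single w (E w) - E w • Finsupp.single w₀ (1 : ℤ) := by
      intro w _
      rw [smul_sub, Finsupp.smul_single, smul_eq_mul, mul_one]
    rw [Finset.sum_congr rfl h3, Finset.sum_sub_distrib, h1, ← Finset.sum_smul]
    rfl
  rw [← h2]
  refine AddSubgroup.sum_mem _ fun w hw => ?_
  refine (redKer N A).zsmul_mem (single_sub_single_mem_redKer ?_) _
  have h3 : E w ≠ 0 := Finsupp.mem_support_iff.mp hw
  by_contra hn
  apply h3
  rw [hE]
  unfold h57sIn
  exact Finsupp.filter_apply_neg _ _ hn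

/-! ### The multiplicity of a place over `w₀` -/

variable (h : N ∣ M) (r : Place Kbar (FF M) → Place (h13sK A) (h13sFt A M))

/-- the multiplicity `n_c = (r_* π^* [w₀]) (r c)`, `w₀` the place below `c`. -/
def h57sMult (c : Place Kbar (FF M)) : ℤ :=
  h60rPush r (h57pPull h
    (Finsupp.single (c.restrictAlong (degen h) (isIntegral_degen h)) (1 : ℤ))) (r c)

theorem h57s_pull_single_nonneg (w₀ : Place Kbar (FF N)) (v : Place Kbar (FF M)) :
    0 ≤ h57pPull h (Finsupp.single w₀ (1 : ℤ)) v := by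
  classical
  haveI := Fermat.Agent.Red.HKMod.hasPrincipalDivisors_FF M
  show 0 ≤ Divisor.pullbackAlong (degen h) (isIntegral_degen h) _ v
  rw [Divisor.pullbackAlong_apply, Finsupp.single_apply]
  split_ifs
  · rw [mul_one]
    exact Int.natCast_nonneg _
  · rw [mul_zero]

theorem h57s_mult_pos (c : Place Kbar (FF M)) : 0 < h57sMult h r c := by
  classical
  haveI := Fermat.Agent.Red.HKMod.hasPrincipalDivisors_FF M
  unfold h57sMult
  have h1 := h71r_push_ge r
    (h57pPull h (Finsupp.single (c.restrictAlong (degen h) (isIntegral_degen h)) (1 : ℤ)))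
    (r c) (fun a _ => h57s_pull_single_nonneg h _ a) c rfl
  have h2 : (1 : ℤ) ≤ h57pPull h
      (Finsupp.single (c.restrictAlong (degen h) (isIntegral_degen h)) (1 : ℤ)) c := by
    show (1 : ℤ) ≤ Divisor.pullbackAlong (degen h) (isIntegral_degen h) _ c
    rw [Divisor.pullbackAlong_apply, Finsupp.single_apply, if_pos rfl, mul_one]
    have := Fermat.Agent.Red.NLA.h87_ramificationIndexAlong_pos (degen h) (isIntegral_degen h) c
    exact_mod_cast this
  exact lt_of_lt_of_le one_pos (h2.trans h1)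

/-! ### The formula -/

/-- **the order of the reduction at the reductions of the places over `w₀`.** -/
theorem h57s_ord (hp : p.Prime) (hM : ¬ p ∣ M) (hA : A.LiesOverPrime p)
    {r : Place Kbar (FF M) → Place (h13sK A) (h13sFt A M)} (hr : H13sIsRed A M r)
    {y : FF N} (hy0 : y ≠ 0) (hy : y ∈ softV A N) (hyi : y⁻¹ ∈ softV A N)
    (w₀ : Place Kbar (FF N)) :
    ∃ δ : ℤ, ∀ c : Place Kbar (FF M),
      c.restrictAlong (degen h) (isIntegral_degen h) = w₀ →
      ∀ hd : degen h y ∈ gaussV A M,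
        (r c).ord (h13sRed A M ⟨degen h y, hd⟩) = h57sMult h r c * δ := by
  classical
  haveI := Fermat.Agent.Red.HKMod.hasPrincipalDivisors_FF M
  obtain ⟨D, hD, -⟩ := (h40r_base_FF (N := N)).pd y hy0
  refine ⟨h57sMass A w₀ D, fun c hc hd => ?_⟩
  have hdi : (degen h y)⁻¹ ∈ gaussV A M := by
    rw [← map_inv₀]
    exact softV_le_gaussV A M hp hM hA ((degen_mem_softV_iff A h _).mpr hyi)
  -- RED-DIV for `π y`
  have h1 := h60r_push_div_unit hr hd hdi (D := h57pPull h D)
    (fun v => h57p_pull_div_fun h hD v) (r c)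
  rw [← h1]
  -- decomposition of `D`
  have h2 : D = (h57sIn A w₀ D - h57sMass A w₀ D • Finsupp.single w₀ (1 : ℤ)) +
      h57sMass A w₀ D • Finsupp.single w₀ (1 : ℤ) + h57sOut A w₀ D := by
    rw [sub_add_cancel, h57s_in_add_out]
  have h3 : h60rPush r (h57pPull h
      (h57sIn A w₀ D - h57sMass A w₀ D • Finsupp.single w₀ (1 : ℤ))) = 0 :=
    h60r_push_eq_zero_of_mem hr (h57p_pull_mem_redKer h A (h57s_in_sub_mem w₀ D))
  have h4 : h60rPush r (h57pPull h (h57sOut A w₀ D)) (r c) = 0 := by
    rw [h60r_push_apply]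
    refine h57k_push_eq_zero_of_fibre _ _ fun v hv => ?_
    have hs : SameRed A v c := (hr.2.1 v c).mp hv
    have hs' := h69w_restrict_sameRed A (degen h) (isIntegral_degen h) (degen_jBar h) hs
    rw [hc] at hs'
    show Divisor.pullbackAlong (degen h) (isIntegral_degen h) _ v = 0
    rw [Divisor.pullbackAlong_apply, h57s_out_apply_of_sameRed D hs', mul_zero]
  conv_lhs => rw [h2]
  rw [map_add, map_add, map_add, map_add, h3, zero_add, Finsupp.add_apply, h4, add_zero,
    map_zsmul, map_zsmul, Finsupp.smul_apply, smul_eq_mul, mul_comm]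
  unfold h57sMult
  rw [hc]

/-! ### SYM: the sign of the order does not depend on the place over `w₀` -/

/-- **SYM (nonnegativity)**: for two places `c`, `c'` of `F_M` over the same place of `F_N`. -/
theorem h57s_nonneg_iff (hp : p.Prime) (hM : ¬ p ∣ M) (hA : A.LiesOverPrime p)
    {r : Place Kbar (FF M) → Place (h13sK A) (h13sFt A M)} (hr : H13sIsRed A M r)
    {y : FF N} (hy0 : y ≠ 0) (hy : y ∈ softV A N) (hyi : y⁻¹ ∈ softV A N)
    (c c' : Place Kbar (FF M))
    (hcc : c.restrictAlong (degen h) (isIntegral_degen h) =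
      c'.restrictAlong (degen h) (isIntegral_degen h))
    (hd : degen h y ∈ gaussV A M) :
    0 ≤ (r c).ord (h13sRed A M ⟨degen h y, hd⟩) ↔
      0 ≤ (r c').ord (h13sRed A M ⟨degen h y, hd⟩) := by
  obtain ⟨δ, hδ⟩ := h57s_ord h hp hM hA hr hy0 hy hyi
    (c'.restrictAlong (degen h) (isIntegral_degen h))
  rw [hδ c hcc hd, hδ c' rfl hd]
  have h1 := h57s_mult_pos h r c
  have h2 := h57s_mult_pos h r c'
  constructor
  · intro h3
    exact mul_nonneg h2.le (nonneg_of_mul_nonneg_right h3 h1)
  · intro h3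
    exact mul_nonneg h1.le (nonneg_of_mul_nonneg_right h3 h2)

/-- **SYM (vanishing)**. -/
theorem h57s_eq_zero_iff (hp : p.Prime) (hM : ¬ p ∣ M) (hA : A.LiesOverPrime p)
    {r : Place Kbar (FF M) → Place (h13sK A) (h13sFt A M)} (hr : H13sIsRed A M r)
    {y : FF N} (hy0 : y ≠ 0) (hy : y ∈ softV A N) (hyi : y⁻¹ ∈ softV A N)
    (c c' : Place Kbar (FF M))
    (hcc : c.restrictAlong (degen h) (isIntegral_degen h) =
      c'.restrictAlong (degen h) (isIntegral_degen h))
    (hd : degen h y ∈ gaussV A M) :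
    (r c).ord (h13sRed A M ⟨degen h y, hd⟩) = 0 ↔
      (r c').ord (h13sRed A M ⟨degen h y, hd⟩) = 0 := by
  obtain ⟨δ, hδ⟩ := h57s_ord h hp hM hA hr hy0 hy hyi
    (c'.restrictAlong (degen h) (isIntegral_degen h))
  rw [hδ c hcc hd, hδ c' rfl hd]
  have h1 := h57s_mult_pos h r c
  have h2 := h57s_mult_pos h r c'
  rw [mul_eq_zero, mul_eq_zero]
  constructor
  · rintro (h3 | h3)
    · exact absurd h3 h1.ne'
    · exact Or.inr h3
  · rintro (h3 | h3)
    · exact absurd h3 h2.ne'
    · exact Or.inr h3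

/-- **SYM (positivity)**. -/
theorem h57s_pos_iff (hp : p.Prime) (hM : ¬ p ∣ M) (hA : A.LiesOverPrime p)
    {r : Place Kbar (FF M) → Place (h13sK A) (h13sFt A M)} (hr : H13sIsRed A M r)
    {y : FF N} (hy0 : y ≠ 0) (hy : y ∈ softV A N) (hyi : y⁻¹ ∈ softV A N)
    (c c' : Place Kbar (FF M))
    (hcc : c.restrictAlong (degen h) (isIntegral_degen h) =
      c'.restrictAlong (degen h) (isIntegral_degen h))
    (hd : degen h y ∈ gaussV A M) :
    0 < (r c).ord (h13sRed A M ⟨degen h y, hd⟩) ↔
      0 < (r c').ord (h13sRed A M ⟨degen h y, hd⟩) := by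
  obtain ⟨δ, hδ⟩ := h57s_ord h hp hM hA hr hy0 hy hyi
    (c'.restrictAlong (degen h) (isIntegral_degen h))
  rw [hδ c hcc hd, hδ c' rfl hd]
  have h1 := h57s_mult_pos h r c
  have h2 := h57s_mult_pos h r c'
  constructor
  · intro h3
    exact mul_pos h2 (pos_of_mul_pos_right h3 h1.le)
  · intro h3
    exact mul_pos h1 (pos_of_mul_pos_right h3 h2.le)

/-! ### SYM-LITE -/

/-- the reduction of `π y` in the special fibre field of level `M` has the `q`-expansion
`softR y`. -/
theorem h57s_incl_red (hp : p.Prime) (hM : ¬ p ∣ M) (hA : A.LiesOverPrime p)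
    {y : FF N} (hy : y ∈ softV A N) (hd : degen h y ∈ gaussV A M) :
    h13sIncl A M (h13sRed A M ⟨degen h y, hd⟩) = softR A N ⟨y, hy⟩ := by
  rw [h13sIncl_red]
  have h1 : degen h y ∈ softV A M := (degen_mem_softV_iff A h y).mpr hy
  rw [← softR_eq_gaussR A M (degen h y) h1 hd]
  exact softR_degen A h ⟨y, hy⟩ h1

/-- the reduction of a Gauss unit is not `0`. -/
theorem h57s_red_ne_zero (hp : p.Prime) (hM : ¬ p ∣ M) (hA : A.LiesOverPrime p)
    {y : FF N} (hy0 : y ≠ 0) (hy : y ∈ softV A N) (hyi : y⁻¹ ∈ softV A N)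
    (hd : degen h y ∈ gaussV A M) : h13sRed A M ⟨degen h y, hd⟩ ≠ 0 := by
  intro h0
  have h1 := congrArg (h13sIncl A M) h0
  rw [h57s_incl_red h hp hM hA hy hd, map_zero] at h1
  exact (softR_ne_zero_iff A N ⟨y, hy⟩).mpr ⟨hy0, hyi⟩ h1

/-- **SYM-LITE.**  `c∞` a place of `F_M` whose reduction is the `q`-order place of the special
fibre, `c` any place of `F_M` over the place of `F_N` below `c∞`, `y` a Gauss unit of level `N`
with `0 ≤ ord_q (softR y)`: then `0 ≤ ord_{r c} (red (π y))`. -/
theorem h57s_symLite (hp : p.Prime) (hM : ¬ p ∣ M) (hA : A.LiesOverPrime p)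
    {r : Place Kbar (FF M) → Place (h13sK A) (h13sFt A M)} (hr : H13sIsRed A M r)
    (cinf c : Place Kbar (FF M))
    (hcc : c.restrictAlong (degen h) (isIntegral_degen h) =
      cinf.restrictAlong (degen h) (isIntegral_degen h))
    (hQ : ∀ f : h13sFt A M, f ≠ 0 → (r cinf).ord f = (h13sIncl A M f).order)
    {y : FF N} (hy0 : y ≠ 0) (hy : y ∈ softV A N) (hyi : y⁻¹ ∈ softV A N)
    (hord : 0 ≤ (softR A N ⟨y, hy⟩).order) (hd : degen h y ∈ gaussV A M) :
    0 ≤ (r c).ord (h13sRed A M ⟨degen h y, hd⟩) := by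
  rw [h57s_nonneg_iff h hp hM hA hr hy0 hy hyi c cinf hcc hd,
    hQ _ (h57s_red_ne_zero h hp hM hA hy0 hy hyi hd), h57s_incl_red h hp hM hA hy hd]
  exact hord

/-- **SYM-LITE, units**: if `ord_q (softR y) = 0` then `ord_{r c} (red (π y)) = 0` at every
place `c` over the place below `c∞`. -/
theorem h57s_symLite_zero (hp : p.Prime) (hM : ¬ p ∣ M) (hA : A.LiesOverPrime p)
    {r : Place Kbar (FF M) → Place (h13sK A) (h13sFt A M)} (hr : H13sIsRed A M r)
    (cinf c : Place Kbar (FF M))
    (hcc : c.restrictAlong (degen h) (isIntegral_degen h) =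
      cinf.restrictAlong (degen h) (isIntegral_degen h))
    (hQ : ∀ f : h13sFt A M, f ≠ 0 → (r cinf).ord f = (h13sIncl A M f).order)
    {y : FF N} (hy0 : y ≠ 0) (hy : y ∈ softV A N) (hyi : y⁻¹ ∈ softV A N)
    (hord : (softR A N ⟨y, hy⟩).order = 0) (hd : degen h y ∈ gaussV A M) :
    (r c).ord (h13sRed A M ⟨degen h y, hd⟩) = 0 := by
  rw [h57s_eq_zero_iff h hp hM hA hr hy0 hy hyi c cinf hcc hd,
    hQ _ (h57s_red_ne_zero h hp hM hA hy0 hy hyi hd), h57s_incl_red h hp hM hA hy hd]
  exact hord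

/-- **SYM-LITE, poles**: if `ord_q (softR y) < 0` then `ord_{r c} (red (π y)) < 0` at every
place `c` over the place below `c∞` (the reductions of the places over `w₀` are poles). -/
theorem h57s_symLite_neg (hp : p.Prime) (hM : ¬ p ∣ M) (hA : A.LiesOverPrime p)
    {r : Place Kbar (FF M) → Place (h13sK A) (h13sFt A M)} (hr : H13sIsRed A M r)
    (cinf c : Place Kbar (FF M))
    (hcc : c.restrictAlong (degen h) (isIntegral_degen h) =
      cinf.restrictAlong (degen h) (isIntegral_degen h))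
    (hQ : ∀ f : h13sFt A M, f ≠ 0 → (r cinf).ord f = (h13sIncl A M f).order)
    {y : FF N} (hy0 : y ≠ 0) (hy : y ∈ softV A N) (hyi : y⁻¹ ∈ softV A N)
    (hord : (softR A N ⟨y, hy⟩).order < 0) (hd : degen h y ∈ gaussV A M) :
    (r c).ord (h13sRed A M ⟨degen h y, hd⟩) < 0 := by
  by_contra hn
  rw [not_lt, h57s_nonneg_iff h hp hM hA hr hy0 hy hyi c cinf hcc hd,
    hQ _ (h57s_red_ne_zero h hp hM hA hy0 hy hyi hd), h57s_incl_red h hp hM hA hy hd] at hn
  exact absurd hord (not_lt.mpr hn)

end Fermat.Agent.P7
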