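import Fermat.Agent.P7.H37GapM
import Fermat.Agent.P7.H57SymTr
import Fermat.Agent.P5.H26GenusFinal

/-!
# Wave 7, block (A), route DLOG: CONST(M) at the NON-good level (helper37, prefix `h37k_`)

`p` a prime, `N` ANY level prime to `p`, `M = goodLevel p N`, `A` over `p`, `r` the reduction map
of places of level `M`, `Q` the `q`-order place of `FF N`, `c∞` the `q`-order place of `FF M`.

`h37k_const` : **CONST(N)** (`H37nConst N A Q`, the hypothesis of `h37n_gap`) from

* helper57's landed SYM-LITE (`h57s_symLite`),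
* RED-DIV and the base facts at the good level (`H13sIsRed`, `h26s_base`),
* the ONE hypothesis `(S2)`: the reduction `r c∞` of the cusp `∞` of level `M` is the `q`-order
  place of the special fibre.
-/

set_option autoImplicit false
set_option linter.unusedSectionVars false
set_option linter.unusedVariables false
set_option linter.style.haveILetI false

open AlgebraicCurve ModularCurve IsLocalRing

noncomputable section

namespace Fermat.Agent.P7

open Fermat.Agent.S37 Fermat.Agent.Red.HKMod Fermat.Agent.Red.CH0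
open Fermat.Agent.Red.GV Fermat.Agent.Red.GV.Soft Fermat.Agent.P5

variable {p : ℕ} {N M : ℕ} [NeZero N] [NeZero M] {A : ValuationSubring Kbar}

/-- the place below the `q`-order place is the `q`-order place. -/
theorem h37k_restrict_infty (h : N ∣ M) (Q : Place Kbar (FF N)) (cinf : Place Kbar (FF M))
    (hQ : ∀ f : FF N, f ≠ 0 → ((f : FF N) : LaurentSeries Kbar).order = Q.ord f)
    (hcinf : ∀ f : FF M, f ≠ 0 → ((f : FF M) : LaurentSeries Kbar).order = cinf.ord f) :
    cinf.restrictAlong (degen h) (isIntegral_degen h) = Q := by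
  apply Place.ext
  ext f
  rcases eq_or_ne f 0 with rfl | hf0
  · simp only [zero_mem]
  have hd0 : degen h f ≠ 0 := fun h0 => hf0 ((map_eq_zero_iff _ (degen h).toRingHom.injective).mp h0)
  have he := Fermat.Agent.Red.NLA.h87_ramificationIndexAlong_pos (degen h) (isIntegral_degen h) cinf
  have h1 := Place.ord_restrictAlong (degen h) (isIntegral_degen h) cinf f
  rw [← hcinf _ hd0, coe_degen, hQ f hf0] at h1
  have hepos : (0 : ℤ) < (Place.ramificationIndexAlong (degen h) cinf : ℤ) := by exact_mod_cast he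
  constructor
  · intro hm
    have h2 := Fermat.Agent.S24.DiffPlace.ord_nonneg_of_mem _ hm
    apply Fermat.Agent.S24.DiffPlace.mem_of_ord_nonneg
    rw [h1]
    exact mul_nonneg hepos.le h2
  · intro hm
    have h2 := Fermat.Agent.S24.DiffPlace.ord_nonneg_of_mem _ hm
    apply Fermat.Agent.S24.DiffPlace.mem_of_ord_nonneg
    rw [h1] at h2
    by_contra hneg
    rw [not_le] at hneg
    have := mul_neg_of_pos_of_neg hepos hneg
    omega

/-- the push-forward of a divisor is nonnegative at `Q'` if the divisor is nonnegative on the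
fibre of `Q'`. -/
theorem h37k_push_nonneg {α β : Type*} (r : α → β) (D : α →₀ ℤ) (b : β)
    (hD : ∀ a, r a = b → 0 ≤ D a) : 0 ≤ Finsupp.mapDomain r D b := by
  classical
  rw [Finsupp.mapDomain, Finsupp.sum, Finsupp.finsetSum_apply]
  refine Finset.sum_nonneg (fun a _ => ?_)
  rw [Finsupp.single_apply]
  split_ifs with hab
  · exact hD a hab
  · exact le_rfl

/-- **CONST(N)** from SYM-LITE and `(S2)`. -/
theorem h37k_const_of (hp : p.Prime) (hN : ¬ p ∣ N) (hM : ¬ p ∣ M) (haux : auxLevel p ∣ M)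
    (hA : A.LiesOverPrime p) (h : N ∣ M)
    (r : Place Kbar (FF M) → Place (h13sK A) (h13sFt A M)) (hr : H13sIsRed A M r)
    (Q : Place Kbar (FF N))
    (hQ : ∀ f : FF N, f ≠ 0 → ((f : FF N) : LaurentSeries Kbar).order = Q.ord f)
    (cinf : Place Kbar (FF M))
    (hcinf : ∀ f : FF M, f ≠ 0 → ((f : FF M) : LaurentSeries Kbar).order = cinf.ord f)
    (hS2 : ∀ f : h13sFt A M, f ≠ 0 → (r cinf).ord f = (h13sIncl A M f).order) :
    H37nConst N A Q := by
  classical
  intro f hfV hreg hneg
  rcases eq_or_ne (gaussR A N ⟨f, hfV⟩) 0 with h0 | h0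
  · exact ⟨0, by rw [h0, map_zero]⟩
  -- `f` is a Gauss unit
  have hunit := (gaussR_eq_zero_iff A N hp hN hA ⟨f, hfV⟩).not.mp h0
  rw [not_or, not_not] at hunit
  obtain ⟨hf0, hfi⟩ := hunit
  have hf0' : f ≠ 0 := hf0
  have hfi' : f⁻¹ ∈ gaussV A N := hfi
  have hyS : f ∈ softV A N := gaussV_le_softV A N hfV
  have hyiS : f⁻¹ ∈ softV A N := gaussV_le_softV A N hfi'
  have hd : degen h f ∈ gaussV A M := (h37l_degen_mem_gaussV N A hp hN hM hA h f).mpr hfV
  have hdi : (degen h f)⁻¹ ∈ gaussV A M := by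
    rw [← map_inv₀]
    exact (h37l_degen_mem_gaussV N A hp hN hM hA h f⁻¹).mpr hfi'
  have hd0 : degen h f ≠ 0 :=
    fun h0 => hf0' ((map_eq_zero_iff _ (degen h).toRingHom.injective).mp h0)
  -- the reduction at level `M`
  set Fb : h13sFt A M := h13sRed A M ⟨degen h f, hd⟩ with hFb
  have hincl : h13sIncl A M Fb = gaussR A N ⟨f, hfV⟩ := by
    rw [hFb, h13sIncl_red]
    exact h37l_gaussR_degen N A h f hfV hd
  have hsoft : softR A N ⟨f, hyS⟩ = gaussR A N ⟨f, hfV⟩ := softR_eq_gaussR A N f hyS hfV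
  have hord : 0 ≤ (softR A N ⟨f, hyS⟩).order := by
    rw [hsoft]
    exact h37n_order_nonneg h0 hneg
  have hcQ : cinf.restrictAlong (degen h) (isIntegral_degen h) = Q :=
    h37k_restrict_infty h Q cinf hQ hcinf
  -- `Fb` is regular everywhere
  have hregb : ∀ Q' : Place (h13sK A) (h13sFt A M), 0 ≤ Q'.ord Fb := by
    intro Q'
    by_cases hex : ∃ v : Place Kbar (FF M), r v = Q' ∧
        v.restrictAlong (degen h) (isIntegral_degen h) = Q
    · obtain ⟨v, hv1, hv2⟩ := hex
      rw [← hv1]
      exact h57s_symLite h hp hM hA hr cinf v (hv2.trans hcQ.symm) hS2 hf0' hyS hyiS hord hd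
    · rw [not_exists] at hex
      haveI := hasPrincipalDivisors_FF M
      obtain ⟨D, hD, -⟩ := HasPrincipalDivisors.exists_divisor (K := Kbar) (degen h f) hd0
      rw [← hr.2.2 (degen h f) hd hdi D hD Q']
      refine h37k_push_nonneg r D Q' (fun v hv => ?_)
      rw [hD v, Place.ord_restrictAlong (degen h) (isIntegral_degen h) v f]
      have hne : v.restrictAlong (degen h) (isIntegral_degen h) ≠ Q := fun e => hex v ⟨hv, e⟩
      exact mul_nonneg (Int.natCast_nonneg _) (hreg _ hne)
  -- hence constant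
  have hB : H13rBase (h13sK A) (h13sFt A M) := h26s_base p hp M hM haux A hA
  obtain ⟨c, hc⟩ := hB.const Fb hregb
  refine ⟨c, ?_⟩
  rw [← hincl, ← hc]
  show h13sIncl A M (algebraMap (h13sK A) (h13sFt A M) c) = _
  rw [AlgHom.commutes, algebraMap_laurentSeries_eq_single]
  rfl

/-- **CONST(N)** at `M = goodLevel p N`. -/
theorem h37k_const (hp : p.Prime) (hN : ¬ p ∣ N) (hA : A.LiesOverPrime p)
    (r : Place Kbar (FF (goodLevel p N)) → Place (h13sK A) (h13sFt A (goodLevel p N)))
    (hr : H13sIsRed A (goodLevel p N) r)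
    (Q : Place Kbar (FF N))
    (hQ : ∀ f : FF N, f ≠ 0 → ((f : FF N) : LaurentSeries Kbar).order = Q.ord f)
    (cinf : Place Kbar (FF (goodLevel p N)))
    (hcinf : ∀ f : FF (goodLevel p N), f ≠ 0 →
      ((f : FF (goodLevel p N)) : LaurentSeries Kbar).order = cinf.ord f)
    (hS2 : ∀ f : h13sFt A (goodLevel p N), f ≠ 0 →
      (r cinf).ord f = (h13sIncl A (goodLevel p N) f).order) :
    H37nConst N A Q :=
  h37k_const_of hp hN (not_dvd_goodLevel hp hN) (auxLevel_dvd_goodLevel p N) hA
    (dvd_goodLevel p N) r hr Q hQ cinf hcinf hS2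

end Fermat.Agent.P7
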