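import Fermat.Agent.P7.H26IntIface
import Fermat.Agent.P7.H37ConstM
import Fermat.Agent.P7.H3DlogFinal
import Fermat.Agent.P5.H88RedDivFinal
import Fermat.Agent.P7.H26DlogGapLevel

/-!
# P7 (wave 7), block (A) DLOG at the level `M`, leaf DL4-M-CONST: CONST(M) from (S2) (helper26)

`h26c_constM : H26iS2 → ∀ p, H3gConstM p` : the leaf (CONST) of the final wiring
`h3g_s44_of_leaves` (helper3) from the frozen Prop `(S2)` of `P7/H26IntIface.lean`, through
helper37's `h37k_const` (SYM-LITE + RED-DIV + `(S2)` at the good level), the landed RED-DIV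
`h88r_redDiv` and the `q`-order places `h26g_place_inf`, `h37n_place_infty`.
-/

set_option autoImplicit false

open AlgebraicCurve ModularCurve

noncomputable section

namespace Fermat.Agent.P7

open Fermat.Agent.S37 Fermat.Agent.Red.GV Fermat.Agent.P5

/-- **CONST(M)** at every level `M` prime to `p`, from `(S2)` at the good level. -/
theorem h26c_const_of_S2 (hS2 : H26iS2) {p : ℕ} (hp : p.Prime) (M : ℕ) [NeZero M]
    (hM : ¬ p ∣ M) (A : ValuationSubring Kbar) (hA : A.LiesOverPrime p)
    (Q : Place Kbar (FF M))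
    (hQ : ∀ f : FF M, f ≠ 0 → ((f : FF M) : LaurentSeries Kbar).order = Q.ord f) :
    H37nConst M A Q := by
  have hN : ¬ p ∣ goodLevel p M := not_dvd_goodLevel hp hM
  have haux : auxLevel p ∣ goodLevel p M := auxLevel_dvd_goodLevel p M
  obtain ⟨r, hr⟩ := h88r_redDiv p hp (goodLevel p M) hN haux A hA
  obtain ⟨Qoo, hQoo⟩ := h26g_place_inf A (goodLevel p M)
  obtain ⟨cinf, hcinf⟩ := h37n_place_infty (goodLevel p M)
  have hrc : r cinf = Qoo :=
    hS2 p hp (goodLevel p M) hN haux A hA r hr Qoo hQoo cinf (fun f hf => (hcinf f hf).symm)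
  refine h37k_const hp hM hA r hr Q hQ cinf hcinf (fun f hf => ?_)
  rw [hrc]
  exact hQoo f hf

/-- **(CONST)** of the final wiring, from `(S2)`. -/
theorem h26c_constM (hS2 : H26iS2) (p : ℕ) : H3gConstM p :=
  fun hp _ M _ hM A hA Q hQ => h26c_const_of_S2 hS2 hp M hM A hA Q hQ

end Fermat.Agent.P7
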