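import Fermat.Agent.P7.H26GenusMatchIface
import Fermat.Agent.P5.H68RRLarge
import Fermat.Agent.P5.H3RRFin
import Fermat.Agent.S24.DegLe
import Fermat.Agent.S24.AnRep

/-!
# P7 (wave 7, row 38), block (A) route DLOG, leaf DL6B GENUS-MATCH: the assembly (helper26)

`h26m_genusMatch : H26mWH → H26mIndep → H26mDesc → H26mGenusMatch`, i.e. the weak genus of
`FF N` is at most `dim_ℂ S₂(Γ₀(N))`, from the three frozen leaves of
`P7/H26GenusMatchIface.lean`, the landed analytic Dedekind–Weber theory `S21/E` and the landed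
Riemann theorem of P5.
-/

set_option autoImplicit false
set_option linter.unusedSectionVars false
set_option linter.unusedVariables false
set_option linter.style.longLine false
set_option linter.style.haveILetI false

open UpperHalfPlane hiding I
open AlgebraicCurve ModularCurve CongruenceSubgroup Module
open scoped MatrixGroups

noncomputable section

namespace Fermat.Agent.P7

open Fermat.Agent.S37 (Kbar FF jB)
open Fermat.Agent.Jac (FC jC)
open Fermat.Agent.S28 (HasTExp)
open Fermat.Agent.S21.E (IsWH Tuple)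
open Fermat.Agent.P5

/-- the pole divisor of `j`, with its degree. -/
theorem h26m_exists_pole (M : ℕ) [NeZero M] :
    ∃ D : Divisor Kbar (FF M), H26sIsPole M D ∧
      Divisor.degree D = (Module.finrank (IntermediateField.adjoin Kbar {jB M}) (FF M) : ℤ) := by
  classical
  obtain ⟨s, hs, hsum⟩ := h40r_zeros_FF M (jB M)⁻¹ (Or.inr rfl)
  haveI := h40r_finite_FF M
  have hBg : H13rBase Kbar (FF M) := h40r_base_FF M
  refine ⟨∑ v ∈ s, Finsupp.single v (v.ord (jB M)⁻¹), fun v => ?_, ?_⟩
  · rw [Finsupp.finsetSum_apply]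
    by_cases hv : v ∈ s
    · rw [Finset.sum_eq_single_of_mem v hv (fun w _ hw => Finsupp.single_eq_of_ne' hw),
        Finsupp.single_eq_same]
      have := (hs v).1 hv
      rw [Place.ord_inv] at this ⊢
      omega
    · rw [Finset.sum_eq_zero (fun w hw => Finsupp.single_eq_of_ne'
        (by rintro rfl; exact hv hw))]
      have := (hs v).not.1 hv
      rw [Place.ord_inv] at this
      omega
  · rw [map_sum]
    have h1 : ∀ v ∈ s, Divisor.degree (Finsupp.single v (v.ord (jB M)⁻¹)) = v.ord (jB M)⁻¹ := by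
      intro v _
      rw [Divisor.degree_single, hBg.deg_one v]; simp
    rw [Finset.sum_congr rfl h1, hsum]

/-- linear independence passes from the functions to the elements of `F_ℂ`. -/
theorem h26m_indep_of_exp {N : ℕ} [NeZero N] {r : ℕ} (F : Fin r → ℍ → ℂ) (f : Fin r → FC N)
    (hexp : ∀ i, HasTExp 1 (F i) (f i : LaurentSeries ℂ)) (hF : LinearIndependent ℂ F) :
    LinearIndependent ℂ f := by
  rw [Fintype.linearIndependent_iff] at hF ⊢
  intro c hc
  apply hF c
  have h1 : HasTExp 1 (∑ i : Fin r, fun τ => c i * F i τ)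
      (∑ i : Fin r, HahnSeries.C (c i) * (f i : LaurentSeries ℂ)) :=
    HasTExp.finset_sum Finset.univ (fun i _ => HasTExp.const_mul one_pos (c i) (hexp i))
  have e : ∀ (a : ℂ) (x : FC N),
      ((a • x : FC N) : LaurentSeries ℂ) = HahnSeries.C a * (x : LaurentSeries ℂ) := by
    intro a x
    rw [Algebra.smul_def, MulMemClass.coe_mul]
    congr 1
    exact Fermat.Agent.Jac.h73_algebraMap_eq_C a
  have h2 : (∑ i : Fin r, HahnSeries.C (c i) * (f i : LaurentSeries ℂ)) = 0 := by
    have h3 := congrArg (fun x : FC N => (x : LaurentSeries ℂ)) hc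
    simp only [IntermediateField.coe_sum, IntermediateField.coe_zero] at h3
    rw [← h3]
    exact Finset.sum_congr rfl (fun i _ => (e (c i) (f i)).symm)
  rw [h2] at h1
  have h4 := Fermat.Agent.S24.h23_fun_eq_zero h1
  funext τ
  have h5 := congrFun h4 τ
  simp only [Finset.sum_apply, Pi.zero_apply] at h5
  simp only [Finset.sum_apply, Pi.smul_apply, smul_eq_mul, Pi.zero_apply]
  exact h5

/-- **GENUS-MATCH** from the three frozen leaves. -/
theorem h26m_genusMatch (hWH : H26mWH) (hI : H26mIndep) (hD : H26mDesc) : H26mGenusMatch := by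
  classical
  intro N _ g hg
  letI : Fintype (SL(2, ℤ) ⧸ Gamma0 N) := Subgroup.fintypeQuotientOfFiniteIndex
  have hneg : (-1 : SL(2, ℤ)) ∈ Gamma0 N := by
    rw [CongruenceSubgroup.Gamma0_mem]; simp
  obtain ⟨t, ht⟩ := Fermat.Agent.S21.E.exists_isMin (Fermat.Agent.S21.E.nonempty_tuple_Gamma0 N)
  obtain ⟨ω, hω⟩ :=
    Fermat.Agent.S21.E.exists_linearIndependent_cuspForms hneg ht.saturated ht.reduced
  haveI : FiniteDimensional ℂ (CuspForm ((Gamma0 N).map
      (Matrix.SpecialLinearGroup.mapGL ℝ)) 2) :=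
    Fermat.Agent.S49.finiteDimensional_cuspForm N 2
  have h2 := hω.fintype_card_le_finrank
  rw [Fintype.card_fin] at h2
  -- Riemann's equality in large degree
  have hB : H13rBase Kbar (FF N) := h40r_base_FF N
  obtain ⟨⟨c, hc⟩, -⟩ := h68r_large Kbar (FF N) hB g hg
  obtain ⟨hfin, -, -, -⟩ := h3r_fin (K := Kbar) (F := FF N) hB
  -- the pole divisor of `j`
  obtain ⟨D, hDp, hDdeg⟩ := h26m_exists_pole N
  haveI := h40r_finite_FF N
  have hδ0 : (0 : ℤ) < Divisor.degree D := by
    rw [hDdeg]; exact_mod_cast Module.finrank_pos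
  have hδμ : Divisor.degree D ≤ ((Gamma0 N).index : ℤ) := by
    rw [hDdeg]
    exact_mod_cast (Fermat.Agent.S24.finrank_le_index N).2
  -- the choice of `n`
  set n : ℕ := max (Finset.univ.sup t.d) c.toNat with hn
  have hn1 : ∀ k, t.d k ≤ n := fun k =>
    (Finset.le_sup (f := t.d) (Finset.mem_univ k)).trans (le_max_left _ _)
  have hdegn : Divisor.degree (n • D) = (n : ℤ) * Divisor.degree D := by
    rw [map_nsmul, nsmul_eq_mul]
  have hn2 : c ≤ Divisor.degree (n • D) := by
    rw [hdegn]
    have h3 : (c.toNat : ℤ) ≤ n := by exact_mod_cast le_max_right _ c.toNat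
    have h4 : c ≤ (c.toNat : ℤ) := Int.self_le_toNat c
    have h5 : (0 : ℤ) ≤ n := Int.natCast_nonneg n
    nlinarith
  -- the functions
  obtain ⟨r, F, hr, hFwh, hFli⟩ := hI N t n hn1
  choose f hf1 hf2 using fun i => hWH N n (F i) (hFwh i)
  have hfli : LinearIndependent ℂ f := h26m_indep_of_exp F f hf1 hFli
  obtain ⟨f₀, hf₀li, hf₀⟩ := hD N n r f hfli hf2
  -- they lie in `L(n D)`
  have hmem : ∀ i, f₀ i ∈ riemannRochSpace (n • D) := by
    intro i
    rw [mem_riemannRochSpace_iff]
    intro v
    right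
    have h3 := hf₀ i v
    rw [Finsupp.smul_apply, hDp v, nsmul_eq_mul]
    linarith
  have hle : r ≤ h13rL Kbar (FF N) (n • D) := by
    haveI := hfin (n • D)
    let f₁ : Fin r → riemannRochSpace (n • D) := fun i => ⟨f₀ i, hmem i⟩
    have hli : LinearIndependent Kbar f₁ := by
      apply LinearIndependent.of_comp (riemannRochSpace (n • D)).subtype
      exact hf₀li
    have := hli.fintype_card_le_finrank
    rwa [Fintype.card_fin] at this
  have heq := hc (n • D) hn2
  rw [hdegn] at heq
  -- arithmetic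
  have hr' : (r : ℤ) + t.total = ((n : ℤ) + 1) * (Gamma0 N).index := by exact_mod_cast hr
  have hle' : (r : ℤ) ≤ (h13rL Kbar (FF N) (n • D) : ℤ) := by exact_mod_cast hle
  have hμ0 : (0 : ℤ) ≤ ((Gamma0 N).index : ℤ) := Int.natCast_nonneg _
  have hn0 : (0 : ℤ) ≤ n := Int.natCast_nonneg n
  have key : (g : ℤ) + (Gamma0 N).index ≤ (t.total : ℤ) + 1 := by nlinarith
  have key' : g ≤ t.total + 1 - (Gamma0 N).index := by omega
  exact key'.trans h2

end Fermat.Agent.P7
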