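import Fermat.Agent.S21.E.Main
import Fermat.Agent.Jac.FinalHK2
import Fermat.Agent.Jac.ConvFinal
import Fermat.Agent.Jac.Desc0
import Fermat.Agent.Jac.BaseChangeOrd
import Fermat.Agent.Jac.Orbit
import Fermat.Agent.P5.H26GenusFinal

/-!
# P7 (wave 7, row 38), block (A) route DLOG, leaf DL6B GENUS-MATCH: frozen interface (helper26)

Target (`P7/H26GenusMatch.lean`): for every level `N` and every weak genus `g` of `FF N`
(`H13rIsGenus ℚ̄ (FF N) g`, P5): `g ≤ dim_ℂ S₂(Γ₀(N))`.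

Route: the analytic Dedekind–Weber theory of `S21/E` (landed) gives, for a tuple `t` of minimal
total degree, `t.total + 1 - μ` independent cusp forms (`μ = [SL₂(ℤ) : Γ₀(N)]`); the functions
`j ^ a * v_k`, `a + d_k ≤ n`, are `(n + 1) μ - t.total` independent weakly holomorphic functions
of degree `≤ n`.  They are elements of `F_ℂ = FC N` with poles bounded by `n (j)_∞`
(`H26mWH`: CONV + DICT of `Jac/`), and the space `L_ℂ(n (j)_∞)` descends to `ℚ̄` (`H26mDesc`:
reduced echelon basis in `q`-expansions, fixed by `Aut(ℂ/ℚ)`; ORBIT + DESC0 + BCORD of `Jac/`).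
Riemann's equality for `n (j)_∞`, `n` large, gives `g ≤ t.total + 1 - μ`.

Frozen leaves (every one a `Prop`; nothing is assumed): `H26mWH`, `H26mIndep`, `H26mDesc`.
-/

set_option autoImplicit false

open UpperHalfPlane hiding I
open AlgebraicCurve ModularCurve CongruenceSubgroup
open scoped MatrixGroups

noncomputable section

namespace Fermat.Agent.P7

open Fermat.Agent.S37 (Kbar FF jB)
open Fermat.Agent.Jac (FC jC)
open Fermat.Agent.S28 (HasTExp)
open Fermat.Agent.S21.E (IsWH Tuple)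

/-- **GM-WH** (CONV + DICT): a weakly holomorphic `Γ₀(N)`-invariant function of degree `≤ d`
(holomorphic on `ℍ`, `Δ ^ d * (A ∘ g)` bounded at `i∞` for all `g`) is an element `f` of `F_ℂ`
with `ord_v f ≥ - d * max 0 (- ord_v j)` at every place `v` of `F_ℂ`. -/
def H26mWH : Prop :=
  ∀ (N : ℕ) [NeZero N] (d : ℕ) (A : ℍ → ℂ), IsWH (Gamma0 N) d A →
    ∃ f : FC N, HasTExp 1 A (f : LaurentSeries ℂ) ∧
      ∀ v : Place ℂ (FC N), 0 ≤ v.ord f + (d : ℤ) * max 0 (-(v.ord (jC N)))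

/-- **GM-INDEP** (`S21/E` vocabulary): for a tuple `t` and `n ≥ d_k` for all `k`, the functions
`j ^ a * v_k`, `a + d_k ≤ n`, form a family of `(n + 1) μ - t.total` linearly independent
weakly holomorphic functions of degree `≤ n`. -/
def H26mIndep : Prop :=
  ∀ (N : ℕ) [NeZero N] [Fintype (SL(2, ℤ) ⧸ Gamma0 N)] [DecidableEq (SL(2, ℤ) ⧸ Gamma0 N)]
    (t : Tuple (Gamma0 N)) (n : ℕ), (∀ k, t.d k ≤ n) →
    ∃ (r : ℕ) (F : Fin r → ℍ → ℂ), r + t.total = (n + 1) * (Gamma0 N).index ∧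
      (∀ i, IsWH (Gamma0 N) n (F i)) ∧ LinearIndependent ℂ F

/-- **GM-DESC** (descent from `ℂ` to `ℚ̄`): `r` linearly independent elements of
`L_ℂ(n (j)_∞) ⊆ F_ℂ` give `r` linearly independent elements of `L(n (j)_∞) ⊆ F`. -/
def H26mDesc : Prop :=
  ∀ (N : ℕ) [NeZero N] (n r : ℕ) (f : Fin r → FC N), LinearIndependent ℂ f →
    (∀ (i : Fin r) (v : Place ℂ (FC N)),
      0 ≤ v.ord (f i) + (n : ℤ) * max 0 (-(v.ord (jC N)))) →
    ∃ f₀ : Fin r → FF N, LinearIndependent Kbar f₀ ∧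
      ∀ (i : Fin r) (v₀ : Place Kbar (FF N)),
        0 ≤ v₀.ord (f₀ i) + (n : ℤ) * max 0 (-(v₀.ord (jB N)))

/-- **the target**: the weak genus is at most `dim S₂(Γ₀(N))`. -/
def H26mGenusMatch : Prop :=
  ∀ (N : ℕ) [NeZero N] (g : ℕ), Fermat.Agent.P5.H13rIsGenus Kbar (FF N) g →
    g ≤ Module.finrank ℂ (CuspForm ((Gamma0 N).map (Matrix.SpecialLinearGroup.mapGL ℝ)) 2)

end Fermat.Agent.P7
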