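import Fermat.Agent.P7.H26IntIface
import Fermat.Agent.Red.UnitDisc

/-!
# P7 (wave 7), block (A) DLOG at the level `M`, leaf DL4-M-CONST: the CORE of INT (helper26)

`K` algebraically closed, `A` a valuation subring of `K`.

* `h26iEv I q₀ L x` : the value at `q₀` of the truncation of the power series `x`, modulo `I`;
  multiplicative when `q₀ ^ L ∈ I` (`h26i_ev_mul`, `h26i_ev_pow`);
* `h26i_root` : for `G = u X + ...`, `u` a unit, `δ ∈ 𝔪_A`: a root `δ s` of `G - δ` with `s` a
  unit of `A` (root lifting in `A`, `Red/UnitDisc.lean`);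
* `h26i_core_step`, `h26i_core_gen`, `h26i_core : H26iCore` : `z ∈ K[[q]]` integral over
  `A[[q]]`, `T = q · u`, `δ ∈ 𝔪_A` nonzero, `z (T - δ) ∈ A[[q]]` imply `z ∈ A[[q]]`.
-/

set_option autoImplicit false

open Polynomial

noncomputable section

namespace Fermat.Agent.P7

/-! ### Evaluation of truncations at a nilpotent point modulo an ideal -/

section Eval

variable {B : Type*} [CommRing B]

/-- the value at `q₀` of the truncation of `x`, modulo `I`. -/
def h26iEv (I : Ideal B) (q₀ : B) (L : ℕ) (x : PowerSeries B) : B ⧸ I :=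
  Ideal.Quotient.mk I ((PowerSeries.trunc L x).eval q₀)

theorem h26i_ev_poly (I : Ideal B) (q₀ : B) (L : ℕ) (h : q₀ ^ L ∈ I) (p : Polynomial B) :
    h26iEv I q₀ L (p : PowerSeries B) = Ideal.Quotient.mk I (p.eval q₀) := by
  unfold h26iEv
  rw [eq_comm, Ideal.Quotient.eq]
  have e1 : (PowerSeries.trunc L (p : PowerSeries B)).eval q₀ =
      ∑ i ∈ Finset.range L, p.coeff i * q₀ ^ i := by
    have := PowerSeries.eval₂_trunc_eq_sum_range q₀ (RingHom.id B) L (p : PowerSeries B)
    rw [Polynomial.eval, this]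
    refine Finset.sum_congr rfl fun i _ => ?_
    rw [RingHom.id_apply, Polynomial.coeff_coe]
  have e2 : p.eval q₀ = ∑ i ∈ Finset.range (L + (p.natDegree + 1)), p.coeff i * q₀ ^ i :=
    Polynomial.eval_eq_sum_range' (by omega) q₀
  rw [e1, e2, Finset.sum_range_add, add_sub_cancel_left]
  refine Ideal.sum_mem _ fun i _ => ?_
  rw [pow_add, ← mul_assoc, mul_comm (p.coeff (L + i)), mul_assoc]
  exact Ideal.mul_mem_right _ _ h

theorem h26i_ev_mul (I : Ideal B) (q₀ : B) (L : ℕ) (h : q₀ ^ L ∈ I) (x y : PowerSeries B) :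
    h26iEv I q₀ L (x * y) = h26iEv I q₀ L x * h26iEv I q₀ L y := by
  have e : h26iEv I q₀ L (x * y) =
      h26iEv I q₀ L ((PowerSeries.trunc L x * PowerSeries.trunc L y : Polynomial B) :
        PowerSeries B) := by
    unfold h26iEv
    rw [Polynomial.coe_mul, PowerSeries.trunc_trunc_mul_trunc]
  rw [e, h26i_ev_poly I q₀ L h, Polynomial.eval_mul, map_mul]
  rfl

theorem h26i_ev_one (I : Ideal B) (q₀ : B) (L : ℕ) :
    h26iEv I q₀ (L + 1) (1 : PowerSeries B) = 1 := by
  unfold h26iEv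
  rw [PowerSeries.trunc_one, Polynomial.eval_one, map_one]

theorem h26i_ev_pow (I : Ideal B) (q₀ : B) (L : ℕ) (h : q₀ ^ (L + 1) ∈ I) (x : PowerSeries B)
    (n : ℕ) : h26iEv I q₀ (L + 1) (x ^ n) = h26iEv I q₀ (L + 1) x ^ n := by
  induction n with
  | zero => rw [pow_zero, pow_zero, h26i_ev_one]
  | succ n ih => rw [pow_succ, pow_succ, h26i_ev_mul I q₀ _ h, ih]

end Eval

section Root

variable {K : Type} [Field K] [IsAlgClosed K] (A : ValuationSubring K)

theorem h26i_eval_divX {B : Type*} [CommRing B] (G : Polynomial B) (a : B) :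
    G.eval a = G.divX.eval a * a + G.coeff 0 := by
  conv_lhs => rw [← Polynomial.divX_mul_X_add G]
  simp

/-- a root `δ s`, `s` a unit, of `G - δ` for `G = u X + ...`, `u` a unit, `δ ∈ 𝔪_A`. -/
theorem h26i_root (G : Polynomial A) (hG0 : G.coeff 0 = 0) (hG1 : IsUnit (G.coeff 1)) (δ : A)
    (hδ : (δ : K) ∈ A.nonunits) : ∃ s : A, IsUnit s ∧ G.eval (δ * s) = δ := by
  obtain ⟨u, hu⟩ := hG1
  set G₁ : Polynomial A := G.divX with hG₁
  have hG₁0 : G₁.coeff 0 = (u : A) := by
    rw [hG₁, Polynomial.coeff_divX, zero_add, hu]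
  set H : Polynomial A := X * G₁.comp (C δ * X) - 1 with hH
  have hδm : δ ∈ IsLocalRing.maximalIdeal A := ValuationSubring.coe_mem_nonunits_iff.mp hδ
  have hevalH : ∀ s : A, H.eval s = s * G₁.eval (δ * s) - 1 := by
    intro s
    rw [hH]
    simp [Polynomial.eval_comp]
  have hP : H.map (IsLocalRing.residue A) ≠ 0 := by
    intro h0
    have h1 := congrArg (fun p => Polynomial.coeff p 0) h0
    simp only [Polynomial.coeff_map, Polynomial.coeff_zero] at h1
    have h2 : H.coeff 0 = -1 := by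
      rw [hH, Polynomial.coeff_sub, Polynomial.mul_coeff_zero, Polynomial.coeff_X_zero,
        zero_mul, zero_sub, Polynomial.coeff_one_zero]
    rw [h2, map_neg, map_one, neg_eq_zero] at h1
    exact one_ne_zero h1
  set c : A := ((u⁻¹ : Aˣ) : A) with hc
  have hcu : c * (u : A) = 1 := by rw [hc]; exact Units.inv_mul u
  have h0 : (H.map (IsLocalRing.residue A)).eval (IsLocalRing.residue A c) = 0 := by
    rw [Polynomial.eval_map, Polynomial.eval₂_at_apply, hevalH, IsLocalRing.residue_eq_zero_iff]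
    have e : c * G₁.eval (δ * c) - 1 = δ * (c * (G₁.divX.eval (δ * c) * c)) := by
      rw [h26i_eval_divX G₁ (δ * c), hG₁0]
      linear_combination hcu
    rw [e]
    exact Ideal.mul_mem_right _ _ hδm
  obtain ⟨r, hr, hrc⟩ :=
    Fermat.Agent.Red.UnitDisc.h29_exists_root_of_residue_eval_eq_zero A H hP c h0
  have hrA : r ∈ A := by
    have : r = (r - (c : K)) + (c : K) := by ring
    rw [this]
    exact A.add_mem _ _ (A.nonunits_subset hrc) c.2
  refine ⟨⟨r, hrA⟩, ?_, ?_⟩
  · by_contra hnu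
    have h1 : (⟨r, hrA⟩ : A) ∈ IsLocalRing.maximalIdeal A := (IsLocalRing.mem_maximalIdeal _).mpr hnu
    have h2 : (⟨r, hrA⟩ : A) - c ∈ IsLocalRing.maximalIdeal A :=
      ValuationSubring.coe_mem_nonunits_iff.mp hrc
    have h3 : c ∈ IsLocalRing.maximalIdeal A := by
      have := Ideal.sub_mem _ h1 h2
      simpa using this
    exact (IsLocalRing.mem_maximalIdeal _).mp h3 ((u⁻¹ : Aˣ).isUnit)
  · have h1 : H.eval (⟨r, hrA⟩ : A) = 0 := by
      have h2 : (H.map A.subtype).eval (A.subtype ⟨r, hrA⟩) = 0 := hr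
      rw [Polynomial.eval_map, Polynomial.eval₂_at_apply] at h2
      exact A.subtype_injective (h2.trans (map_zero _).symm)
    rw [hevalH] at h1
    have h3 : (⟨r, hrA⟩ : A) * G₁.eval (δ * ⟨r, hrA⟩) = 1 := sub_eq_zero.mp h1
    rw [h26i_eval_divX G (δ * ⟨r, hrA⟩), hG0, add_zero, ← hG₁]
    linear_combination δ * h3

end Root

section Core

variable {K : Type} [Field K] [IsAlgClosed K] (A : ValuationSubring K)

omit [IsAlgClosed K] in
/-- a valuation subring is closed under roots. -/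
theorem h26i_mem_of_pow_mem {w : K} {N : ℕ} (hN : N ≠ 0) (h : w ^ N ∈ A) : w ∈ A := by
  rcases A.mem_or_inv_mem w with h1 | h1
  · exact h1
  · by_cases hw : w = 0
    · rw [hw]; exact A.zero_mem
    obtain ⟨m, rfl⟩ := Nat.exists_eq_succ_of_ne_zero hN
    have e : w = w ^ (m + 1) * (w⁻¹) ^ m := by
      rw [pow_succ, inv_pow]
      field_simp
    rw [e]
    exact A.mul_mem _ _ h (pow_mem h1 _)

/-- the sum over `range L` of a sequence vanishing below `n`. -/
theorem h26i_sum_split {B : Type*} [CommRing B] (c : ℕ → B) (q₀ : B) (n L : ℕ) (hnL : n < L)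
    (hlow : ∀ m < n, c m = 0) :
    ∃ a : B, ∑ i ∈ Finset.range L, c i * q₀ ^ i = q₀ ^ n * (c n + q₀ * a) := by
  obtain ⟨m, rfl⟩ : ∃ m, L = n + 1 + m := ⟨L - (n + 1), by omega⟩
  refine ⟨∑ i ∈ Finset.range m, c (n + 1 + i) * q₀ ^ i, ?_⟩
  rw [Finset.sum_range_add, Finset.sum_range_succ]
  have h0 : ∑ i ∈ Finset.range n, c i * q₀ ^ i = 0 :=
    Finset.sum_eq_zero fun i hi => by rw [hlow i (Finset.mem_range.mp hi), zero_mul]
  rw [h0, zero_add, mul_add, Finset.mul_sum, Finset.mul_sum]
  congr 1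
  · ring
  · refine Finset.sum_congr rfl fun i _ => ?_
    ring

/-- **CORE, one coefficient**: if `z` vanishes below `n` then `z_n ∈ A`. -/
theorem h26i_core_step (T x : PowerSeries A) (z : PowerSeries K) (δ : A)
    (hδ : (δ : K) ∈ A.nonunits) (hδ0 : δ ≠ 0) (hT0 : PowerSeries.coeff 0 T = 0)
    (hT1 : IsUnit (PowerSeries.coeff 1 T))
    (hzx : z * PowerSeries.map A.subtype (T - PowerSeries.C δ) = PowerSeries.map A.subtype x)
    (hint : (PowerSeries.map A.subtype).IsIntegralElem z)
    (n : ℕ) (hlow : ∀ m < n, PowerSeries.coeff m z = 0) :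
    PowerSeries.coeff n z ∈ A := by
  obtain ⟨P, hPm, hPz⟩ := hint
  set N := P.natDegree with hN
  have hN0 : N ≠ 0 := by
    intro h0
    have h1 : P = 1 := hPm.natDegree_eq_zero.mp h0
    rw [h1, Polynomial.eval₂_one] at hPz
    exact one_ne_zero hPz
  have hinj : Function.Injective (PowerSeries.map A.subtype) :=
    PowerSeries.map_injective _ A.subtype_injective
  set s : PowerSeries A := T - PowerSeries.C δ with hs
  have hdvd : s ∣ x ^ N :=
    Polynomial.dvd_pow_natDegree_of_eval₂_eq_zero hinj hPm s x z hPz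
      (by rw [mul_comm]; exact hzx)
  obtain ⟨g, hg⟩ := hdvd
  -- the point of evaluation
  set L' : ℕ := N * (n + 1) with hL'
  have hL'1 : 1 ≤ L' := Nat.mul_pos (Nat.pos_of_ne_zero hN0) (Nat.succ_pos n)
  have hnL : n < L' + 1 := by
    have : n + 1 ≤ N * (n + 1) := Nat.le_mul_of_pos_left _ (Nat.pos_of_ne_zero hN0)
    omega
  have hG0 : (PowerSeries.trunc (L' + 1) T).coeff 0 = 0 := by
    rw [PowerSeries.coeff_trunc, if_pos (Nat.succ_pos _), hT0]
  have hG1 : IsUnit ((PowerSeries.trunc (L' + 1) T).coeff 1) := by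
    rw [PowerSeries.coeff_trunc, if_pos (by omega)]
    exact hT1
  obtain ⟨s₀, hs₀u, hs₀⟩ := h26i_root A _ hG0 hG1 δ hδ
  set q₀ : A := δ * s₀ with hq₀
  set I : Ideal A := Ideal.span {δ ^ (L' + 1)} with hI
  have hqI : q₀ ^ (L' + 1) ∈ I := by
    rw [hq₀, mul_pow]
    exact Ideal.mul_mem_right _ _ (Ideal.mem_span_singleton_self _)
  have hφs : h26iEv I q₀ (L' + 1) s = 0 := by
    unfold h26iEv
    rw [hs, map_sub, PowerSeries.trunc_C, Polynomial.eval_sub, Polynomial.eval_C, hs₀, sub_self,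
      map_zero]
  have hφx : h26iEv I q₀ (L' + 1) x ^ N = 0 := by
    rw [← h26i_ev_pow I q₀ L' hqI, hg, h26i_ev_mul I q₀ _ hqI, hφs, zero_mul]
  have hXI : ((PowerSeries.trunc (L' + 1) x).eval q₀) ^ N ∈ I := by
    rw [← Ideal.Quotient.eq_zero_iff_mem, map_pow]
    exact hφx
  obtain ⟨b, hb⟩ := Ideal.mem_span_singleton'.mp hXI
  -- the low coefficients of `x`
  obtain ⟨z₁, hz₁⟩ := PowerSeries.X_pow_dvd_iff.mpr hlow
  have hcoe : ∀ m, ((PowerSeries.coeff m x : A) : K) =
      PowerSeries.coeff m (z * PowerSeries.map A.subtype s) := by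
    intro m
    rw [hzx, PowerSeries.coeff_map]
    rfl
  have hxlow : ∀ m < n, PowerSeries.coeff m x = 0 := by
    intro m hm
    apply A.subtype_injective
    show ((PowerSeries.coeff m x : A) : K) = ((0 : A) : K)
    rw [hcoe, hz₁, mul_assoc, PowerSeries.coeff_X_pow_mul', if_neg (by omega)]
    rfl
  have hxn : ((PowerSeries.coeff n x : A) : K) = PowerSeries.coeff n z * (-(δ : K)) := by
    have hzn : PowerSeries.coeff n z = PowerSeries.coeff 0 z₁ := by
      rw [hz₁, PowerSeries.coeff_X_pow_mul', if_pos (le_refl _), Nat.sub_self]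
    rw [hcoe, hzn, hz₁, mul_assoc, PowerSeries.coeff_X_pow_mul', if_pos (le_refl _), Nat.sub_self,
      PowerSeries.coeff_zero_eq_constantCoeff, map_mul, ← PowerSeries.coeff_zero_eq_constantCoeff,
      PowerSeries.coeff_map, hs, map_sub, hT0,
      PowerSeries.coeff_zero_C, zero_sub]
    simp
  have hsum : (PowerSeries.trunc (L' + 1) x).eval q₀ =
      ∑ i ∈ Finset.range (L' + 1), PowerSeries.coeff i x * q₀ ^ i := by
    have := PowerSeries.eval₂_trunc_eq_sum_range q₀ (RingHom.id A) (L' + 1) x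
    rw [Polynomial.eval, this]
    rfl
  obtain ⟨a, ha⟩ := h26i_sum_split (fun i => PowerSeries.coeff i x) q₀ n (L' + 1) hnL hxlow
  rw [hsum, ha] at hb
  -- in `K`
  obtain ⟨t, ht⟩ := hs₀u.exists_right_inv
  have hδK : (δ : K) ≠ 0 := fun h => hδ0 (Subtype.ext h)
  set w : K := (s₀ : K) ^ n * (PowerSeries.coeff n z - (s₀ : K) * (a : K)) with hw
  have hbK : ((b : A) : K) * (δ : K) ^ (L' + 1) =
      (((δ : K) * (s₀ : K)) ^ n * ((PowerSeries.coeff n x : A) + (δ : K) * (s₀ : K) * (a : K))) ^ N := by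
    have := congrArg (fun y : A => (y : K)) hb
    simpa [hq₀] using this
  have hwN : w ^ N = (-1) ^ N * ((b : K) * (δ : K)) := by
    have h1 : (((δ : K) * (s₀ : K)) ^ n * ((PowerSeries.coeff n x : A) + (δ : K) * (s₀ : K) * (a : K))) =
        -((δ : K) ^ (n + 1) * w) := by
      rw [hxn, hw]
      ring
    rw [h1] at hbK
    have h2 : ((δ : K) ^ (n + 1)) ^ N ≠ 0 := pow_ne_zero _ (pow_ne_zero _ hδK)
    apply mul_left_cancel₀ h2
    have h3 : ((δ : K) ^ (n + 1)) ^ N = (δ : K) ^ L' := by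
      rw [hL', ← pow_mul, mul_comm]
    have h4 : (-((δ : K) ^ (n + 1) * w)) ^ N = (-1) ^ N * (((δ : K) ^ (n + 1)) ^ N * w ^ N) := by
      rw [neg_pow, mul_pow]
    rw [h4, h3] at hbK
    rw [h3]
    have h5 : (-1 : K) ^ N * (-1) ^ N = 1 := by
      rw [← mul_pow]; simp
    calc (δ : K) ^ L' * w ^ N = (-1) ^ N * ((-1) ^ N * ((δ : K) ^ L' * w ^ N)) := by
          rw [← mul_assoc, h5, one_mul]
      _ = (-1) ^ N * ((b : K) * (δ : K) ^ (L' + 1)) := by rw [hbK]
      _ = (δ : K) ^ L' * ((-1) ^ N * ((b : K) * (δ : K))) := by ring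
  have hwA : w ∈ A := by
    apply h26i_mem_of_pow_mem A hN0
    rw [hwN]
    exact A.mul_mem _ _ (pow_mem (A.neg_mem _ A.one_mem) _) (A.mul_mem _ _ b.2 δ.2)
  have htK : (s₀ : K) * (t : K) = 1 := by
    have := congrArg (fun y : A => (y : K)) ht
    simpa using this
  have hfin : PowerSeries.coeff n z = w * (t : K) ^ n + (s₀ : K) * (a : K) := by
    rw [hw]
    have : ((s₀ : K) * (t : K)) ^ n = 1 := by rw [htK, one_pow]
    rw [mul_pow] at this
    linear_combination (-(PowerSeries.coeff n z - (s₀ : K) * (a : K))) * this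
  rw [hfin]
  exact A.add_mem _ _ (A.mul_mem _ _ hwA (pow_mem t.2 _)) (A.mul_mem _ _ s₀.2 a.2)

/-- **CORE**: `z ∈ K[[q]]` integral over `A[[q]]` with `z (T - δ) ∈ A[[q]]` lies in `A[[q]]`. -/
theorem h26i_core_gen (T x : PowerSeries A) (z : PowerSeries K) (δ : A)
    (hδ : (δ : K) ∈ A.nonunits) (hδ0 : δ ≠ 0) (hT0 : PowerSeries.coeff 0 T = 0)
    (hT1 : IsUnit (PowerSeries.coeff 1 T))
    (hzx : z * PowerSeries.map A.subtype (T - PowerSeries.C δ) = PowerSeries.map A.subtype x)
    (hint : (PowerSeries.map A.subtype).IsIntegralElem z) :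
    ∃ y : PowerSeries A, PowerSeries.map A.subtype y = z := by
  have key : ∀ n : ℕ, ∀ m < n, PowerSeries.coeff m z ∈ A := by
    intro n
    induction n with
    | zero => intro m hm; omega
    | succ n ih =>
      intro m hm
      rcases Nat.lt_succ_iff_lt_or_eq.mp hm with h | rfl
      · exact ih m h
      · set y : PowerSeries A :=
          PowerSeries.mk (fun i => if h : i < m then ⟨PowerSeries.coeff i z, ih i h⟩ else 0)
          with hy
        have hcy : ∀ i, PowerSeries.coeff i (PowerSeries.map A.subtype y) =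
            if i < m then PowerSeries.coeff i z else 0 := by
          intro i
          rw [PowerSeries.coeff_map, hy, PowerSeries.coeff_mk]
          split_ifs <;> rfl
        have hz' : ∀ i < m, PowerSeries.coeff i (z - PowerSeries.map A.subtype y) = 0 := by
          intro i hi
          rw [map_sub, hcy, if_pos hi, sub_self]
        have hzx' : (z - PowerSeries.map A.subtype y) *
            PowerSeries.map A.subtype (T - PowerSeries.C δ) =
            PowerSeries.map A.subtype (x - y * (T - PowerSeries.C δ)) := by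
          rw [sub_mul, hzx]
          simp only [map_sub, map_mul]
        have hint' : (PowerSeries.map A.subtype).IsIntegralElem
            (z - PowerSeries.map A.subtype y) :=
          hint.sub _ (RingHom.isIntegralElem_map _)
        have h1 := h26i_core_step A T _ _ δ hδ hδ0 hT0 hT1 hzx' hint' m hz'
        rw [map_sub, hcy, if_neg (lt_irrefl _), sub_zero] at h1
        exact h1
  refine ⟨PowerSeries.mk (fun n => ⟨PowerSeries.coeff n z, key (n + 1) n (Nat.lt_succ_self n)⟩),
    ?_⟩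
  ext n
  rw [PowerSeries.coeff_map, PowerSeries.coeff_mk]
  rfl

end Core

/-- **CORE** in the frozen shape. -/
theorem h26i_core : H26iCore := fun A T x z δ hδ hδ0 hT0 hT1 hzx hint =>
  h26i_core_gen A T x z δ hδ hδ0 hT0 hT1 hzx hint



end Fermat.Agent.P7
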