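import Fermat.Agent.P7.H27EisPsi
import Fermat.Agent.P7.H20Slope

/-!
# Wave 7 (S40), block (E) T-EIS, the core (helper27)

Notation of findings 1353 / 1368: `w = b(u)/u = a₀ (1 + D₀ F)` with `F ≡ f_∞` modulo `𝔪 W_∞`
and `F ≡ f_0` modulo `𝔪 W_0` (`W_0 = w_p W_∞`), `Ψ = f_0 - f_∞`.

* `h27f_cong_*` : calculus of the congruences `h27eCong` (`F ≡ f` modulo `𝔪_A · W_∞`).
* `h27f_psi_unique` : `Ψ` does not depend on the presentation of `w`.
* `h27f_psi_T` : `Ψ(T_ℓ u) ≡ (ℓ + 1) Ψ(u)` for ANY presentations of `σ u / u` and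
  `σ (T_ℓ u) / T_ℓ u`.
* `h27f_Q_quot` (abstract): `Q(z) = (b z / z - 1) / δ` is additive modulo `𝔪_A`:
  `Q(γ') ≡ n Q(γ)` ⟹ `Q(γ' / γ ^ n) ∈ 𝔪_A`.
* `h27f_eis_arith` (abstract valuation arithmetic): `v(J) = v(ϖ)^m v(γ)^p`,
  `v(J') = v(ϖ)^m' v(γ')^p`, `v(J') = v(J)^(ℓ+1)`, `v(γ'/γ^(ℓ+1))^(p-1) ∈ v(ϖ)^ℤ`,
  `p ∣ m' - c m`  ⟹  `p ∣ (ℓ + 1 - c) m`.
-/

set_option autoImplicit false
set_option linter.style.haveILetI false
set_option linter.unusedSectionVars false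
set_option linter.unusedVariables false
set_option synthInstance.maxHeartbeats 400000

open AlgebraicCurve ModularCurve IsLocalRing Polynomial

noncomputable section

namespace Fermat.Agent.P7

open Fermat.Agent.S37 Fermat.Agent.Red Fermat.Agent.Red.GV Fermat.Agent.Red.GV.Soft
  Fermat.Agent.Red.TRK Fermat.Agent.Red.Kron Fermat.Agent.LGC Fermat.Agent.Red.KR
  Fermat.Agent.S35 Fermat.Agent.Red.HKComm Fermat.Agent.S36

/-! ### Calculus of congruences -/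

section Cong

variable (A : ValuationSubring Kbar) (N : ℕ) [NeZero N]

theorem h27f_cong_mem {F : FF N} {f : Kbar} (hf : f ∈ A) (h : h27eCong A N F f) :
    F ∈ softV A N := by
  obtain ⟨μ, hμ, s, hs, rfl⟩ := h
  exact add_mem ((cst_mem_softV_iff A N f).mpr hf)
    (mul_mem ((cst_mem_softV_iff A N μ).mpr (ValuationSubring.nonunits_subset hμ)) hs)

theorem h27f_cong_cst (f : Kbar) : h27eCong A N (cst N f) f :=
  ⟨0, A.nonunits.zero_mem, 0, zero_mem _, by rw [mul_zero, add_zero]⟩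

theorem h27f_cong_nonunit {μ : Kbar} (hμ : μ ∈ A.nonunits) {s : FF N} (hs : s ∈ softV A N) :
    h27eCong A N (cst N μ * s) 0 :=
  ⟨μ, hμ, s, hs, by rw [h27e_cst_zero, zero_add]⟩

theorem h27f_cong_add {F G : FF N} {f g : Kbar} (hF : h27eCong A N F f)
    (hG : h27eCong A N G g) : h27eCong A N (F + G) (f + g) := by
  obtain ⟨μ, hμ, s, hs, rfl⟩ := hF
  obtain ⟨ν, hν, t, ht, rfl⟩ := hG
  obtain ⟨ρ, hρ, r, hr, e⟩ := h27e_sum_nonunits A N hμ hν hs ht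
  refine ⟨ρ, hρ, r, hr, ?_⟩
  rw [h27e_cst_add, ← e]
  ring

theorem h27f_cong_neg {F : FF N} {f : Kbar} (hF : h27eCong A N F f) :
    h27eCong A N (-F) (-f) := by
  obtain ⟨μ, hμ, s, hs, rfl⟩ := hF
  refine ⟨μ, hμ, -s, neg_mem hs, ?_⟩
  have e : cst N (-f) = -cst N f := map_neg (algebraMap Kbar (FF N)) f
  rw [e]
  ring

theorem h27f_cong_sub {F G : FF N} {f g : Kbar} (hF : h27eCong A N F f)
    (hG : h27eCong A N G g) : h27eCong A N (F - G) (f - g) := by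
  rw [sub_eq_add_neg, sub_eq_add_neg]
  exact h27f_cong_add A N hF (h27f_cong_neg A N hG)

/-- a constant in `𝔪_A · W_∞` lies in `𝔪_A`. -/
theorem h27f_cst_nonunit {a : Kbar} (h : h27eCong A N (cst N a) 0) : a ∈ A.nonunits := by
  obtain ⟨μ, hμ, s, hs, e⟩ := h
  rw [h27e_cst_zero, zero_add] at e
  by_cases hμ0 : μ = 0
  · rw [hμ0, h27e_cst_zero, zero_mul] at e
    have h2 : algebraMap Kbar (FF N) a = algebraMap Kbar (FF N) 0 := by
      rw [map_zero]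
      exact e
    rw [(algebraMap Kbar (FF N)).injective h2]
    exact A.nonunits.zero_mem
  · have hs' : s = cst N (μ⁻¹ * a) := by
      rw [h27e_cst_mul, e, ← mul_assoc, ← h27e_cst_mul, inv_mul_cancel₀ hμ0, h27e_cst_one,
        one_mul]
    rw [hs'] at hs
    have h3 : μ⁻¹ * a ∈ A := (cst_mem_softV_iff A N _).mp hs
    have h4 : a = (μ⁻¹ * a) * μ := by
      field_simp
    rw [h4]
    exact h27e_mul_nonunits A h3 hμ

/-- the constant of a congruence is unique modulo `𝔪_A`. -/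
theorem h27f_cong_unique {F : FF N} {f g : Kbar} (hf : h27eCong A N F f)
    (hg : h27eCong A N F g) : f - g ∈ A.nonunits := by
  have h := h27f_cong_sub A N hg hf
  rw [sub_self] at h
  -- `0 ≡ g - f`, i.e. `cst (f - g) ≡ 0`
  have h2 : h27eCong A N (cst N (f - g)) 0 := by
    have h3 := h27f_cong_sub A N (h27f_cong_cst A N (f - g)) (h27f_cong_neg A N h)
    have e1 : (f - g) - -(g - f) = 0 := by ring
    have e2 : cst N (f - g) - -(0 : FF N) = cst N (f - g) := by ring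
    rw [e1, e2] at h3
    exact h3
  exact h27f_cst_nonunit A N h2

/-- multiplication by a constant of `A`. -/
theorem h27f_cong_cst_mul {F : FF N} {f a : Kbar} (ha : a ∈ A) (hF : h27eCong A N F f) :
    h27eCong A N (cst N a * F) (a * f) := by
  obtain ⟨μ, hμ, s, hs, rfl⟩ := hF
  refine ⟨μ, hμ, cst N a * s, mul_mem ((cst_mem_softV_iff A N a).mpr ha) hs, ?_⟩
  rw [h27e_cst_mul]
  ring

end Cong

/-! ### Uniqueness of `Ψ` and the Hecke norm -/

section Psi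

variable (A : ValuationSubring Kbar) (M p ℓ : ℕ) [NeZero M] [NeZero p] [NeZero ℓ]

/-- **`Ψ = f_0 - f_∞` does not depend on the presentation** `w = a₀ (1 + c F)`. -/
theorem h27f_psi_unique (hp : p.Prime) (hM : ¬ p ∣ M) (hA : A.LiesOverPrime p)
    (c : Kbar) (hc : c ∈ A.nonunits) (hc0 : c ≠ 0) (a₀ a₀' : Kbar) (ha₀ : a₀ ≠ 0)
    (f₁ f₀ f₁' f₀' : Kbar) (hf₁ : f₁ ∈ A) (hf₀ : f₀ ∈ A) (hf₁' : f₁' ∈ A) (hf₀' : f₀' ∈ A)
    (F F' : FF (M * p))
    (hF₁ : h27eCong A (M * p) F f₁) (hF₀ : h27eCong A (M * p) (kFricke M p hp hM F) f₀)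
    (hF₁' : h27eCong A (M * p) F' f₁')
    (hF₀' : h27eCong A (M * p) (kFricke M p hp hM F') f₀')
    (hw : cst (M * p) a₀ * (1 + cst (M * p) c * F) =
      cst (M * p) a₀' * (1 + cst (M * p) c * F')) :
    (f₀ - f₁) - (f₀' - f₁') ∈ A.nonunits := by
  have hFm : F ∈ softV A (M * p) := h27f_cong_mem A (M * p) hf₁ hF₁
  have hFm' : F' ∈ softV A (M * p) := h27f_cong_mem A (M * p) hf₁' hF₁'
  have hcA : c ∈ A := ValuationSubring.nonunits_subset hc
  obtain ⟨hne', s', hs', einv⟩ := Fermat.Agent.P6.h94i_inv_one_add A M p hc hFm'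
  have hC0 : cst (M * p) c ≠ 0 := by
    intro h0
    apply hc0
    have h2 : algebraMap Kbar (FF (M * p)) c = algebraMap Kbar (FF (M * p)) 0 := by
      rw [map_zero]
      exact h0
    exact (algebraMap Kbar (FF (M * p))).injective h2
  have hA0 : cst (M * p) a₀ ≠ 0 := by
    intro h0
    apply ha₀
    have h2 : algebraMap Kbar (FF (M * p)) a₀ = algebraMap Kbar (FF (M * p)) 0 := by
      rw [map_zero]
      exact h0
    exact (algebraMap Kbar (FF (M * p))).injective h2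
  -- the constant `t = a₀' / a₀` is `1 + c τ`, `τ ∈ A`
  obtain ⟨τ, hτ⟩ : ∃ τ : Kbar, a₀⁻¹ * a₀' = 1 + c * τ :=
    ⟨c⁻¹ * (a₀⁻¹ * a₀' - 1), by field_simp; ring⟩
  have ht : cst (M * p) (a₀⁻¹ * a₀') = 1 + cst (M * p) c * cst (M * p) τ := by
    rw [hτ, h27e_cst_add, h27e_cst_one, h27e_cst_mul]
  have hquot : cst (M * p) (a₀⁻¹ * a₀') =
      (1 + cst (M * p) c * F) * (1 + cst (M * p) c * F')⁻¹ := by
    rw [eq_mul_inv_iff_mul_eq₀ hne', h27e_cst_mul]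
    have e1 : cst (M * p) a₀⁻¹ * cst (M * p) a₀ = 1 := by
      rw [← h27e_cst_mul, inv_mul_cancel₀ ha₀, h27e_cst_one]
    calc cst (M * p) a₀⁻¹ * cst (M * p) a₀' * (1 + cst (M * p) c * F')
        = cst (M * p) a₀⁻¹ * (cst (M * p) a₀' * (1 + cst (M * p) c * F')) := by ring
      _ = cst (M * p) a₀⁻¹ * (cst (M * p) a₀ * (1 + cst (M * p) c * F)) := by rw [hw]
      _ = (cst (M * p) a₀⁻¹ * cst (M * p) a₀) * (1 + cst (M * p) c * F) := by ring
      _ = 1 + cst (M * p) c * F := by rw [e1, one_mul]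
  have hτS : cst (M * p) τ = F + s' + cst (M * p) c * (F * s') := by
    have h1 : cst (M * p) c * cst (M * p) τ =
        cst (M * p) c * (F + s' + cst (M * p) c * (F * s')) := by
      have h2 : 1 + cst (M * p) c * cst (M * p) τ =
          (1 + cst (M * p) c * F) * (1 + cst (M * p) c * s') := by
        rw [← ht, hquot, einv]
      linear_combination h2
    exact mul_left_cancel₀ hC0 h1
  have hτA : τ ∈ A := by
    apply (cst_mem_softV_iff A (M * p) τ).mp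
    rw [hτS]
    exact add_mem (add_mem hFm hs')
      (mul_mem ((cst_mem_softV_iff A (M * p) c).mpr hcA) (mul_mem hFm hs'))
  -- `F = τ + F' + c τ F'`
  have hrel : F = cst (M * p) τ + F' + cst (M * p) (c * τ) * F' := by
    have h2 : 1 + cst (M * p) c * F =
        (1 + cst (M * p) c * cst (M * p) τ) * (1 + cst (M * p) c * F') := by
      rw [← ht, hquot, inv_mul_cancel_right₀ hne']
    have e : cst (M * p) (c * τ) = cst (M * p) c * cst (M * p) τ := h27e_cst_mul (M * p) c τ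
    have h3 : cst (M * p) c * F =
        cst (M * p) c * (cst (M * p) τ + F' + cst (M * p) (c * τ) * F') := by
      rw [e]
      linear_combination h2
    exact mul_left_cancel₀ hC0 h3
  have hcτ : c * τ ∈ A.nonunits := by
    rw [mul_comm]
    exact h27e_mul_nonunits A hτA hc
  -- at `W_∞`
  have hinf : h27eCong A (M * p) F (τ + f₁' + 0) := by
    rw [hrel]
    exact h27f_cong_add A (M * p) (h27f_cong_add A (M * p) (h27f_cong_cst A (M * p) τ) hF₁')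
      (h27f_cong_nonunit A (M * p) hcτ hFm')
  have einf := h27f_cong_unique A (M * p) hF₁ hinf
  -- at `W_0`
  have hFm0' : kFricke M p hp hM F' ∈ softV A (M * p) :=
    h27f_cong_mem A (M * p) hf₀' hF₀'
  have hrel0 : kFricke M p hp hM F = cst (M * p) τ + kFricke M p hp hM F' +
      cst (M * p) (c * τ) * kFricke M p hp hM F' := by
    have h := congrArg (kFricke M p hp hM) hrel
    rw [map_add, map_add, map_mul, kFricke_cst, kFricke_cst] at h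
    exact h
  have h0 : h27eCong A (M * p) (kFricke M p hp hM F) (τ + f₀' + 0) := by
    rw [hrel0]
    exact h27f_cong_add A (M * p) (h27f_cong_add A (M * p) (h27f_cong_cst A (M * p) τ) hF₀')
      (h27f_cong_nonunit A (M * p) hcτ hFm0')
  have e0 := h27f_cong_unique A (M * p) hF₀ h0
  have e : (f₀ - f₁) - (f₀' - f₁') = (f₀ - (τ + f₀' + 0)) - (f₁ - (τ + f₁' + 0)) := by ring
  rw [e]
  exact A.nonunits.sub_mem e0 einf

/-- **`Ψ (T_ℓ u) ≡ (ℓ + 1) Ψ (u)` modulo `𝔪_A`**, for ANY presentations of `w = σ u / u` and of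
`w' = σ (T_ℓ u) / T_ℓ u` at the same depth `c`. -/
theorem h27f_psi_T (hp : p.Prime) (hM : ¬ p ∣ M) (hA : A.LiesOverPrime p)
    (hℓ : ℓ.Prime) (hℓN : ¬ ℓ ∣ M * p) (σ : GQ) (u : FF (M * p)) (hu : u ≠ 0)
    (c : Kbar) (hc : c ∈ A.nonunits) (hc0 : c ≠ 0) (a₀ a₀' : Kbar)
    (f₁ f₀ f₁' f₀' : Kbar) (hf₁ : f₁ ∈ A) (hf₀ : f₀ ∈ A) (hf₁' : f₁' ∈ A) (hf₀' : f₀' ∈ A)
    (F F' : FF (M * p))
    (hF₁ : h27eCong A (M * p) F f₁) (hF₀ : h27eCong A (M * p) (kFricke M p hp hM F) f₀)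
    (hF₁' : h27eCong A (M * p) F' f₁')
    (hF₀' : h27eCong A (M * p) (kFricke M p hp hM F') f₀')
    (hw : (gal (M * p) σ • u) / u = cst (M * p) a₀ * (1 + cst (M * p) c * F))
    (hw' : (gal (M * p) σ • h57rT (M * p) ℓ u) / h57rT (M * p) ℓ u =
      cst (M * p) a₀' * (1 + cst (M * p) c * F')) :
    (f₀' - f₁') - ((ℓ + 1 : ℕ) : Kbar) * (f₀ - f₁) ∈ A.nonunits := by
  have ha₀ : a₀ ≠ 0 := by
    rintro rfl
    rw [h27e_cst_zero, zero_mul] at hw
    have hσ : gal (M * p) σ • u ≠ 0 := Fermat.Agent.P6.h94n_gal_ne_zero σ hu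
    exact (div_ne_zero hσ hu) hw
  obtain ⟨F'', eF'', hF₁'', hF₀''⟩ := h27e_psi_hecke A M p ℓ hp hM hA hℓ hℓN a₀ c hc hc0
    f₁ f₀ hf₁ hf₀ F hF₁ hF₀
  have hTw : h57rT (M * p) ℓ ((gal (M * p) σ • u) / u) =
      cst (M * p) a₀' * (1 + cst (M * p) c * F') := by
    rw [← h27e_T_quot (M * p) ℓ σ u hu]
    exact hw'
  rw [hw, eF''] at hTw
  have hℓA : ((ℓ + 1 : ℕ) : Kbar) ∈ A := natCast_mem A (ℓ + 1)
  have h := h27f_psi_unique A M p hp hM hA c hc hc0 (a₀ ^ (ℓ + 1)) a₀' (pow_ne_zero _ ha₀)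
    (((ℓ + 1 : ℕ) : Kbar) * f₁) (((ℓ + 1 : ℕ) : Kbar) * f₀) f₁' f₀'
    (mul_mem hℓA hf₁) (mul_mem hℓA hf₀) hf₁' hf₀' F'' F' hF₁'' hF₀'' hF₁' hF₀' hTw
  have e : (f₀' - f₁') - ((ℓ + 1 : ℕ) : Kbar) * (f₀ - f₁) =
      -((((ℓ + 1 : ℕ) : Kbar) * f₀ - ((ℓ + 1 : ℕ) : Kbar) * f₁) - (f₀' - f₁')) := by ring
  rw [e]
  exact A.nonunits.neg_mem h

end Psi

/-! ### The break quotient `Q(z) = (b z / z - 1) / δ` -/

section Break

variable {K : Type*} [Field K] (A : ValuationSubring K)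

/-- `1 + x` is a unit of `A` for `x ∈ 𝔪_A` (any field). -/
theorem h27f_one_add_unit {x : K} (hx : x ∈ A.nonunits) :
    1 + x ∈ A ∧ (1 + x)⁻¹ ∈ A ∧ 1 + x ≠ 0 := by
  have hv : A.valuation (1 + x) = 1 :=
    A.valuation.map_one_add_of_lt ((A.mem_nonunits_iff).mp hx)
  refine ⟨(A.valuation_le_one_iff _).mp hv.le, ?_, ?_⟩
  · apply (A.valuation_le_one_iff _).mp
    rw [map_inv₀, hv, inv_one]
  · intro h0
    rw [h0, map_zero] at hv
    exact zero_ne_one hv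

theorem h27f_mul_nonunits {a m : K} (ha : a ∈ A) (hm : m ∈ A.nonunits) :
    a * m ∈ A.nonunits := by
  rw [A.mem_nonunits_iff] at hm ⊢
  rw [map_mul]
  have h1 : A.valuation a ≤ 1 := (A.valuation_le_one_iff _).mpr ha
  calc A.valuation a * A.valuation m ≤ 1 * A.valuation m := mul_le_mul_left h1 _
    _ = A.valuation m := one_mul _
    _ < 1 := hm

theorem h27f_one_add_pow {x : K} (hx : x ∈ A) (n : ℕ) :
    ∃ r ∈ A, (1 + x) ^ n = 1 + n * x + x ^ 2 * r := by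
  induction n with
  | zero => exact ⟨0, zero_mem A, by simp⟩
  | succ n ih =>
    obtain ⟨r, hr, e⟩ := ih
    refine ⟨r + n + x * r, add_mem (add_mem hr (natCast_mem A n)) (mul_mem hx hr), ?_⟩
    rw [pow_succ, e]
    push_cast
    ring

/-- **additivity of the break quotient modulo `𝔪_A`**: if `b γ = γ (1 + δ q)`,
`b γ' = γ' (1 + δ q')` with `q, q' ∈ A` and `q' ≡ n q` modulo `𝔪_A`, then
`b z = z (1 + δ q_z)` with `q_z ∈ 𝔪_A` for `z = γ' / γ ^ n`. -/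
theorem h27f_Q_quot (b : K →+* K) {δ : K} (hδ : δ ∈ A.nonunits) {γ γ' q q' : K}
    (hγ : γ ≠ 0) (hq : q ∈ A) (hq' : q' ∈ A) (n : ℕ)
    (hb : b γ = γ * (1 + δ * q)) (hb' : b γ' = γ' * (1 + δ * q'))
    (hqq : q' - (n : K) * q ∈ A.nonunits) :
    ∃ qz ∈ A.nonunits, b (γ' / γ ^ n) = (γ' / γ ^ n) * (1 + δ * qz) := by
  have hδq : δ * q ∈ A.nonunits := by
    rw [mul_comm]
    exact h27f_mul_nonunits A hq hδ
  obtain ⟨h1A, h1i, h10⟩ := h27f_one_add_unit A hδq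
  obtain ⟨r, hr, er⟩ := h27f_one_add_pow A (ValuationSubring.nonunits_subset hδq) n
  have hpow0 : (1 + δ * q) ^ n ≠ 0 := pow_ne_zero _ h10
  have hpi : ((1 + δ * q) ^ n)⁻¹ ∈ A := by
    rw [← inv_pow]
    exact pow_mem h1i n
  have hδA : δ ∈ A := ValuationSubring.nonunits_subset hδ
  refine ⟨(q' - (n : K) * q - δ * (q ^ 2 * r)) * ((1 + δ * q) ^ n)⁻¹, ?_, ?_⟩
  · rw [mul_comm]
    apply h27f_mul_nonunits A hpi
    refine A.nonunits.sub_mem hqq ?_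
    rw [mul_comm]
    exact h27f_mul_nonunits A (mul_mem (pow_mem hq 2) hr) hδ
  · rw [map_div₀, map_pow, hb, hb', mul_pow]
    have hγn : γ ^ n ≠ 0 := pow_ne_zero _ hγ
    field_simp
    rw [er]
    ring

end Break

/-! ### The arithmetic of T-EIS -/

section Arith

variable {K : Type*} [Field K] (A : ValuationSubring K)

/-- `v(ϖ) ^ k = 1` only for `k = 0`. -/
theorem h27f_zpow_eq_one {ϖ : K} (hϖ0 : ϖ ≠ 0) (hϖ : A.valuation ϖ < 1) {k : ℤ}
    (h : A.valuation ϖ ^ k = 1) : k = 0 := by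
  have hmem : (Units.mk0 ϖ hϖ0) ^ k ∈ h20vU A := by
    rw [h20v_mem_U, Units.val_zpow_eq_zpow_val, map_zpow₀]
    exact h
  exact h20v_zpow_unit A (ϖ := Units.mk0 ϖ hϖ0) hϖ hmem

/-- **the arithmetic of T-EIS.**  `J, J'` the jumps of `u` and `u' = T_ℓ u` at a node,
`m, m'` the slopes, `γ, γ'` the node constants. -/
theorem h27f_eis_arith {p : ℕ} (hp : p.Prime) {ϖ : K} (hϖ0 : ϖ ≠ 0)
    (hϖ : A.valuation ϖ < 1) {J J' γ γ' : K} (hγ : γ ≠ 0) (hγ' : γ' ≠ 0) {ℓ : ℕ}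
    {m m' c : ℤ}
    (hJ : A.valuation J = A.valuation ϖ ^ m * A.valuation γ ^ p)
    (hJ' : A.valuation J' = A.valuation ϖ ^ m' * A.valuation γ' ^ p)
    (hT : A.valuation J' = A.valuation J ^ (ℓ + 1))
    (hz : ∃ n : ℤ, A.valuation (γ' / γ ^ (ℓ + 1)) ^ (p - 1) = A.valuation ϖ ^ n)
    (hm : (p : ℤ) ∣ m' - c * m) :
    (p : ℤ) ∣ ((ℓ : ℤ) + 1 - c) * m := by
  obtain ⟨n, hn⟩ := hz
  set x := A.valuation ϖ with hx
  set g := A.valuation γ with hg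
  set g' := A.valuation γ' with hg'
  have hx0 : x ≠ 0 := (A.valuation.ne_zero_iff).2 hϖ0
  have hg0 : g ≠ 0 := (A.valuation.ne_zero_iff).2 hγ
  have hg0' : g' ≠ 0 := (A.valuation.ne_zero_iff).2 hγ'
  -- `x ^ (m' - (ℓ+1) m) * (g' / g ^ (ℓ+1)) ^ p = 1`
  have h1 : x ^ m' * g' ^ p = (x ^ m * g ^ p) ^ (ℓ + 1) := by
    rw [← hJ', hT, hJ]
  have hzv : A.valuation (γ' / γ ^ (ℓ + 1)) = g' / g ^ (ℓ + 1) := by
    rw [map_div₀, map_pow]
  rw [hzv] at hn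
  have h2 : x ^ (m' - ((ℓ : ℤ) + 1) * m) * (g' / g ^ (ℓ + 1)) ^ p = 1 := by
    have e1 : (x ^ m * g ^ p) ^ (ℓ + 1) = x ^ (((ℓ : ℤ) + 1) * m) * (g ^ (ℓ + 1)) ^ p := by
      rw [mul_pow, ← pow_mul, ← pow_mul, mul_comm p (ℓ + 1)]
      congr 1
      rw [mul_comm, zpow_mul]
      norm_cast
    rw [e1] at h1
    rw [zpow_sub₀ hx0, div_pow]
    have hgp : (g ^ (ℓ + 1)) ^ p ≠ 0 := pow_ne_zero _ (pow_ne_zero _ hg0)
    have hxp : x ^ (((ℓ : ℤ) + 1) * m) ≠ 0 := zpow_ne_zero _ hx0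
    field_simp
    rw [h1]
  -- raise to the power `p - 1`
  have h3 : x ^ (((p : ℤ) - 1) * (m' - ((ℓ : ℤ) + 1) * m) + (p : ℤ) * n) = 1 := by
    have h4 := congrArg (fun y => y ^ (p - 1)) h2
    simp only [one_pow, mul_pow] at h4
    have e2 : ((g' / g ^ (ℓ + 1)) ^ p) ^ (p - 1) = ((g' / g ^ (ℓ + 1)) ^ (p - 1)) ^ p := by
      rw [← pow_mul, ← pow_mul, mul_comm]
    rw [e2, hn] at h4
    have hcast : ((p - 1 : ℕ) : ℤ) = (p : ℤ) - 1 := by
      rw [Nat.cast_sub hp.pos]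
      simp
    rw [zpow_add₀ hx0, mul_comm ((p : ℤ) - 1), zpow_mul, ← hcast, zpow_natCast,
      mul_comm (p : ℤ) n, zpow_mul, zpow_natCast]
    exact h4
  have h5 := h27f_zpow_eq_one A hϖ0 hϖ h3
  -- `p ∣ (p - 1) (m' - (ℓ+1) m)`, hence `p ∣ m' - (ℓ+1) m`
  have h6 : (p : ℤ) ∣ m' - ((ℓ : ℤ) + 1) * m :=
    ⟨(m' - ((ℓ : ℤ) + 1) * m) + n, by linarith⟩
  have h7 : ((ℓ : ℤ) + 1 - c) * m = (m' - c * m) - (m' - ((ℓ : ℤ) + 1) * m) := by ring
  rw [h7]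
  exact dvd_sub hm h6

end Arith

end Fermat.Agent.P7
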