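import Fermat.Agent.P7.H27EisPack
import Fermat.Agent.P7.H78PhaseWire
import Fermat.Agent.P7.H90CuspNF

/-!
# Wave 7 (S40/S44), blocks (R)+(C)+(E), final form (helper27)

`h27j_rce` : **all the orders of `ū` are divisible by `p`.**  `p ∤ M` a prime, `M` a good
level, `A` over `p`, `ℓ ∤ M p` a prime, `(ζ, β, b, δ)` a BREAK datum (`H23wBreak`, row
T-C1-BREAK), `u` a Kummer representative of `x₀ ∈ J₀(M p)` fixed by `I_β`, `T_ℓ x₀ = c₀ x₀` with
`p ∤ ℓ + 1 - c₀`.  Then `p ∣ ord_Q(ū)` at EVERY place `Q` of the special fibre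
(`= hs` of `h60g_toric`, helper60).

Wiring: `h27i_ss` (`P7/H27EisPack.lean`) with the level instances of block (C):
`h78l_chart_level`, `h78l_disc_node` (helper78), `h90k_nfInf_all`, `h90k_nfZero_all`
(helper90), `h84w_node_nf`, `h84a_L2` (helper84), and PURITY (helper85).

Nothing is assumed.
-/

set_option autoImplicit false
set_option linter.unusedSectionVars false
set_option linter.unusedVariables false
set_option linter.style.longLine false
set_option linter.style.haveILetI false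
set_option synthInstance.maxHeartbeats 400000
set_option maxHeartbeats 1600000

open AlgebraicCurve ModularCurve WithZero IsLocalRing Polynomial

noncomputable section

namespace Fermat.Agent.P7

open Fermat.Agent.S37 Fermat.Agent.S37.GalI Fermat.Agent.Red Fermat.Agent.Red.GG
  Fermat.Agent.Red.GV Fermat.Agent.Red.GV.Soft Fermat.Agent.Red.ModelO Fermat.Agent.Red.Kron
  Fermat.Agent.LGC Fermat.Agent.S35 Fermat.Agent.P6 Fermat.Agent.P5
open Fermat.Agent.Jac.K1 (IsKummerPair)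

variable (A : ValuationSubring Kbar) (M : ℕ) {p : ℕ} [NeZero M] [NeZero p]

/-- **the exact depth dichotomy at the level**, for any `v ≠ 0` with `p ∣ div v` fixed by
`I_β`, as soon as a crossing point exists. -/
theorem h27j_disc (hp : p.Prime) (hM : ¬ p ∣ M) (haux : auxLevel p ∣ M)
    (hA : A.LiesOverPrime p)
    {ζ β : Kbar} (hζ : IsPrimitiveRoot ζ p) {b : GQ} {δ : Kbar}
    (hbreak : H23wBreak p A ζ β b δ) (hb : b ∈ A.inertiaSubgroupIn ℚ)
    (v : FF (M * p)) (hv0 : v ≠ 0)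
    (hord : ∀ w : Place Kbar (FF (M * p)), (p : ℤ) ∣ w.ord v)
    (hfix : ∀ a ∈ h23vI1 p A, a β = β → gal (M * p) a • v = v)
    (e : H78lNode A M hp hM hA) :
    H78hDisc A (h85cWinf A M p hp hA).toSubring (h85cW0 A M p hp hM hA).toSubring
      ((⟨δ, A.nonunits_le hbreak.2.1⟩ : A) ^ p) (h84wB (M * p) b v * v⁻¹) := by
  set δA : A := ⟨δ, A.nonunits_le hbreak.2.1⟩ with hδA
  have hδ0 : δ ≠ 0 := hbreak.1
  have hδA0 : δA ≠ 0 := fun h => hδ0 (congrArg (fun t : A => (t : Kbar)) h)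
  have hδAm : δA ∈ maximalIdeal A := (GG.mem_maximalIdeal_iff A δA).mpr hbreak.2.1
  have hpδ : ∃ m₀ ∈ maximalIdeal A, ((p : ℕ) : A) * δA = δA ^ p * m₀ :=
    h27h_p_delta (A := A) (δ := δA) hp hζ hbreak
  have hvar := h84w_hvar A M hbreak hb v hfix
  have hC := h78l_chart_level A M hp hM hA haux
  have hθϖ : h56pTheta A hb ((p : ℕ) : A) = ((p : ℕ) : A) := map_natCast _ p
  obtain ⟨m, γP, γQ, hNF⟩ := h84w_node_nf A M hp hM haux hA e.1 e.2.1
    (h62x_torOnBoth A M hp hM hA e.1 e.2.2.1 e.2.2.2) hb δA v hv0 hord hvar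
  obtain ⟨ψ, hL2, -⟩ := h84a_L2 hC.hAF hC.hAinf
    (fun π hπ x hx => h86t_Winf_unit A M p hp hA π hπ x hx)
    (fun π hπ x hx => h86t_Winf_nt A M p hp hA π hπ x hx) hC.hA0
    (fun π hπ x hx => h86t_W0_unit A M p hp hM hA π hπ x hx)
    (fun π hπ x hx => h86t_W0_nt A M p hp hM hA π hπ x hx)
    (h84wB (M * p) b) (h56pTheta A hb)
    (fun a => h56p_tau_algebraMap A (M * p) hb a) hp hδAm hpδ
    (h20n_natCast_ne_zero A p) hθϖ hNF.1
  exact h78l_disc_node A M hp hM hA haux e (δA ^ p) (ψ ^ p) (pow_ne_zero _ hδA0) _ hL2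

/-- **blocks (R)+(C)+(E), final form**: all the orders of the reduction of an `I_β`-fixed
Kummer representative of a non-Eisenstein eigenvector are divisible by `p`. -/
theorem h27j_rce (hp : p.Prime) (hM : ¬ p ∣ M) (haux : auxLevel p ∣ M)
    (hA : A.LiesOverPrime p)
    {ℓ : ℕ} (hℓ : ℓ.Prime) (hℓN : ¬ ℓ ∣ M * p)
    {ζ β : Kbar} (hζ : IsPrimitiveRoot ζ p) {b : GQ} {δ : Kbar}
    (hbreak : H23wBreak p A ζ β b δ) (hb : b ∈ A.inertiaSubgroupIn ℚ)
    {x₀ : JZero (M * p)} {u : FF (M * p)}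
    (hu : IsKummerPair p x₀ u) (c₀ : ℤ)
    (hc₀ : heckeOperatorBar (M * p) ⟨ℓ, hℓ⟩ x₀ = c₀ • x₀)
    (hne : ¬ (p : ℤ) ∣ (ℓ : ℤ) + 1 - c₀)
    (hfix : ∀ a ∈ h23vI1 p A, a β = β → gal (M * p) a • u = u)
    (Q : Place (h13sK A) (h13sFt A M)) :
    (p : ℤ) ∣ h44slOrd A M p u Q := by
  haveI : NeZero ℓ := ⟨hℓ.ne_zero⟩
  set δA : A := ⟨δ, A.nonunits_le hbreak.2.1⟩ with hδA
  have hT : IsKummerPair p (heckeOperatorBar (M * p) ⟨ℓ, hℓ⟩ x₀) (h57rT (M * p) ℓ u) :=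
    h57l_kummer_T (M * p) ⟨ℓ, hℓ⟩ hu
  have hordK : ∀ {z : JZero (M * p)} {w : FF (M * p)}, IsKummerPair p z w →
      ∀ v : Place Kbar (FF (M * p)), (p : ℤ) ∣ v.ord w := by
    intro z w hw v
    obtain ⟨-, D, -, hD⟩ := hw
    exact ⟨_, (hD v).symm⟩
  have hord := hordK hu
  have hord' := hordK hT
  have hfix' : ∀ a ∈ h23vI1 p A, a β = β →
      gal (M * p) a • h57rT (M * p) ℓ u = h57rT (M * p) ℓ u := by
    intro a ha haβ
    rw [h27e_T_gal, hfix a ha haβ]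
  have hvar := h84w_hvar A M hbreak hb u hfix
  have hvar' := h84w_hvar A M hbreak hb (h57rT (M * p) ℓ u) hfix'
  refine h85w_all_of_ss_slope A M hp hM haux hA p u hu.1 hord ?_ Q
  rintro Q' ⟨𝔫, h𝔫, hPinf, hP0, hQ'⟩
  let e₀ : H78lNode A M hp hM hA := ⟨𝔫, h𝔫, hPinf, hP0⟩
  have hC := h78l_chart_level A M hp hM hA haux
  exact h27i_ss A M hp hM haux hA hℓ hℓN hζ hbreak hb hu c₀ hc₀ hne hfix
    (h78lOinf A M hp hM hA) (h78lOzero A M hp hM hA)
    (fun e : H78lNode A M hp hM hA => e.1) (fun e => e.2.1)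
    (fun e => h62x_torOnBoth A M hp hM hA e.1 e.2.2.1 e.2.2.2) hC
    (h27j_disc A M hp hM haux hA hζ hbreak hb u hu.1 hord hfix e₀)
    (h90k_nfInf_all A M hp hM haux hA hb δA u hu.1
      (fun i => exists_val_eq (M * p) (jSS M p) u hu.1 p hord i)
      (fun i => exists_val_eq (M * p) (jSS M p)⁻¹ u hu.1 p hord i) hvar)
    (h90k_nfZero_all A M hp hM haux hA hb δA u hu.1
      (fun i => exists_val_eq (M * p) (jSS M p) u hu.1 p hord i)
      (fun i => exists_val_eq (M * p) (jSS M p)⁻¹ u hu.1 p hord i) hvar)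
    (h27j_disc A M hp hM haux hA hζ hbreak hb (h57rT (M * p) ℓ u) hT.1 hord' hfix' e₀)
    (h90k_nfInf_all A M hp hM haux hA hb δA (h57rT (M * p) ℓ u) hT.1
      (fun i => exists_val_eq (M * p) (jSS M p) _ hT.1 p hord' i)
      (fun i => exists_val_eq (M * p) (jSS M p)⁻¹ _ hT.1 p hord' i) hvar')
    (h90k_nfZero_all A M hp hM haux hA hb δA (h57rT (M * p) ℓ u) hT.1
      (fun i => exists_val_eq (M * p) (jSS M p) _ hT.1 p hord' i)
      (fun i => exists_val_eq (M * p) (jSS M p)⁻¹ _ hT.1 p hord' i) hvar')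
    e₀ Q' hQ'

end Fermat.Agent.P7
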