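import Fermat.Agent.P7.H44SlopeCtr
import Fermat.Agent.P7.H85SlopeCtr
import Fermat.Agent.S24.OrbitPlacesCore

/-!
# P7 (wave 7, S44/S40), block (5) T-TORIC, row T-RHO-SLOPE, part 4 (helper44): the node
coordinate is a uniformiser of the place at the node

`p ∤ M` a prime, `A` over `p`, `B = chart (M p) A (jSS M p)` the finite chart of level `M p`,
`ρ = h85wRho : B → kC` the reduction at `W_∞`, `𝔫 ⊇ P∞` a closed point with node coordinates
`x y = a c` (`x, y ∈ 𝔫`, `c ∉ 𝔫`, `𝔫 = (x, y) + 𝔪_A B` locally, `x` a unit of `W_∞`), `Q` the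
place of `kC` at `𝔫` (`H85wAt`, helper85: `O_Q` is the localisation of `ρ(B)` at `𝔫`; it exists
at every closed point of `C_∞`, and every place finite for `j` is of this form:
`h85w_exists_place_fin`, `h85w_exists_centre`).

* `h44sl_node_a_mem` : `a ∈ 𝔪_A`; `h44sl_rho_y` : `ρ(y) = 0`.
* `h44sl_ord_x` : **`ord_Q(x̄) = 1`**.
* `h44sl_at_of_at` : `H44slAt A M p 𝔫 x Q` (the place `Q` sits at the node `𝔫`).
* `h44sl_slope_eq` : **the slope through the node chart IS the slope at the place**: for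
  EVERY normal form `u = κ x ^ m ε g₁ ^ p`, `g₁ = x ^ s ε∞`: `ord_Q(ū) = m + p s` and
  `m_Q(u) = m mod p`.  In particular the exponent `m` of a normal form is well defined
  modulo `p` (`h44sl_slope_unique`).

Nothing is assumed: every statement is proved.
-/

set_option autoImplicit false
set_option linter.style.haveILetI false
set_option linter.unusedSectionVars false
set_option linter.unusedVariables false
set_option synthInstance.maxHeartbeats 400000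

open AlgebraicCurve ModularCurve IsLocalRing

noncomputable section

namespace Fermat.Agent.P7

open Fermat.Agent.S37 Fermat.Agent.Red Fermat.Agent.Red.GG Fermat.Agent.Red.GV
  Fermat.Agent.Red.GV.Soft Fermat.Agent.LGC Fermat.Agent.P5 Fermat.Agent.S35 Fermat.Agent.P6

variable {A : ValuationSubring Kbar} {M p : ℕ} [NeZero M] [NeZero p]

section Node

variable (hp : p.Prime) (hM : ¬ p ∣ M) (hA : A.LiesOverPrime p)
  (𝔫 : Ideal (chart (M * p) A (jSS M p))) (h𝔫 : 𝔫.IsMaximal)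
  (hPinf : h62i_Pinf A M hp hM hA ≤ 𝔫)
  (x y c : chart (M * p) A (jSS M p)) (hx : x ∈ 𝔫) (hy : y ∈ 𝔫) (hc : c ∉ 𝔫)
  (a : A) (ha : a ≠ 0)
  (hxy : x * y = algebraMap A (chart (M * p) A (jSS M p)) a * c)
  (hprin : ∀ z ∈ 𝔫, ∃ s, s ∉ 𝔫 ∧ s * z ∈ Ideal.span {x, y} ⊔ mExt A M p (jSS M p))
  (hxinf : ((x : FF (M * p)))⁻¹ ∈ h85cWinf A M p hp hA)

include h𝔫 hx hc hxy in
/-- the constant of a node is not a unit. -/
theorem h44sl_node_a_mem : a ∈ maximalIdeal A := by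
  rw [IsLocalRing.mem_maximalIdeal, mem_nonunits_iff]
  intro hu
  have h1 : x * y ∈ 𝔫 := 𝔫.mul_mem_right y hx
  rw [hxy] at h1
  rcases h𝔫.isPrime.mem_or_mem h1 with h2 | h2
  · exact h𝔫.ne_top (Ideal.eq_top_of_isUnit_mem _ h2 (hu.map _))
  · exact hc h2

include ha hc hxy in
/-- the coordinate `x` of a node is not `0`. -/
theorem h44sl_node_x_ne_zero : (x : FF (M * p)) ≠ 0 := by
  intro h0
  have h1 : ((x * y : chart (M * p) A (jSS M p)) : FF (M * p)) = 0 := by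
    push_cast
    rw [h0, zero_mul]
  rw [hxy] at h1
  have h2 : algebraMap A (FF (M * p)) a * (c : FF (M * p)) = 0 := h1
  rcases mul_eq_zero.mp h2 with h3 | h3
  · apply ha
    have h4 : cst (M * p) (a : Kbar) = 0 := h3
    have h5 : (a : Kbar) = 0 := by
      by_contra h6
      exact h44sl_cst_ne_zero h6 h4
    exact Subtype.ext h5
  · apply hc
    have h4 : c = 0 := Subtype.ext h3
    rw [h4]
    exact 𝔫.zero_mem

include ha hc hxy hxinf in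
/-- `ρ(x) ≠ 0`. -/
theorem h44sl_rho_x_ne_zero :
    h85wRho hp hM hA (h62i_mem_soft A M hp hM hA) x ≠ 0 := by
  intro h0
  have h1 : x ∈ h62i_Pinf A M hp hM hA := (h85w_ker_fin A M hp hM hA x).mp h0
  rw [h62i_mem_Pinf_iff_softR] at h1
  rcases (softR_eq_zero_iff A (M * p) ⟨_, h62i_mem_soft A M hp hM hA x⟩).mp h1 with h2 | h2
  · exact h44sl_node_x_ne_zero 𝔫 x y c hc a ha hxy h2
  · exact h2 hxinf

include h𝔫 hx ha hc hxy hxinf in
/-- `ρ(y) = 0`: the second coordinate vanishes on the component `C_∞`. -/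
theorem h44sl_rho_y :
    h85wRho hp hM hA (h62i_mem_soft A M hp hM hA) y = 0 := by
  have ham := h44sl_node_a_mem 𝔫 h𝔫 x y c hx hc a hxy
  have h1 : algebraMap A (chart (M * p) A (jSS M p)) a ∈ h62i_Pinf A M hp hM hA :=
    h62i_m_le_Pinf A M hp hM hA (Ideal.mem_map_of_mem _ ham)
  have h2 : h85wRho hp hM hA (h62i_mem_soft A M hp hM hA)
      (algebraMap A (chart (M * p) A (jSS M p)) a) = 0 :=
    (h85w_ker_fin A M hp hM hA _).mpr h1
  have h3 := congrArg (h85wRho hp hM hA (h62i_mem_soft A M hp hM hA)) hxy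
  rw [map_mul, map_mul, h2, zero_mul] at h3
  rcases mul_eq_zero.mp h3 with h4 | h4
  · exact absurd h4 (h44sl_rho_x_ne_zero hp hM hA 𝔫 x y c hc a ha hxy hxinf)
  · exact h4

include h𝔫 hPinf in
/-- the elements of the chart outside `𝔫` reduce to units at `Q`. -/
theorem h44sl_rho_unit (Q : Place (h13sK A) (h13sFt A M))
    (hQ : H85wAt hp hM hA (h62i_mem_soft A M hp hM hA) Q 𝔫)
    (b : chart (M * p) A (jSS M p)) :
    0 ≤ Q.ord (h85wRho hp hM hA (h62i_mem_soft A M hp hM hA) b) ∧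
      (b ∉ 𝔫 → h85wRho hp hM hA (h62i_mem_soft A M hp hM hA) b ≠ 0 ∧
        Q.ord (h85wRho hp hM hA (h62i_mem_soft A M hp hM hA) b) = 0) := by
  have hker : ∀ b : chart (M * p) A (jSS M p),
      h85wRho hp hM hA (h62i_mem_soft A M hp hM hA) b = 0 → b ∈ 𝔫 :=
    fun b hb => hPinf ((h85w_ker_fin A M hp hM hA b).mp hb)
  obtain ⟨h1, h2⟩ := h85w_at_unit hp hM hA (h62i_mem_soft A M hp hM hA) Q 𝔫 h𝔫.isPrime hker
    hQ b
  have h3 := Fermat.Agent.S24.DiffPlace.ord_nonneg_of_mem Q h1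
  refine ⟨h3, fun hb => ?_⟩
  have hb0 : h85wRho hp hM hA (h62i_mem_soft A M hp hM hA) b ≠ 0 := fun h => hb (hker b h)
  refine ⟨hb0, le_antisymm ?_ h3⟩
  have h4 := Fermat.Agent.S24.DiffPlace.ord_nonneg_of_mem Q (h2 hb)
  rw [Place.ord_inv] at h4
  omega

include h𝔫 hPinf hx hc ha hxy hxinf in
/-- `ord_Q(ρ x) ≥ 1`. -/
theorem h44sl_ord_x_pos (Q : Place (h13sK A) (h13sFt A M))
    (hQ : H85wAt hp hM hA (h62i_mem_soft A M hp hM hA) Q 𝔫) :
    0 < Q.ord (h85wRho hp hM hA (h62i_mem_soft A M hp hM hA) x) := by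
  have hx0 := h44sl_rho_x_ne_zero hp hM hA 𝔫 x y c hc a ha hxy hxinf
  have h1 : (h85wRho hp hM hA (h62i_mem_soft A M hp hM hA) x)⁻¹ ∉ Q.toValuationSubring := by
    intro hmem
    obtain ⟨a', b', hb', he⟩ := (hQ _).mp hmem
    have h2 : h85wRho hp hM hA (h62i_mem_soft A M hp hM hA) (b' - x * a') = 0 := by
      rw [map_sub, map_mul, ← he]
      field_simp
      ring
    have h3 : b' - x * a' ∈ 𝔫 := hPinf ((h85w_ker_fin A M hp hM hA _).mp h2)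
    have h4 : b' ∈ 𝔫 := by
      have h5 := 𝔫.add_mem h3 (𝔫.mul_mem_right a' hx)
      rwa [sub_add_cancel] at h5
    exact hb' h4
  have h2 := (h85f_not_mem_iff_ord Q).mp h1
  rw [Place.ord_inv] at h2
  omega

include h𝔫 hPinf hx hc ha hxy hprin hxinf in
/-- **the node coordinate `x` is a uniformiser of the place at the node**:
`ord_Q(ρ x) = 1`. -/
theorem h44sl_ord_rho_x (Q : Place (h13sK A) (h13sFt A M))
    (hQ : H85wAt hp hM hA (h62i_mem_soft A M hp hM hA) Q 𝔫) :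
    Q.ord (h85wRho hp hM hA (h62i_mem_soft A M hp hM hA) x) = 1 := by
  have hx0 := h44sl_rho_x_ne_zero hp hM hA 𝔫 x y c hc a ha hxy hxinf
  have hpos := h44sl_ord_x_pos hp hM hA 𝔫 h𝔫 hPinf x y c hx hc a ha hxy hxinf Q hQ
  have hy0 := h44sl_rho_y hp hM hA 𝔫 h𝔫 x y c hx hc a ha hxy hxinf
  obtain ⟨π, hπ0, hπ⟩ := Fermat.Agent.S24.OrbitPlaces.exists_ord_eq_one Q
  have hπm : π ∈ Q.toValuationSubring :=
    Fermat.Agent.S24.DiffPlace.mem_of_ord_nonneg Q (by rw [hπ]; norm_num)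
  obtain ⟨a', b', hb', he⟩ := (hQ _).mp hπm
  obtain ⟨hb0, hbo⟩ := (h44sl_rho_unit hp hM hA 𝔫 h𝔫 hPinf Q hQ b').2 hb'
  have ha'0 : h85wRho hp hM hA (h62i_mem_soft A M hp hM hA) a' ≠ 0 := by
    rw [← he]
    exact mul_ne_zero hπ0 hb0
  have ha'o : Q.ord (h85wRho hp hM hA (h62i_mem_soft A M hp hM hA) a') = 1 := by
    rw [← he, Q.ord_mul hπ0 hb0, hπ, hbo, add_zero]
  have ha'𝔫 : a' ∈ 𝔫 := by
    by_contra hna
    have h1 := ((h44sl_rho_unit hp hM hA 𝔫 h𝔫 hPinf Q hQ a').2 hna).2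
    rw [ha'o] at h1
    exact one_ne_zero h1
  obtain ⟨s, hs, hsa⟩ := hprin a' ha'𝔫
  obtain ⟨hs0, hso⟩ := (h44sl_rho_unit hp hM hA 𝔫 h𝔫 hPinf Q hQ s).2 hs
  obtain ⟨u, hu, μ, hμ, huμ⟩ := Submodule.mem_sup.mp hsa
  obtain ⟨c₁, c₂, hc12⟩ := Ideal.mem_span_pair.mp hu
  have hμ0 : h85wRho hp hM hA (h62i_mem_soft A M hp hM hA) μ = 0 :=
    (h85w_ker_fin A M hp hM hA μ).mpr (h62i_m_le_Pinf A M hp hM hA hμ)
  have h1 : h85wRho hp hM hA (h62i_mem_soft A M hp hM hA) s *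
      h85wRho hp hM hA (h62i_mem_soft A M hp hM hA) a' =
      h85wRho hp hM hA (h62i_mem_soft A M hp hM hA) c₁ *
        h85wRho hp hM hA (h62i_mem_soft A M hp hM hA) x := by
    rw [← map_mul, ← huμ, ← hc12, map_add, map_add, map_mul, map_mul, hy0, hμ0, mul_zero,
      add_zero, add_zero]
  have hc10 : h85wRho hp hM hA (h62i_mem_soft A M hp hM hA) c₁ ≠ 0 := by
    intro h0
    rw [h0, zero_mul] at h1
    exact mul_ne_zero hs0 ha'0 h1
  have h2 := congrArg Q.ord h1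
  rw [Q.ord_mul hs0 ha'0, Q.ord_mul hc10 hx0, hso, ha'o] at h2
  have h3 := (h44sl_rho_unit hp hM hA 𝔫 h𝔫 hPinf Q hQ c₁).1
  omega

include h𝔫 hPinf hx hc ha hxy hprin hxinf in
/-- **`ord_Q(x̄) = 1`** in the vocabulary of the slope. -/
theorem h44sl_ord_x (Q : Place (h13sK A) (h13sFt A M))
    (hQ : H85wAt hp hM hA (h62i_mem_soft A M hp hM hA) Q 𝔫) :
    h44slOrd A M p (x : FF (M * p)) Q = 1 := by
  have hx0 := h44sl_node_x_ne_zero 𝔫 x y c hc a ha hxy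
  have hred : H44slRed A M p (x : FF (M * p))
      (h85wRho hp hM hA (h62i_mem_soft A M hp hM hA) x) :=
    h44sl_red_of_unit (h62i_mem_soft A M hp hM hA x) hxinf hx0 rfl
  rw [h44sl_ord_eq hred]
  exact h44sl_ord_rho_x hp hM hA 𝔫 h𝔫 hPinf x y c hx hc a ha hxy hprin hxinf Q hQ

include h𝔫 hPinf in
/-- a place at `𝔫` is centred at `𝔫`. -/
theorem h44sl_centred_of_at (Q : Place (h13sK A) (h13sFt A M))
    (hQ : H85wAt hp hM hA (h62i_mem_soft A M hp hM hA) Q 𝔫) : H85wCentred A M p Q 𝔫 := by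
  intro b hb
  have hker : ∀ b : chart (M * p) A (jSS M p),
      h85wRho hp hM hA (h62i_mem_soft A M hp hM hA) b = 0 → b ∈ 𝔫 :=
    fun b hb => hPinf ((h85w_ker_fin A M hp hM hA b).mp hb)
  obtain ⟨h1, h2⟩ := h85w_at_unit hp hM hA (h62i_mem_soft A M hp hM hA) Q 𝔫 h𝔫.isPrime hker
    hQ b
  exact ⟨h85wRho hp hM hA (h62i_mem_soft A M hp hM hA) b, rfl, h1, h2⟩

end Node

section Main

variable (hp : p.Prime) (hM : ¬ p ∣ M) (hA : A.LiesOverPrime p)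
  (𝔫 : Ideal (chart (M * p) A (jSS M p))) (h𝔫 : 𝔫.IsMaximal)
  (hboth : TorOnBoth A M p hp hM hA (jSS M p) 𝔫)
  (x y c : chart (M * p) A (jSS M p)) (hx : x ∈ 𝔫) (hy : y ∈ 𝔫) (hc : c ∉ 𝔫)
  (a : A) (ha : a ≠ 0)
  (hxy : x * y = algebraMap A (chart (M * p) A (jSS M p)) a * c)
  (hprin : ∀ z ∈ 𝔫, ∃ s, s ∉ 𝔫 ∧ s * z ∈ Ideal.span {x, y} ⊔ mExt A M p (jSS M p))
  (hxinf : ((x : FF (M * p)))⁻¹ ∈ h85cWinf A M p hp hA)
  (Q : Place (h13sK A) (h13sFt A M))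
  (hQ : H85wAt hp hM hA (h62i_mem_soft A M hp hM hA) Q 𝔫)

include h𝔫 hboth hx hc ha hxy hprin hxinf hQ in
/-- **the place `Q` at the node `𝔫` sits at the node** (`H44slAt`, `P7/H44SlopeNF.lean`). -/
theorem h44sl_at_of_at : H44slAt A M p 𝔫 (x : FF (M * p)) Q := by
  have hPinf := h44sl_Pinf_le hp hM hA 𝔫 hboth
  refine ⟨h44sl_ord_x hp hM hA 𝔫 h𝔫 hPinf x y c hx hc a ha hxy hprin hxinf Q hQ, ?_⟩
  intro ε hε hεi hεc
  exact h44sl_unit_ord hp hM hA 𝔫 h𝔫 hboth Q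
    (h44sl_centred_of_at hp hM hA 𝔫 h𝔫 hPinf Q hQ) hε hεi hεc

include h𝔫 hboth hx hc ha hxy hprin hxinf hQ in
/-- **the slope through the node chart IS the slope at the place**: for EVERY normal form
`u = κ x ^ m ε g₁ ^ p`, `g₁ = x ^ s ε∞` at the node: `ord_Q(ū) = m + p s` and
`m_Q(u) = m mod p`. -/
theorem h44sl_slope_eq {u κ ε g₁ εinf : FF (M * p)} {m s : ℤ} {π : A}
    (hπ : π ∈ maximalIdeal A) (hκ : h13x_IsConst A κ) (hu0 : u ≠ 0)
    (hu : u = κ * (x : FF (M * p)) ^ m * ε * g₁ ^ p)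
    (hε : ε ∈ ssV A M p) (hεi : ε⁻¹ ∈ ssV A M p)
    (hεc : ∀ k, h26Centered (chart (M * p) A (jSS M p)) (chartVal (M * p) (jSS M p)) 𝔫 k →
      chartVal (M * p) (jSS M p) k ε = 1)
    (hg : g₁ = (x : FF (M * p)) ^ s * εinf) (hεinf : εinf ∈ h26U π (softV A (M * p))) :
    h44slOrd A M p u Q = m + p * s ∧ h44slSlope A M p u Q = (m : ZMod p) := by
  have hPinf := h44sl_Pinf_le hp hM hA 𝔫 hboth
  have hx0 := h44sl_node_x_ne_zero 𝔫 x y c hc a ha hxy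
  have h1 : h44slOrd A M p u Q = m + p * s := by
    rw [h44sl_ord_node hp hM hA 𝔫 h𝔫 hboth Q (h44sl_centred_of_at hp hM hA 𝔫 h𝔫 hPinf Q hQ)
      hπ hκ hx0 hu0 hu hε hεi hεc hg hεinf,
      h44sl_ord_x hp hM hA 𝔫 h𝔫 hPinf x y c hx hc a ha hxy hprin hxinf Q hQ, mul_one]
  refine ⟨h1, ?_⟩
  unfold h44slSlope
  rw [h1, Int.cast_add, Int.cast_mul, Int.cast_natCast, ZMod.natCast_self, zero_mul, add_zero]

include h𝔫 hboth hx hc ha hxy hprin hxinf hQ in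
/-- **the exponent `m` of a normal form at a node is well defined modulo `p`.** -/
theorem h44sl_slope_unique {u κ ε g₁ εinf κ' ε' g₁' εinf' : FF (M * p)} {m s m' s' : ℤ}
    {π π' : A}
    (hπ : π ∈ maximalIdeal A) (hκ : h13x_IsConst A κ) (hu0 : u ≠ 0)
    (hu : u = κ * (x : FF (M * p)) ^ m * ε * g₁ ^ p)
    (hε : ε ∈ ssV A M p) (hεi : ε⁻¹ ∈ ssV A M p)
    (hεc : ∀ k, h26Centered (chart (M * p) A (jSS M p)) (chartVal (M * p) (jSS M p)) 𝔫 k →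
      chartVal (M * p) (jSS M p) k ε = 1)
    (hg : g₁ = (x : FF (M * p)) ^ s * εinf) (hεinf : εinf ∈ h26U π (softV A (M * p)))
    (hπ' : π' ∈ maximalIdeal A) (hκ' : h13x_IsConst A κ')
    (hu' : u = κ' * (x : FF (M * p)) ^ m' * ε' * g₁' ^ p)
    (hε' : ε' ∈ ssV A M p) (hεi' : ε'⁻¹ ∈ ssV A M p)
    (hεc' : ∀ k, h26Centered (chart (M * p) A (jSS M p)) (chartVal (M * p) (jSS M p)) 𝔫 k →
      chartVal (M * p) (jSS M p) k ε' = 1)
    (hg' : g₁' = (x : FF (M * p)) ^ s' * εinf')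
    (hεinf' : εinf' ∈ h26U π' (softV A (M * p))) :
    (p : ℤ) ∣ m - m' := by
  have h1 := (h44sl_slope_eq hp hM hA 𝔫 h𝔫 hboth x y c hx hc a ha hxy hprin hxinf Q hQ
    hπ hκ hu0 hu hε hεi hεc hg hεinf).1
  have h2 := (h44sl_slope_eq hp hM hA 𝔫 h𝔫 hboth x y c hx hc a ha hxy hprin hxinf Q hQ
    hπ' hκ' hu0 hu' hε' hεi' hεc' hg' hεinf').1
  rw [h1] at h2
  exact ⟨s' - s, by linarith⟩

end Main

section Exists

variable (hp : p.Prime) (hM : ¬ p ∣ M) (haux : auxLevel p ∣ M) (hA : A.LiesOverPrime p)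

include haux in
/-- **the slope at a node, existence form** (good levels): at every node `𝔫` with coordinates
`x y = a c` there is a place `Q` of the special fibre at `𝔫` (`H85wAt`), `ord_Q(x̄) = 1`, and
every `u ≠ 0` with `p ∣ div u` has a normal form (helper90) with `ord_Q(ū) = m + p s`,
`m_Q(u) = m mod p`. -/
theorem h44sl_node_slope
    (𝔫 : Ideal (chart (M * p) A (jSS M p))) (h𝔫 : 𝔫.IsMaximal)
    (hle : mExt A M p (jSS M p) ≤ 𝔫)
    (hboth : TorOnBoth A M p hp hM hA (jSS M p) 𝔫)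
    (x y c : chart (M * p) A (jSS M p)) (hx : x ∈ 𝔫) (hy : y ∈ 𝔫) (hc : c ∉ 𝔫)
    (a : A) (ha : a ≠ 0)
    (hxy : x * y = algebraMap A (chart (M * p) A (jSS M p)) a * c)
    (hprin : ∀ z ∈ 𝔫, ∃ s, s ∉ 𝔫 ∧ s * z ∈ Ideal.span {x, y} ⊔ mExt A M p (jSS M p))
    (hxinf : ((x : FF (M * p)))⁻¹ ∈ h85cWinf A M p hp hA)
    (hy0 : ((y : FF (M * p)))⁻¹ ∈ h85cW0 A M p hp hM hA) :
    ∃ Q : Place (h13sK A) (h13sFt A M),
      H85wAt hp hM hA (h62i_mem_soft A M hp hM hA) Q 𝔫 ∧ H85wCentred A M p Q 𝔫 ∧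
      H44slAt A M p 𝔫 (x : FF (M * p)) Q ∧
      ∀ u : FF (M * p), u ≠ 0 → (∀ v : Place Kbar (FF (M * p)), (p : ℤ) ∣ v.ord u) →
        ∃ (m s : ℤ) (κ α g₁ ε εinf ε0 : FF (M * p)) (π : A),
          π ∈ maximalIdeal A ∧ π ≠ 0 ∧
          h13x_IsConst A κ ∧ κ ≠ 0 ∧ h13x_IsConst A α ∧ α ≠ 0 ∧
          u = κ * (x : FF (M * p)) ^ m * ε * g₁ ^ p ∧
          ε ∈ ssV A M p ∧ ε⁻¹ ∈ ssV A M p ∧
          g₁ = (x : FF (M * p)) ^ s * εinf ∧
          εinf ∈ h26U π (h85cWinf A M p hp hA).toSubring ∧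
          g₁ = α * ε0 ∧ ε0 ∈ h26U π (h85cW0 A M p hp hM hA).toSubring ∧
          h44slOrd A M p u Q = m + p * s ∧
          h44slSlope A M p u Q = (m : ZMod p) := by
  have hPinf := h44sl_Pinf_le hp hM hA 𝔫 hboth
  obtain ⟨Q, hQ, hQc⟩ := h85w_exists_place_fin A M hp hM haux hA 𝔫 h𝔫 hPinf
  have hat := h44sl_at_of_at hp hM hA 𝔫 h𝔫 hboth x y c hx hc a ha hxy hprin hxinf Q hQ
  exact ⟨Q, hQ, hQc, hat, fun u hu hord =>
    h44sl_slope_node hp hM hA 𝔫 h𝔫 hle hboth x y c hx hy hc a ha hxy hprin hxinf hy0 Q hat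
      u hu hord⟩

end Exists

end Fermat.Agent.P7
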