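import Fermat.Agent.P7.H27EisTopPow
import Fermat.Agent.P7.H19EigenSlope
import Fermat.Agent.P7.H44SlopeUnif
import Fermat.Agent.P7.H57NormLevel

/-!
# P7 (wave 7, row 38), block T-TORIC, row T-EIS: the eigen-relation `hm` and the assembly at a
supersingular place (helper5)

`p ∤ M` a prime, `A` over `p`, `𝔫` a node of the finite chart of level `M p` with coordinates
`x y = p c`, `Q` the place of the special fibre `kC` at `𝔫` (`H85wAt`, helper85).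

* `H5eNodeData A M hp hM hA 𝔫 x u m α₀` : an explicit normal form
  `u = κ₀ x ^ m ε g₁ ^ p`, `g₁ = x ^ s ε∞ = α₀ ε₀`, **with** the clause "the unit `ε` of `ssV`
  has no zeros and poles centred at `𝔫`" (the clause which `H50tNodeForm` forgets and which
  the slope calculus of helper44 needs).
* `h5e_nodeForm` : node data give `H50tNodeForm` (helper50), the input of `h27g_eis_top*`.
* `h5e_slope` : node data compute the slope: `ord_Q(ū) = m + p s`, `m_Q(u) = m mod p`.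
* `h5e_hm` : **the eigen-relation**: node data of `u` and of `T_ℓ u` at the same node,
  `u` a Kummer representative of `x₀`, `T_ℓ x₀ = c x₀` `⟹ p ∣ m' - c m`.
* `h5e_ss_qq`, `h5e_ss_pow`, `h5e_ss_lin` : **T-EIS at a supersingular place**: with BREAK
  (helper23) and the EXPORT of (5b) (in the three shapes of helper27's tops) and
  `p ∤ ℓ + 1 - c` : `p ∣ ord_Q(ū)`.

Nothing is assumed: every statement is proved.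
-/

set_option autoImplicit false
set_option linter.style.haveILetI false
set_option linter.style.longLine false
set_option linter.unusedSectionVars false
set_option linter.unusedVariables false
set_option synthInstance.maxHeartbeats 400000

open AlgebraicCurve ModularCurve IsLocalRing

noncomputable section

namespace Fermat.Agent.P7

open Fermat.Agent.S37 Fermat.Agent.Red Fermat.Agent.Red.GG Fermat.Agent.Red.GV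
  Fermat.Agent.Red.GV.Soft Fermat.Agent.LGC Fermat.Agent.P5 Fermat.Agent.S35 Fermat.Agent.P6
  Fermat.Agent.Red.Kron Fermat.Agent.Red.ModelO
open Fermat.Agent.Jac.K1 (IsKummerPair)

variable {A : ValuationSubring Kbar} {M p : ℕ} [NeZero M] [NeZero p]

/-- **explicit node data**: a normal form `u = κ₀ x ^ m ε g₁ ^ p`, `g₁ = x ^ s ε∞ = α₀ ε₀` at the
node `𝔫` with coordinate `x`, where the unit `ε` of `ssV` has no zeros and poles centred at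
`𝔫`. -/
def H5eNodeData (A : ValuationSubring Kbar) (M : ℕ) {p : ℕ} [NeZero M] [NeZero p]
    (hp : p.Prime) (hM : ¬ p ∣ M) (hA : A.LiesOverPrime p)
    (𝔫 : Ideal (chart (M * p) A (jSS M p))) (x u : FF (M * p)) (m : ℤ) (α₀ : Kbar) : Prop :=
  ∃ (s : ℤ) (κ₀ : Kbar) (g₁ ε εinf ε0 : FF (M * p)) (π : A),
    π ∈ maximalIdeal A ∧ κ₀ ≠ 0 ∧ α₀ ≠ 0 ∧
    u = cst (M * p) κ₀ * x ^ m * ε * g₁ ^ p ∧
    ε ∈ ssV A M p ∧ ε⁻¹ ∈ ssV A M p ∧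
    (∀ k, h26Centered (chart (M * p) A (jSS M p)) (chartVal (M * p) (jSS M p)) 𝔫 k →
      chartVal (M * p) (jSS M p) k ε = 1) ∧
    g₁ = x ^ s * εinf ∧ εinf ∈ h26U π (h85cWinf A M p hp hA).toSubring ∧
    g₁ = cst (M * p) α₀ * ε0 ∧ ε0 ∈ h26U π (h85cW0 A M p hp hM hA).toSubring

section Node

variable (hp : p.Prime) (hM : ¬ p ∣ M) (hA : A.LiesOverPrime p)
  (𝔫 : Ideal (chart (M * p) A (jSS M p))) (h𝔫 : 𝔫.IsMaximal)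
  (hboth : TorOnBoth A M p hp hM hA (jSS M p) 𝔫)
  (x y c : chart (M * p) A (jSS M p)) (hx : x ∈ 𝔫) (hy : y ∈ 𝔫) (hc : c ∉ 𝔫)
  (hxy : x * y = algebraMap A (chart (M * p) A (jSS M p)) ((p : ℕ) : A) * c)
  (hprin : ∀ z ∈ 𝔫, ∃ s, s ∉ 𝔫 ∧ s * z ∈ Ideal.span {x, y} ⊔ mExt A M p (jSS M p))
  (hxinf : ((x : FF (M * p)))⁻¹ ∈ h85cWinf A M p hp hA)
  (hy0 : ((y : FF (M * p)))⁻¹ ∈ h85cW0 A M p hp hM hA)
  (Q : Place (h13sK A) (h13sFt A M))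
  (hQ : H85wAt hp hM hA (h62i_mem_soft A M hp hM hA) Q 𝔫)

include hboth hc hxy hxinf hy0 in
/-- node data give the node form of helper50. -/
theorem h5e_nodeForm {u : FF (M * p)} {m : ℤ} {α₀ : Kbar}
    (h : H5eNodeData A M hp hM hA 𝔫 (x : FF (M * p)) u m α₀) :
    H50tNodeForm A M hp hM hA 𝔫 u p m α₀ := by
  obtain ⟨s, κ₀, g₁, ε, εinf, ε0, π, hπ, hκ, hα, hu, hε, hεi, -, hg, hεinf, hg', hε0⟩ := h
  exact ⟨hboth, x, y, c, hc, hxy, hxinf, hy0, s, κ₀, g₁, ε, εinf, ε0, π, hπ, hκ, hα, hu, hε,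
    hεi, hg, hεinf, hg', hε0⟩

include h𝔫 hboth hx hc hxy hprin hxinf hQ in
/-- **node data compute the slope**: `ord_Q(ū) ≡ m mod p`. -/
theorem h5e_slope {u : FF (M * p)} (hu0 : u ≠ 0) {m : ℤ} {α₀ : Kbar}
    (h : H5eNodeData A M hp hM hA 𝔫 (x : FF (M * p)) u m α₀) :
    (∃ s : ℤ, h44slOrd A M p u Q = m + p * s) ∧ h44slSlope A M p u Q = (m : ZMod p) := by
  obtain ⟨s, κ₀, g₁, ε, εinf, ε0, π, hπ, hκ, hα, hu, hε, hεi, hεc, hg, hεinf, hg', hε0⟩ := h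
  have hεinf' : εinf ∈ h26U π (softV A (M * p)) := hεinf
  have h1 := h44sl_slope_eq hp hM hA 𝔫 h𝔫 hboth x y c hx hc ((p : ℕ) : A)
    (h20n_natCast_ne_zero A p) hxy hprin hxinf Q hQ hπ (h90s_isConst_cst A (M * p) κ₀) hu0 hu
    hε hεi hεc hg hεinf'
  exact ⟨⟨s, h1.1⟩, h1.2⟩

include h𝔫 hboth hx hc hxy hprin hxinf hQ in
/-- **the eigen-relation `hm`**: if `u` is a Kummer representative of `x₀` and
`T_ℓ x₀ = c x₀`, the exponents of node data of `u` and of `T_ℓ u` at the same node satisfy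
`p ∣ m' - c m`. -/
theorem h5e_hm {ℓ : ℕ} (hℓ : ℓ.Prime) {x₀ : JZero (M * p)} {u : FF (M * p)}
    (hu : IsKummerPair p x₀ u) (c₀ : ℤ)
    (hc₀ : heckeOperatorBar (M * p) ⟨ℓ, hℓ⟩ x₀ = c₀ • x₀)
    {m m' : ℤ} {α₀ α₀' : Kbar}
    (h : H5eNodeData A M hp hM hA 𝔫 (x : FF (M * p)) u m α₀)
    (h' : haveI : NeZero ℓ := ⟨hℓ.ne_zero⟩
      H5eNodeData A M hp hM hA 𝔫 (x : FF (M * p)) (h57rT (M * p) ℓ u) m' α₀') :
    (p : ℤ) ∣ m' - c₀ * m := by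
  haveI : NeZero ℓ := ⟨hℓ.ne_zero⟩
  have hT : IsKummerPair p (heckeOperatorBar (M * p) ⟨ℓ, hℓ⟩ x₀) (h57rT (M * p) ℓ u) :=
    h57l_kummer_T (M * p) ⟨ℓ, hℓ⟩ hu
  have h1 := (h5e_slope hp hM hA 𝔫 h𝔫 hboth x y c hx hc hxy hprin hxinf Q hQ hu.1 h).2
  have h2 := (h5e_slope hp hM hA 𝔫 h𝔫 hboth x y c hx hc hxy hprin hxinf Q hQ hT.1 h').2
  have h3 : h44slSlope A M p (h57rT (M * p) ℓ u) Q = (c₀ : ZMod p) * h44slSlope A M p u Q :=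
    h19es_slope_T hp hM hA hℓ hu c₀ hc₀ Q
  rw [h1, h2] at h3
  have h4 : ((m' - c₀ * m : ℤ) : ZMod p) = 0 := by
    rw [Int.cast_sub, Int.cast_mul, h3, sub_self]
  exact (ZMod.intCast_zmod_eq_zero_iff_dvd _ p).1 h4

include h𝔫 hboth hx hc hxy hprin hxinf hy0 hQ in
/-- **T-EIS at a supersingular place, core form**: BREAK, node data of `u` and of `T_ℓ u` with
`I_β`-fixed constants, `Q(α₀') ≡ (ℓ + 1) Q(α₀)`, `T_ℓ x₀ = c x₀` with `p ∤ ℓ + 1 - c`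
`⟹ p ∣ ord_Q(ū)`. -/
theorem h5e_ss_qq {ℓ : ℕ} (hℓ : ℓ.Prime) (hℓN : ¬ ℓ ∣ M * p)
    {ζ β : Kbar} {b : GQ} {δ : Kbar} (hB : H23wBreak p A ζ β b δ)
    {x₀ : JZero (M * p)} {u : FF (M * p)}
    (hu : IsKummerPair p x₀ u) (c₀ : ℤ)
    (hc₀ : heckeOperatorBar (M * p) ⟨ℓ, hℓ⟩ x₀ = c₀ • x₀)
    (hne : ¬ (p : ℤ) ∣ (ℓ : ℤ) + 1 - c₀)
    {m m' : ℤ} {α₀ α₀' : Kbar}
    (h : H5eNodeData A M hp hM hA 𝔫 (x : FF (M * p)) u m α₀)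
    (h' : haveI : NeZero ℓ := ⟨hℓ.ne_zero⟩
      H5eNodeData A M hp hM hA 𝔫 (x : FF (M * p)) (h57rT (M * p) ℓ u) m' α₀')
    (hfix : ∀ a ∈ h23vI1 p A, a β = β → a α₀ = α₀)
    (hfix' : ∀ a ∈ h23vI1 p A, a β = β → a α₀' = α₀')
    (hqq : h27gQ b δ α₀' - ((ℓ + 1 : ℕ) : Kbar) * h27gQ b δ α₀ ∈ A.nonunits) :
    (p : ℤ) ∣ h44slOrd A M p u Q := by
  haveI : NeZero ℓ := ⟨hℓ.ne_zero⟩
  have hm := h5e_hm hp hM hA 𝔫 h𝔫 hboth x y c hx hc hxy hprin hxinf Q hQ hℓ hu c₀ hc₀ h h'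
  have hN := h5e_nodeForm hp hM hA 𝔫 hboth x y c hc hxy hxinf hy0 h
  have hN' := h5e_nodeForm hp hM hA 𝔫 hboth x y c hc hxy hxinf hy0 h'
  have hpm : (p : ℤ) ∣ m :=
    h27g_eis_top_qq A M ℓ hp hM hA hℓ hℓN hB hu.1 hN hN' hfix hfix' hqq hm hne
  obtain ⟨s, hs⟩ := (h5e_slope hp hM hA 𝔫 h𝔫 hboth x y c hx hc hxy hprin hxinf Q hQ hu.1 h).1
  rw [hs]
  exact dvd_add hpm (dvd_mul_right _ _)

end Node

/-! ### The EXPORT of (5b), packaged -/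

/-- **the EXPORT of (5b) for `u`** at depth `D₀`, `p`-th power shape (helper27): a presentation
`b(u) / u = a₀ (1 + D₀ F)`, `F ≡ f₁` on `W_∞`, `F ≡ f₀` on `W_0`, and
`f₀ - f₁ ≡ Q(α₀) ^ p mod 𝔪_A`, `Q(α₀) = (b α₀ / α₀ - 1) / δ`. -/
def H5eExport (A : ValuationSubring Kbar) (M : ℕ) {p : ℕ} [NeZero M] [NeZero p]
    (hp : p.Prime) (hM : ¬ p ∣ M) (b : GQ) (δ D₀ : Kbar) (u : FF (M * p)) (α₀ : Kbar) : Prop :=
  ∃ (a₀ f₁ f₀ : Kbar) (F : FF (M * p)), f₁ ∈ A ∧ f₀ ∈ A ∧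
    h27eCong A (M * p) F f₁ ∧ h27eCong A (M * p) (kFricke M p hp hM F) f₀ ∧
    (gal (M * p) b • u) / u = cst (M * p) a₀ * (1 + cst (M * p) D₀ * F) ∧
    (f₀ - f₁) - h27gQ b δ α₀ ^ p ∈ A.nonunits

/-- the same with the linear relation `f₀ - f₁ ≡ Q(α₀) mod 𝔪_A`. -/
def H5eExportLin (A : ValuationSubring Kbar) (M : ℕ) {p : ℕ} [NeZero M] [NeZero p]
    (hp : p.Prime) (hM : ¬ p ∣ M) (b : GQ) (δ D₀ : Kbar) (u : FF (M * p)) (α₀ : Kbar) : Prop :=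
  ∃ (a₀ f₁ f₀ : Kbar) (F : FF (M * p)), f₁ ∈ A ∧ f₀ ∈ A ∧
    h27eCong A (M * p) F f₁ ∧ h27eCong A (M * p) (kFricke M p hp hM F) f₀ ∧
    (gal (M * p) b • u) / u = cst (M * p) a₀ * (1 + cst (M * p) D₀ * F) ∧
    (f₀ - f₁) - h27gQ b δ α₀ ∈ A.nonunits

section NodeExport

variable (hp : p.Prime) (hM : ¬ p ∣ M) (hA : A.LiesOverPrime p)
  (𝔫 : Ideal (chart (M * p) A (jSS M p))) (h𝔫 : 𝔫.IsMaximal)
  (hboth : TorOnBoth A M p hp hM hA (jSS M p) 𝔫)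
  (x y c : chart (M * p) A (jSS M p)) (hx : x ∈ 𝔫) (hy : y ∈ 𝔫) (hc : c ∉ 𝔫)
  (hxy : x * y = algebraMap A (chart (M * p) A (jSS M p)) ((p : ℕ) : A) * c)
  (hprin : ∀ z ∈ 𝔫, ∃ s, s ∉ 𝔫 ∧ s * z ∈ Ideal.span {x, y} ⊔ mExt A M p (jSS M p))
  (hxinf : ((x : FF (M * p)))⁻¹ ∈ h85cWinf A M p hp hA)
  (hy0 : ((y : FF (M * p)))⁻¹ ∈ h85cW0 A M p hp hM hA)
  (Q : Place (h13sK A) (h13sFt A M))
  (hQ : H85wAt hp hM hA (h62i_mem_soft A M hp hM hA) Q 𝔫)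

include h𝔫 hboth hx hc hxy hprin hxinf hy0 hQ in
/-- **T-EIS at a supersingular place, `p`-th power EXPORT.** -/
theorem h5e_ss_pow {ℓ : ℕ} (hℓ : ℓ.Prime) (hℓN : ¬ ℓ ∣ M * p)
    {ζ β : Kbar} {b : GQ} {δ : Kbar} (hB : H23wBreak p A ζ β b δ)
    {x₀ : JZero (M * p)} {u : FF (M * p)}
    (hu : IsKummerPair p x₀ u) (c₀ : ℤ)
    (hc₀ : heckeOperatorBar (M * p) ⟨ℓ, hℓ⟩ x₀ = c₀ • x₀)
    (hne : ¬ (p : ℤ) ∣ (ℓ : ℤ) + 1 - c₀)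
    {m m' : ℤ} {α₀ α₀' : Kbar}
    (h : H5eNodeData A M hp hM hA 𝔫 (x : FF (M * p)) u m α₀)
    (h' : haveI : NeZero ℓ := ⟨hℓ.ne_zero⟩
      H5eNodeData A M hp hM hA 𝔫 (x : FF (M * p)) (h57rT (M * p) ℓ u) m' α₀')
    (hfix : ∀ a ∈ h23vI1 p A, a β = β → a α₀ = α₀)
    (hfix' : ∀ a ∈ h23vI1 p A, a β = β → a α₀' = α₀')
    {D₀ : Kbar} (hD₀ : D₀ ∈ A.nonunits) (hD₀0 : D₀ ≠ 0)
    (hE : H5eExport A M hp hM b δ D₀ u α₀)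
    (hE' : haveI : NeZero ℓ := ⟨hℓ.ne_zero⟩
      H5eExport A M hp hM b δ D₀ (h57rT (M * p) ℓ u) α₀') :
    (p : ℤ) ∣ h44slOrd A M p u Q := by
  haveI : NeZero ℓ := ⟨hℓ.ne_zero⟩
  obtain ⟨a₀, f₁, f₀, F, hf₁, hf₀, hF₁, hF₀, hw, hΨ⟩ := hE
  obtain ⟨a₀', f₁', f₀', F', hf₁', hf₀', hF₁', hF₀', hw', hΨ'⟩ := hE'
  have hm := h5e_hm hp hM hA 𝔫 h𝔫 hboth x y c hx hc hxy hprin hxinf Q hQ hℓ hu c₀ hc₀ h h'
  have hN := h5e_nodeForm hp hM hA 𝔫 hboth x y c hc hxy hxinf hy0 h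
  have hN' := h5e_nodeForm hp hM hA 𝔫 hboth x y c hc hxy hxinf hy0 h'
  have hpm : (p : ℤ) ∣ m :=
    h27g_eis_top_pow A M ℓ hp hM hA hℓ hℓN hB hu.1 hN hN' hfix hfix' D₀ hD₀ hD₀0 a₀ a₀'
      f₁ f₀ f₁' f₀' hf₁ hf₀ hf₁' hf₀' F F' hF₁ hF₀ hF₁' hF₀' hw hw' hΨ hΨ' hm hne
  obtain ⟨s, hs⟩ := (h5e_slope hp hM hA 𝔫 h𝔫 hboth x y c hx hc hxy hprin hxinf Q hQ hu.1 h).1
  rw [hs]
  exact dvd_add hpm (dvd_mul_right _ _)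

include h𝔫 hboth hx hc hxy hprin hxinf hy0 hQ in
/-- **T-EIS at a supersingular place, linear EXPORT.** -/
theorem h5e_ss_lin {ℓ : ℕ} (hℓ : ℓ.Prime) (hℓN : ¬ ℓ ∣ M * p)
    {ζ β : Kbar} {b : GQ} {δ : Kbar} (hB : H23wBreak p A ζ β b δ)
    {x₀ : JZero (M * p)} {u : FF (M * p)}
    (hu : IsKummerPair p x₀ u) (c₀ : ℤ)
    (hc₀ : heckeOperatorBar (M * p) ⟨ℓ, hℓ⟩ x₀ = c₀ • x₀)
    (hne : ¬ (p : ℤ) ∣ (ℓ : ℤ) + 1 - c₀)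
    {m m' : ℤ} {α₀ α₀' : Kbar}
    (h : H5eNodeData A M hp hM hA 𝔫 (x : FF (M * p)) u m α₀)
    (h' : haveI : NeZero ℓ := ⟨hℓ.ne_zero⟩
      H5eNodeData A M hp hM hA 𝔫 (x : FF (M * p)) (h57rT (M * p) ℓ u) m' α₀')
    (hfix : ∀ a ∈ h23vI1 p A, a β = β → a α₀ = α₀)
    (hfix' : ∀ a ∈ h23vI1 p A, a β = β → a α₀' = α₀')
    {D₀ : Kbar} (hD₀ : D₀ ∈ A.nonunits) (hD₀0 : D₀ ≠ 0)
    (hE : H5eExportLin A M hp hM b δ D₀ u α₀)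
    (hE' : haveI : NeZero ℓ := ⟨hℓ.ne_zero⟩
      H5eExportLin A M hp hM b δ D₀ (h57rT (M * p) ℓ u) α₀') :
    (p : ℤ) ∣ h44slOrd A M p u Q := by
  haveI : NeZero ℓ := ⟨hℓ.ne_zero⟩
  obtain ⟨a₀, f₁, f₀, F, hf₁, hf₀, hF₁, hF₀, hw, hΨ⟩ := hE
  obtain ⟨a₀', f₁', f₀', F', hf₁', hf₀', hF₁', hF₀', hw', hΨ'⟩ := hE'
  have hm := h5e_hm hp hM hA 𝔫 h𝔫 hboth x y c hx hc hxy hprin hxinf Q hQ hℓ hu c₀ hc₀ h h'
  have hN := h5e_nodeForm hp hM hA 𝔫 hboth x y c hc hxy hxinf hy0 h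
  have hN' := h5e_nodeForm hp hM hA 𝔫 hboth x y c hc hxy hxinf hy0 h'
  have hpm : (p : ℤ) ∣ m :=
    h27g_eis_top A M ℓ hp hM hA hℓ hℓN hB hu.1 hN hN' hfix hfix' D₀ hD₀ hD₀0 a₀ a₀'
      f₁ f₀ f₁' f₀' hf₁ hf₀ hf₁' hf₀' F F' hF₁ hF₀ hF₁' hF₀' hw hw' hΨ hΨ' hm hne
  obtain ⟨s, hs⟩ := (h5e_slope hp hM hA 𝔫 h𝔫 hboth x y c hx hc hxy hprin hxinf Q hQ hu.1 h).1
  rw [hs]
  exact dvd_add hpm (dvd_mul_right _ _)

end NodeExport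



end Fermat.Agent.P7
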