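import Fermat.Agent.P7.H84AsmLevel
import Fermat.Agent.P7.H5EisHm
import Fermat.Agent.P7.H27EisWire
import Fermat.Agent.P7.H85SlopeBridge

/-!
# Wave 7 (S40/S44), block (E), row T-EIS-PACK (helper27): node data and EXPORT, coupled

The EXPORT of block (C) (`h27h_export_abs`) is produced for the node constants of a polynomial
normal form `H84aNFNode`; the slope calculus of T-EIS (`P7/H5EisHm.lean`, helper5) needs the
explicit node data `H5eNodeData`.  This file produces both for the SAME `(m, γP / γQ)`.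

* `h27i_centred_unit` : a local unit at `𝔫` has value `1` at every place centred at `𝔫`.
* `h27i_node_pack` : at a crossing point `𝔫` of the finite chart of level `M p` (good level):
  coordinates `x y = p c` such that EVERY `u ≠ 0` with `p ∣ div u` has, for every inertia
  element `b` and depth `δ` satisfying the variation hypothesis (BREAK, `h84w_hvar`), a rational
  node normal form `H84wNodeNF` AND node data `H5eNodeData` at the coordinate `x`, with the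
  same slope `m` and the same node constant `γP γQ⁻¹`.
* `h27i_export` : **EXPORT at the level**: the level hypotheses of `h84w_const` (chart
  `H78hChart`, depth dichotomy `H78hDisc`, smooth normal forms) and a rational node normal form
  at one node give `H5eExport A M hp hM b δ (δ ^ p) u (γP γQ⁻¹)`.

Nothing is assumed.
-/

set_option autoImplicit false
set_option linter.unusedSectionVars false
set_option linter.unusedVariables false
set_option linter.style.longLine false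
set_option linter.style.haveILetI false
set_option synthInstance.maxHeartbeats 400000
set_option maxHeartbeats 1600000

open AlgebraicCurve ModularCurve WithZero IsLocalRing Polynomial

noncomputable section

namespace Fermat.Agent.P7

open Fermat.Agent.S37 Fermat.Agent.S37.GalI Fermat.Agent.Red Fermat.Agent.Red.GG
  Fermat.Agent.Red.GV Fermat.Agent.Red.GV.Soft Fermat.Agent.Red.ModelO Fermat.Agent.Red.Kron
  Fermat.Agent.LGC Fermat.Agent.S35 Fermat.Agent.P6 Fermat.Agent.P5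
open Fermat.Agent.P6 (h88nM)

variable (A : ValuationSubring Kbar) (M : ℕ) {p : ℕ} [NeZero M] [NeZero p]

/-- a local unit at `𝔫` has value `1` at every place centred at `𝔫`. -/
theorem h27i_centred_unit (N : ℕ) [NeZero N] (t₀ : FF N) (𝔫 : Ideal (chart N A t₀))
    {e : FF N} (he0 : e ≠ 0) {t : chart N A t₀} (ht : t ∉ 𝔫)
    (hte : (t : FF N) * e ∈ chart N A t₀) (hte' : (t : FF N) * e⁻¹ ∈ chart N A t₀)
    (k : ChartPlace N t₀) (hk : h26Centered (chart N A t₀) (chartVal N t₀) 𝔫 k) :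
    chartVal N t₀ k e = 1 := by
  have ht1 : chartVal N t₀ k (t : FF N) = 1 := by
    refine le_antisymm (GGC97_hB N A t₀ _ t.2 k) ?_
    by_contra hlt
    exact ht (hk t (not_le.mp hlt))
  have h1 : chartVal N t₀ k e ≤ 1 := by
    have := GGC97_hB N A t₀ _ hte k
    rwa [map_mul, ht1, one_mul] at this
  have h2 : chartVal N t₀ k e⁻¹ ≤ 1 := by
    have := GGC97_hB N A t₀ _ hte' k
    rwa [map_mul, ht1, one_mul] at this
  have hv0 : chartVal N t₀ k e ≠ 0 := (_root_.map_ne_zero _).mpr he0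
  rw [map_inv₀] at h2
  refine le_antisymm h1 ?_
  by_contra hlt
  have hlt' : chartVal N t₀ k e < 1 := not_le.mp hlt
  have h3 : 1 < (chartVal N t₀ k e)⁻¹ := (one_lt_inv₀ (zero_lt_iff.mpr hv0)).mpr hlt'
  exact absurd h2 (not_le.mpr h3)

/-- **node data and node normal form, coupled**: at a crossing point `𝔫` there are coordinates
`x y = p c` such that every `u ≠ 0` with `p ∣ div u` has (for every `b`, `δ` with the variation
hypothesis) a rational node normal form `H84wNodeNF` and node data `H5eNodeData` at `x` with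
the same slope and the same node constant. -/
theorem h27i_node_pack (hp : p.Prime) (hM : ¬ p ∣ M) (haux : auxLevel p ∣ M)
    (hA : A.LiesOverPrime p)
    (𝔫 : Ideal (chart (M * p) A (jSS M p))) (h𝔫 : 𝔫.IsMaximal)
    (hboth : TorOnBoth A M p hp hM hA (jSS M p) 𝔫) :
    ∃ x y c : chart (M * p) A (jSS M p), x ∈ 𝔫 ∧ y ∈ 𝔫 ∧ c ∉ 𝔫 ∧
      x * y = algebraMap A (chart (M * p) A (jSS M p)) ((p : ℕ) : A) * c ∧
      (∀ z ∈ 𝔫, ∃ s, s ∉ 𝔫 ∧ s * z ∈ Ideal.span {x, y} ⊔ mExt A M p (jSS M p)) ∧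
      ((x : FF (M * p)))⁻¹ ∈ h85cWinf A M p hp hA ∧
      ((y : FF (M * p)))⁻¹ ∈ h85cW0 A M p hp hM hA ∧
      ∀ (u : FF (M * p)), u ≠ 0 → (∀ v : Place Kbar (FF (M * p)), (p : ℤ) ∣ v.ord u) →
        ∀ {b : GQ} (hb : b ∈ A.inertiaSubgroupIn ℚ) (δ : A),
        (∀ z : A, (∀ σ (hσ : σ ∈ A.inertiaSubgroupIn ℚ), gal (M * p) σ • u = u →
          h56pTheta A hσ z = z) → ∃ c : A, h56pTheta A hb z = z * (1 + δ * c)) →
        ∃ (m : ℤ) (γP γQ : A),
          H84wNodeNF A M hp hM hA 𝔫 h𝔫 hb δ u m γP γQ ∧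
          H5eNodeData A M hp hM hA 𝔫 (x : FF (M * p)) u m ((γP : Kbar) * (γQ : Kbar)⁻¹) := by
  classical
  haveI := h𝔫.isPrime
  have hPinf := h13x_Pinf_le_of_onBoth A M hp hM hA 𝔫 hboth
  have hP0 := h13x_P0_le_of_onBoth A M hp hM hA 𝔫 hboth
  have hle : mExt A M p (jSS M p) ≤ 𝔫 := le_trans (h62i_m_le_Pinf A M hp hM hA) hPinf
  have hAF := algebraMap_injective_FF (M * p) A
  obtain ⟨x, y, c, hxf, hyf, hcf, hx, hy, hc, hxy, hprin, hxinf, hy0, hall⟩ :=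
    h90g_node_rat A M hp hM haux hA 𝔫 h𝔫 hPinf hP0
  refine ⟨x, y, c, hx, hy, hc, hxy, hprin, hxinf, hy0, ?_⟩
  intro u hu0 hord b hb δ hvar
  obtain ⟨m, s, θ, e, Tp, Tm, a, d, n, π, εinf, ε0, hθc, hθ0, he, he', ⟨t, ht, hte, hte'⟩,
    hdisj, hroots, hu, hrat, hπ, hπ0, hεinf, hε0, hginf, hg0⟩ :=
    hall u hu0 p hp.ne_zero (fun i _ => exists_val_eq (M * p) (jSS M p) u hu0 p hord i)
  set P := h91yPoly Tp a n with hPdef
  set Q := h91yPoly Tm a n with hQdef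
  have hp0A : (((p : ℕ) : A)) ≠ 0 := h20n_natCast_ne_zero A p
  -- the roots
  have hrP : ∀ i ∈ Tp, a i ∈ maximalIdeal A ∧ d i ∈ maximalIdeal A ∧
      a i * d i = ((p : ℕ) : A) := fun i hi =>
    ⟨(hroots i (Or.inl hi)).1, (hroots i (Or.inl hi)).2.1, (hroots i (Or.inl hi)).2.2.1⟩
  have hrQ : ∀ i ∈ Tm, a i ∈ maximalIdeal A ∧ d i ∈ maximalIdeal A ∧
      a i * d i = ((p : ℕ) : A) := fun i hi =>
    ⟨(hroots i (Or.inr hi)).1, (hroots i (Or.inr hi)).2.1, (hroots i (Or.inr hi)).2.2.1⟩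
  have ha0 : ∀ i, i ∈ Tp ∨ i ∈ Tm → a i ≠ 0 := by
    intro i hi h0
    have := (hroots i hi).2.2.1
    rw [h0, zero_mul] at this
    exact hp0A this.symm
  have hP0' : P.coeff 0 ≠ 0 := by
    rw [hPdef, h91yPoly_coeff_zero]
    exact Finset.prod_ne_zero_iff.mpr fun i hi =>
      pow_ne_zero _ (neg_ne_zero.mpr (ha0 i (Or.inl hi)))
  have hQ0' : Q.coeff 0 ≠ 0 := by
    rw [hQdef, h91yPoly_coeff_zero]
    exact Finset.prod_ne_zero_iff.mpr fun i hi =>
      pow_ne_zero _ (neg_ne_zero.mpr (ha0 i (Or.inr hi)))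
  -- the variation of the coefficients
  have hfixP : ∀ k, ∀ σ (hσ : σ ∈ A.inertiaSubgroupIn ℚ), gal (M * p) σ • u = u →
      h56pTheta A hσ (P.coeff k) = P.coeff k := by
    intro k σ hσ hσu
    have h1 := (hrat σ hσ hσu).1
    have h2 := congrArg (fun R : A[X] => R.coeff k) h1
    simpa only [coeff_map] using h2
  have hfixQ : ∀ k, ∀ σ (hσ : σ ∈ A.inertiaSubgroupIn ℚ), gal (M * p) σ • u = u →
      h56pTheta A hσ (Q.coeff k) = Q.coeff k := by
    intro k σ hσ hσu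
    have h1 := (hrat σ hσ hσu).2
    have h2 := congrArg (fun R : A[X] => R.coeff k) h1
    simpa only [coeff_map] using h2
  have hvarP : ∀ k, ∃ c : A, h56pTheta A hb (P.coeff k) = P.coeff k * (1 + δ * c) :=
    fun k => hvar _ (hfixP k)
  have hvarQ : ∀ k, ∃ c : A, h56pTheta A hb (Q.coeff k) = Q.coeff k * (1 + δ * c) :=
    fun k => hvar _ (hfixQ k)
  -- the coordinate `x`
  have hx0 : (x : FF (M * p)) ≠ 0 := by
    intro h0
    have h1 : ((x * y : chart (M * p) A (jSS M p)) : FF (M * p)) = 0 := by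
      push_cast
      rw [h0, zero_mul]
    rw [hxy] at h1
    have h2 : algebraMap A (FF (M * p)) ((p : ℕ) : A) * (c : FF (M * p)) = 0 := h1
    rcases mul_eq_zero.mp h2 with h3 | h3
    · exact hp0A (hAF (by rw [h3, map_zero]))
    · apply hc
      have : c = 0 := Subtype.ext h3
      rw [this]
      exact 𝔫.zero_mem
  have hxWinf : (x : FF (M * p)) ∈ (h85cWinf A M p hp hA).toSubring :=
    h50t_chart_mem_inf hp hM hA x
  have hpF : algebraMap A (FF (M * p)) ((p : ℕ) : A) ≠ 0 :=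
    fun h => hp0A (hAF (by rw [h, map_zero]))
  have hxW0 : (x : FF (M * p)) * (algebraMap A (FF (M * p)) ((p : ℕ) : A))⁻¹ ∈
      (h85cW0 A M p hp hM hA).toSubring := by
    have h1 : (x : FF (M * p)) * (y : FF (M * p)) =
        algebraMap A (FF (M * p)) ((p : ℕ) : A) * (c : FF (M * p)) := by
      have := congrArg (fun z : chart (M * p) A (jSS M p) => (z : FF (M * p))) hxy
      simpa using this
    have hy0' : (y : FF (M * p)) ≠ 0 := by
      intro h0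
      rw [h0, mul_zero] at h1
      rcases mul_eq_zero.mp h1.symm with h3 | h3
      · exact hpF h3
      · apply hc
        have : c = 0 := Subtype.ext h3
        rw [this]
        exact 𝔫.zero_mem
    have h2 : (x : FF (M * p)) * (algebraMap A (FF (M * p)) ((p : ℕ) : A))⁻¹ =
        (c : FF (M * p)) * ((y : FF (M * p)))⁻¹ := by
      field_simp
      linear_combination h1
    rw [h2]
    exact Subring.mul_mem _ (h50t_chart_mem_zero hp hM hA c) hy0
  have hθϖ : h56pTheta A hb ((p : ℕ) : A) = ((p : ℕ) : A) := map_natCast _ p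
  -- the unit part
  obtain ⟨κ₀, hκ₀⟩ := h50t_isConst_eq_cst A (M * p) hθc
  have hκ₀0 : κ₀ ≠ 0 := by
    intro h0
    apply hθ0
    rw [hκ₀, h0]
    exact map_zero _
  have heO : e ∈ h62yO (chart (M * p) A (jSS M p)) 𝔫 h𝔫.isPrime := ⟨t, ht, hte⟩
  have heO' : e⁻¹ ∈ h62yO (chart (M * p) A (jSS M p)) 𝔫 h𝔫.isPrime := ⟨t, ht, hte'⟩
  obtain ⟨hc1, hc2⟩ := h62w_gal_cst_unit A M (jSS M p) hb 𝔫 h𝔫.isPrime κ₀ hκ₀0
  obtain ⟨hu1, hu2⟩ := h62w_gal_unit_fin A M hp hM hA hb 𝔫 h𝔫.isPrime hle heO heO'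
  have he0 : e ≠ 0 := by
    intro h0
    apply hu0
    rw [hu, h0, mul_zero, zero_mul]
  have hE0 : θ * e ≠ 0 := mul_ne_zero hθ0 he0
  have hbE : h84wB (M * p) b (θ * e) * (θ * e)⁻¹ =
      (gal (M * p) b • (cst (M * p) κ₀ : FF (M * p)) * (cst (M * p) κ₀)⁻¹) *
        (gal (M * p) b • e * e⁻¹) := by
    rw [h84wB_apply, smul_mul', hκ₀]
    field_simp
  have hE : h84wB (M * p) b (θ * e) * (θ * e)⁻¹ ∈
      (h62yO (chart (M * p) A (jSS M p)) 𝔫 h𝔫.isPrime).toSubring := by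
    rw [hbE]
    exact Subring.mul_mem _ hc1 hu1
  have hE' : (θ * e) * (h84wB (M * p) b (θ * e))⁻¹ ∈
      (h62yO (chart (M * p) A (jSS M p)) 𝔫 h𝔫.isPrime).toSubring := by
    have e1 : (θ * e) * (h84wB (M * p) b (θ * e))⁻¹ =
        (gal (M * p) b • (cst (M * p) κ₀ : FF (M * p)) * (cst (M * p) κ₀)⁻¹)⁻¹ *
        (gal (M * p) b • e * e⁻¹)⁻¹ := by
      rw [← mul_inv, ← hbE, mul_inv, inv_inv]
      exact mul_comm _ _
    rw [e1]
    exact Subring.mul_mem _ hc2 hu2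
  have hα : ((P.coeff 0 : A) : Kbar) * ((Q.coeff 0 : A) : Kbar)⁻¹ ≠ 0 := by
    have h1 : ((P.coeff 0 : A) : Kbar) ≠ 0 := fun h => hP0' (Subtype.ext h)
    have h2 : ((Q.coeff 0 : A) : Kbar) ≠ 0 := fun h => hQ0' (Subtype.ext h)
    exact mul_ne_zero h1 (inv_ne_zero h2)
  have hg0' : aeval (x : FF (M * p)) P * (aeval (x : FF (M * p)) Q)⁻¹ =
      cst (M * p) (((P.coeff 0 : A) : Kbar) * ((Q.coeff 0 : A) : Kbar)⁻¹) * ε0 := by
    rw [hg0]
    congr 1
    have e1 : algebraMap A (FF (M * p)) (P.coeff 0) = cst (M * p) ((P.coeff 0 : A) : Kbar) := rfl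
    have e2 : algebraMap A (FF (M * p)) (Q.coeff 0) = cst (M * p) ((Q.coeff 0 : A) : Kbar) := rfl
    rw [e1, e2]
    simp only [cst, map_mul, map_inv₀]
  have hεc : ∀ k, h26Centered (chart (M * p) A (jSS M p)) (chartVal (M * p) (jSS M p)) 𝔫 k →
      chartVal (M * p) (jSS M p) k e = 1 := fun k hk =>
    h27i_centred_unit A (M * p) (jSS M p) 𝔫 he0 ht hte hte' k hk
  refine ⟨m, P.coeff 0, Q.coeff 0, ⟨?_, ?_, ?_⟩, ?_⟩
  · refine ⟨(x : FF (M * p)), P, Q, θ * e, hx0, hxWinf, hxinf, ?_, hxW0,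
      h91yPoly_monic _ _ _, h91yPoly_coeff_mem _ _ _ (fun i hi => (hrP i hi).1), hP0',
      h91yPoly_inside Tp a d n _ (fun i hi => (hrP i hi).2.1) (fun i hi => (hrP i hi).2.2),
      hvarP,
      h91yPoly_monic _ _ _, h91yPoly_coeff_mem _ _ _ (fun i hi => (hrQ i hi).1), hQ0',
      h91yPoly_inside Tm a d n _ (fun i hi => (hrQ i hi).2.1) (fun i hi => (hrQ i hi).2.2),
      hvarQ, hE0, hE, hE', rfl, rfl, ?_⟩
    · rw [h84wB_apply]
      exact hxf b
    · rw [hu]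
      ring
  · exact ⟨hboth, x, y, c, hc, hxy, hxinf, hy0, s, κ₀,
      aeval (x : FF (M * p)) P * (aeval (x : FF (M * p)) Q)⁻¹, e, εinf, ε0, π, hπ, hκ₀0, hα,
      by rw [hu, hκ₀], he, he', hginf, hεinf, hg0', hε0⟩
  · intro σ hσ hσu
    exact ⟨hfixP 0 σ hσ hσu, hfixQ 0 σ hσ hσu⟩
  · exact ⟨s, κ₀, aeval (x : FF (M * p)) P * (aeval (x : FF (M * p)) Q)⁻¹, e, εinf, ε0, π, hπ,
      hκ₀0, hα, by rw [hu, hκ₀], he, he', hεc, hginf, hεinf, hg0', hε0⟩

/-- **EXPORT at the level** (input of T-EIS): under the level hypotheses of `h84w_const`, a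
rational node normal form of `u` at the node `e₀` with node constant `γP γQ⁻¹` gives the export
`H5eExport` of helper5 at the depth `δ ^ p` for this node constant. -/
theorem h27i_export (hp : p.Prime) (hM : ¬ p ∣ M) (haux : auxLevel p ∣ M)
    (hA : A.LiesOverPrime p)
    {ζ β : Kbar} (hζ : IsPrimitiveRoot ζ p) {b : GQ} {δ : Kbar}
    (hbreak : H23wBreak p A ζ β b δ) (hb : b ∈ A.inertiaSubgroupIn ℚ)
    (u : FF (M * p)) (hu0 : u ≠ 0)
    (hord : ∀ v : Place Kbar (FF (M * p)), (p : ℤ) ∣ v.ord u)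
    (hfix : ∀ a ∈ h23vI1 p A, a β = β → gal (M * p) a • u = u)
    {Sinf Szero E : Type*} (Oinf : Sinf → Subring (FF (M * p)))
    (Ozero : Szero → Subring (FF (M * p)))
    (node : E → Ideal (chart (M * p) A (jSS M p))) (hnode : ∀ e, (node e).IsMaximal)
    (hboth : ∀ e, TorOnBoth A M p hp hM hA (jSS M p) (node e))
    (hC : H78hChart A (h85cWinf A M p hp hA).toSubring (h85cW0 A M p hp hM hA).toSubring
      Oinf Ozero (fun e => (h62yO (chart (M * p) A (jSS M p)) (node e) (hnode e).isPrime).toSubring))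
    (hdisc : H78hDisc A (h85cWinf A M p hp hA).toSubring (h85cW0 A M p hp hM hA).toSubring
      ((⟨δ, A.nonunits_le hbreak.2.1⟩ : A) ^ p) (h84wB (M * p) b u * u⁻¹))
    (hNFinf : ∀ n, H84aNFSmooth (h84wB (M * p) b) (h56pTheta A hb)
      (⟨δ, A.nonunits_le hbreak.2.1⟩ : A) p (h85cWinf A M p hp hA).toSubring (Oinf n) u)
    (hNFzero : ∀ n, H84aNFSmooth (h84wB (M * p) b) (h56pTheta A hb)
      (⟨δ, A.nonunits_le hbreak.2.1⟩ : A) p (h85cW0 A M p hp hM hA).toSubring (Ozero n) u)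
    (e₀ : E) (m : ℤ) (γP γQ : A)
    (h₀ : H84wNodeNF A M hp hM hA (node e₀) (hnode e₀) hb (⟨δ, A.nonunits_le hbreak.2.1⟩ : A) u
      m γP γQ) :
    H5eExport A M hp hM b δ (δ ^ p) u ((γP : Kbar) * (γQ : Kbar)⁻¹) := by
  classical
  set δA : A := ⟨δ, A.nonunits_le hbreak.2.1⟩ with hδA
  have hδ0 : δ ≠ 0 := hbreak.1
  have hδA0 : δA ≠ 0 := fun h => hδ0 (congrArg (fun t : A => (t : Kbar)) h)
  have hδAm : δA ∈ maximalIdeal A := (GG.mem_maximalIdeal_iff A δA).mpr hbreak.2.1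
  have hpδ : ∃ m₀ ∈ maximalIdeal A, ((p : ℕ) : A) * δA = δA ^ p * m₀ :=
    h27h_p_delta (A := A) (δ := δA) hp hζ hbreak
  -- default normal forms at the nodes
  have hvar := h84w_hvar A M hbreak hb u hfix
  have hdef : ∀ e, ∃ (m : ℤ) (γP γQ : A),
      H84wNodeNF A M hp hM hA (node e) (hnode e) hb δA u m γP γQ := fun e =>
    h84w_node_nf A M hp hM haux hA (node e) (hnode e) (hboth e) hb δA u hu0 hord hvar
  choose m₀ γP₀ γQ₀ hNF₀ using hdef
  let mm : E → ℤ := fun e => if e = e₀ then m else m₀ e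
  let gP : E → A := fun e => if e = e₀ then γP else γP₀ e
  let gQ : E → A := fun e => if e = e₀ then γQ else γQ₀ e
  have hNF : ∀ e : E, H84aNFNode (h84wB (M * p) b) (h56pTheta A hb) δA p
      (h85cWinf A M p hp hA).toSubring (h85cW0 A M p hp hM hA).toSubring
      ((fun e => (h62yO (chart (M * p) A (jSS M p)) (node e) (hnode e).isPrime).toSubring) e)
      ((p : ℕ) : A) u (mm e) (gP e) (gQ e) := by
    intro e
    by_cases h1 : e = e₀
    · subst h1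
      simp only [mm, gP, gQ, if_true]
      exact h₀.1
    · simp only [mm, gP, gQ, if_neg h1]
      exact (hNF₀ e).1
  have hθϖ : h56pTheta A hb ((p : ℕ) : A) = ((p : ℕ) : A) := map_natCast _ p
  obtain ⟨a₀, f₁, f₂, F₃, -, -, -, hw, hf₁, hf₂, hallψ⟩ := h27h_export_abs hC
    (fun π hπ x hx => h86t_Winf_unit A M p hp hA π hπ x hx)
    (fun π hπ x hx => h86t_Winf_nt A M p hp hA π hπ x hx)
    (fun π hπ x hx => h86t_W0_unit A M p hp hM hA π hπ x hx)
    (fun π hπ x hx => h86t_W0_nt A M p hp hM hA π hπ x hx)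
    (h84wB (M * p) b) (h56pTheta A hb)
    (fun a => h56p_tau_algebraMap A (M * p) hb a) hp hδA0 hδAm hpδ
    (h20n_natCast_ne_zero A p) hθϖ hNFinf hNFzero mm gP gQ hNF hdisc e₀
  obtain ⟨ψ, hψ, hΨ⟩ := hallψ e₀
  have e1 : gP e₀ = γP := by simp only [gP, if_true]
  have e2 : gQ e₀ = γQ := by simp only [gQ, if_true]
  rw [e1, e2] at hψ
  have hα : (γP : Kbar) * (γQ : Kbar)⁻¹ ≠ 0 := h50t_nodeForm_ne_zero hp hM hA h₀.2.1
  have hP : (γP : Kbar) ≠ 0 := fun h0 => hα (by rw [h0, zero_mul])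
  have hQ : (γQ : Kbar) ≠ 0 := fun h0 => hα (by rw [h0, inv_zero, mul_zero])
  have hQψ : h27gQ b δ ((γP : Kbar) * (γQ : Kbar)⁻¹) = (ψ : Kbar) := by
    rw [← div_eq_mul_inv]
    exact h27h_Q_of_psi (A := A) (δ := δA) hb hδ0 hP hQ hψ
  refine ⟨(a₀ : Kbar), (f₁ : Kbar), (f₂ : Kbar), F₃, f₁.2, f₂.2,
    h27h_cong_inf A (M * p) hf₁, h27h_cong_zero A M hp hM hA hf₂, ?_, ?_⟩
  · rw [div_eq_mul_inv]
    exact hw
  · rw [hQψ]
    exact (GG.mem_maximalIdeal_iff A _).mp hΨ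

open Fermat.Agent.Jac.K1 (IsKummerPair) in
/-- **T-EIS at a supersingular place, from the level hypotheses of block (C)** for `u` and for
`T_ℓ u`: `u` an `I_β`-fixed Kummer representative of `x₀`, `T_ℓ x₀ = c₀ x₀`,
`p ∤ ℓ + 1 - c₀`; then `p ∣ ord_Q(ū)` at the place `Q` at any node of the family. -/
theorem h27i_ss (hp : p.Prime) (hM : ¬ p ∣ M) (haux : auxLevel p ∣ M)
    (hA : A.LiesOverPrime p)
    {ℓ : ℕ} (hℓ : ℓ.Prime) (hℓN : ¬ ℓ ∣ M * p)
    {ζ β : Kbar} (hζ : IsPrimitiveRoot ζ p) {b : GQ} {δ : Kbar}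
    (hbreak : H23wBreak p A ζ β b δ) (hb : b ∈ A.inertiaSubgroupIn ℚ)
    {x₀ : JZero (M * p)} {u : FF (M * p)}
    (hu : IsKummerPair p x₀ u) (c₀ : ℤ)
    (hc₀ : heckeOperatorBar (M * p) ⟨ℓ, hℓ⟩ x₀ = c₀ • x₀)
    (hne : ¬ (p : ℤ) ∣ (ℓ : ℤ) + 1 - c₀)
    (hfix : ∀ a ∈ h23vI1 p A, a β = β → gal (M * p) a • u = u)
    {Sinf Szero E : Type*} (Oinf : Sinf → Subring (FF (M * p)))
    (Ozero : Szero → Subring (FF (M * p)))
    (node : E → Ideal (chart (M * p) A (jSS M p))) (hnode : ∀ e, (node e).IsMaximal)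
    (hboth : ∀ e, TorOnBoth A M p hp hM hA (jSS M p) (node e))
    (hC : H78hChart A (h85cWinf A M p hp hA).toSubring (h85cW0 A M p hp hM hA).toSubring
      Oinf Ozero (fun e => (h62yO (chart (M * p) A (jSS M p)) (node e) (hnode e).isPrime).toSubring))
    (hdisc : H78hDisc A (h85cWinf A M p hp hA).toSubring (h85cW0 A M p hp hM hA).toSubring
      ((⟨δ, A.nonunits_le hbreak.2.1⟩ : A) ^ p) (h84wB (M * p) b u * u⁻¹))
    (hNFinf : ∀ n, H84aNFSmooth (h84wB (M * p) b) (h56pTheta A hb)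
      (⟨δ, A.nonunits_le hbreak.2.1⟩ : A) p (h85cWinf A M p hp hA).toSubring (Oinf n) u)
    (hNFzero : ∀ n, H84aNFSmooth (h84wB (M * p) b) (h56pTheta A hb)
      (⟨δ, A.nonunits_le hbreak.2.1⟩ : A) p (h85cW0 A M p hp hM hA).toSubring (Ozero n) u)
    (hdisc' : haveI : NeZero ℓ := ⟨hℓ.ne_zero⟩
      H78hDisc A (h85cWinf A M p hp hA).toSubring (h85cW0 A M p hp hM hA).toSubring
      ((⟨δ, A.nonunits_le hbreak.2.1⟩ : A) ^ p)
      (h84wB (M * p) b (h57rT (M * p) ℓ u) * (h57rT (M * p) ℓ u)⁻¹))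
    (hNFinf' : haveI : NeZero ℓ := ⟨hℓ.ne_zero⟩
      ∀ n, H84aNFSmooth (h84wB (M * p) b) (h56pTheta A hb)
      (⟨δ, A.nonunits_le hbreak.2.1⟩ : A) p (h85cWinf A M p hp hA).toSubring (Oinf n)
      (h57rT (M * p) ℓ u))
    (hNFzero' : haveI : NeZero ℓ := ⟨hℓ.ne_zero⟩
      ∀ n, H84aNFSmooth (h84wB (M * p) b) (h56pTheta A hb)
      (⟨δ, A.nonunits_le hbreak.2.1⟩ : A) p (h85cW0 A M p hp hM hA).toSubring (Ozero n)
      (h57rT (M * p) ℓ u))
    (e₀ : E) (Q : Place (h13sK A) (h13sFt A M))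
    (hQ : H85wAt hp hM hA (h62i_mem_soft A M hp hM hA) Q (node e₀)) :
    (p : ℤ) ∣ h44slOrd A M p u Q := by
  haveI : NeZero ℓ := ⟨hℓ.ne_zero⟩
  set δA : A := ⟨δ, A.nonunits_le hbreak.2.1⟩ with hδA
  obtain ⟨x, y, c, hx, hy, hc, hxy, hprin, hxinf, hy0, hall⟩ :=
    h27i_node_pack A M hp hM haux hA (node e₀) (hnode e₀) (hboth e₀)
  have hT : IsKummerPair p (heckeOperatorBar (M * p) ⟨ℓ, hℓ⟩ x₀) (h57rT (M * p) ℓ u) :=
    h57l_kummer_T (M * p) ⟨ℓ, hℓ⟩ hu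
  have hord : ∀ {z : JZero (M * p)} {w : FF (M * p)}, IsKummerPair p z w →
      ∀ v : Place Kbar (FF (M * p)), (p : ℤ) ∣ v.ord w := by
    intro z w hw v
    obtain ⟨-, D, -, hD⟩ := hw
    exact ⟨_, (hD v).symm⟩
  have hfix' : ∀ a ∈ h23vI1 p A, a β = β →
      gal (M * p) a • h57rT (M * p) ℓ u = h57rT (M * p) ℓ u := by
    intro a ha haβ
    rw [h27e_T_gal, hfix a ha haβ]
  have hvar := h84w_hvar A M hbreak hb u hfix
  have hvar' := h84w_hvar A M hbreak hb (h57rT (M * p) ℓ u) hfix'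
  obtain ⟨m, γP, γQ, hNF, hND⟩ := hall u hu.1 (hord hu) hb δA hvar
  obtain ⟨m', γP', γQ', hNF', hND'⟩ := hall (h57rT (M * p) ℓ u) hT.1 (hord hT) hb δA hvar'
  have hE := h27i_export A M hp hM haux hA hζ hbreak hb u hu.1 (hord hu) hfix Oinf Ozero node
    hnode hboth hC hdisc hNFinf hNFzero e₀ m γP γQ hNF
  have hE' := h27i_export A M hp hM haux hA hζ hbreak hb (h57rT (M * p) ℓ u) hT.1 (hord hT)
    hfix' Oinf Ozero node hnode hboth hC hdisc' hNFinf' hNFzero' e₀ m' γP' γQ' hNF'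
  have hrat : ∀ {w : FF (M * p)} {g₁ g₂ : A},
      (∀ a ∈ h23vI1 p A, a β = β → gal (M * p) a • w = w) →
      (∀ σ (hσ : σ ∈ A.inertiaSubgroupIn ℚ), gal (M * p) σ • w = w →
        h56pTheta A hσ g₁ = g₁ ∧ h56pTheta A hσ g₂ = g₂) →
      ∀ a ∈ h23vI1 p A, a β = β →
        a ((g₁ : Kbar) * (g₂ : Kbar)⁻¹) = (g₁ : Kbar) * (g₂ : Kbar)⁻¹ := by
    intro w g₁ g₂ hw hr a ha haβ
    obtain ⟨h1, h2⟩ := hr a ha.1 (hw a ha haβ)
    have h1' : a (g₁ : Kbar) = g₁ := by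
      have := congrArg (fun t : A => (t : Kbar)) h1
      simpa only [h56p_coe_theta] using this
    have h2' : a (g₂ : Kbar) = g₂ := by
      have := congrArg (fun t : A => (t : Kbar)) h2
      simpa only [h56p_coe_theta] using this
    rw [map_mul, map_inv₀, h1', h2']
  have hδ0 : δ ≠ 0 := hbreak.1
  have hD0 : δ ^ p ≠ 0 := pow_ne_zero _ hδ0
  have hDm : δ ^ p ∈ A.nonunits := by
    have hδm := hbreak.2.1
    rw [ValuationSubring.mem_nonunits_iff] at hδm ⊢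
    rw [map_pow]
    exact pow_lt_one₀ zero_le hδm hp.ne_zero
  exact h5e_ss_pow hp hM hA (node e₀) (hnode e₀) (hboth e₀) x y c hx hc hxy hprin hxinf hy0
    Q hQ hℓ hℓN hbreak hu c₀ hc₀ hne hND hND' (hrat hfix hNF.2.2) (hrat hfix' hNF'.2.2) hDm hD0
    hE hE'

open Fermat.Agent.Jac.K1 (IsKummerPair) in
/-- **block (R)+(C)+(E), conditional on the level instances of (C)**: if the family `node`
contains every crossing point of the finite chart, then `p ∣ ord_Q(ū)` at EVERY place `Q` of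
the special fibre (`= hs` of `h60g_toric`). -/
theorem h27i_all (hp : p.Prime) (hM : ¬ p ∣ M) (haux : auxLevel p ∣ M)
    (hA : A.LiesOverPrime p)
    {ℓ : ℕ} (hℓ : ℓ.Prime) (hℓN : ¬ ℓ ∣ M * p)
    {ζ β : Kbar} (hζ : IsPrimitiveRoot ζ p) {b : GQ} {δ : Kbar}
    (hbreak : H23wBreak p A ζ β b δ) (hb : b ∈ A.inertiaSubgroupIn ℚ)
    {x₀ : JZero (M * p)} {u : FF (M * p)}
    (hu : IsKummerPair p x₀ u) (c₀ : ℤ)
    (hc₀ : heckeOperatorBar (M * p) ⟨ℓ, hℓ⟩ x₀ = c₀ • x₀)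
    (hne : ¬ (p : ℤ) ∣ (ℓ : ℤ) + 1 - c₀)
    (hfix : ∀ a ∈ h23vI1 p A, a β = β → gal (M * p) a • u = u)
    {Sinf Szero E : Type*} (Oinf : Sinf → Subring (FF (M * p)))
    (Ozero : Szero → Subring (FF (M * p)))
    (node : E → Ideal (chart (M * p) A (jSS M p))) (hnode : ∀ e, (node e).IsMaximal)
    (hcover : ∀ 𝔫 : Ideal (chart (M * p) A (jSS M p)), 𝔫.IsMaximal →
      h62i_Pinf A M hp hM hA ≤ 𝔫 → h62i_P0 A M hp hM hA ≤ 𝔫 → ∃ e, node e = 𝔫)
    (hboth : ∀ e, TorOnBoth A M p hp hM hA (jSS M p) (node e))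
    (hC : H78hChart A (h85cWinf A M p hp hA).toSubring (h85cW0 A M p hp hM hA).toSubring
      Oinf Ozero (fun e => (h62yO (chart (M * p) A (jSS M p)) (node e) (hnode e).isPrime).toSubring))
    (hdisc : H78hDisc A (h85cWinf A M p hp hA).toSubring (h85cW0 A M p hp hM hA).toSubring
      ((⟨δ, A.nonunits_le hbreak.2.1⟩ : A) ^ p) (h84wB (M * p) b u * u⁻¹))
    (hNFinf : ∀ n, H84aNFSmooth (h84wB (M * p) b) (h56pTheta A hb)
      (⟨δ, A.nonunits_le hbreak.2.1⟩ : A) p (h85cWinf A M p hp hA).toSubring (Oinf n) u)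
    (hNFzero : ∀ n, H84aNFSmooth (h84wB (M * p) b) (h56pTheta A hb)
      (⟨δ, A.nonunits_le hbreak.2.1⟩ : A) p (h85cW0 A M p hp hM hA).toSubring (Ozero n) u)
    (hdisc' : haveI : NeZero ℓ := ⟨hℓ.ne_zero⟩
      H78hDisc A (h85cWinf A M p hp hA).toSubring (h85cW0 A M p hp hM hA).toSubring
      ((⟨δ, A.nonunits_le hbreak.2.1⟩ : A) ^ p)
      (h84wB (M * p) b (h57rT (M * p) ℓ u) * (h57rT (M * p) ℓ u)⁻¹))
    (hNFinf' : haveI : NeZero ℓ := ⟨hℓ.ne_zero⟩
      ∀ n, H84aNFSmooth (h84wB (M * p) b) (h56pTheta A hb)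
      (⟨δ, A.nonunits_le hbreak.2.1⟩ : A) p (h85cWinf A M p hp hA).toSubring (Oinf n)
      (h57rT (M * p) ℓ u))
    (hNFzero' : haveI : NeZero ℓ := ⟨hℓ.ne_zero⟩
      ∀ n, H84aNFSmooth (h84wB (M * p) b) (h56pTheta A hb)
      (⟨δ, A.nonunits_le hbreak.2.1⟩ : A) p (h85cW0 A M p hp hM hA).toSubring (Ozero n)
      (h57rT (M * p) ℓ u))
    (Q : Place (h13sK A) (h13sFt A M)) :
    (p : ℤ) ∣ h44slOrd A M p u Q := by
  have hord : ∀ v : Place Kbar (FF (M * p)), (p : ℤ) ∣ v.ord u := by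
    intro v
    obtain ⟨-, D, -, hD⟩ := hu
    exact ⟨_, (hD v).symm⟩
  refine h85w_all_of_ss_slope A M hp hM haux hA p u hu.1 hord ?_ Q
  rintro Q' ⟨𝔫, h𝔫, hPinf, hP0, hQ'⟩
  obtain ⟨e₀, rfl⟩ := hcover 𝔫 h𝔫 hPinf hP0
  exact h27i_ss A M hp hM haux hA hℓ hℓN hζ hbreak hb hu c₀ hc₀ hne hfix Oinf Ozero node hnode
    hboth hC hdisc hNFinf hNFzero hdisc' hNFinf' hNFzero' e₀ Q' hQ'

end Fermat.Agent.P7
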