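import Fermat.Agent.S35.H71Norm
import Fermat.Agent.S35.HK.H41PushComm
import Fermat.Agent.LGC.Res44

/-!
# Wave 7 (S40), block (5c) HECKE-SCALE (helper27)

`A` a valuation subring of `ℚ̄` over `p`, `N` a level, `r` a prime with `r ∤ N`,
`α, β : F_N → F_{N r}` the degeneracy maps, `T_r u = Nm_α (β u)` the Hecke operator on functions
(`T_r u (τ) = u (r τ) ∏_{b < r} u ((τ + b) / r)`).

* `h27s_norm_alpha_mem` : `x ∈ W_∞(N r)`, `w_r x ∈ W_∞(N r)`  `⟹`  `Nm_α x ∈ W_∞(N)`
  (`w_r` the Fricke involution at `r`; NO hypothesis relating `r` and `p`).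
* `h27sT`, `h27sT_mem`, `h27sT_mul`, `h27sT_inv`, `h27sT_cst`, `h27sT_unit` : `T_r` preserves the
  Gauss ring `W_∞(N)`, is multiplicative, and `T_r (c) = c ^ (r + 1)`; a scaling constant `a` of
  `u` (`a u` a Gauss unit) gives the scaling constant `a ^ (r + 1)` of `T_r u`.
-/

set_option autoImplicit false
set_option linter.style.haveILetI false
set_option linter.unusedSectionVars false
set_option synthInstance.maxHeartbeats 400000

open AlgebraicCurve ModularCurve IsLocalRing Polynomial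

noncomputable section

namespace Fermat.Agent.P7

open Fermat.Agent.S37 Fermat.Agent.Red Fermat.Agent.Red.GV Fermat.Agent.Red.GV.Soft
  Fermat.Agent.Red.TRK Fermat.Agent.Red.Kron Fermat.Agent.LGC Fermat.Agent.Red.KR
  Fermat.Agent.S35 Fermat.Agent.Red.HKComm

section Inf

variable (A : ValuationSubring Kbar) (N r : ℕ) [NeZero N] [NeZero r]

/-- the norm along `α` of a function which is Gauss-integral together with its Fricke
transform is Gauss-integral. -/
theorem h27s_norm_alpha_mem {p : ℕ} (hp : p.Prime) (hA : A.LiesOverPrime p)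
    (hr : r.Prime) (hN : ¬ r ∣ N) (x : FF (N * r)) (hx : x ∈ softV A (N * r))
    (hwx : kFricke N r hr hN x ∈ softV A (N * r)) :
    normAlong (heckeAlphaBar Kbar N r) x ∈ softV A N := by
  haveI : NeZero ((r : ℕ) : Kbar) := ⟨by exact_mod_cast NeZero.ne r⟩
  obtain ⟨ζ, hζ⟩ := HasEnoughRootsOfUnity.exists_primitiveRoot Kbar r
  have hser := h71n_norm_series N r hr hN ζ hζ x
  have hS : qExpand Kbar r (x : LaurentSeries Kbar) ∈ softOT A (residue A) :=
    mem_softOT_qExpand A _ r hx
  have hT : ∀ b : ℕ, twistK (ζ ^ b)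
      ((kFricke N r hr hN x : FF (N * r)) : LaurentSeries Kbar) ∈ softOT A (residue A) := by
    intro b
    obtain ⟨u, hu⟩ := h44g_exists_unit_of_pow_eq_one A hr.ne_zero
      (show (ζ ^ b) ^ r = 1 by rw [← pow_mul, mul_comm, pow_mul, hζ.pow_eq_one, one_pow])
    rw [← hu]
    exact h44r_twistK_mem_softOT u hwx
  have hprod : qExpand Kbar r (x : LaurentSeries Kbar) *
      ∏ b ∈ Finset.range r, twistK (ζ ^ b)
        ((kFricke N r hr hN x : FF (N * r)) : LaurentSeries Kbar) ∈ softOT A (residue A) :=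
    mul_mem hS (prod_mem fun b _ => hT b)
  have hβn : heckeBetaBar Kbar N r (normAlong (heckeAlphaBar Kbar N r) x) ∈
      softV A (N * r) := by
    rw [mem_softV_iff, coe_heckeBetaBar]
    have e : qExpand Kbar r ((normAlong (heckeAlphaBar Kbar N r) x : FF N) :
        LaurentSeries Kbar) = qExpand Kbar r (x : LaurentSeries Kbar) *
      ∏ b ∈ Finset.range r, twistK (ζ ^ b)
        ((kFricke N r hr hN x : FF (N * r)) : LaurentSeries Kbar) := hser
    rw [e]
    exact hprod
  exact (beta_mem_softV_iff A hp hA r _).mp hβn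

/-- the Hecke operator on functions: `T_r u = Nm_α (β u)`. -/
def h27sT (u : FF N) : FF N :=
  normAlong (heckeAlphaBar Kbar N r) (heckeBetaBar Kbar N r u)

theorem h27sT_mul (u v : FF N) : h27sT N r (u * v) = h27sT N r u * h27sT N r v := by
  unfold h27sT
  rw [map_mul, normAlong_mul]

theorem h27sT_one : h27sT N r 1 = 1 := by
  unfold h27sT
  rw [map_one]
  letI := algebraAlong (heckeAlphaBar Kbar N r)
  exact map_one (Algebra.norm (FF N))

theorem h27sT_inv (u : FF N) : h27sT N r u⁻¹ = (h27sT N r u)⁻¹ := by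
  by_cases hu : u = 0
  · subst hu
    rw [inv_zero]
    have h0 : h27sT N r (0 : FF N) = 0 := by
      unfold h27sT
      rw [map_zero]
      exact normAlong_zero _ (Fermat.Agent.Red.HKMod.finiteAlong_heckeAlphaBar N r)
    rw [h0, inv_zero]
  · have h1 : h27sT N r u⁻¹ * h27sT N r u = 1 := by
      rw [← h27sT_mul, inv_mul_cancel₀ hu, h27sT_one]
    exact eq_inv_of_mul_eq_one_left h1

/-- `T_r` of a constant. -/
theorem h27sT_cst (hr : r.Prime) (hN : ¬ r ∣ N) (c : Kbar) :
    h27sT N r (cst N c) = cst N (c ^ (r + 1)) := by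
  unfold h27sT
  have h1 : heckeBetaBar Kbar N r (cst N c) = heckeAlphaBar Kbar N r (cst N c) := by
    rw [show cst N c = algebraMap Kbar (FF N) c from rfl, AlgHom.commutes, AlgHom.commutes]
  have h2 : finrankAlong Kbar (heckeAlphaBar Kbar N r) = r + 1 :=
    finrank_heckeAlphaBar N r hr hN
  rw [h1, normAlong_map, h2]
  exact (map_pow (algebraMap Kbar (FF N)) c (r + 1)).symm

/-- `T_r` preserves the Gauss ring `W_∞`. -/
theorem h27sT_mem {p : ℕ} (hp : p.Prime) (hA : A.LiesOverPrime p)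
    (hr : r.Prime) (hN : ¬ r ∣ N) (u : FF N) (hu : u ∈ softV A N) :
    h27sT N r u ∈ softV A N := by
  refine h27s_norm_alpha_mem A N r hp hA hr hN _ (beta_mem_softV A r u hu) ?_
  rw [kFricke_beta]
  exact (alpha_mem_softV_iff A r u).mpr hu

/-- **scaling**: if `a u` is a Gauss unit then `a ^ (r + 1) · T_r u` is a Gauss unit. -/
theorem h27sT_unit {p : ℕ} (hp : p.Prime) (hA : A.LiesOverPrime p)
    (hr : r.Prime) (hN : ¬ r ∣ N) (u : FF N) (a : Kbar)
    (h1 : cst N a * u ∈ softV A N) (h2 : (cst N a * u)⁻¹ ∈ softV A N) :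
    cst N (a ^ (r + 1)) * h27sT N r u ∈ softV A N ∧
      (cst N (a ^ (r + 1)) * h27sT N r u)⁻¹ ∈ softV A N := by
  have e : cst N (a ^ (r + 1)) * h27sT N r u = h27sT N r (cst N a * u) := by
    rw [h27sT_mul, h27sT_cst N r hr hN]
  rw [e]
  refine ⟨h27sT_mem A N r hp hA hr hN _ h1, ?_⟩
  rw [← h27sT_inv]
  exact h27sT_mem A N r hp hA hr hN _ h2

end Inf

/-! ### The norm and compatible isomorphisms -/

section NormEquiv

/-- the norm is compatible with a pair of compatible ring isomorphisms. -/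
theorem h27s_normAlong_equiv {F₁ F₁' F₂ F₂' : Type*} [Field F₁] [Field F₁'] [Field F₂]
    [Field F₂'] [Algebra Kbar F₁] [Algebra Kbar F₁'] [Algebra Kbar F₂] [Algebra Kbar F₂']
    (φ₁ : F₁ →ₐ[Kbar] F₁') (φ₂ : F₂ →ₐ[Kbar] F₂') (e : F₁ ≃+* F₂) (e' : F₁' ≃+* F₂')
    (he : ∀ x, φ₂ (e x) = e' (φ₁ x)) (y : F₁') :
    e (normAlong φ₁ y) = normAlong φ₂ (e' y) := by
  letI i1 : Algebra F₁ F₁' := algebraAlong φ₁
  letI i2 : Algebra F₂ F₂' := algebraAlong φ₂
  have hc : RingHom.comp (algebraMap F₂ F₂') (e : F₁ →+* F₂) =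
      RingHom.comp (e' : F₁' →+* F₂') (algebraMap F₁ F₁') :=
    RingHom.ext fun x => he x
  have h := Algebra.norm_eq_of_equiv_equiv e e' hc y
  have h2 := congrArg e h
  rw [RingEquiv.apply_symm_apply] at h2
  exact h2

end NormEquiv

/-! ### The Fricke involution at `p` commutes with `T_r` -/

section Fricke

variable (M p r : ℕ) [NeZero M] [NeZero p] [NeZero r]

/-- the Fricke involution `w_p` of `F_{M r p}` restricts along `δ(e)` to the Fricke involution of
`F_{M p}` (any exponent `e`; `e = r` is `h41h_fricke_degenE`). -/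
theorem h27s_fricke_degenE (hp : p.Prime) (hM : ¬ p ∣ M) (hMr : ¬ p ∣ M * r) (e : ℕ) [NeZero e]
    (he : M * e ∣ M * r) (hb : M * p * e ∣ M * r * p) (y : FF (M * p)) :
    kFricke (M * r) p hp hMr (degenE e hb y) = degenE e hb (kFricke M p hp hM y) := by
  induction y using kFF_induction_ab M p hp with
  | hc a =>
    rw [kFricke_cst]
    have h1 : degenE e hb (cst (M * p) a) = cst (M * r * p) a := (degenE e hb).commutes a
    rw [h1, kFricke_cst]
  | ha x =>
    have h1 : degenE e hb (heckeAlphaBar Kbar M p x)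
        = heckeAlphaBar Kbar (M * r) p (degenE e he x) :=
      Subtype.ext (by rw [coe_degenE, coe_heckeAlphaBar, coe_heckeAlphaBar, coe_degenE])
    have h2 : heckeBetaBar Kbar (M * r) p (degenE e he x)
        = degenE e hb (heckeBetaBar Kbar M p x) :=
      Subtype.ext (by
        rw [coe_heckeBetaBar, coe_degenE, coe_degenE, coe_heckeBetaBar, qExpand_qExpand,
          qExpand_qExpand]
        exact qExpand_congr (mul_comm p e) _)
    rw [h1, kFricke_alpha, kFricke_alpha, h2]
  | hb x =>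
    have h1 : degenE e hb (heckeBetaBar Kbar M p x)
        = heckeBetaBar Kbar (M * r) p (degenE e he x) :=
      Subtype.ext (by
        rw [coe_heckeBetaBar, coe_degenE, coe_degenE, coe_heckeBetaBar, qExpand_qExpand,
          qExpand_qExpand]
        exact qExpand_congr (mul_comm e p) _)
    have h2 : heckeAlphaBar Kbar (M * r) p (degenE e he x)
        = degenE e hb (heckeAlphaBar Kbar M p x) :=
      Subtype.ext (by rw [coe_degenE, coe_heckeAlphaBar, coe_heckeAlphaBar, coe_degenE])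
    rw [h1, kFricke_beta, kFricke_beta, h2]
  | hadd x y hx hy => rw [map_add, map_add, map_add, map_add, hx, hy]
  | hinv x hx => rw [map_inv₀, map_inv₀, map_inv₀, map_inv₀, hx]
  | hmul x y hx hy => rw [map_mul, map_mul, map_mul, map_mul, hx, hy]

/-- the identification `F_{M p r} = F_{M r p}`. -/
def h27sSwap : FF (M * p * r) ≃ₐ[Kbar] FF (M * r * p) :=
  AlgEquiv.ofAlgHom
    (degenE 1 (show M * p * r * 1 ∣ M * r * p from ⟨1, by ring⟩))
    (degenE 1 (show M * r * p * 1 ∣ M * p * r from ⟨1, by ring⟩))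
    (AlgHom.ext fun x => Subtype.ext (by
      rw [AlgHom.comp_apply, coe_degenE, coe_degenE, qExpand_one_apply, qExpand_one_apply]
      rfl))
    (AlgHom.ext fun x => Subtype.ext (by
      rw [AlgHom.comp_apply, coe_degenE, coe_degenE, qExpand_one_apply, qExpand_one_apply]
      rfl))

theorem h27s_coe_swap (x : FF (M * p * r)) :
    ((h27sSwap M p r x : FF (M * r * p)) : LaurentSeries Kbar) = (x : LaurentSeries Kbar) := by
  show ((degenE 1 (show M * p * r * 1 ∣ M * r * p from ⟨1, by ring⟩) x : FF (M * r * p)) :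
    LaurentSeries Kbar) = _
  rw [coe_degenE, qExpand_one_apply]

/-- **the Fricke involution at `p` commutes with the Hecke operator `T_r`** on functions. -/
theorem h27s_fricke_T (hp : p.Prime) (hM : ¬ p ∣ M) (hr : r.Prime) (hrN : ¬ r ∣ M * p)
    (u : FF (M * p)) :
    kFricke M p hp hM (h27sT (M * p) r u) = h27sT (M * p) r (kFricke M p hp hM u) := by
  have hpr : p ≠ r := by
    rintro rfl
    exact hrN (dvd_mul_left _ _)
  have hMr : ¬ p ∣ M * r := by
    intro h
    rcases (Nat.Prime.dvd_mul hp).mp h with h | h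
    · exact hM h
    · exact hpr ((Nat.prime_dvd_prime_iff_eq hp hr).mp h)
  have h1 : M * p * 1 ∣ M * r * p := ⟨r, by ring⟩
  have hb : M * p * r ∣ M * r * p := ⟨1, by ring⟩
  have he1 : M * 1 ∣ M * r := ⟨r, by ring⟩
  have her : M * r ∣ M * r := dvd_refl _
  -- change of the top field
  have hswap : ∀ y : FF (M * p * r),
      normAlong (heckeAlphaBar Kbar (M * p) r) y =
        normAlong (degenE 1 h1) (h27sSwap M p r y) := by
    intro y
    have h := h27s_normAlong_equiv (heckeAlphaBar Kbar (M * p) r) (degenE 1 h1)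
      (RingEquiv.refl (FF (M * p))) (h27sSwap M p r).toRingEquiv (fun x => Subtype.ext (by
        rw [RingEquiv.refl_apply]
        show ((degenE 1 h1 x : FF (M * r * p)) : LaurentSeries Kbar) =
          ((h27sSwap M p r (heckeAlphaBar Kbar (M * p) r x) : FF (M * r * p)) :
            LaurentSeries Kbar)
        rw [h27s_coe_swap, coe_degenE, coe_heckeAlphaBar, qExpand_one_apply])) y
    rw [RingEquiv.refl_apply] at h
    exact h
  have hβ : ∀ v : FF (M * p),
      h27sSwap M p r (heckeBetaBar Kbar (M * p) r v) = degenE r hb v := by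
    intro v
    apply Subtype.ext
    rw [h27s_coe_swap, coe_degenE, coe_heckeBetaBar]
  -- the Fricke involution and the norm
  have hw := h27s_normAlong_equiv (degenE 1 h1) (degenE 1 h1)
    (kFricke M p hp hM).toRingEquiv (kFricke (M * r) p hp hMr).toRingEquiv
    (fun x => (h27s_fricke_degenE M p r hp hM hMr 1 he1 h1 x).symm) (degenE r hb u)
  have hw' : kFricke M p hp hM (normAlong (degenE 1 h1) (degenE r hb u)) =
      normAlong (degenE 1 h1) (kFricke (M * r) p hp hMr (degenE r hb u)) := hw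
  unfold h27sT
  rw [hswap, hswap, hβ, hβ, hw', h27s_fricke_degenE M p r hp hM hMr r her hb u]

variable (A : ValuationSubring Kbar)

/-- `T_r` preserves the Gauss ring `W_0 = w_p⁻¹ (W_∞)` of level `M p`. -/
theorem h27sT_mem0 (hp : p.Prime) (hM : ¬ p ∣ M) (hA : A.LiesOverPrime p)
    (hr : r.Prime) (hrN : ¬ r ∣ M * p) (u : FF (M * p))
    (hu : kFricke M p hp hM u ∈ softV A (M * p)) :
    kFricke M p hp hM (h27sT (M * p) r u) ∈ softV A (M * p) := by
  rw [h27s_fricke_T M p r hp hM hr hrN u]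
  exact h27sT_mem A (M * p) r hp hA hr hrN _ hu

/-- **scaling at `W_0`**: if `b u` is a unit of `W_0` then `b ^ (r + 1) · T_r u` is a unit of
`W_0`. -/
theorem h27sT_unit0 (hp : p.Prime) (hM : ¬ p ∣ M) (hA : A.LiesOverPrime p)
    (hr : r.Prime) (hrN : ¬ r ∣ M * p) (u : FF (M * p)) (b : Kbar)
    (h1 : kFricke M p hp hM (cst (M * p) b * u) ∈ softV A (M * p))
    (h2 : kFricke M p hp hM (cst (M * p) b * u)⁻¹ ∈ softV A (M * p)) :
    kFricke M p hp hM (cst (M * p) (b ^ (r + 1)) * h27sT (M * p) r u) ∈ softV A (M * p) ∧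
      kFricke M p hp hM (cst (M * p) (b ^ (r + 1)) * h27sT (M * p) r u)⁻¹ ∈
        softV A (M * p) := by
  have e : cst (M * p) (b ^ (r + 1)) * h27sT (M * p) r u =
      h27sT (M * p) r (cst (M * p) b * u) := by
    rw [h27sT_mul, h27sT_cst (M * p) r hr hrN]
  rw [e]
  refine ⟨h27sT_mem0 M p r A hp hM hA hr hrN _ h1, ?_⟩
  rw [← h27sT_inv]
  exact h27sT_mem0 M p r A hp hM hA hr hrN _ h2

/-- **HECKE-SCALE** (`j (T_r u) = (r + 1) j (u)`): scaling constants `a`, `b` of `u` at the two
Gauss valuations `W_∞`, `W_0` of level `M p` give the scaling constants `a ^ (r + 1)`,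
`b ^ (r + 1)` of `T_r u`. -/
theorem h27s_hecke_scale (hp : p.Prime) (hM : ¬ p ∣ M) (hA : A.LiesOverPrime p)
    (hr : r.Prime) (hrN : ¬ r ∣ M * p) (u : FF (M * p)) (a b : Kbar)
    (ha1 : cst (M * p) a * u ∈ softV A (M * p))
    (ha2 : (cst (M * p) a * u)⁻¹ ∈ softV A (M * p))
    (hb1 : kFricke M p hp hM (cst (M * p) b * u) ∈ softV A (M * p))
    (hb2 : kFricke M p hp hM (cst (M * p) b * u)⁻¹ ∈ softV A (M * p)) :
    (cst (M * p) (a ^ (r + 1)) * h27sT (M * p) r u ∈ softV A (M * p) ∧
      (cst (M * p) (a ^ (r + 1)) * h27sT (M * p) r u)⁻¹ ∈ softV A (M * p)) ∧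
    (kFricke M p hp hM (cst (M * p) (b ^ (r + 1)) * h27sT (M * p) r u) ∈ softV A (M * p) ∧
      kFricke M p hp hM (cst (M * p) (b ^ (r + 1)) * h27sT (M * p) r u)⁻¹ ∈
        softV A (M * p)) :=
  ⟨h27sT_unit A (M * p) r hp hA hr hrN u a ha1 ha2,
    h27sT_unit0 M p r A hp hM hA hr hrN u b hb1 hb2⟩

end Fricke

end Fermat.Agent.P7
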