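import Fermat.Agent.P7.H57NormRed
import Fermat.Agent.P7.H27HeckeScale
import Fermat.Agent.P6.H94NewDepth

/-!
# Wave 7 (S40), block (E) T-EIS, step (ii) of finding 1368 (helper27)

`A` a valuation subring of `ℚ̄` over `p`, `ℓ` a prime, `T_ℓ u = Nm_α (β u)` the Hecke norm on
functions (`h57rT = h27sT`).

* `h27e_T_eq` : `h57rT = h27sT` (definitional).
* `h27e_T_gal`, `h27e_T_quot` : `T_ℓ` commutes with the Galois action, hence
  `σ (T_ℓ u) / T_ℓ u = T_ℓ (σ u / u)`.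
* `h27eCong A N F f` : `F ≡ f` modulo `𝔪_A · W_∞` (`f` a constant).
* `h27e_T_deep_const` : `T_ℓ (1 + c (f + μ s)) = 1 + c ((ℓ + 1) f + μ' s')`
  (`c, μ, μ' ∈ 𝔪_A`, `f ∈ A`, `s, s' ∈ W_∞`).
* `h27e_psi_hecke` (level `M p`) : `w = a₀ (1 + c F)`, `F ≡ f_∞` at `W_∞`, `F ≡ f_0` at
  `W_0 = w_p W_∞`  ⟹  `T_ℓ w = a₀ ^ (ℓ + 1) (1 + c F')`, `F' ≡ (ℓ + 1) f_∞` at `W_∞`,
  `F' ≡ (ℓ + 1) f_0` at `W_0`.  So the invariant `Ψ = f_0 - f_∞` is multiplied by `ℓ + 1`.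
-/

set_option autoImplicit false
set_option linter.style.haveILetI false
set_option linter.unusedSectionVars false
set_option synthInstance.maxHeartbeats 400000

open AlgebraicCurve ModularCurve IsLocalRing Polynomial

noncomputable section

namespace Fermat.Agent.P7

open Fermat.Agent.S37 Fermat.Agent.Red Fermat.Agent.Red.GV Fermat.Agent.Red.GV.Soft
  Fermat.Agent.Red.TRK Fermat.Agent.Red.Kron Fermat.Agent.LGC Fermat.Agent.Red.KR
  Fermat.Agent.S35 Fermat.Agent.Red.HKComm Fermat.Agent.S36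

section Gal

variable (N ℓ : ℕ) [NeZero N] [NeZero ℓ]

/-- the two landed Hecke norms agree. -/
theorem h27e_T_eq (u : FF N) : h57rT N ℓ u = h27sT N ℓ u := rfl

/-- **the Hecke norm commutes with the Galois action.** -/
theorem h27e_T_gal (σ : GQ) (u : FF N) :
    gal N σ • h57rT N ℓ u = h57rT N ℓ (gal N σ • u) := by
  have h := Fermat.Agent.P6.h94n_gal_Na N ℓ σ (heckeBetaBar Kbar N ℓ u)
  rw [h83g_gal_beta] at h
  exact h

/-- `σ (T_ℓ u) / T_ℓ u = T_ℓ (σ u / u)`. -/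
theorem h27e_T_quot (σ : GQ) (u : FF N) (hu : u ≠ 0) :
    (gal N σ • h57rT N ℓ u) / h57rT N ℓ u = h57rT N ℓ ((gal N σ • u) / u) := by
  rw [div_eq_mul_inv, div_eq_mul_inv, h57r_T_mul, h57r_T_inv N ℓ u hu, h27e_T_gal]

end Gal

section Deep

variable (A : ValuationSubring Kbar) (N ℓ : ℕ) [NeZero N] [NeZero ℓ]

theorem h27e_cst_zero : cst N (0 : Kbar) = 0 := map_zero (algebraMap Kbar (FF N))

theorem h27e_cst_one : cst N (1 : Kbar) = 1 := map_one (algebraMap Kbar (FF N))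

theorem h27e_cst_mul (a b : Kbar) : cst N (a * b) = cst N a * cst N b :=
  map_mul (algebraMap Kbar (FF N)) a b

theorem h27e_cst_add (a b : Kbar) : cst N (a + b) = cst N a + cst N b :=
  map_add (algebraMap Kbar (FF N)) a b

/-- `F ≡ f` modulo `𝔪_A · W_∞`, `f` a constant. -/
def h27eCong (F : FF N) (f : Kbar) : Prop :=
  ∃ μ ∈ A.nonunits, ∃ s ∈ softV A N, F = cst N f + cst N μ * s

theorem h27e_one_add_pow {x : Kbar} (hx : x ∈ A) (n : ℕ) :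
    ∃ r ∈ A, (1 + x) ^ n = 1 + n * x + x ^ 2 * r := by
  induction n with
  | zero => exact ⟨0, zero_mem A, by simp⟩
  | succ n ih =>
    obtain ⟨r, hr, e⟩ := ih
    refine ⟨r + n + x * r, add_mem (add_mem hr (natCast_mem A n)) (mul_mem hx hr), ?_⟩
    rw [pow_succ, e]
    push_cast
    ring

/-- `1 + x` is a unit of `A` for `x ∈ 𝔪_A`. -/
theorem h27e_one_add_unit {x : Kbar} (hx : x ∈ A.nonunits) :
    1 + x ∈ A ∧ (1 + x)⁻¹ ∈ A ∧ 1 + x ≠ 0 := by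
  have hv : A.valuation (1 + x) = 1 :=
    A.valuation.map_one_add_of_lt ((A.mem_nonunits_iff).mp hx)
  refine ⟨(A.valuation_le_one_iff _).mp hv.le, ?_, ?_⟩
  · apply (A.valuation_le_one_iff _).mp
    rw [map_inv₀, hv, inv_one]
  · intro h0
    rw [h0, map_zero] at hv
    exact zero_ne_one hv

/-- `A · 𝔪_A ⊆ 𝔪_A`. -/
theorem h27e_mul_nonunits {a m : Kbar} (ha : a ∈ A) (hm : m ∈ A.nonunits) :
    a * m ∈ A.nonunits := by
  rw [A.mem_nonunits_iff] at hm ⊢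
  rw [map_mul]
  have h1 : A.valuation a ≤ 1 := (A.valuation_le_one_iff _).mpr ha
  calc A.valuation a * A.valuation m ≤ 1 * A.valuation m := mul_le_mul_left h1 _
    _ = A.valuation m := one_mul _
    _ < 1 := hm

/-- a sum of two elements of `𝔪_A · W_∞` is of the form `μ s` with ONE `μ ∈ 𝔪_A`. -/
theorem h27e_sum_nonunits {μ₁ μ₂ : Kbar} (h₁ : μ₁ ∈ A.nonunits) (h₂ : μ₂ ∈ A.nonunits)
    {s₁ s₂ : FF N} (hs₁ : s₁ ∈ softV A N) (hs₂ : s₂ ∈ softV A N) :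
    ∃ μ ∈ A.nonunits, ∃ s ∈ softV A N, cst N μ₁ * s₁ + cst N μ₂ * s₂ = cst N μ * s := by
  by_cases h10 : μ₁ = 0
  · refine ⟨μ₂, h₂, s₂, hs₂, ?_⟩
    rw [h10, h27e_cst_zero, zero_mul, zero_add]
  by_cases h20 : μ₂ = 0
  · refine ⟨μ₁, h₁, s₁, hs₁, ?_⟩
    rw [h20, h27e_cst_zero, zero_mul, add_zero]
  rcases A.mem_or_inv_mem (μ₂ * μ₁⁻¹) with h | h
  · refine ⟨μ₁, h₁, s₁ + cst N (μ₂ * μ₁⁻¹) * s₂,
      add_mem hs₁ (mul_mem ((cst_mem_softV_iff A N _).mpr h) hs₂), ?_⟩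
    have e : μ₁ * (μ₂ * μ₁⁻¹) = μ₂ := by field_simp
    rw [mul_add, ← mul_assoc, ← h27e_cst_mul, e]
  · refine ⟨μ₂, h₂, cst N (μ₂ * μ₁⁻¹)⁻¹ * s₁ + s₂,
      add_mem (mul_mem ((cst_mem_softV_iff A N _).mpr h) hs₁) hs₂, ?_⟩
    have e : μ₂ * (μ₂ * μ₁⁻¹)⁻¹ = μ₁ := by field_simp
    rw [mul_add, ← mul_assoc, ← h27e_cst_mul, e]

/-- **the Hecke norm of a deep function with constant leading term.** -/
theorem h27e_T_deep_const {p : ℕ} (hp : p.Prime) (hA : A.LiesOverPrime p) (hℓ : ℓ.Prime)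
    (hN : ¬ ℓ ∣ N) (c : Kbar) (hc : c ∈ A.nonunits) (f : Kbar) (hf : f ∈ A)
    (F : FF N) (hF : h27eCong A N F f) :
    ∃ F' : FF N, h57rT N ℓ (1 + cst N c * F) = 1 + cst N c * F' ∧
      h27eCong A N F' (((ℓ + 1 : ℕ) : Kbar) * f) := by
  obtain ⟨μ, hμ, s, hs, rfl⟩ := hF
  have hcA : c ∈ A := ValuationSubring.nonunits_subset hc
  have hμA : μ ∈ A := ValuationSubring.nonunits_subset hμ
  -- the constant `κ = 1 + c f`
  have hcf : c * f ∈ A.nonunits := by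
    rw [mul_comm]
    exact h27e_mul_nonunits A hf hc
  obtain ⟨hκA, hκi, hκ0⟩ := h27e_one_add_unit A hcf
  set κ : Kbar := 1 + c * f with hκ
  -- factorisation of `u`
  have hu : 1 + cst N c * (cst N f + cst N μ * s) =
      cst N κ * (1 + cst N (c * μ * κ⁻¹) * s) := by
    have e0 : κ * (c * μ * κ⁻¹) = c * μ := by field_simp
    have e1 : cst N κ * cst N (c * μ * κ⁻¹) = cst N c * cst N μ := by
      rw [← h27e_cst_mul, e0, h27e_cst_mul]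
    have e2 : cst N κ = 1 + cst N c * cst N f := by
      rw [hκ, h27e_cst_add, h27e_cst_one, h27e_cst_mul]
    rw [mul_add (cst N κ), mul_one, ← mul_assoc, e1, e2]
    ring
  have hc' : c * μ * κ⁻¹ ∈ A := mul_mem (mul_mem hcA hμA) hκi
  obtain ⟨s', hs', eT⟩ := h57r_T_deep A N ℓ hp hA hℓ hN (c * μ * κ⁻¹) hc' s hs
  obtain ⟨r, hr, er⟩ := h27e_one_add_pow A (ValuationSubring.nonunits_subset hcf) (ℓ + 1)
  -- the value of `T u`
  have hT : h57rT N ℓ (1 + cst N c * (cst N f + cst N μ * s)) =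
      1 + cst N c * (cst N (((ℓ + 1 : ℕ) : Kbar) * f) +
        (cst N c * cst N (f ^ 2 * r) + cst N μ * (cst N (κ ^ (ℓ + 1) * κ⁻¹) * s'))) := by
    rw [hu, h57r_T_mul, h57r_T_cst N ℓ hℓ hN, eT]
    have e2 : cst N (κ ^ (ℓ + 1)) * cst N (c * μ * κ⁻¹) =
        cst N c * cst N μ * cst N (κ ^ (ℓ + 1) * κ⁻¹) := by
      rw [← h27e_cst_mul, ← h27e_cst_mul, ← h27e_cst_mul]
      congr 1
      ring
    have e3 : cst N (κ ^ (ℓ + 1)) =
        1 + cst N c * cst N (((ℓ + 1 : ℕ) : Kbar) * f) +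
          cst N c * (cst N c * cst N (f ^ 2 * r)) := by
      have e4 : κ ^ (ℓ + 1) = 1 + c * (((ℓ + 1 : ℕ) : Kbar) * f) + c * (c * (f ^ 2 * r)) := by
        rw [er]
        ring
      rw [e4, h27e_cst_add, h27e_cst_add, h27e_cst_one, h27e_cst_mul, h27e_cst_mul N c,
        h27e_cst_mul N c]
    rw [mul_add (cst N (κ ^ (ℓ + 1))), mul_one, ← mul_assoc, e2, e3]
    ring
  have hκe : κ ^ (ℓ + 1) * κ⁻¹ ∈ A := mul_mem (pow_mem hκA _) hκi
  obtain ⟨μ', hμ', s'', hs'', eG⟩ := h27e_sum_nonunits A N hc hμ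
    ((cst_mem_softV_iff A N _).mpr (mul_mem (pow_mem hf 2) hr))
    (mul_mem ((cst_mem_softV_iff A N _).mpr hκe) hs')
  refine ⟨cst N (((ℓ + 1 : ℕ) : Kbar) * f) + cst N μ' * s'', ?_, μ', hμ', s'', hs'', rfl⟩
  rw [hT, eG]

end Deep

section Level

variable (A : ValuationSubring Kbar) (M p ℓ : ℕ) [NeZero M] [NeZero p] [NeZero ℓ]

/-- **`Ψ`-equivariance of the Hecke norm** (step (ii) of T-EIS): if `w = a₀ (1 + c F)` with
`F ≡ f_∞` at `W_∞` and `F ≡ f_0` at `W_0 = w_p W_∞`, then `T_ℓ w = a₀ ^ (ℓ + 1) (1 + c F')`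
with `F' ≡ (ℓ + 1) f_∞` at `W_∞` and `F' ≡ (ℓ + 1) f_0` at `W_0`. -/
theorem h27e_psi_hecke (hp : p.Prime) (hM : ¬ p ∣ M) (hA : A.LiesOverPrime p)
    (hℓ : ℓ.Prime) (hℓN : ¬ ℓ ∣ M * p) (a₀ c : Kbar) (hc : c ∈ A.nonunits) (hc0 : c ≠ 0)
    (f₁ f₀ : Kbar) (hf₁ : f₁ ∈ A) (hf₀ : f₀ ∈ A) (F : FF (M * p))
    (hF₁ : h27eCong A (M * p) F f₁)
    (hF₀ : h27eCong A (M * p) (kFricke M p hp hM F) f₀) :
    ∃ F' : FF (M * p),
      h57rT (M * p) ℓ (cst (M * p) a₀ * (1 + cst (M * p) c * F)) =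
        cst (M * p) (a₀ ^ (ℓ + 1)) * (1 + cst (M * p) c * F') ∧
      h27eCong A (M * p) F' (((ℓ + 1 : ℕ) : Kbar) * f₁) ∧
      h27eCong A (M * p) (kFricke M p hp hM F') (((ℓ + 1 : ℕ) : Kbar) * f₀) := by
  obtain ⟨F', eF', hF'⟩ := h27e_T_deep_const A (M * p) ℓ hp hA hℓ hℓN c hc f₁ hf₁ F hF₁
  obtain ⟨G, eG, hG⟩ := h27e_T_deep_const A (M * p) ℓ hp hA hℓ hℓN c hc f₀ hf₀ _ hF₀
  refine ⟨F', ?_, hF', ?_⟩
  · rw [h57r_T_mul, h57r_T_cst (M * p) ℓ hℓ hℓN, eF']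
  · have hw : ∀ x : FF (M * p), kFricke M p hp hM (1 + cst (M * p) c * x) =
        1 + cst (M * p) c * kFricke M p hp hM x := by
      intro x
      rw [map_add, map_one, map_mul, kFricke_cst]
    have h1 : kFricke M p hp hM (h57rT (M * p) ℓ (1 + cst (M * p) c * F)) =
        h57rT (M * p) ℓ (kFricke M p hp hM (1 + cst (M * p) c * F)) :=
      h27s_fricke_T M p ℓ hp hM hℓ hℓN _
    rw [eF', hw, hw, eG] at h1
    have hC0 : cst (M * p) c ≠ 0 := by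
      intro h0
      apply hc0
      have h2 : algebraMap Kbar (FF (M * p)) c = algebraMap Kbar (FF (M * p)) 0 := by
        rw [map_zero]
        exact h0
      exact (algebraMap Kbar (FF (M * p))).injective h2
    have h3 : cst (M * p) c * kFricke M p hp hM F' = cst (M * p) c * G := by
      linear_combination h1
    rw [mul_left_cancel₀ hC0 h3]
    exact hG

end Level

end Fermat.Agent.P7
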