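import Fermat.Agent.P7.H27EisCore
import Fermat.Agent.P7.H50Tame
import Fermat.Agent.P7.H23Break

/-!
# Wave 7 (S40 / S44), block (E) T-EIS: the top (helper27)

Paper proof: finding 1368 (helper98).  `p` an odd prime, `p ∤ M`, `A` over `p`, `ℓ ∤ M p` a
prime, `T = T_ℓ` the Hecke norm (`h57rT`), `b ∈ I₁` with the break depth `δ` (`H23wBreak`,
helper23), node forms `H50tNodeForm` (helper50) of `u` and of `T u` with slopes `m, m'` and node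
constants `α₀, α₀'` fixed by `I_β`.

* `h27g_jump_hecke` : `v(p ^ m' α₀' ^ p) = v(p ^ m α₀ ^ p) ^ (ℓ + 1)`  (NODE-JUMP + VAL-HECKE).
* `h27g_eis_node` : with `v(α₀' / α₀ ^ (ℓ + 1)) ^ (p - 1) ∈ v(p) ^ ℤ` and `p ∣ m' - c m`:
  `p ∣ (ℓ + 1 - c) m`.
* `h27g_val_of_break` : BREAK gives the valuation hypothesis from
  `Q(α₀') ≡ (ℓ + 1) Q(α₀)` modulo `𝔪_A`, `Q(γ) = (b γ / γ - 1) / δ`.
* `h27g_qq_of_export` : the EXPORT of (5b) for `u` and `T u` (`Ψ ≡ Q(α₀)`, `Ψ' ≡ Q(α₀')`) and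
  `Ψ' ≡ (ℓ + 1) Ψ` (`h27f_psi_T`) give `Q(α₀') ≡ (ℓ + 1) Q(α₀)`.
* `h27g_eis_top` : **T-EIS**: `p ∤ ℓ + 1 - c` ⟹ `p ∣ m`.
-/

set_option autoImplicit false
set_option linter.style.haveILetI false
set_option linter.unusedSectionVars false
set_option linter.unusedVariables false
set_option synthInstance.maxHeartbeats 400000

open AlgebraicCurve ModularCurve IsLocalRing Polynomial

noncomputable section

namespace Fermat.Agent.P7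

open Fermat.Agent.S37 Fermat.Agent.Red Fermat.Agent.Red.GG Fermat.Agent.Red.GV
  Fermat.Agent.Red.GV.Soft Fermat.Agent.Red.Kron Fermat.Agent.Red.ModelO Fermat.Agent.LGC
  Fermat.Agent.S35

section Jump

variable (A : ValuationSubring Kbar) (M : ℕ) {p : ℕ} (ℓ : ℕ) [NeZero M] [NeZero p] [NeZero ℓ]

/-- two scaling constants of the same function at `W∞` have the same valuation. -/
theorem h27g_scale_unique_inf (hp : p.Prime) (hA : A.LiesOverPrime p) {f : FF (M * p)}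
    (hf : f ≠ 0) {k k' : Kbar} (hk : k ≠ 0) (hk' : k' ≠ 0)
    (h : h50tUnit (h85cWinf A M p hp hA).toSubring (f * (cst (M * p) k)⁻¹))
    (h' : h50tUnit (h85cWinf A M p hp hA).toSubring (f * (cst (M * p) k')⁻¹)) :
    A.valuation k' = A.valuation k := by
  have hcst : ∀ x : Kbar, x ≠ 0 → cst (M * p) x ≠ 0 := by
    intro x hx
    simpa only [cst, ne_eq, map_eq_zero] using hx
  have e : cst (M * p) (k' * k⁻¹) = (f * (cst (M * p) k)⁻¹) * (f * (cst (M * p) k')⁻¹)⁻¹ := by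
    have e1 : cst (M * p) (k' * k⁻¹) = cst (M * p) k' * (cst (M * p) k)⁻¹ := by
      rw [h27e_cst_mul]
      congr 1
      exact map_inv₀ (algebraMap Kbar (FF (M * p))) k
    rw [e1]
    have := hcst k hk
    have := hcst k' hk'
    field_simp
  have hu : h50tUnit (h85cWinf A M p hp hA).toSubring (cst (M * p) (k' * k⁻¹)) := by
    rw [e]
    exact h50t_unit_mul h (h50t_unit_inv h')
  obtain ⟨h1, h2⟩ := h50t_cst_unit_inf hp hA hu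
  have hv1 : A.valuation (k' * k⁻¹) ≤ 1 := (A.valuation_le_one_iff _).mpr h1
  have hv2 : A.valuation (k' * k⁻¹)⁻¹ ≤ 1 := (A.valuation_le_one_iff _).mpr h2
  have hk0 : A.valuation k ≠ 0 := (Valuation.ne_zero_iff _).mpr hk
  have hv : A.valuation (k' * k⁻¹) = 1 := by
    apply le_antisymm hv1
    rw [map_inv₀] at hv2
    have h0 : A.valuation (k' * k⁻¹) ≠ 0 :=
      (Valuation.ne_zero_iff _).mpr (mul_ne_zero hk' (inv_ne_zero hk))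
    exact (inv_le_one₀ (zero_lt_iff.mpr h0)).mp hv2
  rw [map_mul, map_inv₀] at hv
  exact (mul_inv_eq_one₀ hk0).mp hv

/-- two scaling constants of the same function at `W₀` have the same valuation. -/
theorem h27g_scale_unique_zero (hp : p.Prime) (hM : ¬ p ∣ M) (hA : A.LiesOverPrime p)
    {f : FF (M * p)} (hf : f ≠ 0) {k k' : Kbar} (hk : k ≠ 0) (hk' : k' ≠ 0)
    (h : h50tUnit (h85cW0 A M p hp hM hA).toSubring (f * (cst (M * p) k)⁻¹))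
    (h' : h50tUnit (h85cW0 A M p hp hM hA).toSubring (f * (cst (M * p) k')⁻¹)) :
    A.valuation k' = A.valuation k := by
  have hcst : ∀ x : Kbar, x ≠ 0 → cst (M * p) x ≠ 0 := by
    intro x hx
    simpa only [cst, ne_eq, map_eq_zero] using hx
  have e : cst (M * p) (k' * k⁻¹) = (f * (cst (M * p) k)⁻¹) * (f * (cst (M * p) k')⁻¹)⁻¹ := by
    have e1 : cst (M * p) (k' * k⁻¹) = cst (M * p) k' * (cst (M * p) k)⁻¹ := by
      rw [h27e_cst_mul]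
      congr 1
      exact map_inv₀ (algebraMap Kbar (FF (M * p))) k
    rw [e1]
    have := hcst k hk
    have := hcst k' hk'
    field_simp
  have hu : h50tUnit (h85cW0 A M p hp hM hA).toSubring (cst (M * p) (k' * k⁻¹)) := by
    rw [e]
    exact h50t_unit_mul h (h50t_unit_inv h')
  obtain ⟨h1, h2⟩ := h50t_cst_unit_zero hp hM hA hu
  have hv1 : A.valuation (k' * k⁻¹) ≤ 1 := (A.valuation_le_one_iff _).mpr h1
  have hv2 : A.valuation (k' * k⁻¹)⁻¹ ≤ 1 := (A.valuation_le_one_iff _).mpr h2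
  have hk0 : A.valuation k ≠ 0 := (Valuation.ne_zero_iff _).mpr hk
  have hv : A.valuation (k' * k⁻¹) = 1 := by
    apply le_antisymm hv1
    rw [map_inv₀] at hv2
    have h0 : A.valuation (k' * k⁻¹) ≠ 0 :=
      (Valuation.ne_zero_iff _).mpr (mul_ne_zero hk' (inv_ne_zero hk))
    exact (inv_le_one₀ (zero_lt_iff.mpr h0)).mp hv2
  rw [map_mul, map_inv₀] at hv
  exact (mul_inv_eq_one₀ hk0).mp hv

/-- **VAL-HECKE in `h50tUnit` form**: Gauss constants `k∞`, `k₀` of `u` give the Gauss constants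
`k∞ ^ (ℓ + 1)`, `k₀ ^ (ℓ + 1)` of `T_ℓ u`. -/
theorem h27g_hecke_unit (hp : p.Prime) (hM : ¬ p ∣ M) (hA : A.LiesOverPrime p)
    (hℓ : ℓ.Prime) (hℓN : ¬ ℓ ∣ M * p) (u : FF (M * p)) {k₁ k₀ : Kbar} (hk₁ : k₁ ≠ 0)
    (hk₀ : k₀ ≠ 0)
    (h₁ : h50tUnit (h85cWinf A M p hp hA).toSubring (u * (cst (M * p) k₁)⁻¹))
    (h₀ : h50tUnit (h85cW0 A M p hp hM hA).toSubring (u * (cst (M * p) k₀)⁻¹)) :
    h50tUnit (h85cWinf A M p hp hA).toSubring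
        (h57rT (M * p) ℓ u * (cst (M * p) (k₁ ^ (ℓ + 1)))⁻¹) ∧
      h50tUnit (h85cW0 A M p hp hM hA).toSubring
        (h57rT (M * p) ℓ u * (cst (M * p) (k₀ ^ (ℓ + 1)))⁻¹) := by
  have einv : ∀ k : Kbar, (cst (M * p) k)⁻¹ = cst (M * p) k⁻¹ := fun k =>
    (map_inv₀ (algebraMap Kbar (FF (M * p))) k).symm
  have e₁ : cst (M * p) k₁⁻¹ * u = u * (cst (M * p) k₁)⁻¹ := by
    rw [einv]
    exact mul_comm _ _
  have e₀ : cst (M * p) k₀⁻¹ * u = u * (cst (M * p) k₀)⁻¹ := by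
    rw [einv]
    exact mul_comm _ _
  have ha1 : cst (M * p) k₁⁻¹ * u ∈ softV A (M * p) := by rw [e₁]; exact h₁.1
  have ha2 : (cst (M * p) k₁⁻¹ * u)⁻¹ ∈ softV A (M * p) := by rw [e₁]; exact h₁.2
  have hb1 : kFricke M p hp hM (cst (M * p) k₀⁻¹ * u) ∈ softV A (M * p) := by
    rw [e₀]; exact h₀.1
  have hb2 : kFricke M p hp hM (cst (M * p) k₀⁻¹ * u)⁻¹ ∈ softV A (M * p) := by
    rw [e₀]; exact h₀.2
  obtain ⟨⟨c1, c2⟩, ⟨d1, d2⟩⟩ :=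
    h27s_hecke_scale M p ℓ A hp hM hA hℓ hℓN u k₁⁻¹ k₀⁻¹ ha1 ha2 hb1 hb2
  have f₁ : cst (M * p) (k₁⁻¹ ^ (ℓ + 1)) * h27sT (M * p) ℓ u =
      h27sT (M * p) ℓ u * (cst (M * p) (k₁ ^ (ℓ + 1)))⁻¹ := by
    rw [einv, inv_pow]
    exact mul_comm _ _
  have f₀ : cst (M * p) (k₀⁻¹ ^ (ℓ + 1)) * h27sT (M * p) ℓ u =
      h27sT (M * p) ℓ u * (cst (M * p) (k₀ ^ (ℓ + 1)))⁻¹ := by
    rw [einv, inv_pow]
    exact mul_comm _ _
  rw [f₁] at c1 c2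
  rw [f₀] at d1 d2
  rw [h27e_T_eq (M * p) ℓ u]
  exact ⟨⟨c1, c2⟩, ⟨d1, d2⟩⟩

/-- **NODE-JUMP + VAL-HECKE**: the jumps of `u` and of `T_ℓ u`. -/
theorem h27g_jump_hecke (hp : p.Prime) (hM : ¬ p ∣ M) (hA : A.LiesOverPrime p)
    (hℓ : ℓ.Prime) (hℓN : ¬ ℓ ∣ M * p)
    {𝔫 𝔫' : Ideal (chart (M * p) A (jSS M p))} {u : FF (M * p)} (hu : u ≠ 0)
    {m m' : ℤ} {α₀ α₀' : Kbar}
    (h : H50tNodeForm A M hp hM hA 𝔫 u p m α₀)
    (h' : H50tNodeForm A M hp hM hA 𝔫' (h57rT (M * p) ℓ u) p m' α₀') :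
    A.valuation ((p : Kbar) ^ m' * α₀' ^ p) = A.valuation ((p : Kbar) ^ m * α₀ ^ p) ^ (ℓ + 1) := by
  have hα : α₀ ≠ 0 := h50t_nodeForm_ne_zero hp hM hA h
  have hα' : α₀' ≠ 0 := h50t_nodeForm_ne_zero hp hM hA h'
  have hp0 : (p : Kbar) ≠ 0 := by exact_mod_cast hp.ne_zero
  have hTu : h57rT (M * p) ℓ u ≠ 0 := h57r_T_ne_zero (M * p) ℓ u hu
  obtain ⟨κ, hκ, hinf, hzero⟩ := h50t_jump hp hM hA h
  obtain ⟨κ', hκ', hinf', hzero'⟩ := h50t_jump hp hM hA h'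
  have hJ0 : κ * (p : Kbar) ^ m * α₀ ^ p ≠ 0 :=
    mul_ne_zero (mul_ne_zero hκ (zpow_ne_zero _ hp0)) (pow_ne_zero _ hα)
  have hJ0' : κ' * (p : Kbar) ^ m' * α₀' ^ p ≠ 0 :=
    mul_ne_zero (mul_ne_zero hκ' (zpow_ne_zero _ hp0)) (pow_ne_zero _ hα')
  obtain ⟨hT1, hT0⟩ := h27g_hecke_unit A M ℓ hp hM hA hℓ hℓN u hκ hJ0 hinf hzero
  have v1 := h27g_scale_unique_inf A M hp hA hTu (pow_ne_zero (ℓ + 1) hκ) hκ' hT1 hinf'
  have v0 := h27g_scale_unique_zero A M hp hM hA hTu (pow_ne_zero (ℓ + 1) hJ0) hJ0' hT0 hzero'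
  -- divide
  have hκv : A.valuation κ ≠ 0 := (Valuation.ne_zero_iff _).mpr hκ
  have e1 : A.valuation (κ' * (p : Kbar) ^ m' * α₀' ^ p) =
      A.valuation κ ^ (ℓ + 1) * A.valuation ((p : Kbar) ^ m' * α₀' ^ p) := by
    rw [mul_assoc, map_mul, v1, map_pow]
  have e2 : A.valuation ((κ * (p : Kbar) ^ m * α₀ ^ p) ^ (ℓ + 1)) =
      A.valuation κ ^ (ℓ + 1) * A.valuation ((p : Kbar) ^ m * α₀ ^ p) ^ (ℓ + 1) := by
    rw [mul_assoc, map_pow, map_mul, mul_pow]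
  rw [e1, e2] at v0
  exact mul_left_cancel₀ (pow_ne_zero (ℓ + 1) hκv) v0

/-- **T-EIS at a node**, given the valuation of the quotient of the node constants. -/
theorem h27g_eis_node (hp : p.Prime) (hM : ¬ p ∣ M) (hA : A.LiesOverPrime p)
    (hℓ : ℓ.Prime) (hℓN : ¬ ℓ ∣ M * p)
    {𝔫 𝔫' : Ideal (chart (M * p) A (jSS M p))} {u : FF (M * p)} (hu : u ≠ 0)
    {m m' : ℤ} {α₀ α₀' : Kbar}
    (h : H50tNodeForm A M hp hM hA 𝔫 u p m α₀)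
    (h' : H50tNodeForm A M hp hM hA 𝔫' (h57rT (M * p) ℓ u) p m' α₀')
    (hval : ∃ n : ℤ,
      A.valuation (α₀' / α₀ ^ (ℓ + 1)) ^ (p - 1) = A.valuation (p : Kbar) ^ n)
    {c : ℤ} (hm : (p : ℤ) ∣ m' - c * m) :
    (p : ℤ) ∣ ((ℓ : ℤ) + 1 - c) * m := by
  have hα : α₀ ≠ 0 := h50t_nodeForm_ne_zero hp hM hA h
  have hα' : α₀' ≠ 0 := h50t_nodeForm_ne_zero hp hM hA h'
  have hp0 : (p : Kbar) ≠ 0 := by exact_mod_cast hp.ne_zero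
  have hp1 : A.valuation (p : Kbar) < 1 := A.mem_nonunits_iff.mp hA
  have hT := h27g_jump_hecke A M ℓ hp hM hA hℓ hℓN hu h h'
  refine h27f_eis_arith A hp hp0 hp1 hα hα' (J := (p : Kbar) ^ m * α₀ ^ p)
    (J' := (p : Kbar) ^ m' * α₀' ^ p) ?_ ?_ hT hval hm
  · rw [map_mul, map_zpow₀, map_pow]
  · rw [map_mul, map_zpow₀, map_pow]

end Jump

/-! ### BREAK and the EXPORT -/

section Break

variable (A : ValuationSubring Kbar) {p : ℕ} (ℓ : ℕ)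

/-- the break quotient `Q(γ) = (b γ / γ - 1) / δ`. -/
def h27gQ (b : GQ) (δ γ : Kbar) : Kbar := (b γ * γ⁻¹ - 1) * δ⁻¹

theorem h27g_Q_spec (b : GQ) {δ γ : Kbar} (hδ : δ ≠ 0) (hγ : γ ≠ 0) :
    b γ = γ * (1 + δ * h27gQ b δ γ) := by
  unfold h27gQ
  field_simp
  ring

/-- **BREAK gives the valuation hypothesis**: `Q(α₀') ≡ (ℓ + 1) Q(α₀)` modulo `𝔪_A` forces
`v(α₀' / α₀ ^ (ℓ + 1))` into the value group of `Fix(I₁)`. -/
theorem h27g_val_of_break {ζ β : Kbar} {b : GQ} {δ : Kbar} (hB : H23wBreak p A ζ β b δ)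
    {α₀ α₀' : Kbar} (hα : α₀ ≠ 0) (hα' : α₀' ≠ 0)
    (hfix : ∀ a ∈ h23vI1 p A, a β = β → a α₀ = α₀)
    (hfix' : ∀ a ∈ h23vI1 p A, a β = β → a α₀' = α₀')
    (hqq : h27gQ b δ α₀' - ((ℓ + 1 : ℕ) : Kbar) * h27gQ b δ α₀ ∈ A.nonunits) :
    ∃ n : ℤ, A.valuation (α₀' / α₀ ^ (ℓ + 1)) ^ (p - 1) = A.valuation (p : Kbar) ^ n := by
  obtain ⟨hδ0, hδ, -, hall⟩ := hB
  have hz0 : α₀' / α₀ ^ (ℓ + 1) ≠ 0 := div_ne_zero hα' (pow_ne_zero _ hα)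
  have hzfix : ∀ a ∈ h23vI1 p A, a β = β → a (α₀' / α₀ ^ (ℓ + 1)) = α₀' / α₀ ^ (ℓ + 1) := by
    intro a ha haβ
    rw [map_div₀, map_pow, hfix a ha haβ, hfix' a ha haβ]
  obtain ⟨hq, -⟩ := hall α₀ hα hfix
  obtain ⟨hq', -⟩ := hall α₀' hα' hfix'
  obtain ⟨-, hiff⟩ := hall _ hz0 hzfix
  apply hiff.mp
  obtain ⟨qz, hqz, e⟩ := h27f_Q_quot A (b : Kbar →+* Kbar) hδ hα hq hq' (ℓ + 1)
    (h27g_Q_spec b hδ0 hα) (h27g_Q_spec b hδ0 hα') hqq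
  have e' : b (α₀' / α₀ ^ (ℓ + 1)) = (α₀' / α₀ ^ (ℓ + 1)) * (1 + δ * qz) := e
  have e2 : (b (α₀' / α₀ ^ (ℓ + 1)) * (α₀' / α₀ ^ (ℓ + 1))⁻¹ - 1) * δ⁻¹ = qz := by
    rw [e']
    field_simp
    ring
  rw [e2]
  exact hqz

/-- linear form of the EXPORT: `Ψ ≡ Q(α₀)`, `Ψ' ≡ Q(α₀')`, `Ψ' ≡ (ℓ + 1) Ψ` modulo `𝔪_A`
give `Q(α₀') ≡ (ℓ + 1) Q(α₀)`. -/
theorem h27g_qq_of_psi {Ψ Ψ' q q' : Kbar} (hΨ : Ψ - q ∈ A.nonunits)
    (hΨ' : Ψ' - q' ∈ A.nonunits) (hT : Ψ' - ((ℓ + 1 : ℕ) : Kbar) * Ψ ∈ A.nonunits) :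
    q' - ((ℓ + 1 : ℕ) : Kbar) * q ∈ A.nonunits := by
  have e : q' - ((ℓ + 1 : ℕ) : Kbar) * q =
      (Ψ' - ((ℓ + 1 : ℕ) : Kbar) * Ψ) - (Ψ' - q') + ((ℓ + 1 : ℕ) : Kbar) * (Ψ - q) := by ring
  rw [e]
  exact A.nonunits.add_mem (A.nonunits.sub_mem hT hΨ')
    (h27f_mul_nonunits A (natCast_mem A (ℓ + 1)) hΨ)

end Break

/-! ### The top of T-EIS -/

section Top

variable (A : ValuationSubring Kbar) (M : ℕ) {p : ℕ} (ℓ : ℕ) [NeZero M] [NeZero p] [NeZero ℓ]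

/-- **T-EIS** (finding 1368).  `u ≠ 0` of level `M p`, `b` with break depth `δ`; node forms of
`u` and `T_ℓ u` with slopes `m, m'` and `I_β`-fixed node constants `α₀, α₀'`; the EXPORT of (5b)
for `u` and `T_ℓ u` at the depth `D₀` (presentations of `b u / u` and `b (T_ℓ u) / T_ℓ u` with
`f₀ - f₁ ≡ Q(α₀)`, `f₀' - f₁' ≡ Q(α₀')` modulo `𝔪_A`); the eigen-relation in slope form
`p ∣ m' - c m`; `p ∤ ℓ + 1 - c`.  Then `p ∣ m`. -/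
theorem h27g_eis_top (hp : p.Prime) (hM : ¬ p ∣ M) (hA : A.LiesOverPrime p)
    (hℓ : ℓ.Prime) (hℓN : ¬ ℓ ∣ M * p)
    {ζ β : Kbar} {b : GQ} {δ : Kbar} (hB : H23wBreak p A ζ β b δ)
    {𝔫 𝔫' : Ideal (chart (M * p) A (jSS M p))} {u : FF (M * p)} (hu : u ≠ 0)
    {m m' : ℤ} {α₀ α₀' : Kbar}
    (h : H50tNodeForm A M hp hM hA 𝔫 u p m α₀)
    (h' : H50tNodeForm A M hp hM hA 𝔫' (h57rT (M * p) ℓ u) p m' α₀')
    (hfix : ∀ a ∈ h23vI1 p A, a β = β → a α₀ = α₀)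
    (hfix' : ∀ a ∈ h23vI1 p A, a β = β → a α₀' = α₀')
    -- the EXPORT of (5b) for `u` and for `T_ℓ u`
    (D₀ : Kbar) (hD₀ : D₀ ∈ A.nonunits) (hD₀0 : D₀ ≠ 0) (a₀ a₀' : Kbar)
    (f₁ f₀ f₁' f₀' : Kbar) (hf₁ : f₁ ∈ A) (hf₀ : f₀ ∈ A) (hf₁' : f₁' ∈ A) (hf₀' : f₀' ∈ A)
    (F F' : FF (M * p))
    (hF₁ : h27eCong A (M * p) F f₁) (hF₀ : h27eCong A (M * p) (kFricke M p hp hM F) f₀)
    (hF₁' : h27eCong A (M * p) F' f₁')
    (hF₀' : h27eCong A (M * p) (kFricke M p hp hM F') f₀')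
    (hw : (gal (M * p) b • u) / u = cst (M * p) a₀ * (1 + cst (M * p) D₀ * F))
    (hw' : (gal (M * p) b • h57rT (M * p) ℓ u) / h57rT (M * p) ℓ u =
      cst (M * p) a₀' * (1 + cst (M * p) D₀ * F'))
    (hΨ : (f₀ - f₁) - h27gQ b δ α₀ ∈ A.nonunits)
    (hΨ' : (f₀' - f₁') - h27gQ b δ α₀' ∈ A.nonunits)
    -- the eigen-relation
    {c : ℤ} (hm : (p : ℤ) ∣ m' - c * m) (hc : ¬ (p : ℤ) ∣ (ℓ : ℤ) + 1 - c) :
    (p : ℤ) ∣ m := by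
  have hα : α₀ ≠ 0 := h50t_nodeForm_ne_zero hp hM hA h
  have hα' : α₀' ≠ 0 := h50t_nodeForm_ne_zero hp hM hA h'
  have hT := h27f_psi_T A M p ℓ hp hM hA hℓ hℓN b u hu D₀ hD₀ hD₀0 a₀ a₀' f₁ f₀ f₁' f₀'
    hf₁ hf₀ hf₁' hf₀' F F' hF₁ hF₀ hF₁' hF₀' hw hw'
  have hqq := h27g_qq_of_psi A ℓ hΨ hΨ' hT
  have hval := h27g_val_of_break A ℓ hB hα hα' hfix hfix' hqq
  have hdvd := h27g_eis_node A M ℓ hp hM hA hℓ hℓN hu h h' hval hm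
  exact (Int.Prime.dvd_mul' hp hdvd).resolve_left hc

end Top

end Fermat.Agent.P7
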