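import Fermat.Agent.P7.H27EisFinal
import Fermat.Agent.P7.H23BreakW
import Fermat.Agent.P7.H16TopC

/-!
# Wave 7 (S44), end shape (I-1) SLOPE-ZERO (helper27)

`H16tSlopeZeroC p` (helper16, `P7/H16TopC.lean`) is the class-level end shape of the blocks
(R)+(C)+(E) consumed by the top of S44.

* `h27k_wild` : **the WILD case** (`β ∉ Fix(I₁)`): BREAK (`h23w_wild`, helper23) and
  `h27j_rce`.
* `H27kWildUnit p` : the existence, for every `A` over `p`, of a WILD unit `β'`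
  (`β' ^ p ∈ Fix(I₁)`, `β' ∉ Fix(I₁)`), e.g. a `p`-th root of `1 + p`.
* `h27k_tame` : **the TAME case** (`β ∈ Fix(I₁)`, so that `u` is fixed by all of `I₁`) from a
  wild unit `β'` : `u` is a fortiori fixed by `I_β'`, and the wild case applies to `β'`.
* `h27k_slopeZeroC` : `H27kWildUnit p → H16tSlopeZeroC p`.

Nothing is assumed.
-/

set_option autoImplicit false
set_option linter.unusedSectionVars false
set_option linter.unusedVariables false
set_option linter.style.longLine false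
set_option linter.style.haveILetI false
set_option synthInstance.maxHeartbeats 400000

open AlgebraicCurve ModularCurve

noncomputable section

namespace Fermat.Agent.P7

open Fermat.Agent.S37 Fermat.Agent.S35 Fermat.Agent.P6
open Fermat.Agent.Jac.K1 (IsKummerPair)
open Fermat.Agent.P5 (h13sK h13sFt)

/-- **(I-1), WILD case**: if some element of `I₁` moves the unit `β`, all the orders of `ū` are
divisible by `p`. -/
theorem h27k_wild {p : ℕ} (hp : p.Prime) (hp2 : p ≠ 2) (M : ℕ) [NeZero M]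
    (haux : auxLevel p ∣ M) (hM : ¬ p ∣ M) :
    haveI : NeZero p := ⟨hp.ne_zero⟩
    ∀ (A : ValuationSubring Kbar) (hA : A.LiesOverPrime p)
      (β : Kbar) (hβ : β ∈ A) (hβi : β⁻¹ ∈ A)
      (hβp : ∀ a ∈ h23vI1 p A, a (β ^ p) = β ^ p)
      (hwild : ¬ ∀ a ∈ h23vI1 p A, a β = β)
      (x : JZero (M * p)) (u : FF (M * p)) (hu : IsKummerPair p x u)
      (hfix : ∀ a ∈ h23vI1 p A, a β = β → gal (M * p) a • u = u)
      (ℓ : ℕ) (hℓ : ℓ.Prime) (hℓN : ¬ ℓ ∣ M * p) (c : ℤ)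
      (hc : heckeOperatorBar (M * p) ⟨ℓ, hℓ⟩ x = c • x)
      (hne : ¬ (p : ℤ) ∣ (ℓ : ℤ) + 1 - c)
      (Q : Place (h13sK A) (h13sFt A M)), (p : ℤ) ∣ h44slOrd A M p u Q := by
  haveI : NeZero p := ⟨hp.ne_zero⟩
  haveI : Fact p.Prime := ⟨hp⟩
  intro A hA β hβ hβi hβp hwild x u hu hfix ℓ hℓ hℓN c hc hne Q
  have hβ0 : β ≠ 0 := by
    intro h0
    apply hwild
    intro a _
    rw [h0, map_zero]
  obtain ⟨b, ζ, δ, -, hbI, hζ, -, -, hB⟩ := h23w_wild hp2 A hA hβ0 hβ hβi hβp hwild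
  exact h27j_rce A M hp hM haux hA hℓ hℓN hζ hB hbI hu c hc hne hfix Q

/-- **a WILD unit exists** at every place over `p`: a unit `β'` of `A` with `β' ^ p` fixed by
`I₁` and `β'` not fixed by `I₁`. -/
def H27kWildUnit (p : ℕ) : Prop :=
  ∀ A : ValuationSubring Kbar, A.LiesOverPrime p →
    ∃ β' : Kbar, β' ∈ A ∧ β'⁻¹ ∈ A ∧ (∀ a ∈ h23vI1 p A, a (β' ^ p) = β' ^ p) ∧
      ¬ ∀ a ∈ h23vI1 p A, a β' = β'

/-- **(I-1), TAME case, from a wild unit**: if `u` is fixed by all of `I₁`, all the orders of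
`ū` are divisible by `p`. -/
theorem h27k_tame {p : ℕ} (hp : p.Prime) (hp2 : p ≠ 2) (hW : H27kWildUnit p) (M : ℕ) [NeZero M]
    (haux : auxLevel p ∣ M) (hM : ¬ p ∣ M) :
    haveI : NeZero p := ⟨hp.ne_zero⟩
    ∀ (A : ValuationSubring Kbar) (hA : A.LiesOverPrime p)
      (x : JZero (M * p)) (u : FF (M * p)) (hu : IsKummerPair p x u)
      (hfix : ∀ a ∈ h23vI1 p A, gal (M * p) a • u = u)
      (ℓ : ℕ) (hℓ : ℓ.Prime) (hℓN : ¬ ℓ ∣ M * p) (c : ℤ)
      (hc : heckeOperatorBar (M * p) ⟨ℓ, hℓ⟩ x = c • x)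
      (hne : ¬ (p : ℤ) ∣ (ℓ : ℤ) + 1 - c)
      (Q : Place (h13sK A) (h13sFt A M)), (p : ℤ) ∣ h44slOrd A M p u Q := by
  haveI : NeZero p := ⟨hp.ne_zero⟩
  intro A hA x u hu hfix ℓ hℓ hℓN c hc hne Q
  obtain ⟨β', hβ', hβi', hβp', hwild'⟩ := hW A hA
  exact h27k_wild hp hp2 M haux hM A hA β' hβ' hβi' hβp' hwild' x u hu
    (fun a ha _ => hfix a ha) ℓ hℓ hℓN c hc hne Q

/-- **(I-1) SLOPE-ZERO, class-level end shape**, from the existence of a wild unit. -/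
theorem h27k_slopeZeroC {p : ℕ} (hW : H27kWildUnit p) : H16tSlopeZeroC p := by
  intro hp hp2 M _ haux hM
  haveI : NeZero p := ⟨hp.ne_zero⟩
  intro A hA β hβ hβi hβp x u hu hfix ℓ hℓ hℓN c hc hne Q
  by_cases htame : ∀ a ∈ h23vI1 p A, a β = β
  · exact h27k_tame hp hp2 hW M haux hM A hA x u hu
      (fun a ha => hfix a ha (htame a ha)) ℓ hℓ hℓN c hc hne Q
  · exact h27k_wild hp hp2 M haux hM A hA β hβ hβi hβp htame x u hu hfix ℓ hℓ hℓN c hc hne Q

end Fermat.Agent.P7
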