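import Fermat.Agent.P7.H3PolyDlogLevel
import Fermat.Agent.P7.H96SepInst
import Fermat.Agent.P7.H16Top
import Fermat.Agent.P7.H10LatticeCusp
import Fermat.Agent.P5.H40SFField

/-!
# Wave 7 (row 38), block (A), DLOG route: the TOP assembly (helper28)

`p ≥ 5` prime, `M` ANY level prime to `p`, `A` a valuation subring of `ℚ̄` over `p`,
`k = ResidueField A`, `N = M p`, `M⁺ = goodLevel p M`.

* `H28tOmCusp p` — **the one open statement of block (A)** (frozen): for a Kummer function `u`
  of a class `x` of level `M p` whose scaled reduction has divisor divisible by `p` on the special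
  fibre of the good level, the coefficient sequence `ω(u) = h3gOm A (M p) u` of `dlog ū` is the
  reduction of a cusp form of weight 2 and level `M`, i.e. lies in `h10wSbar M k`.
* `h28t_kills_sbar` — a Hecke polynomial which kills `S₂(Γ₀(M))` kills `h10wSbar M k`.
* `h28t_resPow_of_theta` — at a good level, `θ ū = 0` gives the reduction form `H76wResPow`
  (SEP `h96e_sep_special` + surjectivity of the reduction).
* `h28t_dlog : H28tOmCusp p → H16tDlog p` — **(I-2)** in the frozen shape of `P7/H16Top.lean`.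

Every declaration is a definition or a proved theorem; nothing is assumed.
-/

set_option autoImplicit false
set_option linter.unusedSectionVars false
set_option linter.unusedVariables false
set_option linter.style.haveILetI false
set_option synthInstance.maxHeartbeats 400000

open AlgebraicCurve ModularCurve IsLocalRing

noncomputable section

namespace Fermat.Agent.P7

open Fermat.Agent.S37 Fermat.Agent.S35 Fermat.Agent.P6
open Fermat.Agent.Red Fermat.Agent.Red.GV Fermat.Agent.Red.GV.Soft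
open Fermat.Agent.Jac.K1 (IsKummerPair)
open Fermat.Agent.P5 (h69vPull h13sK h13sFt h13sIncl h13sRed)

/-- **DLOG, the one open statement (frozen)**: `ω(u) ∈ S̄₂(M)`. -/
def H28tOmCusp (p : ℕ) : Prop :=
  ∀ (hp : p.Prime), 5 ≤ p → ∀ (M : ℕ) [NeZero M], ¬ p ∣ M →
    haveI : NeZero p := ⟨hp.ne_zero⟩
    ∀ A : ValuationSubring Kbar, A.LiesOverPrime p →
    ∀ (x : JZero (M * p)) (u : FF (M * p)), IsKummerPair p x u →
      (∀ Q : Place (h13sK A) (h13sFt A (goodLevel p M)),
        (p : ℤ) ∣ h44slOrd A (goodLevel p M) p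
          (degen (Nat.mul_dvd_mul_right (dvd_goodLevel p M) p) u) Q) →
      h3gOm A (M * p) u ∈ h10wSbar M (ResidueField A)

/-- a Hecke polynomial (variables prime to `M`) which kills `S₂(Γ₀(M))` kills `S̄₂(M)`. -/
theorem h28t_kills_sbar (M : ℕ) [NeZero M] (k : Type*) [Field k]
    (e : MvPolynomial Nat.Primes ℤ) (hvars : ∀ ℓ ∈ e.vars, ¬ (ℓ : ℕ) ∣ M)
    (he : H99wKillsCusp M e) {w : ℕ → k} (hw : w ∈ h10wSbar M k) :
    h3fEval k e w = 0 := by
  unfold h10wSbar at hw
  induction hw using Submodule.span_induction with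
  | mem w hw =>
    obtain ⟨h, c, hc, rfl⟩ := hw
    exact h3f_kills_eval M (Int.castRingHom k) e hvars he h c hc
  | zero => exact map_zero _
  | add a b _ _ ha hb => rw [map_add, ha, hb, add_zero]
  | smul c a _ ha => rw [map_smul, ha, smul_zero]

/-- scaled reductions come down along the degeneracy inclusions. -/
theorem h28t_red_of_degen (A : ValuationSubring Kbar) {N N' : ℕ} [NeZero N] [NeZero N']
    (h : N ∣ N') {u : FF N} {s : LaurentSeries (ResidueField A)}
    (hs : H3gRed A N' (degen h u) s) : H3gRed A N u s := by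
  obtain ⟨hu, c, hc, hm, hi, hr⟩ := hs
  have hcc : degen h (cst N c) = cst N' c := (degen h).commutes c
  have key : cst N' c * degen h u = degen h (cst N c * u) := by
    rw [map_mul, hcc]
  have hu0 : u ≠ 0 := by
    rintro rfl
    exact hu (map_zero _)
  have hm' : cst N c * u ∈ softV A N := by
    rw [← degen_mem_softV_iff A h, ← key]
    exact hm
  have hi' : (cst N c * u)⁻¹ ∈ softV A N := by
    rw [← degen_mem_softV_iff A h, map_inv₀, ← key]
    exact hi
  refine ⟨hu0, c, hc, hm', hi', ?_⟩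
  rw [← hr]
  have e2 : (⟨cst N' c * degen h u, hm⟩ : softV A N') =
      ⟨degen h (cst N c * u), (degen_mem_softV_iff A h _).mpr hm'⟩ := Subtype.ext key
  rw [e2]
  exact (softR_degen A h ⟨cst N c * u, hm'⟩ _).symm

/-- **SEP ⟹ the reduction form**, at a good level. -/
theorem h28t_resPow_of_theta {p : ℕ} (hp : p.Prime) (M : ℕ) [NeZero M] (hM : ¬ p ∣ M)
    (haux : auxLevel p ∣ M) (A : ValuationSubring Kbar) (hA : A.LiesOverPrime p)
    (w : FF (M * p)) (hw : w ≠ 0)
    (hθ : ∀ s : LaurentSeries (ResidueField A), H3gRed A (M * p) w s → h96dTheta s = 0) :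
    haveI : NeZero p := ⟨hp.ne_zero⟩
    H76wResPow A (M * p) p w := by
  haveI : NeZero p := ⟨hp.ne_zero⟩
  obtain ⟨f, hf⟩ := h44sl_exists_red (A := A) (M := M) hp hM hA hw
  have hf' : H3gRed A (M * p) w (h13sIncl A M f) := hf
  have h0 : h96dTheta (h13sIncl A M f) = 0 := hθ _ hf'
  obtain ⟨g, hg⟩ := h96e_sep_special hp M hM haux A hA f h0
  have hf0 : f ≠ 0 := h44sl_red_ne_zero hf
  have hg0 : g ≠ 0 := by
    rintro rfl
    apply hf0
    rw [hg, zero_pow hp.ne_zero]
  obtain ⟨x, hx⟩ := Fermat.Agent.P5.h40f_red_surjective A M hp hM hA g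
  obtain ⟨hw0, c, hc, hm, hi, hr⟩ := hf
  have hd : M ∣ M * p := Dvd.intro p rfl
  have hxs : (x : FF M) ∈ softV A M := gaussV_le_softV A M x.2
  have hG : degen hd (x : FF M) ∈ softV A (M * p) := (degen_mem_softV_iff A hd _).mpr hxs
  have e1 : h13sIncl A M g = h44slR A (M * p) ⟨degen hd (x : FF M), hG⟩ := by
    rw [h44slR_apply, softR_degen A hd ⟨(x : FF M), hxs⟩ hG,
      softR_eq_gaussR A M (x : FF M) hxs x.2, ← hx]
    rfl
  have hg1 : h13sIncl A M g ≠ 0 := by
    intro h
    exact hg0 (h44sl_incl_injective (by rw [h, map_zero]))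
  have e2 : h13sIncl A M f = (h13sIncl A M g) ^ p := by rw [hg, map_pow]
  have e3 : h44slR A (M * p) ⟨cst (M * p) c * w, hm⟩ =
      (h44slR A (M * p) ⟨degen hd (x : FF M), hG⟩) ^ p := by
    rw [hr, e2, e1]
  have e4 : h44slR A (M * p) ⟨degen hd (x : FF M), hG⟩ ≠ 0 := by
    rw [← e1]
    exact hg1
  have key : softR A (M * p) ⟨cst (M * p) c * w, hm⟩ =
      (softR A (M * p) ⟨degen hd (x : FF M), hG⟩) ^ p := e3
  have key0 : softR A (M * p) ⟨degen hd (x : FF M), hG⟩ ≠ 0 := e4
  refine ⟨c, hc, hm, ⟨degen hd (x : FF M), hG⟩, 1, one_ne_zero, key0, ?_⟩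
  rw [key, map_one, one_mul]

/-- **(I-2) DLOG**, in the frozen shape of `P7/H16Top.lean`, from the one open statement. -/
theorem h28t_dlog {p : ℕ} (hO : H28tOmCusp p) : H16tDlog p := by
  intro hp h5 M _ hpM
  haveI : NeZero p := ⟨hp.ne_zero⟩
  intro A hA x u hxu hex hord
  obtain ⟨e, he, hkill, hfix⟩ := hex
  have hdq : M * p ∣ goodLevel p M * p := Nat.mul_dvd_mul_right (dvd_goodLevel p M) p
  have hpM' : ¬ p ∣ goodLevel p M := not_dvd_goodLevel hp hpM
  have hu0 : u ≠ 0 := hxu.ne_zero
  -- `ω(u)` is the reduction of a cusp form of level `M`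
  have hom : h3gOm A (M * p) u ∈ h10wSbar M (ResidueField A) :=
    hO hp h5 M hpM A hA x u hxu hord
  have heM : ∀ ℓ ∈ e.vars, ¬ (ℓ : ℕ) ∣ M := fun ℓ hℓ h => he ℓ hℓ (Dvd.dvd.mul_right h p)
  have hk : h3fEval (ResidueField A) e (h3gOm A (M * p) u) = 0 :=
    h28t_kills_sbar M (ResidueField A) e heM hkill hom
  have heN : ∀ ℓ ∈ e.vars, ¬ (ℓ : ℕ) ∣ M * p * p := by
    intro ℓ hℓ h
    rcases (Nat.Prime.dvd_mul ℓ.2).mp h with h1 | h1
    · exact he ℓ hℓ h1
    · exact he ℓ hℓ (Dvd.dvd.mul_left h1 M)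
  -- `θ = 0` on every scaled reduction of `u`, hence of `degen u`
  have hθ : ∀ s : LaurentSeries (ResidueField A),
      H3gRed A (goodLevel p M * p) (degen hdq u) s → h96dTheta s = 0 := by
    intro s hs
    exact h3g_zero_level A hp hA (M * p) e heN x u hxu hfix hk (h28t_red_of_degen A hdq hs)
  exact h28t_resPow_of_theta hp (goodLevel p M) hpM' (auxLevel_dvd_goodLevel p M) A hA
    (degen hdq u) (h31s_degen_ne_zero hdq hu0) hθ

end Fermat.Agent.P7
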