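import Fermat.Agent.P7.H78PhaseWire
import Fermat.Agent.P7.H90CuspNF

/-!
# P7 (wave 7, S44), block (5b): statement (C) of finding 1353 at the level `M p`, UNCONDITIONAL
(helper90; wiring of helper78's `h78l_const` with the cusp normal forms of `P7/H90CuspNF.lean`)

* `h90k_const` : any two rational node normal forms of `u` (at crossing points `e₁`, `e₂`) have
  congruent slopes modulo `p`;
* `h90k_const_exists` : existence form.
-/

set_option autoImplicit false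
set_option linter.unusedSectionVars false
set_option linter.unusedVariables false
set_option linter.style.longLine false
set_option linter.style.haveILetI false
set_option synthInstance.maxHeartbeats 400000
set_option maxHeartbeats 1600000

open AlgebraicCurve ModularCurve WithZero IsLocalRing Polynomial

noncomputable section

namespace Fermat.Agent.P7

open Fermat.Agent.S37 Fermat.Agent.S37.GalI Fermat.Agent.Red Fermat.Agent.Red.GG
  Fermat.Agent.Red.GV Fermat.Agent.Red.GV.Soft Fermat.Agent.Red.ModelO Fermat.Agent.Red.Kron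
  Fermat.Agent.LGC Fermat.Agent.S35 Fermat.Agent.P6

variable (A : ValuationSubring Kbar) (M : ℕ) {p : ℕ} [NeZero M] [NeZero p]

/-- the smooth normal form at the cusps of `C∞`, in the shape of `h78l_const`. -/
theorem h90k_cuspInf_family (hp : p.Prime) (hM : ¬ p ∣ M) (haux : auxLevel p ∣ M)
    (hA : A.LiesOverPrime p)
    {ζ β : Kbar} {b : GQ} {δ : Kbar}
    (hbreak : H23wBreak p A ζ β b δ) (hb : b ∈ A.inertiaSubgroupIn ℚ)
    (u : FF (M * p)) (hu0 : u ≠ 0)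
    (hord : ∀ v : Place Kbar (FF (M * p)), (p : ℤ) ∣ v.ord u)
    (hfix : ∀ a ∈ h23vI1 p A, a β = β → gal (M * p) a • u = u)
    (n : H78lCuspInf A M hp hA) :
    H84aNFSmooth (h84wB (M * p) b) (h56pTheta A hb)
      (⟨δ, A.nonunits_le hbreak.2.1⟩ : A) p (softV A (M * p))
      (h62yO (chart (M * p) A (jSS M p)⁻¹) n.1 n.2.1.isPrime).toSubring u :=
  h90k_nfSmooth_cuspInf A M hp hM haux hA n.1 n.2.1 n.2.2.1 n.2.2.2 hb _ u hu0
    (fun i _ => exists_val_eq (M * p) (jSS M p)⁻¹ u hu0 p hord i)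
    (h84w_hvar A M hbreak hb u hfix)

/-- the smooth normal form at the cusps of `C₀`, in the shape of `h78l_const`. -/
theorem h90k_cuspZero_family (hp : p.Prime) (hM : ¬ p ∣ M) (haux : auxLevel p ∣ M)
    (hA : A.LiesOverPrime p)
    {ζ β : Kbar} {b : GQ} {δ : Kbar}
    (hbreak : H23wBreak p A ζ β b δ) (hb : b ∈ A.inertiaSubgroupIn ℚ)
    (u : FF (M * p)) (hu0 : u ≠ 0)
    (hord : ∀ v : Place Kbar (FF (M * p)), (p : ℤ) ∣ v.ord u)
    (hfix : ∀ a ∈ h23vI1 p A, a β = β → gal (M * p) a • u = u)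
    (n : H78lCuspZero A M hp hM hA) :
    H84aNFSmooth (h84wB (M * p) b) (h56pTheta A hb)
      (⟨δ, A.nonunits_le hbreak.2.1⟩ : A) p (h85cW0 A M p hp hM hA).toSubring
      (h62yO (chart (M * p) A (jSS M p)⁻¹) n.1 n.2.1.isPrime).toSubring u :=
  h90k_nfSmooth_cuspZero A M hp hM haux hA n.1 n.2.1 n.2.2.1 n.2.2.2 hb _ u hu0
    (fun i _ => exists_val_eq (M * p) (jSS M p)⁻¹ u hu0 p hord i)
    (h84w_hvar A M hbreak hb u hfix)

/-- **(C) at the level `M p`, unconditional**: any two rational node normal forms of `u` have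
congruent slopes modulo `p`. -/
theorem h90k_const (hp : p.Prime) (hM : ¬ p ∣ M) (haux : auxLevel p ∣ M)
    (hA : A.LiesOverPrime p)
    {ζ β : Kbar} (hζ : IsPrimitiveRoot ζ p) {b : GQ} {δ : Kbar}
    (hbreak : H23wBreak p A ζ β b δ) (hb : b ∈ A.inertiaSubgroupIn ℚ)
    (u : FF (M * p)) (hu0 : u ≠ 0)
    (hord : ∀ v : Place Kbar (FF (M * p)), (p : ℤ) ∣ v.ord u)
    (hfix : ∀ a ∈ h23vI1 p A, a β = β → gal (M * p) a • u = u)
    (e₁ e₂ : H78lNode A M hp hM hA) (m₁ m₂ : ℤ) (γP₁ γQ₁ γP₂ γQ₂ : A)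
    (h₁ : H84wNodeNF A M hp hM hA e₁.1 e₁.2.1 hb (⟨δ, A.nonunits_le hbreak.2.1⟩ : A) u
      m₁ γP₁ γQ₁)
    (h₂ : H84wNodeNF A M hp hM hA e₂.1 e₂.2.1 hb (⟨δ, A.nonunits_le hbreak.2.1⟩ : A) u
      m₂ γP₂ γQ₂) :
    (p : ℤ) ∣ m₁ - m₂ :=
  h78l_const A M hp hM haux hA hζ hbreak hb u hu0 hord hfix
    (h90k_cuspInf_family A M hp hM haux hA hbreak hb u hu0 hord hfix)
    (h90k_cuspZero_family A M hp hM haux hA hbreak hb u hu0 hord hfix)
    e₁ e₂ m₁ m₂ γP₁ γQ₁ γP₂ γQ₂ h₁ h₂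

/-- **(C) at the level `M p`, unconditional, existence form.** -/
theorem h90k_const_exists (hp : p.Prime) (hM : ¬ p ∣ M) (haux : auxLevel p ∣ M)
    (hA : A.LiesOverPrime p)
    {ζ β : Kbar} (hζ : IsPrimitiveRoot ζ p) {b : GQ} {δ : Kbar}
    (hbreak : H23wBreak p A ζ β b δ) (hb : b ∈ A.inertiaSubgroupIn ℚ)
    (u : FF (M * p)) (hu0 : u ≠ 0)
    (hord : ∀ v : Place Kbar (FF (M * p)), (p : ℤ) ∣ v.ord u)
    (hfix : ∀ a ∈ h23vI1 p A, a β = β → gal (M * p) a • u = u)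
    (e₁ e₂ : H78lNode A M hp hM hA) :
    ∃ (m₁ m₂ : ℤ) (γP₁ γQ₁ γP₂ γQ₂ : A),
      H84wNodeNF A M hp hM hA e₁.1 e₁.2.1 hb (⟨δ, A.nonunits_le hbreak.2.1⟩ : A) u
        m₁ γP₁ γQ₁ ∧
      H84wNodeNF A M hp hM hA e₂.1 e₂.2.1 hb (⟨δ, A.nonunits_le hbreak.2.1⟩ : A) u
        m₂ γP₂ γQ₂ ∧
      (p : ℤ) ∣ m₁ - m₂ :=
  h78l_const_exists A M hp hM haux hA hζ hbreak hb u hu0 hord hfix
    (h90k_cuspInf_family A M hp hM haux hA hbreak hb u hu0 hord hfix)
    (h90k_cuspZero_family A M hp hM haux hA hbreak hb u hu0 hord hfix) e₁ e₂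

end Fermat.Agent.P7
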