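import Fermat.Agent.P7.H27EisWire
import Fermat.Agent.P7.H19SlopeLinkFix
import Fermat.Agent.P7.H90ConstLevel
import Fermat.Agent.P7.H57NormLevel

/-!
# P7 (wave 7, row 38), block T-TORIC: statement (E) (T-EIS) at the level `M p`, UNCONDITIONAL
(helper5; wiring of helper27's `h27h_eis_of_chart` with the level instances of block (C) and the
slope link of helper19)

`p ∤ M` a prime, `M` a good level (`auxLevel p ∣ M`), `A` over `p`, `b` an inertia element with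
BREAK (`H23wBreak p A ζ β b δ`, helper23), `u` a Kummer representative, fixed by `I_β`, of a
`p`-torsion class `x₀` of level `M p` with `T_ℓ x₀ = c x₀`, `ℓ ∤ M p`, `p ∤ ℓ + 1 - c`
(a non-Eisenstein eigenvalue).

* `h5e_level_node` : `p ∣ ord_e(ū)` at every place `e` of the special fibre at a crossing point.
* `h5e_level_all` : **(E) + (R)**: `p ∣ ord_Q(ū)` at EVERY place `Q` of the special fibre
  (the hypothesis `hs` of `h60g_toric`, helper60).

Nothing is assumed: every statement is proved.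
-/

set_option autoImplicit false
set_option linter.unusedSectionVars false
set_option linter.unusedVariables false
set_option linter.style.longLine false
set_option linter.style.haveILetI false
set_option synthInstance.maxHeartbeats 400000
set_option maxHeartbeats 1600000

open AlgebraicCurve ModularCurve WithZero IsLocalRing Polynomial

noncomputable section

namespace Fermat.Agent.P7

open Fermat.Agent.S37 Fermat.Agent.S37.GalI Fermat.Agent.Red Fermat.Agent.Red.GG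
  Fermat.Agent.Red.GV Fermat.Agent.Red.GV.Soft Fermat.Agent.Red.ModelO Fermat.Agent.Red.Kron
  Fermat.Agent.LGC Fermat.Agent.S35 Fermat.Agent.P5 Fermat.Agent.P6
open Fermat.Agent.Jac.K1 (IsKummerPair)

variable (A : ValuationSubring Kbar) (M : ℕ) {p : ℕ} [NeZero M] [NeZero p]

/-- **(E) at a crossing point**: `p ∣ ord_e(ū)` at the places `e` at the crossing point `e₀`. -/
theorem h5e_level_node (hp : p.Prime) (hM : ¬ p ∣ M) (haux : auxLevel p ∣ M)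
    (hA : A.LiesOverPrime p)
    {ℓ : ℕ} (hℓ : ℓ.Prime) (hℓN : ¬ ℓ ∣ M * p)
    {ζ β : Kbar} (hζ : IsPrimitiveRoot ζ p) {b : GQ} {δ : Kbar}
    (hbreak : H23wBreak p A ζ β b δ) (hb : b ∈ A.inertiaSubgroupIn ℚ)
    {x₀ : JZero (M * p)} {u : FF (M * p)} (hu : IsKummerPair p x₀ u)
    (hfix : ∀ a ∈ h23vI1 p A, a β = β → gal (M * p) a • u = u)
    (c₀ : ℤ) (hc₀ : heckeOperatorBar (M * p) ⟨ℓ, hℓ⟩ x₀ = c₀ • x₀)
    (hne : ¬ (p : ℤ) ∣ (ℓ : ℤ) + 1 - c₀)
    (e₀ : H78lNode A M hp hM hA)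
    (e : Place (h13sK A) (h13sFt A M))
    (he : H85wAt hp hM hA (h62i_mem_soft A M hp hM hA) e e₀.1) :
    (p : ℤ) ∣ h44slOrd A M p u e := by
  classical
  haveI : NeZero ℓ := ⟨hℓ.ne_zero⟩
  set δA : A := ⟨δ, A.nonunits_le hbreak.2.1⟩ with hδA
  have hδ0 : δ ≠ 0 := hbreak.1
  have hδA0 : δA ≠ 0 := fun h => hδ0 (congrArg (fun t : A => (t : Kbar)) h)
  have hδAm : δA ∈ maximalIdeal A := (GG.mem_maximalIdeal_iff A δA).mpr hbreak.2.1
  have hpδ : ∃ m₀ ∈ maximalIdeal A, ((p : ℕ) : A) * δA = δA ^ p * m₀ := by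
    obtain ⟨μ₀, hμ₀, h⟩ := h20b_p_delta A hp hζ hδ0 hbreak.2.2.1
    refine ⟨⟨μ₀, A.nonunits_le hμ₀⟩, (GG.mem_maximalIdeal_iff A _).mpr hμ₀, ?_⟩
    apply Subtype.ext
    push_cast
    exact h
  have hbreakA : H23wBreak p A ζ β b (δA : Kbar) := hbreak
  -- the function `T_ℓ u`
  have hT : IsKummerPair p (heckeOperatorBar (M * p) ⟨ℓ, hℓ⟩ x₀) (h57rT (M * p) ℓ u) :=
    h57l_kummer_T (M * p) ⟨ℓ, hℓ⟩ hu
  have hfixT : ∀ a ∈ h23vI1 p A, a β = β →
      gal (M * p) a • h57rT (M * p) ℓ u = h57rT (M * p) ℓ u := by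
    intro a ha haβ
    rw [h27e_T_gal, hfix a ha haβ]
  have hu0 : u ≠ 0 := hu.1
  have hT0 : h57rT (M * p) ℓ u ≠ 0 := hT.1
  have hord : ∀ v : Place Kbar (FF (M * p)), (p : ℤ) ∣ v.ord u := fun v => hu.dvd_ord v
  have hordT : ∀ v : Place Kbar (FF (M * p)), (p : ℤ) ∣ v.ord (h57rT (M * p) ℓ u) :=
    fun v => hT.dvd_ord v
  have hvar := h84w_hvar A M hbreak hb u hfix
  have hvarT := h84w_hvar A M hbreak hb (h57rT (M * p) ℓ u) hfixT
  have hC := h78l_chart_level A M hp hM hA haux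
  have hθϖ : h56pTheta A hb ((p : ℕ) : A) = ((p : ℕ) : A) := map_natCast _ p
  -- the node normal forms with slope link, at all crossing points
  have hN : ∀ e' : H78lNode A M hp hM hA, _ := fun e' =>
    h19l_nfNode_kummer A M hp hM haux hA e'.1 e'.2.1 e'.2.2.1 e'.2.2.2 hb δA hu hvar
  have hN' : ∀ e' : H78lNode A M hp hM hA, _ := fun e' =>
    h19l_nfNode_kummer A M hp hM haux hA e'.1 e'.2.1 e'.2.2.1 e'.2.2.2 hb δA hT hvarT
  choose m γP γQ hγP hγQ hNF hN50 hsl hfx using hN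
  choose m' γP' γQ' hγP' hγQ' hNF' hN50' hsl' hfx' using hN'
  -- the depth dichotomies, from the node `e₀`
  obtain ⟨ψ, hL2, -⟩ := h84a_L2 hC.hAF hC.hAinf
    (fun π hπ x hx => h86t_Winf_unit A M p hp hA π hπ x hx)
    (fun π hπ x hx => h86t_Winf_nt A M p hp hA π hπ x hx) hC.hA0
    (fun π hπ x hx => h86t_W0_unit A M p hp hM hA π hπ x hx)
    (fun π hπ x hx => h86t_W0_nt A M p hp hM hA π hπ x hx)
    (h84wB (M * p) b) (h56pTheta A hb)
    (fun a => h56p_tau_algebraMap A (M * p) hb a) hp hδAm hpδ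
    (h20n_natCast_ne_zero A p) hθϖ (hNF e₀)
  have hdisc : H78hDisc A (softV A (M * p)) (h85cW0 A M p hp hM hA).toSubring (δA ^ p)
      (h84wB (M * p) b u * u⁻¹) :=
    h78l_disc_node A M hp hM hA haux e₀ (δA ^ p) (ψ ^ p) (pow_ne_zero _ hδA0) _ hL2
  obtain ⟨ψ', hL2', -⟩ := h84a_L2 hC.hAF hC.hAinf
    (fun π hπ x hx => h86t_Winf_unit A M p hp hA π hπ x hx)
    (fun π hπ x hx => h86t_Winf_nt A M p hp hA π hπ x hx) hC.hA0
    (fun π hπ x hx => h86t_W0_unit A M p hp hM hA π hπ x hx)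
    (fun π hπ x hx => h86t_W0_nt A M p hp hM hA π hπ x hx)
    (h84wB (M * p) b) (h56pTheta A hb)
    (fun a => h56p_tau_algebraMap A (M * p) hb a) hp hδAm hpδ
    (h20n_natCast_ne_zero A p) hθϖ (hNF' e₀)
  have hdisc' : H78hDisc A (softV A (M * p)) (h85cW0 A M p hp hM hA).toSubring (δA ^ p)
      (h84wB (M * p) b (h57rT (M * p) ℓ u) * (h57rT (M * p) ℓ u)⁻¹) :=
    h78l_disc_node A M hp hM hA haux e₀ (δA ^ p) (ψ' ^ p) (pow_ne_zero _ hδA0) _ hL2'
  -- the smooth normal forms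
  have hNFinf := h90k_nfInf_all A M hp hM haux hA hb δA u hu0
    (fun i => exists_val_eq (M * p) (jSS M p) u hu0 p hord i)
    (fun i => exists_val_eq (M * p) (jSS M p)⁻¹ u hu0 p hord i) hvar
  have hNFzero := h90k_nfZero_all A M hp hM haux hA hb δA u hu0
    (fun i => exists_val_eq (M * p) (jSS M p) u hu0 p hord i)
    (fun i => exists_val_eq (M * p) (jSS M p)⁻¹ u hu0 p hord i) hvar
  have hNFinf' := h90k_nfInf_all A M hp hM haux hA hb δA (h57rT (M * p) ℓ u) hT0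
    (fun i => exists_val_eq (M * p) (jSS M p) _ hT0 p hordT i)
    (fun i => exists_val_eq (M * p) (jSS M p)⁻¹ _ hT0 p hordT i) hvarT
  have hNFzero' := h90k_nfZero_all A M hp hM haux hA hb δA (h57rT (M * p) ℓ u) hT0
    (fun i => exists_val_eq (M * p) (jSS M p) _ hT0 p hordT i)
    (fun i => exists_val_eq (M * p) (jSS M p)⁻¹ _ hT0 p hordT i) hvarT
  -- the eigen-relation
  obtain ⟨s, hs⟩ := hsl e₀
  obtain ⟨s', hs'⟩ := hsl' e₀
  have hm : (p : ℤ) ∣ m' e₀ - c₀ * m e₀ :=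
    h19l_hm A M hp hM hA hℓ hu c₀ hc₀ e (hs e he) (hs' e he)
  have hfixγ : ∀ a ∈ h23vI1 p A, a β = β →
      a ((γP e₀ : Kbar) / (γQ e₀ : Kbar)) = (γP e₀ : Kbar) / (γQ e₀ : Kbar) :=
    fun a ha haβ => hfx e₀ a ha.1 (hfix a ha haβ)
  have hfixγ' : ∀ a ∈ h23vI1 p A, a β = β →
      a ((γP' e₀ : Kbar) / (γQ' e₀ : Kbar)) = (γP' e₀ : Kbar) / (γQ' e₀ : Kbar) :=
    fun a ha haβ => hfx' e₀ a ha.1 (hfixT a ha haβ)
  have hpm : (p : ℤ) ∣ m e₀ :=
    h27h_eis_of_chart hp hM hA hℓ hℓN hζ hb hbreakA hC hu0 hNFinf hNFzero m γP γQ hNF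
      hdisc hNFinf' hNFzero' m' γP' γQ' hNF' hdisc' e₀ e₀ (hN50 e₀) (hN50' e₀) hfixγ hfixγ'
      hm hne
  exact h19l_ord_of_dvd A M (hs e he) hpm

/-- **(E) + (R) at the level `M p`, unconditional**: for a Kummer representative `u`, fixed by
`I_β`, of a class `x₀` with a non-Eisenstein eigenvalue (`T_ℓ x₀ = c x₀`, `p ∤ ℓ + 1 - c`):
`p ∣ ord_Q(ū)` at every place `Q` of the special fibre. -/
theorem h5e_level_all (hp : p.Prime) (hM : ¬ p ∣ M) (haux : auxLevel p ∣ M)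
    (hA : A.LiesOverPrime p)
    {ℓ : ℕ} (hℓ : ℓ.Prime) (hℓN : ¬ ℓ ∣ M * p)
    {ζ β : Kbar} (hζ : IsPrimitiveRoot ζ p) {b : GQ} {δ : Kbar}
    (hbreak : H23wBreak p A ζ β b δ) (hb : b ∈ A.inertiaSubgroupIn ℚ)
    {x₀ : JZero (M * p)} {u : FF (M * p)} (hu : IsKummerPair p x₀ u)
    (hfix : ∀ a ∈ h23vI1 p A, a β = β → gal (M * p) a • u = u)
    (c₀ : ℤ) (hc₀ : heckeOperatorBar (M * p) ⟨ℓ, hℓ⟩ x₀ = c₀ • x₀)
    (hne : ¬ (p : ℤ) ∣ (ℓ : ℤ) + 1 - c₀)
    (Q : Place (h13sK A) (h13sFt A M)) :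
    (p : ℤ) ∣ h44slOrd A M p u Q :=
  h19l_all_of_nodes A M hp hM haux hA u hu.1 (fun v => hu.dvd_ord v)
    (fun 𝔫 h𝔫 hPinf hP0 e he =>
      h5e_level_node A M hp hM haux hA hℓ hℓN hζ hbreak hb hu hfix c₀ hc₀ hne
        ⟨𝔫, h𝔫, hPinf, hP0⟩ e he) Q

end Fermat.Agent.P7
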