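import Fermat.Agent.P7.H16TopC
import Fermat.Agent.P7.H99TTopGood
import Fermat.Agent.P7.H5EisLevel
import Fermat.Agent.P7.H19EigenClass
import Fermat.Agent.P7.H23BreakW

/-!
# Wave 7 (S44), end shape (I-1) SLOPE-ZERO, UNCONDITIONAL (helper45, prefix `h45y_`)

`h45y_slopeZero : H16tSlopeZero p` (the hypothesis `hS` of `h16t_toricGoodAt` /
`h99w_s44_chain`), for every `p`.

Wiring:

* functions to classes: `h19c_class_of_fun` (helper19): `u ≠ 0`, `p ∣ div u`,
  `T_l u = h ^ p u ^ c` give a class `x₀` with `IsKummerPair p x₀ u` and `T_l x₀ = c x₀`;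
* WILD case (some element of `I₁` moves `β`): BREAK `h23w_wild` (helper23) and the level theorem
  `h5e_level_all` (helper5);
* TAME case (every element of `I₁` fixes `β`): then `u` is fixed by all of `I₁`, and `β` may be
  replaced by ANY unit; `h45y_wild_unit` provides a unit `β'` (a `p`-th root of `1 + p`) with
  `β' ^ p` fixed by `I₁` and `β'` moved by some element of `I₁` (value group of `Fix(I₁)`,
  `h23v_val`: `v(β' - 1) = v(p) / p`), and the wild case applies to `β'`.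

Nothing is assumed: every statement is proved.
-/

set_option autoImplicit false
set_option linter.unusedSectionVars false
set_option linter.unusedVariables false
set_option linter.style.longLine false
set_option linter.style.haveILetI false
set_option synthInstance.maxHeartbeats 400000
set_option maxHeartbeats 1600000

open AlgebraicCurve ModularCurve

noncomputable section

namespace Fermat.Agent.P7

open Fermat.Agent.S37 Fermat.Agent.S35 Fermat.Agent.P6
open Fermat.Agent.Jac.K1 (IsKummerPair)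
open Fermat.Agent.P5 (h13sK h13sFt)

/-- **a wild unit**: a `p`-th root `β` of `1 + p` is a unit of `A`, `β ^ p` is rational, and
some element of `I₁` moves `β`. -/
theorem h45y_wild_unit {p : ℕ} [Fact p.Prime] (hp2 : p ≠ 2) (A : ValuationSubring Kbar)
    (hA : A.LiesOverPrime p) :
    ∃ β : Kbar, β ≠ 0 ∧ β ∈ A ∧ β⁻¹ ∈ A ∧ (∀ a ∈ h23vI1 p A, a (β ^ p) = β ^ p) ∧
      ¬ ∀ a ∈ h23vI1 p A, a β = β := by
  have hp : p.Prime := Fact.out
  have hpA : (p : Kbar) ∈ A.nonunits := hA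
  have hp0 : (p : Kbar) ≠ 0 := by exact_mod_cast hp.ne_zero
  obtain ⟨β, hβ⟩ := IsAlgClosed.exists_pow_nat_eq (1 + (p : Kbar)) hp.pos
  have hv1 : A.valuation (1 + (p : Kbar)) = 1 := h23v_val_one_add hpA
  have hvβ : A.valuation β = 1 := by
    have h1 : A.valuation β ^ p = 1 := by rw [← map_pow, hβ, hv1]
    exact (pow_eq_one_iff_of_nonneg zero_le hp.ne_zero).mp h1
  have hβ0 : β ≠ 0 := by
    intro h
    rw [h, map_zero] at hvβ
    exact zero_ne_one hvβ
  have hβA : β ∈ A := (A.valuation_le_one_iff β).mp hvβ.le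
  have hβA' : β⁻¹ ∈ A := (A.valuation_le_one_iff _).mp (by rw [map_inv₀, hvβ, inv_one])
  refine ⟨β, hβ0, hβA, hβA', ?_, ?_⟩
  · intro a _
    rw [hβ, map_add, map_one, map_natCast]
  · intro hall
    have htA : β - 1 ∈ A := A.sub_mem hβA A.one_mem
    obtain ⟨r, hr⟩ := exists_add_pow_prime_eq hp (1 : A) (⟨β - 1, htA⟩ : A)
    have hr' : β ^ p = 1 + (β - 1) ^ p + p * (β - 1) * (r : Kbar) := by
      have h1 := congrArg (fun z : A => (z : Kbar)) hr
      simp only [one_pow, mul_one] at h1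
      push_cast at h1
      have h2 : (1 : Kbar) + (β - 1) = β := by ring
      rw [h2] at h1
      exact h1
    have hkey : (β - 1) ^ p = (p : Kbar) * (1 - (β - 1) * r) := by
      rw [hβ] at hr'
      linear_combination -hr'
    have htn : β - 1 ∈ A.nonunits := by
      apply Fermat.Agent.Bridge.mem_nonunits_of_pow_mem A (n := p)
      rw [hkey]
      exact Fermat.Agent.Bridge.mul_mem_nonunits_left A hpA
        (sub_mem (one_mem A) (mul_mem htA r.2))
    have hu : A.valuation (1 - (β - 1) * (r : Kbar)) = 1 := by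
      have h1 : (1 - (β - 1) * (r : Kbar)) = 1 + (-((β - 1) * r)) := by ring
      rw [h1]
      exact h23v_val_one_add (Fermat.Agent.Bridge.neg_mem_nonunits A
        (Fermat.Agent.Bridge.mul_mem_nonunits_left A htn r.2))
    have hvt : A.valuation (β - 1) ^ p = A.valuation (p : Kbar) := by
      rw [← map_pow, hkey, map_mul, hu, mul_one]
    have hvp0 : A.valuation (p : Kbar) ≠ 0 := (Valuation.ne_zero_iff _).mpr hp0
    have ht0 : β - 1 ≠ 0 := by
      intro h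
      rw [h, map_zero, zero_pow hp.ne_zero] at hvt
      exact hvp0 hvt.symm
    have htfix : ∀ a ∈ h23vI1 p A, a (β - 1) = β - 1 := by
      intro a ha
      rw [map_sub, map_one, hall a ha]
    obtain ⟨n, hn⟩ := h23v_val hp2 A hA ht0 htfix
    have hlt : A.valuation (p : Kbar) < 1 := (ValuationSubring.mem_nonunits_iff A).mp hpA
    have hpos : 0 < A.valuation (p : Kbar) := zero_lt_iff.mpr hvp0
    have h1 : A.valuation (p : Kbar) ^ (n * (p : ℤ)) = A.valuation (p : Kbar) ^ ((p - 1 : ℕ) : ℤ) := by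
      rw [zpow_mul, ← hn, zpow_natCast, zpow_natCast, ← pow_mul, mul_comm, pow_mul, hvt]
    have h2 : n * (p : ℤ) = ((p - 1 : ℕ) : ℤ) := zpow_right_injective₀ hpos hlt.ne h1
    have h3 : (p : ℤ) ∣ ((p - 1 : ℕ) : ℤ) := ⟨n, by rw [← h2, mul_comm]⟩
    have h4 : p ∣ p - 1 := Int.natCast_dvd_natCast.mp h3
    have h5 : p ≤ p - 1 := Nat.le_of_dvd (Nat.sub_pos_of_lt hp.one_lt) h4
    have h6 := hp.pos
    omega

variable (A : ValuationSubring Kbar) (M : ℕ) {p : ℕ} [NeZero M] [NeZero p]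

/-- **(I-1), class form, wild unit**: `β` a unit with `β ^ p ∈ Fix(I₁)` moved by some element of
`I₁`, `u` a Kummer representative fixed by `I_β` of a class with a non-Eisenstein eigenvalue. -/
theorem h45y_wild (hp : p.Prime) (hp2 : p ≠ 2) (hM : ¬ p ∣ M) (haux : auxLevel p ∣ M)
    (hA : A.LiesOverPrime p)
    {ℓ : ℕ} (hℓ : ℓ.Prime) (hℓN : ¬ ℓ ∣ M * p)
    {β : Kbar} (hβ0 : β ≠ 0) (hβA : β ∈ A) (hβA' : β⁻¹ ∈ A)
    (hβ : ∀ a ∈ h23vI1 p A, a (β ^ p) = β ^ p)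
    (hwild : ¬ ∀ a ∈ h23vI1 p A, a β = β)
    {x₀ : JZero (M * p)} {u : FF (M * p)} (hu : IsKummerPair p x₀ u)
    (hfix : ∀ a ∈ h23vI1 p A, a β = β → gal (M * p) a • u = u)
    (c₀ : ℤ) (hc₀ : heckeOperatorBar (M * p) ⟨ℓ, hℓ⟩ x₀ = c₀ • x₀)
    (hne : ¬ (p : ℤ) ∣ (ℓ : ℤ) + 1 - c₀)
    (Q : Place (h13sK A) (h13sFt A M)) :
    (p : ℤ) ∣ h44slOrd A M p u Q := by
  haveI : Fact p.Prime := ⟨hp⟩
  obtain ⟨b, ζ, δ, hb, hbI, hζ, hbβ, hS, hW⟩ := h23w_wild hp2 A hA hβ0 hβA hβA' hβ hwild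
  exact h5e_level_all A M hp hM haux hA hℓ hℓN hζ hW hbI hu hfix c₀ hc₀ hne Q

/-- **(I-1), class form, all cases**: `β` ANY element with the hypotheses of `H16tSlopeZero`. -/
theorem h45y_class (hp : p.Prime) (hp2 : p ≠ 2) (hM : ¬ p ∣ M) (haux : auxLevel p ∣ M)
    (hA : A.LiesOverPrime p)
    {ℓ : ℕ} (hℓ : ℓ.Prime) (hℓN : ¬ ℓ ∣ M * p)
    {β : Kbar} (hβA : β ∈ A) (hβA' : β⁻¹ ∈ A)
    (hβ : ∀ a ∈ h23vI1 p A, a (β ^ p) = β ^ p)
    {x₀ : JZero (M * p)} {u : FF (M * p)} (hu : IsKummerPair p x₀ u)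
    (hfix : ∀ a ∈ h23vI1 p A, a β = β → gal (M * p) a • u = u)
    (c₀ : ℤ) (hc₀ : heckeOperatorBar (M * p) ⟨ℓ, hℓ⟩ x₀ = c₀ • x₀)
    (hne : ¬ (p : ℤ) ∣ (ℓ : ℤ) + 1 - c₀)
    (Q : Place (h13sK A) (h13sFt A M)) :
    (p : ℤ) ∣ h44slOrd A M p u Q := by
  haveI : Fact p.Prime := ⟨hp⟩
  by_cases htame : ∀ a ∈ h23vI1 p A, a β = β
  · -- TAME: `u` is fixed by all of `I₁`; swap `β` for a wild unit
    obtain ⟨β', hβ'0, hβ'A, hβ'A', hβ'p, hβ'w⟩ := h45y_wild_unit hp2 A hA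
    exact h45y_wild A M hp hp2 hM haux hA hℓ hℓN hβ'0 hβ'A hβ'A' hβ'p hβ'w hu
      (fun a ha _ => hfix a ha (htame a ha)) c₀ hc₀ hne Q
  · -- WILD
    have hβ0 : β ≠ 0 := by
      rintro rfl
      exact htame (fun a _ => map_zero a)
    exact h45y_wild A M hp hp2 hM haux hA hℓ hℓN hβ0 hβA hβA' hβ htame hu hfix c₀ hc₀ hne Q

/-- **(I-1) SLOPE-ZERO, unconditional**: the end shape `H16tSlopeZero p` of T-TOP. -/
theorem h45y_slopeZero (p : ℕ) : H16tSlopeZero p := by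
  intro hp hp2 M _ haux hM
  haveI : NeZero p := ⟨hp.ne_zero⟩
  intro A hA β hβA hβA' hβ u hu0 hord hfix hrel Q
  obtain ⟨l, hl, c, h, hh, hrelu, hne⟩ := hrel
  obtain ⟨x₀, hx₀, hc₀⟩ := h19c_class_of_fun (M * p) l.2 hp.ne_zero hu0 hord c hh hrelu
  exact h45y_class A M hp hp2 hM haux hA l.2 hl hβA hβA' (fun a ha => hβ a ha.1 ha.2)
    hx₀ (fun a ha haβ => hfix a ha.1 ha.2 haβ) c hc₀ hne Q

/-- **(I-1) SLOPE-ZERO, class-level form, unconditional**: the shape `H16tSlopeZeroC p`. -/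
theorem h45y_slopeZeroC (p : ℕ) : H16tSlopeZeroC p := by
  intro hp hp2 M _ haux hM
  haveI : NeZero p := ⟨hp.ne_zero⟩
  intro A hA β hβA hβA' hβ x u hu hfix ℓ hℓ hℓN c hc hne Q
  exact h45y_class A M hp hp2 hM haux hA hℓ hℓN hβA hβA' hβ hu hfix c hc hne Q

/-- **S44 from (I-2) alone** (shape `H16tDlog`): (I-1) is discharged. -/
theorem h45y_s44_of_dlog (hD : ∀ p : ℕ, 5 ≤ p → H16tDlog p)
    (P : FreyPackage) {N : ℕ} (hcond : P.IsConductorLevel N) (hpN : P.p ∣ N)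
    (hirr : WeierstrassCurve.Affine.Point.GaloisRepIsIrreducible (K := AlgebraicClosure ℚ) ℚ
      P.freyCurve P.p)
    (hmod : P.ModularRepOfLevel N) :
    ∃ M : ℕ, M ∣ N ∧ ¬ P.p ∣ M ∧ P.ModularRepOfLevel M :=
  h99w_s44_chain (fun p _ => h45y_slopeZero p) (fun p h5 => h99w_dlogGood_of (hD p h5))
    P hcond hpN hirr hmod

/-- **S44 from (I-2) alone**, good-level shape `H99wDlogGoodAt`: (I-1) is discharged. -/
theorem h45y_s44_of_dlogGood (hD : ∀ p : ℕ, 5 ≤ p → H99wDlogGoodAt p)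
    (P : FreyPackage) {N : ℕ} (hcond : P.IsConductorLevel N) (hpN : P.p ∣ N)
    (hirr : WeierstrassCurve.Affine.Point.GaloisRepIsIrreducible (K := AlgebraicClosure ℚ) ℚ
      P.freyCurve P.p)
    (hmod : P.ModularRepOfLevel N) :
    ∃ M : ℕ, M ∣ N ∧ ¬ P.p ∣ M ∧ P.ModularRepOfLevel M :=
  h99w_s44_chain (fun p _ => h45y_slopeZero p) hD P hcond hpN hirr hmod

end Fermat.Agent.P7
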