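import Fermat.Agent.P7.H3DlogI2
import Fermat.Agent.P7.H45SlopeZero
import Fermat.Agent.P7.H72DlogMidLevel
import Fermat.Agent.P7.H37GapMCusp

/-!
# Wave 7 (row 38), block (A), DLOG route: the FINAL WIRE (helper28, owner of A-DLOG)

(I-1) `H16tSlopeZero p` is closed on main (`h45y_slopeZero`, helper45).  This file reduces the
frozen statement S44 to the THREE open leaves of block (A), each in the shape of the landed
consumers (`h37n_gap` of helper37, `h72w_om_mem_sbar` of helper72), for the ONE space
`V = h37nLL M A Q` (the `k`-span of the reductions of the Gauss-integral functions of level `M`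
regular off the `q`-order place `Q = ∞_M`), `M` ANY level prime to `p ≥ 5`:

* `H28fConst p` (CONST(M), rows DL4-M-CONST / DL4-M-S2-*) : `H37nConst M A Q`;
* `H28fCusp p` (CUSP-ORTH-RED, row DL5-CUSP-ORTH-RED) : the reductions of the integral cusp
  forms of weight 2 and level `M` lie in `Ω(V) = h26gOmega V`;
* `H28fOrth p` (ORTH(M), rows H2-*) : for a Kummer function `u` of level `M p`, pure at the
  good level, `dlog` of some scaled reduction of `u` lies in `Ω(V)`.

* `h28f_dlogIn : H28fConst p → H28fCusp p → H28fOrth p → H3gDlogIn p`;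
* `h28f_dlog   : H28fConst p → H28fCusp p → H28fOrth p → H16tDlog p`;
* `h28f_s44`   : the frozen statement S44 from the three leaves for all `p ≥ 5`.

Every declaration is a definition or a proved theorem; nothing is assumed.
-/

set_option autoImplicit false
set_option linter.unusedSectionVars false
set_option linter.unusedVariables false
set_option linter.style.haveILetI false
set_option synthInstance.maxHeartbeats 400000

open AlgebraicCurve ModularCurve IsLocalRing

noncomputable section

namespace Fermat.Agent.P7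

open Fermat.Agent.S37 Fermat.Agent.S35 Fermat.Agent.P6
open Fermat.Agent.Red Fermat.Agent.Red.GV Fermat.Agent.Red.GV.Soft
open Fermat.Agent.Jac.K1 (IsKummerPair)
open Fermat.Agent.P5 (h69vPull h13sK h13sFt h13sIncl h13sRed)

/-- **leaf CONST(M)** (frozen): a Gauss-integral function of level `M`, regular off `∞_M`,
whose reduction has no term of negative degree, has constant reduction. -/
def H28fConst (p : ℕ) : Prop :=
  ∀ (hp : p.Prime), 5 ≤ p → ∀ (M : ℕ) [NeZero M], ¬ p ∣ M →
    ∀ A : ValuationSubring Kbar, A.LiesOverPrime p →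
    ∀ Q : Place Kbar (FF M),
      (∀ f : FF M, f ≠ 0 → ((f : FF M) : LaurentSeries Kbar).order = Q.ord f) →
      H37nConst M A Q

/-- **leaf CUSP-ORTH-RED** (frozen): the reduction of an integral cusp form of weight 2 and
level `M` is orthogonal to the reductions of the functions regular off `∞_M`. -/
def H28fCusp (p : ℕ) : Prop :=
  ∀ (hp : p.Prime), 5 ≤ p → ∀ (M : ℕ) [NeZero M], ¬ p ∣ M →
    ∀ A : ValuationSubring Kbar, A.LiesOverPrime p →
    ∀ Q : Place Kbar (FF M),
      (∀ f : FF M, f ≠ 0 → ((f : FF M) : LaurentSeries Kbar).order = Q.ord f) →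
      ∀ w ∈ h10wSbarGen M (ResidueField A), h72wSer w ∈ h26gOmega (h37nLL M A Q)

/-- **leaf ORTH(M)** (frozen): `dlog` of a scaled reduction of a Kummer function which is pure
at the good level is orthogonal to the reductions of the functions regular off `∞_M`. -/
def H28fOrth (p : ℕ) : Prop :=
  ∀ (hp : p.Prime), 5 ≤ p → ∀ (M : ℕ) [NeZero M], ¬ p ∣ M →
    haveI : NeZero p := ⟨hp.ne_zero⟩
    ∀ A : ValuationSubring Kbar, A.LiesOverPrime p →
    ∀ Q : Place Kbar (FF M),
      (∀ f : FF M, f ≠ 0 → ((f : FF M) : LaurentSeries Kbar).order = Q.ord f) →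
    ∀ (x : JZero (M * p)) (u : FF (M * p)), IsKummerPair p x u →
      (∀ Q' : Place (h13sK A) (h13sFt A (goodLevel p M)),
        (p : ℤ) ∣ h44slOrd A (goodLevel p M) p
          (degen (Nat.mul_dvd_mul_right (dvd_goodLevel p M) p) u) Q') →
      ∃ s : LaurentSeries (ResidueField A), H3gRed A (M * p) u s ∧
        h96dLog s ∈ h26gOmega (h37nLL M A Q)

/-- **the single input of (I-2)** from the three leaves. -/
theorem h28f_dlogIn {p : ℕ} (hC : H28fConst p) (hU : H28fCusp p) (hO : H28fOrth p) :
    H3gDlogIn p := by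
  intro hp h5 M _ hpM
  haveI : NeZero p := ⟨hp.ne_zero⟩
  intro A hA x u hxu hord
  obtain ⟨Q, hQ⟩ := h37n_place_infty M
  obtain ⟨g, hg⟩ := Fermat.Agent.P5.h26s_genus_generic M
  obtain ⟨hfin, hgap⟩ := h37n_gap M A Q hp hpM hA hQ (hC hp h5 M hpM A hA Q hQ) g hg
  obtain ⟨s, hs, horth⟩ := hO hp h5 M hpM A hA Q hQ x u hxu hord
  exact h72w_om_mem_sbar A hp hA M (h37nLL M A Q) g hg hfin hgap
    (hU hp h5 M hpM A hA Q hQ) (M * p) u hs horth

/-- **(I-2)** in the shape of `P7/H16Top.lean` from the three leaves. -/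
theorem h28f_dlog {p : ℕ} (hC : H28fConst p) (hU : H28fCusp p) (hO : H28fOrth p) :
    H16tDlog p :=
  h3g_dlog_of_in (h28f_dlogIn hC hU hO)

/-- **the frozen statement S44** from the three leaves of block (A). -/
theorem h28f_s44 (hC : ∀ p : ℕ, 5 ≤ p → H28fConst p) (hU : ∀ p : ℕ, 5 ≤ p → H28fCusp p)
    (hO : ∀ p : ℕ, 5 ≤ p → H28fOrth p)
    (P : FreyPackage) {N : ℕ} (hcond : P.IsConductorLevel N) (hpN : P.p ∣ N)
    (hirr : WeierstrassCurve.Affine.Point.GaloisRepIsIrreducible (K := AlgebraicClosure ℚ) ℚ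
      P.freyCurve P.p)
    (hmod : P.ModularRepOfLevel N) :
    ∃ M : ℕ, M ∣ N ∧ ¬ P.p ∣ M ∧ P.ModularRepOfLevel M :=
  h3g_s44_of_in (fun p _ => h45y_slopeZero p)
    (fun p h5 => h28f_dlogIn (hC p h5) (hU p h5) (hO p h5)) P hcond hpN hirr hmod

end Fermat.Agent.P7
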