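import Mathlib
import Fermat.Agent.P7.H38ResGlob
import Fermat.Agent.Red.GFFApprox
import Fermat.Agent.Red.KR.Basic

/-!
# Wave 7, DLOG at the non-good level, step (H2) of finding 1461: DL2 for a norm (helper83)

`F'/F` a finite extension of function fields over an algebraically closed field `K` of
characteristic zero, `ι : F → K((q))` the expansion at the place `oo` of `F`, `f ∈ F` regular off
`oo` with a pole at `oo`, `fv v` the value of `f` at `v ≠ oo`.  For `g' ∈ F'`, `g' ≠ 0`:

  `a₀(f · θ(N g')/N g') = - ∑_{w ∤ oo} ord_w(g') · f(w ∩ F)`      (`N = N_{F'/F}`)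

i.e. the residue identity DL2 (`h38g_resid`, helper38) for the norm of a function of the upper
field, the sum being over places of the UPPER field (landed norm formula
`Red.GFF.sum_fiber_ord_eq_ord_norm`).

* `h83o_ord_norm_eq_sum` : `ord_v (N g') = ∑_{w ∈ S', w ∩ F = v} ord_w g'`.
* `h83o_resid_norm` : the identity, `Algebra F F'` form.
* `h83o_resid_normAlong` : the identity along `φ : F →ₐ[K] F'` (`normAlong`, `restrictAlong`),
  e.g. `φ = degen h : FF M → FF M⁺`.
-/

set_option autoImplicit false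
set_option linter.unusedSectionVars false
set_option linter.style.haveILetI false

open AlgebraicCurve IntermediateField

noncomputable section

namespace Fermat.Agent.P7

section Rel

variable {K F F' : Type*} [Field K] [IsAlgClosed K] [CharZero K] [Field F] [Field F']
  [Algebra K F] [Algebra K F'] [Algebra F F'] [IsScalarTower K F F']
  [FiniteDimensional F F'] [HasPrincipalDivisors K F']

/-- the order of the norm at `v` is the sum of the orders over the places of `S'` above `v`, as
soon as `S'` contains every place above `v` at which `g'` has a zero or a pole. -/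
theorem h83o_ord_norm_eq_sum (x : F') [FiniteDimensional K⟮x⟯ F'] (g' : F') (hg' : g' ≠ 0)
    (S' : Finset (Place K F')) [DecidableEq (Place K F)] (v : Place K F)
    (hS2 : ∀ w : Place K F', w.restrict F = v → w.ord g' ≠ 0 → w ∈ S') :
    v.ord (Algebra.norm F g') = ∑ w ∈ S' with w.restrict F = v, w.ord g' := by
  classical
  rw [← Fermat.Agent.Red.GFF.sum_fiber_ord_eq_ord_norm x v g' hg']
  symm
  refine Finset.sum_subset ?_ ?_
  · intro w hw
    rw [Finset.mem_filter] at hw
    exact Place.mem_fiber.mpr hw.2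
  · intro w hw hnot
    by_contra h0
    have hwv := Place.mem_fiber.mp hw
    exact hnot (Finset.mem_filter.mpr ⟨hS2 w hwv h0, hwv⟩)

variable [HasPrincipalDivisors K F]

/-- **DL2 for a norm.** -/
theorem h83o_resid_norm (x : F') [FiniteDimensional K⟮x⟯ F']
    (ι : F →ₐ[K] LaurentSeries K) (oo : Place K F)
    (hι : ∀ y : F, y ≠ 0 → oo.ord y = (ι y).order)
    (f : F) [FiniteDimensional K⟮f⟯ F]
    (hreg : ∀ v : Place K F, v ≠ oo → 0 ≤ v.ord f) (hpole : oo.ord f < 0)
    (fv : Place K F → K) (hfv : ∀ v : Place K F, v ≠ oo → 0 < v.ord (f - algebraMap K F (fv v)))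
    (g' : F') (hg' : g' ≠ 0) (S' : Finset (Place K F'))
    (hS1 : ∀ w ∈ S', w.restrict F ≠ oo)
    (hS2 : ∀ w : Place K F', w.restrict F ≠ oo → w.ord g' ≠ 0 → w ∈ S') :
    (ι f * h96dLog (ι (Algebra.norm F g'))).coeff 0 =
      -∑ w ∈ S', (w.ord g' : K) * fv (w.restrict F) := by
  classical
  have hN0 : Algebra.norm F g' ≠ 0 := by
    rw [Ne, Algebra.norm_eq_zero_iff]
    exact hg'
  set S : Finset (Place K F) := S'.image (fun w => w.restrict F) with hS
  have hooS : oo ∉ S := by
    intro h
    obtain ⟨w, hw, hwoo⟩ := Finset.mem_image.mp h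
    exact hS1 w hw hwoo
  have hnorm : ∀ v : Place K F, v ≠ oo →
      v.ord (Algebra.norm F g') = ∑ w ∈ S' with w.restrict F = v, w.ord g' := fun v hv =>
    h83o_ord_norm_eq_sum x g' hg' S' v fun w hwv h0 => hS2 w (hwv ▸ hv) h0
  have hS2' : ∀ v : Place K F, v ≠ oo → v.ord (Algebra.norm F g') ≠ 0 → v ∈ S := by
    intro v hv h0
    rw [hnorm v hv] at h0
    obtain ⟨w, hw, -⟩ := Finset.exists_ne_zero_of_sum_ne_zero h0
    rw [Finset.mem_filter] at hw
    exact Finset.mem_image.mpr ⟨w, hw.1, hw.2⟩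
  rw [h38g_resid ι oo hι f hreg hpole fv hfv (Algebra.norm F g') hN0 S hooS hS2']
  congr 1
  rw [← Finset.sum_fiberwise_of_maps_to (s := S') (t := S) (g := fun w => w.restrict F)
    (f := fun w => (w.ord g' : K) * fv (w.restrict F))
    (fun w hw => Finset.mem_image.mpr ⟨w, hw, rfl⟩)]
  refine Finset.sum_congr rfl fun v hv => ?_
  have hvoo : v ≠ oo := fun h => hooS (h ▸ hv)
  rw [hnorm v hvoo, Int.cast_sum, Finset.sum_mul]
  refine Finset.sum_congr rfl fun w hw => ?_
  rw [Finset.mem_filter] at hw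
  rw [hw.2]

end Rel

section Along

variable {K F F' : Type*} [Field K] [IsAlgClosed K] [CharZero K] [Field F] [Field F']
  [Algebra K F] [Algebra K F'] [HasPrincipalDivisors K F] [HasPrincipalDivisors K F']

/-- **DL2 for a norm, `Along` form** (`φ = degen h : FF M → FF M⁺` in the application). -/
theorem h83o_resid_normAlong (φ : F →ₐ[K] F') (hφ : φ.toRingHom.IsIntegral)
    (hfin : FiniteAlong K φ) (x : F') [FiniteDimensional K⟮x⟯ F']
    (ι : F →ₐ[K] LaurentSeries K) (oo : Place K F)
    (hι : ∀ y : F, y ≠ 0 → oo.ord y = (ι y).order)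
    (f : F) [FiniteDimensional K⟮f⟯ F]
    (hreg : ∀ v : Place K F, v ≠ oo → 0 ≤ v.ord f) (hpole : oo.ord f < 0)
    (fv : Place K F → K) (hfv : ∀ v : Place K F, v ≠ oo → 0 < v.ord (f - algebraMap K F (fv v)))
    (g' : F') (hg' : g' ≠ 0) (S' : Finset (Place K F'))
    (hS1 : ∀ w ∈ S', w.restrictAlong φ hφ ≠ oo)
    (hS2 : ∀ w : Place K F', w.restrictAlong φ hφ ≠ oo → w.ord g' ≠ 0 → w ∈ S') :
    (ι f * h96dLog (ι (Fermat.Agent.Red.KR.normAlong φ g'))).coeff 0 =
      -∑ w ∈ S', (w.ord g' : K) * fv (w.restrictAlong φ hφ) := by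
  letI := algebraAlong φ
  haveI := isScalarTower_along φ
  haveI : Module.Finite F F' := hfin
  exact h83o_resid_norm x ι oo hι f hreg hpole fv hfv g' hg' S' hS1 hS2

end Along

end Fermat.Agent.P7
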