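import Mathlib
import Fermat.Agent.P7.H83ResNorm
import Fermat.Agent.P7.H38ResFF
import Fermat.Agent.Red.CH0

/-!
# Wave 7, DLOG at the non-good level, step (H2): DL2 for a norm, instance `FF N → FF M` (helper83)

* `h83o_resid_norm_gen` : `h83o_resid_normAlong` with finiteness of the lower field over `K(x)`
  for some `x` (instead of `K(f)`).
* `h83o_resid_norm_FF` : for `N ∣ M`, `f ∈ FF N` regular off the `q`-order place `oo` of `FF N`
  with a pole there, values `fv` (`ValueAt`), `g' ∈ FF M`, `g' ≠ 0`: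
  `a₀(f · θ(Nm g')/Nm g') = - ∑_{w ∈ S'} ord_w(g') · f(w ∩ FF N)`, `Nm = normAlong (degen h)`,
  `S'` any finite set of places of `FF M` not over `oo` containing the zeros and poles of `g'`
  not over `oo`.
-/

set_option autoImplicit false
set_option linter.unusedSectionVars false
set_option linter.style.haveILetI false

open AlgebraicCurve IntermediateField ModularCurve

noncomputable section

namespace Fermat.Agent.P7

open Fermat.Agent.S24.DiffPlace Fermat.Agent.Red.Desc Fermat.Agent.S37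

section General

variable {K F F' : Type*} [Field K] [IsAlgClosed K] [CharZero K] [Field F] [Field F']
  [Algebra K F] [Algebra K F'] [HasPrincipalDivisors K F] [HasPrincipalDivisors K F']

/-- `h83o_resid_normAlong` with finiteness of `F` over `K(x)` for some `x`. -/
theorem h83o_resid_norm_gen (φ : F →ₐ[K] F') (hφ : φ.toRingHom.IsIntegral)
    (hfin : FiniteAlong K φ) (x' : F') [FiniteDimensional K⟮x'⟯ F']
    (x : F) [FiniteDimensional K⟮x⟯ F]
    (ι : F →ₐ[K] LaurentSeries K) (oo : Place K F)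
    (hι : ∀ y : F, y ≠ 0 → oo.ord y = (ι y).order)
    (f : F) (hreg : ∀ v : Place K F, v ≠ oo → 0 ≤ v.ord f) (hpole : oo.ord f < 0)
    (fv : Place K F → K) (hfv : ∀ v : Place K F, v ≠ oo → 0 < v.ord (f - algebraMap K F (fv v)))
    (g' : F') (hg' : g' ≠ 0) (S' : Finset (Place K F'))
    (hS1 : ∀ w ∈ S', w.restrictAlong φ hφ ≠ oo)
    (hS2 : ∀ w : Place K F', w.restrictAlong φ hφ ≠ oo → w.ord g' ≠ 0 → w ∈ S') :
    (ι f * h96dLog (ι (Fermat.Agent.Red.KR.normAlong φ g'))).coeff 0 =
      -∑ w ∈ S', (w.ord g' : K) * fv (w.restrictAlong φ hφ) := by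
  haveI : FiniteDimensional K⟮f⟯ F :=
    h38f_finite_adjoin x f (transcendental_of_ord_ne_zero oo (by omega))
  exact h83o_resid_normAlong φ hφ hfin x' ι oo hι f hreg hpole fv hfv g' hg' S' hS1 hS2

end General

/-- **DL2 for a norm, `FF N → FF M`.** -/
theorem h83o_resid_norm_FF {N M : ℕ} [NeZero N] [NeZero M] (h : N ∣ M)
    (oo : Place Kbar (FF N))
    (hoo : ∀ y : FF N, y ≠ 0 → oo.ord y = ((y : FF N) : LaurentSeries Kbar).order)
    (f : FF N) (hreg : ∀ v : Place Kbar (FF N), v ≠ oo → 0 ≤ v.ord f) (hpole : oo.ord f < 0)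
    (fv : Place Kbar (FF N) → Kbar)
    (hfv : ∀ v : Place Kbar (FF N), v ≠ oo → ValueAt v f (fv v))
    (g' : FF M) (hg' : g' ≠ 0) (S' : Finset (Place Kbar (FF M)))
    (hS1 : ∀ w ∈ S', w.restrictAlong (degen h) (Fermat.Agent.Red.CH0.isIntegral_degen h) ≠ oo)
    (hS2 : ∀ w : Place Kbar (FF M),
      w.restrictAlong (degen h) (Fermat.Agent.Red.CH0.isIntegral_degen h) ≠ oo →
        w.ord g' ≠ 0 → w ∈ S') :
    (((f : FF N) : LaurentSeries Kbar) *
        h96dLog (((Fermat.Agent.Red.KR.normAlong (degen h) g' : FF N)) :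
          LaurentSeries Kbar)).coeff 0 =
      -∑ w ∈ S', (w.ord g' : Kbar) *
        fv (w.restrictAlong (degen h) (Fermat.Agent.Red.CH0.isIntegral_degen h)) := by
  haveI := Fermat.Agent.Red.HKMod.finiteDimensional_jBar N
  haveI := Fermat.Agent.Red.HKMod.finiteDimensional_jBar M
  haveI := Fermat.Agent.Red.HKMod.hasPrincipalDivisors_FF N
  haveI := Fermat.Agent.Red.HKMod.hasPrincipalDivisors_FF M
  have hfv' : ∀ v : Place Kbar (FF N), v ≠ oo →
      0 < v.ord (f - algebraMap Kbar (FF N) (fv v)) := fun v hv =>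
    h38g_ord_pos_of_nonunits v _ (h38g_sub_const_ne_zero oo f hpole (fv v)) (hfv v hv)
  exact h83o_resid_norm_gen (degen h) (Fermat.Agent.Red.CH0.isIntegral_degen h)
    (Fermat.Agent.Red.CH0.finiteAlong_degen h) (Fermat.Agent.S24.jBar M) (Fermat.Agent.S24.jBar N)
    (modularFunctionFieldBar N).val oo hoo f hreg hpole fv hfv' g' hg' S' hS1 hS2

end Fermat.Agent.P7
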