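import Mathlib
import Fermat.Agent.P7.H83ResNormFF
import Fermat.Agent.P7.H38ResFFAll

/-!
# Wave 7, DLOG at the non-good level, step (H2): DL2 for a norm, WITHOUT the pole hypothesis
(helper83)

Same statements as `P7/H83ResNorm`, `P7/H83ResNormFF`, on top of helper38's
`h38g_resid_gen_all` / `h38g_resid_FF_all`: `f` is any function of the lower field regular off
`oo` (constants included), so the consumer ORTH(M) needs no case split.

* `h83o_image_data` : the image `S` of `S'` in the places of the lower field satisfies the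
  hypotheses of DL2 for `N g'`, and the two sums agree.
* `h83o_resid_norm_all` (`Algebra F F'` form), `h83o_resid_normAlong_all` (`Along` form),
  `h83o_resid_norm_FF_all` (`FF N → FF M`, `ValueAt` vocabulary).
* `h83o_ord_normAlong_eq_sum`, `h83o_ord_normAlong_oo` : orders of the norm (`Along` form).
-/

set_option autoImplicit false
set_option linter.unusedSectionVars false
set_option linter.style.haveILetI false

open AlgebraicCurve IntermediateField ModularCurve

noncomputable section

namespace Fermat.Agent.P7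

open Fermat.Agent.S24.DiffPlace Fermat.Agent.Red.Desc Fermat.Agent.S37

section Rel

variable {K F F' : Type*} [Field K] [IsAlgClosed K] [CharZero K] [Field F] [Field F']
  [Algebra K F] [Algebra K F'] [Algebra F F'] [IsScalarTower K F F']
  [FiniteDimensional F F'] [HasPrincipalDivisors K F']

/-- the bookkeeping of the norm: the image `S` of `S'` downstairs contains the zeros and poles
of `N g'` off `oo`, avoids `oo`, and the weighted sums agree. -/
theorem h83o_image_data [DecidableEq (Place K F)] (x : F') [FiniteDimensional K⟮x⟯ F']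
    (oo : Place K F) (fv : Place K F → K) (g' : F') (hg' : g' ≠ 0) (S' : Finset (Place K F'))
    (hS1 : ∀ w ∈ S', w.restrict F ≠ oo)
    (hS2 : ∀ w : Place K F', w.restrict F ≠ oo → w.ord g' ≠ 0 → w ∈ S') :
    oo ∉ S'.image (fun w => w.restrict F) ∧
    (∀ v : Place K F, v ≠ oo → v.ord (Algebra.norm F g') ≠ 0 →
      v ∈ S'.image (fun w => w.restrict F)) ∧
    ∑ v ∈ S'.image (fun w => w.restrict F), (v.ord (Algebra.norm F g') : K) * fv v =
      ∑ w ∈ S', (w.ord g' : K) * fv (w.restrict F) := by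
  classical
  have hooS : oo ∉ S'.image (fun w => w.restrict F) := by
    intro h
    obtain ⟨w, hw, hwoo⟩ := Finset.mem_image.mp h
    exact hS1 w hw hwoo
  have hnorm : ∀ v : Place K F, v ≠ oo →
      v.ord (Algebra.norm F g') = ∑ w ∈ S' with w.restrict F = v, w.ord g' := fun v hv =>
    h83o_ord_norm_eq_sum x g' hg' S' v fun w hwv h0 => hS2 w (hwv ▸ hv) h0
  refine ⟨hooS, ?_, ?_⟩
  · intro v hv h0
    rw [hnorm v hv] at h0
    obtain ⟨w, hw, -⟩ := Finset.exists_ne_zero_of_sum_ne_zero h0
    rw [Finset.mem_filter] at hw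
    exact Finset.mem_image.mpr ⟨w, hw.1, hw.2⟩
  · rw [← Finset.sum_fiberwise_of_maps_to (s := S') (t := S'.image (fun w => w.restrict F))
      (g := fun w => w.restrict F) (f := fun w => (w.ord g' : K) * fv (w.restrict F))
      (fun w hw => Finset.mem_image.mpr ⟨w, hw, rfl⟩)]
    refine Finset.sum_congr rfl fun v hv => ?_
    have hvoo : v ≠ oo := fun h => hooS (h ▸ hv)
    rw [hnorm v hvoo, Int.cast_sum, Finset.sum_mul]
    refine Finset.sum_congr rfl fun w hw => ?_
    rw [Finset.mem_filter] at hw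
    rw [hw.2]

variable [HasPrincipalDivisors K F]

/-- **DL2 for a norm, all `f` regular off `oo`.** -/
theorem h83o_resid_norm_all (x' : F') [FiniteDimensional K⟮x'⟯ F']
    (x : F) [FiniteDimensional K⟮x⟯ F]
    (ι : F →ₐ[K] LaurentSeries K) (oo : Place K F)
    (hι : ∀ y : F, y ≠ 0 → oo.ord y = (ι y).order)
    (f : F) (hreg : ∀ v : Place K F, v ≠ oo → 0 ≤ v.ord f)
    (fv : Place K F → K)
    (hfv : ∀ v : Place K F, v ≠ oo →
      f - algebraMap K F (fv v) ∈ v.toValuationSubring.nonunits)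
    (g' : F') (hg' : g' ≠ 0) (S' : Finset (Place K F'))
    (hS1 : ∀ w ∈ S', w.restrict F ≠ oo)
    (hS2 : ∀ w : Place K F', w.restrict F ≠ oo → w.ord g' ≠ 0 → w ∈ S') :
    (ι f * h96dLog (ι (Algebra.norm F g'))).coeff 0 =
      -∑ w ∈ S', (w.ord g' : K) * fv (w.restrict F) := by
  classical
  have hN0 : Algebra.norm F g' ≠ 0 := by
    rw [Ne, Algebra.norm_eq_zero_iff]
    exact hg'
  obtain ⟨h1, h2, h3⟩ := h83o_image_data x' oo fv g' hg' S' hS1 hS2
  rw [h38g_resid_gen_all x ι oo hι f hreg fv hfv (Algebra.norm F g') hN0 _ h1 h2, h3]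

end Rel

section Along

variable {K F F' : Type*} [Field K] [IsAlgClosed K] [CharZero K] [Field F] [Field F']
  [Algebra K F] [Algebra K F'] [HasPrincipalDivisors K F']

/-- the order of the norm at `v`, `Along` form. -/
theorem h83o_ord_normAlong_eq_sum [DecidableEq (Place K F)] (φ : F →ₐ[K] F')
    (hφ : φ.toRingHom.IsIntegral) (hfin : FiniteAlong K φ) (x : F') [FiniteDimensional K⟮x⟯ F']
    (g' : F') (hg' : g' ≠ 0) (S' : Finset (Place K F')) (v : Place K F)
    (hS2 : ∀ w : Place K F', w.restrictAlong φ hφ = v → w.ord g' ≠ 0 → w ∈ S') :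
    v.ord (Fermat.Agent.Red.KR.normAlong φ g') =
      ∑ w ∈ S' with w.restrictAlong φ hφ = v, w.ord g' := by
  letI := algebraAlong φ
  haveI := isScalarTower_along φ
  haveI : Module.Finite F F' := hfin
  exact h83o_ord_norm_eq_sum x g' hg' S' v hS2

/-- the order of the norm at `v` when `g'` has a zero or a pole at ONE place `w₀` over `v` at
most: `ord_v (N g') = ord_{w₀} g'`. -/
theorem h83o_ord_normAlong_single (φ : F →ₐ[K] F')
    (hφ : φ.toRingHom.IsIntegral) (hfin : FiniteAlong K φ) (x : F') [FiniteDimensional K⟮x⟯ F']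
    (g' : F') (hg' : g' ≠ 0) (v : Place K F) (w₀ : Place K F')
    (hw₀ : w₀.restrictAlong φ hφ = v)
    (hoff : ∀ w : Place K F', w.restrictAlong φ hφ = v → w ≠ w₀ → w.ord g' = 0) :
    v.ord (Fermat.Agent.Red.KR.normAlong φ g') = w₀.ord g' := by
  classical
  rw [h83o_ord_normAlong_eq_sum φ hφ hfin x g' hg' {w₀} v (fun w hw h0 => by
    by_contra hne
    exact h0 (hoff w hw fun h => hne (by rw [h]; exact Finset.mem_singleton_self _))),
    Finset.filter_true_of_mem (fun w hw => by rw [Finset.mem_singleton.mp hw]; exact hw₀),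
    Finset.sum_singleton]

/-- the norm of a function without zero or pole above `v` has no zero or pole at `v`. -/
theorem h83o_ord_normAlong_eq_zero (φ : F →ₐ[K] F')
    (hφ : φ.toRingHom.IsIntegral) (hfin : FiniteAlong K φ) (x : F') [FiniteDimensional K⟮x⟯ F']
    (g' : F') (hg' : g' ≠ 0) (v : Place K F)
    (hoff : ∀ w : Place K F', w.restrictAlong φ hφ = v → w.ord g' = 0) :
    v.ord (Fermat.Agent.Red.KR.normAlong φ g') = 0 := by
  classical
  rw [h83o_ord_normAlong_eq_sum φ hφ hfin x g' hg' ∅ v (fun w hw h0 => absurd (hoff w hw) h0)]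
  simp

/-- a zero (or pole) of the norm at `v` comes from a zero (or pole) of `g'` above `v`. -/
theorem h83o_exists_of_ord_normAlong_ne_zero (φ : F →ₐ[K] F')
    (hφ : φ.toRingHom.IsIntegral) (hfin : FiniteAlong K φ) (x : F') [FiniteDimensional K⟮x⟯ F']
    (g' : F') (hg' : g' ≠ 0) (v : Place K F)
    (hv : v.ord (Fermat.Agent.Red.KR.normAlong φ g') ≠ 0) :
    ∃ w : Place K F', w.restrictAlong φ hφ = v ∧ w.ord g' ≠ 0 := by
  by_contra hcon
  push Not at hcon
  exact hv (h83o_ord_normAlong_eq_zero φ hφ hfin x g' hg' v hcon)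

variable [HasPrincipalDivisors K F]

/-- **DL2 for a norm, `Along` form, all `f` regular off `oo`.** -/
theorem h83o_resid_normAlong_all (φ : F →ₐ[K] F') (hφ : φ.toRingHom.IsIntegral)
    (hfin : FiniteAlong K φ) (x' : F') [FiniteDimensional K⟮x'⟯ F']
    (x : F) [FiniteDimensional K⟮x⟯ F]
    (ι : F →ₐ[K] LaurentSeries K) (oo : Place K F)
    (hι : ∀ y : F, y ≠ 0 → oo.ord y = (ι y).order)
    (f : F) (hreg : ∀ v : Place K F, v ≠ oo → 0 ≤ v.ord f)
    (fv : Place K F → K)
    (hfv : ∀ v : Place K F, v ≠ oo →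
      f - algebraMap K F (fv v) ∈ v.toValuationSubring.nonunits)
    (g' : F') (hg' : g' ≠ 0) (S' : Finset (Place K F'))
    (hS1 : ∀ w ∈ S', w.restrictAlong φ hφ ≠ oo)
    (hS2 : ∀ w : Place K F', w.restrictAlong φ hφ ≠ oo → w.ord g' ≠ 0 → w ∈ S') :
    (ι f * h96dLog (ι (Fermat.Agent.Red.KR.normAlong φ g'))).coeff 0 =
      -∑ w ∈ S', (w.ord g' : K) * fv (w.restrictAlong φ hφ) := by
  letI := algebraAlong φ
  haveI := isScalarTower_along φ
  haveI : Module.Finite F F' := hfin
  exact h83o_resid_norm_all x' x ι oo hι f hreg fv hfv g' hg' S' hS1 hS2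

end Along

/-- **DL2 for a norm, `FF N → FF M`, all `f` regular off `oo`.** -/
theorem h83o_resid_norm_FF_all {N M : ℕ} [NeZero N] [NeZero M] (h : N ∣ M)
    (oo : Place Kbar (FF N))
    (hoo : ∀ y : FF N, y ≠ 0 → oo.ord y = ((y : FF N) : LaurentSeries Kbar).order)
    (f : FF N) (hreg : ∀ v : Place Kbar (FF N), v ≠ oo → 0 ≤ v.ord f)
    (fv : Place Kbar (FF N) → Kbar)
    (hfv : ∀ v : Place Kbar (FF N), v ≠ oo → ValueAt v f (fv v))
    (g' : FF M) (hg' : g' ≠ 0) (S' : Finset (Place Kbar (FF M)))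
    (hS1 : ∀ w ∈ S', w.restrictAlong (degen h) (Fermat.Agent.Red.CH0.isIntegral_degen h) ≠ oo)
    (hS2 : ∀ w : Place Kbar (FF M),
      w.restrictAlong (degen h) (Fermat.Agent.Red.CH0.isIntegral_degen h) ≠ oo →
        w.ord g' ≠ 0 → w ∈ S') :
    (((f : FF N) : LaurentSeries Kbar) *
        h96dLog (((Fermat.Agent.Red.KR.normAlong (degen h) g' : FF N)) :
          LaurentSeries Kbar)).coeff 0 =
      -∑ w ∈ S', (w.ord g' : Kbar) *
        fv (w.restrictAlong (degen h) (Fermat.Agent.Red.CH0.isIntegral_degen h)) := by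
  haveI := Fermat.Agent.Red.HKMod.finiteDimensional_jBar N
  haveI := Fermat.Agent.Red.HKMod.finiteDimensional_jBar M
  haveI := Fermat.Agent.Red.HKMod.hasPrincipalDivisors_FF N
  haveI := Fermat.Agent.Red.HKMod.hasPrincipalDivisors_FF M
  exact h83o_resid_normAlong_all (degen h) (Fermat.Agent.Red.CH0.isIntegral_degen h)
    (Fermat.Agent.Red.CH0.finiteAlong_degen h) (Fermat.Agent.S24.jBar M)
    (Fermat.Agent.S24.jBar N) (modularFunctionFieldBar N).val oo hoo f hreg fv hfv g' hg' S'
    hS1 hS2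

/-- orders of the norm along `degen`: a zero or pole of `Nm g'` at `v` comes from a zero or
pole of `g'` at a place of `FF M` over `v`. -/
theorem h83o_exists_of_ord_norm_FF {N M : ℕ} [NeZero N] [NeZero M] (h : N ∣ M)
    (g' : FF M) (hg' : g' ≠ 0) (v : Place Kbar (FF N))
    (hv : v.ord (Fermat.Agent.Red.KR.normAlong (degen h) g') ≠ 0) :
    ∃ w : Place Kbar (FF M),
      w.restrictAlong (degen h) (Fermat.Agent.Red.CH0.isIntegral_degen h) = v ∧
        w.ord g' ≠ 0 := by
  haveI := Fermat.Agent.Red.HKMod.finiteDimensional_jBar M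
  haveI := Fermat.Agent.Red.HKMod.hasPrincipalDivisors_FF M
  exact h83o_exists_of_ord_normAlong_ne_zero (degen h)
    (Fermat.Agent.Red.CH0.isIntegral_degen h) (Fermat.Agent.Red.CH0.finiteAlong_degen h)
    (Fermat.Agent.S24.jBar M) g' hg' v hv

/-- the order of `Nm g'` at `v` when `g'` has a zero or pole at one place `w₀` over `v` at
most. -/
theorem h83o_ord_norm_FF_single {N M : ℕ} [NeZero N] [NeZero M] (h : N ∣ M)
    (g' : FF M) (hg' : g' ≠ 0) (v : Place Kbar (FF N)) (w₀ : Place Kbar (FF M))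
    (hw₀ : w₀.restrictAlong (degen h) (Fermat.Agent.Red.CH0.isIntegral_degen h) = v)
    (hoff : ∀ w : Place Kbar (FF M),
      w.restrictAlong (degen h) (Fermat.Agent.Red.CH0.isIntegral_degen h) = v → w ≠ w₀ →
        w.ord g' = 0) :
    v.ord (Fermat.Agent.Red.KR.normAlong (degen h) g') = w₀.ord g' := by
  haveI := Fermat.Agent.Red.HKMod.finiteDimensional_jBar M
  haveI := Fermat.Agent.Red.HKMod.hasPrincipalDivisors_FF M
  exact h83o_ord_normAlong_single (degen h)
    (Fermat.Agent.Red.CH0.isIntegral_degen h) (Fermat.Agent.Red.CH0.finiteAlong_degen h)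
    (Fermat.Agent.S24.jBar M) g' hg' v w₀ hw₀ hoff

end Fermat.Agent.P7
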