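import Fermat.Agent.P7.H57SymTr
import Fermat.Agent.P7.H83ResNormAll

/-!
# Wave 7 (S44), DLOG at the non-good level, ORTH(M): GOING-UP for residue discs and the DISC
step of the norm half, by TRANSFER (helper31, prefix `h31d_`)

`N ∣ M`, `M` a level with a reduction map of places `r` (`H13sIsRed A M r`, e.g. a good level
`M = goodLevel p N`), `π = degen : F_N → F_M`.

* `h31d_goingUp` : **going-up for residue discs.**  If the restriction of a place `v` of `F_M`
  lies in the residue disc of a place `w₀` of `F_N` (`SameRed` at the level `N`), then `v` lies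
  in the residue disc of some place `c` of `F_M` over `w₀`: `r c = r v`.
* `h31d_disc` : the same for a place `v` conjugate (same restriction to `F_N`) to a place `v'`
  in the disc of `c₀`.
* `h31d_norm_ord_eq_zero` : **DISC.**  If `g'` has no zero and no pole in the discs of the
  places over `w₀`, then `Nm g'` has no zero and no pole in the disc of `w₀`.
* `h31d_degen_norm_ord_eq_zero` : the same for `π (Nm g')` on the disc of any place over `w₀`.

Only the conservation of number (`ifaceTransferRed`), `h69w_restrict_sameRed`, the fibres of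
`r` and the norm-order formula are used: NO exact function, NO residue degree.

Every declaration is a proved theorem; nothing is assumed.
-/

set_option autoImplicit false
set_option linter.unusedSectionVars false
set_option linter.unusedVariables false
set_option linter.style.haveILetI false

open AlgebraicCurve ModularCurve IsLocalRing

noncomputable section

namespace Fermat.Agent.P7

open Fermat.Agent.S37 Fermat.Agent.Jac.K1 Fermat.Agent.Red.HKMod Fermat.Agent.Red.CH0
open Fermat.Agent.Red.GV Fermat.Agent.Red.GV.Soft Fermat.Agent.P5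

variable {N M : ℕ} [NeZero N] [NeZero M] {A : ValuationSubring Kbar}

/-- a place where the pull-back of `[w₀]` does not vanish lies over `w₀`. -/
theorem h31d_restrict_of_pull_ne_zero (h : N ∣ M) (w₀ : Place Kbar (FF N))
    (c : Place Kbar (FF M)) (hc : h57pPull h (Finsupp.single w₀ (1 : ℤ)) c ≠ 0) :
    c.restrictAlong (degen h) (isIntegral_degen h) = w₀ := by
  classical
  haveI := Fermat.Agent.Red.HKMod.hasPrincipalDivisors_FF M
  by_contra hne
  apply hc
  show Divisor.pullbackAlong (degen h) (isIntegral_degen h) _ c = 0
  rw [Divisor.pullbackAlong_apply, Finsupp.single_apply, if_neg (fun e => hne e.symm), mul_zero]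

/-- **GOING-UP for residue discs**: a place of `F_M` whose restriction lies in the residue disc
of `w₀` lies in the residue disc of a place over `w₀`. -/
theorem h31d_goingUp (h : N ∣ M) {r : Place Kbar (FF M) → Place (h13sK A) (h13sFt A M)}
    (hr : H13sIsRed A M r) (v : Place Kbar (FF M)) (w₀ : Place Kbar (FF N))
    (hs : SameRed A (v.restrictAlong (degen h) (isIntegral_degen h)) w₀) :
    ∃ c : Place Kbar (FF M),
      c.restrictAlong (degen h) (isIntegral_degen h) = w₀ ∧ r c = r v := by
  classical
  haveI := Fermat.Agent.Red.HKMod.hasPrincipalDivisors_FF M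
  set w := v.restrictAlong (degen h) (isIntegral_degen h) with hw
  have h1 : h60rPush r (h57pPull h (Finsupp.single w (1 : ℤ) - Finsupp.single w₀ (1 : ℤ))) = 0 :=
    h60r_push_eq_zero_of_mem hr (h57p_pull_mem_redKer h A (single_sub_single_mem_redKer hs))
  rw [map_sub, map_sub, sub_eq_zero] at h1
  have h2 : 0 < h60rPush r (h57pPull h (Finsupp.single w (1 : ℤ))) (r v) :=
    h57s_mult_pos h r v
  rw [h1] at h2
  by_contra hcon
  simp only [not_exists, not_and] at hcon
  have h3 : h60rPush r (h57pPull h (Finsupp.single w₀ (1 : ℤ))) (r v) = 0 := by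
    rw [h60r_push_apply]
    refine h57k_push_eq_zero_of_fibre _ _ fun c hc => ?_
    by_contra hne
    exact hcon c (h31d_restrict_of_pull_ne_zero h w₀ c hne) hc
  rw [h3] at h2
  exact lt_irrefl _ h2

/-- **GOING-UP, conjugate form**: if `v'` lies in the disc of `c₀` and `v` has the same
restriction as `v'`, then `v` lies in the disc of a place over the place below `c₀`. -/
theorem h31d_disc (h : N ∣ M) {r : Place Kbar (FF M) → Place (h13sK A) (h13sFt A M)}
    (hr : H13sIsRed A M r) (v v' c₀ : Place Kbar (FF M))
    (hvv : v.restrictAlong (degen h) (isIntegral_degen h) =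
      v'.restrictAlong (degen h) (isIntegral_degen h))
    (hs : r v' = r c₀) :
    ∃ c : Place Kbar (FF M),
      c.restrictAlong (degen h) (isIntegral_degen h) =
        c₀.restrictAlong (degen h) (isIntegral_degen h) ∧ r c = r v := by
  have hs1 : SameRed A v' c₀ := (hr.2.1 v' c₀).mp hs
  have hs2 := h69w_restrict_sameRed A (degen h) (isIntegral_degen h) (degen_jBar h) hs1
  rw [← hvv] at hs2
  exact h31d_goingUp h hr v _ hs2

/-- **DISC**: if `g'` has no zero and no pole in the residue discs of the places over `w₀`, then
its norm has no zero and no pole in the residue disc of `w₀`. -/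
theorem h31d_norm_ord_eq_zero (h : N ∣ M)
    {r : Place Kbar (FF M) → Place (h13sK A) (h13sFt A M)} (hr : H13sIsRed A M r)
    (g' : FF M) (hg' : g' ≠ 0) (w₀ : Place Kbar (FF N))
    (hoff : ∀ c v : Place Kbar (FF M),
      c.restrictAlong (degen h) (isIntegral_degen h) = w₀ → r v = r c → v.ord g' = 0)
    (w : Place Kbar (FF N)) (hw : SameRed A w w₀) :
    w.ord (Fermat.Agent.Red.KR.normAlong (degen h) g') = 0 := by
  by_contra hne
  obtain ⟨v, hv, hvg⟩ := h83o_exists_of_ord_norm_FF h g' hg' w hne
  have hs : SameRed A (v.restrictAlong (degen h) (isIntegral_degen h)) w₀ := by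
    rw [hv]
    exact hw
  obtain ⟨c, hc, hrc⟩ := h31d_goingUp h hr v w₀ hs
  exact hvg (hoff c v hc hrc.symm)

/-- **DISC, upper level**: if `g'` has no zero and no pole in the residue discs of the places
over the place below `c₀`, then `π (Nm g')` has no zero and no pole in the residue disc of
`c₀`. -/
theorem h31d_degen_norm_ord_eq_zero (h : N ∣ M)
    {r : Place Kbar (FF M) → Place (h13sK A) (h13sFt A M)} (hr : H13sIsRed A M r)
    (g' : FF M) (hg' : g' ≠ 0) (c₀ : Place Kbar (FF M))
    (hoff : ∀ c v : Place Kbar (FF M),
      c.restrictAlong (degen h) (isIntegral_degen h) =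
        c₀.restrictAlong (degen h) (isIntegral_degen h) → r v = r c → v.ord g' = 0)
    (v' : Place Kbar (FF M)) (hv' : r v' = r c₀) :
    v'.ord (degen h (Fermat.Agent.Red.KR.normAlong (degen h) g')) = 0 := by
  haveI := Fermat.Agent.Red.HKMod.hasPrincipalDivisors_FF M
  have hs1 : SameRed A v' c₀ := (hr.2.1 v' c₀).mp hv'
  have hs2 := h69w_restrict_sameRed A (degen h) (isIntegral_degen h) (degen_jBar h) hs1
  have h0 := h31d_norm_ord_eq_zero h hr g' hg' _ hoff _ hs2
  rw [Place.ord_restrictAlong (degen h) (isIntegral_degen h) v', h0, mul_zero]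

end Fermat.Agent.P7
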