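import Fermat.Agent.P5.H26GenusFinal
import Fermat.Agent.P5.H68RRLarge
import Fermat.Agent.P5.H50LinkE0
import Fermat.Agent.P5.H42SFpd
import Fermat.Agent.P5.H13GBase
import Fermat.Agent.Red.SM.Ram
import Fermat.Agent.Red.GV.BarGalois

/-!
# Wave 7, DLOG at the level `M`, row H2-LIFT, good-level half (helper44, prefix `h44o_`)

`N` a GOOD level (`ℓ ∤ N`, `auxLevel ℓ ∣ N`), `A` a valuation subring of `ℚ̄` over `ℓ`,
`k = h13sK A`, `kC = h13sFt A N` the function field of the special fibre,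
`r : Place ℚ̄ (FF N) → Place k kC` a reduction map of places (`H13sIsRed A N r`, landed:
`h88r_redDiv`).

* `h44o_exact_lift` (**L1**): every `s ≠ 0` of `kC` is the reduction of a Gauss unit `g` whose
  zeros and poles avoid the residue discs `r ⁻¹ Q`, `Q ∈ S`, for any finite set `S` of places of
  the special fibre at which `s` is a unit (SEMI exact clause + RR-LARGE + RED-DIV).
* `h44o_value` (**L2**): a Gauss-integral function `F`, regular at the place `v`, without pole
  in the residue disc of `v`, has its value at `v` in `A`, and the reduction of `F` takes the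
  residue of that value at `r v`; `h44o_value_congr`: the residues of the values at two places
  of the same disc agree.
* `h44o_sum` (**L3**): if moreover `ℓ ∣ ord_Q (red g)` at every place `Q` of the special fibre,
  then `∑_v ord_v (g) F (v) ∈ 𝔪_A` (the sum over the zeros and poles of `g`).
-/

set_option autoImplicit false
set_option linter.unusedSectionVars false
set_option linter.style.haveILetI false
set_option synthInstance.maxHeartbeats 400000

open AlgebraicCurve ModularCurve IsLocalRing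

noncomputable section

namespace Fermat.Agent.P7

open Fermat.Agent.S37 Fermat.Agent.Red.GV Fermat.Agent.P5

variable {N : ℕ} [NeZero N] {A : ValuationSubring Kbar} {ℓ : ℕ}

/-! ### L1: exact lifts with zeros and poles off finitely many residue discs -/

/-- **L1 (exact lift).**  At a good level, every `s ≠ 0` of the special fibre field is the
reduction of a Gauss unit `g` with no zero and no pole in the residue discs `r ⁻¹ Q`, `Q ∈ S`,
for any finite set `S` of places of the special fibre at which `s` has order `0`. -/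
theorem h44o_exact_lift (hℓ : ℓ.Prime) (hN : ¬ ℓ ∣ N) (haux : auxLevel ℓ ∣ N)
    (hA : A.LiesOverPrime ℓ)
    (r : Place Kbar (FF N) → Place (h13sK A) (h13sFt A N)) (hr : H13sIsRed A N r)
    (s : h13sFt A N) (hs : s ≠ 0)
    (S : Finset (Place (h13sK A) (h13sFt A N))) (hS : ∀ Q ∈ S, Q.ord s = 0) :
    ∃ (g : FF N) (hg : g ∈ gaussV A N), g⁻¹ ∈ gaussV A N ∧ h13sRed A N ⟨g, hg⟩ = s ∧
      ∀ v : Place Kbar (FF N), v.ord g ≠ 0 → r v ∉ S := by
  classical
  have hBg : H13rBase Kbar (FF N) := h13g_gBase N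
  have hBs : H13rBase (h13sK A) (h13sFt A N) := h26s_base ℓ hℓ N hN haux A hA
  obtain ⟨g0, hgG, hgS⟩ := h26s_genus ℓ hℓ N hN haux A hA
  obtain ⟨⟨cG, hcG⟩, -⟩ := h68r_large Kbar (FF N) hBg g0 hgG
  obtain ⟨⟨cS, hcS⟩, -⟩ := h68r_large (h13sK A) (h13sFt A N) hBs g0 hgS
  obtain ⟨Ds, hDs, -⟩ := hBs.pd s hs
  -- a place off `S` and off the support of `div s`
  haveI := hBs.infinite
  obtain ⟨Q1, hQ1⟩ := Infinite.exists_notMem_finset (S ∪ Ds.support)
  have hQ1S : Q1 ∉ S := fun h => hQ1 (Finset.mem_union_left _ h)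
  have hQ1D : Ds Q1 = 0 := by
    by_contra h
    exact hQ1 (Finset.mem_union_right _ (Finsupp.mem_support_iff.mpr h))
  -- the pole divisor of `s`, enlarged at `Q1`
  set P : Divisor (h13sK A) (h13sFt A N) := Ds.mapRange (fun n => max 0 (-n)) (by simp) with hP
  have hPapp : ∀ Q, P Q = max 0 (-(Q.ord s)) := fun Q => by
    rw [hP, Finsupp.mapRange_apply, hDs Q]
  set n : ℕ := (max cG cS - Divisor.degree P).toNat with hn
  set Ebar : Divisor (h13sK A) (h13sFt A N) := P + Finsupp.single Q1 (n : ℤ) with hEbar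
  have hEapp : ∀ Q, Q ≠ Q1 → Ebar Q = max 0 (-(Q.ord s)) := fun Q hQ => by
    rw [hEbar, Finsupp.add_apply, Finsupp.single_apply, if_neg (Ne.symm hQ), add_zero, hPapp]
  have hEnn : ∀ Q, max 0 (-(Q.ord s)) ≤ Ebar Q := fun Q => by
    rw [hEbar, Finsupp.add_apply, hPapp, Finsupp.single_apply]
    split_ifs
    · exact le_add_of_nonneg_right (Int.natCast_nonneg n)
    · rw [add_zero]
  have hES : ∀ Q ∈ S, Ebar Q = 0 := fun Q hQ => by
    have hne : Q ≠ Q1 := fun h => hQ1S (h ▸ hQ)
    rw [hEapp Q hne, hS Q hQ]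
    simp
  have hdegEbar : max cG cS ≤ Divisor.degree Ebar := by
    rw [hEbar, map_add, Divisor.degree_single, hBs.deg_one Q1]
    have := Int.self_le_toNat (max cG cS - Divisor.degree P)
    push_cast
    rw [hn]
    linarith
  -- the lift of `Ebar` along a section of `r`
  set σ : Place (h13sK A) (h13sFt A N) → Place Kbar (FF N) := Function.surjInv hr.1 with hσ
  have hrσ : ∀ Q, r (σ Q) = Q := fun Q => Function.surjInv_eq hr.1 Q
  set E : Divisor Kbar (FF N) := Finsupp.mapDomain σ Ebar with hE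
  have hpush : h13sPush r E = Ebar := by
    unfold h13sPush
    rw [hE, ← Finsupp.mapDomain_comp]
    have hid : r ∘ σ = id := funext hrσ
    rw [hid, Finsupp.mapDomain_id]
  have hEsupp : ∀ w, E w ≠ 0 → Ebar (r w) ≠ 0 := by
    intro w hw
    have h1 : w ∈ (Finsupp.mapDomain σ Ebar).support := Finsupp.mem_support_iff.mpr hw
    have h2 := Finsupp.mapDomain_support h1
    obtain ⟨Q, hQ, rfl⟩ := Finset.mem_image.mp h2
    rw [hrσ]
    exact Finsupp.mem_support_iff.mp hQ
  have hdegE : Divisor.degree E = Divisor.degree Ebar := by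
    rw [← hpush]
    exact (h42p_degree_push hBg.deg_one hBs.deg_one r E).symm
  -- equality of the dimensions
  have hl1 := hcG E (by rw [hdegE]; exact (le_max_left _ _).trans hdegEbar)
  have hl2 := hcS Ebar ((le_max_right _ _).trans hdegEbar)
  have hleq : h13rL Kbar (FF N) E = h13rL (h13sK A) (h13sFt A N) (h13sPush r E) := by
    rw [hpush]
    have : (h13rL Kbar (FF N) E : ℤ) = (h13rL (h13sK A) (h13sFt A N) Ebar : ℤ) := by
      rw [hdegE] at hl1
      linarith
    exact_mod_cast this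
  -- `s ∈ L(Ebar)`
  have hsL : s ∈ riemannRochSpace (h13sPush r E) := by
    rw [hpush, mem_riemannRochSpace_iff]
    intro Q
    right
    have := hEnn Q
    have h2 : -(Q.ord s) ≤ max 0 (-(Q.ord s)) := le_max_right _ _
    linarith
  -- the exact lift
  obtain ⟨b, -, -, -, -, -, hlift⟩ := h26s_semi ℓ hℓ N hN haux A hA r hr E
  obtain ⟨g, hg, hgL, hgs⟩ := hlift hleq s hsL
  have hg0 : ¬ ((g : FF N) = 0 ∨ (g : FF N)⁻¹ ∉ gaussV A N) := fun h =>
    hs (hgs ▸ (h50l_red_eq_zero_iff hℓ hN hA ⟨g, hg⟩).2 h)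
  rw [not_or, not_not] at hg0
  refine ⟨g, hg, hg0.2, hgs, ?_⟩
  intro v hv hvS
  -- RED-DIV at `Q = r v`
  obtain ⟨Dg, hDg, -⟩ := hBg.pd g hg0.1
  have hred := hr.2.2 g hg hg0.2 Dg hDg (r v)
  rw [hgs, hS _ hvS] at hred
  have hsum : h13sPush r Dg (r v) = ∑ w ∈ Dg.support with r w = r v, Dg w :=
    h88r_mapDomain_apply r Dg (r v)
  rw [hsum] at hred
  have hnn : ∀ w ∈ Dg.support.filter (fun w => r w = r v), 0 ≤ Dg w := by
    intro w hw
    have hrw : r w = r v := (Finset.mem_filter.mp hw).2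
    have hEw : E w = 0 := by
      by_contra h
      exact hEsupp w h (by rw [hrw]; exact hES _ hvS)
    rw [hDg w]
    have h1 := (mem_riemannRochSpace_iff.mp hgL) w
    rcases h1 with h1 | h1
    · exact absurd h1 hg0.1
    · rw [hEw, neg_zero] at h1
      exact h1
  have hall := (Finset.sum_eq_zero_iff_of_nonneg hnn).mp hred
  have hvmem : v ∈ Dg.support.filter (fun w => r w = r v) := by
    rw [Finset.mem_filter, Finsupp.mem_support_iff, hDg v]
    exact ⟨hv, rfl⟩
  have := hall v hvmem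
  rw [hDg v] at this
  exact hv this

/-! ### L2: values of Gauss-integral functions off the polar discs -/

/-- a nonzero element of the maximal ideal of a place has positive order. -/
theorem h44o_ord_pos {K F : Type*} [Field K] [Field F] [Algebra K F] (v : Place K F) {x : F}
    (hx0 : x ≠ 0) (hx : x ∈ v.toValuationSubring.nonunits) : 0 < v.ord x :=
  Fermat.Agent.Red.SM.h31_ord_pos_of_mem_nonunits v hx hx0

/-- an element of positive order lies in the maximal ideal of the place. -/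
theorem h44o_mem_nonunits {K F : Type*} [Field K] [Field F] [Algebra K F] (v : Place K F) {x : F}
    (hx : x = 0 ∨ 0 < v.ord x) : x ∈ v.toValuationSubring.nonunits := by
  rcases hx with rfl | hx
  · rw [ValuationSubring.mem_nonunits_iff, map_zero]
    exact zero_lt_one
  · exact Fermat.Agent.Red.SM.h31_mem_nonunits_of_ord_pos v hx

/-- **RED-DIV on one residue disc**: for a Gauss unit `G` without pole in the residue disc of
`v`, the order of the reduction at `r v` is at least the order of `G` at `v`. -/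
theorem h44o_disc_ord (r : Place Kbar (FF N) → Place (h13sK A) (h13sFt A N))
    (hr : H13sIsRed A N r) (G : FF N) (hG : G ∈ gaussV A N) (hGinv : G⁻¹ ∈ gaussV A N)
    (hG0 : G ≠ 0) (v : Place Kbar (FF N))
    (hreg : ∀ c : Place Kbar (FF N), r c = r v → 0 ≤ c.ord G) :
    v.ord G ≤ (r v).ord (h13sRed A N ⟨G, hG⟩) := by
  classical
  obtain ⟨D, hD, -⟩ := (h13g_gBase N).pd G hG0
  have hred := hr.2.2 G hG hGinv D hD (r v)
  have hsum : h13sPush r D (r v) = ∑ w ∈ D.support with r w = r v, D w :=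
    h88r_mapDomain_apply r D (r v)
  rw [← hred, hsum]
  have hnn : ∀ w ∈ D.support.filter (fun w => r w = r v), 0 ≤ D w := by
    intro w hw
    rw [hD w]
    exact hreg w (Finset.mem_filter.mp hw).2
  by_cases hv : v ∈ D.support
  · have hvm : v ∈ D.support.filter (fun w => r w = r v) :=
      Finset.mem_filter.mpr ⟨hv, rfl⟩
    have := Finset.single_le_sum hnn hvm
    rwa [hD v] at this
  · have h0 : D v = 0 := Finsupp.notMem_support_iff.mp hv
    rw [← hD v, h0]
    exact Finset.sum_nonneg hnn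

/-- **L2, integrality of the value**: a Gauss-integral function without pole in the residue
disc of `v` takes a value in `A` at `v`. -/
theorem h44o_value_mem (hℓ : ℓ.Prime) (hN : ¬ ℓ ∣ N) (hA : A.LiesOverPrime ℓ)
    (r : Place Kbar (FF N) → Place (h13sK A) (h13sFt A N)) (hr : H13sIsRed A N r)
    (F : FF N) (hF : F ∈ gaussV A N) (v : Place Kbar (FF N))
    (hreg : ∀ c : Place Kbar (FF N), r c = r v → 0 ≤ c.ord F)
    (a : Kbar) (ha : ValueAt v F a) : a ∈ A := by
  by_contra haA
  have hinv : a⁻¹ ∈ A.nonunits := h50l_inv_mem_nonunits haA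
  have hinvA : a⁻¹ ∈ A := ValuationSubring.nonunits_subset hinv
  have ha0 : a ≠ 0 := fun h => haA (h ▸ A.zero_mem)
  have hcV : cst N a⁻¹ ∈ gaussV A N := h50l_cst_mem hA hinvA
  -- `G = 1 - F / a` is a Gauss unit with reduction `1`
  have hGV : 1 - cst N a⁻¹ * F ∈ gaussV A N :=
    (gaussV A N).sub_mem (gaussV A N).one_mem ((gaussV A N).mul_mem hcV hF)
  have hredG : h13sRed A N ⟨1 - cst N a⁻¹ * F, hGV⟩ = 1 := by
    have e : (⟨1 - cst N a⁻¹ * F, hGV⟩ : gaussV A N) = 1 - ⟨cst N a⁻¹, hcV⟩ * ⟨F, hF⟩ := rfl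
    rw [e, ← h50lRed_apply, map_sub, map_one, map_mul, h50lRed_apply, h50lRed_apply,
      (h88r_red_eq_zero_iff _).mpr (gaussR_cst_of_nonunit A N hA a⁻¹ hinv hcV), zero_mul,
      sub_zero]
  have hG0' : ¬ ((1 - cst N a⁻¹ * F : FF N) = 0 ∨ (1 - cst N a⁻¹ * F : FF N)⁻¹ ∉ gaussV A N) :=
    fun h => one_ne_zero (hredG ▸ (h50l_red_eq_zero_iff hℓ hN hA ⟨_, hGV⟩).2 h)
  rw [not_or, not_not] at hG0'
  -- `G` vanishes at `v`
  have hca0 : cst N a⁻¹ ≠ 0 := by
    intro h
    exact inv_ne_zero ha0 ((map_eq_zero (algebraMap Kbar (FF N))).mp h)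
  have hGeq : 1 - cst N a⁻¹ * F = -(cst N a⁻¹) * (F - cst N a) := by
    have h1 : cst N a⁻¹ * cst N a = 1 := by
      rw [← map_mul, inv_mul_cancel₀ ha0, map_one]
    linear_combination (-1 : FF N) * h1
  have hGm : 1 - cst N a⁻¹ * F ∈ v.toValuationSubring.nonunits := by
    rw [hGeq]
    have hc : -(cst N a⁻¹) ∈ v.toValuationSubring :=
      v.toValuationSubring.neg_mem _ (v.algebraMap_mem' a⁻¹)
    have ha' : F - cst N a ∈ v.toValuationSubring.nonunits := ha
    rw [ValuationSubring.mem_nonunits_iff] at ha' ⊢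
    rw [map_mul]
    have h1 : v.toValuationSubring.valuation (-(cst N a⁻¹)) ≤ 1 :=
      (ValuationSubring.valuation_le_one_iff _ _).mpr hc
    calc v.toValuationSubring.valuation (-(cst N a⁻¹)) *
          v.toValuationSubring.valuation (F - cst N a)
        ≤ 1 * v.toValuationSubring.valuation (F - cst N a) := mul_le_mul_left h1 _
      _ = v.toValuationSubring.valuation (F - cst N a) := one_mul _
      _ < 1 := ha'
  have hpos := h44o_ord_pos v hG0'.1 hGm
  -- no pole of `G` in the disc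
  have hregG : ∀ c : Place Kbar (FF N), r c = r v → 0 ≤ c.ord (1 - cst N a⁻¹ * F) := by
    intro c hc
    apply Fermat.Agent.S24.DiffPlace.ord_nonneg_of_mem
    exact sub_mem (one_mem _)
      (mul_mem (c.algebraMap_mem' a⁻¹)
        (Fermat.Agent.S24.DiffPlace.mem_of_ord_nonneg c (hreg c hc)))
  have hle := h44o_disc_ord r hr _ hGV hG0'.2 hG0'.1 v hregG
  rw [hredG, Place.ord_one] at hle
  omega

/-- **L2, reduction of the value**: the reduction of `F` takes the residue of `F (v)` at the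
place `r v`. -/
theorem h44o_value_red (hℓ : ℓ.Prime) (hN : ¬ ℓ ∣ N) (hA : A.LiesOverPrime ℓ)
    (r : Place Kbar (FF N) → Place (h13sK A) (h13sFt A N)) (hr : H13sIsRed A N r)
    (F : FF N) (hF : F ∈ gaussV A N) (v : Place Kbar (FF N))
    (hreg : ∀ c : Place Kbar (FF N), r c = r v → 0 ≤ c.ord F)
    (a : Kbar) (haA : a ∈ A) (ha : ValueAt v F a) :
    h13sRed A N ⟨F, hF⟩ - algebraMap (h13sK A) (h13sFt A N) (h13sPi A ⟨a, haA⟩) ∈
      (r v).toValuationSubring.nonunits := by
  have hcV : cst N a ∈ gaussV A N := h50l_cst_mem hA haA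
  have hGV : F - cst N a ∈ gaussV A N := (gaussV A N).sub_mem hF hcV
  have hredG : h13sRed A N ⟨F - cst N a, hGV⟩ =
      h13sRed A N ⟨F, hF⟩ - algebraMap (h13sK A) (h13sFt A N) (h13sPi A ⟨a, haA⟩) := by
    have e : (⟨F - cst N a, hGV⟩ : gaussV A N) = ⟨F, hF⟩ - ⟨cst N a, hcV⟩ := rfl
    rw [e, ← h50lRed_apply, map_sub, h50lRed_apply, h50lRed_apply, h50l_red_cst hA a haA]
  rw [← hredG]
  apply h44o_mem_nonunits
  by_cases h0 : h13sRed A N ⟨F - cst N a, hGV⟩ = 0
  · exact Or.inl h0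
  · right
    have hG0' : ¬ ((F - cst N a : FF N) = 0 ∨ (F - cst N a : FF N)⁻¹ ∉ gaussV A N) :=
      fun h => h0 ((h50l_red_eq_zero_iff hℓ hN hA ⟨_, hGV⟩).2 h)
    rw [not_or, not_not] at hG0'
    have hpos := h44o_ord_pos v hG0'.1 ha
    have hregG : ∀ c : Place Kbar (FF N), r c = r v → 0 ≤ c.ord (F - cst N a) := by
      intro c hc
      apply Fermat.Agent.S24.DiffPlace.ord_nonneg_of_mem
      exact sub_mem
        (Fermat.Agent.S24.DiffPlace.mem_of_ord_nonneg c (hreg c hc)) (c.algebraMap_mem' a)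
    have hle := h44o_disc_ord r hr _ hGV hG0'.2 hG0'.1 v hregG
    omega

/-- **L2, congruence**: the values of `F` at two places of the same residue disc (without pole
of `F`) have the same residue. -/
theorem h44o_value_congr (hℓ : ℓ.Prime) (hN : ¬ ℓ ∣ N) (hA : A.LiesOverPrime ℓ)
    (r : Place Kbar (FF N) → Place (h13sK A) (h13sFt A N)) (hr : H13sIsRed A N r)
    (F : FF N) (hF : F ∈ gaussV A N) (v w : Place Kbar (FF N)) (hvw : r w = r v)
    (hreg : ∀ c : Place Kbar (FF N), r c = r v → 0 ≤ c.ord F)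
    (a b : Kbar) (haA : a ∈ A) (hbA : b ∈ A) (ha : ValueAt v F a) (hb : ValueAt w F b) :
    h13sPi A ⟨a, haA⟩ = h13sPi A ⟨b, hbA⟩ := by
  have h1 := h44o_value_red hℓ hN hA r hr F hF v hreg a haA ha
  have h2 := h44o_value_red hℓ hN hA r hr F hF w (fun c hc => hreg c (hc.trans hvw)) b hbA hb
  rw [hvw] at h2
  by_contra hne
  have hne' : h13sPi A ⟨a, haA⟩ - h13sPi A ⟨b, hbA⟩ ≠ 0 := sub_ne_zero.mpr hne
  have h3 : algebraMap (h13sK A) (h13sFt A N) (h13sPi A ⟨a, haA⟩ - h13sPi A ⟨b, hbA⟩) ∈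
      (r v).toValuationSubring.nonunits := by
    have e : algebraMap (h13sK A) (h13sFt A N) (h13sPi A ⟨a, haA⟩ - h13sPi A ⟨b, hbA⟩) =
        (h13sRed A N ⟨F, hF⟩ - algebraMap (h13sK A) (h13sFt A N) (h13sPi A ⟨b, hbA⟩)) -
        (h13sRed A N ⟨F, hF⟩ - algebraMap (h13sK A) (h13sFt A N) (h13sPi A ⟨a, haA⟩)) := by
      rw [map_sub]
      ring
    rw [e]
    rw [ValuationSubring.mem_nonunits_iff] at h1 h2 ⊢
    exact lt_of_le_of_lt (Valuation.map_sub _ _ _) (max_lt h2 h1)
  have h4 : algebraMap (h13sK A) (h13sFt A N) (h13sPi A ⟨a, haA⟩ - h13sPi A ⟨b, hbA⟩) ≠ 0 := by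
    intro h
    exact hne' ((map_eq_zero (algebraMap (h13sK A) (h13sFt A N))).mp h)
  have h5 := h44o_ord_pos (r v) h4 h3
  rw [Fermat.Agent.S24.DiffPlace.ord_algebraMap] at h5
  exact lt_irrefl _ h5

/-! ### L3: the sum of the values over the divisor of a lift -/

/-- the residue characteristic kills the multiples of `ℓ`. -/
theorem h44o_cast_eq_zero (hA : A.LiesOverPrime ℓ) {n : ℤ} (hn : (ℓ : ℤ) ∣ n) :
    ((n : A) : A) ∈ maximalIdeal A := by
  obtain ⟨m, rfl⟩ := hn
  have hℓm : ((ℓ : ℕ) : A) ∈ maximalIdeal A := by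
    rw [mem_maximalIdeal, mem_nonunits_iff]
    intro hu
    have h1 : ((((ℓ : ℕ) : A) : A) : Kbar) ∈ A.nonunits := by
      have : ((((ℓ : ℕ) : A) : A) : Kbar) = (ℓ : Kbar) := by push_cast; rfl
      rw [this]
      exact hA
    rw [ValuationSubring.mem_nonunits_iff_exists_mem_maximalIdeal] at h1
    obtain ⟨hm, hmax⟩ := h1
    exact hmax hu
  push_cast
  exact Ideal.mul_mem_right _ _ hℓm

/-- **L3 (sum of the values).**  `g` a Gauss unit with `ℓ ∣ ord_Q (red g)` at every place `Q`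
of the special fibre, `F` a Gauss-integral function without pole in the residue discs of the
zeros and poles of `g`: then `∑_v ord_v (g) F (v) ∈ 𝔪_A`. -/
theorem h44o_sum (hℓ : ℓ.Prime) (hN : ¬ ℓ ∣ N) (hA : A.LiesOverPrime ℓ)
    (r : Place Kbar (FF N) → Place (h13sK A) (h13sFt A N)) (hr : H13sIsRed A N r)
    (g : FF N) (hg : g ∈ gaussV A N) (hginv : g⁻¹ ∈ gaussV A N)
    (hord : ∀ Q : Place (h13sK A) (h13sFt A N), (ℓ : ℤ) ∣ Q.ord (h13sRed A N ⟨g, hg⟩))
    (F : FF N) (hF : F ∈ gaussV A N)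
    (hsep : ∀ v c : Place Kbar (FF N), v.ord g ≠ 0 → r c = r v → 0 ≤ c.ord F)
    (T : Finset (Place Kbar (FF N))) (hT : ∀ v : Place Kbar (FF N), v.ord g ≠ 0 → v ∈ T)
    (fv : Place Kbar (FF N) → Kbar)
    (hfv : ∀ v ∈ T, v.ord g ≠ 0 → ValueAt v F (fv v)) :
    (∑ v ∈ T, (v.ord g : Kbar) * fv v) ∈ A.nonunits := by
  classical
  rcases eq_or_ne g 0 with rfl | hg0
  · simp only [Place.ord_zero, Int.cast_zero, zero_mul, Finset.sum_const_zero]
    rw [ValuationSubring.mem_nonunits_iff, map_zero]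
    exact zero_lt_one
  -- the values, in `A`
  have hmem : ∀ v, v ∈ T ∧ v.ord g ≠ 0 → fv v ∈ A := fun v hv =>
    h44o_value_mem hℓ hN hA r hr F hF v (fun c hc => hsep v c hv.2 hc) (fv v) (hfv v hv.1 hv.2)
  set φ : Place Kbar (FF N) → A := fun v =>
    if h : v ∈ T ∧ v.ord g ≠ 0 then ⟨fv v, hmem v h⟩ else 0 with hφ
  have hφv : ∀ v (h : v ∈ T ∧ v.ord g ≠ 0), φ v = ⟨fv v, hmem v h⟩ := fun v h => by
    rw [hφ]
    exact dif_pos h
  have hsumA : (∑ v ∈ T, (v.ord g : Kbar) * fv v) =
      ((∑ v ∈ T, ((v.ord g : ℤ) : A) * φ v : A) : Kbar) := by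
    have hcoe : ((∑ v ∈ T, ((v.ord g : ℤ) : A) * φ v : A) : Kbar) =
        ∑ v ∈ T, ((((v.ord g : ℤ) : A) * φ v : A) : Kbar) :=
      map_sum A.subtype _ T
    rw [hcoe]
    refine Finset.sum_congr rfl fun v hv => ?_
    by_cases h0 : v.ord g = 0
    · rw [h0]
      simp
    · rw [hφv v ⟨hv, h0⟩]
      push_cast
      rfl
  rw [hsumA, ValuationSubring.mem_nonunits_iff_exists_mem_maximalIdeal]
  refine ⟨Subtype.coe_prop _, ?_⟩
  have hgoal : (∑ v ∈ T, ((v.ord g : ℤ) : A) * φ v : A) ∈ maximalIdeal A := by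
    rw [← residue_eq_zero_iff, map_sum]
    -- the common residue on a disc
    set ψ : Place (h13sK A) (h13sFt A N) → ResidueField A := fun Q =>
      if h : ∃ v, (v ∈ T ∧ v.ord g ≠ 0) ∧ r v = Q then residue A (φ h.choose) else 0 with hψ
    have hψv : ∀ v, v ∈ T ∧ v.ord g ≠ 0 → residue A (φ v) = ψ (r v) := by
      intro v hv
      have hex : ∃ w, (w ∈ T ∧ w.ord g ≠ 0) ∧ r w = r v := ⟨v, hv, rfl⟩
      have e1 : ψ (r v) = residue A (φ hex.choose) := by
        rw [hψ]
        exact dif_pos hex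
      rw [e1, hφv v hv, hφv _ hex.choose_spec.1]
      exact h44o_value_congr hℓ hN hA r hr F hF v hex.choose hex.choose_spec.2
        (fun c hc => hsep v c hv.2 hc) (fv v) (fv hex.choose) (hmem v hv)
        (hmem _ hex.choose_spec.1) (hfv v hv.1 hv.2)
        (hfv _ hex.choose_spec.1.1 hex.choose_spec.1.2)
    have hstep : ∀ v ∈ T, residue A (((v.ord g : ℤ) : A) * φ v) =
        ((v.ord g : ℤ) : ResidueField A) * ψ (r v) := by
      intro v hv
      rw [map_mul, map_intCast]
      by_cases h0 : v.ord g = 0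
      · rw [h0]
        simp
      · rw [hψv v ⟨hv, h0⟩]
    rw [Finset.sum_congr rfl hstep,
      ← Finset.sum_fiberwise_of_maps_to (g := r) (t := T.image r)
        (fun v hv => Finset.mem_image_of_mem r hv)]
    refine Finset.sum_eq_zero fun Q _ => ?_
    have hin : ∀ v ∈ T.filter (fun v => r v = Q),
        ((v.ord g : ℤ) : ResidueField A) * ψ (r v) = ((v.ord g : ℤ) : ResidueField A) * ψ Q := by
      intro v hv
      rw [(Finset.mem_filter.mp hv).2]
    rw [Finset.sum_congr rfl hin, ← Finset.sum_mul, ← Int.cast_sum]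
    -- RED-DIV
    obtain ⟨D, hD, -⟩ := (h13g_gBase N).pd g hg0
    have hsupp : D.support ⊆ T := by
      intro v hv
      apply hT
      rw [← hD v]
      exact Finsupp.mem_support_iff.mp hv
    have hred := hr.2.2 g hg hginv D hD Q
    have hpush : h13sPush r D Q = ∑ v ∈ D.support with r v = Q, D v :=
      h88r_mapDomain_apply r D Q
    have hsumeq : (∑ v ∈ T.filter (fun v => r v = Q), v.ord g) = Q.ord (h13sRed A N ⟨g, hg⟩) := by
      rw [← hred, hpush]
      symm
      have hsub : D.support.filter (fun v => r v = Q) ⊆ T.filter (fun v => r v = Q) :=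
        Finset.filter_subset_filter _ hsupp
      rw [Finset.sum_congr rfl (fun v _ => hD v)]
      refine Finset.sum_subset hsub fun v hv hnv => ?_
      rw [← hD v]
      by_contra h
      exact hnv (Finset.mem_filter.mpr ⟨Finsupp.mem_support_iff.mpr h, (Finset.mem_filter.mp hv).2⟩)
    rw [hsumeq]
    have hz := h44o_cast_eq_zero hA (hord Q)
    rw [← residue_eq_zero_iff, map_intCast] at hz
    rw [hz, zero_mul]
  exact hgoal

end Fermat.Agent.P7
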