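import Fermat.Agent.P5.H59InfFin
import Fermat.Agent.Red.TransferRed

/-!
# Wave 7, DLOG, ORTH at the non-good level `M`: leaf EVAL (helper48)

Finding 1474 (3c) / step (4) SUM of finding 1473.  Everything is at ONE level `N` prime to the
residue characteristic `p` of `A`, for ANY map of places `r` with `H13sIsRed A N r`
(reduction of principal divisors, clause 3 = RED-DIV).  No norm, no SEMI, no genus.

* `h48e_red_mem_nonunits` (L'): `H` Gauss-integral, `H(v) = 0`, `H` regular on the whole fibre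
  `r⁻¹(r v)`  ⟹  the reduction of `H` vanishes at `r v`.
* `h48e_value_mem` (V1): `F` Gauss-integral and regular on the fibre `r⁻¹(r v)`  ⟹  the value
  `F(v)` lies in `A`.
* `h48e_value_cong` (V2): moreover the values at two places of the same fibre are congruent
  modulo `𝔪_A`.
* `h48e_eval` (V3, EVAL): `G` a Gauss unit with `p ∣ ord_Q(red G)` at EVERY place `Q` of the
  special fibre, `F` Gauss-integral and regular on every fibre meeting the support of `div G`
  ⟹  `∑_v ord_v(G) · F(v) ∈ 𝔪_A`.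
* `h48e_eval_pole` : the same with the regularity hypothesis in the form
  "no pole of `F` reduces to the reduction of a zero or pole of `G`".
* `h48e_eval_along` : the same in the shape of the right-hand side of
  `h83o_resid_normAlong` (helper83): `φ : FF M →ₐ FF N`, `f ∈ FF M` regular off `oo` with values
  `fv`, sum over a finite set `S'` of places of `FF N` not over `oo`:
  `∑_{w ∈ S'} ord_w(G) · fv (w ∩ FF M) ∈ 𝔪_A`.
-/

set_option autoImplicit false
set_option linter.unusedSectionVars false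
set_option linter.unusedVariables false
set_option linter.style.longLine false

open AlgebraicCurve ModularCurve

noncomputable section

namespace Fermat.Agent.P7

open Fermat.Agent.S37 Fermat.Agent.Red.GV Fermat.Agent.P5

/-! ### Small valuation-ring lemmas -/

/-- a function of positive order lies in the maximal ideal of the place. -/
theorem h48e_mem_nonunits_of_ord_pos {K F : Type*} [Field K] [Field F] [Algebra K F]
    (v : Place K F) {x : F} (hx : 0 < v.ord x) : x ∈ v.toValuationSubring.nonunits := by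
  rw [ValuationSubring.mem_nonunits_iff_or]
  right
  intro h
  have h1 := (Fermat.Agent.S24.DiffPlace.ord_nonneg_iff_mem v).2 h
  rw [v.ord_inv] at h1
  omega

/-- the maximal ideal of a valuation ring is stable under multiplication by the ring. -/
theorem h48e_mul_mem_nonunits {L : Type*} [Field L] (B : ValuationSubring L) {x y : L}
    (hx : x ∈ B) (hy : y ∈ B.nonunits) : x * y ∈ B.nonunits := by
  have hx' : B.valuation x ≤ 1 := (B.valuation_le_one_iff x).2 hx
  have hy' : B.valuation y < 1 := hy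
  show B.valuation (x * y) < 1
  rw [map_mul]
  calc B.valuation x * B.valuation y ≤ 1 * B.valuation y := mul_le_mul' hx' le_rfl
    _ = B.valuation y := one_mul _
    _ < 1 := hy'

/-- `1` is not in the maximal ideal. -/
theorem h48e_one_not_mem_nonunits {L : Type*} [Field L] (B : ValuationSubring L) :
    (1 : L) ∉ B.nonunits := by
  intro h
  have h1 : B.valuation (1 : L) < 1 := h
  rw [map_one] at h1
  exact lt_irrefl _ h1

/-- the maximal ideal is stable under subtraction. -/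
theorem h48e_sub_mem_nonunits {L : Type*} [Field L] (B : ValuationSubring L) {x y : L}
    (hx : x ∈ B.nonunits) (hy : y ∈ B.nonunits) : x - y ∈ B.nonunits := by
  have hx' : B.valuation x < 1 := hx
  have hy' : B.valuation y < 1 := hy
  show B.valuation (x - y) < 1
  exact lt_of_le_of_lt (Valuation.map_sub _ _ _) (max_lt hx' hy')

/-! ### Reduction is additive -/

section Level

variable {p N : ℕ} [NeZero N] (A : ValuationSubring Kbar)

/-- the reduction of `x + 1`. -/
theorem h48e_red_add_one (x y : FF N) (hx : x ∈ gaussV A N) (hy : y ∈ gaussV A N)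
    (h : y = x + 1) : h13sRed A N ⟨y, hy⟩ = h13sRed A N ⟨x, hx⟩ + 1 := by
  subst h
  apply (h13sIncl A N).toRingHom.injective
  show h13sIncl A N (h13sRed A N ⟨x + 1, hy⟩) = h13sIncl A N (h13sRed A N ⟨x, hx⟩ + 1)
  rw [map_add, map_one, h13sIncl_red, h13sIncl_red]
  have h1 : (⟨x + 1, hy⟩ : gaussV A N) = ⟨x, hx⟩ + 1 := rfl
  rw [h1, map_add, map_one]
  rfl

/-- **(L')** a Gauss-integral function vanishing at `v` and regular on the fibre of `r v` has
a reduction vanishing at `r v`. -/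
theorem h48e_red_mem_nonunits (hp : p.Prime) (hN : ¬ p ∣ N) (hA : A.LiesOverPrime p)
    (r : Place Kbar (FF N) → Place (h13sK A) (h13sFt A N)) (hr : H13sIsRed A N r)
    (H : FF N) (hH : H ∈ gaussV A N) (v : Place Kbar (FF N))
    (hv : H ∈ v.toValuationSubring.nonunits)
    (hfib : ∀ w : Place Kbar (FF N), r w = r v → 0 ≤ w.ord H) :
    h13sRed A N ⟨H, hH⟩ ∈ (r v).toValuationSubring.nonunits := by
  classical
  have hPD := Fermat.Agent.Red.HKMod.hasPrincipalDivisors_FF N
  by_cases h0 : gaussR A N ⟨H, hH⟩ = 0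
  · have h1 : h13sRed A N ⟨H, hH⟩ = 0 := by
      apply (h13sIncl A N).toRingHom.injective
      show h13sIncl A N (h13sRed A N ⟨H, hH⟩) = h13sIncl A N 0
      rw [h13sIncl_red, h0, map_zero]
      rfl
    rw [h1]
    exact (ValuationSubring.mem_nonunits_iff_or _).2 (Or.inl rfl)
  · have hne := (not_congr (gaussR_eq_zero_iff A N hp hN hA ⟨H, hH⟩)).1 h0
    rw [not_or, not_not] at hne
    obtain ⟨hH0, hHinv⟩ := hne
    obtain ⟨D, hD, -⟩ := HasPrincipalDivisors.exists_divisor (K := Kbar) H hH0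
    have e1 := hr.2.2 H hH hHinv D hD (r v)
    apply h48e_mem_nonunits_of_ord_pos
    rw [← e1, h59i_push_apply]
    have hvpos : 0 < D v := by
      rw [hD v]
      exact h59i_ord_pos v hH0 hv
    have hvsupp : v ∈ D.support := Finsupp.mem_support_iff.2 hvpos.ne'
    refine Finset.sum_pos' (fun w _ => ?_) ⟨v, hvsupp, ?_⟩
    · split_ifs with hw
      · rw [hD w]
        exact hfib w hw
      · exact le_rfl
    · rw [if_pos rfl]
      exact hvpos

/-- **(V1)** the value at `v` of a Gauss-integral function regular on the fibre of `r v` lies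
in `A`. -/
theorem h48e_value_mem (hp : p.Prime) (hN : ¬ p ∣ N) (hA : A.LiesOverPrime p)
    (r : Place Kbar (FF N) → Place (h13sK A) (h13sFt A N)) (hr : H13sIsRed A N r)
    (F : FF N) (hF : F ∈ gaussV A N) (v : Place Kbar (FF N)) (a : Kbar)
    (hval : ValueAt v F a)
    (hfib : ∀ w : Place Kbar (FF N), r w = r v → 0 ≤ w.ord F) : a ∈ A := by
  by_contra ha
  have hainv : a⁻¹ ∈ A := (A.mem_or_inv_mem a).resolve_left ha
  have ha0 : a ≠ 0 := fun h => ha (h ▸ A.zero_mem)
  have hc : a⁻¹ ∈ A.nonunits := by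
    rw [ValuationSubring.mem_nonunits_iff_or]
    right
    rwa [inv_inv]
  have hcV : cst N a⁻¹ ∈ gaussV A N := (cst_mem_gaussV_iff A N hA a⁻¹).2 hainv
  have hHV : cst N a⁻¹ * F - 1 ∈ gaussV A N := sub_mem (mul_mem hcV hF) (one_mem _)
  have hHeq : cst N a⁻¹ * F - 1 = cst N a⁻¹ * (F - cst N a) := by
    have h1 : cst N a⁻¹ * cst N a = 1 := by
      rw [← map_mul, inv_mul_cancel₀ ha0, map_one]
    rw [mul_sub, h1]
  have hHv : cst N a⁻¹ * F - 1 ∈ v.toValuationSubring.nonunits := by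
    rw [hHeq]
    exact h48e_mul_mem_nonunits _ (Fermat.Agent.Red.Match.cst_mem v a⁻¹) hval
  have hfibH : ∀ w : Place Kbar (FF N), r w = r v → 0 ≤ w.ord (cst N a⁻¹ * F - 1) := by
    intro w hw
    apply Fermat.Agent.S24.DiffPlace.ord_nonneg_of_mem
    exact sub_mem (mul_mem (Fermat.Agent.Red.Match.cst_mem w a⁻¹)
      ((Fermat.Agent.S24.DiffPlace.ord_nonneg_iff_mem w).1 (hfib w hw))) (one_mem _)
  have hL := h48e_red_mem_nonunits A hp hN hA r hr _ hHV v hHv hfibH
  have hred : h13sRed A N ⟨cst N a⁻¹ * F - 1, hHV⟩ = -1 := by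
    apply (h13sIncl A N).toRingHom.injective
    show h13sIncl A N (h13sRed A N ⟨cst N a⁻¹ * F - 1, hHV⟩) = h13sIncl A N (-1)
    rw [h13sIncl_red, map_neg, map_one]
    have h1 : (⟨cst N a⁻¹ * F - 1, hHV⟩ : gaussV A N) = ⟨cst N a⁻¹, hcV⟩ * ⟨F, hF⟩ - 1 := rfl
    rw [h1, map_sub, map_mul, gaussR_cst_of_nonunit A N hA a⁻¹ hc hcV, zero_mul, map_one,
      zero_sub]
    rfl
  rw [hred] at hL
  have h2 : (r v).toValuationSubring.valuation (-1 : h13sFt A N) < 1 := hL
  rw [Valuation.map_neg, map_one] at h2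
  exact lt_irrefl _ h2

/-- **(V2)** the values of a Gauss-integral function at two places of one fibre of `r`, on which
it is regular, are congruent modulo `𝔪_A`. -/
theorem h48e_value_cong (hp : p.Prime) (hN : ¬ p ∣ N) (hA : A.LiesOverPrime p)
    (r : Place Kbar (FF N) → Place (h13sK A) (h13sFt A N)) (hr : H13sIsRed A N r)
    (F : FF N) (hF : F ∈ gaussV A N) (v w : Place Kbar (FF N)) (hvw : r w = r v)
    (a b : Kbar) (hva : ValueAt v F a) (hwb : ValueAt w F b)
    (hfib : ∀ u : Place Kbar (FF N), r u = r v → 0 ≤ u.ord F) : a - b ∈ A.nonunits := by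
  have haA : a ∈ A := h48e_value_mem A hp hN hA r hr F hF v a hva hfib
  have hbA : b ∈ A :=
    h48e_value_mem A hp hN hA r hr F hF w b hwb (fun u hu => hfib u (hu.trans hvw))
  by_contra hc
  rw [ValuationSubring.mem_nonunits_iff_or, not_or, not_not] at hc
  obtain ⟨hc0, hcinv⟩ := hc
  have hdV : cst N (a - b)⁻¹ ∈ gaussV A N := (cst_mem_gaussV_iff A N hA _).2 hcinv
  have haV : cst N a ∈ gaussV A N := (cst_mem_gaussV_iff A N hA a).2 haA
  have hbV : cst N b ∈ gaussV A N := (cst_mem_gaussV_iff A N hA b).2 hbA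
  have hHV : cst N (a - b)⁻¹ * (F - cst N a) ∈ gaussV A N := mul_mem hdV (sub_mem hF haV)
  have hH'V : cst N (a - b)⁻¹ * (F - cst N b) ∈ gaussV A N := mul_mem hdV (sub_mem hF hbV)
  have hrel : cst N (a - b)⁻¹ * (F - cst N b) = cst N (a - b)⁻¹ * (F - cst N a) + 1 := by
    have h1 : cst N (a - b)⁻¹ * (cst N a - cst N b) = 1 := by
      rw [← map_sub, ← map_mul, inv_mul_cancel₀ hc0, map_one]
    calc cst N (a - b)⁻¹ * (F - cst N b)
        = cst N (a - b)⁻¹ * (F - cst N a) + cst N (a - b)⁻¹ * (cst N a - cst N b) := by ring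
      _ = cst N (a - b)⁻¹ * (F - cst N a) + 1 := by rw [h1]
  have hregmem : ∀ (u : Place Kbar (FF N)) (c : Kbar), r u = r v →
      0 ≤ u.ord (cst N (a - b)⁻¹ * (F - cst N c)) := by
    intro u c hu
    apply Fermat.Agent.S24.DiffPlace.ord_nonneg_of_mem
    exact mul_mem (Fermat.Agent.Red.Match.cst_mem u _)
      (sub_mem ((Fermat.Agent.S24.DiffPlace.ord_nonneg_iff_mem u).1 (hfib u hu))
        (Fermat.Agent.Red.Match.cst_mem u c))
  have h1 := h48e_red_mem_nonunits A hp hN hA r hr _ hHV v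
    (h48e_mul_mem_nonunits _ (Fermat.Agent.Red.Match.cst_mem v _) hva)
    (fun u hu => hregmem u a hu)
  have h2 := h48e_red_mem_nonunits A hp hN hA r hr _ hH'V w
    (h48e_mul_mem_nonunits _ (Fermat.Agent.Red.Match.cst_mem w _) hwb)
    (fun u hu => hregmem u b (hu.trans hvw))
  rw [hvw, h48e_red_add_one A _ _ hHV hH'V hrel] at h2
  have h3 := h48e_sub_mem_nonunits _ h2 h1
  rw [add_sub_cancel_left] at h3
  exact h48e_one_not_mem_nonunits _ h3

/-- **EVAL (V3).**  `G` a Gauss unit of level `N` whose reduction has all its orders divisible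
by `p`; `F` Gauss-integral, regular on every fibre of `r` which contains a zero or a pole of
`G`; `fv v` the value of `F` at the zeros and poles `v` of `G`.  Then
`∑_v ord_v(G) · F(v) ∈ 𝔪_A`. -/
theorem h48e_eval (hp : p.Prime) (hN : ¬ p ∣ N) (hA : A.LiesOverPrime p)
    (r : Place Kbar (FF N) → Place (h13sK A) (h13sFt A N)) (hr : H13sIsRed A N r)
    (G : FF N) (hG0 : G ≠ 0) (hG : G ∈ gaussV A N) (hGinv : G⁻¹ ∈ gaussV A N)
    (hdiv : ∀ Q : Place (h13sK A) (h13sFt A N), (p : ℤ) ∣ Q.ord (h13sRed A N ⟨G, hG⟩))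
    (F : FF N) (hF : F ∈ gaussV A N)
    (S : Finset (Place Kbar (FF N))) (hS : ∀ v : Place Kbar (FF N), v.ord G ≠ 0 → v ∈ S)
    (fv : Place Kbar (FF N) → Kbar)
    (hfv : ∀ v ∈ S, v.ord G ≠ 0 → ValueAt v F (fv v))
    (hreg : ∀ v ∈ S, v.ord G ≠ 0 → ∀ w : Place Kbar (FF N), r w = r v → 0 ≤ w.ord F) :
    (∑ v ∈ S, (v.ord G : Kbar) * fv v) ∈ A.nonunits := by
  classical
  have hPD := Fermat.Agent.Red.HKMod.hasPrincipalDivisors_FF N
  obtain ⟨D, hD, -⟩ := HasPrincipalDivisors.exists_divisor (K := Kbar) G hG0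
  have hsupp : ∀ v : Place Kbar (FF N), v ∈ D.support ↔ v.ord G ≠ 0 := fun v => by
    rw [Finsupp.mem_support_iff, hD v]
  have hsub : D.support ⊆ S := fun v hv => hS v ((hsupp v).1 hv)
  have hsum1 : ∑ v ∈ S, (v.ord G : Kbar) * fv v =
      ∑ v ∈ D.support, (v.ord G : Kbar) * fv v := by
    symm
    apply Finset.sum_subset hsub
    intro v _ hv
    have h0 : v.ord G = 0 := by
      by_contra h
      exact hv ((hsupp v).2 h)
    rw [h0, Int.cast_zero, zero_mul]
  have hsum2 : ∑ v ∈ D.support, (v.ord G : Kbar) * fv v =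
      ∑ Q ∈ D.support.image r, ∑ v ∈ D.support with r v = Q, (v.ord G : Kbar) * fv v :=
    (Finset.sum_fiberwise_of_maps_to (fun v hv => Finset.mem_image_of_mem r hv) _).symm
  rw [hsum1, hsum2]
  show A.valuation _ < 1
  apply Valuation.map_sum_lt _ one_ne_zero
  intro Q hQ
  obtain ⟨v₀, hv₀, rfl⟩ := Finset.mem_image.1 hQ
  have hv₀S := hsub hv₀
  have hv₀n := (hsupp v₀).1 hv₀
  have ha₀ : fv v₀ ∈ A :=
    h48e_value_mem A hp hN hA r hr F hF v₀ (fv v₀) (hfv v₀ hv₀S hv₀n) (hreg v₀ hv₀S hv₀n)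
  have hsplit : ∑ v ∈ D.support with r v = r v₀, (v.ord G : Kbar) * fv v =
      ∑ v ∈ D.support with r v = r v₀, (v.ord G : Kbar) * (fv v - fv v₀) +
        (∑ v ∈ D.support with r v = r v₀, (v.ord G : Kbar)) * fv v₀ := by
    rw [Finset.sum_mul, ← Finset.sum_add_distrib]
    exact Finset.sum_congr rfl (fun v _ => by ring)
  rw [hsplit]
  apply Valuation.map_add_lt
  · apply Valuation.map_sum_lt _ one_ne_zero
    intro v hv
    obtain ⟨hvD, hvr⟩ := Finset.mem_filter.1 hv
    have hvS := hsub hvD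
    have hvn := (hsupp v).1 hvD
    have hcong : fv v₀ - fv v ∈ A.nonunits :=
      h48e_value_cong A hp hN hA r hr F hF v₀ v hvr (fv v₀) (fv v) (hfv v₀ hv₀S hv₀n)
        (hfv v hvS hvn) (hreg v₀ hv₀S hv₀n)
    have hneg : fv v - fv v₀ ∈ A.nonunits := by
      have h1 := h48e_sub_mem_nonunits A ((ValuationSubring.mem_nonunits_iff_or _).2 (Or.inl rfl))
        hcong
      rwa [zero_sub, neg_sub] at h1
    exact h48e_mul_mem_nonunits A (intCast_mem A.toSubring (v.ord G)) hneg
  · have hcls : (∑ v ∈ D.support with r v = r v₀, (v.ord G : Kbar)) =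
        ((h13sPush r D (r v₀) : ℤ) : Kbar) := by
      rw [h59i_push_apply, ← Finset.sum_filter, Int.cast_sum]
      exact Finset.sum_congr rfl (fun v _ => by rw [hD v])
    rw [hcls, hr.2.2 G hG hGinv D hD (r v₀)]
    obtain ⟨m, hm⟩ := hdiv (r v₀)
    rw [hm, Int.cast_mul, Int.cast_natCast, mul_assoc, mul_comm]
    exact h48e_mul_mem_nonunits A (mul_mem (intCast_mem A.toSubring m) ha₀) hA

/-- **EVAL**, regularity hypothesis in the form "no pole of `F` has the reduction of a zero or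
pole of `G`" (shape of helper70 / helper44 (L3)). -/
theorem h48e_eval_pole (hp : p.Prime) (hN : ¬ p ∣ N) (hA : A.LiesOverPrime p)
    (r : Place Kbar (FF N) → Place (h13sK A) (h13sFt A N)) (hr : H13sIsRed A N r)
    (G : FF N) (hG0 : G ≠ 0) (hG : G ∈ gaussV A N) (hGinv : G⁻¹ ∈ gaussV A N)
    (hdiv : ∀ Q : Place (h13sK A) (h13sFt A N), (p : ℤ) ∣ Q.ord (h13sRed A N ⟨G, hG⟩))
    (F : FF N) (hF : F ∈ gaussV A N)
    (hpole : ∀ v c : Place Kbar (FF N), v.ord G ≠ 0 → c.ord F < 0 → r c ≠ r v)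
    (S : Finset (Place Kbar (FF N))) (hS : ∀ v : Place Kbar (FF N), v.ord G ≠ 0 → v ∈ S)
    (fv : Place Kbar (FF N) → Kbar)
    (hfv : ∀ v ∈ S, v.ord G ≠ 0 → ValueAt v F (fv v)) :
    (∑ v ∈ S, (v.ord G : Kbar) * fv v) ∈ A.nonunits :=
  h48e_eval A hp hN hA r hr G hG0 hG hGinv hdiv F hF S hS fv hfv
    (fun v _ hv w hw => by
      by_contra h
      exact hpole v w hv (not_le.1 h) hw)

end Level

/-! ### The shape of the right-hand side of DL2 for a norm -/

section Along

variable {p M N : ℕ} [NeZero M] [NeZero N] (A : ValuationSubring Kbar)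

/-- **EVAL along `φ : FF M → FF N`** (e.g. `φ = degen h`), in the shape of the right-hand side
of `h83o_resid_normAlong`: `f ∈ FF M` regular off `oo` with values `fv`, `φ f` Gauss-integral
of level `N`, `G` a Gauss unit of level `N` with all orders of its reduction divisible by `p`,
without zero or pole on the fibres of `r` containing a place over `oo`.  Then
`∑_{w ∈ S'} ord_w(G) · fv (w ∩ FF M) ∈ 𝔪_A`. -/
theorem h48e_eval_along (hp : p.Prime) (hN : ¬ p ∣ N) (hA : A.LiesOverPrime p)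
    (r : Place Kbar (FF N) → Place (h13sK A) (h13sFt A N)) (hr : H13sIsRed A N r)
    (φ : FF M →ₐ[Kbar] FF N) (hφ : φ.toRingHom.IsIntegral)
    (oo : Place Kbar (FF M)) (f : FF M)
    (hregf : ∀ v : Place Kbar (FF M), v ≠ oo → 0 ≤ v.ord f)
    (fv : Place Kbar (FF M) → Kbar)
    (hfv : ∀ v : Place Kbar (FF M), v ≠ oo → ValueAt v f (fv v))
    (hF : φ f ∈ gaussV A N)
    (G : FF N) (hG0 : G ≠ 0) (hG : G ∈ gaussV A N) (hGinv : G⁻¹ ∈ gaussV A N)
    (hdiv : ∀ Q : Place (h13sK A) (h13sFt A N), (p : ℤ) ∣ Q.ord (h13sRed A N ⟨G, hG⟩))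
    (hoff : ∀ w c : Place Kbar (FF N), w.ord G ≠ 0 → c.restrictAlong φ hφ = oo → r c ≠ r w)
    (S' : Finset (Place Kbar (FF N)))
    (hS2 : ∀ w : Place Kbar (FF N), w.restrictAlong φ hφ ≠ oo → w.ord G ≠ 0 → w ∈ S') :
    (∑ w ∈ S', (w.ord G : Kbar) * fv (w.restrictAlong φ hφ)) ∈ A.nonunits := by
  have hnot : ∀ w : Place Kbar (FF N), w.ord G ≠ 0 → w.restrictAlong φ hφ ≠ oo :=
    fun w hw h => hoff w w hw h rfl
  refine h48e_eval A hp hN hA r hr G hG0 hG hGinv hdiv (φ f) hF S'
    (fun w hw => hS2 w (hnot w hw) hw) (fun w => fv (w.restrictAlong φ hφ)) ?_ ?_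
  · intro w _ hw
    exact (Fermat.Agent.Red.TRK.h87_valueAt_restrict φ hφ w f _).1 (hfv _ (hnot w hw))
  · intro w _ hw c hc
    have h1 : c.restrictAlong φ hφ ≠ oo := fun h => hoff w c hw h hc
    have h2 := hregf _ h1
    rw [Place.ord_restrictAlong φ hφ c f]
    exact mul_nonneg (Int.natCast_nonneg _) h2

/-- the same with the values given in the shape of `h38g_resid` / `h83o_resid_normAlong`
(`0 < ord_v (f - fv v)`). -/
theorem h48e_eval_along' (hp : p.Prime) (hN : ¬ p ∣ N) (hA : A.LiesOverPrime p)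
    (r : Place Kbar (FF N) → Place (h13sK A) (h13sFt A N)) (hr : H13sIsRed A N r)
    (φ : FF M →ₐ[Kbar] FF N) (hφ : φ.toRingHom.IsIntegral)
    (oo : Place Kbar (FF M)) (f : FF M)
    (hregf : ∀ v : Place Kbar (FF M), v ≠ oo → 0 ≤ v.ord f)
    (fv : Place Kbar (FF M) → Kbar)
    (hfv : ∀ v : Place Kbar (FF M), v ≠ oo → 0 < v.ord (f - algebraMap Kbar (FF M) (fv v)))
    (hF : φ f ∈ gaussV A N)
    (G : FF N) (hG0 : G ≠ 0) (hG : G ∈ gaussV A N) (hGinv : G⁻¹ ∈ gaussV A N)
    (hdiv : ∀ Q : Place (h13sK A) (h13sFt A N), (p : ℤ) ∣ Q.ord (h13sRed A N ⟨G, hG⟩))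
    (hoff : ∀ w c : Place Kbar (FF N), w.ord G ≠ 0 → c.restrictAlong φ hφ = oo → r c ≠ r w)
    (S' : Finset (Place Kbar (FF N)))
    (hS2 : ∀ w : Place Kbar (FF N), w.restrictAlong φ hφ ≠ oo → w.ord G ≠ 0 → w ∈ S') :
    (∑ w ∈ S', (w.ord G : Kbar) * fv (w.restrictAlong φ hφ)) ∈ A.nonunits :=
  h48e_eval_along A hp hN hA r hr φ hφ oo f hregf fv
    (fun v hv => h48e_mem_nonunits_of_ord_pos v (hfv v hv)) hF G hG0 hG hGinv hdiv hoff S' hS2

end Along

end Fermat.Agent.P7
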