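import Fermat.Agent.P7.H26IntIface
import Fermat.Agent.P5.H26PushPole
import Fermat.Agent.Red.MatchLoc
import Fermat.Agent.Red.GV.BarGalois
import Fermat.Agent.P5.H40RRInst
import Fermat.Agent.S28.RAsm

/-!
# Wave 7, block (A) DLOG at the level `M`, leaf DL4-M-CONST, step (d): INT ⟹ (S2)
(helper36, twin; prefix `h36s_`)

`H26iInt` (the elements of the chart at infinity have `A`-integral `q`-expansions) implies
`H26iS2` (the reduction map of places sends the `q`-order place of the generic fibre to the
`q`-order place of the special fibre).  Both are the frozen `Prop`s of `P7/H26IntIface.lean`.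

Proof.  `r` a reduction map of places at the good level `M`, `Q` / `oo` the `q`-order places.

1. RED-DIV for the Gauss unit `j` (`ord_Q (j̄) = -1`): there is a pole `v'` of `j` with
   `r v' = Q`.  Both `v'` and `oo` are non-finite places.
2. For `f` in the chart at infinity let `a = f(v')`, `b = f(oo)` (both in `A`).  If `a - b` were a
   unit of `A`, then `g = f - a` (again in the chart at infinity) has, by INT, an integral
   `q`-expansion with unit constant term, so its reduction has `q`-order `0`; RED-DIV for the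
   Gauss unit `g` gives `0 = ∑_{r v = Q} ord_v g`, but all the terms are `≥ 0` (the places of
   the fibre are non-finite, `g` is regular there) and the term at `v'` is `> 0`.
3. Hence `SameRed A v' oo` and `r oo = r v' = Q`.

Every declaration is a proved theorem; nothing is assumed.
-/

set_option autoImplicit false
set_option linter.unusedSectionVars false
set_option linter.unusedVariables false
set_option linter.style.haveILetI false

open AlgebraicCurve ModularCurve IsLocalRing

noncomputable section

namespace Fermat.Agent.P7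

open Fermat.Agent.S37 Fermat.Agent.Red Fermat.Agent.Red.GV Fermat.Agent.P5
  Fermat.Agent.S24.DiffPlace Fermat.Agent.Red.ModelO Fermat.Agent.Red.Match

/-- a Laurent series without negative terms and with nonzero constant term has order `0`. -/
theorem h36s_order_eq_zero {k : Type*} [Field k] {s : LaurentSeries k}
    (hneg : ∀ i : ℤ, i < 0 → s.coeff i = 0) (h0 : s.coeff 0 ≠ 0) : s.order = 0 := by
  have hs : s ≠ 0 := by
    rintro rfl
    exact h0 rfl
  refine le_antisymm (HahnSeries.order_le_of_coeff_ne_zero h0) ?_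
  by_contra hlt
  rw [not_le] at hlt
  exact hs (HahnSeries.coeff_order_eq_zero.mp (hneg _ hlt))

/-- a nonzero nonunit of the valuation ring of a place has positive order. -/
theorem h36s_ord_pos {K F : Type*} [Field K] [Field F] [Algebra K F] (v : Place K F) {x : F}
    (hx : x ∈ v.toValuationSubring.nonunits) (hx0 : x ≠ 0) : 0 < v.ord x := by
  obtain ⟨hmem, hmax⟩ := (ValuationSubring.mem_nonunits_iff_exists_mem_maximalIdeal).1 hx
  exact ord_pos_of_mem_maximalIdeal v (z := ⟨x, hmem⟩) hmax (fun h => hx0 (congrArg Subtype.val h))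

section Level

variable {ℓ : ℕ} {M : ℕ} [NeZero M] {A : ValuationSubring Kbar}

/-- the `q`-order place is not finite. -/
theorem h36s_not_fin_oo (oo : Place Kbar (FF M))
    (hoo : ∀ f : FF M, f ≠ 0 → oo.ord f = ((f : FF M) : LaurentSeries Kbar).order) :
    ¬ IsFinAt A oo := by
  intro h
  have h1 := h26s_ord_nonneg_of_isFinAt h
  rw [hoo _ (h85_jB_ne_zero M), coe_jB] at h1
  have h2 : (jK Kbar).order = -1 := Fermat.Agent.S28.Asm.order_jqModC' Kbar
  rw [h2] at h1
  omega

/-- the value of a function at the `q`-order place is the constant term of its `q`-expansion,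
and there are no negative terms. -/
theorem h36s_coeff_of_valueAt (oo : Place Kbar (FF M))
    (hoo : ∀ f : FF M, f ≠ 0 → oo.ord f = ((f : FF M) : LaurentSeries Kbar).order)
    {f : FF M} {b : Kbar} (hb : ValueAt oo f b) (a : Kbar) :
    (((f - cst M a : FF M) : FF M) : LaurentSeries Kbar).coeff 0 = b - a ∧
      ∀ i : ℤ, i < 0 → (((f - cst M a : FF M) : FF M) : LaurentSeries Kbar).coeff i = 0 := by
  have key : ∀ i : ℤ, i ≤ 0 → (((f - cst M b : FF M) : FF M) : LaurentSeries Kbar).coeff i = 0 := by
    intro i hi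
    rcases eq_or_ne (f - cst M b) 0 with h0 | h0
    · rw [h0]
      rfl
    · have hpos : 0 < oo.ord (f - cst M b) := h36s_ord_pos oo hb h0
      rw [hoo _ h0] at hpos
      exact HahnSeries.coeff_eq_zero_of_lt_order (lt_of_le_of_lt hi hpos)
  have e : ((f - cst M a : FF M) : LaurentSeries Kbar) =
      ((f - cst M b : FF M) : LaurentSeries Kbar) + HahnSeries.C (b - a) := by
    have e0 : cst M (b - a) = cst M b - cst M a := map_sub _ _ _
    have e1 : f - cst M a = (f - cst M b) + cst M (b - a) := by
      rw [e0]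
      ring
    rw [e1]
    have e2 : (((f - cst M b) + cst M (b - a) : FF M) : LaurentSeries Kbar) =
        ((f - cst M b : FF M) : LaurentSeries Kbar) +
          ((cst M (b - a) : FF M) : LaurentSeries Kbar) := rfl
    rw [e2, coe_cst]
  constructor
  · rw [e, HahnSeries.coeff_add, key 0 le_rfl, zero_add, HahnSeries.C_apply,
      HahnSeries.coeff_single_same]
  · intro i hi
    rw [e, HahnSeries.coeff_add, key i hi.le, zero_add, HahnSeries.C_apply,
      HahnSeries.coeff_single_of_ne hi.ne]

end Level

/-- **INT ⟹ (S2)**: the reduction map of places sends the `q`-order place of the generic fibre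
to the `q`-order place of the special fibre. -/
theorem h36s_s2_of_int (hInt : H26iInt) : H26iS2 := by
  intro ℓ hℓ M _ hM haux A hA r hr Q hQ oo hoo
  classical
  obtain ⟨hsurj, hsame, hdiv⟩ := hr
  have hπ := isResidueMap_residue A ℓ hA
  -- Step 1: a pole of `j` in the fibre of `Q`
  have hj0 : jB M ≠ 0 := h85_jB_ne_zero M
  obtain ⟨Dj, hDj, -⟩ := (h40r_base_FF M).pd (jB M) hj0
  have h3 : h13sPush r Dj Q = Q.ord (h13sRed A M ⟨jB M, jB_mem_gaussV A M⟩) :=
    hdiv (jB M) (jB_mem_gaussV A M) (jB_inv_mem_gaussV A M hℓ hM hA) Dj hDj Q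
  have hinclJ : h13sIncl A M (h13sRed A M ⟨jB M, jB_mem_gaussV A M⟩) =
      jqModC (IsLocalRing.ResidueField A) := by
    rw [h13sIncl_red]
    exact gaussR_jB A M
  have hJne : h13sRed A M ⟨jB M, jB_mem_gaussV A M⟩ ≠ 0 := by
    intro h0
    have h1 := hinclJ
    rw [h0, map_zero] at h1
    exact ModularCurve.jqModC_ne_zero_of_nontrivial _ h1.symm
  have hQj : Q.ord (h13sRed A M ⟨jB M, jB_mem_gaussV A M⟩) = -1 := by
    rw [hQ _ hJne, hinclJ]
    exact Fermat.Agent.S28.Asm.order_jqModC' _
  have e2 : h13sPush r Dj Q = ∑ v ∈ Dj.support, if r v = Q then Dj v else 0 :=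
    h26s_mapDomain_apply_of_subset r Dj Q _ (le_refl _)
  obtain ⟨v', hv'Q, hv'neg⟩ : ∃ v' : Place Kbar (FF M), r v' = Q ∧ v'.ord (jB M) < 0 := by
    by_contra hcon0
    have hcon : ∀ v : Place Kbar (FF M), r v = Q → 0 ≤ v.ord (jB M) := by
      intro v hv
      by_contra h
      exact hcon0 ⟨v, hv, not_le.mp h⟩
    have hnn : 0 ≤ ∑ v ∈ Dj.support, if r v = Q then Dj v else 0 := by
      refine Finset.sum_nonneg fun v _ => ?_
      split_ifs with h
      · rw [hDj v]
        exact hcon v h
      · exact le_rfl
    rw [← e2, h3, hQj] at hnn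
    omega
  have hv'fin : ¬ IsFinAt A v' := fun h =>
    absurd (h26s_ord_nonneg_of_isFinAt h) (not_le.mpr hv'neg)
  have hoofin : ¬ IsFinAt A oo := h36s_not_fin_oo oo hoo
  -- Step 2: congruence of the values at `v'` and `oo`
  have hcong : ∀ f ∈ modelInf M A, CongAt A v' oo f := by
    intro f hf
    obtain ⟨a, ha⟩ := exists_valueAt_modelInf hv'fin ⟨f, hf⟩
    obtain ⟨b, hb⟩ := exists_valueAt_modelInf hoofin ⟨f, hf⟩
    refine ⟨(a : Kbar), (b : Kbar), a.2, b.2, ha, hb, ?_⟩
    by_contra hnu
    -- `g = f - a`
    have hgInf : f - cst M (a : Kbar) ∈ modelInf M A :=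
      Subring.sub_mem _ hf (cst_mem_modelAt M A _ a.2)
    have hgV : f - cst M (a : Kbar) ∈ gaussV A M := modelInf_le_gaussV A M hℓ hM hA hgInf
    obtain ⟨y, hy⟩ := hInt ℓ hℓ M hM A hA (f - cst M (a : Kbar)) hgInf
    obtain ⟨hc0, hcneg⟩ := h36s_coeff_of_valueAt oo hoo hb (a : Kbar)
    have hred : gaussR A M ⟨f - cst M (a : Kbar), hgV⟩ = redA (IsLocalRing.residue A) y :=
      gaussRed_of_embA A (IsLocalRing.residue A) M ⟨f - cst M (a : Kbar), hgV⟩ y hy
    -- the coefficients of `y`
    have hy0 : ((y.coeff 0 : A) : Kbar) = (b : Kbar) - (a : Kbar) := by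
      have h1 := congrArg (fun s : LaurentSeries Kbar => s.coeff 0) hy
      simp only [embA, coeffMap_coeff] at h1
      rw [← hc0]
      exact h1
    have hyneg : ∀ i : ℤ, i < 0 → y.coeff i = 0 := by
      intro i hi
      have h1 := congrArg (fun s : LaurentSeries Kbar => s.coeff i) hy
      simp only [embA, coeffMap_coeff] at h1
      rw [hcneg i hi] at h1
      apply Subtype.ext
      exact h1
    -- the reduction of `g` has order `0`
    have hunit : IsLocalRing.residue A (y.coeff 0) ≠ 0 := by
      intro h0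
      have h1 := (hπ.ker_eq (y.coeff 0)).1 h0
      rw [hy0] at h1
      apply hnu
      have h2 : (a : Kbar) - (b : Kbar) = -((b : Kbar) - (a : Kbar)) := by ring
      rw [h2, ValuationSubring.mem_nonunits_iff, Valuation.map_neg]
      exact (ValuationSubring.mem_nonunits_iff A).1 h1
    have hord : (gaussR A M ⟨f - cst M (a : Kbar), hgV⟩).order = 0 := by
      rw [hred]
      refine h36s_order_eq_zero (fun i hi => ?_) ?_
      · show (coeffMap (IsLocalRing.residue A) y).coeff i = 0
        rw [coeffMap_coeff, hyneg i hi, map_zero]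
      · show (coeffMap (IsLocalRing.residue A) y).coeff 0 ≠ 0
        rw [coeffMap_coeff]
        exact hunit
    have hRne : gaussR A M ⟨f - cst M (a : Kbar), hgV⟩ ≠ 0 := by
      intro h0
      have h1 : (gaussR A M ⟨f - cst M (a : Kbar), hgV⟩).coeff 0 ≠ 0 := by
        rw [hred]
        show (coeffMap (IsLocalRing.residue A) y).coeff 0 ≠ 0
        rw [coeffMap_coeff]
        exact hunit
      apply h1
      rw [h0]
      rfl
    have hg0 : f - cst M (a : Kbar) ≠ 0 := by
      intro h0
      apply hRne
      have : (⟨f - cst M (a : Kbar), hgV⟩ : gaussV A M) = 0 := Subtype.ext h0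
      rw [this, map_zero]
    have hginv : (f - cst M (a : Kbar))⁻¹ ∈ gaussV A M := by
      by_contra hni
      exact hRne ((gaussR_eq_zero_iff A M hℓ hM hA ⟨f - cst M (a : Kbar), hgV⟩).2 (Or.inr hni))
    -- RED-DIV for `g`
    obtain ⟨Dg, hDg, -⟩ := (h40r_base_FF M).pd (f - cst M (a : Kbar)) hg0
    have h4 : h13sPush r Dg Q = Q.ord (h13sRed A M ⟨f - cst M (a : Kbar), hgV⟩) :=
      hdiv (f - cst M (a : Kbar)) hgV hginv Dg hDg Q
    have hredne : h13sRed A M ⟨f - cst M (a : Kbar), hgV⟩ ≠ 0 := by
      intro h0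
      apply hRne
      have h1 := h13sIncl_red A M ⟨f - cst M (a : Kbar), hgV⟩
      rw [h0, map_zero] at h1
      exact h1.symm
    have h5 : Q.ord (h13sRed A M ⟨f - cst M (a : Kbar), hgV⟩) = 0 := by
      rw [hQ _ hredne, h13sIncl_red]
      exact hord
    have e3 : h13sPush r Dg Q = ∑ v ∈ Dg.support, if r v = Q then Dg v else 0 :=
      h26s_mapDomain_apply_of_subset r Dg Q _ (le_refl _)
    have hposv' : 0 < v'.ord (f - cst M (a : Kbar)) := h36s_ord_pos v' ha hg0
    have hv'mem : v' ∈ Dg.support := by
      rw [Finsupp.mem_support_iff, hDg v']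
      omega
    have hterm : ∀ v ∈ Dg.support, 0 ≤ (if r v = Q then Dg v else 0) := by
      intro v _
      split_ifs with h
      · rw [hDg v]
        have hsr : SameRed A v v' := (hsame v v').1 (h.trans hv'Q.symm)
        have hvfin : ¬ IsFinAt A v := by
          rcases hsr with ⟨-, h2, -⟩ | ⟨h1, -, -⟩
          · exact absurd h2 hv'fin
          · exact h1
        obtain ⟨c, hc⟩ := exists_valueAt_modelInf hvfin ⟨f - cst M (a : Kbar), hgInf⟩
        have h1 : (f - cst M (a : Kbar)) - cst M (c : Kbar) ∈ v.toValuationSubring :=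
          ValuationSubring.nonunits_subset hc
        have h2 : cst M (c : Kbar) ∈ v.toValuationSubring := v.algebraMap_mem' _
        have h3 : f - cst M (a : Kbar) =
            ((f - cst M (a : Kbar)) - cst M (c : Kbar)) + cst M (c : Kbar) := by ring
        rw [h3]
        exact ord_nonneg_of_mem v (v.toValuationSubring.add_mem _ _ h1 h2)
      · exact le_rfl
    have hsum : 0 < ∑ v ∈ Dg.support, if r v = Q then Dg v else 0 := by
      refine lt_of_lt_of_le ?_ (Finset.single_le_sum hterm hv'mem)
      rw [if_pos hv'Q, hDg v']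
      exact hposv'
    rw [← e3, h4, h5] at hsum
    exact lt_irrefl _ hsum
  -- Step 3
  have hsr : SameRed A v' oo := Or.inr ⟨hv'fin, hoofin, hcong⟩
  rw [← (hsame v' oo).2 hsr]
  exact hv'Q

end Fermat.Agent.P7
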