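import Fermat.Agent.P7.H52ExactIface
import Fermat.Agent.P7.H26IntIface

/-!
# Wave 7, DLOG ORTH(M), row H2-EXACT: the input (S2) of the frozen interface is helper26's
frozen Prop `H26iS2` (helper52, prefix `h52x_`)

`h52x_s2_iff : H26iS2 ↔ H52xS2` (binder order only), so the chain is
`H26iInt → H26iS2 → H52xS2 → H52xExact`.
-/

set_option autoImplicit false

open AlgebraicCurve ModularCurve

noncomputable section

namespace Fermat.Agent.P7

open Fermat.Agent.S37 Fermat.Agent.Red.GV Fermat.Agent.P5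

/-- helper26's (S2) gives the input (S2) of the interface of H2-EXACT. -/
theorem h52x_s2_of_h26 (h : H26iS2) : H52xS2 :=
  fun ℓ hℓ N _ hN haux A hA r hr v Q hv hQ => h ℓ hℓ N hN haux A hA r hr Q hQ v hv

/-- the converse. -/
theorem h52x_h26_of_s2 (h : H52xS2) : H26iS2 :=
  fun ℓ hℓ N _ hN haux A hA r hr Q hQ v hv => h ℓ hℓ N hN haux A hA r hr v Q hv hQ

/-- the two frozen shapes of (S2) agree. -/
theorem h52x_s2_iff : H26iS2 ↔ H52xS2 :=
  ⟨h52x_s2_of_h26, h52x_h26_of_s2⟩

/-- `H52xExact` from any proof of `H52xS2 → H52xExact` and helper26's (S2). -/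
theorem h52x_exact_of_h26 (hex : H52xS2 → H52xExact) (h : H26iS2) : H52xExact :=
  hex (h52x_s2_of_h26 h)

end Fermat.Agent.P7
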