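import Fermat.Agent.P5.H13SFIface
import Fermat.Agent.Red.GV.SoftBar
import Fermat.Agent.Red.CH0

/-!
# Wave 7, block (A), DLOG at the non-good level, ORTH(M) leaf (1) EXACT FUNCTION:
frozen interface (helper52, prefix `h52x_` / `H52x`), row H2-EXACT

`p` a prime, `M` ANY level prime to `p`, `M⁺ = goodLevel p M`, `A` a valuation subring of `ℚ̄`
over `p`, `r` the reduction map of places at level `M⁺` (`H13sIsRed`), `vM` the `q`-order place
of `FF M`.

* `H52xExactAt p M A r vM` : there are `m ≥ 1` and `h ∈ FF M`, a Gauss unit (`softV A M`),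
  regular off `vM`, with `ord_{vM} h = -m` AND `q`-order of the reduction `= -m`; moreover the
  reduction of `degen h` (level `M⁺`) has a pole at `r c` for every place `c` of `FF M⁺` over
  `vM`.
* `H52xS2` : the `q`-order place of `FF M⁺` reduces to the `q`-order place of the special fibre
  (statement (S2) of finding 1462; input of the construction).
* `H52xExact` : `H52xExactAt` for all data.
-/

set_option autoImplicit false
set_option linter.style.haveILetI false

open AlgebraicCurve ModularCurve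

noncomputable section

namespace Fermat.Agent.P7

open Fermat.Agent.S37 Fermat.Agent.Red.GV Fermat.Agent.Red.GV.Soft Fermat.Agent.P5
open Fermat.Agent.Red.CH0 (isIntegral_degen)

/-- `v` is the `q`-order place of `FF M`. -/
def H52xIsQPlace (M : ℕ) (v : Place Kbar (FF M)) : Prop :=
  ∀ f : FF M, f ≠ 0 → v.ord f = ((f : FF M) : LaurentSeries Kbar).order

/-- `Q` is the `q`-order place of the special fibre of level `M`. -/
def H52xIsQPlaceSF (A : ValuationSubring Kbar) (M : ℕ)
    (Q : Place (h13sK A) (h13sFt A M)) : Prop :=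
  ∀ f : h13sFt A M, f ≠ 0 → Q.ord f = (h13sIncl A M f).order

/-- **H2-EXACT at one level.** -/
def H52xExactAt (p M : ℕ) [NeZero M] (A : ValuationSubring Kbar)
    (r : Place Kbar (FF (goodLevel p M)) → Place (h13sK A) (h13sFt A (goodLevel p M)))
    (vM : Place Kbar (FF M)) : Prop :=
  ∃ (m : ℕ) (h : FF M) (hh : h ∈ softV A M)
    (hd : degen (dvd_goodLevel p M) h ∈ gaussV A (goodLevel p M)),
    1 ≤ m ∧ h⁻¹ ∈ softV A M ∧
    (∀ v : Place Kbar (FF M), v ≠ vM → 0 ≤ v.ord h) ∧
    vM.ord h = -(m : ℤ) ∧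
    (softR A M ⟨h, hh⟩).order = -(m : ℤ) ∧
    ∀ c : Place Kbar (FF (goodLevel p M)),
      c.restrictAlong (degen (dvd_goodLevel p M)) (isIntegral_degen (dvd_goodLevel p M)) = vM →
        (r c).ord (h13sRed A (goodLevel p M) ⟨degen (dvd_goodLevel p M) h, hd⟩) < 0

/-- **(S2)** of finding 1462: the `q`-order place of the generic fibre at a good level reduces
to the `q`-order place of the special fibre. -/
def H52xS2 : Prop :=
  ∀ (p : ℕ), p.Prime → ∀ (N : ℕ) [NeZero N], ¬ p ∣ N → auxLevel p ∣ N →
    ∀ A : ValuationSubring Kbar, A.LiesOverPrime p →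
    ∀ r : Place Kbar (FF N) → Place (h13sK A) (h13sFt A N), H13sIsRed A N r →
    ∀ (v : Place Kbar (FF N)) (Q : Place (h13sK A) (h13sFt A N)),
      H52xIsQPlace N v → H52xIsQPlaceSF A N Q → r v = Q

/-- **H2-EXACT.** -/
def H52xExact : Prop :=
  ∀ (p : ℕ), p.Prime → ∀ (M : ℕ) [NeZero M], ¬ p ∣ M →
    ∀ A : ValuationSubring Kbar, A.LiesOverPrime p →
    ∀ r : Place Kbar (FF (goodLevel p M)) → Place (h13sK A) (h13sFt A (goodLevel p M)),
      H13sIsRed A (goodLevel p M) r →
    ∀ vM : Place Kbar (FF M), H52xIsQPlace M vM → H52xExactAt p M A r vM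

end Fermat.Agent.P7
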