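import Fermat.Agent.P7.H88ExactLift
import Fermat.Agent.P7.H52ExactIface
import Fermat.Agent.P7.H26DlogGapLevel

/-!
# Wave 7, block (A), DLOG at a non-good level: the EXACT FUNCTION in the frozen interface of
`P7/H52ExactIface.lean` (helper88)

* `h88e_qplace_exists` : the `q`-order place of `FF N` exists.
* `h88e_qplace_not_fin` : it is not finite at `A`.
* `h88e_qplace_comap` : the `q`-order place of `FF N` lies over the `q`-order place of `FF M`.
* `h88e_unique_pole` : if the `q`-order place `v∞` reduces to the `q`-order place of the special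
  fibre, it is the only pole of `j` in its residue class.
* `h88e_exactAt` : `H52xExactAt` from the statement (S2) at one level.
* `h88e_exact_iface : H52xS2 → H52xExact`.
-/

set_option autoImplicit false
set_option linter.unusedSectionVars false
set_option linter.style.haveILetI false
set_option synthInstance.maxHeartbeats 400000

open AlgebraicCurve ModularCurve

noncomputable section

namespace Fermat.Agent.P7

open Fermat.Agent.S37 Fermat.Agent.Red.GV Fermat.Agent.Red.GV.Soft Fermat.Agent.P5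
  Fermat.Agent.Red.HKMod Fermat.Agent.Red.Match

variable {N : ℕ} [NeZero N] {A : ValuationSubring Kbar} {ℓ : ℕ}

theorem h88e_jB_ne (N : ℕ) [NeZero N] : jB N ≠ 0 :=
  fun h => (h40r_transcendental_FF N) (h ▸ isAlgebraic_zero)

/-- the `q`-order place of `FF N`. -/
theorem h88e_qplace_exists (N : ℕ) [NeZero N] :
    ∃ v : Place Kbar (FF N), H52xIsQPlace N v := by
  refine h26g_exists_place (K := Kbar) (F := FF N)
    (modularFunctionFieldBar N).val.toRingHom (fun a => ?_) (jB N)⁻¹ ?_
  · show 0 ≤ ((cst N a : FF N) : LaurentSeries Kbar).order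
    rw [coe_cst, HahnSeries.order_C]
  · have h1 := h26g_order_map_inv (modularFunctionFieldBar N).val.toRingHom (jB N)
    have h2 : ((modularFunctionFieldBar N).val.toRingHom (jB N)).order = -1 := by
      show ((jB N : FF N) : LaurentSeries Kbar).order = -1
      rw [coe_jB]
      exact Fermat.Agent.S28.Asm.order_jqModC' Kbar
    rw [h1, h2]
    norm_num

/-- `j` has a simple pole at the `q`-order place. -/
theorem h88e_qplace_ord_j (v : Place Kbar (FF N)) (hv : H52xIsQPlace N v) :
    v.ord (jB N) = -1 := by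
  rw [hv (jB N) (h88e_jB_ne N), coe_jB]
  exact Fermat.Agent.S28.Asm.order_jqModC' Kbar

/-- the `q`-order place is not finite. -/
theorem h88e_qplace_not_fin (v : Place Kbar (FF N)) (hv : H52xIsQPlace N v) :
    ¬ IsFinAt A v := by
  intro h
  have h1 := h85f_ord_nonneg_of_isFinAt h
  rw [h88e_qplace_ord_j v hv] at h1
  omega

variable {M : ℕ} [NeZero M]

/-- the `q`-order place of `FF N` lies over the `q`-order place of `FF M`. -/
theorem h88e_qplace_comap (hd : M ∣ N) (voo : Place Kbar (FF N)) (hvoo : H52xIsQPlace N voo)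
    (vM : Place Kbar (FF M)) (hvM : H52xIsQPlace M vM) :
    voo.toValuationSubring.comap (degen hd).toRingHom = vM.toValuationSubring := by
  ext x
  rw [ValuationSubring.mem_comap]
  by_cases hx : x = 0
  · subst hx
    rw [map_zero]
    exact ⟨fun _ => zero_mem _, fun _ => zero_mem _⟩
  have hx' : degen hd x ≠ 0 := (map_ne_zero _).mpr hx
  have e : voo.ord (degen hd x) = vM.ord x := by
    rw [hvoo _ hx', coe_degen, ← hvM x hx]
  constructor
  · intro h
    have h1 : 0 ≤ voo.ord (degen hd x) := Fermat.Agent.S24.DiffPlace.ord_nonneg_of_mem voo h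
    rw [e] at h1
    exact Fermat.Agent.S24.DiffPlace.mem_of_ord_nonneg vM h1
  · intro h
    have h1 : 0 ≤ vM.ord x := Fermat.Agent.S24.DiffPlace.ord_nonneg_of_mem vM h
    rw [← e] at h1
    exact Fermat.Agent.S24.DiffPlace.mem_of_ord_nonneg voo h1

/-- the expansion of the reduction at the level `N` of a function of level `M`. -/
theorem h88e_incl_red_degen (hd : M ∣ N) (y : FF M) (hy : y ∈ softV A M)
    (hyp : degen hd y ∈ gaussV A N) :
    h13sIncl A N (h13sRed A N ⟨degen hd y, hyp⟩) = softR A M ⟨y, hy⟩ := by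
  rw [h13sIncl_red]
  have h1 : degen hd y ∈ softV A N := gaussV_le_softV A N hyp
  rw [← softR_eq_gaussR A N (degen hd y) h1 hyp]
  exact softR_degen A hd ⟨y, hy⟩ h1

/-- a place over the `q`-order place of `FF M` is a pole of `j`. -/
theorem h88e_pole_of_over (hd : M ∣ N) (voo : Place Kbar (FF N)) (hvoo : H52xIsQPlace N voo)
    (v : Place Kbar (FF N)) (hv : H88eOver hd v voo) : v.ord (jB N) < 0 := by
  have hj0 : jB N ≠ 0 := h88e_jB_ne N
  have hjM0 : jB M ≠ 0 := h88e_jB_ne M
  have e1 : degen hd (jB M)⁻¹ = (jB N)⁻¹ := by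
    rw [map_inv₀, Fermat.Agent.Red.CH0.degen_jBar hd]
  have h1 : 0 < voo.ord (jB N)⁻¹ := by
    rw [Place.ord_inv, h88e_qplace_ord_j voo hvoo]
    norm_num
  have h2 : (jB N)⁻¹ ∈ voo.toValuationSubring.nonunits :=
    Fermat.Agent.Red.SM.h31_mem_nonunits_of_ord_pos voo h1
  rw [← e1, h88e_mem_nonunits_degen, ← hv, ← h88e_mem_nonunits_degen, e1] at h2
  have h3 := Fermat.Agent.Red.SM.h31_ord_pos_of_mem_nonunits v h2 (inv_ne_zero hj0)
  rw [Place.ord_inv] at h3
  omega

/-- **uniqueness of the pole of `j` in the residue class of the `q`-order place.** -/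
theorem h88e_unique_pole (hℓ : ℓ.Prime) (hN : ¬ ℓ ∣ N) (hA : A.LiesOverPrime ℓ)
    (r : Place Kbar (FF N) → Place (h13sK A) (h13sFt A N)) (hr : H13sIsRed A N r)
    (voo : Place Kbar (FF N)) (hvoo : H52xIsQPlace N voo)
    (Q : Place (h13sK A) (h13sFt A N)) (hQ : H52xIsQPlaceSF A N Q) (hS2 : r voo = Q)
    (v : Place Kbar (FF N)) (hv : r v = r voo) (hpole : v.ord (jB N) < 0) : v = voo := by
  classical
  by_contra hne
  obtain ⟨D, hD, -⟩ := (h40r_base_FF N).pd (jB N) (h88e_jB_ne N)
  have hpush := hr.2.2 (jB N) (jB_mem_gaussV A N) (jB_inv_mem_gaussV A N hℓ hN hA) D hD (r voo)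
  have hJ : h13sIncl A N (h26sJ A N) = jqModC (IsLocalRing.ResidueField A) := h26g_incl_j A N
  have hJord : (h13sIncl A N (h26sJ A N)).order = -1 := by
    rw [hJ]
    exact Fermat.Agent.S28.Asm.order_jqModC' _
  have hJ0 : h26sJ A N ≠ 0 := by
    intro h0
    rw [h0, map_zero, HahnSeries.order_zero] at hJord
    omega
  have hQJ : (r voo).ord (h13sRed A N ⟨jB N, jB_mem_gaussV A N⟩) = -1 := by
    rw [hS2]
    show Q.ord (h26sJ A N) = -1
    rw [hQ _ hJ0, hJord]
  rw [hQJ] at hpush
  have hpush' : Finsupp.mapDomain r D (r voo) = -1 := hpush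
  rw [h88e_push_apply] at hpush'
  set S := D.support.filter (fun v' => r v' = r voo) with hS
  have hooS : voo ∈ S := by
    refine Finset.mem_filter.mpr ⟨Finsupp.mem_support_iff.mpr ?_, rfl⟩
    rw [hD, h88e_qplace_ord_j voo hvoo]
    norm_num
  have hvS : v ∈ S.erase voo := by
    refine Finset.mem_erase.mpr ⟨hne, Finset.mem_filter.mpr ⟨Finsupp.mem_support_iff.mpr ?_, hv⟩⟩
    rw [hD]
    omega
  have hnf : ∀ v' ∈ S.erase voo, D v' ≤ 0 := by
    intro v' hv'
    have h1 : r v' = r voo := (Finset.mem_filter.mp (Finset.mem_of_mem_erase hv')).2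
    have h2 : ¬ IsFinAt A v' := fun h =>
      h88e_qplace_not_fin voo hvoo ((sameRed_isFinAt_iff ((hr.2.1 v' voo).mp h1)).mp h)
    rw [hD]
    exact h85f_ord_nonpos_of_not_isFinAt h2
  have h1 : ∑ v' ∈ S.erase voo, D v' ≤ D v := h88e_sum_le _ _ hnf hvS
  have h2 : D voo + ∑ v' ∈ S.erase voo, D v' = ∑ v' ∈ S, D v' := Finset.add_sum_erase S D hooS
  have h3 : D voo = -1 := by rw [hD, h88e_qplace_ord_j voo hvoo]
  have h4 : D v < 0 := by rw [hD]; exact hpole
  omega

set_option maxHeartbeats 1600000 in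
/-- **H2-EXACT at one level**, from (S2) at that level. -/
theorem h88e_exactAt (hℓ : ℓ.Prime) (hM : ¬ ℓ ∣ M) (hA : A.LiesOverPrime ℓ)
    (r : Place Kbar (FF (goodLevel ℓ M)) → Place (h13sK A) (h13sFt A (goodLevel ℓ M)))
    (hr : H13sIsRed A (goodLevel ℓ M) r)
    (hS2 : ∀ (v : Place Kbar (FF (goodLevel ℓ M)))
      (Q : Place (h13sK A) (h13sFt A (goodLevel ℓ M))),
      H52xIsQPlace (goodLevel ℓ M) v → H52xIsQPlaceSF A (goodLevel ℓ M) Q → r v = Q)
    (vM : Place Kbar (FF M)) (hvM : H52xIsQPlace M vM) :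
    H52xExactAt ℓ M A r vM := by
  classical
  have hN : ¬ ℓ ∣ goodLevel ℓ M := not_dvd_goodLevel hℓ hM
  obtain ⟨voo, hvoo⟩ := h88e_qplace_exists (goodLevel ℓ M)
  obtain ⟨Q, hQ⟩ := h26g_place_inf A (goodLevel ℓ M)
  have hQ' : H52xIsQPlaceSF A (goodLevel ℓ M) Q := hQ
  have hrQ : r voo = Q := hS2 voo Q hvoo hQ'
  have hnf : ¬ IsFinAt A voo := h88e_qplace_not_fin voo hvoo
  have hcomap := h88e_qplace_comap (dvd_goodLevel ℓ M) voo hvoo vM hvM
  obtain ⟨m, h, hs, hm, hsinv, hu, hinv, hpoles, hzeros, hred, hreg, hord⟩ :=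
    h88e_exact_good hℓ hM hA r hr voo hnf
  have hvMord : vM.ord h = -(m : ℤ) := hord vM hcomap.symm
  have hh0 : h ≠ 0 := by
    rintro rfl
    rw [Place.ord_zero] at hvMord
    omega
  have hdh0 : degen (dvd_goodLevel ℓ M) h ≠ 0 := (map_ne_zero _).mpr hh0
  have hvoo_ord : voo.ord (degen (dvd_goodLevel ℓ M) h) = -(m : ℤ) := by
    rw [hvoo _ hdh0, coe_degen, ← hvM h hh0, hvMord]
  refine ⟨m, h, hu, hs, hm, hinv, ?_, hvMord, ?_, ?_⟩
  · intro v hv
    refine hreg v fun h0 => hv (Place.ext ?_)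
    rw [h0, hcomap]
  · -- the `q`-order of the reduction
    have e := h88e_incl_red_degen (A := A) (dvd_goodLevel ℓ M) h hu hs
    have hred0 : h13sRed A (goodLevel ℓ M) ⟨degen (dvd_goodLevel ℓ M) h, hs⟩ ≠ 0 := by
      have hmul : h13sRed A (goodLevel ℓ M) ⟨degen (dvd_goodLevel ℓ M) h, hs⟩ *
          h13sRed A (goodLevel ℓ M) ⟨(degen (dvd_goodLevel ℓ M) h)⁻¹, hsinv⟩ = 1 := by
        rw [← h88r_red_mul]
        have h2 : (⟨degen (dvd_goodLevel ℓ M) h, hs⟩ : gaussV A (goodLevel ℓ M)) *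
            ⟨(degen (dvd_goodLevel ℓ M) h)⁻¹, hsinv⟩ = 1 :=
          Subtype.ext (mul_inv_cancel₀ hdh0)
        rw [h2, h88r_red_one]
      exact left_ne_zero_of_mul_eq_one hmul
    have hQe := hQ _ hred0
    suffices key : (r voo).ord (h13sRed A (goodLevel ℓ M)
        ⟨degen (dvd_goodLevel ℓ M) h, hs⟩) = -(m : ℤ) by
      rw [hrQ] at key
      exact ((congrArg HahnSeries.order e.symm).trans hQe.symm).trans key
    obtain ⟨D, hD, -⟩ := (h40r_base_FF (goodLevel ℓ M)).pd _ hdh0
    have hpush := hr.2.2 _ hs hsinv D hD (r voo)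
    rw [← hpush]
    show Finsupp.mapDomain r D (r voo) = -(m : ℤ)
    rw [h88e_push_apply]
    have hfilter : D.support.filter (fun v' => r v' = r voo) = {voo} := by
      ext v
      rw [Finset.mem_filter, Finset.mem_singleton, Finsupp.mem_support_iff]
      constructor
      · rintro ⟨hDv, hrv⟩
        have hvnf : ¬ IsFinAt A v := fun hfin =>
          hnf ((sameRed_isFinAt_iff ((hr.2.1 v voo).mp hrv)).mp hfin)
        have hneg : v.ord (degen (dvd_goodLevel ℓ M) h) < 0 := by
          rcases lt_trichotomy (v.ord (degen (dvd_goodLevel ℓ M) h)) 0 with h1 | h1 | h1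
          · exact h1
          · exact absurd (by rw [hD, h1]) hDv
          · exact absurd (hzeros v h1) hvnf
        have hover : H88eOver (dvd_goodLevel ℓ M) v voo := (hpoles v).mp hneg
        exact h88e_unique_pole hℓ hN hA r hr voo hvoo Q hQ' hrQ v hrv
          (h88e_pole_of_over (dvd_goodLevel ℓ M) voo hvoo v hover)
      · rintro rfl
        refine ⟨?_, rfl⟩
        rw [hD, hvoo_ord]
        have : (0 : ℤ) < m := by exact_mod_cast hm
        omega
    rw [hfilter, Finset.sum_singleton, hD, hvoo_ord]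
  · intro c hc
    have hover : H88eOver (dvd_goodLevel ℓ M) c voo := by
      show c.toValuationSubring.comap (degen (dvd_goodLevel ℓ M)).toRingHom
        = voo.toValuationSubring.comap (degen (dvd_goodLevel ℓ M)).toRingHom
      rw [hcomap, ← hc]
      rfl
    have h1 := hred c hover
    have : (0 : ℤ) < m := by exact_mod_cast hm
    omega

/-- **H2-EXACT** (frozen interface of `P7/H52ExactIface.lean`) from (S2). -/
theorem h88e_exact_iface (hS2 : H52xS2) : H52xExact := by
  intro p hp M _ hM A hA r hr vM hvM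
  exact h88e_exactAt hp hM hA r hr
    (fun v Q hv hQ => hS2 p hp (goodLevel p M) (not_dvd_goodLevel hp hM)
      (auxLevel_dvd_goodLevel p M) A hA r hr v Q hv hQ) vM hvM

end Fermat.Agent.P7
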