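import Fermat.Agent.P7.H56SymExact
import Fermat.Agent.P7.H88ExactIface
import Fermat.Agent.P7.H52ExactS2
import Fermat.Agent.P7.H36S2OfInt
import Fermat.Agent.P7.H1IntModel

/-!
# Wave 7 (S44), DLOG at a non-good level: SYM-LITE, UNCONDITIONAL (helper56, prefix `h56s_`)

Row `H2-SYMLITE`.  The chain on main:

* `h1i_int : H26iInt` (helper1, INT: the chart at infinity has `A`-integral `q`-expansions),
* `h36s_s2_of_int : H26iInt → H26iS2` (helper36, (S2): `r(∞) = Q∞`),
* `h52x_s2_of_h26 : H26iS2 → H52xS2` (helper52),
* `h88e_exact_iface : H52xS2 → H52xExact` (helper88, the EXACT function),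
* `h56s_symLite_of_exact : H52xExact → H56sSymLite` (helper56).

Results (no hypothesis):

* `h56s_s2 : H52xS2`, `h56s_exact : H52xExact`;
* `h56s_symLite_final : H56sSymLite` : `M` prime to `p`, `r` the reduction map of places at the
  level `goodLevel p M`, `c` any place over the `q`-order place of `FF M`, `y ∈ softV A M` with
  `0 ≤ ord_q (softR y)` `⟹` `0 ≤ ord_{r c} (red (degen y))`;
* `h56s_symLiteUnit_final : H56sSymLiteUnit` : the unit form (`ord_q = 0 ⟹ ord_{r c} = 0`).
-/

set_option autoImplicit false

noncomputable section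

namespace Fermat.Agent.P7

/-- **(S2)**, unconditional, in helper52's shape. -/
theorem h56s_s2 : H52xS2 := h52x_s2_of_h26 (h36s_s2_of_int h1i_int)

/-- **H2-EXACT**, unconditional. -/
theorem h56s_exact : H52xExact := h88e_exact_iface h56s_s2

/-- **SYM-LITE**, unconditional. -/
theorem h56s_symLite_final : H56sSymLite := h56s_symLite_of_exact h56s_exact

/-- **SYM-LITE, unit form**, unconditional. -/
theorem h56s_symLiteUnit_final : H56sSymLiteUnit := h56s_symLiteUnit_of_exact h56s_exact

end Fermat.Agent.P7
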