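import Mathlib

/-!
# Wave 7 (S44), DLOG at a non-good level: the residue inequality (helper56, prefix `h56s_`)

Paper proof: finding 1461, step (S1).  Mathlib only.

`K` a field (`ℚ̄`), `A` a valuation subring with a ring homomorphism `resA : A → k` to a field;
`F / K` a field (the function field of the level `M`), `V` a subring of `F` (the Gauss ring) with
a reduction `red : V → L` (`L` a `k`-algebra) compatible with `resA` on the constants.

* `h56s_rel_of_finrank` : if `[F : K(h)] ≤ m` then any `m + 1` elements of `F` satisfy a nontrivial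
  relation `∑ P i (h) * y i = 0` with polynomial coefficients `P i ∈ K[X]`.
* `h56s_rel_red` : a nontrivial polynomial relation `∑ P i (h) * y i = 0` between elements of `V`
  (`h ∈ V`) reduces to a nontrivial polynomial relation `∑ Q i (red h) * red (y i) = 0`, `Q i ∈ k[X]`
  (scale the coefficients by the one of largest valuation).
* `h56s_dep_of_rel` : a nontrivial polynomial relation in `h` between `x i` (with `h`
  transcendental) is a linear dependence over `k(h)`.
* `h56s_resdeg` : **the residue inequality** `[κ : k(h̄)] ≤ [F : K(h)]` in the form consumed by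
  `h56s_symLite` (hypothesis `hdeg`): `ι : K' → L` injective, `κ = {x : K' | ι x ∈ range red}`.
-/

set_option autoImplicit false
set_option linter.unusedSectionVars false
set_option linter.style.haveILetI false

open Polynomial IntermediateField

namespace Fermat.Agent.P7

section ResDeg

/-- polynomials in `h` lie in `k(h)`. -/
theorem h56s_aeval_mem_adjoin {k K : Type*} [Field k] [Field K] [Algebra k K] (h : K)
    (Q : k[X]) : aeval h Q ∈ IntermediateField.adjoin k {h} := by
  have h1 : aeval h Q ∈ Algebra.adjoin k {h} := by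
    rw [Algebra.adjoin_singleton_eq_range_aeval]
    exact ⟨Q, rfl⟩
  exact IntermediateField.algebra_adjoin_le_adjoin k {h} h1

/-- **char. 0 side**: if `[F : K(h)] ≤ m` then any `m + 1` elements of `F` satisfy a nontrivial
relation with polynomial coefficients in `h`. -/
theorem h56s_rel_of_finrank {K F : Type*} [Field K] [Field F] [Algebra K F] (h : F) (m : ℕ)
    [FiniteDimensional (IntermediateField.adjoin K {h}) F]
    (hfin : Module.finrank (IntermediateField.adjoin K {h}) F ≤ m) (y : Fin (m + 1) → F) :
    ∃ P : Fin (m + 1) → K[X], P ≠ 0 ∧ ∑ i, aeval h (P i) * y i = 0 := by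
  classical
  have hdep : ¬ LinearIndependent (IntermediateField.adjoin K {h}) y := by
    intro hli
    have h1 := hli.fintype_card_le_finrank
    rw [Fintype.card_fin] at h1
    omega
  rw [Fintype.not_linearIndependent_iff] at hdep
  obtain ⟨g, hg, i0, hi0⟩ := hdep
  -- numerators and denominators
  have hfrac : ∀ i, ∃ N D : K[X], aeval h D ≠ 0 ∧ ((g i : F)) = aeval h N / aeval h D := by
    intro i
    obtain ⟨r, s, hrs⟩ := (IntermediateField.mem_adjoin_simple_iff K (g i : F)).mp (g i).2
    by_cases hs : aeval h s = 0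
    · refine ⟨0, 1, ?_, ?_⟩
      · rw [map_one]; exact one_ne_zero
      · rw [hrs, hs, div_zero, map_zero, zero_div]
    · exact ⟨r, s, hs, hrs⟩
  choose N D hD hND using hfrac
  refine ⟨fun i => N i * ∏ j ∈ Finset.univ.erase i, D j, ?_, ?_⟩
  · intro h0
    have h1 : (N i0 * ∏ j ∈ Finset.univ.erase i0, D j) = 0 := congrFun h0 i0
    have h2 : aeval h (N i0 * ∏ j ∈ Finset.univ.erase i0, D j) = 0 := by rw [h1, map_zero]
    rw [map_mul, map_prod] at h2
    rcases mul_eq_zero.mp h2 with h3 | h3
    · apply hi0
      apply Subtype.ext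
      rw [hND i0, h3, zero_div]
      rfl
    · obtain ⟨j, _, hj⟩ := Finset.prod_eq_zero_iff.mp h3
      exact hD j hj
  · have hprod : ∀ i, aeval h (N i * ∏ j ∈ Finset.univ.erase i, D j)
        = (g i : F) * ∏ j, aeval h (D j) := by
      intro i
      rw [map_mul, map_prod, hND i, ← Finset.mul_prod_erase Finset.univ (fun j => aeval h (D j))
        (Finset.mem_univ i)]
      field_simp [hD i]
    have hsum : ∑ i, (g i : F) * y i = 0 := by
      have : ∑ i, g i • y i = ∑ i, (g i : F) * y i :=
        Finset.sum_congr rfl fun i _ => rfl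
      rw [← this]
      exact hg
    calc ∑ i, aeval h (N i * ∏ j ∈ Finset.univ.erase i, D j) * y i
        = ∑ i, (∏ j, aeval h (D j)) * ((g i : F) * y i) :=
          Finset.sum_congr rfl fun i _ => by rw [hprod i]; ring
      _ = (∏ j, aeval h (D j)) * ∑ i, (g i : F) * y i := by rw [Finset.mul_sum]
      _ = 0 := by rw [hsum, mul_zero]

/-- **reduction of a polynomial relation**: scale by the coefficient of largest valuation. -/
theorem h56s_rel_red {K F k L : Type*} [Field K] [Field F] [Algebra K F] [Field k]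
    [CommRing L] [Algebra k L] (A : ValuationSubring K) (resA : A →+* k)
    (V : Subring F) (red : V →+* L)
    (hcst : ∀ a : A, ∃ ha : algebraMap K F (a : K) ∈ V,
      red ⟨algebraMap K F (a : K), ha⟩ = algebraMap k L (resA a))
    (h : V) {n : ℕ} (y : Fin n → V) (P : Fin n → K[X]) (hP : P ≠ 0)
    (hrel : ∑ i, aeval ((h : V) : F) (P i) * ((y i : V) : F) = 0) :
    ∃ Q : Fin n → k[X], Q ≠ 0 ∧ ∑ i, aeval (red h) (Q i) * red (y i) = 0 := by
  classical
  -- the coefficient of largest valuation
  obtain ⟨i0, hi0⟩ : ∃ i, P i ≠ 0 := by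
    by_contra hcon
    exact hP (funext fun i => by
      by_contra hi
      exact hcon ⟨i, hi⟩)
  obtain ⟨j0, hj0⟩ : ∃ j, (P i0).coeff j ≠ 0 := by
    by_contra hcon
    exact hi0 (Polynomial.ext fun j => by
      rw [coeff_zero]
      by_contra hj
      exact hcon ⟨j, hj⟩)
  let S : Finset (Σ _ : Fin n, ℕ) := Finset.univ.sigma fun i => (P i).support
  have hS : S.Nonempty :=
    ⟨⟨i0, j0⟩, Finset.mem_sigma.mpr ⟨Finset.mem_univ _, mem_support_iff.mpr hj0⟩⟩
  obtain ⟨⟨i1, j1⟩, hmem1, hmax⟩ :=
    Finset.exists_max_image S (fun ij => A.valuation ((P ij.1).coeff ij.2)) hS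
  set c : K := (P i1).coeff j1 with hc
  have hc0 : c ≠ 0 := mem_support_iff.mp (Finset.mem_sigma.mp hmem1).2
  have hle : ∀ i j, A.valuation ((P i).coeff j) ≤ A.valuation c := by
    intro i j
    by_cases hij : (P i).coeff j = 0
    · rw [hij, map_zero]
      exact zero_le
    · exact hmax ⟨i, j⟩ (Finset.mem_sigma.mpr ⟨Finset.mem_univ _, mem_support_iff.mpr hij⟩)
  have hmemA : ∀ i j, c⁻¹ * (P i).coeff j ∈ A := by
    intro i j
    rw [← ValuationSubring.valuation_le_one_iff, map_mul, map_inv₀]
    have hvc : A.valuation c ≠ 0 := (Valuation.ne_zero_iff _).mpr hc0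
    have hpos : 0 < A.valuation c := zero_lt_iff.mpr hvc
    calc (A.valuation c)⁻¹ * A.valuation ((P i).coeff j)
        ≤ (A.valuation c)⁻¹ * A.valuation c := by gcongr; exact hle i j
      _ = 1 := inv_mul_cancel₀ hvc
  -- polynomials with coefficients in `A`
  have hlift : ∀ i, ∃ q : A[X], q.map A.subtype = C c⁻¹ * P i := by
    intro i
    have h1 : C c⁻¹ * P i ∈ Polynomial.lifts A.subtype := by
      rw [Polynomial.lifts_iff_coeff_lifts]
      intro j
      rw [coeff_C_mul]
      exact ⟨⟨c⁻¹ * (P i).coeff j, hmemA i j⟩, rfl⟩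
    exact (Polynomial.mem_lifts _).mp h1
  choose QA hQA using hlift
  -- the constants of `V`
  let cstV : A →+* V :=
    ((algebraMap K F).comp A.subtype).codRestrict V fun a => (hcst a).choose
  have hcstV : ∀ a : A, ((cstV a : V) : F) = algebraMap K F (a : K) := fun a => rfl
  have hredcst : red.comp cstV = (algebraMap k L).comp resA := by
    ext a
    obtain ⟨ha, hra⟩ := hcst a
    show red (cstV a) = algebraMap k L (resA a)
    rw [← hra]
    rfl
  have hsub : V.subtype.comp cstV = (algebraMap K F).comp A.subtype := by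
    ext a
    rfl
  -- the relation in `V`
  have hcoe : ∀ i, ((eval₂ cstV h (QA i) : V) : F) = algebraMap K F c⁻¹ * aeval (h : F) (P i) := by
    intro i
    have h1 : V.subtype (eval₂ cstV h (QA i)) = eval₂ (V.subtype.comp cstV) (V.subtype h) (QA i) :=
      Polynomial.hom_eval₂ (QA i) cstV V.subtype h
    have h2 : aeval (h : F) ((QA i).map A.subtype)
        = eval₂ ((algebraMap K F).comp A.subtype) (h : F) (QA i) := by
      rw [aeval_def, eval₂_map]
    have h3 : ((eval₂ cstV h (QA i) : V) : F) = aeval (h : F) ((QA i).map A.subtype) := by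
      rw [h2, ← hsub]
      exact h1
    rw [h3, hQA i, map_mul, aeval_C]
  have hrelV : ∑ i, eval₂ cstV h (QA i) * y i = 0 := by
    apply Subtype.ext
    rw [Subring.coe_zero]
    have h1 : ((∑ i, eval₂ cstV h (QA i) * y i : V) : F)
        = ∑ i, ((eval₂ cstV h (QA i) : V) : F) * ((y i : V) : F) := by
      rw [← Subring.subtype_apply, map_sum]
      rfl
    rw [h1]
    calc ∑ i, ((eval₂ cstV h (QA i) : V) : F) * ((y i : V) : F)
        = ∑ i, algebraMap K F c⁻¹ * (aeval (h : F) (P i) * ((y i : V) : F)) :=
          Finset.sum_congr rfl fun i _ => by rw [hcoe i, mul_assoc]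
      _ = algebraMap K F c⁻¹ * ∑ i, aeval (h : F) (P i) * ((y i : V) : F) := by
          rw [Finset.mul_sum]
      _ = 0 := by rw [hrel, mul_zero]
  -- reduce
  refine ⟨fun i => (QA i).map resA, ?_, ?_⟩
  · intro h0
    have h1 : ((QA i1).map resA).coeff j1 = 0 := by
      have h00 : (QA i1).map resA = 0 := congrFun h0 i1
      rw [h00]
      rfl
    rw [coeff_map] at h1
    have h2 : (QA i1).coeff j1 = 1 := by
      apply Subtype.ext
      have h3 : (((QA i1).map A.subtype).coeff j1 : K) = c⁻¹ * c := by
        rw [hQA i1, coeff_C_mul]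
      rw [coeff_map] at h3
      rw [inv_mul_cancel₀ hc0] at h3
      exact h3
    rw [h2, map_one] at h1
    exact one_ne_zero h1
  · have h1 := congrArg red hrelV
    rw [map_sum, map_zero] at h1
    rw [← h1]
    refine Finset.sum_congr rfl fun i _ => ?_
    rw [map_mul]
    congr 1
    have h2 : red (eval₂ cstV h (QA i)) = eval₂ (red.comp cstV) (red h) (QA i) :=
      Polynomial.hom_eval₂ (QA i) cstV red h
    rw [h2, hredcst, aeval_def, eval₂_map]

/-- a nontrivial polynomial relation in a transcendental `h` is a linear dependence over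
`k(h)`. -/
theorem h56s_dep_of_rel {k K : Type*} [Field k] [Field K] [Algebra k K] (h : K)
    (htr : ∀ Q : k[X], aeval h Q = 0 → Q = 0) {n : ℕ} (x : Fin n → K) (Q : Fin n → k[X])
    (hQ : Q ≠ 0) (hrel : ∑ i, aeval h (Q i) * x i = 0) :
    ¬ LinearIndependent (IntermediateField.adjoin k {h}) x := by
  intro hli
  rw [Fintype.linearIndependent_iff] at hli
  have h1 := hli (fun i => ⟨aeval h (Q i), h56s_aeval_mem_adjoin h (Q i)⟩) hrel
  apply hQ
  funext i
  have h2 := h1 i
  have h3 : aeval h (Q i) = 0 := congrArg Subtype.val h2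
  exact htr (Q i) h3

/-- **the residue inequality** `[κ : k(h̄)] ≤ [F : K(h)] ≤ m`, in the form consumed by
`h56s_symLite`: `K'` a field over `k` with an injective `ι : K' → L`, `κ` the set of the
elements of `K'` which are reductions of elements of `V`. -/
theorem h56s_resdeg {K F k L K' : Type*} [Field K] [Field F] [Algebra K F] [Field k]
    [CommRing L] [Algebra k L] [Field K'] [Algebra k K']
    (A : ValuationSubring K) (resA : A →+* k) (V : Subring F) (red : V →+* L)
    (hcst : ∀ a : A, ∃ ha : algebraMap K F (a : K) ∈ V,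
      red ⟨algebraMap K F (a : K), ha⟩ = algebraMap k L (resA a))
    (ι : K' →ₐ[k] L) (hι : Function.Injective ι)
    (h : V) (m : ℕ)
    (hrel : ∀ y : Fin (m + 1) → F, ∃ P : Fin (m + 1) → K[X], P ≠ 0 ∧
      ∑ i, aeval ((h : V) : F) (P i) * y i = 0)
    (hbar : K') (hh : ι hbar = red h) (htr : ∀ Q : k[X], aeval hbar Q = 0 → Q = 0)
    (x : Fin (m + 1) → K') (hx : ∀ i, ι (x i) ∈ Set.range red) :
    ¬ LinearIndependent (IntermediateField.adjoin k {hbar}) x := by
  choose y hy using hx
  obtain ⟨P, hP, hPrel⟩ := hrel fun i => ((y i : V) : F)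
  obtain ⟨Q, hQ, hQrel⟩ := h56s_rel_red A resA V red hcst h y P hP hPrel
  refine h56s_dep_of_rel hbar htr x Q hQ ?_
  apply hι
  rw [map_zero, map_sum, ← hQrel]
  refine Finset.sum_congr rfl fun i _ => ?_
  rw [map_mul, ← Polynomial.aeval_algHom_apply, hh, hy i]

end ResDeg

end Fermat.Agent.P7
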