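import Fermat.Agent.P7.H66S0Iface
import Fermat.Agent.P7.H56ResDeg
import Fermat.Agent.Red.HKComm.Deg
import Fermat.Agent.Red.GV.SoftGal
import Fermat.Agent.Red.GV.BarGalois
import Fermat.Agent.Red.GV.Series
import Fermat.Agent.Jac.KummerFF

/-!
# Wave 7, DLOG at the non-good level, row H2-S0-B-RESINEQ (helper42, prefix `h42q_`)

**The residue inequality at every level `M` prime to `p`** (frozen leaf `H66sResIneq` of
`P7/H66S0Iface.lean`, helper66): a family of Gauss-integral functions of level `M` whose
reductions are linearly independent over `k(j̄) ⊆ k((q))` has at most `ψ(M)` members.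

Proof: instance of helper56's abstract residue inequality (`P7/H56ResDeg.lean`):
`ψ(M) + 1` functions of `FF M` satisfy a nontrivial polynomial relation over `ℚ̄[j]`
(`[FF M : ℚ̄(j)] = ψ(M)`, `hkdeg_finrank_jBar`); scaling the coefficients, the relation reduces
to a nontrivial polynomial relation over `k[j̄]` (`h56s_rel_red`), which is a linear dependence
over `k(j̄)` because `j̄` is transcendental (`h36_transcendental_jK`).

* `h42q_cst`      : the reduction of a constant of `A`.
* `h42q_softR_jB` : `red j = j̄`.
* `h42q_dep`      : `ψ(M) + 1` reductions are linearly dependent over `k(j̄)`.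
* `h42q_resIneq`  : `H66sResIneq`.

Every declaration is a proved theorem; nothing is assumed.
-/

set_option autoImplicit false
set_option linter.unusedSectionVars false
set_option linter.unusedVariables false
set_option linter.style.haveILetI false
set_option synthInstance.maxHeartbeats 400000

open AlgebraicCurve ModularCurve Polynomial

noncomputable section

namespace Fermat.Agent.P7

open Fermat.Agent.S37 Fermat.Agent.Red.GV Fermat.Agent.Red.GV.Soft Fermat.Agent.Red.Desc

section H42r

variable (A : ValuationSubring Kbar) (M : ℕ) [NeZero M]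

/-- the reduction of a constant of `A`. -/
theorem h42q_cst (a : A) :
    ∃ ha : algebraMap Kbar (FF M) (a : Kbar) ∈ softV A M,
      softR A M ⟨algebraMap Kbar (FF M) (a : Kbar), ha⟩ =
        algebraMap (IsLocalRing.ResidueField A) (LaurentSeries (IsLocalRing.ResidueField A))
          (IsLocalRing.residue A a) := by
  have ha : cst M (a : Kbar) ∈ softV A M := (cst_mem_softV_iff A M (a : Kbar)).mpr a.2
  refine ⟨ha, ?_⟩
  have h1 := softR_cst A M a ha
  have h2 : algebraMap (IsLocalRing.ResidueField A) (PowerSeries (IsLocalRing.ResidueField A))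
      (IsLocalRing.residue A a) = PowerSeries.C (IsLocalRing.residue A a) := by simp
  rw [h1, HahnSeries.algebraMap_apply', h2, HahnSeries.ofPowerSeries_C]

/-- `red j = j̄`. -/
theorem h42q_softR_jB (hj : jB M ∈ softV A M) :
    softR A M ⟨jB M, hj⟩ = jK (IsLocalRing.ResidueField A) := by
  rw [softR_eq_gaussR A M (jB M) hj (jB_mem_gaussV A M), gaussR_jB]
  rfl

/-- `ψ(M) + 1` reductions of Gauss-integral functions of level `M` are linearly dependent over
`k(j̄)`. -/
theorem h42q_dep (y : Fin (dedekindPsi M + 1) → softV A M) :
    ¬ LinearIndependent (h66sKj A) (fun i => softR A M (y i)) := by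
  haveI := Fermat.Agent.Jac.K1.finiteDimensional_FF M
  have hj : jB M ∈ softV A M := gaussV_le_softV A M (jB_mem_gaussV A M)
  obtain ⟨P, hP, hrel⟩ := h56s_rel_of_finrank (K := Kbar) (F := FF M) (jB M) (dedekindPsi M)
    (le_of_eq (Fermat.Agent.Red.HKComm.hkdeg_finrank_jBar M))
    (fun i => ((y i : softV A M) : FF M))
  obtain ⟨Q, hQ, hQrel⟩ := h56s_rel_red (K := Kbar) (F := FF M)
    (k := IsLocalRing.ResidueField A) (L := LaurentSeries (IsLocalRing.ResidueField A))
    A (IsLocalRing.residue A) (softV A M) (softR A M) (h42q_cst A M) ⟨jB M, hj⟩ y P hP hrel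
  rw [h42q_softR_jB A M hj] at hQrel
  have htr : ∀ R : (IsLocalRing.ResidueField A)[X],
      aeval (jK (IsLocalRing.ResidueField A)) R = 0 → R = 0 := by
    intro R hR
    by_contra hR0
    exact h36_transcendental_jK (IsLocalRing.ResidueField A) ⟨R, hR0, hR⟩
  exact h56s_dep_of_rel (jK (IsLocalRing.ResidueField A)) htr
    (fun i => softR A M (y i)) Q hQ hQrel

end H42r

/-- **(B) RES-INEQ** (frozen leaf of `P7/H66S0Iface.lean`): at every level `M` prime to `p`, a
family of Gauss-integral functions whose reductions are linearly independent over `k(j̄)` has at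
most `ψ(M)` members. -/
theorem h42q_resIneq : H66sResIneq := by
  intro p hp M _ hpM A hA n c hli
  by_contra hn
  have hle : dedekindPsi M + 1 ≤ n := by omega
  have hli' : LinearIndependent (h66sKj A)
      (fun i : Fin (dedekindPsi M + 1) => softR A M (c (Fin.castLE hle i))) :=
    hli.comp (Fin.castLE hle) (Fin.castLE_injective hle)
  exact h42q_dep A M (fun i => c (Fin.castLE hle i)) hli'

end Fermat.Agent.P7
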