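import Mathlib

/-!
# Wave 7 (S44), abstract tool for the level descent of DLOG (helper87, prefix `h87v_`)

Mathlib only.  `Fp / F` a finite extension of fields, `V` a valuation subring of `Fp`,
`U = V ∩ F` (`hU : ∀ x, x ∈ U ↔ algebraMap F Fp x ∈ V`), and a family `b : ι → Fp` of elements of
`V` whose RESIDUES ARE LINEARLY INDEPENDENT over the residue field of `U`
(`H87vInd U V b` : `∑ a_i b_i ∈ 𝔪_V`, `a_i ∈ U` ⟹ all `a_i ∈ 𝔪_U`).

* `h87v_val_sum` : `v (∑ a_i b_i) = max v (a_i)` (Gauss norm formula);
* `h87v_linearIndependent` : `b` is linearly independent over `F`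
  (residue degree `≤` degree: `h87v_card_le`);
* if moreover `card ι = [Fp : F]` (FULL RESIDUE DEGREE): `V = ⊕ U b_i`
  (`h87v_mem_iff`, `h87v_mem_nonunits_iff`), and
  - `h87v_norm_mem` : `N_{Fp/F} (V) ⊆ U`, `h87v_trace_mem`;
  - `h87v_norm_congr` : `y ≡ c mod 𝔪_V`, `c ∈ U` ⟹ `N y ≡ c ^ [Fp : F] mod 𝔪_U`;
  - `h87v_norm_unit` : the norm of a unit of `V` is a unit of `U`.
-/

set_option autoImplicit false
set_option linter.unusedSectionVars false
set_option linter.style.haveILetI false
set_option linter.unusedVariables false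

open Finset

noncomputable section

namespace Fermat.Agent.P7

section ValNorm

variable {F Fp : Type*} [Field F] [Field Fp] [Algebra F Fp]
variable {ι : Type*} [Fintype ι] [DecidableEq ι]

/-- the residues of the `b i ∈ V` are linearly independent over the residue field of `U`. -/
def H87vInd (U : ValuationSubring F) (V : ValuationSubring Fp) (b : ι → Fp) : Prop :=
  (∀ i, b i ∈ V) ∧ ∀ a : ι → F, (∀ i, a i ∈ U) →
    (∑ i, algebraMap F Fp (a i) * b i) ∈ V.nonunits → ∀ i, a i ∈ U.nonunits

variable (U : ValuationSubring F) (V : ValuationSubring Fp)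
  (hU : ∀ x : F, x ∈ U ↔ algebraMap F Fp x ∈ V)

include hU in
theorem h87v_val_le_iff (x y : F) :
    U.valuation x ≤ U.valuation y ↔
      V.valuation (algebraMap F Fp x) ≤ V.valuation (algebraMap F Fp y) := by
  by_cases hy : y = 0
  · subst hy
    simp only [map_zero, le_zero_iff, Valuation.zero_iff]
    constructor
    · intro h
      rw [h, map_zero]
    · intro h
      exact (map_eq_zero_iff _ (algebraMap F Fp).injective).1 h
  · have hy' : algebraMap F Fp y ≠ 0 := fun h =>
      hy ((map_eq_zero_iff _ (algebraMap F Fp).injective).1 h)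
    have h1 : U.valuation x ≤ U.valuation y ↔ x / y ∈ U := by
      rw [← ValuationSubring.valuation_le_one_iff, map_div₀,
        div_le_one₀ (zero_lt_iff.2 ((Valuation.ne_zero_iff _).2 hy))]
    have h2 : V.valuation (algebraMap F Fp x) ≤ V.valuation (algebraMap F Fp y) ↔
        algebraMap F Fp x / algebraMap F Fp y ∈ V := by
      rw [← ValuationSubring.valuation_le_one_iff, map_div₀,
        div_le_one₀ (zero_lt_iff.2 ((Valuation.ne_zero_iff _).2 hy'))]
    rw [h1, h2, hU, map_div₀]

include hU in
theorem h87v_mem_nonunits_map_iff (x : F) :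
    x ∈ U.nonunits ↔ algebraMap F Fp x ∈ V.nonunits := by
  rw [ValuationSubring.mem_nonunits_iff, ValuationSubring.mem_nonunits_iff]
  have h := h87v_val_le_iff U V hU 1 x
  rw [map_one, map_one, map_one] at h
  rw [← not_le, ← not_le, h]

/-- an index of maximal valuation. -/
theorem h87v_exists_max [Nonempty ι] (a : ι → F) :
    ∃ i0, ∀ i, U.valuation (a i) ≤ U.valuation (a i0) := by
  obtain ⟨i0, -, h⟩ := Finset.exists_max_image (Finset.univ : Finset ι)
    (fun i => U.valuation (a i)) ⟨Classical.arbitrary ι, Finset.mem_univ _⟩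
  exact ⟨i0, fun i => h i (Finset.mem_univ _)⟩

include hU in
/-- **Gauss norm formula**: `v (∑ a_i b_i) = v (a_{i0})` for an index `i0` of maximal
valuation. -/
theorem h87v_val_sum {b : ι → Fp} (hb : H87vInd U V b) (a : ι → F) (i0 : ι)
    (hmax : ∀ i, U.valuation (a i) ≤ U.valuation (a i0)) :
    V.valuation (∑ i, algebraMap F Fp (a i) * b i) = V.valuation (algebraMap F Fp (a i0)) := by
  by_cases h0 : a i0 = 0
  · have hall : ∀ i, a i = 0 := by
      intro i
      have := hmax i
      rw [h0, map_zero, le_zero_iff, Valuation.zero_iff] at this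
      exact this
    simp [hall]
  · have h0' : algebraMap F Fp (a i0) ≠ 0 := fun h =>
      h0 ((map_eq_zero_iff _ (algebraMap F Fp).injective).1 h)
    set c : ι → F := fun i => a i / a i0 with hc
    have hcU : ∀ i, c i ∈ U := by
      intro i
      rw [← ValuationSubring.valuation_le_one_iff, hc, map_div₀,
        div_le_one₀ (zero_lt_iff.2 ((Valuation.ne_zero_iff _).2 h0))]
      exact hmax i
    have hsum : ∑ i, algebraMap F Fp (a i) * b i
        = algebraMap F Fp (a i0) * ∑ i, algebraMap F Fp (c i) * b i := by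
      rw [Finset.mul_sum]
      refine Finset.sum_congr rfl (fun i _ => ?_)
      rw [hc, ← mul_assoc, ← map_mul, mul_div_cancel₀ _ h0]
    have hsV : (∑ i, algebraMap F Fp (c i) * b i) ∈ V :=
      sum_mem (fun i _ => mul_mem ((hU _).1 (hcU i)) (hb.1 i))
    have hsnu : (∑ i, algebraMap F Fp (c i) * b i) ∉ V.nonunits := by
      intro h
      have h1 := hb.2 c hcU h i0
      rw [hc] at h1
      simp only [div_self h0] at h1
      rw [ValuationSubring.mem_nonunits_iff, map_one] at h1
      exact lt_irrefl _ h1
    have hs1 : V.valuation (∑ i, algebraMap F Fp (c i) * b i) = 1 := by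
      refine le_antisymm ((ValuationSubring.valuation_le_one_iff V _).2 hsV) ?_
      rw [ValuationSubring.mem_nonunits_iff, not_lt] at hsnu
      exact hsnu
    rw [hsum, map_mul, hs1, mul_one]

include hU in
theorem h87v_linearIndependent {b : ι → Fp} (hb : H87vInd U V b) :
    LinearIndependent F b := by
  rw [Fintype.linearIndependent_iff]
  intro a ha
  rcases isEmpty_or_nonempty ι with hι | hι
  · intro i
    exact (hι.false i).elim
  obtain ⟨i0, hmax⟩ := h87v_exists_max U a
  have h := h87v_val_sum U V hU hb a i0 hmax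
  have e : ∑ i, algebraMap F Fp (a i) * b i = ∑ i, a i • b i :=
    Finset.sum_congr rfl (fun i _ => (Algebra.smul_def _ _).symm)
  rw [e, ha, map_zero] at h
  have h0 : a i0 = 0 :=
    (map_eq_zero_iff _ (algebraMap F Fp).injective).1 ((Valuation.zero_iff _).1 h.symm)
  intro i
  have := hmax i
  rw [h0, map_zero, le_zero_iff, Valuation.zero_iff] at this
  exact this

include hU in
/-- **the residue degree is at most the degree.** -/
theorem h87v_card_le [FiniteDimensional F Fp] {b : ι → Fp} (hb : H87vInd U V b) :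
    Fintype.card ι ≤ Module.finrank F Fp :=
  (h87v_linearIndependent U V hU hb).fintype_card_le_finrank

include hU in
/-- `∑ a_i b_i ∈ V ↔ all a_i ∈ U`. -/
theorem h87v_sum_mem_iff {b : ι → Fp} (hb : H87vInd U V b) (a : ι → F) :
    (∑ i, algebraMap F Fp (a i) * b i) ∈ V ↔ ∀ i, a i ∈ U := by
  constructor
  · intro h
    rcases isEmpty_or_nonempty ι with hι | hι
    · intro i
      exact (hι.false i).elim
    obtain ⟨i0, hmax⟩ := h87v_exists_max U a
    have hv := h87v_val_sum U V hU hb a i0 hmax
    have h1 : algebraMap F Fp (a i0) ∈ V := by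
      rw [← ValuationSubring.valuation_le_one_iff, ← hv]
      exact (ValuationSubring.valuation_le_one_iff V _).2 h
    have h2 : a i0 ∈ U := (hU _).2 h1
    intro i
    rw [← ValuationSubring.valuation_le_one_iff]
    exact le_trans (hmax i) ((ValuationSubring.valuation_le_one_iff U _).2 h2)
  · intro h
    exact sum_mem (fun i _ => mul_mem ((hU _).1 (h i)) (hb.1 i))

include hU in
/-- `∑ a_i b_i ∈ 𝔪_V ↔ all a_i ∈ 𝔪_U`. -/
theorem h87v_sum_mem_nonunits_iff {b : ι → Fp} (hb : H87vInd U V b) (a : ι → F) :
    (∑ i, algebraMap F Fp (a i) * b i) ∈ V.nonunits ↔ ∀ i, a i ∈ U.nonunits := by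
  constructor
  · intro h
    have hV : (∑ i, algebraMap F Fp (a i) * b i) ∈ V := by
      rw [← ValuationSubring.valuation_le_one_iff]
      exact le_of_lt ((ValuationSubring.mem_nonunits_iff V).1 h)
    exact hb.2 a ((h87v_sum_mem_iff U V hU hb a).1 hV) h
  · intro h
    rcases isEmpty_or_nonempty ι with hι | hι
    · rw [ValuationSubring.mem_nonunits_iff]
      simp
    obtain ⟨i0, hmax⟩ := h87v_exists_max U a
    rw [ValuationSubring.mem_nonunits_iff, h87v_val_sum U V hU hb a i0 hmax,
      ← ValuationSubring.mem_nonunits_iff]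
    exact (h87v_mem_nonunits_map_iff U V hU _).1 (h i0)


/-! ### Full residue degree -/

section Full

variable [FiniteDimensional F Fp]

include hU in
theorem h87v_nonempty {b : ι → Fp} (hcard : Fintype.card ι = Module.finrank F Fp) :
    Nonempty ι := by
  have h : 0 < Module.finrank F Fp := Module.finrank_pos
  rw [← hcard] at h
  exact Fintype.card_pos_iff.1 h

/-- the `F`-basis `b` of `Fp`. -/
def h87vBasis {b : ι → Fp} (hb : LinearIndependent F b)
    (hcard : Fintype.card ι = Module.finrank F Fp) : Module.Basis ι F Fp :=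
  haveI : Nonempty ι := by
    have h : 0 < Module.finrank F Fp := Module.finrank_pos
    rw [← hcard] at h
    exact Fintype.card_pos_iff.1 h
  basisOfLinearIndependentOfCardEqFinrank hb hcard

theorem h87vBasis_apply {b : ι → Fp} (hb : LinearIndependent F b)
    (hcard : Fintype.card ι = Module.finrank F Fp) (i : ι) : h87vBasis hb hcard i = b i := by
  unfold h87vBasis
  simp

theorem h87v_sum_repr {b : ι → Fp} (hb : LinearIndependent F b)
    (hcard : Fintype.card ι = Module.finrank F Fp) (y : Fp) :
    ∑ i, algebraMap F Fp ((h87vBasis hb hcard).repr y i) * b i = y := by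
  have h := (h87vBasis hb hcard).sum_repr y
  conv_rhs => rw [← h]
  refine Finset.sum_congr rfl (fun i _ => ?_)
  rw [Algebra.smul_def, h87vBasis_apply]

include hU in
/-- **`V = ⊕ U b_i`**. -/
theorem h87v_mem_iff {b : ι → Fp} (hb : H87vInd U V b)
    (hcard : Fintype.card ι = Module.finrank F Fp) (y : Fp) :
    y ∈ V ↔ ∀ i, (h87vBasis (h87v_linearIndependent U V hU hb) hcard).repr y i ∈ U := by
  rw [← h87v_sum_mem_iff U V hU hb, h87v_sum_repr]

include hU in
theorem h87v_mem_nonunits_iff {b : ι → Fp} (hb : H87vInd U V b)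
    (hcard : Fintype.card ι = Module.finrank F Fp) (y : Fp) :
    y ∈ V.nonunits ↔
      ∀ i, (h87vBasis (h87v_linearIndependent U V hU hb) hcard).repr y i ∈ U.nonunits := by
  rw [← h87v_sum_mem_nonunits_iff U V hU hb, h87v_sum_repr]

/-- the determinant of a matrix with entries in a subring lies in the subring. -/
theorem h87v_det_mem {R : Type*} [CommRing R] (S : Subring R) (M : Matrix ι ι R)
    (hM : ∀ i j, M i j ∈ S) : M.det ∈ S := by
  set M' : Matrix ι ι S := Matrix.of (fun i j => (⟨M i j, hM i j⟩ : S)) with hM'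
  have e : M = S.subtype.mapMatrix M' := by
    ext i j
    simp [hM', RingHom.mapMatrix_apply]
  have h := RingHom.map_det S.subtype M'
  rw [e, ← h]
  exact (Matrix.det M').2

include hU in
theorem h87v_leftMul_mem {b : ι → Fp} (hb : H87vInd U V b)
    (hcard : Fintype.card ι = Module.finrank F Fp) {y : Fp} (hy : y ∈ V) (i j : ι) :
    Algebra.leftMulMatrix (h87vBasis (h87v_linearIndependent U V hU hb) hcard) y i j ∈ U := by
  rw [Algebra.leftMulMatrix_eq_repr_mul, h87vBasis_apply]
  exact (h87v_mem_iff U V hU hb hcard _).1 (mul_mem hy (hb.1 j)) i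

include hU in
/-- **the norm of an element of `V` lies in `U`.** -/
theorem h87v_norm_mem {b : ι → Fp} (hb : H87vInd U V b)
    (hcard : Fintype.card ι = Module.finrank F Fp) {y : Fp} (hy : y ∈ V) :
    Algebra.norm F y ∈ U := by
  rw [Algebra.norm_eq_matrix_det (h87vBasis (h87v_linearIndependent U V hU hb) hcard)]
  exact h87v_det_mem U.toSubring _ (fun i j => h87v_leftMul_mem U V hU hb hcard hy i j)

include hU in
/-- **the trace of an element of `V` lies in `U`.** -/
theorem h87v_trace_mem {b : ι → Fp} (hb : H87vInd U V b)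
    (hcard : Fintype.card ι = Module.finrank F Fp) {y : Fp} (hy : y ∈ V) :
    Algebra.trace F Fp y ∈ U := by
  rw [Algebra.trace_eq_matrix_trace (h87vBasis (h87v_linearIndependent U V hU hb) hcard)]
  unfold Matrix.trace
  exact sum_mem (fun i _ => h87v_leftMul_mem U V hU hb hcard hy i i)

include hU in
/-- **the norm of a unit of `V` is a unit of `U`.** -/
theorem h87v_norm_unit {b : ι → Fp} (hb : H87vInd U V b)
    (hcard : Fintype.card ι = Module.finrank F Fp) {y : Fp} (hy : y ∈ V) (hy' : y⁻¹ ∈ V) :
    Algebra.norm F y ∈ U ∧ (Algebra.norm F y)⁻¹ ∈ U := by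
  refine ⟨h87v_norm_mem U V hU hb hcard hy, ?_⟩
  by_cases h0 : y = 0
  · subst h0
    have h1 : Algebra.norm F (0 : Fp) = 0 := Algebra.norm_zero
    rw [h1, inv_zero]
    exact U.zero_mem
  · have h1 : Algebra.norm F y * Algebra.norm F y⁻¹ = 1 := by
      rw [← map_mul, mul_inv_cancel₀ h0, map_one]
    have h2 : (Algebra.norm F y)⁻¹ = Algebra.norm F y⁻¹ := inv_eq_of_mul_eq_one_right h1
    rw [h2]
    exact h87v_norm_mem U V hU hb hcard hy'

/-- the determinants of two matrices over `U` which are congruent modulo `𝔪_U` are congruent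
modulo `𝔪_U`. -/
theorem h87v_det_congr (M N : Matrix ι ι F) (hM : ∀ i j, M i j ∈ U) (hN : ∀ i j, N i j ∈ U)
    (h : ∀ i j, M i j - N i j ∈ U.nonunits) : M.det - N.det ∈ U.nonunits := by
  set M' : Matrix ι ι U := Matrix.of (fun i j => (⟨M i j, hM i j⟩ : U)) with hM'
  set N' : Matrix ι ι U := Matrix.of (fun i j => (⟨N i j, hN i j⟩ : U)) with hN'
  have eM : M = U.subtype.mapMatrix M' := by
    ext i j
    simp [hM', RingHom.mapMatrix_apply]
  have eN : N = U.subtype.mapMatrix N' := by
    ext i j
    simp [hN', RingHom.mapMatrix_apply]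
  have hres : (IsLocalRing.residue U).mapMatrix M' = (IsLocalRing.residue U).mapMatrix N' := by
    ext i j
    simp only [RingHom.mapMatrix_apply, Matrix.map_apply]
    rw [← sub_eq_zero, ← map_sub, IsLocalRing.residue_eq_zero_iff,
      ValuationSubring.valuation_lt_one_iff, ← ValuationSubring.mem_nonunits_iff]
    exact h i j
  have hdet : IsLocalRing.residue U (M'.det - N'.det) = 0 := by
    rw [map_sub, RingHom.map_det, RingHom.map_det, hres, sub_self]
  rw [IsLocalRing.residue_eq_zero_iff, ValuationSubring.valuation_lt_one_iff,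
    ← ValuationSubring.mem_nonunits_iff] at hdet
  have e : M.det - N.det = ((M'.det - N'.det : U) : F) := by
    rw [eM, eN, ← RingHom.map_det, ← RingHom.map_det]
    rfl
  rw [e]
  exact hdet

include hU in
/-- **reduction of the norm**: if `y ≡ c` modulo `𝔪_V` with `c ∈ U`, then
`N y ≡ c ^ [Fp : F]` modulo `𝔪_U`. -/
theorem h87v_norm_congr {b : ι → Fp} (hb : H87vInd U V b)
    (hcard : Fintype.card ι = Module.finrank F Fp) {y : Fp} (hy : y ∈ V) {c : F} (hc : c ∈ U)
    (hyc : y - algebraMap F Fp c ∈ V.nonunits) :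
    Algebra.norm F y - c ^ Module.finrank F Fp ∈ U.nonunits := by
  set B := h87vBasis (h87v_linearIndependent U V hU hb) hcard with hB
  have hN : Algebra.norm F y = (Algebra.leftMulMatrix B y).det := Algebra.norm_eq_matrix_det B y
  have hS : c ^ Module.finrank F Fp = (Matrix.diagonal (fun _ : ι => c)).det := by
    rw [Matrix.det_diagonal, Finset.prod_const, Finset.card_univ, hcard]
  rw [hN, hS]
  refine h87v_det_congr U _ _ (fun i j => h87v_leftMul_mem U V hU hb hcard hy i j) ?_ ?_
  · intro i j
    by_cases hij : i = j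
    · subst hij
      rw [Matrix.diagonal_apply_eq]
      exact hc
    · rw [Matrix.diagonal_apply_ne _ hij]
      exact U.zero_mem
  · intro i j
    have h1 : (y - algebraMap F Fp c) * b j ∈ V.nonunits := by
      rw [ValuationSubring.mem_nonunits_iff, map_mul]
      have h2 := (ValuationSubring.mem_nonunits_iff V).1 hyc
      have h3 := (ValuationSubring.valuation_le_one_iff V _).2 (hb.1 j)
      calc V.valuation (y - algebraMap F Fp c) * V.valuation (b j)
          ≤ V.valuation (y - algebraMap F Fp c) * 1 := mul_le_mul' (le_refl _) h3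
        _ = V.valuation (y - algebraMap F Fp c) := mul_one _
        _ < 1 := h2
    have h4 := (h87v_mem_nonunits_iff U V hU hb hcard _).1 h1 i
    have h5 : B.repr ((y - algebraMap F Fp c) * b j) i
        = Algebra.leftMulMatrix B y i j - Matrix.diagonal (fun _ : ι => c) i j := by
      rw [Algebra.leftMulMatrix_eq_repr_mul, hB, h87vBasis_apply, sub_mul, map_sub,
        Finsupp.sub_apply]
      congr 1
      have h6 : algebraMap F Fp c * b j = c • (h87vBasis (h87v_linearIndependent U V hU hb)
          hcard) j := by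
        rw [Algebra.smul_def, h87vBasis_apply]
      rw [h6, map_smul, Module.Basis.repr_self, Finsupp.smul_apply, smul_eq_mul,
        Matrix.diagonal_apply]
      by_cases hij : i = j
      · subst hij
        simp
      · have hji : ¬ j = i := fun h => hij h.symm
        simp [hij, hji]
    rw [← h5]
    exact h4

end Full

end ValNorm

end Fermat.Agent.P7
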