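import Mathlib
import Fermat.Agent.P7.H87ValNorm

/-!
# Wave 7 (S44), level descent of DLOG: FULL RESIDUE DEGREE in a tower (helper87, prefix `h87r_`)

Mathlib + `P7/H87ValNorm` only.  `F0 ⊆ F ⊆ Fp` finite extensions of fields, `V` a valuation
subring of `Fp`, `U = V ∩ F`, `U0 = V ∩ F0`.

* `h87r_exists_span` : a maximal family `b` with residues independent over `U` spans the
  residues: every `y ∈ V` is `≡ ∑ u_i b_i` modulo `𝔪_V` with `u_i ∈ U`;
* `h87r_count` : if `c` (of size `n`) has residues independent over `U0`, and `b` (size `e`)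
  spans `V` over `U`, `a` (size `m`) spans `U` over `U0` (modulo the maximal ideals), then
  `n ≤ e m`;
* `h87r_full_tower` : FULL RESIDUE DEGREE of `V / U0` (a family `c` of size `[Fp : F0]` with
  residues independent over `U0`) implies FULL RESIDUE DEGREE of `V / U` and of `U / U0`;
* `h87r_ind_of_polyInd` : **Gauss lemma**.  `F0 = K(x)`, `A = V ∩ K`: a family `c` whose residues
  are independent over `k[x̄]` (polynomial form `H87rPolyInd`) has residues independent over
  `U0 = V ∩ K(x)`.
-/

set_option autoImplicit false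
set_option linter.unusedSectionVars false
set_option linter.style.haveILetI false
set_option linter.unusedVariables false

open Finset

noncomputable section

namespace Fermat.Agent.P7

section Nonunits

variable {Fp : Type*} [Field Fp] (V : ValuationSubring Fp)

theorem h87r_nu_mem {x : Fp} (hx : x ∈ V.nonunits) : x ∈ V := by
  rw [← ValuationSubring.valuation_le_one_iff]
  exact le_of_lt ((ValuationSubring.mem_nonunits_iff V).1 hx)

theorem h87r_nu_zero : (0 : Fp) ∈ V.nonunits := by
  rw [ValuationSubring.mem_nonunits_iff, map_zero]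
  exact zero_lt_one

theorem h87r_nu_add {x y : Fp} (hx : x ∈ V.nonunits) (hy : y ∈ V.nonunits) :
    x + y ∈ V.nonunits := by
  rw [ValuationSubring.mem_nonunits_iff] at hx hy ⊢
  exact Valuation.map_add_lt _ hx hy

theorem h87r_nu_neg {x : Fp} (hx : x ∈ V.nonunits) : -x ∈ V.nonunits := by
  rw [ValuationSubring.mem_nonunits_iff] at hx ⊢
  rwa [Valuation.map_neg]

theorem h87r_nu_sub {x y : Fp} (hx : x ∈ V.nonunits) (hy : y ∈ V.nonunits) :
    x - y ∈ V.nonunits := by
  rw [sub_eq_add_neg]
  exact h87r_nu_add V hx (h87r_nu_neg V hy)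

theorem h87r_nu_mul {x y : Fp} (hx : x ∈ V.nonunits) (hy : y ∈ V) : x * y ∈ V.nonunits := by
  rw [ValuationSubring.mem_nonunits_iff] at hx ⊢
  rw [map_mul]
  have h3 := (ValuationSubring.valuation_le_one_iff V _).2 hy
  calc V.valuation x * V.valuation y ≤ V.valuation x * 1 := by gcongr
    _ = V.valuation x := mul_one _
    _ < 1 := hx

theorem h87r_mul_nu {x y : Fp} (hx : x ∈ V) (hy : y ∈ V.nonunits) : x * y ∈ V.nonunits := by
  rw [mul_comm]
  exact h87r_nu_mul V hy hx

theorem h87r_nu_sum {α : Type*} (s : Finset α) (f : α → Fp) (h : ∀ i ∈ s, f i ∈ V.nonunits) :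
    (∑ i ∈ s, f i) ∈ V.nonunits := by
  classical
  induction s using Finset.induction_on with
  | empty =>
    rw [Finset.sum_empty]
    exact h87r_nu_zero V
  | insert i s hi ih =>
    rw [Finset.sum_insert hi]
    exact h87r_nu_add V (h i (Finset.mem_insert_self _ _))
      (ih (fun j hj => h j (Finset.mem_insert_of_mem hj)))

/-- a member which is not a nonunit has its inverse in `V`. -/
theorem h87r_inv_mem {x : Fp} (hx : x ∈ V) (hnu : x ∉ V.nonunits) : x⁻¹ ∈ V := by
  rw [ValuationSubring.mem_nonunits_iff, not_lt] at hnu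
  have h1 : V.valuation x = 1 :=
    le_antisymm ((ValuationSubring.valuation_le_one_iff V _).2 hx) hnu
  rw [← ValuationSubring.valuation_le_one_iff, map_inv₀, h1, inv_one]

theorem h87r_ne_zero_of_not_nu {x : Fp} (hnu : x ∉ V.nonunits) : x ≠ 0 := by
  rintro rfl
  exact hnu (h87r_nu_zero V)

end Nonunits

section Greedy

variable {F Fp : Type*} [Field F] [Field Fp] [Algebra F Fp]
variable (U : ValuationSubring F) (V : ValuationSubring Fp)
  (hU : ∀ x : F, x ∈ U ↔ algebraMap F Fp x ∈ V)

include hU in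
/-- **a maximal family with independent residues spans the residues.** -/
theorem h87r_exists_span [FiniteDimensional F Fp] :
    ∃ (e : ℕ) (b : Fin e → Fp), H87vInd U V b ∧
      ∀ y ∈ V, ∃ u : Fin e → F, (∀ i, u i ∈ U) ∧
        y - ∑ i, algebraMap F Fp (u i) * b i ∈ V.nonunits := by
  classical
  let P : ℕ → Prop := fun e => ∃ b : Fin e → Fp, H87vInd U V b
  have hP0 : P 0 := ⟨fun i => i.elim0, fun i => i.elim0, fun a _ _ i => i.elim0⟩
  have hbound : ∀ e, P e → e ≤ Module.finrank F Fp := by
    rintro e ⟨b, hb⟩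
    simpa using h87v_card_le U V hU hb
  have hPe : P (Nat.findGreatest P (Module.finrank F Fp)) :=
    Nat.findGreatest_spec (P := P) (Nat.zero_le _) hP0
  have hmax : ¬ P (Nat.findGreatest P (Module.finrank F Fp) + 1) := by
    intro h
    have h1 := hbound _ h
    have h2 := Nat.le_findGreatest h1 h
    omega
  generalize Nat.findGreatest P (Module.finrank F Fp) = e at hPe hmax
  obtain ⟨b, hb⟩ := hPe
  refine ⟨e, b, hb, fun y hy => ?_⟩
  set b' : Fin (e + 1) → Fp := Fin.snoc (α := fun _ => Fp) b y with hb'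
  have hlast : b' (Fin.last e) = y := by simp [hb']
  have hcs : ∀ i : Fin e, b' (Fin.castSucc i) = b i := by
    intro i
    simp [hb']
  have hmem : ∀ i, b' i ∈ V := by
    intro i
    refine Fin.lastCases ?_ (fun j => ?_) i
    · rw [hlast]; exact hy
    · rw [hcs]; exact hb.1 j
  have hnot : ¬ H87vInd U V b' := fun h => hmax ⟨_, h⟩
  have hex : ∃ a : Fin (e + 1) → F, (∀ i, a i ∈ U) ∧
      (∑ i, algebraMap F Fp (a i) * b' i) ∈ V.nonunits ∧ ∃ i, a i ∉ U.nonunits := by
    by_contra hcon
    apply hnot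
    refine ⟨hmem, fun a ha hs i => ?_⟩
    by_contra hi
    exact hcon ⟨a, ha, hs, i, hi⟩
  obtain ⟨a, haU, hsum, i0, hi0⟩ := hex
  rw [Fin.sum_univ_castSucc] at hsum
  simp only [hcs, hlast] at hsum
  by_cases hl : a (Fin.last e) ∈ U.nonunits
  · exfalso
    have h1 : algebraMap F Fp (a (Fin.last e)) * y ∈ V.nonunits :=
      h87r_nu_mul V ((h87v_mem_nonunits_map_iff U V hU _).1 hl) hy
    have h2 : (∑ i : Fin e, algebraMap F Fp (a (Fin.castSucc i)) * b i) ∈ V.nonunits := by
      have := h87r_nu_sub V hsum h1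
      rwa [add_sub_cancel_right] at this
    have h3 := hb.2 (fun i => a (Fin.castSucc i)) (fun i => haU _) h2
    refine Fin.lastCases (motive := fun i => a i ∉ U.nonunits → False) ?_ (fun j => ?_) i0 hi0
    · exact fun h => h hl
    · exact fun h => h (h3 j)
  · have hl0 : a (Fin.last e) ≠ 0 := h87r_ne_zero_of_not_nu U hl
    have hlinv : (a (Fin.last e))⁻¹ ∈ U := h87r_inv_mem U (haU _) hl
    refine ⟨fun i => - (a (Fin.castSucc i) * (a (Fin.last e))⁻¹),
      fun i => neg_mem (mul_mem (haU _) hlinv), ?_⟩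
    have e1 : y - ∑ i : Fin e, algebraMap F Fp (-(a (Fin.castSucc i) * (a (Fin.last e))⁻¹)) * b i
        = algebraMap F Fp (a (Fin.last e))⁻¹ *
          (∑ i : Fin e, algebraMap F Fp (a (Fin.castSucc i)) * b i +
            algebraMap F Fp (a (Fin.last e)) * y) := by
      have hl0' : algebraMap F Fp (a (Fin.last e)) ≠ 0 := fun h =>
        hl0 ((map_eq_zero_iff _ (algebraMap F Fp).injective).1 h)
      rw [mul_add, Finset.mul_sum, ← mul_assoc, ← map_mul, inv_mul_cancel₀ hl0, map_one, one_mul,
        sub_eq_add_neg, ← Finset.sum_neg_distrib, add_comm]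
      congr 1
      refine Finset.sum_congr rfl (fun i _ => ?_)
      rw [map_neg, map_mul, neg_mul, neg_neg]
      ring
    rw [e1]
    exact h87r_mul_nu V ((hU _).1 hlinv) hsum

end Greedy

section Tower

variable {F0 F Fp : Type*} [Field F0] [Field F] [Field Fp] [Algebra F0 F] [Algebra F Fp]
  [Algebra F0 Fp] [IsScalarTower F0 F Fp]
variable (U0 : ValuationSubring F0) (U : ValuationSubring F) (V : ValuationSubring Fp)
  (hU : ∀ x : F, x ∈ U ↔ algebraMap F Fp x ∈ V)
  (hU0 : ∀ x : F0, x ∈ U0 ↔ algebraMap F0 F x ∈ U)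

include hU hU0 in
theorem h87r_hU0p (x : F0) : x ∈ U0 ↔ algebraMap F0 Fp x ∈ V := by
  rw [hU0, hU, ← IsScalarTower.algebraMap_apply]

include hU hU0 in
/-- **the count**: `n` residues independent over `U0` inside the span of `e m` products. -/
theorem h87r_count {n e m : ℕ} (c : Fin n → Fp) (hc : H87vInd U0 V c)
    (b : Fin e → Fp) (hbV : ∀ i, b i ∈ V)
    (hbs : ∀ y ∈ V, ∃ u : Fin e → F, (∀ i, u i ∈ U) ∧
      y - ∑ i, algebraMap F Fp (u i) * b i ∈ V.nonunits)
    (a : Fin m → F) (haU : ∀ j, a j ∈ U)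
    (has : ∀ y ∈ U, ∃ w : Fin m → F0, (∀ j, w j ∈ U0) ∧
      y - ∑ j, algebraMap F0 F (w j) * a j ∈ U.nonunits) :
    n ≤ e * m := by
  classical
  have hU0p := h87r_hU0p U0 U V hU hU0
  choose u hu1 hu2 using fun l => hbs (c l) (hc.1 l)
  choose w hw1 hw2 using fun l i => has (u l i) (hu1 l i)
  -- the approximation of `c l`
  set T : Fin n → Fp := fun l =>
    ∑ i, ∑ j, algebraMap F0 Fp (w l i j) * (algebraMap F Fp (a j) * b i) with hT
  have hTV : ∀ l, T l ∈ V := fun l =>
    sum_mem (fun i _ => sum_mem (fun j _ =>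
      mul_mem ((hU0p _).1 (hw1 l i j)) (mul_mem ((hU _).1 (haU j)) (hbV i))))
  have hkey : ∀ l, c l - T l ∈ V.nonunits := by
    intro l
    have h1 : (∑ i, algebraMap F Fp (u l i - ∑ j, algebraMap F0 F (w l i j) * a j) * b i)
        ∈ V.nonunits :=
      h87r_nu_sum V _ _ (fun i _ =>
        h87r_nu_mul V ((h87v_mem_nonunits_map_iff U V hU _).1 (hw2 l i)) (hbV i))
    have h2 := h87r_nu_add V (hu2 l) h1
    have e1 : c l - T l = c l - ∑ i, algebraMap F Fp (u l i) * b i +
        ∑ i, algebraMap F Fp (u l i - ∑ j, algebraMap F0 F (w l i j) * a j) * b i := by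
      rw [hT]
      simp only [map_sub, map_sum, map_mul, sub_mul, Finset.sum_sub_distrib, Finset.sum_mul,
        ← IsScalarTower.algebraMap_apply F0 F Fp]
      have : ∀ i j, algebraMap F0 Fp (w l i j) * (algebraMap F Fp (a j) * b i)
          = algebraMap F0 Fp (w l i j) * algebraMap F Fp (a j) * b i := fun i j => by ring
      simp only [this]
      ring
    rw [e1]
    exact h2
  by_contra hlt
  rw [not_le] at hlt
  -- the residue vectors
  set ω : Fin n → (Fin e × Fin m → IsLocalRing.ResidueField U0) := fun l ij =>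
    IsLocalRing.residue U0 ⟨w l ij.1 ij.2, hw1 l ij.1 ij.2⟩ with hω
  have hdep : ¬ LinearIndependent (IsLocalRing.ResidueField U0) ω := by
    intro hli
    have h1 := hli.fintype_card_le_finrank
    rw [Module.finrank_fintype_fun_eq_card, Fintype.card_fin, Fintype.card_prod,
      Fintype.card_fin, Fintype.card_fin] at h1
    omega
  obtain ⟨g, hg, l0, hl0⟩ := Fintype.not_linearIndependent_iff.1 hdep
  choose gt hgt using fun l => Ideal.Quotient.mk_surjective (g l)
  have hgt' : ∀ l, IsLocalRing.residue U0 (gt l) = g l := hgt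
  -- the combination
  have hco : ∀ i j, (∑ l, (gt l : F0) * w l i j) ∈ U0.nonunits := by
    intro i j
    have h1 : IsLocalRing.residue U0 (∑ l, gt l * ⟨w l i j, hw1 l i j⟩) = 0 := by
      rw [map_sum]
      have h2 := congrFun hg (i, j)
      simp only [Finset.sum_apply, Pi.smul_apply, smul_eq_mul, Pi.zero_apply, hω] at h2
      rw [← h2]
      refine Finset.sum_congr rfl (fun l _ => ?_)
      rw [map_mul, hgt']
    rw [IsLocalRing.residue_eq_zero_iff, ValuationSubring.valuation_lt_one_iff,
      ← ValuationSubring.mem_nonunits_iff] at h1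
    have e2 : ((∑ l, gt l * ⟨w l i j, hw1 l i j⟩ : U0) : F0) = ∑ l, (gt l : F0) * w l i j := by
      push_cast
      rfl
    rw [← e2]
    exact h1
  have hS : (∑ l, algebraMap F0 Fp (gt l : F0) * c l) ∈ V.nonunits := by
    have e3 : ∑ l, algebraMap F0 Fp (gt l : F0) * c l
        = ∑ l, algebraMap F0 Fp (gt l : F0) * (c l - T l) +
          ∑ i, ∑ j, algebraMap F0 Fp (∑ l, (gt l : F0) * w l i j) *
            (algebraMap F Fp (a j) * b i) := by
      have e4 : ∑ i, ∑ j, algebraMap F0 Fp (∑ l, (gt l : F0) * w l i j) *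
            (algebraMap F Fp (a j) * b i) = ∑ l, algebraMap F0 Fp (gt l : F0) * T l := by
        have hL : ∀ l, algebraMap F0 Fp (gt l : F0) * T l = ∑ i, ∑ j,
            algebraMap F0 Fp (gt l : F0) * algebraMap F0 Fp (w l i j) *
              (algebraMap F Fp (a j) * b i) := by
          intro l
          simp only [hT, Finset.mul_sum, mul_assoc]
        have hR : ∀ i j, algebraMap F0 Fp (∑ l, (gt l : F0) * w l i j) *
            (algebraMap F Fp (a j) * b i) = ∑ l,
            algebraMap F0 Fp (gt l : F0) * algebraMap F0 Fp (w l i j) *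
              (algebraMap F Fp (a j) * b i) := by
          intro i j
          rw [map_sum, Finset.sum_mul]
          simp only [map_mul]
        simp only [hL, hR]
        exact ((Finset.sum_comm).trans
          (Finset.sum_congr rfl (fun i _ => Finset.sum_comm))).symm
      rw [e4, ← Finset.sum_add_distrib]
      refine Finset.sum_congr rfl (fun l _ => ?_)
      ring
    rw [e3]
    refine h87r_nu_add V ?_ ?_
    · exact h87r_nu_sum V _ _ (fun l _ =>
        h87r_mul_nu V ((hU0p _).1 (gt l).2) (hkey l))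
    · exact h87r_nu_sum V _ _ (fun i _ => h87r_nu_sum V _ _ (fun j _ =>
        h87r_nu_mul V ((h87v_mem_nonunits_map_iff U0 V hU0p _).1 (hco i j))
          (mul_mem ((hU _).1 (haU j)) (hbV i))))
  have hfin := hc.2 (fun l => (gt l : F0)) (fun l => (gt l).2) hS l0
  apply hl0
  rw [← hgt' l0, IsLocalRing.residue_eq_zero_iff, ValuationSubring.valuation_lt_one_iff,
    ← ValuationSubring.mem_nonunits_iff]
  exact hfin

include hU hU0 in
/-- **FULL RESIDUE DEGREE in a tower**: if `V / U0` has full residue degree, so have `V / U`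
and `U / U0`. -/
theorem h87r_full_tower [FiniteDimensional F0 Fp] {n : ℕ} (c : Fin n → Fp)
    (hc : H87vInd U0 V c) (hn : Module.finrank F0 Fp ≤ n) :
    (∃ b : Fin (Module.finrank F Fp) → Fp, H87vInd U V b) ∧
      (∃ a : Fin (Module.finrank F0 F) → F, H87vInd U0 U a) := by
  haveI : FiniteDimensional F0 F := FiniteDimensional.left F0 F Fp
  haveI : FiniteDimensional F Fp := FiniteDimensional.right F0 F Fp
  obtain ⟨e, b, hb, hbs⟩ := h87r_exists_span U V hU
  obtain ⟨m, a, ha, has⟩ := h87r_exists_span U0 U hU0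
  have h1 : e ≤ Module.finrank F Fp := by simpa using h87v_card_le U V hU hb
  have h2 : m ≤ Module.finrank F0 F := by simpa using h87v_card_le U0 U hU0 ha
  have h3 : n ≤ e * m := h87r_count U0 U V hU hU0 c hc b hb.1 hbs a ha.1 has
  have h4 : Module.finrank F0 F * Module.finrank F Fp = Module.finrank F0 Fp :=
    Module.finrank_mul_finrank F0 F Fp
  have h5 : 0 < Module.finrank F0 F := Module.finrank_pos
  have h6 : 0 < Module.finrank F Fp := Module.finrank_pos
  have h7 : Module.finrank F0 F * Module.finrank F Fp ≤ e * m := by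
    rw [h4]
    exact le_trans hn h3
  have he : e = Module.finrank F Fp := by
    refine le_antisymm h1 ?_
    by_contra hlt
    rw [not_le] at hlt
    have : e * m < Module.finrank F Fp * Module.finrank F0 F := by
      calc e * m ≤ e * Module.finrank F0 F := Nat.mul_le_mul_left _ h2
        _ < Module.finrank F Fp * Module.finrank F0 F := Nat.mul_lt_mul_of_pos_right hlt h5
    rw [mul_comm (Module.finrank F Fp)] at this
    omega
  have hm : m = Module.finrank F0 F := by
    refine le_antisymm h2 ?_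
    by_contra hlt
    rw [not_le] at hlt
    have : e * m < Module.finrank F Fp * Module.finrank F0 F := by
      calc e * m ≤ Module.finrank F Fp * m := Nat.mul_le_mul_right _ h1
        _ < Module.finrank F Fp * Module.finrank F0 F := Nat.mul_lt_mul_of_pos_left hlt h6
    rw [mul_comm (Module.finrank F Fp)] at this
    omega
  subst he
  subst hm
  exact ⟨⟨b, hb⟩, ⟨a, ha⟩⟩

end Tower

section Gauss

variable {K Fp : Type*} [Field K] [Field Fp] [Algebra K Fp]

/-- the residues of the `c i` are independent over `k[x̄]` (polynomial form): a combination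
`∑ P_i(x) c_i`, `P_i ∈ A[X]`, in `𝔪_V` has all `P_i ∈ 𝔪_A[X]`. -/
def H87rPolyInd (A : ValuationSubring K) (V : ValuationSubring Fp) (x : Fp)
    {ι : Type*} [Fintype ι] (c : ι → Fp) : Prop :=
  (∀ i, c i ∈ V) ∧ ∀ P : ι → Polynomial K, (∀ i n, (P i).coeff n ∈ A) →
    (∑ i, Polynomial.aeval x (P i) * c i) ∈ V.nonunits → ∀ i n, (P i).coeff n ∈ A.nonunits

/-- the polynomials with coefficients in `A`. -/
def h87rInt (A : ValuationSubring K) : Subring (Polynomial K) where
  carrier := {P | ∀ n, P.coeff n ∈ A}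
  zero_mem' := fun n => by simp [A.zero_mem]
  one_mem' := fun n => by
    rw [Polynomial.coeff_one]
    split_ifs
    · exact A.one_mem
    · exact A.zero_mem
  add_mem' := fun {P Q} hP hQ n => by
    rw [Polynomial.coeff_add]
    exact A.add_mem _ _ (hP n) (hQ n)
  mul_mem' := fun {P Q} hP hQ n => by
    rw [Polynomial.coeff_mul]
    exact sum_mem (fun ij _ => A.mul_mem _ _ (hP _) (hQ _))
  neg_mem' := fun {P} hP n => by
    rw [Polynomial.coeff_neg]
    exact A.neg_mem _ (hP n)

theorem h87r_mem_int (A : ValuationSubring K) (P : Polynomial K) :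
    P ∈ h87rInt A ↔ ∀ n, P.coeff n ∈ A := Iff.rfl

/-- a coefficient of maximal valuation. -/
theorem h87r_exists_max_coeff (A : ValuationSubring K) (s : Polynomial K) (hs : s ≠ 0) :
    ∃ n0, s.coeff n0 ≠ 0 ∧ ∀ n, A.valuation (s.coeff n) ≤ A.valuation (s.coeff n0) := by
  obtain ⟨n0, hn0, hmax⟩ := Finset.exists_max_image s.support
    (fun n => A.valuation (s.coeff n)) (Polynomial.nonempty_support_iff.2 hs)
  refine ⟨n0, Polynomial.mem_support_iff.1 hn0, fun n => ?_⟩
  by_cases hn : n ∈ s.support
  · exact hmax n hn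
  · rw [Polynomial.notMem_support_iff.1 hn, map_zero]
    exact zero_le

variable (A : ValuationSubring K) (V : ValuationSubring Fp)
  (hA : ∀ a : K, a ∈ A ↔ algebraMap K Fp a ∈ V)

include hA in
theorem h87r_aeval_mem {x : Fp} (hx : x ∈ V) {P : Polynomial K} (hP : ∀ n, P.coeff n ∈ A) :
    Polynomial.aeval x P ∈ V := by
  rw [Polynomial.aeval_eq_sum_range]
  refine sum_mem (fun i _ => ?_)
  rw [Algebra.smul_def]
  exact mul_mem ((hA _).1 (hP i)) (pow_mem hx i)

include hA in
theorem h87r_aeval_nu {x : Fp} (hx : x ∈ V) {P : Polynomial K}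
    (hP : ∀ n, P.coeff n ∈ A.nonunits) : Polynomial.aeval x P ∈ V.nonunits := by
  rw [Polynomial.aeval_eq_sum_range]
  refine h87r_nu_sum V _ _ (fun i _ => ?_)
  rw [Algebra.smul_def]
  exact h87r_nu_mul V ((h87v_mem_nonunits_map_iff A V hA _).1 (hP i)) (pow_mem hx i)

variable {ι : Type*} [Fintype ι]

include hA in
/-- the residue of `x` is transcendental (polynomial form). -/
theorem h87r_transc [Nonempty ι] {x : Fp} (hx : x ∈ V) {c : ι → Fp}
    (hc : H87rPolyInd A V x c) (P : Polynomial K) (hP : ∀ n, P.coeff n ∈ A)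
    (h : Polynomial.aeval x P ∈ V.nonunits) : ∀ n, P.coeff n ∈ A.nonunits := by
  classical
  obtain ⟨i0⟩ := ‹Nonempty ι›
  have h1 := hc.2 (fun i => if i = i0 then P else 0)
    (fun i n => by
      by_cases hi : i = i0
      · simp only [hi, if_true]; exact hP n
      · simp only [hi, if_false, Polynomial.coeff_zero]; exact A.zero_mem)
    (by
      have e : ∑ i, Polynomial.aeval x (if i = i0 then P else 0) * c i
          = Polynomial.aeval x P * c i0 := by
        rw [Finset.sum_eq_single i0]
        · simp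
        · intro i _ hi
          simp [hi]
        · intro hi
          exact absurd (Finset.mem_univ _) hi
      rw [e]
      exact h87r_nu_mul V h (hc.1 i0))
  intro n
  have := h1 i0 n
  simpa using this

include hA in
/-- a primitive polynomial in `x` is a unit of `V`. -/
theorem h87r_unit_of_primitive [Nonempty ι] {x : Fp} (hx : x ∈ V) {c : ι → Fp}
    (hc : H87rPolyInd A V x c) (s : Polynomial K) (hs : ∀ n, s.coeff n ∈ A)
    (h1 : ∃ n, s.coeff n = 1) :
    Polynomial.aeval x s ∈ V ∧ Polynomial.aeval x s ∉ V.nonunits := by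
  refine ⟨h87r_aeval_mem A V hA hx hs, fun h => ?_⟩
  obtain ⟨n, hn⟩ := h1
  have h2 := h87r_transc A V hA hx hc s hs h n
  rw [hn, ValuationSubring.mem_nonunits_iff, map_one] at h2
  exact lt_irrefl _ h2

include hA in
/-- **Gauss lemma**: a Gauss-integral rational function in `x` is a quotient of a polynomial
with coefficients in `A` by a primitive one. -/
theorem h87r_gauss [Nonempty ι] {x : Fp} (hx : x ∈ V) {c : ι → Fp}
    (hc : H87rPolyInd A V x c) (y : Fp) (hy : y ∈ V) (r s : Polynomial K)
    (hs0 : Polynomial.aeval x s ≠ 0) (hrs : y * Polynomial.aeval x s = Polynomial.aeval x r) :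
    ∃ r' s' : Polynomial K, (∀ n, r'.coeff n ∈ A) ∧ (∀ n, s'.coeff n ∈ A) ∧
      (∃ n, s'.coeff n = 1) ∧ y * Polynomial.aeval x s' = Polynomial.aeval x r' := by
  have hs : s ≠ 0 := by
    rintro rfl
    exact hs0 (map_zero _)
  obtain ⟨n0, hn0, hmax⟩ := h87r_exists_max_coeff A s hs
  set cs : K := (s.coeff n0)⁻¹ with hcs
  have hcs0 : cs ≠ 0 := inv_ne_zero hn0
  set s' : Polynomial K := Polynomial.C cs * s with hs'
  set r' : Polynomial K := Polynomial.C cs * r with hr'
  have hs'A : ∀ n, s'.coeff n ∈ A := by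
    intro n
    rw [hs', Polynomial.coeff_C_mul, ← ValuationSubring.valuation_le_one_iff, map_mul, hcs,
      map_inv₀, inv_mul_le_iff₀ (zero_lt_iff.2 ((Valuation.ne_zero_iff _).2 hn0)), mul_one]
    exact hmax n
  have hs'1 : s'.coeff n0 = 1 := by
    rw [hs', Polynomial.coeff_C_mul, hcs, inv_mul_cancel₀ hn0]
  have hrel : y * Polynomial.aeval x s' = Polynomial.aeval x r' := by
    rw [hs', hr', map_mul, map_mul, ← hrs]
    ring
  have hunit := h87r_unit_of_primitive A V hA hx hc s' hs'A ⟨n0, hs'1⟩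
  have hr'V : Polynomial.aeval x r' ∈ V := by
    rw [← hrel]
    exact mul_mem hy hunit.1
  refine ⟨r', s', ?_, hs'A, ⟨n0, hs'1⟩, hrel⟩
  by_cases hr0 : r' = 0
  · intro n
    rw [hr0, Polynomial.coeff_zero]
    exact A.zero_mem
  obtain ⟨m0, hm0, hmax'⟩ := h87r_exists_max_coeff A r' hr0
  by_cases hle : A.valuation (r'.coeff m0) ≤ 1
  · intro n
    rw [← ValuationSubring.valuation_le_one_iff]
    exact le_trans (hmax' n) hle
  · exfalso
    rw [not_le] at hle
    set cr : K := (r'.coeff m0)⁻¹ with hcr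
    have hcrnu : cr ∈ A.nonunits := by
      rw [ValuationSubring.mem_nonunits_iff, hcr, map_inv₀]
      exact inv_lt_one_of_one_lt₀ hle
    set r'' : Polynomial K := Polynomial.C cr * r' with hr''
    have hr''A : ∀ n, r''.coeff n ∈ A := by
      intro n
      rw [hr'', Polynomial.coeff_C_mul, ← ValuationSubring.valuation_le_one_iff, map_mul, hcr,
        map_inv₀, inv_mul_le_iff₀ (zero_lt_iff.2 ((Valuation.ne_zero_iff _).2 hm0)), mul_one]
      exact hmax' n
    have hr''1 : r''.coeff m0 = 1 := by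
      rw [hr'', Polynomial.coeff_C_mul, hcr, inv_mul_cancel₀ hm0]
    have hnu : Polynomial.aeval x r'' ∈ V.nonunits := by
      rw [hr'', map_mul, Polynomial.aeval_C]
      exact h87r_nu_mul V ((h87v_mem_nonunits_map_iff A V hA _).1 hcrnu) hr'V
    exact (h87r_unit_of_primitive A V hA hx hc r'' hr''A ⟨m0, hr''1⟩).2 hnu

end Gauss

section GaussInd

variable {K F0 Fp : Type*} [Field K] [Field F0] [Field Fp] [Algebra K F0] [Algebra F0 Fp]
  [Algebra K Fp] [IsScalarTower K F0 Fp]
variable (A : ValuationSubring K) (U0 : ValuationSubring F0) (V : ValuationSubring Fp)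
  (hA : ∀ a : K, a ∈ A ↔ algebraMap K Fp a ∈ V)
  (hU0 : ∀ a : F0, a ∈ U0 ↔ algebraMap F0 Fp a ∈ V)
variable {ι : Type*} [Fintype ι]

include hA hU0 in
/-- **Gauss lemma, independence form**: `F0 = K(x)` (every element of `F0` is a quotient of
polynomials in `x`); a family whose residues are independent over `k[x̄]` has residues
independent over `U0 = V ∩ F0`. -/
theorem h87r_ind_of_polyInd {x : Fp} (hx : x ∈ V)
    (hfrac : ∀ a : F0, ∃ r s : Polynomial K, Polynomial.aeval x s ≠ 0 ∧
      algebraMap F0 Fp a * Polynomial.aeval x s = Polynomial.aeval x r)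
    {c : ι → Fp} (hc : H87rPolyInd A V x c) : H87vInd U0 V c := by
  classical
  refine ⟨hc.1, fun a ha hsum i => ?_⟩
  haveI : Nonempty ι := ⟨i⟩
  have hG : ∀ i, ∃ r' s' : Polynomial K, (∀ n, r'.coeff n ∈ A) ∧ (∀ n, s'.coeff n ∈ A) ∧
      (∃ n, s'.coeff n = 1) ∧
      algebraMap F0 Fp (a i) * Polynomial.aeval x s' = Polynomial.aeval x r' := by
    intro i
    obtain ⟨r, s, hs0, hrs⟩ := hfrac (a i)
    exact h87r_gauss A V hA hx hc _ ((hU0 _).1 (ha i)) r s hs0 hrs
  choose r s hrA hsA hs1 hrel using hG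
  set S : Fp := ∏ l, Polynomial.aeval x (s l) with hS
  have hSl : ∀ l, Polynomial.aeval x (s l) ∈ V ∧ Polynomial.aeval x (s l) ∉ V.nonunits :=
    fun l => h87r_unit_of_primitive A V hA hx hc (s l) (hsA l) (hs1 l)
  have hSV : S ∈ V := prod_mem (fun l _ => (hSl l).1)
  have hSinv : S⁻¹ ∈ V := by
    rw [hS, ← Finset.prod_inv_distrib]
    exact prod_mem (fun l _ => h87r_inv_mem V (hSl l).1 (hSl l).2)
  have hS0 : S ≠ 0 := by
    rw [hS]
    exact Finset.prod_ne_zero_iff.2 (fun l _ => h87r_ne_zero_of_not_nu V (hSl l).2)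
  set R : ι → Polynomial K := fun i => r i * ∏ l ∈ Finset.univ.erase i, s l with hR
  have hRA : ∀ i n, (R i).coeff n ∈ A := by
    intro i
    rw [← h87r_mem_int]
    exact mul_mem ((h87r_mem_int A _).2 (hrA i))
      (prod_mem (fun l _ => (h87r_mem_int A _).2 (hsA l)))
  have hRS : ∀ i, Polynomial.aeval x (R i) = algebraMap F0 Fp (a i) * S := by
    intro i
    rw [hR, map_mul, map_prod, ← hrel i, hS, mul_assoc,
      Finset.mul_prod_erase Finset.univ (fun l => Polynomial.aeval x (s l)) (Finset.mem_univ i)]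
  have hsum' : (∑ i, Polynomial.aeval x (R i) * c i) ∈ V.nonunits := by
    have e : ∑ i, Polynomial.aeval x (R i) * c i = S * ∑ i, algebraMap F0 Fp (a i) * c i := by
      rw [Finset.mul_sum]
      refine Finset.sum_congr rfl (fun i _ => ?_)
      rw [hRS]
      ring
    rw [e]
    exact h87r_mul_nu V hSV hsum
  have h1 := hc.2 R hRA hsum' i
  have h2 : Polynomial.aeval x (R i) ∈ V.nonunits := h87r_aeval_nu A V hA hx h1
  have h3 : algebraMap F0 Fp (a i) = Polynomial.aeval x (R i) * S⁻¹ := by
    rw [hRS, mul_assoc, mul_inv_cancel₀ hS0, mul_one]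
  rw [h87v_mem_nonunits_map_iff U0 V hU0, h3]
  exact h87r_nu_mul V h2 hSinv

end GaussInd

end Fermat.Agent.P7
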