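import Fermat.Agent.P7.H66S0Iface
import Fermat.Agent.P7.H87ResDegAbs

/-!
# Wave 7, DLOG at the non-good level, row H2-S0 leaf (C) FULL-DEG (helper73, prefix `h73f_`)

`h73f_fullDeg : H66sDegSF → H66sResIneq → H66sFullDeg` (exact frozen Props of
`P7/H66S0Iface.lean`).

Route (no intermediate residue field is built): `U = softRing A M`, `V = softRing A M⁺`,
`M⁺ = goodLevel p M`.  The landed `h87r_exists_span` gives `e'` and `b : Fin e' → FF M⁺` with
`H87vInd U V b` spanning `V` over `U` modulo the non-units, and `e' ≤ d = [FF M⁺ : FF M]`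
(`h87v_card_le`).  Let `a` be a maximal family of level `M` with reductions independent over
`k(j̄)` (of size `m ≤ ψ(M)` by (B)).  The `ψ(M⁺)` independent reductions of (A) lie in the
`k(j̄)`-span of the `m e'` products `ā_j b̄_l`, so `d ψ(M) = ψ(M⁺) ≤ m e' ≤ ψ(M) e'`, i.e.
`d ≤ e'`.
-/

set_option autoImplicit false
set_option linter.unusedSectionVars false
set_option linter.style.haveILetI false
set_option linter.unusedVariables false

open AlgebraicCurve ModularCurve

noncomputable section

namespace Fermat.Agent.P7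

open Fermat.Agent.S37 Fermat.Agent.Red.GV Fermat.Agent.Red.GV.Soft Fermat.Agent.Red.Desc
open Fermat.Agent.S21.C1

section Abs

variable {K0 L : Type*} [Field K0] [Field L] [Algebra K0 L]

/-- products of a span with a fixed element stay in the span of the products. -/
theorem h73f_mul_mem {m e : ℕ} (a : Fin m → L) (b : Fin e → L) (l : Fin e) {s : L}
    (hs : s ∈ Submodule.span K0 (Set.range a)) :
    s * b l ∈ Submodule.span K0 (Set.range (fun jl : Fin m × Fin e => a jl.1 * b jl.2)) := by
  induction hs using Submodule.span_induction with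
  | mem x hx =>
    obtain ⟨j, rfl⟩ := hx
    exact Submodule.subset_span ⟨(j, l), rfl⟩
  | zero =>
    rw [zero_mul]
    exact Submodule.zero_mem _
  | add x y _ _ hx hy =>
    rw [add_mul]
    exact Submodule.add_mem _ hx hy
  | smul c x _ hx =>
    rw [smul_mul_assoc]
    exact Submodule.smul_mem _ c hx

/-- **the count**: `n` independent elements inside the span of `m e` products. -/
theorem h73f_count {n m e : ℕ} (c : Fin n → L) (hc : LinearIndependent K0 c)
    (a : Fin m → L) (b : Fin e → L)
    (h : ∀ i, ∃ s : Fin e → L, (∀ l, s l ∈ Submodule.span K0 (Set.range a)) ∧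
      c i = ∑ l, s l * b l) : n ≤ m * e := by
  classical
  let T : Submodule K0 L :=
    Submodule.span K0 (Set.range (fun jl : Fin m × Fin e => a jl.1 * b jl.2))
  have hsub : ∀ i, c i ∈ T := by
    intro i
    obtain ⟨s, hs, hci⟩ := h i
    rw [hci]
    exact Submodule.sum_mem _ (fun l _ => h73f_mul_mem a b l (hs l))
  haveI : Module.Finite K0 T := FiniteDimensional.span_of_finite K0 (Set.finite_range _)
  let c' : Fin n → T := fun i => ⟨c i, hsub i⟩
  have hc' : LinearIndependent K0 c' := by
    refine LinearIndependent.of_comp T.subtype ?_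
    exact hc
  have h1 : Fintype.card (Fin n) ≤ Module.finrank K0 T := hc'.fintype_card_le_finrank
  have h2 : Module.finrank K0 T ≤ Fintype.card (Fin m × Fin e) := finrank_range_le_card _
  rw [Fintype.card_fin] at h1
  rw [Fintype.card_prod, Fintype.card_fin, Fintype.card_fin] at h2
  exact h1.trans h2

end Abs

section Level

variable (A : ValuationSubring Kbar)

/-- a maximal family of level `M` with independent reductions spans the reductions. -/
theorem h73f_exists_max (hB : H66sResIneq) {p : ℕ} (hp : p.Prime) (M : ℕ) [NeZero M]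
    (hM : ¬ p ∣ M) (hAp : A.LiesOverPrime p) :
    ∃ (m : ℕ) (a : Fin m → softV A M), m ≤ dedekindPsi M ∧
      ∀ y : softV A M, softR A M y ∈
        Submodule.span (h66sKj A) (Set.range (fun i => softR A M (a i))) := by
  classical
  let P : ℕ → Prop := fun m =>
    ∃ a : Fin m → softV A M, LinearIndependent (h66sKj A) (fun i => softR A M (a i))
  have hP0 : P 0 := ⟨fun i => i.elim0, linearIndependent_empty_type⟩
  have hbound : ∀ m, P m → m ≤ dedekindPsi M := by
    rintro m ⟨a, ha⟩
    exact hB p hp M hM A hAp m a ha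
  have hPm : P (Nat.findGreatest P (dedekindPsi M)) :=
    Nat.findGreatest_spec (Nat.zero_le _) hP0
  obtain ⟨a, ha⟩ := hPm
  refine ⟨Nat.findGreatest P (dedekindPsi M), a, Nat.findGreatest_le _, ?_⟩
  intro y
  by_contra hy
  have hcons : LinearIndependent (h66sKj A)
      (Fin.cons (softR A M y) (fun i => softR A M (a i)) :
        Fin (Nat.findGreatest P (dedekindPsi M) + 1) → _) :=
    linearIndependent_finCons.2 ⟨ha, hy⟩
  have hP1 : P (Nat.findGreatest P (dedekindPsi M) + 1) := by
    refine ⟨Fin.cons y a, ?_⟩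
    have e : (fun i => softR A M ((Fin.cons y a : Fin _ → softV A M) i)) =
        Fin.cons (softR A M y) (fun i => softR A M (a i)) := by
      funext i
      refine Fin.cases ?_ (fun j => ?_) i
      · simp
      · simp
    rw [e]
    exact hcons
  have h1 := Nat.le_findGreatest (hbound _ hP1) hP1
  omega

/-- **(C) FULL-DEG** from (A) DEG-SF and (B) RES-INEQ. -/
theorem h73f_fullDeg (hA : H66sDegSF) (hB : H66sResIneq) : H66sFullDeg := by
  classical
  intro p hp M _ hM A hAp
  letI := algebraAlong (degen (dvd_goodLevel p M))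
  have hdeg := finrank_degen_mul M (goodLevel p M) (dvd_goodLevel p M)
  haveI hfin : FiniteDimensional (FF M) (FF (goodLevel p M)) := hdeg.1
  have hd : Module.finrank (FF M) (FF (goodLevel p M)) * dedekindPsi M =
      dedekindPsi (goodLevel p M) := hdeg.2
  have hU : ∀ x : FF M, x ∈ softRing A M hp hAp ↔
      algebraMap (FF M) (FF (goodLevel p M)) x ∈ softRing A (goodLevel p M) hp hAp := by
    intro x
    exact (degen_mem_softV_iff A (dvd_goodLevel p M) x).symm
  obtain ⟨e', b, hb, hbs⟩ :=
    h87r_exists_span (softRing A M hp hAp) (softRing A (goodLevel p M) hp hAp) hU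
  have h1 : e' ≤ Module.finrank (FF M) (FF (goodLevel p M)) := by
    simpa using h87v_card_le (softRing A M hp hAp) (softRing A (goodLevel p M) hp hAp) hU hb
  obtain ⟨m, a, hm, hspan⟩ := h73f_exists_max A hB hp M hM hAp
  obtain ⟨c, hc⟩ := hA p hp (goodLevel p M) (not_dvd_goodLevel hp hM)
    (auxLevel_dvd_goodLevel p M) A hAp
  have hbV : ∀ l, b l ∈ softV A (goodLevel p M) := fun l => hb.1 l
  have hcount : dedekindPsi (goodLevel p M) ≤ m * e' := by
    refine h73f_count (K0 := h66sKj A) (fun i => softR A (goodLevel p M) (c i)) hc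
      (fun j => softR A M (a j)) (fun l => softR A (goodLevel p M) ⟨b l, hbV l⟩) ?_
    intro i
    obtain ⟨u, hu, hz⟩ := hbs (c i : FF (goodLevel p M)) (c i).2
    have hdu : ∀ l, degen (dvd_goodLevel p M) (u l) ∈ softV A (goodLevel p M) :=
      fun l => (degen_mem_softV_iff A (dvd_goodLevel p M) (u l)).2 (hu l)
    refine ⟨fun l => softR A M ⟨u l, hu l⟩, fun l => hspan _, ?_⟩
    have hzV : (c i : FF (goodLevel p M)) -
        ∑ l, algebraMap (FF M) (FF (goodLevel p M)) (u l) * b l ∈ softV A (goodLevel p M) :=
      h87r_nu_mem (softRing A (goodLevel p M) hp hAp) hz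
    have h0 := (softR_eq_zero_iff_mem_nonunits A (goodLevel p M) hp hAp ⟨_, hzV⟩).2 hz
    have e1 : (⟨_, hzV⟩ : softV A (goodLevel p M)) =
        c i - ∑ l, (⟨degen (dvd_goodLevel p M) (u l), hdu l⟩ : softV A (goodLevel p M)) *
          ⟨b l, hbV l⟩ := by
      apply Subtype.ext
      rw [AddSubgroupClass.coe_sub, AddSubmonoidClass.coe_finsetSum]
      rfl
    rw [e1, map_sub, map_sum, sub_eq_zero] at h0
    rw [h0]
    refine Finset.sum_congr rfl (fun l _ => ?_)
    rw [map_mul, softR_degen A (dvd_goodLevel p M) ⟨u l, hu l⟩ (hdu l)]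
  have hpsi : 0 < dedekindPsi M := h93_dedekindPsi_pos M
  have h2 : Module.finrank (FF M) (FF (goodLevel p M)) ≤ e' := by
    have h3 : Module.finrank (FF M) (FF (goodLevel p M)) * dedekindPsi M ≤
        e' * dedekindPsi M := by
      rw [hd]
      calc dedekindPsi (goodLevel p M) ≤ m * e' := hcount
        _ ≤ dedekindPsi M * e' := Nat.mul_le_mul_right _ hm
        _ = e' * dedekindPsi M := Nat.mul_comm _ _
    exact Nat.le_of_mul_le_mul_right h3 hpsi
  have he : e' = Module.finrank (FF M) (FF (goodLevel p M)) := le_antisymm h1 h2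
  subst he
  exact ⟨b, hb⟩

end Level

end Fermat.Agent.P7
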