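import Fermat.Agent.P7.H66S0Iface
import Fermat.Agent.P5.H26GenusFinal
import Fermat.Agent.P5.H26PushPole
import Fermat.Agent.P5.H51SF
import Fermat.Agent.P5.H40SFField
import Fermat.Agent.Red.HKComm.Deg
import Fermat.Agent.Red.GV.SoftGal

/-!
# Wave 7, DLOG at the non-good level, row H2-S0, leaf (A) DEG-SF (helper96, twin)

`N` a good level (`p ∤ N`, `auxLevel p ∣ N`), `A` a valuation subring of `ℚ̄` over `p`.

* `h96a_finrank_sf` : `[kC(N) : k(j̄)] = ψ(N)`: the pole divisor of `j̄` on the special fibre is
  the push-forward of the pole divisor of `j` (landed `h26s_push_pole`), the push-forward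
  preserves the degree, and both degrees are field degrees (`H13rZeros` on both fibres).
* `h96a_degSF : H66sDegSF` (exact frozen shape of P7/H66S0Iface).
-/

set_option autoImplicit false
set_option linter.unusedSectionVars false
set_option linter.style.haveILetI false

open AlgebraicCurve ModularCurve

noncomputable section

namespace Fermat.Agent.P7

open Fermat.Agent.S37 Fermat.Agent.Red.GV Fermat.Agent.Red.GV.Soft Fermat.Agent.Red.Desc
open Fermat.Agent.S21.C1 Fermat.Agent.P5

/-- the degree of the pole divisor of `x` is the field degree, from `H13rZeros`. -/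
theorem h96a_deg_pole {K F : Type*} [Field K] [Field F] [Algebra K F]
    (hdeg : ∀ v : Place K F, v.deg = 1) (x : F) (hZ : H13rZeros K F x)
    (D : Divisor K F) (hD : ∀ v : Place K F, D v = max 0 (-(v.ord x))) :
    Divisor.degree D = (Module.finrank (IntermediateField.adjoin K {x}) F : ℤ) := by
  classical
  obtain ⟨s, hs, hsum⟩ := hZ x⁻¹ (Or.inr rfl)
  have hDs : D = ∑ v ∈ s, Finsupp.single v (v.ord x⁻¹) := by
    ext v
    rw [Finsupp.finsetSum_apply, hD v]
    by_cases hv : v ∈ s
    · rw [Finset.sum_eq_single_of_mem v hv (fun w _ hw => Finsupp.single_eq_of_ne' hw),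
        Finsupp.single_eq_same]
      have := (hs v).1 hv
      rw [Place.ord_inv] at this ⊢
      omega
    · rw [Finset.sum_eq_zero (fun w hw => Finsupp.single_eq_of_ne'
        (by rintro rfl; exact hv hw))]
      have := (hs v).not.1 hv
      rw [Place.ord_inv] at this
      omega
  rw [hDs, map_sum]
  have h1 : ∀ v ∈ s, Divisor.degree (Finsupp.single v (v.ord x⁻¹)) = v.ord x⁻¹ := by
    intro v _
    rw [Divisor.degree_single, hdeg v]; simp
  rw [Finset.sum_congr rfl h1, hsum]

/-- the `q`-expansion of `j̄` is `j_K`. -/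
theorem h96a_incl_j (A : ValuationSubring Kbar) (N : ℕ) [NeZero N] :
    h13sIncl A N (h26sJ A N) = jK (IsLocalRing.ResidueField A) := by
  rw [h26sJ, h13sIncl_red]
  exact gaussR_jB A N

/-- **`[kC(N) : k(j̄)] = ψ(N)`** at a good level. -/
theorem h96a_finrank_sf {p : ℕ} (hp : p.Prime) (N : ℕ) [NeZero N] (hN : ¬ p ∣ N)
    (haux : auxLevel p ∣ N) (A : ValuationSubring Kbar) (hA : A.LiesOverPrime p) :
    Module.finrank (IntermediateField.adjoin (h13sK A) {h26sJ A N}) (h13sFt A N) =
      dedekindPsi N := by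
  classical
  obtain ⟨r, hr⟩ := h88r_redDiv p hp N hN haux A hA
  obtain ⟨D, hD, -⟩ := h26s_exists_pole N
  have hBg : H13rBase Kbar (FF N) := h40r_base_FF N
  have hrest := h26s_rest hp N hN haux A hA
  have h1 : Divisor.degree D = (Module.finrank (IntermediateField.adjoin Kbar {jB N}) (FF N) : ℤ) :=
    h96a_deg_pole hBg.deg_one (jB N) (h40r_zeros_FF N) D hD
  have h2 : Divisor.degree (h13sPush r D) =
      (Module.finrank (IntermediateField.adjoin (h13sK A) {h26sJ A N}) (h13sFt A N) : ℤ) :=
    h96a_deg_pole hrest.1.1 (h26sJ A N) hrest.2.1 (h13sPush r D)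
      (fun Q => h26s_push_pole hp N hN A hA r hr D hD Q)
  have h3 : Divisor.degree (h13sPush r D) = Divisor.degree D :=
    h51f_degree_push r hBg.deg_one hrest.1.1 D
  have h4 : Module.finrank (IntermediateField.adjoin Kbar {jB N}) (FF N) = dedekindPsi N :=
    Fermat.Agent.Red.HKComm.hkdeg_finrank_jBar N
  rw [h3, h1, h4] at h2
  exact_mod_cast h2.symm

/-- the image of `k(j̄)` in `k((q))` is `k(j_K)`. -/
theorem h96a_map_adjoin (A : ValuationSubring Kbar) (N : ℕ) [NeZero N] :
    (IntermediateField.adjoin (h13sK A) {h26sJ A N}).map (h13sIncl A N) = h66sKj A := by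
  rw [IntermediateField.adjoin_map, Set.image_singleton, h96a_incl_j A N]
  rfl

/-- **(A) DEG-SF** (exact frozen shape). -/
theorem h96a_degSF : H66sDegSF := by
  intro p hp N _ hN haux A hA
  classical
  have hrest := h26s_rest hp N hN haux A hA
  haveI : FiniteDimensional (IntermediateField.adjoin (h13sK A) {h26sJ A N}) (h13sFt A N) :=
    hrest.2.2
  have hfr := h96a_finrank_sf hp N hN haux A hA
  let b0 := Module.finBasis (IntermediateField.adjoin (h13sK A) {h26sJ A N}) (h13sFt A N)
  let b : Fin (dedekindPsi N) → h13sFt A N := fun i => b0 (Fin.cast hfr.symm i)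
  have hb : LinearIndependent (IntermediateField.adjoin (h13sK A) {h26sJ A N}) b :=
    b0.linearIndependent.comp _ (Fin.cast_injective _)
  have hx : ∀ i, ∃ x : gaussV A N, h13sRed A N x = b i := fun i =>
    h40f_field p hp N hN haux A hA (b i)
  choose x hx using hx
  have hsoft : softV A N = gaussV A N := softV_eq_gaussV A N hp hN hA
  have hmem : ∀ i, (x i : FF N) ∈ softV A N := fun i => by rw [hsoft]; exact (x i).2
  refine ⟨fun i => ⟨(x i : FF N), hmem i⟩, ?_⟩
  have hred : ∀ i, softR A N ⟨(x i : FF N), hmem i⟩ = h13sIncl A N (b i) := by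
    intro i
    rw [softR_eq_gaussR A N _ _ (x i).2, ← hx i, h13sIncl_red]
  rw [Fintype.linearIndependent_iff]
  intro g hg i
  have hpre : ∀ i, ∃ c : IntermediateField.adjoin (h13sK A) {h26sJ A N},
      h13sIncl A N (c : h13sFt A N) = (g i : LaurentSeries (IsLocalRing.ResidueField A)) := by
    intro i
    have h1 : ∀ y : LaurentSeries (h13sK A), y ∈ h66sKj A →
        y ∈ (IntermediateField.adjoin (h13sK A) {h26sJ A N}).map (h13sIncl A N) := by
      intro y hy
      rw [h96a_map_adjoin A N]
      exact hy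
    obtain ⟨c, hc, hcg⟩ := (IntermediateField.mem_map _).mp (h1 _ (g i).2)
    exact ⟨⟨c, hc⟩, hcg⟩
  choose c hc using hpre
  have hsum' : h13sIncl A N (∑ i, c i • b i) = 0 := by
    refine Eq.trans ?_ hg
    rw [map_sum]
    refine Finset.sum_congr rfl fun i _ => ?_
    rw [IntermediateField.smul_def, smul_eq_mul, map_mul, hc i, hred i]
    rfl
  have hsum : ∑ i, c i • b i = 0 :=
    (h13sIncl A N).toRingHom.injective (hsum'.trans (map_zero _).symm)
  have h0 := Fintype.linearIndependent_iff.mp hb c hsum i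
  apply Subtype.ext
  rw [← hc i, h0]
  exact map_zero (h13sIncl A N)

end Fermat.Agent.P7
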