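import Fermat.Agent.P7.H66S0Norm
import Fermat.Agent.P7.H96DegSF
import Fermat.Agent.P7.H42ResIneq
import Fermat.Agent.P7.H73FullDeg

/-!
# Wave 7, DLOG at the non-good level, row H2-S0 (helper66): UNCONDITIONAL wire

* `h66s_fullDeg : H66sFullDeg` — full residue degree of the Gauss valuation of level
  `goodLevel p M` over the one of level `M` (helper96 (A), helper42 (B), helper73 (C)).
* `h66s_final_norm_mem`, `h66s_final_norm_unit`, `h66s_final_norm_red` — (D) without hypothesis:
  for `x ∈ softV A (goodLevel p M)` with `softR x = softR y`, `y ∈ softV A M`: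
  `normAlong (degen _) x ∈ softV A M` and `softR (normAlong (degen _) x) = (softR y) ^ d`,
  `d = finrankAlong Kbar (degen (dvd_goodLevel p M))`.
* `h66s_final_basis` — the family `b` itself.
-/

set_option autoImplicit false
set_option linter.unusedSectionVars false
set_option linter.style.haveILetI false
set_option linter.unusedVariables false

open AlgebraicCurve ModularCurve

noncomputable section

namespace Fermat.Agent.P7

open Fermat.Agent.S37 Fermat.Agent.Red.GV Fermat.Agent.Red.GV.Soft Fermat.Agent.Red.Desc
open Fermat.Agent.S21.C1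

/-- **(C) FULL-DEG**, unconditional. -/
theorem h66s_fullDeg : H66sFullDeg :=
  h73f_fullDeg h96a_degSF h42q_resIneq

variable {p : ℕ} (hp : p.Prime) (M : ℕ) [NeZero M] (hM : ¬ p ∣ M)
variable (A : ValuationSubring Kbar) (hA : A.LiesOverPrime p)

include hp hM hA in
/-- the family with full residue degree. -/
theorem h66s_final_basis :
    letI := algebraAlong (degen (dvd_goodLevel p M))
    ∃ b : Fin (finrankAlong Kbar (degen (dvd_goodLevel p M))) → FF (goodLevel p M),
      H87vInd (softRing A M hp hA) (softRing A (goodLevel p M) hp hA) b :=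
  h66s_fullDeg p hp M hM A hA

include hp hM hA in
/-- **(D) NORM-MEM**, unconditional. -/
theorem h66s_final_norm_mem (x : FF (goodLevel p M)) (hx : x ∈ softV A (goodLevel p M)) :
    Fermat.Agent.Red.KR.normAlong (degen (dvd_goodLevel p M)) x ∈ softV A M :=
  h66s_fd_norm_mem h66s_fullDeg hp M hM A hA x hx

include hp hM hA in
/-- **(D) NORM-UNIT**, unconditional. -/
theorem h66s_final_norm_unit (x : FF (goodLevel p M)) (hx : x ∈ softV A (goodLevel p M))
    (hx' : x⁻¹ ∈ softV A (goodLevel p M)) :
    Fermat.Agent.Red.KR.normAlong (degen (dvd_goodLevel p M)) x ∈ softV A M ∧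
      (Fermat.Agent.Red.KR.normAlong (degen (dvd_goodLevel p M)) x)⁻¹ ∈ softV A M :=
  h66s_fd_norm_unit h66s_fullDeg hp M hM A hA x hx hx'

include hp hM hA in
/-- **(D) NORM-RED**, unconditional. -/
theorem h66s_final_norm_red (x : FF (goodLevel p M)) (hx : x ∈ softV A (goodLevel p M))
    (y : softV A M) (hxy : softR A (goodLevel p M) ⟨x, hx⟩ = softR A M y) :
    ∃ hn : Fermat.Agent.Red.KR.normAlong (degen (dvd_goodLevel p M)) x ∈ softV A M,
      softR A M ⟨_, hn⟩ =
        softR A M y ^ finrankAlong Kbar (degen (dvd_goodLevel p M)) :=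
  h66s_fd_norm_red h66s_fullDeg hp M hM A hA x hx y hxy

end Fermat.Agent.P7
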