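import Fermat.Agent.P7.H93QInt
import Fermat.Agent.P7.H1S2

/-!
# Wave 7, DLOG at the level `M`, leaf INT / PS-INT, unconditional at the good levels
(helper93, prefix `h93q_`)

`N` a good level (`ℓ ∤ N`, `auxLevel ℓ ∣ N`), `A` over `ℓ`, `r` a reduction map of places
(`H13sIsRed A N r`), `Qoo` the `q`-order place of the special fibre, `voo` the `q`-order place
of `FF N`.  With (S2) `r voo = Qoo` (`h1i_s2`, helper1) the theorems of `P7/H93QInt.lean` become
unconditional: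

* `h93q_int_good` : a Gauss-integral function regular on the fibre `r ⁻¹ Qoo` has its
  `q`-expansion in `A[[q]]`;
* `h93q_int_unit_good` : a Gauss unit without zero or pole on the fibre has its `q`-expansion
  in `A[[q]]ˣ`;
* `h93q_int_pole_good` : a Gauss-integral function regular on the fibre off `voo` has its
  `q`-expansion in `A((q))`;
* `h93q_value_good`, `h93q_ord_jinv_good` : values in `A`, the order of `1 / j` on the fibre.
-/

set_option autoImplicit false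
set_option linter.style.haveILetI false
set_option linter.unusedSectionVars false

open HahnSeries ModularCurve AlgebraicCurve

noncomputable section

namespace Fermat.Agent.P7

open Fermat.Agent.S37 Fermat.Agent.Red.GV Fermat.Agent.P5

variable {N : ℕ} [NeZero N] {A : ValuationSubring Kbar} {ℓ : ℕ}

/-- the hypothesis `hoo` of `P7/H93QInt.lean` at a good level. -/
theorem h93q_hoo_good (hℓ : ℓ.Prime) (hN : ¬ ℓ ∣ N) (haux : auxLevel ℓ ∣ N)
    (hA : A.LiesOverPrime ℓ)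
    (r : Place Kbar (FF N) → Place (h13sK A) (h13sFt A N)) (hr : H13sIsRed A N r)
    (Qoo : Place (h13sK A) (h13sFt A N))
    (hQoo : ∀ f : h13sFt A N, f ≠ 0 → Qoo.ord f = (h13sIncl A N f).order)
    (voo : Place Kbar (FF N))
    (hvoo : ∀ f : FF N, f ≠ 0 → voo.ord f = (f : LaurentSeries Kbar).order) :
    r voo = Qoo ∧ ∀ f : h13sFt A N, f ≠ 0 → (r voo).ord f = (h13sIncl A N f).order := by
  have h := h1i_s2 ℓ hℓ N hN haux A hA r hr Qoo hQoo voo hvoo
  exact ⟨h, by rw [h]; exact hQoo⟩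

/-- **INT / PS-INT**, good level, unconditional. -/
theorem h93q_int_good (hℓ : ℓ.Prime) (hN : ¬ ℓ ∣ N) (haux : auxLevel ℓ ∣ N)
    (hA : A.LiesOverPrime ℓ)
    (r : Place Kbar (FF N) → Place (h13sK A) (h13sFt A N)) (hr : H13sIsRed A N r)
    (Qoo : Place (h13sK A) (h13sFt A N))
    (hQoo : ∀ f : h13sFt A N, f ≠ 0 → Qoo.ord f = (h13sIncl A N f).order)
    (voo : Place Kbar (FF N))
    (hvoo : ∀ f : FF N, f ≠ 0 → voo.ord f = (f : LaurentSeries Kbar).order)
    (y : FF N) (hy : y ∈ gaussV A N)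
    (hreg : ∀ v : Place Kbar (FF N), r v = Qoo → y ∈ v.toValuationSubring) :
    ∃ Y : LaurentSeries A, embA A Y = (y : LaurentSeries Kbar) ∧
      (∀ n : ℤ, n < 0 → Y.coeff n = 0) ∧
      gaussR A N ⟨y, hy⟩ = redA (IsLocalRing.residue A) Y := by
  obtain ⟨h1, h2⟩ := h93q_hoo_good hℓ hN haux hA r hr Qoo hQoo voo hvoo
  obtain ⟨Y, hY, hYn⟩ := h93q_int hℓ hN hA r hr voo hvoo h2 y hy
    (fun v hv => hreg v (hv.trans h1))
  exact ⟨Y, hY, hYn, gaussRed_of_embA A (IsLocalRing.residue A) N ⟨y, hy⟩ Y hY⟩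

/-- **INT / PS-INT for units**, good level, unconditional. -/
theorem h93q_int_unit_good (hℓ : ℓ.Prime) (hN : ¬ ℓ ∣ N) (haux : auxLevel ℓ ∣ N)
    (hA : A.LiesOverPrime ℓ)
    (r : Place Kbar (FF N) → Place (h13sK A) (h13sFt A N)) (hr : H13sIsRed A N r)
    (Qoo : Place (h13sK A) (h13sFt A N))
    (hQoo : ∀ f : h13sFt A N, f ≠ 0 → Qoo.ord f = (h13sIncl A N f).order)
    (voo : Place Kbar (FF N))
    (hvoo : ∀ f : FF N, f ≠ 0 → voo.ord f = (f : LaurentSeries Kbar).order)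
    (y : FF N) (hy0 : y ≠ 0) (hy : y ∈ gaussV A N) (hyi : y⁻¹ ∈ gaussV A N)
    (hord : ∀ v : Place Kbar (FF N), r v = Qoo → v.ord y = 0) :
    ∃ Y : LaurentSeries A, embA A Y = (y : LaurentSeries Kbar) ∧
      (∀ n : ℤ, n < 0 → Y.coeff n = 0) ∧ IsUnit (Y.coeff 0) ∧
      gaussR A N ⟨y, hy⟩ = redA (IsLocalRing.residue A) Y := by
  obtain ⟨h1, h2⟩ := h93q_hoo_good hℓ hN haux hA r hr Qoo hQoo voo hvoo
  obtain ⟨Y, hY, hYn, hYu⟩ := h93q_int_unit hℓ hN hA r hr voo hvoo h2 y hy0 hy hyi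
    (fun v hv => hord v (hv.trans h1))
  exact ⟨Y, hY, hYn, hYu, gaussRed_of_embA A (IsLocalRing.residue A) N ⟨y, hy⟩ Y hY⟩

/-- **INT with a pole at `voo`**, good level, unconditional. -/
theorem h93q_int_pole_good (hℓ : ℓ.Prime) (hN : ¬ ℓ ∣ N) (haux : auxLevel ℓ ∣ N)
    (hA : A.LiesOverPrime ℓ)
    (r : Place Kbar (FF N) → Place (h13sK A) (h13sFt A N)) (hr : H13sIsRed A N r)
    (Qoo : Place (h13sK A) (h13sFt A N))
    (hQoo : ∀ f : h13sFt A N, f ≠ 0 → Qoo.ord f = (h13sIncl A N f).order)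
    (voo : Place Kbar (FF N))
    (hvoo : ∀ f : FF N, f ≠ 0 → voo.ord f = (f : LaurentSeries Kbar).order)
    (y : FF N) (hy : y ∈ gaussV A N)
    (hreg : ∀ v : Place Kbar (FF N), r v = Qoo → v ≠ voo → y ∈ v.toValuationSubring) :
    ∃ Y : LaurentSeries A, embA A Y = (y : LaurentSeries Kbar) ∧
      gaussR A N ⟨y, hy⟩ = redA (IsLocalRing.residue A) Y := by
  obtain ⟨h1, h2⟩ := h93q_hoo_good hℓ hN haux hA r hr Qoo hQoo voo hvoo
  obtain ⟨Y, hY⟩ := h93q_int_pole hℓ hN hA r hr voo hvoo h2 y hy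
    (fun v hv hne => hreg v (hv.trans h1) hne)
  exact ⟨Y, hY, gaussRed_of_embA A (IsLocalRing.residue A) N ⟨y, hy⟩ Y hY⟩

/-- the value at `voo` of a Gauss-integral function regular on the fibre is in `A`. -/
theorem h93q_value_good (hℓ : ℓ.Prime) (hN : ¬ ℓ ∣ N) (haux : auxLevel ℓ ∣ N)
    (hA : A.LiesOverPrime ℓ)
    (r : Place Kbar (FF N) → Place (h13sK A) (h13sFt A N)) (hr : H13sIsRed A N r)
    (Qoo : Place (h13sK A) (h13sFt A N))
    (hQoo : ∀ f : h13sFt A N, f ≠ 0 → Qoo.ord f = (h13sIncl A N f).order)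
    (voo : Place Kbar (FF N))
    (hvoo : ∀ f : FF N, f ≠ 0 → voo.ord f = (f : LaurentSeries Kbar).order)
    (y : FF N) (hy : y ∈ gaussV A N)
    (hreg : ∀ v : Place Kbar (FF N), r v = Qoo → y ∈ v.toValuationSubring) :
    (y : LaurentSeries Kbar).coeff 0 ∈ A := by
  obtain ⟨h1, -⟩ := h93q_hoo_good hℓ hN haux hA r hr Qoo hQoo voo hvoo
  exact h93q_value_mem hℓ hN hA r hr voo hvoo y hy (fun v hv => hreg v (hv.trans h1))

/-- **DISC**: `voo` is the only zero of `1 / j` (the only cusp) in the fibre of `Qoo`, and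
`1 / j` has no pole there. -/
theorem h93q_ord_jinv_good (hℓ : ℓ.Prime) (hN : ¬ ℓ ∣ N) (haux : auxLevel ℓ ∣ N)
    (hA : A.LiesOverPrime ℓ)
    (r : Place Kbar (FF N) → Place (h13sK A) (h13sFt A N)) (hr : H13sIsRed A N r)
    (Qoo : Place (h13sK A) (h13sFt A N))
    (hQoo : ∀ f : h13sFt A N, f ≠ 0 → Qoo.ord f = (h13sIncl A N f).order)
    (voo : Place Kbar (FF N))
    (hvoo : ∀ f : FF N, f ≠ 0 → voo.ord f = (f : LaurentSeries Kbar).order)
    (v : Place Kbar (FF N)) (hv : r v = Qoo) (hne : v ≠ voo) :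
    v.ord (jB N)⁻¹ = 0 ∧ v.ord (jB N) = 0 := by
  obtain ⟨h1, h2⟩ := h93q_hoo_good hℓ hN haux hA r hr Qoo hQoo voo hvoo
  have h3 := h93q_ord_jinv_fibre hℓ hN hA r hr voo hvoo h2 v (hv.trans h1.symm) hne
  refine ⟨h3, ?_⟩
  rw [Place.ord_inv] at h3
  omega

end Fermat.Agent.P7
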