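import Fermat.Agent.P7.H1IntModel
import Fermat.Agent.P5.H58DictG
import Fermat.Agent.Red.GV.BarGalois
import Fermat.Agent.Red.GV.SoftGal
import Fermat.Agent.S24.DiffPlace

/-!
# Wave 7, DLOG at the level `M`, leaf INT(M) (helper93, prefix `h93m_`)

`M` ANY level prime to `ℓ`, `A` a valuation subring of `ℚ̄` over `ℓ`, `Q` the place `∞` of `FF M`
(`ord_Q = q`-order).

* `h93m_int` : a Gauss-integral function `f` of level `M` which is regular off `Q` has its
  `q`-expansion in `A((q))`;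
* `h93m_int_red` : its Gauss reduction is the coefficientwise reduction;
* `h93m_int_soft`, `h93m_int_soft_red` : the same for `softV`, `softR`.

Proof: for `n` large `(1/j) ^ n · f` is regular on the chart at infinity, hence lies in
`modelInf M A` (DICT-G, helper58), and the elements of `modelInf M A` have `A`-integral
`q`-expansions (`h1i_int`, helper1).
-/

set_option autoImplicit false
set_option linter.unusedSectionVars false
set_option linter.style.haveILetI false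

open AlgebraicCurve ModularCurve IsLocalRing

noncomputable section

namespace Fermat.Agent.P7

open Fermat.Agent.S37 Fermat.Agent.Red.GV Fermat.Agent.P5

variable {ℓ : ℕ} {M : ℕ} [NeZero M] {A : ValuationSubring Kbar}

theorem h93m_jK_ne_zero : jK Kbar ≠ 0 := by
  intro h
  have h1 := Fermat.Agent.S28.Asm.order_jqModC' Kbar
  have h2 : (jqModC Kbar) = 0 := h
  rw [h2, HahnSeries.order_zero] at h1
  omega

theorem h93m_jB_ne_zero : jB M ≠ 0 := by
  intro h
  apply h93m_jK_ne_zero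
  rw [← coe_jB (M := M), h]
  rfl

theorem h93m_ord_jinv (Q : Place Kbar (FF M))
    (hQ : ∀ f : FF M, f ≠ 0 → ((f : FF M) : LaurentSeries Kbar).order = Q.ord f) :
    Q.ord (jB M)⁻¹ = 1 := by
  rw [← hQ _ (inv_ne_zero h93m_jB_ne_zero)]
  have e : ((((jB M)⁻¹ : FF M)) : LaurentSeries Kbar) = (jK Kbar)⁻¹ := by
    rw [← coe_jB (M := M)]
    rfl
  rw [e]
  have h0 := h93m_jK_ne_zero
  have h1 : (jK Kbar)⁻¹ * jK Kbar = 1 := inv_mul_cancel₀ h0
  have h2 := HahnSeries.order_mul (inv_ne_zero h0) h0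
  rw [h1, HahnSeries.order_one] at h2
  have h3 : (jK Kbar).order = -1 := Fermat.Agent.S28.Asm.order_jqModC' Kbar
  rw [h3] at h2
  omega

/-- for `n` large, `(1/j) ^ n · f` lies in the chart at infinity. -/
theorem h93m_mem_modelInf (hℓ : ℓ.Prime) (hM : ¬ ℓ ∣ M) (hA : A.LiesOverPrime ℓ)
    (Q : Place Kbar (FF M))
    (hQ : ∀ f : FF M, f ≠ 0 → ((f : FF M) : LaurentSeries Kbar).order = Q.ord f)
    (f : FF M) (hfV : f ∈ gaussV A M)
    (hf : ∀ v : Place Kbar (FF M), v ≠ Q → f ∈ v.toValuationSubring)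
    (n : ℕ) (hn : 0 ≤ Q.ord f + n) :
    (jB M)⁻¹ ^ n * f ∈ modelInf M A := by
  have hj0 : jB M ≠ 0 := h93m_jB_ne_zero
  have htV : (jB M)⁻¹ ∈ gaussV A M := jB_inv_mem_gaussV A M hℓ hM hA
  have hgV : (jB M)⁻¹ ^ n * f ∈ gaussV A M := Subring.mul_mem _ (Subring.pow_mem _ htV n) hfV
  refine h58h_mem_modelInf_of_top M A hℓ hM hA hgV (h58h_regular_inf M _ (fun v hv => ?_))
  by_cases hvQ : v = Q
  · subst hvQ
    rcases eq_or_ne f 0 with rfl | hf0
    · rw [mul_zero]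
      exact v.toValuationSubring.zero_mem
    · apply Fermat.Agent.S24.DiffPlace.mem_of_ord_nonneg v
      rw [h58h_ord_pow_mul M v n (inv_ne_zero hj0) hf0, h93m_ord_jinv v hQ]
      omega
  · exact v.toValuationSubring.mul_mem _ _ (v.toValuationSubring.pow_mem hv n) (hf v hvQ)

/-- **INT(M)**: a Gauss-integral function of level `M` (ANY level prime to `ℓ`) which is
regular off the place `∞` has its `q`-expansion in `A((q))`. -/
theorem h93m_int (hℓ : ℓ.Prime) (hM : ¬ ℓ ∣ M) (hA : A.LiesOverPrime ℓ)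
    (Q : Place Kbar (FF M))
    (hQ : ∀ f : FF M, f ≠ 0 → ((f : FF M) : LaurentSeries Kbar).order = Q.ord f)
    (f : FF M) (hfV : f ∈ gaussV A M)
    (hf : ∀ v : Place Kbar (FF M), v ≠ Q → f ∈ v.toValuationSubring) :
    ∃ Y : LaurentSeries A, embA A Y = ((f : FF M) : LaurentSeries Kbar) := by
  obtain ⟨n, hn⟩ : ∃ n : ℕ, 0 ≤ Q.ord f + n := ⟨(-Q.ord f).toNat, by omega⟩
  obtain ⟨Y, hY⟩ := h1i_int ℓ hℓ M hM A hA _ (h93m_mem_modelInf hℓ hM hA Q hQ f hfV hf n hn)
  refine ⟨jqModC A ^ n * Y, ?_⟩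
  rw [map_mul, map_pow, embA_jqModC, hY]
  have e : (((jB M)⁻¹ ^ n * f : FF M) : LaurentSeries Kbar) =
      ((jK Kbar)⁻¹) ^ n * (f : LaurentSeries Kbar) := by
    rw [← coe_jB (M := M)]
    rfl
  rw [e, ← mul_assoc, ← mul_pow, mul_inv_cancel₀ h93m_jK_ne_zero, one_pow, one_mul]

/-- **INT(M)**, with the reduction: the Gauss reduction is the coefficientwise reduction. -/
theorem h93m_int_red (hℓ : ℓ.Prime) (hM : ¬ ℓ ∣ M) (hA : A.LiesOverPrime ℓ)
    (Q : Place Kbar (FF M))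
    (hQ : ∀ f : FF M, f ≠ 0 → ((f : FF M) : LaurentSeries Kbar).order = Q.ord f)
    (f : FF M) (hfV : f ∈ gaussV A M)
    (hf : ∀ v : Place Kbar (FF M), v ≠ Q → f ∈ v.toValuationSubring) :
    ∃ Y : LaurentSeries A, embA A Y = ((f : FF M) : LaurentSeries Kbar) ∧
      gaussR A M ⟨f, hfV⟩ = redA (IsLocalRing.residue A) Y := by
  obtain ⟨Y, hY⟩ := h93m_int hℓ hM hA Q hQ f hfV hf
  exact ⟨Y, hY, gaussRed_of_embA A (IsLocalRing.residue A) M ⟨f, hfV⟩ Y hY⟩

/-- **INT(M)**, soft form. -/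
theorem h93m_int_soft (hℓ : ℓ.Prime) (hM : ¬ ℓ ∣ M) (hA : A.LiesOverPrime ℓ)
    (Q : Place Kbar (FF M))
    (hQ : ∀ f : FF M, f ≠ 0 → ((f : FF M) : LaurentSeries Kbar).order = Q.ord f)
    (f : FF M) (hfV : f ∈ Fermat.Agent.Red.GV.Soft.softV A M)
    (hf : ∀ v : Place Kbar (FF M), v ≠ Q → f ∈ v.toValuationSubring) :
    ∃ Y : LaurentSeries A, embA A Y = ((f : FF M) : LaurentSeries Kbar) ∧
      Fermat.Agent.Red.GV.Soft.softR A M ⟨f, hfV⟩ = redA (IsLocalRing.residue A) Y := by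
  obtain ⟨Y, hY⟩ := h93m_int hℓ hM hA Q hQ f
    (Fermat.Agent.Red.GV.Soft.softV_le_gaussV A M hℓ hM hA hfV) hf
  exact ⟨Y, hY, Fermat.Agent.Red.GV.Soft.softR_of_embA A M ⟨f, hfV⟩ Y hY⟩

/-- **INT(M)**, order form of the regularity hypothesis. -/
theorem h93m_int_ord (hℓ : ℓ.Prime) (hM : ¬ ℓ ∣ M) (hA : A.LiesOverPrime ℓ)
    (Q : Place Kbar (FF M))
    (hQ : ∀ f : FF M, f ≠ 0 → ((f : FF M) : LaurentSeries Kbar).order = Q.ord f)
    (f : FF M) (hfV : f ∈ gaussV A M)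
    (hf : ∀ v : Place Kbar (FF M), v ≠ Q → 0 ≤ v.ord f) :
    ∃ Y : LaurentSeries A, embA A Y = ((f : FF M) : LaurentSeries Kbar) ∧
      gaussR A M ⟨f, hfV⟩ = redA (IsLocalRing.residue A) Y :=
  h93m_int_red hℓ hM hA Q hQ f hfV
    (fun v hv => Fermat.Agent.S24.DiffPlace.mem_of_ord_nonneg v (hf v hv))

/-- the constant coefficient of the product with a second `A`-integral series reduces to the
constant coefficient of the product of the reductions. -/
theorem h93m_coeff_red (Y Z : LaurentSeries A) (n : ℤ) :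
    ∃ x : A, (embA A Y * embA A Z).coeff n = (x : Kbar) ∧
      (redA (IsLocalRing.residue A) Y * redA (IsLocalRing.residue A) Z).coeff n =
        IsLocalRing.residue A x := by
  refine ⟨(Y * Z).coeff n, ?_, ?_⟩
  · rw [← map_mul]
    rfl
  · rw [← map_mul]
    rfl

end Fermat.Agent.P7
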