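import Fermat.Agent.Red.Desc.Degree

/-!
# Wave 7 (row 38), block (T), leaf DEG (helper98)

The degree `d = [F_{M⁺} : F_M]` of the function field of the good level `M⁺ = goodLevel p M`
(`= lcm (M, 4)` for odd `p`) over the function field of level `M` divides `6`; in particular it is
prime to every prime `p ≥ 5`.  This is the hypothesis `hcop` of block (A)
(`h89q_occ_plus`, `h89q_occ_plus'`).

* `h98m_psi_lcm_four` : `ψ(lcm (N, 4)) ∣ 6 ψ(N)` (Dedekind `ψ`).
* `h98m_deg_dvd_six` : `d ∣ 6` for `p ≠ 2`.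
* `h98m_deg_coprime` : `gcd(d, p) = 1` for a prime `p ≥ 5`.
-/

set_option autoImplicit false
set_option linter.style.haveILetI false

open AlgebraicCurve ModularCurve

noncomputable section

namespace Fermat.Agent.P7

open Fermat.Agent.S37 Fermat.Agent.S21.C1 Fermat.Agent.Red.Desc

theorem h98m_psi_four : dedekindPsi 4 = 6 := by
  have h := dedekindPsi_prime_pow (p := 2) (k := 2) Nat.prime_two (by norm_num)
  norm_num at h
  exact h

theorem h98m_psi_two : dedekindPsi 2 = 3 := by
  have h := dedekindPsi_prime_pow (p := 2) (k := 1) Nat.prime_two (by norm_num)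
  norm_num at h
  exact h

/-- `ψ(lcm (N, 4)) ∣ 6 ψ(N)`. -/
theorem h98m_psi_lcm_four (N : ℕ) (hN : N ≠ 0) :
    dedekindPsi (Nat.lcm N 4) ∣ 6 * dedekindPsi N := by
  obtain ⟨a, m, hm, rfl⟩ := Nat.exists_eq_two_pow_mul_odd hN
  have hc2 : Nat.Coprime 2 m := Nat.coprime_two_left.mpr hm
  have hcop : ∀ k : ℕ, Nat.Coprime (2 ^ k) m := fun k => Nat.Coprime.pow_left k hc2
  have hc4 : Nat.Coprime 4 m := by
    have := hcop 2
    norm_num at this
    exact this
  rcases Nat.lt_or_ge a 2 with ha | ha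
  · -- `a = 0` or `a = 1`: the lcm is `4 m`
    have hl : Nat.lcm (2 ^ a * m) 4 = 4 * m := by
      interval_cases a
      · simp only [pow_zero, one_mul]
        rw [Nat.lcm_comm]
        exact hc4.lcm_eq_mul
      · simp only [pow_one]
        have h1 : Nat.lcm (2 * m) 4 = Nat.lcm (2 * m) (2 * 2) := by norm_num
        rw [h1, Nat.lcm_mul_left]
        have h2 : Nat.lcm m 2 = 2 * m := by
          rw [Nat.lcm_comm]
          exact hc2.lcm_eq_mul
        rw [h2]
        ring
    rw [hl, dedekindPsi_mul hc4, h98m_psi_four]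
    interval_cases a
    · simp only [pow_zero, one_mul]
      exact dvd_rfl
    · simp only [pow_one]
      rw [dedekindPsi_mul hc2, h98m_psi_two]
      exact ⟨3, by ring⟩
  · -- `4 ∣ N`
    have h4 : 4 ∣ 2 ^ a * m := by
      have : (4 : ℕ) = 2 ^ 2 := by norm_num
      rw [this]
      exact Dvd.dvd.mul_right (pow_dvd_pow 2 ha) m
    rw [Nat.lcm_eq_left h4]
    exact Dvd.intro_left 6 rfl

/-- **DEG**: for `p ≠ 2` the degree of `F_{goodLevel p N}` over `F_N` divides `6`. -/
theorem h98m_deg_dvd_six {p : ℕ} (hp2 : p ≠ 2) (N : ℕ) [NeZero N] :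
    finrankAlong Kbar (degen (dvd_goodLevel p N)) ∣ 6 := by
  have h := (finrank_degen_mul N (goodLevel p N) (dvd_goodLevel p N)).2
  have hg : goodLevel p N = Nat.lcm N 4 := by
    unfold goodLevel auxLevel
    rw [if_neg hp2]
  have h6 := h98m_psi_lcm_four N (NeZero.ne N)
  rw [← hg, ← h] at h6
  exact Nat.dvd_of_mul_dvd_mul_right (h93_dedekindPsi_pos N) h6

/-- **DEG, coprime form**: for a prime `p ≥ 5` the degree of `F_{goodLevel p N}` over `F_N` is
prime to `p`. -/
theorem h98m_deg_coprime {p : ℕ} (hp : p.Prime) (hp5 : 5 ≤ p) (N : ℕ) [NeZero N] :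
    Nat.Coprime (finrankAlong Kbar (degen (dvd_goodLevel p N))) p := by
  have hp2 : p ≠ 2 := by omega
  have h6 := h98m_deg_dvd_six hp2 N
  rw [Nat.coprime_comm, Nat.Prime.coprime_iff_not_dvd hp]
  intro hd
  have h := hd.trans h6
  have hle := Nat.le_of_dvd (by norm_num) h
  clear hd h6
  interval_cases p
  · norm_num at h
  · norm_num at hp

/-- the degree is positive. -/
theorem h98m_deg_pos {p : ℕ} (hp2 : p ≠ 2) (N : ℕ) [NeZero N] :
    0 < finrankAlong Kbar (degen (dvd_goodLevel p N)) :=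
  Nat.pos_of_dvd_of_pos (h98m_deg_dvd_six hp2 N) (by norm_num)

end Fermat.Agent.P7
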