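import Fermat.Agent.P7.H37ConstM
import Fermat.Agent.P7.H37GapMCusp
import Fermat.Agent.P7.H26IntIface
import Fermat.Agent.P5.H88RedDivFinal

/-!
# Wave 7, block (A), route DLOG: hole (H1) closed modulo (S2) (helper37, prefix `h37k_`)

From helper26's frozen `(S2)` (`H26iS2`, `P7/H26IntIface.lean`: the reduction map of places sends
the `q`-order place of the generic fibre to the `q`-order place of the special fibre, at a good
level), for ANY level `N` prime to `p`:

* `h37k_const_S2` : CONST(N) (`H37nConst N A Q`);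
* `h37k_gap_S2` : DL4 at the level `N`: `Ω(LL(N))` is finite-dimensional of dimension
  `≤ dim S₂(Γ₀(N))`.
-/

set_option autoImplicit false
set_option linter.unusedSectionVars false
set_option linter.style.haveILetI false

open AlgebraicCurve ModularCurve IsLocalRing CongruenceSubgroup

noncomputable section

namespace Fermat.Agent.P7

open Fermat.Agent.S37 Fermat.Agent.Red.GV Fermat.Agent.P5

variable {p : ℕ} (N : ℕ) [NeZero N] (A : ValuationSubring Kbar)

/-- **CONST(N)** from `(S2)`. -/
theorem h37k_const_S2 (hS2 : H26iS2) (hp : p.Prime) (hN : ¬ p ∣ N) (hA : A.LiesOverPrime p)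
    (Q : Place Kbar (FF N))
    (hQ : ∀ f : FF N, f ≠ 0 → ((f : FF N) : LaurentSeries Kbar).order = Q.ord f) :
    H37nConst N A Q := by
  have hM : ¬ p ∣ goodLevel p N := not_dvd_goodLevel hp hN
  have haux : auxLevel p ∣ goodLevel p N := auxLevel_dvd_goodLevel p N
  obtain ⟨r, hr⟩ := h88r_redDiv p hp (goodLevel p N) hM haux A hA
  obtain ⟨cinf, hcinf⟩ := h37n_place_infty (goodLevel p N)
  obtain ⟨Qb, hQb⟩ := h37g_place_infty A (goodLevel p N)
  have h1 : r cinf = Qb :=
    hS2 p hp (goodLevel p N) hM haux A hA r hr Qb (fun f hf => (hQb f hf).symm) cinf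
      (fun f hf => (hcinf f hf).symm)
  refine h37k_const hp hN hA r hr Q hQ cinf hcinf (fun f hf => ?_)
  rw [h1]
  exact (hQb f hf).symm

/-- **DL4 at the level `N`** from `(S2)`. -/
theorem h37k_gap_S2 (hS2 : H26iS2) (hp : p.Prime) (hN : ¬ p ∣ N) (hA : A.LiesOverPrime p)
    (Q : Place Kbar (FF N))
    (hQ : ∀ f : FF N, f ≠ 0 → ((f : FF N) : LaurentSeries Kbar).order = Q.ord f) :
    Module.Finite (ResidueField A) (h26gOmega (h37nLL N A Q)) ∧
      Module.finrank (ResidueField A) (h26gOmega (h37nLL N A Q)) ≤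
        Module.finrank ℂ (CuspForm (Gamma0 N) 2) :=
  h37n_gap_cusp N A Q hp hN hA hQ (h37k_const_S2 N A hS2 hp hN hA Q hQ)

end Fermat.Agent.P7
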