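import Fermat.Agent.P7.H97IntAbs
import Fermat.Agent.P7.H26IntIface
import Fermat.Agent.P5.H72Arch
import Fermat.Agent.Red.GV.Asm1

/-!
# Wave 7 (S44), DLOG at the level `M`, leaf INT (helper97, prefix `h97q_`)

`h97q_int : H26iInt` (frozen Prop of `P7/H26IntIface.lean`, helper26): for `ℓ ∤ M` and `A` over
`ℓ`, every element of the chart at infinity `modelInf M A` has an `A`-integral `q`-expansion.

Proof (no zeros in the disc, no Weierstrass division): `x` = the `q`-expansion of `f`.
* `f` is Gauss-integral (`modelInf_le_gaussV`): `d₀ x ∈ A((q))` with `d₀ = Q(j) ≠ 0` in `A((q))`;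
* `x` is integral over `A[1/j] → A((q))` (`mem_modelInf_iff`);
* `A` is archimedean (`h72a_archQbar`), so `A((q))` is completely integrally closed in `ℚ̄((q))`
  (`h97q_abs`), which gives `x ∈ A((q))` (`h97q_int_abs`).
-/

set_option autoImplicit false
set_option linter.unusedSectionVars false
set_option linter.unusedVariables false
set_option linter.style.haveILetI false

open AlgebraicCurve ModularCurve

noncomputable section

namespace Fermat.Agent.P7

open Fermat.Agent.S37 Fermat.Agent.Red.GV Fermat.Agent.P5 Fermat.Agent.S28 Fermat.Agent.Red.GV.Asm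

/-- the image of `embA` lies in `h97qR`. -/
theorem h97q_embA_mem {K : Type} [Field K] (A : ValuationSubring K) (y : LaurentSeries A) :
    embA A y ∈ h97qR A := by
  intro n
  rw [h36_embA_coeff]
  exact (y.coeff n).2

/-- **INT**: the elements of the chart at infinity have `A`-integral `q`-expansions. -/
theorem h97q_int : H26iInt := by
  intro ℓ hℓ M _ hM A hA f hf
  have harch : H96Arch A := h72a_archQbar A ℓ hℓ hA
  have hfV : f ∈ gaussV A M := modelInf_le_gaussV A M hℓ hM hA hf
  obtain ⟨Q, hQ, y0, hy0⟩ := (mem_gaussV_iff A M f).mp hfV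
  have hint := (mem_modelInf_iff M A f).mp hf
  rw [exists_embA_eq_iff]
  refine h97q_int_abs A harch (evalA A (jK Kbar)⁻¹) ?_ _ (evalA A (jK Kbar) Q)
    (evalA_ne_zero A _ Q hQ) ?_ ?_ hint
  · intro s
    obtain ⟨tA, -, htA, -⟩ := exists_jinvA A (IsLocalRing.residue A)
    rw [← htA, ← embA_evalC]
    exact h97q_embA_mem A _
  · rw [← OTA_embA_jA]
    exact h97q_embA_mem A _
  · rw [← hy0]
    exact h97q_embA_mem A _

end Fermat.Agent.P7
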