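import Fermat.Agent.P7.H72DlogIn
import Fermat.Agent.P7.H3DlogFinal
import Fermat.Agent.P7.H10CuspOrthHcusp
import Fermat.Agent.P7.H37GapMS2
import Fermat.Agent.P7.H36S2OfInt
import Fermat.Agent.P7.H97Int
import Fermat.Agent.P7.H19OrthTop

/-!
# Wave 7 (row 38), block (A), DLOG route: TWO of the THREE level leaves are theorems
(helper99, prefix `h99w_`)

The final wirings `h3g_s44_of_leaves` (helper3) and `h72w_s44_of_three` (helper72) take three
level inputs CONST(M), CUSP-ORTH-RED, ORTH(M).  Two of them are now landed unconditionally: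

* **CONST(M)** : `h37k_const_S2` (helper37) fed with `(S2) = h36s_s2_of_int h97q_int`
  (helper36, helper97);
* **CUSP-ORTH-RED** : `h10x_hcusp` / `h10x_cuspOrthRed_gauss` (helper10).

This file states them in the exact shapes of the frozen leaf Props
(`H72wConst`, `H72wCusp`, `H3gConstM`, `H3gCuspRed`) and gives the frozen statement S44 from
**ORTH(M) alone**, in each of the three shapes in which ORTH(M) is being proved:

* `h99w_s44_of_orth72` : from `H72wOrth p` (helper72's shape, `dlog s ∈ Ω(M)`);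
* `h99w_s44_of_orthM` : from `H3gOrthM p` (helper3's primitive shape);
* `h99w_s44_of_orthNorm` : from `H19oOrthNormM p` (helper19's normalised shape).

Every declaration is a proved theorem; nothing is assumed.
-/

set_option autoImplicit false
set_option linter.unusedSectionVars false
set_option linter.unusedVariables false
set_option linter.style.haveILetI false
set_option synthInstance.maxHeartbeats 400000

open ModularCurve AlgebraicCurve IsLocalRing

noncomputable section

namespace Fermat.Agent.P7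

open Fermat.Agent.S37 Fermat.Agent.S35 Fermat.Agent.P6
open Fermat.Agent.Red Fermat.Agent.Red.GV Fermat.Agent.Red.GV.Soft
open Fermat.Agent.Jac.K1 (IsKummerPair)
open Fermat.Agent.P5 (h69vPull h13sK h13sFt h13sIncl h13sRed)

/-- **(S2)**, unconditional: the reduction of the cusp `∞` of a good level is the `q`-order
place of the special fibre. -/
theorem h99w_S2 : H26iS2 := h36s_s2_of_int h97q_int

/-- **CONST(M)**, unconditional, in helper72's shape. -/
theorem h99w_const72 (p : ℕ) : H72wConst p :=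
  fun hp _ M _ hM A hA Q hQ => h37k_const_S2 M A h99w_S2 hp hM hA Q hQ

/-- **CONST(M)**, unconditional, in helper3's shape. -/
theorem h99w_constM (p : ℕ) : H3gConstM p :=
  fun hp _ M _ hM A hA Q hQ => h37k_const_S2 M A h99w_S2 hp hM hA Q hQ

/-- **CUSP-ORTH-RED**, unconditional, in helper72's shape. -/
theorem h99w_cusp72 (p : ℕ) : H72wCusp p :=
  fun hp _ M _ hM A hA Q hQ => h10x_hcusp hp A hA M hM Q hQ

/-- **CUSP-ORTH-RED**, unconditional, in helper3's primitive shape. -/
theorem h99w_cuspRed (p : ℕ) : H3gCuspRed p := by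
  intro hp _ M _ hM A hA Q hQ f hf hreg w hw
  have h1 := (h10x_hcusp hp A hA M hM Q hQ w hw).2 (gaussR A M ⟨f, hf⟩)
    (Submodule.subset_span ⟨f, hf, hreg, rfl⟩)
  exact h1

/-- helper72's ORTH(M) from helper3's primitive ORTH(M). -/
theorem h99w_orth72_of_orthM {p : ℕ} (hO : H3gOrthM p) : H72wOrth p := by
  intro hp h5 M _ hpM
  haveI : NeZero p := ⟨hp.ne_zero⟩
  intro A hA Q hQ x u hxu hpure
  obtain ⟨s, hs, hOs⟩ := hO hp h5 M hpM A hA Q hQ x u hxu hpure
  have hs0 : s ≠ 0 := h3g_red_ne_zero hs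
  haveI : CharP (ResidueField A) p := h3g_charP A hp hA
  refine ⟨s, hs, ?_⟩
  apply h72w_orth_of (h37nLL M A Q) hs0
  · rw [h3g_log_coeff_zero hs0]
    obtain ⟨d, hd⟩ := h3g_order_dvd A hp hA M hpM u hpure hs
    rw [hd]
    push_cast
    rw [CharP.cast_eq_zero (ResidueField A) p, zero_mul]
  · intro f hf
    unfold h37nLL at hf
    induction hf using Submodule.span_induction with
    | mem y hy =>
      obtain ⟨f, hf, hreg, rfl⟩ := hy
      exact hOs f hf hreg
    | zero =>
      rw [zero_mul]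
      rfl
    | add a b _ _ ha hb => rw [add_mul, HahnSeries.coeff_add, ha, hb, add_zero]
    | smul c a _ ha =>
      rw [← HahnSeries.C_mul_eq_smul, mul_assoc, HahnSeries.C_mul_eq_smul,
        HahnSeries.coeff_smul, ha, smul_zero]

/-- **(I-2) DLOG** from ORTH(M) alone (helper72's shape). -/
theorem h99w_dlog_of_orth72 {p : ℕ} (hO : H72wOrth p) : H16tDlog p :=
  h72w_dlog (h99w_const72 p) (h99w_cusp72 p) hO

/-- **(I-2) DLOG** from ORTH(M) alone (helper3's shape). -/
theorem h99w_dlog_of_orthM {p : ℕ} (hO : H3gOrthM p) : H16tDlog p :=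
  h3g_dlog_of_leaves (h99w_constM p) (h99w_cuspRed p) hO

/-- **the frozen statement S44 from ORTH(M) alone**, helper72's shape `H72wOrth`. -/
theorem h99w_s44_of_orth72 (hO : ∀ p : ℕ, 5 ≤ p → H72wOrth p)
    (P : FreyPackage) {N : ℕ} (hcond : P.IsConductorLevel N) (hpN : P.p ∣ N)
    (hirr : WeierstrassCurve.Affine.Point.GaloisRepIsIrreducible (K := AlgebraicClosure ℚ) ℚ
      P.freyCurve P.p)
    (hmod : P.ModularRepOfLevel N) :
    ∃ M : ℕ, M ∣ N ∧ ¬ P.p ∣ M ∧ P.ModularRepOfLevel M :=
  h72w_s44_of_three (fun p _ => h99w_const72 p) (fun p _ => h99w_cusp72 p) hO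
    P hcond hpN hirr hmod

/-- **the frozen statement S44 from ORTH(M) alone**, helper3's primitive shape `H3gOrthM`. -/
theorem h99w_s44_of_orthM (hO : ∀ p : ℕ, 5 ≤ p → H3gOrthM p)
    (P : FreyPackage) {N : ℕ} (hcond : P.IsConductorLevel N) (hpN : P.p ∣ N)
    (hirr : WeierstrassCurve.Affine.Point.GaloisRepIsIrreducible (K := AlgebraicClosure ℚ) ℚ
      P.freyCurve P.p)
    (hmod : P.ModularRepOfLevel N) :
    ∃ M : ℕ, M ∣ N ∧ ¬ P.p ∣ M ∧ P.ModularRepOfLevel M :=
  h99w_s44_of_orth72 (fun p h5 => h99w_orth72_of_orthM (hO p h5)) P hcond hpN hirr hmod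

/-- **the frozen statement S44 from ORTH(M) alone**, helper19's normalised shape
`H19oOrthNormM`. -/
theorem h99w_s44_of_orthNorm (hO : ∀ p : ℕ, 5 ≤ p → H19oOrthNormM p)
    (P : FreyPackage) {N : ℕ} (hcond : P.IsConductorLevel N) (hpN : P.p ∣ N)
    (hirr : WeierstrassCurve.Affine.Point.GaloisRepIsIrreducible (K := AlgebraicClosure ℚ) ℚ
      P.freyCurve P.p)
    (hmod : P.ModularRepOfLevel N) :
    ∃ M : ℕ, M ∣ N ∧ ¬ P.p ∣ M ∧ P.ModularRepOfLevel M :=
  h99w_s44_of_orthM (fun p h5 => h19o_orthM_of_norm (hO p h5)) P hcond hpN hirr hmod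

end Fermat.Agent.P7
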