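import Fermat.Agent.P7.H38OrthBack
import Fermat.Agent.P7.H44OrthLift
import Fermat.Agent.P7.H31GoingUp
import Fermat.Agent.P7.H66S0Final
import Fermat.Agent.P7.H56SymFinal
import Fermat.Agent.P7.H93QIntGood
import Fermat.Agent.P7.H93QIntM
import Fermat.Agent.P7.H48Eval
import Fermat.Agent.P7.H19OrthTop
import Fermat.Agent.P7.H99TwoOfThree
import Fermat.Agent.P7.H37ConstM
import Fermat.Agent.P7.H98mDeg
import Fermat.Agent.P5.H88RedDivFinal

/-!
# Wave 7 (row 38), block (A), DLOG route: ORTH(M), the assembly (helper28, owner of A-DLOG)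

`h28o_orthNorm p : H19oOrthNormM p` (the normalised form of ORTH(M), `P7/H19OrthTop.lean`) from
the landed leaves:

* RED-DIV `h88r_redDiv` (helper88) and (S2) `h99w_S2`;
* SYM-LITE `h56s_symLiteUnit_final` (helper56);
* the exact lift `h44o_exact_lift` (helper44);
* DISC `h31d_degen_norm_ord_eq_zero` (helper31);
* PS-INT `h93q_int_unit_good` and INT(M) `h93m_int_ord` (helper93);
* NORM-RED `h66s_final_norm_red`, `h66s_final_norm_unit` (helper66);
* EVAL `h48e_eval_along` (helper48);
* the degree `h98m_deg_coprime` (helper98);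
* the back half `h38o_orth_back_pow` (helper38).

Consequences: `h28o_s44` = the frozen statement S44.

Every declaration is a proved theorem; nothing is assumed.
-/

set_option autoImplicit false
set_option linter.unusedSectionVars false
set_option linter.unusedVariables false
set_option linter.style.haveILetI false
set_option synthInstance.maxHeartbeats 400000
set_option maxHeartbeats 1600000

open AlgebraicCurve ModularCurve IsLocalRing

noncomputable section

namespace Fermat.Agent.P7

open Fermat.Agent.S37 Fermat.Agent.Red Fermat.Agent.Red.GV Fermat.Agent.Red.GV.Soft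
  Fermat.Agent.LGC Fermat.Agent.Jac.K1 Fermat.Agent.P5
open Fermat.Agent.Red.HKMod Fermat.Agent.Red.CH0

/-- **ORTH(M), normalised form.** -/
theorem h28o_orthNorm (p : ℕ) : H19oOrthNormM p := by
  intro hp h5 M _ hM A hA Q hQ y hy hg hy0 hyi hgi ho hpure f hf hreg
  classical
  haveI : Fact p.Prime := ⟨hp⟩
  haveI : CharP (ResidueField A) p := h3g_charP A hp hA
  have hd : M ∣ goodLevel p M := dvd_goodLevel p M
  have hN : ¬ p ∣ goodLevel p M := not_dvd_goodLevel hp hM
  have haux : auxLevel p ∣ goodLevel p M := auxLevel_dvd_goodLevel p M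
  haveI := Fermat.Agent.Red.HKMod.hasPrincipalDivisors_FF (goodLevel p M)
  obtain ⟨r, hr⟩ := h88r_redDiv p hp (goodLevel p M) hN haux A hA
  have hQ' : H52xIsQPlace M Q := fun f hf => (hQ f hf).symm
  -- the `q`-places of the good level
  obtain ⟨Qoo, hQoo⟩ := h26g_place_inf (A := A) (M := goodLevel p M)
  obtain ⟨voo, hvoo⟩ := h37n_place_infty (goodLevel p M)
  have hvoo' : ∀ f : FF (goodLevel p M), f ≠ 0 →
      voo.ord f = ((f : FF (goodLevel p M)) : LaurentSeries Kbar).order :=
    fun f hf => (hvoo f hf).symm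
  have hS2 : r voo = Qoo :=
    h99w_S2 p hp (goodLevel p M) hN haux A hA r hr Qoo hQoo voo hvoo'
  have hvooQ : voo.restrictAlong (degen hd) (isIntegral_degen hd) = Q :=
    h37k_restrict_infty hd Q voo hQ hvoo
  -- the reduction of `y` at the good level
  have hdy0 : degen hd y ≠ 0 :=
    fun h0 => hy0 ((map_eq_zero_iff _ (degen hd).toRingHom.injective).mp h0)
  have hone : gaussR A (goodLevel p M) ⟨degen hd y, hg⟩ *
      gaussR A (goodLevel p M) ⟨(degen hd y)⁻¹, hgi⟩ = 1 := by
    rw [← map_mul, ← map_one (gaussR A (goodLevel p M))]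
    congr 1
    apply Subtype.ext
    show degen hd y * (degen hd y)⁻¹ = 1
    exact mul_inv_cancel₀ hdy0
  have hs'0 : h13sRed A (goodLevel p M) ⟨degen hd y, hg⟩ ≠ 0 := by
    intro h0
    have h1 : gaussR A (goodLevel p M) ⟨degen hd y, hg⟩ = 0 := by
      have h2 := congrArg (h13sIncl A (goodLevel p M)) h0
      rw [map_zero] at h2
      exact h2
    rw [h1, zero_mul] at hone
    exact zero_ne_one hone
  -- the set `S` of the reductions of the places over `∞_M`
  have hSord : ∀ Q₁ ∈ (Place.fiberAlong (degen hd) (isIntegral_degen hd) Q).image r,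
      Q₁.ord (h13sRed A (goodLevel p M) ⟨degen hd y, hg⟩) = 0 := by
    intro Q₁ hQ₁
    obtain ⟨c, hc, rfl⟩ := Finset.mem_image.mp hQ₁
    have hc' := Place.mem_fiberAlong.mp hc
    have hgi' : degen hd y⁻¹ ∈ gaussV A (goodLevel p M) := by
      rw [map_inv₀]
      exact hgi
    exact h56s_symLiteUnit_final p hp M hM A hA r hr Q hQ' c hc' y hy hyi hg hgi' ho
  -- the exact lift
  obtain ⟨g', hg'V, hg'inv, hg'red, hg'off⟩ := h44o_exact_lift hp hN haux hA r hr
    (h13sRed A (goodLevel p M) ⟨degen hd y, hg⟩) hs'0 _ hSord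
  have hg'0 : g' ≠ 0 := by
    rintro rfl
    apply hs'0
    rw [← hg'red]
    apply (h13sIncl A (goodLevel p M)).toRingHom.injective
    show h13sIncl A (goodLevel p M) (h13sRed A (goodLevel p M) ⟨0, hg'V⟩) =
      h13sIncl A (goodLevel p M) 0
    rw [h13sIncl_red, map_zero]
    have e0 : (⟨0, hg'V⟩ : gaussV A (goodLevel p M)) = 0 := rfl
    rw [e0, map_zero]
    rfl
  have hoffS : ∀ c v : Place Kbar (FF (goodLevel p M)),
      c.restrictAlong (degen hd) (isIntegral_degen hd) = Q → r v = r c → v.ord g' = 0 := by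
    intro c v hc hvc
    by_contra hne
    apply hg'off v hne
    rw [hvc]
    exact Finset.mem_image.mpr ⟨c, Place.mem_fiberAlong.mpr hc, rfl⟩
  -- the norm
  have hg'S : g' ∈ softV A (goodLevel p M) := gaussV_le_softV A _ hg'V
  have hg'Si : g'⁻¹ ∈ softV A (goodLevel p M) := gaussV_le_softV A _ hg'inv
  have hyS : degen hd y ∈ softV A (goodLevel p M) := (degen_mem_softV_iff A hd y).mpr hy
  have e1 : gaussR A (goodLevel p M) ⟨g', hg'V⟩ =
      gaussR A (goodLevel p M) ⟨degen hd y, hg⟩ :=
    congrArg (h13sIncl A (goodLevel p M)) hg'red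
  have hxy : softR A (goodLevel p M) ⟨g', hg'S⟩ = softR A M ⟨y, hy⟩ := by
    rw [softR_eq_gaussR A (goodLevel p M) g' hg'S hg'V, e1,
      ← softR_eq_gaussR A (goodLevel p M) (degen hd y) hyS hg]
    exact softR_degen A hd ⟨y, hy⟩ hyS
  obtain ⟨hn, hnred⟩ := h66s_final_norm_red hp M hM A hA g' hg'S ⟨y, hy⟩ hxy
  obtain ⟨-, hninv⟩ := h66s_final_norm_unit hp M hM A hA g' hg'S hg'Si
  -- PS-INT for the norm
  have hs0 : softR A M ⟨y, hy⟩ ≠ 0 := by
    intro h2
    have h3 : softR A M ⟨y, hy⟩ * softR A M ⟨y⁻¹, hyi⟩ = 1 := by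
      rw [← map_mul, ← map_one (softR A M)]
      congr 1
      apply Subtype.ext
      show y * y⁻¹ = 1
      exact mul_inv_cancel₀ hy0
    rw [h2, zero_mul] at h3
    exact zero_ne_one h3
  have hG0 : Fermat.Agent.Red.KR.normAlong (degen hd) g' ≠ 0 := by
    intro h0
    have h1 : softR A M ⟨Fermat.Agent.Red.KR.normAlong (degen hd) g', hn⟩ = 0 := by
      have e0 : (⟨Fermat.Agent.Red.KR.normAlong (degen hd) g', hn⟩ : softV A M) = 0 :=
        Subtype.ext h0
      rw [e0, map_zero]
    rw [hnred] at h1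
    exact hs0 (IsReduced.eq_zero _ ⟨_, h1⟩)
  have hdG0 : degen hd (Fermat.Agent.Red.KR.normAlong (degen hd) g') ≠ 0 :=
    fun h0 => hG0 ((map_eq_zero_iff _ (degen hd).toRingHom.injective).mp h0)
  have hdGV : degen hd (Fermat.Agent.Red.KR.normAlong (degen hd) g') ∈
      gaussV A (goodLevel p M) :=
    softV_le_gaussV A (goodLevel p M) hp hN hA ((degen_mem_softV_iff A hd _).mpr hn)
  have hdGVi : (degen hd (Fermat.Agent.Red.KR.normAlong (degen hd) g'))⁻¹ ∈
      gaussV A (goodLevel p M) := by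
    rw [← map_inv₀]
    exact softV_le_gaussV A (goodLevel p M) hp hN hA ((degen_mem_softV_iff A hd _).mpr hninv)
  obtain ⟨b, hb, hbneg, hbunit, -⟩ := h93q_int_unit_good hp hN haux hA r hr Qoo hQoo voo hvoo'
    (degen hd (Fermat.Agent.Red.KR.normAlong (degen hd) g')) hdG0 hdGV hdGVi
    (fun v hv => h31d_degen_norm_ord_eq_zero hd hr g' hg'0 voo
      (fun c v' hc hv' => hoffS c v' (hc.trans hvooQ) hv') v (hv.trans hS2.symm))
  have hb' : embA A b =
      (((Fermat.Agent.Red.KR.normAlong (degen hd) g' : FF M)) : LaurentSeries Kbar) := by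
    rw [hb, coe_degen]
  -- the reduction of the norm
  have hsred : redA (residue A) b =
      HahnSeries.C (1 : ResidueField A) *
        softR A M ⟨y, hy⟩ ^ finrankAlong Kbar (degen hd) := by
    rw [map_one, one_mul, ← hnred]
    exact (softR_of_embA A M ⟨_, hn⟩ b hb').symm
  have hdk : ((finrankAlong Kbar (degen hd) : ℕ) : ResidueField A) ≠ 0 := by
    intro h0
    rw [CharP.cast_eq_zero_iff (ResidueField A) p] at h0
    have hc := h98m_deg_coprime hp h5 M
    exact (Nat.Prime.coprime_iff_not_dvd hp).mp hc.symm h0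
  -- INT for `f` and its values
  obtain ⟨a, ha, -⟩ := h93m_int_ord hp hM hA Q hQ f hf hreg
  have hfmem : ∀ v : Place Kbar (FF M), v ≠ Q → f ∈ v.toValuationSubring :=
    fun v hv => Fermat.Agent.S24.DiffPlace.mem_of_ord_nonneg _ (hreg v hv)
  have hval : ∀ v : Place Kbar (FF M), ∃ c : Kbar, v ≠ Q → ValueAt v f c := by
    intro v
    by_cases hv : v = Q
    · exact ⟨0, fun h => absurd hv h⟩
    · obtain ⟨c, hc⟩ := Fermat.Agent.Red.Match.exists_valueAt v (hfmem v hv)
      exact ⟨c, fun _ => hc⟩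
  choose fv hfv using hval
  -- the support of `div g'`
  obtain ⟨D, hD, -⟩ := HasPrincipalDivisors.exists_divisor (K := Kbar) g' hg'0
  have hfS : degen hd f ∈ gaussV A (goodLevel p M) :=
    softV_le_gaussV A (goodLevel p M) hp hN hA
      ((degen_mem_softV_iff A hd f).mpr (gaussV_le_softV A M hf))
  have hS2' : ∀ w : Place Kbar (FF (goodLevel p M)),
      w.restrictAlong (degen hd) (isIntegral_degen hd) ≠ Q → w.ord g' ≠ 0 →
        w ∈ D.support.filter
          (fun w => w.restrictAlong (degen hd) (isIntegral_degen hd) ≠ Q) := by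
    intro w hw hwg
    rw [Finset.mem_filter, Finsupp.mem_support_iff, hD w]
    exact ⟨hwg, hw⟩
  have hsum := h48e_eval_along A hp hN hA r hr (degen hd) (isIntegral_degen hd) Q f hreg fv hfv
    hfS g' hg'0 hg'V hg'inv (fun Q₁ => by rw [hg'red]; exact hpure Q₁)
    (fun w c hw hc hrc => hw (hoffS c w hc hrc.symm))
    (D.support.filter (fun w => w.restrictAlong (degen hd) (isIntegral_degen hd) ≠ Q)) hS2'
  exact h38o_orth_back_pow A hd Q hQ f hf hreg a ha fv hfv g' hg'0 b hb' hbneg hbunit
    (softR A M ⟨y, hy⟩) hs0 (finrankAlong Kbar (degen hd)) hdk 1 one_ne_zero hsred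
    (D.support.filter (fun w => w.restrictAlong (degen hd) (isIntegral_degen hd) ≠ Q))
    (fun w hw => (Finset.mem_filter.mp hw).2) hS2' hsum

/-- **ORTH(M)**, primitive form. -/
theorem h28o_orthM (p : ℕ) : H3gOrthM p := h19o_orthM_of_norm (h28o_orthNorm p)

/-- **(I-2) DLOG.** -/
theorem h28o_dlog (p : ℕ) : H16tDlog p := h99w_dlog_of_orthM (h28o_orthM p)

end Fermat.Agent.P7
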