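import Fermat.Agent.P7.H57NormRed
import Fermat.Agent.P7.H69RedHecke
import Fermat.Agent.P5.H88RedDivFinal

/-!
# Wave 7 (S40), block (5) TORIC, row T-ABEL-NORM (helper28): the Hecke correspondence on the
special fibre, divisor form

`A` a valuation subring of `ℚ̄` over the prime `p`, `M` a level prime to `p`, `ℓ ∤ M` a prime,
`r : Place ℚ̄ (FF M) → Place k (h13sFt A M)` a reduction map of places (`H13sIsRed A M r`,
landed at the good levels: `Fermat.Agent.P5.h88r_redDiv`), `T_ℓ u = Nm_α (β u)` the Hecke norm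
(`h57rT`, helper57), `heckeDivBar` the Hecke correspondence `α_* ∘ β^*` on divisors.

* `h28r_mapDomain_mem_closure` : the kernel of a push-forward of divisors along a map of places
  is generated by the differences of two places with the same image (pure `Finsupp`).
* `h28r_push_eq_zero_iff` : `r_* D = 0 ↔ D ∈ redKer M A`.
* `h28r_div_T` : `div (T_ℓ u) = T_ℓ (div u)` on the generic fibre.
* `h28r_push_hecke_congr` : `r_* D = r_* D' → r_* (T_ℓ D) = r_* (T_ℓ D')` (RED-HECKE of helper69),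
  so `T_ℓ` induces a correspondence `h28rTbar` on the divisors of the special fibre with
  `h28r_Tbar_push : T̄_ℓ (r_* D) = r_* (T_ℓ D)`.
* `h28r_div_red_T` (**RED-NORM, divisor form**) : for a Gauss unit `u`,
  `div (red (T_ℓ u)) = T̄_ℓ (div (red u))`.
* `h28r_slope_hecke` (**SLOPE-HECKE**, abstract form) : if `T̄ [S] ≡ d [S]` modulo `p` for a finite
  set `S` of places (`H28rStable`), and `E ≡ m [S]` modulo `p`, then `T̄ E ≡ d m [S]` modulo `p`;
  `h28r_slope_hecke_fun` is the same for `E = div (red u)`, `T̄ E = div (red (T_ℓ u))`.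

Everything is proved; `H28rStable` is a definition (the only input on the supersingular set that
the consumers have to supply: the correspondence maps `[S]` to `(ℓ + 1) [S]` modulo `p`).
-/

set_option autoImplicit false
set_option linter.style.haveILetI false
set_option linter.unusedSectionVars false

open AlgebraicCurve ModularCurve IsLocalRing

noncomputable section

namespace Fermat.Agent.P7

open Fermat.Agent.S37 Fermat.Agent.Red Fermat.Agent.Red.GV Fermat.Agent.Red.GV.Soft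
  Fermat.Agent.Red.TRK Fermat.Agent.Red.Kron Fermat.Agent.LGC Fermat.Agent.S35 Fermat.Agent.P5

/-! ### The kernel of a push-forward of divisors -/

section Finsupp

variable {α β : Type*}

/-- the kernel of `Finsupp.mapDomain r` is generated by the differences of two points with the
same image. -/
theorem h28r_mapDomain_mem_closure (r : α → β) (D : α →₀ ℤ)
    (h : Finsupp.mapDomain r D = 0) :
    D ∈ AddSubgroup.closure {E : α →₀ ℤ | ∃ v w : α, r v = r w ∧
      E = Finsupp.single v (1 : ℤ) - Finsupp.single w (1 : ℤ)} := by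
  classical
  rcases isEmpty_or_nonempty α with hα | hα
  · have : D = 0 := Finsupp.ext fun v => (hα.false v).elim
    rw [this]
    exact zero_mem _
  -- a section of `r` on its image
  let s : β → α := fun b => if hb : ∃ v, r v = b then hb.choose else Classical.arbitrary α
  have hs : ∀ v : α, r (s (r v)) = r v := by
    intro v
    have hb : ∃ w, r w = r v := ⟨v, rfl⟩
    simp only [s, dif_pos hb]
    exact hb.choose_spec
  set G : AddSubgroup (α →₀ ℤ) := AddSubgroup.closure {E : α →₀ ℤ | ∃ v w : α, r v = r w ∧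
      E = Finsupp.single v (1 : ℤ) - Finsupp.single w (1 : ℤ)} with hG
  have hzero : Finsupp.mapDomain (s ∘ r) D = 0 := by
    rw [Finsupp.mapDomain_comp, h, Finsupp.mapDomain_zero]
  have hsum : D - Finsupp.mapDomain (s ∘ r) D =
      D.sum fun v n => n • (Finsupp.single v (1 : ℤ) - Finsupp.single (s (r v)) (1 : ℤ)) := by
    have h1 : D = D.sum fun v n => Finsupp.single v n := (Finsupp.sum_single D).symm
    have h2 : Finsupp.mapDomain (s ∘ r) D = D.sum fun v n => Finsupp.single (s (r v)) n := rfl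
    conv_lhs => rw [h2]
    conv_lhs => lhs; rw [h1]
    rw [← Finsupp.sum_sub]
    refine Finsupp.sum_congr fun v _ => ?_
    rw [smul_sub, Finsupp.smul_single, Finsupp.smul_single, smul_eq_mul, mul_one]
  have hD : D = D.sum fun v n =>
      n • (Finsupp.single v (1 : ℤ) - Finsupp.single (s (r v)) (1 : ℤ)) := by
    rw [← hsum, hzero, sub_zero]
  rw [hD]
  refine AddSubgroup.sum_mem _ fun v _ => ?_
  refine AddSubgroup.zsmul_mem _ ?_ _
  exact AddSubgroup.subset_closure ⟨v, s (r v), (hs v).symm, rfl⟩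

end Finsupp

/-! ### `r_* D = 0 ↔ D ∈ redKer` -/

section Push

variable {A : ValuationSubring Kbar} {M : ℕ} [NeZero M]
  {r : Place Kbar (FF M) → Place (h13sK A) (h13sFt A M)}

theorem h28r_push_add (r : Place Kbar (FF M) → Place (h13sK A) (h13sFt A M))
    (D E : Divisor Kbar (FF M)) : h13sPush r (D + E) = h13sPush r D + h13sPush r E :=
  Finsupp.mapDomain_add

theorem h28r_push_zero (r : Place Kbar (FF M) → Place (h13sK A) (h13sFt A M)) :
    h13sPush r (0 : Divisor Kbar (FF M)) = 0 :=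
  Finsupp.mapDomain_zero

/-- the push-forward of divisors along `r`, as an additive map. -/
def h28rPushHom (r : Place Kbar (FF M) → Place (h13sK A) (h13sFt A M)) :
    Divisor Kbar (FF M) →+ Divisor (h13sK A) (h13sFt A M) where
  toFun := h13sPush r
  map_zero' := h28r_push_zero r
  map_add' := h28r_push_add r

@[simp]
theorem h28r_pushHom_apply (r : Place Kbar (FF M) → Place (h13sK A) (h13sFt A M))
    (D : Divisor Kbar (FF M)) : h28rPushHom r D = h13sPush r D := rfl

theorem h28r_push_single (r : Place Kbar (FF M) → Place (h13sK A) (h13sFt A M))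
    (v : Place Kbar (FF M)) (n : ℤ) :
    h13sPush r (Finsupp.single v n) = Finsupp.single (r v) n :=
  Finsupp.mapDomain_single

/-- **the kernel of the reduction of divisors is `redKer`.** -/
theorem h28r_push_eq_zero_iff (hr : H13sIsRed A M r) (D : Divisor Kbar (FF M)) :
    h13sPush r D = 0 ↔ D ∈ redKer M A := by
  constructor
  · intro h
    have hmem := h28r_mapDomain_mem_closure r D h
    refine (AddSubgroup.closure_le _).mpr ?_ hmem
    rintro E ⟨v, w, hvw, rfl⟩
    exact single_sub_single_mem_redKer ((hr.2.1 v w).mp hvw)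
  · intro h
    have hle : redKer M A ≤ (h28rPushHom r).ker := by
      refine (AddSubgroup.closure_le _).mpr ?_
      rintro E ⟨v, w, hvw, rfl⟩
      show h28rPushHom r _ = 0
      rw [map_sub, h28r_pushHom_apply, h28r_pushHom_apply, h28r_push_single, h28r_push_single,
        (hr.2.1 v w).mpr hvw, sub_self]
    exact hle h

theorem h28r_push_eq_iff (hr : H13sIsRed A M r) (D D' : Divisor Kbar (FF M)) :
    h13sPush r D = h13sPush r D' ↔ D - D' ∈ redKer M A := by
  rw [← h28r_push_eq_zero_iff hr]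
  have h : h13sPush r (D - D') = h13sPush r D - h13sPush r D' := map_sub (h28rPushHom r) D D'
  rw [h, sub_eq_zero]

/-- the reduction of divisors is surjective. -/
theorem h28r_push_surjective (hr : H13sIsRed A M r) :
    Function.Surjective (h13sPush r) := by
  intro E
  exact Finsupp.mapDomain_surjective hr.1 E

end Push

/-! ### `div (T_ℓ u) = T_ℓ (div u)` -/

section DivT

variable (N ℓ : ℕ) [NeZero N] [NeZero ℓ]

/-- **the divisor of the Hecke norm** is the Hecke correspondence of the divisor. -/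
theorem h28r_div_T (hα : HeckeAlphaBarIntegral Kbar N ℓ) (hβ : HeckeBetaBarIntegral Kbar N ℓ)
    [HasPrincipalDivisors Kbar (FF (N * ℓ))]
    (hfin : FiniteAlong Kbar (heckeAlphaBar Kbar N ℓ))
    (hNF : NormFormulaAlong Kbar (heckeAlphaBar Kbar N ℓ) hfin)
    (u : FF N) (hu : u ≠ 0) (D : Divisor Kbar (FF N)) (hD : ∀ v, D v = v.ord u)
    (v : Place Kbar (FF N)) :
    heckeDivBar hα hβ D v = v.ord (h57rT N ℓ u) := by
  have hβu : heckeBetaBar Kbar N ℓ u ≠ 0 := by
    intro h0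
    exact hu ((map_eq_zero _).mp h0)
  -- the pull-back along `β`
  have hpull : ∀ w : Place Kbar (FF (N * ℓ)),
      Divisor.pullbackAlong (heckeBetaBar Kbar N ℓ) hβ D w = w.ord (heckeBetaBar Kbar N ℓ u) := by
    intro w
    letI := algebraAlong (heckeBetaBar Kbar N ℓ)
    haveI := isScalarTower_along (heckeBetaBar Kbar N ℓ)
    haveI := isIntegral_along (heckeBetaBar Kbar N ℓ) hβ
    exact Divisor.pullback_apply_eq_ord hD w
  -- the norm formula along `α`
  letI := algebraAlong (heckeAlphaBar Kbar N ℓ)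
  haveI := isScalarTower_along (heckeAlphaBar Kbar N ℓ)
  haveI := isIntegral_along (heckeAlphaBar Kbar N ℓ) hα
  haveI : Module.Finite (FF N) (FF (N * ℓ)) := hfin
  exact hNF (heckeBetaBar Kbar N ℓ u) hβu _ hpull v

end DivT

/-! ### The Hecke norm of a Gauss unit, at a level prime to `p` -/

section Unit

variable (A : ValuationSubring Kbar) (M ℓ : ℕ) [NeZero M] [NeZero ℓ]

/-- `T_ℓ` preserves the Gauss valuation ring of a level prime to `p`. -/
theorem h28r_T_mem_gaussV {p : ℕ} (hp : p.Prime) (hpM : ¬ p ∣ M) (hA : A.LiesOverPrime p)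
    (hℓ : ℓ.Prime) (hM : ¬ ℓ ∣ M) (u : FF M) (hu : u ∈ gaussV A M) :
    h57rT M ℓ u ∈ gaussV A M := by
  haveI : NeZero ((ℓ : ℕ) : Kbar) := ⟨by exact_mod_cast NeZero.ne ℓ⟩
  obtain ⟨ζ₀, hζ₀⟩ := HasEnoughRootsOfUnity.exists_primitiveRoot Kbar ℓ
  obtain ⟨ζ, hζ⟩ := h44g_exists_unit_of_pow_eq_one A hℓ.ne_zero hζ₀.pow_eq_one
  rw [← hζ] at hζ₀
  have hu' : u ∈ softV A M := gaussV_le_softV A M hu
  obtain ⟨h1, -⟩ := h57r_T_red A M ℓ hp hA hℓ hM ζ hζ₀ u hu'
  exact softV_le_gaussV A M hp hpM hA h1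

/-- `T_ℓ` preserves the Gauss units of a level prime to `p`. -/
theorem h28r_T_unit {p : ℕ} (hp : p.Prime) (hpM : ¬ p ∣ M) (hA : A.LiesOverPrime p)
    (hℓ : ℓ.Prime) (hM : ¬ ℓ ∣ M) (u : FF M) (hu0 : u ≠ 0) (hu : h13sUnit A M u) :
    h13sUnit A M (h57rT M ℓ u) := by
  refine ⟨h28r_T_mem_gaussV A M ℓ hp hpM hA hℓ hM u hu.1, ?_⟩
  rw [← h57r_T_inv M ℓ u hu0]
  exact h28r_T_mem_gaussV A M ℓ hp hpM hA hℓ hM u⁻¹ hu.2

end Unit

/-! ### RED-NORM, divisor form -/

section RedNorm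

variable (A : ValuationSubring Kbar) (M ℓ : ℕ) [NeZero M] [NeZero ℓ]
  {r : Place Kbar (FF M) → Place (h13sK A) (h13sFt A M)}

/-- **RED-NORM, divisor form (generic-fibre side)**: for a Gauss unit `u` of a level prime to `p`,
the divisor of the reduction of `T_ℓ u` is the reduction of `T_ℓ (div u)`. -/
theorem h28r_div_red_T {p : ℕ} (hp : p.Prime) (hpM : ¬ p ∣ M) (hA : A.LiesOverPrime p)
    (hℓ : ℓ.Prime) (hM : ¬ ℓ ∣ M)
    (hα : HeckeAlphaBarIntegral Kbar M ℓ) (hβ : HeckeBetaBarIntegral Kbar M ℓ)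
    [HasPrincipalDivisors Kbar (FF (M * ℓ))]
    (hfin : FiniteAlong Kbar (heckeAlphaBar Kbar M ℓ))
    (hNF : NormFormulaAlong Kbar (heckeAlphaBar Kbar M ℓ) hfin)
    (hr : H13sIsRed A M r) (u : FF M) (hu0 : u ≠ 0) (hu : h13sUnit A M u)
    (D : Divisor Kbar (FF M)) (hD : ∀ v, D v = v.ord u) :
    ∃ hT : h57rT M ℓ u ∈ gaussV A M,
      ∀ Q : Place (h13sK A) (h13sFt A M),
        h13sPush r (heckeDivBar hα hβ D) Q = Q.ord (h13sRed A M ⟨h57rT M ℓ u, hT⟩) := by
  obtain ⟨hT, hT'⟩ := h28r_T_unit A M ℓ hp hpM hA hℓ hM u hu0 hu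
  refine ⟨hT, fun Q => ?_⟩
  exact hr.2.2 (h57rT M ℓ u) hT hT' (heckeDivBar hα hβ D)
    (fun v => h28r_div_T M ℓ hα hβ hfin hNF u hu0 D hD v) Q

/-- **the Hecke correspondence is compatible with the reduction of divisors** (RED-HECKE). -/
theorem h28r_push_hecke_congr {p : ℕ} (hp : p.Prime) (hpM : ¬ p ∣ M) (hA : A.LiesOverPrime p)
    (hℓ : ℓ.Prime) (hM : ¬ ℓ ∣ M)
    (hα : HeckeAlphaBarIntegral Kbar M ℓ) (hβ : HeckeBetaBarIntegral Kbar M ℓ)
    [HasPrincipalDivisors Kbar (FF (M * ℓ))]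
    (hr : H13sIsRed A M r) (D D' : Divisor Kbar (FF M))
    (h : h13sPush r D = h13sPush r D') :
    h13sPush r (heckeDivBar hα hβ D) = h13sPush r (heckeDivBar hα hβ D') := by
  rw [h28r_push_eq_iff hr] at h ⊢
  rw [← map_sub]
  exact h69w_heckeDivBar_mem hp hpM hℓ hM A hA hα hβ h

end RedNorm

/-! ### The Hecke correspondence on the divisors of the special fibre -/

section Tbar

variable (A : ValuationSubring Kbar) (M ℓ : ℕ) [NeZero M] [NeZero ℓ]
  {r : Place Kbar (FF M) → Place (h13sK A) (h13sFt A M)}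

/-- a lift of a divisor of the special fibre. -/
def h28rLift (hr : H13sIsRed A M r) (E : Divisor (h13sK A) (h13sFt A M)) :
    Divisor Kbar (FF M) :=
  (h28r_push_surjective hr E).choose

theorem h28r_push_lift (hr : H13sIsRed A M r) (E : Divisor (h13sK A) (h13sFt A M)) :
    h13sPush r (h28rLift A M hr E) = E :=
  (h28r_push_surjective hr E).choose_spec

/-- **the Hecke correspondence `T̄_ℓ` on the divisors of the special fibre** (level prime to `p`):
`T̄_ℓ (r_* D) = r_* (T_ℓ D)`. -/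
def h28rTbar {p : ℕ} (hp : p.Prime) (hpM : ¬ p ∣ M) (hA : A.LiesOverPrime p)
    (hℓ : ℓ.Prime) (hM : ¬ ℓ ∣ M)
    (hα : HeckeAlphaBarIntegral Kbar M ℓ) (hβ : HeckeBetaBarIntegral Kbar M ℓ)
    [HasPrincipalDivisors Kbar (FF (M * ℓ))] (hr : H13sIsRed A M r) :
    Divisor (h13sK A) (h13sFt A M) →+ Divisor (h13sK A) (h13sFt A M) where
  toFun E := h13sPush r (heckeDivBar hα hβ (h28rLift A M hr E))
  map_zero' := by
    have h := h28r_push_hecke_congr A M ℓ hp hpM hA hℓ hM hα hβ hr (h28rLift A M hr 0) 0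
      (by rw [h28r_push_lift, h28r_push_zero])
    rw [h, map_zero, h28r_push_zero]
  map_add' E E' := by
    have h := h28r_push_hecke_congr A M ℓ hp hpM hA hℓ hM hα hβ hr (h28rLift A M hr (E + E'))
      (h28rLift A M hr E + h28rLift A M hr E')
      (by rw [h28r_push_lift, h28r_push_add, h28r_push_lift, h28r_push_lift])
    rw [h, map_add, h28r_push_add]

/-- `T̄_ℓ (r_* D) = r_* (T_ℓ D)`. -/
theorem h28r_Tbar_push {p : ℕ} (hp : p.Prime) (hpM : ¬ p ∣ M) (hA : A.LiesOverPrime p)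
    (hℓ : ℓ.Prime) (hM : ¬ ℓ ∣ M)
    (hα : HeckeAlphaBarIntegral Kbar M ℓ) (hβ : HeckeBetaBarIntegral Kbar M ℓ)
    [HasPrincipalDivisors Kbar (FF (M * ℓ))] (hr : H13sIsRed A M r)
    (D : Divisor Kbar (FF M)) :
    h28rTbar A M ℓ hp hpM hA hℓ hM hα hβ hr (h13sPush r D) =
      h13sPush r (heckeDivBar hα hβ D) :=
  h28r_push_hecke_congr A M ℓ hp hpM hA hℓ hM hα hβ hr _ _ (h28r_push_lift A M hr _)

/-- **RED-NORM, divisor form (special-fibre side)**: for a Gauss unit `u` of a level prime to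
`p`, `div (red (T_ℓ u)) = T̄_ℓ (div (red u))`. -/
theorem h28r_div_red_T_bar {p : ℕ} (hp : p.Prime) (hpM : ¬ p ∣ M) (hA : A.LiesOverPrime p)
    (hℓ : ℓ.Prime) (hM : ¬ ℓ ∣ M)
    (hα : HeckeAlphaBarIntegral Kbar M ℓ) (hβ : HeckeBetaBarIntegral Kbar M ℓ)
    [HasPrincipalDivisors Kbar (FF (M * ℓ))]
    (hfin : FiniteAlong Kbar (heckeAlphaBar Kbar M ℓ))
    (hNF : NormFormulaAlong Kbar (heckeAlphaBar Kbar M ℓ) hfin)
    (hr : H13sIsRed A M r) (u : FF M) (hu0 : u ≠ 0) (hu : h13sUnit A M u)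
    (E : Divisor (h13sK A) (h13sFt A M))
    (hE : ∀ Q : Place (h13sK A) (h13sFt A M), E Q = Q.ord (h13sRed A M ⟨u, hu.1⟩)) :
    ∃ hT : h57rT M ℓ u ∈ gaussV A M,
      ∀ Q : Place (h13sK A) (h13sFt A M),
        h28rTbar A M ℓ hp hpM hA hℓ hM hα hβ hr E Q = Q.ord (h13sRed A M ⟨h57rT M ℓ u, hT⟩) := by
  haveI := Fermat.Agent.Red.HKMod.hasPrincipalDivisors_FF M
  obtain ⟨D, hD, -⟩ := HasPrincipalDivisors.exists_divisor (K := Kbar) u hu0
  obtain ⟨hT, hTQ⟩ := h28r_div_red_T A M ℓ hp hpM hA hℓ hM hα hβ hfin hNF hr u hu0 hu D hD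
  refine ⟨hT, fun Q => ?_⟩
  have hED : E = h13sPush r D := by
    ext Q
    rw [hE Q]
    exact (hr.2.2 u hu.1 hu.2 D hD Q).symm
  rw [hED, h28r_Tbar_push, hTQ Q]

end Tbar

/-! ### SLOPE-HECKE, abstract form -/

section Slope

variable {P : Type*}

/-- the reduced divisor `[S] = ∑_{e ∈ S} e`. -/
def h28rInd (S : Finset P) : P →₀ ℤ := ∑ e ∈ S, Finsupp.single e (1 : ℤ)

theorem h28r_ind_apply [DecidableEq P] (S : Finset P) (Q : P) :
    h28rInd S Q = if Q ∈ S then 1 else 0 := by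
  classical
  unfold h28rInd
  rw [Finsupp.finsetSum_apply]
  simp only [Finsupp.single_apply]
  rw [Finset.sum_ite_eq' S Q]

/-- **the stability of the set `S` under the correspondence `Tb`, modulo `p`**:
`Tb [S] ≡ d [S]`.  (For the supersingular set and `Tb = T̄_ℓ`: `d = ℓ + 1`, because every
`ℓ`-isogeny neighbour of a supersingular point is supersingular.) -/
def H28rStable (Tb : (P →₀ ℤ) →+ (P →₀ ℤ)) (S : Finset P) (p d : ℕ) : Prop :=
  ∀ Q : P, (p : ℤ) ∣ Tb (h28rInd S) Q - (d : ℤ) * h28rInd S Q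

/-- **SLOPE-HECKE (abstract)**: if `Tb [S] ≡ d [S]` and `E ≡ m [S]` modulo `p`, then
`Tb E ≡ d m [S]` modulo `p`. -/
theorem h28r_slope_hecke (Tb : (P →₀ ℤ) →+ (P →₀ ℤ)) (S : Finset P) (p d : ℕ) (hp : p ≠ 0)
    (hS : H28rStable Tb S p d) (E : P →₀ ℤ) (m : ℤ)
    (hE : ∀ Q : P, (p : ℤ) ∣ E Q - m * h28rInd S Q) (Q : P) :
    (p : ℤ) ∣ Tb E Q - (d : ℤ) * m * h28rInd S Q := by
  classical
  -- `E = m [S] + p E''`
  have hp' : (p : ℤ) ≠ 0 := by exact_mod_cast hp
  let E'' : P →₀ ℤ := Finsupp.onFinset (E.support ∪ (h28rInd S).support)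
    (fun Q => (E Q - m * h28rInd S Q) / p) (by
      intro Q hQ
      by_contra hmem
      rw [Finset.mem_union, not_or, Finsupp.notMem_support_iff,
        Finsupp.notMem_support_iff] at hmem
      apply hQ
      rw [hmem.1, hmem.2, mul_zero, sub_zero, Int.zero_ediv])
  have hE'' : E = m • h28rInd S + (p : ℤ) • E'' := by
    ext Q
    rw [Finsupp.add_apply, Finsupp.smul_apply, Finsupp.smul_apply, smul_eq_mul, smul_eq_mul,
      Finsupp.onFinset_apply, Int.mul_ediv_cancel' (hE Q)]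
    ring
  have hT : Tb E Q = m * Tb (h28rInd S) Q + (p : ℤ) * Tb E'' Q := by
    conv_lhs => rw [hE'']
    rw [map_add, map_zsmul, map_zsmul, Finsupp.add_apply, Finsupp.smul_apply,
      Finsupp.smul_apply, smul_eq_mul, smul_eq_mul]
  obtain ⟨c, hc⟩ := hS Q
  refine ⟨m * c + Tb E'' Q, ?_⟩
  rw [hT]
  linear_combination m * hc

/-- the same with `Tb E` given by its values. -/
theorem h28r_slope_hecke' (Tb : (P →₀ ℤ) →+ (P →₀ ℤ)) (S : Finset P) (p d : ℕ) (hp : p ≠ 0)
    (hS : H28rStable Tb S p d) (E : P →₀ ℤ) (m : ℤ)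
    (hE : ∀ Q : P, (p : ℤ) ∣ E Q - m * h28rInd S Q)
    (o : P → ℤ) (ho : ∀ Q, Tb E Q = o Q) (Q : P) :
    (p : ℤ) ∣ o Q - (d : ℤ) * m * h28rInd S Q := by
  rw [← ho Q]
  exact h28r_slope_hecke Tb S p d hp hS E m hE Q

end Slope

/-! ### SLOPE-HECKE for the reduction of a Gauss unit -/

section SlopeFun

variable (A : ValuationSubring Kbar) (M ℓ : ℕ) [NeZero M] [NeZero ℓ]
  {r : Place Kbar (FF M) → Place (h13sK A) (h13sFt A M)}

/-- **SLOPE-HECKE (function form, level prime to `p`)**: `u` a Gauss unit whose reduction has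
orders `≡ m` on `S` and `≡ 0` off `S` modulo `p`; `S` stable under `T̄_ℓ` with multiplier `d`.
Then the reduction of `T_ℓ u` has orders `≡ d m` on `S` and `≡ 0` off `S`. -/
theorem h28r_slope_hecke_fun {p : ℕ} (hp : p.Prime) (hpM : ¬ p ∣ M) (hA : A.LiesOverPrime p)
    (hℓ : ℓ.Prime) (hM : ¬ ℓ ∣ M)
    (hα : HeckeAlphaBarIntegral Kbar M ℓ) (hβ : HeckeBetaBarIntegral Kbar M ℓ)
    [HasPrincipalDivisors Kbar (FF (M * ℓ))]
    (hfin : FiniteAlong Kbar (heckeAlphaBar Kbar M ℓ))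
    (hNF : NormFormulaAlong Kbar (heckeAlphaBar Kbar M ℓ) hfin)
    (hr : H13sIsRed A M r) (S : Finset (Place (h13sK A) (h13sFt A M))) (d : ℕ)
    (hS : H28rStable (h28rTbar A M ℓ hp hpM hA hℓ hM hα hβ hr) S p d)
    (u : FF M) (hu0 : u ≠ 0) (hu : h13sUnit A M u) (m : ℤ)
    (hm : ∀ Q : Place (h13sK A) (h13sFt A M),
      (p : ℤ) ∣ Q.ord (h13sRed A M ⟨u, hu.1⟩) - m * h28rInd S Q) :
    ∃ hT : h57rT M ℓ u ∈ gaussV A M,
      ∀ Q : Place (h13sK A) (h13sFt A M),
        (p : ℤ) ∣ Q.ord (h13sRed A M ⟨h57rT M ℓ u, hT⟩) - (d : ℤ) * m * h28rInd S Q := by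
  haveI := Fermat.Agent.Red.HKMod.hasPrincipalDivisors_FF M
  obtain ⟨D, hD, -⟩ := HasPrincipalDivisors.exists_divisor (K := Kbar) u hu0
  have hE : ∀ Q : Place (h13sK A) (h13sFt A M),
      h13sPush r D Q = Q.ord (h13sRed A M ⟨u, hu.1⟩) := fun Q => hr.2.2 u hu.1 hu.2 D hD Q
  obtain ⟨hT, hTQ⟩ := h28r_div_red_T_bar A M ℓ hp hpM hA hℓ hM hα hβ hfin hNF hr u hu0 hu
    (h13sPush r D) hE
  refine ⟨hT, fun Q => ?_⟩
  exact h28r_slope_hecke' _ S p d hp.ne_zero hS (h13sPush r D) m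
    (fun Q' => by rw [hE Q']; exact hm Q') _ hTQ Q

end SlopeFun

end Fermat.Agent.P7
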