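import Fermat.Agent.P5.H13SFIface
import Fermat.Agent.P5.H71RepAbs
import Fermat.Agent.P5.H13GBase
import Fermat.Agent.Red.GV.SoftGal
import Fermat.Agent.Red.Nz.Main
import Fermat.Agent.S24.DiffPlace

/-!
# Wave 7, DLOG at the non-good level `M`: CONST(M) from the disc over the `q`-order place
(helper29, prefix `h29q_`; step (S3) of finding 1462, conditional on (S1) + (S2))

`M ∣ M⁺`, `p ∤ M⁺`, `r` the reduction map of places at level `M⁺`, `Q∞` the `q`-order place of the
special fibre at level `M⁺`, `∞⁺` / `∞_M` the `q`-order places of `FF M⁺` / `FF M`.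

Hypotheses on the fibre `R∞ = r⁻¹(Q∞)`:
* `hS2 : r ∞⁺ = Q∞`;
* `hS1` : every `v ∈ R∞`, `v ≠ ∞⁺`, is unramified over `FF M` and does not lie over `∞_M`;
* `hS1i` : `v ↦ v|_{FF M}` is injective on `R∞ ∖ {∞⁺}`.

Conclusion `h29q_const` : a Gauss-integral `f ∈ FF M`, regular off `∞_M`, whose reduction is a
power series, has constant reduction.
-/

set_option autoImplicit false

open AlgebraicCurve ModularCurve

noncomputable section

namespace Fermat.Agent.P7

open Fermat.Agent.S37 Fermat.Agent.Red.GV Fermat.Agent.Red.GV.Soft Fermat.Agent.P5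

/-- a nonzero Laurent series whose coefficients of index `≤ 0` vanish has order `≥ 1`. -/
theorem h29q_one_le_order {k : Type*} [Field k] (s : LaurentSeries k) (hs : s ≠ 0)
    (h : ∀ n : ℤ, n ≤ 0 → s.coeff n = 0) : 1 ≤ s.order := by
  by_contra hlt
  have h1 : s.order ≤ 0 := by omega
  exact hs (HahnSeries.coeff_order_eq_zero.mp (h _ h1))

/-- a sum over a finset of integers, nonnegative off `a`, restricted to a subset avoiding `a`. -/
theorem h29q_sum_le {α : Type*} [DecidableEq α] (E : α →₀ ℤ) (a : α)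
    (hnn : ∀ w, w ≠ a → 0 ≤ E w) (S : Finset α) (hS : ∀ w ∈ S, w ≠ a) :
    ∑ w ∈ S, E w ≤ (∑ w ∈ E.support, E w) - E a := by
  have h1 : ∑ w ∈ S, E w = ∑ w ∈ S.filter (fun w => w ∈ E.support), E w := by
    rw [Finset.sum_filter]
    refine Finset.sum_congr rfl fun w _ => ?_
    split_ifs with hw
    · rfl
    · exact Finsupp.notMem_support_iff.mp hw
  have h2 : ∑ w ∈ S.filter (fun w => w ∈ E.support), E w ≤ ∑ w ∈ E.support.erase a, E w := by
    refine Finset.sum_le_sum_of_subset_of_nonneg ?_ ?_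
    · intro w hw
      rw [Finset.mem_filter] at hw
      exact Finset.mem_erase.mpr ⟨hS w hw.1, hw.2⟩
    · intro w hw _
      exact hnn w (Finset.ne_of_mem_erase hw)
  have h3 : ∑ w ∈ E.support.erase a, E w = (∑ w ∈ E.support, E w) - E a := by
    by_cases ha : a ∈ E.support
    · rw [Finset.sum_erase_eq_sub ha]
    · rw [Finset.erase_eq_of_notMem ha, Finsupp.notMem_support_iff.mp ha, sub_zero]
  rw [h1]
  exact h2.trans h3.le

/-- **CONST(M)**, step (S3) of finding 1462, from (S1) + (S2). -/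
theorem h29q_const {p : ℕ} (hp : p.Prime) {M Mp : ℕ} [NeZero M] [NeZero Mp] (h : M ∣ Mp)
    (hMp : ¬ p ∣ Mp) (A : ValuationSubring Kbar) (hA : A.LiesOverPrime p)
    (hint : (degen h).toRingHom.IsIntegral)
    (hB : H13rBase Kbar (FF M)) (hBp : H13rBase Kbar (FF Mp))
    (r : Place Kbar (FF Mp) → Place (h13sK A) (h13sFt A Mp)) (hr : H13sIsRed A Mp r)
    (Qoo : Place (h13sK A) (h13sFt A Mp))
    (hQ : ∀ y : h13sFt A Mp, y ≠ 0 → Qoo.ord y = (h13sIncl A Mp y).order)
    (ooM : Place Kbar (FF M))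
    (hooM : ∀ f : FF M, f ≠ 0 → ooM.ord f = ((f : FF M) : LaurentSeries Kbar).order)
    (ooP : Place Kbar (FF Mp))
    (hooP : ∀ f : FF Mp, f ≠ 0 → ooP.ord f = ((f : FF Mp) : LaurentSeries Kbar).order)
    (hS2 : r ooP = Qoo)
    (hS1 : ∀ v : Place Kbar (FF Mp), r v = Qoo → v ≠ ooP →
      Place.ramificationIndexAlong (degen h) v = 1 ∧ v.restrictAlong (degen h) hint ≠ ooM)
    (hS1i : ∀ v v' : Place Kbar (FF Mp), r v = Qoo → r v' = Qoo → v ≠ ooP → v' ≠ ooP →
      v.restrictAlong (degen h) hint = v'.restrictAlong (degen h) hint → v = v')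
    (f : FF M) (hf : f ∈ gaussV A M)
    (hreg : ∀ w : Place Kbar (FF M), w ≠ ooM → 0 ≤ w.ord f)
    (hord : 0 ≤ (gaussR A M ⟨f, hf⟩).order) :
    ∃ c : IsLocalRing.ResidueField A, gaussR A M ⟨f, hf⟩ = HahnSeries.C c := by
  classical
  have hM : ¬ p ∣ M := fun hd => hMp (hd.trans h)
  obtain ⟨a, ha⟩ := IsLocalRing.residue_surjective ((gaussR A M ⟨f, hf⟩).coeff 0)
  have haV : cst M (a : Kbar) ∈ gaussV A M := Fermat.Agent.Red.Nz.h89_cst_mem_gaussV a
  have hf'V : f - cst M (a : Kbar) ∈ gaussV A M := sub_mem hf haV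
  have hred' : gaussR A M ⟨f - cst M (a : Kbar), hf'V⟩ =
      gaussR A M ⟨f, hf⟩ - HahnSeries.C ((gaussR A M ⟨f, hf⟩).coeff 0) := by
    have e : (⟨f - cst M (a : Kbar), hf'V⟩ : gaussV A M) =
        ⟨f, hf⟩ - ⟨cst M (a : Kbar), haV⟩ := rfl
    rw [e, map_sub, Fermat.Agent.Red.Nz.h89_gaussR_cst a haV, ha]
  by_cases hz : gaussR A M ⟨f - cst M (a : Kbar), hf'V⟩ = 0
  · refine ⟨(gaussR A M ⟨f, hf⟩).coeff 0, ?_⟩
    rw [hred', sub_eq_zero] at hz
    exact hz
  exfalso
  -- the order of the reduction of `f' = f - a` is at least `1`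
  have hs1ord : 1 ≤ (gaussR A M ⟨f - cst M (a : Kbar), hf'V⟩).order := by
    refine h29q_one_le_order _ hz (fun n hn => ?_)
    rw [hred', HahnSeries.coeff_sub]
    rcases hn.lt_or_eq with hlt | rfl
    · rw [HahnSeries.coeff_eq_zero_of_lt_order (lt_of_lt_of_le hlt hord)]
      have : (HahnSeries.C ((gaussR A M ⟨f, hf⟩).coeff 0) :
          LaurentSeries (IsLocalRing.ResidueField A)).coeff n = 0 :=
        HahnSeries.coeff_single_of_ne (ne_of_lt hlt)
      rw [this, sub_zero]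
    · have : (HahnSeries.C ((gaussR A M ⟨f, hf⟩).coeff 0) :
          LaurentSeries (IsLocalRing.ResidueField A)).coeff 0 = (gaussR A M ⟨f, hf⟩).coeff 0 :=
        HahnSeries.coeff_single_same 0 _
      rw [this, sub_self]
  -- `f'` is a Gauss unit
  have hf'0 : f - cst M (a : Kbar) ≠ 0 := by
    intro h0
    apply hz
    have e : (⟨f - cst M (a : Kbar), hf'V⟩ : gaussV A M) = 0 := Subtype.ext h0
    rw [e, map_zero]
  have hf'i : (f - cst M (a : Kbar))⁻¹ ∈ gaussV A M := by
    by_contra hni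
    exact hz ((gaussR_eq_zero_iff A M hp hM hA ⟨f - cst M (a : Kbar), hf'V⟩).mpr (Or.inr hni))
  -- `F = degen f'`
  have hf'S : f - cst M (a : Kbar) ∈ softV A M := gaussV_le_softV A M hf'V
  have hFS : degen h (f - cst M (a : Kbar)) ∈ softV A Mp := (degen_mem_softV_iff A h _).mpr hf'S
  have hFV : degen h (f - cst M (a : Kbar)) ∈ gaussV A Mp := softV_le_gaussV A Mp hp hMp hA hFS
  have hFiS : (degen h (f - cst M (a : Kbar)))⁻¹ ∈ softV A Mp := by
    rw [← map_inv₀]
    exact (degen_mem_softV_iff A h _).mpr (gaussV_le_softV A M hf'i)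
  have hFiV : (degen h (f - cst M (a : Kbar)))⁻¹ ∈ gaussV A Mp :=
    softV_le_gaussV A Mp hp hMp hA hFiS
  have hredF : gaussR A Mp ⟨degen h (f - cst M (a : Kbar)), hFV⟩ =
      gaussR A M ⟨f - cst M (a : Kbar), hf'V⟩ := by
    rw [← softR_eq_gaussR A Mp _ hFS hFV, softR_degen A h ⟨f - cst M (a : Kbar), hf'S⟩ hFS,
      softR_eq_gaussR A M _ hf'S hf'V]
  have hF0 : degen h (f - cst M (a : Kbar)) ≠ 0 := (map_ne_zero (degen h)).mpr hf'0
  -- RED-DIV
  obtain ⟨D, hD, -⟩ := hBp.pd (degen h (f - cst M (a : Kbar))) hF0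
  have hpush := hr.2.2 (degen h (f - cst M (a : Kbar))) hFV hFiV D hD Qoo
  have hredne : h13sRed A Mp ⟨degen h (f - cst M (a : Kbar)), hFV⟩ ≠ 0 := by
    intro h0
    have h1 := congrArg (h13sIncl A Mp) h0
    rw [h13sIncl_red, map_zero, hredF] at h1
    exact hz h1
  have hQord : Qoo.ord (h13sRed A Mp ⟨degen h (f - cst M (a : Kbar)), hFV⟩) =
      (gaussR A M ⟨f - cst M (a : Kbar), hf'V⟩).order := by
    rw [hQ _ hredne, h13sIncl_red]
    exact congrArg HahnSeries.order hredF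
  have hsum : (∑ v ∈ D.support, if r v = Qoo then D v else 0) =
      (gaussR A M ⟨f - cst M (a : Kbar), hf'V⟩).order := by
    rw [← h71r_push_apply r D Qoo]
    exact hpush.trans hQord
  -- the divisor at level `M`
  obtain ⟨E, hE, hEdeg⟩ := hB.pd (f - cst M (a : Kbar)) hf'0
  rw [h13g_degree_eq_sum hB.deg_one] at hEdeg
  have hEnn : ∀ w : Place Kbar (FF M), w ≠ ooM → 0 ≤ E w := by
    intro w hw
    rw [hE w]
    refine Fermat.Agent.S24.DiffPlace.ord_nonneg_of_mem w ?_
    exact sub_mem (Fermat.Agent.S24.DiffPlace.mem_of_ord_nonneg w (hreg w hw))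
      (w.algebraMap_mem' (a : Kbar))
  -- the value at `∞⁺`
  have hDoo : D ooP = E ooM := by
    rw [hD ooP, hE ooM, hooP _ hF0, hooM _ hf'0, coe_degen]
  -- the other places of the fibre
  have hDv : ∀ v : Place Kbar (FF Mp), r v = Qoo → v ≠ ooP →
      D v = E (v.restrictAlong (degen h) hint) := by
    intro v hv hne
    rw [hD v, hE _, Place.ord_restrictAlong (degen h) hint v, (hS1 v hv hne).1, Nat.cast_one,
      one_mul]
  set T : Finset (Place Kbar (FF Mp)) :=
    (D.support.filter (fun v => r v = Qoo)).erase ooP with hT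
  have hsplit : (∑ v ∈ D.support, if r v = Qoo then D v else 0) =
      D ooP + ∑ v ∈ T, D v := by
    rw [← Finset.sum_filter]
    by_cases hmem : ooP ∈ D.support.filter (fun v => r v = Qoo)
    · rw [hT, Finset.add_sum_erase _ _ hmem]
    · have h0 : D ooP = 0 := by
        by_contra hne
        exact hmem (Finset.mem_filter.mpr ⟨Finsupp.mem_support_iff.mpr hne, hS2⟩)
      rw [hT, Finset.erase_eq_of_notMem hmem, h0, zero_add]
  have hTsum : ∑ v ∈ T, D v ≤ (∑ w ∈ E.support, E w) - E ooM := by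
    have hTmem : ∀ v ∈ T, r v = Qoo ∧ v ≠ ooP := by
      intro v hv
      rw [hT, Finset.mem_erase, Finset.mem_filter] at hv
      exact ⟨hv.2.2, hv.1⟩
    have h1 : ∑ v ∈ T, D v = ∑ v ∈ T, E (v.restrictAlong (degen h) hint) :=
      Finset.sum_congr rfl fun v hv => hDv v (hTmem v hv).1 (hTmem v hv).2
    have hinj : Set.InjOn (fun v : Place Kbar (FF Mp) => v.restrictAlong (degen h) hint)
        (T : Set (Place Kbar (FF Mp))) := by
      intro v hv v' hv' hvv'
      exact hS1i v v' (hTmem v hv).1 (hTmem v' hv').1 (hTmem v hv).2 (hTmem v' hv').2 hvv'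
    have h2 : ∑ v ∈ T, E (v.restrictAlong (degen h) hint) =
        ∑ w ∈ T.image (fun v : Place Kbar (FF Mp) => v.restrictAlong (degen h) hint), E w :=
      (Finset.sum_image hinj).symm
    rw [h1, h2]
    refine h29q_sum_le E ooM hEnn _ ?_
    intro w hw
    obtain ⟨v, hv, rfl⟩ := Finset.mem_image.mp hw
    exact (hS1 v (hTmem v hv).1 (hTmem v hv).2).2
  have hfin : (gaussR A M ⟨f - cst M (a : Kbar), hf'V⟩).order ≤ 0 := by
    rw [← hsum, hsplit, hDoo]
    have := hTsum
    rw [hEdeg] at this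
    linarith
  omega

end Fermat.Agent.P7
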