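import Fermat.Agent.P5.H29DictS
import Fermat.Agent.P5.H57DiscGauss
import Fermat.Agent.P5.H71Rep
import Fermat.Agent.P7.H26DlogGapLevel

/-!
# Wave 7, DLOG at the non-good level: the fibre of the reduction map over the `q`-order place
(helper29, prefix `h29q_`; steps (S1a), (S1b), (S1c) of finding 1462 / msg 9867, UNCONDITIONAL)

`M` a good level (`ℓ ∤ M`, `auxLevel ℓ ∣ M` is NOT needed here), `A` over `ℓ`, `r` a reduction map
of places (`H13sIsRed A M r`), `Q` a place of the special fibre with `ord_Q = q`-order.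

* `h29q_S1a` : every place `v` with `r v = Q` is non-finite.
* `h29q_S1c` : if `r v = Q` and `1/j` takes the value `c` at `v`, then `ord_v (1/j - c) = 1`.
* `h29q_S1b` : two places of the fibre at which `1/j` takes the same value are equal.

Proof: RED-DIV for the Gauss unit `1/j - c` (`c ∈ 𝔪_A`), whose reduction `1/j~` has `q`-order `1`.
-/

set_option autoImplicit false
set_option linter.unusedSectionVars false

open AlgebraicCurve ModularCurve

noncomputable section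

namespace Fermat.Agent.P7

open Fermat.Agent.S37 Fermat.Agent.Red.GV Fermat.Agent.Red.Match Fermat.Agent.P5

/-- two distinct points of a fibre on which `D ≥ 0`. -/
theorem h29q_push_ge_two {α β : Type*} (r : α → β) (D : α →₀ ℤ) (b : β)
    (hD : ∀ a, r a = b → 0 ≤ D a) (a0 a1 : α) (h01 : a0 ≠ a1) (ha0 : r a0 = b)
    (ha1 : r a1 = b) : D a0 + D a1 ≤ Finsupp.mapDomain r D b := by
  classical
  rw [h71r_push_apply]
  have hg : ∀ a, 0 ≤ (if r a = b then D a else 0) := by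
    intro a
    split_ifs with h
    · exact hD a h
    · exact le_rfl
  have h1 : ∑ a ∈ D.support, (if r a = b then D a else 0) =
      ∑ a ∈ D.support ∪ {a0, a1}, (if r a = b then D a else 0) := by
    refine Finset.sum_subset Finset.subset_union_left ?_
    intro a _ ha
    rw [Finsupp.notMem_support_iff.mp ha]
    split_ifs <;> rfl
  have h2 : ∑ a ∈ ({a0, a1} : Finset α), (if r a = b then D a else 0) ≤
      ∑ a ∈ D.support ∪ {a0, a1}, (if r a = b then D a else 0) :=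
    Finset.sum_le_sum_of_subset_of_nonneg Finset.subset_union_right (fun a _ _ => hg a)
  rw [h1]
  refine le_trans (le_of_eq ?_) h2
  rw [Finset.sum_pair h01, if_pos ha0, if_pos ha1]

variable {ℓ : ℕ} {M : ℕ} [NeZero M] {A : ValuationSubring Kbar}
  {r : Place Kbar (FF M) → Place (h13sK A) (h13sFt A M)}

/-- the order of `j~` at the `q`-order place is `-1`. -/
theorem h29q_ord_J (Q : Place (h13sK A) (h13sFt A M))
    (hQ : ∀ y : h13sFt A M, y ≠ 0 → Q.ord y = (h13sIncl A M y).order) :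
    Q.ord (h82sJ A M) = -1 := by
  have hincl : h13sIncl A M (h82sJ A M) = jqModC (IsLocalRing.ResidueField A) := by
    show h13sIncl A M (h13sRed A M ⟨jB M, jB_mem_gaussV A M⟩) = _
    rw [h13sIncl_red]
    exact gaussR_jB A M
  have hord : (h13sIncl A M (h82sJ A M)).order = -1 := by
    rw [hincl]
    exact Fermat.Agent.S28.Asm.order_jqModC' _
  have hne : h82sJ A M ≠ 0 := by
    intro h0
    have hz : (h13sIncl A M (0 : h13sFt A M)).order = 0 := by
      rw [map_zero]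
      exact HahnSeries.order_zero
    rw [h0] at hord
    omega
  rw [hQ _ hne]
  exact hord

/-- **(S1a)** the fibre over the `q`-order place consists of non-finite places. -/
theorem h29q_S1a (hℓ : ℓ.Prime) (hM : ¬ ℓ ∣ M) (hA : A.LiesOverPrime ℓ)
    (hr : H13sIsRed A M r) (Q : Place (h13sK A) (h13sFt A M))
    (hQ : ∀ y : h13sFt A M, y ≠ 0 → Q.ord y = (h13sIncl A M y).order)
    (v : Place Kbar (FF M)) (hv : r v = Q) : ¬ IsFinAt A v := by
  intro hfin
  have h1 := (h82s_fin_iff hℓ hM hA hr (h40r_base_FF M) v).mp hfin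
  rw [hv, h29q_ord_J Q hQ] at h1
  omega

/-- the core: the divisor of `1/j - c` on the fibre. -/
theorem h29q_S1_core (hℓ : ℓ.Prime) (hM : ¬ ℓ ∣ M) (hA : A.LiesOverPrime ℓ)
    (hr : H13sIsRed A M r) (Q : Place (h13sK A) (h13sFt A M))
    (hQ : ∀ y : h13sFt A M, y ≠ 0 → Q.ord y = (h13sIncl A M y).order)
    (v : Place Kbar (FF M)) (hv : r v = Q) (c : Kbar) (hc : ValueAt v (jB M)⁻¹ c) :
    (jB M)⁻¹ - cst M c ≠ 0 ∧
    ∃ D : Divisor Kbar (FF M), (∀ w, D w = w.ord ((jB M)⁻¹ - cst M c)) ∧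
      (∀ w, r w = Q → 0 ≤ D w) ∧ Finsupp.mapDomain r D Q = 1 := by
  classical
  have hB : H13rBase Kbar (FF M) := h40r_base_FF M
  have hnf : ¬ IsFinAt A v := h29q_S1a hℓ hM hA hr Q hQ v hv
  -- `c ∈ 𝔪_A`
  obtain ⟨b, hb, hvb⟩ := exists_valueAt_inv_of_not_isFinAt hnf
  have hcb : c = b := Fermat.Agent.Red.Match.valueAt_unique hc hvb
  subst hcb
  have hcA : c ∈ A := (ValuationSubring.mem_nonunits_iff_exists_mem_maximalIdeal.1 hb).1
  have hjiV : (jB M)⁻¹ ∈ gaussV A M := jB_inv_mem_gaussV A M hℓ hM hA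
  have hcV : cst M c ∈ gaussV A M := (cst_mem_gaussV_iff A M hA c).mpr hcA
  have hyV : (jB M)⁻¹ - cst M c ∈ gaussV A M := sub_mem hjiV hcV
  have hred : h13sRed A M ⟨(jB M)⁻¹ - cst M c, hyV⟩ = (h82sJ A M)⁻¹ := by
    rw [h57k_red_sub_cst hℓ hM hA (jB M)⁻¹ hjiV c hb hyV, h82s_red_inv hℓ hM hA]
  have hJord : Q.ord (h82sJ A M) = -1 := h29q_ord_J Q hQ
  have hJne : h82sJ A M ≠ 0 := by
    intro h0
    rw [h0, Place.ord_zero] at hJord
    omega
  have hredne : h13sRed A M ⟨(jB M)⁻¹ - cst M c, hyV⟩ ≠ 0 := by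
    rw [hred]
    exact inv_ne_zero hJne
  have hgR : gaussR A M ⟨(jB M)⁻¹ - cst M c, hyV⟩ ≠ 0 := by
    intro h0
    apply hredne
    have : h13sIncl A M (h13sRed A M ⟨(jB M)⁻¹ - cst M c, hyV⟩) = 0 := by
      rw [h13sIncl_red]
      exact h0
    exact (map_eq_zero_iff (h13sIncl A M) (h13sIncl A M).injective).mp this
  have hy0 : (jB M)⁻¹ - cst M c ≠ 0 := by
    intro h0
    apply hgR
    have e : (⟨(jB M)⁻¹ - cst M c, hyV⟩ : gaussV A M) = 0 := Subtype.ext h0
    rw [e, map_zero]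
  have hyi : ((jB M)⁻¹ - cst M c)⁻¹ ∈ gaussV A M := by
    by_contra hni
    exact hgR ((gaussR_eq_zero_iff A M hℓ hM hA ⟨(jB M)⁻¹ - cst M c, hyV⟩).mpr (Or.inr hni))
  obtain ⟨D, hD, -⟩ := hB.pd _ hy0
  have hpush := hr.2.2 _ hyV hyi D hD Q
  refine ⟨hy0, D, hD, ?_, ?_⟩
  · intro w hw
    have hwnf : ¬ IsFinAt A w := h29q_S1a hℓ hM hA hr Q hQ w hw
    obtain ⟨b', -, hwb'⟩ := exists_valueAt_inv_of_not_isFinAt hwnf
    rw [hD w]
    refine (Fermat.Agent.S24.DiffPlace.ord_nonneg_iff_mem w).mpr ?_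
    exact sub_mem (h82s_mem_of_valueAt hwb') (w.algebraMap_mem' c)
  · have h1 : Finsupp.mapDomain r D Q = Q.ord (h13sRed A M ⟨(jB M)⁻¹ - cst M c, hyV⟩) := hpush
    rw [h1, hred, Place.ord_inv, hJord]
    norm_num

/-- **(S1c)** the places of the fibre are unramified over the `j`-line. -/
theorem h29q_S1c (hℓ : ℓ.Prime) (hM : ¬ ℓ ∣ M) (hA : A.LiesOverPrime ℓ)
    (hr : H13sIsRed A M r) (Q : Place (h13sK A) (h13sFt A M))
    (hQ : ∀ y : h13sFt A M, y ≠ 0 → Q.ord y = (h13sIncl A M y).order)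
    (v : Place Kbar (FF M)) (c : Kbar) (hv : r v = Q) (hc : ValueAt v (jB M)⁻¹ c) :
    v.ord ((jB M)⁻¹ - cst M c) = 1 := by
  obtain ⟨hy0, D, hD, hnn, hsum⟩ := h29q_S1_core hℓ hM hA hr Q hQ v hv c hc
  have h1 : 0 < v.ord ((jB M)⁻¹ - cst M c) := h71r_ord_pos_of_mem_nonunits v hy0 hc
  have h2 : D v ≤ Finsupp.mapDomain r D Q := h71r_push_ge r D Q hnn v hv
  rw [hsum, hD v] at h2
  omega

/-- **(S1b)** the fibre contains at most one place over each value of `1/j`. -/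
theorem h29q_S1b (hℓ : ℓ.Prime) (hM : ¬ ℓ ∣ M) (hA : A.LiesOverPrime ℓ)
    (hr : H13sIsRed A M r) (Q : Place (h13sK A) (h13sFt A M))
    (hQ : ∀ y : h13sFt A M, y ≠ 0 → Q.ord y = (h13sIncl A M y).order)
    (v v' : Place Kbar (FF M)) (hv : r v = Q) (hv' : r v' = Q)
    (hc : ∃ c : Kbar, ValueAt v (jB M)⁻¹ c ∧ ValueAt v' (jB M)⁻¹ c) : v = v' := by
  obtain ⟨c, hc, hc'⟩ := hc
  by_contra hne
  obtain ⟨hy0, D, hD, hnn, hsum⟩ := h29q_S1_core hℓ hM hA hr Q hQ v hv c hc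
  have h1 : 0 < v.ord ((jB M)⁻¹ - cst M c) := h71r_ord_pos_of_mem_nonunits v hy0 hc
  have h1' : 0 < v'.ord ((jB M)⁻¹ - cst M c) := h71r_ord_pos_of_mem_nonunits v' hy0 hc'
  have h2 := h29q_push_ge_two r D Q hnn v v' hne hv hv'
  rw [hsum, hD v, hD v'] at h2
  omega

end Fermat.Agent.P7
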