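import Fermat.Agent.P7.H30EmbedCH
import Fermat.Agent.P7.H99W7Iface
import Fermat.Agent.EFrob.DetCyc

/-!
# Wave 7 (S40), block (G2) CHAR: the exact frozen Prop `H99wChar` (helper30, prefix `h30e_`)

`h30e_char : H99wChar`.  The frozen statement needs no change of shape: the exponent `e` of `g` on
`μ_p` is the determinant of `g` on `W[p]` (`Fermat.Agent.EFrob.galoisDet_eq_of_zeta`), and a
quadratic relation `g² - t g + e = 0` on `W[p]` with `e = det` forces `t = tr` (subtract the
Cayley–Hamilton relation and use that `g` is invertible).  Then `h30e_ch` applies.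
-/

set_option autoImplicit false
set_option linter.style.haveILetI false
set_option linter.unusedSectionVars false

open ModularCurve GaloisRep WeierstrassCurve WeierstrassCurve.Affine

noncomputable section

namespace Fermat.Agent.P7

open Fermat.Agent.S29 (GQ)

local notation "Qbar" => AlgebraicClosure ℚ

/-- a quadratic relation `A² - t A + det A = 0` for an invertible endomorphism of a plane forces
`t = tr A`. -/
theorem h30e_trace_of_quad {F : Type*} [Field F] {U : Type*} [AddCommGroup U] [Module F U]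
    (hU : Module.finrank F U = 2) (A B : Module.End F U) (hAB : A * B = 1) (t : F)
    (h : A * A - t • A + LinearMap.det A • (1 : Module.End F U) = 0) :
    t = LinearMap.trace F U A := by
  haveI : Module.Finite F U := Module.finite_of_finrank_pos (by omega)
  haveI : Nontrivial U := Module.nontrivial_of_finrank_pos (R := F) (by omega)
  have hCH : A * A - LinearMap.trace F U A • A + LinearMap.det A • (1 : Module.End F U) = 0 := by
    have h0 := LinearMap.aeval_self_charpoly A
    rw [Fermat.Agent.S58.h98r_charpoly_dim_two hU A] at h0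
    simp only [map_add, map_sub, map_mul, map_pow, Polynomial.aeval_X, Polynomial.aeval_C,
      Algebra.algebraMap_eq_smul_one, smul_mul_assoc, one_mul] at h0
    rw [← h0, sq]
  have h1 : (t - LinearMap.trace F U A) • A = 0 := by
    have e : (t - LinearMap.trace F U A) • A =
        (A * A - LinearMap.trace F U A • A + LinearMap.det A • (1 : Module.End F U)) -
          (A * A - t • A + LinearMap.det A • (1 : Module.End F U)) := by
      rw [sub_smul]
      abel
    rw [e, hCH, h, sub_zero]
  have h2 : (t - LinearMap.trace F U A) • (1 : Module.End F U) = 0 := by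
    rw [← hAB, ← smul_mul_assoc, h1, zero_mul]
  by_contra hne
  have h3 : (1 : Module.End F U) = 0 := by
    rcases smul_eq_zero.mp h2 with h4 | h4
    · exact absurd (sub_eq_zero.mp h4) hne
    · exact h4
  exact one_ne_zero h3

set_option maxHeartbeats 1000000 in
/-- **(G2) CHAR**, exact frozen form. -/
theorem h30e_char : H99wChar := by
  intro W hΔ p hp N _ hpN g t e hμ hW x hx heig
  classical
  haveI : Fact p.Prime := ⟨hp⟩
  haveI : NeZero p := ⟨hp.ne_zero⟩
  have hΔ' : (W.map (Int.castRingHom ℚ)).Δ ≠ 0 := by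
    rw [WeierstrassCurve.map_Δ]
    simpa using hΔ
  have hfin2 : Module.finrank (ZMod p)
      (Submodule.torsionBy ℤ ((W.map (Int.castRingHom ℚ)).toAffine⁄Qbar).Point p) = 2 :=
    Fermat.Agent.Tors.finrank_torsionBy_qbar (W.map (Int.castRingHom ℚ)) hΔ' p
  -- the determinant
  haveI : NeZero (p : Qbar) := ⟨Nat.cast_ne_zero.mpr hp.ne_zero⟩
  obtain ⟨ζ, hζ⟩ := HasEnoughRootsOfUnity.exists_primitiveRoot Qbar p
  have hdet : LinearMap.det (Point.galoisRepModuleEnd (K := Qbar) ℚ
      (W.map (Int.castRingHom ℚ)).toAffine p g) = (e : ZMod p) :=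
    Fermat.Agent.EFrob.galoisDet_eq_of_zeta W hΔ hp hζ g e (hμ ζ hζ.pow_eq_one)
  -- the trace
  set ρ := Point.galoisRepModuleEnd (K := Qbar) ℚ (W.map (Int.castRingHom ℚ)).toAffine p with hρ
  have hinv : ρ g * ρ g⁻¹ = 1 := by rw [← map_mul, mul_inv_cancel, map_one]
  have hquad : ρ g * ρ g - (t : ZMod p) • ρ g +
      LinearMap.det (ρ g) • (1 : Module.End (ZMod p) _) = 0 := by
    refine LinearMap.ext fun P => ?_
    have h := hW P
    rw [hdet]
    show g • g • P - (t : ZMod p) • (g • P) + (e : ZMod p) • P = 0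
    rw [Int.cast_smul_eq_zsmul, Nat.cast_smul_eq_nsmul]
    exact h
  have htr : (t : ZMod p) = LinearMap.trace (ZMod p) _ (ρ g) :=
    h30e_trace_of_quad hfin2 (ρ g) (ρ g⁻¹) hinv _ hquad
  -- the excluded primes
  set S : Finset ℕ := insert p (N.primeFactors ∪ W.Δ.natAbs.primeFactors) with hS
  have hpS : p ∈ S := Finset.mem_insert_self _ _
  have hNS : ∀ q : ℕ, q.Prime → q ∣ N → q ∈ S := fun q hq hqN =>
    Finset.mem_insert_of_mem (Finset.mem_union_left _
      (Nat.mem_primeFactors.mpr ⟨hq, hqN, NeZero.ne N⟩))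
  have hWS : ∀ q : ℕ, q.Prime → q ∉ S → W.IsGoodPrimeFor q := by
    intro q hq hqS hdvd
    refine hqS (Finset.mem_insert_of_mem (Finset.mem_union_right _
      (Nat.mem_primeFactors.mpr ⟨hq, ?_, Int.natAbs_ne_zero.mpr hΔ⟩)))
    exact Int.natCast_dvd.mp hdvd
  have heig' : ∀ ℓ : Nat.Primes, (ℓ : ℕ) ∉ S →
      heckeOperatorBar N ℓ x = W.apOfModel (ℓ : ℕ) • x := by
    intro ℓ hℓ
    refine heig ℓ ⟨hWS ℓ ℓ.2 hℓ, fun hdvd => hℓ (hNS ℓ ℓ.2 hdvd)⟩
  have h := h30e_ch W hΔ hp N S hpS hNS hWS x hx heig' g t (e : ℤ) htr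
    (by rw [hdet]; push_cast; rfl)
  rw [natCast_zsmul] at h
  exact h

end Fermat.Agent.P7
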