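import Fermat.Agent.P5.H30LatCheb
import Fermat.Agent.S58.H98Hres
import Fermat.Agent.EFrob.Main
import Fermat.Agent.Tors.Qbar
import Fermat.Agent.S13.AsmGroups

/-!
# Wave 7 (S40), block (2) EMBED, step (b): Chebotarev / Cayley–Hamilton (helper30, prefix `h30e_`)

`W` an integral Weierstrass curve with `Δ ≠ 0`, `p` a prime, `M > 0` a level, `S` a finite set
of primes containing `p`, the primes dividing `M` and the primes of bad reduction of `W`.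

* `h30eEv W p` : the evaluation `ℤ[T_ℓ] → 𝔽_p`, `T_ℓ ↦ a_ℓ(W)`.
* `h30e_cheb` : the exact analogue of `Fermat.Agent.P5.h30x_cheb` (shape of the input of
  `Fermat.Agent.P6.h1c_nil`) for the curve `W`: for every `k` there are
  `τ, δ : G_ℚ → ℤ[T_ℓ]` (polynomials in the variables outside `S`) with
  `g + δ(g) g⁻¹ = τ(g)` on `J₀(M)[p ^ k]`, `δ` multiplicative on `J₀(M)[p ^ k]`, and
  `tr ρ_{W,p}(g) = ev (τ g)`, `det ρ_{W,p}(g) = ev (δ g)` in `𝔽_p`.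
* `h30e_eval_eigen` : a Hecke polynomial acts on an eigenvector of `J₀(M)[p]` with the
  eigenvalues `a_ℓ(W)` (`ℓ ∉ S`) through `h30eEv`.
* `h30e_ch` : the elementwise Cayley–Hamilton relation: for `x ∈ J₀(M)[p]` with
  `T_ℓ x = a_ℓ(W) x` (`ℓ ∉ S`) and every `g ∈ G_ℚ`:
  `g² x - t g x + d x = 0` for all integers `t ≡ tr ρ_{W,p}(g)`, `d ≡ det ρ_{W,p}(g)` mod `p`.
-/

set_option autoImplicit false
set_option linter.style.haveILetI false
set_option linter.unusedSectionVars false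

open ModularCurve GaloisRep WeierstrassCurve WeierstrassCurve.Affine

noncomputable section

namespace Fermat.Agent.P7

open Fermat.Agent.S29 (GQ)
open Fermat.Agent.S30 (acTrace)
open Fermat.Agent.S31 (tpjGal tpjHecke)
open Fermat.Agent.P5 (h30xTors h30xGal h30xHecke h30xKap h30xResT)

local notation "Qbar" => AlgebraicClosure ℚ

/-- the evaluation `ℤ[T_ℓ] → 𝔽_p`, `T_ℓ ↦ a_ℓ(W)`. -/
def h30eEv (W : WeierstrassCurve ℤ) (p : ℕ) : MvPolynomial Nat.Primes ℤ →+* ZMod p :=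
  MvPolynomial.eval₂Hom (Int.castRingHom (ZMod p))
    (fun ℓ : Nat.Primes => ((W.apOfModel (ℓ : ℕ) : ℤ) : ZMod p))

theorem h30eEv_X (W : WeierstrassCurve ℤ) (p : ℕ) (ℓ : Nat.Primes) :
    h30eEv W p (MvPolynomial.X ℓ) = ((W.apOfModel (ℓ : ℕ) : ℤ) : ZMod p) := by
  rw [h30eEv, MvPolynomial.coe_eval₂Hom, MvPolynomial.eval₂_X]

theorem h30eEv_C (W : WeierstrassCurve ℤ) (p : ℕ) (a : ℤ) :
    h30eEv W p (MvPolynomial.C a) = (a : ZMod p) := by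
  rw [h30eEv, MvPolynomial.coe_eval₂Hom, MvPolynomial.eval₂_C]
  rfl

theorem h30eKap_C (S : Finset ℕ) (a : ℤ) :
    h30xKap S (MvPolynomial.C a) = MvPolynomial.C a := by
  show (MvPolynomial.aeval (R := ℤ) (fun ℓ : Nat.Primes =>
    if (ℓ : ℕ) ∈ S then (0 : MvPolynomial Nat.Primes ℤ) else MvPolynomial.X ℓ))
      (MvPolynomial.C a) = MvPolynomial.C a
  rw [MvPolynomial.aeval_C]
  rfl

theorem h30eKap_acTrace (S : Finset ℕ) (ℓ : Nat.Primes) (hℓ : (ℓ : ℕ) ∉ S) (j : ℕ) :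
    h30xKap S (acTrace (MvPolynomial.X ℓ) (MvPolynomial.C ((ℓ : ℕ) : ℤ)) j) =
      acTrace (MvPolynomial.X ℓ) (MvPolynomial.C ((ℓ : ℕ) : ℤ)) j := by
  rw [Fermat.Agent.S31.TI_map_acTrace, Fermat.Agent.P5.h30xKap_X_of_not_mem S ℓ hℓ, h30eKap_C]

theorem h30eEv_acTrace (W : WeierstrassCurve ℤ) (p : ℕ) (ℓ : Nat.Primes) (j : ℕ) :
    h30eEv W p (acTrace (MvPolynomial.X ℓ) (MvPolynomial.C ((ℓ : ℕ) : ℤ)) j) =
      acTrace (((W.apOfModel (ℓ : ℕ) : ℤ) : ZMod p)) ((((ℓ : ℕ) : ℤ)) : ZMod p) j :=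
  (Fermat.Agent.S31.TI_map_acTrace (h30eEv W p) (MvPolynomial.X ℓ)
    (MvPolynomial.C ((ℓ : ℕ) : ℤ)) j).trans
    (congrArg₂ (fun a b : ZMod p => acTrace a b j) (h30eEv_X W p ℓ) (h30eEv_C W p _))

/-! ## The Chebotarev approximation for the curve -/

set_option maxHeartbeats 4000000 in
/-- the pointwise form of the Chebotarev approximation for `W`. -/
theorem h30e_cheb_pt (W : WeierstrassCurve ℤ) (hΔ : W.Δ ≠ 0) {p : ℕ} [Fact p.Prime] (M : ℕ)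
    [NeZero M] (S : Finset ℕ) (hpS : p ∈ S) (hMS : ∀ q : ℕ, q.Prime → q ∣ M → q ∈ S)
    (hWS : ∀ q : ℕ, q.Prime → q ∉ S → W.IsGoodPrimeFor q)
    (hc : HeckeOperatorsCommuteBar M) (k : ℕ) (d : GQ →* ℤ_[p]ˣ)
    (hdcont : ∀ n : ℕ, ∃ L : IntermediateField ℚ Qbar, FiniteDimensional ℚ L ∧
      ∀ σ : GQ, (∀ x ∈ L, σ x = x) →
        ((d σ : ℤ_[p]ˣ) : ℤ_[p]) - 1 ∈ IsLocalRing.maximalIdeal ℤ_[p] ^ n)
    (hdfrob : ∀ ℓ : ℕ, ℓ.Prime → ℓ ≠ p → ∀ A : ValuationSubring Qbar, A.LiesOverPrime ℓ →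
      ∀ σ : GQ, A.IsFrobeniusAt σ ℓ → ((d σ : ℤ_[p]ˣ) : ℤ_[p]) = (ℓ : ℤ_[p]))
    (g : GQ) :
    ∃ (ℓ : Nat.Primes) (j : ℕ), (ℓ : ℕ) ∉ S ∧
      (h30xGal M p k g + h30xHecke M p k S hc (MvPolynomial.C (((ℓ : ℕ) : ℤ) ^ j)) *
          h30xGal M p k g⁻¹ =
        h30xHecke M p k S hc (acTrace (MvPolynomial.X ℓ) (MvPolynomial.C ((ℓ : ℕ) : ℤ)) j)) ∧
      ((((((ℓ : ℕ) : ℤ) ^ j : ℤ) : ℤ_[p]) - ((d g : ℤ_[p]ˣ) : ℤ_[p])) ∈
        IsLocalRing.maximalIdeal ℤ_[p] ^ k) ∧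
      Point.galoisTrace (K := Qbar) ℚ (W.map (Int.castRingHom ℚ)).toAffine p g =
        h30eEv W p (acTrace (MvPolynomial.X ℓ) (MvPolynomial.C ((ℓ : ℕ) : ℤ)) j) ∧
      LinearMap.det (Point.galoisRepModuleEnd (K := Qbar) ℚ
        (W.map (Int.castRingHom ℚ)).toAffine p g) =
        h30eEv W p (MvPolynomial.C (((ℓ : ℕ) : ℤ) ^ j)) := by
  classical
  have hp : p.Prime := Fact.out
  have hCheb := Fermat.Agent.Cheb.weakChebotarev
  have hHG := Fermat.Agent.S30.geometricInputsFull.1 M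
  have hES := Fermat.Agent.S30.geometricInputsFull.2.1 M p hp
  have hTF := Fermat.Agent.S30.geometricInputsFull.2.2.1 M (p ^ k) (pow_pos hp.pos k)
  obtain ⟨L₁, hL₁, h₁⟩ := hTF.2
  obtain ⟨L₂, hL₂, h₂⟩ := hdcont k
  -- the field of `W[p]`
  have hΔ' : (W.map (Int.castRingHom ℚ)).Δ ≠ 0 := by
    rw [WeierstrassCurve.map_Δ]
    simpa using hΔ
  haveI : Finite (Fermat.Agent.S13.Tors (W.map (Int.castRingHom ℚ)) p) :=
    Fermat.Agent.Tors.finite_torsionBy_qbar (W.map (Int.castRingHom ℚ)) hΔ' p hp.ne_zero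
  obtain ⟨S₁, hS₁⟩ := Fermat.Agent.S13.Asm.exists_finset_fix
    (W := W.map (Int.castRingHom ℚ)) (p := p)
  haveI : Algebra.IsAlgebraic ℚ Qbar := AlgebraicClosure.isAlgebraic ℚ
  let L₃ : IntermediateField ℚ Qbar := IntermediateField.adjoin ℚ ((S₁ : Finset Qbar) : Set Qbar)
  have hL₃ : FiniteDimensional ℚ L₃ :=
    IntermediateField.finiteDimensional_adjoin (fun x _ => (Algebra.IsIntegral.isIntegral x))
  have hfd12 : FiniteDimensional ℚ ↥(L₁ ⊔ L₂) := IntermediateField.finiteDimensional_sup L₁ L₂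
  have hfd : FiniteDimensional ℚ ↥(L₁ ⊔ L₂ ⊔ L₃) :=
    IntermediateField.finiteDimensional_sup (L₁ ⊔ L₂) L₃
  have hle₁ : L₁ ≤ L₁ ⊔ L₂ ⊔ L₃ := le_sup_left.trans le_sup_left
  have hle₂ : L₂ ≤ L₁ ⊔ L₂ ⊔ L₃ := le_sup_right.trans le_sup_left
  have hle₃ : L₃ ≤ L₁ ⊔ L₂ ⊔ L₃ := le_sup_right
  -- primes outside `S`
  have hNp : ∀ ℓ : ℕ, ℓ.Prime → ℓ ∉ S → ¬ ℓ ∣ M * p := by
    intro ℓ hℓ hℓS hdvd
    rcases (Nat.Prime.dvd_mul hℓ).mp hdvd with h | h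
    · exact hℓS (hMS ℓ hℓ h)
    · exact hℓS (((Nat.prime_dvd_prime_iff_eq hℓ hp).mp h) ▸ hpS)
  have hne : ∀ ℓ : ℕ, ℓ.Prime → ℓ ∉ S → ℓ ≠ p := fun ℓ _ hℓS h => hℓS (h ▸ hpS)
  -- elements fixing the field of `J₀(M)[p ^ k]` act trivially
  have htriv : ∀ σ : GQ, (∀ y ∈ L₁, σ y = y) → h30xGal M p k σ = 1 := by
    intro σ hσ
    refine AddMonoidHom.ext fun x => Subtype.ext ?_
    show σ • (x : JZero M) = (x : JZero M)
    exact h₁ σ hσ _ (Fermat.Agent.P5.h30x_nsmul_eq_zero M p k x)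
  obtain ⟨ℓ, hℓ, hℓS, A', hA', f, hf, j, hj⟩ := hCheb (L₁ ⊔ L₂ ⊔ L₃) hfd g S
  -- `σ = (f ^ j)⁻¹ * g` fixes the compositum
  have hσ : ∀ x ∈ L₁ ⊔ L₂ ⊔ L₃, ((f ^ j)⁻¹ * g) x = x := fun x hx => by
    rw [AlgEquiv.mul_apply, hj x hx]
    exact (f ^ j).symm_apply_apply x
  have hg : g = f ^ j * ((f ^ j)⁻¹ * g) := by rw [mul_inv_cancel_left]
  have hs₂ := h₂ ((f ^ j)⁻¹ * g) fun x hx => hσ x (hle₂ hx)
  have hdf := hdfrob ℓ hℓ (hne ℓ hℓ hℓS) A' hA' f hf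
  have hgood : W.IsGoodPrimeFor ℓ := hWS ℓ hℓ hℓS
  -- the representation on `W[p]`
  set ρ := Point.galoisRepModuleEnd (K := Qbar) ℚ (W.map (Int.castRingHom ℚ)).toAffine p with hρ
  have hρσ : ρ ((f ^ j)⁻¹ * g) = 1 := by
    refine LinearMap.ext fun Q => ?_
    rw [hρ, Point.galoisRepModuleEnd_apply, Module.End.one_apply]
    exact hS₁ _ (fun s hs => hσ s (hle₃ (IntermediateField.subset_adjoin ℚ _
      (Finset.mem_coe.2 hs)))) Q
  have hρg : ρ g = ρ f ^ j := by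
    conv_lhs => rw [hg]
    rw [map_mul, hρσ, mul_one, map_pow]
  have hfin2 : Module.finrank (ZMod p)
      (Submodule.torsionBy ℤ ((W.map (Int.castRingHom ℚ)).toAffine⁄Qbar).Point p) = 2 :=
    Fermat.Agent.Tors.finrank_torsionBy_qbar (W.map (Int.castRingHom ℚ)) hΔ' p
  have htr : LinearMap.trace (ZMod p) _ (ρ f) = ((W.apOfModel ℓ : ℤ) : ZMod p) :=
    Fermat.Agent.EFrob.galoisTrace_frobenius W hℓ hp (hne ℓ hℓ hℓS) hgood A' hA' f hf
  have hdet : LinearMap.det (ρ f) = (ℓ : ZMod p) :=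
    Fermat.Agent.EFrob.galoisDet_frobenius W hℓ hp (hne ℓ hℓ hℓS) hgood A' hA' f hf
  have hcp : LinearMap.charpoly (ρ f) =
      Polynomial.X ^ 2 - Polynomial.C (((W.apOfModel ℓ : ℤ) : ZMod p)) * Polynomial.X +
        Polynomial.C ((ℓ : ZMod p)) := by
    have h := Fermat.Agent.S58.h98r_charpoly_dim_two hfin2 (ρ f)
    rw [htr, hdet] at h
    exact h
  refine ⟨⟨ℓ, hℓ⟩, j, hℓS, ?_, ?_, ?_, ?_⟩
  · -- the relation on `J₀(M)[p ^ k]`
    have hσ1 : h30xGal M p k ((f ^ j)⁻¹ * g) = 1 := htriv _ fun y hy => hσ y (hle₁ hy)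
    have hgx : h30xGal M p k g = h30xGal M p k f ^ j := by
      conv_lhs => rw [hg]
      rw [map_mul, hσ1, mul_one, map_pow]
    have hx'x : h30xGal M p k f⁻¹ * h30xGal M p k f = 1 := by
      rw [← map_mul, inv_mul_cancel, map_one]
    have hgx' : h30xGal M p k g⁻¹ = h30xGal M p k f⁻¹ ^ j := by
      have e1 : h30xGal M p k g⁻¹ * h30xGal M p k g = 1 := by
        rw [← map_mul, inv_mul_cancel, map_one]
      have e2 : h30xGal M p k f ^ j * h30xGal M p k f⁻¹ ^ j = 1 := by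
        rw [← map_pow, ← map_pow, ← map_mul, inv_pow, mul_inv_cancel, map_one]
      calc h30xGal M p k g⁻¹
          = h30xGal M p k g⁻¹ * (h30xGal M p k f ^ j * h30xGal M p k f⁻¹ ^ j) := by
            rw [e2, mul_one]
        _ = (h30xGal M p k g⁻¹ * h30xGal M p k g) * h30xGal M p k f⁻¹ ^ j := by
            rw [hgx, mul_assoc]
        _ = h30xGal M p k f⁻¹ ^ j := by rw [e1, one_mul]
    have hb : Commute (h30xHecke M p k S hc (MvPolynomial.X (⟨ℓ, hℓ⟩ : Nat.Primes)))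
        (h30xGal M p k f) :=
      (Fermat.Agent.S31.tpj_commute M hHG (h30xKap S (MvPolynomial.X (⟨ℓ, hℓ⟩ : Nat.Primes)))
        f).map (h30xResT M p k)
    have hESrel : h30xGal M p k f * h30xGal M p k f
        - h30xHecke M p k S hc (MvPolynomial.X (⟨ℓ, hℓ⟩ : Nat.Primes)) * h30xGal M p k f
        + h30xHecke M p k S hc (MvPolynomial.C (((⟨ℓ, hℓ⟩ : Nat.Primes) : ℕ) : ℤ)) = 0 := by
      rw [Fermat.Agent.P5.h30x_map_C]
      refine AddMonoidHom.ext fun x => Subtype.ext ?_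
      have hx := Fermat.Agent.P5.h30x_nsmul_eq_zero M p k x
      have h := hES.2 ℓ hℓ (hNp ℓ hℓ hℓS) A' hA' f hf (x : JZero M) ⟨k, hx⟩
      have e1 : ((h30xHecke M p k S hc (MvPolynomial.X (⟨ℓ, hℓ⟩ : Nat.Primes))
          (h30xGal M p k f x) : h30xTors M p k) : JZero M) =
          heckeOperatorBar M ⟨ℓ, hℓ⟩ (f • (x : JZero M)) :=
        Fermat.Agent.P5.h30xHecke_X M p k S hc ⟨ℓ, hℓ⟩ hℓS (h30xGal M p k f x)
      have e2 : ((((((⟨ℓ, hℓ⟩ : Nat.Primes) : ℕ) : ℤ) : AddMonoid.End (h30xTors M p k)) x :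
          h30xTors M p k) : JZero M) = ℓ • (x : JZero M) := by
        have := AddMonoid.End.intCast_apply ((((⟨ℓ, hℓ⟩ : Nat.Primes) : ℕ) : ℤ)) x
        rw [this]
        show (((ℓ : ℤ) • x : h30xTors M p k) : JZero M) = ℓ • (x : JZero M)
        rw [Submodule.coe_smul, natCast_zsmul]
      show f • f • (x : JZero M)
        - ((h30xHecke M p k S hc (MvPolynomial.X (⟨ℓ, hℓ⟩ : Nat.Primes))
          (h30xGal M p k f x) : h30xTors M p k) : JZero M)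
        + ((((((⟨ℓ, hℓ⟩ : Nat.Primes) : ℕ) : ℤ) : AddMonoid.End (h30xTors M p k)) x :
          h30xTors M p k) : JZero M) = 0
      rw [e1, e2]
      exact h
    have hps := Fermat.Agent.P5.h30x_powsum (h30xHecke M p k S hc) (⟨ℓ, hℓ⟩ : Nat.Primes)
      (h30xGal M p k f) (h30xGal M p k f⁻¹) hx'x hb hESrel j
    rw [hgx, hgx']
    exact hps
  · -- the cyclotomic character
    have hd1 : ((d g : ℤ_[p]ˣ) : ℤ_[p]) =
        (ℓ : ℤ_[p]) ^ j * ((d ((f ^ j)⁻¹ * g) : ℤ_[p]ˣ) : ℤ_[p]) := by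
      conv_lhs => rw [hg]
      rw [map_mul, map_pow, Units.val_mul, Units.val_pow_eq_pow_val, hdf]
    have e : (((((⟨ℓ, hℓ⟩ : Nat.Primes) : ℕ) : ℤ) ^ j : ℤ) : ℤ_[p]) - ((d g : ℤ_[p]ˣ) : ℤ_[p]) =
        -((ℓ : ℤ_[p]) ^ j * (((d ((f ^ j)⁻¹ * g) : ℤ_[p]ˣ) : ℤ_[p]) - 1)) := by
      rw [hd1]
      push_cast
      ring
    rw [e]
    exact neg_mem (Ideal.mul_mem_left _ _ hs₂)
  · -- the trace
    show LinearMap.trace (ZMod p) _ (ρ g) = _
    have e1 := h30eEv_acTrace W p (⟨ℓ, hℓ⟩ : Nat.Primes) j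
    have e2 := Fermat.Agent.S31.TI_trace_pow hfin2 (ρ f) _ _ hcp j
    rw [hρg, e1, e2]
    push_cast
    rfl
  · -- the determinant
    rw [hρg, map_pow, hdet, h30eEv_C]
    push_cast
    rfl

set_option maxHeartbeats 4000000 in
/-- **EMBED, step (b), Chebotarev form.**  The analogue of `Fermat.Agent.P5.h30x_cheb` for the
curve `W`: on `J₀(M)[p ^ k]` every `g ∈ G_ℚ` satisfies `g + δ(g) g⁻¹ = τ(g)` with Hecke
polynomials `τ g`, `δ g` in the variables outside `S` whose values at the eigensystem of `W`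
modulo `p` are the trace and the determinant of `g` on `W[p]`. -/
theorem h30e_cheb (W : WeierstrassCurve ℤ) (hΔ : W.Δ ≠ 0) {p : ℕ} (hp : p.Prime) (M : ℕ)
    [NeZero M] (S : Finset ℕ) (hpS : p ∈ S) (hMS : ∀ q : ℕ, q.Prime → q ∣ M → q ∈ S)
    (hWS : ∀ q : ℕ, q.Prime → q ∉ S → W.IsGoodPrimeFor q)
    (hc : HeckeOperatorsCommuteBar M) (k : ℕ) :
    ∃ τ δ : GQ → MvPolynomial Nat.Primes ℤ,
      (∀ g : GQ, h30xGal M p k g + h30xHecke M p k S hc (δ g) * h30xGal M p k g⁻¹ =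
        h30xHecke M p k S hc (τ g)) ∧
      (∀ g h : GQ, h30xHecke M p k S hc (δ (g * h)) =
        h30xHecke M p k S hc (δ g) * h30xHecke M p k S hc (δ h)) ∧
      h30xHecke M p k S hc (δ 1) = 1 ∧
      (∀ g : GQ, Point.galoisTrace (K := Qbar) ℚ (W.map (Int.castRingHom ℚ)).toAffine p g =
        h30eEv W p (τ g)) ∧
      (∀ g : GQ, LinearMap.det (Point.galoisRepModuleEnd (K := Qbar) ℚ
        (W.map (Int.castRingHom ℚ)).toAffine p g) = h30eEv W p (δ g)) ∧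
      (∀ g : GQ, h30xKap S (τ g) = τ g) ∧ (∀ g : GQ, h30xKap S (δ g) = δ g) := by
  haveI : Fact p.Prime := ⟨hp⟩
  have hmaxZ : IsLocalRing.maximalIdeal ℤ_[p] = Ideal.span {(p : ℤ_[p])} :=
    PadicInt.maximalIdeal_eq_span_p
  have hpZ : (p : ℤ_[p]) ∈ IsLocalRing.maximalIdeal ℤ_[p] := by
    rw [hmaxZ]
    exact Ideal.mem_span_singleton_self _
  obtain ⟨d, hdcont, hdin, hdfrob, -⟩ := Fermat.Agent.S30.cycCharAdic p hp ℤ_[p] hpZ
  have hpt := h30e_cheb_pt W hΔ M S hpS hMS hWS hc k d hdcont hdfrob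
  choose ℓ j hS hA hB hC hD using hpt
  -- integers modulo `p ^ k`
  have hΘC : ∀ a b : ℤ, ((a : ℤ_[p]) - (b : ℤ_[p])) ∈ IsLocalRing.maximalIdeal ℤ_[p] ^ k →
      h30xHecke M p k S hc (MvPolynomial.C a) = h30xHecke M p k S hc (MvPolynomial.C b) := by
    intro a b hab
    rw [Fermat.Agent.P5.h30x_map_C, Fermat.Agent.P5.h30x_map_C]
    refine Fermat.Agent.P5.h30x_intCast_eq M p k a b (Fermat.Agent.P5.h30x_dvd_of_mem k (a - b) ?_)
    push_cast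
    exact hab
  refine ⟨fun g => acTrace (MvPolynomial.X (ℓ g)) (MvPolynomial.C ((ℓ g : ℕ) : ℤ)) (j g),
    fun g => MvPolynomial.C ((((ℓ g : ℕ) : ℤ)) ^ (j g)), hA, ?_, ?_, hC, hD,
    fun g => h30eKap_acTrace S (ℓ g) (hS g) (j g), fun g => h30eKap_C S _⟩
  · intro g h
    show h30xHecke M p k S hc (MvPolynomial.C ((((ℓ (g * h) : ℕ) : ℤ)) ^ (j (g * h)))) =
      h30xHecke M p k S hc (MvPolynomial.C ((((ℓ g : ℕ) : ℤ)) ^ (j g))) *
        h30xHecke M p k S hc (MvPolynomial.C ((((ℓ h : ℕ) : ℤ)) ^ (j h)))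
    rw [← map_mul, ← map_mul]
    refine hΘC _ _ ?_
    have e : ((((((ℓ (g * h) : ℕ) : ℤ)) ^ (j (g * h)) : ℤ) : ℤ_[p]) -
        ((((((ℓ g : ℕ) : ℤ)) ^ (j g) * (((ℓ h : ℕ) : ℤ)) ^ (j h) : ℤ)) : ℤ_[p])) =
        ((((((ℓ (g * h) : ℕ) : ℤ)) ^ (j (g * h)) : ℤ) : ℤ_[p]) - ((d (g * h) : ℤ_[p]ˣ) : ℤ_[p]))
        - ((((((ℓ g : ℕ) : ℤ)) ^ (j g) : ℤ) : ℤ_[p]) *
            ((((((ℓ h : ℕ) : ℤ)) ^ (j h) : ℤ) : ℤ_[p]) - ((d h : ℤ_[p]ˣ) : ℤ_[p]))
          + ((d h : ℤ_[p]ˣ) : ℤ_[p]) *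
            ((((((ℓ g : ℕ) : ℤ)) ^ (j g) : ℤ) : ℤ_[p]) - ((d g : ℤ_[p]ˣ) : ℤ_[p]))) := by
      rw [map_mul, Units.val_mul]
      push_cast
      ring
    rw [e]
    exact Ideal.sub_mem _ (hB (g * h))
      (Ideal.add_mem _ (Ideal.mul_mem_left _ _ (hB h)) (Ideal.mul_mem_left _ _ (hB g)))
  · show h30xHecke M p k S hc (MvPolynomial.C ((((ℓ 1 : ℕ) : ℤ)) ^ (j 1))) = 1
    have h1 : h30xHecke M p k S hc (MvPolynomial.C ((((ℓ 1 : ℕ) : ℤ)) ^ (j 1))) =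
        h30xHecke M p k S hc (MvPolynomial.C (1 : ℤ)) := by
      refine hΘC _ _ ?_
      have := hB 1
      rw [map_one, Units.val_one] at this
      push_cast at this ⊢
      exact this
    rw [h1, map_one, map_one]

/-! ## Hecke polynomials on eigenvectors -/

/-- a Hecke polynomial acts on an eigenvector of `J₀(M)[p]` with the eigenvalues `a_ℓ(W)`
(`ℓ ∉ S`) through the evaluation `h30eEv W p` (after cutting off the variables in `S`). -/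
theorem h30e_eval_eigen (W : WeierstrassCurve ℤ) {p : ℕ} (M : ℕ) [NeZero M] (S : Finset ℕ)
    (hc : HeckeOperatorsCommuteBar M) (x : JZero M) (hx : p • x = 0)
    (heig : ∀ ℓ : Nat.Primes, (ℓ : ℕ) ∉ S →
      heckeOperatorBar M ℓ x = W.apOfModel (ℓ : ℕ) • x)
    (Q : MvPolynomial Nat.Primes ℤ) (n : ℤ) (hn : (n : ZMod p) = h30eEv W p (h30xKap S Q)) :
    tpjHecke M hc (h30xKap S Q) x = n • x := by
  classical
  have hpx : ∀ a b : ℤ, (a : ZMod p) = (b : ZMod p) → a • x = b • x := by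
    intro a b hab
    obtain ⟨c, hc'⟩ := (ZMod.intCast_eq_intCast_iff_dvd_sub b a p).mp hab.symm
    have : a = b + c * (p : ℤ) := by rw [mul_comm]; omega
    rw [this, add_zsmul, mul_zsmul, natCast_zsmul, hx, zsmul_zero, add_zero]
  induction Q using MvPolynomial.induction_on generalizing n with
  | C a =>
    rw [h30eKap_C] at hn ⊢
    rw [h30eEv_C] at hn
    have h1 : tpjHecke M hc (MvPolynomial.C a) x = a • x := by
      have h0 := Fermat.Agent.P5.h30x_map_C (E := AddMonoid.End (JZero M)) (tpjHecke M hc) a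
      rw [h0]
      exact AddMonoid.End.intCast_apply a x
    rw [h1]
    exact hpx _ _ hn.symm
  | add Q₁ Q₂ h₁ h₂ =>
    obtain ⟨n₁, hn₁⟩ := ZMod.intCast_surjective (h30eEv W p (h30xKap S Q₁))
    obtain ⟨n₂, hn₂⟩ := ZMod.intCast_surjective (h30eEv W p (h30xKap S Q₂))
    rw [map_add, map_add]
    show tpjHecke M hc (h30xKap S Q₁) x + tpjHecke M hc (h30xKap S Q₂) x = n • x
    rw [h₁ n₁ hn₁, h₂ n₂ hn₂, ← add_zsmul]
    refine hpx _ _ ?_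
    rw [hn, map_add, map_add, ← hn₁, ← hn₂]
    push_cast
    rfl
  | mul_X Q ℓ h =>
    obtain ⟨n₁, hn₁⟩ := ZMod.intCast_surjective (h30eEv W p (h30xKap S Q))
    rw [map_mul, map_mul]
    show tpjHecke M hc (h30xKap S Q) (tpjHecke M hc (h30xKap S (MvPolynomial.X ℓ)) x) = n • x
    by_cases hℓ : (ℓ : ℕ) ∈ S
    · have hz : h30xKap S (MvPolynomial.X ℓ) = 0 := by
        show (MvPolynomial.aeval (R := ℤ) (fun ℓ : Nat.Primes =>
          if (ℓ : ℕ) ∈ S then (0 : MvPolynomial Nat.Primes ℤ) else MvPolynomial.X ℓ))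
            (MvPolynomial.X ℓ) = 0
        rw [MvPolynomial.aeval_X, if_pos hℓ]
      rw [hz, map_zero]
      show tpjHecke M hc (h30xKap S Q) 0 = n • x
      rw [map_zero]
      rw [map_mul, hz, mul_zero, map_zero] at hn
      have := hpx n 0 (by rw [hn]; push_cast; rfl)
      rw [this, zero_zsmul]
    · rw [Fermat.Agent.P5.h30xKap_X_of_not_mem S ℓ hℓ, Fermat.Agent.S31.tpjHecke_X, heig ℓ hℓ,
        map_zsmul, h n₁ hn₁, ← mul_zsmul]
      refine hpx _ _ ?_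
      rw [hn, map_mul, map_mul, Fermat.Agent.P5.h30xKap_X_of_not_mem S ℓ hℓ, h30eEv_X, ← hn₁]
      push_cast
      ring

/-! ## The elementwise Cayley–Hamilton relation -/

/-- Galois conjugates of eigenvectors are eigenvectors. -/
theorem h30e_eigen_smul (W : WeierstrassCurve ℤ) (M : ℕ) [NeZero M] (S : Finset ℕ)
    (x : JZero M)
    (heig : ∀ ℓ : Nat.Primes, (ℓ : ℕ) ∉ S →
      heckeOperatorBar M ℓ x = W.apOfModel (ℓ : ℕ) • x) (g : GQ) :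
    ∀ ℓ : Nat.Primes, (ℓ : ℕ) ∉ S →
      heckeOperatorBar M ℓ (g • x) = W.apOfModel (ℓ : ℕ) • (g • x) := by
  intro ℓ hℓ
  have hHG := Fermat.Agent.S30.geometricInputsFull.1 M
  rw [hHG.2 ℓ g x, heig ℓ hℓ]
  exact map_zsmul (tpjGal M g) _ x

theorem h30e_smul_nsmul (M : ℕ) [NeZero M] (p : ℕ) (x : JZero M) (hx : p • x = 0) (g : GQ) :
    p • (g • x) = 0 := by
  have h := map_nsmul (tpjGal M g) p x
  rw [hx, map_zero] at h
  exact h.symm

set_option maxHeartbeats 1000000 in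
/-- **EMBED, step (b), elementwise form.**  On an eigenvector `x ∈ J₀(M)[p]` with the
eigenvalues `a_ℓ(W)` (`ℓ ∉ S`), every `g ∈ G_ℚ` satisfies the characteristic equation of
`ρ_{W,p}(g)`: `g² x - t g x + d x = 0` for all integers `t ≡ tr ρ_{W,p}(g)`,
`d ≡ det ρ_{W,p}(g)` modulo `p`. -/
theorem h30e_ch (W : WeierstrassCurve ℤ) (hΔ : W.Δ ≠ 0) {p : ℕ} (hp : p.Prime) (M : ℕ)
    [NeZero M] (S : Finset ℕ) (hpS : p ∈ S) (hMS : ∀ q : ℕ, q.Prime → q ∣ M → q ∈ S)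
    (hWS : ∀ q : ℕ, q.Prime → q ∉ S → W.IsGoodPrimeFor q)
    (x : JZero M) (hx : p • x = 0)
    (heig : ∀ ℓ : Nat.Primes, (ℓ : ℕ) ∉ S →
      heckeOperatorBar M ℓ x = W.apOfModel (ℓ : ℕ) • x)
    (g : GQ) (t d : ℤ)
    (ht : (t : ZMod p) =
      Point.galoisTrace (K := Qbar) ℚ (W.map (Int.castRingHom ℚ)).toAffine p g)
    (hd : (d : ZMod p) = LinearMap.det (Point.galoisRepModuleEnd (K := Qbar) ℚ
      (W.map (Int.castRingHom ℚ)).toAffine p g)) :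
    g • g • x - t • (g • x) + d • x = 0 := by
  have hHG := Fermat.Agent.S30.geometricInputsFull.1 M
  have hc : HeckeOperatorsCommuteBar M := hHG.1
  have hcheb := h30e_cheb W hΔ hp M S hpS hMS hWS hc 1
  obtain ⟨τ, δ, hES, -, -, hT, hD, hKτ, hKδ⟩ := hcheb
  have hy : p • (g • x) = 0 := h30e_smul_nsmul M p x hx g
  have hymem : g • x ∈ Submodule.torsionBy ℤ (JZero M) ((p : ℤ) ^ 1) := by
    rw [Submodule.mem_torsionBy_iff, pow_one, natCast_zsmul]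
    exact hy
  have h1 := congrArg (fun φ : AddMonoid.End (h30xTors M p 1) =>
    ((φ ⟨g • x, hymem⟩ : h30xTors M p 1) : JZero M)) (hES g)
  have h2 : g • g • x + tpjHecke M hc (h30xKap S (δ g)) (g⁻¹ • g • x) =
      tpjHecke M hc (h30xKap S (τ g)) (g • x) := h1
  rw [inv_smul_smul] at h2
  have e1 := h30e_eval_eigen W M S hc x hx heig (δ g) d (by rw [hd, hD g, hKδ g])
  have e2 := h30e_eval_eigen W M S hc (g • x) hy (h30e_eigen_smul W M S x heig g) (τ g) t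
    (by rw [ht, hT g, hKτ g])
  rw [e1, e2] at h2
  rw [← h2]
  abel

end Fermat.Agent.P7
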