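import Mathlib
import Fermat.Agent.P7.H38ResFFAll
import Fermat.Agent.P7.H83ResNorm
import Fermat.Agent.Red.CH0

/-!
# Wave 7, DLOG at the non-good level: DL2 for a norm, all `f` regular off `oo` (helper38)

The statements of helper83's `h83o_resid_norm`, `h83o_resid_normAlong`, `h83o_resid_norm_FF`
without the hypothesis that `f` has a pole at `oo` (so constants are covered); values of `f` in
the shape `f - f(v) ∈ 𝔪_v` (`ValueAt` for `FF N`).

* `h38n_resid_norm_all` : `Algebra F F'` form.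
* `h38n_resid_normAlong_all` : along `φ : F →ₐ[K] F'`.
* `h38n_resid_norm_FF_all` : `FF N → FF M`, `N ∣ M`, `φ = degen h`.
-/

set_option autoImplicit false
set_option linter.unusedSectionVars false
set_option linter.style.haveILetI false

open AlgebraicCurve IntermediateField ModularCurve

noncomputable section

namespace Fermat.Agent.P7

open Fermat.Agent.S24.DiffPlace Fermat.Agent.Red.Desc Fermat.Agent.S37

section Rel

variable {K F F' : Type*} [Field K] [IsAlgClosed K] [CharZero K] [Field F] [Field F']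
  [Algebra K F] [Algebra K F'] [Algebra F F'] [IsScalarTower K F F']
  [FiniteDimensional F F'] [HasPrincipalDivisors K F'] [HasPrincipalDivisors K F]

/-- **DL2 for a norm, all `f` regular off `oo`.** -/
theorem h38n_resid_norm_all (x' : F') [FiniteDimensional K⟮x'⟯ F']
    (x : F) [FiniteDimensional K⟮x⟯ F]
    (ι : F →ₐ[K] LaurentSeries K) (oo : Place K F)
    (hι : ∀ y : F, y ≠ 0 → oo.ord y = (ι y).order)
    (f : F) (hreg : ∀ v : Place K F, v ≠ oo → 0 ≤ v.ord f)
    (fv : Place K F → K)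
    (hfv : ∀ v : Place K F, v ≠ oo →
      f - algebraMap K F (fv v) ∈ v.toValuationSubring.nonunits)
    (g' : F') (hg' : g' ≠ 0) (S' : Finset (Place K F'))
    (hS1 : ∀ w ∈ S', w.restrict F ≠ oo)
    (hS2 : ∀ w : Place K F', w.restrict F ≠ oo → w.ord g' ≠ 0 → w ∈ S') :
    (ι f * h96dLog (ι (Algebra.norm F g'))).coeff 0 =
      -∑ w ∈ S', (w.ord g' : K) * fv (w.restrict F) := by
  classical
  have hN0 : Algebra.norm F g' ≠ 0 := by
    rw [Ne, Algebra.norm_eq_zero_iff]
    exact hg'
  set S : Finset (Place K F) := S'.image (fun w => w.restrict F) with hS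
  have hooS : oo ∉ S := by
    intro h
    obtain ⟨w, hw, hwoo⟩ := Finset.mem_image.mp h
    exact hS1 w hw hwoo
  have hnorm : ∀ v : Place K F, v ≠ oo →
      v.ord (Algebra.norm F g') = ∑ w ∈ S' with w.restrict F = v, w.ord g' := fun v hv =>
    h83o_ord_norm_eq_sum x' g' hg' S' v fun w hwv h0 => hS2 w (hwv ▸ hv) h0
  have hS2' : ∀ v : Place K F, v ≠ oo → v.ord (Algebra.norm F g') ≠ 0 → v ∈ S := by
    intro v hv h0
    rw [hnorm v hv] at h0
    obtain ⟨w, hw, -⟩ := Finset.exists_ne_zero_of_sum_ne_zero h0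
    rw [Finset.mem_filter] at hw
    exact Finset.mem_image.mpr ⟨w, hw.1, hw.2⟩
  rw [h38g_resid_gen_all x ι oo hι f hreg fv hfv (Algebra.norm F g') hN0 S hooS hS2']
  congr 1
  rw [← Finset.sum_fiberwise_of_maps_to (s := S') (t := S) (g := fun w => w.restrict F)
    (f := fun w => (w.ord g' : K) * fv (w.restrict F))
    (fun w hw => Finset.mem_image.mpr ⟨w, hw, rfl⟩)]
  refine Finset.sum_congr rfl fun v hv => ?_
  have hvoo : v ≠ oo := fun h => hooS (h ▸ hv)
  rw [hnorm v hvoo, Int.cast_sum, Finset.sum_mul]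
  refine Finset.sum_congr rfl fun w hw => ?_
  rw [Finset.mem_filter] at hw
  rw [hw.2]

end Rel

section Along

variable {K F F' : Type*} [Field K] [IsAlgClosed K] [CharZero K] [Field F] [Field F']
  [Algebra K F] [Algebra K F'] [HasPrincipalDivisors K F] [HasPrincipalDivisors K F']

/-- **DL2 for a norm, `Along` form, all `f` regular off `oo`.** -/
theorem h38n_resid_normAlong_all (φ : F →ₐ[K] F') (hφ : φ.toRingHom.IsIntegral)
    (hfin : FiniteAlong K φ) (x' : F') [FiniteDimensional K⟮x'⟯ F']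
    (x : F) [FiniteDimensional K⟮x⟯ F]
    (ι : F →ₐ[K] LaurentSeries K) (oo : Place K F)
    (hι : ∀ y : F, y ≠ 0 → oo.ord y = (ι y).order)
    (f : F) (hreg : ∀ v : Place K F, v ≠ oo → 0 ≤ v.ord f)
    (fv : Place K F → K)
    (hfv : ∀ v : Place K F, v ≠ oo →
      f - algebraMap K F (fv v) ∈ v.toValuationSubring.nonunits)
    (g' : F') (hg' : g' ≠ 0) (S' : Finset (Place K F'))
    (hS1 : ∀ w ∈ S', w.restrictAlong φ hφ ≠ oo)
    (hS2 : ∀ w : Place K F', w.restrictAlong φ hφ ≠ oo → w.ord g' ≠ 0 → w ∈ S') :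
    (ι f * h96dLog (ι (Fermat.Agent.Red.KR.normAlong φ g'))).coeff 0 =
      -∑ w ∈ S', (w.ord g' : K) * fv (w.restrictAlong φ hφ) := by
  letI := algebraAlong φ
  haveI := isScalarTower_along φ
  haveI : Module.Finite F F' := hfin
  exact h38n_resid_norm_all x' x ι oo hι f hreg fv hfv g' hg' S' hS1 hS2

end Along

/-- **DL2 for a norm, `FF N → FF M`, all `f` regular off `oo`** (no pole hypothesis). -/
theorem h38n_resid_norm_FF_all {N M : ℕ} [NeZero N] [NeZero M] (h : N ∣ M)
    (oo : Place Kbar (FF N))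
    (hoo : ∀ y : FF N, y ≠ 0 → oo.ord y = ((y : FF N) : LaurentSeries Kbar).order)
    (f : FF N) (hreg : ∀ v : Place Kbar (FF N), v ≠ oo → 0 ≤ v.ord f)
    (fv : Place Kbar (FF N) → Kbar)
    (hfv : ∀ v : Place Kbar (FF N), v ≠ oo → ValueAt v f (fv v))
    (g' : FF M) (hg' : g' ≠ 0) (S' : Finset (Place Kbar (FF M)))
    (hS1 : ∀ w ∈ S', w.restrictAlong (degen h) (Fermat.Agent.Red.CH0.isIntegral_degen h) ≠ oo)
    (hS2 : ∀ w : Place Kbar (FF M),
      w.restrictAlong (degen h) (Fermat.Agent.Red.CH0.isIntegral_degen h) ≠ oo →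
        w.ord g' ≠ 0 → w ∈ S') :
    (((f : FF N) : LaurentSeries Kbar) *
        h96dLog (((Fermat.Agent.Red.KR.normAlong (degen h) g' : FF N)) :
          LaurentSeries Kbar)).coeff 0 =
      -∑ w ∈ S', (w.ord g' : Kbar) *
        fv (w.restrictAlong (degen h) (Fermat.Agent.Red.CH0.isIntegral_degen h)) := by
  haveI := Fermat.Agent.Red.HKMod.finiteDimensional_jBar N
  haveI := Fermat.Agent.Red.HKMod.finiteDimensional_jBar M
  haveI := Fermat.Agent.Red.HKMod.hasPrincipalDivisors_FF N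
  haveI := Fermat.Agent.Red.HKMod.hasPrincipalDivisors_FF M
  exact h38n_resid_normAlong_all (degen h) (Fermat.Agent.Red.CH0.isIntegral_degen h)
    (Fermat.Agent.Red.CH0.finiteAlong_degen h) (Fermat.Agent.S24.jBar M) (Fermat.Agent.S24.jBar N)
    (modularFunctionFieldBar N).val oo hoo f hreg fv hfv g' hg' S' hS1 hS2

end Fermat.Agent.P7
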