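import Fermat.Agent.Red.GV.Defs
import Fermat.Agent.P7.H96Dlog

/-!
# Wave 7 (S44), DLOG at the non-good level, leaf H2-RED (helper46, prefix `h46d_`)

Reduction commutes with the logarithmic derivative.

`R` a commutative ring, `φ : R →+* K` a ring homomorphism to a field, `coeffMap φ` the
coefficientwise map `R((q)) → K((q))`.

* `h46dTheta s = q ds/dq` on `R((q))`; `h46d_coeffMap_theta : coeffMap φ (θ s) = θ (coeffMap φ s)`.
* `h46d_coeffMap_inv` : `b c = 1` in `R((q))` ⟹ `(coeffMap φ b)⁻¹ = coeffMap φ c`.
* `h46d_coeffMap_dlog` : `b c = 1` ⟹ `coeffMap φ (a * (θ b * c)) = coeffMap φ a * dlog (coeffMap φ b)`.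
* `h46d_exists_inv` : a power series with unit constant term is a unit of `R((q))`.
* `h46d_dlog_red` : **H2-RED**.  `A` a valuation subring of `K`, `π : A →+* k`, `a b : A((q))`,
  `b` a power series with unit constant term.  Then there is `r : A` with
  `(embA a * dlog (embA b)).coeff 0 = r` and `(redA a * dlog (redA b)).coeff 0 = π r`.
* `h46d_dlog_red_zero` : if moreover the characteristic-zero coefficient is a nonunit of `A`
  (`π` kills the nonunits), then `(redA a * dlog (redA b)).coeff 0 = 0`.
-/

set_option autoImplicit false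

open HahnSeries ModularCurve

noncomputable section

namespace Fermat.Agent.P7

open Fermat.Agent.Red.GV

section Ring

variable {R : Type*} [CommRing R]

/-- `θ s = q ds/dq` on `R((q))`. -/
def h46dTheta (s : LaurentSeries R) : LaurentSeries R where
  coeff n := (n : R) * s.coeff n
  isPWO_support' := s.isPWO_support.mono (fun n hn => by
    simp only [Function.mem_support, ne_eq] at hn ⊢
    exact fun h0 => hn (by rw [h0, mul_zero]))

@[simp] theorem h46d_coeff_theta (s : LaurentSeries R) (n : ℤ) :
    (h46dTheta s).coeff n = (n : R) * s.coeff n := rfl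

variable {K : Type*} [Field K] (φ : R →+* K)

/-- the coefficientwise map commutes with `θ`. -/
theorem h46d_coeffMap_theta (s : LaurentSeries R) :
    coeffMap φ (h46dTheta s) = h96dTheta (coeffMap φ s) := by
  ext n
  rw [coeffMap_coeff, h46d_coeff_theta, h96d_coeff_theta, coeffMap_coeff, map_mul, map_intCast]

/-- the coefficientwise map sends an inverse to the inverse. -/
theorem h46d_coeffMap_inv {b c : LaurentSeries R} (hbc : b * c = 1) :
    (coeffMap φ b)⁻¹ = coeffMap φ c := by
  have h : coeffMap φ b * coeffMap φ c = 1 := by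
    rw [← map_mul, hbc, map_one]
  exact inv_eq_of_eq_one_left' h
  where
    inv_eq_of_eq_one_left' {x y : LaurentSeries K} (h : x * y = 1) : x⁻¹ = y :=
      inv_eq_of_mul_eq_one_right h

/-- the coefficientwise map commutes with `a * dlog b` for a unit `b`. -/
theorem h46d_coeffMap_dlog (a : LaurentSeries R) {b c : LaurentSeries R} (hbc : b * c = 1) :
    coeffMap φ (a * (h46dTheta b * c)) = coeffMap φ a * h96dLog (coeffMap φ b) := by
  rw [map_mul, map_mul, h46d_coeffMap_theta, h96dLog, h46d_coeffMap_inv φ hbc]

/-- a power series with unit constant term is a unit of `R((q))`. -/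
theorem h46d_exists_inv (b : LaurentSeries R) (hneg : ∀ n : ℤ, n < 0 → b.coeff n = 0)
    (hunit : IsUnit (b.coeff 0)) : ∃ c : LaurentSeries R, b * c = 1 := by
  classical
  set P : PowerSeries R := PowerSeries.mk fun n => b.coeff (n : ℤ) with hP
  have hPb : ((P : PowerSeries R) : LaurentSeries R) = b := by
    ext n
    rw [PowerSeries.coeff_coe]
    split_ifs with h
    · exact (hneg n h).symm
    · rw [hP, PowerSeries.coeff_mk]
      congr 1
      exact Int.natAbs_of_nonneg (not_lt.mp h)
  have hu : IsUnit P := by
    rw [PowerSeries.isUnit_iff_constantCoeff]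
    have : PowerSeries.constantCoeff P = b.coeff 0 := by
      rw [← PowerSeries.coeff_zero_eq_constantCoeff_apply, hP, PowerSeries.coeff_mk]
      rfl
    rw [this]
    exact hunit
  obtain ⟨u, hu'⟩ := hu
  refine ⟨((↑u⁻¹ : PowerSeries R) : LaurentSeries R), ?_⟩
  rw [← hPb, ← hu']
  have h1 : ((u : PowerSeries R) : LaurentSeries R) * ((↑u⁻¹ : PowerSeries R) : LaurentSeries R)
      = (((u : PowerSeries R) * (↑u⁻¹ : PowerSeries R) : PowerSeries R) : LaurentSeries R) := by
    push_cast
    rfl
  rw [h1, Units.mul_inv]
  push_cast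
  rfl

end Ring

section Val

variable {K : Type} [Field K] (A : ValuationSubring K) {k : Type} [Field k] (π : A →+* k)

/-- **H2-RED**: the constant coefficient of `a * dlog b` is integral, and its residue is the
constant coefficient of the reduced product. -/
theorem h46d_dlog_red (a b : LaurentSeries A) (hneg : ∀ n : ℤ, n < 0 → b.coeff n = 0)
    (hunit : IsUnit (b.coeff 0)) :
    ∃ r : A, (embA A a * h96dLog (embA A b)).coeff 0 = (r : K) ∧
      (redA π a * h96dLog (redA π b)).coeff 0 = π r := by
  obtain ⟨c, hbc⟩ := h46d_exists_inv b hneg hunit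
  refine ⟨(a * (h46dTheta b * c)).coeff 0, ?_, ?_⟩
  · have h := h46d_coeffMap_dlog A.subtype a hbc
    have h2 : embA A a * h96dLog (embA A b) = coeffMap A.subtype (a * (h46dTheta b * c)) :=
      h.symm
    rw [h2, coeffMap_coeff]
    rfl
  · have h := h46d_coeffMap_dlog π a hbc
    have h2 : redA π a * h96dLog (redA π b) = coeffMap π (a * (h46dTheta b * c)) := h.symm
    rw [h2, coeffMap_coeff]

/-- **H2-RED, vanishing form**: if the characteristic-zero coefficient is killed by `π`
(e.g. it is a nonunit of `A` and `π` is the residue map), the reduced coefficient is `0`. -/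
theorem h46d_dlog_red_zero (a b : LaurentSeries A) (hneg : ∀ n : ℤ, n < 0 → b.coeff n = 0)
    (hunit : IsUnit (b.coeff 0))
    (hker : ∀ x : A, (x : K) ∈ A.nonunits → π x = 0)
    (hval : (embA A a * h96dLog (embA A b)).coeff 0 ∈ A.nonunits) :
    (redA π a * h96dLog (redA π b)).coeff 0 = 0 := by
  obtain ⟨r, hr, hr'⟩ := h46d_dlog_red A π a b hneg hunit
  rw [hr', hker r (by rw [← hr]; exact hval)]

end Val

end Fermat.Agent.P7
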