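import Mathlib
import Fermat.Agent.P7.H38ResNormAll
import Fermat.Agent.P7.H46DlogRed
import Fermat.Agent.Red.GV.Bar

/-!
# Wave 7, DLOG at the non-good level: the back half of ORTH(M) (helper38, prefix `h38o_`)

Steps (5), (6), (7) of the plan of ORTH(M) (finding 1473) in one statement, with the outputs of
the front half (LIFT, DISC, PS-INT, S0, EVAL) as primitive hypotheses.

`M ∣ M'` levels, `A` a valuation subring of `ℚ̄`, `k` its residue field, `Q` the `q`-order place
of `FF M`, `f ∈ FF M` Gauss-integral and regular off `Q`, `g' ∈ FF M'`, `g = Nm g'`.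

* `h38o_res_nonunit` : the characteristic zero residue `a₀(f · dlog g)` is a nonunit of `A` as
  soon as `∑_w ord_w(g') f(w)` is one (DL2 for a norm).
* `h38o_red_zero` : if moreover the `q`-expansions of `f` and `g` have coefficients in `A`, the
  one of `g` being a power series with unit constant term, then
  `a₀(red f · dlog (red g)) = 0` (RED).
* `h38o_orth_back` : if moreover `dlog (red g) = d · dlog s` with `d ≠ 0` in `k`, then
  `a₀(red f · dlog s) = 0`.
* `h38o_orth_back_pow` : the same with `red g = c · s ^ d`, `c ≠ 0`.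
-/

set_option autoImplicit false
set_option linter.unusedSectionVars false
set_option linter.style.haveILetI false

open AlgebraicCurve IntermediateField ModularCurve IsLocalRing

noncomputable section

namespace Fermat.Agent.P7

open Fermat.Agent.S37 Fermat.Agent.Red.GV

variable {M M' : ℕ} [NeZero M] [NeZero M'] (A : ValuationSubring Kbar)

/-- the residue map kills the nonunits. -/
theorem h38o_residue_nonunit (x : A) (hx : (x : Kbar) ∈ A.nonunits) : residue A x = 0 := by
  rw [IsLocalRing.residue_eq_zero_iff, ← ValuationSubring.coe_mem_nonunits_iff]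
  exact hx

/-- the negative of a nonunit is a nonunit. -/
theorem h38o_neg_nonunit {x : Kbar} (hx : x ∈ A.nonunits) : -x ∈ A.nonunits := by
  rw [A.mem_nonunits_iff] at hx ⊢
  rwa [Valuation.map_neg]

/-- **DL2 for a norm, integral form**: the residue `a₀(f · dlog (Nm g'))` is a nonunit of `A`
when the sum of the values of `f` over the divisor of `g'` is one. -/
theorem h38o_res_nonunit (h : M ∣ M') (Q : Place Kbar (FF M))
    (hQ : ∀ y : FF M, y ≠ 0 → ((y : FF M) : LaurentSeries Kbar).order = Q.ord y)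
    (f : FF M) (hreg : ∀ v : Place Kbar (FF M), v ≠ Q → 0 ≤ v.ord f)
    (fv : Place Kbar (FF M) → Kbar)
    (hfv : ∀ v : Place Kbar (FF M), v ≠ Q → ValueAt v f (fv v))
    (g' : FF M') (hg' : g' ≠ 0) (S' : Finset (Place Kbar (FF M')))
    (hS1 : ∀ w ∈ S', w.restrictAlong (degen h) (Fermat.Agent.Red.CH0.isIntegral_degen h) ≠ Q)
    (hS2 : ∀ w : Place Kbar (FF M'),
      w.restrictAlong (degen h) (Fermat.Agent.Red.CH0.isIntegral_degen h) ≠ Q →
        w.ord g' ≠ 0 → w ∈ S')
    (hsum : ∑ w ∈ S', (w.ord g' : Kbar) *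
        fv (w.restrictAlong (degen h) (Fermat.Agent.Red.CH0.isIntegral_degen h)) ∈ A.nonunits) :
    (((f : FF M) : LaurentSeries Kbar) *
        h96dLog (((Fermat.Agent.Red.KR.normAlong (degen h) g' : FF M)) :
          LaurentSeries Kbar)).coeff 0 ∈ A.nonunits := by
  rw [h38n_resid_norm_FF_all h Q (fun y hy => (hQ y hy).symm) f hreg fv hfv g' hg' S' hS1 hS2]
  exact h38o_neg_nonunit A hsum

/-- **DL2 + RED**: `a₀(red f · dlog (red (Nm g'))) = 0`. -/
theorem h38o_red_zero (h : M ∣ M') (Q : Place Kbar (FF M))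
    (hQ : ∀ y : FF M, y ≠ 0 → ((y : FF M) : LaurentSeries Kbar).order = Q.ord y)
    (f : FF M) (hreg : ∀ v : Place Kbar (FF M), v ≠ Q → 0 ≤ v.ord f)
    (a : LaurentSeries A) (ha : embA A a = ((f : FF M) : LaurentSeries Kbar))
    (fv : Place Kbar (FF M) → Kbar)
    (hfv : ∀ v : Place Kbar (FF M), v ≠ Q → ValueAt v f (fv v))
    (g' : FF M') (hg' : g' ≠ 0)
    (b : LaurentSeries A)
    (hb : embA A b =
      (((Fermat.Agent.Red.KR.normAlong (degen h) g' : FF M)) : LaurentSeries Kbar))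
    (hbneg : ∀ n : ℤ, n < 0 → b.coeff n = 0) (hbunit : IsUnit (b.coeff 0))
    (S' : Finset (Place Kbar (FF M')))
    (hS1 : ∀ w ∈ S', w.restrictAlong (degen h) (Fermat.Agent.Red.CH0.isIntegral_degen h) ≠ Q)
    (hS2 : ∀ w : Place Kbar (FF M'),
      w.restrictAlong (degen h) (Fermat.Agent.Red.CH0.isIntegral_degen h) ≠ Q →
        w.ord g' ≠ 0 → w ∈ S')
    (hsum : ∑ w ∈ S', (w.ord g' : Kbar) *
        fv (w.restrictAlong (degen h) (Fermat.Agent.Red.CH0.isIntegral_degen h)) ∈ A.nonunits) :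
    (redA (residue A) a * h96dLog (redA (residue A) b)).coeff 0 = 0 := by
  have h1 := h38o_res_nonunit A h Q hQ f hreg fv hfv g' hg' S' hS1 hS2 hsum
  rw [← ha, ← hb] at h1
  exact h46d_dlog_red_zero A (residue A) a b hbneg hbunit (h38o_residue_nonunit A) h1

/-- **the back half of ORTH(M)**, `dlog` form: `dlog (red g) = d · dlog s`, `d ≠ 0` in `k`. -/
theorem h38o_orth_back (h : M ∣ M') (Q : Place Kbar (FF M))
    (hQ : ∀ y : FF M, y ≠ 0 → ((y : FF M) : LaurentSeries Kbar).order = Q.ord y)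
    (f : FF M) (hf : f ∈ gaussV A M) (hreg : ∀ v : Place Kbar (FF M), v ≠ Q → 0 ≤ v.ord f)
    (a : LaurentSeries A) (ha : embA A a = ((f : FF M) : LaurentSeries Kbar))
    (fv : Place Kbar (FF M) → Kbar)
    (hfv : ∀ v : Place Kbar (FF M), v ≠ Q → ValueAt v f (fv v))
    (g' : FF M') (hg' : g' ≠ 0)
    (b : LaurentSeries A)
    (hb : embA A b =
      (((Fermat.Agent.Red.KR.normAlong (degen h) g' : FF M)) : LaurentSeries Kbar))
    (hbneg : ∀ n : ℤ, n < 0 → b.coeff n = 0) (hbunit : IsUnit (b.coeff 0))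
    (s : LaurentSeries (ResidueField A)) (d : ℕ) (hd : ((d : ℕ) : ResidueField A) ≠ 0)
    (hs : h96dLog (redA (residue A) b) = d • h96dLog s)
    (S' : Finset (Place Kbar (FF M')))
    (hS1 : ∀ w ∈ S', w.restrictAlong (degen h) (Fermat.Agent.Red.CH0.isIntegral_degen h) ≠ Q)
    (hS2 : ∀ w : Place Kbar (FF M'),
      w.restrictAlong (degen h) (Fermat.Agent.Red.CH0.isIntegral_degen h) ≠ Q →
        w.ord g' ≠ 0 → w ∈ S')
    (hsum : ∑ w ∈ S', (w.ord g' : Kbar) *
        fv (w.restrictAlong (degen h) (Fermat.Agent.Red.CH0.isIntegral_degen h)) ∈ A.nonunits) :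
    (gaussR A M ⟨f, hf⟩ * h96dLog s).coeff 0 = 0 := by
  have h0 := h38o_red_zero A h Q hQ f hreg a ha fv hfv g' hg' b hb hbneg hbunit S' hS1 hS2 hsum
  have hfr : gaussR A M ⟨f, hf⟩ = redA (residue A) a :=
    gaussRed_of_embA A (residue A) M ⟨f, hf⟩ a ha
  rw [hs, mul_smul_comm, HahnSeries.coeff_smul, nsmul_eq_mul] at h0
  rw [hfr]
  rcases mul_eq_zero.mp h0 with h1 | h1
  · exact absurd h1 hd
  · exact h1

/-- **the back half of ORTH(M)**, power form: `red g = c · s ^ d`, `c ≠ 0`, `d ≠ 0` in `k`. -/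
theorem h38o_orth_back_pow (h : M ∣ M') (Q : Place Kbar (FF M))
    (hQ : ∀ y : FF M, y ≠ 0 → ((y : FF M) : LaurentSeries Kbar).order = Q.ord y)
    (f : FF M) (hf : f ∈ gaussV A M) (hreg : ∀ v : Place Kbar (FF M), v ≠ Q → 0 ≤ v.ord f)
    (a : LaurentSeries A) (ha : embA A a = ((f : FF M) : LaurentSeries Kbar))
    (fv : Place Kbar (FF M) → Kbar)
    (hfv : ∀ v : Place Kbar (FF M), v ≠ Q → ValueAt v f (fv v))
    (g' : FF M') (hg' : g' ≠ 0)
    (b : LaurentSeries A)
    (hb : embA A b =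
      (((Fermat.Agent.Red.KR.normAlong (degen h) g' : FF M)) : LaurentSeries Kbar))
    (hbneg : ∀ n : ℤ, n < 0 → b.coeff n = 0) (hbunit : IsUnit (b.coeff 0))
    (s : LaurentSeries (ResidueField A)) (hs0 : s ≠ 0) (d : ℕ)
    (hd : ((d : ℕ) : ResidueField A) ≠ 0) (c : ResidueField A) (hc : c ≠ 0)
    (hs : redA (residue A) b = HahnSeries.C c * s ^ d)
    (S' : Finset (Place Kbar (FF M')))
    (hS1 : ∀ w ∈ S', w.restrictAlong (degen h) (Fermat.Agent.Red.CH0.isIntegral_degen h) ≠ Q)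
    (hS2 : ∀ w : Place Kbar (FF M'),
      w.restrictAlong (degen h) (Fermat.Agent.Red.CH0.isIntegral_degen h) ≠ Q →
        w.ord g' ≠ 0 → w ∈ S')
    (hsum : ∑ w ∈ S', (w.ord g' : Kbar) *
        fv (w.restrictAlong (degen h) (Fermat.Agent.Red.CH0.isIntegral_degen h)) ∈ A.nonunits) :
    (gaussR A M ⟨f, hf⟩ * h96dLog s).coeff 0 = 0 := by
  refine h38o_orth_back A h Q hQ f hf hreg a ha fv hfv g' hg' b hb hbneg hbunit s d hd ?_
    S' hS1 hS2 hsum
  have hC : (HahnSeries.C c : LaurentSeries (ResidueField A)) ≠ 0 := by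
    rw [Ne, map_eq_zero]
    exact hc
  rw [hs, h96d_log_mul hC (pow_ne_zero d hs0), h96d_log_C, zero_add, h96d_log_pow hs0]

end Fermat.Agent.P7
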