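import Fermat.Agent.P7.H66S0Iface
import Fermat.Agent.Red.KR.Basic
import Fermat.Agent.Red.CH0

/-!
# Wave 7, DLOG at the level `M`, row H2-S0 (D) NORM-RED (twin, helper59, prefix `h59n_`)

From the frozen leaf `H66sFullDeg` (full residue degree of the Gauss valuation of level
`M⁺ = goodLevel p M` over the one of level `M`, `P7/H66S0Iface.lean`) and helper87's abstract
`h87v_norm_congr` / `h87v_norm_unit`:

* `h59n_normRed` : `x ∈ softV A M⁺`, `y ∈ softV A M` with `softR x = softR y`  ⟹
  `Nm x ∈ softV A M` and `softR (Nm x) = (softR y) ^ d`, `d = [FF M⁺ : FF M]`,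
  `Nm = normAlong (degen _)`;
* `h59n_norm_mem` : `Nm (softV A M⁺) ⊆ softV A M`;
* `h59n_norm_unit` : the norm of a Gauss unit is a Gauss unit.

Nothing is assumed (`H66sFullDeg` is an explicit hypothesis).
-/

set_option autoImplicit false
set_option linter.unusedSectionVars false
set_option linter.style.haveILetI false

open AlgebraicCurve ModularCurve

noncomputable section

namespace Fermat.Agent.P7

open Fermat.Agent.S37 Fermat.Agent.Red.GV Fermat.Agent.Red.GV.Soft
open Fermat.Agent.Red.KR (normAlong)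

/-- the norm of a Gauss-integral function of level `M⁺` is Gauss-integral of level `M`. -/
theorem h59n_norm_mem (hF : H66sFullDeg) {p : ℕ} (hp : p.Prime) (M : ℕ) [NeZero M]
    (hM : ¬ p ∣ M) (A : ValuationSubring Kbar) (hA : A.LiesOverPrime p)
    (x : FF (goodLevel p M)) (hx : x ∈ softV A (goodLevel p M)) :
    normAlong (degen (dvd_goodLevel p M)) x ∈ softV A M := by
  letI := algebraAlong (degen (dvd_goodLevel p M))
  haveI : Module.Finite (FF M) (FF (goodLevel p M)) :=
    Fermat.Agent.Red.CH0.finiteAlong_degen (dvd_goodLevel p M)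
  obtain ⟨b, hb⟩ := hF p hp M hM A hA
  have hU : ∀ z : FF M, z ∈ softRing A M hp hA ↔
      algebraMap (FF M) (FF (goodLevel p M)) z ∈ softRing A (goodLevel p M) hp hA :=
    fun z => (degen_mem_softV_iff A (dvd_goodLevel p M) z).symm
  have hcard : Fintype.card (Fin (finrankAlong Kbar (degen (dvd_goodLevel p M)))) =
      Module.finrank (FF M) (FF (goodLevel p M)) := by
    rw [Fintype.card_fin]
    rfl
  exact h87v_norm_mem (softRing A M hp hA) (softRing A (goodLevel p M) hp hA) hU hb hcard hx

/-- the norm of a Gauss unit of level `M⁺` is a Gauss unit of level `M`. -/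
theorem h59n_norm_unit (hF : H66sFullDeg) {p : ℕ} (hp : p.Prime) (M : ℕ) [NeZero M]
    (hM : ¬ p ∣ M) (A : ValuationSubring Kbar) (hA : A.LiesOverPrime p)
    (x : FF (goodLevel p M)) (hx : x ∈ softV A (goodLevel p M))
    (hxi : x⁻¹ ∈ softV A (goodLevel p M)) :
    normAlong (degen (dvd_goodLevel p M)) x ∈ softV A M ∧
      (normAlong (degen (dvd_goodLevel p M)) x)⁻¹ ∈ softV A M := by
  letI := algebraAlong (degen (dvd_goodLevel p M))
  haveI : Module.Finite (FF M) (FF (goodLevel p M)) :=
    Fermat.Agent.Red.CH0.finiteAlong_degen (dvd_goodLevel p M)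
  obtain ⟨b, hb⟩ := hF p hp M hM A hA
  have hU : ∀ z : FF M, z ∈ softRing A M hp hA ↔
      algebraMap (FF M) (FF (goodLevel p M)) z ∈ softRing A (goodLevel p M) hp hA :=
    fun z => (degen_mem_softV_iff A (dvd_goodLevel p M) z).symm
  have hcard : Fintype.card (Fin (finrankAlong Kbar (degen (dvd_goodLevel p M)))) =
      Module.finrank (FF M) (FF (goodLevel p M)) := by
    rw [Fintype.card_fin]
    rfl
  exact h87v_norm_unit (softRing A M hp hA) (softRing A (goodLevel p M) hp hA) hU hb hcard hx hxi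

/-- **NORM-RED**: the reduction of the norm of `x` is the `d`-th power of the reduction of `x`
when the latter is the reduction of a function of level `M`. -/
theorem h59n_normRed (hF : H66sFullDeg) {p : ℕ} (hp : p.Prime) (M : ℕ) [NeZero M]
    (hM : ¬ p ∣ M) (A : ValuationSubring Kbar) (hA : A.LiesOverPrime p)
    (x : FF (goodLevel p M)) (hx : x ∈ softV A (goodLevel p M))
    (y : FF M) (hy : y ∈ softV A M)
    (hxy : softR A (goodLevel p M) ⟨x, hx⟩ = softR A M ⟨y, hy⟩) :
    ∃ h : normAlong (degen (dvd_goodLevel p M)) x ∈ softV A M,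
      softR A M ⟨normAlong (degen (dvd_goodLevel p M)) x, h⟩ =
        softR A M ⟨y, hy⟩ ^ finrankAlong Kbar (degen (dvd_goodLevel p M)) := by
  have hmem := h59n_norm_mem hF hp M hM A hA x hx
  refine ⟨hmem, ?_⟩
  letI := algebraAlong (degen (dvd_goodLevel p M))
  haveI : Module.Finite (FF M) (FF (goodLevel p M)) :=
    Fermat.Agent.Red.CH0.finiteAlong_degen (dvd_goodLevel p M)
  obtain ⟨b, hb⟩ := hF p hp M hM A hA
  have hU : ∀ z : FF M, z ∈ softRing A M hp hA ↔
      algebraMap (FF M) (FF (goodLevel p M)) z ∈ softRing A (goodLevel p M) hp hA :=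
    fun z => (degen_mem_softV_iff A (dvd_goodLevel p M) z).symm
  have hcard : Fintype.card (Fin (finrankAlong Kbar (degen (dvd_goodLevel p M)))) =
      Module.finrank (FF M) (FF (goodLevel p M)) := by
    rw [Fintype.card_fin]
    rfl
  have hdy : degen (dvd_goodLevel p M) y ∈ softV A (goodLevel p M) :=
    (degen_mem_softV_iff A (dvd_goodLevel p M) y).mpr hy
  have hsub : x - degen (dvd_goodLevel p M) y ∈ softV A (goodLevel p M) := sub_mem hx hdy
  have hyc : x - algebraMap (FF M) (FF (goodLevel p M)) y ∈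
      (softRing A (goodLevel p M) hp hA).nonunits := by
    have h1 : softR A (goodLevel p M) ⟨x - degen (dvd_goodLevel p M) y, hsub⟩ = 0 := by
      have e : (⟨x - degen (dvd_goodLevel p M) y, hsub⟩ : softV A (goodLevel p M)) =
          ⟨x, hx⟩ - ⟨degen (dvd_goodLevel p M) y, hdy⟩ := rfl
      rw [e, map_sub, hxy, softR_degen A (dvd_goodLevel p M) ⟨y, hy⟩ hdy, sub_self]
    exact (softR_eq_zero_iff_mem_nonunits A (goodLevel p M) hp hA _).1 h1
  have h2 := h87v_norm_congr (softRing A M hp hA) (softRing A (goodLevel p M) hp hA) hU hb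
    hcard hx hy hyc
  have hpow : y ^ Module.finrank (FF M) (FF (goodLevel p M)) ∈ softV A M := pow_mem hy _
  have hdiff : normAlong (degen (dvd_goodLevel p M)) x -
      y ^ Module.finrank (FF M) (FF (goodLevel p M)) ∈ softV A M := sub_mem hmem hpow
  have h3 : softR A M ⟨_, hdiff⟩ = 0 :=
    (softR_eq_zero_iff_mem_nonunits A M hp hA ⟨_, hdiff⟩).2 h2
  have e2 : (⟨normAlong (degen (dvd_goodLevel p M)) x -
      y ^ Module.finrank (FF M) (FF (goodLevel p M)), hdiff⟩ : softV A M) =
        ⟨normAlong (degen (dvd_goodLevel p M)) x, hmem⟩ -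
          (⟨y, hy⟩ : softV A M) ^ Module.finrank (FF M) (FF (goodLevel p M)) := rfl
  rw [e2, map_sub, map_pow, sub_eq_zero] at h3
  exact h3

end Fermat.Agent.P7
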