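import Fermat.Agent.P7.H93QIntCore
import Fermat.Agent.P5.H13SFIface
import Fermat.Agent.P5.H40RRInst
import Fermat.Agent.P5.H85SFDict
import Fermat.Agent.Red.GV.BarGalois
import Fermat.Agent.S28.RAsm
import Fermat.Agent.S37.Inertia
import Fermat.Agent.Jac.CanCore

/-!
# Wave 7, DLOG at the level `M`, leaf INT (helper93, prefix `h93q_`): the level instance

`N` a level prime to `ℓ`, `A` a valuation subring of `ℚ̄` over `ℓ`, `r` a reduction map of places
(`H13sIsRed A N r`), `voo` the place of `FF N` whose order is the `q`-order, `Qoo` a place of the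
special fibre with `r voo = Qoo` (for the place `Qoo` whose order is the `q`-order of the
reduction this is statement (S2) of finding 1462; here it is a hypothesis `hoo`).

* `h93q_int` : a Gauss-integral function `y`, regular at every place of the fibre `r ⁻¹ Qoo`,
  has its `q`-expansion in `A[[q]]`.
* `h93q_int_unit` : a Gauss unit without zero or pole on the fibre has its `q`-expansion in
  `A[[q]]ˣ` (unit constant coefficient).
* `h93q_int_pole` : a Gauss-integral function regular on the fibre except at `voo` has its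
  `q`-expansion in `A((q))`.

Proof: for `y` regular on the fibre, the value `c = y(voo)` is in `A` (otherwise `1 - y / c` is a
Gauss unit with reduction `1`, regular on the fibre, vanishing at `voo`, against RED-DIV at
`Qoo`); `t = 1 / j` has order `0` on the fibre off `voo` (RED-DIV for `t`: the sum of the orders
on the fibre is `Qoo.ord (red t) ≤ 1`... here we use `voo.ord t = 1` and the fact that the fibre
consists of non-finite places); hence `(y - c) / t` is again Gauss-integral and regular on the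
fibre, and the abstract core `h93q_core` applies.
-/

set_option autoImplicit false
set_option linter.style.haveILetI false
set_option linter.unusedSectionVars false

open HahnSeries ModularCurve AlgebraicCurve

noncomputable section

namespace Fermat.Agent.P7

open Fermat.Agent.S37 Fermat.Agent.Red.GV Fermat.Agent.P5

/-! ### A lower bound for the push-forward of a divisor -/

/-- if `D ≥ 0` on the fibre of `Q`, the sum of `D` over a finite part of the fibre is at most
the value of the push-forward at `Q`. -/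
theorem h93q_sum_le_push {α β : Type*} (r : α → β) (D : α →₀ ℤ) (Q : β)
    (hnn : ∀ v, r v = Q → 0 ≤ D v) (s : Finset α) (hs : ∀ v ∈ s, r v = Q) :
    ∑ v ∈ s, D v ≤ Finsupp.mapDomain r D Q := by
  classical
  have h1 : Finsupp.mapDomain r D Q = ∑ v ∈ D.support, if r v = Q then D v else 0 := by
    rw [Finsupp.mapDomain, Finsupp.sum, Finsupp.finsetSum_apply]
    refine Finset.sum_congr rfl fun v _ => ?_
    rw [Finsupp.single_apply]
  have h2 : ∑ v ∈ D.support, (if r v = Q then D v else 0) =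
      ∑ v ∈ D.support ∪ s, if r v = Q then D v else 0 := by
    refine Finset.sum_subset Finset.subset_union_left fun v _ hv => ?_
    rw [Finsupp.notMem_support_iff.1 hv]
    simp
  have h3 : ∑ v ∈ s, D v = ∑ v ∈ s, if r v = Q then D v else 0 :=
    Finset.sum_congr rfl fun v hv => by rw [if_pos (hs v hv)]
  rw [h1, h2, h3]
  refine Finset.sum_le_sum_of_subset_of_nonneg Finset.subset_union_right fun v _ _ => ?_
  split_ifs with h
  · exact hnn v h
  · exact le_rfl

/-! ### The `q`-expansion of `1 / j` -/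

theorem h93q_jinv_coeff_mem (A : ValuationSubring Kbar) (n : ℤ) :
    ((jK Kbar)⁻¹).coeff n ∈ A := by
  obtain ⟨y, hy⟩ := exists_jqModC_inv A
  have h1 : embA A y * jK Kbar = 1 := by
    rw [← embA_jqModC A, ← map_mul, hy, map_one]
  have h2 : (jK Kbar)⁻¹ = embA A y := (eq_inv_of_mul_eq_one_left h1).symm
  rw [h2, h36_embA_coeff]
  exact (y.coeff n).2

theorem h93q_jK_ne_zero : jK Kbar ≠ 0 := by
  intro h
  have h1 := Fermat.Agent.S28.Asm.order_jqModC' Kbar
  have h2 : (jqModC Kbar) = 0 := h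
  rw [h2, HahnSeries.order_zero] at h1
  omega

theorem h93q_jinv_order : ((jK Kbar)⁻¹).order = 1 := by
  have h0 := h93q_jK_ne_zero
  have h1 : (jK Kbar)⁻¹ * jK Kbar = 1 := inv_mul_cancel₀ h0
  have h2 := HahnSeries.order_mul (inv_ne_zero h0) h0
  rw [h1, HahnSeries.order_one] at h2
  have h3 : (jK Kbar).order = -1 := Fermat.Agent.S28.Asm.order_jqModC' Kbar
  rw [h3] at h2
  omega

theorem h93q_jinv_coeff_zero (n : ℤ) (hn : n ≤ 0) : ((jK Kbar)⁻¹).coeff n = 0 :=
  HahnSeries.coeff_eq_zero_of_lt_order (by rw [h93q_jinv_order]; omega)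

/-! ### The level -/

section Level

variable {N : ℕ} [NeZero N] {A : ValuationSubring Kbar} {ℓ : ℕ}

theorem h93q_coe_ne_zero {f : FF N} (hf : f ≠ 0) : (f : LaurentSeries Kbar) ≠ 0 :=
  fun h => hf (Subtype.ext h)

theorem h93q_coe_sub_cst (y : FF N) (c : Kbar) :
    ((y - cst N c : FF N) : LaurentSeries Kbar) = (y : LaurentSeries Kbar) - HahnSeries.C c := by
  rw [← coe_cst (M := N) c]
  rfl

/-- regular at `voo` implies no coefficient of negative index. -/
theorem h93q_coeff_neg (voo : Place Kbar (FF N))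
    (hvoo : ∀ f : FF N, f ≠ 0 → voo.ord f = (f : LaurentSeries Kbar).order)
    {y : FF N} (hy : y ∈ voo.toValuationSubring) (n : ℤ) (hn : n < 0) :
    (y : LaurentSeries Kbar).coeff n = 0 := by
  rcases eq_or_ne y 0 with rfl | hy0
  · rfl
  · have h1 := (h85f_mem_iff_ord voo hy0).1 hy
    rw [hvoo y hy0] at h1
    exact HahnSeries.coeff_eq_zero_of_lt_order (lt_of_lt_of_le hn h1)

/-- `y - y(voo)` vanishes at `voo`. -/
theorem h93q_sub_cst_ord (voo : Place Kbar (FF N))
    (hvoo : ∀ f : FF N, f ≠ 0 → voo.ord f = (f : LaurentSeries Kbar).order)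
    {y : FF N} (hy : y ∈ voo.toValuationSubring)
    (hne : y - cst N ((y : LaurentSeries Kbar).coeff 0) ≠ 0) :
    1 ≤ voo.ord (y - cst N ((y : LaurentSeries Kbar).coeff 0)) := by
  rw [hvoo _ hne]
  have hz : ∀ n : ℤ, n ≤ 0 →
      ((y - cst N ((y : LaurentSeries Kbar).coeff 0) : FF N) : LaurentSeries Kbar).coeff n
        = 0 := by
    intro n hn
    rw [h93q_coe_sub_cst, HahnSeries.coeff_sub, HahnSeries.C_apply, HahnSeries.coeff_single]
    rcases eq_or_lt_of_le hn with h0 | hlt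
    · rw [if_pos h0, h0, sub_self]
    · rw [if_neg (ne_of_lt hlt), sub_zero]
      exact h93q_coeff_neg voo hvoo hy n hlt
  by_contra h
  exact h93q_coe_ne_zero hne (HahnSeries.coeff_order_eq_zero.1 (hz _ (by omega)))

/-- an element outside `A` has its inverse in `𝔪_A`. -/
theorem h93q_inv_mem_nonunits (A : ValuationSubring Kbar) {c : Kbar} (hc : c ∉ A) :
    c⁻¹ ∈ A.nonunits := by
  have hc0 : c ≠ 0 := fun h => hc (h ▸ A.zero_mem)
  rw [Fermat.Agent.S37.GalI.mem_nonunits_iff_inv A (inv_ne_zero hc0), inv_inv]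
  exact hc

/-- **VAL**: the value at `voo` of a Gauss-integral function regular on the fibre of `voo` is in
`A`. -/
theorem h93q_value_mem (hℓ : ℓ.Prime) (hN : ¬ ℓ ∣ N) (hA : A.LiesOverPrime ℓ)
    (r : Place Kbar (FF N) → Place (h13sK A) (h13sFt A N)) (hr : H13sIsRed A N r)
    (voo : Place Kbar (FF N))
    (hvoo : ∀ f : FF N, f ≠ 0 → voo.ord f = (f : LaurentSeries Kbar).order)
    (y : FF N) (hy : y ∈ gaussV A N)
    (hreg : ∀ v : Place Kbar (FF N), r v = r voo → y ∈ v.toValuationSubring) :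
    (y : LaurentSeries Kbar).coeff 0 ∈ A := by
  by_contra hcA
  obtain ⟨c, hc⟩ : ∃ c : Kbar, c = (y : LaurentSeries Kbar).coeff 0 := ⟨_, rfl⟩
  rw [← hc] at hcA
  have hc0 : c ≠ 0 := fun h => hcA (h ▸ A.zero_mem)
  have hcnu : -c⁻¹ ∈ A.nonunits :=
    Fermat.Agent.S37.GalI.neg_mem_nonunits A (h93q_inv_mem_nonunits A hcA)
  obtain ⟨hH0, hHinv⟩ := one_add_cst_mul_inv_mem_gaussV A N hℓ hN hA (-c⁻¹) hcnu y hy
  have hcst : cst N (-c⁻¹) ∈ gaussV A N :=
    (cst_mem_gaussV_iff A N hA _).2 (Fermat.Agent.S37.GalI.nonunits_le A hcnu)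
  have hH : 1 + cst N (-c⁻¹) * y ∈ gaussV A N :=
    add_mem (one_mem _) (mul_mem hcst hy)
  have hred : h13sRed A N ⟨_, hH⟩ = 1 := by
    apply Subtype.ext
    show gaussR A N ⟨1 + cst N (-c⁻¹) * y, hH⟩ = 1
    have e : (⟨1 + cst N (-c⁻¹) * y, hH⟩ : gaussV A N) =
        1 + ⟨cst N (-c⁻¹), hcst⟩ * ⟨y, hy⟩ := rfl
    rw [e, map_add, map_one, map_mul, gaussR_cst_of_nonunit A N hA _ hcnu hcst, zero_mul,
      add_zero]
  obtain ⟨D, hD, -⟩ := (h40r_base_FF (N := N)).pd _ hH0
  have hRD := hr.2.2 _ hH hHinv D hD (r voo)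
  rw [hred, Place.ord_one] at hRD
  have hnn : ∀ v, r v = r voo → 0 ≤ D v := by
    intro v hv
    rw [hD v]
    exact (h85f_mem_iff_ord v hH0).1
      (add_mem (one_mem _) (mul_mem (v.algebraMap_mem' _) (hreg v hv)))
  have h1 := h93q_sum_le_push r D (r voo) hnn {voo} (by simp)
  rw [Finset.sum_singleton, hD voo] at h1
  have hHeq : 1 + cst N (-c⁻¹) * y = cst N (-c⁻¹) * (y - cst N c) := by
    have e1 : cst N (-c⁻¹) * cst N c = -1 := by
      rw [← Fermat.Agent.S37.GalI.cst_mul, neg_mul, inv_mul_cancel₀ hc0, Fermat.Agent.S37.GalI.cst_neg,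
        Fermat.Agent.S37.GalI.cst_one]
    rw [mul_sub, e1]
    ring
  have hyc : y - cst N c ≠ 0 := by
    intro h
    rw [hHeq, h, mul_zero] at hH0
    exact hH0 rfl
  have h2 : 1 ≤ voo.ord (y - cst N c) := by
    rw [hc] at hyc ⊢
    exact h93q_sub_cst_ord voo hvoo (hreg voo rfl) hyc
  have h3 : voo.ord (1 + cst N (-c⁻¹) * y) = voo.ord (y - cst N c) := by
    rw [hHeq]
    exact Fermat.Agent.Jac.CanCore.h4c_ord_const_mul voo (neg_ne_zero.2 (inv_ne_zero hc0)) _
  unfold h13sPush at hRD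
  omega

/-! ### The function `t = 1 / j` on the fibre -/

theorem h93q_jB_ne_zero : jB N ≠ 0 := by
  intro h
  apply h93q_jK_ne_zero
  rw [← coe_jB (M := N), h]
  rfl

theorem h93q_coe_jB_inv : (((jB N)⁻¹ : FF N) : LaurentSeries Kbar) = (jK Kbar)⁻¹ := by
  rw [← coe_jB (M := N)]
  rfl

theorem h93q_ord_jinv_voo (voo : Place Kbar (FF N))
    (hvoo : ∀ f : FF N, f ≠ 0 → voo.ord f = (f : LaurentSeries Kbar).order) :
    voo.ord (jB N)⁻¹ = 1 := by
  rw [hvoo _ (inv_ne_zero h93q_jB_ne_zero), h93q_coe_jB_inv, h93q_jinv_order]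

/-- `voo` is not a finite place. -/
theorem h93q_voo_not_fin (voo : Place Kbar (FF N))
    (hvoo : ∀ f : FF N, f ≠ 0 → voo.ord f = (f : LaurentSeries Kbar).order) :
    ¬ IsFinAt A voo := by
  rintro ⟨a, -, hval⟩
  have h1 : jB N - cst N a ∈ voo.toValuationSubring :=
    Fermat.Agent.S37.GalI.nonunits_le _ hval
  have h2 : jB N ∈ voo.toValuationSubring := by
    have := add_mem h1 (voo.algebraMap_mem' a)
    rwa [sub_add_cancel] at this
  have h3 := (h85f_mem_iff_ord voo h93q_jB_ne_zero).1 h2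
  have h4 := h93q_ord_jinv_voo voo hvoo
  rw [Place.ord_inv] at h4
  omega

/-- `1 / j` is regular at a non-finite place. -/
theorem h93q_jinv_mem_of_not_fin {v : Place Kbar (FF N)} (h : ¬ IsFinAt A v) :
    (jB N)⁻¹ ∈ v.toValuationSubring := by
  by_contra hnot
  apply h
  refine ⟨0, A.zero_mem, ?_⟩
  unfold ValueAt
  rw [Fermat.Agent.S37.GalI.cst_zero, sub_zero]
  exact (Fermat.Agent.S37.GalI.mem_nonunits_iff_inv _ h93q_jB_ne_zero).2 hnot

/-- the fibre of `voo` consists of non-finite places. -/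
theorem h93q_fibre_not_fin
    (r : Place Kbar (FF N) → Place (h13sK A) (h13sFt A N)) (hr : H13sIsRed A N r)
    (voo : Place Kbar (FF N))
    (hvoo : ∀ f : FF N, f ≠ 0 → voo.ord f = (f : LaurentSeries Kbar).order)
    (v : Place Kbar (FF N)) (hv : r v = r voo) : ¬ IsFinAt A v := by
  rcases (hr.2.1 v voo).1 hv with h | h
  · exact absurd h.2.1 (h93q_voo_not_fin voo hvoo)
  · exact h.1

/-- the reduction of `1 / j`. -/
theorem h93q_red_jinv (hℓ : ℓ.Prime) (hN : ¬ ℓ ∣ N) (hA : A.LiesOverPrime ℓ) :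
    h13sIncl A N (h13sRed A N ⟨(jB N)⁻¹, jB_inv_mem_gaussV A N hℓ hN hA⟩) =
      (jqModC (h13sK A))⁻¹ := by
  rw [h13sIncl_red]
  have e : (⟨(jB N)⁻¹, jB_inv_mem_gaussV A N hℓ hN hA⟩ : gaussV A N) *
      ⟨jB N, jB_mem_gaussV A N⟩ = 1 := Subtype.ext (inv_mul_cancel₀ h93q_jB_ne_zero)
  have h1 := congrArg (gaussR A N) e
  rw [map_mul, map_one, gaussR_jB] at h1
  exact eq_inv_of_mul_eq_one_left h1

theorem h93q_red_jinv_order (hℓ : ℓ.Prime) (hN : ¬ ℓ ∣ N) (hA : A.LiesOverPrime ℓ) :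
    (h13sIncl A N (h13sRed A N ⟨(jB N)⁻¹, jB_inv_mem_gaussV A N hℓ hN hA⟩)).order = 1 := by
  rw [h93q_red_jinv hℓ hN hA]
  have h0 : jqModC (h13sK A) ≠ 0 := by
    intro h
    have h1 := Fermat.Agent.S28.Asm.order_jqModC' (h13sK A)
    rw [h, HahnSeries.order_zero] at h1
    omega
  have h1 : (jqModC (h13sK A))⁻¹ * jqModC (h13sK A) = 1 := inv_mul_cancel₀ h0
  have h2 := HahnSeries.order_mul (inv_ne_zero h0) h0
  rw [h1, HahnSeries.order_one, Fermat.Agent.S28.Asm.order_jqModC'] at h2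
  omega

/-- **DISC**: `1 / j` has order `0` at the places of the fibre other than `voo`. -/
theorem h93q_ord_jinv_fibre (hℓ : ℓ.Prime) (hN : ¬ ℓ ∣ N) (hA : A.LiesOverPrime ℓ)
    (r : Place Kbar (FF N) → Place (h13sK A) (h13sFt A N)) (hr : H13sIsRed A N r)
    (voo : Place Kbar (FF N))
    (hvoo : ∀ f : FF N, f ≠ 0 → voo.ord f = (f : LaurentSeries Kbar).order)
    (hoo : ∀ f : h13sFt A N, f ≠ 0 → (r voo).ord f = (h13sIncl A N f).order)
    (v : Place Kbar (FF N)) (hv : r v = r voo) (hne : v ≠ voo) :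
    v.ord (jB N)⁻¹ = 0 := by
  classical
  have ht0 : (jB N)⁻¹ ≠ 0 := inv_ne_zero h93q_jB_ne_zero
  have ht : (jB N)⁻¹ ∈ gaussV A N := jB_inv_mem_gaussV A N hℓ hN hA
  have hti : ((jB N)⁻¹)⁻¹ ∈ gaussV A N := by
    rw [inv_inv]
    exact jB_mem_gaussV A N
  obtain ⟨D, hD, -⟩ := (h40r_base_FF (N := N)).pd _ ht0
  have hRD := hr.2.2 _ ht hti D hD (r voo)
  have hred0 : h13sRed A N ⟨(jB N)⁻¹, ht⟩ ≠ 0 := by
    intro h
    have h1 := h93q_red_jinv_order hℓ hN hA
    rw [h, map_zero, HahnSeries.order_zero] at h1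
    omega
  rw [hoo _ hred0, h93q_red_jinv_order hℓ hN hA] at hRD
  have hnn : ∀ w, r w = r voo → 0 ≤ D w := by
    intro w hw
    rw [hD w]
    exact (h85f_mem_iff_ord w ht0).1
      (h93q_jinv_mem_of_not_fin (h93q_fibre_not_fin r hr voo hvoo w hw))
  have h1 := h93q_sum_le_push r D (r voo) hnn {voo, v} (by
    intro w hw
    rw [Finset.mem_insert, Finset.mem_singleton] at hw
    rcases hw with rfl | rfl
    · rfl
    · exact hv)
  rw [Finset.sum_pair hne.symm, hD voo, hD v, h93q_ord_jinv_voo voo hvoo] at h1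
  have h2 := hnn v hv
  rw [hD v] at h2
  unfold h13sPush at hRD
  omega

/-! ### The theorem -/

/-- one step: `(y - y(voo)) * j` is again Gauss-integral and regular on the fibre. -/
theorem h93q_step (hℓ : ℓ.Prime) (hN : ¬ ℓ ∣ N) (hA : A.LiesOverPrime ℓ)
    (r : Place Kbar (FF N) → Place (h13sK A) (h13sFt A N)) (hr : H13sIsRed A N r)
    (voo : Place Kbar (FF N))
    (hvoo : ∀ f : FF N, f ≠ 0 → voo.ord f = (f : LaurentSeries Kbar).order)
    (hoo : ∀ f : h13sFt A N, f ≠ 0 → (r voo).ord f = (h13sIncl A N f).order)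
    (y : FF N) (hy : y ∈ gaussV A N)
    (hreg : ∀ v : Place Kbar (FF N), r v = r voo → y ∈ v.toValuationSubring) :
    (y - cst N ((y : LaurentSeries Kbar).coeff 0)) * jB N ∈ gaussV A N ∧
    (∀ v : Place Kbar (FF N), r v = r voo →
      (y - cst N ((y : LaurentSeries Kbar).coeff 0)) * jB N ∈ v.toValuationSubring) ∧
    (y : LaurentSeries Kbar) = HahnSeries.C ((y : LaurentSeries Kbar).coeff 0) +
      (jK Kbar)⁻¹ *
        (((y - cst N ((y : LaurentSeries Kbar).coeff 0)) * jB N : FF N) :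
          LaurentSeries Kbar) := by
  have hcA := h93q_value_mem hℓ hN hA r hr voo hvoo y hy hreg
  obtain ⟨c, hc⟩ : ∃ c : Kbar, c = (y : LaurentSeries Kbar).coeff 0 := ⟨_, rfl⟩
  rw [← hc] at hcA ⊢
  refine ⟨mul_mem (sub_mem hy ((cst_mem_gaussV_iff A N hA c).2 hcA)) (jB_mem_gaussV A N),
    fun v hv => ?_, ?_⟩
  · rcases eq_or_ne (y - cst N c) 0 with h0 | h0
    · rw [h0, zero_mul]
      exact v.toValuationSubring.zero_mem
    · have hprod : (y - cst N c) * jB N ≠ 0 := mul_ne_zero h0 h93q_jB_ne_zero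
      rw [h85f_mem_iff_ord v hprod, Place.ord_mul _ h0 h93q_jB_ne_zero]
      have hj : v.ord (jB N) = -v.ord (jB N)⁻¹ := by
        rw [Place.ord_inv]
        ring
      rw [hj]
      by_cases hvv : v = voo
      · subst hvv
        have h2 : 1 ≤ v.ord (y - cst N c) := by
          rw [hc] at h0 ⊢
          exact h93q_sub_cst_ord v hvoo (hreg v rfl) h0
        rw [h93q_ord_jinv_voo v hvoo]
        omega
      · rw [h93q_ord_jinv_fibre hℓ hN hA r hr voo hvoo hoo v hv hvv]
        have h2 := (h85f_mem_iff_ord v h0).1 (sub_mem (hreg v hv) (v.algebraMap_mem' c))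
        omega
  · have e1 : (((y - cst N c) * jB N : FF N) : LaurentSeries Kbar) =
        ((y : LaurentSeries Kbar) - HahnSeries.C c) * jK Kbar := by
      rw [← coe_jB (M := N), ← h93q_coe_sub_cst]
      rfl
    rw [e1]
    have hj := h93q_jK_ne_zero
    field_simp
    ring

/-- **INT** (leaf of ORTH(M)).  A Gauss-integral function which is regular at every place of
the fibre of the reduction map through `voo` has its `q`-expansion in `A[[q]]`. -/
theorem h93q_int (hℓ : ℓ.Prime) (hN : ¬ ℓ ∣ N) (hA : A.LiesOverPrime ℓ)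
    (r : Place Kbar (FF N) → Place (h13sK A) (h13sFt A N)) (hr : H13sIsRed A N r)
    (voo : Place Kbar (FF N))
    (hvoo : ∀ f : FF N, f ≠ 0 → voo.ord f = (f : LaurentSeries Kbar).order)
    (hoo : ∀ f : h13sFt A N, f ≠ 0 → (r voo).ord f = (h13sIncl A N f).order)
    (y : FF N) (hy : y ∈ gaussV A N)
    (hreg : ∀ v : Place Kbar (FF N), r v = r voo → y ∈ v.toValuationSubring) :
    ∃ Y : LaurentSeries A, embA A Y = (y : LaurentSeries Kbar) ∧
      ∀ n : ℤ, n < 0 → Y.coeff n = 0 := by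
  refine h93q_core_embA A
    {s | ∃ z : FF N, z ∈ gaussV A N ∧
      (∀ v : Place Kbar (FF N), r v = r voo → z ∈ v.toValuationSubring) ∧
      (z : LaurentSeries Kbar) = s}
    (jK Kbar)⁻¹ (h93q_jinv_coeff_mem A) h93q_jinv_coeff_zero ?_ _ ⟨y, hy, hreg, rfl⟩
  rintro s ⟨z, hz, hzreg, rfl⟩
  obtain ⟨h1, h2, h3⟩ := h93q_step hℓ hN hA r hr voo hvoo hoo z hz hzreg
  exact ⟨fun n hn => h93q_coeff_neg voo hvoo (hzreg voo rfl) n hn,
    h93q_value_mem hℓ hN hA r hr voo hvoo z hz hzreg, _, ⟨_, h1, h2, rfl⟩, h3⟩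

/-- the constant coefficient of a product of two series without coefficients of negative
index. -/
theorem h93q_coeff_zero_mul {R : Type*} [CommRing R] (x y : LaurentSeries R)
    (hx : ∀ n : ℤ, n < 0 → x.coeff n = 0) (hy : ∀ n : ℤ, n < 0 → y.coeff n = 0) :
    (x * y).coeff 0 = x.coeff 0 * y.coeff 0 := by
  rw [HahnSeries.coeff_mul]
  refine Finset.sum_eq_single (0, 0) (fun ij hij hne => ?_) (fun h => ?_)
  · rw [Finset.mem_antidiagonal] at hij
    obtain ⟨h1, h2, h3⟩ := hij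
    have h4 : 0 ≤ ij.1 := by
      by_contra h
      exact h1 (hx _ (not_le.1 h))
    have h5 : 0 ≤ ij.2 := by
      by_contra h
      exact h2 (hy _ (not_le.1 h))
    exfalso
    apply hne
    ext
    · show ij.1 = 0
      omega
    · show ij.2 = 0
      omega
  · rw [Finset.mem_antidiagonal] at h
    by_cases h1 : x.coeff 0 = 0
    · rw [h1, zero_mul]
    · by_cases h2 : y.coeff 0 = 0
      · rw [h2, mul_zero]
      · exact absurd ⟨h1, h2, by simp⟩ h

/-- **INT, units**: a Gauss unit without zero or pole on the fibre through `voo` has its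
`q`-expansion in `A[[q]]ˣ`. -/
theorem h93q_int_unit (hℓ : ℓ.Prime) (hN : ¬ ℓ ∣ N) (hA : A.LiesOverPrime ℓ)
    (r : Place Kbar (FF N) → Place (h13sK A) (h13sFt A N)) (hr : H13sIsRed A N r)
    (voo : Place Kbar (FF N))
    (hvoo : ∀ f : FF N, f ≠ 0 → voo.ord f = (f : LaurentSeries Kbar).order)
    (hoo : ∀ f : h13sFt A N, f ≠ 0 → (r voo).ord f = (h13sIncl A N f).order)
    (y : FF N) (hy0 : y ≠ 0) (hy : y ∈ gaussV A N) (hyi : y⁻¹ ∈ gaussV A N)
    (hord : ∀ v : Place Kbar (FF N), r v = r voo → v.ord y = 0) :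
    ∃ Y : LaurentSeries A, embA A Y = (y : LaurentSeries Kbar) ∧
      (∀ n : ℤ, n < 0 → Y.coeff n = 0) ∧ IsUnit (Y.coeff 0) := by
  obtain ⟨Y, hY, hYn⟩ := h93q_int hℓ hN hA r hr voo hvoo hoo y hy (fun v hv =>
    (h85f_mem_iff_ord v hy0).2 (by rw [hord v hv]))
  obtain ⟨Y', hY', hYn'⟩ := h93q_int hℓ hN hA r hr voo hvoo hoo y⁻¹ hyi (fun v hv =>
    (h85f_mem_iff_ord v (inv_ne_zero hy0)).2 (by rw [Place.ord_inv, hord v hv, neg_zero]))
  refine ⟨Y, hY, hYn, ?_⟩
  have h1 : Y * Y' = 1 := by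
    apply embA_injective A
    rw [map_mul, map_one, hY, hY']
    have e : ((y : LaurentSeries Kbar)) * ((y⁻¹ : FF N) : LaurentSeries Kbar) =
        ((y * y⁻¹ : FF N) : LaurentSeries Kbar) := rfl
    rw [e, mul_inv_cancel₀ hy0]
    rfl
  have h2 := h93q_coeff_zero_mul Y Y' hYn hYn'
  rw [h1, HahnSeries.coeff_one, if_pos rfl] at h2
  exact IsUnit.of_mul_eq_one _ h2.symm

/-- **INT, poles at `voo`**: a Gauss-integral function which is regular at every place of the
fibre through `voo` other than `voo` has its `q`-expansion in `A((q))`. -/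
theorem h93q_int_pole (hℓ : ℓ.Prime) (hN : ¬ ℓ ∣ N) (hA : A.LiesOverPrime ℓ)
    (r : Place Kbar (FF N) → Place (h13sK A) (h13sFt A N)) (hr : H13sIsRed A N r)
    (voo : Place Kbar (FF N))
    (hvoo : ∀ f : FF N, f ≠ 0 → voo.ord f = (f : LaurentSeries Kbar).order)
    (hoo : ∀ f : h13sFt A N, f ≠ 0 → (r voo).ord f = (h13sIncl A N f).order)
    (y : FF N) (hy : y ∈ gaussV A N)
    (hreg : ∀ v : Place Kbar (FF N), r v = r voo → v ≠ voo → y ∈ v.toValuationSubring) :
    ∃ Y : LaurentSeries A, embA A Y = (y : LaurentSeries Kbar) := by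
  rcases eq_or_ne y 0 with rfl | hy0
  · exact ⟨0, by rw [map_zero]; rfl⟩
  obtain ⟨n, hn⟩ : ∃ n : ℕ, 0 ≤ voo.ord y + n := ⟨(-voo.ord y).toNat, by omega⟩
  have ht0 : (jB N)⁻¹ ≠ 0 := inv_ne_zero h93q_jB_ne_zero
  have ht : (jB N)⁻¹ ∈ gaussV A N := jB_inv_mem_gaussV A N hℓ hN hA
  obtain ⟨Y, hY, -⟩ := h93q_int hℓ hN hA r hr voo hvoo hoo (y * (jB N)⁻¹ ^ n)
    (mul_mem hy (pow_mem ht n)) (fun v hv => by
      by_cases hvv : v = voo
      · subst hvv
        rw [h85f_mem_iff_ord v (mul_ne_zero hy0 (pow_ne_zero n ht0)),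
          Place.ord_mul _ hy0 (pow_ne_zero n ht0),
          Fermat.Agent.Jac.CanCore.h4c_ord_pow, h93q_ord_jinv_voo v hvoo]
        omega
      · exact mul_mem (hreg v hv hvv) (pow_mem
          (h93q_jinv_mem_of_not_fin (h93q_fibre_not_fin r hr voo hvoo v hv)) n))
  refine ⟨Y * jqModC A ^ n, ?_⟩
  rw [map_mul, map_pow, embA_jqModC, hY]
  have e : ((y * (jB N)⁻¹ ^ n : FF N) : LaurentSeries Kbar) =
      (y : LaurentSeries Kbar) * ((jK Kbar)⁻¹) ^ n := by
    rw [← h93q_coe_jB_inv (N := N)]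
    rfl
  rw [e, mul_assoc, ← mul_pow, inv_mul_cancel₀ h93q_jK_ne_zero, one_pow, mul_one]

end Level

end Fermat.Agent.P7
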