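import Fermat.Agent.P7.H94IntOfAbs
import Fermat.Agent.P7.H1Int
import Fermat.Agent.P7.H37GapM
import Fermat.Agent.Red.BC.Asm46
import Fermat.Agent.Red.ModelO.ValCrit
import Fermat.Agent.Red.SM.Ram
import Fermat.Agent.Red.HKMod

/-!
# Wave 7, DLOG at the level `M`: INT(M), UNCONDITIONAL (helper95, prefix `h95y_`)

`M` ANY level prime to `ℓ`, `A` a valuation subring of `ℚ̄` over `ℓ`, `Q` the `q`-order place of
`FF M`.  A Gauss-integral function `f` of level `M` which is regular off `Q` has its
`q`-expansion in `A((q))`, and its Gauss reduction is the coefficientwise reduction.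

Proof (no modular forms, no special fibre): `f` is regular wherever `j` is regular, hence
integral over `ℚ̄[j]` (valuative criterion `h85_mem_modelAt_iff_forall` + every valuation subring
over `ℚ̄` is a place, `h31_exists_place_eq`); clearing denominators (`h46b_modelAt_clear`) and QEP
(`mem_modelFin_of_cst_mul`) give `f ∈ modelFin M A`; INT for the finite chart is
`h94y_int_fin` (helper94) applied to INT-ABS `h1i_intAbs` (helper1).

* `h95y_mem_modelAt_top` : regular where `j` is regular ⟹ integral over `ℚ̄[j]`.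
* `h95y_mem_modelFin` : moreover Gauss-integral ⟹ in the finite chart `modelFin M A`.
* `h95y_mem_modelFin_of_regOff` : the same for `f` regular off the `q`-order place.
* `h95y_intM` : **INT(M)**: `∃ y : A((q)), embA A y = f`.
* `h95y_intM_red` : moreover `gaussR f = redA y` (coefficientwise reduction).
-/

set_option autoImplicit false
set_option linter.unusedSectionVars false
set_option linter.style.haveILetI false

open AlgebraicCurve ModularCurve IntermediateField

noncomputable section

namespace Fermat.Agent.P7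

open Fermat.Agent.S37 Fermat.Agent.Red.GV Fermat.Agent.Red.BC Fermat.Agent.Red.ModelO
open Fermat.Agent.S24.DiffPlace

/-- a function which is regular at every place where `j` is regular is integral over
`ℚ̄[j]`. -/
theorem h95y_mem_modelAt_top (M : ℕ) [NeZero M] (f : FF M)
    (hreg : ∀ v : Place Kbar (FF M), 0 ≤ v.ord (jB M) → 0 ≤ v.ord f) :
    f ∈ modelAt M (⊤ : ValuationSubring Kbar) (jB M) := by
  rw [h85_mem_modelAt_iff_forall]
  intro W hW hj
  by_cases hWtop : W = ⊤
  · rw [hWtop]
    exact ValuationSubring.mem_top _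
  · haveI hfd : FiniteDimensional Kbar⟮jB M⟯ (FF M) :=
      Fermat.Agent.Red.HKMod.finiteDimensional_jBar M
    obtain ⟨v, hv⟩ := Fermat.Agent.Red.SM.h31_exists_place_eq (jB M)
      (Fermat.Agent.S24.transcendental_jBar M) W
      (fun a => hW a (ValuationSubring.mem_top a)) hWtop
    rw [← hv]
    refine mem_of_ord_nonneg v (hreg v (ord_nonneg_of_mem v ?_))
    rw [hv]
    exact hj

variable {ℓ : ℕ}

/-- a Gauss-integral function which is regular at every place where `j` is regular lies in the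
finite chart. -/
theorem h95y_mem_modelFin (hℓ : ℓ.Prime) (M : ℕ) [NeZero M] (hM : ¬ ℓ ∣ M)
    (A : ValuationSubring Kbar) (hA : A.LiesOverPrime ℓ) (f : FF M) (hf : f ∈ gaussV A M)
    (hreg : ∀ v : Place Kbar (FF M), 0 ≤ v.ord (jB M) → 0 ≤ v.ord f) :
    f ∈ modelFin M A := by
  obtain ⟨m, hm⟩ := h46b_modelAt_clear M A hℓ hA (jB M) (h95y_mem_modelAt_top M f hreg)
  exact mem_modelFin_of_cst_mul A M hℓ hM hA f hf _ (A.pow_mem (A.nonunits_subset hA) m)
    (pow_ne_zero _ (Nat.cast_ne_zero.mpr hℓ.ne_zero)) hm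

/-- `j` has a pole at the `q`-order place. -/
theorem h95y_ord_jB_neg (M : ℕ) [NeZero M] (Q : Place Kbar (FF M))
    (hQ : ∀ f : FF M, f ≠ 0 → ((f : FF M) : LaurentSeries Kbar).order = Q.ord f) :
    Q.ord (jB M) = -1 := by
  rw [← hQ (jB M) (h85_jB_ne_zero M), coe_jB M]
  exact h37g_order_jqModC Kbar

/-- a Gauss-integral function which is regular off the `q`-order place lies in the finite
chart. -/
theorem h95y_mem_modelFin_of_regOff (hℓ : ℓ.Prime) (M : ℕ) [NeZero M] (hM : ¬ ℓ ∣ M)
    (A : ValuationSubring Kbar) (hA : A.LiesOverPrime ℓ) (Q : Place Kbar (FF M))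
    (hQ : ∀ f : FF M, f ≠ 0 → ((f : FF M) : LaurentSeries Kbar).order = Q.ord f)
    (f : FF M) (hf : f ∈ gaussV A M)
    (hreg : ∀ v : Place Kbar (FF M), v ≠ Q → 0 ≤ v.ord f) :
    f ∈ modelFin M A := by
  refine h95y_mem_modelFin hℓ M hM A hA f hf fun v hv => hreg v ?_
  rintro rfl
  rw [h95y_ord_jB_neg M v hQ] at hv
  omega

/-- **INT(M)**: a Gauss-integral function of level `M` which is regular off the `q`-order
place has its `q`-expansion in `A((q))`. -/
theorem h95y_intM (hℓ : ℓ.Prime) (M : ℕ) [NeZero M] (hM : ¬ ℓ ∣ M)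
    (A : ValuationSubring Kbar) (hA : A.LiesOverPrime ℓ) (Q : Place Kbar (FF M))
    (hQ : ∀ f : FF M, f ≠ 0 → ((f : FF M) : LaurentSeries Kbar).order = Q.ord f)
    (f : FF M) (hf : f ∈ gaussV A M)
    (hreg : ∀ v : Place Kbar (FF M), v ≠ Q → 0 ≤ v.ord f) :
    ∃ y : LaurentSeries A, embA A y = ((f : FF M) : LaurentSeries Kbar) :=
  h94y_int_fin h1i_intAbs ℓ hℓ M hM A hA f
    (h95y_mem_modelFin_of_regOff hℓ M hM A hA Q hQ f hf hreg)

/-- **INT(M), reduction form**: the Gauss reduction of such a function is the coefficientwise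
reduction of its `q`-expansion. -/
theorem h95y_intM_red (hℓ : ℓ.Prime) (M : ℕ) [NeZero M] (hM : ¬ ℓ ∣ M)
    (A : ValuationSubring Kbar) (hA : A.LiesOverPrime ℓ) (Q : Place Kbar (FF M))
    (hQ : ∀ f : FF M, f ≠ 0 → ((f : FF M) : LaurentSeries Kbar).order = Q.ord f)
    (f : FF M) (hf : f ∈ gaussV A M)
    (hreg : ∀ v : Place Kbar (FF M), v ≠ Q → 0 ≤ v.ord f) :
    ∃ y : LaurentSeries A, embA A y = ((f : FF M) : LaurentSeries Kbar) ∧
      gaussR A M ⟨f, hf⟩ = redA (IsLocalRing.residue A) y := by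
  obtain ⟨y, hy⟩ := h95y_intM hℓ M hM A hA Q hQ f hf hreg
  exact ⟨y, hy, gaussRed_of_embA A (IsLocalRing.residue A) M ⟨f, hf⟩ y hy⟩

end Fermat.Agent.P7
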