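import Fermat.Agent.P7.H96DegSF
import Fermat.Agent.P7.H42ResIneq
import Fermat.Agent.Red.Desc.Degree

/-!
# Wave 7, DLOG at the non-good level, row H2-S0, leaf (C) FULL-DEG (helper96)

* `h96h_tower` : **abstract tower count** (Mathlib only).  `K₀ ≤ κ` intermediate fields of `L / k`,
  every `K₀`-independent family of elements of `κ` has at most `m` members (`m > 0`), and
  `e : Fin (d * m) → L` is `K₀`-independent.  Then `d` of the `e i` are `κ`-independent.
* `h96hKappa A M hp hA` : the residue field of the Gauss valuation of level `M`, as an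
  intermediate field of `k((q)) / k` (the set of reductions `softR A M x`).
* `h96h_fullDeg_of : H66sDegSF → H66sResIneq → H66sFullDeg` and
  `h96h_fullDeg : H66sFullDeg` (with landed `h96a_degSF`, `h42q_resIneq`).
-/

set_option autoImplicit false
set_option linter.unusedSectionVars false
set_option linter.unusedVariables false
set_option linter.style.haveILetI false

open AlgebraicCurve ModularCurve

noncomputable section

namespace Fermat.Agent.P7

section Tower

variable {k L : Type*} [Field k] [Field L] [Algebra k L]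

/-- **abstract tower count.** -/
theorem h96h_tower (K₀ κ : IntermediateField k L) (hle : K₀ ≤ κ) (m d : ℕ) (hm : 0 < m)
    (hB : ∀ (r : ℕ) (c : Fin r → L), (∀ i, c i ∈ κ) → LinearIndependent K₀ c → r ≤ m)
    (e : Fin (d * m) → L) (he : LinearIndependent K₀ e) :
    ∃ σ : Fin d → Fin (d * m), LinearIndependent κ (fun i => e (σ i)) := by
  classical
  letI : Algebra K₀ κ := (IntermediateField.inclusion hle).toRingHom.toAlgebra
  haveI : IsScalarTower K₀ κ L := IsScalarTower.of_algebraMap_eq fun x => rfl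
  -- `κ` is finite over `K₀` of degree `≤ m`
  have hrank : Module.rank K₀ κ ≤ (m : Cardinal) := by
    refine rank_le fun s hs => ?_
    have h1 : LinearIndependent K₀ (fun i : s => ((i : κ) : L)) := by
      have h2 := hs.map' (IsScalarTower.toAlgHom K₀ κ L).toLinearMap
        (LinearMap.ker_eq_bot.mpr (fun x y hxy => Subtype.ext hxy))
      exact h2
    have h3 := hB s.card (fun i => (((s.equivFin.symm i : s) : κ) : L))
      (fun i => (s.equivFin.symm i : κ).2)
      (h1.comp _ s.equivFin.symm.injective)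
    exact h3
  haveI : Module.Finite K₀ κ :=
    Module.rank_lt_aleph0_iff.mp (lt_of_le_of_lt hrank Cardinal.natCast_lt_aleph0)
  have hfr : Module.finrank K₀ κ ≤ m := Module.finrank_le_of_rank_le hrank
  -- the span
  set V1 : Submodule κ L := Submodule.span κ (Set.range e) with hV1
  haveI : Module.Finite κ V1 := Module.Finite.span_of_finite κ (Set.finite_range e)
  haveI : Module.Finite K₀ V1 := Module.Finite.trans κ V1
  have he' : LinearIndependent K₀ (fun i => (⟨e i, Submodule.subset_span ⟨i, rfl⟩⟩ : V1)) := by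
    refine LinearIndependent.of_comp ((V1.subtype).restrictScalars K₀) ?_
    exact he
  have h1 : d * m ≤ Module.finrank K₀ V1 := by
    simpa using he'.fintype_card_le_finrank
  haveI : Module.Free κ V1 := Module.Free.of_divisionRing κ V1
  haveI : Module.Free K₀ κ := Module.Free.of_divisionRing K₀ κ
  have h2 : Module.finrank K₀ κ * Module.finrank κ V1 = Module.finrank K₀ V1 :=
    Module.finrank_mul_finrank K₀ κ V1
  have h3 : d ≤ Module.finrank κ V1 := by
    have h4 : d * m ≤ m * Module.finrank κ V1 := by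
      calc d * m ≤ Module.finrank K₀ V1 := h1
        _ = Module.finrank K₀ κ * Module.finrank κ V1 := h2.symm
        _ ≤ m * Module.finrank κ V1 := Nat.mul_le_mul_right _ hfr
    rw [mul_comm d m] at h4
    exact Nat.le_of_mul_le_mul_left h4 hm
  -- extract a basis from the spanning family
  obtain ⟨b, hbsub, hbspan, hbli⟩ := exists_linearIndependent κ (Set.range e)
  haveI : Fintype b := ((Set.finite_range e).subset hbsub).fintype
  have hcard : Module.finrank κ V1 = Fintype.card b := by
    rw [hV1, ← hbspan, finrank_span_set_eq_card hbli, Set.toFinset_card]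
  have hdb : Fintype.card (Fin d) ≤ Fintype.card b := by
    rw [Fintype.card_fin, ← hcard]
    exact h3
  obtain ⟨emb⟩ := Function.Embedding.nonempty_of_card_le hdb
  have hσ : ∀ i : Fin d, ∃ j : Fin (d * m), e j = ((emb i : b) : L) := fun i =>
    hbsub (emb i).2
  choose σ hσ' using hσ
  refine ⟨σ, ?_⟩
  have h5 : (fun i => e (σ i)) = (fun x : b => (x : L)) ∘ emb := by
    funext i
    exact hσ' i
  rw [h5]
  exact hbli.comp _ emb.injective

end Tower

section Level

open Fermat.Agent.S37 Fermat.Agent.Red.GV Fermat.Agent.Red.GV.Soft Fermat.Agent.Red.Desc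
open Fermat.Agent.S21.C1

variable (A : ValuationSubring Kbar) (M : ℕ) [NeZero M]

/-- the residue field of the Gauss valuation of level `M`, inside `k((q))`. -/
def h96hKappa : IntermediateField (IsLocalRing.ResidueField A)
    (LaurentSeries (IsLocalRing.ResidueField A)) where
  carrier := Set.range (softR A M)
  mul_mem' := by
    rintro _ _ ⟨x, rfl⟩ ⟨y, rfl⟩
    exact ⟨x * y, map_mul _ _ _⟩
  one_mem' := ⟨1, map_one _⟩
  add_mem' := by
    rintro _ _ ⟨x, rfl⟩ ⟨y, rfl⟩
    exact ⟨x + y, map_add _ _ _⟩
  zero_mem' := ⟨0, map_zero _⟩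
  algebraMap_mem' := by
    intro c
    obtain ⟨a, rfl⟩ := IsLocalRing.residue_surjective c
    obtain ⟨ha, h⟩ := h42q_cst A M a
    exact ⟨⟨_, ha⟩, h⟩
  inv_mem' := by
    rintro _ ⟨x, rfl⟩
    by_cases h0 : softR A M x = 0
    · rw [h0, inv_zero]
      exact ⟨0, map_zero _⟩
    · obtain ⟨hx0, hxi⟩ := (softR_ne_zero_iff A M x).mp h0
      refine ⟨⟨(x : FF M)⁻¹, hxi⟩, ?_⟩
      apply eq_inv_of_mul_eq_one_left
      rw [← map_mul]
      have : (⟨(x : FF M)⁻¹, hxi⟩ : softV A M) * x = 1 := Subtype.ext (inv_mul_cancel₀ hx0)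
      rw [this, map_one]

theorem h96h_mem_kappa (y : LaurentSeries (IsLocalRing.ResidueField A)) :
    y ∈ h96hKappa A M ↔ ∃ x : softV A M, softR A M x = y := Iff.rfl

theorem h96h_Kj_le : h66sKj A ≤ h96hKappa A M := by
  rw [h66sKj, IntermediateField.adjoin_le_iff]
  rintro _ rfl
  have hj : jB M ∈ softV A M := gaussV_le_softV A M (jB_mem_gaussV A M)
  exact ⟨⟨jB M, hj⟩, h42q_softR_jB A M hj⟩

/-- **(C) FULL-DEG** from (A) and (B). -/
theorem h96h_fullDeg_of (hAA : H66sDegSF) (hBB : H66sResIneq) : H66sFullDeg := by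
  intro p hp M _ hM A hA
  classical
  letI := algebraAlong (degen (dvd_goodLevel p M))
  obtain ⟨-, hdeg⟩ := finrank_degen_mul M (goodLevel p M) (dvd_goodLevel p M)
  obtain ⟨e, he⟩ := hAA p hp (goodLevel p M) (not_dvd_goodLevel hp hM)
    (auxLevel_dvd_goodLevel p M) A hA
  set d := finrankAlong Kbar (degen (dvd_goodLevel p M)) with hd
  -- the tower count
  have hBabs : ∀ (r : ℕ) (c : Fin r → LaurentSeries (IsLocalRing.ResidueField A)),
      (∀ i, c i ∈ h96hKappa A M) → LinearIndependent (h66sKj A) c → r ≤ dedekindPsi M := by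
    intro r c hc hli
    choose y hy using hc
    refine hBB p hp M hM A hA r y ?_
    have : (fun i => softR A M (y i)) = c := funext hy
    rw [this]
    exact hli
  have he' : LinearIndependent (h66sKj A)
      (fun i : Fin (d * dedekindPsi M) => softR A (goodLevel p M) (e (Fin.cast hdeg i))) :=
    he.comp _ (Fin.cast_injective hdeg)
  obtain ⟨σ, hσ⟩ := h96h_tower (h66sKj A) (h96hKappa A M) (h96h_Kj_le A M) (dedekindPsi M) d
    (h93_dedekindPsi_pos M) hBabs _ he'
  refine ⟨fun i => ((e (Fin.cast hdeg (σ i)) : softV A (goodLevel p M)) : FF (goodLevel p M)),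
    fun i => (e (Fin.cast hdeg (σ i))).2, ?_⟩
  intro a ha hsum i
  -- the sum as an element of `softV`
  have hda : ∀ i, degen (dvd_goodLevel p M) (a i) ∈ softV A (goodLevel p M) := fun i =>
    (degen_mem_softV_iff A (dvd_goodLevel p M) (a i)).mpr (ha i)
  set S : softV A (goodLevel p M) :=
    ∑ i, (⟨degen (dvd_goodLevel p M) (a i), hda i⟩ : softV A (goodLevel p M)) *
      e (Fin.cast hdeg (σ i)) with hS
  have hSval : ((S : softV A (goodLevel p M)) : FF (goodLevel p M)) =
      ∑ i, algebraMap (FF M) (FF (goodLevel p M)) (a i) *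
        ((e (Fin.cast hdeg (σ i)) : softV A (goodLevel p M)) : FF (goodLevel p M)) := by
    rw [hS, AddSubmonoidClass.coe_finsetSum]
    rfl
  have hS0 : softR A (goodLevel p M) S = 0 := by
    rw [softR_eq_zero_iff_mem_nonunits A (goodLevel p M) hp hA, hSval]
    exact hsum
  rw [hS, map_sum] at hS0
  have hS1 : ∑ i, (⟨softR A M ⟨a i, ha i⟩, ⟨⟨a i, ha i⟩, rfl⟩⟩ : h96hKappa A M) •
      softR A (goodLevel p M) (e (Fin.cast hdeg (σ i))) = 0 := by
    rw [← hS0]
    refine Finset.sum_congr rfl fun i _ => ?_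
    rw [map_mul, softR_degen A (dvd_goodLevel p M) ⟨a i, ha i⟩ (hda i)]
    rfl
  have h0 := Fintype.linearIndependent_iff.mp hσ _ hS1 i
  have h1 : softR A M ⟨a i, ha i⟩ = 0 := congrArg Subtype.val h0
  exact (softR_eq_zero_iff_mem_nonunits A M hp hA ⟨a i, ha i⟩).mp h1

/-- **(C) FULL-DEG**, unconditional. -/
theorem h96h_fullDeg : H66sFullDeg := h96h_fullDeg_of h96a_degSF h42q_resIneq

end Level

end Fermat.Agent.P7
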