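import Fermat.Agent.P7.H19OrthTop
import Fermat.Agent.P7.H38OrthBack
import Fermat.Agent.P7.H31GoingUp
import Fermat.Agent.P7.H44OrthLift
import Fermat.Agent.P7.H93QInt
import Fermat.Agent.P7.H48Eval
import Fermat.Agent.P7.H95IntM
import Fermat.Agent.P7.H1S2
import Fermat.Agent.P7.H88ExactIface
import Fermat.Agent.P7.H98mDeg
import Fermat.Agent.P5.H88RedDivFinal
import Fermat.Agent.P7.H59NormRed
import Fermat.Agent.P7.H96FullDeg

/-!
# Wave 7 (S44), DLOG at the level `M`: ORTH(M), the ASSEMBLY (helper31, prefix `h31a_` / `H31a`)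

`p ≥ 5`, `M` prime to `p`, `N = goodLevel p M`, `A` over `p`.

* `H31aNormRed p` : **NORM-RED** (step (S0), (D)): if `g' ∈ FF N` is Gauss-integral with the same
  reduction as `degen y`, `y ∈ softV A M`, then `Nm g' ∈ softV A M` and
  `softR (Nm g') = (softR y) ^ d`, `d = [FF N : FF M]`.
* `h31a_orthNorm : H31aNormRed p → H19oOrthNormM p` : ORTH(M) in the normalised form of helper19
  from NORM-RED and the landed leaves: (S2) `h1i_s2`, SYM-LITE `h57s_symLite_zero`, exact lift
  `h44o_exact_lift`, DISC `h31d_degen_norm_ord_eq_zero`, INT `h93q_int_unit`, INT(M)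
  `h95y_intM`, EVAL `h48e_eval_along`, back half `h38o_orth_back_pow`, degree `h98m_deg_coprime`.
* `h31a_orthM : H31aNormRed p → H3gOrthM p`.

Every declaration is a proved theorem or a `Prop`-valued definition; nothing is assumed.
-/

set_option autoImplicit false
set_option linter.unusedSectionVars false
set_option linter.unusedVariables false
set_option linter.style.haveILetI false
set_option synthInstance.maxHeartbeats 400000

open AlgebraicCurve ModularCurve IsLocalRing

noncomputable section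

namespace Fermat.Agent.P7

open Fermat.Agent.S37 Fermat.Agent.Red Fermat.Agent.Red.GV Fermat.Agent.Red.GV.Soft
  Fermat.Agent.Red.CH0 Fermat.Agent.P5

/-- **NORM-RED**: the reduction of the norm of a lift of `red (degen y)`. -/
def H31aNormRed (p : ℕ) : Prop :=
  ∀ (hp : p.Prime) (M : ℕ) [NeZero M], ¬ p ∣ M →
    ∀ A : ValuationSubring Kbar, A.LiesOverPrime p →
    ∀ (y : FF M) (hy : y ∈ softV A M)
      (hd : degen (dvd_goodLevel p M) y ∈ gaussV A (goodLevel p M))
      (g' : FF (goodLevel p M)) (hg' : g' ∈ gaussV A (goodLevel p M)),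
      h13sRed A (goodLevel p M) ⟨g', hg'⟩ =
        h13sRed A (goodLevel p M) ⟨degen (dvd_goodLevel p M) y, hd⟩ →
      ∃ hn : Fermat.Agent.Red.KR.normAlong (degen (dvd_goodLevel p M)) g' ∈ softV A M,
        softR A M ⟨Fermat.Agent.Red.KR.normAlong (degen (dvd_goodLevel p M)) g', hn⟩ =
          softR A M ⟨y, hy⟩ ^ finrankAlong Kbar (degen (dvd_goodLevel p M))

/-- the `q`-order place of the good level lies over the `q`-order place of level `M`. -/
theorem h31a_restrict_qplace {M N : ℕ} [NeZero M] [NeZero N] (h : M ∣ N)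
    (voo : Place Kbar (FF N))
    (hvoo : ∀ f : FF N, f ≠ 0 → voo.ord f = ((f : FF N) : LaurentSeries Kbar).order)
    (Q : Place Kbar (FF M))
    (hQ : ∀ f : FF M, f ≠ 0 → ((f : FF M) : LaurentSeries Kbar).order = Q.ord f) :
    voo.restrictAlong (degen h) (isIntegral_degen h) = Q := by
  apply Place.ext
  exact h88e_qplace_comap h voo hvoo Q (fun f hf => (hQ f hf).symm)

/-- **ORTH(M), normalised form, from NORM-RED.** -/
theorem h31a_orthNorm {p : ℕ} (hNR : H31aNormRed p) : H19oOrthNormM p := by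
  classical
  intro hp h5 M _ hM A hA Q hQ y hy hg hy0 hyi hgi ho hdiv f hf hreg
  haveI : NeZero p := ⟨hp.ne_zero⟩
  haveI : CharP (ResidueField A) p := h3g_charP A hp hA
  have h : M ∣ goodLevel p M := dvd_goodLevel p M
  have hN : ¬ p ∣ goodLevel p M := not_dvd_goodLevel hp hM
  have haux : auxLevel p ∣ goodLevel p M := auxLevel_dvd_goodLevel p M
  obtain ⟨r, hr⟩ := h88r_redDiv p hp (goodLevel p M) hN haux A hA
  obtain ⟨Qs, hQs⟩ := h26g_place_inf (A := A) (M := goodLevel p M)
  obtain ⟨voo, hvoo⟩ := h88e_qplace_exists (goodLevel p M)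
  have hS2 : r voo = Qs := h1i_s2 p hp (goodLevel p M) hN haux A hA r hr Qs hQs voo hvoo
  have hoo : ∀ f : h13sFt A (goodLevel p M), f ≠ 0 →
      (r voo).ord f = (h13sIncl A (goodLevel p M) f).order := by
    rw [hS2]
    exact hQs
  have hvQ : voo.restrictAlong (degen h) (isIntegral_degen h) = Q :=
    h31a_restrict_qplace h voo hvoo Q hQ
  -- the reduction of `degen y`
  have hst0 : h13sRed A (goodLevel p M) ⟨degen h y, hg⟩ ≠ 0 :=
    h57s_red_ne_zero h hp hN hA hy0 hy hyi hg
  -- the reductions of the places over `Q`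
  haveI := Fermat.Agent.Red.HKMod.hasPrincipalDivisors_FF (goodLevel p M)
  have hmemS : ∀ c : Place Kbar (FF (goodLevel p M)),
      c.restrictAlong (degen h) (isIntegral_degen h) = Q →
      r c ∈ (h57pPull h (Finsupp.single Q (1 : ℤ))).support.image r := by
    intro c hc
    refine Finset.mem_image.mpr ⟨c, ?_, rfl⟩
    rw [Finsupp.mem_support_iff]
    show Divisor.pullbackAlong (degen h) (isIntegral_degen h) _ c ≠ 0
    rw [Divisor.pullbackAlong_apply, hc, Finsupp.single_eq_same, mul_one]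
    have := Fermat.Agent.Red.NLA.h87_ramificationIndexAlong_pos (degen h) (isIntegral_degen h) c
    exact_mod_cast this.ne'
  have hS : ∀ Q' ∈ (h57pPull h (Finsupp.single Q (1 : ℤ))).support.image r,
      Q'.ord (h13sRed A (goodLevel p M) ⟨degen h y, hg⟩) = 0 := by
    intro Q' hQ'
    obtain ⟨c, hc, rfl⟩ := Finset.mem_image.mp hQ'
    have hcQ := h31d_restrict_of_pull_ne_zero h Q c (Finsupp.mem_support_iff.mp hc)
    exact h57s_symLite_zero h hp hN hA hr voo c (hcQ.trans hvQ.symm) hoo hy0 hy hyi ho hg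
  -- the exact lift
  obtain ⟨g', hg', hg'i, hred, hoffS⟩ := h44o_exact_lift hp hN haux hA r hr
    (h13sRed A (goodLevel p M) ⟨degen h y, hg⟩) hst0 _ hS
  have hg'0 : g' ≠ 0 := by
    intro h0
    apply hst0
    rw [← hred]
    have e : (⟨g', hg'⟩ : gaussV A (goodLevel p M)) = 0 := Subtype.ext h0
    rw [e]
    exact h88r_red_zero
  -- the norm and its reduction
  obtain ⟨hn, hnr⟩ := hNR hp M hM A hA y hy hg g' hg' hred
  have hsy0 : softR A M ⟨y, hy⟩ ≠ 0 := (softR_ne_zero_iff A M ⟨y, hy⟩).mpr ⟨hy0, hyi⟩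
  have hgne : softR A M ⟨Fermat.Agent.Red.KR.normAlong (degen h) g', hn⟩ ≠ 0 := by
    rw [hnr]
    exact pow_ne_zero _ hsy0
  obtain ⟨hg0, hgi'⟩ := (softR_ne_zero_iff A M ⟨_, hn⟩).mp hgne
  have hFs : degen h (Fermat.Agent.Red.KR.normAlong (degen h) g') ∈ softV A (goodLevel p M) :=
    (degen_mem_softV_iff A h _).mpr hn
  have hF : degen h (Fermat.Agent.Red.KR.normAlong (degen h) g') ∈ gaussV A (goodLevel p M) :=
    softV_le_gaussV A (goodLevel p M) hp hN hA hFs
  have hFi : (degen h (Fermat.Agent.Red.KR.normAlong (degen h) g'))⁻¹ ∈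
      gaussV A (goodLevel p M) := by
    rw [← map_inv₀]
    exact softV_le_gaussV A (goodLevel p M) hp hN hA ((degen_mem_softV_iff A h _).mpr hgi')
  have hF0 : degen h (Fermat.Agent.Red.KR.normAlong (degen h) g') ≠ 0 :=
    (map_ne_zero _).mpr hg0
  -- DISC
  have hoff : ∀ c v : Place Kbar (FF (goodLevel p M)),
      c.restrictAlong (degen h) (isIntegral_degen h) =
        voo.restrictAlong (degen h) (isIntegral_degen h) → r v = r c → v.ord g' = 0 := by
    intro c v hc hv
    by_contra hne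
    exact hoffS v hne (hv ▸ hmemS c (hc.trans hvQ))
  have hord : ∀ v : Place Kbar (FF (goodLevel p M)), r v = r voo →
      v.ord (degen h (Fermat.Agent.Red.KR.normAlong (degen h) g')) = 0 :=
    fun v hv => h31d_degen_norm_ord_eq_zero h hr g' hg'0 voo hoff v hv
  -- INT for the norm
  obtain ⟨b, hb, hbneg, hbunit⟩ := h93q_int_unit hp hN hA r hr voo hvoo hoo _ hF0 hF hFi hord
  have hb' : embA A b =
      (((Fermat.Agent.Red.KR.normAlong (degen h) g' : FF M)) : LaurentSeries Kbar) := by
    rw [hb, coe_degen]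
  have hs : redA (residue A) b =
      HahnSeries.C (1 : ResidueField A) *
        softR A M ⟨y, hy⟩ ^ finrankAlong Kbar (degen (dvd_goodLevel p M)) := by
    rw [map_one, one_mul, ← hnr, ← softR_degen A h ⟨_, hn⟩ hFs,
      softR_eq_gaussR A (goodLevel p M) _ hFs hF]
    exact (gaussRed_of_embA A (residue A) (goodLevel p M) ⟨_, hF⟩ b hb).symm
  -- INT(M) for `f`
  obtain ⟨a, ha⟩ := h95y_intM hp M hM A hA Q hQ f hf hreg
  -- the values of `f`
  have hmem : ∀ v : Place Kbar (FF M), v ≠ Q → f ∈ v.toValuationSubring := fun v hv =>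
    Fermat.Agent.S24.DiffPlace.mem_of_ord_nonneg v (hreg v hv)
  have hex : ∀ v : Place Kbar (FF M), ∃ c : Kbar, v ≠ Q → ValueAt v f c := by
    intro v
    by_cases hv : v = Q
    · exact ⟨0, fun h' => absurd hv h'⟩
    · obtain ⟨c, hc⟩ := Fermat.Agent.Red.Match.exists_valueAt v (hmem v hv)
      exact ⟨c, fun _ => hc⟩
  choose fv hfv using hex
  -- the support of `div g'` off the places over `Q`
  obtain ⟨D, hD, -⟩ := (h40r_base_FF (N := goodLevel p M)).pd g' hg'0
  have hS1 : ∀ w ∈ D.support.filter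
      (fun w => w.restrictAlong (degen h) (isIntegral_degen h) ≠ Q),
      w.restrictAlong (degen h) (isIntegral_degen h) ≠ Q :=
    fun w hw => (Finset.mem_filter.mp hw).2
  have hS2' : ∀ w : Place Kbar (FF (goodLevel p M)),
      w.restrictAlong (degen h) (isIntegral_degen h) ≠ Q → w.ord g' ≠ 0 →
      w ∈ D.support.filter (fun w => w.restrictAlong (degen h) (isIntegral_degen h) ≠ Q) := by
    intro w hw hwg
    refine Finset.mem_filter.mpr ⟨?_, hw⟩
    rw [Finsupp.mem_support_iff, hD w]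
    exact hwg
  -- EVAL
  have hFf : degen h f ∈ gaussV A (goodLevel p M) :=
    softV_le_gaussV A (goodLevel p M) hp hN hA
      ((degen_mem_softV_iff A h f).mpr (gaussV_le_softV A M hf))
  have hdiv' : ∀ Q' : Place (h13sK A) (h13sFt A (goodLevel p M)),
      (p : ℤ) ∣ Q'.ord (h13sRed A (goodLevel p M) ⟨g', hg'⟩) := by
    intro Q'
    rw [hred]
    exact hdiv Q'
  have hoff' : ∀ w c : Place Kbar (FF (goodLevel p M)), w.ord g' ≠ 0 →
      c.restrictAlong (degen h) (isIntegral_degen h) = Q → r c ≠ r w :=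
    fun w c hw hc hrc => hoffS w hw (hrc ▸ hmemS c hc)
  have hsum := h48e_eval_along A hp hN hA r hr (degen h) (isIntegral_degen h) Q f hreg fv hfv
    hFf g' hg'0 hg' hg'i hdiv' hoff' _ hS2'
  -- the degree is a unit of `k`
  have hd : ((finrankAlong Kbar (degen (dvd_goodLevel p M)) : ℕ) : ResidueField A) ≠ 0 := by
    intro h0
    have h1 := (CharP.cast_eq_zero_iff (ResidueField A) p _).mp h0
    have h2 := h98m_deg_coprime hp h5 M
    have h3 : p ∣ 1 := by
      have := Nat.dvd_gcd h1 (dvd_refl p)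
      rwa [Nat.Coprime.gcd_eq_one h2] at this
    exact hp.one_lt.ne' (Nat.dvd_one.mp h3)
  exact h38o_orth_back_pow A h Q hQ f hf hreg a ha fv hfv g' hg'0 b hb' hbneg hbunit
    (softR A M ⟨y, hy⟩) hsy0 _ hd 1 one_ne_zero hs _ hS1 hS2' hsum

/-- **ORTH(M)** (helper3's frozen leaf) from NORM-RED. -/
theorem h31a_orthM {p : ℕ} (hNR : H31aNormRed p) : H3gOrthM p :=
  h19o_orthM_of_norm (h31a_orthNorm hNR)

/-- **NORM-RED**, unconditional (helper59 `h59n_normRed` + helper96 `h96h_fullDeg`). -/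
theorem h31a_normRed (p : ℕ) : H31aNormRed p := by
  intro hp M _ hM A hA y hy hd g' hg' hred
  have hN : ¬ p ∣ goodLevel p M := not_dvd_goodLevel hp hM
  have hx : g' ∈ softV A (goodLevel p M) := gaussV_le_softV A (goodLevel p M) hg'
  have hdy : degen (dvd_goodLevel p M) y ∈ softV A (goodLevel p M) :=
    (degen_mem_softV_iff A (dvd_goodLevel p M) y).mpr hy
  have hxy : softR A (goodLevel p M) ⟨g', hx⟩ = softR A M ⟨y, hy⟩ := by
    have h1 := congrArg (h13sIncl A (goodLevel p M)) hred
    rw [h13sIncl_red, h13sIncl_red] at h1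
    rw [softR_eq_gaussR A (goodLevel p M) g' hx hg', h1,
      ← softR_eq_gaussR A (goodLevel p M) _ hdy hd]
    exact softR_degen A (dvd_goodLevel p M) ⟨y, hy⟩ hdy
  exact h59n_normRed h96h_fullDeg hp M hM A hA g' hx y hy hxy

/-- **ORTH(M), normalised form**, unconditional. -/
theorem h31a_orthNorm_final (p : ℕ) : H19oOrthNormM p :=
  h31a_orthNorm (h31a_normRed p)

/-- **ORTH(M)** (helper3's frozen leaf `H3gOrthM`), unconditional. -/
theorem h31a_orthM_final (p : ℕ) : H3gOrthM p :=
  h31a_orthM (h31a_normRed p)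

end Fermat.Agent.P7
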