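import Fermat.Agent.P7.H99W7Iface
import Fermat.Prelude.Def_FLTPrelim_FreyPackage
import Fermat.Prelude.Def_FLTPrelim_Modularity

/-!
# Wave 7, target S44 (Frey form of Mazur–Ribet at `p`): frozen interface of the LOCAL leaf
(owner helper77, prefix `h77m` / `H77m`)

`S44` needs the local statement (L) of `P7/H99W7Iface.lean` for an integral model `W` of the Frey
curve at a prime `p ∣ a b c` (multiplicative reduction, `p ∣ v_p(Δ)`), where `H99wLocal` (good
reduction) does not apply.

* `H77mLocalAt W p` : the BODY of `H99wLocal` for a given `W` and `p` (no hypothesis on the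
  reduction type): at every place `A` over `p`, if every inertia element is elementwise ordinary
  on `W[p]`, then `W[p]` is peu ramifié at `A` (a unit `β` of `A`, `β ^ p ∈ Fix(I₁)`, whose
  stabiliser in `I₁` acts trivially on `W[p]`).  This is the local hypothesis a generic top
  should consume.
* `h77m_localAt_of_good` : `H99wLocal` gives `H77mLocalAt W p` at primes of good reduction.
* `H77mLocalFrey` : **the frozen Prop of the leaf L-MULT**: `H77mLocalAt W P.p` for every integral
  model `W` of the Frey curve of a Frey package `P` with `P.p ∣ a b c`.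

Every declaration is a definition or a one-line consequence of definitions; nothing is assumed.
-/

set_option autoImplicit false

open WeierstrassCurve

noncomputable section

namespace Fermat.Agent.P7

open Fermat.Agent.S37 Fermat.Agent.S35

/-- **the body of (L)** for a fixed curve `W` and prime `p`: elementwise ordinary on the inertia
group at `A` ⟹ peu ramifié at `A`. -/
def H77mLocalAt (W : WeierstrassCurve ℤ) (p : ℕ) : Prop :=
  ∀ A : ValuationSubring Kbar, A.LiesOverPrime p →
    (∀ a ∈ A.inertiaSubgroupIn ℚ, ∀ e : ℕ, (∀ μ : Kbar, μ ^ p = 1 → a μ = μ ^ e) →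
      ∀ P : H99wTors W p, a • a • P - ((1 : ℤ) + e) • a • P + e • P = 0) →
    ∃ β : Kbar, β ∈ A ∧ β⁻¹ ∈ A ∧
      (∀ a ∈ A.inertiaSubgroupIn ℚ, H99wFixMu p a → a (β ^ p) = β ^ p) ∧
      ∀ a ∈ A.inertiaSubgroupIn ℚ, H99wFixMu p a → a β = β →
        ∀ P : H99wTors W p, a • P = P

/-- `H99wLocal` is `H77mLocalAt` at the odd primes of good reduction. -/
theorem h77m_localAt_of_good (h : H99wLocal) (W : WeierstrassCurve ℤ) (p : ℕ) (hp : p.Prime)
    (hp2 : p ≠ 2) (hgood : W.IsGoodPrimeFor p) : H77mLocalAt W p :=
  fun A hA hord => h W p hp hp2 hgood A hA hord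

/-- conversely, `H99wLocal` is the family of the `H77mLocalAt W p` at the odd good primes. -/
theorem h77m_local_of_localAt
    (h : ∀ (W : WeierstrassCurve ℤ) (p : ℕ), p.Prime → p ≠ 2 → W.IsGoodPrimeFor p →
      H77mLocalAt W p) : H99wLocal :=
  fun W p hp hp2 hgood A hA hord => h W p hp hp2 hgood A hA hord

/-- **(L-MULT), the frozen Prop of the S44 local leaf.**  For every integral model `W` of the Frey
curve of a Frey package `P` with `P.p ∣ a b c`, the `p`-torsion `W[p]` is peu ramifié at every
place over `p = P.p` (under the elementwise ordinarity supplied by the top). -/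
def H77mLocalFrey : Prop :=
  ∀ (P : FreyPackage) (W : WeierstrassCurve ℤ), W.IsIntegralModelOf P.freyCurve →
    (P.p : ℤ) ∣ P.a * P.b * P.c → H77mLocalAt W P.p

end Fermat.Agent.P7
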