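import Fermat.Agent.P7.H47LocalFinal
import Fermat.Agent.P7.H77MultIface
import Fermat.Agent.S05.VarChange
import Fermat.Agent.S05.FreyArith

/-!
# Wave 7, target S44, leaf LM-5-PEU (helper31, prefix `h31m` / `H31m`)

The local statement `H77mLocalAt W p` (the body of `H99wLocal`, `P7/H77MultIface.lean`) WITHOUT
any hypothesis on the reduction type of `W` at `p`, from the flatness of `W[p]` at `p`:

* `h31m_peu_loc` : the local core at the instance `W[p]` (copy of `h47u_peu_loc` of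
  `P7/H47PeuLoc.lean`, the hypothesis of good reduction replaced by `W.Δ ≠ 0` and `LocFlat`);
* `h31m_localAt_of_locFlat` : `W.Δ ≠ 0`, `p` odd, `LocFlat p W[p] ρ` ⟹ `H77mLocalAt W p`;
* `h31m_localAt_of_order` : the same from a local order `P5.H96LocOrder` at ONE place over `p`;
* `H31mLocalQ E p` : the body of (L) for a curve `E` over `ℚ`;
  `H77mLocalAt W p = H31mLocalQ (W.map (Int.castRingHom ℚ)) p` by `Iff.rfl`;
* `h31m_localQ_of_model` : **transport along a variable change over `ℚ`**: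
  `E₁ = C • E₂ → H31mLocalQ E₂ p → H31mLocalQ E₁ p`;
* `h31m_localAt_of_model` : the same for two integral models;
* `h31mW0 P`, `h31mW0C P` : the integral short models of the Frey curve
  (`map = S05.freyShort P`, `S05.freyShortC P`);
* `h31m_localFrey_of_short` : `H77mLocalFrey` from `H77mLocalAt` at ONE of the two integral short
  models (for every Frey package with `p ∣ a b c`);
* `h31m_localFrey_of_locFlat` : `H77mLocalFrey` from `LocFlat` at the short models.

Everything is unconditional in the stated hypotheses; nothing is assumed.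
-/

set_option autoImplicit false
set_option linter.style.haveILetI false
set_option linter.unusedSectionVars false

open WeierstrassCurve WeierstrassCurve.Affine.Point
open Fermat.Agent.PT.Loc Fermat.Agent.S56F Fermat.Agent.PT.Bridge
open scoped WeierstrassCurve.Affine Pointwise

noncomputable section

namespace Fermat.Agent.P7

open Fermat.Agent.S37 Fermat.Agent.S35

section core

variable (W : WeierstrassCurve ℤ) (p : ℕ) [Fact p.Prime]

/-- **L-PEU, local form at the instance `W[p]`, flatness as a hypothesis** (no hypothesis on the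
reduction type). -/
theorem h31m_peu_loc (hp2 : p ≠ 2) (hΔ : W.Δ ≠ 0)
    (hflat : LocFlat p (H47wX W p) (fun σ v => h47wRho W p σ v))
    {P : ValuationSubring H47wQb} (hP : P.LiesOverPrime p) (hglob : H47vOrdGlob W p P) :
    ∃ g : H47wGQ, g⁻¹ • padicPlace p = P ∧
      ∀ ζ : Om p, ζ ^ p = 1 → ζ ≠ 1 →
        ∃ β : Om p, ‖β‖ = 1 ∧
          (∀ s ∈ inertia p, cycExp p s 1 → ∃ j : ℕ, s β = ζ ^ j * β) ∧
          ∀ s ∈ inertia p, cycExp p s 1 → s β = β → ∀ v, h47wRho W p s v = v := by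
  obtain ⟨g, hg⟩ := h23b_exists_smul_padicPlace p hP
  subst hg
  haveI : Module.Finite (ZMod p) (H47wX W p) := h47v_moduleFinite W p hΔ
  refine ⟨g, rfl, fun ζ hζ hζ1 => ?_⟩
  exact h24p_core hp2 (h47v_rank W p hΔ) (h47wRho W p) (h47v_det W p hΔ)
    hflat (fun s hs a ha v => h47u_hord g hglob s hs a ha v) ζ hζ hζ1

end core

/-- **(L) for any reduction type, from flatness**: `W.Δ ≠ 0`, `p` odd, `W[p]` flat at `p`
⟹ the body of `H99wLocal` for `W` and `p`. -/
theorem h31m_localAt_of_locFlat (W : WeierstrassCurve ℤ) (p : ℕ) (hp : p.Prime) (hp2 : p ≠ 2)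
    (hΔ : W.Δ ≠ 0)
    (hflat : haveI : Fact p.Prime := ⟨hp⟩
      LocFlat p (H47wX W p) (fun σ v => h47wRho W p σ v)) :
    H77mLocalAt W p := by
  intro A hA hord
  haveI : Fact p.Prime := ⟨hp⟩
  -- the global hypothesis in the shape `H47vOrdGlob`
  have hglob : H47vOrdGlob W p A := by
    intro σ hσ a ha x
    have h1 := hord σ hσ a ha x
    have h2 : σ • σ • x = ((1 : ℤ) + a) • σ • x - a • x := by
      rw [sub_add_eq_add_sub, sub_eq_zero] at h1
      rw [← h1, add_sub_cancel_right]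
    have h3 : ((1 : ℤ) + a) • σ • x = σ • x + a • σ • x := by
      rw [add_smul, one_smul, natCast_zsmul]
    show σ • (σ • x - x) = a • (σ • x - x)
    rw [smul_sub σ, h2, h3, smul_sub]
    abel
  obtain ⟨g, hg, hloc⟩ := h31m_peu_loc W p hp2 hΔ hflat hA hglob
  subst hg
  obtain ⟨ζ, hζ, hζ1⟩ := h47l_exists_primitive (p := p)
  obtain ⟨β, hβ1, hβK, hβtriv⟩ := hloc ζ hζ hζ1
  obtain ⟨b, hbalg, hb1, hbp, hbfix⟩ := h47l_transport p hp2 ζ β hζ hζ1 hβ1 hβK
  obtain ⟨y, rfl⟩ := h23b_exists_padicEmbedding_eq_of_isAlgebraic p hbalg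
  have hy0 : y ≠ 0 := by
    rintro rfl
    rw [_root_.map_zero, norm_zero] at hb1
    exact zero_ne_one hb1
  -- local elements of the inertia group
  have hI : ∀ a ∈ (g⁻¹ • padicPlace p).inertiaSubgroupIn ℚ, H99wFixMu p a →
      ∃ s : Gq p, s ∈ inertia p ∧ cycExp p s 1 ∧ a = g⁻¹ * ιp p s * g := by
    intro a ha hmu
    obtain ⟨s, hs, rfl⟩ := h47v_inertia_of_conj g ha
    refine ⟨s, hs, ?_, rfl⟩
    exact (h47v_cyc_iff g s p hp.pos 1).mp (fun ζ' hζ' => by rw [pow_one]; exact hmu ζ' hζ')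
  have hconj : ∀ (s : Gq p) (x : H47wQb), (g⁻¹ * ιp p s * g) (g⁻¹ x) = g⁻¹ (ιp p s x) := by
    intro s x
    simp only [AlgEquiv.mul_apply]
    rw [← AlgEquiv.mul_apply g g⁻¹, mul_inv_cancel, AlgEquiv.one_apply]
  refine ⟨g⁻¹ y, ?_, ?_, ?_, ?_⟩
  · exact (h47l_mem_conj_iff g y).mpr hb1.le
  · rw [← map_inv₀]
    refine (h47l_mem_conj_iff g y⁻¹).mpr ?_
    rw [map_inv₀, norm_inv, hb1, inv_one]
  · intro a ha hmu
    obtain ⟨s, hs, hs1, rfl⟩ := hI a ha hmu
    rw [← map_pow, hconj]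
    congr 1
    apply h23b_padicEmbedding_injective p
    rw [padicEmbedding_localGaloisToGlobal, map_pow]
    exact hbp s hs hs1
  · intro a ha hmu hfix P
    obtain ⟨s, hs, hs1, rfl⟩ := hI a ha hmu
    rw [hconj] at hfix
    have h1 : ιp p s y = y := g⁻¹.injective hfix
    have h2 : s (padicEmbedding p y) = padicEmbedding p y := by
      rw [← padicEmbedding_localGaloisToGlobal, h1]
    have h3 := hβtriv s hs hs1 (hbfix s hs hs1 h2) (g • P)
    rw [h47wRho_apply] at h3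
    show (g⁻¹ * ιp p s * g) • P = P
    rw [mul_smul, mul_smul, h3, inv_smul_smul]

/-- **(L) for any reduction type, from a local order at ONE place over `p`**
(`P5.H96LocOrder`, the output of the order step of block (4)). -/
theorem h31m_localAt_of_order (W : WeierstrassCurve ℤ) (p : ℕ) (hp : p.Prime) (hp2 : p ≠ 2)
    (hΔ : W.Δ ≠ 0) (A : ValuationSubring H47wQb) (hA : A.LiesOverPrime p)
    (G : Set (H47wX W p → H47wQb)) (hG : P5.H96LocOrder A (h47wAct W p) G) :
    H77mLocalAt W p :=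
  haveI : Fact p.Prime := ⟨hp⟩
  h31m_localAt_of_locFlat W p hp hp2 hΔ (h47v_locFlat W p hΔ A hA G hG)

/-! ### The body of (L) for a curve over `ℚ`, transport along variable changes -/

/-- the `p`-torsion over `ℚ̄` of a curve over `ℚ`. -/
abbrev H31mTorsQ (E : WeierstrassCurve ℚ) (p : ℕ) : Type :=
  Submodule.torsionBy ℤ ((E : Affine ℚ)⁄Kbar).Point p

/-- **the body of (L)** for a curve `E` over `ℚ` and a prime `p`. -/
def H31mLocalQ (E : WeierstrassCurve ℚ) (p : ℕ) : Prop :=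
  ∀ A : ValuationSubring Kbar, A.LiesOverPrime p →
    (∀ a ∈ A.inertiaSubgroupIn ℚ, ∀ e : ℕ, (∀ μ : Kbar, μ ^ p = 1 → a μ = μ ^ e) →
      ∀ P : H31mTorsQ E p, a • a • P - ((1 : ℤ) + e) • a • P + e • P = 0) →
    ∃ β : Kbar, β ∈ A ∧ β⁻¹ ∈ A ∧
      (∀ a ∈ A.inertiaSubgroupIn ℚ, H99wFixMu p a → a (β ^ p) = β ^ p) ∧
      ∀ a ∈ A.inertiaSubgroupIn ℚ, H99wFixMu p a → a β = β →
        ∀ P : H31mTorsQ E p, a • P = P

/-- `H77mLocalAt W p` is `H31mLocalQ` of the generic fibre. -/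
theorem h31m_localAt_iff (W : WeierstrassCurve ℤ) (p : ℕ) :
    H77mLocalAt W p ↔ H31mLocalQ (W.map (Int.castRingHom ℚ)) p :=
  Iff.rfl

/-- the same for any name of the generic fibre. -/
theorem h31m_localAt_iff_of_map_eq {W : WeierstrassCurve ℤ} {E : WeierstrassCurve ℚ}
    (h : W.map (Int.castRingHom ℚ) = E) (p : ℕ) :
    H77mLocalAt W p ↔ H31mLocalQ E p := by
  subst h
  exact Iff.rfl

/-- a variable change over `ℚ` induces an injective Galois equivariant homomorphism on the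
points over `ℚ̄`. -/
theorem h31m_exists_equivariant {E₁ E₂ : WeierstrassCurve ℚ} (C : VariableChange ℚ)
    (h : E₁ = C • E₂) :
    ∃ φ : ((E₁ : Affine ℚ)⁄Kbar).Point →+ ((E₂ : Affine ℚ)⁄Kbar).Point,
      Function.Injective φ ∧ ∀ (σ : Kbar ≃ₐ[ℚ] Kbar) (P : ((E₁ : Affine ℚ)⁄Kbar).Point),
        φ (σ • P) = σ • φ P := by
  subst h
  exact ⟨Fermat.Agent.S05.vcPointBC E₂ C, Fermat.Agent.S05.vcPointBC_injective E₂ C,
    fun σ P => Fermat.Agent.S05.vcPointBC_map E₂ C σ.toAlgHom P⟩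

/-- the same on the `p`-torsion. -/
theorem h31m_exists_equivariant_tors {E₁ E₂ : WeierstrassCurve ℚ} (C : VariableChange ℚ)
    (h : E₁ = C • E₂) (p : ℕ) :
    ∃ Φ : H31mTorsQ E₁ p →+ H31mTorsQ E₂ p,
      Function.Injective Φ ∧ ∀ (σ : Kbar ≃ₐ[ℚ] Kbar) (P : H31mTorsQ E₁ p), Φ (σ • P) = σ • Φ P := by
  obtain ⟨φ, hφ, hσ⟩ := h31m_exists_equivariant C h
  have hmem : ∀ P : H31mTorsQ E₁ p,
      φ P ∈ Submodule.torsionBy ℤ ((E₂ : Affine ℚ)⁄Kbar).Point p := fun P => by
    rw [Submodule.mem_torsionBy_iff, ← map_zsmul, (Submodule.mem_torsionBy_iff _ _).mp P.2,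
      _root_.map_zero]
  refine ⟨{ toFun := fun P => ⟨φ P, hmem P⟩
            map_zero' := Subtype.ext (_root_.map_zero φ)
            map_add' := fun P Q => Subtype.ext (map_add φ _ _) }, ?_, ?_⟩
  · intro P Q hPQ
    exact Subtype.ext (hφ (congrArg Subtype.val hPQ))
  · intro σ P
    exact Subtype.ext (hσ σ P)

/-- **transport of (L) along a variable change over `ℚ`.** -/
theorem h31m_localQ_of_model {E₁ E₂ : WeierstrassCurve ℚ} (C : VariableChange ℚ)
    (h : E₁ = C • E₂) (p : ℕ) (h2 : H31mLocalQ E₂ p) : H31mLocalQ E₁ p := by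
  intro A hA hord
  have h' : E₂ = C⁻¹ • E₁ := by rw [h, inv_smul_smul]
  obtain ⟨Φ, hΦ, hΦσ⟩ := h31m_exists_equivariant_tors C h p
  obtain ⟨Ψ, hΨ, hΨσ⟩ := h31m_exists_equivariant_tors C⁻¹ h' p
  obtain ⟨β, hβ, hβ', hβp, hfix⟩ := h2 A hA (fun a ha e he Q => by
    apply hΨ
    rw [_root_.map_zero, map_add, map_sub, map_zsmul, map_nsmul, hΨσ, hΨσ]
    exact hord a ha e he (Ψ Q))
  refine ⟨β, hβ, hβ', hβp, fun a ha hmu hb P => ?_⟩
  apply hΦ
  rw [hΦσ]
  exact hfix a ha hmu hb (Φ P)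

/-- **transport of (L) between two integral models** whose generic fibres differ by a variable
change over `ℚ`. -/
theorem h31m_localAt_of_model {W W' : WeierstrassCurve ℤ} (C : VariableChange ℚ)
    (h : W.map (Int.castRingHom ℚ) = C • W'.map (Int.castRingHom ℚ)) (p : ℕ)
    (h2 : H77mLocalAt W' p) : H77mLocalAt W p :=
  h31m_localQ_of_model C h p h2

/-- (L) for an integral model of `E` from (L) for `E`. -/
theorem h31m_localAt_of_isIntegralModelOf {W : WeierstrassCurve ℤ} {E : WeierstrassCurve ℚ}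
    (hW : W.IsIntegralModelOf E) (p : ℕ) (h2 : H31mLocalQ E p) : H77mLocalAt W p := by
  obtain ⟨C, hC⟩ := hW
  exact h31m_localQ_of_model C hC.symm p h2

/-! ### The Frey curve -/

/-- the integral short model `Y² = X³ + (b^p - a^p) X² - (ab)^p X` of the Frey curve. -/
def h31mW0 (P : FreyPackage) : WeierstrassCurve ℤ :=
  ⟨0, P.b ^ P.p - P.a ^ P.p, 0, -(P.a ^ P.p * P.b ^ P.p), 0⟩

/-- the integral short model `Y² = X³ + (a^p + c^p) X² + (ac)^p X` of the Frey curve. -/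
def h31mW0C (P : FreyPackage) : WeierstrassCurve ℤ :=
  ⟨0, P.a ^ P.p + P.c ^ P.p, 0, P.a ^ P.p * P.c ^ P.p, 0⟩

theorem h31mW0_map (P : FreyPackage) :
    (h31mW0 P).map (Int.castRingHom ℚ) = Fermat.Agent.S05.freyShort P := by
  ext <;> simp [h31mW0, Fermat.Agent.S05.freyShort]

theorem h31mW0C_map (P : FreyPackage) :
    (h31mW0C P).map (Int.castRingHom ℚ) = Fermat.Agent.S05.freyShortC P := by
  ext <;> simp [h31mW0C, Fermat.Agent.S05.freyShortC]

/-- the Frey curve from the short model. -/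
theorem h31m_localQ_frey_of_short (P : FreyPackage) (p : ℕ)
    (h : H31mLocalQ (Fermat.Agent.S05.freyShort P) p) : H31mLocalQ P.freyCurve p :=
  h31m_localQ_of_model _ (Fermat.Agent.S05.freyCurve_eq_smul_short P) p h

/-- the Frey curve from the translated short model. -/
theorem h31m_localQ_frey_of_shortC (P : FreyPackage) (p : ℕ)
    (h : H31mLocalQ (Fermat.Agent.S05.freyShortC P) p) : H31mLocalQ P.freyCurve p :=
  h31m_localQ_of_model _ (Fermat.Agent.S05.freyCurve_eq_smul_shortC P) p h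

/-- every integral model of the Frey curve from the integral short model. -/
theorem h31m_localAt_frey_of_W0 (P : FreyPackage) {W : WeierstrassCurve ℤ}
    (hW : W.IsIntegralModelOf P.freyCurve) (p : ℕ) (h : H77mLocalAt (h31mW0 P) p) :
    H77mLocalAt W p :=
  h31m_localAt_of_isIntegralModelOf hW p
    (h31m_localQ_frey_of_short P p ((h31m_localAt_iff_of_map_eq (h31mW0_map P) p).mp h))

/-- every integral model of the Frey curve from the translated integral short model. -/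
theorem h31m_localAt_frey_of_W0C (P : FreyPackage) {W : WeierstrassCurve ℤ}
    (hW : W.IsIntegralModelOf P.freyCurve) (p : ℕ) (h : H77mLocalAt (h31mW0C P) p) :
    H77mLocalAt W p :=
  h31m_localAt_of_isIntegralModelOf hW p
    (h31m_localQ_frey_of_shortC P p ((h31m_localAt_iff_of_map_eq (h31mW0C_map P) p).mp h))

theorem h31m_dvd_cases (P : FreyPackage) (h : (P.p : ℤ) ∣ P.a * P.b * P.c) :
    ((P.p : ℤ) ∣ P.a ∨ (P.p : ℤ) ∣ P.b) ∨ (P.p : ℤ) ∣ P.c := by
  have hp : Prime (P.p : ℤ) := Nat.prime_iff_prime_int.mp P.pp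
  rcases hp.dvd_mul.mp h with h1 | h1
  · exact Or.inl (hp.dvd_mul.mp h1)
  · exact Or.inr h1

/-- **`H77mLocalFrey` from (L) at the short models over `ℚ`** (`freyShort` when `p ∣ a b`,
`freyShortC` when `p ∣ c`). -/
theorem h31m_localFrey_of_shortQ
    (hab : ∀ P : FreyPackage, ((P.p : ℤ) ∣ P.a ∨ (P.p : ℤ) ∣ P.b) →
      H31mLocalQ (Fermat.Agent.S05.freyShort P) P.p)
    (hc : ∀ P : FreyPackage, (P.p : ℤ) ∣ P.c →
      H31mLocalQ (Fermat.Agent.S05.freyShortC P) P.p) :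
    H77mLocalFrey := by
  intro P W hW hdvd
  rcases h31m_dvd_cases P hdvd with h | h
  · exact h31m_localAt_of_isIntegralModelOf hW P.p (h31m_localQ_frey_of_short P P.p (hab P h))
  · exact h31m_localAt_of_isIntegralModelOf hW P.p (h31m_localQ_frey_of_shortC P P.p (hc P h))

/-- **`H77mLocalFrey` from (L) at the integral short models.** -/
theorem h31m_localFrey_of_short
    (hab : ∀ P : FreyPackage, ((P.p : ℤ) ∣ P.a ∨ (P.p : ℤ) ∣ P.b) →
      H77mLocalAt (h31mW0 P) P.p)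
    (hc : ∀ P : FreyPackage, (P.p : ℤ) ∣ P.c → H77mLocalAt (h31mW0C P) P.p) :
    H77mLocalFrey :=
  h31m_localFrey_of_shortQ
    (fun P h => (h31m_localAt_iff_of_map_eq (h31mW0_map P) P.p).mp (hab P h))
    (fun P h => (h31m_localAt_iff_of_map_eq (h31mW0C_map P) P.p).mp (hc P h))

theorem h31mW0_Δ (P : FreyPackage) :
    (h31mW0 P).Δ = 16 * (P.a ^ P.p * P.b ^ P.p * P.c ^ P.p) ^ 2 := by
  rw [← P.hFLT]
  simp only [WeierstrassCurve.Δ, WeierstrassCurve.b₂, WeierstrassCurve.b₄, WeierstrassCurve.b₆,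
    WeierstrassCurve.b₈, h31mW0]
  ring

theorem h31mW0C_Δ (P : FreyPackage) :
    (h31mW0C P).Δ = 16 * (P.a ^ P.p * P.b ^ P.p * P.c ^ P.p) ^ 2 := by
  simp only [WeierstrassCurve.Δ, WeierstrassCurve.b₂, WeierstrassCurve.b₄, WeierstrassCurve.b₆,
    WeierstrassCurve.b₈, h31mW0C]
  rw [← P.hFLT]
  ring

theorem h31m_abc_pow_ne (P : FreyPackage) :
    (16 : ℤ) * (P.a ^ P.p * P.b ^ P.p * P.c ^ P.p) ^ 2 ≠ 0 :=
  mul_ne_zero (by norm_num) (pow_ne_zero _ (mul_ne_zero (mul_ne_zero (pow_ne_zero _ P.ha0)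
    (pow_ne_zero _ P.hb0)) (pow_ne_zero _ P.hc0)))

theorem h31mW0_Δ_ne (P : FreyPackage) : (h31mW0 P).Δ ≠ 0 := by
  rw [h31mW0_Δ]
  exact h31m_abc_pow_ne P

theorem h31mW0C_Δ_ne (P : FreyPackage) : (h31mW0C P).Δ ≠ 0 := by
  rw [h31mW0C_Δ]
  exact h31m_abc_pow_ne P

theorem h31m_p_ne_two (P : FreyPackage) : P.p ≠ 2 := by
  have := P.hp5
  omega

/-- **`H77mLocalFrey` from the flatness at `p` of the `p`-torsion of the integral short
models.** -/
theorem h31m_localFrey_of_locFlat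
    (hab : ∀ P : FreyPackage, ((P.p : ℤ) ∣ P.a ∨ (P.p : ℤ) ∣ P.b) →
      haveI : Fact P.p.Prime := ⟨P.pp⟩
      LocFlat P.p (H47wX (h31mW0 P) P.p) (fun σ v => h47wRho (h31mW0 P) P.p σ v))
    (hc : ∀ P : FreyPackage, (P.p : ℤ) ∣ P.c →
      haveI : Fact P.p.Prime := ⟨P.pp⟩
      LocFlat P.p (H47wX (h31mW0C P) P.p) (fun σ v => h47wRho (h31mW0C P) P.p σ v)) :
    H77mLocalFrey :=
  h31m_localFrey_of_short
    (fun P h => h31m_localAt_of_locFlat (h31mW0 P) P.p P.pp (h31m_p_ne_two P)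
      (h31mW0_Δ_ne P) (hab P h))
    (fun P h => h31m_localAt_of_locFlat (h31mW0C P) P.p P.pp (h31m_p_ne_two P)
      (h31mW0C_Δ_ne P) (hc P h))

/-- **`H77mLocalFrey` from a local order at one place over `p` for the integral short
models** (`P5.H96LocOrder`, the output of LM-1 … LM-4). -/
theorem h31m_localFrey_of_order
    (hab : ∀ P : FreyPackage, ((P.p : ℤ) ∣ P.a ∨ (P.p : ℤ) ∣ P.b) →
      ∃ A : ValuationSubring H47wQb, A.LiesOverPrime P.p ∧
        ∃ G : Set (H47wX (h31mW0 P) P.p → H47wQb),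
          P5.H96LocOrder A (h47wAct (h31mW0 P) P.p) G)
    (hc : ∀ P : FreyPackage, (P.p : ℤ) ∣ P.c →
      ∃ A : ValuationSubring H47wQb, A.LiesOverPrime P.p ∧
        ∃ G : Set (H47wX (h31mW0C P) P.p → H47wQb),
          P5.H96LocOrder A (h47wAct (h31mW0C P) P.p) G) :
    H77mLocalFrey :=
  h31m_localFrey_of_short
    (fun P h => by
      obtain ⟨A, hA, G, hG⟩ := hab P h
      exact h31m_localAt_of_order (h31mW0 P) P.p P.pp (h31m_p_ne_two P) (h31mW0_Δ_ne P) A hA G hG)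
    (fun P h => by
      obtain ⟨A, hA, G, hG⟩ := hc P h
      exact h31m_localAt_of_order (h31mW0C P) P.p P.pp (h31m_p_ne_two P) (h31mW0C_Δ_ne P)
        A hA G hG)

end Fermat.Agent.P7
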