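import Fermat.Agent.P7.H37GapM
import Fermat.Agent.Red.CH0

/-!
# Wave 7, block (A), route DLOG: CONST(M) at the NON-good level `M` (helper32, prefix `h32c_`)

Twin of step (S3) of finding 1462 (helper26).  `ℓ` a prime, `M` ANY level prime to `ℓ`, `N` a
level with `M ∣ N` at which the reduction map of places `r` exists (`H13sIsRed A N r`, landed at
the good levels: `h88r_redDiv`), `Q∞` the place of the special fibre of level `N` whose order is
the `q`-order, `Q` the place `∞` of `FF M`.

Hypotheses on the fibre `R∞ = r⁻¹(Q∞)` (steps (S1), (S2) of finding 1462):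

* `h1` : every place of `R∞` is unramified over `FF M`, in `ord`-form;
* `h2` : the restriction to `FF M` is injective on `R∞`;
* `h3` : some place of `R∞` lies over `Q`.

Conclusion (`h32c_const`): **CONST(M)** in the frozen shape `H37nConst M A Q` of
`P7/H37GapM.lean`: a Gauss-integral function of level `M`, regular off `Q`, whose reduction has
no negative term, has constant reduction.

Proof: if `red (f - a) ≠ 0` has `q`-order `s ≥ 1`, RED-DIV gives
`s = ∑_{v ∈ R∞} ord_v (f - a) = ∑_{v ∈ R∞} ord_{v|M} (f - a)`, a sum over distinct places of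
`FF M` which contains the only possible pole `Q`; the divisor of `f - a` has degree `0` and the
omitted terms are `≥ 0`, so `s ≤ 0`.
-/

set_option autoImplicit false
set_option linter.unusedSectionVars false
set_option linter.style.haveILetI false

open AlgebraicCurve ModularCurve IsLocalRing

noncomputable section

namespace Fermat.Agent.P7

open Fermat.Agent.S37 Fermat.Agent.Red.GV Fermat.Agent.P5 Fermat.Agent.Red.Nz

variable {ℓ : ℕ} (M : ℕ) [NeZero M] (A : ValuationSubring Kbar)

open scoped Classical in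
/-- the value of the push-forward of a divisor at a place is the sum over the fibre. -/
theorem h32c_push_apply {N : ℕ} (r : Place Kbar (FF N) → Place (h13sK A) (h13sFt A N))
    (D : Divisor Kbar (FF N)) (Q : Place (h13sK A) (h13sFt A N)) :
    h13sPush r D Q = ∑ v ∈ D.support.filter (fun v => r v = Q), D v := by
  unfold h13sPush
  rw [Finsupp.mapDomain, Finsupp.sum_apply, Finsupp.sum, Finset.sum_filter]
  refine Finset.sum_congr rfl (fun v _ => ?_)
  rw [Finsupp.single_apply]

/-- the degree of a divisor on a function field whose places have degree one. -/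
theorem h32c_degree_eq_sum {K F : Type*} [Field K] [Field F] [Algebra K F]
    (hB : H13rBase K F) (D : Divisor K F) : Divisor.degree D = ∑ w ∈ D.support, D w := by
  have h : ∀ E : Divisor K F, Divisor.degree E = E.sum (fun _ n => n) := by
    intro E
    induction E using Finsupp.induction_linear with
    | zero => simp
    | add x y hx hy => rw [map_add, hx, hy, Finsupp.sum_add_index' (by simp) (by simp)]
    | single v n => rw [Divisor.degree_single, hB.deg_one v, Finsupp.sum_single_index rfl]; simp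
  rw [h D, Finsupp.sum]

open scoped Classical in
/-- **CONST(M)** from the structure of the fibre of the reduction map over the place `∞̄`. -/
theorem h32c_const (hℓ : ℓ.Prime) (hM : ¬ ℓ ∣ M) (hA : A.LiesOverPrime ℓ)
    {N : ℕ} [NeZero N] (hN : ¬ ℓ ∣ N) (h : M ∣ N)
    (r : Place Kbar (FF N) → Place (h13sK A) (h13sFt A N)) (hr : H13sIsRed A N r)
    (Qoo : Place (h13sK A) (h13sFt A N))
    (hQoo : ∀ y : h13sFt A N, y ≠ 0 → Qoo.ord y = (h13sIncl A N y).order)
    (Q : Place Kbar (FF M))
    (h1 : ∀ v : Place Kbar (FF N), r v = Qoo → ∀ y : FF M,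
      v.ord (degen h y) =
        (v.restrictAlong (degen h) (Fermat.Agent.Red.CH0.isIntegral_degen h)).ord y)
    (h2 : ∀ v v' : Place Kbar (FF N), r v = Qoo → r v' = Qoo →
      v.restrictAlong (degen h) (Fermat.Agent.Red.CH0.isIntegral_degen h) =
        v'.restrictAlong (degen h) (Fermat.Agent.Red.CH0.isIntegral_degen h) → v = v')
    (h3 : ∃ v : Place Kbar (FF N), r v = Qoo ∧
      v.restrictAlong (degen h) (Fermat.Agent.Red.CH0.isIntegral_degen h) = Q) :
    H37nConst M A Q := by
  intro f hf hreg hcoef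
  set ρ0 := gaussR A M ⟨f, hf⟩ with hρ0
  obtain ⟨a, ha⟩ := IsLocalRing.residue_surjective (ρ0.coeff 0)
  have hcA : cst M (a : Kbar) ∈ gaussV A M := h89_cst_mem_gaussV a
  have hf' : f - cst M (a : Kbar) ∈ gaussV A M := Subring.sub_mem _ hf hcA
  have hred : gaussR A M ⟨f - cst M (a : Kbar), hf'⟩ = ρ0 - HahnSeries.C (ρ0.coeff 0) := by
    have e : (⟨f - cst M (a : Kbar), hf'⟩ : gaussV A M) = ⟨f, hf⟩ - ⟨cst M (a : Kbar), hcA⟩ := rfl
    rw [e, map_sub, h89_gaussR_cst, ha]
  by_cases hz : gaussR A M ⟨f - cst M (a : Kbar), hf'⟩ = 0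
  · refine ⟨ρ0.coeff 0, ?_⟩
    rw [hred, sub_eq_zero] at hz
    exact hz
  exfalso
  set ρ' := gaussR A M ⟨f - cst M (a : Kbar), hf'⟩ with hρ'
  -- the reduction of `f - a` has order `≥ 1`
  have hc : ∀ i : ℤ, i < 1 → ρ'.coeff i = 0 := by
    intro i hi
    rw [hred, HahnSeries.coeff_sub]
    have hi0 : i ≤ 0 := by omega
    rcases lt_or_eq_of_le hi0 with h0 | h0
    · have e1 : (HahnSeries.C (ρ0.coeff 0) : LaurentSeries (ResidueField A)).coeff i = 0 := by
        rw [HahnSeries.C_apply, HahnSeries.coeff_single_of_ne h0.ne]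
      rw [hcoef i h0, e1, sub_zero]
    · subst h0
      have e1 : (HahnSeries.C (ρ0.coeff 0) : LaurentSeries (ResidueField A)).coeff 0 =
          ρ0.coeff 0 := by
        rw [HahnSeries.C_apply, HahnSeries.coeff_single_same]
      rw [e1, sub_self]
  have hord : 1 ≤ ρ'.order := by
    by_contra hlt
    rw [not_le] at hlt
    exact hz (HahnSeries.coeff_order_eq_zero.mp (hc _ hlt))
  -- pass to the level `N`
  set g : FF M := f - cst M (a : Kbar) with hg
  set F : FF N := degen h g with hF
  have hFV : F ∈ gaussV A N := (h37l_degen_mem_gaussV M A hℓ hM hN hA h g).2 hf'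
  have hFred : gaussR A N ⟨F, hFV⟩ = ρ' := h37l_gaussR_degen M A h g hf' hFV
  have hFne : gaussR A N ⟨F, hFV⟩ ≠ 0 := by rw [hFred]; exact hz
  have hnot := (gaussR_eq_zero_iff A N hℓ hN hA ⟨F, hFV⟩).not.1 hFne
  have hF0 : F ≠ 0 := fun h0 => hnot (Or.inl h0)
  have hFinv : F⁻¹ ∈ gaussV A N := by
    by_contra h0
    exact hnot (Or.inr h0)
  obtain ⟨D, hD, -⟩ := (h40r_base_FF N).pd F hF0
  have hpush := hr.2.2 F hFV hFinv D hD Qoo
  have hredne : h13sRed A N ⟨F, hFV⟩ ≠ 0 := by
    intro h0
    apply hFne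
    have e := congrArg (h13sIncl A N) h0
    rw [map_zero] at e
    exact e
  have hQo : Qoo.ord (h13sRed A N ⟨F, hFV⟩) = ρ'.order := by
    rw [hQoo _ hredne, ← hFred]
    rfl
  rw [hQo, h32c_push_apply] at hpush
  -- the level `M`
  have hg0 : g ≠ 0 := by
    intro h0
    apply hF0
    rw [hF, h0, map_zero]
  obtain ⟨D', hD', hdeg⟩ := (h40r_base_FF M).pd g hg0
  rw [h32c_degree_eq_sum (h40r_base_FF M)] at hdeg
  have hgreg : ∀ w : Place Kbar (FF M), w ≠ Q → 0 ≤ w.ord g := by
    intro w hw
    apply h68r_ord_nonneg_of_mem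
    exact sub_mem (h68r_mem_of_ord_nonneg w (Or.inr (hreg w hw))) (w.algebraMap_mem' _)
  set res : Place Kbar (FF N) → Place Kbar (FF M) :=
    fun v => v.restrictAlong (degen h) (Fermat.Agent.Red.CH0.isIntegral_degen h) with hres
  set T : Finset (Place Kbar (FF N)) := D.support.filter (fun v => r v = Qoo) with hT
  have hTr : ∀ v ∈ T, r v = Qoo := fun v hv => (Finset.mem_filter.1 hv).2
  have hTD : ∀ v ∈ T, D v = D' (res v) := by
    intro v hv
    rw [hD v, hD' (res v), hF, h1 v (hTr v hv) g]
  have hinj : Set.InjOn res (T : Set (Place Kbar (FF N))) := by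
    intro v hv v' hv' e
    exact h2 v v' (hTr v hv) (hTr v' hv') e
  have hsum1 : ∑ v ∈ T, D v = ∑ w ∈ T.image res, D' w := by
    rw [Finset.sum_image hinj]
    exact Finset.sum_congr rfl hTD
  have hsub : T.image res ⊆ D'.support := by
    intro w hw
    obtain ⟨v, hv, rfl⟩ := Finset.mem_image.1 hw
    rw [Finsupp.mem_support_iff, ← hTD v hv]
    exact Finsupp.mem_support_iff.1 (Finset.mem_filter.1 hv).1
  have hrest : ∀ w ∈ D'.support \ T.image res, 0 ≤ D' w := by
    intro w hw
    obtain ⟨hw1, hw2⟩ := Finset.mem_sdiff.1 hw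
    rw [hD' w]
    by_cases hwQ : w = Q
    · exfalso
      obtain ⟨v0, hv0, hv0Q⟩ := h3
      by_cases hv0D : v0 ∈ D.support
      · apply hw2
        rw [hwQ, ← hv0Q]
        exact Finset.mem_image_of_mem res (Finset.mem_filter.2 ⟨hv0D, hv0⟩)
      · have e0 : D v0 = 0 := Finsupp.notMem_support_iff.1 hv0D
        rw [hD v0, hF, h1 v0 hv0 g, hv0Q, ← hwQ, ← hD' w] at e0
        exact (Finsupp.mem_support_iff.1 hw1) e0
    · exact hgreg w hwQ
  have hsplit : ∑ w ∈ D'.support \ T.image res, D' w + ∑ w ∈ T.image res, D' w =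
      ∑ w ∈ D'.support, D' w := Finset.sum_sdiff hsub
  have hnn : 0 ≤ ∑ w ∈ D'.support \ T.image res, D' w := Finset.sum_nonneg hrest
  rw [hsum1] at hpush
  linarith

end Fermat.Agent.P7
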