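import Fermat.Agent.P7.H32Eigen
import Fermat.Agent.S30.Inputs
import Fermat.Agent.S29.Assembly
import Fermat.Prelude.Def_FLTPrelim_ModularRep

/-!
# Wave 7 (S40), block G1 DOWN (helper32, prefix `h32w_`)

`h32w_down` : if `W` is residually modular of level `N` at `p`, the eigensystem
`T_ℓ ↦ a_ℓ(W)` (`ℓ` outside a finite set `S₀` containing the primes dividing `N p` and the bad
primes of `W`) occurs in `J₀(N)[p]`: there is `x₀ ≠ 0` in `J₀(N)`, `p x₀ = 0`,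
`T_ℓ x₀ = a_ℓ(W) x₀` for all `ℓ ∉ S₀`.

Proof: pattern of `Fermat.Agent.S29.package`.  `R = ℤ[T_ℓ : ℓ ∉ S₀]` acts on the finite group
`J₀(N)[p]`; the character `χ : R → ℤ̄ / 𝔪`, `T_ℓ ↦ a_ℓ(f)`, kills the annihilator of `J₀(N)[p]`
(`Fermat.Agent.S29.HeckeKeyModP`, landed); `h32w_exists_eigenvector_end` gives a nonzero vector
killed by `ker χ`, and `T_ℓ - a_ℓ(W) ∈ ker χ` by the congruence.
-/

set_option autoImplicit false
set_option linter.style.haveILetI false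

open ModularCurve

noncomputable section

namespace Fermat.Agent.P7

open Fermat.Agent.S29 (pkgTors pkgHecke mem_pkgTors)

/-- **G1 DOWN.** -/
theorem h32w_down (W : WeierstrassCurve ℤ) {p : ℕ} (hp : p.Prime) {N : ℕ} [NeZero N]
    (S₀ : Finset ℕ) (hS₀ : ∀ ℓ : ℕ, ℓ.Prime → ℓ ∉ S₀ → ¬ ℓ ∣ N * p ∧ W.IsGoodPrimeFor ℓ)
    (hmod : W.IsResiduallyModularOfLevel p N) :
    ∃ x₀ : JZero N, x₀ ≠ 0 ∧ p • x₀ = 0 ∧
      ∀ ℓ : Nat.Primes, (ℓ : ℕ) ∉ S₀ →
        heckeOperatorBar N ℓ x₀ = (W.apOfModel ℓ) • x₀ := by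
  classical
  obtain ⟨f, 𝔪, hf, h𝔪, hp𝔪, hcong⟩ := hmod
  have hG := Fermat.Agent.S30.geometricInputs_of_full Fermat.Agent.S30.geometricInputsFull
  obtain ⟨hc, -⟩ := hG.1 N
  obtain ⟨hfin, -⟩ := hG.2.2.1 N p hp
  have hKey := hG.2.2.2 N p hp
  have hInt := Fermat.Agent.S29.eigenvaluesIntegral N
  letI : Field (integralClosure ℤ ℂ ⧸ 𝔪) := Ideal.Quotient.field 𝔪
  -- the Hecke ring away from `S₀`
  let S' : Set Nat.Primes := {ℓ | (ℓ : ℕ) ∉ S₀}
  let R : Subalgebra ℤ (MvPolynomial Nat.Primes ℤ) := MvPolynomial.supported ℤ S'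
  let Θ : R →+* Module.End ℤ (JZero N) := (heckeEvalBar hc).comp R.val.toRingHom
  let a : Nat.Primes → integralClosure ℤ ℂ :=
    fun ℓ => ⟨ModularFormClass.qCoeff f ℓ, hInt f hf ℓ ℓ.2⟩
  let φ : integralClosure ℤ ℂ →+* (integralClosure ℤ ℂ ⧸ 𝔪) := Ideal.Quotient.mk 𝔪
  let χ : R →+* (integralClosure ℤ ℂ ⧸ 𝔪) :=
    (φ.comp (MvPolynomial.aeval a).toRingHom).comp R.val.toRingHom
  have hΘ : ∀ (r : R) (x : JZero N), Θ r x = heckeEvalBar hc (r : MvPolynomial Nat.Primes ℤ) x :=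
    fun r x => rfl
  have hχ : ∀ r : R, χ r = φ (MvPolynomial.aeval a (r : MvPolynomial Nat.Primes ℤ)) :=
    fun r => rfl
  haveI : Finite (pkgTors (JZero N) p) := by
    have : Finite {x : JZero N | p • x = 0} := hfin.to_subtype
    exact this
  haveI hPprime : (RingHom.ker χ).IsPrime := RingHom.ker_isPrime χ
  have key : ∀ r : R, (∀ m : pkgTors (JZero N) p, pkgHecke Θ p r m = 0) → r ∈ RingHom.ker χ := by
    rintro ⟨Q, hQ⟩ hr
    have hvars : ∀ ℓ ∈ Q.vars, ¬ (ℓ : ℕ) ∣ N * p := by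
      intro ℓ hℓ
      have h1 : ℓ ∈ S' := (MvPolynomial.mem_supported.mp hQ) (Finset.mem_coe.mpr hℓ)
      exact (hS₀ ℓ ℓ.2 h1).1
    obtain ⟨b, hb⟩ := hKey Q hvars (by
      intro x hx
      rw [heckeModuleBar_smul_def hc]
      have h2 := hr ⟨x, mem_pkgTors.mpr hx⟩
      have h3 := congrArg (fun y : pkgTors (JZero N) p => (y : JZero N)) h2
      exact h3) f hf
    rw [RingHom.mem_ker, hχ]
    have hab : MvPolynomial.aeval a Q = (p : integralClosure ℤ ℂ) * b := by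
      apply Subtype.ext
      have h1 : ((MvPolynomial.aeval a Q : integralClosure ℤ ℂ) : ℂ)
          = MvPolynomial.aeval (fun ℓ : Nat.Primes => ModularFormClass.qCoeff f ℓ) Q := by
        exact MvPolynomial.comp_aeval_apply (R := ℤ) a (integralClosure ℤ ℂ).val Q
      rw [h1, hb]
      simp
    show φ (MvPolynomial.aeval a Q) = 0
    rw [hab, map_mul]
    have hp0 : φ (p : integralClosure ℤ ℂ) = 0 := Ideal.Quotient.eq_zero_iff_mem.mpr hp𝔪
    rw [hp0, zero_mul]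
  obtain ⟨x, hx0, hxP⟩ := h32w_exists_eigenvector_end (pkgHecke Θ p) (RingHom.ker χ) key
  refine ⟨(x : JZero N), fun h => hx0 (Subtype.ext h), mem_pkgTors.mp x.2, ?_⟩
  intro ℓ hℓ
  obtain ⟨hℓNp, hgood⟩ := hS₀ ℓ ℓ.2 hℓ
  have hℓN : ¬ (ℓ : ℕ) ∣ N := fun h => hℓNp (Dvd.dvd.mul_right h p)
  have hℓp : (ℓ : ℕ) ≠ p := fun h => hℓNp (h ▸ Dvd.intro_left N rfl)
  obtain ⟨a', ha', hmem⟩ := hcong ℓ ℓ.2 hgood hℓN hℓp
  have haa' : a ℓ = a' := Subtype.ext ha'.symm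
  -- the element `T_ℓ - a_ℓ(W)` of `R`
  have hXmem : (MvPolynomial.X ℓ : MvPolynomial Nat.Primes ℤ) ∈ R :=
    MvPolynomial.X_mem_supported.mpr hℓ
  have hCmem : (MvPolynomial.C (W.apOfModel ℓ) : MvPolynomial Nat.Primes ℤ) ∈ R :=
    Subalgebra.algebraMap_mem R (W.apOfModel ℓ)
  let r : R := ⟨MvPolynomial.X ℓ - MvPolynomial.C (W.apOfModel ℓ), R.sub_mem hXmem hCmem⟩
  have hr : r ∈ RingHom.ker χ := by
    rw [RingHom.mem_ker, hχ]
    show φ (MvPolynomial.aeval a (MvPolynomial.X ℓ - MvPolynomial.C (W.apOfModel ℓ))) = 0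
    rw [map_sub, MvPolynomial.aeval_X, MvPolynomial.aeval_C, haa']
    have e : (algebraMap ℤ (integralClosure ℤ ℂ)) (W.apOfModel ℓ) =
        ((W.apOfModel ℓ : ℤ) : integralClosure ℤ ℂ) := by
      simp
    rw [e]
    exact Ideal.Quotient.eq_zero_iff_mem.mpr hmem
  have h1 := hxP r hr
  have h2 := congrArg (fun y : pkgTors (JZero N) p => (y : JZero N)) h1
  have h3 : heckeEvalBar hc (MvPolynomial.X ℓ - MvPolynomial.C (W.apOfModel ℓ)) (x : JZero N)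
      = 0 := h2
  rw [map_sub, LinearMap.sub_apply, heckeEvalBar_C] at h3
  have hX : heckeEvalBar hc (MvPolynomial.X ℓ) = heckeOperatorBar N ℓ :=
    heckeEvalBar_heckeGen hc ℓ
  rw [hX, Module.End.intCast_apply] at h3
  exact sub_eq_zero.mp h3

end Fermat.Agent.P7
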