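import Mathlib

/-!
# Wave 7 (S40), block (2), leaf UP-ABS: eigenvectors in finite modules (helper32, `h32w_`)

* `h32w_exists_eigenvector` : a finite module `M` over a commutative ring `R` and a prime ideal
  `P` containing the annihilator of `M`: some nonzero `x ∈ M` is killed by `P`.
* `h32w_exists_eigenvector_end` : the same for an action `Θ : R →+* AddMonoid.End M`.

(The dual statement, an eigen-functional, is `Fermat.Agent.S29.pkg_exists_eigen_functional`.)
Mathlib only.
-/

set_option autoImplicit false
set_option linter.style.haveILetI false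

namespace Fermat.Agent.P7

section Module

variable {R : Type*} [CommRing R] {M : Type*} [AddCommGroup M] [Module R M] [Finite M]

theorem h32w_card_lt {N N' : Submodule R M} (hle : N' ≤ N) (hne : N' ≠ N) :
    Nat.card N' < Nat.card N := by
  have hss : (N' : Set M) ⊂ (N : Set M) := by
    refine ⟨hle, fun h => hne (le_antisymm hle h)⟩
  have h1 := Set.ncard_lt_ncard hss (Set.toFinite _)
  have e1 : Nat.card N' = (N' : Set M).ncard := Nat.card_coe_set_eq (N' : Set M)
  have e2 : Nat.card N = (N : Set M).ncard := Nat.card_coe_set_eq (N : Set M)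
  rw [e1, e2]
  exact h1

theorem h32w_eigen_aux (P : Ideal R) [hP : P.IsPrime] :
    ∀ (n : ℕ) (N : Submodule R M), Nat.card N = n →
      (∀ r : R, (∀ m ∈ N, r • m = 0) → r ∈ P) →
      ∃ x ∈ N, x ≠ 0 ∧ ∀ r ∈ P, r • x = 0 := by
  intro n
  induction n using Nat.strong_induction_on with
  | _ n ih =>
    intro N hcard key
    by_cases hall : ∀ a ∈ P, ∀ m ∈ N, a • m = 0
    · have hne : ∃ x ∈ N, x ≠ 0 := by
        by_contra hcon
        have h1 : (1 : R) ∈ P := key 1 (fun m hm => by
          by_contra h1
          exact hcon ⟨m, hm, fun h0 => h1 (by rw [h0, smul_zero])⟩)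
        exact hP.ne_top ((Ideal.eq_top_iff_one P).mpr h1)
      obtain ⟨x, hx, hx0⟩ := hne
      exact ⟨x, hx, hx0, fun r hr => hall r hr x hx⟩
    · obtain ⟨a, haP, m₀, hm₀, ham₀⟩ : ∃ a ∈ P, ∃ m ∈ N, a • m ≠ 0 := by
        by_contra hcon
        apply hall
        intro a ha m hm
        by_contra hne
        exact hcon ⟨a, ha, m, hm, hne⟩
      set N₂ : Submodule R M := N ⊓ LinearMap.ker (LinearMap.lsmul R M a) with hN₂
      set N₁ : Submodule R M := N.map (LinearMap.lsmul R M a) with hN₁
      have hN₂le : N₂ ≤ N := inf_le_left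
      have hN₁le : N₁ ≤ N := by
        rintro _ ⟨m, hm, rfl⟩
        exact N.smul_mem a hm
      have hmemN₂ : ∀ m, m ∈ N₂ ↔ m ∈ N ∧ a • m = 0 := by
        intro m
        rw [hN₂, Submodule.mem_inf, LinearMap.mem_ker, LinearMap.lsmul_apply]
      have hN₂ne : N₂ ≠ N := by
        intro h
        have : m₀ ∈ N₂ := h ▸ hm₀
        exact ham₀ ((hmemN₂ m₀).mp this).2
      have hN₁ne : N₁ ≠ N := by
        intro h
        -- Nakayama
        have hle : N ≤ Ideal.span {a} • N := by
          intro m hm
          rw [← h] at hm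
          obtain ⟨m', hm', rfl⟩ := hm
          rw [LinearMap.lsmul_apply]
          exact Submodule.smul_mem_smul (Ideal.subset_span rfl) hm'
        have hfg : N.FG := by
          haveI : Finite N := inferInstance
          exact Module.finite_def.mp (Module.Finite.of_finite (R := R) (M := N)) |>
            fun h => (Submodule.fg_top N).mp h
        obtain ⟨r, hr1, hr0⟩ :=
          Submodule.exists_sub_one_mem_and_smul_eq_zero_of_fg_of_le_smul (Ideal.span {a}) N hfg hle
        have hrP : r ∈ P := key r hr0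
        have hr1P : r - 1 ∈ P := (Ideal.span_singleton_le_iff_mem P).mpr haP hr1
        have h1 : (1 : R) ∈ P := by
          have := P.sub_mem hrP hr1P
          rwa [sub_sub_cancel] at this
        exact hP.ne_top ((Ideal.eq_top_iff_one P).mpr h1)
      -- the dichotomy
      have hdich : (∀ r : R, (∀ m ∈ N₁, r • m = 0) → r ∈ P) ∨
          (∀ r : R, (∀ m ∈ N₂, r • m = 0) → r ∈ P) := by
        by_contra hcon
        rw [not_or] at hcon
        obtain ⟨h1, h2⟩ := hcon
        obtain ⟨s, hs, hsP⟩ : ∃ s : R, (∀ m ∈ N₁, s • m = 0) ∧ s ∉ P := by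
          by_contra hc
          apply h1
          intro r hr
          by_contra hrP
          exact hc ⟨r, hr, hrP⟩
        obtain ⟨t, ht, htP⟩ : ∃ t : R, (∀ m ∈ N₂, t • m = 0) ∧ t ∉ P := by
          by_contra hc
          apply h2
          intro r hr
          by_contra hrP
          exact hc ⟨r, hr, hrP⟩
        have hts : t * s ∈ P := key (t * s) (fun m hm => by
          have h3 : s • m ∈ N₂ := by
            rw [hmemN₂]
            refine ⟨N.smul_mem s hm, ?_⟩
            rw [smul_comm]
            exact hs (a • m) ⟨m, hm, rfl⟩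
          rw [mul_smul]
          exact ht _ h3)
        rcases hP.mem_or_mem hts with h | h
        · exact htP h
        · exact hsP h
      rcases hdich with h | h
      · obtain ⟨x, hx, hx0, hxP⟩ := ih (Nat.card N₁) (hcard ▸ h32w_card_lt hN₁le hN₁ne) N₁ rfl h
        exact ⟨x, hN₁le hx, hx0, hxP⟩
      · obtain ⟨x, hx, hx0, hxP⟩ := ih (Nat.card N₂) (hcard ▸ h32w_card_lt hN₂le hN₂ne) N₂ rfl h
        exact ⟨x, hN₂le hx, hx0, hxP⟩

/-- **UP-ABS**: a finite module whose annihilator lies in the prime ideal `P` has a nonzero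
vector killed by `P`. -/
theorem h32w_exists_eigenvector (P : Ideal R) [P.IsPrime]
    (key : ∀ r : R, (∀ m : M, r • m = 0) → r ∈ P) :
    ∃ x : M, x ≠ 0 ∧ ∀ r ∈ P, r • x = 0 := by
  obtain ⟨x, -, hx0, hx⟩ := h32w_eigen_aux (M := M) P (Nat.card (⊤ : Submodule R M)) ⊤ rfl
    (fun r hr => key r fun m => hr m Submodule.mem_top)
  exact ⟨x, hx0, hx⟩

end Module

section End

variable {R : Type*} [CommRing R] {M : Type*} [AddCommGroup M] [Finite M]

/-- **UP-ABS**, for an action by additive endomorphisms. -/
theorem h32w_exists_eigenvector_end (Θ : R →+* AddMonoid.End M) (P : Ideal R) [P.IsPrime]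
    (key : ∀ r : R, (∀ m : M, Θ r m = 0) → r ∈ P) :
    ∃ x : M, x ≠ 0 ∧ ∀ r ∈ P, Θ r x = 0 := by
  letI : Module R M := Module.compHom M Θ
  exact h32w_exists_eigenvector (R := R) (M := M) P key

end End

end Fermat.Agent.P7
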