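import Fermat.Agent.P6.H1Chain

/-!
# Wave 7 (S40), blocks (2)/(3): the abstract embedding lemma (helper32, prefix `h32w_`)

Setting: a group `G` acting on an additive group `U` (`ρU`), an irreducible representation
`ρV : G →* End_{𝔽_p}(V)` on a finite-dimensional `𝔽_p`-vector space such that the integral
group ring surjects onto `End_{𝔽_p}(V)` (Burnside: `V` absolutely irreducible), and nilpotency
of the kernel of `ℤ[G] → End(V)` on `U` (the output of `Fermat.Agent.P6.h1c_nil` on the
`𝔪`-part of `J₀(M)[p ^ k]`).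

* `h32w_exists_killed` : if all products of `n` elements of `ker (ℤ[G] → R)` kill `U` and
  `U ≠ 0`, some nonzero `u ∈ U` is killed by the whole kernel.
* `h32w_embed` : then there is an injective `G`-equivariant additive map `V → U`.

Mathlib + `P6/H1Chain` (for `h1cHat`) only.
-/

set_option autoImplicit false

open MonoidAlgebra

noncomputable section

namespace Fermat.Agent.P7

open Fermat.Agent.P6

section Kernel

variable {G : Type*} [Group G] {U : Type*} [AddCommGroup U] {R : Type*} [Ring R]

/-- if all products of `n` elements of `ker (ℤ[G] → R)` kill `U ≠ 0`, then some nonzero vector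
of `U` is killed by the whole kernel. -/
theorem h32w_exists_killed (ρU : G →* AddMonoid.End U) (ρb : G →* R) (n : ℕ)
    (hnil : ∀ L : List (MonoidAlgebra ℤ G), (∀ z ∈ L, h1cHat ρb z = 0) → L.length = n →
      ∀ u : U, h1cHat ρU L.prod u = 0)
    (hU : ∃ u : U, u ≠ 0) :
    ∃ u : U, u ≠ 0 ∧ ∀ z : MonoidAlgebra ℤ G, h1cHat ρb z = 0 → h1cHat ρU z u = 0 := by
  induction n with
  | zero =>
    obtain ⟨u, hu⟩ := hU
    have h := hnil [] (fun z hz => absurd hz (List.not_mem_nil)) rfl u
    rw [List.prod_nil, map_one] at h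
    exact absurd h hu
  | succ n ih =>
    by_cases h : ∀ L : List (MonoidAlgebra ℤ G), (∀ z ∈ L, h1cHat ρb z = 0) → L.length = n →
      ∀ u : U, h1cHat ρU L.prod u = 0
    · exact ih h
    · obtain ⟨L, hL, hlen, u, hu⟩ : ∃ L : List (MonoidAlgebra ℤ G),
          (∀ z ∈ L, h1cHat ρb z = 0) ∧ L.length = n ∧ ∃ u : U, h1cHat ρU L.prod u ≠ 0 := by
        by_contra hcon
        apply h
        intro L hL hlen u
        by_contra hne
        exact hcon ⟨L, hL, hlen, u, hne⟩
      refine ⟨h1cHat ρU L.prod u, hu, fun z hz => ?_⟩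
      have h1 := hnil (z :: L) (fun y hy => by
        rcases List.mem_cons.mp hy with rfl | hy
        · exact hz
        · exact hL y hy) (by rw [List.length_cons, hlen]) u
      rw [List.prod_cons, map_mul] at h1
      exact h1

end Kernel

section Embed

variable {G : Type*} [Group G] {U : Type*} [AddCommGroup U]
  {p : ℕ} [Fact p.Prime] {V : Type*} [AddCommGroup V] [Module (ZMod p) V]

/-- rank one operators and the action. -/
theorem h32w_smulRight_gal (T : Module.End (ZMod p) V) (lam : V →ₗ[ZMod p] ZMod p) (v : V) :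
    T * lam.smulRight v = lam.smulRight (T v) := by
  refine LinearMap.ext fun y => ?_
  rw [Module.End.mul_apply, LinearMap.smulRight_apply, LinearMap.smulRight_apply, map_smul]

theorem h32w_smulRight_add (lam : V →ₗ[ZMod p] ZMod p) (v w : V) :
    lam.smulRight (v + w) = lam.smulRight v + lam.smulRight w := by
  refine LinearMap.ext fun y => ?_
  rw [LinearMap.add_apply, LinearMap.smulRight_apply, LinearMap.smulRight_apply,
    LinearMap.smulRight_apply, smul_add]

/-- **the embedding lemma.** -/
theorem h32w_embed [Module.Finite (ZMod p) V]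
    (ρU : G →* AddMonoid.End U) (ρV : G →* Module.End (ZMod p) V)
    (hirr : ∀ N : Submodule (ZMod p) V, (∀ g : G, ∀ v ∈ N, ρV g v ∈ N) → N = ⊥ ∨ N = ⊤)
    (hsurj : Function.Surjective (h1cHat ρV))
    (n : ℕ)
    (hnil : ∀ L : List (MonoidAlgebra ℤ G), (∀ z ∈ L, h1cHat ρV z = 0) → L.length = n →
      ∀ u : U, h1cHat ρU L.prod u = 0)
    (hU : ∃ u : U, u ≠ 0) :
    ∃ φ : V →+ U, Function.Injective φ ∧ ∀ (g : G) (v : V), φ (ρV g v) = ρU g (φ v) := by
  classical
  have : NeZero p := ⟨(Fact.out : p.Prime).ne_zero⟩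
  obtain ⟨u, hu, hk⟩ := h32w_exists_killed ρU ρV n hnil hU
  choose lift hlift using hsurj
  have hwd : ∀ x y : MonoidAlgebra ℤ G, h1cHat ρV x = h1cHat ρV y →
      h1cHat ρU x u = h1cHat ρU y u := by
    intro x y hxy
    have h1 := hk (x - y) (by rw [map_sub, hxy, sub_self])
    rw [map_sub] at h1
    have h2 : h1cHat ρU x u - h1cHat ρU y u = 0 := h1
    exact sub_eq_zero.mp h2
  -- the map `Ψ : End V → U`
  let Ψ : Module.End (ZMod p) V →+ U := AddMonoidHom.mk' (fun T => h1cHat ρU (lift T) u)
    (fun S T => by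
      have h1 : h1cHat ρU (lift (S + T)) u = h1cHat ρU (lift S + lift T) u := by
        apply hwd
        rw [hlift, map_add, hlift, hlift]
      rw [h1, map_add]
      rfl)
  have hΨ : ∀ T, Ψ T = h1cHat ρU (lift T) u := fun _ => rfl
  have hΨg : ∀ (g : G) (T : Module.End (ZMod p) V), Ψ (ρV g * T) = ρU g (Ψ T) := by
    intro g T
    have h1 : h1cHat ρU (lift (ρV g * T)) u = h1cHat ρU (of ℤ G g * lift T) u := by
      apply hwd
      rw [hlift, map_mul, h1cHat_of, hlift]
    rw [hΨ, h1, map_mul, h1cHat_of, hΨ]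
    rfl
  have hΨ1 : Ψ 1 = u := by
    have h1 : h1cHat ρU (lift 1) u = h1cHat ρU 1 u := by
      apply hwd
      rw [hlift, map_one]
    rw [hΨ, h1, map_one]
    rfl
  -- the rank one maps
  let b := Module.Free.chooseBasis (ZMod p) V
  have hone : (1 : Module.End (ZMod p) V) = ∑ i, (b.coord i).smulRight (b i) := by
    refine LinearMap.ext fun v => ?_
    rw [Module.End.one_apply, LinearMap.sum_apply]
    simp only [LinearMap.smulRight_apply, Module.Basis.coord_apply]
    exact (b.sum_repr v).symm
  let φ : Module.Free.ChooseBasisIndex (ZMod p) V → V →+ U := fun i =>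
    AddMonoidHom.mk' (fun v => Ψ ((b.coord i).smulRight v)) (fun v w => by
      rw [h32w_smulRight_add, map_add])
  have hφ : ∀ i v, φ i v = Ψ ((b.coord i).smulRight v) := fun _ _ => rfl
  have hφg : ∀ i (g : G) (v : V), φ i (ρV g v) = ρU g (φ i v) := by
    intro i g v
    rw [hφ, hφ, ← h32w_smulRight_gal, hΨg]
  have hsum : u = ∑ i, φ i (b i) := by
    rw [← hΨ1, hone, map_sum]
    exact Finset.sum_congr rfl fun i _ => (hφ i (b i)).symm
  obtain ⟨i, hi⟩ : ∃ i, φ i (b i) ≠ 0 := by
    by_contra hcon
    apply hu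
    rw [hsum]
    refine Finset.sum_eq_zero fun i _ => ?_
    by_contra hne
    exact hcon ⟨i, hne⟩
  -- the kernel of `φ i`
  let N : Submodule (ZMod p) V :=
    { carrier := {v | φ i v = 0}
      add_mem' := fun {v w} hv hw => by
        show φ i (v + w) = 0
        rw [map_add, hv, hw, add_zero]
      zero_mem' := map_zero _
      smul_mem' := fun c v hv => by
        show φ i (c • v) = 0
        have hc : c • v = c.val • v := by
          rw [← Nat.cast_smul_eq_nsmul (ZMod p), ZMod.natCast_zmod_val]
        rw [hc, map_nsmul, hv, smul_zero] }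
  have hN : ∀ v, v ∈ N ↔ φ i v = 0 := fun _ => Iff.rfl
  rcases hirr N (fun g v hv => by rw [hN, hφg, (hN v).mp hv, map_zero]) with h | h
  · refine ⟨φ i, ?_, hφg i⟩
    rw [injective_iff_map_eq_zero]
    intro v hv
    have : v ∈ N := (hN v).mpr hv
    rw [h] at this
    exact (Submodule.mem_bot _).mp this
  · exfalso
    apply hi
    rw [← hN, h]
    exact Submodule.mem_top

end Embed

end Fermat.Agent.P7
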