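import Fermat.Agent.P7.H34LocInert
import Fermat.Agent.S05.H4Nodal
import Fermat.Agent.S05.H76Comp

/-!
# P7 (wave 7, S44), block LOCAL-MULT, leaf LM2 NODE-LIFT (helper32)

`W'` a Weierstrass curve with coefficients in `A` (a valuation subring of `K`), short nodal at
`A`: `y² = x³ + a₂ x² + a₄ x`, `a₂` a unit of `A`, `a₄` a nonzero non-unit, `2` a unit.
`I` the inertia group of `A`, `E¹ = InE1 A` the kernel of reduction (S05 vocabulary).

* `h32n_lift_ns` : an integral point whose reduction is a NONSINGULAR point of the reduced curve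
  is congruent modulo `E¹` to an `I`-fixed point (Hensel with inertia; no hypothesis on `Δ`
  except `Δ ≠ 0`).
* `h32n_lift_node` : a point reducing to the node strictly inside the annulus (`x` and `a₄ / x`
  non-units) whose `x` has the valuation of an `I`-fixed constant `c` is congruent modulo `E¹` to
  an `I`-fixed point: `c₀ = (c ω, c ω s₀)`, `ω` an `I`-fixed unit with `ω ≡ x / c`, `s₀` the
  `I`-fixed root of `s² = c ω + a₂ + a₄ / (c ω)` on the branch of `y / x`.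
* `h32n_lift` : **NODE-LIFT**: every point killed by `n` is congruent modulo `E¹` to an
  `I`-fixed point, given the node valuation statement `h4_NodeTorsionValuation` (landed S05
  `torsion_node_valuation`, valid in EVERY residue characteristic).
* `h32n_inert` : hence `σ P - P ∈ E¹` for `σ ∈ I` and `P` killed by `n`.
* `h32n_lift_Qbar`, `h32n_inert_Qbar`, `h32n_lift_Qbar_int`, `h32n_inert_Qbar_int` : the
  instances for `K = ℚ̄`, `A` over an odd prime `p` (`p = n` allowed), `W` short nodal at `A` in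
  the sense of `S05.IsShortNodal` (e.g. the Frey models `freyShort`, `freyShortC` at `p ∣ abc`).
-/

set_option autoImplicit false
set_option linter.style.haveILetI false
set_option linter.unusedSectionVars false

namespace Fermat.Agent.P7

open WeierstrassCurve Fermat.Agent.S05
open scoped WeierstrassCurve.Affine

section Lift

open Polynomial

variable {R : Type*} {S : Type*} {K : Type*} [CommRing R] [Field S] [Field K]
  [DecidableEq K] [Algebra R S] [Algebra R K] [Algebra S K] [IsScalarTower R S K]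

/-- the coefficients of the base change are Galois fixed. -/
theorem h32n_coeff_fixed (W' : Affine R) (σ : K ≃ₐ[S] K) :
    σ (W'⁄K).a₁ = (W'⁄K).a₁ ∧ σ (W'⁄K).a₂ = (W'⁄K).a₂ ∧ σ (W'⁄K).a₃ = (W'⁄K).a₃ ∧
      σ (W'⁄K).a₄ = (W'⁄K).a₄ ∧ σ (W'⁄K).a₆ = (W'⁄K).a₆ := by
  refine ⟨?_, ?_, ?_, ?_, ?_⟩
  · simp only [WeierstrassCurve.baseChange, WeierstrassCurve.map_a₁]
    exact h34i_algebraMap_fixed σ _
  · simp only [WeierstrassCurve.baseChange, WeierstrassCurve.map_a₂]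
    exact h34i_algebraMap_fixed σ _
  · simp only [WeierstrassCurve.baseChange, WeierstrassCurve.map_a₃]
    exact h34i_algebraMap_fixed σ _
  · simp only [WeierstrassCurve.baseChange, WeierstrassCurve.map_a₄]
    exact h34i_algebraMap_fixed σ _
  · simp only [WeierstrassCurve.baseChange, WeierstrassCurve.map_a₆]
    exact h34i_algebraMap_fixed σ _

/-- **nonsingular reduction**: an integral point at which the partial derivatives are not both
non-units is congruent modulo the kernel of reduction to an `I`-fixed point. -/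
theorem h32n_lift_ns [IsAlgClosed K] (W' : Affine R) (A : ValuationSubring K)
    (ha₁ : (W'⁄K).a₁ ∈ A) (ha₂ : (W'⁄K).a₂ ∈ A) (ha₃ : (W'⁄K).a₃ ∈ A) (ha₄ : (W'⁄K).a₄ ∈ A)
    (ha₆ : (W'⁄K).a₆ ∈ A) (hΔ0 : (W'⁄K).Δ ≠ 0)
    (hres : ∀ a ∈ A, ∃ a' ∈ A, (∀ σ ∈ A.inertiaSubgroupIn S, σ a' = a') ∧ a - a' ∈ A.nonunits)
    {x y : K} (h : (W'⁄K).Nonsingular x y) (hx : x ∈ A)
    (hns : (W'⁄K).a₁ * y - (3 * x ^ 2 + 2 * (W'⁄K).a₂ * x + (W'⁄K).a₄) ∉ A.nonunits ∨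
      2 * y + (W'⁄K).a₁ * x + (W'⁄K).a₃ ∉ A.nonunits) :
    ∃ c₀ : (W'⁄K).Point, (∀ σ ∈ A.inertiaSubgroupIn S, σ • c₀ = c₀) ∧
      InE1 A ((Affine.Point.some x y h : (W'⁄K).Point) - c₀) := by
  have hy : y ∈ A := H86.y_mem_of_x_mem ha₁ ha₂ ha₃ ha₄ ha₆ h.1 hx
  have heq := (Affine.equation_iff x y).1 h.1
  have h2A : (2 : K) ∈ A := H86.two_mem A
  have h3A : (3 : K) ∈ A := by
    have : (3 : K) = 2 + 1 := by norm_num
    rw [this]; exact add_mem h2A (one_mem A)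
  have hf₁ : ∀ σ : K ≃ₐ[S] K, σ (W'⁄K).a₁ = (W'⁄K).a₁ := fun σ => (h32n_coeff_fixed W' σ).1
  have hf₂ : ∀ σ : K ≃ₐ[S] K, σ (W'⁄K).a₂ = (W'⁄K).a₂ := fun σ => (h32n_coeff_fixed W' σ).2.1
  have hf₃ : ∀ σ : K ≃ₐ[S] K, σ (W'⁄K).a₃ = (W'⁄K).a₃ :=
    fun σ => (h32n_coeff_fixed W' σ).2.2.1
  have hf₄ : ∀ σ : K ≃ₐ[S] K, σ (W'⁄K).a₄ = (W'⁄K).a₄ :=
    fun σ => (h32n_coeff_fixed W' σ).2.2.2.1
  have hf₆ : ∀ σ : K ≃ₐ[S] K, σ (W'⁄K).a₆ = (W'⁄K).a₆ :=
    fun σ => (h32n_coeff_fixed W' σ).2.2.2.2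
  -- the conclusion from an `I`-fixed integral point with the same reduction
  have key : ∀ x₀ y₀ : K, x₀ ∈ A → y₀ ∈ A → (W'⁄K).Equation x₀ y₀ →
      (∀ σ ∈ A.inertiaSubgroupIn S, σ x₀ = x₀) → (∀ σ ∈ A.inertiaSubgroupIn S, σ y₀ = y₀) →
      x - x₀ ∈ A.nonunits → y - y₀ ∈ A.nonunits →
      ∃ c₀ : (W'⁄K).Point, (∀ σ ∈ A.inertiaSubgroupIn S, σ • c₀ = c₀) ∧
        InE1 A ((Affine.Point.some x y h : (W'⁄K).Point) - c₀) := by
    intro x₀ y₀ hx₀ hy₀ he hσx hσy hxm hym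
    have h₀ : (W'⁄K).Nonsingular x₀ y₀ :=
      ((W'⁄K).equation_iff_nonsingular_of_Δ_ne_zero hΔ0).1 he
    refine ⟨Affine.Point.some x₀ y₀ h₀, fun σ hσ =>
      h34i_smul_some_of_fixed W' σ h₀ (hσx σ hσ) (hσy σ hσ), ?_⟩
    exact H86.sub_inE1_of_same_reduction (A := A) (W := W'⁄K) ha₁ ha₂ ha₃ ha₄ h h₀
      hx hy hx₀ hy₀ hxm hym hns
  by_cases hdY : 2 * y + (W'⁄K).a₁ * x + (W'⁄K).a₃ ∈ A.nonunits
  · -- the `X`-partial is a unit: lift `y`, solve the cubic in `X`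
    have hdX : (W'⁄K).a₁ * y - (3 * x ^ 2 + 2 * (W'⁄K).a₂ * x + (W'⁄K).a₄) ∉ A.nonunits := by
      rcases hns with h' | h'
      · exact h'
      · exact absurd hdY h'
    obtain ⟨y₀, hy₀, hσy₀, hym⟩ := hres y hy
    set b : K := (W'⁄K).a₄ - (W'⁄K).a₁ * y₀ with hb
    set c : K := (W'⁄K).a₆ - y₀ ^ 2 - (W'⁄K).a₃ * y₀ with hc
    have hbA : b ∈ A := sub_mem ha₄ (mul_mem ha₁ hy₀)
    have hcA : c ∈ A := sub_mem (sub_mem ha₆ (pow_mem hy₀ 2)) (mul_mem ha₃ hy₀)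
    set q : K[X] := X ^ 3 + C (W'⁄K).a₂ * X ^ 2 + C b * X + C c with hq
    have hqA : q ∈ lifts (algebraMap A K) :=
      add_mem (add_mem (add_mem (X_pow_mem_lifts _ 3)
        (mul_mem (h34i_C_mem_lifts A ha₂) (X_pow_mem_lifts _ 2)))
        (mul_mem (h34i_C_mem_lifts A hbA) (X_mem_lifts _))) (h34i_C_mem_lifts A hcA)
    have hqσ : ∀ σ ∈ A.inertiaSubgroupIn S, q.map ((σ : K ≃ₐ[S] K) : K →+* K) = q := by
      intro σ hσ
      have e1 : σ b = b := by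
        rw [hb, map_sub, map_mul, hf₄, hf₁, hσy₀ σ hσ]
      have e2 : σ c = c := by
        rw [hc, map_sub, map_sub, map_mul, map_pow, hf₆, hf₃, hσy₀ σ hσ]
      simp only [hq, Polynomial.map_add, Polynomial.map_mul, Polynomial.map_pow, map_X, map_C,
        RingHom.coe_coe, e1, e2, hf₂]
    have hev : ∀ t : K, q.eval t = t ^ 3 + (W'⁄K).a₂ * t ^ 2 + b * t + c := fun t => by
      simp only [hq, eval_add, eval_mul, eval_pow, eval_X, eval_C]
    have hdev : ∀ t : K, q.derivative.eval t = 3 * t ^ 2 + 2 * (W'⁄K).a₂ * t + b := fun t => by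
      simp only [hq, derivative_add, derivative_mul, derivative_X_pow, derivative_C, derivative_X,
        eval_add, eval_mul, eval_pow, eval_X, eval_C, zero_mul, zero_add, mul_one, add_zero,
        Nat.cast_ofNat]
      norm_num
      ring
    have h0 : q.eval x ∈ A.nonunits := by
      have e : q.eval x = (y - y₀) * (y + y₀ + (W'⁄K).a₁ * x + (W'⁄K).a₃) := by
        rw [hev, hb, hc]
        linear_combination -heq
      rw [e]
      exact K56.nonunits_mul_mem A hym (add_mem (add_mem (add_mem hy hy₀) (mul_mem ha₁ hx)) ha₃)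
    have h1 : q.derivative.eval x ∉ A.nonunits := by
      have e : q.derivative.eval x =
          -((W'⁄K).a₁ * y - (3 * x ^ 2 + 2 * (W'⁄K).a₂ * x + (W'⁄K).a₄)) +
            (W'⁄K).a₁ * (y - y₀) := by
        rw [hdev, hb]; ring
      rw [e]
      refine H86.add_not_mem_nonunits A (neg_mem (sub_mem (mul_mem ha₁ hy) (add_mem (add_mem
        (mul_mem h3A (pow_mem hx 2)) (mul_mem (mul_mem h2A ha₂) hx)) ha₄))) ?_
        (K56.mem_mul_nonunits A ha₁ hym)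
      intro hh
      apply hdX
      have := K56.nonunits_neg_mem A hh
      rwa [neg_neg] at this
    obtain ⟨x₀, hx₀, hx₀0, hx₀m, hσx₀⟩ := h34i_hensel_fixed (S := S) A q hqA hqσ x hx h0 h1
    refine key x₀ y₀ hx₀ hy₀ ?_ hσx₀ hσy₀ ?_ hym
    · rw [Affine.equation_iff]
      rw [hev, hb, hc] at hx₀0
      linear_combination -hx₀0
    · have := K56.nonunits_neg_mem A hx₀m
      rwa [neg_sub] at this
  · -- the `Y`-partial is a unit: lift `x`, solve the quadratic in `Y`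
    obtain ⟨x₀, hx₀, hσx₀, hxm⟩ := hres x hx
    set b : K := (W'⁄K).a₁ * x₀ + (W'⁄K).a₃ with hb
    set c : K := -(x₀ ^ 3 + (W'⁄K).a₂ * x₀ ^ 2 + (W'⁄K).a₄ * x₀ + (W'⁄K).a₆) with hc
    have hbA : b ∈ A := add_mem (mul_mem ha₁ hx₀) ha₃
    have hcA : c ∈ A := neg_mem (add_mem (add_mem (add_mem (pow_mem hx₀ 3)
      (mul_mem ha₂ (pow_mem hx₀ 2))) (mul_mem ha₄ hx₀)) ha₆)
    set q : K[X] := X ^ 2 + C b * X + C c with hq
    have hqA : q ∈ lifts (algebraMap A K) :=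
      add_mem (add_mem (X_pow_mem_lifts _ 2)
        (mul_mem (h34i_C_mem_lifts A hbA) (X_mem_lifts _))) (h34i_C_mem_lifts A hcA)
    have hqσ : ∀ σ ∈ A.inertiaSubgroupIn S, q.map ((σ : K ≃ₐ[S] K) : K →+* K) = q := by
      intro σ hσ
      have e1 : σ b = b := by
        rw [hb, map_add, map_mul, hf₁, hf₃, hσx₀ σ hσ]
      have e2 : σ c = c := by
        rw [hc, map_neg, map_add, map_add, map_add, map_mul, map_mul, map_pow, map_pow, hf₂,
          hf₄, hf₆, hσx₀ σ hσ]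
      simp only [hq, Polynomial.map_add, Polynomial.map_mul, Polynomial.map_pow, map_X, map_C,
        RingHom.coe_coe, e1, e2]
    have hev : ∀ t : K, q.eval t = t ^ 2 + b * t + c := fun t => by
      simp only [hq, eval_add, eval_mul, eval_pow, eval_X, eval_C]
    have hdev : ∀ t : K, q.derivative.eval t = 2 * t + b := fun t => by
      simp only [hq, derivative_add, derivative_mul, derivative_X_pow, derivative_C, derivative_X,
        eval_add, eval_mul, eval_pow, eval_X, eval_C, zero_mul, zero_add, mul_one, add_zero,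
        Nat.cast_ofNat]
      norm_num
    have h0 : q.eval y ∈ A.nonunits := by
      have e : q.eval y = (x - x₀) * (x ^ 2 + x * x₀ + x₀ ^ 2 + (W'⁄K).a₂ * (x + x₀) +
          (W'⁄K).a₄ - (W'⁄K).a₁ * y) := by
        rw [hev, hb, hc]
        linear_combination heq
      rw [e]
      exact K56.nonunits_mul_mem A hxm (sub_mem (add_mem (add_mem (add_mem (add_mem
        (pow_mem hx 2) (mul_mem hx hx₀)) (pow_mem hx₀ 2)) (mul_mem ha₂ (add_mem hx hx₀))) ha₄)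
        (mul_mem ha₁ hy))
    have h1 : q.derivative.eval y ∉ A.nonunits := by
      have e : q.derivative.eval y = (2 * y + (W'⁄K).a₁ * x + (W'⁄K).a₃) +
          -((W'⁄K).a₁ * (x - x₀)) := by
        rw [hdev, hb]; ring
      rw [e]
      exact H86.add_not_mem_nonunits A (add_mem (add_mem (mul_mem h2A hy) (mul_mem ha₁ hx)) ha₃)
        hdY (K56.nonunits_neg_mem A (K56.mem_mul_nonunits A ha₁ hxm))
    obtain ⟨y₀, hy₀, hy₀0, hy₀m, hσy₀⟩ := h34i_hensel_fixed (S := S) A q hqA hqσ y hy h0 h1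
    refine key x₀ y₀ hx₀ hy₀ ?_ hσx₀ hσy₀ hxm ?_
    · rw [Affine.equation_iff]
      rw [hev, hb, hc] at hy₀0
      linear_combination hy₀0
    · have := K56.nonunits_neg_mem A hy₀m
      rwa [neg_sub] at this

/-- **the node**: a point reducing to the node strictly inside the annulus, whose
`x`-coordinate has the valuation of an `I`-fixed constant `c`, is congruent modulo the kernel of
reduction to an `I`-fixed point. -/
theorem h32n_lift_node [IsAlgClosed K] (W' : Affine R) (A : ValuationSubring K)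
    (h₁ : (W'⁄K).a₁ = 0) (h₃ : (W'⁄K).a₃ = 0) (h₆ : (W'⁄K).a₆ = 0)
    (ha₂ : A.valuation (W'⁄K).a₂ = 1) (h2 : A.valuation (2 : K) = 1) (hΔ0 : (W'⁄K).Δ ≠ 0)
    (hres : ∀ a ∈ A, ∃ a' ∈ A, (∀ σ ∈ A.inertiaSubgroupIn S, σ a' = a') ∧ a - a' ∈ A.nonunits)
    {x y : K} (h : (W'⁄K).Nonsingular x y) (hx0 : x ≠ 0) (hxm : x ∈ A.nonunits)
    (hwx : (W'⁄K).a₄ / x ∈ A.nonunits)
    {c : K} (hc : ∀ σ ∈ A.inertiaSubgroupIn S, σ c = c) (hcv : A.valuation x = A.valuation c) :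
    ∃ c₀ : (W'⁄K).Point, (∀ σ ∈ A.inertiaSubgroupIn S, σ • c₀ = c₀) ∧
      InE1 A ((Affine.Point.some x y h : (W'⁄K).Point) - c₀) := by
  have hf₂ : ∀ σ : K ≃ₐ[S] K, σ (W'⁄K).a₂ = (W'⁄K).a₂ := fun σ => (h32n_coeff_fixed W' σ).2.1
  have hf₄ : ∀ σ : K ≃ₐ[S] K, σ (W'⁄K).a₄ = (W'⁄K).a₄ :=
    fun σ => (h32n_coeff_fixed W' σ).2.2.2.1
  have hvx0 : A.valuation x ≠ 0 := (Valuation.ne_zero_iff _).2 hx0
  have hvx1 : A.valuation x < 1 := A.mem_nonunits_iff.1 hxm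
  have hc0 : c ≠ 0 := by
    intro h0
    rw [h0, map_zero] at hcv
    exact hvx0 hcv
  -- the unit `ε = x / c` and its `I`-fixed representative `ω`
  have hεv : A.valuation (x / c) = 1 := by
    rw [map_div₀, ← hcv]
    exact div_self hvx0
  have hεA : x / c ∈ A := (A.valuation_le_one_iff _).1 hεv.le
  obtain ⟨ω, hωA, hσω, hεω⟩ := hres (x / c) hεA
  have hεω' : A.valuation (x / c - ω) < 1 := A.mem_nonunits_iff.1 hεω
  have hωv : A.valuation ω = 1 := by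
    have e : ω = x / c + -(x / c - ω) := by ring
    rw [e, Valuation.map_add_eq_of_lt_left]
    · exact hεv
    · rw [Valuation.map_neg, hεv]
      exact hεω'
  have hω0 : ω ≠ 0 := by
    intro h0
    rw [h0, map_zero] at hωv
    exact zero_ne_one hωv
  -- the `I`-fixed abscissa `x₀ = c ω`
  have hx₀v : A.valuation (c * ω) = A.valuation x := by
    rw [map_mul, hωv, mul_one, hcv]
  have hx₀0 : c * ω ≠ 0 := mul_ne_zero hc0 hω0
  have hx₀m : c * ω ∈ A.nonunits := A.mem_nonunits_iff.2 (by rw [hx₀v]; exact hvx1)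
  have hx₀A : c * ω ∈ A := A.nonunits_le hx₀m
  have hσx₀ : ∀ σ ∈ A.inertiaSubgroupIn S, σ (c * ω) = c * ω := by
    intro σ hσ
    rw [map_mul, hc σ hσ, hσω σ hσ]
  have ht : (c * ω - x) / x ∈ A.nonunits := by
    have e : (c * ω - x) / x = -(x / c - ω) / (x / c) := by
      field_simp
      ring
    rw [e, A.mem_nonunits_iff, map_div₀, Valuation.map_neg, hεv, div_one]
    exact hεω'
  have hwx₀ : (W'⁄K).a₄ / (c * ω) ∈ A.nonunits := by
    have e : (W'⁄K).a₄ / (c * ω) = (W'⁄K).a₄ / x * ((x / c) / ω) := by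
      field_simp
    rw [e, A.mem_nonunits_iff, map_mul, map_div₀ _ (x / c) ω, hεv, hωv, div_one, mul_one]
    exact A.mem_nonunits_iff.1 hwx
  -- the slope `s = y / x`
  have hb₂ : A.valuation (W'⁄K).b₂ = 1 := by
    have e : (W'⁄K).b₂ = 2 ^ 2 * (W'⁄K).a₂ := by
      simp only [WeierstrassCurve.b₂, h₁]
      ring
    rw [e, map_mul, map_pow, h2, ha₂, one_pow, one_mul]
  have hv2s := h4_valuation_two_s_add A (W'⁄K) h₃ h₆ hb₂ h.1 hx0 hxm hwx
  have hsv : A.valuation (y / x) = 1 := by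
    rw [h₁, add_zero, map_mul, h2, one_mul] at hv2s
    exact hv2s
  have hsA : y / x ∈ A := (A.valuation_le_one_iff _).1 hsv.le
  have heq := (Affine.equation_iff x y).1 h.1
  rw [h₁, h₃, h₆] at heq
  have hs2 : (y / x) ^ 2 = x + (W'⁄K).a₂ + (W'⁄K).a₄ / x := by
    field_simp
    linear_combination heq
  have ha₂A : (W'⁄K).a₂ ∈ A := (A.valuation_le_one_iff _).1 ha₂.le
  -- the `I`-fixed square `t₀` and its root `s₀` on the branch of `s`
  have ht₀A : c * ω + (W'⁄K).a₂ + (W'⁄K).a₄ / (c * ω) ∈ A :=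
    add_mem (add_mem hx₀A ha₂A) (A.nonunits_le hwx₀)
  have hσt₀ : ∀ σ ∈ A.inertiaSubgroupIn S,
      σ (c * ω + (W'⁄K).a₂ + (W'⁄K).a₄ / (c * ω)) =
        c * ω + (W'⁄K).a₂ + (W'⁄K).a₄ / (c * ω) := by
    intro σ hσ
    rw [map_add, map_add, map_div₀, hσx₀ σ hσ, hf₂, hf₄]
  obtain ⟨u, hu⟩ : ∃ u : K, u = -(c * ω + (W'⁄K).a₂ + (W'⁄K).a₄ / (c * ω)) := ⟨_, rfl⟩
  have huA : u ∈ A := by
    rw [hu]
    exact neg_mem ht₀A
  have hσu : ∀ σ ∈ A.inertiaSubgroupIn S, σ u = u := by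
    intro σ hσ
    rw [hu, map_neg, hσt₀ σ hσ]
  have hq : (X ^ 2 + C u : K[X]) ∈ lifts (algebraMap A K) :=
    add_mem (X_pow_mem_lifts _ 2) (h34i_C_mem_lifts A huA)
  have hqσ : ∀ σ ∈ A.inertiaSubgroupIn S,
      (X ^ 2 + C u : K[X]).map ((σ : K ≃ₐ[S] K) : K →+* K) = X ^ 2 + C u := by
    intro σ hσ
    have e := hσu σ hσ
    simp only [Polynomial.map_add, Polynomial.map_pow, map_X, map_C, RingHom.coe_coe, e]
  have hev : ∀ t : K, (X ^ 2 + C u : K[X]).eval t = t ^ 2 + u := fun t => by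
    simp only [eval_add, eval_pow, eval_X, eval_C]
  have hdev : ∀ t : K, (X ^ 2 + C u : K[X]).derivative.eval t = 2 * t := fun t => by
    simp only [derivative_add, derivative_X_pow, derivative_C, eval_add, eval_mul, eval_pow,
      eval_X, eval_C, add_zero, Nat.cast_ofNat, eval_zero]
    norm_num
  have h0 : (X ^ 2 + C u : K[X]).eval (y / x) ∈ A.nonunits := by
    have e : (y / x) ^ 2 + u =
        (x + -(c * ω)) + ((W'⁄K).a₄ / x + -((W'⁄K).a₄ / (c * ω))) := by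
      rw [hs2, hu]
      ring
    rw [hev, e]
    exact K56.nonunits_add_mem A (K56.nonunits_add_mem A hxm (K56.nonunits_neg_mem A hx₀m))
      (K56.nonunits_add_mem A hwx (K56.nonunits_neg_mem A hwx₀))
  have h1 : (X ^ 2 + C u : K[X]).derivative.eval (y / x) ∉ A.nonunits := by
    rw [hdev, A.mem_nonunits_iff, map_mul, h2, hsv, one_mul]
    exact lt_irrefl _
  obtain ⟨s₀, hs₀A, hs₀0, hs₀m, hσs₀⟩ :=
    h34i_hensel_fixed (S := S) A (X ^ 2 + C u) hq hqσ (y / x) hsA h0 h1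
  rw [hev, hu] at hs₀0
  -- the `I`-fixed point `c₀ = (x₀, x₀ s₀)`
  have he₀ : (W'⁄K).Equation (c * ω) (c * ω * s₀) := by
    rw [Affine.equation_iff, h₁, h₃, h₆]
    have e : s₀ ^ 2 = c * ω + (W'⁄K).a₂ + (W'⁄K).a₄ / (c * ω) := by
      linear_combination hs₀0
    have e' : (c * ω * s₀) ^ 2 = (c * ω) ^ 2 * (c * ω + (W'⁄K).a₂ + (W'⁄K).a₄ / (c * ω)) := by
      rw [← e]
      ring
    have e'' : (c * ω) ^ 2 * (c * ω + (W'⁄K).a₂ + (W'⁄K).a₄ / (c * ω)) =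
        (c * ω) ^ 3 + (W'⁄K).a₂ * (c * ω) ^ 2 + (W'⁄K).a₄ * (c * ω) := by
      field_simp
    rw [e', e'']
    ring
  have h₀ : (W'⁄K).Nonsingular (c * ω) (c * ω * s₀) :=
    ((W'⁄K).equation_iff_nonsingular_of_Δ_ne_zero hΔ0).1 he₀
  refine ⟨Affine.Point.some _ _ h₀, fun σ hσ =>
    h34i_smul_some_of_fixed W' σ h₀ (hσx₀ σ hσ)
      (by rw [map_mul, hσx₀ σ hσ, hσs₀ σ hσ]), ?_⟩
  have hs : c * ω * s₀ / (c * ω) - y / x ∈ A.nonunits := by
    have e : c * ω * s₀ / (c * ω) = s₀ := by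
      field_simp
    rw [e]
    exact hs₀m
  rcases h4_refined_reduction_nodal A (W'⁄K) h₃ h₆ hb₂ h h₀ hx0 hx₀0 hxm hwx ht hs with
    H | ⟨x₃, y₃, h₃', hd, hx₃⟩
  · rw [H, sub_self]
    exact inE1_zero A
  · rw [hd]
    exact (inE1_some A h₃').2 hx₃

omit [DecidableEq K] in
/-- the discriminant of a short nodal model with `a₄ ≠ 0` is not zero. -/
theorem h32n_Δ_ne_zero (W : WeierstrassCurve K) (A : ValuationSubring K)
    (h₁ : W.a₁ = 0) (h₃ : W.a₃ = 0) (h₆ : W.a₆ = 0)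
    (ha₂ : A.valuation W.a₂ = 1) (ha₄ : W.a₄ ∈ A.nonunits) (ha₄0 : W.a₄ ≠ 0)
    (h2 : A.valuation (2 : K) = 1) : W.Δ ≠ 0 := by
  have e : W.Δ = 2 ^ 4 * W.a₄ ^ 2 * (W.a₂ ^ 2 + -(2 ^ 2 * W.a₄)) := by
    simp only [WeierstrassCurve.Δ, WeierstrassCurve.b₂, WeierstrassCurve.b₄,
      WeierstrassCurve.b₆, WeierstrassCurve.b₈, h₁, h₃, h₆]
    ring
  have h20 : (2 : K) ≠ 0 := by
    intro h0
    rw [h0, map_zero] at h2
    exact zero_ne_one h2
  have hu : A.valuation (W.a₂ ^ 2 + -(2 ^ 2 * W.a₄)) = 1 := by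
    rw [Valuation.map_add_eq_of_lt_left]
    · rw [map_pow, ha₂, one_pow]
    · rw [Valuation.map_neg, map_mul, map_pow, h2, one_pow, one_mul, map_pow, ha₂, one_pow]
      exact A.mem_nonunits_iff.1 ha₄
  have hu0 : W.a₂ ^ 2 + -(2 ^ 2 * W.a₄) ≠ 0 := by
    intro h0
    rw [h0, map_zero] at hu
    exact zero_ne_one hu
  rw [e]
  exact mul_ne_zero (mul_ne_zero (pow_ne_zero _ h20) (pow_ne_zero _ ha₄0)) hu0

/-- **NODE-LIFT**: on a short nodal model, every point killed by `n` is congruent modulo the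
kernel of reduction to an `I`-fixed point. -/
theorem h32n_lift [IsAlgClosed K] (W' : Affine R) (A : ValuationSubring K)
    (h₁ : (W'⁄K).a₁ = 0) (h₃ : (W'⁄K).a₃ = 0) (h₆ : (W'⁄K).a₆ = 0)
    (ha₂ : A.valuation (W'⁄K).a₂ = 1) (ha₄ : (W'⁄K).a₄ ∈ A.nonunits) (ha₄0 : (W'⁄K).a₄ ≠ 0)
    (h2 : A.valuation (2 : K) = 1)
    (hres : ∀ a ∈ A, ∃ a' ∈ A, (∀ σ ∈ A.inertiaSubgroupIn S, σ a' = a') ∧ a - a' ∈ A.nonunits)
    {π : K} (hπ : ∀ σ ∈ A.inertiaSubgroupIn S, σ π = π) (n : ℕ)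
    (hIV : h4_NodeTorsionValuation A (W'⁄K) π n)
    (P : (W'⁄K).Point) (hP : n • P = 0) :
    ∃ c₀ : (W'⁄K).Point, (∀ σ ∈ A.inertiaSubgroupIn S, σ • c₀ = c₀) ∧ InE1 A (P - c₀) := by
  have hΔ0 : (W'⁄K).Δ ≠ 0 := h32n_Δ_ne_zero (W'⁄K) A h₁ h₃ h₆ ha₂ ha₄ ha₄0 h2
  have hA₁ : (W'⁄K).a₁ ∈ A := by rw [h₁]; exact A.zero_mem
  have hA₂ : (W'⁄K).a₂ ∈ A := (A.valuation_le_one_iff _).1 ha₂.le
  have hA₃ : (W'⁄K).a₃ ∈ A := by rw [h₃]; exact A.zero_mem
  have hA₄ : (W'⁄K).a₄ ∈ A := A.nonunits_le ha₄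
  have hA₆ : (W'⁄K).a₆ ∈ A := by rw [h₆]; exact A.zero_mem
  by_cases hE : InE1 A P
  · exact ⟨0, fun σ _ => h34i_smul_zero W' σ, by rwa [sub_zero]⟩
  rcases P with _ | ⟨x, y, h⟩
  · exact absurd (inE1_zero A) hE
  have hx : x ∈ A := by
    by_contra hx
    exact hE ((inE1_some A h).2 hx)
  have hy : y ∈ A := H86.y_mem_of_x_mem hA₁ hA₂ hA₃ hA₄ hA₆ h.1 hx
  by_cases hxm : x ∈ A.nonunits
  · -- the node
    obtain ⟨hx0, hwx, j, hj⟩ := hIV x y h hP hxm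
    refine h32n_lift_node W' A h₁ h₃ h₆ ha₂ h2 hΔ0 hres h hx0 hxm hwx (c := π ^ j) ?_ ?_
    · intro σ hσ
      rw [map_zpow₀, hπ σ hσ]
    · rw [hj, map_zpow₀]
  · -- nonsingular reduction
    have hxu : A.valuation x = 1 := H86.valuation_eq_one_of_mem_of_not_mem_nonunits A hx hxm
    have hns := h4_partials_of_unit_x A (W'⁄K) h₁ h₃ h₆ ha₂ ha₄ h2 h.1 hxu hy
    exact h32n_lift_ns W' A hA₁ hA₂ hA₃ hA₄ hA₆ hΔ0 hres h hx hns

/-- **INERT on torsion**: on a short nodal model, inertia acts trivially modulo the kernel of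
reduction on the points killed by `n`. -/
theorem h32n_inert [IsAlgClosed K] (W' : Affine R) (A : ValuationSubring K)
    (h₁ : (W'⁄K).a₁ = 0) (h₃ : (W'⁄K).a₃ = 0) (h₆ : (W'⁄K).a₆ = 0)
    (ha₂ : A.valuation (W'⁄K).a₂ = 1) (ha₄ : (W'⁄K).a₄ ∈ A.nonunits) (ha₄0 : (W'⁄K).a₄ ≠ 0)
    (h2 : A.valuation (2 : K) = 1)
    (hres : ∀ a ∈ A, ∃ a' ∈ A, (∀ σ ∈ A.inertiaSubgroupIn S, σ a' = a') ∧ a - a' ∈ A.nonunits)
    {π : K} (hπ : ∀ σ ∈ A.inertiaSubgroupIn S, σ π = π) (n : ℕ)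
    (hIV : h4_NodeTorsionValuation A (W'⁄K) π n)
    {σ : K ≃ₐ[S] K} (hσ : σ ∈ A.inertiaSubgroupIn S)
    (P : (W'⁄K).Point) (hP : n • P = 0) :
    InE1 A (σ • P - P) := by
  have hA₁ : (W'⁄K).a₁ ∈ A := by rw [h₁]; exact A.zero_mem
  have hA₂ : (W'⁄K).a₂ ∈ A := (A.valuation_le_one_iff _).1 ha₂.le
  have hA₃ : (W'⁄K).a₃ ∈ A := by rw [h₃]; exact A.zero_mem
  have hA₄ : (W'⁄K).a₄ ∈ A := A.nonunits_le ha₄
  have hA₆ : (W'⁄K).a₆ ∈ A := by rw [h₆]; exact A.zero_mem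
  obtain ⟨c₀, hc₀, hE⟩ := h32n_lift W' A h₁ h₃ h₆ ha₂ ha₄ ha₄0 h2 hres hπ n hIV P hP
  have e : σ • P - P = σ • (P - c₀) - (P - c₀) := by
    rw [smul_sub, hc₀ σ hσ]
    abel
  rw [e]
  exact inE1_sub A hA₁ hA₂ hA₃ hA₄ hA₆
    (h34i_inE1_smul W' A (h34i_inertia_le_decomp A hσ) hE) hE

end Lift

/-! ## The case `K = ℚ̄` -/

section QbarCase

local notation "Qbar" => AlgebraicClosure ℚ

/-- **NODE-LIFT over `ℚ̄`**: `W` short nodal at `A` (over an odd prime `p`; `n = p` is allowed),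
`n` odd.  Every point killed by `n` is congruent modulo the kernel of reduction to an
inertia-fixed point. -/
theorem h32n_lift_Qbar (W : WeierstrassCurve ℚ) (A : ValuationSubring Qbar) {p n : ℕ}
    (hp : p.Prime) (hp2 : p ≠ 2) (hA : A.LiesOverPrime p) (hn : Odd n)
    (hW : IsShortNodal A n W) (P : (W.toAffine⁄Qbar).Point) (hP : n • P = 0) :
    ∃ c₀ : (W.toAffine⁄Qbar).Point,
      (∀ σ ∈ A.inertiaSubgroupIn ℚ, σ • c₀ = c₀) ∧ InE1 A (P - c₀) := by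
  have hn0 : n ≠ 0 := by
    rintro rfl
    exact absurd hn (by decide)
  have h2 : IsUnitOf A (2 : Qbar) := two_isUnitOf hp hA hp2
  obtain ⟨π₀, u₀, h4, hπ, hπ0, hu⟩ := hW.a₄
  have e₁ : (W.baseChange Qbar).a₁ = 0 := by
    simp [WeierstrassCurve.baseChange, hW.a₁]
  have e₂ : (W.baseChange Qbar).a₂ = algebraMap ℚ Qbar W.a₂ := by
    simp [WeierstrassCurve.baseChange]
  have e₃ : (W.baseChange Qbar).a₃ = 0 := by
    simp [WeierstrassCurve.baseChange, hW.a₃]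
  have e₄ : (W.baseChange Qbar).a₄ = algebraMap ℚ Qbar W.a₄ := by
    simp [WeierstrassCurve.baseChange]
  have e₆ : (W.baseChange Qbar).a₆ = 0 := by
    simp [WeierstrassCurve.baseChange, hW.a₆]
  have ha₄ : algebraMap ℚ Qbar W.a₄ ∈ A.nonunits := by
    rw [h4, map_mul, map_pow]
    exact mem_mul_nonunit A (hu.mem A) (nonunit_pow A hπ hn0)
  have ha₄0 : algebraMap ℚ Qbar W.a₄ ≠ 0 := by
    rw [Ne, map_eq_zero, h4]
    have hu0 : u₀ ≠ 0 := by
      rintro rfl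
      exact hu.ne_zero A (map_zero _)
    exact mul_ne_zero hu0 (pow_ne_zero _ hπ0)
  have H : h4_IVcorStatement A :=
    fun W h3 h6 r₁ r₂ hr₁ hr₂ ha₁ ha₂ hr π u hπ hπ0 hu n hn h4 x y h hP hx =>
      H76.torsion_node_valuation A W h3 h6 r₁ r₂ hr₁ hr₂ ha₁ ha₂ hr π u hπ hπ0 hu n hn h4 h hP hx
  have hIV := h4_nodeTorsionValuation_of_IVcor hn h2 hW H π₀ u₀ h4 hπ hπ0 hu
  exact h32n_lift (R := ℚ) (S := ℚ) (K := Qbar) W.toAffine A e₁ e₃ e₆
    (by rw [e₂]; exact hW.a₂_unit) (by rw [e₄]; exact ha₄) (by rw [e₄]; exact ha₄0) h2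
    (fun _ ha => Fermat.Agent.LGC.h57_exists_inertia_fixed Fermat.Agent.LGC.h57_isAlgebraic_int
      A hp hA ha)
    (π := algebraMap ℚ Qbar π₀) (fun σ _ => σ.commutes π₀) n hIV P hP

/-- **INERT on torsion over `ℚ̄`**: inertia acts trivially modulo the kernel of reduction on the
points of a short nodal model killed by `n`. -/
theorem h32n_inert_Qbar (W : WeierstrassCurve ℚ) (A : ValuationSubring Qbar) {p n : ℕ}
    (hp : p.Prime) (hp2 : p ≠ 2) (hA : A.LiesOverPrime p) (hn : Odd n)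
    (hW : IsShortNodal A n W) {σ : Qbar ≃ₐ[ℚ] Qbar} (hσ : σ ∈ A.inertiaSubgroupIn ℚ)
    (P : (W.toAffine⁄Qbar).Point) (hP : n • P = 0) :
    InE1 A (σ • P - P) := by
  have e₁ : (W.baseChange Qbar).a₁ = 0 := by
    simp [WeierstrassCurve.baseChange, hW.a₁]
  have e₂ : (W.baseChange Qbar).a₂ = algebraMap ℚ Qbar W.a₂ := by
    simp [WeierstrassCurve.baseChange]
  have e₃ : (W.baseChange Qbar).a₃ = 0 := by
    simp [WeierstrassCurve.baseChange, hW.a₃]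
  have e₄ : (W.baseChange Qbar).a₄ = algebraMap ℚ Qbar W.a₄ := by
    simp [WeierstrassCurve.baseChange]
  have e₆ : (W.baseChange Qbar).a₆ = 0 := by
    simp [WeierstrassCurve.baseChange, hW.a₆]
  have hn0 : n ≠ 0 := by
    rintro rfl
    exact absurd hn (by decide)
  obtain ⟨π₀, u₀, h4, hπ, hπ0, hu⟩ := hW.a₄
  have ha₄ : algebraMap ℚ Qbar W.a₄ ∈ A.nonunits := by
    rw [h4, map_mul, map_pow]
    exact mem_mul_nonunit A (hu.mem A) (nonunit_pow A hπ hn0)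
  have hA₁ : (W.toAffine⁄Qbar).a₁ ∈ A := by rw [e₁]; exact A.zero_mem
  have hA₂ : (W.toAffine⁄Qbar).a₂ ∈ A := by rw [e₂]; exact hW.a₂_unit.mem A
  have hA₃ : (W.toAffine⁄Qbar).a₃ ∈ A := by rw [e₃]; exact A.zero_mem
  have hA₄ : (W.toAffine⁄Qbar).a₄ ∈ A := by rw [e₄]; exact A.nonunits_le ha₄
  have hA₆ : (W.toAffine⁄Qbar).a₆ ∈ A := by rw [e₆]; exact A.zero_mem
  obtain ⟨c₀, hc₀, hE⟩ := h32n_lift_Qbar W A hp hp2 hA hn hW P hP
  have e : σ • P - P = σ • (P - c₀) - (P - c₀) := by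
    rw [smul_sub, hc₀ σ hσ]
    abel
  rw [e]
  exact inE1_sub A hA₁ hA₂ hA₃ hA₄ hA₆
    (h34i_inE1_smul (R := ℚ) (S := ℚ) (K := Qbar) W.toAffine A
      (h34i_inertia_le_decomp A hσ) hE) hE

/-- `h32n_lift_Qbar` for points killed by the integer `n`. -/
theorem h32n_lift_Qbar_int (W : WeierstrassCurve ℚ) (A : ValuationSubring Qbar) {p n : ℕ}
    (hp : p.Prime) (hp2 : p ≠ 2) (hA : A.LiesOverPrime p) (hn : Odd n)
    (hW : IsShortNodal A n W) (P : (W.toAffine⁄Qbar).Point) (hP : (n : ℤ) • P = 0) :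
    ∃ c₀ : (W.toAffine⁄Qbar).Point,
      (∀ σ ∈ A.inertiaSubgroupIn ℚ, σ • c₀ = c₀) ∧ InE1 A (P - c₀) :=
  h32n_lift_Qbar W A hp hp2 hA hn hW P (by rw [← natCast_zsmul]; exact hP)

/-- `h32n_inert_Qbar` for points killed by the integer `n`. -/
theorem h32n_inert_Qbar_int (W : WeierstrassCurve ℚ) (A : ValuationSubring Qbar) {p n : ℕ}
    (hp : p.Prime) (hp2 : p ≠ 2) (hA : A.LiesOverPrime p) (hn : Odd n)
    (hW : IsShortNodal A n W) {σ : Qbar ≃ₐ[ℚ] Qbar} (hσ : σ ∈ A.inertiaSubgroupIn ℚ)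
    (P : (W.toAffine⁄Qbar).Point) (hP : (n : ℤ) • P = 0) :
    InE1 A (σ • P - P) :=
  h32n_inert_Qbar W A hp hp2 hA hn hW hσ P (by rw [← natCast_zsmul]; exact hP)

end QbarCase

end Fermat.Agent.P7
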