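import Fermat.Agent.S36.H83Descent
import Fermat.Agent.Jac.KummerFF

/-!
# W7, leaf T-CONST-DESC: descent of the Kummer function of an `H`-fixed torsion point

Author: helper33.  `K = ℚ̄`, `F = FF N ⊆ K((q))` the function field of `X₀(N)` over `ℚ̄` with the
coefficientwise action `gal N σ` of `G_ℚ`; `H ≤ G_ℚ` ANY subgroup (in the application the
stabiliser `I_β` of a node parameter `β` inside the inertia subgroup `I₁` fixing `μ_p`).

* `h33w_desc`: if `x ∈ J₀(N)` is killed by `n > 0` and fixed by every `a ∈ H`, then `x`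
  has a Kummer representative `u` (so `u ≠ 0`, `div u = n • D`, `[D] = x`) which is FIXED by
  every `a ∈ H`.
* `h33w_ord_smul`, `h33w_coeff_fixed`, `h33w_lc_fixed`: for a function `u` fixed by `a`, the
  order function is `a`-invariant and the `q`-expansion coefficients are fixed by `a`.
* `h33w_desc_div`: divisor form, the divisor `D` is `H`-stable
  (`D (a • v) = D v` and `a • D = D`).
* `h33w_desc_stab`: the same with `H = {a ∈ I | a β = β}` in the shape used by the valuation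
  leaves (`∀ a ∈ I, a β = β → …`).
-/

set_option autoImplicit false

open ModularCurve AlgebraicCurve
open Fermat.Agent.S37 (Kbar GQ FF cst gal)
open Fermat.Agent.Jac.K1

noncomputable section

namespace Fermat.Agent.P7

/-- **T-CONST-DESC.**  An `n`-torsion point of `J₀(N)` fixed by a subgroup `H ≤ G_ℚ` has an
`H`-fixed Kummer representative. -/
theorem h33w_desc (N : ℕ) [NeZero N] (H : Subgroup GQ) {n : ℕ} (hn : 0 < n) (x : JZero N)
    (hx : n • x = 0) (hfix : ∀ a ∈ H, a • x = x) :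
    ∃ u : FF N, IsKummerPair n x u ∧ ∀ a ∈ H, gal N a • u = u := by
  have hpd := hasPrincipalDivisors_FF N
  obtain ⟨u₀, hu₀⟩ := exists_kummerPair_JZero N hx
  have hI : ∀ σ ∈ H, ∃ (c : Kbar) (g : FF N), g ≠ 0 ∧ gal N σ • u₀ = cst N c * u₀ * g ^ n := by
    intro σ hσ
    have h1 : IsKummerPair n x (gal N σ • u₀) := by
      have h2 := kummerPair_JZero_galois N hu₀ σ
      rwa [hfix σ hσ] at h2
    obtain ⟨c, -, h, hh, hgf⟩ := IsKummerPair.unique (constantsOnly_FF N) hu₀ h1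
    refine ⟨c, h, hh, ?_⟩
    rw [hgf]
    ring
  obtain ⟨c, h, hc, hh, hinv⟩ := Fermat.Agent.S36.h83d_descent N H hn u₀ hu₀.ne_zero hI
  refine ⟨cst N c * u₀ * h ^ n, ?_, hinv⟩
  have h3 : IsKummerPair n (x + 0) (u₀ * (cst N c * h ^ n)) :=
    hu₀.mul (IsKummerPair.const_mul_pow hc hh)
  rw [add_zero] at h3
  have h4 : cst N c * u₀ * h ^ n = u₀ * (cst N c * h ^ n) := by ring
  rw [h4]
  exact h3

/-- The order function of a function fixed by `a` is `a`-invariant. -/
theorem h33w_ord_smul (N : ℕ) (a : GQ) (u : FF N) (hu : gal N a • u = u)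
    (v : Place Kbar (FF N)) : (gal N a • v).ord u = v.ord u := by
  have h := SemilinearAut.ord_smul (gal N a) v u
  rwa [hu] at h

/-- The `q`-expansion coefficients of a function fixed by `a` are fixed by `a`. -/
theorem h33w_coeff_fixed (N : ℕ) (a : GQ) (u : FF N) (hu : gal N a • u = u) (k : ℤ) :
    a (((u : FF N) : LaurentSeries Kbar).coeff k) = ((u : FF N) : LaurentSeries Kbar).coeff k := by
  have h1 : (((gal N a • u : FF N) : FF N) : LaurentSeries Kbar).coeff k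
      = a (((u : FF N) : LaurentSeries Kbar).coeff k) := by
    rw [coe_arithmeticGalois_smul, coeffMap_coeff]
    rfl
  rw [← h1, hu]

/-- The leading coefficient of a function fixed by `a` is fixed by `a`. -/
theorem h33w_lc_fixed (N : ℕ) (a : GQ) (u : FF N) (hu : gal N a • u = u) :
    a (Fermat.Agent.S36.h83d_lc N u) = Fermat.Agent.S36.h83d_lc N u := by
  rw [← Fermat.Agent.S36.h83d_lc_gal, hu]

/-- A divisor `D` with `n • D = div u` (`n ≠ 0`) is stable under every `a` fixing `u`. -/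
theorem h33w_div_stable (N : ℕ) {n : ℕ} (hn : 0 < n) (a : GQ) (u : FF N)
    (hu : gal N a • u = u) (D : Divisor Kbar (FF N))
    (hD : ∀ v : Place Kbar (FF N), (n : ℤ) * D v = v.ord u) :
    (∀ v : Place Kbar (FF N), D (gal N a • v) = D v) ∧ gal N a • D = D := by
  have hn0 : (n : ℤ) ≠ 0 := Int.natCast_ne_zero.mpr hn.ne'
  have h1 : ∀ v : Place Kbar (FF N), D (gal N a • v) = D v := by
    intro v
    apply mul_left_cancel₀ hn0
    rw [hD, hD, h33w_ord_smul N a u hu v]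
  refine ⟨h1, ?_⟩
  ext w
  rw [SemilinearAut.divisor_smul_apply]
  have h2 := h1 ((gal N a)⁻¹ • w)
  rw [smul_inv_smul] at h2
  exact h2.symm

/-- **T-CONST-DESC, divisor form.**  An `n`-torsion point `x` of `J₀(N)` fixed by `H ≤ G_ℚ` is
the class of an `H`-stable degree-zero divisor `D` with `n • D = div u`, `u ≠ 0` fixed by `H`. -/
theorem h33w_desc_div (N : ℕ) [NeZero N] (H : Subgroup GQ) {n : ℕ} (hn : 0 < n) (x : JZero N)
    (hx : n • x = 0) (hfix : ∀ a ∈ H, a • x = x) :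
    ∃ (u : FF N) (D : Divisor.degZero (K := Kbar) (F := FF N)),
      u ≠ 0 ∧ Pic0.mk D = x ∧
      (∀ v : Place Kbar (FF N), (n : ℤ) * (D : Divisor Kbar (FF N)) v = v.ord u) ∧
      (∀ a ∈ H, gal N a • u = u) ∧
      (∀ a ∈ H, ∀ v : Place Kbar (FF N),
        (D : Divisor Kbar (FF N)) (gal N a • v) = (D : Divisor Kbar (FF N)) v) ∧
      (∀ a ∈ H, gal N a • (D : Divisor Kbar (FF N)) = (D : Divisor Kbar (FF N))) ∧
      (∀ a ∈ H, ∀ v : Place Kbar (FF N), (gal N a • v).ord u = v.ord u) ∧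
      (∀ a ∈ H, ∀ k : ℤ, a (((u : FF N) : LaurentSeries Kbar).coeff k)
        = ((u : FF N) : LaurentSeries Kbar).coeff k) := by
  obtain ⟨u, ⟨hu0, D, hDx, hD⟩, hinv⟩ := h33w_desc N H hn x hx hfix
  exact ⟨u, D, hu0, hDx, hD, hinv,
    fun a ha => (h33w_div_stable N hn a u (hinv a ha) D hD).1,
    fun a ha => (h33w_div_stable N hn a u (hinv a ha) D hD).2,
    fun a ha => h33w_ord_smul N a u (hinv a ha),
    fun a ha => h33w_coeff_fixed N a u (hinv a ha)⟩

/-- the stabiliser of `β ∈ ℚ̄` inside a subgroup `I ≤ G_ℚ`. -/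
def h33wStab (I : Subgroup GQ) (β : Kbar) : Subgroup GQ where
  carrier := {a | a ∈ I ∧ a β = β}
  one_mem' := ⟨I.one_mem, rfl⟩
  mul_mem' := by
    rintro a b ⟨ha, haβ⟩ ⟨hb, hbβ⟩
    refine ⟨I.mul_mem ha hb, ?_⟩
    show a (b β) = β
    rw [hbβ, haβ]
  inv_mem' := by
    rintro a ⟨ha, haβ⟩
    refine ⟨I.inv_mem ha, ?_⟩
    show a.symm β = β
    rw [AlgEquiv.symm_apply_eq, haβ]

theorem h33w_mem_stab {I : Subgroup GQ} {β : Kbar} {a : GQ} :
    a ∈ h33wStab I β ↔ a ∈ I ∧ a β = β := Iff.rfl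

/-- **T-CONST-DESC for `I_β`.**  `x ∈ J₀(N)[n]` fixed by the stabiliser `I_β` of `β` in `I` has a
Kummer representative `u` fixed by `I_β`; its divisor `D = div u / n` is `I_β`-stable and its
`q`-expansion coefficients are fixed by `I_β` (i.e. lie in `L = Fix(I_β)`). -/
theorem h33w_desc_stab (N : ℕ) [NeZero N] (I : Subgroup GQ) (β : Kbar) {n : ℕ} (hn : 0 < n)
    (x : JZero N) (hx : n • x = 0) (hfix : ∀ a ∈ I, a β = β → a • x = x) :
    ∃ (u : FF N) (D : Divisor.degZero (K := Kbar) (F := FF N)),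
      u ≠ 0 ∧ Pic0.mk D = x ∧
      (∀ v : Place Kbar (FF N), (n : ℤ) * (D : Divisor Kbar (FF N)) v = v.ord u) ∧
      (∀ a ∈ I, a β = β → gal N a • u = u) ∧
      (∀ a ∈ I, a β = β → ∀ v : Place Kbar (FF N),
        (D : Divisor Kbar (FF N)) (gal N a • v) = (D : Divisor Kbar (FF N)) v) ∧
      (∀ a ∈ I, a β = β → gal N a • (D : Divisor Kbar (FF N)) = (D : Divisor Kbar (FF N))) ∧
      (∀ a ∈ I, a β = β → ∀ v : Place Kbar (FF N), (gal N a • v).ord u = v.ord u) ∧
      (∀ a ∈ I, a β = β → ∀ k : ℤ, a (((u : FF N) : LaurentSeries Kbar).coeff k)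
        = ((u : FF N) : LaurentSeries Kbar).coeff k) := by
  obtain ⟨u, D, hu0, hDx, hD, h1, h2, h3, h4, h5⟩ :=
    h33w_desc_div N (h33wStab I β) hn x hx (fun a ha => hfix a ha.1 ha.2)
  exact ⟨u, D, hu0, hDx, hD, fun a ha hβ => h1 a ⟨ha, hβ⟩, fun a ha hβ => h2 a ⟨ha, hβ⟩,
    fun a ha hβ => h3 a ⟨ha, hβ⟩, fun a ha hβ => h4 a ⟨ha, hβ⟩, fun a ha hβ => h5 a ⟨ha, hβ⟩⟩

end Fermat.Agent.P7
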