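import Mathlib
import Fermat.Prelude.Def_FLTPrelim_FreyPackage
import Fermat.Prelude.Def_FLTPrelim_Modularity

/-!
# W7 (row 38, target S44), leaf GLUE-2: `2` is a bad prime of every integral model of a Frey curve

Author: helper33.  `P` a Frey package, `E = P.freyCurve`
(`y² + x y = x³ + (b^p - 1 - a^p)/4 x² - a^p b^p / 16 x`), `W` ANY integral model of `E`
(`C • E = W.map (ℤ → ℚ)` for a change of variables `C` over `ℚ`).

* `h33g2_frey_c4` : `c₄(E) = a^{2p} + a^p b^p + b^{2p}`, an ODD integer (`h33g2_c4_odd`).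
* `h33g2_frey_disc` : `2⁸ Δ(E) = (a b c)^{2p}`.
* `h33g2_key` : `2⁸ Δ(W) c₄(E)³ = c₄(W)³ (a b c)^{2p}` in `ℤ`.
* `h33g2_two_dvd` : `2 ∣ Δ(W)` (even `4 ∣ Δ(W)`: `h33g2_four_dvd`).
* `h33g2_not_good_two` : `¬ W.IsGoodPrimeFor 2`; `h33g2_ne_two_of_good`.

Consequence (GLUE-2 for S44): a Hecke polynomial in the variables `T_ℓ`, `ℓ` good for `W`, never
involves `T_2`; so the landed GLUE (`h17g_glue0 : H99wGlue`) already produces a polynomial in the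
`T_ℓ` with `ℓ ∤ 2 M p`.

Mathlib + Prelude only.
-/

set_option autoImplicit false

open WeierstrassCurve

namespace Fermat.Agent.P7

/-- `c₄` of the Frey curve. -/
theorem h33g2_frey_c4 (P : FreyPackage) :
    P.freyCurve.c₄ = (((P.a ^ (2 * P.p) + P.a ^ P.p * P.b ^ P.p + P.b ^ (2 * P.p) : ℤ)) : ℚ) := by
  simp only [FreyPackage.freyCurve, WeierstrassCurve.c₄, WeierstrassCurve.b₂, WeierstrassCurve.b₄]
  push_cast
  ring

/-- `Δ` of the Frey curve. -/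
theorem h33g2_frey_disc (P : FreyPackage) :
    P.freyCurve.Δ * 256 = (((P.a * P.b * P.c) ^ (2 * P.p) : ℤ) : ℚ) := by
  have h : ((P.c : ℚ)) ^ P.p = (P.a : ℚ) ^ P.p + (P.b : ℚ) ^ P.p := by
    have := P.hFLT
    exact_mod_cast this.symm
  simp only [FreyPackage.freyCurve, WeierstrassCurve.Δ, WeierstrassCurve.b₂, WeierstrassCurve.b₄,
    WeierstrassCurve.b₆, WeierstrassCurve.b₈]
  push_cast
  rw [mul_pow, mul_pow, pow_mul' (P.c : ℚ), h]
  ring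

/-- `a` is odd. -/
theorem h33g2_a_odd (P : FreyPackage) : Odd P.a := by
  have h4 : ((P.a - 3 : ℤ) : ZMod 4) = 0 := by
    push_cast
    rw [P.ha4]
    decide
  have hd : (4 : ℤ) ∣ P.a - 3 := by
    have := (ZMod.intCast_zmod_eq_zero_iff_dvd (P.a - 3) 4).mp h4
    exact_mod_cast this
  obtain ⟨k, hk⟩ := hd
  exact ⟨2 * k + 1, by linarith⟩

/-- `b` is even. -/
theorem h33g2_b_even (P : FreyPackage) : Even P.b := by
  have hd : (2 : ℤ) ∣ P.b := by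
    have := (ZMod.intCast_zmod_eq_zero_iff_dvd P.b 2).mp P.hb2
    exact_mod_cast this
  exact even_iff_two_dvd.mpr hd

/-- `c₄` of the Frey curve is odd. -/
theorem h33g2_c4_odd (P : FreyPackage) :
    ¬ (2 : ℤ) ∣ P.a ^ (2 * P.p) + P.a ^ P.p * P.b ^ P.p + P.b ^ (2 * P.p) := by
  have hp0 : P.p ≠ 0 := P.hp0
  have h2p0 : 2 * P.p ≠ 0 := by omega
  have ha := h33g2_a_odd P
  have hb := h33g2_b_even P
  have h1 : Odd (P.a ^ (2 * P.p) + P.a ^ P.p * P.b ^ P.p + P.b ^ (2 * P.p)) :=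
    ((ha.pow).add_even ((hb.pow_of_ne_zero hp0).mul_left _)).add_even (hb.pow_of_ne_zero h2p0)
  rw [← even_iff_two_dvd, Int.not_even_iff_odd]
  exact h1

/-- the key identity `2⁸ Δ(W) c₄(E)³ = c₄(W)³ (a b c)^{2p}`. -/
theorem h33g2_key (P : FreyPackage) (W : WeierstrassCurve ℤ)
    (hW : W.IsIntegralModelOf P.freyCurve) :
    W.Δ * 256 * (P.a ^ (2 * P.p) + P.a ^ P.p * P.b ^ P.p + P.b ^ (2 * P.p)) ^ 3 =
      W.c₄ ^ 3 * (P.a * P.b * P.c) ^ (2 * P.p) := by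
  obtain ⟨C, hC⟩ := hW
  have hΔ : (C • P.freyCurve).Δ = (W.map (Int.castRingHom ℚ)).Δ := congrArg _ hC
  have hc : (C • P.freyCurve).c₄ = (W.map (Int.castRingHom ℚ)).c₄ := congrArg _ hC
  rw [variableChange_Δ, map_Δ] at hΔ
  rw [variableChange_c₄, map_c₄, h33g2_frey_c4] at hc
  have hd := h33g2_frey_disc P
  have hΔ' : ((W.Δ : ℤ) : ℚ) = ((C.u⁻¹ : ℚˣ) : ℚ) ^ 12 * P.freyCurve.Δ := by
    rw [hΔ]; rfl
  have hc' : ((W.c₄ : ℤ) : ℚ) = ((C.u⁻¹ : ℚˣ) : ℚ) ^ 4 *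
      (((P.a ^ (2 * P.p) + P.a ^ P.p * P.b ^ P.p + P.b ^ (2 * P.p) : ℤ)) : ℚ) := by
    rw [hc]; rfl
  have hq : (((W.Δ * 256 * (P.a ^ (2 * P.p) + P.a ^ P.p * P.b ^ P.p + P.b ^ (2 * P.p)) ^ 3 :
      ℤ)) : ℚ) = ((W.c₄ ^ 3 * (P.a * P.b * P.c) ^ (2 * P.p) : ℤ) : ℚ) := by
    rw [Int.cast_mul, Int.cast_mul, Int.cast_pow, Int.cast_mul (W.c₄ ^ 3), Int.cast_pow W.c₄,
      hΔ', hc', ← hd]
    push_cast
    ring
  exact_mod_cast hq

/-- **`4 ∣ Δ(W)`** for every integral model `W` of a Frey curve. -/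
theorem h33g2_four_dvd (P : FreyPackage) (W : WeierstrassCurve ℤ)
    (hW : W.IsIntegralModelOf P.freyCurve) : (4 : ℤ) ∣ W.Δ := by
  have hkey := h33g2_key P W hW
  set c4 : ℤ := P.a ^ (2 * P.p) + P.a ^ P.p * P.b ^ P.p + P.b ^ (2 * P.p) with hc4
  have hodd : ¬ (2 : ℤ) ∣ c4 := h33g2_c4_odd P
  -- `2 ^ 10 ∣ (a b c) ^ (2 p)`
  have h2abc : (2 : ℤ) ∣ P.a * P.b * P.c := P.two_dvd_abc
  have h10 : 10 ≤ 2 * P.p := by have := P.hp5; omega
  have h1024 : (2 : ℤ) ^ 10 ∣ (P.a * P.b * P.c) ^ (2 * P.p) :=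
    (pow_dvd_pow_of_dvd h2abc 10).trans (pow_dvd_pow _ h10)
  have h3 : (2 : ℤ) ^ 10 ∣ W.Δ * 256 * c4 ^ 3 := by
    rw [hkey]
    exact Dvd.dvd.mul_left h1024 _
  -- cancel `2 ^ 8`
  have h4 : (4 : ℤ) ∣ W.Δ * c4 ^ 3 := by
    obtain ⟨k, hk⟩ := h3
    refine ⟨k, ?_⟩
    have h256 : (256 : ℤ) ≠ 0 := by norm_num
    apply mul_left_cancel₀ h256
    calc (256 : ℤ) * (W.Δ * c4 ^ 3) = W.Δ * 256 * c4 ^ 3 := by ring
      _ = 2 ^ 10 * k := hk
      _ = 256 * (4 * k) := by ring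
  -- `c4 ^ 3` is coprime to `4`
  have hcop : IsCoprime (4 : ℤ) (c4 ^ 3) := by
    have h2 : IsCoprime (2 : ℤ) c4 :=
      (Prime.coprime_iff_not_dvd Int.prime_two).mpr hodd
    have h22 : IsCoprime ((2 : ℤ) ^ 2) (c4 ^ 3) := h2.pow
    have e : (4 : ℤ) = 2 ^ 2 := by norm_num
    rw [e]
    exact h22
  exact hcop.dvd_of_dvd_mul_right h4

/-- **`2 ∣ Δ(W)`** for every integral model `W` of a Frey curve. -/
theorem h33g2_two_dvd (P : FreyPackage) (W : WeierstrassCurve ℤ)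
    (hW : W.IsIntegralModelOf P.freyCurve) : (2 : ℤ) ∣ W.Δ :=
  (by norm_num : (2 : ℤ) ∣ 4).trans (h33g2_four_dvd P W hW)

/-- `2` is a bad prime of every integral model of a Frey curve. -/
theorem h33g2_not_good_two (P : FreyPackage) (W : WeierstrassCurve ℤ)
    (hW : W.IsIntegralModelOf P.freyCurve) : ¬ W.IsGoodPrimeFor 2 := by
  intro h
  apply h
  have := h33g2_two_dvd P W hW
  exact_mod_cast this

/-- a good prime of an integral model of a Frey curve is odd. -/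
theorem h33g2_ne_two_of_good (P : FreyPackage) (W : WeierstrassCurve ℤ)
    (hW : W.IsIntegralModelOf P.freyCurve) {ℓ : ℕ} (hℓ : W.IsGoodPrimeFor ℓ) : ℓ ≠ 2 := by
  rintro rfl
  exact h33g2_not_good_two P W hW hℓ

end Fermat.Agent.P7
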