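import Fermat.Agent.P7.H23BreakW

/-!
# Wave 7 (S44), end shape (I-1), TAME case (helper33, prefix `h33t_`)

Same frame as `P7/H23Break.lean`: `A` a valuation subring of `ℚ̄` over the odd prime `p`,
`I₁ = h23vI1 p A`.

The level theorems of blocks (C) + (E) (`h5e_level_all`, helper5) need a break datum
`H23wBreak p A ζ β b δ`, i.e. the WILD case of `h23w_dichotomy`.  In the TAME case (every element
of `I₁` fixes `β`) the hypothesis "the stabiliser of `β` in `I₁` fixes `u`" says that ALL of `I₁`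
fixes `u`, so `β` may be replaced by any other unit: we produce a WILD unit `β'`, a `p`-th root
of `1 + p`.

* `h33t_exists_wild` : there is a unit `β'` of `A` with `β' ^ p` fixed by `I₁` (indeed rational)
  and `β'` not fixed by `I₁`.
* `h33t_exists_break` : hence a break datum for `β'`.
* `h33t_swap` : **uniform form**: for every unit `β` with `β ^ p ∈ Fix(I₁)` and every property
  `P` of Galois elements which holds on the stabiliser of `β` in `I₁`, there are a unit `β'`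
  with `β' ^ p ∈ Fix(I₁)`, `b`, `ζ`, `δ` with a break datum for `β'` and such that `P` holds on
  the stabiliser of `β'` in `I₁` (`β' = β` in the wild case).

Nothing is assumed: every statement is proved.
-/

set_option autoImplicit false
set_option linter.style.haveILetI false
set_option linter.unusedSectionVars false

open Fermat.Agent.PT.Loc Fermat.Agent.S56F Fermat.Agent.PT.Bridge

open scoped Pointwise

noncomputable section

namespace Fermat.Agent.P7

variable {p : ℕ} [Fact p.Prime]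

/-- a `p`-th root `β'` of `1 + p`: the valuation of `β' - 1`. -/
theorem h33t_val_root (A : ValuationSubring Qb) (hA : A.LiesOverPrime p) {β : Qb}
    (hβ : β ^ p = 1 + (p : Qb)) :
    β ∈ A ∧ β⁻¹ ∈ A ∧ A.valuation (β - 1) ^ p = A.valuation (p : Qb) ∧
      A.valuation (β - 1) < 1 := by
  have hp : p.Prime := Fact.out
  have hpA : (p : Qb) ∈ A.nonunits := hA
  have hvp : A.valuation (p : Qb) < 1 := (ValuationSubring.mem_nonunits_iff A).mp hpA
  -- `β` is a unit
  have h1 : A.valuation β ^ p = 1 := by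
    rw [← map_pow, hβ]
    exact h23v_val_one_add hpA
  have hv1 : A.valuation β = 1 := by
    rw [← one_pow p] at h1
    exact (pow_left_inj₀ zero_le zero_le hp.ne_zero).mp h1
  have hβA : β ∈ A := (A.valuation_le_one_iff β).mp hv1.le
  have hβA' : β⁻¹ ∈ A := by
    rw [← A.valuation_le_one_iff, map_inv₀, hv1, inv_one]
  -- the expansion of `(t + 1) ^ p` in the ring `A`
  let b : A := ⟨β, hβA⟩
  obtain ⟨r, hr⟩ := exists_add_pow_prime_eq hp (b - 1) 1
  have hr' : β ^ p = (β - 1) ^ p + 1 + (p : Qb) * (β - 1) * (r : Qb) := by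
    have h2 := congrArg (fun x : A => (x : Qb)) hr
    simp only [sub_add_cancel, one_pow, mul_one] at h2
    have h3 : ((b ^ p : A) : Qb) = β ^ p := by
      simp [b]
    have h4 : (((b - 1) ^ p + 1 + (p : A) * (b - 1) * r : A) : Qb)
        = (β - 1) ^ p + 1 + (p : Qb) * (β - 1) * (r : Qb) := by
      simp [b]
    rw [h3, h4] at h2
    exact h2
  have hkey : (β - 1) ^ p = (p : Qb) * (1 - (β - 1) * (r : Qb)) := by
    have h5 : (β - 1) ^ p + 1 + (p : Qb) * (β - 1) * (r : Qb) = 1 + (p : Qb) := by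
      rw [← hr', hβ]
    linear_combination h5
  have htA : β - 1 ∈ A := sub_mem hβA (one_mem A)
  have hvt : A.valuation (β - 1) ≤ 1 := (A.valuation_le_one_iff _).mpr htA
  have hfac : A.valuation (1 - (β - 1) * (r : Qb)) ≤ 1 :=
    (A.valuation_le_one_iff _).mpr (sub_mem (one_mem A) (mul_mem htA r.2))
  -- `β - 1 ∈ 𝔪_A`
  have hlt : A.valuation (β - 1) < 1 := by
    rcases lt_or_eq_of_le hvt with h | h
    · exact h
    · exfalso
      have h6 : A.valuation ((β - 1) ^ p) = 1 := by rw [map_pow, h, one_pow]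
      rw [hkey, map_mul] at h6
      have h7 : A.valuation (p : Qb) * A.valuation (1 - (β - 1) * (r : Qb)) < 1 :=
        lt_of_le_of_lt (mul_le_of_le_one_right zero_le hfac) hvp
      exact absurd h6 h7.ne
  refine ⟨hβA, hβA', ?_, hlt⟩
  have h8 : (β - 1) * (r : Qb) ∈ A.nonunits := by
    rw [ValuationSubring.mem_nonunits_iff, map_mul]
    exact lt_of_le_of_lt (mul_le_of_le_one_right zero_le ((A.valuation_le_one_iff _).mpr r.2)) hlt
  have h9 : A.valuation (1 - (β - 1) * (r : Qb)) = 1 := by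
    have h10 : -((β - 1) * (r : Qb)) ∈ A.nonunits := by
      rw [ValuationSubring.mem_nonunits_iff, Valuation.map_neg]
      exact (ValuationSubring.mem_nonunits_iff A).mp h8
    have := h23v_val_one_add h10
    rwa [← sub_eq_add_neg] at this
  rw [← map_pow, hkey, map_mul, h9, mul_one]

/-- **a wild unit**: a `p`-th root `β'` of `1 + p` is a unit of `A`, `β' ^ p` is rational, and
`β'` is not fixed by `I₁`. -/
theorem h33t_exists_wild (hp2 : p ≠ 2) (A : ValuationSubring Qb) (hA : A.LiesOverPrime p) :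
    ∃ β : Qb, β ≠ 0 ∧ β ∈ A ∧ β⁻¹ ∈ A ∧ (∀ a : GQ, a (β ^ p) = β ^ p) ∧
      ¬ ∀ a ∈ h23vI1 p A, a β = β := by
  have hp : p.Prime := Fact.out
  obtain ⟨β, hβ⟩ := IsAlgClosed.exists_pow_nat_eq (1 + (p : Qb)) hp.pos
  have hp0 : (p : Qb) ≠ 0 := Nat.cast_ne_zero.mpr hp.ne_zero
  have hβ0 : β ≠ 0 := by
    rintro rfl
    rw [zero_pow hp.ne_zero] at hβ
    have h1 : ((1 + p : ℕ) : Qb) = 0 := by
      push_cast
      exact hβ.symm
    exact absurd (Nat.cast_eq_zero.mp h1) (by omega)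
  obtain ⟨hβA, hβA', hval, hlt⟩ := h33t_val_root A hA hβ
  refine ⟨β, hβ0, hβA, hβA', fun a => ?_, fun hfix => ?_⟩
  · rw [hβ, map_add, map_one, map_natCast]
  · -- `t = β - 1` would be fixed by `I₁`
    have ht0 : β - 1 ≠ 0 := by
      intro h
      have h1 : β = 1 := sub_eq_zero.mp h
      rw [h1, one_pow] at hβ
      exact hp0 (by linear_combination -hβ)
    have htfix : ∀ a ∈ h23vI1 p A, a (β - 1) = β - 1 := by
      intro a ha
      rw [map_sub, map_one, hfix a ha]
    obtain ⟨n, hn⟩ := h23v_val hp2 A hA ht0 htfix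
    have hvp0 : 0 < A.valuation (p : Qb) := zero_lt_iff.mpr ((Valuation.ne_zero_iff _).mpr hp0)
    have hr0 : 0 < A.valuation (β - 1) := zero_lt_iff.mpr ((Valuation.ne_zero_iff _).mpr ht0)
    have htr : A.valuation (p : Qb) < A.valuation (β - 1) := by
      rw [← hval]
      have h2 : A.valuation (β - 1) ^ p < A.valuation (β - 1) ^ 1 :=
        pow_lt_pow_right_of_lt_one₀ hr0 hlt hp.one_lt
      rwa [pow_one] at h2
    have hs : A.valuation (β - 1) ^ p = A.valuation (p : Qb) ^ (1 : ℤ) := by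
      rw [zpow_one, hval]
    have hk0 : 0 < p - 1 := by
      have := hp.two_le
      omega
    have hkp : p - 1 < p := by
      have := hp.two_le
      omega
    exact h23w_not_pow hvp0 htr hlt hs hk0 hkp n hn

/-- **a break datum exists** (for the wild unit `β'`). -/
theorem h33t_exists_break (hp2 : p ≠ 2) (A : ValuationSubring Qb) (hA : A.LiesOverPrime p) :
    ∃ (β : Qb) (b : GQ) (ζ δ : Qb), β ≠ 0 ∧ β ∈ A ∧ β⁻¹ ∈ A ∧ (∀ a : GQ, a (β ^ p) = β ^ p) ∧
      b ∈ h23vI1 p A ∧ b ∈ A.inertiaSubgroupIn ℚ ∧ IsPrimitiveRoot ζ p ∧ b β = ζ * β ∧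
      H23wBreakS p A ζ β b δ ∧ H23wBreak p A ζ β b δ := by
  obtain ⟨β, hβ0, hβA, hβA', hβp, hwild⟩ := h33t_exists_wild hp2 A hA
  obtain ⟨b, ζ, δ, hb, hbI, hζ, hbβ, hS, hW⟩ :=
    h23w_wild hp2 A hA hβ0 hβA hβA' (fun a _ => hβp a) hwild
  exact ⟨β, b, ζ, δ, hβ0, hβA, hβA', hβp, hb, hbI, hζ, hbβ, hS, hW⟩

/-- **uniform form of the dichotomy**: a property `P` which holds on the stabiliser of `β` in
`I₁` holds on the stabiliser in `I₁` of a unit `β'` which has a break datum. -/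
theorem h33t_swap (hp2 : p ≠ 2) (A : ValuationSubring Qb) (hA : A.LiesOverPrime p)
    {β : Qb} (hβ0 : β ≠ 0) (hβA : β ∈ A) (hβA' : β⁻¹ ∈ A)
    (hβ : ∀ a ∈ h23vI1 p A, a (β ^ p) = β ^ p) {P : GQ → Prop}
    (hP : ∀ a ∈ h23vI1 p A, a β = β → P a) :
    ∃ (β' : Qb) (b : GQ) (ζ δ : Qb), β' ≠ 0 ∧ β' ∈ A ∧ β'⁻¹ ∈ A ∧
      (∀ a ∈ h23vI1 p A, a (β' ^ p) = β' ^ p) ∧
      (∀ a ∈ h23vI1 p A, a β' = β' → P a) ∧
      b ∈ h23vI1 p A ∧ b ∈ A.inertiaSubgroupIn ℚ ∧ IsPrimitiveRoot ζ p ∧ b β' = ζ * β' ∧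
      H23wBreakS p A ζ β' b δ ∧ H23wBreak p A ζ β' b δ := by
  by_cases h : ∀ a ∈ h23vI1 p A, a β = β
  · obtain ⟨β', b, ζ, δ, h0, h1, h2, h3, hb, hbI, hζ, hbβ, hS, hW⟩ := h33t_exists_break hp2 A hA
    exact ⟨β', b, ζ, δ, h0, h1, h2, fun a _ => h3 a, fun a ha _ => hP a ha (h a ha),
      hb, hbI, hζ, hbβ, hS, hW⟩
  · obtain ⟨b, ζ, δ, hb, hbI, hζ, hbβ, hS, hW⟩ := h23w_wild hp2 A hA hβ0 hβA hβA' hβ h
    exact ⟨β, b, ζ, δ, hβ0, hβA, hβA', hβ, hP, hb, hbI, hζ, hbβ, hS, hW⟩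

end Fermat.Agent.P7
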