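import Fermat.Agent.P7.H34MultFlat
import Fermat.Agent.S13.H4AtP

/-!
# P7 (wave 7, row 38, target S44), leaf L-MULT: the torsion inputs on a short nodal model
(helper34, prefix `h34n_`)

`W : WeierstrassCurve ℤ` whose model over `ℚ` is SHORT NODAL at the valuation subring `A` of `ℚ̄`
over the odd prime `p` (S05 `IsShortNodal A p`: `a₁ = a₃ = a₆ = 0`, `a₂` a unit of `A`,
`a₄ = u π ^ p` with `π` a rational non-unit and `u` a unit), `W.Δ ≠ 0`.

* `h34n_unram_lift_pt` : Hensel lift of one integral point with a unit partial derivative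
  (generic, no unit discriminant);
* `h34n_inertT : H34nInertT W A p` : inertia moves the `p`-torsion inside the classes modulo the
  kernel of reduction (S13 `h4_inertia_sub_inE1_of_isShortNodal`);
* `h34n_lift_node` : a `p`-torsion point reducing to the node is congruent modulo the kernel of
  reduction to an inertia-fixed point (S05 `torsion_node_valuation`: `x = π ^ j ε`; inertia-fixed
  `ε' ≡ ε`; Hensel for `s² = a₂ + x' + a₄ / x'`; S05 refined reduction);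
* `h34n_liftT : H34nLiftT W A p`;
* `h34n_localAt_nodal` : **L-MULT for a short nodal integral model**: `H34nLocalAt W p` (the body
  of the frozen `H99wLocal` for `W`), hence `W[p]` is peu ramifié at `p`;
* `h34n_flat_nodal`, `h34n_locFlat_rho_nodal` : `W[p]` is flat at `p`.
-/

set_option autoImplicit false
set_option linter.style.haveILetI false
set_option linter.unusedSectionVars false

namespace Fermat.Agent.P7

open WeierstrassCurve Fermat.Agent.S05
open scoped WeierstrassCurve.Affine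

section Hensel

open Polynomial

variable {R : Type*} {S : Type*} {K : Type*} [CommRing R] [Field S] [Field K]
  [DecidableEq K] [Algebra R S] [Algebra R K] [Algebra S K] [IsScalarTower R S K]

/-- **Hensel lift of one integral point**: an integral point `(x, y)` of an integral Weierstrass
model (with `Δ ≠ 0`) at which the two partial derivatives are not both non-units is congruent
modulo the kernel of reduction to an `I`-fixed point.  (Same proof as `h34i_unram_lift_of`, where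
the hypothesis on the partial derivatives comes from the unit discriminant.) -/
theorem h34n_unram_lift_pt [IsAlgClosed K] (W' : Affine R) (A : ValuationSubring K)
    (ha₁ : (W'⁄K).a₁ ∈ A) (ha₂ : (W'⁄K).a₂ ∈ A) (ha₃ : (W'⁄K).a₃ ∈ A) (ha₄ : (W'⁄K).a₄ ∈ A)
    (ha₆ : (W'⁄K).a₆ ∈ A) (hΔ0 : (W'⁄K).Δ ≠ 0)
    (hres : ∀ a ∈ A, ∃ a' ∈ A, (∀ σ ∈ A.inertiaSubgroupIn S, σ a' = a') ∧ a - a' ∈ A.nonunits)
    {x y : K} (h : (W'⁄K).Nonsingular x y) (hx : x ∈ A)
    (hns : (W'⁄K).a₁ * y - (3 * x ^ 2 + 2 * (W'⁄K).a₂ * x + (W'⁄K).a₄) ∉ A.nonunits ∨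
      2 * y + (W'⁄K).a₁ * x + (W'⁄K).a₃ ∉ A.nonunits) :
    ∃ c₀ : (W'⁄K).Point, (∀ σ ∈ A.inertiaSubgroupIn S, σ • c₀ = c₀) ∧
      InE1 A ((Affine.Point.some x y h : (W'⁄K).Point) - c₀) := by
  have hy : y ∈ A := H86.y_mem_of_x_mem ha₁ ha₂ ha₃ ha₄ ha₆ h.1 hx
  have heq := (Affine.equation_iff x y).1 h.1
  have h2A : (2 : K) ∈ A := H86.two_mem A
  have h3A : (3 : K) ∈ A := by
    have : (3 : K) = 2 + 1 := by norm_num
    rw [this]; exact add_mem h2A (one_mem A)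
  -- the coefficients are Galois fixed
  have hf₁ : ∀ σ : K ≃ₐ[S] K, σ (W'⁄K).a₁ = (W'⁄K).a₁ := fun σ => by
    simp only [WeierstrassCurve.baseChange, WeierstrassCurve.map_a₁]
    exact h34i_algebraMap_fixed σ _
  have hf₂ : ∀ σ : K ≃ₐ[S] K, σ (W'⁄K).a₂ = (W'⁄K).a₂ := fun σ => by
    simp only [WeierstrassCurve.baseChange, WeierstrassCurve.map_a₂]
    exact h34i_algebraMap_fixed σ _
  have hf₃ : ∀ σ : K ≃ₐ[S] K, σ (W'⁄K).a₃ = (W'⁄K).a₃ := fun σ => by
    simp only [WeierstrassCurve.baseChange, WeierstrassCurve.map_a₃]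
    exact h34i_algebraMap_fixed σ _
  have hf₄ : ∀ σ : K ≃ₐ[S] K, σ (W'⁄K).a₄ = (W'⁄K).a₄ := fun σ => by
    simp only [WeierstrassCurve.baseChange, WeierstrassCurve.map_a₄]
    exact h34i_algebraMap_fixed σ _
  have hf₆ : ∀ σ : K ≃ₐ[S] K, σ (W'⁄K).a₆ = (W'⁄K).a₆ := fun σ => by
    simp only [WeierstrassCurve.baseChange, WeierstrassCurve.map_a₆]
    exact h34i_algebraMap_fixed σ _
  -- the conclusion from an `I`-fixed integral point with the same reduction
  have key : ∀ x₀ y₀ : K, x₀ ∈ A → y₀ ∈ A → (W'⁄K).Equation x₀ y₀ →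
      (∀ σ ∈ A.inertiaSubgroupIn S, σ x₀ = x₀) → (∀ σ ∈ A.inertiaSubgroupIn S, σ y₀ = y₀) →
      x - x₀ ∈ A.nonunits → y - y₀ ∈ A.nonunits →
      ∃ c₀ : (W'⁄K).Point, (∀ σ ∈ A.inertiaSubgroupIn S, σ • c₀ = c₀) ∧
        InE1 A ((Affine.Point.some x y h : (W'⁄K).Point) - c₀) := by
    intro x₀ y₀ hx₀ hy₀ he hσx hσy hxm hym
    have h₀ : (W'⁄K).Nonsingular x₀ y₀ :=
      ((W'⁄K).equation_iff_nonsingular_of_Δ_ne_zero hΔ0).1 he
    refine ⟨Affine.Point.some x₀ y₀ h₀, fun σ hσ =>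
      h34i_smul_some_of_fixed W' σ h₀ (hσx σ hσ) (hσy σ hσ), ?_⟩
    exact H86.sub_inE1_of_same_reduction (A := A) (W := W'⁄K) ha₁ ha₂ ha₃ ha₄ h h₀
      hx hy hx₀ hy₀ hxm hym hns
  by_cases hdY : 2 * y + (W'⁄K).a₁ * x + (W'⁄K).a₃ ∈ A.nonunits
  · -- the `X`-partial is a unit: lift `y`, solve the cubic in `X`
    have hdX : (W'⁄K).a₁ * y - (3 * x ^ 2 + 2 * (W'⁄K).a₂ * x + (W'⁄K).a₄) ∉ A.nonunits := by
      rcases hns with h' | h'
      · exact h'
      · exact absurd hdY h'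
    obtain ⟨y₀, hy₀, hσy₀, hym⟩ := hres y hy
    set b : K := (W'⁄K).a₄ - (W'⁄K).a₁ * y₀ with hb
    set c : K := (W'⁄K).a₆ - y₀ ^ 2 - (W'⁄K).a₃ * y₀ with hc
    have hbA : b ∈ A := sub_mem ha₄ (mul_mem ha₁ hy₀)
    have hcA : c ∈ A := sub_mem (sub_mem ha₆ (pow_mem hy₀ 2)) (mul_mem ha₃ hy₀)
    set q : K[X] := X ^ 3 + C (W'⁄K).a₂ * X ^ 2 + C b * X + C c with hq
    have hqA : q ∈ lifts (algebraMap A K) :=
      add_mem (add_mem (add_mem (X_pow_mem_lifts _ 3)
        (mul_mem (h34i_C_mem_lifts A ha₂) (X_pow_mem_lifts _ 2)))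
        (mul_mem (h34i_C_mem_lifts A hbA) (X_mem_lifts _))) (h34i_C_mem_lifts A hcA)
    have hqσ : ∀ σ ∈ A.inertiaSubgroupIn S, q.map ((σ : K ≃ₐ[S] K) : K →+* K) = q := by
      intro σ hσ
      have e1 : σ b = b := by
        rw [hb, map_sub, map_mul, hf₄, hf₁, hσy₀ σ hσ]
      have e2 : σ c = c := by
        rw [hc, map_sub, map_sub, map_mul, map_pow, hf₆, hf₃, hσy₀ σ hσ]
      simp only [hq, Polynomial.map_add, Polynomial.map_mul, Polynomial.map_pow, map_X, map_C,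
        RingHom.coe_coe, e1, e2, hf₂]
    have hev : ∀ t : K, q.eval t = t ^ 3 + (W'⁄K).a₂ * t ^ 2 + b * t + c := fun t => by
      simp only [hq, eval_add, eval_mul, eval_pow, eval_X, eval_C]
    have hdev : ∀ t : K, q.derivative.eval t = 3 * t ^ 2 + 2 * (W'⁄K).a₂ * t + b := fun t => by
      simp only [hq, derivative_add, derivative_mul, derivative_X_pow, derivative_C, derivative_X,
        eval_add, eval_mul, eval_pow, eval_X, eval_C, zero_mul, zero_add, mul_one, add_zero,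
        Nat.cast_ofNat]
      norm_num
      ring
    have h0 : q.eval x ∈ A.nonunits := by
      have e : q.eval x = (y - y₀) * (y + y₀ + (W'⁄K).a₁ * x + (W'⁄K).a₃) := by
        rw [hev, hb, hc]
        linear_combination -heq
      rw [e]
      exact K56.nonunits_mul_mem A hym (add_mem (add_mem (add_mem hy hy₀) (mul_mem ha₁ hx)) ha₃)
    have h1 : q.derivative.eval x ∉ A.nonunits := by
      have e : q.derivative.eval x =
          -((W'⁄K).a₁ * y - (3 * x ^ 2 + 2 * (W'⁄K).a₂ * x + (W'⁄K).a₄)) +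
            (W'⁄K).a₁ * (y - y₀) := by
        rw [hdev, hb]; ring
      rw [e]
      refine H86.add_not_mem_nonunits A (neg_mem (sub_mem (mul_mem ha₁ hy) (add_mem (add_mem
        (mul_mem h3A (pow_mem hx 2)) (mul_mem (mul_mem h2A ha₂) hx)) ha₄))) ?_
        (K56.mem_mul_nonunits A ha₁ hym)
      intro hh
      apply hdX
      have := K56.nonunits_neg_mem A hh
      rwa [neg_neg] at this
    obtain ⟨x₀, hx₀, hx₀0, hx₀m, hσx₀⟩ := h34i_hensel_fixed (S := S) A q hqA hqσ x hx h0 h1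
    refine key x₀ y₀ hx₀ hy₀ ?_ hσx₀ hσy₀ ?_ hym
    · rw [Affine.equation_iff]
      rw [hev, hb, hc] at hx₀0
      linear_combination -hx₀0
    · have := K56.nonunits_neg_mem A hx₀m
      rwa [neg_sub] at this
  · -- the `Y`-partial is a unit: lift `x`, solve the quadratic in `Y`
    obtain ⟨x₀, hx₀, hσx₀, hxm⟩ := hres x hx
    set b : K := (W'⁄K).a₁ * x₀ + (W'⁄K).a₃ with hb
    set c : K := -(x₀ ^ 3 + (W'⁄K).a₂ * x₀ ^ 2 + (W'⁄K).a₄ * x₀ + (W'⁄K).a₆) with hc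
    have hbA : b ∈ A := add_mem (mul_mem ha₁ hx₀) ha₃
    have hcA : c ∈ A := neg_mem (add_mem (add_mem (add_mem (pow_mem hx₀ 3)
      (mul_mem ha₂ (pow_mem hx₀ 2))) (mul_mem ha₄ hx₀)) ha₆)
    set q : K[X] := X ^ 2 + C b * X + C c with hq
    have hqA : q ∈ lifts (algebraMap A K) :=
      add_mem (add_mem (X_pow_mem_lifts _ 2)
        (mul_mem (h34i_C_mem_lifts A hbA) (X_mem_lifts _))) (h34i_C_mem_lifts A hcA)
    have hqσ : ∀ σ ∈ A.inertiaSubgroupIn S, q.map ((σ : K ≃ₐ[S] K) : K →+* K) = q := by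
      intro σ hσ
      have e1 : σ b = b := by
        rw [hb, map_add, map_mul, hf₁, hf₃, hσx₀ σ hσ]
      have e2 : σ c = c := by
        rw [hc, map_neg, map_add, map_add, map_add, map_mul, map_mul, map_pow, map_pow, hf₂,
          hf₄, hf₆, hσx₀ σ hσ]
      simp only [hq, Polynomial.map_add, Polynomial.map_mul, Polynomial.map_pow, map_X, map_C,
        RingHom.coe_coe, e1, e2]
    have hev : ∀ t : K, q.eval t = t ^ 2 + b * t + c := fun t => by
      simp only [hq, eval_add, eval_mul, eval_pow, eval_X, eval_C]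
    have hdev : ∀ t : K, q.derivative.eval t = 2 * t + b := fun t => by
      simp only [hq, derivative_add, derivative_mul, derivative_X_pow, derivative_C, derivative_X,
        eval_add, eval_mul, eval_pow, eval_X, eval_C, zero_mul, zero_add, mul_one, add_zero,
        Nat.cast_ofNat]
      norm_num
    have h0 : q.eval y ∈ A.nonunits := by
      have e : q.eval y = (x - x₀) * (x ^ 2 + x * x₀ + x₀ ^ 2 + (W'⁄K).a₂ * (x + x₀) +
          (W'⁄K).a₄ - (W'⁄K).a₁ * y) := by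
        rw [hev, hb, hc]
        linear_combination heq
      rw [e]
      exact K56.nonunits_mul_mem A hxm (sub_mem (add_mem (add_mem (add_mem (add_mem
        (pow_mem hx 2) (mul_mem hx hx₀)) (pow_mem hx₀ 2)) (mul_mem ha₂ (add_mem hx hx₀))) ha₄)
        (mul_mem ha₁ hy))
    have h1 : q.derivative.eval y ∉ A.nonunits := by
      have e : q.derivative.eval y = (2 * y + (W'⁄K).a₁ * x + (W'⁄K).a₃) +
          -((W'⁄K).a₁ * (x - x₀)) := by
        rw [hdev, hb]; ring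
      rw [e]
      exact H86.add_not_mem_nonunits A (add_mem (add_mem (mul_mem h2A hy) (mul_mem ha₁ hx)) ha₃)
        hdY (K56.nonunits_neg_mem A (K56.mem_mul_nonunits A ha₁ hxm))
    obtain ⟨y₀, hy₀, hy₀0, hy₀m, hσy₀⟩ := h34i_hensel_fixed (S := S) A q hqA hqσ y hy h0 h1
    refine key x₀ y₀ hx₀ hy₀ ?_ hσx₀ hσy₀ hxm ?_
    · rw [Affine.equation_iff]
      rw [hev, hb, hc] at hy₀0
      linear_combination hy₀0
    · have := K56.nonunits_neg_mem A hy₀m
      rwa [neg_sub] at this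


end Hensel

/-! ## The short nodal integral model -/

section Nodal

open Polynomial Fermat.Agent.S37

variable (W : WeierstrassCurve ℤ) (A : ValuationSubring Kbar) {p : ℕ}

theorem h34n_two_unit (hp : p.Prime) (hp2 : p ≠ 2) (hA : A.LiesOverPrime p) :
    IsUnitOf A (2 : Kbar) := by
  have hAp : ((p : ℕ) : Kbar) ∈ A.nonunits := hA
  exact two_isUnitOf hp hAp hp2

/-- **inert on the `p`-torsion** of a short nodal model. -/
theorem h34n_inertT (hp : p.Prime) (hp2 : p ≠ 2) (hA : A.LiesOverPrime p)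
    (hW : IsShortNodal A p (h8wQ W)) : H34nInertT W A (p : ℤ) := by
  intro σ hσ P hP
  exact Fermat.Agent.S13.h4_inertia_sub_inE1_of_isShortNodal (hp.odd_of_ne_two hp2)
    (h34n_two_unit A hp hp2 hA) hW hσ P (by rw [← natCast_zsmul]; exact hP)

/-- inertia-fixed representatives of the residues of `A`. -/
theorem h34n_res (hp : p.Prime) (hA : A.LiesOverPrime p) :
    ∀ a ∈ A, ∃ a' ∈ A, (∀ σ ∈ A.inertiaSubgroupIn ℚ, σ a' = a') ∧ a - a' ∈ A.nonunits :=
  fun _ ha => Fermat.Agent.LGC.h57_exists_inertia_fixed Fermat.Agent.LGC.h57_isAlgebraic_int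
    A hp hA ha

/-- a unit plus a non-unit has valuation one. -/
theorem h34n_val_one_of_sub {u u' : Kbar} (hu : A.valuation u = 1)
    (h : u - u' ∈ A.nonunits) : A.valuation u' = 1 := by
  have e : u' = u + -(u - u') := by ring
  rw [e, Valuation.map_add_eq_of_lt_left]
  · exact hu
  · rw [Valuation.map_neg, hu]
    exact A.mem_nonunits_iff.mp h

/-- **lift at the node**: a `p`-torsion point of a short nodal model which reduces to the node
is congruent modulo the kernel of reduction to an inertia-fixed point. -/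
theorem h34n_lift_node (hp : p.Prime) (hp2 : p ≠ 2) (hA : A.LiesOverPrime p) (hΔ : W.Δ ≠ 0)
    (hW : IsShortNodal A p (h8wQ W)) {x y : Kbar} (h : ((h8wQ W)⁄Kbar).Nonsingular x y)
    (hP : p • (Affine.Point.some x y h : h8wPt W) = 0) (hxm : x ∈ A.nonunits) :
    ∃ c₀ : h8wPt W, (∀ σ ∈ A.inertiaSubgroupIn ℚ, σ • c₀ = c₀) ∧
      InE1 A ((Affine.Point.some x y h : h8wPt W) - c₀) := by
  have hodd : Odd p := hp.odd_of_ne_two hp2
  have h2 : IsUnitOf A (2 : Kbar) := h34n_two_unit A hp hp2 hA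
  have h2v : A.valuation (2 : Kbar) = 1 := h2
  obtain ⟨π₀, u₀, h4, hπ, hπ0, hu⟩ := hW.a₄
  have e₁ : ((h8wQ W)⁄Kbar).a₁ = 0 := by
    have e : ((h8wQ W)⁄Kbar).a₁ = algebraMap ℚ Kbar (h8wQ W).a₁ := by
      simp [WeierstrassCurve.baseChange]
    rw [e, hW.a₁, map_zero]
  have e₂ : ((h8wQ W)⁄Kbar).a₂ = algebraMap ℚ Kbar (h8wQ W).a₂ := by
    simp [WeierstrassCurve.baseChange]
  have e₃ : ((h8wQ W)⁄Kbar).a₃ = 0 := by
    have e : ((h8wQ W)⁄Kbar).a₃ = algebraMap ℚ Kbar (h8wQ W).a₃ := by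
      simp [WeierstrassCurve.baseChange]
    rw [e, hW.a₃, map_zero]
  have e₄ : ((h8wQ W)⁄Kbar).a₄ = algebraMap ℚ Kbar (h8wQ W).a₄ := by
    simp [WeierstrassCurve.baseChange]
  have e₆ : ((h8wQ W)⁄Kbar).a₆ = 0 := by
    have e : ((h8wQ W)⁄Kbar).a₆ = algebraMap ℚ Kbar (h8wQ W).a₆ := by
      simp [WeierstrassCurve.baseChange]
    rw [e, hW.a₆, map_zero]
  have ha₂v : A.valuation ((h8wQ W)⁄Kbar).a₂ = 1 := by rw [e₂]; exact hW.a₂_unit
  have ha₂A : ((h8wQ W)⁄Kbar).a₂ ∈ A := (A.valuation_le_one_iff _).mp ha₂v.le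
  have hΔ0 : ((h8wQ W)⁄Kbar).Δ ≠ 0 := by
    have h1 : ((h8wQ W)⁄Kbar).Δ = algebraMap ℚ Kbar (h8wQ W).Δ := by
      simp [WeierstrassCurve.baseChange, WeierstrassCurve.map_Δ]
    rw [h1, Ne, map_eq_zero]
    exact h8w_Δ_ne_zero W hΔ
  have HIV : h4_IVcorStatement A := by
    intro W h3 h6 r₁ r₂ hr₁ hr₂ ha₁ ha₂ hr π u hπ hπ0 hu n hn h4 x y h hP hx
    exact H76.torsion_node_valuation A W h3 h6 r₁ r₂ hr₁ hr₂ ha₁ ha₂ hr π u hπ hπ0 hu n hn h4
      h hP hx
  have hIV := h4_nodeTorsionValuation_of_IVcor hodd h2 hW HIV π₀ u₀ h4 hπ hπ0 hu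
  obtain ⟨hx0, hwx, j, hj⟩ := hIV x y h hP hxm
  have hb₂ : A.valuation ((h8wQ W)⁄Kbar).b₂ = 1 := by
    have : ((h8wQ W)⁄Kbar).b₂ = 2 ^ 2 * ((h8wQ W)⁄Kbar).a₂ := by
      simp only [WeierstrassCurve.b₂, e₁]; ring
    rw [this, map_mul, map_pow, h2v, ha₂v, one_pow, one_mul]
  -- the rational scale
  have hπ0' : algebraMap ℚ Kbar π₀ ≠ 0 := by
    rw [Ne, map_eq_zero]; exact hπ0
  set c : Kbar := (algebraMap ℚ Kbar π₀) ^ j with hc
  have hc0 : c ≠ 0 := zpow_ne_zero j hπ0'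
  have hcv : A.valuation c = A.valuation x := by rw [hc, map_zpow₀, hj]
  have hcσ : ∀ σ : GQ, σ c = c := fun σ => by
    rw [hc, map_zpow₀, AlgEquiv.commutes]
  have hxv0 : A.valuation x ≠ 0 := (Valuation.ne_zero_iff _).mpr hx0
  set ε : Kbar := x / c with hε
  have hεv : A.valuation ε = 1 := by
    rw [hε, map_div₀, hcv]
    exact div_self hxv0
  have hεA : ε ∈ A := (A.valuation_le_one_iff ε).mp hεv.le
  obtain ⟨ε', hε'A, hε'σ, hεε'⟩ := h34n_res A hp hA ε hεA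
  have hε'v : A.valuation ε' = 1 := h34n_val_one_of_sub A hεv hεε'
  have hε'0 : ε' ≠ 0 := by
    intro h0
    rw [h0, map_zero] at hε'v
    exact zero_ne_one hε'v
  have hε0 : ε ≠ 0 := by
    intro h0
    rw [h0, map_zero] at hεv
    exact zero_ne_one hεv
  have hxc : x = c * ε := by
    rw [hε]; field_simp
  set x' : Kbar := c * ε' with hx'
  have hx'0 : x' ≠ 0 := mul_ne_zero hc0 hε'0
  have hx'v : A.valuation x' = A.valuation x := by
    rw [hx', map_mul, hε'v, mul_one, hcv]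
  have hx'm : x' ∈ A.nonunits := by
    rw [A.mem_nonunits_iff, hx'v]
    exact A.mem_nonunits_iff.mp hxm
  have hx'A : x' ∈ A := A.nonunits_le hx'm
  have hxA : x ∈ A := A.nonunits_le hxm
  have hσx' : ∀ σ ∈ A.inertiaSubgroupIn ℚ, σ x' = x' := fun σ hσ => by
    rw [hx', map_mul, hcσ σ, hε'σ σ hσ]
  have ht : (x' - x) / x ∈ A.nonunits := by
    have e : (x' - x) / x = -(ε - ε') / ε := by
      rw [hx', hxc]
      field_simp
      ring
    rw [e, A.mem_nonunits_iff, map_div₀, Valuation.map_neg, hεv, div_one]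
    exact A.mem_nonunits_iff.mp hεε'
  have hwx' : ((h8wQ W)⁄Kbar).a₄ / x' ∈ A.nonunits := by
    rw [A.mem_nonunits_iff, map_div₀, hx'v, ← map_div₀]
    exact A.mem_nonunits_iff.mp hwx
  have hwx'A : ((h8wQ W)⁄Kbar).a₄ / x' ∈ A := A.nonunits_le hwx'
  -- the slope `s = y / x`
  have heq := (Affine.equation_iff x y).1 h.1
  rw [e₁, e₃, e₆] at heq
  set s : Kbar := y / x with hs
  have hsq : s ^ 2 = ((h8wQ W)⁄Kbar).a₂ + x + ((h8wQ W)⁄Kbar).a₄ / x := by
    rw [hs]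
    field_simp
    linear_combination heq
  have hv := h4_valuation_two_s_add A ((h8wQ W).baseChange Kbar) e₃ e₆ hb₂ h.1 hx0 hxm hwx
  have hsv : A.valuation s = 1 := by
    have h1 : A.valuation (2 * s) = 1 := by
      have e : 2 * (y / x) + ((h8wQ W).baseChange Kbar).a₁ = 2 * s := by
        rw [hs]
        have : ((h8wQ W).baseChange Kbar).a₁ = 0 := e₁
        rw [this, add_zero]
      rw [← e]
      exact hv
    rwa [map_mul, h2v, one_mul] at h1
  have hsA : s ∈ A := (A.valuation_le_one_iff s).mp hsv.le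
  -- Hensel for `T² = a₂ + x' + a₄ / x'`
  set t₀ : Kbar := ((h8wQ W)⁄Kbar).a₂ + x' + ((h8wQ W)⁄Kbar).a₄ / x' with ht₀
  have ht₀A : t₀ ∈ A := add_mem (add_mem ha₂A hx'A) hwx'A
  have hfa₂ : ∀ σ : GQ, σ ((h8wQ W)⁄Kbar).a₂ = ((h8wQ W)⁄Kbar).a₂ := fun σ => by
    rw [e₂, AlgEquiv.commutes]
  have hfa₄ : ∀ σ : GQ, σ ((h8wQ W)⁄Kbar).a₄ = ((h8wQ W)⁄Kbar).a₄ := fun σ => by
    rw [e₄, AlgEquiv.commutes]
  have ht₀σ : ∀ σ ∈ A.inertiaSubgroupIn ℚ, σ t₀ = t₀ := fun σ hσ => by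
    rw [ht₀, map_add, map_add, map_div₀, hfa₂, hfa₄, hσx' σ hσ]
  set q : Kbar[X] := X ^ 2 + C (-t₀) with hq
  have hqA : q ∈ lifts (algebraMap A Kbar) :=
    add_mem (X_pow_mem_lifts _ 2) (h34i_C_mem_lifts A (neg_mem ht₀A))
  have hqσ : ∀ σ ∈ A.inertiaSubgroupIn ℚ, q.map ((σ : Kbar ≃ₐ[ℚ] Kbar) : Kbar →+* Kbar) = q := by
    intro σ hσ
    have e1 : σ (-t₀) = -t₀ := by rw [map_neg, ht₀σ σ hσ]
    simp only [hq, Polynomial.map_add, Polynomial.map_pow, map_X, map_C, RingHom.coe_coe, e1]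
  have hev : ∀ t : Kbar, q.eval t = t ^ 2 - t₀ := fun t => by
    simp only [hq, eval_add, eval_pow, eval_X, eval_C]
    ring
  have hdev : ∀ t : Kbar, q.derivative.eval t = 2 * t := fun t => by
    simp only [hq, derivative_add, derivative_X_pow, derivative_C, eval_mul, eval_pow,
      eval_X, eval_C, add_zero, Nat.cast_ofNat]
    norm_num
  have h0 : q.eval s ∈ A.nonunits := by
    have e : q.eval s = -(x * ((x' - x) / x)) + (((h8wQ W)⁄Kbar).a₄ / x') * ((x' - x) / x) := by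
      rw [hev, hsq, ht₀]
      field_simp
      ring
    rw [e]
    exact A.nonunits.add_mem (K56.nonunits_neg_mem A (K56.mem_mul_nonunits A hxA ht))
      (K56.mem_mul_nonunits A hwx'A ht)
  have h1 : q.derivative.eval s ∉ A.nonunits := by
    rw [hdev, A.mem_nonunits_iff, map_mul, h2v, hsv, one_mul]
    exact lt_irrefl _
  obtain ⟨s', hs'A, hs'0, hs'm, hσs'⟩ := h34i_hensel_fixed (S := ℚ) A q hqA hqσ s hsA h0 h1
  rw [hev, sub_eq_zero] at hs'0
  -- the lifted point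
  set y' : Kbar := x' * s' with hy'
  have he : ((h8wQ W)⁄Kbar).Equation x' y' := by
    rw [Affine.equation_iff, e₁, e₃, e₆, hy']
    have h5 : x' ^ 2 * s' ^ 2 = x' ^ 2 * t₀ := by rw [hs'0]
    rw [ht₀] at h5
    field_simp at h5
    linear_combination x' * h5
  have h₀ : ((h8wQ W)⁄Kbar).Nonsingular x' y' :=
    (((h8wQ W)⁄Kbar).equation_iff_nonsingular_of_Δ_ne_zero hΔ0).1 he
  have hσy' : ∀ σ ∈ A.inertiaSubgroupIn ℚ, σ y' = y' := fun σ hσ => by
    rw [hy', map_mul, hσx' σ hσ, hσs' σ hσ]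
  refine ⟨Affine.Point.some x' y' h₀, fun σ hσ =>
    h34i_smul_some_of_fixed (R := ℚ) (S := ℚ) (K := Kbar) (h8wQ W) σ h₀ (hσx' σ hσ)
      (hσy' σ hσ), ?_⟩
  have hss : y' / x' - y / x ∈ A.nonunits := by
    have e : y' / x' - y / x = s' - s := by
      rw [hy', hs]
      field_simp
    rw [e]
    exact hs'm
  rcases h4_refined_reduction_nodal A ((h8wQ W).baseChange Kbar) e₃ e₆ hb₂ h h₀ hx0 hx'0 hxm hwx
    ht hss with h6 | ⟨x₃, y₃, h₃, h6, h7⟩
  · left
    exact sub_eq_zero.2 h6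
  · right
    exact ⟨x₃, y₃, h₃, h6, h7⟩

/-- **lift on the `p`-torsion** of a short nodal model: every `p`-torsion point is congruent
modulo the kernel of reduction to an inertia-fixed point. -/
theorem h34n_liftT (hp : p.Prime) (hp2 : p ≠ 2) (hA : A.LiesOverPrime p) (hΔ : W.Δ ≠ 0)
    (hW : IsShortNodal A p (h8wQ W)) : H34nLiftT W A (p : ℤ) := by
  intro P hP
  have hP' : p • P = 0 := by rw [← natCast_zsmul]; exact hP
  rcases P with _ | ⟨x, y, h⟩
  · exact ⟨0, fun σ _ => h8w_smul_zero' W σ, by rw [sub_zero]; exact inE1_zero A⟩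
  by_cases hxA : x ∈ A
  swap
  · exact ⟨0, fun σ _ => h8w_smul_zero' W σ, by rw [sub_zero]; exact (inE1_some A h).2 hxA⟩
  by_cases hxm : x ∈ A.nonunits
  · exact h34n_lift_node W A hp hp2 hA hΔ hW h hP' hxm
  -- the `x`-coordinate is a unit: nonsingular reduction
  have h2v : A.valuation (2 : Kbar) = 1 := h34n_two_unit A hp hp2 hA
  obtain ⟨π₀, u₀, h4, hπ, hπ0, hu⟩ := hW.a₄
  have e₁ : ((h8wQ W)⁄Kbar).a₁ = 0 := by
    have e : ((h8wQ W)⁄Kbar).a₁ = algebraMap ℚ Kbar (h8wQ W).a₁ := by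
      simp [WeierstrassCurve.baseChange]
    rw [e, hW.a₁, map_zero]
  have e₂ : ((h8wQ W)⁄Kbar).a₂ = algebraMap ℚ Kbar (h8wQ W).a₂ := by
    simp [WeierstrassCurve.baseChange]
  have e₃ : ((h8wQ W)⁄Kbar).a₃ = 0 := by
    have e : ((h8wQ W)⁄Kbar).a₃ = algebraMap ℚ Kbar (h8wQ W).a₃ := by
      simp [WeierstrassCurve.baseChange]
    rw [e, hW.a₃, map_zero]
  have e₄ : ((h8wQ W)⁄Kbar).a₄ = algebraMap ℚ Kbar (h8wQ W).a₄ := by
    simp [WeierstrassCurve.baseChange]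
  have e₆ : ((h8wQ W)⁄Kbar).a₆ = 0 := by
    have e : ((h8wQ W)⁄Kbar).a₆ = algebraMap ℚ Kbar (h8wQ W).a₆ := by
      simp [WeierstrassCurve.baseChange]
    rw [e, hW.a₆, map_zero]
  have ha₂v : A.valuation ((h8wQ W)⁄Kbar).a₂ = 1 := by rw [e₂]; exact hW.a₂_unit
  have ha₄m : ((h8wQ W)⁄Kbar).a₄ ∈ A.nonunits := by
    rw [e₄, h4, map_mul, map_pow]
    exact mem_mul_nonunit A (hu.mem A) (nonunit_pow A hπ hp.ne_zero)
  have hΔ0 : ((h8wQ W)⁄Kbar).Δ ≠ 0 := by
    have h1 : ((h8wQ W)⁄Kbar).Δ = algebraMap ℚ Kbar (h8wQ W).Δ := by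
      simp [WeierstrassCurve.baseChange, WeierstrassCurve.map_Δ]
    rw [h1, Ne, map_eq_zero]
    exact h8w_Δ_ne_zero W hΔ
  have hxu : A.valuation x = 1 := H86.valuation_eq_one_of_mem_of_not_mem_nonunits A hxA hxm
  have hy : y ∈ A := H86.y_mem_of_x_mem (h8w_a₁_mem W A) (h8w_a₂_mem W A) (h8w_a₃_mem W A)
    (h8w_a₄_mem W A) (h8w_a₆_mem W A) h.1 hxA
  exact h34n_unram_lift_pt (R := ℚ) (S := ℚ) (K := Kbar) (h8wQ W).toAffine A (h8w_a₁_mem W A)
    (h8w_a₂_mem W A) (h8w_a₃_mem W A) (h8w_a₄_mem W A) (h8w_a₆_mem W A) hΔ0 (h34n_res A hp hA)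
    h hxA (h4_partials_of_unit_x A ((h8wQ W).baseChange Kbar) e₁ e₃ e₆ ha₂v ha₄m h2v h.1 hxu hy)

/-- **L-MULT for a short nodal integral model**: if the model `W` over `ℤ` (`W.Δ ≠ 0`) is short
nodal at ONE place `A` over the odd prime `p`, then the body of the frozen `H99wLocal` holds for
`W` and `p` (at every place over `p`): `W[p]` is peu ramifié at `p`. -/
theorem h34n_localAt_nodal (hp : p.Prime) (hp2 : p ≠ 2) (hA : A.LiesOverPrime p) (hΔ : W.Δ ≠ 0)
    (hW : IsShortNodal A p (h8wQ W)) : H34nLocalAt W p :=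
  h34n_localAt_of_tors W hΔ hp hp2 A hA (h34n_inertT W A hp hp2 hA hW)
    (h34n_liftT W A hp hp2 hA hΔ hW)

open Fermat.Agent.PT.Loc Fermat.Agent.S56F Fermat.Agent.PT.Bridge Fermat.Agent.P5 in
/-- `W[p]` is flat at `p` for a short nodal integral model. -/
theorem h34n_flat_nodal (hp : p.Prime) (hp2 : p ≠ 2) (hA : A.LiesOverPrime p) (hΔ : W.Δ ≠ 0)
    (hW : IsShortNodal A p (h8wQ W)) :
    haveI : Fact p.Prime := ⟨hp⟩
    h97c_Flat p (H47wX W p) (h47wAct W p) := by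
  haveI : Fact p.Prime := ⟨hp⟩
  exact h34n_flat_of W hΔ p A hA p hp.ne_zero (h34n_inertT W A hp hp2 hA hW)
    (h34n_liftT W A hp hp2 hA hΔ hW)

open Fermat.Agent.PT.Loc Fermat.Agent.S56F Fermat.Agent.PT.Bridge in
/-- `LocFlat` for the local mod-`p` representation of a short nodal integral model. -/
theorem h34n_locFlat_rho_nodal (hp : p.Prime) (hp2 : p ≠ 2) (hA : A.LiesOverPrime p)
    (hΔ : W.Δ ≠ 0) (hW : IsShortNodal A p (h8wQ W)) :
    haveI : Fact p.Prime := ⟨hp⟩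
    LocFlat p (H47wX W p) (fun σ v => h47wRho W p σ v) := by
  haveI : Fact p.Prime := ⟨hp⟩
  exact h34n_locFlat_rho_of W hΔ p A hA (h34n_inertT W A hp hp2 hA hW)
    (h34n_liftT W A hp hp2 hA hΔ hW)

end Nodal

end Fermat.Agent.P7
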