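import Fermat.Agent.P7.H8LocWInst
import Fermat.Agent.P7.H34LocFlat
import Fermat.Agent.P7.H47LocTop

/-!
# Wave 7 (S44 route), block (L'), leaf FLAT-ABS (helper36, prefix `h36c`)

Flatness of `W[n]` at `p` WITHOUT good reduction, from the *torsion lift property*.

`W : WeierstrassCurve ℤ`, `A` a valuation subring of `ℚ̄` over `p`, `E¹` the kernel of reduction
of the model `W` at `A`.

* `h36cUnr W A` : the points of `W(ℚ̄)` all of whose `G_ℚ`-conjugates are fixed by the inertia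
  group at `A` (a `G_ℚ`-stable subgroup);
* `H36cLiftT W A n` : every point killed by `n` is congruent modulo `E¹` to a point of
  `h36cUnr W A`  (for good reduction this is Hensel; for the nodal Frey model at `p` it is proved
  in `P7/H36FreyLift.lean`);
* `h36c_ker` : the inputs `H8wKer` of helper8's abstract order step for the `G_ℚ`-module
  `𝔾 = W[n] + h36cUnr W A`;
* `h36c_flat_of_lift : H36cLiftT W A n → h97c_Flat p (H47wX W n) (h47wAct W n)`;
* `h36c_locFlat_rho_of_lift` : the input shape of `h4o_ordPeuRep`.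
-/

set_option autoImplicit false
set_option linter.style.haveILetI false
set_option linter.unusedSectionVars false

noncomputable section

namespace Fermat.Agent.P7

open WeierstrassCurve WeierstrassCurve.Affine Fermat.Agent.S05 Fermat.Agent.S37
  Fermat.Agent.P5
open scoped WeierstrassCurve.Affine

section Groups

variable (W : WeierstrassCurve ℤ) (A : ValuationSubring Kbar)

theorem h36c_gal_add (τ : GQ) (a b : h8wPt W) : τ • (a + b) = τ • a + τ • b :=
  smul_add τ a b

theorem h36c_gal_neg (τ : GQ) (a : h8wPt W) : τ • (-a) = -(τ • a) :=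
  smul_neg τ a

theorem h36c_gal_sub (τ : GQ) (a b : h8wPt W) : τ • (a - b) = τ • a - τ • b :=
  smul_sub τ a b

/-- the points all of whose Galois conjugates are fixed by the inertia group at `A`. -/
def h36cUnr : AddSubgroup (h8wPt W) where
  carrier := {c | ∀ τ : GQ, ∀ σ ∈ A.inertiaSubgroupIn ℚ, σ • τ • c = τ • c}
  zero_mem' := fun τ σ _ => by
    rw [smul_zero (A := h8wPt W) τ, smul_zero (A := h8wPt W) σ]
  add_mem' := fun {a b} ha hb τ σ hσ => by
    rw [h36c_gal_add W τ a b, h36c_gal_add W σ, ha τ σ hσ, hb τ σ hσ]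
  neg_mem' := fun {a} ha τ σ hσ => by
    rw [h36c_gal_neg W τ a, h36c_gal_neg W σ, ha τ σ hσ]

theorem h36c_mem_unr {c : h8wPt W} :
    c ∈ h36cUnr W A ↔ ∀ τ : GQ, ∀ σ ∈ A.inertiaSubgroupIn ℚ, σ • τ • c = τ • c := Iff.rfl

theorem h36c_unr_smul (τ : GQ) {c : h8wPt W} (hc : c ∈ h36cUnr W A) :
    τ • c ∈ h36cUnr W A := fun τ' σ hσ => by
  rw [← mul_smul τ' τ c]
  exact hc (τ' * τ) σ hσ

theorem h36c_unr_fixed {c : h8wPt W} (hc : c ∈ h36cUnr W A) {σ : GQ}
    (hσ : σ ∈ A.inertiaSubgroupIn ℚ) : σ • c = c := by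
  have h := hc 1 σ hσ
  rwa [one_smul] at h

/-- **The torsion lift property** at `A`. -/
def H36cLiftT (n : ℕ) : Prop :=
  ∀ t : h8wPt W, (n : ℤ) • t = 0 → ∃ c ∈ h36cUnr W A, InE1 A (t - c)

/-- the subgroup `W[n] + h36cUnr`. -/
def h36cH (n : ℕ) : AddSubgroup (h8wPt W) where
  carrier := {P | ∃ t c : h8wPt W, (n : ℤ) • t = 0 ∧ c ∈ h36cUnr W A ∧ P = t + c}
  zero_mem' := ⟨0, 0, zsmul_zero _, (h36cUnr W A).zero_mem, (add_zero 0).symm⟩
  add_mem' := by
    rintro _ _ ⟨t, c, ht, hc, rfl⟩ ⟨t', c', ht', hc', rfl⟩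
    refine ⟨t + t', c + c', ?_, (h36cUnr W A).add_mem hc hc', by abel⟩
    rw [zsmul_add, ht, ht', add_zero]
  neg_mem' := by
    rintro _ ⟨t, c, ht, hc, rfl⟩
    refine ⟨-t, -c, ?_, (h36cUnr W A).neg_mem hc, by abel⟩
    rw [zsmul_neg, ht, neg_zero]

theorem h36c_smul_zsmul (τ : GQ) (n : ℤ) (x : h8wPt W) : τ • (n • x) = n • (τ • x) :=
  map_zsmul (DistribSMul.toAddMonoidHom (h8wPt W) τ) n x

theorem h36c_H_smul (n : ℕ) (τ : GQ) {P : h8wPt W} (hP : P ∈ h36cH W A n) :
    τ • P ∈ h36cH W A n := by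
  obtain ⟨t, c, ht, hc, rfl⟩ := hP
  refine ⟨τ • t, τ • c, ?_, h36c_unr_smul W A τ hc, h36c_gal_add W τ t c⟩
  rw [← h36c_smul_zsmul, ht, smul_zero (A := h8wPt W) τ]

theorem h36c_tors_mem_H (n : ℕ) {t : h8wPt W} (ht : (n : ℤ) • t = 0) : t ∈ h36cH W A n :=
  ⟨t, 0, ht, (h36cUnr W A).zero_mem, (add_zero t).symm⟩

theorem h36c_unr_mem_H (n : ℕ) {c : h8wPt W} (hc : c ∈ h36cUnr W A) : c ∈ h36cH W A n :=
  ⟨0, c, zsmul_zero _, hc, (zero_add c).symm⟩

/-- the `G_ℚ`-module `𝔾 = W[n] + h36cUnr` (a type synonym, to carry its own action). -/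
def H36cG (n : ℕ) : Type := ↥(h36cH W A n)

instance h36cAddCommGroup (n : ℕ) : AddCommGroup (H36cG W A n) :=
  inferInstanceAs (AddCommGroup ↥(h36cH W A n))

/-- the underlying point. -/
def h36cVal (n : ℕ) : H36cG W A n →+ h8wPt W := (h36cH W A n).subtype

theorem h36cVal_injective (n : ℕ) : Function.Injective (h36cVal W A n) :=
  Subtype.val_injective

theorem h36cVal_mem (n : ℕ) (x : H36cG W A n) : h36cVal W A n x ∈ h36cH W A n := x.2

/-- the point of `𝔾` attached to a point of the subgroup. -/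
def h36cMk (n : ℕ) (P : h8wPt W) (hP : P ∈ h36cH W A n) : H36cG W A n := ⟨P, hP⟩

@[simp]
theorem h36cVal_mk (n : ℕ) (P : h8wPt W) (hP : P ∈ h36cH W A n) :
    h36cVal W A n (h36cMk W A n P hP) = P := rfl

instance h36cSMul (n : ℕ) : SMul GQ (H36cG W A n) :=
  ⟨fun τ x => h36cMk W A n (τ • h36cVal W A n x) (h36c_H_smul W A n τ x.2)⟩

@[simp]
theorem h36cVal_smul (n : ℕ) (τ : GQ) (x : H36cG W A n) :
    h36cVal W A n (τ • x) = τ • h36cVal W A n x := rfl

instance h36cDistribMulAction (n : ℕ) : DistribMulAction GQ (H36cG W A n) where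
  one_smul := fun x => h36cVal_injective W A n (by
    rw [h36cVal_smul, one_smul])
  mul_smul := fun σ τ x => h36cVal_injective W A n (by
    rw [h36cVal_smul, h36cVal_smul, h36cVal_smul, mul_smul])
  smul_zero := fun σ => h36cVal_injective W A n (by
    rw [h36cVal_smul, map_zero, smul_zero (A := h8wPt W) σ])
  smul_add := fun σ x y => h36cVal_injective W A n (by
    rw [h36cVal_smul, map_add, map_add, h36cVal_smul, h36cVal_smul, h36c_gal_add])

/-- the kernel of reduction inside `𝔾`. -/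
def h36cE (n : ℕ) : AddSubgroup (H36cG W A n) := (h8wE1 W A).comap (h36cVal W A n)

theorem h36c_mem_E (n : ℕ) {x : H36cG W A n} :
    x ∈ h36cE W A n ↔ InE1 A (h36cVal W A n x) := Iff.rfl

/-- the coordinate on `𝔾`. -/
def h36cZ (n : ℕ) : H36cG W A n → Kbar := fun x => h8wZ W A (h36cVal W A n x)

end Groups

section Add

variable (W : WeierstrassCurve ℤ) (A : ValuationSubring Kbar)

/-- pull-back of functions along a map, as an algebra homomorphism. -/
def h36cPull {S T : Type} (φ : S → T) : (T → Kbar) →ₐ[A] (S → Kbar) where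
  toFun := fun f => f ∘ φ
  map_one' := rfl
  map_mul' := fun _ _ => rfl
  map_zero' := rfl
  map_add' := fun _ _ => rfl
  commutes' := fun _ => rfl

@[simp]
theorem h36cPull_apply {S T : Type} (φ : S → T) (f : T → Kbar) (s : S) :
    h36cPull A φ f s = f (φ s) := rfl

/-- pull-back maps the algebra generated by `g` into the algebra generated by `g ∘ φ`. -/
theorem h36c_pull_adjoin {S T : Type} (φ : S → T) (g : T → Kbar) {f : T → Kbar}
    (hf : f ∈ Algebra.adjoin A {g}) :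
    h36cPull A φ f ∈ Algebra.adjoin A {g ∘ φ} := by
  have h1 : (Algebra.adjoin A {g}).map (h36cPull A φ) = Algebra.adjoin A {g ∘ φ} := by
    rw [AlgHom.map_adjoin, Set.image_singleton]
    rfl
  rw [← h1]
  exact ⟨f, hf, rfl⟩

/-- pull-back of the product algebra. -/
theorem h36c_pull_prod {S S' T T' : Type} (φ : S → T) (φ' : S' → T')
    (g : T → Kbar) (g' : T' → Kbar) {F : T × T' → Kbar}
    (hF : F ∈ h96c_prod A (Algebra.adjoin A {g}) (Algebra.adjoin A {g'})) :
    (fun p : S × S' => F (φ p.1, φ' p.2)) ∈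
      h96c_prod A (Algebra.adjoin A {g ∘ φ}) (Algebra.adjoin A {g' ∘ φ'}) := by
  have h0 : (fun p : S × S' => F (φ p.1, φ' p.2)) =
      h36cPull A (fun p : S × S' => (φ p.1, φ' p.2)) F := rfl
  rw [h0]
  have hle : (h96c_prod A (Algebra.adjoin A {g}) (Algebra.adjoin A {g'})).map
      (h36cPull A (fun p : S × S' => (φ p.1, φ' p.2))) ≤
      h96c_prod A (Algebra.adjoin A {g ∘ φ}) (Algebra.adjoin A {g' ∘ φ'}) := by
    unfold h96c_prod
    rw [AlgHom.map_adjoin]
    refine Algebra.adjoin_le ?_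
    rintro _ ⟨G, hG, rfl⟩
    rcases hG with ⟨f, hf, rfl⟩ | ⟨f, hf, rfl⟩
    · refine Algebra.subset_adjoin (Or.inl ⟨h36cPull A φ f, h36c_pull_adjoin A φ g hf, ?_⟩)
      rfl
    · refine Algebra.subset_adjoin (Or.inr ⟨h36cPull A φ' f, h36c_pull_adjoin A φ' g' hf, ?_⟩)
      rfl
  exact hle ⟨F, hF, rfl⟩

end Add

section Ker

variable (W : WeierstrassCurve ℤ) (A : ValuationSubring Kbar)

theorem h36c_inE1_sub {P Q : h8wPt W} (hP : InE1 A P) (hQ : InE1 A Q) : InE1 A (P - Q) :=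
  (h8wE1 W A).sub_mem hP hQ

/-- inertia acts trivially modulo `E¹` on `W[n]`, from the lift property. -/
theorem h36c_inert_tors (n : ℕ) (hL : H36cLiftT W A n) {σ : GQ}
    (hσ : σ ∈ A.inertiaSubgroupIn ℚ) {t : h8wPt W} (ht : (n : ℤ) • t = 0) :
    InE1 A (σ • t - t) := by
  obtain ⟨c, hc, hE⟩ := hL t ht
  have hσD : σ ∈ A.decompositionSubgroup ℚ := h8w_inert_le hσ
  have h1 : InE1 A (σ • (t - c)) := h8w_inE1_smul W A hσD hE
  have h2 : σ • t - t = σ • (t - c) - (t - c) := by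
    rw [h36c_gal_sub, h36c_unr_fixed W A hc hσ]
    abel
  rw [h2]
  exact h36c_inE1_sub W A h1 hE

/-- **the inputs of the abstract order step** for `𝔾 = W[n] + h36cUnr`. -/
theorem h36c_ker {p : ℕ} (hp : p.Prime) (hA : A.LiesOverPrime p) (n : ℕ)
    (hL : H36cLiftT W A n) :
    H8wKer A (h36cE W A n) (h36cZ W A n) where
  z_out := fun x hx => h8wZ_neg W A hx
  z_int := fun x => by
    unfold h36cZ
    by_cases hx : InE1 A (h36cVal W A n x)
    · rw [h8wZ_pos W A hx]
      exact K56.mem_of_mem_nonunits A (K56.zcoord_mem_nonunits A _ (h8w_a₁_mem W A)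
        (h8w_a₂_mem W A) (h8w_a₃_mem W A) (h8w_a₄_mem W A) (h8w_a₆_mem W A) hx)
    · rw [h8wZ_neg W A hx]
      exact zero_mem A
  z_inj := fun x hx y hy h => by
    have hx' : InE1 A (h36cVal W A n x) := hx
    have hy' : InE1 A (h36cVal W A n y) := hy
    unfold h36cZ at h
    rw [h8wZ_pos W A hx', h8wZ_pos W A hy'] at h
    exact h36cVal_injective W A n
      (h34i_zcoord_inj A _ (h8w_a₁_mem W A) (h8w_a₂_mem W A) (h8w_a₃_mem W A)
        (h8w_a₄_mem W A) (h8w_a₆_mem W A) hx' hy' h)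
  z_decomp := fun τ hτ x => h8wZ_smul W A hτ (h36cVal W A n x)
  E_decomp := fun τ hτ x hx => h8w_inE1_smul W A hτ hx
  inert := fun σ hσ x => by
    obtain ⟨t, c, ht, hc, hx⟩ := h36cVal_mem W A n x
    show InE1 A (h36cVal W A n (σ • x - x))
    rw [map_sub, h36cVal_smul, hx, h36c_gal_add, h36c_unr_fixed W A hc hσ]
    have h2 : σ • t + c - (t + c) = σ • t - t := by abel
    rw [h2]
    exact h36c_inert_tors W A n hL hσ ht
  lift := fun y => by
    obtain ⟨t, c, ht, hc, hy⟩ := h36cVal_mem W A n y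
    obtain ⟨c', hc', hE⟩ := hL t ht
    have hcc : c' + c ∈ h36cUnr W A := (h36cUnr W A).add_mem hc' hc
    refine ⟨h36cMk W A n (c' + c) (h36c_unr_mem_H W A n hcc), fun σ hσ => ?_, ?_⟩
    · exact h36cVal_injective W A n (by
        rw [h36cVal_smul, h36cVal_mk]
        exact h36c_unr_fixed W A hcc hσ)
    · show InE1 A (h36cVal W A n (y - h36cMk W A n (c' + c) (h36c_unr_mem_H W A n hcc)))
      rw [map_sub, h36cVal_mk, hy]
      have h2 : t + c - (c' + c) = t - c' := by abel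
      rw [h2]
      exact hE
  add := fun S S' hS hS' hSE hS'E => by
    -- the images in the group of points
    have hfin : (h36cVal W A n '' S).Finite := hS.image _
    have hfin' : (h36cVal W A n '' S').Finite := hS'.image _
    have hE : ∀ P ∈ h36cVal W A n '' S, InE1 A P := by
      rintro _ ⟨x, hx, rfl⟩
      exact hSE hx
    have hE' : ∀ P ∈ h36cVal W A n '' S', InE1 A P := by
      rintro _ ⟨x, hx, rfl⟩
      exact hS'E hx
    have h1 := h34m_addW W A hp hA (h36cVal W A n '' S) (h36cVal W A n '' S') hfin hfin' hE hE'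
    -- pull back along the two inclusions
    let φ : ↥S → ↥(h36cVal W A n '' S) := fun x => ⟨h36cVal W A n x, ⟨x, x.2, rfl⟩⟩
    let φ' : ↥S' → ↥(h36cVal W A n '' S') := fun x => ⟨h36cVal W A n x, ⟨x, x.2, rfl⟩⟩
    have h2 := h36c_pull_prod A φ φ' _ _ h1
    have e1 : h8wR A (h36cZ W A n) S =
        Algebra.adjoin A {(fun x : ↥(h36cVal W A n '' S) => K56.zcoord (x : h8wPt W)) ∘ φ} := by
      unfold h8wR
      congr 2
      funext x
      exact h8wZ_pos W A (hSE x.2)
    have e2 : h8wR A (h36cZ W A n) S' =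
        Algebra.adjoin A
          {(fun x : ↥(h36cVal W A n '' S') => K56.zcoord (x : h8wPt W)) ∘ φ'} := by
      unfold h8wR
      congr 2
      funext x
      exact h8wZ_pos W A (hS'E x.2)
    rw [e1, e2]
    have e3 : (fun p : ↥S × ↥S' => h36cZ W A n ((p.1 : H36cG W A n) + (p.2 : H36cG W A n))) =
        fun p : ↥S × ↥S' =>
          (fun q : ↥(h36cVal W A n '' S) × ↥(h36cVal W A n '' S') =>
            K56.zcoord ((q.1 : h8wPt W) + (q.2 : h8wPt W))) (φ p.1, φ' p.2) := by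
      funext p
      have hmem : InE1 A (h36cVal W A n ((p.1 : H36cG W A n) + (p.2 : H36cG W A n))) := by
        rw [map_add]
        exact (h8wE1 W A).add_mem (hSE p.1.2) (hS'E p.2.2)
      show h8wZ W A (h36cVal W A n ((p.1 : H36cG W A n) + (p.2 : H36cG W A n))) = _
      rw [h8wZ_pos W A hmem, map_add]
    rw [e3]
    exact h2

end Ker

section Flat

variable (W : WeierstrassCurve ℤ) (A : ValuationSubring Kbar)

/-- the `n`-torsion of `𝔾` maps to the `n`-torsion of `W`. -/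
def h36cTorsMap (n : ℕ) (x : h8wT (H36cG W A n) (n : ℤ)) : h8wT (h8wPt W) (n : ℤ) :=
  ⟨h36cVal W A n (x : H36cG W A n), by
    have hx : (n : ℤ) • (x : H36cG W A n) = 0 := (Submodule.mem_torsionBy_iff _ _).1 x.2
    refine (Submodule.mem_torsionBy_iff _ _).2 ?_
    rw [← map_zsmul, hx, map_zero]⟩

theorem h36cTorsMap_coe (n : ℕ) (x : h8wT (H36cG W A n) (n : ℤ)) :
    ((h36cTorsMap W A n x : h8wT (h8wPt W) (n : ℤ)) : h8wPt W) =
      h36cVal W A n (x : H36cG W A n) := rfl

theorem h36cTorsMap_injective (n : ℕ) : Function.Injective (h36cTorsMap W A n) := by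
  intro x y h
  have h1 := congrArg (fun z : h8wT (h8wPt W) (n : ℤ) => (z : h8wPt W)) h
  exact Subtype.ext (h36cVal_injective W A n h1)

theorem h36cTorsMap_surjective (n : ℕ) : Function.Surjective (h36cTorsMap W A n) := by
  intro y
  have hy : (n : ℤ) • (y : h8wPt W) = 0 := (Submodule.mem_torsionBy_iff _ _).1 y.2
  refine ⟨⟨h36cMk W A n (y : h8wPt W) (h36c_tors_mem_H W A n hy), ?_⟩, Subtype.ext rfl⟩
  refine (Submodule.mem_torsionBy_iff _ _).2 ?_
  apply h36cVal_injective W A n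
  rw [map_zsmul, h36cVal_mk, hy, map_zero]

theorem h36cTorsMap_add (n : ℕ) (x y : h8wT (H36cG W A n) (n : ℤ)) :
    h36cTorsMap W A n (x + y) = h36cTorsMap W A n x + h36cTorsMap W A n y :=
  Subtype.ext (map_add (h36cVal W A n) _ _)

theorem h36cTorsMap_act (n : ℕ) (σ : GQ) (x : h8wT (H36cG W A n) (n : ℤ)) :
    h36cTorsMap W A n (h8wAct (𝔾 := H36cG W A n) (n : ℤ) σ x) =
      h8wAct (𝔾 := h8wPt W) (n : ℤ) σ (h36cTorsMap W A n x) :=
  Subtype.ext rfl

theorem h36c_finite (hΔ : W.Δ ≠ 0) (n : ℕ) (hn : n ≠ 0) :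
    Finite (h8wT (H36cG W A n) (n : ℤ)) := by
  haveI := h8w_finite W hΔ n hn
  exact Finite.of_injective _ (h36cTorsMap_injective W A n)

theorem h36c_isGalAct (hΔ : W.Δ ≠ 0) (n : ℕ) (hn : n ≠ 0) :
    H98pIsGalAct (h8wAct (𝔾 := H36cG W A n) (n : ℤ)) where
  one := fun x => Subtype.ext (one_smul GQ (x : H36cG W A n))
  mul := fun σ τ x => Subtype.ext (mul_smul σ τ (x : H36cG W A n))
  add := fun σ x y => Subtype.ext (smul_add σ (x : H36cG W A n) (y : H36cG W A n))
  cont := by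
    obtain ⟨L, hL, hfix⟩ := (h8w_isGalAct W hΔ n hn).cont
    refine ⟨L, hL, fun σ hσ x => ?_⟩
    apply h36cTorsMap_injective W A n
    rw [h36cTorsMap_act]
    exact hfix σ hσ _

/-- **FLAT-ABS**: the torsion lift property at ONE valuation subring over `p` gives the flatness
of `W[n]` at `p` (no hypothesis on the reduction of `W`). -/
theorem h36c_flat_of_lift (hΔ : W.Δ ≠ 0) (p : ℕ) [hp : Fact p.Prime] (hA : A.LiesOverPrime p)
    (n : ℕ) (hn : n ≠ 0) (hL : H36cLiftT W A n) :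
    h97c_Flat p (H47wX W n) (h47wAct W n) := by
  haveI : Finite (h8wT (H36cG W A n) (n : ℤ)) := h36c_finite W A hΔ n hn
  haveI : Finite (H47wX W n) := h47w_finite W hΔ n hn
  have hK := h36c_ker W A hp.out hA n hL
  have hO := h8w_locOrder hK (n : ℤ)
  have hfl : h97c_Flat p (h8wT (H36cG W A n) (n : ℤ)) (h8wAct (𝔾 := H36cG W A n) (n : ℤ)) :=
    h87x_adapter p _ _ (h98f_descent p _ _ (h36c_isGalAct W A hΔ n hn) A hA _ hO)
  -- transport along the equivariant bijection `𝔾[n] ≃ W[n]`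
  let X : AddSubgroup (Fin 1 → h8wT (H36cG W A n) (n : ℤ)) := ⊤
  let φ : X →+ H47wX W n :=
    { toFun := fun x => h36cTorsMap W A n ((x : Fin 1 → h8wT (H36cG W A n) (n : ℤ)) 0)
      map_zero' := Subtype.ext rfl
      map_add' := fun x y => h36cTorsMap_add W A n _ _ }
  refine h97c_subquot p (h8wT (H36cG W A n) (n : ℤ)) (H47wX W n)
    (h8wAct (𝔾 := H36cG W A n) (n : ℤ)) (h47wAct W n) (h36c_isGalAct W A hΔ n hn)
    (h47w_isGalAct W hΔ n hn) hfl 1 X φ (fun _ _ _ => trivial) ?_ ?_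
  · intro σ x y hxy
    show h36cTorsMap W A n ((y : Fin 1 → h8wT (H36cG W A n) (n : ℤ)) 0) = _
    rw [hxy 0]
    exact h36cTorsMap_act W A n σ _
  · intro y
    obtain ⟨x, hx⟩ := h36cTorsMap_surjective W A n y
    exact ⟨⟨fun _ => x, trivial⟩, hx⟩

/-- the input shape of `h4o_ordPeuRep`, from the torsion lift property. -/
theorem h36c_locFlat_rho_of_lift (hΔ : W.Δ ≠ 0) (p : ℕ) [hp : Fact p.Prime]
    (hA : A.LiesOverPrime p) (hL : H36cLiftT W A p) :
    Fermat.Agent.S56F.LocFlat p (H47wX W p) (fun σ v => h47wRho W p σ v) := by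
  haveI : Finite (H47wX W p) := h47w_finite W hΔ p hp.out.ne_zero
  exact h47w_locFlat_of_flat p (H47wX W p) (h47wAct W p) (h47w_isAct W p)
    (h36c_flat_of_lift W A hΔ p hA p hp.out.ne_zero hL)

end Flat

end Fermat.Agent.P7
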