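import Fermat.Agent.P5.H68RRFin

/-!
# Wave 7 (S44), block (A) route DLOG, leaf DL4 GAP, abstract half (helper37, prefix `h37g_`)

Setting: `F / K` a function field in the Prelude vocabulary with an embedding
`ι : F → K((q))` whose `q`-order is the order at a place `Q` (the cusp `∞` of the special fibre).
`LL = ⋃ₙ L(n Q)` = the functions regular off `Q`.

* `h37g_coeff_mul` : if `w.coeff i = 0` for `i < n` and `f` has order `-n`, then
  `(f * w).coeff 0 = f.coeff (-n) * w.coeff n`.
* `h37g_eq_zero` : a series `w ∈ q K[[q]]` orthogonal (`a₀(f w) = 0`) to a set `LL` of Laurent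
  series vanishes as soon as its coefficients at the gaps of `LL` vanish.
* `h37g_finrank_le` : hence the orthogonal of `LL` in `q K[[q]]` has dimension at most the number
  of gaps.
* `h37g_gaps` : weak Riemann–Roch (`H13rIsGenus K F g`) ⟹ at most `g` gaps at any place `Q`
  (Weierstrass gap count).
* `h37g_gap_dim` : **DL4, abstract form**: `dim Ω ≤ g`.
* `h37g_exists_place` : a Laurent embedding over any coefficient field induces a place
  (generalisation of `S24.exists_place_of_emb` from `ℂ` to any field), with `m = 1` when some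
  element has order `1`.

Mathlib + Prelude + the landed RR-FIN leaf only.
-/

set_option autoImplicit false

open AlgebraicCurve

noncomputable section

namespace Fermat.Agent.P7

open Fermat.Agent.P5

/-! ## Part 1: the abstract gap lemma -/

section abstract

variable {k : Type*} [Field k]

/-- if `w.coeff i = 0` for `i < n` and `f` has order `-n`, the constant coefficient of `f * w` is
the product of the leading coefficient of `f` and of `w.coeff n`. -/
theorem h37g_coeff_mul (f w : LaurentSeries k) (n : ℤ) (hford : f.order = -n)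
    (hw : ∀ i : ℤ, i < n → w.coeff i = 0) :
    (f * w).coeff 0 = f.coeff (-n) * w.coeff n := by
  rw [HahnSeries.coeff_mul]
  have hsupp : ∀ ij ∈ Finset.antidiagonal f.isPWO_support w.isPWO_support (0 : ℤ),
      ij = (-n, n) := by
    intro ij hij
    rw [Finset.mem_antidiagonal] at hij
    obtain ⟨h1, h2, h3⟩ := hij
    have h4 : f.order ≤ ij.1 := HahnSeries.order_le_of_coeff_ne_zero h1
    have h5 : n ≤ ij.2 := by
      by_contra hlt
      exact h2 (hw _ (not_le.mp hlt))
    rw [hford] at h4
    have e1 : ij.1 = -n := by omega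
    have e2 : ij.2 = n := by omega
    exact Prod.ext e1 e2
  by_cases hmem : ((-n, n) : ℤ × ℤ) ∈
      Finset.antidiagonal f.isPWO_support w.isPWO_support (0 : ℤ)
  · rw [Finset.sum_eq_single_of_mem _ hmem]
    intro b hb hne
    exact absurd (hsupp b hb) hne
  · have hempty : Finset.antidiagonal f.isPWO_support w.isPWO_support (0 : ℤ) = ∅ := by
      apply Finset.eq_empty_of_forall_notMem
      intro ij hij
      exact hmem (hsupp ij hij ▸ hij)
    rw [hempty, Finset.sum_empty]
    rw [Finset.mem_antidiagonal] at hmem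
    by_contra hne
    have hne' : f.coeff (-n) * w.coeff n ≠ 0 := fun h => hne h.symm
    apply hmem
    refine ⟨?_, ?_, by simp⟩
    · exact fun h => hne' (by rw [show f.coeff (-n) = 0 from h, zero_mul])
    · exact fun h => hne' (by rw [show w.coeff n = 0 from h, mul_zero])

/-- **GAP, injectivity.**  `w ∈ q k[[q]]`, orthogonal to `LL`, with vanishing coefficients at the
gaps of `LL`, is zero. -/
theorem h37g_eq_zero (LL : Set (LaurentSeries k)) (w : LaurentSeries k)
    (hw0 : ∀ i : ℤ, i ≤ 0 → w.coeff i = 0)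
    (horth : ∀ f ∈ LL, (f * w).coeff 0 = 0)
    (hgap : ∀ n : ℕ, 0 < n → (∃ f ∈ LL, f ≠ 0 ∧ f.order = -(n : ℤ)) ∨ w.coeff (n : ℤ) = 0) :
    w = 0 := by
  have key : ∀ n : ℕ, ∀ i : ℤ, i ≤ (n : ℤ) → w.coeff i = 0 := by
    intro n
    induction n with
    | zero =>
      intro i hi
      exact hw0 i (by simpa using hi)
    | succ n ih =>
      intro i hi
      rcases lt_or_eq_of_le hi with h | h
      · exact ih i (by push_cast at h; omega)
      · subst h
        rcases hgap (n + 1) (Nat.succ_pos n) with ⟨f, hfLL, hf0, hford⟩ | h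
        · have h1 := h37g_coeff_mul f w ((n + 1 : ℕ) : ℤ) hford
            (fun i hi => ih i (by push_cast at hi; omega))
          rw [horth f hfLL] at h1
          have h2 : f.coeff (-((n + 1 : ℕ) : ℤ)) ≠ 0 := by
            rw [← hford]
            exact fun h => hf0 (HahnSeries.coeff_order_eq_zero.mp h)
          rcases mul_eq_zero.mp h1.symm with h3 | h3
          · exact absurd h3 h2
          · exact h3
        · exact h
  ext i
  rw [HahnSeries.coeff_zero]
  exact key i.toNat i (Int.self_le_toNat i)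

/-- **GAP, dimension.**  The orthogonal of `LL` in `q k[[q]]` has dimension at most the number of
gaps of `LL`. -/
theorem h37g_finrank_le (LL : Set (LaurentSeries k)) (S : Finset ℕ)
    (hS : ∀ n : ℕ, 0 < n → n ∉ S → ∃ f ∈ LL, f ≠ 0 ∧ f.order = -(n : ℤ))
    (Ω : Submodule k (LaurentSeries k))
    (hΩ : ∀ w ∈ Ω, (∀ i : ℤ, i ≤ 0 → w.coeff i = 0) ∧ ∀ f ∈ LL, (f * w).coeff 0 = 0) :
    Module.Finite k Ω ∧ Module.finrank k Ω ≤ S.card := by
  classical
  let φ : Ω →ₗ[k] (S → k) :=
    { toFun := fun w n => (w : LaurentSeries k).coeff ((n : ℕ) : ℤ)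
      map_add' := fun a b => by
        funext n
        simp
      map_smul' := fun c a => by
        funext n
        simp }
  have hinj : Function.Injective φ := by
    rw [← LinearMap.ker_eq_bot, LinearMap.ker_eq_bot']
    intro w hw
    apply Subtype.ext
    show (w : LaurentSeries k) = 0
    obtain ⟨h0, horth⟩ := hΩ w w.2
    refine h37g_eq_zero LL w h0 horth ?_
    intro n hn
    by_cases hnS : n ∈ S
    · right
      exact congrFun hw ⟨n, hnS⟩
    · left
      exact hS n hn hnS
  have hfin : Module.Finite k Ω := Module.Finite.of_injective φ hinj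
  refine ⟨hfin, ?_⟩
  have h1 := LinearMap.finrank_le_finrank_of_injective hinj
  rw [Module.finrank_fintype_fun_eq_card, Fintype.card_coe] at h1
  exact h1

end abstract

/-! ## Part 2: the Weierstrass gap count from weak Riemann–Roch -/

section gaps

variable {K F : Type*} [Field K] [Field F] [Algebra K F]

/-- `n` is the pole order at `Q` of a function regular off `Q`. -/
def h37gNonGap (Q : Place K F) (n : ℕ) : Prop :=
  ∃ f ∈ riemannRochSpace (Finsupp.single Q (n : ℤ)), f ≠ 0 ∧ Q.ord f = -(n : ℤ)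

/-- at a gap `n + 1`, `L((n + 1) Q) = L(n Q)`. -/
theorem h37g_le_of_gap (Q : Place K F) (n : ℕ) (h : ¬ h37gNonGap Q (n + 1)) :
    riemannRochSpace (Finsupp.single Q ((n + 1 : ℕ) : ℤ)) ≤
      riemannRochSpace (Finsupp.single Q (n : ℤ)) := by
  intro f hf
  rw [mem_riemannRochSpace_iff]
  intro v
  rcases eq_or_ne f 0 with hf0 | hf0
  · exact Or.inl hf0
  right
  have h1 := (mem_riemannRochSpace_iff.mp hf) v
  rcases h1 with h1 | h1
  · exact absurd h1 hf0
  by_cases hv : v = Q
  · subst hv
    rw [Finsupp.single_eq_same] at h1 ⊢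
    have h2 : v.ord f ≠ -((n + 1 : ℕ) : ℤ) := fun h2 => h ⟨f, hf, hf0, h2⟩
    push_cast at h1 h2
    omega
  · have e1 : (Finsupp.single Q ((n + 1 : ℕ) : ℤ)) v = 0 :=
      Finsupp.single_eq_of_ne (fun h => hv h)
    have e2 : (Finsupp.single Q (n : ℤ)) v = 0 := Finsupp.single_eq_of_ne (fun h => hv h)
    rw [e1] at h1
    rw [e2]
    exact h1

open Classical in
/-- the gaps up to `N`. -/
def h37gGaps (Q : Place K F) (N : ℕ) : Finset ℕ :=
  (Finset.range (N + 1)).filter (fun n => 0 < n ∧ ¬ h37gNonGap Q n)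

theorem h37g_mem_gaps (Q : Place K F) (N n : ℕ) :
    n ∈ h37gGaps Q N ↔ n ≤ N ∧ 0 < n ∧ ¬ h37gNonGap Q n := by
  classical
  unfold h37gGaps
  rw [Finset.mem_filter, Finset.mem_range]
  constructor
  · rintro ⟨h1, h2⟩
    exact ⟨by omega, h2⟩
  · rintro ⟨h1, h2⟩
    exact ⟨by omega, h2⟩

/-- `ℓ(N Q) + #gaps ≤ N + 1`. -/
theorem h37g_count (hB : H13rBase K F) (Q : Place K F) (N : ℕ) :
    (h13rL K F (Finsupp.single Q (N : ℤ)) : ℤ) + (h37gGaps Q N).card ≤ N + 1 := by
  classical
  obtain ⟨hfin, hstep, -, hzero⟩ := h68r_fin K F hB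
  induction N with
  | zero =>
    have e1 : h37gGaps Q 0 = ∅ := by
      apply Finset.eq_empty_of_forall_notMem
      intro n hn
      rw [h37g_mem_gaps] at hn
      omega
    have e2 : (Finsupp.single Q ((0 : ℕ) : ℤ) : Divisor K F) = 0 := by simp
    rw [e1, e2, hzero]
    simp
  | succ N ih =>
    by_cases hN : h37gNonGap Q (N + 1)
    · -- non-gap: the gaps are the same, `ℓ` grows by at most one
      have e1 : h37gGaps Q (N + 1) = h37gGaps Q N := by
        ext n
        rw [h37g_mem_gaps, h37g_mem_gaps]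
        constructor
        · rintro ⟨h1, h2, h3⟩
          refine ⟨?_, h2, h3⟩
          rcases Nat.lt_or_ge N n with h | h
          · have : n = N + 1 := by omega
            exact absurd (this ▸ hN) h3
          · exact h
        · rintro ⟨h1, h2, h3⟩
          exact ⟨by omega, h2, h3⟩
      have e2 : (Finsupp.single Q ((N + 1 : ℕ) : ℤ) : Divisor K F)
          = Finsupp.single Q (N : ℤ) + Finsupp.single Q 1 := by
        rw [← Finsupp.single_add]
        push_cast
        rfl
      have h1 := hstep (Finsupp.single Q (N : ℤ)) Q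
      rw [e1, e2]
      have h2 : (h13rL K F (Finsupp.single Q (N : ℤ) + Finsupp.single Q 1) : ℤ)
          ≤ (h13rL K F (Finsupp.single Q (N : ℤ)) : ℤ) + 1 := by exact_mod_cast h1
      push_cast
      linarith
    · -- gap: `ℓ` does not grow, one more gap
      have e1 : h37gGaps Q (N + 1) = insert (N + 1) (h37gGaps Q N) := by
        ext n
        rw [Finset.mem_insert, h37g_mem_gaps, h37g_mem_gaps]
        constructor
        · rintro ⟨h1, h2, h3⟩
          rcases Nat.lt_or_ge N n with h | h
          · left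
            omega
          · right
            exact ⟨h, h2, h3⟩
        · rintro (h | ⟨h1, h2, h3⟩)
          · subst h
            exact ⟨le_refl _, Nat.succ_pos N, hN⟩
          · exact ⟨by omega, h2, h3⟩
      have e3 : N + 1 ∉ h37gGaps Q N := by
        rw [h37g_mem_gaps]
        omega
      rw [e1, Finset.card_insert_of_notMem e3]
      have hle := h37g_le_of_gap Q N hN
      haveI := hfin (Finsupp.single Q (N : ℤ))
      have h1 : h13rL K F (Finsupp.single Q ((N + 1 : ℕ) : ℤ))
          ≤ h13rL K F (Finsupp.single Q (N : ℤ)) := Submodule.finrank_mono hle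
      have h2 : (h13rL K F (Finsupp.single Q ((N + 1 : ℕ) : ℤ)) : ℤ)
          ≤ (h13rL K F (Finsupp.single Q (N : ℤ)) : ℤ) := by exact_mod_cast h1
      push_cast at h2 ⊢
      linarith

/-- **Weierstrass gap count.**  With a weak genus `g` there are at most `g` gaps at `Q`. -/
theorem h37g_gaps (hB : H13rBase K F) (g : ℕ) (hg : H13rIsGenus K F g) (Q : Place K F) :
    ∃ S : Finset ℕ, S.card ≤ g ∧ ∀ n : ℕ, 0 < n → n ∉ S → h37gNonGap Q n := by
  classical
  -- every finite set of gaps has at most `g` elements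
  have hbound : ∀ T : Finset ℕ, (∀ n ∈ T, 0 < n ∧ ¬ h37gNonGap Q n) → T.card ≤ g := by
    intro T hT
    obtain ⟨N, hN⟩ : ∃ N : ℕ, ∀ n ∈ T, n ≤ N := ⟨T.sup id, fun n hn => Finset.le_sup (f := id) hn⟩
    have hsub : T ⊆ h37gGaps Q N := by
      intro n hn
      rw [h37g_mem_gaps]
      exact ⟨hN n hn, hT n hn⟩
    have h1 := Finset.card_le_card hsub
    have h2 := h37g_count hB Q N
    have h3 := hg.1 (Finsupp.single Q (N : ℤ))
    rw [Divisor.degree_single, hB.deg_one Q] at h3
    have h4 : ((h37gGaps Q N).card : ℤ) ≤ g := by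
      push_cast at h3
      linarith
    have h5 : (h37gGaps Q N).card ≤ g := by exact_mod_cast h4
    omega
  let G : Set ℕ := {n | 0 < n ∧ ¬ h37gNonGap Q n}
  by_cases hfin : G.Finite
  · refine ⟨hfin.toFinset, hbound _ (fun n hn => (Set.Finite.mem_toFinset hfin).mp hn), ?_⟩
    intro n hn hnS
    by_contra hgap
    exact hnS ((Set.Finite.mem_toFinset hfin).mpr ⟨hn, hgap⟩)
  · exfalso
    obtain ⟨T, hTG, hTcard⟩ := (Set.not_finite.mp hfin).exists_subset_card_eq (g + 1)
    have := hbound T (fun n hn => hTG hn)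
    omega

end gaps

/-! ## Part 0: a Laurent embedding induces a place (any coefficient field) -/

section placeHelpers

variable {k : Type*} [Field k] {F : Type*} [Field F] (ι : F →+* LaurentSeries k)

theorem h37g_pe_map_ne_zero {f : F} (hf : f ≠ 0) : ι f ≠ 0 :=
  (map_ne_zero ι).mpr hf

theorem h37g_pe_order_map_mul {f g : F} (hf : f ≠ 0) (hg : g ≠ 0) :
    (ι (f * g)).order = (ι f).order + (ι g).order := by
  rw [map_mul]
  exact HahnSeries.order_mul (h37g_pe_map_ne_zero ι hf) (h37g_pe_map_ne_zero ι hg)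

theorem h37g_pe_order_map_inv (f : F) : (ι f⁻¹).order = -(ι f).order := by
  rcases eq_or_ne f 0 with rfl | hf
  · simp
  · have h := h37g_pe_order_map_mul ι hf (inv_ne_zero hf)
    rw [mul_inv_cancel₀ hf, map_one, HahnSeries.order_one] at h
    linarith

theorem h37g_pe_order_map_add {f g : F} (hf : 0 ≤ (ι f).order) (hg : 0 ≤ (ι g).order) :
    0 ≤ (ι (f + g)).order := by
  rcases eq_or_ne (f + g) 0 with h0 | h0
  · rw [h0, map_zero, HahnSeries.order_zero]
  · have hne : ι f + ι g ≠ 0 := by
      rw [← map_add]; exact h37g_pe_map_ne_zero ι h0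
    have h := HahnSeries.min_order_le_order_add hne
    rw [map_add]
    exact le_trans (le_min hf hg) h

theorem h37g_pe_order_map_mul_nonneg {f g : F} (hf : 0 ≤ (ι f).order) (hg : 0 ≤ (ι g).order) :
    0 ≤ (ι (f * g)).order := by
  rcases eq_or_ne f 0 with rfl | hf0
  · simp
  rcases eq_or_ne g 0 with rfl | hg0
  · simp
  rw [h37g_pe_order_map_mul ι hf0 hg0]
  exact add_nonneg hf hg

theorem h37g_pe_order_map_zpow (f : F) (k : ℤ) : (ι (f ^ k)).order = k * (ι f).order := by
  rcases eq_or_ne f 0 with rfl | hf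
  · rcases eq_or_ne k 0 with rfl | hk
    · simp
    · rw [zero_zpow k hk]; simp
  induction k using Int.induction_on with
  | zero => simp
  | succ n ih =>
    rw [zpow_add_one₀ hf, h37g_pe_order_map_mul ι (zpow_ne_zero _ hf) hf, ih]
    ring
  | pred n ih =>
    rw [zpow_sub_one₀ hf, h37g_pe_order_map_mul ι (zpow_ne_zero _ hf) (inv_ne_zero hf), ih,
      h37g_pe_order_map_inv]
    ring

/-- The valuation subring `{f | 0 ≤ ord (ι f)}`. -/
def h37g_pe_valSubring : ValuationSubring F where
  carrier := {f | 0 ≤ (ι f).order}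
  mul_mem' := fun {a b} ha hb => h37g_pe_order_map_mul_nonneg ι ha hb
  one_mem' := by
    show 0 ≤ (ι 1).order
    rw [map_one, HahnSeries.order_one]
  add_mem' := fun {a b} ha hb => h37g_pe_order_map_add ι ha hb
  zero_mem' := by
    show 0 ≤ (ι 0).order
    rw [map_zero, HahnSeries.order_zero]
  neg_mem' := fun {a} ha => by
    show 0 ≤ (ι (-a)).order
    rw [map_neg, HahnSeries.order_neg]
    exact ha
  mem_or_inv_mem' := fun x => by
    show 0 ≤ (ι x).order ∨ 0 ≤ (ι x⁻¹).order
    rw [h37g_pe_order_map_inv]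
    rcases le_total 0 (ι x).order with h | h
    · exact Or.inl h
    · exact Or.inr (by linarith)

theorem h37g_pe_mem_valSubring {f : F} : f ∈ h37g_pe_valSubring ι ↔ 0 ≤ (ι f).order :=
  Iff.rfl

theorem h37g_pe_isPrincipalIdealRing : IsPrincipalIdealRing (h37g_pe_valSubring ι) := by
  refine ⟨fun I => ?_⟩
  by_cases hI : I = ⊥
  · exact ⟨⟨0, by rw [hI]; simp⟩⟩
  have hex : ∃ a ∈ I, a ≠ 0 := Submodule.exists_mem_ne_zero_of_ne_bot hI
  have hne : ∃ n : ℕ, ∃ a ∈ I, a ≠ 0 ∧ (ι (a : F)).order = (n : ℤ) := by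
    obtain ⟨a, haI, ha0⟩ := hex
    have ha : 0 ≤ (ι (a : F)).order := a.2
    exact ⟨(ι (a : F)).order.toNat, a, haI, ha0, (Int.toNat_of_nonneg ha).symm⟩
  classical
  obtain ⟨a, haI, ha0, han⟩ := Nat.find_spec hne
  have hmin : ∀ b ∈ I, b ≠ 0 → (ι (a : F)).order ≤ (ι (b : F)).order := by
    intro b hbI hb0
    have hb : 0 ≤ (ι (b : F)).order := b.2
    have h := Nat.find_min' hne ⟨b, hbI, hb0, (Int.toNat_of_nonneg hb).symm⟩
    rw [han]
    calc ((Nat.find hne : ℕ) : ℤ) ≤ ((ι (b : F)).order.toNat : ℤ) := by exact_mod_cast h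
      _ = (ι (b : F)).order := Int.toNat_of_nonneg hb
  have haF : (a : F) ≠ 0 := fun h => ha0 (Subtype.ext h)
  refine ⟨⟨a, ?_⟩⟩
  apply le_antisymm
  · intro b hbI
    rw [Submodule.mem_span_singleton]
    rcases eq_or_ne b 0 with rfl | hb0
    · exact ⟨0, by simp⟩
    have hbF : (b : F) ≠ 0 := fun h => hb0 (Subtype.ext h)
    have hc : (b : F) * (a : F)⁻¹ ∈ h37g_pe_valSubring ι := by
      rw [h37g_pe_mem_valSubring, h37g_pe_order_map_mul ι hbF (inv_ne_zero haF), h37g_pe_order_map_inv]
      have := hmin b hbI hb0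
      linarith
    refine ⟨⟨(b : F) * (a : F)⁻¹, hc⟩, ?_⟩
    apply Subtype.ext
    show (b : F) * (a : F)⁻¹ * (a : F) = (b : F)
    field_simp
  · rw [Submodule.span_singleton_le_iff_mem]
    exact haI

end placeHelpers

/-- a ring hom `ι : F → k((s))`, trivial on constants and with `ord (ι t) > 0`,
induces a place of `F` (generalisation of `S24.exists_place_of_emb` to any coefficient field). -/
theorem h37g_exists_place_of_emb {k K F : Type*} [Field k] [Field K] [Field F] [Algebra K F]
    (t : F) (θ : K →+* k) (ι : F →+* LaurentSeries k)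
    (hconst : ∀ a, ι (algebraMap K F a) = HahnSeries.C (θ a)) (ht : 0 < (ι t).order) :
    ∃ (v : Place K F) (m : ℕ), 0 < m ∧ ∀ f : F, f ≠ 0 → (ι f).order = m * v.ord f := by
  have ht0 : t ≠ 0 := by
    rintro rfl
    rw [map_zero, HahnSeries.order_zero] at ht
    exact lt_irrefl _ ht
  -- the place
  obtain ⟨v, hv⟩ : ∃ v : Place K F, v.toValuationSubring = h37g_pe_valSubring ι :=
    ⟨{ toValuationSubring := h37g_pe_valSubring ι
       algebraMap_mem' := fun a => by
         rw [h37g_pe_mem_valSubring, hconst, HahnSeries.order_C]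
       ne_top' := by
         intro htop
         have hmem : t⁻¹ ∈ h37g_pe_valSubring ι := by rw [htop]; exact ValuationSubring.mem_top _
         rw [h37g_pe_mem_valSubring, h37g_pe_order_map_inv] at hmem
         linarith
       isPrincipalIdealRing' := h37g_pe_isPrincipalIdealRing ι }, rfl⟩
  have hvmem : ∀ f : F, f ∈ v.toValuationSubring ↔ 0 ≤ (ι f).order := fun f => by
    rw [hv]; exact Iff.rfl
  -- units have order zero
  have hunit : ∀ u : v.toValuationSubringˣ, (ι ((u : v.toValuationSubring) : F)).order = 0 := by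
    intro u
    have h1 : 0 ≤ (ι ((u : v.toValuationSubring) : F)).order :=
      (hvmem _).mp (u : v.toValuationSubring).2
    have h2 : 0 ≤ (ι (((u⁻¹ : v.toValuationSubringˣ) : v.toValuationSubring) : F)).order :=
      (hvmem _).mp ((u⁻¹ : v.toValuationSubringˣ) : v.toValuationSubring).2
    have h3 : (((u⁻¹ : v.toValuationSubringˣ) : v.toValuationSubring) : F)
        = ((u : v.toValuationSubring) : F)⁻¹ := by
      have hmul : ((u : v.toValuationSubring) : F)
          * (((u⁻¹ : v.toValuationSubringˣ) : v.toValuationSubring) : F) = 1 := by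
        have h := congrArg (fun x : v.toValuationSubring => (x : F)) u.mul_inv
        exact h
      exact eq_inv_of_mul_eq_one_right hmul
    rw [h3, h37g_pe_order_map_inv] at h2
    linarith
  -- a uniformizer
  obtain ⟨π, hπ⟩ := IsDiscreteValuationRing.exists_irreducible v.toValuationSubring
  have hπF : (π : F) ≠ 0 := fun h => hπ.ne_zero (Subtype.ext h)
  have hπ0 : 0 ≤ (ι (π : F)).order := (hvmem _).mp π.2
  have hπpos : 0 < (ι (π : F)).order := by
    rcases hπ0.lt_or_eq with h | h
    · exact h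
    · exfalso
      apply hπ.not_isUnit
      have hinv : (π : F)⁻¹ ∈ v.toValuationSubring := by
        rw [hvmem, h37g_pe_order_map_inv, ← h]; simp
      refine ⟨⟨π, ⟨(π : F)⁻¹, hinv⟩, ?_, ?_⟩, rfl⟩
      · apply Subtype.ext
        show (π : F) * (π : F)⁻¹ = 1
        exact mul_inv_cancel₀ hπF
      · apply Subtype.ext
        show (π : F)⁻¹ * (π : F) = 1
        exact inv_mul_cancel₀ hπF
  refine ⟨v, (ι (π : F)).order.toNat, ?_, ?_⟩
  · exact (Int.pos_iff_toNat_pos).mp hπpos
  · intro f hf
    obtain ⟨u, hu⟩ := v.exists_unit_mul_zpow hf hπ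
    have huF : ((u : v.toValuationSubring) : F) ≠ 0 := by
      intro h
      exact u.ne_zero (Subtype.ext h)
    rw [Int.toNat_of_nonneg hπ0]
    conv_lhs => rw [hu]
    rw [h37g_pe_order_map_mul ι huF (zpow_ne_zero _ hπF), hunit u, zero_add,
      h37g_pe_order_map_zpow, mul_comm]


/-- the same with `m = 1` when some element has order exactly `1`. -/
theorem h37g_exists_place {k K F : Type*} [Field k] [Field K] [Field F] [Algebra K F]
    (t : F) (θ : K →+* k) (ι : F →+* LaurentSeries k)
    (hconst : ∀ a, ι (algebraMap K F a) = HahnSeries.C (θ a)) (ht : (ι t).order = 1) :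
    ∃ v : Place K F, ∀ f : F, f ≠ 0 → (ι f).order = v.ord f := by
  obtain ⟨v, m, hm, hv⟩ := h37g_exists_place_of_emb t θ ι hconst (by rw [ht]; exact one_pos)
  have ht0 : t ≠ 0 := by
    rintro rfl
    rw [map_zero, HahnSeries.order_zero] at ht
    exact zero_ne_one ht
  have h1 := hv t ht0
  rw [ht] at h1
  have hm1 : (m : ℤ) = 1 := by
    have hdvd : (m : ℤ) ∣ 1 := ⟨v.ord t, h1⟩
    have hpos : (0 : ℤ) < m := by exact_mod_cast hm
    exact Int.eq_one_of_dvd_one hpos.le hdvd
  refine ⟨v, fun f hf => ?_⟩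
  rw [hv f hf, hm1, one_mul]

/-! ## Part 3: DL4, abstract form -/

section dim

variable {K F : Type*} [Field K] [Field F] [Algebra K F]

/-- **DL4 GAP, abstract form.**  `F / K` with weak genus `g`, `ι : F → K((q))` a ring
homomorphism whose `q`-order is the order at the place `Q`; `Ω` a space of series in `q K[[q]]`
orthogonal to (the expansions of) all functions regular off `Q`.  Then `dim Ω ≤ g`. -/
theorem h37g_gap_dim (hB : H13rBase K F) (g : ℕ) (hg : H13rIsGenus K F g)
    (ι : F →+* LaurentSeries K) (Q : Place K F)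
    (hQ : ∀ f : F, f ≠ 0 → (ι f).order = Q.ord f)
    (Ω : Submodule K (LaurentSeries K))
    (hΩ : ∀ w ∈ Ω, (∀ i : ℤ, i ≤ 0 → w.coeff i = 0) ∧
      ∀ (n : ℕ) (f : F), f ∈ riemannRochSpace (Finsupp.single Q (n : ℤ)) →
        (ι f * w).coeff 0 = 0) :
    Module.Finite K Ω ∧ Module.finrank K Ω ≤ g := by
  obtain ⟨S, hScard, hS⟩ := h37g_gaps hB g hg Q
  let LL : Set (LaurentSeries K) :=
    {s | ∃ (n : ℕ) (f : F), f ∈ riemannRochSpace (Finsupp.single Q (n : ℤ)) ∧ s = ι f}
  have h1 := h37g_finrank_le LL S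
    (fun n hn hnS => by
      obtain ⟨f, hfL, hf0, hford⟩ := hS n hn hnS
      refine ⟨ι f, ⟨n, f, hfL, rfl⟩, (map_ne_zero ι).mpr hf0, ?_⟩
      rw [hQ f hf0, hford])
    Ω
    (fun w hw => ⟨(hΩ w hw).1, fun s hs => by
      obtain ⟨n, f, hfL, rfl⟩ := hs
      exact (hΩ w hw).2 n f hfL⟩)
  exact ⟨h1.1, h1.2.trans hScard⟩

/-- a function regular off `Q` lies in some `L(n Q)`. -/
theorem h37g_mem_of_regular (Q : Place K F) (f : F)
    (hf : ∀ v : Place K F, v ≠ Q → 0 ≤ v.ord f) :
    ∃ n : ℕ, f ∈ riemannRochSpace (Finsupp.single Q (n : ℤ)) := by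
  refine ⟨(-Q.ord f).toNat, ?_⟩
  rw [mem_riemannRochSpace_iff]
  intro v
  right
  by_cases hv : v = Q
  · subst hv
    rw [Finsupp.single_eq_same]
    have := Int.self_le_toNat (-v.ord f)
    omega
  · rw [Finsupp.single_eq_of_ne (fun h => hv h)]
    simpa using hf v hv

end dim

end Fermat.Agent.P7
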