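import Fermat.Agent.P5.H55Ortho
import Fermat.Agent.Red.GV.SoftGal

/-!
# Wave 7, block (A), route DLOG at the NON-good level: LATTICE-RED (helper37, prefix `h37l_`)

`ℓ` a prime, `M` ANY level prime to `ℓ`, `A` a valuation subring of `ℚ̄` over `ℓ`.

`h37l_latRed` : every finitely generated `ℚ̄`-subspace `W` of `FF M` is spanned by Gauss-integral
functions `w i` whose reductions are linearly independent over the residue field.

Proof: transport along `degen : FF M → FF (goodLevel ℓ M)` (the `q`-expansion, the Gauss ring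
and the reduction do not change) of the landed P5 theorem `h55o_dual` (dual pairs at a good
level).
-/

set_option autoImplicit false
set_option linter.unusedSectionVars false
set_option linter.style.haveILetI false

open AlgebraicCurve ModularCurve IsLocalRing

noncomputable section

namespace Fermat.Agent.P7

open Fermat.Agent.S37 Fermat.Agent.Red.GV Fermat.Agent.Red.GV.Soft Fermat.Agent.P5

variable {ℓ : ℕ} (M : ℕ) [NeZero M] (A : ValuationSubring Kbar)

/-- Gauss-integrality does not depend on the level. -/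
theorem h37l_degen_mem_gaussV {M' : ℕ} [NeZero M'] (hℓ : ℓ.Prime) (hM : ¬ ℓ ∣ M)
    (hM' : ¬ ℓ ∣ M') (hA : A.LiesOverPrime ℓ) (h : M ∣ M') (x : FF M) :
    degen h x ∈ gaussV A M' ↔ x ∈ gaussV A M := by
  rw [← softV_eq_gaussV A M hℓ hM hA, ← softV_eq_gaussV A M' hℓ hM' hA]
  exact degen_mem_softV_iff A h x

/-- the reduction does not depend on the level. -/
theorem h37l_gaussR_degen {M' : ℕ} [NeZero M'] (h : M ∣ M') (x : FF M)
    (hx : x ∈ gaussV A M) (hx' : degen h x ∈ gaussV A M') :
    gaussR A M' ⟨degen h x, hx'⟩ = gaussR A M ⟨x, hx⟩ := by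
  have h1 : x ∈ softV A M := gaussV_le_softV A M hx
  have h2 : degen h x ∈ softV A M' := gaussV_le_softV A M' hx'
  rw [← softR_eq_gaussR A M' (degen h x) h2 hx', ← softR_eq_gaussR A M x h1 hx]
  exact softR_degen A h ⟨x, h1⟩ h2

/-- **LATTICE-RED at any level prime to `ℓ`.** -/
theorem h37l_latRed (hℓ : ℓ.Prime) (hM : ¬ ℓ ∣ M) (hA : A.LiesOverPrime ℓ)
    (W : Submodule Kbar (FF M)) (hW : W.FG) :
    ∃ (n : ℕ) (w : Fin n → FF M) (hw : ∀ i, w i ∈ gaussV A M),
      (∀ i, w i ∈ W) ∧ Submodule.span Kbar (Set.range w) = W ∧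
      LinearIndependent (ResidueField A) (fun i => gaussR A M ⟨w i, hw i⟩) := by
  classical
  have h : M ∣ goodLevel ℓ M := dvd_goodLevel ℓ M
  have hM' : ¬ ℓ ∣ goodLevel ℓ M := not_dvd_goodLevel hℓ hM
  have haux : auxLevel ℓ ∣ goodLevel ℓ M := auxLevel_dvd_goodLevel ℓ M
  set W' : Submodule Kbar (FF (goodLevel ℓ M)) := W.map (degen h).toLinearMap with hW'
  have hW'fg : W'.FG := hW.map _
  obtain ⟨T, n, w', P, hWT, hD, hspan⟩ := h55o_dual hℓ hM' haux hA W' hW'fg
  have hex : ∀ i, ∃ x ∈ W, degen h x = w' i := by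
    intro i
    have := hD.mem i
    rw [hW', Submodule.mem_map] at this
    obtain ⟨x, hx, e⟩ := this
    exact ⟨x, hx, e⟩
  choose w hwW hwe using hex
  have hwV : ∀ i, w i ∈ gaussV A M := by
    intro i
    rw [← h37l_degen_mem_gaussV M A hℓ hM hM' hA h, hwe i]
    exact hD.int i
  refine ⟨n, w, hwV, hwW, ?_, ?_⟩
  · -- the span
    have hinj : Function.Injective (degen h).toLinearMap := (degen h).toRingHom.injective
    apply Submodule.map_injective_of_injective hinj
    rw [Submodule.map_span, ← hW', ← hspan]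
    congr 1
    ext y
    constructor
    · rintro ⟨x, ⟨i, rfl⟩, rfl⟩
      exact ⟨i, (hwe i).symm⟩
    · rintro ⟨i, rfl⟩
      exact ⟨w i, ⟨i, rfl⟩, hwe i⟩
  · have hli := hD.red_linearIndependent hℓ hM' hA hWT
    have e : (fun i => gaussR A M ⟨w i, hwV i⟩) =
        fun i => gaussR A (goodLevel ℓ M) ⟨w' i, hD.int i⟩ := by
      funext i
      have hx' : degen h (w i) ∈ gaussV A (goodLevel ℓ M) := by
        rw [hwe i]; exact hD.int i
      rw [← h37l_gaussR_degen M A h (w i) (hwV i) hx']
      congr 1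
      exact Subtype.ext (hwe i)
    rw [e]
    exact hli

end Fermat.Agent.P7
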