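import Fermat.Agent.P5.H26GenusFinal
import Fermat.Agent.P5.H68RRLarge
import Fermat.Agent.P5.H40RRInst
import Fermat.Agent.P5.H71RepAbs

/-!
# Wave 7, DLOG at the level `M`, leaf H2-EXACT (S2b) (helper94, prefix `h94x_`):
EXACT LIFT of the functions of `L(m Q)` at a good level

`N` a good level (`p ∤ N`, `auxLevel p ∣ N`), `A` over `p`, `r` the reduction map of places
(`H13sIsRed A N r`), `voo` ANY place of `FF N`.

* `h94x_exact_lift` : there is `m₀` such that for `m ≥ m₀` every function of the special fibre in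
  `L(m · r voo)` is the reduction of a Gauss-integral function of `L(m · voo)`.
* `h94x_exact_ord` : if the reduction of `G ∈ L(m · voo)` has exact order `- m` at `r voo`, then
  `G` is a Gauss unit, `ord_voo G = - m`, and `G` has no zero in the fibre of `r voo`.
* `h94x_exact_lift_ord` : both together.
-/

set_option autoImplicit false
set_option linter.unusedSectionVars false
set_option linter.style.haveILetI false
set_option synthInstance.maxHeartbeats 400000

open AlgebraicCurve ModularCurve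

noncomputable section

namespace Fermat.Agent.P7

open Fermat.Agent.S37 Fermat.Agent.Red.GV Fermat.Agent.P5

variable {p : ℕ} {N : ℕ} [NeZero N] {A : ValuationSubring Kbar}

/-- the degree of `m · v` when all places have degree one. -/
theorem h94x_degree_single {K F : Type*} [Field K] [Field F] [Algebra K F]
    (hB : H13rBase K F) (v : Place K F) (m : ℤ) :
    Divisor.degree (Finsupp.single v m : Divisor K F) = m := by
  rw [Divisor.degree_single, hB.deg_one v]
  simp

/-- **(S2b) EXACT LIFT**: for `m` large, every element of `L(m · r voo)` on the special fibre is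
the reduction of a Gauss-integral element of `L(m · voo)`. -/
theorem h94x_exact_lift (hp : p.Prime) (hN : ¬ p ∣ N) (haux : auxLevel p ∣ N)
    (hA : A.LiesOverPrime p)
    (r : Place Kbar (FF N) → Place (h13sK A) (h13sFt A N)) (hr : H13sIsRed A N r)
    (voo : Place Kbar (FF N)) :
    ∃ m₀ : ℕ, ∀ m : ℕ, m₀ ≤ m →
      ∀ Gb ∈ riemannRochSpace (Finsupp.single (r voo) (m : ℤ) :
          Divisor (h13sK A) (h13sFt A N)),
        ∃ (G : FF N) (hG : G ∈ gaussV A N),
          G ∈ riemannRochSpace (Finsupp.single voo (m : ℤ) : Divisor Kbar (FF N)) ∧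
            h13sRed A N ⟨G, hG⟩ = Gb := by
  obtain ⟨g, hg, hgs⟩ := h26s_genus p hp N hN haux A hA
  have hBg : H13rBase Kbar (FF N) := h40r_base_FF N
  have hBs : H13rBase (h13sK A) (h13sFt A N) := h26s_base p hp N hN haux A hA
  obtain ⟨⟨c₁, hc₁⟩, -⟩ := h68r_large Kbar (FF N) hBg g hg
  obtain ⟨⟨c₂, hc₂⟩, -⟩ := h68r_large (h13sK A) (h13sFt A N) hBs g hgs
  refine ⟨(max c₁ c₂).toNat, fun m hm Gb hGb => ?_⟩
  have hm' : max c₁ c₂ ≤ (m : ℤ) := by
    have := Int.toNat_le.mp hm
    exact this
  have h1 := hc₁ (Finsupp.single voo (m : ℤ))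
    (by rw [h94x_degree_single hBg]; exact le_trans (le_max_left _ _) hm')
  have h2 := hc₂ (Finsupp.single (r voo) (m : ℤ))
    (by rw [h94x_degree_single hBs]; exact le_trans (le_max_right _ _) hm')
  rw [h94x_degree_single hBg] at h1
  rw [h94x_degree_single hBs] at h2
  have hpush : h13sPush r (Finsupp.single voo (m : ℤ)) = Finsupp.single (r voo) (m : ℤ) := by
    unfold h13sPush
    exact Finsupp.mapDomain_single
  have hl : h13rL Kbar (FF N) (Finsupp.single voo (m : ℤ))
      = h13rL (h13sK A) (h13sFt A N) (h13sPush r (Finsupp.single voo (m : ℤ))) := by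
    rw [hpush]
    have : (h13rL Kbar (FF N) (Finsupp.single voo (m : ℤ)) : ℤ)
        = (h13rL (h13sK A) (h13sFt A N) (Finsupp.single (r voo) (m : ℤ)) : ℤ) := by
      linarith
    exact_mod_cast this
  obtain ⟨b, -, -, -, -, -, hex⟩ :=
    h26s_semi p hp N hN haux A hA r hr (Finsupp.single voo (m : ℤ))
  have hGb' : Gb ∈ riemannRochSpace (h13sPush r (Finsupp.single voo (m : ℤ))) := by
    rw [hpush]
    exact hGb
  obtain ⟨f, hf, hfL, hfr⟩ := hex hl Gb hGb'
  exact ⟨f, hf, hfL, hfr⟩

/-- **exactness**: if the reduction of `G ∈ L(m · voo)` has order `- m` at `r voo`, then `G` is a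
Gauss unit, has order `- m` at `voo`, and has no zero in the fibre of `r voo`. -/
theorem h94x_exact_ord (hp : p.Prime) (hN : ¬ p ∣ N) (hA : A.LiesOverPrime p)
    (r : Place Kbar (FF N) → Place (h13sK A) (h13sFt A N)) (hr : H13sIsRed A N r)
    (voo : Place Kbar (FF N)) (m : ℕ) (G : FF N) (hG : G ∈ gaussV A N)
    (hGL : G ∈ riemannRochSpace (Finsupp.single voo (m : ℤ) : Divisor Kbar (FF N)))
    (h0 : h13sRed A N ⟨G, hG⟩ ≠ 0)
    (hord : (r voo).ord (h13sRed A N ⟨G, hG⟩) = -(m : ℤ)) :
    G ≠ 0 ∧ G⁻¹ ∈ gaussV A N ∧ voo.ord G = -(m : ℤ) ∧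
      (∀ v : Place Kbar (FF N), v ≠ voo → 0 ≤ v.ord G) ∧
      ∀ v : Place Kbar (FF N), v ≠ voo → r v = r voo → v.ord G = 0 := by
  classical
  have hBg : H13rBase Kbar (FF N) := h40r_base_FF N
  -- `G` is a Gauss unit
  have hred : gaussR A N ⟨G, hG⟩ ≠ 0 := by
    intro h
    apply h0
    have h1 : h13sIncl A N (h13sRed A N ⟨G, hG⟩) = 0 := by
      rw [h13sIncl_red]
      exact h
    have h2 : h13sIncl A N (h13sRed A N ⟨G, hG⟩) = h13sIncl A N 0 := by
      rw [h1, map_zero]
    exact (h13sIncl A N).injective h2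
  have hnot := (not_congr (gaussR_eq_zero_iff A N hp hN hA ⟨G, hG⟩)).mp hred
  push Not at hnot
  obtain ⟨hG0, hGi⟩ := hnot
  have hG0 : G ≠ 0 := hG0
  have hGi : G⁻¹ ∈ gaussV A N := hGi
  -- orders of `G`
  have hLG := mem_riemannRochSpace_iff.mp hGL
  have hreg : ∀ v : Place Kbar (FF N), v ≠ voo → 0 ≤ v.ord G := by
    intro v hv
    have h := (hLG v).resolve_left hG0
    rw [Finsupp.single_eq_of_ne (Ne.symm hv).symm] at h
    simpa using h
  have hoo : -(m : ℤ) ≤ voo.ord G := by
    have h := (hLG voo).resolve_left hG0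
    rwa [Finsupp.single_eq_same] at h
  -- RED-DIV
  obtain ⟨D, hD, -⟩ := hBg.pd G hG0
  have hRD := hr.2.2 G hG hGi D hD (r voo)
  rw [hord] at hRD
  unfold h13sPush at hRD
  rw [h71r_push_apply] at hRD
  -- the sum over `insert voo D.support`
  have hsum : ∑ a ∈ insert voo D.support, (if r a = r voo then D a else 0) = -(m : ℤ) := by
    by_cases hmem : voo ∈ D.support
    · rw [Finset.insert_eq_of_mem hmem]
      exact hRD
    · rw [Finset.sum_insert hmem, if_pos rfl, Finsupp.notMem_support_iff.mp hmem, zero_add]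
      exact hRD
  have hsum' : ∑ a ∈ insert voo D.support,
      ((if r a = r voo then D a else 0) + if a = voo then (m : ℤ) else 0) = 0 := by
    rw [Finset.sum_add_distrib, hsum, Finset.sum_ite_eq' (insert voo D.support) voo,
      if_pos (Finset.mem_insert_self _ _)]
    ring
  have hnn : ∀ a ∈ insert voo D.support,
      0 ≤ (if r a = r voo then D a else 0) + if a = voo then (m : ℤ) else 0 := by
    intro a _
    by_cases ha : a = voo
    · subst ha
      rw [if_pos rfl, if_pos rfl, hD]
      linarith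
    · rw [if_neg ha, add_zero]
      split_ifs with h
      · rw [hD]
        exact hreg a ha
      · exact le_rfl
  have hzero := (Finset.sum_eq_zero_iff_of_nonneg hnn).mp hsum'
  refine ⟨hG0, hGi, ?_, hreg, ?_⟩
  · have h := hzero voo (Finset.mem_insert_self _ _)
    rw [if_pos rfl, if_pos rfl, hD] at h
    linarith
  · intro v hv hrv
    by_cases hmem : v ∈ D.support
    · have h := hzero v (Finset.mem_insert_of_mem hmem)
      rw [if_pos hrv, if_neg hv, add_zero, hD] at h
      exact h
    · rw [← hD]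
      exact Finsupp.notMem_support_iff.mp hmem

/-- **(S2b) with exactness**: for `m` large, every `Gb` of the special fibre, regular off `r voo`
with order exactly `- m` at `r voo`, is the reduction of a Gauss unit `G`, regular off `voo`,
of order exactly `- m` at `voo`, without zero in the fibre of `r voo`. -/
theorem h94x_exact_lift_ord (hp : p.Prime) (hN : ¬ p ∣ N) (haux : auxLevel p ∣ N)
    (hA : A.LiesOverPrime p)
    (r : Place Kbar (FF N) → Place (h13sK A) (h13sFt A N)) (hr : H13sIsRed A N r)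
    (voo : Place Kbar (FF N)) :
    ∃ m₀ : ℕ, ∀ m : ℕ, m₀ ≤ m → ∀ Gb : h13sFt A N, Gb ≠ 0 →
      (∀ Q : Place (h13sK A) (h13sFt A N), Q ≠ r voo → 0 ≤ Q.ord Gb) →
      (r voo).ord Gb = -(m : ℤ) →
        ∃ (G : FF N) (hG : G ∈ gaussV A N), h13sRed A N ⟨G, hG⟩ = Gb ∧
          G ≠ 0 ∧ G⁻¹ ∈ gaussV A N ∧ voo.ord G = -(m : ℤ) ∧
          (∀ v : Place Kbar (FF N), v ≠ voo → 0 ≤ v.ord G) ∧
          ∀ v : Place Kbar (FF N), v ≠ voo → r v = r voo → v.ord G = 0 := by
  obtain ⟨m₀, hm₀⟩ := h94x_exact_lift hp hN haux hA r hr voo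
  refine ⟨m₀, fun m hm Gb hGb0 hreg hord => ?_⟩
  have hGbL : Gb ∈ riemannRochSpace (Finsupp.single (r voo) (m : ℤ) :
      Divisor (h13sK A) (h13sFt A N)) := by
    rw [mem_riemannRochSpace_iff]
    intro Q
    right
    by_cases hQ : Q = r voo
    · subst hQ
      rw [Finsupp.single_eq_same, hord]
    · rw [Finsupp.single_eq_of_ne (Ne.symm hQ).symm]
      simpa using hreg Q hQ
  obtain ⟨G, hG, hGL, hGr⟩ := hm₀ m hm Gb hGbL
  have h0 : h13sRed A N ⟨G, hG⟩ ≠ 0 := by rw [hGr]; exact hGb0
  have hord' : (r voo).ord (h13sRed A N ⟨G, hG⟩) = -(m : ℤ) := by rw [hGr]; exact hord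
  obtain ⟨h1, h2, h3, h4, h5⟩ := h94x_exact_ord hp hN hA r hr voo m G hG hGL h0 hord'
  exact ⟨G, hG, hGr, h1, h2, h3, h4, h5⟩

end Fermat.Agent.P7
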