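import Fermat.Agent.P7.H88ExactLevel
import Fermat.Agent.P7.H1ExactSFLevel
import Fermat.Agent.P7.H94ExactLift
import Fermat.Agent.P5.H51InfFin

/-!
# Wave 7, block (A), DLOG at a non-good level: the EXACT FUNCTION, unconditional (helper88)

* `h88e_jinv_pos` : at a place `v` of a good level which is not finite at `A`, the reduction of
  `1/j` vanishes at `r v`.
* `h88e_jbar_pole` : equivalently `r v` is a pole of `j̄ = h26sJ A N`.
* `h88e_lift` : the exact lift datum `H88eLift A N r v∞` holds at every good level, for every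
  place `v∞` (helper1's existence on the special fibre + helper94's exact lift).
* `h88e_exact_good` : step (S2) of finding 1461, unconditional: for `ℓ ∤ M`,
  `N = goodLevel ℓ M`, every reduction map `r` of level `N` and every non-finite place `v∞` of
  `FF N`, there are `m ≥ 1` and a Gauss unit `h` of level `M` whose poles (at level `N`) are
  exactly the places over the place of `FF M` under `v∞`, whose zeros are finite places and
  whose reduction has a pole of order `≥ m` at `r c'` for every `c'` over it.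
-/

set_option autoImplicit false
set_option linter.unusedSectionVars false
set_option linter.style.haveILetI false
set_option synthInstance.maxHeartbeats 400000

open AlgebraicCurve ModularCurve

noncomputable section

namespace Fermat.Agent.P7

open Fermat.Agent.S37 Fermat.Agent.Red.GV Fermat.Agent.Red.GV.Soft Fermat.Agent.P5
  Fermat.Agent.Red.HKMod Fermat.Agent.Red.Match

variable {N : ℕ} [NeZero N] {A : ValuationSubring Kbar} {ℓ : ℕ}

/-- at a non-finite place, the reduction of `1/j` vanishes. -/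
theorem h88e_jinv_pos (hℓ : ℓ.Prime) (hN : ¬ ℓ ∣ N) (hA : A.LiesOverPrime ℓ)
    (r : Place Kbar (FF N) → Place (h13sK A) (h13sFt A N)) (hr : H13sIsRed A N r)
    (v : Place Kbar (FF N)) (hv : ¬ IsFinAt A v) :
    0 < (r v).ord (h13sRed A N ⟨(jB N)⁻¹, jB_inv_mem_gaussV A N hℓ hN hA⟩) := by
  classical
  have hg : H13rBase Kbar (FF N) := h40r_base_FF N
  have hji : (jB N)⁻¹ ∈ gaussV A N := jB_inv_mem_gaussV A N hℓ hN hA
  have hj : jB N ∈ gaussV A N := jB_mem_gaussV A N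
  have hj0 : jB N ≠ 0 := fun h => (h40r_transcendental_FF N) (h ▸ isAlgebraic_zero)
  have hjii : ((jB N)⁻¹)⁻¹ ∈ gaussV A N := by rw [inv_inv]; exact hj
  have hred0 : gaussR A N ⟨(jB N)⁻¹, hji⟩ ≠ 0 := by
    intro h
    rcases (gaussR_eq_zero_iff A N hℓ hN hA _).1 h with h1 | h1
    · exact inv_ne_zero hj0 h1
    · exact h1 hjii
  obtain ⟨a, ha, hva⟩ := exists_valueAt_inv_of_not_isFinAt hv
  have hcst : cst N a ∈ gaussV A N :=
    (cst_mem_gaussV_iff A N hA a).2 (ValuationSubring.nonunits_subset ha)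
  have hf : (jB N)⁻¹ - cst N a ∈ gaussV A N := sub_mem hji hcst
  have hfred : gaussR A N ⟨(jB N)⁻¹ - cst N a, hf⟩ = gaussR A N ⟨(jB N)⁻¹, hji⟩ := by
    have h1 : (⟨(jB N)⁻¹ - cst N a, hf⟩ : gaussV A N) =
        ⟨(jB N)⁻¹, hji⟩ - ⟨cst N a, hcst⟩ := rfl
    rw [h1, map_sub, gaussR_cst_of_nonunit A N hA a ha hcst, sub_zero]
  have hf0 : (jB N)⁻¹ - cst N a ≠ 0 := by
    intro h
    apply hred0
    rw [← hfred]
    have h1 : (⟨(jB N)⁻¹ - cst N a, hf⟩ : gaussV A N) = 0 := Subtype.ext h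
    rw [h1, map_zero]
  have hfi : ((jB N)⁻¹ - cst N a)⁻¹ ∈ gaussV A N := by
    by_contra h
    exact hred0 (hfred ▸ (gaussR_eq_zero_iff A N hℓ hN hA ⟨_, hf⟩).2 (Or.inr h))
  obtain ⟨D, hD, -⟩ := hg.pd _ hf0
  have hpush := hr.2.2 _ hf hfi D hD (r v)
  have hredeq : h13sRed A N ⟨(jB N)⁻¹ - cst N a, hf⟩ = h13sRed A N ⟨(jB N)⁻¹, hji⟩ :=
    Subtype.ext hfred
  rw [← hredeq, ← hpush, h51f_push_apply r hr.2.1, h4r_red_apply]
  have hDv : 0 < D v := by
    rw [hD v]
    exact Fermat.Agent.Red.SM.h31_ord_pos_of_mem_nonunits v hva hf0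
  have hvs : v ∈ D.support := Finsupp.mem_support_iff.2 hDv.ne'
  have hnn : ∀ v' ∈ D.support, 0 ≤ (if SameRed A v' v then D v' else 0) := by
    intro v' _
    split_ifs with h
    · rw [hD v']
      exact Fermat.Agent.S24.DiffPlace.ord_nonneg_of_mem v'
        (h51i_regular (fun h' => hv ((sameRed_isFinAt_iff h).1 h')) a)
    · exact le_rfl
  have hle := Finset.single_le_sum hnn hvs
  rw [if_pos (sameRed_refl A v)] at hle
  exact lt_of_lt_of_le hDv hle

/-- at a non-finite place `v`, the point `r v` is a pole of `j̄`. -/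
theorem h88e_jbar_pole (hℓ : ℓ.Prime) (hN : ¬ ℓ ∣ N) (hA : A.LiesOverPrime ℓ)
    (r : Place Kbar (FF N) → Place (h13sK A) (h13sFt A N)) (hr : H13sIsRed A N r)
    (v : Place Kbar (FF N)) (hv : ¬ IsFinAt A v) :
    (r v).ord (h26sJ A N) < 0 := by
  have h1 := h88e_jinv_pos hℓ hN hA r hr v hv
  have hj0 : jB N ≠ 0 := fun h => (h40r_transcendental_FF N) (h ▸ isAlgebraic_zero)
  have hmul : h26sJ A N * h13sRed A N ⟨(jB N)⁻¹, jB_inv_mem_gaussV A N hℓ hN hA⟩ = 1 := by
    unfold h26sJ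
    rw [← h88r_red_mul]
    have h2 : (⟨jB N, jB_mem_gaussV A N⟩ : gaussV A N) *
        ⟨(jB N)⁻¹, jB_inv_mem_gaussV A N hℓ hN hA⟩ = 1 :=
      Subtype.ext (mul_inv_cancel₀ hj0)
    rw [h2, h88r_red_one]
  have hJ0 : h26sJ A N ≠ 0 := left_ne_zero_of_mul_eq_one hmul
  have hI0 : h13sRed A N ⟨(jB N)⁻¹, jB_inv_mem_gaussV A N hℓ hN hA⟩ ≠ 0 :=
    right_ne_zero_of_mul_eq_one hmul
  have h3 := (r v).ord_mul hJ0 hI0
  rw [hmul, Place.ord_one] at h3
  omega

/-- **the exact lift datum at a good level**, any place `v∞`. -/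
theorem h88e_lift (hℓ : ℓ.Prime) (hN : ¬ ℓ ∣ N) (haux : auxLevel ℓ ∣ N)
    (hA : A.LiesOverPrime ℓ)
    (r : Place Kbar (FF N) → Place (h13sK A) (h13sFt A N)) (hr : H13sIsRed A N r)
    (voo : Place Kbar (FF N)) : H88eLift A N r voo := by
  obtain ⟨m₁, hm₁⟩ := h1x_exact_level_j hℓ N hN haux A hA (r voo)
  obtain ⟨m₂, hm₂⟩ := h94x_exact_lift_ord hℓ hN haux hA r hr voo
  set m : ℕ := max (max m₁ m₂) 1 with hm
  have h1 : m₁ ≤ m := le_trans (le_max_left _ _) (le_max_left _ _)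
  have h2 : m₂ ≤ m := le_trans (le_max_right _ _) (le_max_left _ _)
  have h3 : 0 < m := lt_of_lt_of_le Nat.one_pos (le_max_right _ _)
  obtain ⟨Gb, hGb0, hGbord, hGbreg, hGbT⟩ := hm₁ m h1
  obtain ⟨G, hG, hGr, -, hGinv, hGoo, hGreg, -⟩ := hm₂ m h2 Gb hGb0 hGbreg hGbord
  refine ⟨m, G, hG, h3, hGinv, hGreg, hGoo, ?_, ?_⟩
  · rw [hGr]
    exact hGbord
  · intro v hv hne
    rw [hGr]
    exact hGbT (r v) hne (h88e_jbar_pole hℓ hN hA r hr v hv)

variable {M : ℕ} [NeZero M]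

/-- **(S2) EXACT FUNCTION, unconditional, at any good level `N` divisible by `M`.** -/
theorem h88e_exact_of_good (hℓ : ℓ.Prime) (hN : ¬ ℓ ∣ N) (haux : auxLevel ℓ ∣ N)
    (hA : A.LiesOverPrime ℓ) (hd : M ∣ N)
    (r : Place Kbar (FF N) → Place (h13sK A) (h13sFt A N)) (hr : H13sIsRed A N r)
    (voo : Place Kbar (FF N)) (hvoo : ¬ IsFinAt A voo) :
    ∃ (m : ℕ) (h : FF M) (hs : degen hd h ∈ gaussV A N), 0 < m ∧
      (degen hd h)⁻¹ ∈ gaussV A N ∧ h ∈ softV A M ∧ h⁻¹ ∈ softV A M ∧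
      (∀ v : Place Kbar (FF N), v.ord (degen hd h) < 0 ↔ H88eOver hd v voo) ∧
      (∀ v : Place Kbar (FF N), 0 < v.ord (degen hd h) → IsFinAt A v) ∧
      (∀ v : Place Kbar (FF N), H88eOver hd v voo →
        (r v).ord (h13sRed A N ⟨degen hd h, hs⟩) ≤ -(m : ℤ)) ∧
      (∀ w : Place Kbar (FF M),
        w.toValuationSubring ≠ voo.toValuationSubring.comap (degen hd).toRingHom →
          0 ≤ w.ord h) ∧
      (∀ w : Place Kbar (FF M),
        w.toValuationSubring = voo.toValuationSubring.comap (degen hd).toRingHom →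
          w.ord h = -(m : ℤ)) :=
  h88e_exact_level hℓ hN A hA hd r hr voo hvoo (h88e_lift hℓ hN haux hA r hr voo)

/-- **(S2) EXACT FUNCTION, unconditional**, `N = goodLevel ℓ M`. -/
theorem h88e_exact_good (hℓ : ℓ.Prime) (hM : ¬ ℓ ∣ M) (hA : A.LiesOverPrime ℓ)
    (r : Place Kbar (FF (goodLevel ℓ M)) → Place (h13sK A) (h13sFt A (goodLevel ℓ M)))
    (hr : H13sIsRed A (goodLevel ℓ M) r)
    (voo : Place Kbar (FF (goodLevel ℓ M))) (hvoo : ¬ IsFinAt A voo) :
    ∃ (m : ℕ) (h : FF M) (hs : degen (dvd_goodLevel ℓ M) h ∈ gaussV A (goodLevel ℓ M)),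
      0 < m ∧
      (degen (dvd_goodLevel ℓ M) h)⁻¹ ∈ gaussV A (goodLevel ℓ M) ∧
      h ∈ softV A M ∧ h⁻¹ ∈ softV A M ∧
      (∀ v : Place Kbar (FF (goodLevel ℓ M)),
        v.ord (degen (dvd_goodLevel ℓ M) h) < 0 ↔ H88eOver (dvd_goodLevel ℓ M) v voo) ∧
      (∀ v : Place Kbar (FF (goodLevel ℓ M)),
        0 < v.ord (degen (dvd_goodLevel ℓ M) h) → IsFinAt A v) ∧
      (∀ v : Place Kbar (FF (goodLevel ℓ M)), H88eOver (dvd_goodLevel ℓ M) v voo →
        (r v).ord (h13sRed A (goodLevel ℓ M) ⟨degen (dvd_goodLevel ℓ M) h, hs⟩)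
          ≤ -(m : ℤ)) ∧
      (∀ w : Place Kbar (FF M),
        w.toValuationSubring ≠
            voo.toValuationSubring.comap (degen (dvd_goodLevel ℓ M)).toRingHom →
          0 ≤ w.ord h) ∧
      (∀ w : Place Kbar (FF M),
        w.toValuationSubring =
            voo.toValuationSubring.comap (degen (dvd_goodLevel ℓ M)).toRingHom →
          w.ord h = -(m : ℤ)) :=
  h88e_exact_of_good hℓ (not_dvd_goodLevel hℓ hM) (auxLevel_dvd_goodLevel ℓ M) hA
    (dvd_goodLevel ℓ M) r hr voo hvoo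

end Fermat.Agent.P7
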