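import Mathlib
import Fermat.Agent.P7.H88ExactLift
import Fermat.Agent.P7.H57SymTr
import Fermat.Agent.P7.H37ConstM
import Fermat.Agent.P7.H83ResNormAll

/-!
# Wave 7, DLOG at the non-good level, ORTH(M): the leaf DISC (helper38, prefix `h38k_`)

`ℓ` a prime, `M` ANY level prime to `ℓ`, `N = goodLevel ℓ M`, `A` over `ℓ`, `r` a reduction map
of places of level `N` (`H13sIsRed A N r`), `v∞` a non-finite place of `FF N` (e.g. the
`q`-order place), `T` = the set of the places of `FF N` over the place of `FF M` below `v∞`.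

* `h38k_over_iff` : `H88eOver` is equality of the restrictions.
* `h38k_conj_class` (**DISC'**): if two places `v'`, `v''` of `FF N` have the same restriction to
  `FF M` and `v'` lies in the class (`r`-fibre) of a place of `T`, then so does `v''`.
  (helper88's exact function `h88e_exact_good` + helper57's transfer `h57s_nonneg_iff` +
  RED-DIV.)  UNCONDITIONAL: `(S2)` is not used.
* `h38k_disc` (**DISC**): if `g' ∈ FF N` has no zero and no pole in the classes of the places of
  `T`, then `Nm g'` has no zero and no pole at the restriction of any place of these classes,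
  and `degen (Nm g')` has no zero and no pole in these classes (in particular in the class of
  `v∞`).
-/

set_option autoImplicit false
set_option linter.unusedSectionVars false
set_option linter.unusedVariables false
set_option linter.style.haveILetI false
set_option synthInstance.maxHeartbeats 400000

open AlgebraicCurve ModularCurve IsLocalRing

noncomputable section

namespace Fermat.Agent.P7

open Fermat.Agent.S37 Fermat.Agent.Red.HKMod Fermat.Agent.Red.CH0
open Fermat.Agent.Red.GV Fermat.Agent.Red.GV.Soft Fermat.Agent.P5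

variable {ℓ : ℕ} {M N : ℕ} [NeZero M] [NeZero N] {A : ValuationSubring Kbar}

/-- `H88eOver` is equality of the restrictions. -/
theorem h38k_over_iff (hd : M ∣ N) (v v' : Place Kbar (FF N)) :
    H88eOver hd v v' ↔
      v.restrictAlong (degen hd) (isIntegral_degen hd) =
        v'.restrictAlong (degen hd) (isIntegral_degen hd) :=
  (h88e_over_iff hd v v').symm

/-- a negative value of a push-forward comes from a negative coefficient in the fibre. -/
theorem h38k_exists_neg_of_push_neg {α β : Type*} (r : α → β) (D : α →₀ ℤ) (b : β)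
    (h : Finsupp.mapDomain r D b < 0) : ∃ a, r a = b ∧ D a < 0 := by
  by_contra hcon
  push Not at hcon
  exact absurd (h37k_push_nonneg r D b hcon) (not_le.mpr h)

/-- **DISC'**: the union of the classes of the places over the place below `v∞` is stable under
conjugation over the lower level. -/
theorem h38k_conj_class (hℓ : ℓ.Prime) (hM : ¬ ℓ ∣ M) (hA : A.LiesOverPrime ℓ)
    (r : Place Kbar (FF (goodLevel ℓ M)) → Place (h13sK A) (h13sFt A (goodLevel ℓ M)))
    (hr : H13sIsRed A (goodLevel ℓ M) r)
    (voo : Place Kbar (FF (goodLevel ℓ M))) (hvoo : ¬ IsFinAt A voo)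
    (c v' v'' : Place Kbar (FF (goodLevel ℓ M)))
    (hc : c.restrictAlong (degen (dvd_goodLevel ℓ M)) (isIntegral_degen _) =
      voo.restrictAlong (degen (dvd_goodLevel ℓ M)) (isIntegral_degen _))
    (hv' : r v' = r c)
    (hvv : v''.restrictAlong (degen (dvd_goodLevel ℓ M)) (isIntegral_degen _) =
      v'.restrictAlong (degen (dvd_goodLevel ℓ M)) (isIntegral_degen _)) :
    ∃ c'' : Place Kbar (FF (goodLevel ℓ M)),
      c''.restrictAlong (degen (dvd_goodLevel ℓ M)) (isIntegral_degen _) =
        voo.restrictAlong (degen (dvd_goodLevel ℓ M)) (isIntegral_degen _) ∧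
      r c'' = r v'' := by
  classical
  have hM' : ¬ ℓ ∣ goodLevel ℓ M := not_dvd_goodLevel hℓ hM
  obtain ⟨m, y, hs, hm, hsi, hyS, hyiS, hpole, -, hred, -, -⟩ :=
    h88e_exact_good hℓ hM hA r hr voo hvoo
  have hy0 : y ≠ 0 := by
    rintro rfl
    rw [inv_zero] at hyiS
    have h1 := (softR_ne_zero_iff A M ⟨(0 : FF M), hyS⟩).not.mpr (fun h => h.1 rfl)
    rw [not_not] at h1
    have h2 : (1 : FF M) = 0 * 0 := by
      have := hpole voo
      have h3 : (voo.ord (degen (dvd_goodLevel ℓ M) (0 : FF M)) < 0) :=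
        (hpole voo).mpr rfl
      rw [map_zero] at h3
      simp at h3
    simp at h2
  -- the reduction has a pole at `r c`
  have h1 : (r c).ord (h13sRed A (goodLevel ℓ M) ⟨degen (dvd_goodLevel ℓ M) y, hs⟩) < 0 := by
    have := hred c ((h38k_over_iff (dvd_goodLevel ℓ M) c voo).mpr hc)
    omega
  -- hence at `r v''`
  have h2 : (r v'').ord (h13sRed A (goodLevel ℓ M) ⟨degen (dvd_goodLevel ℓ M) y, hs⟩) < 0 := by
    by_contra hn
    rw [not_lt, h57s_nonneg_iff (dvd_goodLevel ℓ M) hℓ hM' hA hr hy0 hyS hyiS v'' v' hvv hs,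
      hv'] at hn
    omega
  -- RED-DIV
  haveI := hasPrincipalDivisors_FF (goodLevel ℓ M)
  have hd0 : degen (dvd_goodLevel ℓ M) y ≠ 0 :=
    fun h0 => hy0 ((map_eq_zero_iff _ (degen (dvd_goodLevel ℓ M)).toRingHom.injective).mp h0)
  obtain ⟨D, hD, -⟩ := HasPrincipalDivisors.exists_divisor (K := Kbar)
    (degen (dvd_goodLevel ℓ M) y) hd0
  have h3 := hr.2.2 (degen (dvd_goodLevel ℓ M) y) hs hsi D hD (r v'')
  rw [← h3] at h2
  obtain ⟨a, ha, hneg⟩ := h38k_exists_neg_of_push_neg r D (r v'') h2
  rw [hD a] at hneg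
  exact ⟨a, (h38k_over_iff (dvd_goodLevel ℓ M) a voo).mp ((hpole a).mp hneg), ha⟩

/-- **DISC**, lower level: `Nm g'` has no zero and no pole at the restriction of a place in
the class of a place over the place below `v∞`. -/
theorem h38k_disc_low (hℓ : ℓ.Prime) (hM : ¬ ℓ ∣ M) (hA : A.LiesOverPrime ℓ)
    (r : Place Kbar (FF (goodLevel ℓ M)) → Place (h13sK A) (h13sFt A (goodLevel ℓ M)))
    (hr : H13sIsRed A (goodLevel ℓ M) r)
    (voo : Place Kbar (FF (goodLevel ℓ M))) (hvoo : ¬ IsFinAt A voo)
    (g' : FF (goodLevel ℓ M)) (hg' : g' ≠ 0)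
    (hoff : ∀ c v : Place Kbar (FF (goodLevel ℓ M)),
      c.restrictAlong (degen (dvd_goodLevel ℓ M)) (isIntegral_degen _) =
        voo.restrictAlong (degen (dvd_goodLevel ℓ M)) (isIntegral_degen _) →
      r v = r c → v.ord g' = 0)
    (c v' : Place Kbar (FF (goodLevel ℓ M)))
    (hc : c.restrictAlong (degen (dvd_goodLevel ℓ M)) (isIntegral_degen _) =
      voo.restrictAlong (degen (dvd_goodLevel ℓ M)) (isIntegral_degen _))
    (hv' : r v' = r c) :
    (v'.restrictAlong (degen (dvd_goodLevel ℓ M)) (isIntegral_degen _)).ord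
      (Fermat.Agent.Red.KR.normAlong (degen (dvd_goodLevel ℓ M)) g') = 0 := by
  by_contra hne
  obtain ⟨v'', hv''1, hv''2⟩ := h83o_exists_of_ord_norm_FF (dvd_goodLevel ℓ M) g' hg' _ hne
  obtain ⟨c'', hc''1, hc''2⟩ := h38k_conj_class hℓ hM hA r hr voo hvoo c v' v'' hc hv' hv''1
  exact hv''2 (hoff c'' v'' hc''1 hc''2.symm)

/-- **DISC**, good level: `degen (Nm g')` has no zero and no pole in the class of a place over
the place below `v∞` (in particular in the class of `v∞`). -/
theorem h38k_disc (hℓ : ℓ.Prime) (hM : ¬ ℓ ∣ M) (hA : A.LiesOverPrime ℓ)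
    (r : Place Kbar (FF (goodLevel ℓ M)) → Place (h13sK A) (h13sFt A (goodLevel ℓ M)))
    (hr : H13sIsRed A (goodLevel ℓ M) r)
    (voo : Place Kbar (FF (goodLevel ℓ M))) (hvoo : ¬ IsFinAt A voo)
    (g' : FF (goodLevel ℓ M)) (hg' : g' ≠ 0)
    (hoff : ∀ c v : Place Kbar (FF (goodLevel ℓ M)),
      c.restrictAlong (degen (dvd_goodLevel ℓ M)) (isIntegral_degen _) =
        voo.restrictAlong (degen (dvd_goodLevel ℓ M)) (isIntegral_degen _) →
      r v = r c → v.ord g' = 0)
    (c v' : Place Kbar (FF (goodLevel ℓ M)))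
    (hc : c.restrictAlong (degen (dvd_goodLevel ℓ M)) (isIntegral_degen _) =
      voo.restrictAlong (degen (dvd_goodLevel ℓ M)) (isIntegral_degen _))
    (hv' : r v' = r c) :
    v'.ord (degen (dvd_goodLevel ℓ M)
      (Fermat.Agent.Red.KR.normAlong (degen (dvd_goodLevel ℓ M)) g')) = 0 := by
  rw [Place.ord_restrictAlong (degen (dvd_goodLevel ℓ M)) (isIntegral_degen _) v',
    h38k_disc_low hℓ hM hA r hr voo hvoo g' hg' hoff c v' hc hv', mul_zero]

end Fermat.Agent.P7
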