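import Mathlib

/-!
# Wave 7 (S40), blocks (1)+(2) EMBED, abstract part (helper38, prefix `h38e_`)

Pure algebra (Mathlib only).  `k` a field with `2 ≠ 0`, `G` a group, `ρ : G →* End_k U` a
two-dimensional irreducible representation which is *odd* (`c ∈ G`, `ρ c ^ 2 = 1`,
`det ρ c = -1`), `σ : G →* End_k V` a representation on a nonzero space in which every group
element satisfies the characteristic polynomial of its image under `ρ`:
`σ g ^ 2 - tr (ρ g) σ g + det (ρ g) = 0`.

* `h38e_pol`      : the polarised Cayley–Hamilton identity for `σ` on group elements.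
* `h38e_pol_lift` : the same on the group algebra.
* `h38e_ker_cube` : the image under `σ` of the kernel of `ρ` on the group algebra is nilpotent
  of exponent `3`.
* `h38e_embed_abs` : there is an injective `G`-equivariant `k`-linear map `U → V`
  (the Boston–Lenstra–Ribet argument in its simplest form).
-/

set_option autoImplicit false

namespace Fermat.Agent.P7

open Module

section Pol

variable {k : Type*} [Field k] {G : Type*} [Group G]
  {V : Type*} [AddCommGroup V] [Module k V]

/-- **polarised Cayley–Hamilton on group elements.** -/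
theorem h38e_pol (σ : G →* Module.End k V) (t d : G → k)
    (hd : ∀ g h, d (g * h) = d g * d h)
    (hquad : ∀ g, σ g * σ g - t g • σ g + d g • (1 : Module.End k V) = 0) (g h : G) :
    σ g * σ h + σ h * σ g =
      t g • σ h + t h • σ g + (t (g * h) - t g * t h) • (1 : Module.End k V) := by
  have haa : σ g * σ g⁻¹ = 1 := by rw [← map_mul, mul_inv_cancel, map_one]
  have hbb : σ h * σ h⁻¹ = 1 := by rw [← map_mul, mul_inv_cancel, map_one]
  -- inverses
  have h1 : d g • σ g⁻¹ = t g • (1 : Module.End k V) - σ g := by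
    have h := congrArg (fun z => z * σ g⁻¹) (hquad g)
    simp only [sub_mul, add_mul, smul_mul_assoc, mul_assoc, haa, one_mul, mul_one,
      zero_mul] at h
    rw [← sub_eq_zero, ← h]
    abel
  have h2 : d h • σ h⁻¹ = t h • (1 : Module.End k V) - σ h := by
    have h := congrArg (fun z => z * σ h⁻¹) (hquad h)
    simp only [sub_mul, add_mul, smul_mul_assoc, mul_assoc, hbb, one_mul, mul_one,
      zero_mul] at h
    rw [← sub_eq_zero, ← h]
    abel
  -- the relation for `g h`
  have h3 := congrArg (fun z => z * (σ h⁻¹ * σ g⁻¹)) (hquad (g * h))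
  have e1 : σ (g * h) * σ (g * h) * (σ h⁻¹ * σ g⁻¹) = σ g * σ h := by
    rw [map_mul]
    calc σ g * σ h * (σ g * σ h) * (σ h⁻¹ * σ g⁻¹)
        = σ g * σ h * (σ g * (σ h * σ h⁻¹) * σ g⁻¹) := by simp only [mul_assoc]
      _ = σ g * σ h := by rw [hbb, mul_one, haa, mul_one]
  have e2 : σ (g * h) * (σ h⁻¹ * σ g⁻¹) = 1 := by
    rw [map_mul]
    calc σ g * σ h * (σ h⁻¹ * σ g⁻¹) = σ g * (σ h * σ h⁻¹) * σ g⁻¹ := by
          simp only [mul_assoc]
      _ = 1 := by rw [hbb, mul_one, haa]
  have e3 : (d (g * h) • (1 : Module.End k V)) * (σ h⁻¹ * σ g⁻¹) =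
      (t h • (1 : Module.End k V) - σ h) * (t g • (1 : Module.End k V) - σ g) := by
    rw [← h1, ← h2, hd, smul_mul_assoc, one_mul, smul_mul_smul_comm, mul_comm (d h)]
  simp only [sub_mul, add_mul, smul_mul_assoc, zero_mul] at h3
  rw [e1, e2] at h3
  have e3' : d (g * h) • (σ h⁻¹ * σ g⁻¹) =
      (t h • (1 : Module.End k V) - σ h) * (t g • (1 : Module.End k V) - σ g) := by
    rw [← e3, smul_mul_assoc, one_mul]
  rw [one_mul, e3'] at h3
  have e4 : (t h • (1 : Module.End k V) - σ h) * (t g • (1 : Module.End k V) - σ g) =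
      (t g * t h) • (1 : Module.End k V) - t h • σ g - t g • σ h + σ h * σ g := by
    simp only [sub_mul, mul_sub, smul_mul_assoc, mul_smul_comm, one_mul, mul_one]
    rw [smul_sub, smul_smul]
    abel
  rw [e4] at h3
  rw [← sub_eq_zero, ← h3, sub_smul]
  abel

end Pol

section Lift

variable {k : Type*} [Field k] {G : Type*} [Group G]
  {U : Type*} [AddCommGroup U] [Module k U]
  {V : Type*} [AddCommGroup V] [Module k V]

/-- the lift of a representation to the group algebra. -/
noncomputable abbrev h38eL {k : Type*} [Field k] {G : Type*} [Group G]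
    {U : Type*} [AddCommGroup U] [Module k U] (ρ : G →* Module.End k U) :
    MonoidAlgebra k G →ₐ[k] Module.End k U :=
  MonoidAlgebra.lift k (Module.End k U) G ρ

/-- the trace of the lift. -/
noncomputable abbrev h38eT {k : Type*} [Field k] {G : Type*} [Group G]
    {U : Type*} [AddCommGroup U] [Module k U] (ρ : G →* Module.End k U)
    (x : MonoidAlgebra k G) : k :=
  LinearMap.trace k U (h38eL ρ x)

theorem h38eL_of (ρ : G →* Module.End k U) (g : G) :
    h38eL ρ (MonoidAlgebra.of k G g) = ρ g :=
  MonoidAlgebra.lift_of ρ g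

/-- **polarised Cayley–Hamilton on the group algebra.** -/
theorem h38e_pol_lift (ρ : G →* Module.End k U) (σ : G →* Module.End k V)
    (hquad : ∀ g, σ g * σ g - LinearMap.trace k U (ρ g) • σ g +
      LinearMap.det (ρ g) • (1 : Module.End k V) = 0)
    (x y : MonoidAlgebra k G) :
    h38eL σ x * h38eL σ y + h38eL σ y * h38eL σ x =
      h38eT ρ x • h38eL σ y + h38eT ρ y • h38eL σ x +
        (h38eT ρ (x * y) - h38eT ρ x * h38eT ρ y) • (1 : Module.End k V) := by
  have hd : ∀ g h : G, LinearMap.det (ρ (g * h)) = LinearMap.det (ρ g) * LinearMap.det (ρ h) :=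
    fun g h => by rw [map_mul, map_mul]
  induction x using MonoidAlgebra.induction_on with
  | of g =>
    induction y using MonoidAlgebra.induction_on with
    | of h =>
      have e : MonoidAlgebra.of k G g * MonoidAlgebra.of k G h = MonoidAlgebra.of k G (g * h) :=
        (map_mul (MonoidAlgebra.of k G) g h).symm
      simp only [h38eT, e, h38eL_of]
      exact h38e_pol σ (fun g => LinearMap.trace k U (ρ g)) (fun g => LinearMap.det (ρ g))
        hd hquad g h
    | add y₁ y₂ h₁ h₂ =>
      simp only [h38eT, mul_add, add_mul, map_add, add_smul, smul_add] at h₁ h₂ ⊢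
      linear_combination (norm := module) h₁ + h₂
    | smul r y h =>
      simp only [h38eT, mul_smul_comm, smul_mul_assoc, map_smul, smul_eq_mul] at h ⊢
      linear_combination (norm := module) r • h
  | add x₁ x₂ h₁ h₂ =>
    simp only [h38eT, mul_add, add_mul, map_add, add_smul, smul_add] at h₁ h₂ ⊢
    linear_combination (norm := module) h₁ + h₂
  | smul r x h =>
    simp only [h38eT, mul_smul_comm, smul_mul_assoc, map_smul, smul_eq_mul] at h ⊢
    linear_combination (norm := module) r • h

/-- on the kernel of `ρ` the polarised identity degenerates. -/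
theorem h38e_ker_anti (ρ : G →* Module.End k U) (σ : G →* Module.End k V)
    (hquad : ∀ g, σ g * σ g - LinearMap.trace k U (ρ g) • σ g +
      LinearMap.det (ρ g) • (1 : Module.End k V) = 0)
    (x : MonoidAlgebra k G) (hx : h38eL ρ x = 0) (y : MonoidAlgebra k G) :
    h38eL σ x * h38eL σ y + h38eL σ y * h38eL σ x = h38eT ρ y • h38eL σ x := by
  have h := h38e_pol_lift ρ σ hquad x y
  have e1 : h38eT ρ x = 0 := by simp only [h38eT, hx, map_zero]
  have e2 : h38eT ρ (x * y) = 0 := by simp only [h38eT, map_mul, hx, zero_mul, map_zero]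
  rw [e1, e2] at h
  rw [h]
  simp

/-- **the kernel of `ρ` acts nilpotently** (exponent `3`). -/
theorem h38e_ker_cube (h2 : (2 : k) ≠ 0) (ρ : G →* Module.End k U) (σ : G →* Module.End k V)
    (hquad : ∀ g, σ g * σ g - LinearMap.trace k U (ρ g) • σ g +
      LinearMap.det (ρ g) • (1 : Module.End k V) = 0)
    (x x' x'' : MonoidAlgebra k G) (hx : h38eL ρ x = 0) (hx' : h38eL ρ x' = 0)
    (hx'' : h38eL ρ x'' = 0) :
    h38eL σ x * h38eL σ x' * h38eL σ x'' = 0 := by
  have hT' : h38eT ρ x' = 0 := by simp only [h38eT, hx', map_zero]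
  have hT'' : h38eT ρ x'' = 0 := by simp only [h38eT, hx'', map_zero]
  have hT3 : h38eT ρ (x' * x'') = 0 := by
    simp only [h38eT, map_mul, hx', zero_mul, map_zero]
  have a1 := h38e_ker_anti ρ σ hquad x hx x'
  have a2 := h38e_ker_anti ρ σ hquad x hx x''
  have a3 := h38e_ker_anti ρ σ hquad x hx (x' * x'')
  rw [hT', zero_smul] at a1
  rw [hT'', zero_smul] at a2
  rw [hT3, zero_smul, map_mul] at a3
  set A := h38eL σ x
  set B := h38eL σ x'
  set C := h38eL σ x''
  have b1 : A * B = -(B * A) := eq_neg_of_add_eq_zero_left a1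
  have b2 : C * A = -(A * C) := eq_neg_of_add_eq_zero_right a2
  have b3 : A * (B * C) = -(B * C * A) := eq_neg_of_add_eq_zero_left a3
  have key : A * B * C = -(A * B * C) := by
    calc A * B * C = A * (B * C) := mul_assoc _ _ _
      _ = -(B * C * A) := b3
      _ = -(B * (C * A)) := by rw [mul_assoc]
      _ = -(B * -(A * C)) := by rw [b2]
      _ = B * A * C := by rw [mul_neg, neg_neg, mul_assoc]
      _ = -(A * B) * C := by rw [b1, neg_neg]
      _ = -(A * B * C) := by rw [neg_mul]
  have h3 : (2 : k) • (A * B * C) = 0 := by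
    rw [two_smul]
    nth_rewrite 1 [key]
    exact neg_add_cancel _
  rcases smul_eq_zero.mp h3 with h | h
  · exact absurd h h2
  · exact h

/-- a nonzero vector killed by the kernel of `ρ`. -/
theorem h38e_exists_killed (h2 : (2 : k) ≠ 0) (ρ : G →* Module.End k U)
    (σ : G →* Module.End k V) [Nontrivial V]
    (hquad : ∀ g, σ g * σ g - LinearMap.trace k U (ρ g) • σ g +
      LinearMap.det (ρ g) • (1 : Module.End k V) = 0) :
    ∃ v : V, v ≠ 0 ∧ ∀ x : MonoidAlgebra k G, h38eL ρ x = 0 → h38eL σ x v = 0 := by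
  obtain ⟨w, hw⟩ := exists_ne (0 : V)
  by_cases h1 : ∀ x : MonoidAlgebra k G, h38eL ρ x = 0 → h38eL σ x w = 0
  · exact ⟨w, hw, h1⟩
  push Not at h1
  obtain ⟨x₁, hx₁, hw₁⟩ := h1
  by_cases h2' : ∀ x : MonoidAlgebra k G, h38eL ρ x = 0 → h38eL σ x (h38eL σ x₁ w) = 0
  · exact ⟨_, hw₁, h2'⟩
  push Not at h2'
  obtain ⟨x₂, hx₂, hw₂⟩ := h2'
  refine ⟨_, hw₂, fun x hx => ?_⟩
  have h := h38e_ker_cube h2 ρ σ hquad x x₂ x₁ hx hx₂ hx₁
  have h' := congrArg (fun f : Module.End k V => f w) h
  simpa using h'

end Lift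

section Eigen

variable {k : Type*} [Field k] {U : Type*} [AddCommGroup U] [Module k U]

/-- an involution of determinant `-1` of a plane has an eigenbasis with eigenvalues `1, -1`. -/
theorem h38e_eigen_basis (h2 : (2 : k) ≠ 0) (hU : Module.finrank k U = 2)
    (c : Module.End k U) (hc : c * c = 1) (hdet : LinearMap.det c = -1) :
    ∃ up um : U, up ≠ 0 ∧ um ≠ 0 ∧ c up = up ∧ c um = -um ∧
      ∀ w : U, ∃ a b : k, w = a • up + b • um := by
  have : Module.Finite k U := Module.finite_of_finrank_pos (by omega)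
  have h11 : (1 : k) ≠ -1 := by
    intro h
    apply h2
    have : (2 : k) = 1 + 1 := by norm_num
    rw [this]
    nth_rewrite 1 [h]
    exact neg_add_cancel 1
  have hcc : ∀ u, c (c u) = u := fun u => by
    have := congrArg (fun f : Module.End k U => f u) hc
    simpa using this
  -- `c ≠ 1`
  have hne1 : ∃ u, c u - u ≠ 0 := by
    by_contra h
    push Not at h
    have : c = 1 := by
      ext u
      simpa using sub_eq_zero.mp (h u)
    rw [this, map_one] at hdet
    exact h11 hdet
  -- `c ≠ -1`
  have hne2 : ∃ u, c u + u ≠ 0 := by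
    by_contra h
    push Not at h
    have : c = (-1 : k) • (1 : Module.End k U) := by
      ext u
      have := h u
      simp only [neg_smul, one_smul]
      show c u = -(u)
      exact eq_neg_of_add_eq_zero_left this
    rw [this, LinearMap.det_smul, hU, map_one] at hdet
    norm_num at hdet
    exact h11 hdet
  obtain ⟨a, ha⟩ := hne2
  obtain ⟨b, hb⟩ := hne1
  have hp : c (c a + a) = c a + a := by rw [map_add, hcc]; abel
  have hm : c (c b - b) = -(c b - b) := by rw [map_sub, hcc]; abel
  set up := c a + a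
  set um := c b - b
  have hli : LinearIndependent k ![up, um] := by
    rw [LinearIndependent.pair_iff]
    intro s t hst
    have h1 := congrArg c hst
    rw [map_add, map_smul, map_smul, hp, hm, map_zero, smul_neg] at h1
    have h3 : (2 * s) • up = 0 := by
      have : (2 * s) • up = (s • up + t • um) + (s • up + -(t • um)) := by
        rw [mul_smul, two_smul]; abel
      rw [this, hst, h1, add_zero]
    have h4 : (2 * t) • um = 0 := by
      have : (2 * t) • um = (s • up + t • um) - (s • up + -(t • um)) := by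
        rw [mul_smul, two_smul]; abel
      rw [this, hst, h1, sub_zero]
    refine ⟨?_, ?_⟩
    · rcases smul_eq_zero.mp h3 with h | h
      · rcases mul_eq_zero.mp h with h | h
        · exact absurd h h2
        · exact h
      · exact absurd h ha
    · rcases smul_eq_zero.mp h4 with h | h
      · rcases mul_eq_zero.mp h with h | h
        · exact absurd h h2
        · exact h
      · exact absurd h hb
  have hcard : Fintype.card (Fin 2) = Module.finrank k U := by rw [hU]; rfl
  let B := basisOfLinearIndependentOfCardEqFinrank hli hcard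
  have hB0 : B 0 = up := by simp [B]
  have hB1 : B 1 = um := by simp [B]
  refine ⟨up, um, ha, hb, hp, hm, fun w => ⟨B.repr w 0, B.repr w 1, ?_⟩⟩
  have := B.sum_repr w
  rw [Fin.sum_univ_two, hB0, hB1] at this
  exact this.symm

end Eigen

section Core

variable {k : Type*} [Field k] {G : Type*} [Group G]
  {U : Type*} [AddCommGroup U] [Module k U]
  {V : Type*} [AddCommGroup V] [Module k V]

/-- **the transfer lemma**: the annihilator of `u₀` kills `v`. -/
theorem h38e_transfer (h2 : (2 : k) ≠ 0) (ρ : G →* Module.End k U) (σ : G →* Module.End k V)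
    (c : G) (ε : k) (hε : ε * ε = 1) (u₀ u' : U)
    (hcu₀ : ρ c u₀ = ε • u₀) (hcu' : ρ c u' = -(ε • u'))
    (hspan : ∀ u : U, ∃ a b : k, u = a • u₀ + b • u')
    (v : V) (hcv : σ c v = ε • v)
    (hK : ∀ x : MonoidAlgebra k G, h38eL ρ x = 0 → h38eL σ x v = 0)
    (x : MonoidAlgebra k G) (hx : h38eL ρ x u₀ = 0) : h38eL σ x v = 0 := by
  set E : MonoidAlgebra k G := (2⁻¹ : k) • (1 + ε • MonoidAlgebra.of k G c) with hE
  have hρE : ∀ u : U, h38eL ρ E u = (2⁻¹ : k) • (u + ε • ρ c u) := by
    intro u
    simp only [hE, map_smul, map_add, map_one, h38eL_of, LinearMap.smul_apply,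
      LinearMap.add_apply, Module.End.one_apply]
  have hσE : h38eL σ E v = v := by
    simp only [hE, map_smul, map_add, map_one, h38eL_of, LinearMap.smul_apply,
      LinearMap.add_apply, Module.End.one_apply, hcv, smul_smul, hε, one_smul]
    rw [← two_smul k v, smul_smul, inv_mul_cancel₀ h2, one_smul]
  have hker : h38eL ρ (x * E) = 0 := by
    ext u
    obtain ⟨a, b, rfl⟩ := hspan u
    have e1 : h38eL ρ E (a • u₀ + b • u') = a • u₀ := by
      rw [hρE, map_add, map_smul, map_smul, hcu₀, hcu']
      have e2 : a • u₀ + b • u' + ε • (a • ε • u₀ + b • -(ε • u')) = (2 * a) • u₀ := by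
        linear_combination (norm := module) hε • (a • u₀ - b • u')
      rw [e2, smul_smul, ← mul_assoc, inv_mul_cancel₀ h2, one_mul]
    rw [map_mul, Module.End.mul_apply, e1, map_smul, hx, smul_zero]
    rfl
  have := hK (x * E) hker
  rw [map_mul, Module.End.mul_apply, hσE] at this
  exact this

/-- **the core**: from a nonzero vector of `V` killed by the kernel of `ρ`, in the same
eigenspace of `c` as `u₀`, an injective equivariant map. -/
theorem h38e_core (h2 : (2 : k) ≠ 0) (ρ : G →* Module.End k U) (σ : G →* Module.End k V)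
    (hirr : ∀ N : Submodule k U, (∀ g, ∀ u ∈ N, ρ g u ∈ N) → N = ⊥ ∨ N = ⊤)
    (c : G) (ε : k) (hε : ε * ε = 1) (u₀ u' : U) (hu₀ : u₀ ≠ 0)
    (hcu₀ : ρ c u₀ = ε • u₀) (hcu' : ρ c u' = -(ε • u'))
    (hspan : ∀ u : U, ∃ a b : k, u = a • u₀ + b • u')
    (v : V) (hv : v ≠ 0) (hcv : σ c v = ε • v)
    (hK : ∀ x : MonoidAlgebra k G, h38eL ρ x = 0 → h38eL σ x v = 0) :
    ∃ φ : U →ₗ[k] V, Function.Injective φ ∧ ∀ g u, φ (ρ g u) = σ g (φ u) := by
  have hTR := h38e_transfer h2 ρ σ c ε hε u₀ u' hcu₀ hcu' hspan v hcv hK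
  -- the orbit map is surjective
  let ev : MonoidAlgebra k G →ₗ[k] U :=
    (LinearMap.applyₗ u₀).comp (h38eL ρ).toLinearMap
  have hev : ∀ y, ev y = h38eL ρ y u₀ := fun y => rfl
  have hsurj : ∀ u : U, ∃ y : MonoidAlgebra k G, h38eL ρ y u₀ = u := by
    have hN : LinearMap.range ev = ⊤ := by
      rcases hirr (LinearMap.range ev) (by
        rintro g u ⟨y, rfl⟩
        refine ⟨MonoidAlgebra.of k G g * y, ?_⟩
        rw [hev, hev, map_mul, h38eL_of, Module.End.mul_apply]) with h | h
      · exfalso
        apply hu₀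
        have : u₀ ∈ LinearMap.range ev := ⟨1, by rw [hev, map_one, Module.End.one_apply]⟩
        rw [h] at this
        exact (Submodule.mem_bot k).mp this
      · exact h
    intro u
    have : u ∈ LinearMap.range ev := by rw [hN]; trivial
    obtain ⟨y, hy⟩ := this
    exact ⟨y, hy⟩
  choose Y hY using hsurj
  -- independence of the choice
  have hwd : ∀ (y : MonoidAlgebra k G) (u : U), h38eL ρ y u₀ = u →
      h38eL σ (Y u) v = h38eL σ y v := by
    intro y u hy
    have h0 : h38eL ρ (Y u - y) u₀ = 0 := by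
      rw [map_sub, LinearMap.sub_apply, hY, hy, sub_self]
    have := hTR _ h0
    rw [map_sub, LinearMap.sub_apply] at this
    exact sub_eq_zero.mp this
  let φ : U →ₗ[k] V :=
    { toFun := fun u => h38eL σ (Y u) v
      map_add' := fun u₁ u₂ => by
        have := hwd (Y u₁ + Y u₂) (u₁ + u₂) (by
          rw [map_add, LinearMap.add_apply, hY, hY])
        rw [this, map_add, LinearMap.add_apply]
      map_smul' := fun a u => by
        have := hwd (a • Y u) (a • u) (by
          rw [map_smul, LinearMap.smul_apply, hY])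
        rw [this, map_smul, LinearMap.smul_apply]
        rfl }
  have hφ : ∀ u, φ u = h38eL σ (Y u) v := fun u => rfl
  have hequiv : ∀ g u, φ (ρ g u) = σ g (φ u) := by
    intro g u
    have := hwd (MonoidAlgebra.of k G g * Y u) (ρ g u) (by
      rw [map_mul, h38eL_of, Module.End.mul_apply, hY])
    rw [hφ, this, map_mul, h38eL_of, Module.End.mul_apply, hφ]
  refine ⟨φ, ?_, hequiv⟩
  have hφu₀ : φ u₀ = v := by
    have := hwd 1 u₀ (by rw [map_one, Module.End.one_apply])
    rw [hφ, this, map_one, Module.End.one_apply]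
  rw [← LinearMap.ker_eq_bot]
  rcases hirr (LinearMap.ker φ) (by
    intro g u hu
    rw [LinearMap.mem_ker] at hu ⊢
    rw [hequiv, hu, map_zero]) with h | h
  · exact h
  · exfalso
    apply hv
    have : u₀ ∈ LinearMap.ker φ := by rw [h]; trivial
    rw [LinearMap.mem_ker, hφu₀] at this
    exact this

/-- **EMBED (abstract).**  An odd irreducible two-dimensional representation `ρ` embeds into
every nonzero representation in which all group elements satisfy the characteristic polynomials
of `ρ`. -/
theorem h38e_embed_abs (h2 : (2 : k) ≠ 0) (hU : Module.finrank k U = 2)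
    (ρ : G →* Module.End k U)
    (hirr : ∀ N : Submodule k U, (∀ g, ∀ u ∈ N, ρ g u ∈ N) → N = ⊥ ∨ N = ⊤)
    (c : G) (hcc : c * c = 1) (hdet : LinearMap.det (ρ c) = -1)
    [Nontrivial V] (σ : G →* Module.End k V)
    (hquad : ∀ g, σ g * σ g - LinearMap.trace k U (ρ g) • σ g +
      LinearMap.det (ρ g) • (1 : Module.End k V) = 0) :
    ∃ φ : U →ₗ[k] V, Function.Injective φ ∧ ∀ g u, φ (ρ g u) = σ g (φ u) := by
  have hρc : ρ c * ρ c = 1 := by rw [← map_mul, hcc, map_one]
  have hσc : ∀ w, σ c (σ c w) = w := fun w => by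
    have h : σ c * σ c = 1 := by rw [← map_mul, hcc, map_one]
    have := congrArg (fun f : Module.End k V => f w) h
    simpa using this
  obtain ⟨up, um, hup, hum, hcp, hcm, hspan⟩ := h38e_eigen_basis h2 hU (ρ c) hρc hdet
  obtain ⟨v₁, hv₁, hK₁⟩ := h38e_exists_killed h2 ρ σ hquad
  -- the kernel is an ideal: `σ c v₁` is killed as well
  have hK₂ : ∀ x : MonoidAlgebra k G, h38eL ρ x = 0 → h38eL σ x (σ c v₁) = 0 := by
    intro x hx
    have h0 : h38eL ρ (x * MonoidAlgebra.of k G c) = 0 := by rw [map_mul, hx, zero_mul]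
    have := hK₁ _ h0
    rw [map_mul, h38eL_of, Module.End.mul_apply] at this
    exact this
  by_cases hplus : v₁ + σ c v₁ = 0
  · -- `σ c v₁ = - v₁`
    have hcv : σ c v₁ = (-1 : k) • v₁ := by
      rw [neg_smul, one_smul]
      exact eq_neg_of_add_eq_zero_right hplus
    refine h38e_core h2 ρ σ hirr c (-1) (by norm_num) um up hum ?_ ?_ ?_ v₁ hv₁ hcv hK₁
    · rw [hcm, neg_smul, one_smul]
    · rw [hcp, neg_smul, one_smul, neg_neg]
    · intro u
      obtain ⟨a, b, rfl⟩ := hspan u
      exact ⟨b, a, add_comm _ _⟩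
  · refine h38e_core h2 ρ σ hirr c 1 (by norm_num) up um hup ?_ ?_ hspan (v₁ + σ c v₁) hplus
      ?_ ?_
    · rw [hcp, one_smul]
    · rw [hcm, one_smul]
    · rw [map_add, hσc, one_smul, add_comm]
    · intro x hx
      rw [map_add, hK₁ x hx, hK₂ x hx, add_zero]

end Core

end Fermat.Agent.P7
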