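import Mathlib
import Fermat.Agent.P7.H26IntIface
import Fermat.Agent.P7.H37GapM

/-!
# Wave 7, DLOG at the non-good level: INT for functions regular off `∞` (helper38, `h38i_`)

From the frozen `H26iInt` (the elements of the chart at infinity have `A`-integral
`q`-expansions, `P7/H26IntIface.lean`):

* `h38i_mem_modelInf` : `f` Gauss-integral, regular off the `q`-order place `Q`, `- n ≤ ord_Q f`
  ⟹ `j⁻ⁿ f` lies in the chart at infinity.
* `h38i_int_of_regular` : **INT(M)**: such an `f` has `q`-expansion in `A((q))`.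
* `h38i_gaussR_of_regular` : and `gaussR f` is the coefficientwise reduction.
-/

set_option autoImplicit false
set_option linter.unusedSectionVars false
set_option linter.style.haveILetI false

open AlgebraicCurve ModularCurve IsLocalRing

noncomputable section

namespace Fermat.Agent.P7

open Fermat.Agent.S37 Fermat.Agent.Red.GV Fermat.Agent.Red.GV.Soft Fermat.Agent.P5
  Fermat.Agent.Red.Nz

variable {ℓ : ℕ} (M : ℕ) [NeZero M] (A : ValuationSubring Kbar)

/-- `j⁻ⁿ f` lies in the chart at infinity. -/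
theorem h38i_mem_modelInf (hℓ : ℓ.Prime) (hM : ¬ ℓ ∣ M) (hA : A.LiesOverPrime ℓ)
    (Q : Place Kbar (FF M))
    (hQ : ∀ f : FF M, f ≠ 0 → ((f : FF M) : LaurentSeries Kbar).order = Q.ord f)
    (n : ℕ) (f : FF M) (hfV : f ∈ gaussV A M)
    (hf : ∀ v : Place Kbar (FF M), v ≠ Q → 0 ≤ v.ord f) (hfQ : -(n : ℤ) ≤ Q.ord f) :
    (jB M)⁻¹ ^ n * f ∈ modelInf M A := by
  have hj0 : jB M ≠ 0 := Fermat.Agent.Red.ModelO.h85_jB_ne_zero M
  have htV : (jB M)⁻¹ ∈ gaussV A M := jB_inv_mem_gaussV A M hℓ hM hA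
  rcases eq_or_ne f 0 with rfl | hf0
  · rw [mul_zero]
    exact Subring.zero_mem _
  have hgV : (jB M)⁻¹ ^ n * f ∈ gaussV A M := Subring.mul_mem _ (Subring.pow_mem _ htV n) hfV
  have hQt : Q.ord (jB M)⁻¹ = 1 := by
    rw [← hQ _ (inv_ne_zero hj0)]
    have e : ((((jB M)⁻¹ : FF M)) : LaurentSeries Kbar) = (jqModC Kbar)⁻¹ := by
      show _ = (jK Kbar)⁻¹
      rw [← coe_jB M]
      rfl
    rw [e]
    have h2 := h37g_pe_order_map_inv (RingHom.id (LaurentSeries Kbar)) (jqModC Kbar)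
    simp only [RingHom.id_apply] at h2
    rw [h2, h37g_order_jqModC]
    norm_num
  refine h58h_mem_modelInf_of_top M A hℓ hM hA hgV (h58h_regular_inf M _ (fun v hv => ?_))
  apply Fermat.Agent.S24.DiffPlace.mem_of_ord_nonneg v
  rw [h58h_ord_pow_mul M v n (inv_ne_zero hj0) hf0]
  have h1 : 0 ≤ v.ord (jB M)⁻¹ := Fermat.Agent.S24.DiffPlace.ord_nonneg_of_mem v hv
  by_cases hvQ : v = Q
  · subst hvQ
    rw [hQt]
    omega
  · have h2 := hf v hvQ
    have h3 : 0 ≤ (n : ℤ) * v.ord (jB M)⁻¹ := mul_nonneg (Int.natCast_nonneg n) h1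
    omega

/-- **INT(M)** from `H26iInt`: a Gauss-integral function regular off the `q`-order place has a
`q`-expansion with coefficients in `A`. -/
theorem h38i_int_of_regular (hInt : H26iInt) (hℓ : ℓ.Prime) (hM : ¬ ℓ ∣ M)
    (hA : A.LiesOverPrime ℓ) (Q : Place Kbar (FF M))
    (hQ : ∀ f : FF M, f ≠ 0 → ((f : FF M) : LaurentSeries Kbar).order = Q.ord f)
    (f : FF M) (hfV : f ∈ gaussV A M)
    (hf : ∀ v : Place Kbar (FF M), v ≠ Q → 0 ≤ v.ord f) :
    ∃ a : LaurentSeries A, embA A a = ((f : FF M) : LaurentSeries Kbar) := by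
  have hj0 : jB M ≠ 0 := Fermat.Agent.Red.ModelO.h85_jB_ne_zero M
  set n : ℕ := (-(Q.ord f)).toNat with hn
  have hfQ : -(n : ℤ) ≤ Q.ord f := by
    have := Int.self_le_toNat (-(Q.ord f))
    omega
  obtain ⟨y, hy⟩ := hInt ℓ hℓ M hM A hA _ (h38i_mem_modelInf M A hℓ hM hA Q hQ n f hfV hf hfQ)
  refine ⟨jqModC A ^ n * y, ?_⟩
  rw [map_mul, map_pow, embA_jqModC, hy]
  have e : ((((jB M)⁻¹ ^ n * f : FF M)) : LaurentSeries Kbar) =
      ((((jB M)⁻¹ ^ n : FF M)) : LaurentSeries Kbar) * ((f : FF M) : LaurentSeries Kbar) := rfl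
  have e2 : ((((jB M)⁻¹ ^ n : FF M)) : LaurentSeries Kbar) = ((jK Kbar)⁻¹) ^ n := by
    have e3 : ((((jB M)⁻¹ ^ n : FF M)) : LaurentSeries Kbar) =
        ((((jB M)⁻¹ : FF M)) : LaurentSeries Kbar) ^ n := rfl
    rw [e3]
    congr 1
    rw [← coe_jB M]
    rfl
  have hjK : jK Kbar ≠ 0 := by
    rw [← coe_jB M]
    intro h0
    exact hj0 (Subtype.ext h0)
  rw [e, e2, ← mul_assoc, ← mul_pow, mul_inv_cancel₀ hjK, one_pow, one_mul]

/-- and then `gaussR f` is the coefficientwise reduction of the `q`-expansion. -/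
theorem h38i_gaussR_of_regular (hInt : H26iInt) (hℓ : ℓ.Prime) (hM : ¬ ℓ ∣ M)
    (hA : A.LiesOverPrime ℓ) (Q : Place Kbar (FF M))
    (hQ : ∀ f : FF M, f ≠ 0 → ((f : FF M) : LaurentSeries Kbar).order = Q.ord f)
    (f : FF M) (hfV : f ∈ gaussV A M)
    (hf : ∀ v : Place Kbar (FF M), v ≠ Q → 0 ≤ v.ord f) :
    ∃ a : LaurentSeries A, embA A a = ((f : FF M) : LaurentSeries Kbar) ∧
      gaussR A M ⟨f, hfV⟩ = redA (residue A) a := by
  obtain ⟨a, ha⟩ := h38i_int_of_regular M A hInt hℓ hM hA Q hQ f hfV hf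
  exact ⟨a, ha, gaussRed_of_embA A (residue A) M ⟨f, hfV⟩ a ha⟩

end Fermat.Agent.P7
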