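import Fermat.Agent.P7.H39DictBar
import Fermat.Agent.P7.H7CuspOrthDict

/-!
# Wave 7, block (A), DLOG leaf DL5 (CUSP-ORTH) over `ℚ̄` (helper39, prefix `h39b_`)

Consumer forms of DL5 for the function field `FF N` over `ℚ̄`: if `F₀ ∈ FF N` is regular at every
place of `FF N` other than the `q`-order place, then the constant term of `F₀ · h` vanishes for
every weight two cusp form `h` on `Γ₀(N)` (`h39b_cuspOrth_bar`), from the dictionary over `ℂ`
(`h7co_dict`, helper7) and the adapter `h39b_adapter`.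
-/

set_option autoImplicit false

open ModularCurve AlgebraicCurve UpperHalfPlane CongruenceSubgroup
open scoped MatrixGroups Manifold

noncomputable section

namespace Fermat.Agent.P7

open Fermat.Agent.S24 (Kbar FF embC)
open Fermat.Agent.Jac

/-- `F₀ ∈ FF N` is regular at every place except the `q`-order place. -/
def H39bRegOff (N : ℕ) (F0 : FF N) : Prop :=
  ∀ w : Place Kbar (FF N),
    (∃ f : FF N, f ≠ 0 ∧ w.ord f ≠ (f : LaurentSeries Kbar).order) → 0 ≤ w.ord F0

/-- regular off a place `Q` whose order is the `q`-order. -/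
theorem h39b_regOff_of_ne (N : ℕ) (F0 : FF N) (Q : Place Kbar (FF N))
    (hQ : ∀ f : FF N, f ≠ 0 → Q.ord f = (f : LaurentSeries Kbar).order)
    (hreg : ∀ w : Place Kbar (FF N), w ≠ Q → 0 ≤ w.ord F0) : H39bRegOff N F0 := by
  intro w ⟨f, hf0, hf⟩
  refine hreg w (fun h => hf ?_)
  rw [h]
  exact hQ f hf0

/-- the base change of a function regular off the `q`-place is regular off the `q`-place. -/
theorem h39b_regOff_BC (N : ℕ) [NeZero N] (F0 : FF N) (h0 : H39bRegOff N F0) :
    H7coRegOff N (h39bBC N F0) :=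
  h39b_adapter N F0 (h39bBC N F0) rfl h0

/-- **DL5, DICTIONARY over `ℚ̄`.** -/
theorem h39b_dict_bar (N : ℕ) [NeZero N] (F0 : FF N) (h0 : H39bRegOff N F0) :
    ∃ A : ℍ → ℂ, H7coAn N (coeffMap embC (F0 : LaurentSeries Kbar)) A ∧
      IsAnC N (h39bBC N F0) A 1 :=
  h7co_dict N (h39bBC N F0) (h39b_regOff_BC N F0 h0)

/-- **DL5 (CUSP-ORTH) over `ℚ̄`**: the constant term of `F₀ · h` vanishes for every weight two
cusp form `h` on `Γ₀(N)` and every `F₀ ∈ FF N` regular off the `q`-place. -/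
theorem h39b_cuspOrth_bar (N : ℕ) [NeZero N] (h : CuspForm (Gamma0 N) 2) (F0 : FF N)
    (h0 : H39bRegOff N F0) :
    (coeffMap embC (F0 : LaurentSeries Kbar) *
      HahnSeries.ofPowerSeries ℤ ℂ (qExpansion 1 h)).coeff 0 = 0 :=
  h7co_cuspOrth_alg N h (h39bBC N F0) (h39b_regOff_BC N F0 h0)

/-- the same, with the place `Q` given. -/
theorem h39b_cuspOrth_bar' (N : ℕ) [NeZero N] (h : CuspForm (Gamma0 N) 2) (F0 : FF N)
    (Q : Place Kbar (FF N))
    (hQ : ∀ f : FF N, f ≠ 0 → Q.ord f = (f : LaurentSeries Kbar).order)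
    (hreg : ∀ w : Place Kbar (FF N), w ≠ Q → 0 ≤ w.ord F0) :
    (coeffMap embC (F0 : LaurentSeries Kbar) *
      HahnSeries.ofPowerSeries ℤ ℂ (qExpansion 1 h)).coeff 0 = 0 :=
  h39b_cuspOrth_bar N h F0 (h39b_regOff_of_ne N F0 Q hQ hreg)

end Fermat.Agent.P7
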