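import Fermat.Agent.P7.H39GenusWH
import Fermat.Agent.P7.H26GenusMatchIface

/-!
# Wave 7, block (A), DLOG kill gate DL6B (GENUS-MATCH), leaf GM-WH in the frozen shape of
`P7/H26GenusMatchIface.lean` (helper39, prefix `h39o_`)

`h39o_mWH : H26mWH`, from the landed `h39o_k1` (`P7/H39WHField.lean`).
-/

set_option autoImplicit false

open ModularCurve AlgebraicCurve UpperHalfPlane CongruenceSubgroup
open scoped MatrixGroups Manifold

noncomputable section

namespace Fermat.Agent.P7

/-- **GM-WH** in the frozen shape of `P7/H26GenusMatchIface.lean`. -/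
theorem h39o_mWH : H26mWH := by
  intro N _ d A hA
  exact h39o_k1_max N d A hA

end Fermat.Agent.P7
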