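import Fermat.Agent.P7.H3DlogFinal
import Fermat.Agent.P7.H37GapMS2
import Fermat.Agent.P7.H45SlopeZero

/-!
# Wave 7 (row 38), DLOG route: the final wiring, second stage (helper3)

(I-1) SLOPE-ZERO is unconditional (`h45y_slopeZero`, helper45) and CONST(M) follows from
helper26's frozen `(S2)` (`h37k_const_S2`, helper37).  Hence the frozen statement S44 follows from

* `H26iS2` (`P7/H26IntIface.lean`): at a good level the reduction map of places sends the
  `q`-order place to the `q`-order place;
* `H3gCuspRed p` (CUSP-ORTH-RED) and `H3gOrthM p` (ORTH(M)) for all `p ≥ 5`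
  (`P7/H3DlogFinal.lean`).

Every declaration is a proved theorem; nothing is assumed.
-/

set_option autoImplicit false
set_option linter.unusedSectionVars false
set_option linter.unusedVariables false
set_option linter.style.haveILetI false

open ModularCurve AlgebraicCurve IsLocalRing

noncomputable section

namespace Fermat.Agent.P7

open Fermat.Agent.S37

/-- CONST(M) for all data from `(S2)`. -/
theorem h3g_constM_of_S2 (hS2 : H26iS2) (p : ℕ) : H3gConstM p :=
  fun hp _ M _ hpM A hA Q hQ => h37k_const_S2 M A hS2 hp hpM hA Q hQ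

/-- the single DLOG input from `(S2)`, CUSP-ORTH-RED and ORTH(M). -/
theorem h3g_in_of_S2 {p : ℕ} (hS2 : H26iS2) (hK : H3gCuspRed p) (hO : H3gOrthM p) :
    H3gDlogIn p :=
  h3g_in_of_leaves (h3g_constM_of_S2 hS2 p) hK hO

/-- **the frozen statement S44** from `(S2)`, CUSP-ORTH-RED and ORTH(M). -/
theorem h3g_s44_of_S2 (hS2 : H26iS2) (hK : ∀ p : ℕ, 5 ≤ p → H3gCuspRed p)
    (hO : ∀ p : ℕ, 5 ≤ p → H3gOrthM p)
    (P : FreyPackage) {N : ℕ} (hcond : P.IsConductorLevel N) (hpN : P.p ∣ N)
    (hirr : WeierstrassCurve.Affine.Point.GaloisRepIsIrreducible (K := AlgebraicClosure ℚ) ℚ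
      P.freyCurve P.p)
    (hmod : P.ModularRepOfLevel N) :
    ∃ M : ℕ, M ∣ N ∧ ¬ P.p ∣ M ∧ P.ModularRepOfLevel M :=
  h3g_s44_of_leaves (fun p _ => h45y_slopeZero p) (fun p _ => h3g_constM_of_S2 hS2 p) hK hO
    P hcond hpN hirr hmod

end Fermat.Agent.P7
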