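import Fermat.Agent.P7.H3DlogFinal2
import Fermat.Agent.P7.H1S2
import Fermat.Agent.P7.H10CuspOrthHcusp

/-!
# Wave 7 (row 38), DLOG route: the final wiring, third stage (helper3)

`(S2)` (`h1i_s2`, helper1) and CUSP-ORTH-RED (`h10x_cuspOrthRed_gauss`, helper10) are landed
unconditionally.  Hence CONST(M) and CUSP-ORTH-RED hold in the shapes of `P7/H3DlogFinal.lean`,
and the frozen statement S44 follows from ORTH(M) ALONE:

* `h3g_constM p : H3gConstM p`;
* `h3g_cuspRed p : H3gCuspRed p`;
* `h3g_in_of_orth : H3gOrthM p → H3gDlogIn p`;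
* `h3g_s44_of_orth : (∀ p ≥ 5, H3gOrthM p) → (frozen S44)`.

Every declaration is a proved theorem; nothing is assumed.
-/

set_option autoImplicit false
set_option linter.unusedSectionVars false
set_option linter.unusedVariables false
set_option linter.style.haveILetI false

open ModularCurve AlgebraicCurve IsLocalRing

noncomputable section

namespace Fermat.Agent.P7

open Fermat.Agent.S37

/-- **CONST(M)**, unconditional. -/
theorem h3g_constM (p : ℕ) : H3gConstM p := h3g_constM_of_S2 h1i_s2 p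

/-- **CUSP-ORTH-RED**, unconditional, in the primitive shape. -/
theorem h3g_cuspRed (p : ℕ) : H3gCuspRed p := by
  intro hp _ M _ hpM A hA Q hQ f hf hreg w hw
  obtain ⟨h, c, hc, rfl⟩ := hw
  exact h10x_cuspOrthRed_gauss hp A hA M hpM f (h10x_regOff_of_place M Q hQ f hreg) hf h c hc

/-- the single DLOG input from ORTH(M) alone. -/
theorem h3g_in_of_orth {p : ℕ} (hO : H3gOrthM p) : H3gDlogIn p :=
  h3g_in_of_leaves (h3g_constM p) (h3g_cuspRed p) hO

/-- **the frozen statement S44 from ORTH(M) alone.** -/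
theorem h3g_s44_of_orth (hO : ∀ p : ℕ, 5 ≤ p → H3gOrthM p)
    (P : FreyPackage) {N : ℕ} (hcond : P.IsConductorLevel N) (hpN : P.p ∣ N)
    (hirr : WeierstrassCurve.Affine.Point.GaloisRepIsIrreducible (K := AlgebraicClosure ℚ) ℚ
      P.freyCurve P.p)
    (hmod : P.ModularRepOfLevel N) :
    ∃ M : ℕ, M ∣ N ∧ ¬ P.p ∣ M ∧ P.ModularRepOfLevel M :=
  h3g_s44_of_S2 h1i_s2 (fun p _ => h3g_cuspRed p) hO P hcond hpN hirr hmod

end Fermat.Agent.P7
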