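import Fermat.Agent.P7.H94ToricStart

/-!
# Wave 7 (S40), block (T) TORIC, leaf (S) T-START (helper76)

Setting: `p` a prime, `M` a level, `N = M * p`, `A` a valuation subring of `ℚ̄` over `p`,
`W_∞ = softV A N` the Gauss valuation ring at infinity, `softR A N : W_∞ → k((q))` its
reduction (`k` the residue field of `A`), `kC = softR (W_∞)` the residue field.

* `H76wResPow A N r w` : the frozen hypothesis of the leaf, "`w̄ ∈ k^× · kC^{× r}`": after
  scaling `w` by a nonzero constant to an element of `W_∞`, its reduction is a nonzero constant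
  of `k` times the `r`-th power of the reduction of a unit of `W_∞`.
* `h76w_one_of_resPow` : then `w / g ^ r ≡ 1` for a suitable function `g ≠ 0`
  (the constants are absorbed: `ℚ̄` is algebraically closed, `A → k` is onto).
* `h76w_start` : **T-START (i)**: `H76wResPow ⇒ ∃ c ∈ 𝔪_A, c ≠ 0, h94iDeep A M p r w c`.
* `h76w_toric_of_resPow` : **T-START (ii)**, torsion form at EVERY level `M * p`, `p ∤ M`,
  `p` odd: a class `x` with `α_* x = β_* x = 0` and a Kummer representative `w` whose reduction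
  is a constant times a `p ^ k`-th power satisfies `τ x = a x` for every `τ` in the inertia
  group acting on `μ_{p^k}` through the exponent `a` (landed `h94w_toric_of_one`).
* `h76w_toric_of_resPow_good` : the same with the hypothesis read at the GOOD level
  `goodLevel p M * p` above `M * p` (what the block (A) produces): START goes up along `degen`,
  the root of the twisted difference comes down (`h63_descent_pow`); no condition on the
  degree of the degeneracy map (so `p = 3`, `M` odd is covered).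
* `h76w_resPow_degen` : the hypothesis goes up along the degeneracy inclusions.
* `h76w_resPow_mul_pow`, `h76w_resPow_cst_mul`, `h76w_resPow_of_one` : the hypothesis only
  depends on the class of `w` modulo constants and `r`-th powers.
-/

set_option autoImplicit false
set_option linter.unusedSectionVars false
set_option linter.unusedVariables false
set_option linter.style.haveILetI false
set_option synthInstance.maxHeartbeats 400000

open AlgebraicCurve ModularCurve

noncomputable section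

namespace Fermat.Agent.P7

open Fermat.Agent.S37 Fermat.Agent.Red.KR Fermat.Agent.Red.Kron Fermat.Agent.LGC
  Fermat.Agent.S35 Fermat.Agent.P6
open Fermat.Agent.Red.GV Fermat.Agent.Red.GV.Soft
open Fermat.Agent.Jac.K1 (IsKummerPair)

/-- **T-START, frozen hypothesis** ("`w̄ ∈ k^× · kC^{× r}`"): a nonzero constant multiple of `w`
lies in the Gauss valuation ring `W_∞ = softV A N` and its reduction is a nonzero constant times
the `r`-th power of a nonzero element of the residue field `kC = softR (W_∞)`. -/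
def H76wResPow (A : ValuationSubring Kbar) (N r : ℕ) (w : FF N) : Prop :=
  ∃ c : Kbar, c ≠ 0 ∧ ∃ hm : cst N c * w ∈ softV A N, ∃ g : softV A N,
    ∃ a : IsLocalRing.ResidueField A, a ≠ 0 ∧ softR A N g ≠ 0 ∧
      softR A N ⟨cst N c * w, hm⟩ = HahnSeries.C a * softR A N g ^ r

/-- **T-START, frozen statement**: the reduction form gives the start congruence of the ladder. -/
def H76wStart : Prop :=
  ∀ (p : ℕ), p.Prime → ∀ (M : ℕ) [NeZero M] (A : ValuationSubring Kbar),
    A.LiesOverPrime p → ∀ (r : ℕ), r ≠ 0 → ∀ w : FF (M * p), H76wResPow A (M * p) r w →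
      ∃ c ∈ A.nonunits, c ≠ 0 ∧ h94iDeep A M p r w c

/-- **constants and `r`-th powers are absorbed**: from the reduction form, `w / G ^ r ≡ 1` for
a suitable function `G ≠ 0`. -/
theorem h76w_one_of_resPow (A : ValuationSubring Kbar) (N : ℕ) {r : ℕ} (hr : r ≠ 0)
    {w : FF N} (h : H76wResPow A N r w) :
    ∃ G : FF N, G ≠ 0 ∧ h75q_One A N (w * (G ^ r)⁻¹) := by
  obtain ⟨c, hc, hm, g, a, ha, hg, e⟩ := h
  -- lift the constant
  obtain ⟨a', ha'⟩ := IsLocalRing.residue_surjective (R := A) a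
  have ha'u : IsUnit a' := by
    by_contra hnu
    have h0 : IsLocalRing.residue A a' = 0 := by
      rw [IsLocalRing.residue_eq_zero_iff]
      exact (IsLocalRing.mem_maximalIdeal a').mpr hnu
    exact ha (ha'.symm.trans h0)
  have ha0 : (a' : Kbar) ≠ 0 := by
    intro h0
    apply ha
    have : a' = 0 := Subtype.ext h0
    rw [← ha', this, map_zero]
  have hainv : (a' : Kbar)⁻¹ ∈ A := by
    obtain ⟨u, hu⟩ := ha'u
    have h1 : ((u⁻¹ : Aˣ) : A) * a' = 1 := by rw [← hu]; exact u.inv_mul
    have h2 : (((u⁻¹ : Aˣ) : A) : Kbar) * (a' : Kbar) = 1 := by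
      have := congrArg (fun z : A => (z : Kbar)) h1
      simpa using this
    have h3 : (a' : Kbar)⁻¹ = (((u⁻¹ : Aˣ) : A) : Kbar) := by
      rw [inv_eq_iff_eq_inv]
      exact (eq_inv_of_mul_eq_one_right h2)
    rw [h3]
    exact Subtype.mem _
  -- the `r`-th root of the constant
  obtain ⟨b, hb⟩ := IsAlgClosed.exists_pow_nat_eq ((a' : Kbar) * c⁻¹) (Nat.pos_of_ne_zero hr)
  have hb0 : b ≠ 0 := by
    intro h0
    rw [h0, zero_pow hr] at hb
    exact (mul_ne_zero ha0 (inv_ne_zero hc)) hb.symm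
  -- `g` is a unit of `W_∞`
  obtain ⟨hg0, hgi⟩ := (softR_ne_zero_iff A N g).mp hg
  have hcb : cst N b ≠ 0 := (map_ne_zero_iff _ (algebraMap Kbar (FF N)).injective).mpr hb0
  refine ⟨cst N b * (g : FF N), mul_ne_zero hcb hg0, ?_⟩
  have hcai : cst N (a' : Kbar)⁻¹ ∈ softV A N := (cst_mem_softV_iff A N _).mpr hainv
  have hca : cst N (a' : Kbar) ∈ softV A N := (cst_mem_softV_iff A N _).mpr a'.2
  have hgir : ((g : FF N)⁻¹) ^ r ∈ softV A N := pow_mem hgi r
  have key : w * ((cst N b * (g : FF N)) ^ r)⁻¹ =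
      (cst N c * w) * cst N (a' : Kbar)⁻¹ * ((g : FF N)⁻¹) ^ r := by
    have hcc : cst N c ≠ 0 := (map_ne_zero_iff _ (algebraMap Kbar (FF N)).injective).mpr hc
    have hbr : cst N b ^ r = cst N (a' : Kbar) * (cst N c)⁻¹ := by
      rw [← map_pow, hb]
      show algebraMap Kbar (FF N) _ = algebraMap Kbar (FF N) _ * (algebraMap Kbar (FF N) _)⁻¹
      rw [map_mul, map_inv₀]
    have hcai' : cst N (a' : Kbar)⁻¹ = (cst N (a' : Kbar))⁻¹ := by
      show algebraMap Kbar (FF N) _ = (algebraMap Kbar (FF N) _)⁻¹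
      rw [map_inv₀]
    have hca0 : cst N (a' : Kbar) ≠ 0 :=
      (map_ne_zero_iff _ (algebraMap Kbar (FF N)).injective).mpr ha0
    rw [mul_pow, hbr, hcai', inv_pow]
    field_simp
  have hmem : w * ((cst N b * (g : FF N)) ^ r)⁻¹ ∈ softV A N := by
    rw [key]
    exact mul_mem (mul_mem hm hcai) hgir
  refine ⟨hmem, ?_⟩
  have e1 : (⟨w * ((cst N b * (g : FF N)) ^ r)⁻¹, hmem⟩ : softV A N) =
      ⟨cst N c * w, hm⟩ * ⟨cst N (a' : Kbar)⁻¹, hcai⟩ * ⟨(g : FF N)⁻¹, hgi⟩ ^ r :=
    Subtype.ext key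
  have e2 : softR A N ⟨cst N (a' : Kbar), hca⟩ = HahnSeries.C a := by
    rw [softR_cst A N a' hca, ha']
  have e3 : softR A N ⟨cst N (a' : Kbar), hca⟩ * softR A N ⟨cst N (a' : Kbar)⁻¹, hcai⟩ = 1 := by
    rw [← map_mul]
    have : (⟨cst N (a' : Kbar), hca⟩ : softV A N) * ⟨cst N (a' : Kbar)⁻¹, hcai⟩ = 1 := by
      apply Subtype.ext
      show cst N (a' : Kbar) * cst N (a' : Kbar)⁻¹ = 1
      rw [show cst N (a' : Kbar) * cst N (a' : Kbar)⁻¹ = cst N ((a' : Kbar) * (a' : Kbar)⁻¹)
        from (map_mul _ _ _).symm, mul_inv_cancel₀ ha0]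
      exact map_one _
    rw [this, map_one]
  have e4 : softR A N g * softR A N ⟨(g : FF N)⁻¹, hgi⟩ = 1 := by
    rw [← map_mul]
    have : g * (⟨(g : FF N)⁻¹, hgi⟩ : softV A N) = 1 :=
      Subtype.ext (mul_inv_cancel₀ hg0)
    rw [this, map_one]
  rw [e1, map_mul, map_mul, map_pow, e]
  rw [e2] at e3
  calc HahnSeries.C a * softR A N g ^ r * softR A N ⟨cst N (a' : Kbar)⁻¹, hcai⟩ *
        softR A N ⟨(g : FF N)⁻¹, hgi⟩ ^ r
      = (HahnSeries.C a * softR A N ⟨cst N (a' : Kbar)⁻¹, hcai⟩) *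
        (softR A N g * softR A N ⟨(g : FF N)⁻¹, hgi⟩) ^ r := by ring
    _ = 1 := by rw [e3, e4, one_pow, one_mul]

/-- **T-START (i)**: the reduction form gives the start congruence of the ladder, with a NONZERO
depth `c ∈ 𝔪_A`. -/
theorem h76w_start : H76wStart := by
  intro p hp M _ A hA r hr w h
  haveI : NeZero p := ⟨hp.ne_zero⟩
  obtain ⟨G, hG, h1⟩ := h76w_one_of_resPow A (M * p) hr h
  exact h94w_start_of_one hp M A hA r hG h1

/-- **T-START (ii), torsion form, every level `M * p`, `p ∤ M`, `p` odd**: a class `x` of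
`J₀(M p)` with `α_* x = β_* x = 0` and a Kummer representative `w` whose reduction at `W_∞` is a
constant times a `p ^ k`-th power is toric: `τ x = a x` for every `τ` in the inertia group acting
on `μ_{p^k}` through the exponent `a`. -/
theorem h76w_toric_of_resPow {p : ℕ} (hp : p.Prime) (hp2 : p ≠ 2) (M : ℕ) [NeZero M]
    (hpM : ¬ p ∣ M) (A : ValuationSubring Kbar) (hA : A.LiesOverPrime p) :
    haveI : NeZero p := ⟨hp.ne_zero⟩
    ∀ τ ∈ A.inertiaSubgroupIn ℚ, ∀ (k a : ℕ), H11Cyc p k τ a →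
    ∀ (x : JZero (M * p)) (w : FF (M * p)), IsKummerPair (p ^ k) x w →
      pushAlpha M p x = 0 → pushBeta M p x = 0 →
      H76wResPow A (M * p) (p ^ k) w →
      τ • x = a • x := by
  haveI : NeZero p := ⟨hp.ne_zero⟩
  intro τ hτ k a ha x w hw hα hβ h
  obtain ⟨G, hG, h1⟩ := h76w_one_of_resPow A (M * p) (pow_ne_zero k hp.ne_zero) h
  exact h94w_toric_of_one hp hp2 M hpM A hA τ hτ k a ha x w G hw hα hβ hG h1

/-- **T-START (ii'), START at the GOOD level suffices** (`p` odd, `p ∤ M`, every level `M`):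
a class `x` of `J₀(M p)` with `α_* x = β_* x = 0` and a Kummer representative `w` such that
the reduction of `w`, read at the good level `M⁺ p` (`M⁺ = goodLevel p M = lcm (M, 4)`), is a
constant times a `p ^ k`-th power in the residue field of level `M⁺ p`, is toric.  No descent
of the `p`-th root along the residue fields is needed (the gate is applied at the level `M⁺ p`
and the root of the twisted difference descends by `h63_descent_pow`); in particular no
condition `p ∤ [Γ₀(M) : Γ₀(M⁺)]`. -/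
theorem h76w_toric_of_resPow_good {p : ℕ} (hp : p.Prime) (hp2 : p ≠ 2) (M : ℕ) [NeZero M]
    (hpM : ¬ p ∣ M) (A : ValuationSubring Kbar) (hA : A.LiesOverPrime p) :
    haveI : NeZero p := ⟨hp.ne_zero⟩
    ∀ τ ∈ A.inertiaSubgroupIn ℚ, ∀ (k a : ℕ), H11Cyc p k τ a →
    ∀ (x : JZero (M * p)) (w : FF (M * p)), IsKummerPair (p ^ k) x w →
      pushAlpha M p x = 0 → pushBeta M p x = 0 →
      H76wResPow A (goodLevel p M * p) (p ^ k)
        (degen (Nat.mul_dvd_mul_right (dvd_goodLevel p M) p) w) →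
      τ • x = a • x := by
  haveI : NeZero p := ⟨hp.ne_zero⟩
  intro τ hτ k a ha x w hw hα hβ h
  have hn : p ^ k ≠ 0 := pow_ne_zero _ hp.ne_zero
  have hd : M ∣ goodLevel p M := dvd_goodLevel p M
  have hdq : M * p ∣ goodLevel p M * p := Nat.mul_dvd_mul_right hd p
  have hpM' : ¬ p ∣ goodLevel p M := not_dvd_goodLevel hp hpM
  have hw0 : w ≠ 0 := hw.ne_zero
  obtain ⟨g₁, -, hg₁⟩ := h33s_norm_eq_pow_of_pushAlpha M p hn hw hα
  obtain ⟨g₂, -, hg₂⟩ := h33s_norm_eq_pow_of_pushBeta M p hn hw hβ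
  obtain ⟨c, hc, -, hdeep⟩ := h76w_start p hp (goodLevel p M) A hA (p ^ k) hn _ h
  obtain ⟨h', hh'⟩ := h94w_twGateAt hp hp2 (goodLevel p M) hpM' A hA hτ k a ha (degen hdq w)
    (h31s_degen_ne_zero hdq hw0)
    (by
      intro v
      rw [Place.ord_restrictAlong (degen hdq) (Fermat.Agent.Red.GateAll.h99_isIntegral_degen _) v w]
      exact Dvd.dvd.mul_left (hw.dvd_ord _) _)
    ⟨⟨degen hd g₁, by
        have e := h31s_norm_alpha_degen p hp hpM hpM' hd w
        have e' : normAlong (heckeAlphaBar Kbar M p) w = g₁ ^ p ^ k := hg₁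
        rw [e'] at e
        rw [← map_pow]
        exact e⟩,
      ⟨degen hd g₂, by
        have e := h31s_norm_beta_degen p hp hpM hpM' hd w
        have e' : normAlong (heckeBetaBar Kbar M p) w = g₂ ^ p ^ k := hg₂
        rw [e'] at e
        rw [← map_pow]
        exact e⟩⟩
    ⟨c, hc, hdeep⟩
  rw [← h25p_theta_degen hdq] at hh'
  have hgl := h31s_goodLevel_mul_dvd hp hpM
  obtain ⟨H, hH⟩ := h63_descent_pow p (M * p) (p ^ k) hn (h11Theta (M * p) τ a w)
    (h25p_theta_ne_zero _ τ a hw0) (h25p_dvd_ord_theta τ a hw0 (fun v => hw.dvd_ord v))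
    ⟨degen hgl h', by rw [← map_pow, hh', h31s_degen_degen]⟩
  exact h25p_class_of_pow (M * p) τ a hn hw H hH

/-! ### The hypothesis only depends on the class of `w` modulo constants and `r`-th powers -/

/-- a function congruent to `1` has the reduction form. -/
theorem h76w_resPow_of_one (A : ValuationSubring Kbar) (N r : ℕ) {w : FF N}
    (h : h75q_One A N w) : H76wResPow A N r w := by
  obtain ⟨hm, e⟩ := h
  have hm' : cst N 1 * w ∈ softV A N := by
    rw [show cst N (1 : Kbar) = 1 from map_one _, one_mul]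
    exact hm
  refine ⟨1, one_ne_zero, hm', 1, 1, one_ne_zero, ?_, ?_⟩
  · rw [map_one]
    exact one_ne_zero
  · have e1 : (⟨cst N 1 * w, hm'⟩ : softV A N) = ⟨w, hm⟩ := by
      apply Subtype.ext
      show cst N 1 * w = w
      rw [show cst N (1 : Kbar) = 1 from map_one _, one_mul]
    rw [e1, e, map_one, map_one, one_pow, one_mul]

/-- the reduction form is stable under multiplication by a nonzero constant. -/
theorem h76w_resPow_cst_mul (A : ValuationSubring Kbar) (N r : ℕ) {w : FF N} {d : Kbar}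
    (hd : d ≠ 0) (h : H76wResPow A N r w) : H76wResPow A N r (cst N d * w) := by
  obtain ⟨c, hc, hm, g, a, ha, hg, e⟩ := h
  have key : cst N (c * d⁻¹) * (cst N d * w) = cst N c * w := by
    rw [← mul_assoc, show cst N (c * d⁻¹) * cst N d = cst N (c * d⁻¹ * d) from
      (map_mul _ _ _).symm, inv_mul_cancel_right₀ hd]
  have hm' : cst N (c * d⁻¹) * (cst N d * w) ∈ softV A N := by
    rw [key]
    exact hm
  refine ⟨c * d⁻¹, mul_ne_zero hc (inv_ne_zero hd), hm', g, a, ha, hg, ?_⟩
  have e1 : (⟨cst N (c * d⁻¹) * (cst N d * w), hm'⟩ : softV A N) = ⟨cst N c * w, hm⟩ :=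
    Subtype.ext key
  rw [e1, e]

/-- the reduction form is stable under multiplication by the `r`-th power of a nonzero
function. -/
theorem h76w_resPow_mul_pow (A : ValuationSubring Kbar) (N : ℕ) {p : ℕ} (hp : p.Prime)
    (hA : A.LiesOverPrime p) (r : ℕ) {w : FF N}
    (h : H76wResPow A N r w) {y : FF N} (hy : y ≠ 0) : H76wResPow A N r (w * y ^ r) := by
  obtain ⟨c, hc, hm, g, a, ha, hg, e⟩ := h
  -- scale `y` to a unit of `W_∞`
  obtain ⟨d, hd, hyd, hydi⟩ := exists_cst_mul_unit_soft A N hp hA y hy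
  have hdr : d ^ r ≠ 0 := pow_ne_zero _ hd
  have key : cst N (c * d ^ r) * (w * y ^ r) = (cst N c * w) * (cst N d * y) ^ r := by
    rw [show cst N (c * d ^ r) = cst N c * cst N d ^ r from by
      rw [show cst N (c * d ^ r) = cst N c * cst N (d ^ r) from map_mul _ _ _,
        show cst N (d ^ r) = cst N d ^ r from map_pow _ _ _]]
    ring
  have hm' : cst N (c * d ^ r) * (w * y ^ r) ∈ softV A N := by
    rw [key]
    exact mul_mem hm (pow_mem hyd r)
  have hcy0 : cst N d * y ≠ 0 :=
    mul_ne_zero ((map_ne_zero_iff _ (algebraMap Kbar (FF N)).injective).mpr hd) hy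
  have hyu : softR A N ⟨cst N d * y, hyd⟩ ≠ 0 :=
    (softR_ne_zero_iff A N ⟨cst N d * y, hyd⟩).mpr ⟨hcy0, hydi⟩
  refine ⟨c * d ^ r, mul_ne_zero hc hdr, hm', g * ⟨cst N d * y, hyd⟩, a, ha, ?_, ?_⟩
  · rw [map_mul]
    exact mul_ne_zero hg hyu
  · have e1 : (⟨cst N (c * d ^ r) * (w * y ^ r), hm'⟩ : softV A N) =
        ⟨cst N c * w, hm⟩ * ⟨cst N d * y, hyd⟩ ^ r := Subtype.ext key
    rw [e1, map_mul, map_pow, e, map_mul, mul_pow, mul_assoc]

/-- the reduction form goes up along the degeneracy inclusions. -/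
theorem h76w_resPow_degen (A : ValuationSubring Kbar) {N N' : ℕ} [NeZero N] [NeZero N']
    (h : N ∣ N') (r : ℕ) {w : FF N} (hw : H76wResPow A N r w) :
    H76wResPow A N' r (degen h w) := by
  obtain ⟨c, hc, hm, g, a, ha, hg, e⟩ := hw
  have hcc : degen h (cst N c) = cst N' c := (degen h).commutes c
  have key : cst N' c * degen h w = degen h (cst N c * w) := by
    rw [map_mul, hcc]
  have hm' : cst N' c * degen h w ∈ softV A N' := by
    rw [key]
    exact (degen_mem_softV_iff A h _).mpr hm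
  have hg' : degen h (g : FF N) ∈ softV A N' := (degen_mem_softV_iff A h _).mpr g.2
  have e1 : softR A N' ⟨cst N' c * degen h w, hm'⟩ = softR A N ⟨cst N c * w, hm⟩ := by
    have e2 : (⟨cst N' c * degen h w, hm'⟩ : softV A N') =
        ⟨degen h (cst N c * w), (degen_mem_softV_iff A h _).mpr hm⟩ := Subtype.ext key
    rw [e2]
    exact softR_degen A h ⟨cst N c * w, hm⟩ _
  have e3 : softR A N' ⟨degen h (g : FF N), hg'⟩ = softR A N g :=
    softR_degen A h g hg'
  refine ⟨c, hc, hm', ⟨degen h (g : FF N), hg'⟩, a, ha, ?_, ?_⟩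
  · rw [e3]
    exact hg
  · rw [e1, e3, e]

end Fermat.Agent.P7
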