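import Fermat.Agent.P7.H3PolyDlogLevel
import Fermat.Agent.P7.H10SbarKill
import Fermat.Agent.P7.H96SepInst
import Fermat.Agent.P7.H76Start
import Fermat.Agent.P5.H36SFField

/-!
# Wave 7 (row 38), block (A), DLOG route, leaf DL8: the end of the chain (helper3)

`p` a prime, `A` a valuation subring of `ℚ̄` over `p`.

* `h3g_red_degen` : a scaled reduction of `u` is a scaled reduction of `degen u`.
* `h3g_resPow_of_theta` : at a GOOD level `Mg` (`p ∤ Mg`, `auxLevel p ∣ Mg`): if a scaled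
  reduction `s` of `w ∈ FF (Mg p)` has `θ s = 0`, then `w̄ ∈ k^× · kC^{× p}`
  (`H76wResPow A (Mg * p) p w`).  (RES-DEG `h44r_residue_degree_one_gaussV` + helper96's SEP
  `h96e_sep_special` + SF-FIELD `h36v_field`.)
* `h3g_dlog_resPow` : **DL8 with ONE open input.**  `M` ANY level prime to `p`, `x ∈ J₀(M p)` with
  Kummer function `u`, `e` a Hecke polynomial in the `T_ℓ` (`ℓ ∤ M p`) with `e • x = x` and
  `e(T^fml) ω(u) = 0`; then `H76wResPow A (goodLevel p M * p) p (degen u)`.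
* `h3g_dlog_resPow_sbar` : the same with the input `ω(u) ∈ Sbar(M)` (`= Ω`, DL3 + DL4-6B) and
  `e = 0` on `S₂(Γ₀(M))`.

Every declaration is a proved theorem; nothing is assumed.
-/

set_option autoImplicit false
set_option linter.unusedSectionVars false
set_option linter.unusedVariables false
set_option linter.style.haveILetI false
set_option synthInstance.maxHeartbeats 400000

open ModularCurve AlgebraicCurve IsLocalRing

noncomputable section

namespace Fermat.Agent.P7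

open Fermat.Agent.S37 Fermat.Agent.Red Fermat.Agent.Red.GV Fermat.Agent.Red.GV.Soft
  Fermat.Agent.LGC Fermat.Agent.Jac.K1 Fermat.Agent.P5
open Fermat.Agent.S30 (heckeTAll)

section H3gTop

variable (A : ValuationSubring Kbar) {p : ℕ} (hp : p.Prime) (hA : A.LiesOverPrime p)

/-- a scaled reduction of `u` is a scaled reduction of `degen u`. -/
theorem h3g_red_degen {N N' : ℕ} [NeZero N] [NeZero N'] (h : N ∣ N') {u : FF N}
    {s : LaurentSeries (ResidueField A)} (hs : H3gRed A N u s) :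
    H3gRed A N' (degen h u) s := by
  obtain ⟨hu, c, hc, hm, hi, hr⟩ := hs
  have hcc : degen h (cst N c) = cst N' c := (degen h).commutes c
  have key : cst N' c * degen h u = degen h (cst N c * u) := by
    rw [map_mul, hcc]
  have hm' : cst N' c * degen h u ∈ softV A N' := by
    rw [key]
    exact (degen_mem_softV_iff A h _).mpr hm
  have hu' : degen h u ≠ 0 := (map_ne_zero_iff _ (degen h).injective).mpr hu
  refine ⟨hu', c, hc, hm', ?_, ?_⟩
  · rw [key, ← map_inv₀]
    exact (degen_mem_softV_iff A h _).mpr hi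
  · have e2 : (⟨cst N' c * degen h u, hm'⟩ : softV A N') =
        ⟨degen h (cst N c * u), (degen_mem_softV_iff A h _).mpr hm⟩ := Subtype.ext key
    rw [e2, ← hr]
    exact softR_degen A h ⟨cst N c * u, hm⟩ _

include hp hA in
/-- **`θ s = 0` at a good level gives the reduction form `w̄ ∈ k^× · kC^{× p}`.** -/
theorem h3g_resPow_of_theta (Mg : ℕ) [NeZero Mg] [NeZero p] (hMg : ¬ p ∣ Mg)
    (haux : auxLevel p ∣ Mg) {w : FF (Mg * p)} {s : LaurentSeries (ResidueField A)}
    (hs : H3gRed A (Mg * p) w s) (hθ : h96dTheta s = 0) :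
    H76wResPow A (Mg * p) p w := by
  have hs0 : s ≠ 0 := h3g_red_ne_zero hs
  obtain ⟨hw, c, hc, hm, hi, hr⟩ := hs
  -- RES-DEG
  obtain ⟨y, hy, hry⟩ := h44r_residue_degree_one_gaussV A Mg p hp hMg hA _ hm
  have hf : h13sIncl A Mg (h13sRed A Mg ⟨y, hy⟩) = s := by
    rw [h13sIncl_red, hry, hr]
  -- SEP
  obtain ⟨v, hv⟩ := h96e_sep_special hp Mg hMg haux A hA (h13sRed A Mg ⟨y, hy⟩)
    (by rw [hf]; exact hθ)
  -- SF-FIELD
  obtain ⟨x, hx⟩ := h36v_field p hp Mg hMg haux A hA v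
  have hdvd : Mg ∣ Mg * p := Dvd.intro p rfl
  have hxs : (x : FF Mg) ∈ softV A Mg := gaussV_le_softV A Mg x.2
  have hg : degen hdvd (x : FF Mg) ∈ softV A (Mg * p) :=
    (degen_mem_softV_iff A hdvd _).mpr hxs
  have hgr : softR A (Mg * p) ⟨degen hdvd (x : FF Mg), hg⟩ = h13sIncl A Mg v := by
    rw [softR_degen A hdvd ⟨(x : FF Mg), hxs⟩ hg, softR_eq_gaussR A Mg (x : FF Mg) hxs x.2,
      ← hx, h13sIncl_red]
  have hsv : s = h13sIncl A Mg v ^ p := by
    rw [← hf, hv, map_pow]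
  have hsg : s = softR A (Mg * p) ⟨degen hdvd (x : FF Mg), hg⟩ ^ p := by
    rw [hgr]
    exact hsv
  refine ⟨c, hc, hm, ⟨degen hdvd (x : FF Mg), hg⟩, 1, one_ne_zero, ?_, ?_⟩
  · intro h0
    apply hs0
    rw [hsg, h0]
    exact zero_pow hp.ne_zero
  · rw [hr, map_one, one_mul]
    exact hsg

include hp hA in
/-- **DL8 with one open input**: `e • x = x`, `u` a Kummer function of `x`,
`e(T^fml) ω(u) = 0`  `⟹`  `H76wResPow` at the good level. -/
theorem h3g_dlog_resPow (M : ℕ) [NeZero M] [NeZero p] (hM : ¬ p ∣ M)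
    (e : MvPolynomial Nat.Primes ℤ) (he : ∀ ℓ ∈ e.vars, ¬ (ℓ : ℕ) ∣ M * p)
    (x : JZero (M * p)) (u : FF (M * p)) (hx : IsKummerPair p x u)
    (hex : (letI := heckeModuleBar (M * p); e • x = x))
    (hkill : h3fEval (ResidueField A) e (h3gOm A (M * p) u) = 0) :
    H76wResPow A (goodLevel p M * p) p
      (degen (Nat.mul_dvd_mul_right (dvd_goodLevel p M) p) u) := by
  obtain ⟨s, hs⟩ := h3g_exists_red (A := A) (N := M * p) hp hA hx.ne_zero
  have he' : ∀ ℓ ∈ e.vars, ¬ (ℓ : ℕ) ∣ M * p * p := by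
    intro ℓ hℓ h
    rcases (Nat.Prime.dvd_mul ℓ.2).mp h with h1 | h2
    · exact he ℓ hℓ h1
    · exact he ℓ hℓ (Dvd.dvd.mul_left h2 M)
  have hθ : h96dTheta s = 0 := h3g_zero_level A hp hA (M * p) e he' x u hx hex hkill hs
  exact h3g_resPow_of_theta A hp hA (goodLevel p M) (not_dvd_goodLevel hp hM)
    (auxLevel_dvd_goodLevel p M)
    (h3g_red_degen A (Nat.mul_dvd_mul_right (dvd_goodLevel p M) p) hs) hθ

include hp hA in
/-- **DL8, `Sbar` form**: the open input is `ω(u) ∈ Sbar(M)`; `e` kills `S₂(Γ₀(M))`. -/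
theorem h3g_dlog_resPow_sbar (M : ℕ) [NeZero M] [NeZero p] (hM : ¬ p ∣ M)
    (e : MvPolynomial Nat.Primes ℤ) (he : ∀ ℓ ∈ e.vars, ¬ (ℓ : ℕ) ∣ M * p)
    (hK : ((MvPolynomial.aeval (R := ℤ) (heckeTAll M) e :
      CuspForm.heckeAlgebra M 2 (∅ : Set ℕ)) :
        Module.End ℂ (CuspForm (CongruenceSubgroup.Gamma0 M) 2)) = 0)
    (x : JZero (M * p)) (u : FF (M * p)) (hx : IsKummerPair p x u)
    (hex : (letI := heckeModuleBar (M * p); e • x = x))
    (hS : h3gOm A (M * p) u ∈ h10wSbar M (ResidueField A)) :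
    H76wResPow A (goodLevel p M * p) p
      (degen (Nat.mul_dvd_mul_right (dvd_goodLevel p M) p) u) := by
  have hvars : ∀ ℓ ∈ e.vars, ¬ (ℓ : ℕ) ∣ M := fun ℓ hℓ h =>
    he ℓ hℓ (Dvd.dvd.mul_right h p)
  exact h3g_dlog_resPow A hp hA M hM e he x u hx hex
    (h10w_sbar_kill M (ResidueField A) e hvars hK hS)

end H3gTop

end Fermat.Agent.P7
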