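import Mathlib

/-!
# Wave 7 (S40), step (1) (helper3): generalised eigenspaces of commuting operators on a finite
abelian group — pure algebra, Mathlib only

`X` an additive commutative group, `T i` (`i : ι`) commuting endomorphisms of `X`, `a i : ℤ`,
`p : ℕ`.  `h3eGen T a p` is the `𝔪`-primary part of `X` for `𝔪 = (p, T i - a i)`: the elements
killed by a power of `p` and by a power of every `T i - a i`.

* `h3e_exists_eigen` : if a finite `T`-stable subgroup `Y` meets `h3eGen T a p` non-trivially,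
  then `Y` contains `x ≠ 0` with `p • x = 0` and `T i x = a i • x` for all `i`
  (the eigensystem OCCURS in `Y[p]`).
* `h3e_gen_eq_bot` : conversely, if the eigensystem does not occur in `Y[p]`, then
  `Y ⊓ h3eGen T a p = ⊥`.
* `h3e_map_gen` : an equivariant homomorphism maps `h3eGen` into `h3eGen`.
* `h3e_push_zero` : **step (1)**: if the eigensystem does not occur in `Y'[p]`
  (`Y' ≤ X'` finite and stable), then every equivariant `φ : X →+ X'` kills the elements of
  `h3eGen` whose image lies in `Y'` ("not OCC at level `M / p` ⟹ the push-forwards vanish on the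
  `𝔪`-part of level `M`").
* `h3e_gen_of_eigen` : eigenvectors killed by `p ^ k` lie in `h3eGen`.
-/

set_option autoImplicit false

namespace Fermat.Agent.P7

variable {X : Type*} [AddCommGroup X] {ι : Type*}

/-- the operator `T i - a i`. -/
def h3eN (T : ι → AddMonoid.End X) (a : ι → ℤ) (i : ι) : AddMonoid.End X :=
  T i - (a i : AddMonoid.End X)

theorem h3e_mul_apply (f g : AddMonoid.End X) (x : X) : (f * g) x = f (g x) := rfl

theorem h3e_pow_succ_apply (f : AddMonoid.End X) (n : ℕ) (x : X) :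
    (f ^ (n + 1)) x = (f ^ n) (f x) := by
  rw [pow_succ]; rfl

theorem h3e_pow_succ_apply' (f : AddMonoid.End X) (n : ℕ) (x : X) :
    (f ^ (n + 1)) x = f ((f ^ n) x) := by
  rw [pow_succ']; rfl

theorem h3e_pow_add_apply (f : AddMonoid.End X) (m n : ℕ) (x : X) :
    (f ^ (m + n)) x = (f ^ m) ((f ^ n) x) := by
  rw [pow_add]; rfl

theorem h3eN_apply (T : ι → AddMonoid.End X) (a : ι → ℤ) (i : ι) (x : X) :
    h3eN T a i x = T i x - a i • x := rfl

theorem h3eN_commute (T : ι → AddMonoid.End X) (a : ι → ℤ)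
    (hT : ∀ i j, Commute (T i) (T j)) (i j : ι) : Commute (h3eN T a i) (h3eN T a j) := by
  unfold h3eN
  exact ((hT i j).sub_right (Int.cast_commute _ _).symm).sub_left
    ((Int.cast_commute (a i) (T j)).sub_right (Int.cast_commute _ _).symm)

theorem h3eN_commute_T (T : ι → AddMonoid.End X) (a : ι → ℤ)
    (hT : ∀ i j, Commute (T i) (T j)) (i j : ι) : Commute (h3eN T a i) (T j) := by
  unfold h3eN
  exact (hT i j).sub_left (Int.cast_commute (a i) (T j))

/-- the `𝔪`-primary part: killed by a power of `p` and by a power of every `T i - a i`. -/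
def h3eGen (T : ι → AddMonoid.End X) (a : ι → ℤ) (p : ℕ) : AddSubgroup X where
  carrier := {x | (∃ n : ℕ, p ^ n • x = 0) ∧ ∀ i, ∃ n : ℕ, (h3eN T a i ^ n) x = 0}
  zero_mem' := ⟨⟨0, by simp⟩, fun i => ⟨0, by simp⟩⟩
  add_mem' := by
    rintro x y ⟨⟨n, hn⟩, hx⟩ ⟨⟨m, hm⟩, hy⟩
    refine ⟨⟨n + m, ?_⟩, fun i => ?_⟩
    · rw [smul_add, pow_add, mul_comm, mul_smul, hn, mul_comm, mul_smul, hm]
      simp
    · obtain ⟨k, hk⟩ := hx i
      obtain ⟨l, hl⟩ := hy i
      refine ⟨k + l, ?_⟩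
      rw [map_add]
      have h1 : (h3eN T a i ^ (k + l)) x = 0 := by
        rw [add_comm, h3e_pow_add_apply, hk, map_zero]
      have h2 : (h3eN T a i ^ (k + l)) y = 0 := by
        rw [h3e_pow_add_apply, hl, map_zero]
      rw [h1, h2, add_zero]
  neg_mem' := by
    rintro x ⟨⟨n, hn⟩, hx⟩
    refine ⟨⟨n, by rw [smul_neg, hn, neg_zero]⟩, fun i => ?_⟩
    obtain ⟨k, hk⟩ := hx i
    exact ⟨k, by rw [map_neg, hk, neg_zero]⟩

theorem h3e_mem_gen {T : ι → AddMonoid.End X} {a : ι → ℤ} {p : ℕ} {x : X} :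
    x ∈ h3eGen T a p ↔ (∃ n : ℕ, p ^ n • x = 0) ∧ ∀ i, ∃ n : ℕ, (h3eN T a i ^ n) x = 0 :=
  Iff.rfl

/-- eigenvectors killed by a power of `p` lie in the primary part. -/
theorem h3e_gen_of_eigen {T : ι → AddMonoid.End X} {a : ι → ℤ} {p : ℕ} {x : X} {k : ℕ}
    (hp : p ^ k • x = 0) (hx : ∀ i, T i x = a i • x) : x ∈ h3eGen T a p :=
  ⟨⟨k, hp⟩, fun i => ⟨1, by rw [pow_one, h3eN_apply, hx i, sub_self]⟩⟩

/-- the primary part is stable under the operators. -/
theorem h3e_gen_stable {T : ι → AddMonoid.End X} {a : ι → ℤ} {p : ℕ}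
    (hT : ∀ i j, Commute (T i) (T j)) (j : ι) {x : X} (hx : x ∈ h3eGen T a p) :
    T j x ∈ h3eGen T a p := by
  obtain ⟨⟨n, hn⟩, hx⟩ := hx
  refine ⟨⟨n, by rw [← map_nsmul, hn, map_zero]⟩, fun i => ?_⟩
  obtain ⟨k, hk⟩ := hx i
  refine ⟨k, ?_⟩
  have h := ((h3eN_commute_T T a hT i j).pow_left k).eq
  have h' : (h3eN T a i ^ k) (T j x) = T j ((h3eN T a i ^ k) x) :=
    congrArg (fun f : AddMonoid.End X => f x) h
  rw [h', hk, map_zero]

/-- an equivariant homomorphism maps the primary part into the primary part. -/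
theorem h3e_map_gen {X' : Type*} [AddCommGroup X'] {T : ι → AddMonoid.End X}
    {T' : ι → AddMonoid.End X'} {a : ι → ℤ} {p : ℕ} (φ : X →+ X')
    (hφ : ∀ i x, φ (T i x) = T' i (φ x)) {x : X} (hx : x ∈ h3eGen T a p) :
    φ x ∈ h3eGen T' a p := by
  obtain ⟨⟨n, hn⟩, hx⟩ := hx
  have hN : ∀ i (k : ℕ) (y : X), φ ((h3eN T a i ^ k) y) = (h3eN T' a i ^ k) (φ y) := by
    intro i k
    induction k with
    | zero => intro y; simp
    | succ k ih =>
      intro y
      rw [h3e_pow_succ_apply, ih, h3e_pow_succ_apply, h3eN_apply, h3eN_apply, map_sub,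
        map_zsmul, hφ]
  refine ⟨⟨n, by rw [← map_nsmul, hn, map_zero]⟩, fun i => ?_⟩
  obtain ⟨k, hk⟩ := hx i
  exact ⟨k, by rw [← hN, hk, map_zero]⟩

/-- a nilpotent-on-`x` operator has a nonzero kernel vector in the orbit of `x ≠ 0`. -/
theorem h3e_exists_ker (N : AddMonoid.End X) {x : X} (hx0 : x ≠ 0)
    (hx : ∃ n : ℕ, (N ^ n) x = 0) : ∃ k : ℕ, (N ^ k) x ≠ 0 ∧ N ((N ^ k) x) = 0 := by
  classical
  obtain ⟨n, hn⟩ := hx
  have hex : ∃ n : ℕ, (N ^ n) x = 0 := ⟨n, hn⟩
  set m := Nat.find hex with hm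
  have hm0 : (N ^ m) x = 0 := Nat.find_spec hex
  have hmpos : m ≠ 0 := by
    intro h0
    rw [h0, pow_zero] at hm0
    exact hx0 hm0
  obtain ⟨k, hk⟩ := Nat.exists_eq_succ_of_ne_zero hmpos
  refine ⟨k, ?_, ?_⟩
  · intro h
    exact Nat.find_min hex (by rw [← hm, hk]; exact Nat.lt_succ_self k) h
  · rw [← h3e_pow_succ_apply']
    have e : k + 1 = m := hk.symm
    rw [e]
    exact hm0

/-- **common eigenvector**: a nonzero finite subgroup, stable under commuting operators which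
are nilpotent on each of its elements, contains a nonzero common kernel vector. -/
theorem h3e_common_ker (N : ι → AddMonoid.End X) (hN : ∀ i j, Commute (N i) (N j)) :
    ∀ (n : ℕ) (S : AddSubgroup X), (S : Set X).Finite → (S : Set X).ncard ≤ n →
      (∀ i, ∀ x ∈ S, N i x ∈ S) → (∀ i, ∀ x ∈ S, ∃ k : ℕ, (N i ^ k) x = 0) →
      (∃ x ∈ S, x ≠ 0) → ∃ x ∈ S, x ≠ 0 ∧ ∀ i, N i x = 0 := by
  intro n
  induction n with
  | zero =>
    intro S hfin hcard _ _ hne
    exfalso
    have h0 : (S : Set X).ncard = 0 := Nat.le_zero.mp hcard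
    rw [Set.ncard_eq_zero hfin] at h0
    have : (0 : X) ∈ (S : Set X) := S.zero_mem
    rw [h0] at this
    exact this
  | succ n ih =>
    intro S hfin hcard hstab hnil hne
    by_cases hall : ∀ i, ∀ x ∈ S, N i x = 0
    · obtain ⟨x, hxS, hx0⟩ := hne
      exact ⟨x, hxS, hx0, fun i => hall i x hxS⟩
    simp only [not_forall] at hall
    obtain ⟨i, x, hxS, hx⟩ := hall
    -- the kernel of `N i` in `S`
    let S' : AddSubgroup X := S ⊓ (N i : X →+ X).ker
    have hS'S : (S' : Set X) ⊆ (S : Set X) := fun y hy => hy.1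
    have hS'fin : (S' : Set X).Finite := hfin.subset hS'S
    have hlt : (S' : Set X).ncard < (S : Set X).ncard := by
      apply Set.ncard_lt_ncard _ hfin
      refine ⟨hS'S, fun h => ?_⟩
      have : x ∈ (S' : Set X) := h hxS
      exact hx this.2
    have hx0 : x ≠ 0 := by
      rintro rfl
      exact hx (map_zero _)
    obtain ⟨k, hk0, hk⟩ := h3e_exists_ker (N i) hx0 (hnil i x hxS)
    have hpowS : ∀ (k : ℕ) (j : ι), ∀ y ∈ S, (N j ^ k) y ∈ S := by
      intro k j
      induction k with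
      | zero => intro y hy; simpa using hy
      | succ k ihk =>
        intro y hy
        rw [h3e_pow_succ_apply]
        exact ihk _ (hstab j y hy)
    obtain ⟨y, hyS', hy0, hy⟩ := ih S' hS'fin (by omega)
      (fun j y hy => ⟨hstab j y hy.1, by
        have h1 : N i (N j y) = N j (N i y) :=
          congrArg (fun f : AddMonoid.End X => f y) (hN i j).eq
        show N i (N j y) = 0
        rw [h1]
        have h2 : N i y = 0 := hy.2
        rw [h2, map_zero]⟩)
      (fun j y hy => hnil j y hy.1)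
      ⟨(N i ^ k) x, ⟨hpowS k i x hxS, hk⟩, hk0⟩
    exact ⟨y, hyS'.1, hy0, hy⟩

variable (T : ι → AddMonoid.End X) (a : ι → ℤ) (p : ℕ)

/-- **the eigensystem occurs**: a finite stable subgroup meeting the primary part contains a
nonzero eigenvector killed by `p`. -/
theorem h3e_exists_eigen (hT : ∀ i j, Commute (T i) (T j)) (Y : AddSubgroup X)
    (hY : (Y : Set X).Finite) (hYT : ∀ i, ∀ x ∈ Y, T i x ∈ Y)
    {x₀ : X} (hx₀Y : x₀ ∈ Y) (hx₀ : x₀ ∈ h3eGen T a p) (hx₀0 : x₀ ≠ 0) :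
    ∃ x ∈ Y, x ≠ 0 ∧ p • x = 0 ∧ ∀ i, T i x = a i • x := by
  classical
  -- the operator `p`
  let P : AddMonoid.End X := ((p : ℕ) : AddMonoid.End X)
  have hPapp : ∀ x : X, P x = p • x := fun x => rfl
  have hPpow : ∀ (n : ℕ) (x : X), (P ^ n) x = p ^ n • x := by
    intro n
    induction n with
    | zero => intro x; simp
    | succ n ih =>
      intro x
      rw [h3e_pow_succ_apply, ih, hPapp, pow_succ, mul_smul]
  -- operators indexed by `Option ι`
  let N : Option ι → AddMonoid.End X := fun o => o.elim P (h3eN T a)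
  have hN : ∀ i j, Commute (N i) (N j) := by
    intro i j
    rcases i with _ | i <;> rcases j with _ | j
    · exact Commute.refl _
    · exact Nat.cast_commute p _
    · exact (Nat.cast_commute p _).symm
    · exact h3eN_commute T a hT i j
  let S : AddSubgroup X := Y ⊓ h3eGen T a p
  have hSfin : (S : Set X).Finite := hY.subset (fun y hy => hy.1)
  have hstab : ∀ i, ∀ x ∈ S, N i x ∈ S := by
    intro i x hx
    rcases i with _ | i
    · show P x ∈ S
      rw [hPapp]
      exact S.nsmul_mem hx p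
    · show h3eN T a i x ∈ S
      rw [h3eN_apply]
      exact S.sub_mem ⟨hYT i x hx.1, h3e_gen_stable hT i hx.2⟩ (S.zsmul_mem hx _)
  have hnil : ∀ i, ∀ x ∈ S, ∃ k : ℕ, (N i ^ k) x = 0 := by
    intro i x hx
    rcases i with _ | i
    · obtain ⟨n, hn⟩ := hx.2.1
      exact ⟨n, by show (P ^ n) x = 0; rw [hPpow, hn]⟩
    · exact hx.2.2 i
  obtain ⟨x, hxS, hx0, hx⟩ := h3e_common_ker N hN _ S hSfin le_rfl hstab hnil
    ⟨x₀, ⟨hx₀Y, hx₀⟩, hx₀0⟩
  refine ⟨x, hxS.1, hx0, ?_, fun i => ?_⟩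
  · have := hx none
    show p • x = 0
    rw [← hPapp]
    exact this
  · have := hx (some i)
    have h1 : h3eN T a i x = 0 := this
    rw [h3eN_apply, sub_eq_zero] at h1
    exact h1

/-- if the eigensystem does not occur in `Y[p]`, the primary part of `Y` is zero. -/
theorem h3e_gen_eq_bot (hT : ∀ i j, Commute (T i) (T j)) (Y : AddSubgroup X)
    (hY : (Y : Set X).Finite) (hYT : ∀ i, ∀ x ∈ Y, T i x ∈ Y)
    (hnot : ¬ ∃ x ∈ Y, x ≠ 0 ∧ p • x = 0 ∧ ∀ i, T i x = a i • x) :
    Y ⊓ h3eGen T a p = ⊥ := by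
  rw [eq_bot_iff]
  intro x hx
  by_contra hx0
  exact hnot (h3e_exists_eigen T a p hT Y hY hYT hx.1 hx.2 hx0)

/-- **step (1)**: if the eigensystem does not occur in `Y'[p]`, every equivariant homomorphism
kills the elements of the primary part whose image lies in `Y'`. -/
theorem h3e_push_zero {X' : Type*} [AddCommGroup X'] (T' : ι → AddMonoid.End X')
    (hT' : ∀ i j, Commute (T' i) (T' j)) (Y' : AddSubgroup X')
    (hY' : (Y' : Set X').Finite) (hY'T : ∀ i, ∀ x ∈ Y', T' i x ∈ Y')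
    (hnot : ¬ ∃ x ∈ Y', x ≠ 0 ∧ p • x = 0 ∧ ∀ i, T' i x = a i • x)
    (φ : X →+ X') (hφ : ∀ i x, φ (T i x) = T' i (φ x))
    {x : X} (hx : x ∈ h3eGen T a p) (hxY : φ x ∈ Y') : φ x = 0 := by
  have h := h3e_gen_eq_bot T' a p hT' Y' hY' hY'T hnot
  have hmem : φ x ∈ Y' ⊓ h3eGen T' a p := ⟨hxY, h3e_map_gen φ hφ hx⟩
  rw [h] at hmem
  exact hmem

end Fermat.Agent.P7
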