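import Mathlib

/-!
# W7 (S40), block (5b), leaf T-C4-H0, abstract core H-CONST (helper3)

`A` a valuation ring of constants, `F` a function field, `W ⊆ F` a ring of Gauss-integral
functions (one Gauss valuation ring `W_∞`, `W_0`, or the semistable ring `ssV = W_∞ ∩ W_0`),
`𝔐 ⊆ W` the functions with zero reduction (`𝔪_A W`), `O i ⊆ W` the local rings of the model
at the closed points `i` of the special fibre (of the component).

**H-CONST** (`h3c_core`): if `f ∈ W` is, at every closed point `i`, congruent modulo `d W` to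
an element of the local ring `O i`, then `f` is congruent modulo `d W` to a constant.

Hypotheses (all are statements about the special fibre, no depth is involved except in the
saturation `hsat`, which is only used at the depths `ϖ` STRICTLY dividing `d`):

* `hex`  : exact depth: every nonzero `g ∈ W` is `ϖ g₁` with `ϖ ∈ A`, `g₁ ∈ W ∖ 𝔐`;
* `hsat` : saturation of the local rings: `o ∈ O i`, `o = ϖ w`, `w ∈ W`  ⟹  `w ∈ O i + 𝔐`;
* `hreg` : a function whose reduction is regular at every closed point has constant reduction;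
* `hev`  : a base point `i₀` with a value `c = o(P₀)`: `o - c` is never `ϖ (a + 𝔐)` with `a` a
  unit (the reduction of `(o - c) / ϖ` vanishes at the base point).

Only Mathlib is used.
-/

set_option autoImplicit false

open IsLocalRing

namespace Fermat.Agent.P7

section Core

variable {A : Type*} [CommRing A] [IsLocalRing A] {F : Type*} [Field F] [Algebra A F]

/-- **H-CONST, abstract core.** -/
theorem h3c_core
    (hdvd : ∀ a b : A, a ∣ b ∨ b ∣ a)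
    (W : Subring F) (hAW : ∀ a : A, algebraMap A F a ∈ W)
    (𝔐 : AddSubgroup F)
    (hm𝔐 : ∀ m ∈ maximalIdeal A, ∀ w ∈ W, algebraMap A F m * w ∈ 𝔐)
    (hex : ∀ g ∈ W, g ≠ 0 → ∃ ϖ : A, ∃ g₁ ∈ W, g₁ ∉ 𝔐 ∧ g = algebraMap A F ϖ * g₁)
    {ι : Type*} (O : ι → Subring F)
    (d : A)
    (hsat : ∀ i, ∀ ϖ : A, algebraMap A F ϖ ≠ 0 → (∃ m ∈ maximalIdeal A, d = ϖ * m) →
      ∀ o ∈ O i, ∀ w ∈ W, o = algebraMap A F ϖ * w → ∃ o₁ ∈ O i, w - o₁ ∈ 𝔐)
    (hreg : ∀ g ∈ W, (∀ i, ∃ o ∈ O i, g - o ∈ 𝔐) → ∃ a : A, g - algebraMap A F a ∈ 𝔐)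
    (hAO : ∀ i, ∀ a : A, algebraMap A F a ∈ O i)
    (i₀ : ι)
    (hev : ∀ o ∈ O i₀, ∃ c : A, ∀ ϖ a : A, algebraMap A F ϖ ≠ 0 → ∀ w ∈ W,
      o - algebraMap A F c = algebraMap A F ϖ * w → w - algebraMap A F a ∈ 𝔐 →
        a ∈ maximalIdeal A)
    (f : F) (hf : f ∈ W)
    (hloc : ∀ i, ∃ o ∈ O i, ∃ w ∈ W, f = o + algebraMap A F d * w) :
    ∃ c : A, ∃ w ∈ W, f = algebraMap A F c + algebraMap A F d * w := by
  classical
  obtain ⟨o₀, ho₀, w₀, hw₀, hf₀⟩ := hloc i₀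
  obtain ⟨c, hc⟩ := hev o₀ ho₀
  refine ⟨c, ?_⟩
  set g : F := f - algebraMap A F c with hg
  have hgW : g ∈ W := W.sub_mem hf (hAW c)
  by_cases hg0 : g = 0
  · refine ⟨0, W.zero_mem, ?_⟩
    rw [mul_zero, add_zero]
    exact sub_eq_zero.mp hg0
  obtain ⟨ϖ, g₁, hg₁W, hg₁𝔐, hgϖ⟩ := hex g hgW hg0
  have hϖ0 : algebraMap A F ϖ ≠ 0 := by
    intro h
    apply hg0
    rw [hgϖ, h, zero_mul]
  rcases hdvd d ϖ with ⟨a, ha⟩ | ⟨m, hm⟩
  · -- `d ∣ ϖ` : done
    refine ⟨algebraMap A F a * g₁, W.mul_mem (hAW a) hg₁W, ?_⟩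
    have : g = algebraMap A F d * (algebraMap A F a * g₁) := by
      rw [hgϖ, ha, map_mul, mul_assoc]
    rw [← this, hg]
    ring
  · -- `d = ϖ m`
    by_cases hmu : IsUnit m
    · -- then `d ∣ ϖ` again
      obtain ⟨u, rfl⟩ := hmu
      refine ⟨algebraMap A F ((u⁻¹ : Aˣ) : A) * g₁, W.mul_mem (hAW _) hg₁W, ?_⟩
      have h1 : algebraMap A F d * algebraMap A F ((u⁻¹ : Aˣ) : A) = algebraMap A F ϖ := by
        rw [← map_mul, hm, mul_assoc, Units.mul_inv, mul_one]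
      have : g = algebraMap A F d * (algebraMap A F ((u⁻¹ : Aˣ) : A) * g₁) := by
        rw [← mul_assoc, h1, hgϖ]
      rw [← this, hg]
      ring
    · exfalso
      have hmm : m ∈ maximalIdeal A := (mem_maximalIdeal m).mpr hmu
      have hdF : algebraMap A F d = algebraMap A F ϖ * algebraMap A F m := by
        rw [hm, map_mul]
      -- the local data at depth `ϖ`
      have hlocal : ∀ i, ∃ o₁ ∈ O i, g₁ - o₁ ∈ 𝔐 := by
        intro i
        obtain ⟨o, ho, w, hw, hfo⟩ := hloc i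
        have hwW : g₁ - algebraMap A F m * w ∈ W :=
          W.sub_mem hg₁W (W.mul_mem (hAW m) hw)
        have hoeq : o - algebraMap A F c
            = algebraMap A F ϖ * (g₁ - algebraMap A F m * w) := by
          have h1 : g = (o - algebraMap A F c) + algebraMap A F d * w := by
            rw [hg, hfo]; ring
          have h2 : o - algebraMap A F c = g - algebraMap A F d * w := by
            rw [h1]; ring
          rw [h2, hgϖ, hdF]; ring
        obtain ⟨o₁, ho₁, ho₁𝔐⟩ := hsat i ϖ hϖ0 ⟨m, hmm, hm⟩ (o - algebraMap A F c)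
          ((O i).sub_mem ho (hAO i c)) _ hwW hoeq
        refine ⟨o₁, ho₁, ?_⟩
        have h3 : g₁ - o₁ = (g₁ - algebraMap A F m * w - o₁) + algebraMap A F m * w := by
          ring
        rw [h3]
        exact 𝔐.add_mem ho₁𝔐 (hm𝔐 m hmm w hw)
      obtain ⟨a, ha⟩ := hreg g₁ hg₁W hlocal
      -- the base point
      have hwW₀ : g₁ - algebraMap A F m * w₀ ∈ W :=
        W.sub_mem hg₁W (W.mul_mem (hAW m) hw₀)
      have hoeq₀ : o₀ - algebraMap A F c
          = algebraMap A F ϖ * (g₁ - algebraMap A F m * w₀) := by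
        have h1 : g = (o₀ - algebraMap A F c) + algebraMap A F d * w₀ := by
          rw [hg, hf₀]; ring
        have h2 : o₀ - algebraMap A F c = g - algebraMap A F d * w₀ := by
          rw [h1]; ring
        rw [h2, hgϖ, hdF]; ring
      have h4 : g₁ - algebraMap A F m * w₀ - algebraMap A F a ∈ 𝔐 := by
        have : g₁ - algebraMap A F m * w₀ - algebraMap A F a
            = (g₁ - algebraMap A F a) - algebraMap A F m * w₀ := by ring
        rw [this]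
        exact 𝔐.sub_mem ha (hm𝔐 m hmm w₀ hw₀)
      have ham : a ∈ maximalIdeal A := hc ϖ a hϖ0 _ hwW₀ hoeq₀ h4
      apply hg₁𝔐
      have h5 : g₁ = (g₁ - algebraMap A F a) + algebraMap A F a * 1 := by ring
      rw [h5]
      exact 𝔐.add_mem ha (hm𝔐 a ham 1 W.one_mem)

end Core

/-! ## Tools to discharge the hypotheses on a chart -/

section Tools

variable {A : Type*} [CommRing A] {F : Type*} [Field F] [Algebra A F]

/-- the local ring of the chart `B` at the prime `𝔫`, as a subring of `F`: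
`{f | ∃ s ∈ B ∖ 𝔫, s f ∈ B}`. -/
def h3cLoc (B : Subalgebra A F) (𝔫 : Ideal B) [h𝔫 : 𝔫.IsPrime] : Subring F where
  carrier := {f | ∃ s : B, s ∉ 𝔫 ∧ (s : F) * f ∈ B}
  mul_mem' := by
    rintro f f' ⟨s, hs, hsf⟩ ⟨s', hs', hsf'⟩
    refine ⟨s * s', fun h => (h𝔫.mem_or_mem h).elim hs hs', ?_⟩
    have : ((s * s' : B) : F) * (f * f') = ((s : F) * f) * ((s' : F) * f') := by
      push_cast; ring
    rw [this]
    exact B.mul_mem hsf hsf'
  one_mem' := ⟨1, (Ideal.ne_top_iff_one 𝔫).mp h𝔫.ne_top, by simp⟩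
  add_mem' := by
    rintro f f' ⟨s, hs, hsf⟩ ⟨s', hs', hsf'⟩
    refine ⟨s * s', fun h => (h𝔫.mem_or_mem h).elim hs hs', ?_⟩
    have : ((s * s' : B) : F) * (f + f')
        = (s' : F) * ((s : F) * f) + (s : F) * ((s' : F) * f') := by
      push_cast; ring
    rw [this]
    exact B.add_mem (B.mul_mem s'.2 hsf) (B.mul_mem s.2 hsf')
  zero_mem' := ⟨1, (Ideal.ne_top_iff_one 𝔫).mp h𝔫.ne_top, by simp [B.zero_mem]⟩
  neg_mem' := by
    rintro f ⟨s, hs, hsf⟩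
    exact ⟨s, hs, by rw [mul_neg]; exact B.neg_mem hsf⟩

theorem h3c_mem_loc {B : Subalgebra A F} {𝔫 : Ideal B} [𝔫.IsPrime] {f : F} :
    f ∈ h3cLoc B 𝔫 ↔ ∃ s : B, s ∉ 𝔫 ∧ (s : F) * f ∈ B := Iff.rfl

theorem h3c_le_loc (B : Subalgebra A F) (𝔫 : Ideal B) [h𝔫 : 𝔫.IsPrime] {f : F} (hf : f ∈ B) :
    f ∈ h3cLoc B 𝔫 :=
  ⟨1, (Ideal.ne_top_iff_one 𝔫).mp h𝔫.ne_top, by simpa using hf⟩

theorem h3c_algebraMap_mem_loc (B : Subalgebra A F) (𝔫 : Ideal B) [𝔫.IsPrime] (a : A) :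
    algebraMap A F a ∈ h3cLoc B 𝔫 :=
  h3c_le_loc B 𝔫 (B.algebraMap_mem a)

/-- **exact saturation of the local rings from the saturation (QEP) of the chart**: if
`ϖ x ∈ B`, `x ∈ W` implies `x ∈ B`, then `ϖ w ∈ B_𝔫`, `w ∈ W` implies `w ∈ B_𝔫`. -/
theorem h3c_sat_of_qep (W : Subring F) (B : Subalgebra A F) (hBW : ∀ x ∈ B, x ∈ W)
    (ϖ : A) (hqep : ∀ x ∈ W, algebraMap A F ϖ * x ∈ B → x ∈ B)
    (𝔫 : Ideal B) [𝔫.IsPrime] (o : F) (ho : o ∈ h3cLoc B 𝔫) (w : F) (hw : w ∈ W)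
    (h : o = algebraMap A F ϖ * w) : w ∈ h3cLoc B 𝔫 := by
  obtain ⟨s, hs, hso⟩ := ho
  refine ⟨s, hs, hqep _ (W.mul_mem (hBW _ s.2) hw) ?_⟩
  have : algebraMap A F ϖ * ((s : F) * w) = (s : F) * o := by rw [h]; ring
  rw [this]
  exact hso

/-- **local-global on one chart**: if `g` is congruent modulo `𝔐` to an element of the local
ring `B_𝔫` at every maximal ideal `𝔫` of `B` containing `B ∩ 𝔐` (the closed points of the
component), then `g ∈ B + 𝔐`. -/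
theorem h3c_chart_of_local (W : Subring F) (𝔐 : AddSubgroup F)
    (h𝔐W : ∀ μ ∈ 𝔐, ∀ w ∈ W, w * μ ∈ 𝔐)
    (B : Subalgebra A F) (hBW : ∀ x ∈ B, x ∈ W) (g : F) (hg : g ∈ W)
    (hloc : ∀ 𝔫 : Ideal B, 𝔫.IsMaximal → (∀ b : B, (b : F) ∈ 𝔐 → b ∈ 𝔫) →
      ∃ o : F, (∃ s : B, s ∉ 𝔫 ∧ (s : F) * o ∈ B) ∧ g - o ∈ 𝔐) :
    ∃ b ∈ B, g - b ∈ 𝔐 := by
  classical
  -- the ideal of denominators
  let I : Ideal B :=
    { carrier := {s | ∃ b ∈ B, (s : F) * g - b ∈ 𝔐}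
      add_mem' := by
        rintro s s' ⟨b, hb, hsb⟩ ⟨b', hb', hsb'⟩
        refine ⟨b + b', B.add_mem hb hb', ?_⟩
        have : ((s + s' : B) : F) * g - (b + b')
            = ((s : F) * g - b) + ((s' : F) * g - b') := by push_cast; ring
        rw [this]
        exact 𝔐.add_mem hsb hsb'
      zero_mem' := ⟨0, B.zero_mem, by simp⟩
      smul_mem' := by
        rintro c s ⟨b, hb, hsb⟩
        refine ⟨(c : F) * b, B.mul_mem c.2 hb, ?_⟩
        have : ((c • s : B) : F) * g - (c : F) * b = (c : F) * ((s : F) * g - b) := by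
          rw [smul_eq_mul]; push_cast; ring
        rw [this]
        exact h𝔐W _ hsb _ (hBW _ c.2) }
  have hI : I = ⊤ := by
    by_contra hne
    obtain ⟨𝔫, h𝔫, hle⟩ := Ideal.exists_le_maximal I hne
    have hp : ∀ b : B, (b : F) ∈ 𝔐 → b ∈ 𝔫 := by
      intro b hb
      apply hle
      refine ⟨0, B.zero_mem, ?_⟩
      rw [sub_zero, mul_comm]
      exact h𝔐W _ hb _ hg
    obtain ⟨o, ⟨s, hs, hso⟩, hgo⟩ := hloc 𝔫 h𝔫 hp
    apply hs
    apply hle
    refine ⟨(s : F) * o, hso, ?_⟩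
    have : (s : F) * g - (s : F) * o = (s : F) * (g - o) := by ring
    rw [this]
    exact h𝔐W _ hgo _ (hBW _ s.2)
  have h1 : (1 : B) ∈ I := by rw [hI]; trivial
  obtain ⟨b, hb, h⟩ := h1
  refine ⟨b, hb, ?_⟩
  simpa using h

/-- **REG from two charts**: if the functions on the special fibre which are regular on both
charts are the constants (`hglob`), then a function whose reduction is regular at every closed
point of the two charts has constant reduction. -/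
theorem h3c_reg_of_charts (W : Subring F) (𝔐 : AddSubgroup F)
    (h𝔐W : ∀ μ ∈ 𝔐, ∀ w ∈ W, w * μ ∈ 𝔐)
    (B₀ B₁ : Subalgebra A F) (hB₀W : ∀ x ∈ B₀, x ∈ W) (hB₁W : ∀ x ∈ B₁, x ∈ W)
    (hglob : ∀ b₀ ∈ B₀, ∀ b₁ ∈ B₁, b₀ - b₁ ∈ 𝔐 → ∃ a : A, b₀ - algebraMap A F a ∈ 𝔐)
    (g : F) (hg : g ∈ W)
    (h₀ : ∀ 𝔫 : Ideal B₀, 𝔫.IsMaximal → (∀ b : B₀, (b : F) ∈ 𝔐 → b ∈ 𝔫) →
      ∃ o : F, (∃ s : B₀, s ∉ 𝔫 ∧ (s : F) * o ∈ B₀) ∧ g - o ∈ 𝔐)
    (h₁ : ∀ 𝔫 : Ideal B₁, 𝔫.IsMaximal → (∀ b : B₁, (b : F) ∈ 𝔐 → b ∈ 𝔫) →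
      ∃ o : F, (∃ s : B₁, s ∉ 𝔫 ∧ (s : F) * o ∈ B₁) ∧ g - o ∈ 𝔐) :
    ∃ a : A, g - algebraMap A F a ∈ 𝔐 := by
  obtain ⟨b₀, hb₀, hgb₀⟩ := h3c_chart_of_local W 𝔐 h𝔐W B₀ hB₀W g hg h₀
  obtain ⟨b₁, hb₁, hgb₁⟩ := h3c_chart_of_local W 𝔐 h𝔐W B₁ hB₁W g hg h₁
  have h : b₀ - b₁ ∈ 𝔐 := by
    have : b₀ - b₁ = (g - b₁) - (g - b₀) := by ring
    rw [this]
    exact 𝔐.sub_mem hgb₁ hgb₀
  obtain ⟨a, ha⟩ := hglob b₀ hb₀ b₁ hb₁ h
  refine ⟨a, ?_⟩
  have : g - algebraMap A F a = (g - b₀) + (b₀ - algebraMap A F a) := by ring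
  rw [this]
  exact 𝔐.add_mem hgb₀ ha

/-- **the base point from a section**: an evaluation `ev` on the local ring `O₀` (a ring hom
to `A`, identity on constants) such that the functions of `O₀` which are `ϖ` times a function
with zero reduction are `ϖ` times a function of `O₀` with value in `𝔪_A`. -/
theorem h3c_ev_of_section [IsLocalRing A] (hAF : Function.Injective (algebraMap A F))
    (W : Subring F) (𝔐 : AddSubgroup F) (O₀ : Subring F)
    (hAO : ∀ a : A, algebraMap A F a ∈ O₀)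
    (ev : O₀ →+* A) (hevA : ∀ a : A, ev ⟨algebraMap A F a, hAO a⟩ = a)
    (hsat₀ : ∀ ϖ : A, algebraMap A F ϖ ≠ 0 → ∀ o : O₀, ∀ μ ∈ 𝔐,
      (o : F) = algebraMap A F ϖ * μ →
        ∃ o' : O₀, (o : F) = algebraMap A F ϖ * (o' : F) ∧ ev o' ∈ maximalIdeal A)
    (o : F) (ho : o ∈ O₀) :
    ∃ c : A, ∀ ϖ a : A, algebraMap A F ϖ ≠ 0 → ∀ w ∈ W,
      o - algebraMap A F c = algebraMap A F ϖ * w → w - algebraMap A F a ∈ 𝔐 →
        a ∈ maximalIdeal A := by
  refine ⟨ev ⟨o, ho⟩, ?_⟩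
  intro ϖ a hϖ w _ hw hwa
  set c : A := ev ⟨o, ho⟩ with hc
  -- the element `o - c - ϖ a` of `O₀`
  let e : O₀ := ⟨o, ho⟩ - ⟨algebraMap A F c, hAO c⟩ - ⟨algebraMap A F (ϖ * a), hAO _⟩
  have he : (e : F) = algebraMap A F ϖ * (w - algebraMap A F a) := by
    show o - algebraMap A F c - algebraMap A F (ϖ * a) = _
    rw [hw, map_mul]; ring
  obtain ⟨o', ho', hev'⟩ := hsat₀ ϖ hϖ e _ hwa he
  have h1 : ev e = - (ϖ * a) := by
    show ev (⟨o, ho⟩ - ⟨algebraMap A F c, hAO c⟩ - ⟨algebraMap A F (ϖ * a), hAO _⟩) = _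
    rw [map_sub, map_sub, hevA, hevA, ← hc]
    ring
  have h2 : e = ⟨algebraMap A F ϖ, hAO ϖ⟩ * o' := Subtype.ext (by rw [ho']; rfl)
  have h3 : ev e = ϖ * ev o' := by rw [h2, map_mul, hevA]
  have hϖA : ϖ ≠ 0 := fun h => hϖ (by rw [h, map_zero])
  have h4 : ϖ * (a + ev o') = 0 := by
    have := h1.symm.trans h3
    linear_combination -this
  have hdom : ∀ x : A, ϖ * x = 0 → x = 0 := by
    intro x hx
    apply hAF
    have h5 : algebraMap A F ϖ * algebraMap A F x = 0 := by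
      rw [← map_mul, hx, map_zero]
    rw [map_zero]
    exact (mul_eq_zero.mp h5).resolve_left hϖ
  have h6 : a = - ev o' := by
    have := hdom _ h4
    linear_combination this
  rw [h6]
  exact (maximalIdeal A).neg_mem hev'

end Tools

end Fermat.Agent.P7
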