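import Fermat.Agent.P7.H3DlogFinal3
import Fermat.Agent.P7.H19OrthNorm
import Fermat.Agent.P7.H38OrthBack
import Fermat.Agent.P7.H48Eval
import Fermat.Agent.P7.H93QInt
import Fermat.Agent.P7.H98mDeg
import Fermat.Agent.P7.H37ConstM
import Fermat.Agent.P5.H88RedDivFinal

/-!
# Wave 7 (row 38), DLOG route: the assembly of ORTH(M) from the CORRECTION (helper3)

`p ≥ 5` prime, `M` ANY level prime to `p`, `N = goodLevel p M`, `A` over `p`, `r` the reduction
map of places of level `N`, `Q` the `q`-order place of `FF M`.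

* `h3g_orth_inst` : **ORTH for one function**.  `g ∈ FF M` a Gauss unit such that
  `degen g ∈ FF N` has no zero or pole on the fibres of `r` which contain a place over `Q`, and
  all orders of the reduction of `degen g` are divisible by `p`.  Then for every Gauss-integral
  `f ∈ FF M` regular off `Q`:  `a₀(gaussR f · dlog (softR g)) = 0`.
  (INT-Q for `f`, `h93q_int_unit` + `(S2)` for `g`, EVAL `h48e_eval_along`, DL2 for a norm +
  RED `h38o_orth_back_pow`, `Nm (degen g) = g ^ d`, `p ∤ d`.)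
* `H3gCorr p` : the CORRECTION (frozen `Prop`): every Gauss unit `y` of level `M` with
  `ord_q (softR y) = 0` whose reduction at the good level has all orders divisible by `p` has the
  same reduction as a Gauss unit `g` of level `M` such that `degen g` has no zero or pole on the
  fibres of `r` containing a place over `Q`.
* `h3g_orth_of_corr : H3gCorr p → H3gOrthM p`.
* `h3g_s44_of_corr` : the frozen statement S44 from the CORRECTION alone.

Every declaration is a proved theorem or a `Prop`-valued definition; nothing is assumed.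
-/

set_option autoImplicit false
set_option linter.unusedSectionVars false
set_option linter.unusedVariables false
set_option linter.style.haveILetI false
set_option synthInstance.maxHeartbeats 400000
set_option maxHeartbeats 1600000

open ModularCurve AlgebraicCurve IsLocalRing

noncomputable section

namespace Fermat.Agent.P7

open Fermat.Agent.S37 Fermat.Agent.S35 Fermat.Agent.P6
open Fermat.Agent.Red Fermat.Agent.Red.GV Fermat.Agent.Red.GV.Soft
open Fermat.Agent.Jac.K1 (IsKummerPair)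
open Fermat.Agent.P5 (h69vPull h13sK h13sFt h13sIncl h13sRed H13sIsRed)

/-- a Laurent series without terms of negative degree is a power series. -/
theorem h3g_eq_ofPowerSeries {R : Type*} [CommRing R] (x : LaurentSeries R)
    (hx : ∀ n : ℤ, n < 0 → x.coeff n = 0) :
    x = HahnSeries.ofPowerSeries ℤ R (PowerSeries.mk fun n => x.coeff (n : ℤ)) := by
  ext n
  rcases lt_or_ge n 0 with hn | hn
  · rw [hx n hn]
    have h := PowerSeries.coeff_coe (R := R) (PowerSeries.mk fun n => x.coeff (n : ℤ)) n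
    rw [if_pos hn] at h
    exact h.symm
  · obtain ⟨m, rfl⟩ := Int.eq_ofNat_of_zero_le hn
    rw [HahnSeries.ofPowerSeries_apply_coeff, PowerSeries.coeff_mk]

/-- powers of a power series with unit constant term, inside the Laurent series. -/
theorem h3g_pow_ps {R : Type*} [CommRing R] (x : LaurentSeries R)
    (hx : ∀ n : ℤ, n < 0 → x.coeff n = 0) (hu : IsUnit (x.coeff 0)) (d : ℕ) :
    (∀ n : ℤ, n < 0 → (x ^ d).coeff n = 0) ∧ IsUnit ((x ^ d).coeff 0) := by
  set P : PowerSeries R := PowerSeries.mk fun n => x.coeff (n : ℤ) with hP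
  have e : x = HahnSeries.ofPowerSeries ℤ R P := h3g_eq_ofPowerSeries x hx
  have e2 : x ^ d = HahnSeries.ofPowerSeries ℤ R (P ^ d) := by
    rw [map_pow, ← e]
  refine ⟨fun n hn => ?_, ?_⟩
  · rw [e2]
    have h := PowerSeries.coeff_coe (R := R) (P ^ d) n
    rw [if_pos hn] at h
    exact h
  · rw [e2]
    have h := HahnSeries.ofPowerSeries_apply_coeff (Γ := ℤ) (R := R) (P ^ d) 0
    rw [Nat.cast_zero] at h
    rw [h, PowerSeries.coeff_zero_eq_constantCoeff, map_pow]
    have h0 : PowerSeries.constantCoeff P = x.coeff 0 := by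
      rw [← PowerSeries.coeff_zero_eq_constantCoeff_apply, hP, PowerSeries.coeff_mk]
      rfl
    rw [h0]
    exact hu.pow d

section H3gOrth

variable (A : ValuationSubring Kbar) {p : ℕ} (hp : p.Prime) (hA : A.LiesOverPrime p)

include hp hA in
/-- **ORTH for one function**, from a corrected Gauss unit `g` of level `M`. -/
theorem h3g_orth_inst (h5 : 5 ≤ p) (M : ℕ) [NeZero M] (hM : ¬ p ∣ M)
    (r : Place Kbar (FF (goodLevel p M)) → Place (h13sK A) (h13sFt A (goodLevel p M)))
    (hr : H13sIsRed A (goodLevel p M) r)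
    (Q : Place Kbar (FF M))
    (hQ : ∀ f : FF M, f ≠ 0 → ((f : FF M) : LaurentSeries Kbar).order = Q.ord f)
    (g : FF M) (hg0 : g ≠ 0) (hg : g ∈ softV A M) (hgi : g⁻¹ ∈ softV A M)
    (hG : degen (dvd_goodLevel p M) g ∈ gaussV A (goodLevel p M))
    (hdiv : ∀ Q' : Place (h13sK A) (h13sFt A (goodLevel p M)),
      (p : ℤ) ∣ Q'.ord (h13sRed A (goodLevel p M) ⟨degen (dvd_goodLevel p M) g, hG⟩))
    (hoff : ∀ w c : Place Kbar (FF (goodLevel p M)),
      w.ord (degen (dvd_goodLevel p M) g) ≠ 0 →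
      c.restrictAlong (degen (dvd_goodLevel p M))
        (Fermat.Agent.Red.CH0.isIntegral_degen (dvd_goodLevel p M)) = Q → r c ≠ r w)
    (f : FF M) (hf : f ∈ gaussV A M)
    (hreg : ∀ v : Place Kbar (FF M), v ≠ Q → 0 ≤ v.ord f) :
    (gaussR A M ⟨f, hf⟩ * h96dLog (softR A M ⟨g, hg⟩)).coeff 0 = 0 := by
  classical
  haveI : Fact p.Prime := ⟨hp⟩
  haveI : CharP (ResidueField A) p := h3g_charP A hp hA
  have hN : ¬ p ∣ goodLevel p M := not_dvd_goodLevel hp hM
  have haux : auxLevel p ∣ goodLevel p M := auxLevel_dvd_goodLevel p M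
  set h := dvd_goodLevel p M with hh
  set G : FF (goodLevel p M) := degen h g with hGdef
  have hG0 : G ≠ 0 := (map_ne_zero_iff _ (degen h).injective).mpr hg0
  have hGi : G⁻¹ ∈ gaussV A (goodLevel p M) := by
    apply softV_le_gaussV A (goodLevel p M) hp hN hA
    rw [hGdef, ← map_inv₀]
    exact (degen_mem_softV_iff A h _).mpr hgi
  -- the places at infinity and (S2)
  obtain ⟨voo, hvoo⟩ := h37n_place_infty (goodLevel p M)
  obtain ⟨Qb, hQb⟩ := h37g_place_infty A (goodLevel p M)
  have h1 : r voo = Qb :=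
    h1i_s2 p hp (goodLevel p M) hN haux A hA r hr Qb (fun f hf => (hQb f hf).symm) voo
      (fun f hf => (hvoo f hf).symm)
  have hoo : ∀ f : h13sFt A (goodLevel p M), f ≠ 0 →
      (r voo).ord f = (h13sIncl A (goodLevel p M) f).order := by
    intro f hf
    rw [h1]
    exact (hQb f hf).symm
  have hres : voo.restrictAlong (degen h) (Fermat.Agent.Red.CH0.isIntegral_degen h) = Q :=
    h37k_restrict_infty h Q voo hQ hvoo
  -- the `q`-expansion of `g`
  have hord : ∀ v : Place Kbar (FF (goodLevel p M)), r v = r voo → v.ord G = 0 := by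
    intro v hv
    by_contra hne
    exact hoff v voo hne hres hv.symm
  obtain ⟨b₀, hb₀, hb₀neg, hb₀unit⟩ := h93q_int_unit hp hN hA r hr voo
    (fun f hf => (hvoo f hf).symm) hoo G hG0 hG hGi hord
  have hb₀g : embA A b₀ = ((g : FF M) : LaurentSeries Kbar) := by
    rw [hb₀, hGdef, coe_degen]
  -- the norm
  set d := finrankAlong Kbar (degen h) with hd
  have hnorm : Fermat.Agent.Red.KR.normAlong (degen h) G = g ^ d :=
    Fermat.Agent.Red.KR.normAlong_map (degen h) g
  have hb : embA A (b₀ ^ d) =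
      (((Fermat.Agent.Red.KR.normAlong (degen h) G : FF M)) : LaurentSeries Kbar) := by
    rw [hnorm, map_pow, hb₀g]
    rfl
  obtain ⟨hbneg, hbunit⟩ := h3g_pow_ps b₀ hb₀neg hb₀unit d
  have hsg : softR A M ⟨g, hg⟩ = redA (residue A) b₀ := softR_of_embA A M ⟨g, hg⟩ b₀ hb₀g
  have hs0 : softR A M ⟨g, hg⟩ ≠ 0 := by
    intro h0
    rcases (softR_eq_zero_iff A M ⟨g, hg⟩).mp h0 with h2 | h2
    · exact hg0 h2
    · exact h2 hgi
  have hs : redA (residue A) (b₀ ^ d) =
      HahnSeries.C (1 : ResidueField A) * (softR A M ⟨g, hg⟩) ^ d := by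
    rw [map_pow, ← hsg, map_one, one_mul]
  have hdk : ((d : ℕ) : ResidueField A) ≠ 0 := by
    intro h0
    have h2 : p ∣ d := (CharP.cast_eq_zero_iff (ResidueField A) p d).mp h0
    have h3 : Nat.Coprime d p := h98m_deg_coprime hp h5 M
    have h4 : p ∣ Nat.gcd d p := Nat.dvd_gcd h2 dvd_rfl
    rw [h3] at h4
    exact hp.one_lt.ne' (Nat.dvd_one.mp h4)
  -- INT-Q for `f`
  have hfs : f ∈ softV A M := gaussV_le_softV A M hf
  obtain ⟨a, ha, -⟩ := h10x_intQ_final A p M f (h10x_regOff_of_place M Q hQ f hreg) hfs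
  -- the values of `f`
  have hex : ∀ v : Place Kbar (FF M), ∃ c : Kbar, v ≠ Q → ValueAt v f c := by
    intro v
    by_cases hv : v = Q
    · exact ⟨0, fun h => absurd hv h⟩
    · obtain ⟨c, hc⟩ := Fermat.Agent.Red.Match.exists_valueAt v
        (Fermat.Agent.S24.DiffPlace.mem_of_ord_nonneg v (hreg v hv))
      exact ⟨c, fun _ => hc⟩
  choose fv hfv using hex
  -- the support
  haveI : HasPrincipalDivisors Kbar (FF (goodLevel p M)) :=
    Fermat.Agent.Red.HKMod.hasPrincipalDivisors_FF (goodLevel p M)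
  obtain ⟨D, hD, -⟩ := HasPrincipalDivisors.exists_divisor (K := Kbar) G hG0
  set S' : Finset (Place Kbar (FF (goodLevel p M))) :=
    D.support.filter fun w =>
      w.restrictAlong (degen h) (Fermat.Agent.Red.CH0.isIntegral_degen h) ≠ Q with hS'
  have hS1 : ∀ w ∈ S',
      w.restrictAlong (degen h) (Fermat.Agent.Red.CH0.isIntegral_degen h) ≠ Q :=
    fun w hw => (Finset.mem_filter.mp hw).2
  have hS2 : ∀ w : Place Kbar (FF (goodLevel p M)),
      w.restrictAlong (degen h) (Fermat.Agent.Red.CH0.isIntegral_degen h) ≠ Q →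
        w.ord G ≠ 0 → w ∈ S' := by
    intro w hw hne
    refine Finset.mem_filter.mpr ⟨?_, hw⟩
    rw [Finsupp.mem_support_iff, hD]
    exact hne
  -- EVAL
  have hF : degen h f ∈ gaussV A (goodLevel p M) :=
    softV_le_gaussV A (goodLevel p M) hp hN hA ((degen_mem_softV_iff A h f).mpr hfs)
  have hsum := h48e_eval_along A hp hN hA r hr (degen h)
    (Fermat.Agent.Red.CH0.isIntegral_degen h) Q f hreg fv hfv hF G hG0 hG hGi hdiv hoff S' hS2
  exact h38o_orth_back_pow A h Q hQ f hf hreg a ha fv hfv G hG0 (b₀ ^ d) hb hbneg hbunit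
    (softR A M ⟨g, hg⟩) hs0 d hdk 1 one_ne_zero hs S' hS1 hS2 hsum

end H3gOrth

/-- **the CORRECTION** (frozen): a Gauss unit `y` of level `M` with `ord_q (softR y) = 0`, whose
reduction at the good level has all its orders divisible by `p`, has the same reduction as a
Gauss unit `g` of level `M` such that `degen g` has no zero or pole on the fibres of the
reduction map (good level) which contain a place over the `q`-order place `Q` of `FF M`. -/
def H3gCorr (p : ℕ) : Prop :=
  ∀ (hp : p.Prime), 5 ≤ p → ∀ (M : ℕ) [NeZero M], ¬ p ∣ M →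
    ∀ A : ValuationSubring Kbar, A.LiesOverPrime p →
    ∀ r : Place Kbar (FF (goodLevel p M)) → Place (h13sK A) (h13sFt A (goodLevel p M)),
      H13sIsRed A (goodLevel p M) r →
    ∀ Q : Place Kbar (FF M),
      (∀ f : FF M, f ≠ 0 → ((f : FF M) : LaurentSeries Kbar).order = Q.ord f) →
    ∀ (y : FF M) (hy : y ∈ softV A M)
      (hYg : degen (dvd_goodLevel p M) y ∈ gaussV A (goodLevel p M)),
      y ≠ 0 → y⁻¹ ∈ softV A M → (softR A M ⟨y, hy⟩).order = 0 →
      (∀ Q' : Place (h13sK A) (h13sFt A (goodLevel p M)),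
        (p : ℤ) ∣ Q'.ord (h13sRed A (goodLevel p M) ⟨degen (dvd_goodLevel p M) y, hYg⟩)) →
      ∃ (g : FF M) (hg : g ∈ softV A M), g ≠ 0 ∧ g⁻¹ ∈ softV A M ∧
        softR A M ⟨g, hg⟩ = softR A M ⟨y, hy⟩ ∧
        ∀ w c : Place Kbar (FF (goodLevel p M)),
          w.ord (degen (dvd_goodLevel p M) g) ≠ 0 →
          c.restrictAlong (degen (dvd_goodLevel p M))
            (Fermat.Agent.Red.CH0.isIntegral_degen (dvd_goodLevel p M)) = Q → r c ≠ r w

/-- **ORTH(M) from the CORRECTION.** -/
theorem h3g_orth_of_corr {p : ℕ} (hC : H3gCorr p) : H3gOrthM p := by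
  intro hp h5 M _ hpM
  haveI : NeZero p := ⟨hp.ne_zero⟩
  intro A hA Q hQ x u hxu hpure
  have hN : ¬ p ∣ goodLevel p M := not_dvd_goodLevel hp hpM
  have haux : auxLevel p ∣ goodLevel p M := auxLevel_dvd_goodLevel p M
  obtain ⟨r, hr⟩ := Fermat.Agent.P5.h88r_redDiv p hp (goodLevel p M) hN haux A hA
  obtain ⟨s, hs⟩ := h3g_exists_red (A := A) (N := M * p) hp hA hxu.ne_zero
  obtain ⟨y, hy, hYg, hy0, hyi, hYgi, hord0, hlog, hincl, hpy⟩ :=
    h19o_norm_red A hp hA M hpM hs hpure
  obtain ⟨g, hg, hg0, hgi, hgy, hoff⟩ :=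
    hC hp h5 M hpM A hA r hr Q hQ y hy hYg hy0 hyi hord0 hpy
  refine ⟨s, hs, fun f hf hreg => ?_⟩
  have hGs : degen (dvd_goodLevel p M) g ∈ softV A (goodLevel p M) :=
    (degen_mem_softV_iff A (dvd_goodLevel p M) g).mpr hg
  have hG : degen (dvd_goodLevel p M) g ∈ gaussV A (goodLevel p M) :=
    softV_le_gaussV A (goodLevel p M) hp hN hA hGs
  have hred : h13sRed A (goodLevel p M) ⟨degen (dvd_goodLevel p M) g, hG⟩ =
      h13sRed A (goodLevel p M) ⟨degen (dvd_goodLevel p M) y, hYg⟩ :=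
    h19o_red_degen_eq A hp hA M hpM hg hG (by rw [hincl, hgy])
  have hdiv : ∀ Q' : Place (h13sK A) (h13sFt A (goodLevel p M)),
      (p : ℤ) ∣ Q'.ord (h13sRed A (goodLevel p M) ⟨degen (dvd_goodLevel p M) g, hG⟩) := by
    intro Q'
    rw [hred]
    exact hpy Q'
  have key := h3g_orth_inst A hp hA h5 M hpM r hr Q hQ g hg0 hg hgi hG hdiv hoff f hf hreg
  rw [hgy, hlog] at key
  exact key

/-- **the frozen statement S44 from the CORRECTION alone.** -/
theorem h3g_s44_of_corr (hC : ∀ p : ℕ, 5 ≤ p → H3gCorr p)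
    (P : FreyPackage) {N : ℕ} (hcond : P.IsConductorLevel N) (hpN : P.p ∣ N)
    (hirr : WeierstrassCurve.Affine.Point.GaloisRepIsIrreducible (K := AlgebraicClosure ℚ) ℚ
      P.freyCurve P.p)
    (hmod : P.ModularRepOfLevel N) :
    ∃ M : ℕ, M ∣ N ∧ ¬ P.p ∣ M ∧ P.ModularRepOfLevel M :=
  h3g_s44_of_orth (fun p h5 => h3g_orth_of_corr (hC p h5)) P hcond hpN hirr hmod

end Fermat.Agent.P7
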