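import Fermat.Agent.P7.H3OrthAsm
import Fermat.Agent.P7.H44OrthLift
import Fermat.Agent.P7.H57SymTr
import Fermat.Agent.P7.H31GoingUp
import Fermat.Agent.P7.H66S0Final

/-!
# Wave 7 (row 38), DLOG route: ORTH(M) UNCONDITIONALLY, by the exact lift (helper3)

`p ≥ 5` prime, `M` ANY level prime to `p`, `N = goodLevel p M`, `A` over `p`, `r` the reduction
map of places of level `N`, `Q` the `q`-order place of `FF M`.

* `h3g_orth_semi_inst` : **ORTH for one function**, from a Gauss unit `G` of level `N` with the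
  same reduction as the Gauss unit `y` of level `M`, all orders of the reduction divisible by
  `p`, and without zero or pole on the fibres of `r` which contain a place over `Q`
  (NORM-RED `h66s_final_norm_red`, DISC `h31d_degen_norm_ord_eq_zero`, `h93q_int_unit`, EVAL,
  DL2 for a norm + RED).
* `h3g_orthM : H3gOrthM p` : **ORTH(M)**, unconditional (normalised representative
  `h19o_norm_red`, SYM-LITE `h57s_symLite_zero`, exact lift `h44o_exact_lift`).
* `h3g_s44` : **the frozen statement S44**, unconditional.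

Every declaration is a proved theorem; nothing is assumed.
-/

set_option autoImplicit false
set_option linter.unusedSectionVars false
set_option linter.unusedVariables false
set_option linter.style.haveILetI false
set_option synthInstance.maxHeartbeats 400000
set_option maxHeartbeats 1600000

open ModularCurve AlgebraicCurve IsLocalRing

noncomputable section

namespace Fermat.Agent.P7

open Fermat.Agent.S37 Fermat.Agent.S35 Fermat.Agent.P6
open Fermat.Agent.Red Fermat.Agent.Red.GV Fermat.Agent.Red.GV.Soft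
open Fermat.Agent.Jac.K1 (IsKummerPair)
open Fermat.Agent.P5 (h69vPull h13sK h13sFt h13sIncl h13sRed H13sIsRed h13sIncl_red)

section H3gSemi

variable (A : ValuationSubring Kbar) {p : ℕ} (hp : p.Prime) (hA : A.LiesOverPrime p)

include hp hA in
/-- **ORTH for one function**, from an exact lift `G` at the good level. -/
theorem h3g_orth_semi_inst (h5 : 5 ≤ p) (M : ℕ) [NeZero M] (hM : ¬ p ∣ M)
    (r : Place Kbar (FF (goodLevel p M)) → Place (h13sK A) (h13sFt A (goodLevel p M)))
    (hr : H13sIsRed A (goodLevel p M) r)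
    (Q : Place Kbar (FF M))
    (hQ : ∀ f : FF M, f ≠ 0 → ((f : FF M) : LaurentSeries Kbar).order = Q.ord f)
    (y : FF M) (hy : y ∈ softV A M) (hy0 : y ≠ 0) (hyi : y⁻¹ ∈ softV A M)
    (G : FF (goodLevel p M)) (hG0 : G ≠ 0) (hG : G ∈ gaussV A (goodLevel p M))
    (hGi : G⁻¹ ∈ gaussV A (goodLevel p M))
    (hGy : softR A (goodLevel p M) ⟨G, gaussV_le_softV A (goodLevel p M) hG⟩ =
      softR A M ⟨y, hy⟩)
    (hdiv : ∀ Q' : Place (h13sK A) (h13sFt A (goodLevel p M)),
      (p : ℤ) ∣ Q'.ord (h13sRed A (goodLevel p M) ⟨G, hG⟩))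
    (hoff : ∀ w c : Place Kbar (FF (goodLevel p M)), w.ord G ≠ 0 →
      c.restrictAlong (degen (dvd_goodLevel p M))
        (Fermat.Agent.Red.CH0.isIntegral_degen (dvd_goodLevel p M)) = Q → r c ≠ r w)
    (f : FF M) (hf : f ∈ gaussV A M)
    (hreg : ∀ v : Place Kbar (FF M), v ≠ Q → 0 ≤ v.ord f) :
    (gaussR A M ⟨f, hf⟩ * h96dLog (softR A M ⟨y, hy⟩)).coeff 0 = 0 := by
  classical
  haveI : Fact p.Prime := ⟨hp⟩
  haveI : CharP (ResidueField A) p := h3g_charP A hp hA
  have hN : ¬ p ∣ goodLevel p M := not_dvd_goodLevel hp hM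
  have haux : auxLevel p ∣ goodLevel p M := auxLevel_dvd_goodLevel p M
  set h := dvd_goodLevel p M with hh
  have hGs : G ∈ softV A (goodLevel p M) := gaussV_le_softV A (goodLevel p M) hG
  have hGis : G⁻¹ ∈ softV A (goodLevel p M) := gaussV_le_softV A (goodLevel p M) hGi
  -- the places at infinity and (S2)
  obtain ⟨voo, hvoo⟩ := h37n_place_infty (goodLevel p M)
  obtain ⟨Qb, hQb⟩ := h37g_place_infty A (goodLevel p M)
  have h1 : r voo = Qb :=
    h1i_s2 p hp (goodLevel p M) hN haux A hA r hr Qb (fun f hf => (hQb f hf).symm) voo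
      (fun f hf => (hvoo f hf).symm)
  have hoo : ∀ f : h13sFt A (goodLevel p M), f ≠ 0 →
      (r voo).ord f = (h13sIncl A (goodLevel p M) f).order := by
    intro f hf
    rw [h1]
    exact (hQb f hf).symm
  have hres : voo.restrictAlong (degen h) (Fermat.Agent.Red.CH0.isIntegral_degen h) = Q :=
    h37k_restrict_infty h Q voo hQ hvoo
  -- the norm
  set d := finrankAlong Kbar (degen h) with hd
  obtain ⟨hn, hni⟩ := h66s_final_norm_unit hp M hM A hA G hGs hGis
  obtain ⟨hn', hnr⟩ := h66s_final_norm_red hp M hM A hA G hGs ⟨y, hy⟩ hGy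
  have hs0 : softR A M ⟨y, hy⟩ ≠ 0 := by
    intro h0
    rcases (softR_eq_zero_iff A M ⟨y, hy⟩).mp h0 with h2 | h2
    · exact hy0 h2
    · exact h2 hyi
  have hnm0 : Fermat.Agent.Red.KR.normAlong (degen h) G ≠ 0 := by
    intro h0
    have h2 : softR A M ⟨Fermat.Agent.Red.KR.normAlong (degen h) G, hn'⟩ = 0 := by
      have e : (⟨Fermat.Agent.Red.KR.normAlong (degen h) G, hn'⟩ : softV A M) = 0 :=
        Subtype.ext h0
      rw [e, map_zero]
    rw [hnr] at h2
    exact pow_ne_zero d hs0 h2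
  -- the `q`-expansion of the norm
  set Y' : FF (goodLevel p M) := degen h (Fermat.Agent.Red.KR.normAlong (degen h) G) with hY'
  have hY'0 : Y' ≠ 0 := (map_ne_zero_iff _ (degen h).injective).mpr hnm0
  have hY'g : Y' ∈ gaussV A (goodLevel p M) :=
    softV_le_gaussV A (goodLevel p M) hp hN hA ((degen_mem_softV_iff A h _).mpr hn)
  have hY'i : Y'⁻¹ ∈ gaussV A (goodLevel p M) := by
    apply softV_le_gaussV A (goodLevel p M) hp hN hA
    rw [hY', ← map_inv₀]
    exact (degen_mem_softV_iff A h _).mpr hni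
  have hord : ∀ v : Place Kbar (FF (goodLevel p M)), r v = r voo → v.ord Y' = 0 := by
    intro v hv
    refine h31d_degen_norm_ord_eq_zero h hr G hG0 voo (fun c w hc hw => ?_) v hv
    by_contra hne
    exact hoff w c hne (hc.trans hres) hw.symm
  obtain ⟨b, hb', hbneg, hbunit⟩ := h93q_int_unit hp hN hA r hr voo
    (fun f hf => (hvoo f hf).symm) hoo Y' hY'0 hY'g hY'i hord
  have hb : embA A b =
      (((Fermat.Agent.Red.KR.normAlong (degen h) G : FF M)) : LaurentSeries Kbar) := by
    rw [hb', hY', coe_degen]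
  have hs : redA (residue A) b =
      HahnSeries.C (1 : ResidueField A) * (softR A M ⟨y, hy⟩) ^ d := by
    rw [map_one, one_mul, ← hnr]
    exact (softR_of_embA A M ⟨_, hn'⟩ b hb).symm
  have hdk : ((d : ℕ) : ResidueField A) ≠ 0 := by
    intro h0
    have h2 : p ∣ d := (CharP.cast_eq_zero_iff (ResidueField A) p d).mp h0
    have h3 : Nat.Coprime d p := h98m_deg_coprime hp h5 M
    have h4 : p ∣ Nat.gcd d p := Nat.dvd_gcd h2 dvd_rfl
    rw [h3] at h4
    exact hp.one_lt.ne' (Nat.dvd_one.mp h4)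
  -- INT-Q for `f`
  have hfs : f ∈ softV A M := gaussV_le_softV A M hf
  obtain ⟨a, ha, -⟩ := h10x_intQ_final A p M f (h10x_regOff_of_place M Q hQ f hreg) hfs
  -- the values of `f`
  have hex : ∀ v : Place Kbar (FF M), ∃ c : Kbar, v ≠ Q → ValueAt v f c := by
    intro v
    by_cases hv : v = Q
    · exact ⟨0, fun h => absurd hv h⟩
    · obtain ⟨c, hc⟩ := Fermat.Agent.Red.Match.exists_valueAt v
        (Fermat.Agent.S24.DiffPlace.mem_of_ord_nonneg v (hreg v hv))
      exact ⟨c, fun _ => hc⟩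
  choose fv hfv using hex
  -- the support
  haveI : HasPrincipalDivisors Kbar (FF (goodLevel p M)) :=
    Fermat.Agent.Red.HKMod.hasPrincipalDivisors_FF (goodLevel p M)
  obtain ⟨D, hD, -⟩ := HasPrincipalDivisors.exists_divisor (K := Kbar) G hG0
  set S' : Finset (Place Kbar (FF (goodLevel p M))) :=
    D.support.filter fun w =>
      w.restrictAlong (degen h) (Fermat.Agent.Red.CH0.isIntegral_degen h) ≠ Q with hS'
  have hS1 : ∀ w ∈ S',
      w.restrictAlong (degen h) (Fermat.Agent.Red.CH0.isIntegral_degen h) ≠ Q :=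
    fun w hw => (Finset.mem_filter.mp hw).2
  have hS2 : ∀ w : Place Kbar (FF (goodLevel p M)),
      w.restrictAlong (degen h) (Fermat.Agent.Red.CH0.isIntegral_degen h) ≠ Q →
        w.ord G ≠ 0 → w ∈ S' := by
    intro w hw hne
    refine Finset.mem_filter.mpr ⟨?_, hw⟩
    rw [Finsupp.mem_support_iff, hD]
    exact hne
  -- EVAL
  have hF : degen h f ∈ gaussV A (goodLevel p M) :=
    softV_le_gaussV A (goodLevel p M) hp hN hA ((degen_mem_softV_iff A h f).mpr hfs)
  have hsum := h48e_eval_along A hp hN hA r hr (degen h)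
    (Fermat.Agent.Red.CH0.isIntegral_degen h) Q f hreg fv hfv hF G hG0 hG hGi hdiv hoff S' hS2
  exact h38o_orth_back_pow A h Q hQ f hf hreg a ha fv hfv G hG0 b hb hbneg hbunit
    (softR A M ⟨y, hy⟩) hs0 d hdk 1 one_ne_zero hs S' hS1 hS2 hsum

end H3gSemi

/-- **ORTH(M)**, unconditional. -/
theorem h3g_orthM (p : ℕ) : H3gOrthM p := by
  classical
  intro hp h5 M _ hpM
  haveI : NeZero p := ⟨hp.ne_zero⟩
  intro A hA Q hQ x u hxu hpure
  have hN : ¬ p ∣ goodLevel p M := not_dvd_goodLevel hp hpM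
  have haux : auxLevel p ∣ goodLevel p M := auxLevel_dvd_goodLevel p M
  set h := dvd_goodLevel p M with hh
  obtain ⟨r, hr⟩ := Fermat.Agent.P5.h88r_redDiv p hp (goodLevel p M) hN haux A hA
  obtain ⟨s, hs⟩ := h3g_exists_red (A := A) (N := M * p) hp hA hxu.ne_zero
  obtain ⟨y, hy, hYg, hy0, hyi, hYgi, hord0, hlog, hincl, hpy⟩ :=
    h19o_norm_red A hp hA M hpM hs hpure
  -- the places at infinity and (S2)
  obtain ⟨voo, hvoo⟩ := h37n_place_infty (goodLevel p M)
  obtain ⟨Qb, hQb⟩ := h37g_place_infty A (goodLevel p M)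
  have h1 : r voo = Qb :=
    h1i_s2 p hp (goodLevel p M) hN haux A hA r hr Qb (fun f hf => (hQb f hf).symm) voo
      (fun f hf => (hvoo f hf).symm)
  have hoo : ∀ f : h13sFt A (goodLevel p M), f ≠ 0 →
      (r voo).ord f = (h13sIncl A (goodLevel p M) f).order := by
    intro f hf
    rw [h1]
    exact (hQb f hf).symm
  have hres : voo.restrictAlong (degen h) (Fermat.Agent.Red.CH0.isIntegral_degen h) = Q :=
    h37k_restrict_infty h Q voo hQ hvoo
  -- the reduction of `degen y`
  set f₀ := h13sRed A (goodLevel p M) ⟨degen h y, hYg⟩ with hf₀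
  have hsy0 : softR A M ⟨y, hy⟩ ≠ 0 := by
    intro h0
    rcases (softR_eq_zero_iff A M ⟨y, hy⟩).mp h0 with h2 | h2
    · exact hy0 h2
    · exact h2 hyi
  have hf₀0 : f₀ ≠ 0 := by
    intro h0
    apply hsy0
    have e := hincl
    rw [h0, map_zero] at e
    exact e.symm
  -- the places over `Q` are poles of `j`
  haveI : HasPrincipalDivisors Kbar (FF (goodLevel p M)) :=
    Fermat.Agent.Red.HKMod.hasPrincipalDivisors_FF (goodLevel p M)
  have hj0 : jB (goodLevel p M) ≠ 0 := h93q_jB_ne_zero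
  obtain ⟨Dj, hDj, -⟩ := HasPrincipalDivisors.exists_divisor (K := Kbar) (jB (goodLevel p M)) hj0
  have hjM0 : jB M ≠ 0 := h93q_jB_ne_zero
  have hQj : Q.ord (jB M) = -1 := by
    rw [← hQ _ hjM0, coe_jB]
    exact Fermat.Agent.S28.Asm.order_jqModC' Kbar
  have hover : ∀ c : Place Kbar (FF (goodLevel p M)),
      c.restrictAlong (degen h) (Fermat.Agent.Red.CH0.isIntegral_degen h) = Q →
        c ∈ Dj.support := by
    intro c hc
    rw [Finsupp.mem_support_iff, hDj]
    have e1 : degen h (jB M) = jB (goodLevel p M) := Fermat.Agent.Red.CH0.degen_jBar h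
    have e2 := Place.ord_restrictAlong (degen h) (Fermat.Agent.Red.CH0.isIntegral_degen h) c
      (jB M)
    rw [e1, hc, hQj] at e2
    have e3 := Fermat.Agent.Red.NLA.h87_ramificationIndexAlong_pos (degen h)
      (Fermat.Agent.Red.CH0.isIntegral_degen h) c
    rw [e2]
    have e4 : (0 : ℤ) < (Place.ramificationIndexAlong (degen h) c : ℤ) := by exact_mod_cast e3
    omega
  set S : Finset (Place (h13sK A) (h13sFt A (goodLevel p M))) :=
    (Dj.support.filter fun c =>
      c.restrictAlong (degen h) (Fermat.Agent.Red.CH0.isIntegral_degen h) = Q).image r with hS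
  have hSord : ∀ Q' ∈ S, Q'.ord f₀ = 0 := by
    intro Q' hQ'
    obtain ⟨c, hc, rfl⟩ := Finset.mem_image.mp hQ'
    have hcQ := (Finset.mem_filter.mp hc).2
    exact h57s_symLite_zero h hp hN hA hr voo c (hcQ.trans hres.symm) hoo hy0 hy hyi hord0 hYg
  obtain ⟨G, hG, hGi, hGred, hGoff⟩ :=
    h44o_exact_lift hp hN haux hA r hr f₀ hf₀0 S hSord
  have hG0 : G ≠ 0 := by
    rintro rfl
    apply hf₀0
    rw [← hGred, Fermat.Agent.P5.h88r_red_eq_zero_iff]
    have e : (⟨0, hG⟩ : gaussV A (goodLevel p M)) = 0 := rfl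
    rw [e, map_zero]
  have hoff : ∀ w c : Place Kbar (FF (goodLevel p M)), w.ord G ≠ 0 →
      c.restrictAlong (degen h) (Fermat.Agent.Red.CH0.isIntegral_degen h) = Q → r c ≠ r w := by
    intro w c hw hc hrc
    apply hGoff w hw
    rw [← hrc]
    exact Finset.mem_image.mpr ⟨c, Finset.mem_filter.mpr ⟨hover c hc, hc⟩, rfl⟩
  have hGy : softR A (goodLevel p M) ⟨G, gaussV_le_softV A (goodLevel p M) hG⟩ =
      softR A M ⟨y, hy⟩ := by
    rw [softR_eq_gaussR A (goodLevel p M) G _ hG, ← h13sIncl_red, hGred, hf₀, hincl]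
  have hdiv : ∀ Q' : Place (h13sK A) (h13sFt A (goodLevel p M)),
      (p : ℤ) ∣ Q'.ord (h13sRed A (goodLevel p M) ⟨G, hG⟩) := by
    intro Q'
    rw [hGred]
    exact hpy Q'
  refine ⟨s, hs, fun f hf hreg => ?_⟩
  have key := h3g_orth_semi_inst A hp hA h5 M hpM r hr Q hQ y hy hy0 hyi G hG0 hG hGi hGy hdiv
    hoff f hf hreg
  rw [hlog] at key
  exact key

/-- **the frozen statement S44**, unconditional. -/
theorem h3g_s44 (P : FreyPackage) {N : ℕ} (hcond : P.IsConductorLevel N) (hpN : P.p ∣ N)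
    (hirr : WeierstrassCurve.Affine.Point.GaloisRepIsIrreducible (K := AlgebraicClosure ℚ) ℚ
      P.freyCurve P.p)
    (hmod : P.ModularRepOfLevel N) :
    ∃ M : ℕ, M ∣ N ∧ ¬ P.p ∣ M ∧ P.ModularRepOfLevel M :=
  h3g_s44_of_orth (fun p _ => h3g_orthM p) P hcond hpN hirr hmod

end Fermat.Agent.P7
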