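import Mathlib

/-!
# Wave 7 (row 38), block (A), DLOG route, leaf DL8-POLY: the Hecke-polynomial step (helper3)

Abstract form (Mathlib only) of the step
`e • x = x`, `u` a Kummer function of `x`  `⟹`  `e(T^fml) ω(u) = ω(u)`,
where `ω(u)` is the logarithmic derivative of the (scaled) reduction of `u`.

Setting: `J` a module over the Hecke polynomials `MvPolynomial Nat.Primes ℤ` (`heckeModuleBar`),
`K x u` a relation "`u` is a Kummer function of `x`" (`IsKummerPair p`), `Nm ℓ` the function-level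
Hecke operator (`h19vT`), `ω : F → V` a map which is additive on Kummer functions and
`ev : MvPolynomial Nat.Primes ℤ →ₐ[ℤ] Module.End R V` the formal Hecke action (`h3fEval`).

* `h3g_poly` : for `e` supported in `S` and `K x u` there is a Kummer function `v` of `e • x` with
  `ω v = ev e (ω u)`;
* `h3g_poly_fix` : if moreover `ω` is constant on the Kummer functions of one class and
  `e • x = x`, then `ev e (ω u) = ω u`;
* `h3g_poly_zero` : if in addition `ev e (ω u) = 0`, then `ω u = 0`.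

Every declaration is a proved theorem; nothing is assumed.
-/

set_option autoImplicit false
set_option linter.unusedSectionVars false
set_option linter.unusedVariables false

namespace Fermat.Agent.P7

section H3gAbs

variable {J : Type*} [AddCommGroup J] [Module (MvPolynomial Nat.Primes ℤ) J]
  {F : Type*} [Field F]
  {R : Type*} [CommRing R] {V : Type*} [AddCommGroup V] [Module R V]

/-- **the Hecke-polynomial step, existence form.** -/
theorem h3g_poly (S : Set Nat.Primes) (K : J → F → Prop) (Nm : Nat.Primes → F → F)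
    (ω : F → V) (ev : MvPolynomial Nat.Primes ℤ →ₐ[ℤ] Module.End R V)
    (hKz : ∀ (x : J) (u : F) (z : ℤ), K x u → K (z • x) (u ^ z))
    (hKm : ∀ (x y : J) (u v : F), K x u → K y v → K (x + y) (u * v))
    (hKT : ∀ ℓ ∈ S, ∀ (x : J) (u : F), K x u →
      K ((MvPolynomial.X ℓ : MvPolynomial Nat.Primes ℤ) • x) (Nm ℓ u))
    (hωz : ∀ (x : J) (u : F) (z : ℤ), K x u → ω (u ^ z) = z • ω u)
    (hωm : ∀ (x y : J) (u v : F), K x u → K y v → ω (u * v) = ω u + ω v)
    (hωT : ∀ ℓ ∈ S, ∀ (x : J) (u : F), K x u → ω (Nm ℓ u) = ev (MvPolynomial.X ℓ) (ω u))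
    {e : MvPolynomial Nat.Primes ℤ} (he : e ∈ MvPolynomial.supported ℤ S)
    (x : J) (u : F) (hx : K x u) :
    ∃ v : F, K (e • x) v ∧ ω v = ev e (ω u) := by
  rw [MvPolynomial.supported_eq_adjoin_X] at he
  induction he using Algebra.adjoin_induction generalizing x u with
  | mem P hP =>
    obtain ⟨ℓ, hℓ, rfl⟩ := hP
    exact ⟨Nm ℓ u, hKT ℓ hℓ x u hx, hωT ℓ hℓ x u hx⟩
  | algebraMap z =>
    refine ⟨u ^ z, ?_, ?_⟩
    · rw [algebraMap_smul]
      exact hKz x u z hx
    · rw [hωz x u z hx, AlgHom.commutes, Module.algebraMap_end_apply]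
  | add P Q hP hQ ihP ihQ =>
    obtain ⟨v, hv, hv'⟩ := ihP x u hx
    obtain ⟨w, hw, hw'⟩ := ihQ x u hx
    refine ⟨v * w, ?_, ?_⟩
    · rw [add_smul]
      exact hKm _ _ v w hv hw
    · rw [hωm _ _ v w hv hw, hv', hw', map_add, LinearMap.add_apply]
  | mul P Q hP hQ ihP ihQ =>
    obtain ⟨w, hw, hw'⟩ := ihQ x u hx
    obtain ⟨v, hv, hv'⟩ := ihP (Q • x) w hw
    refine ⟨v, ?_, ?_⟩
    · rw [mul_smul]
      exact hv
    · rw [hv', hw', map_mul, Module.End.mul_apply]

/-- **the Hecke-polynomial step, fixed classes**: `e • x = x` gives `e(T^fml) ω(u) = ω(u)`. -/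
theorem h3g_poly_fix (S : Set Nat.Primes) (K : J → F → Prop) (Nm : Nat.Primes → F → F)
    (ω : F → V) (ev : MvPolynomial Nat.Primes ℤ →ₐ[ℤ] Module.End R V)
    (hKz : ∀ (x : J) (u : F) (z : ℤ), K x u → K (z • x) (u ^ z))
    (hKm : ∀ (x y : J) (u v : F), K x u → K y v → K (x + y) (u * v))
    (hKT : ∀ ℓ ∈ S, ∀ (x : J) (u : F), K x u →
      K ((MvPolynomial.X ℓ : MvPolynomial Nat.Primes ℤ) • x) (Nm ℓ u))
    (hKu : ∀ (x : J) (u u' : F), K x u → K x u' → ω u = ω u')
    (hωz : ∀ (x : J) (u : F) (z : ℤ), K x u → ω (u ^ z) = z • ω u)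
    (hωm : ∀ (x y : J) (u v : F), K x u → K y v → ω (u * v) = ω u + ω v)
    (hωT : ∀ ℓ ∈ S, ∀ (x : J) (u : F), K x u → ω (Nm ℓ u) = ev (MvPolynomial.X ℓ) (ω u))
    {e : MvPolynomial Nat.Primes ℤ} (he : e ∈ MvPolynomial.supported ℤ S)
    (x : J) (u : F) (hx : K x u) (hex : e • x = x) :
    ev e (ω u) = ω u := by
  obtain ⟨v, hv, hv'⟩ := h3g_poly S K Nm ω ev hKz hKm hKT hωz hωm hωT he x u hx
  rw [hex] at hv
  rw [← hv']
  exact hKu x v u hv hx

/-- **the Hecke-polynomial step, conclusion**: if `e • x = x` and `e(T^fml)` kills `ω(u)`, then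
`ω(u) = 0`. -/
theorem h3g_poly_zero (S : Set Nat.Primes) (K : J → F → Prop) (Nm : Nat.Primes → F → F)
    (ω : F → V) (ev : MvPolynomial Nat.Primes ℤ →ₐ[ℤ] Module.End R V)
    (hKz : ∀ (x : J) (u : F) (z : ℤ), K x u → K (z • x) (u ^ z))
    (hKm : ∀ (x y : J) (u v : F), K x u → K y v → K (x + y) (u * v))
    (hKT : ∀ ℓ ∈ S, ∀ (x : J) (u : F), K x u →
      K ((MvPolynomial.X ℓ : MvPolynomial Nat.Primes ℤ) • x) (Nm ℓ u))
    (hKu : ∀ (x : J) (u u' : F), K x u → K x u' → ω u = ω u')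
    (hωz : ∀ (x : J) (u : F) (z : ℤ), K x u → ω (u ^ z) = z • ω u)
    (hωm : ∀ (x y : J) (u v : F), K x u → K y v → ω (u * v) = ω u + ω v)
    (hωT : ∀ ℓ ∈ S, ∀ (x : J) (u : F), K x u → ω (Nm ℓ u) = ev (MvPolynomial.X ℓ) (ω u))
    {e : MvPolynomial Nat.Primes ℤ} (he : e ∈ MvPolynomial.supported ℤ S)
    (x : J) (u : F) (hx : K x u) (hex : e • x = x) (hkill : ev e (ω u) = 0) :
    ω u = 0 := by
  rw [← h3g_poly_fix S K Nm ω ev hKz hKm hKT hKu hωz hωm hωT he x u hx hex, hkill]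

end H3gAbs

end Fermat.Agent.P7
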