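import Mathlib

/-!
# P7 (wave 7, S40), TOP step `V₀ ≠ 0` (helper40): a group of unipotent operators on a finite
abelian group of exponent `p` has a nonzero fixed point

Mathlib only.

* `h40f7_pow_eq` : `(h - 1)² = 0` and `p V = 0` imply `h ^ p = 1` on `V`.
* `h40f7_exists_fixed` : `H` a group acting additively on a finite nontrivial abelian group `V`
  with `p V = 0`, every `h` with `h² - 2 h + 1 = 0` on `V`: there is a nonzero `v` fixed by `H`.
* `h40f7_exists_fixed_sub` : the same for a subgroup `H` of `G` and an `H`-stable finite subgroup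
  `V` of a `G`-module `X` (the shape of TOP: `X = JZero N`, `V` the eigenspace in `J₀(N)[p]`,
  `H = ker (G_ℚ → Aut W[p])`).
-/

set_option autoImplicit false

namespace Fermat.Agent.P7

section Abs

variable {V : Type*} [AddCommGroup V] {H : Type*} [Group H] [DistribMulAction H V]

/-- the iterates of a unipotent operator of level two. -/
theorem h40f7_pow_smul (h : H) (hu : ∀ v : V, h • h • v - (2 : ℤ) • h • v + v = 0) (n : ℕ)
    (v : V) : h ^ n • v = v + n • (h • v - v) := by
  induction n generalizing v with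
  | zero => simp
  | succ n ih =>
    rw [pow_succ, mul_smul, ih (h • v)]
    have h1 := hu v
    have h2 : h • h • v = (2 : ℤ) • h • v - v := by
      have : h • h • v = (h • h • v - (2 : ℤ) • h • v + v) + ((2 : ℤ) • h • v - v) := by abel
      rw [this, h1, zero_add]
    rw [h2, succ_nsmul]
    have h3 : (2 : ℤ) • h • v - v - h • v = h • v - v := by
      rw [two_smul]
      abel
    rw [h3]
    abel

theorem h40f7_pow_eq (p : ℕ) (hp : ∀ v : V, p • v = 0) (h : H)
    (hu : ∀ v : V, h • h • v - (2 : ℤ) • h • v + v = 0) (v : V) : h ^ p • v = v := by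
  rw [h40f7_pow_smul h hu p v, hp, add_zero]

/-- **a group of unipotent operators on a finite abelian group of exponent `p` has a nonzero
fixed point.** -/
theorem h40f7_exists_fixed [Finite V] [Nontrivial V] (p : ℕ) [hpp : Fact p.Prime]
    (hp : ∀ v : V, p • v = 0) (hu : ∀ (h : H) (v : V), h • h • v - (2 : ℤ) • h • v + v = 0) :
    ∃ v : V, v ≠ 0 ∧ ∀ h : H, h • v = v := by
  classical
  -- the image of `H` in the permutations of `V`
  let φ : H →* Equiv.Perm V := MulAction.toPermHom H V
  let Γ : Subgroup (Equiv.Perm V) := φ.range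
  have hΓ : IsPGroup p Γ := by
    rintro ⟨g, h, rfl⟩
    refine ⟨1, ?_⟩
    rw [pow_one]
    apply Subtype.ext
    rw [Subgroup.coe_pow]
    show (φ h) ^ p = 1
    rw [← map_pow]
    ext v
    show h ^ p • v = v
    exact h40f7_pow_eq p hp h (hu h) v
  have : Finite Γ := inferInstance
  -- the cardinality of `V` is divisible by `p`
  have hcard : p ∣ Nat.card V := by
    obtain ⟨v, hv⟩ := exists_ne (0 : V)
    have hord : addOrderOf v = p := by
      have h1 : addOrderOf v ∣ p := addOrderOf_dvd_of_nsmul_eq_zero (hp v)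
      rcases (Nat.dvd_prime hpp.out).1 h1 with h2 | h2
      · exact absurd (AddMonoid.addOrderOf_eq_one_iff.1 h2) hv
      · exact h2
    rw [← hord]
    exact addOrderOf_dvd_natCard v
  have h0 : (0 : V) ∈ MulAction.fixedPoints Γ V := by
    rintro ⟨g, h, rfl⟩
    show h • (0 : V) = 0
    exact smul_zero h
  obtain ⟨v, hv, hv0⟩ := hΓ.exists_fixed_point_of_prime_dvd_card_of_fixed_point V hcard h0
  refine ⟨v, fun h => hv0 h.symm, fun h => ?_⟩
  exact hv ⟨φ h, h, rfl⟩

end Abs

section Sub

variable {G X : Type*} [Group G] [AddCommGroup X] [DistribMulAction G X]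

/-- **the shape of TOP**: `H ≤ G`, `V ≤ X` finite, nonzero, of exponent `p`, stable under `H`,
every `h ∈ H` unipotent of level two on `V`: there is a nonzero `x ∈ V` fixed by `H`. -/
theorem h40f7_exists_fixed_sub (H : Subgroup G) (V : AddSubgroup X) (hVfin : (V : Set X).Finite)
    (hV0 : ∃ x ∈ V, x ≠ 0) (p : ℕ) (hpp : p.Prime) (hp : ∀ x ∈ V, p • x = 0)
    (hstab : ∀ h ∈ H, ∀ x ∈ V, h • x ∈ V)
    (hu : ∀ h ∈ H, ∀ x ∈ V, h • h • x - (2 : ℤ) • h • x + x = 0) :
    ∃ x ∈ V, x ≠ 0 ∧ ∀ h ∈ H, h • x = x := by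
  have : Fact p.Prime := ⟨hpp⟩
  have : Finite ↥V := Set.finite_coe_iff.mpr hVfin
  have : Nontrivial ↥V := by
    obtain ⟨x, hx, hx0⟩ := hV0
    exact ⟨⟨⟨x, hx⟩, 0, fun h => hx0 (congrArg Subtype.val h)⟩⟩
  let act : DistribMulAction ↥H ↥V :=
    { smul := fun h v => ⟨(h : G) • (v : X), hstab h h.2 v v.2⟩
      one_smul := fun v => Subtype.ext (one_smul G (v : X))
      mul_smul := fun h h' v => Subtype.ext (mul_smul (h : G) (h' : G) (v : X))
      smul_zero := fun h => Subtype.ext (smul_zero (h : G))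
      smul_add := fun h v w => Subtype.ext (smul_add (h : G) (v : X) (w : X)) }
  obtain ⟨v, hv0, hv⟩ := h40f7_exists_fixed (V := ↥V) (H := ↥H) p
    (fun v => Subtype.ext (by
      rw [AddSubgroup.coe_nsmul]
      exact hp _ v.2))
    (fun h v => Subtype.ext (by
      have h1 := hu h h.2 v v.2
      rw [AddSubgroup.coe_add, AddSubgroup.coe_sub, AddSubgroup.coe_zsmul]
      exact h1))
  exact ⟨v, v.2, fun h => hv0 (Subtype.ext h), fun h hh => congrArg Subtype.val (hv ⟨h, hh⟩)⟩

end Sub

end Fermat.Agent.P7
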