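import Fermat.Agent.S05.Kernel
import Fermat.Agent.P5.H75NewtonFix
import Fermat.Agent.P5.H96LawSw

/-!
# P7 (wave 7, S40), block (4) LOCAL-W, leaf CLOS (helper40)

`A` a valuation subring of a field `K`, archimedean (`H96Arch A`), `W` a Weierstrass curve over
`K` with coefficients in `A`, `E¹ = {P | InE1 A P}` the kernel of reduction,
`z = K56.zcoord`, `w = h40w_wc` the coordinates of the chart at infinity.

* `h40w_Psi W z₁ w₁ z₂ w₂` : the rational function with unit denominators computing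
  `z (P₁ + P₂)` (chord, third root by Vieta, negation).
* `h40w_psi_mem` : closure of an integral-valued function algebra on a finite set under `Psi`.
* `h40w_w_mem` : `w` restricted to a finite subset of `E¹` lies in the `A`-algebra generated by
  `z` (Newton).
* `h40w_z_inj` : `z` is injective on `E¹`.
* `H40wLaw A W`, `h40w_law` : the exact law `z (P₁ + P₂) = Psi (z P₁, w P₁, z P₂, w P₂)` on
  `E¹` (origin included).
* `H40wAdd`, `h40w_add` : (elliptic `H96wAdd`) `(u, v) ↦ z (u + v)` on `S × S'` (finite subsets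
  of `E¹`) lies in the product algebra `h96c_prod A (R S) (R S')`.
* `h40w_G E F z ι` : the generating set `{1_{c₀ + E¹}, 1_{c₀ + E¹} * z (· - c₀) | c₀ ∈ F}` of
  functions on `X` (`ι : X →+ W.Point`), as in `P5/H96LawOrder` (`h96o_G`).
* `h40w_G_comul` (generic), `h40w_comul` (elliptic) : the field `comul` of `H96LocOrder`.
-/

set_option autoImplicit false

namespace Fermat.Agent.P7

open WeierstrassCurve WeierstrassCurve.Affine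
open Fermat.Agent.S05 Fermat.Agent.P5

noncomputable section

/-! ### the rational function `Psi` and its pointwise size -/

section Pointwise

variable {K : Type} [Field K]

/-- the slope of the chord (tangent) in the chart `(z, w)`. -/
def h40w_lam (W : Affine K) (z₁ w₁ z₂ w₂ : K) : K :=
  K56.zg1 W z₁ z₂ w₂ * (1 - K56.zg2 W z₁ w₁ w₂)⁻¹

/-- the intercept of the chord. -/
def h40w_nu (W : Affine K) (z₁ w₁ z₂ w₂ : K) : K := w₁ - h40w_lam W z₁ w₁ z₂ w₂ * z₁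

/-- the third root. -/
def h40w_z3 (W : Affine K) (z₁ w₁ z₂ w₂ : K) : K :=
  -z₁ - z₂ - K56.zc2 W (h40w_lam W z₁ w₁ z₂ w₂) (h40w_nu W z₁ w₁ z₂ w₂) *
    (K56.zc3 W (h40w_lam W z₁ w₁ z₂ w₂))⁻¹

/-- the `w`-coordinate of the third point. -/
def h40w_w3 (W : Affine K) (z₁ w₁ z₂ w₂ : K) : K :=
  h40w_lam W z₁ w₁ z₂ w₂ * h40w_z3 W z₁ w₁ z₂ w₂ + h40w_nu W z₁ w₁ z₂ w₂

/-- the `z`-coordinate of the sum. -/
def h40w_Psi (W : Affine K) (z₁ w₁ z₂ w₂ : K) : K :=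
  -h40w_z3 W z₁ w₁ z₂ w₂ *
    (1 - (W.a₁ * h40w_z3 W z₁ w₁ z₂ w₂ + W.a₃ * h40w_w3 W z₁ w₁ z₂ w₂))⁻¹

variable (A : ValuationSubring K) (W : Affine K)

theorem h40w_g1_small (ha₁ : W.a₁ ∈ A) (ha₂ : W.a₂ ∈ A) (ha₄ : W.a₄ ∈ A)
    {z₁ z₂ w₂ : K} (hz₁ : z₁ ∈ A.nonunits) (hz₂ : z₂ ∈ A.nonunits) (hw₂ : w₂ ∈ A.nonunits) :
    K56.zg1 W z₁ z₂ w₂ ∈ A.nonunits := by
  have hz₁A := K56.mem_of_mem_nonunits A hz₁
  have hz₂A := K56.mem_of_mem_nonunits A hz₂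
  have hw₂A := K56.mem_of_mem_nonunits A hw₂
  unfold K56.zg1
  refine K56.nonunits_add_mem A (K56.nonunits_add_mem A (K56.nonunits_add_mem A
    (K56.nonunits_add_mem A (K56.nonunits_add_mem A ?_ ?_) ?_) ?_) ?_) ?_
  · exact K56.nonunits_pow_mem A hz₂ two_ne_zero
  · exact K56.nonunits_mul_mem A hz₁ hz₂A
  · exact K56.nonunits_pow_mem A hz₁ two_ne_zero
  · exact K56.mem_mul_nonunits A ha₁ hw₂
  · exact K56.mem_mul_nonunits A (mul_mem ha₂ (add_mem hz₂A hz₁A)) hw₂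
  · exact K56.mem_mul_nonunits A ha₄ (K56.nonunits_pow_mem A hw₂ two_ne_zero)

theorem h40w_g2_small (ha₁ : W.a₁ ∈ A) (ha₂ : W.a₂ ∈ A) (ha₃ : W.a₃ ∈ A) (ha₄ : W.a₄ ∈ A)
    (ha₆ : W.a₆ ∈ A) {z₁ w₁ w₂ : K} (hz₁ : z₁ ∈ A.nonunits) (hw₁ : w₁ ∈ A.nonunits)
    (hw₂ : w₂ ∈ A.nonunits) : K56.zg2 W z₁ w₁ w₂ ∈ A.nonunits := by
  have hz₁A := K56.mem_of_mem_nonunits A hz₁
  have hw₁A := K56.mem_of_mem_nonunits A hw₁
  have hw₂A := K56.mem_of_mem_nonunits A hw₂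
  unfold K56.zg2
  refine K56.nonunits_add_mem A (K56.nonunits_add_mem A (K56.nonunits_add_mem A
    (K56.nonunits_add_mem A ?_ ?_) ?_) ?_) ?_
  · exact K56.mem_mul_nonunits A ha₁ hz₁
  · exact K56.mem_mul_nonunits A ha₂ (K56.nonunits_pow_mem A hz₁ two_ne_zero)
  · exact K56.mem_mul_nonunits A ha₃ (K56.nonunits_add_mem A hw₂ hw₁)
  · exact K56.mem_mul_nonunits A (mul_mem ha₄ hz₁A) (K56.nonunits_add_mem A hw₂ hw₁)
  · exact K56.mem_mul_nonunits A ha₆ (K56.nonunits_add_mem A (K56.nonunits_add_mem A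
      (K56.nonunits_pow_mem A hw₂ two_ne_zero) (K56.nonunits_mul_mem A hw₂ hw₁A))
      (K56.nonunits_pow_mem A hw₁ two_ne_zero))

/-- `zc3 W Λ = 1 - s₃` with `s₃` small. -/
def h40w_s3 (W : Affine K) (Λ : K) : K := -(Λ * (W.a₂ + W.a₄ * Λ + W.a₆ * Λ ^ 2))

theorem h40w_zc3_eq (Λ : K) : K56.zc3 W Λ = 1 - h40w_s3 W Λ := by
  unfold K56.zc3 h40w_s3
  ring

theorem h40w_s3_small (ha₂ : W.a₂ ∈ A) (ha₄ : W.a₄ ∈ A) (ha₆ : W.a₆ ∈ A) {Λ : K}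
    (hΛ : Λ ∈ A.nonunits) : h40w_s3 W Λ ∈ A.nonunits := by
  have hΛA := K56.mem_of_mem_nonunits A hΛ
  unfold h40w_s3
  exact K56.nonunits_neg_mem A (K56.nonunits_mul_mem A hΛ
    (add_mem (add_mem ha₂ (mul_mem ha₄ hΛA)) (mul_mem ha₆ (pow_mem hΛA 2))))

theorem h40w_zc2_small (ha₁ : W.a₁ ∈ A) (ha₂ : W.a₂ ∈ A) (ha₃ : W.a₃ ∈ A) (ha₄ : W.a₄ ∈ A)
    (ha₆ : W.a₆ ∈ A) {Λ ν : K} (hΛ : Λ ∈ A.nonunits) (hν : ν ∈ A.nonunits) :
    K56.zc2 W Λ ν ∈ A.nonunits := by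
  have hΛA := K56.mem_of_mem_nonunits A hΛ
  have hνA := K56.mem_of_mem_nonunits A hν
  have h2A : (2 : K) ∈ A := ofNat_mem A 2
  have h3A : (3 : K) ∈ A := ofNat_mem A 3
  unfold K56.zc2
  refine K56.nonunits_add_mem A (K56.nonunits_add_mem A (K56.nonunits_add_mem A
    (K56.nonunits_add_mem A ?_ ?_) ?_) ?_) ?_
  · exact K56.mem_mul_nonunits A ha₁ hΛ
  · exact K56.mem_mul_nonunits A ha₂ hν
  · exact K56.mem_mul_nonunits A ha₃ (K56.nonunits_pow_mem A hΛ two_ne_zero)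
  · exact K56.mem_mul_nonunits A (mul_mem (mul_mem h2A ha₄) hΛA) hν
  · exact K56.mem_mul_nonunits A (mul_mem (mul_mem h3A ha₆) (pow_mem hΛA 2)) hν

variable {A W}

/-- all the intermediate quantities are small. -/
theorem h40w_small (ha₁ : W.a₁ ∈ A) (ha₂ : W.a₂ ∈ A) (ha₃ : W.a₃ ∈ A) (ha₄ : W.a₄ ∈ A)
    (ha₆ : W.a₆ ∈ A) {z₁ w₁ z₂ w₂ : K} (hz₁ : z₁ ∈ A.nonunits) (hw₁ : w₁ ∈ A.nonunits)
    (hz₂ : z₂ ∈ A.nonunits) (hw₂ : w₂ ∈ A.nonunits) :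
    h40w_lam W z₁ w₁ z₂ w₂ ∈ A.nonunits ∧ h40w_nu W z₁ w₁ z₂ w₂ ∈ A.nonunits ∧
    h40w_z3 W z₁ w₁ z₂ w₂ ∈ A.nonunits ∧ h40w_w3 W z₁ w₁ z₂ w₂ ∈ A.nonunits ∧
    W.a₁ * h40w_z3 W z₁ w₁ z₂ w₂ + W.a₃ * h40w_w3 W z₁ w₁ z₂ w₂ ∈ A.nonunits ∧
    h40w_Psi W z₁ w₁ z₂ w₂ ∈ A.nonunits := by
  have hz₁A := K56.mem_of_mem_nonunits A hz₁
  have hg1 := h40w_g1_small A W ha₁ ha₂ ha₄ hz₁ hz₂ hw₂
  have hg2 := h40w_g2_small A W ha₁ ha₂ ha₃ ha₄ ha₆ hz₁ hw₁ hw₂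
  have hlam : h40w_lam W z₁ w₁ z₂ w₂ ∈ A.nonunits :=
    K56.nonunits_mul_mem A hg1 (K56.inv_one_sub_mem A hg2)
  have hnu : h40w_nu W z₁ w₁ z₂ w₂ ∈ A.nonunits := by
    unfold h40w_nu
    rw [sub_eq_add_neg]
    exact K56.nonunits_add_mem A hw₁ (K56.nonunits_neg_mem A (K56.nonunits_mul_mem A hlam hz₁A))
  have hs3 := h40w_s3_small A W ha₂ ha₄ ha₆ hlam
  have hc2 := h40w_zc2_small A W ha₁ ha₂ ha₃ ha₄ ha₆ hlam hnu
  have hz3 : h40w_z3 W z₁ w₁ z₂ w₂ ∈ A.nonunits := by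
    unfold h40w_z3
    rw [h40w_zc3_eq, sub_eq_add_neg, sub_eq_add_neg (-z₁)]
    exact K56.nonunits_add_mem A (K56.nonunits_add_mem A (K56.nonunits_neg_mem A hz₁)
      (K56.nonunits_neg_mem A hz₂))
      (K56.nonunits_neg_mem A (K56.nonunits_mul_mem A hc2 (K56.inv_one_sub_mem A hs3)))
  have hw3 : h40w_w3 W z₁ w₁ z₂ w₂ ∈ A.nonunits := by
    unfold h40w_w3
    exact K56.nonunits_add_mem A (K56.nonunits_mul_mem A hlam (K56.mem_of_mem_nonunits A hz3)) hnu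
  have hs : W.a₁ * h40w_z3 W z₁ w₁ z₂ w₂ + W.a₃ * h40w_w3 W z₁ w₁ z₂ w₂ ∈ A.nonunits :=
    K56.nonunits_add_mem A (K56.mem_mul_nonunits A ha₁ hz3) (K56.mem_mul_nonunits A ha₃ hw3)
  refine ⟨hlam, hnu, hz3, hw3, hs, ?_⟩
  unfold h40w_Psi
  exact K56.nonunits_mul_mem A (K56.nonunits_neg_mem A hz3) (K56.inv_one_sub_mem A hs)

end Pointwise

/-! ### closure of a function algebra under `Psi` -/

section Closure

variable {K : Type} [Field K] {A : ValuationSubring K} {T : Type}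

theorem h40w_const_mem (R : Subalgebra A (T → K)) {a : K} (ha : a ∈ A) :
    (fun _ : T => a) ∈ R :=
  R.algebraMap_mem ⟨a, ha⟩

/-- `1 - F` is invertible in `R` for `F` small. -/
theorem h40w_inv_one_sub_mem [Finite T] (R : Subalgebra A (T → K)) {F : T → K} (hF : F ∈ R)
    (hs : ∀ t, F t ∈ A.nonunits) : (fun t => (1 - F t)⁻¹) ∈ R := by
  have hu : (fun t => 1 - F t) ∈ R := by
    have h1 : (fun t => 1 - F t) = 1 - F := rfl
    rw [h1]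
    exact sub_mem R.one_mem hF
  exact h75c_inv_closed_K A R hu (fun t => K56.one_sub_mem A (hs t)) _
    (fun t => K56.inv_one_sub_mem A (hs t))
    (fun t => mul_inv_cancel₀ (K56.one_sub_ne_zero A (hs t)))

/-- **closure under `Psi`.** -/
theorem h40w_psi_mem [Finite T] (W : Affine K) (ha₁ : W.a₁ ∈ A) (ha₂ : W.a₂ ∈ A)
    (ha₃ : W.a₃ ∈ A) (ha₄ : W.a₄ ∈ A) (ha₆ : W.a₆ ∈ A) (R : Subalgebra A (T → K))
    {Z₁ W₁ Z₂ W₂ : T → K} (hZ₁ : Z₁ ∈ R) (hW₁ : W₁ ∈ R) (hZ₂ : Z₂ ∈ R) (hW₂ : W₂ ∈ R)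
    (sZ₁ : ∀ t, Z₁ t ∈ A.nonunits) (sW₁ : ∀ t, W₁ t ∈ A.nonunits)
    (sZ₂ : ∀ t, Z₂ t ∈ A.nonunits) (sW₂ : ∀ t, W₂ t ∈ A.nonunits) :
    (fun t => h40w_Psi W (Z₁ t) (W₁ t) (Z₂ t) (W₂ t)) ∈ R := by
  have hsm := fun t => h40w_small ha₁ ha₂ ha₃ ha₄ ha₆ (sZ₁ t) (sW₁ t) (sZ₂ t) (sW₂ t)
  have c₁ : (fun _ : T => W.a₁) ∈ R := h40w_const_mem R ha₁
  have c₂ : (fun _ : T => W.a₂) ∈ R := h40w_const_mem R ha₂
  have c₃ : (fun _ : T => W.a₃) ∈ R := h40w_const_mem R ha₃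
  have c₄ : (fun _ : T => W.a₄) ∈ R := h40w_const_mem R ha₄
  have c₆ : (fun _ : T => W.a₆) ∈ R := h40w_const_mem R ha₆
  have k2 : (fun _ : T => (2 : K)) ∈ R := h40w_const_mem R (ofNat_mem A 2)
  have k3 : (fun _ : T => (3 : K)) ∈ R := h40w_const_mem R (ofNat_mem A 3)
  -- the numerator and the denominator of the slope
  have hG1 : (fun t => K56.zg1 W (Z₁ t) (Z₂ t) (W₂ t)) ∈ R := by
    have h1 : (fun t => K56.zg1 W (Z₁ t) (Z₂ t) (W₂ t)) =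
        Z₂ ^ 2 + Z₁ * Z₂ + Z₁ ^ 2 + (fun _ : T => W.a₁) * W₂ +
          (fun _ : T => W.a₂) * (Z₂ + Z₁) * W₂ + (fun _ : T => W.a₄) * W₂ ^ 2 := rfl
    rw [h1]
    exact add_mem (add_mem (add_mem (add_mem (add_mem (pow_mem hZ₂ 2) (mul_mem hZ₁ hZ₂))
      (pow_mem hZ₁ 2)) (mul_mem c₁ hW₂)) (mul_mem (mul_mem c₂ (add_mem hZ₂ hZ₁)) hW₂))
      (mul_mem c₄ (pow_mem hW₂ 2))
  have hG2 : (fun t => K56.zg2 W (Z₁ t) (W₁ t) (W₂ t)) ∈ R := by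
    have h1 : (fun t => K56.zg2 W (Z₁ t) (W₁ t) (W₂ t)) =
        (fun _ : T => W.a₁) * Z₁ + (fun _ : T => W.a₂) * Z₁ ^ 2 +
          (fun _ : T => W.a₃) * (W₂ + W₁) + (fun _ : T => W.a₄) * Z₁ * (W₂ + W₁) +
          (fun _ : T => W.a₆) * (W₂ ^ 2 + W₂ * W₁ + W₁ ^ 2) := rfl
    rw [h1]
    exact add_mem (add_mem (add_mem (add_mem (mul_mem c₁ hZ₁) (mul_mem c₂ (pow_mem hZ₁ 2)))
      (mul_mem c₃ (add_mem hW₂ hW₁))) (mul_mem (mul_mem c₄ hZ₁) (add_mem hW₂ hW₁)))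
      (mul_mem c₆ (add_mem (add_mem (pow_mem hW₂ 2) (mul_mem hW₂ hW₁)) (pow_mem hW₁ 2)))
  have hU := h40w_inv_one_sub_mem R hG2
    (fun t => h40w_g2_small A W ha₁ ha₂ ha₃ ha₄ ha₆ (sZ₁ t) (sW₁ t) (sW₂ t))
  -- the slope and the intercept
  have hL : (fun t => h40w_lam W (Z₁ t) (W₁ t) (Z₂ t) (W₂ t)) ∈ R := mul_mem hG1 hU
  have hN : (fun t => h40w_nu W (Z₁ t) (W₁ t) (Z₂ t) (W₂ t)) ∈ R :=
    sub_mem hW₁ (mul_mem hL hZ₁)
  -- the coefficients of the cubic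
  have hS3 : (fun t => h40w_s3 W (h40w_lam W (Z₁ t) (W₁ t) (Z₂ t) (W₂ t))) ∈ R := by
    have h1 : (fun t => h40w_s3 W (h40w_lam W (Z₁ t) (W₁ t) (Z₂ t) (W₂ t))) =
        -((fun t => h40w_lam W (Z₁ t) (W₁ t) (Z₂ t) (W₂ t)) *
          ((fun _ : T => W.a₂) +
            (fun _ : T => W.a₄) * (fun t => h40w_lam W (Z₁ t) (W₁ t) (Z₂ t) (W₂ t)) +
            (fun _ : T => W.a₆) * (fun t => h40w_lam W (Z₁ t) (W₁ t) (Z₂ t) (W₂ t)) ^ 2)) :=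
      rfl
    rw [h1]
    exact neg_mem (mul_mem hL (add_mem (add_mem c₂ (mul_mem c₄ hL)) (mul_mem c₆ (pow_mem hL 2))))
  have hE : (fun t => (K56.zc3 W (h40w_lam W (Z₁ t) (W₁ t) (Z₂ t) (W₂ t)))⁻¹) ∈ R := by
    have h1 : (fun t => (K56.zc3 W (h40w_lam W (Z₁ t) (W₁ t) (Z₂ t) (W₂ t)))⁻¹) =
        fun t => (1 - h40w_s3 W (h40w_lam W (Z₁ t) (W₁ t) (Z₂ t) (W₂ t)))⁻¹ := by
      funext t
      rw [h40w_zc3_eq]
    rw [h1]
    exact h40w_inv_one_sub_mem R hS3 (fun t => h40w_s3_small A W ha₂ ha₄ ha₆ (hsm t).1)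
  have hC2 : (fun t => K56.zc2 W (h40w_lam W (Z₁ t) (W₁ t) (Z₂ t) (W₂ t))
      (h40w_nu W (Z₁ t) (W₁ t) (Z₂ t) (W₂ t))) ∈ R := by
    have h1 : (fun t => K56.zc2 W (h40w_lam W (Z₁ t) (W₁ t) (Z₂ t) (W₂ t))
        (h40w_nu W (Z₁ t) (W₁ t) (Z₂ t) (W₂ t))) =
        (fun _ : T => W.a₁) * (fun t => h40w_lam W (Z₁ t) (W₁ t) (Z₂ t) (W₂ t)) +
          (fun _ : T => W.a₂) * (fun t => h40w_nu W (Z₁ t) (W₁ t) (Z₂ t) (W₂ t)) +
          (fun _ : T => W.a₃) * (fun t => h40w_lam W (Z₁ t) (W₁ t) (Z₂ t) (W₂ t)) ^ 2 +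
          (fun _ : T => (2 : K)) * (fun _ : T => W.a₄) *
            (fun t => h40w_lam W (Z₁ t) (W₁ t) (Z₂ t) (W₂ t)) *
            (fun t => h40w_nu W (Z₁ t) (W₁ t) (Z₂ t) (W₂ t)) +
          (fun _ : T => (3 : K)) * (fun _ : T => W.a₆) *
            (fun t => h40w_lam W (Z₁ t) (W₁ t) (Z₂ t) (W₂ t)) ^ 2 *
            (fun t => h40w_nu W (Z₁ t) (W₁ t) (Z₂ t) (W₂ t)) := rfl
    rw [h1]
    exact add_mem (add_mem (add_mem (add_mem (mul_mem c₁ hL) (mul_mem c₂ hN))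
      (mul_mem c₃ (pow_mem hL 2))) (mul_mem (mul_mem (mul_mem k2 c₄) hL) hN))
      (mul_mem (mul_mem (mul_mem k3 c₆) (pow_mem hL 2)) hN)
  -- the third point
  have hZ3 : (fun t => h40w_z3 W (Z₁ t) (W₁ t) (Z₂ t) (W₂ t)) ∈ R :=
    sub_mem (sub_mem (neg_mem hZ₁) hZ₂) (mul_mem hC2 hE)
  have hW3 : (fun t => h40w_w3 W (Z₁ t) (W₁ t) (Z₂ t) (W₂ t)) ∈ R :=
    add_mem (mul_mem hL hZ3) hN
  have hS : (fun t => W.a₁ * h40w_z3 W (Z₁ t) (W₁ t) (Z₂ t) (W₂ t) +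
      W.a₃ * h40w_w3 W (Z₁ t) (W₁ t) (Z₂ t) (W₂ t)) ∈ R :=
    add_mem (mul_mem c₁ hZ3) (mul_mem c₃ hW3)
  have hV := h40w_inv_one_sub_mem R hS (fun t => (hsm t).2.2.2.2.1)
  exact mul_mem (neg_mem hZ3) hV

end Closure

/-! ### the generic order bookkeeping: `comul` from the pointwise law -/

section Order

variable {K : Type} [Field K] (A : ValuationSubring K) {P : Type} [AddCommGroup P]
  (E F : AddSubgroup P) (z : P → K) {X : Type} [AddCommGroup X] (ι : X →+ P)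

/-- the algebra of functions on `S` generated over `A` by the coordinate `z`. -/
def h40w_R (S : Set P) : Subalgebra A (↥S → K) :=
  Algebra.adjoin A {fun x : ↥S => z (x : P)}

open Classical in
/-- the idempotent of the residue class of `c₀`. -/
def h40w_idem (c₀ : P) : X → K := fun x => if ι x - c₀ ∈ E then 1 else 0

open Classical in
/-- the coordinate generator `x ↦ z (x - c₀)` on the residue class of `c₀`. -/
def h40w_coord (c₀ : P) : X → K := fun x => if ι x - c₀ ∈ E then z (ι x - c₀) else 0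

/-- the generating set of the local order: `c₀` runs over the subgroup `F`
(the inertia-fixed points). -/
def h40w_G : Set (X → K) :=
  {f | ∃ c₀ ∈ F, f = h40w_idem E ι c₀ ∨ f = h40w_coord E z ι c₀}

/-- the pointwise law in the product algebra (elliptic `H96wAdd`). -/
def H40wAdd : Prop :=
  ∀ S S' : Set P, S.Finite → S'.Finite → (∀ u ∈ S, u ∈ E) → (∀ u ∈ S', u ∈ E) →
    (fun p : ↥S × ↥S' => z ((p.1 : P) + (p.2 : P))) ∈
      h96c_prod A (h40w_R A z S) (h40w_R A z S')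

variable {A E F z ι}

theorem h40w_idem_mem_adjoin {c₀ : P} (hc₀ : c₀ ∈ F) :
    h40w_idem E ι c₀ ∈ Algebra.adjoin A (h40w_G E F z ι) :=
  Algebra.subset_adjoin ⟨c₀, hc₀, Or.inl rfl⟩

theorem h40w_coord_mem_adjoin {c₀ : P} (hc₀ : c₀ ∈ F) :
    h40w_coord E z ι c₀ ∈ Algebra.adjoin A (h40w_G E F z ι) :=
  Algebra.subset_adjoin ⟨c₀, hc₀, Or.inr rfl⟩

open Classical in
/-- the pull-back of a function on `S` along `x ↦ ι x - c₁`, extended by `0`. -/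
def h40w_pull (ι : X →+ P) (c₁ : P) (S : Set P) (α : ↥S → K) : X → K :=
  fun x => if h : ι x - c₁ ∈ S then α ⟨_, h⟩ else 0

theorem h40w_pull_pos {c₁ : P} {S : Set P} (α : ↥S → K) {x : X} (h : ι x - c₁ ∈ S) :
    h40w_pull ι c₁ S α x = α ⟨_, h⟩ := by
  unfold h40w_pull
  rw [dif_pos h]

theorem h40w_pull_neg {c₁ : P} {S : Set P} (α : ↥S → K) {x : X} (h : ι x - c₁ ∉ S) :
    h40w_pull ι c₁ S α x = 0 := by
  unfold h40w_pull
  rw [dif_neg h]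

/-- pull-backs of elements of `h40w_R` lie in the algebra generated by `h40w_G`. -/
theorem h40w_pull_mem {c₁ : P} (hc₁ : c₁ ∈ F) (S : Set P)
    (hS : ∀ x : X, ι x - c₁ ∈ S ↔ ι x - c₁ ∈ E) {α : ↥S → K} (hα : α ∈ h40w_R A z S) :
    h40w_pull ι c₁ S α ∈ Algebra.adjoin A (h40w_G E F z ι) := by
  unfold h40w_R at hα
  induction hα using Algebra.adjoin_induction with
  | mem f hf =>
    have hf' : f = fun x : ↥S => z (x : P) := hf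
    subst hf'
    have h1 : h40w_pull ι c₁ S (fun x : ↥S => z (x : P)) = h40w_coord E z ι c₁ := by
      funext x
      unfold h40w_coord
      by_cases h : ι x - c₁ ∈ S
      · rw [h40w_pull_pos _ h, if_pos ((hS x).1 h)]
      · rw [h40w_pull_neg _ h, if_neg (fun h3 => h ((hS x).2 h3))]
    rw [h1]
    exact h40w_coord_mem_adjoin hc₁
  | algebraMap r =>
    have h1 : h40w_pull ι c₁ S (algebraMap A (↥S → K) r) = r • h40w_idem E ι c₁ := by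
      funext x
      by_cases h : ι x - c₁ ∈ S
      · rw [h40w_pull_pos _ h]
        show (r : K) = r • h40w_idem E ι c₁ x
        unfold h40w_idem
        rw [if_pos ((hS x).1 h)]
        show (r : K) = (r : K) * 1
        rw [mul_one]
      · rw [h40w_pull_neg _ h]
        show (0 : K) = r • h40w_idem E ι c₁ x
        unfold h40w_idem
        rw [if_neg (fun h3 => h ((hS x).2 h3))]
        show (0 : K) = (r : K) * 0
        rw [mul_zero]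
    rw [h1]
    exact Subalgebra.smul_mem _ (h40w_idem_mem_adjoin hc₁) r
  | add f f' _ _ hf hf' =>
    have h1 : h40w_pull ι c₁ S (f + f') = h40w_pull ι c₁ S f + h40w_pull ι c₁ S f' := by
      funext x
      by_cases h : ι x - c₁ ∈ S
      · rw [Pi.add_apply, h40w_pull_pos _ h, h40w_pull_pos _ h, h40w_pull_pos _ h]
        rfl
      · rw [Pi.add_apply, h40w_pull_neg _ h, h40w_pull_neg _ h, h40w_pull_neg _ h, add_zero]
    rw [h1]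
    exact add_mem hf hf'
  | mul f f' _ _ hf hf' =>
    have h1 : h40w_pull ι c₁ S (f * f') = h40w_pull ι c₁ S f * h40w_pull ι c₁ S f' := by
      funext x
      by_cases h : ι x - c₁ ∈ S
      · rw [Pi.mul_apply, h40w_pull_pos _ h, h40w_pull_pos _ h, h40w_pull_pos _ h]
        rfl
      · rw [Pi.mul_apply, h40w_pull_neg _ h, h40w_pull_neg _ h, h40w_pull_neg _ h, mul_zero]
    rw [h1]
    exact mul_mem hf hf'

theorem h40w_sum_split (x y : X) (c₀ c₁ : P) :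
    ι (x + y) - c₀ = (ι x - c₁) + (ι y - (c₀ - c₁)) := by
  rw [map_add]
  abel

open Classical in
/-- **one residue class, idempotents**. -/
theorem h40w_sw_idem {c₀ c₁ : P} (hc₀ : c₀ ∈ F) (hc₁ : c₁ ∈ F) :
    h96o_Sw A (Algebra.adjoin A (h40w_G E F z ι)) (Algebra.adjoin A (h40w_G E F z ι))
      (fun x y : X => if ι x - c₁ ∈ E then h40w_idem E ι c₀ (x + y) else 0) := by
  refine h96o_sw_congr (h96o_sw_tmul (h40w_idem_mem_adjoin (A := A) (z := z) (ι := ι) hc₁)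
    (h40w_idem_mem_adjoin (A := A) (z := z) (ι := ι) (sub_mem hc₀ hc₁))) fun x y => ?_
  unfold h40w_idem
  by_cases h1 : ι x - c₁ ∈ E
  · rw [if_pos h1, if_pos h1, one_mul]
    have h2 := h40w_sum_split (ι := ι) x y c₀ c₁
    by_cases h3 : ι y - (c₀ - c₁) ∈ E
    · rw [if_pos h3, if_pos (by rw [h2]; exact add_mem h1 h3)]
    · rw [if_neg h3, if_neg]
      intro h4
      apply h3
      have : ι y - (c₀ - c₁) = (ι (x + y) - c₀) - (ι x - c₁) := by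
        rw [h2]; abel
      rw [this]
      exact sub_mem h4 h1
  · rw [if_neg h1, if_neg h1, zero_mul]

open Classical in
/-- **one residue class, coordinates**: the only place where the group law is used. -/
theorem h40w_sw_coord [Finite X] (hAdd : H40wAdd A E z) {c₀ c₁ : P} (hc₀ : c₀ ∈ F)
    (hc₁ : c₁ ∈ F) :
    h96o_Sw A (Algebra.adjoin A (h40w_G E F z ι)) (Algebra.adjoin A (h40w_G E F z ι))
      (fun x y : X => if ι x - c₁ ∈ E then h40w_coord E z ι c₀ (x + y) else 0) := by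
  set c₁' : P := c₀ - c₁ with hc₁'
  have hfix' : c₁' ∈ F := sub_mem hc₀ hc₁
  set S : Set P := {u | u ∈ E ∧ ∃ x : X, u = ι x - c₁} with hSdef
  set S' : Set P := {u | u ∈ E ∧ ∃ x : X, u = ι x - c₁'} with hS'def
  have hSfin : S.Finite :=
    (Set.finite_range fun x : X => ι x - c₁).subset (by rintro u ⟨-, x, rfl⟩; exact ⟨x, rfl⟩)
  have hS'fin : S'.Finite :=
    (Set.finite_range fun x : X => ι x - c₁').subset (by rintro u ⟨-, x, rfl⟩; exact ⟨x, rfl⟩)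
  have hS : ∀ x : X, ι x - c₁ ∈ S ↔ ι x - c₁ ∈ E := fun x =>
    ⟨fun h => h.1, fun h => ⟨h, x, rfl⟩⟩
  have hS' : ∀ x : X, ι x - c₁' ∈ S' ↔ ι x - c₁' ∈ E := fun x =>
    ⟨fun h => h.1, fun h => ⟨h, x, rfl⟩⟩
  have hF := hAdd S S' hSfin hS'fin (fun u hu => hu.1) (fun u hu => hu.1)
  obtain ⟨κ, inst, a, b, ha, hb, hab⟩ := h96o_sw_of_mem_prod hF
  refine ⟨κ, inst, fun k => h40w_pull ι c₁ S (a k), fun k => h40w_pull ι c₁' S' (b k),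
    fun k => h40w_pull_mem hc₁ S hS (ha k), fun k => h40w_pull_mem hfix' S' hS' (hb k),
    fun x y => ?_⟩
  beta_reduce
  have hsum : ι (x + y) - c₀ = (ι x - c₁) + (ι y - c₁') := h40w_sum_split x y c₀ c₁
  by_cases h1 : ι x - c₁ ∈ E
  · rw [if_pos h1]
    by_cases h3 : ι y - c₁' ∈ E
    · have e1 := (hS x).2 h1
      have e2 := (hS' y).2 h3
      have h4 := hab ⟨_, e1⟩ ⟨_, e2⟩
      have h5 : ∀ k, h40w_pull ι c₁ S (a k) x * h40w_pull ι c₁' S' (b k) y =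
          a k ⟨_, e1⟩ * b k ⟨_, e2⟩ := fun k => by
        rw [h40w_pull_pos _ e1, h40w_pull_pos _ e2]
      rw [Finset.sum_congr rfl fun k _ => h5 k, ← h4]
      unfold h40w_coord
      rw [if_pos (by rw [hsum]; exact add_mem h1 h3), hsum]
    · have h5 : ∀ k, h40w_pull ι c₁ S (a k) x * h40w_pull ι c₁' S' (b k) y = 0 :=
        fun k => by
          rw [h40w_pull_neg (b k) (fun h => h3 ((hS' y).1 h)), mul_zero]
      rw [Finset.sum_congr rfl fun k _ => h5 k, Finset.sum_const_zero]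
      unfold h40w_coord
      rw [if_neg]
      intro h6
      apply h3
      have : ι y - c₁' = (ι (x + y) - c₀) - (ι x - c₁) := by
        rw [hsum]; abel
      rw [this]
      exact sub_mem h6 h1
  · rw [if_neg h1]
    have h5 : ∀ k, h40w_pull ι c₁ S (a k) x * h40w_pull ι c₁' S' (b k) y = 0 :=
      fun k => by
        rw [h40w_pull_neg (a k) (fun h => h1 ((hS x).1 h)), zero_mul]
    rw [Finset.sum_congr rfl fun k _ => h5 k, Finset.sum_const_zero]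

open Classical in
/-- partition into residue classes. -/
theorem h40w_sw_partition [Finite X] (hL : ∀ x : X, ∃ c ∈ F, ι x - c ∈ E) (f : X → K)
    (h : ∀ c₁ : P, c₁ ∈ F →
      h96o_Sw A (Algebra.adjoin A (h40w_G E F z ι)) (Algebra.adjoin A (h40w_G E F z ι))
        (fun x y : X => if ι x - c₁ ∈ E then f (x + y) else 0)) :
    h96o_Sw A (Algebra.adjoin A (h40w_G E F z ι)) (Algebra.adjoin A (h40w_G E F z ι))
      (fun x y : X => f (x + y)) := by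
  let s : Setoid X :=
    { r := fun x y => ι x - ι y ∈ E
      iseqv :=
        { refl := fun x => by
            show ι x - ι x ∈ E
            rw [sub_self]; exact zero_mem _
          symm := fun {x y} hxy => by
            show ι y - ι x ∈ E
            have h1 : ι y - ι x = -(ι x - ι y) := by abel
            rw [h1]; exact neg_mem hxy
          trans := fun {x y y'} h1 h2 => by
            show ι x - ι y' ∈ E
            have h3 : ι x - ι y' = (ι x - ι y) + (ι y - ι y') := by abel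
            rw [h3]; exact add_mem h1 h2 } }
  have : Finite (Quotient s) := Quotient.finite s
  let _ : Fintype (Quotient s) := Fintype.ofFinite _
  let lam : Quotient s → P := fun q => (hL (Quotient.out q)).choose
  have hlam_fix : ∀ q, lam q ∈ F := fun q => (hL (Quotient.out q)).choose_spec.1
  have hlam_mem : ∀ q, ι (Quotient.out q) - lam q ∈ E := fun q =>
    (hL (Quotient.out q)).choose_spec.2
  have hiff : ∀ (x : X) (q : Quotient s), ι x - lam q ∈ E ↔ q = Quotient.mk s x := by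
    intro x q
    constructor
    · intro h1
      have h2 : ι x - ι (Quotient.out q) ∈ E := by
        have : ι x - ι (Quotient.out q) = (ι x - lam q) - (ι (Quotient.out q) - lam q) := by
          abel
        rw [this]
        exact sub_mem h1 (hlam_mem q)
      have h3 : Quotient.mk s x = Quotient.mk s (Quotient.out q) := Quotient.sound h2
      rw [h3, Quotient.out_eq]
    · rintro rfl
      have h2 : ι x - ι (Quotient.out (Quotient.mk s x)) ∈ E := by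
        have h3 : s.r (Quotient.out (Quotient.mk s x)) x := Quotient.exact (Quotient.out_eq _)
        exact s.iseqv.symm h3
      have : ι x - lam (Quotient.mk s x) =
          (ι x - ι (Quotient.out (Quotient.mk s x))) +
            (ι (Quotient.out (Quotient.mk s x)) - lam (Quotient.mk s x)) := by
        abel
      rw [this]
      exact add_mem h2 (hlam_mem _)
  have hsum := h96o_sw_sum (A := A) (R := Algebra.adjoin A (h40w_G E F z ι))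
    (R' := Algebra.adjoin A (h40w_G E F z ι)) (Finset.univ : Finset (Quotient s))
    (F := fun q => fun x y : X => if ι x - lam q ∈ E then f (x + y) else 0)
    (fun q _ => h (lam q) (hlam_fix q))
  refine h96o_sw_congr hsum fun x y => ?_
  rw [Finset.sum_eq_single (Quotient.mk s x)]
  · rw [if_pos ((hiff x _).2 rfl)]
  · intro q _ hq
    rw [if_neg (fun h1 => hq ((hiff x q).1 h1))]
  · intro h1
    exact absurd (Finset.mem_univ _) h1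

/-- **the field `comul` of `H96LocOrder`** for the generating set `h40w_G`, from the pointwise
law in the product algebra. -/
theorem h40w_G_comul [Finite X] (hAdd : H40wAdd A E z) (hL : ∀ x : X, ∃ c ∈ F, ι x - c ∈ E) :
    ∀ f ∈ h40w_G E F z ι, ∃ (n : ℕ) (a b : Fin n → X → K),
      (∀ i, a i ∈ Algebra.adjoin A (h40w_G E F z ι)) ∧
      (∀ i, b i ∈ Algebra.adjoin A (h40w_G E F z ι)) ∧
      ∀ x y, f (x + y) = ∑ i, a i x * b i y := by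
  rintro f ⟨c₀, hc₀, rfl | rfl⟩
  · exact h96o_sw_fin (h40w_sw_partition hL _ fun c₁ hc₁ => h40w_sw_idem hc₀ hc₁)
  · exact h96o_sw_fin (h40w_sw_partition hL _ fun c₁ hc₁ => h40w_sw_coord hAdd hc₀ hc₁)

end Order

/-! ### the elliptic curve: the coordinates `z`, `w` on the kernel of reduction -/

section Elliptic

variable {K : Type} [Field K]

/-- the coordinate `w = -1 / y` of the chart at infinity (`0` at the origin). -/
def h40w_wc {W : Affine K} : W.Point → K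
  | .zero => 0
  | .some _ y _ => -1 / y

theorem h40w_wc_zero {W : Affine K} : h40w_wc (0 : W.Point) = 0 := rfl

theorem h40w_wc_some {W : Affine K} {x y : K} (h : W.Nonsingular x y) :
    h40w_wc (Point.some x y h) = -1 / y := rfl

variable (A : ValuationSubring K) (W : Affine K)

theorem h40w_wc_small (ha₁ : W.a₁ ∈ A) (ha₂ : W.a₂ ∈ A) (ha₃ : W.a₃ ∈ A) (ha₄ : W.a₄ ∈ A)
    (ha₆ : W.a₆ ∈ A) {P : W.Point} (hP : InE1 A P) : h40w_wc P ∈ A.nonunits := by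
  rcases hP with rfl | ⟨x, y, h, rfl, hx⟩
  · rw [h40w_wc_zero]
    exact K56.zero_mem_nonunits A
  · rw [h40w_wc_some]
    exact (K56.formal_coords_of_not_mem A W ha₁ ha₂ ha₃ ha₄ ha₆ h.1 hx).2.2

theorem h40w_wc_eq (ha₁ : W.a₁ ∈ A) (ha₂ : W.a₂ ∈ A) (ha₃ : W.a₃ ∈ A) (ha₄ : W.a₄ ∈ A)
    (ha₆ : W.a₆ ∈ A) {P : W.Point} (hP : InE1 A P) :
    h40w_wc P = K56.fzw W (K56.zcoord P) (h40w_wc P) := by
  rcases hP with rfl | ⟨x, y, h, rfl, hx⟩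
  · rw [h40w_wc_zero, K56.zcoord_zero]
    simp [K56.fzw]
  · rw [h40w_wc_some, K56.zcoord_some]
    obtain ⟨hy0, -, -⟩ := K56.formal_coords_of_not_mem A W ha₁ ha₂ ha₃ ha₄ ha₆ h.1 hx
    have hw0 : (-1 / y : K) ≠ 0 := div_ne_zero (neg_ne_zero.2 one_ne_zero) hy0
    refine K56.fzw_of_equation W hw0 ?_
    have e1 : -x / y / (-1 / y) = x := by field_simp
    have e2 : -1 / (-1 / y) = y := by field_simp
    rw [e1, e2]
    exact h.1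

/-- `w` is determined by `z`. -/
theorem h40w_w_unique (ha₁ : W.a₁ ∈ A) (ha₂ : W.a₂ ∈ A) (ha₃ : W.a₃ ∈ A) (ha₄ : W.a₄ ∈ A)
    (ha₆ : W.a₆ ∈ A) {z w w' : K} (hz : z ∈ A.nonunits) (hw : w ∈ A.nonunits)
    (hw' : w' ∈ A.nonunits) (h : w = K56.fzw W z w) (h' : w' = K56.fzw W z w') : w = w' := by
  have h1 := K56.chord_eq W h h'
  rw [sub_self, zero_mul] at h1
  have h2 := K56.one_sub_ne_zero A (h40w_g2_small A W ha₁ ha₂ ha₃ ha₄ ha₆ hz hw hw')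
  rcases mul_eq_zero.1 h1 with h3 | h3
  · exact (sub_eq_zero.1 h3).symm
  · exact absurd h3 h2

/-- **`z` is injective on the kernel of reduction.** -/
theorem h40w_z_inj (ha₁ : W.a₁ ∈ A) (ha₂ : W.a₂ ∈ A) (ha₃ : W.a₃ ∈ A) (ha₄ : W.a₄ ∈ A)
    (ha₆ : W.a₆ ∈ A) {P Q : W.Point} (hP : InE1 A P) (hQ : InE1 A Q)
    (h : K56.zcoord P = K56.zcoord Q) : P = Q := by
  by_cases hP0 : P = 0
  · subst hP0
    by_contra hne
    exact K56.zcoord_ne_zero A W ha₁ ha₂ ha₃ ha₄ ha₆ hQ (Ne.symm hne)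
      (by rw [← h, K56.zcoord_zero])
  by_cases hQ0 : Q = 0
  · subst hQ0
    exact absurd (by rw [h, K56.zcoord_zero]) (K56.zcoord_ne_zero A W ha₁ ha₂ ha₃ ha₄ ha₆ hP hP0)
  have hw : h40w_wc P = h40w_wc Q :=
    h40w_w_unique A W ha₁ ha₂ ha₃ ha₄ ha₆
      (K56.zcoord_mem_nonunits A W ha₁ ha₂ ha₃ ha₄ ha₆ hP)
      (h40w_wc_small A W ha₁ ha₂ ha₃ ha₄ ha₆ hP) (h40w_wc_small A W ha₁ ha₂ ha₃ ha₄ ha₆ hQ)
      (h40w_wc_eq A W ha₁ ha₂ ha₃ ha₄ ha₆ hP)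
      (by rw [h]; exact h40w_wc_eq A W ha₁ ha₂ ha₃ ha₄ ha₆ hQ)
  rcases hP with rfl | ⟨x, y, hxy, rfl, hx⟩
  · exact absurd rfl hP0
  rcases hQ with rfl | ⟨x', y', hxy', rfl, hx'⟩
  · exact absurd rfl hQ0
  obtain ⟨hy0, -, -⟩ := K56.formal_coords_of_not_mem A W ha₁ ha₂ ha₃ ha₄ ha₆ hxy.1 hx
  obtain ⟨hy'0, -, -⟩ := K56.formal_coords_of_not_mem A W ha₁ ha₂ ha₃ ha₄ ha₆ hxy'.1 hx'
  rw [h40w_wc_some, h40w_wc_some] at hw
  rw [K56.zcoord_some, K56.zcoord_some] at h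
  have e : ∀ t : K, t ≠ 0 → -1 / (-1 / t) = t := fun t ht => by field_simp
  have hy : y = y' :=
    calc y = -1 / (-1 / y) := (e y hy0).symm
      _ = -1 / (-1 / y') := by rw [hw]
      _ = y' := e y' hy'0
  subst hy
  have e2 : ∀ t : K, -(-t / y * y) = t := fun t => by field_simp
  have hxx : x = x' :=
    calc x = -(-x / y * y) := (e2 x).symm
      _ = -(-x' / y * y) := by rw [h]
      _ = x' := e2 x'
  subst hxx
  rfl

theorem h40w_R_int {P : Type} (z : P → K) (S : Set P) (hz : ∀ u ∈ S, z u ∈ A) :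
    ∀ f ∈ h40w_R A z S, ∀ s, f s ∈ A := by
  intro f hf
  unfold h40w_R at hf
  induction hf using Algebra.adjoin_induction with
  | mem f hf =>
    have hf' : f = fun x : ↥S => z (x : P) := hf
    subst hf'
    intro s
    exact hz _ s.2
  | algebraMap r =>
    intro s
    exact r.2
  | add f₁ f₂ _ _ h₁ h₂ =>
    intro s
    exact A.add_mem _ _ (h₁ s) (h₂ s)
  | mul f₁ f₂ _ _ h₁ h₂ =>
    intro s
    exact A.mul_mem _ _ (h₁ s) (h₂ s)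

theorem h40w_z_mem {P : Type} (z : P → K) (S : Set P) :
    (fun x : ↥S => z (x : P)) ∈ h40w_R A z S :=
  Algebra.subset_adjoin rfl

/-- **Newton**: `w` on a finite subset of the kernel of reduction is in the algebra generated
by `z`. -/
theorem h40w_w_mem (hArch : H96Arch A) (ha₁ : W.a₁ ∈ A) (ha₂ : W.a₂ ∈ A) (ha₃ : W.a₃ ∈ A)
    (ha₄ : W.a₄ ∈ A) (ha₆ : W.a₆ ∈ A) {S : Set W.Point} (hSf : S.Finite)
    (hS : ∀ P ∈ S, InE1 A P) :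
    (fun x : ↥S => h40w_wc (x : W.Point)) ∈ h40w_R A K56.zcoord S := by
  have : Finite ↥S := Set.finite_coe_iff.mpr hSf
  have hzs : ∀ u ∈ S, K56.zcoord u ∈ A.nonunits := fun u hu =>
    K56.zcoord_mem_nonunits A W ha₁ ha₂ ha₃ ha₄ ha₆ (hS u hu)
  have hint := h40w_R_int A K56.zcoord S fun u hu => K56.mem_of_mem_nonunits A (hzs u hu)
  have hZ := h40w_z_mem A (K56.zcoord (W := W)) S
  refine h75c_newtonFix K A hArch ↥S (h40w_R A K56.zcoord S) hint ?_ _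
    (fun s => h40w_wc_small A W ha₁ ha₂ ha₃ ha₄ ha₆ (hS _ s.2)) ?_
  · intro s s' h
    have h1 := h _ hZ
    exact Subtype.ext (h40w_z_inj A W ha₁ ha₂ ha₃ ha₄ ha₆ (hS _ s.2) (hS _ s'.2) h1)
  · intro n
    set R := h40w_R A K56.zcoord S with hR
    set Z : ↥S → K := fun x : ↥S => K56.zcoord (x : W.Point) with hZdef
    have c₁ : (fun _ : ↥S => W.a₁) ∈ R := h40w_const_mem R ha₁
    have c₂ : (fun _ : ↥S => W.a₂) ∈ R := h40w_const_mem R ha₂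
    have c₃ : (fun _ : ↥S => W.a₃) ∈ R := h40w_const_mem R ha₃
    have c₄ : (fun _ : ↥S => W.a₄) ∈ R := h40w_const_mem R ha₄
    have c₆ : (fun _ : ↥S => W.a₆) ∈ R := h40w_const_mem R ha₆
    refine ⟨2, fun k => if k = 0 then -Z ^ 3 else
        if k = 1 then 1 - ((fun _ : ↥S => W.a₁) * Z + (fun _ : ↥S => W.a₂) * Z ^ 2) else
        if k = 2 then -((fun _ : ↥S => W.a₃) + (fun _ : ↥S => W.a₄) * Z) else
        if k = 3 then -(fun _ : ↥S => W.a₆) else 0, ?_, ?_, ?_⟩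
    · intro k
      dsimp only
      split_ifs
      · exact neg_mem (pow_mem hZ 3)
      · exact sub_mem R.one_mem (add_mem (mul_mem c₁ hZ) (mul_mem c₂ (pow_mem hZ 2)))
      · exact neg_mem (add_mem c₃ (mul_mem c₄ hZ))
      · exact neg_mem c₆
      · exact R.zero_mem
    · intro s
      have hm : W.a₁ * Z s + W.a₂ * Z s ^ 2 ∈ A.nonunits :=
        K56.nonunits_add_mem A (K56.mem_mul_nonunits A ha₁ (hzs _ s.2))
          (K56.mem_mul_nonunits A ha₂ (K56.nonunits_pow_mem A (hzs _ s.2) two_ne_zero))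
      beta_reduce
      rw [if_neg (one_ne_zero : (1 : ℕ) ≠ 0), if_pos rfl]
      exact ⟨K56.one_sub_ne_zero A hm, K56.inv_one_sub_mem A hm⟩
    · intro s
      refine ⟨0, A.zero_mem, ?_⟩
      have hE : h40w_wc (s : W.Point) = Z s ^ 3 + W.a₁ * Z s * h40w_wc (s : W.Point) +
          W.a₂ * Z s ^ 2 * h40w_wc (s : W.Point) + W.a₃ * h40w_wc (s : W.Point) ^ 2 +
          W.a₄ * Z s * h40w_wc (s : W.Point) ^ 2 + W.a₆ * h40w_wc (s : W.Point) ^ 3 :=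
        h40w_wc_eq A W ha₁ ha₂ ha₃ ha₄ ha₆ (hS _ s.2)
      rw [zero_mul]
      simp only [Finset.sum_range_succ, Finset.sum_range_zero]
      simp
      linear_combination hE

end Elliptic

/-! ### the exact law and the pointwise law in the product algebra -/

section Law

variable {K : Type} [Field K] [DecidableEq K] (A : ValuationSubring K) (W : Affine K)

/-- **the exact law** on the kernel of reduction, in the chart `(z, w)`. -/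
def H40wLaw : Prop :=
  ∀ P₁ P₂ : W.Point, InE1 A P₁ → InE1 A P₂ →
    K56.zcoord (P₁ + P₂) =
      h40w_Psi W (K56.zcoord P₁) (h40w_wc P₁) (K56.zcoord P₂) (h40w_wc P₂)

omit [DecidableEq K] in
/-- the relations between the slope, the intercept and the third root. -/
theorem h40w_rel (ha₁ : W.a₁ ∈ A) (ha₂ : W.a₂ ∈ A) (ha₃ : W.a₃ ∈ A) (ha₄ : W.a₄ ∈ A)
    (ha₆ : W.a₆ ∈ A) {z₁ w₁ z₂ w₂ : K} (hz₁ : z₁ ∈ A.nonunits) (hw₁ : w₁ ∈ A.nonunits)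
    (hz₂ : z₂ ∈ A.nonunits) (hw₂ : w₂ ∈ A.nonunits) (E₁ : w₁ = K56.fzw W z₁ w₁)
    (E₂ : w₂ = K56.fzw W z₂ w₂) :
    h40w_lam W z₁ w₁ z₂ w₂ * (1 - K56.zg2 W z₁ w₁ w₂) = K56.zg1 W z₁ z₂ w₂ ∧
    w₁ = h40w_lam W z₁ w₁ z₂ w₂ * z₁ + h40w_nu W z₁ w₁ z₂ w₂ ∧
    w₂ = h40w_lam W z₁ w₁ z₂ w₂ * z₂ + h40w_nu W z₁ w₁ z₂ w₂ ∧
    K56.zc3 W (h40w_lam W z₁ w₁ z₂ w₂) ≠ 0 ∧
    K56.zc3 W (h40w_lam W z₁ w₁ z₂ w₂) * (z₁ + z₂ + h40w_z3 W z₁ w₁ z₂ w₂) =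
      -K56.zc2 W (h40w_lam W z₁ w₁ z₂ w₂) (h40w_nu W z₁ w₁ z₂ w₂) ∧
    1 - (W.a₁ * h40w_z3 W z₁ w₁ z₂ w₂ + W.a₃ * h40w_w3 W z₁ w₁ z₂ w₂) ≠ 0 := by
  obtain ⟨hlam, hnu, hz3, hw3, hs, -⟩ := h40w_small ha₁ ha₂ ha₃ ha₄ ha₆ hz₁ hw₁ hz₂ hw₂
  have hg2ne : 1 - K56.zg2 W z₁ w₁ w₂ ≠ 0 :=
    K56.one_sub_ne_zero A (h40w_g2_small A W ha₁ ha₂ ha₃ ha₄ ha₆ hz₁ hw₁ hw₂)
  have hΛ : h40w_lam W z₁ w₁ z₂ w₂ * (1 - K56.zg2 W z₁ w₁ w₂) = K56.zg1 W z₁ z₂ w₂ := by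
    unfold h40w_lam
    rw [mul_assoc, inv_mul_cancel₀ hg2ne, mul_one]
  have hw₁' : w₁ = h40w_lam W z₁ w₁ z₂ w₂ * z₁ + h40w_nu W z₁ w₁ z₂ w₂ := by
    unfold h40w_nu
    ring
  have hch := K56.chord_eq W E₁ E₂
  have hd : w₂ - w₁ = (z₂ - z₁) * h40w_lam W z₁ w₁ z₂ w₂ := by
    apply mul_right_cancel₀ hg2ne
    rw [hch, mul_assoc, hΛ]
  have hw₂' : w₂ = h40w_lam W z₁ w₁ z₂ w₂ * z₂ + h40w_nu W z₁ w₁ z₂ w₂ := by
    linear_combination hd + hw₁'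
  have hc3ne : K56.zc3 W (h40w_lam W z₁ w₁ z₂ w₂) ≠ 0 := by
    rw [h40w_zc3_eq]
    exact K56.one_sub_ne_zero A (h40w_s3_small A W ha₂ ha₄ ha₆ hlam)
  refine ⟨hΛ, hw₁', hw₂', hc3ne, ?_, K56.one_sub_ne_zero A hs⟩
  have h1 : K56.zc3 W (h40w_lam W z₁ w₁ z₂ w₂) * (K56.zc3 W (h40w_lam W z₁ w₁ z₂ w₂))⁻¹ = 1 :=
    mul_inv_cancel₀ hc3ne
  unfold h40w_z3
  linear_combination (-K56.zc2 W (h40w_lam W z₁ w₁ z₂ w₂) (h40w_nu W z₁ w₁ z₂ w₂)) * h1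

omit [DecidableEq K] in
/-- the law when the first point is the origin (in coordinates). -/
theorem h40w_psi_zero_left (ha₁ : W.a₁ ∈ A) (ha₂ : W.a₂ ∈ A) (ha₃ : W.a₃ ∈ A)
    (ha₄ : W.a₄ ∈ A) (ha₆ : W.a₆ ∈ A) {z₂ w₂ : K} (hz₂ : z₂ ∈ A.nonunits)
    (hw₂ : w₂ ∈ A.nonunits) (E₂ : w₂ = K56.fzw W z₂ w₂) : h40w_Psi W 0 0 z₂ w₂ = z₂ := by
  have h0 := K56.zero_mem_nonunits A
  have E₁ : (0 : K) = K56.fzw W 0 0 := by simp [K56.fzw]
  obtain ⟨hΛ, hw₁', hw₂', hc3ne, hV1, hsne⟩ :=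
    h40w_rel A W ha₁ ha₂ ha₃ ha₄ ha₆ h0 h0 hz₂ hw₂ E₁ E₂
  have hV2 := K56.vieta2 W hw₁' hw₂' hΛ hV1
  have hnu : h40w_nu W 0 0 z₂ w₂ = 0 := by
    unfold h40w_nu
    ring
  rw [hnu] at hV1 hV2
  unfold h40w_Psi
  rw [eq_comm, eq_mul_inv_iff_mul_eq₀ hsne]
  apply mul_left_cancel₀ hc3ne
  unfold h40w_w3
  rw [hnu]
  unfold K56.zc2 at hV1
  unfold K56.zc1 at hV2
  linear_combination hV1 - (W.a₁ + W.a₃ * h40w_lam W 0 0 z₂ w₂) * hV2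

omit [DecidableEq K] in
/-- the law when the second point is the origin (in coordinates). -/
theorem h40w_psi_zero_right (ha₁ : W.a₁ ∈ A) (ha₂ : W.a₂ ∈ A) (ha₃ : W.a₃ ∈ A)
    (ha₄ : W.a₄ ∈ A) (ha₆ : W.a₆ ∈ A) {z₁ w₁ : K} (hz₁ : z₁ ∈ A.nonunits)
    (hw₁ : w₁ ∈ A.nonunits) (E₁ : w₁ = K56.fzw W z₁ w₁) : h40w_Psi W z₁ w₁ 0 0 = z₁ := by
  have h0 := K56.zero_mem_nonunits A
  have E₂ : (0 : K) = K56.fzw W 0 0 := by simp [K56.fzw]
  obtain ⟨hΛ, hw₁', hw₂', hc3ne, hV1, hsne⟩ :=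
    h40w_rel A W ha₁ ha₂ ha₃ ha₄ ha₆ hz₁ hw₁ h0 h0 E₁ E₂
  have hV2 := K56.vieta2 W hw₁' hw₂' hΛ hV1
  have hnu : h40w_nu W z₁ w₁ 0 0 = 0 := by
    linear_combination -hw₂'
  rw [hnu] at hV1 hV2
  unfold h40w_Psi
  rw [eq_comm, eq_mul_inv_iff_mul_eq₀ hsne]
  apply mul_left_cancel₀ hc3ne
  unfold h40w_w3
  rw [hnu]
  unfold K56.zc2 at hV1
  unfold K56.zc1 at hV2
  linear_combination hV1 - (W.a₁ + W.a₃ * h40w_lam W z₁ w₁ 0 0) * hV2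

/-- the law for two affine points. -/
theorem h40w_law_affine (ha₁ : W.a₁ ∈ A) (ha₂ : W.a₂ ∈ A) (ha₃ : W.a₃ ∈ A) (ha₄ : W.a₄ ∈ A)
    (ha₆ : W.a₆ ∈ A) {x₁ y₁ x₂ y₂ : K} (h₁ : W.Nonsingular x₁ y₁) (h₂ : W.Nonsingular x₂ y₂)
    (hx₁ : x₁ ∉ A) (hx₂ : x₂ ∉ A) :
    K56.zcoord (Point.some x₁ y₁ h₁ + Point.some x₂ y₂ h₂) =
      h40w_Psi W (-x₁ / y₁) (-1 / y₁) (-x₂ / y₂) (-1 / y₂) := by
  obtain ⟨hy₁0, hzm₁, hwm₁⟩ := K56.formal_coords_of_not_mem A W ha₁ ha₂ ha₃ ha₄ ha₆ h₁.1 hx₁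
  obtain ⟨hy₂0, hzm₂, hwm₂⟩ := K56.formal_coords_of_not_mem A W ha₁ ha₂ ha₃ ha₄ ha₆ h₂.1 hx₂
  obtain ⟨z₁, hz₁def⟩ : ∃ z₁, z₁ = -x₁ / y₁ := ⟨_, rfl⟩
  obtain ⟨w₁, hw₁def⟩ : ∃ w₁, w₁ = -1 / y₁ := ⟨_, rfl⟩
  obtain ⟨z₂, hz₂def⟩ : ∃ z₂, z₂ = -x₂ / y₂ := ⟨_, rfl⟩
  obtain ⟨w₂, hw₂def⟩ : ∃ w₂, w₂ = -1 / y₂ := ⟨_, rfl⟩
  rw [← hz₁def, ← hw₁def, ← hz₂def, ← hw₂def]
  rw [← hz₁def] at hzm₁
  rw [← hw₁def] at hwm₁
  rw [← hz₂def] at hzm₂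
  rw [← hw₂def] at hwm₂
  have hw₁0 : w₁ ≠ 0 := by rw [hw₁def]; exact div_ne_zero (neg_ne_zero.2 one_ne_zero) hy₁0
  have hw₂0 : w₂ ≠ 0 := by rw [hw₂def]; exact div_ne_zero (neg_ne_zero.2 one_ne_zero) hy₂0
  have hye₁ : y₁ = -1 / w₁ := by rw [hw₁def]; field_simp
  have hye₂ : y₂ = -1 / w₂ := by rw [hw₂def]; field_simp
  have hxe₁ : x₁ = z₁ / w₁ := by rw [hz₁def, hw₁def]; field_simp
  have hxe₂ : x₂ = z₂ / w₂ := by rw [hz₂def, hw₂def]; field_simp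
  have E₁ : w₁ = K56.fzw W z₁ w₁ :=
    K56.fzw_of_equation W hw₁0 (by rw [← hxe₁, ← hye₁]; exact h₁.1)
  have E₂ : w₂ = K56.fzw W z₂ w₂ :=
    K56.fzw_of_equation W hw₂0 (by rw [← hxe₂, ← hye₂]; exact h₂.1)
  obtain ⟨hΛ, hw₁', hw₂', hc3ne, hV1, hsne⟩ :=
    h40w_rel A W ha₁ ha₂ ha₃ ha₄ ha₆ hzm₁ hwm₁ hzm₂ hwm₂ E₁ E₂
  by_cases hν : h40w_nu W z₁ w₁ z₂ w₂ = 0
  · rw [hν, add_zero] at hw₁' hw₂'
    obtain ⟨hV1', hadd⟩ := K56.add_eq_zero_of_line_through_origin W h₁ h₂ hw₁0 hw₂0 hxe₁ hye₁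
      hxe₂ hye₂ hw₁' hw₂' hΛ
    rw [hadd, K56.zcoord_zero]
    rw [hν] at hV1
    have hz3 : h40w_z3 W z₁ w₁ z₂ w₂ = 0 := by
      apply mul_left_cancel₀ hc3ne
      linear_combination hV1 - hV1'
    unfold h40w_Psi
    rw [hz3, neg_zero, zero_mul]
  · obtain ⟨hw₃0, E₃, x₃, y₃, h₃, hx₃, hy₃, hadd⟩ := K56.add_eq_neg_third W h₁ h₂ hw₁0 hw₂0
      hxe₁ hye₁ hxe₂ hye₂ hw₁' hw₂' hΛ hν hV1
    rw [hadd, Point.neg_some, K56.zcoord_some]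
    unfold h40w_Psi
    have hw3 : h40w_w3 W z₁ w₁ z₂ w₂ =
        h40w_lam W z₁ w₁ z₂ w₂ * h40w_z3 W z₁ w₁ z₂ w₂ + h40w_nu W z₁ w₁ z₂ w₂ := rfl
    rw [← hw3] at hw₃0 hx₃ hy₃
    have hneg : W.negY x₃ y₃ = (1 - (W.a₁ * h40w_z3 W z₁ w₁ z₂ w₂ +
        W.a₃ * h40w_w3 W z₁ w₁ z₂ w₂)) / h40w_w3 W z₁ w₁ z₂ w₂ := by
      rw [negY, hx₃, hy₃]
      field_simp
      ring
    rw [hneg, hx₃]
    field_simp

/-- **the exact law holds.** -/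
theorem h40w_law (ha₁ : W.a₁ ∈ A) (ha₂ : W.a₂ ∈ A) (ha₃ : W.a₃ ∈ A) (ha₄ : W.a₄ ∈ A)
    (ha₆ : W.a₆ ∈ A) : H40wLaw A W := by
  intro P₁ P₂ hP₁ hP₂
  have hz₁ := K56.zcoord_mem_nonunits A W ha₁ ha₂ ha₃ ha₄ ha₆ hP₁
  have hz₂ := K56.zcoord_mem_nonunits A W ha₁ ha₂ ha₃ ha₄ ha₆ hP₂
  have hw₁ := h40w_wc_small A W ha₁ ha₂ ha₃ ha₄ ha₆ hP₁
  have hw₂ := h40w_wc_small A W ha₁ ha₂ ha₃ ha₄ ha₆ hP₂
  have E₁ := h40w_wc_eq A W ha₁ ha₂ ha₃ ha₄ ha₆ hP₁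
  have E₂ := h40w_wc_eq A W ha₁ ha₂ ha₃ ha₄ ha₆ hP₂
  by_cases hP₁0 : P₁ = 0
  · subst hP₁0
    rw [zero_add, K56.zcoord_zero, h40w_wc_zero]
    exact (h40w_psi_zero_left A W ha₁ ha₂ ha₃ ha₄ ha₆ hz₂ hw₂ E₂).symm
  by_cases hP₂0 : P₂ = 0
  · subst hP₂0
    rw [add_zero, K56.zcoord_zero, h40w_wc_zero]
    exact (h40w_psi_zero_right A W ha₁ ha₂ ha₃ ha₄ ha₆ hz₁ hw₁ E₁).symm
  rcases hP₁ with rfl | ⟨x₁, y₁, h₁, rfl, hx₁⟩
  · exact absurd rfl hP₁0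
  rcases hP₂ with rfl | ⟨x₂, y₂, h₂, rfl, hx₂⟩
  · exact absurd rfl hP₂0
  exact h40w_law_affine A W ha₁ ha₂ ha₃ ha₄ ha₆ h₁ h₂ hx₁ hx₂

/-- **the pointwise law in the product algebra** (elliptic `H96wAdd`). -/
theorem h40w_add (hArch : H96Arch A) (ha₁ : W.a₁ ∈ A) (ha₂ : W.a₂ ∈ A) (ha₃ : W.a₃ ∈ A)
    (ha₄ : W.a₄ ∈ A) (ha₆ : W.a₆ ∈ A) :
    H40wAdd A (kernelOfReduction A ha₁ ha₂ ha₃ ha₄ ha₆) (K56.zcoord (W := W)) := by
  intro S S' hSf hS'f hS hS'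
  have hS1 : ∀ P ∈ S, InE1 A P := fun P hP => hS P hP
  have hS'1 : ∀ P ∈ S', InE1 A P := fun P hP => hS' P hP
  have : Finite ↥S := Set.finite_coe_iff.mpr hSf
  have : Finite ↥S' := Set.finite_coe_iff.mpr hS'f
  set RP := h96c_prod A (h40w_R A (K56.zcoord (W := W)) S) (h40w_R A (K56.zcoord (W := W)) S')
    with hRP
  have hZ₁ : (fun p : ↥S × ↥S' => K56.zcoord (p.1 : W.Point)) ∈ RP :=
    Algebra.subset_adjoin (Or.inl ⟨_, h40w_z_mem A (K56.zcoord (W := W)) S, rfl⟩)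
  have hZ₂ : (fun p : ↥S × ↥S' => K56.zcoord (p.2 : W.Point)) ∈ RP :=
    Algebra.subset_adjoin (Or.inr ⟨_, h40w_z_mem A (K56.zcoord (W := W)) S', rfl⟩)
  have hW₁ : (fun p : ↥S × ↥S' => h40w_wc (p.1 : W.Point)) ∈ RP :=
    Algebra.subset_adjoin
      (Or.inl ⟨_, h40w_w_mem A W hArch ha₁ ha₂ ha₃ ha₄ ha₆ hSf hS1, rfl⟩)
  have hW₂ : (fun p : ↥S × ↥S' => h40w_wc (p.2 : W.Point)) ∈ RP :=
    Algebra.subset_adjoin
      (Or.inr ⟨_, h40w_w_mem A W hArch ha₁ ha₂ ha₃ ha₄ ha₆ hS'f hS'1, rfl⟩)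
  have hPsi := h40w_psi_mem W ha₁ ha₂ ha₃ ha₄ ha₆ RP hZ₁ hW₁ hZ₂ hW₂
    (fun p => K56.zcoord_mem_nonunits A W ha₁ ha₂ ha₃ ha₄ ha₆ (hS1 _ p.1.2))
    (fun p => h40w_wc_small A W ha₁ ha₂ ha₃ ha₄ ha₆ (hS1 _ p.1.2))
    (fun p => K56.zcoord_mem_nonunits A W ha₁ ha₂ ha₃ ha₄ ha₆ (hS'1 _ p.2.2))
    (fun p => h40w_wc_small A W ha₁ ha₂ ha₃ ha₄ ha₆ (hS'1 _ p.2.2))
  have he : (fun p : ↥S × ↥S' => K56.zcoord ((p.1 : W.Point) + (p.2 : W.Point))) =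
      fun p : ↥S × ↥S' => h40w_Psi W (K56.zcoord (p.1 : W.Point)) (h40w_wc (p.1 : W.Point))
        (K56.zcoord (p.2 : W.Point)) (h40w_wc (p.2 : W.Point)) := by
    funext p
    exact h40w_law A W ha₁ ha₂ ha₃ ha₄ ha₆ _ _ (hS1 _ p.1.2) (hS'1 _ p.2.2)
  rw [he]
  exact hPsi

/-- **CLOS: the field `comul` of `H96LocOrder`** for the `z`-functions of a finite group `X`
of points of `W` (for instance `W[p]`): `E¹` the kernel of reduction, `F` a subgroup of points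
(the inertia-fixed points) containing a representative of every class of `X` modulo `E¹`. -/
theorem h40w_comul (hArch : H96Arch A) (ha₁ : W.a₁ ∈ A) (ha₂ : W.a₂ ∈ A) (ha₃ : W.a₃ ∈ A)
    (ha₄ : W.a₄ ∈ A) (ha₆ : W.a₆ ∈ A) (F : AddSubgroup W.Point) {X : Type} [AddCommGroup X]
    [Finite X] (ι : X →+ W.Point)
    (hL : ∀ x : X, ∃ c ∈ F, ι x - c ∈ kernelOfReduction A ha₁ ha₂ ha₃ ha₄ ha₆) :
    ∀ f ∈ h40w_G (kernelOfReduction A ha₁ ha₂ ha₃ ha₄ ha₆) F (K56.zcoord (W := W)) ι,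
      ∃ (n : ℕ) (a b : Fin n → X → K),
        (∀ i, a i ∈ Algebra.adjoin A
          (h40w_G (kernelOfReduction A ha₁ ha₂ ha₃ ha₄ ha₆) F (K56.zcoord (W := W)) ι)) ∧
        (∀ i, b i ∈ Algebra.adjoin A
          (h40w_G (kernelOfReduction A ha₁ ha₂ ha₃ ha₄ ha₆) F (K56.zcoord (W := W)) ι)) ∧
        ∀ x y, f (x + y) = ∑ i, a i x * b i y :=
  h40w_G_comul (h40w_add A W hArch ha₁ ha₂ ha₃ ha₄ ha₆) hL

end Law

end

end Fermat.Agent.P7
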