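import Fermat.Agent.P5.H96LawIface
import Fermat.Agent.P5.H96LawSw

/-!
# P7 (wave 7, S40), block (4) LOCAL-W, leaf ASM, abstract part (helper8)

The order bookkeeping of `P5/H96LawOrder.lean` for an ABSTRACT one-parameter kernel of
reduction: a `G_ℚ`-module `𝔾`, a subgroup `E` ("kernel of reduction at `A`") and ONE coordinate
function `z : 𝔾 → ℚ̄` (zero outside `E`).

* `H8wKer A E z` : the inputs (integrality and injectivity of `z` on `E`, equivariance under the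
  decomposition group, inertia acts trivially modulo `E`, inertia-fixed lifts, and the pointwise
  group law `add`: `(x, y) ↦ z (x + y)` lies in the product algebra `R(S) ⊗ R(S')` for finite
  `S, S' ⊆ E`).
* `h8wG A E z m` : the generators on `𝔾[m]`: the idempotents `1_{c₀ + E}` and the coordinate
  functions `y ↦ z (y - c₀)`, `c₀` inertia-fixed.
* `h8w_locOrder : H8wKer A E z → H96LocOrder A (h8wAct m) (h8wG A E z m)` for finite `𝔾[m]`.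
-/

set_option autoImplicit false
set_option linter.style.haveILetI false
set_option linter.unusedSectionVars false

noncomputable section

namespace Fermat.Agent.P7

open Fermat.Agent.S37 Fermat.Agent.P5

variable {𝔾 : Type} [AddCommGroup 𝔾] [DistribMulAction GQ 𝔾]

/-- the `A`-algebra of functions on `S` generated by the coordinate `z`. -/
def h8wR (A : ValuationSubring Kbar) (z : 𝔾 → Kbar) (S : Set 𝔾) : Subalgebra A (↥S → Kbar) :=
  Algebra.adjoin A {fun x : ↥S => z (x : 𝔾)}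

/-- **The inputs of the abstract order step.** -/
structure H8wKer (A : ValuationSubring Kbar) (E : AddSubgroup 𝔾) (z : 𝔾 → Kbar) : Prop where
  z_out : ∀ x, x ∉ E → z x = 0
  z_int : ∀ x, z x ∈ A
  z_inj : ∀ x ∈ E, ∀ y ∈ E, z x = z y → x = y
  z_decomp : ∀ τ ∈ A.decompositionSubgroup ℚ, ∀ x : 𝔾, z (τ • x) = τ (z x)
  E_decomp : ∀ τ ∈ A.decompositionSubgroup ℚ, ∀ x ∈ E, τ • x ∈ E
  inert : ∀ σ ∈ A.inertiaSubgroupIn ℚ, ∀ x : 𝔾, σ • x - x ∈ E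
  lift : ∀ y : 𝔾, ∃ c₀ : 𝔾, (∀ σ ∈ A.inertiaSubgroupIn ℚ, σ • c₀ = c₀) ∧ y - c₀ ∈ E
  add : ∀ S S' : Set 𝔾, S.Finite → S'.Finite → S ⊆ (E : Set 𝔾) → S' ⊆ (E : Set 𝔾) →
    (fun p : ↥S × ↥S' => z ((p.1 : 𝔾) + (p.2 : 𝔾))) ∈ h96c_prod A (h8wR A z S) (h8wR A z S')

/-- the torsion module. -/
abbrev h8wT (𝔾 : Type) [AddCommGroup 𝔾] (m : ℤ) : Type := ↥(Submodule.torsionBy ℤ 𝔾 m)

theorem h8w_smul_zsmul (τ : GQ) (n : ℤ) (x : 𝔾) : τ • (n • x) = n • (τ • x) :=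
  map_zsmul (DistribSMul.toAddMonoidHom 𝔾 τ) n x

theorem h8w_smul_sub (τ : GQ) (y x : 𝔾) : τ • (y - x) = τ • y - τ • x :=
  map_sub (DistribSMul.toAddMonoidHom 𝔾 τ) y x

/-- the Galois action on the `m`-torsion. -/
def h8wAct (m : ℤ) (σ : GQ) (x : h8wT 𝔾 m) : h8wT 𝔾 m :=
  ⟨σ • (x : 𝔾), by
    have hx : m • (x : 𝔾) = 0 := (Submodule.mem_torsionBy_iff _ _).1 x.2
    refine (Submodule.mem_torsionBy_iff _ _).2 ?_
    rw [← h8w_smul_zsmul, hx]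
    exact smul_zero (A := 𝔾) σ⟩

@[simp]
theorem h8wAct_coe (m : ℤ) (σ : GQ) (x : h8wT 𝔾 m) :
    ((h8wAct m σ x : h8wT 𝔾 m) : 𝔾) = σ • (x : 𝔾) := rfl

open Classical in
/-- the idempotent of the residue class of `c₀`. -/
def h8wIdem (E : AddSubgroup 𝔾) (m : ℤ) (c₀ : 𝔾) : h8wT 𝔾 m → Kbar :=
  fun y => if (y : 𝔾) - c₀ ∈ E then 1 else 0

/-- the coordinate generator `y ↦ z (y - c₀)`. -/
def h8wCoord (z : 𝔾 → Kbar) (m : ℤ) (c₀ : 𝔾) : h8wT 𝔾 m → Kbar :=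
  fun y => z ((y : 𝔾) - c₀)

/-- the generating set of the local order. -/
def h8wG (A : ValuationSubring Kbar) (E : AddSubgroup 𝔾) (z : 𝔾 → Kbar) (m : ℤ) :
    Set (h8wT 𝔾 m → Kbar) :=
  {f | ∃ c₀ : 𝔾, (∀ σ ∈ A.inertiaSubgroupIn ℚ, σ • c₀ = c₀) ∧
    (f = h8wIdem E m c₀ ∨ f = h8wCoord z m c₀)}

variable {A : ValuationSubring Kbar} {E : AddSubgroup 𝔾} {z : 𝔾 → Kbar}

theorem h8w_inert_le {σ : GQ} (hσ : σ ∈ A.inertiaSubgroupIn ℚ) :
    σ ∈ A.decompositionSubgroup ℚ := by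
  obtain ⟨i', -, rfl⟩ := hσ
  exact i'.2

theorem h8w_conj_mem {τ σ : GQ} (hτ : τ ∈ A.decompositionSubgroup ℚ)
    (hσ : σ ∈ A.inertiaSubgroupIn ℚ) : τ⁻¹ * σ * τ ∈ A.inertiaSubgroupIn ℚ := by
  obtain ⟨i', hi', rfl⟩ := hσ
  refine ⟨(⟨τ, hτ⟩ : A.decompositionSubgroup ℚ)⁻¹ * i' * (⟨τ, hτ⟩ : A.decompositionSubgroup ℚ),
    ?_, rfl⟩
  have hn : (A.inertiaSubgroup ℚ).Normal := by
    unfold ValuationSubring.inertiaSubgroup
    exact MonoidHom.normal_ker _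
  have := hn.conj_mem i' hi' (⟨τ, hτ⟩ : A.decompositionSubgroup ℚ)⁻¹
  simpa using this

theorem h8w_smul_fixed {τ : GQ} (hτ : τ ∈ A.decompositionSubgroup ℚ) {c₀ : 𝔾}
    (hc₀ : ∀ σ ∈ A.inertiaSubgroupIn ℚ, σ • c₀ = c₀) :
    ∀ σ ∈ A.inertiaSubgroupIn ℚ, σ • (τ • c₀) = τ • c₀ := by
  intro σ hσ
  have h1 := hc₀ _ (h8w_conj_mem hτ hσ)
  have h2 : σ • τ • c₀ = τ • ((τ⁻¹ * σ * τ) • c₀) := by
    rw [← mul_smul, ← mul_smul]
    congr 1
    group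
  rw [h2, h1]

theorem h8w_inert_mem_iff (hK : H8wKer A E z) {σ : GQ} (hσ : σ ∈ A.inertiaSubgroupIn ℚ)
    (x : 𝔾) : σ • x ∈ E ↔ x ∈ E := by
  have h := hK.inert σ hσ x
  constructor
  · intro h1
    have : x = σ • x - (σ • x - x) := by abel
    rw [this]
    exact sub_mem h1 h
  · intro h1
    have : σ • x = (σ • x - x) + x := by abel
    rw [this]
    exact add_mem h h1

theorem h8w_decomp_mem_iff (hK : H8wKer A E z) {τ : GQ} (hτ : τ ∈ A.decompositionSubgroup ℚ)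
    (x : 𝔾) : τ • x ∈ E ↔ x ∈ E := by
  constructor
  · intro h1
    have := hK.E_decomp τ⁻¹ (inv_mem hτ) _ h1
    rwa [inv_smul_smul] at this
  · exact hK.E_decomp τ hτ x

/-! ### the fields `int`, `inert`, `decomp`, `sep` -/

section Fields

variable {m : ℤ}

theorem h8w_G_int (hK : H8wKer A E z) : ∀ f ∈ h8wG A E z m, ∀ y, f y ∈ A := by
  rintro f ⟨c₀, -, rfl | rfl⟩ y
  · unfold h8wIdem
    split_ifs
    · exact A.one_mem
    · exact A.zero_mem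
  · exact hK.z_int _

theorem h8w_G_inert (hK : H8wKer A E z) :
    ∀ f ∈ h8wG A E z m, ∀ σ ∈ A.inertiaSubgroupIn ℚ, ∀ y, f (h8wAct m σ y) = σ (f y) := by
  rintro f ⟨c₀, hc₀, rfl | rfl⟩ σ hσ y
  · unfold h8wIdem
    have h1 : ((h8wAct m σ y : h8wT 𝔾 m) : 𝔾) - c₀ = σ • ((y : 𝔾) - c₀) := by
      rw [h8wAct_coe, h8w_smul_sub, hc₀ σ hσ]
    rw [h1]
    by_cases h2 : (y : 𝔾) - c₀ ∈ E
    · rw [if_pos ((h8w_inert_mem_iff hK hσ _).2 h2), if_pos h2, map_one]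
    · rw [if_neg (fun h => h2 ((h8w_inert_mem_iff hK hσ _).1 h)), if_neg h2, map_zero]
  · unfold h8wCoord
    have h1 : ((h8wAct m σ y : h8wT 𝔾 m) : 𝔾) - c₀ = σ • ((y : 𝔾) - c₀) := by
      rw [h8wAct_coe, h8w_smul_sub, hc₀ σ hσ]
    rw [h1]
    exact hK.z_decomp σ (h8w_inert_le hσ) _

theorem h8w_G_decomp (hK : H8wKer A E z) :
    ∀ f ∈ h8wG A E z m, ∀ τ ∈ A.decompositionSubgroup ℚ,
      (fun y => τ (f (h8wAct m τ⁻¹ y))) ∈ h8wG A E z m := by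
  rintro f ⟨c₀, hc₀, rfl | rfl⟩ τ hτ
  · refine ⟨τ • c₀, h8w_smul_fixed hτ hc₀, Or.inl ?_⟩
    funext y
    unfold h8wIdem
    have h1 : ((h8wAct m τ⁻¹ y : h8wT 𝔾 m) : 𝔾) - c₀ = τ⁻¹ • ((y : 𝔾) - τ • c₀) := by
      rw [h8wAct_coe, h8w_smul_sub, inv_smul_smul]
    rw [h1]
    by_cases h2 : (y : 𝔾) - τ • c₀ ∈ E
    · rw [if_pos ((h8w_decomp_mem_iff hK (inv_mem hτ) _).2 h2), if_pos h2, map_one]
    · rw [if_neg (fun h => h2 ((h8w_decomp_mem_iff hK (inv_mem hτ) _).1 h)), if_neg h2,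
        map_zero]
  · refine ⟨τ • c₀, h8w_smul_fixed hτ hc₀, Or.inr ?_⟩
    funext y
    unfold h8wCoord
    have h1 : (y : 𝔾) - τ • c₀ = τ • (((h8wAct m τ⁻¹ y : h8wT 𝔾 m) : 𝔾) - c₀) := by
      rw [h8wAct_coe, h8w_smul_sub, smul_inv_smul]
    rw [h1]
    exact (hK.z_decomp τ hτ _).symm

theorem h8w_G_sep (hK : H8wKer A E z) :
    ∀ y y' : h8wT 𝔾 m, (∀ f ∈ h8wG A E z m, f y = f y') → y = y' := by
  intro y y' h
  obtain ⟨c₀, hc₀, hy⟩ := hK.lift (y : 𝔾)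
  have h1 := h (h8wIdem E m c₀) ⟨c₀, hc₀, Or.inl rfl⟩
  unfold h8wIdem at h1
  rw [if_pos hy] at h1
  have hy' : (y' : 𝔾) - c₀ ∈ E := by
    by_contra hn
    rw [if_neg hn] at h1
    exact one_ne_zero h1
  have h2 : (y : 𝔾) - c₀ = (y' : 𝔾) - c₀ :=
    hK.z_inj _ hy _ hy' (h (h8wCoord z m c₀) ⟨c₀, hc₀, Or.inr rfl⟩)
  exact Subtype.ext (sub_left_injective h2)

end Fields

/-! ### the field `comul` -/

section Comul

variable {m : ℤ}

theorem h8wIdem_mem_adjoin {c₀ : 𝔾} (hc₀ : ∀ σ ∈ A.inertiaSubgroupIn ℚ, σ • c₀ = c₀) :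
    h8wIdem E m c₀ ∈ Algebra.adjoin A (h8wG A E z m) :=
  Algebra.subset_adjoin ⟨c₀, hc₀, Or.inl rfl⟩

theorem h8wCoord_mem_adjoin {c₀ : 𝔾} (hc₀ : ∀ σ ∈ A.inertiaSubgroupIn ℚ, σ • c₀ = c₀) :
    h8wCoord z m c₀ ∈ Algebra.adjoin A (h8wG A E z m) :=
  Algebra.subset_adjoin ⟨c₀, hc₀, Or.inr rfl⟩

theorem h8w_fixed_sub {c₀ c₁ : 𝔾} (hc₀ : ∀ σ ∈ A.inertiaSubgroupIn ℚ, σ • c₀ = c₀)
    (hc₁ : ∀ σ ∈ A.inertiaSubgroupIn ℚ, σ • c₁ = c₁) :
    ∀ σ ∈ A.inertiaSubgroupIn ℚ, σ • (c₀ - c₁) = c₀ - c₁ := by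
  intro σ hσ
  rw [h8w_smul_sub, hc₀ σ hσ, hc₁ σ hσ]

open Classical in
/-- the pull-back of a function on `S` along `y ↦ y - c₁`, extended by `0`. -/
def h8wPull (m : ℤ) (c₁ : 𝔾) (S : Set 𝔾) (α : ↥S → Kbar) : h8wT 𝔾 m → Kbar :=
  fun y => if h : (y : 𝔾) - c₁ ∈ S then α ⟨_, h⟩ else 0

theorem h8wPull_pos {c₁ : 𝔾} {S : Set 𝔾} (α : ↥S → Kbar) {y : h8wT 𝔾 m}
    (h : (y : 𝔾) - c₁ ∈ S) : h8wPull m c₁ S α y = α ⟨_, h⟩ := by
  unfold h8wPull
  rw [dif_pos h]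

theorem h8wPull_neg {c₁ : 𝔾} {S : Set 𝔾} (α : ↥S → Kbar) {y : h8wT 𝔾 m}
    (h : (y : 𝔾) - c₁ ∉ S) : h8wPull m c₁ S α y = 0 := by
  unfold h8wPull
  rw [dif_neg h]

/-- pull-backs of elements of `h8wR` lie in the algebra generated by `h8wG`. -/
theorem h8wPull_mem (hK : H8wKer A E z) {c₁ : 𝔾}
    (hc₁ : ∀ σ ∈ A.inertiaSubgroupIn ℚ, σ • c₁ = c₁) (S : Set 𝔾)
    (hS : ∀ y : h8wT 𝔾 m, (y : 𝔾) - c₁ ∈ S ↔ (y : 𝔾) - c₁ ∈ E)
    {α : ↥S → Kbar} (hα : α ∈ h8wR A z S) :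
    h8wPull m c₁ S α ∈ Algebra.adjoin A (h8wG A E z m) := by
  unfold h8wR at hα
  induction hα using Algebra.adjoin_induction with
  | mem f hf =>
    rw [Set.mem_singleton_iff] at hf
    subst hf
    have h1 : h8wPull m c₁ S (fun x : ↥S => z (x : 𝔾)) = h8wCoord z m c₁ := by
      funext y
      by_cases h : (y : 𝔾) - c₁ ∈ S
      · rw [h8wPull_pos _ h]
        rfl
      · rw [h8wPull_neg _ h]
        exact (hK.z_out _ (fun h3 => h ((hS y).2 h3))).symm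
    rw [h1]
    exact h8wCoord_mem_adjoin hc₁
  | algebraMap r =>
    have h1 : h8wPull m c₁ S (algebraMap A (↥S → Kbar) r) = r • h8wIdem E m c₁ := by
      funext y
      by_cases h : (y : 𝔾) - c₁ ∈ S
      · rw [h8wPull_pos _ h]
        show (r : Kbar) = r • h8wIdem E m c₁ y
        unfold h8wIdem
        rw [if_pos ((hS y).1 h)]
        show (r : Kbar) = (r : Kbar) * 1
        rw [mul_one]
      · rw [h8wPull_neg _ h]
        show (0 : Kbar) = r • h8wIdem E m c₁ y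
        unfold h8wIdem
        rw [if_neg (fun h3 => h ((hS y).2 h3))]
        show (0 : Kbar) = (r : Kbar) * 0
        rw [mul_zero]
    rw [h1]
    exact Subalgebra.smul_mem _ (h8wIdem_mem_adjoin hc₁) r
  | add f f' _ _ hf hf' =>
    have h1 : h8wPull m c₁ S (f + f') = h8wPull m c₁ S f + h8wPull m c₁ S f' := by
      funext y
      by_cases h : (y : 𝔾) - c₁ ∈ S
      · rw [Pi.add_apply, h8wPull_pos _ h, h8wPull_pos _ h, h8wPull_pos _ h]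
        rfl
      · rw [Pi.add_apply, h8wPull_neg _ h, h8wPull_neg _ h, h8wPull_neg _ h, add_zero]
    rw [h1]
    exact add_mem hf hf'
  | mul f f' _ _ hf hf' =>
    have h1 : h8wPull m c₁ S (f * f') = h8wPull m c₁ S f * h8wPull m c₁ S f' := by
      funext y
      by_cases h : (y : 𝔾) - c₁ ∈ S
      · rw [Pi.mul_apply, h8wPull_pos _ h, h8wPull_pos _ h, h8wPull_pos _ h]
        rfl
      · rw [Pi.mul_apply, h8wPull_neg _ h, h8wPull_neg _ h, h8wPull_neg _ h, mul_zero]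
    rw [h1]
    exact mul_mem hf hf'

open Classical in
/-- **one residue class, idempotents**. -/
theorem h8w_sw_idem {c₀ c₁ : 𝔾} (hc₀ : ∀ σ ∈ A.inertiaSubgroupIn ℚ, σ • c₀ = c₀)
    (hc₁ : ∀ σ ∈ A.inertiaSubgroupIn ℚ, σ • c₁ = c₁) :
    h96o_Sw A (Algebra.adjoin A (h8wG A E z m)) (Algebra.adjoin A (h8wG A E z m))
      (fun y y' : h8wT 𝔾 m => if (y : 𝔾) - c₁ ∈ E then h8wIdem E m c₀ (y + y') else 0) := by
  refine h96o_sw_congr (h96o_sw_tmul (h8wIdem_mem_adjoin (m := m) (z := z) hc₁)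
    (h8wIdem_mem_adjoin (m := m) (z := z) (h8w_fixed_sub hc₀ hc₁))) fun y y' => ?_
  unfold h8wIdem
  by_cases h1 : (y : 𝔾) - c₁ ∈ E
  · rw [if_pos h1, if_pos h1, one_mul]
    have h2 : ((y + y' : h8wT 𝔾 m) : 𝔾) - c₀ = ((y : 𝔾) - c₁) + ((y' : 𝔾) - (c₀ - c₁)) := by
      push_cast
      abel
    by_cases h3 : (y' : 𝔾) - (c₀ - c₁) ∈ E
    · rw [if_pos h3, if_pos (by rw [h2]; exact add_mem h1 h3)]
    · rw [if_neg h3, if_neg]
      intro h4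
      apply h3
      have : (y' : 𝔾) - (c₀ - c₁) = (((y + y' : h8wT 𝔾 m) : 𝔾) - c₀) - ((y : 𝔾) - c₁) := by
        rw [h2]; abel
      rw [this]
      exact sub_mem h4 h1
  · rw [if_neg h1, if_neg h1, zero_mul]

open Classical in
/-- **one residue class, coordinates**: the only place where the group law is used. -/
theorem h8w_sw_coord [Finite (h8wT 𝔾 m)] (hK : H8wKer A E z)
    {c₀ c₁ : 𝔾} (hc₀ : ∀ σ ∈ A.inertiaSubgroupIn ℚ, σ • c₀ = c₀)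
    (hc₁ : ∀ σ ∈ A.inertiaSubgroupIn ℚ, σ • c₁ = c₁) :
    h96o_Sw A (Algebra.adjoin A (h8wG A E z m)) (Algebra.adjoin A (h8wG A E z m))
      (fun y y' : h8wT 𝔾 m => if (y : 𝔾) - c₁ ∈ E then h8wCoord z m c₀ (y + y') else 0) := by
  set c₁' : 𝔾 := c₀ - c₁ with hc₁'
  have hfix' : ∀ σ ∈ A.inertiaSubgroupIn ℚ, σ • c₁' = c₁' := h8w_fixed_sub hc₀ hc₁
  set S : Set 𝔾 := {x | x ∈ E ∧ ∃ y : h8wT 𝔾 m, x = (y : 𝔾) - c₁} with hSdef
  set S' : Set 𝔾 := {x | x ∈ E ∧ ∃ y : h8wT 𝔾 m, x = (y : 𝔾) - c₁'} with hS'def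
  have hSfin : S.Finite :=
    (Set.finite_range fun y : h8wT 𝔾 m => (y : 𝔾) - c₁).subset
      (by rintro x ⟨-, y, rfl⟩; exact ⟨y, rfl⟩)
  have hS'fin : S'.Finite :=
    (Set.finite_range fun y : h8wT 𝔾 m => (y : 𝔾) - c₁').subset
      (by rintro x ⟨-, y, rfl⟩; exact ⟨y, rfl⟩)
  have hSsub : S ⊆ (E : Set 𝔾) := fun x hx => hx.1
  have hS'sub : S' ⊆ (E : Set 𝔾) := fun x hx => hx.1
  have hS : ∀ y : h8wT 𝔾 m, (y : 𝔾) - c₁ ∈ S ↔ (y : 𝔾) - c₁ ∈ E := fun y =>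
    ⟨fun h => h.1, fun h => ⟨h, y, rfl⟩⟩
  have hS' : ∀ y : h8wT 𝔾 m, (y : 𝔾) - c₁' ∈ S' ↔ (y : 𝔾) - c₁' ∈ E := fun y =>
    ⟨fun h => h.1, fun h => ⟨h, y, rfl⟩⟩
  have hF := hK.add S S' hSfin hS'fin hSsub hS'sub
  obtain ⟨ι, inst, a, b, ha, hb, hab⟩ := h96o_sw_of_mem_prod hF
  refine ⟨ι, inst, fun k => h8wPull m c₁ S (a k), fun k => h8wPull m c₁' S' (b k),
    fun k => h8wPull_mem hK hc₁ S hS (ha k), fun k => h8wPull_mem hK hfix' S' hS' (hb k),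
    fun y y' => ?_⟩
  beta_reduce
  have hsum : ((y + y' : h8wT 𝔾 m) : 𝔾) - c₀ = ((y : 𝔾) - c₁) + ((y' : 𝔾) - c₁') := by
    rw [hc₁']
    push_cast
    abel
  by_cases h1 : (y : 𝔾) - c₁ ∈ E
  · rw [if_pos h1]
    by_cases h3 : (y' : 𝔾) - c₁' ∈ E
    · have e1 := (hS y).2 h1
      have e2 := (hS' y').2 h3
      have h4 := hab ⟨_, e1⟩ ⟨_, e2⟩
      have h5 : ∀ k, h8wPull m c₁ S (a k) y * h8wPull m c₁' S' (b k) y' =
          a k ⟨_, e1⟩ * b k ⟨_, e2⟩ := fun k => by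
        rw [h8wPull_pos _ e1, h8wPull_pos _ e2]
      rw [Finset.sum_congr rfl fun k _ => h5 k, ← h4]
      unfold h8wCoord
      rw [hsum]
    · have h5 : ∀ k, h8wPull m c₁ S (a k) y * h8wPull m c₁' S' (b k) y' = 0 :=
        fun k => by
          rw [h8wPull_neg (b k) (fun h => h3 ((hS' y').1 h)), mul_zero]
      rw [Finset.sum_congr rfl fun k _ => h5 k, Finset.sum_const_zero]
      unfold h8wCoord
      refine hK.z_out _ ?_
      intro h6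
      apply h3
      have : (y' : 𝔾) - c₁' = (((y + y' : h8wT 𝔾 m) : 𝔾) - c₀) - ((y : 𝔾) - c₁) := by
        rw [hsum]; abel
      rw [this]
      exact sub_mem h6 h1
  · rw [if_neg h1]
    have h5 : ∀ k, h8wPull m c₁ S (a k) y * h8wPull m c₁' S' (b k) y' = 0 :=
      fun k => by
        rw [h8wPull_neg (a k) (fun h => h1 ((hS y).1 h)), zero_mul]
    rw [Finset.sum_congr rfl fun k _ => h5 k, Finset.sum_const_zero]

open Classical in
/-- partition into residue classes. -/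
theorem h8w_sw_partition [Finite (h8wT 𝔾 m)] (hK : H8wKer A E z) (f : h8wT 𝔾 m → Kbar)
    (h : ∀ c₁ : 𝔾, (∀ σ ∈ A.inertiaSubgroupIn ℚ, σ • c₁ = c₁) →
      h96o_Sw A (Algebra.adjoin A (h8wG A E z m)) (Algebra.adjoin A (h8wG A E z m))
        (fun y y' : h8wT 𝔾 m => if (y : 𝔾) - c₁ ∈ E then f (y + y') else 0)) :
    h96o_Sw A (Algebra.adjoin A (h8wG A E z m)) (Algebra.adjoin A (h8wG A E z m))
      (fun y y' : h8wT 𝔾 m => f (y + y')) := by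
  have hL := hK.lift
  let s : Setoid (h8wT 𝔾 m) :=
    { r := fun y y' => (y : 𝔾) - (y' : 𝔾) ∈ E
      iseqv :=
        { refl := fun y => by
            show (y : 𝔾) - (y : 𝔾) ∈ E
            rw [sub_self]; exact zero_mem _
          symm := fun {y y'} hyy => by
            show (y' : 𝔾) - (y : 𝔾) ∈ E
            have h1 : (y' : 𝔾) - (y : 𝔾) = -((y : 𝔾) - (y' : 𝔾)) := by
              abel
            rw [h1]; exact neg_mem hyy
          trans := fun {y y' y''} h1 h2 => by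
            show (y : 𝔾) - (y'' : 𝔾) ∈ E
            have h3 : (y : 𝔾) - (y'' : 𝔾) =
                ((y : 𝔾) - (y' : 𝔾)) + ((y' : 𝔾) - (y'' : 𝔾)) := by
              abel
            rw [h3]; exact add_mem h1 h2 } }
  have : Finite (Quotient s) := Quotient.finite s
  let _ : Fintype (Quotient s) := Fintype.ofFinite _
  let lam : Quotient s → 𝔾 := fun q => (hL ((Quotient.out q : h8wT 𝔾 m) : 𝔾)).choose
  have hlam_fix : ∀ q, ∀ σ ∈ A.inertiaSubgroupIn ℚ, σ • lam q = lam q := fun q =>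
    (hL ((Quotient.out q : h8wT 𝔾 m) : 𝔾)).choose_spec.1
  have hlam_mem : ∀ q, ((Quotient.out q : h8wT 𝔾 m) : 𝔾) - lam q ∈ E :=
    fun q => (hL ((Quotient.out q : h8wT 𝔾 m) : 𝔾)).choose_spec.2
  have hiff : ∀ (y : h8wT 𝔾 m) (q : Quotient s),
      (y : 𝔾) - lam q ∈ E ↔ q = Quotient.mk s y := by
    intro y q
    constructor
    · intro h1
      have h2 : (y : 𝔾) - ((Quotient.out q : h8wT 𝔾 m) : 𝔾) ∈ E := by
        have : (y : 𝔾) - ((Quotient.out q : h8wT 𝔾 m) : 𝔾) =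
            ((y : 𝔾) - lam q) - (((Quotient.out q : h8wT 𝔾 m) : 𝔾) - lam q) := by
          abel
        rw [this]
        exact sub_mem h1 (hlam_mem q)
      have h3 : Quotient.mk s y = Quotient.mk s (Quotient.out q) := Quotient.sound h2
      rw [h3, Quotient.out_eq]
    · rintro rfl
      have h2 : (y : 𝔾) - ((Quotient.out (Quotient.mk s y) : h8wT 𝔾 m) : 𝔾) ∈ E := by
        have h3 : s.r (Quotient.out (Quotient.mk s y)) y := Quotient.exact (Quotient.out_eq _)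
        exact s.iseqv.symm h3
      have : (y : 𝔾) - lam (Quotient.mk s y) =
          ((y : 𝔾) - ((Quotient.out (Quotient.mk s y) : h8wT 𝔾 m) : 𝔾)) +
            (((Quotient.out (Quotient.mk s y) : h8wT 𝔾 m) : 𝔾) - lam (Quotient.mk s y)) := by
        abel
      rw [this]
      exact add_mem h2 (hlam_mem _)
  have hsum := h96o_sw_sum (A := A) (R := Algebra.adjoin A (h8wG A E z m))
    (R' := Algebra.adjoin A (h8wG A E z m)) (Finset.univ : Finset (Quotient s))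
    (F := fun q => fun y y' : h8wT 𝔾 m => if (y : 𝔾) - lam q ∈ E then f (y + y') else 0)
    (fun q _ => h (lam q) (hlam_fix q))
  refine h96o_sw_congr hsum fun y y' => ?_
  rw [Finset.sum_eq_single (Quotient.mk s y)]
  · rw [if_pos ((hiff y _).2 rfl)]
  · intro q _ hq
    rw [if_neg (fun h1 => hq ((hiff y q).1 h1))]
  · intro h1
    exact absurd (Finset.mem_univ _) h1

theorem h8w_G_comul [Finite (h8wT 𝔾 m)] (hK : H8wKer A E z) :
    ∀ f ∈ h8wG A E z m, ∃ (n : ℕ) (a b : Fin n → h8wT 𝔾 m → Kbar),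
      (∀ i, a i ∈ Algebra.adjoin A (h8wG A E z m)) ∧
      (∀ i, b i ∈ Algebra.adjoin A (h8wG A E z m)) ∧
      ∀ x y, f (x + y) = ∑ i, a i x * b i y := by
  rintro f ⟨c₀, hc₀, rfl | rfl⟩
  · exact h96o_sw_fin (h8w_sw_partition hK _ fun c₁ hc₁ => h8w_sw_idem hc₀ hc₁)
  · exact h96o_sw_fin (h8w_sw_partition hK _ fun c₁ hc₁ => h8w_sw_coord hK hc₀ hc₁)

end Comul

/-- **ASM, abstract form**: the local order of a one-parameter kernel of reduction. -/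
theorem h8w_locOrder (hK : H8wKer A E z) (m : ℤ) [Finite (h8wT 𝔾 m)] :
    H96LocOrder A (h8wAct (𝔾 := 𝔾) m) (h8wG A E z m) :=
  { int := h8w_G_int hK
    inert := h8w_G_inert hK
    decomp := h8w_G_decomp hK
    sep := h8w_G_sep hK
    comul := h8w_G_comul hK }

end Fermat.Agent.P7
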