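import Fermat.Agent.P7.H40LocClos
import Fermat.Agent.P7.H8LocWAbs
import Fermat.Agent.P7.H34LocInert
import Fermat.Agent.P7.H47LocTop
import Fermat.Agent.P5.H72Arch
import Fermat.Agent.S54.Frobenius

/-!
# P7 (wave 7, S40), block (4) LOCAL-W: the instance for the curve of S40 (helper40)

`W : WeierstrassCurve ℤ` with good reduction at `p` (`¬ (p : ℤ) ∣ W.Δ`), `A` a valuation subring
of `ℚ̄` over `p`, `𝔾 = (W_ℚ ⁄ ℚ̄).Point`, `E = h40xE W A` the kernel of reduction,
`z = h40xZ W A` the coordinate `-x / y` on `E` (zero outside `E`).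

* `h40x_add_field` : the field `add` of `H8wKer` (helper8) from `h40w_add`, for any coordinate
  function which agrees with `K56.zcoord` on the kernel of reduction;
* `h40x_ker : H8wKer A (h40xE W A) (h40xZ W A)` (INERT helper34 + CLOS);
* `h40x_locOrder : H96LocOrder A (h47wAct W n) (h8wG A (h40xE W A) (h40xZ W A) n)`;
* `h40x_flat : h97c_Flat p (H47wX W n) (h47wAct W n)` : **`W[n](ℚ̄)` is flat at every prime `p`
  of good reduction** (the Prelude's flatness, through the landed descent);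
* `h40x_locFlat_rho` : `S56F.LocFlat p W[p] (h47wRho W p)`.
-/

set_option autoImplicit false

open WeierstrassCurve
open scoped WeierstrassCurve.Affine

noncomputable section

namespace Fermat.Agent.P7

open Fermat.Agent.S05 Fermat.Agent.P5 Fermat.Agent.S37

/-- **the field `add` of `H8wKer`**, for a coordinate function `z` which agrees with
`K56.zcoord` on the kernel of reduction. -/
theorem h40x_add_field (A : ValuationSubring Kbar) (W : Affine Kbar) (hArch : H96Arch A)
    (ha₁ : W.a₁ ∈ A) (ha₂ : W.a₂ ∈ A) (ha₃ : W.a₃ ∈ A) (ha₄ : W.a₄ ∈ A) (ha₆ : W.a₆ ∈ A)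
    (E : AddSubgroup W.Point) (hE : ∀ P ∈ E, InE1 A P) (z : W.Point → Kbar)
    (hz : ∀ P, InE1 A P → z P = K56.zcoord P) :
    ∀ S S' : Set W.Point, S.Finite → S'.Finite → S ⊆ (E : Set W.Point) →
      S' ⊆ (E : Set W.Point) →
      (fun p : ↥S × ↥S' => z ((p.1 : W.Point) + (p.2 : W.Point))) ∈
        h96c_prod A (h8wR A z S) (h8wR A z S') := by
  intro S S' hSf hS'f hS hS'
  have h := h40w_add A W hArch ha₁ ha₂ ha₃ ha₄ ha₆ S S' hSf hS'f
    (fun u hu => hE u (hS hu)) (fun u hu => hE u (hS' hu))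
  have e1 : h8wR A z S = h40w_R A (K56.zcoord (W := W)) S := by
    unfold h8wR h40w_R
    have h1 : (fun x : ↥S => z (x : W.Point)) = fun x : ↥S => K56.zcoord (x : W.Point) :=
      funext fun x => hz _ (hE _ (hS x.2))
    rw [h1]
  have e2 : h8wR A z S' = h40w_R A (K56.zcoord (W := W)) S' := by
    unfold h8wR h40w_R
    have h1 : (fun x : ↥S' => z (x : W.Point)) = fun x : ↥S' => K56.zcoord (x : W.Point) :=
      funext fun x => hz _ (hE _ (hS' x.2))
    rw [h1]
  have e3 : (fun p : ↥S × ↥S' => z ((p.1 : W.Point) + (p.2 : W.Point))) =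
      fun p : ↥S × ↥S' => K56.zcoord ((p.1 : W.Point) + (p.2 : W.Point)) :=
    funext fun p => hz _ (inE1_add A ha₁ ha₂ ha₃ ha₄ ha₆ (hE _ (hS p.1.2)) (hE _ (hS' p.2.2)))
  rw [e1, e2, e3]
  exact h

/-- the kernel of reduction of the curve of S40 at `A`. -/
def h40xE (W : WeierstrassCurve ℤ) (A : ValuationSubring Kbar) :
    AddSubgroup ((W.map (Int.castRingHom ℚ))⁄Kbar).Point :=
  kernelOfReduction A (h34i_int_a₁ W A) (h34i_int_a₂ W A) (h34i_int_a₃ W A) (h34i_int_a₄ W A)
    (h34i_int_a₆ W A)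

theorem h40xE_mem (W : WeierstrassCurve ℤ) (A : ValuationSubring Kbar)
    (P : ((W.map (Int.castRingHom ℚ))⁄Kbar).Point) : P ∈ h40xE W A ↔ InE1 A P :=
  Iff.rfl

open Classical in
/-- the coordinate `z = -x / y` on the kernel of reduction, `0` outside. -/
def h40xZ (W : WeierstrassCurve ℤ) (A : ValuationSubring Kbar) :
    ((W.map (Int.castRingHom ℚ))⁄Kbar).Point → Kbar :=
  fun P => if InE1 A P then K56.zcoord P else 0

theorem h40xZ_pos (W : WeierstrassCurve ℤ) (A : ValuationSubring Kbar)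
    {P : ((W.map (Int.castRingHom ℚ))⁄Kbar).Point} (hP : InE1 A P) :
    h40xZ W A P = K56.zcoord P := by
  unfold h40xZ
  rw [if_pos hP]

theorem h40xZ_neg (W : WeierstrassCurve ℤ) (A : ValuationSubring Kbar)
    {P : ((W.map (Int.castRingHom ℚ))⁄Kbar).Point} (hP : ¬ InE1 A P) :
    h40xZ W A P = 0 := by
  unfold h40xZ
  rw [if_neg hP]

/-- **the inputs of the abstract order step hold for the curve of S40** at a prime of good
reduction. -/
theorem h40x_ker (W : WeierstrassCurve ℤ) (A : ValuationSubring Kbar) {p : ℕ} (hp : p.Prime)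
    (hA : A.LiesOverPrime p) (hgood : ¬ (p : ℤ) ∣ W.Δ) :
    H8wKer A (h40xE W A) (h40xZ W A) := by
  obtain ⟨h1, h2, h3, h4, h5, h6, -⟩ := h34i_localW_inert W A hp hA hgood
  have hArch : H96Arch A := h72a_archQbar A p hp hA
  refine
    { z_out := fun x hx => h40xZ_neg W A hx
      z_int := fun x => ?_
      z_inj := fun x hx y hy hxy => ?_
      z_decomp := fun τ hτ x => ?_
      E_decomp := fun τ hτ x hx => h2 τ hτ x hx
      inert := fun σ hσ x => h1 σ hσ x
      lift := fun y => h6 y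
      add := h40x_add_field A _ hArch (h34i_int_a₁ W A) (h34i_int_a₂ W A) (h34i_int_a₃ W A)
        (h34i_int_a₄ W A) (h34i_int_a₆ W A) (h40xE W A) (fun P hP => hP) (h40xZ W A)
        (fun P hP => h40xZ_pos W A hP) }
  · by_cases hx : InE1 A x
    · rw [h40xZ_pos W A hx]
      exact K56.mem_of_mem_nonunits A (h4 x hx)
    · rw [h40xZ_neg W A hx]
      exact A.zero_mem
  · rw [h40xZ_pos W A hx, h40xZ_pos W A hy] at hxy
    exact h5 x y hx hy hxy
  · by_cases hx : InE1 A x
    · rw [h40xZ_pos W A hx, h40xZ_pos W A (h2 τ hτ x hx)]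
      exact h3 τ x
    · have hx' : ¬ InE1 A (τ • x) := by
        intro h
        apply hx
        have h7 := h2 τ⁻¹ (inv_mem hτ) _ h
        rwa [inv_smul_smul] at h7
      rw [h40xZ_neg W A hx, h40xZ_neg W A hx', map_zero]

/-- **the local order on `W[n](ℚ̄)`** at a prime of good reduction. -/
theorem h40x_locOrder (W : WeierstrassCurve ℤ) (hΔ : W.Δ ≠ 0) (A : ValuationSubring Kbar)
    {p : ℕ} (hp : p.Prime) (hA : A.LiesOverPrime p) (hgood : ¬ (p : ℤ) ∣ W.Δ) (n : ℕ)
    (hn : n ≠ 0) :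
    H96LocOrder A (h47wAct W n) (h8wG A (h40xE W A) (h40xZ W A) (n : ℤ)) := by
  have : Finite (h8wT ((W.map (Int.castRingHom ℚ))⁄Kbar).Point (n : ℤ)) :=
    h47w_finite W hΔ n hn
  exact h8w_locOrder (h40x_ker W A hp hA hgood) (n : ℤ)

/-- **block (4) LOCAL-W: `W[n](ℚ̄)` is flat at every prime of good reduction.** -/
theorem h40x_flat (W : WeierstrassCurve ℤ) (hΔ : W.Δ ≠ 0) (p : ℕ) [Fact p.Prime]
    (hgood : ¬ (p : ℤ) ∣ W.Δ) (n : ℕ) (hn : n ≠ 0) :
    P5.h97c_Flat p (H47wX W n) (h47wAct W n) := by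
  obtain ⟨A, hA⟩ := Fermat.Agent.S54.exists_liesOverPrime (Fact.out : p.Prime)
  exact h47w_flat_of_order W hΔ p n hn A hA _
    (h40x_locOrder W hΔ A (Fact.out : p.Prime) hA hgood n hn)

/-- **block (4) LOCAL-W, local form**: the local mod-`p` representation of `W` at a prime `p`
of good reduction satisfies `LocFlat`. -/
theorem h40x_locFlat_rho (W : WeierstrassCurve ℤ) (hΔ : W.Δ ≠ 0) (p : ℕ) [Fact p.Prime]
    (hgood : ¬ (p : ℤ) ∣ W.Δ) :
    S56F.LocFlat p (H47wX W p) (fun σ v => h47wRho W p σ v) := by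
  obtain ⟨A, hA⟩ := Fermat.Agent.S54.exists_liesOverPrime (Fact.out : p.Prime)
  exact h47w_locFlat_rho_of_order W hΔ p A hA _
    (h40x_locOrder W hΔ A (Fact.out : p.Prime) hA hgood p (Fact.out : p.Prime).ne_zero)

end Fermat.Agent.P7
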