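import Fermat.Agent.P7.H8LocWAbs
import Fermat.Agent.S05.Kernel
import Fermat.Agent.S13.AsmGroups
import Fermat.Agent.Tors.Qbar
import Fermat.Agent.P5.H98DescFin
import Fermat.Agent.P5.H87Adapter
import Fermat.Prelude.Def_FLTPrelim_ModularRep

/-!
# P7 (wave 7, S40), block (4) LOCAL-W, leaves FIN + ASM for a Weierstrass curve (helper8)

`W : WeierstrassCurve ℤ`, `𝔾 = (W_ℚ ⁄ ℚ̄).Point`, `A` a valuation subring of `ℚ̄`,
`E¹ = h8wE1 W A` the kernel of reduction (S05 `InE1`), `z = h8wZ W A` the coordinate `-x/y`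
(zero outside `E¹`).

* FROZEN INPUTS: `H8wInertW W A` (leaf INERT: injectivity of `z` on `E¹`, inertia acts trivially
  modulo `E¹`, inertia-fixed lifts) and `H8wAddW W A` (leaves LAW + CLOS: the pointwise group
  law in the product algebra).
* `h8w_ker_of : H8wInertW W A → H8wAddW W A → H8wKer A (h8wE1 W A) (h8wZ W A)`.
* `h8w_isGalAct` (FIN): the Galois action on `W[n]` is a continuous action.
* `h8w_flat_of` : the inputs at ONE `A` over `p` ⟹ `h97c_Flat p W[n]` (via the landed generic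
  P5 descent `h98f_descent` and adapter `h87x_adapter`).
-/

set_option autoImplicit false
set_option linter.style.haveILetI false
set_option linter.unusedSectionVars false

noncomputable section

namespace Fermat.Agent.P7

open WeierstrassCurve WeierstrassCurve.Affine Fermat.Agent.S05 Fermat.Agent.S37
  Fermat.Agent.P5
open scoped WeierstrassCurve.Affine

/-- the curve over `ℚ`. -/
abbrev h8wQ (W : WeierstrassCurve ℤ) : WeierstrassCurve ℚ := W.map (Int.castRingHom ℚ)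

/-- the group of `ℚ̄`-points. -/
abbrev h8wPt (W : WeierstrassCurve ℤ) : Type := ((h8wQ W)⁄Kbar).Point

section Coeff

variable (W : WeierstrassCurve ℤ) (A : ValuationSubring Kbar)

theorem h8w_int_mem (n : ℤ) :
    algebraMap ℚ Kbar ((Int.castRingHom ℚ) n) ∈ A := by
  have h : algebraMap ℚ Kbar ((Int.castRingHom ℚ) n) = ((n : ℤ) : Kbar) := by
    simp
  rw [h]
  exact _root_.intCast_mem A n

theorem h8w_a₁_mem : ((h8wQ W)⁄Kbar).a₁ ∈ A := h8w_int_mem A W.a₁
theorem h8w_a₂_mem : ((h8wQ W)⁄Kbar).a₂ ∈ A := h8w_int_mem A W.a₂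
theorem h8w_a₃_mem : ((h8wQ W)⁄Kbar).a₃ ∈ A := h8w_int_mem A W.a₃
theorem h8w_a₄_mem : ((h8wQ W)⁄Kbar).a₄ ∈ A := h8w_int_mem A W.a₄
theorem h8w_a₆_mem : ((h8wQ W)⁄Kbar).a₆ ∈ A := h8w_int_mem A W.a₆

/-- the kernel of reduction at `A`. -/
def h8wE1 : AddSubgroup (h8wPt W) :=
  kernelOfReduction A (h8w_a₁_mem W A) (h8w_a₂_mem W A) (h8w_a₃_mem W A) (h8w_a₄_mem W A)
    (h8w_a₆_mem W A)

theorem h8w_mem_E1 {P : h8wPt W} : P ∈ h8wE1 W A ↔ InE1 A P := Iff.rfl

open Classical in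
/-- the coordinate `z = -x/y` on the kernel of reduction, zero outside. -/
def h8wZ : h8wPt W → Kbar := fun P => if InE1 A P then K56.zcoord P else 0

theorem h8wZ_pos {P : h8wPt W} (h : InE1 A P) : h8wZ W A P = K56.zcoord P := by
  unfold h8wZ
  rw [if_pos h]

theorem h8wZ_neg {P : h8wPt W} (h : ¬ InE1 A P) : h8wZ W A P = 0 := by
  unfold h8wZ
  rw [if_neg h]

/-- **FROZEN INPUT (leaf INERT).** -/
structure H8wInertW : Prop where
  z_inj : ∀ P Q : h8wPt W, InE1 A P → InE1 A Q → K56.zcoord P = K56.zcoord Q → P = Q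
  inert : ∀ σ ∈ A.inertiaSubgroupIn ℚ, ∀ P : h8wPt W, InE1 A (σ • P - P)
  lift : ∀ P : h8wPt W, ∃ c₀ : h8wPt W,
    (∀ σ ∈ A.inertiaSubgroupIn ℚ, σ • c₀ = c₀) ∧ InE1 A (P - c₀)

/-- **FROZEN INPUT (leaves LAW + CLOS)**: the pointwise group law in the product algebra. -/
def H8wAddW : Prop :=
  ∀ S S' : Set (h8wPt W), S.Finite → S'.Finite → (∀ P ∈ S, InE1 A P) → (∀ P ∈ S', InE1 A P) →
    (fun p : ↥S × ↥S' => K56.zcoord ((p.1 : h8wPt W) + (p.2 : h8wPt W))) ∈
      h96c_prod A (Algebra.adjoin A {fun x : ↥S => K56.zcoord (x : h8wPt W)})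
        (Algebra.adjoin A {fun x : ↥S' => K56.zcoord (x : h8wPt W)})

end Coeff

section Gal

variable (W : WeierstrassCurve ℤ) (A : ValuationSubring Kbar)

theorem h8w_dec_mem {τ : GQ} (hτ : τ ∈ A.decompositionSubgroup ℚ) {a : Kbar} (ha : a ∈ A) :
    τ a ∈ A :=
  (((⟨τ, hτ⟩ : A.decompositionSubgroup ℚ) • (⟨a, ha⟩ : A) : A)).2

theorem h8w_dec_mem_iff {τ : GQ} (hτ : τ ∈ A.decompositionSubgroup ℚ) (a : Kbar) :
    τ a ∈ A ↔ a ∈ A := by
  constructor
  · intro h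
    have h1 := h8w_dec_mem A (inv_mem hτ) h
    have h2 : τ⁻¹ (τ a) = a := by
      rw [← AlgEquiv.mul_apply, inv_mul_cancel, AlgEquiv.one_apply]
    rwa [h2] at h1
  · exact h8w_dec_mem A hτ

theorem h8w_smul_some (τ : GQ) {x y : Kbar} (h : ((h8wQ W)⁄Kbar).Nonsingular x y) :
    ∃ h' : ((h8wQ W)⁄Kbar).Nonsingular (τ x) (τ y),
      τ • (Affine.Point.some x y h : h8wPt W) = Affine.Point.some (τ x) (τ y) h' := by
  have h1 : τ • (Affine.Point.some x y h : h8wPt W) =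
      Affine.Point.map (W' := h8wQ W) τ.toAlgHom (Affine.Point.some x y h) := rfl
  rw [h1, Affine.Point.map_some]
  exact ⟨_, rfl⟩

theorem h8w_smul_zero' (τ : GQ) : τ • (0 : h8wPt W) = 0 := smul_zero (A := h8wPt W) τ

theorem h8w_inE1_smul {τ : GQ} (hτ : τ ∈ A.decompositionSubgroup ℚ) {P : h8wPt W}
    (hP : InE1 A P) : InE1 A (τ • P) := by
  rcases hP with rfl | ⟨x, y, h, rfl, hx⟩
  · rw [h8w_smul_zero']
    exact inE1_zero A
  · obtain ⟨h', he⟩ := h8w_smul_some W τ h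
    rw [he]
    exact (inE1_some A h').2 fun hmem => hx ((h8w_dec_mem_iff A hτ x).1 hmem)

theorem h8w_inE1_smul_iff {τ : GQ} (hτ : τ ∈ A.decompositionSubgroup ℚ) (P : h8wPt W) :
    InE1 A (τ • P) ↔ InE1 A P := by
  constructor
  · intro h
    have := h8w_inE1_smul W A (inv_mem hτ) h
    rwa [inv_smul_smul] at this
  · exact h8w_inE1_smul W A hτ

theorem h8w_zcoord_smul (τ : GQ) (P : h8wPt W) : K56.zcoord (τ • P) = τ (K56.zcoord P) := by
  rcases P with _ | ⟨x, y, h⟩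
  · show K56.zcoord (τ • (0 : h8wPt W)) = τ (K56.zcoord (0 : h8wPt W))
    rw [h8w_smul_zero', K56.zcoord_zero, map_zero]
  · obtain ⟨h', he⟩ := h8w_smul_some W τ h
    rw [he, K56.zcoord_some, K56.zcoord_some, map_div₀, map_neg]

theorem h8wZ_smul {τ : GQ} (hτ : τ ∈ A.decompositionSubgroup ℚ) (P : h8wPt W) :
    h8wZ W A (τ • P) = τ (h8wZ W A P) := by
  by_cases hP : InE1 A P
  · rw [h8wZ_pos W A hP, h8wZ_pos W A (h8w_inE1_smul W A hτ hP), h8w_zcoord_smul]
  · rw [h8wZ_neg W A hP, h8wZ_neg W A (fun h => hP ((h8w_inE1_smul_iff W A hτ P).1 h)),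
      map_zero]

end Gal

section Ker

variable (W : WeierstrassCurve ℤ) (A : ValuationSubring Kbar)

/-- the restriction of `h8wZ` to a subset of `E¹` is the restriction of `zcoord`. -/
theorem h8wR_eq {S : Set (h8wPt W)} (hS : ∀ P ∈ S, InE1 A P) :
    h8wR A (h8wZ W A) S = Algebra.adjoin A {fun x : ↥S => K56.zcoord (x : h8wPt W)} := by
  unfold h8wR
  congr 2
  funext x
  exact h8wZ_pos W A (hS _ x.2)

/-- **the inputs of the abstract order step, for `W`**. -/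
theorem h8w_ker_of (hI : H8wInertW W A) (hAdd : H8wAddW W A) :
    H8wKer A (h8wE1 W A) (h8wZ W A) where
  z_out := fun _ hx => h8wZ_neg W A hx
  z_int := fun x => by
    by_cases hx : InE1 A x
    · rw [h8wZ_pos W A hx]
      exact K56.mem_of_mem_nonunits A (K56.zcoord_mem_nonunits A _ (h8w_a₁_mem W A)
        (h8w_a₂_mem W A) (h8w_a₃_mem W A) (h8w_a₄_mem W A) (h8w_a₆_mem W A) hx)
    · rw [h8wZ_neg W A hx]
      exact zero_mem A
  z_inj := fun x hx y hy h => by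
    rw [h8wZ_pos W A hx, h8wZ_pos W A hy] at h
    exact hI.z_inj x y hx hy h
  z_decomp := fun τ hτ x => h8wZ_smul W A hτ x
  E_decomp := fun τ hτ x hx => h8w_inE1_smul W A hτ hx
  inert := hI.inert
  lift := hI.lift
  add := fun S S' hS hS' hSE hS'E => by
    have hSE' : ∀ P ∈ S, InE1 A P := fun P hP => hSE hP
    have hS'E' : ∀ P ∈ S', InE1 A P := fun P hP => hS'E hP
    have h1 := hAdd S S' hS hS' hSE' hS'E'
    rw [h8wR_eq W A hSE', h8wR_eq W A hS'E']
    have h2 : (fun p : ↥S × ↥S' => h8wZ W A ((p.1 : h8wPt W) + (p.2 : h8wPt W))) =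
        fun p : ↥S × ↥S' => K56.zcoord ((p.1 : h8wPt W) + (p.2 : h8wPt W)) := by
      funext p
      exact h8wZ_pos W A ((h8wE1 W A).add_mem (hSE p.1.2) (hS'E p.2.2))
    rw [h2]
    exact h1

end Ker

section Fin

variable (W : WeierstrassCurve ℤ)

theorem h8w_Δ_ne_zero (hΔ : W.Δ ≠ 0) : (h8wQ W).Δ ≠ 0 := by
  have h : (h8wQ W).Δ = (Int.castRingHom ℚ) W.Δ := WeierstrassCurve.map_Δ W _
  rw [h]
  simpa using hΔ

theorem h8w_finite (hΔ : W.Δ ≠ 0) (n : ℕ) (hn : n ≠ 0) : Finite (h8wT (h8wPt W) (n : ℤ)) :=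
  Fermat.Agent.Tors.finite_torsionBy_qbar (h8wQ W) (h8w_Δ_ne_zero W hΔ) n hn

/-- **FIN**: the Galois action on `W[n]` is a continuous action by automorphisms. -/
theorem h8w_isGalAct (hΔ : W.Δ ≠ 0) (n : ℕ) (hn : n ≠ 0) :
    H98pIsGalAct (h8wAct (𝔾 := h8wPt W) (n : ℤ)) where
  one := fun x => Subtype.ext (one_smul GQ (x : h8wPt W))
  mul := fun σ τ x => Subtype.ext (mul_smul σ τ (x : h8wPt W))
  add := fun σ x y => Subtype.ext (smul_add σ (x : h8wPt W) (y : h8wPt W))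
  cont := by
    haveI : Finite (Fermat.Agent.S13.Tors (h8wQ W) n) := h8w_finite W hΔ n hn
    haveI : Algebra.IsAlgebraic ℚ Kbar := AlgebraicClosure.isAlgebraic ℚ
    obtain ⟨S₁, hS₁⟩ := Fermat.Agent.S13.Asm.exists_finset_fix (W := h8wQ W) (p := n)
    refine ⟨IntermediateField.adjoin ℚ (S₁ : Set Kbar),
      IntermediateField.finiteDimensional_adjoin
        (fun x _ => (Algebra.IsIntegral.isIntegral x)), ?_⟩
    intro σ hσ x
    have h1 := hS₁ σ (fun s hs => hσ s (IntermediateField.subset_adjoin ℚ _ hs)) x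
    exact h1

end Fin

/-- **LOCAL-W, conditional on the frozen inputs**: if `W` has the inertia package and the
pointwise group law at ONE valuation subring `A` of `ℚ̄` over `p`, then `W[n]` is flat at `p`
(the Prelude's shape `h97c_Flat`). -/
theorem h8w_flat_of (W : WeierstrassCurve ℤ) (hΔ : W.Δ ≠ 0) (p : ℕ) [Fact p.Prime]
    (n : ℕ) (hn : n ≠ 0) (A : ValuationSubring Kbar) (hA : A.LiesOverPrime p)
    (hI : H8wInertW W A) (hAdd : H8wAddW W A) :
    h97c_Flat p (h8wT (h8wPt W) (n : ℤ)) (h8wAct (𝔾 := h8wPt W) (n : ℤ)) := by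
  haveI : Finite (h8wT (h8wPt W) (n : ℤ)) := h8w_finite W hΔ n hn
  have hK := h8w_ker_of W A hI hAdd
  have hO := h8w_locOrder hK (n : ℤ)
  exact h87x_adapter p _ _ (h98f_descent p _ _ (h8w_isGalAct W hΔ n hn) A hA _ hO)

/-- the action `h8wAct` is the Prelude's action on the torsion module. -/
theorem h8wAct_eq (W : WeierstrassCurve ℤ) (n : ℕ) (σ : GQ)
    (x : Submodule.torsionBy ℤ ((h8wQ W)⁄Kbar).Point n) :
    h8wAct (𝔾 := h8wPt W) (n : ℤ) σ x = σ • x := rfl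

end Fermat.Agent.P7
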