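import Fermat.Agent.P7.H9LocTors
import Fermat.Agent.P7.H40LocKer
import Fermat.Agent.P7.H8LocWInst

/-!
# P7 (wave 7, row 38 via S44), block LOCAL-MULT, leaf LM3 INST-Q (helper40)

The fields `z_out`, `z_int`, `z_inj`, `z_decomp`, `E_decomp`, `add` of `H9mKer` (helper9,
`P7/H9LocTors.lean`) for ANY model `W' : WeierstrassCurve ℚ` whose coefficients are integral at
the valuation subring `A` of `ℚ̄` (no hypothesis on the reduction type): the kernel of reduction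
`E = h40mE W' A hI`, the coordinate `z = h40mZ W' A` (`-x / y` on `E`, zero outside).

* `H40mInt W' A` : the coefficients of `W'` are integral at `A`;
* `h40m_ker_of` : **`H9mKer A E z m`** from the two torsion-restricted inputs `inert`, `lift`
  (leaf LM2) only;
* `h40m_locOrder_of` : the local order `H96LocOrder A (h8wAct m) (h8wG A E z m)`;
* `h40m_int_of_int`, `h40m_kerZ_of`, `h40m_locOrderZ_of` : the same for
  `W : WeierstrassCurve ℤ` in the vocabulary of `P7/H8LocWInst.lean` (`h8wE1`, `h8wZ`), again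
  without good reduction.
-/

set_option autoImplicit false
set_option linter.unusedSectionVars false

open WeierstrassCurve
open scoped WeierstrassCurve.Affine

noncomputable section

namespace Fermat.Agent.P7

open Fermat.Agent.S05 Fermat.Agent.P5 Fermat.Agent.S37

/-- the coefficients of the model `W'` over `ℚ` are integral at `A`. -/
structure H40mInt (W' : WeierstrassCurve ℚ) (A : ValuationSubring Kbar) : Prop where
  a₁ : (W'⁄Kbar).a₁ ∈ A
  a₂ : (W'⁄Kbar).a₂ ∈ A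
  a₃ : (W'⁄Kbar).a₃ ∈ A
  a₄ : (W'⁄Kbar).a₄ ∈ A
  a₆ : (W'⁄Kbar).a₆ ∈ A

/-- integrality from the coefficients in `ℚ`. -/
theorem h40m_int_of (W' : WeierstrassCurve ℚ) (A : ValuationSubring Kbar)
    (h₁ : algebraMap ℚ Kbar W'.a₁ ∈ A) (h₂ : algebraMap ℚ Kbar W'.a₂ ∈ A)
    (h₃ : algebraMap ℚ Kbar W'.a₃ ∈ A) (h₄ : algebraMap ℚ Kbar W'.a₄ ∈ A)
    (h₆ : algebraMap ℚ Kbar W'.a₆ ∈ A) : H40mInt W' A where
  a₁ := by simpa [WeierstrassCurve.baseChange] using h₁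
  a₂ := by simpa [WeierstrassCurve.baseChange] using h₂
  a₃ := by simpa [WeierstrassCurve.baseChange] using h₃
  a₄ := by simpa [WeierstrassCurve.baseChange] using h₄
  a₆ := by simpa [WeierstrassCurve.baseChange] using h₆

/-- the kernel of reduction at `A` of the model `W'`. -/
def h40mE (W' : WeierstrassCurve ℚ) (A : ValuationSubring Kbar) (hI : H40mInt W' A) :
    AddSubgroup (W'⁄Kbar).Point :=
  kernelOfReduction A hI.a₁ hI.a₂ hI.a₃ hI.a₄ hI.a₆

theorem h40mE_mem (W' : WeierstrassCurve ℚ) (A : ValuationSubring Kbar) (hI : H40mInt W' A)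
    (P : (W'⁄Kbar).Point) : P ∈ h40mE W' A hI ↔ InE1 A P :=
  Iff.rfl

open Classical in
/-- the coordinate `z = -x / y` on the kernel of reduction, `0` outside. -/
def h40mZ (W' : WeierstrassCurve ℚ) (A : ValuationSubring Kbar) : (W'⁄Kbar).Point → Kbar :=
  fun P => if InE1 A P then K56.zcoord P else 0

theorem h40mZ_pos (W' : WeierstrassCurve ℚ) (A : ValuationSubring Kbar)
    {P : (W'⁄Kbar).Point} (hP : InE1 A P) : h40mZ W' A P = K56.zcoord P := by
  unfold h40mZ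
  rw [if_pos hP]

theorem h40mZ_neg (W' : WeierstrassCurve ℚ) (A : ValuationSubring Kbar)
    {P : (W'⁄Kbar).Point} (hP : ¬ InE1 A P) : h40mZ W' A P = 0 := by
  unfold h40mZ
  rw [if_neg hP]

/-- the coordinate is small on the kernel of reduction. -/
theorem h40mZ_mem_nonunits (W' : WeierstrassCurve ℚ) (A : ValuationSubring Kbar)
    (hI : H40mInt W' A) {P : (W'⁄Kbar).Point} (hP : InE1 A P) :
    h40mZ W' A P ∈ A.nonunits := by
  rw [h40mZ_pos W' A hP]
  exact K56.zcoord_mem_nonunits A _ hI.a₁ hI.a₂ hI.a₃ hI.a₄ hI.a₆ hP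

/-- field `z_int`. -/
theorem h40mZ_int (W' : WeierstrassCurve ℚ) (A : ValuationSubring Kbar) (hI : H40mInt W' A)
    (P : (W'⁄Kbar).Point) : h40mZ W' A P ∈ A := by
  by_cases hP : InE1 A P
  · exact K56.mem_of_mem_nonunits A (h40mZ_mem_nonunits W' A hI hP)
  · rw [h40mZ_neg W' A hP]
    exact A.zero_mem

/-- field `z_inj`. -/
theorem h40mZ_inj (W' : WeierstrassCurve ℚ) (A : ValuationSubring Kbar) (hI : H40mInt W' A)
    {P Q : (W'⁄Kbar).Point} (hP : InE1 A P) (hQ : InE1 A Q)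
    (h : h40mZ W' A P = h40mZ W' A Q) : P = Q := by
  rw [h40mZ_pos W' A hP, h40mZ_pos W' A hQ] at h
  exact h34i_zcoord_inj A (W'⁄Kbar) hI.a₁ hI.a₂ hI.a₃ hI.a₄ hI.a₆ hP hQ h

/-- field `E_decomp`. -/
theorem h40m_inE1_smul (W' : WeierstrassCurve ℚ) (A : ValuationSubring Kbar) {τ : GQ}
    (hτ : τ ∈ A.decompositionSubgroup ℚ) {P : (W'⁄Kbar).Point} (hP : InE1 A P) :
    InE1 A (τ • P) :=
  h34i_inE1_smul W' A hτ hP

/-- field `z_decomp`. -/
theorem h40mZ_smul (W' : WeierstrassCurve ℚ) (A : ValuationSubring Kbar) {τ : GQ}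
    (hτ : τ ∈ A.decompositionSubgroup ℚ) (P : (W'⁄Kbar).Point) :
    h40mZ W' A (τ • P) = τ (h40mZ W' A P) := by
  by_cases hP : InE1 A P
  · rw [h40mZ_pos W' A hP, h40mZ_pos W' A (h40m_inE1_smul W' A hτ hP)]
    exact h34i_zcoord_smul W' τ P
  · have hP' : ¬ InE1 A (τ • P) := fun h => hP ((h34i_inE1_smul_iff W' A hτ).1 h)
    rw [h40mZ_neg W' A hP, h40mZ_neg W' A hP', map_zero]

/-- **LM3 INST-Q**: the inputs of the torsion-restricted abstract order step for a model over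
`ℚ` with integral coefficients at `A` (a place over `p`), from the two torsion-restricted inputs
`inert` and `lift` (leaf LM2). -/
theorem h40m_ker_of (W' : WeierstrassCurve ℚ) (A : ValuationSubring Kbar) (hI : H40mInt W' A)
    {p : ℕ} (hp : p.Prime) (hA : A.LiesOverPrime p) (m : ℤ)
    (hinert : ∀ σ ∈ A.inertiaSubgroupIn ℚ, ∀ x : (W'⁄Kbar).Point, m • x = 0 →
      InE1 A (σ • x - x))
    (hlift : ∀ y : (W'⁄Kbar).Point, m • y = 0 →
      ∃ c₀ : (W'⁄Kbar).Point, (∀ σ ∈ A.inertiaSubgroupIn ℚ, σ • c₀ = c₀) ∧ InE1 A (y - c₀)) :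
    H9mKer A (h40mE W' A hI) (h40mZ W' A) m where
  z_out := fun _ hx => h40mZ_neg W' A hx
  z_int := fun x => h40mZ_int W' A hI x
  z_inj := fun _ hx _ hy h => h40mZ_inj W' A hI hx hy h
  z_decomp := fun _ hτ x => h40mZ_smul W' A hτ x
  E_decomp := fun _ hτ _ hx => h40m_inE1_smul W' A hτ hx
  inert := hinert
  lift := hlift
  add := h40x_add_field A _ (h72a_archQbar A p hp hA) hI.a₁ hI.a₂ hI.a₃ hI.a₄ hI.a₆
    (h40mE W' A hI) (fun _ hP => hP) (h40mZ W' A) (fun _ hP => h40mZ_pos W' A hP)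

/-- **the local order on `W'[m](ℚ̄)`** from `inert` and `lift` on the `m`-torsion. -/
theorem h40m_locOrder_of (W' : WeierstrassCurve ℚ) (A : ValuationSubring Kbar)
    (hI : H40mInt W' A) {p : ℕ} (hp : p.Prime) (hA : A.LiesOverPrime p) (m : ℤ)
    [Finite (h8wT (W'⁄Kbar).Point m)]
    (hinert : ∀ σ ∈ A.inertiaSubgroupIn ℚ, ∀ x : (W'⁄Kbar).Point, m • x = 0 →
      InE1 A (σ • x - x))
    (hlift : ∀ y : (W'⁄Kbar).Point, m • y = 0 →
      ∃ c₀ : (W'⁄Kbar).Point, (∀ σ ∈ A.inertiaSubgroupIn ℚ, σ • c₀ = c₀) ∧ InE1 A (y - c₀)) :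
    H96LocOrder A (h8wAct (𝔾 := (W'⁄Kbar).Point) m) (h8wG A (h40mE W' A hI) (h40mZ W' A) m) :=
  h9m_locOrder (h40m_ker_of W' A hI hp hA m hinert hlift)

/-- finiteness of the torsion of a model over `ℚ`. -/
theorem h40m_finite (W' : WeierstrassCurve ℚ) (hΔ : W'.Δ ≠ 0) (n : ℕ) (hn : n ≠ 0) :
    Finite (h8wT (W'⁄Kbar).Point (n : ℤ)) :=
  Tors.finite_torsionBy_qbar W' hΔ n hn

/-! ## Models over `ℤ`, vocabulary of `P7/H8LocWInst.lean` -/

/-- a model over `ℤ` is integral at every `A`. -/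
theorem h40m_int_of_int (W : WeierstrassCurve ℤ) (A : ValuationSubring Kbar) :
    H40mInt (h8wQ W) A :=
  ⟨h8w_a₁_mem W A, h8w_a₂_mem W A, h8w_a₃_mem W A, h8w_a₄_mem W A, h8w_a₆_mem W A⟩

/-- **LM3 for a model over `ℤ`** (no hypothesis on the reduction type). -/
theorem h40m_kerZ_of (W : WeierstrassCurve ℤ) (A : ValuationSubring Kbar)
    {p : ℕ} (hp : p.Prime) (hA : A.LiesOverPrime p) (m : ℤ)
    (hinert : ∀ σ ∈ A.inertiaSubgroupIn ℚ, ∀ x : h8wPt W, m • x = 0 → InE1 A (σ • x - x))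
    (hlift : ∀ y : h8wPt W, m • y = 0 →
      ∃ c₀ : h8wPt W, (∀ σ ∈ A.inertiaSubgroupIn ℚ, σ • c₀ = c₀) ∧ InE1 A (y - c₀)) :
    H9mKer A (h8wE1 W A) (h8wZ W A) m :=
  h40m_ker_of (h8wQ W) A (h40m_int_of_int W A) hp hA m hinert hlift

/-- **the local order on `W[n](ℚ̄)`** for a model over `ℤ`, from `inert` and `lift` on the
`n`-torsion. -/
theorem h40m_locOrderZ_of (W : WeierstrassCurve ℤ) (hΔ : W.Δ ≠ 0) (A : ValuationSubring Kbar)
    {p : ℕ} (hp : p.Prime) (hA : A.LiesOverPrime p) (n : ℕ) (hn : n ≠ 0)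
    (hinert : ∀ σ ∈ A.inertiaSubgroupIn ℚ, ∀ x : h8wPt W, (n : ℤ) • x = 0 →
      InE1 A (σ • x - x))
    (hlift : ∀ y : h8wPt W, (n : ℤ) • y = 0 →
      ∃ c₀ : h8wPt W, (∀ σ ∈ A.inertiaSubgroupIn ℚ, σ • c₀ = c₀) ∧ InE1 A (y - c₀)) :
    H96LocOrder A (h47wAct W n) (h8wG A (h8wE1 W A) (h8wZ W A) (n : ℤ)) := by
  have : Finite (h8wT ((W.map (Int.castRingHom ℚ))⁄Kbar).Point (n : ℤ)) :=
    h47w_finite W hΔ n hn
  exact h9m_locOrder (h40m_kerZ_of W A hp hA (n : ℤ) hinert hlift)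

end Fermat.Agent.P7
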