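import Fermat.Agent.P7.H16Top
import Fermat.Agent.P7.H3PolyDlogLevel
import Fermat.Agent.P7.H96SepInst
import Fermat.Agent.P7.H10LatticeCusp
import Fermat.Agent.P5.H40SFField
import Fermat.Agent.LGC.Res44

/-!
# Wave 7, block (A) = DLOG: the top assembly of (I-2) (helper41, prefix `h41d_` / `H41d`)

`H16tDlog p` is the hypothesis (I-2) of the landed T-TOP `h16t_toricGoodAt` (helper16).  This file
reduces it to ONE frozen Prop about the special fibre at the level `M` itself:

* `H41dMid p` : for a Kummer pair `(x, u)` of level `M p` (`p ∤ M`, `p ≥ 5`) whose degenerated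
  function has all slopes divisible by `p` at the good level, the coefficient sequence
  `ω(u) = h3gOm A (M p) u` of `dlog` of the scaled reduction of `u` lies in
  `Sbar(M) = h10wSbar M k` (the span of the reductions of the integral cusp forms of level `M`).
* `h41d_kills_sbar` : a Hecke polynomial `e` with variables prime to `M` which vanishes on
  `S₂(Γ₀(M))` kills `Sbar(M)` formally.
* `h41d_resPow_of_theta` : if `θ s = 0` for a scaled reduction `s` of `u` (level `M p`), then
  `H76wResPow` holds for `degen u` at the good level (SEP at the good level + SF-FIELD +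
  transport along `degen`).
* `h41d_dlog_of_mid : H41dMid p → H16tDlog p`.

Every declaration is a definition or a proved theorem; nothing is assumed.
-/

set_option autoImplicit false
set_option linter.unusedSectionVars false
set_option linter.unusedVariables false
set_option linter.style.haveILetI false
set_option synthInstance.maxHeartbeats 400000

open AlgebraicCurve ModularCurve IsLocalRing

noncomputable section

namespace Fermat.Agent.P7

open Fermat.Agent.S37 Fermat.Agent.S35 Fermat.Agent.P6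
open Fermat.Agent.Red Fermat.Agent.Red.GV Fermat.Agent.Red.GV.Soft Fermat.Agent.LGC
open Fermat.Agent.Jac.K1 (IsKummerPair)
open Fermat.Agent.P5 (h69vPull h13sK h13sFt h13sIncl h13sRed h13sIncl_red)

/-- **the frozen mid Prop of DLOG** (`ω(u) ∈ Sbar(M)`): the only open input of (I-2). -/
def H41dMid (p : ℕ) : Prop :=
  ∀ (hp : p.Prime), 5 ≤ p → ∀ (M : ℕ) [NeZero M], ¬ p ∣ M →
    haveI : NeZero p := ⟨hp.ne_zero⟩
    ∀ A : ValuationSubring Kbar, A.LiesOverPrime p →
    ∀ (x : JZero (M * p)) (u : FF (M * p)), IsKummerPair p x u →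
      (∀ Q : Place (h13sK A) (h13sFt A (goodLevel p M)),
        (p : ℤ) ∣ h44slOrd A (goodLevel p M) p
          (degen (Nat.mul_dvd_mul_right (dvd_goodLevel p M) p) u) Q) →
      h3gOm A (M * p) u ∈ h10wSbar M (ResidueField A)

/-- a Hecke polynomial with variables prime to `M` vanishing on `S₂(Γ₀(M))` kills `Sbar(M)`. -/
theorem h41d_kills_sbar (M : ℕ) [NeZero M] (k : Type*) [Field k]
    (e : MvPolynomial Nat.Primes ℤ) (hvars : ∀ ℓ ∈ e.vars, ¬ (ℓ : ℕ) ∣ M)
    (hkill : H99wKillsCusp M e) {w : ℕ → k} (hw : w ∈ h10wSbar M k) :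
    h3fEval k e w = 0 := by
  have h1 : h10wSbar M k ≤ LinearMap.ker (h3fEval k e) := by
    rw [h10wSbar, Submodule.span_le]
    rintro w ⟨h, c, hc, rfl⟩
    rw [SetLike.mem_coe, LinearMap.mem_ker]
    exact h3f_kills_eval M (Int.castRingHom k) e hvars hkill h c hc
  exact LinearMap.mem_ker.mp (h1 hw)

/-- **SEP at the good level + transport**: if a scaled reduction `s` of `u` (level `M p`) has
`θ s = 0`, then `degen u` has the reduction form `H76wResPow` at the good level. -/
theorem h41d_resPow_of_theta {p : ℕ} (hp : p.Prime) (M : ℕ) [NeZero M] (hpM : ¬ p ∣ M)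
    (A : ValuationSubring Kbar) (hA : A.LiesOverPrime p) [NeZero p]
    (u : FF (M * p)) {s : LaurentSeries (ResidueField A)} (hs : H3gRed A (M * p) u s)
    (hθ : h96dTheta s = 0) :
    H76wResPow A (goodLevel p M * p) p
      (degen (Nat.mul_dvd_mul_right (dvd_goodLevel p M) p) u) := by
  have hdq : M * p ∣ goodLevel p M * p := Nat.mul_dvd_mul_right (dvd_goodLevel p M) p
  have hpM' : ¬ p ∣ goodLevel p M := not_dvd_goodLevel hp hpM
  have haux : auxLevel p ∣ goodLevel p M := auxLevel_dvd_goodLevel p M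
  obtain ⟨hu0, c, hc, hm, hi, hr⟩ := hs
  -- the scaled function at the good level
  have hcc : degen hdq (cst (M * p) c) = cst (goodLevel p M * p) c := (degen hdq).commutes c
  have key : cst (goodLevel p M * p) c * degen hdq u = degen hdq (cst (M * p) c * u) := by
    rw [map_mul, hcc]
  have hm' : cst (goodLevel p M * p) c * degen hdq u ∈ softV A (goodLevel p M * p) := by
    rw [key]
    exact (degen_mem_softV_iff A hdq _).mpr hm
  have e1 : softR A (goodLevel p M * p) ⟨cst (goodLevel p M * p) c * degen hdq u, hm'⟩ = s := by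
    have e2 : (⟨cst (goodLevel p M * p) c * degen hdq u, hm'⟩ : softV A (goodLevel p M * p)) =
        ⟨degen hdq (cst (M * p) c * u), (degen_mem_softV_iff A hdq _).mpr hm⟩ :=
      Subtype.ext key
    rw [e2]
    exact (softR_degen A hdq ⟨cst (M * p) c * u, hm⟩ _).trans hr
  -- the reduction lies in the function field of the special fibre of the good level
  obtain ⟨y, hy, hry⟩ :=
    h44r_residue_degree_one_gaussV A (goodLevel p M) p hp hpM' hA _ hm'
  have hinc : h13sIncl A (goodLevel p M) (h13sRed A (goodLevel p M) ⟨y, hy⟩) = s := by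
    rw [h13sIncl_red]
    exact hry.trans e1
  -- SEP
  obtain ⟨w, hw⟩ := h96e_sep_special hp (goodLevel p M) hpM' haux A hA
    (h13sRed A (goodLevel p M) ⟨y, hy⟩) (by rw [hinc]; exact hθ)
  -- SF-FIELD: `w` is a reduction
  obtain ⟨z, hz⟩ := Fermat.Agent.P5.h40f_field p hp (goodLevel p M) hpM' haux A hA w
  have hdp : goodLevel p M ∣ goodLevel p M * p := Dvd.intro _ rfl
  have hzs : (z : FF (goodLevel p M)) ∈ softV A (goodLevel p M) :=
    gaussV_le_softV A (goodLevel p M) z.2
  have hg : degen hdp (z : FF (goodLevel p M)) ∈ softV A (goodLevel p M * p) :=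
    (degen_mem_softV_iff A hdp _).mpr hzs
  have e3 : softR A (goodLevel p M * p) ⟨degen hdp (z : FF (goodLevel p M)), hg⟩ =
      h13sIncl A (goodLevel p M) w := by
    rw [softR_degen A hdp ⟨(z : FF (goodLevel p M)), hzs⟩ hg,
      softR_eq_gaussR A (goodLevel p M) (z : FF (goodLevel p M)) hzs z.2, ← hz, h13sIncl_red]
  have hs0 : s ≠ 0 := by
    intro h0
    rw [h0] at hr
    rcases (softR_eq_zero_iff A (M * p) ⟨_, hm⟩).mp hr with h1 | h1
    · exact mul_ne_zero (h3g_cst_ne_zero hc) hu0 h1
    · exact h1 hi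
  have hsw : s = h13sIncl A (goodLevel p M) w ^ p := by
    rw [← hinc, hw, map_pow]
  have hw0 : h13sIncl A (goodLevel p M) w ≠ 0 := by
    intro h0
    have h1 : s = 0 := by
      rw [hsw, h0]
      exact zero_pow hp.ne_zero
    exact hs0 h1
  refine ⟨c, hc, hm', ⟨degen hdp (z : FF (goodLevel p M)), hg⟩, 1, one_ne_zero, ?_, ?_⟩
  · rw [e3]
    exact hw0
  · rw [e1, e3, map_one, one_mul]
    exact hsw

/-- **DLOG TOP**: (I-2) from the frozen mid Prop. -/
theorem h41d_dlog_of_mid {p : ℕ} (hmid : H41dMid p) : H16tDlog p := by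
  intro hp h5 M _ hpM
  haveI : NeZero p := ⟨hp.ne_zero⟩
  intro A hA x u hxu hOld hslope
  obtain ⟨e, he, hkill, hex⟩ := hOld
  have hu0 : u ≠ 0 := hxu.ne_zero
  obtain ⟨s, hs⟩ := h3g_exists_red (A := A) (N := M * p) hp hA hu0
  -- `ω(u) ∈ Sbar(M)`
  have hω : h3gOm A (M * p) u ∈ h10wSbar M (ResidueField A) :=
    hmid hp h5 M hpM A hA x u hxu hslope
  -- `e` kills `Sbar(M)`
  have heM : ∀ ℓ ∈ e.vars, ¬ (ℓ : ℕ) ∣ M := fun ℓ hℓ h => he ℓ hℓ (Dvd.dvd.mul_right h p)
  have hk : h3fEval (ResidueField A) e (h3gOm A (M * p) u) = 0 :=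
    h41d_kills_sbar M (ResidueField A) e heM hkill hω
  -- `θ s = 0`
  have he' : ∀ ℓ ∈ e.vars, ¬ (ℓ : ℕ) ∣ M * p * p := by
    intro ℓ hℓ h
    rcases (Nat.Prime.dvd_mul ℓ.2).mp h with h1 | h1
    · exact he ℓ hℓ h1
    · exact he ℓ hℓ (Dvd.dvd.mul_left h1 M)
  have hθ : h96dTheta s = 0 :=
    h3g_zero_level A hp hA (M * p) e he' x u hxu hex hk hs
  exact h41d_resPow_of_theta hp M hpM A hA u hs hθ

end Fermat.Agent.P7
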