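import Fermat.Agent.P7.H80CharAlg
import Fermat.Agent.P7.H47LocTop
import Fermat.Agent.EFrob.Main
import Fermat.Agent.S30.Inputs
import Fermat.Agent.Cheb.WeakChebotarev
import Fermat.Agent.S34.Assembly

/-!
# Wave 7 (S40), block (G2) CHAR, EXISTS form (helper80, prefix `h80c_`)

`W` an integral Weierstrass curve with `Δ ≠ 0`, `p` a prime, `N` a level, `S` a finite set of
primes containing `p`, the primes of `N` and the bad primes of `W`;
`V = h80cV W N S (p ^ k)` the points `x` of `J₀(N)[p ^ k]` with `T_ℓ x = a_ℓ(W) x` for all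
primes `ℓ ∉ S`.

`h80c_char` : for every `g ∈ G_ℚ` there are integers `t, d` with

* `t = tr (g | W[p])` and `d = det (g | W[p])` in `ZMod p`;
* `g² Q - t g Q + d Q = 0` for all `Q ∈ W[p]`;
* `g² x - t g x + d x = 0` for all `x ∈ V`.

Proof: weak Chebotarev on the compositum of the fields of `J₀(N)[p ^ k]` and of `W[p]`:
`g = f ^ j` on both, `f` a Frobenius at a prime `ℓ ∉ S`; the Eichler–Shimura relation at level `N`
(on `V`: `f² - a_ℓ f + ℓ = 0`) and on `W[p]` (`EFrob.finalRelU`); `t` = the `j`-th power sum of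
`X² - a_ℓ X + ℓ`, `d = ℓ ^ j`.

[The form "for ALL `t, d` with `g² - t g + d = 0` on `W[p]`" is not available when `g` is scalar
on `W[p]`; the consumers only need `(t, d) = (tr, det)`.]
-/

set_option autoImplicit false
set_option linter.style.haveILetI false
set_option linter.unusedSectionVars false
set_option linter.unusedVariables false
set_option linter.style.longLine false

open ModularCurve WeierstrassCurve WeierstrassCurve.Affine

noncomputable section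

namespace Fermat.Agent.P7

open Fermat.Agent.S30 (acTrace)
open Fermat.Agent.S31 (tpjGal)

/-- the eigenspace: the points of `J₀(N)` killed by `n` on which `T_ℓ = a_ℓ(W)` for all primes
`ℓ ∉ S`. -/
def h80cV (W : WeierstrassCurve ℤ) (N : ℕ) [NeZero N] (S : Finset ℕ) (n : ℕ) :
    AddSubgroup (JZero N) where
  carrier := {x | n • x = 0 ∧ ∀ ℓ : Nat.Primes, (ℓ : ℕ) ∉ S →
    heckeOperatorBar N ℓ x = (W.apOfModel ℓ) • x}
  zero_mem' := ⟨nsmul_zero n, fun ℓ _ => by rw [map_zero, zsmul_zero]⟩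
  add_mem' := fun {a b} ha hb => ⟨by rw [nsmul_add, ha.1, hb.1, add_zero], fun ℓ hℓ => by
    rw [map_add, ha.2 ℓ hℓ, hb.2 ℓ hℓ, zsmul_add]⟩
  neg_mem' := fun {a} ha => ⟨by rw [neg_nsmul, ha.1, neg_zero], fun ℓ hℓ => by
    rw [map_neg, ha.2 ℓ hℓ, zsmul_neg]⟩

theorem h80c_mem_V (W : WeierstrassCurve ℤ) (N : ℕ) [NeZero N] (S : Finset ℕ) (n : ℕ)
    (x : JZero N) : x ∈ h80cV W N S n ↔ n • x = 0 ∧ ∀ ℓ : Nat.Primes, (ℓ : ℕ) ∉ S →
      heckeOperatorBar N ℓ x = (W.apOfModel ℓ) • x := Iff.rfl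

/-- the eigenspace is stable under Galois. -/
theorem h80c_V_gal (W : WeierstrassCurve ℤ) (N : ℕ) [NeZero N] (S : Finset ℕ) (n : ℕ)
    (σ : AlgebraicClosure ℚ ≃ₐ[ℚ] AlgebraicClosure ℚ) (x : JZero N)
    (hx : x ∈ h80cV W N S n) : σ • x ∈ h80cV W N S n := by
  have hHG := Fermat.Agent.S30.geometricInputsFull.1 N
  refine ⟨?_, fun ℓ hℓ => ?_⟩
  · have e : n • (σ • x) = σ • (n • x) := (map_nsmul (tpjGal N σ) n x).symm
    rw [e, hx.1]
    exact map_zero (tpjGal N σ)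
  · rw [hHG.2 ℓ σ x, hx.2 ℓ hℓ]
    exact map_zsmul (tpjGal N σ) _ x

set_option maxHeartbeats 2000000 in
/-- **(G2) CHAR, EXISTS form.** -/
theorem h80c_char (W : WeierstrassCurve ℤ) (hΔ : W.Δ ≠ 0) {p : ℕ} (hp : p.Prime)
    (N : ℕ) [NeZero N] (S : Finset ℕ) (hpS : p ∈ S)
    (hNS : ∀ q : ℕ, q.Prime → q ∣ N → q ∈ S)
    (hWS : ∀ q : ℕ, q.Prime → ¬ W.IsGoodPrimeFor q → q ∈ S) (k : ℕ)
    (g : AlgebraicClosure ℚ ≃ₐ[ℚ] AlgebraicClosure ℚ) :
    ∃ t d : ℤ,
      (t : ZMod p) = Point.galoisTrace (K := AlgebraicClosure ℚ) ℚ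
        (W.map (Int.castRingHom ℚ)).toAffine p g ∧
      (d : ZMod p) = LinearMap.det (Point.galoisRepModuleEnd (K := AlgebraicClosure ℚ) ℚ
        (W.map (Int.castRingHom ℚ)).toAffine p g) ∧
      (∀ Q : ((W.map (Int.castRingHom ℚ))⁄(AlgebraicClosure ℚ)).Point, (p : ℤ) • Q = 0 →
        g • g • Q - t • g • Q + d • Q = 0) ∧
      ∀ x ∈ h80cV W N S (p ^ k), g • g • x - t • g • x + d • x = 0 := by
  classical
  haveI : Fact p.Prime := ⟨hp⟩
  have hCheb := Fermat.Agent.Cheb.weakChebotarev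
  have hHG := Fermat.Agent.S30.geometricInputsFull.1 N
  have hES := Fermat.Agent.S30.geometricInputsFull.2.1 N p hp
  have hTF := Fermat.Agent.S30.geometricInputsFull.2.2.1 N (p ^ k) (pow_pos hp.pos k)
  obtain ⟨L₁, hL₁, h₁⟩ := hTF.2
  obtain ⟨L₂, hL₂, h₂⟩ := (h47w_isGalAct W hΔ p hp.ne_zero).cont
  have hfd : FiniteDimensional ℚ ↥(L₁ ⊔ L₂) := IntermediateField.finiteDimensional_sup L₁ L₂
  obtain ⟨ℓ, hℓ, hℓS, A', hA', f, hf, j, hj⟩ := hCheb (L₁ ⊔ L₂) hfd g S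
  -- `σ = (f ^ j)⁻¹ * g` fixes the compositum
  have hσ : ∀ x ∈ L₁ ⊔ L₂, ((f ^ j)⁻¹ * g) x = x := fun x hx => by
    rw [AlgEquiv.mul_apply, hj x hx]
    exact (f ^ j).symm_apply_apply x
  have hg : g = f ^ j * ((f ^ j)⁻¹ * g) := by rw [mul_inv_cancel_left]
  have hℓN : ¬ ℓ ∣ N * p := by
    intro hdvd
    rcases (Nat.Prime.dvd_mul hℓ).mp hdvd with h | h
    · exact hℓS (hNS ℓ hℓ h)
    · exact hℓS (((Nat.prime_dvd_prime_iff_eq hℓ hp).mp h) ▸ hpS)
  have hne : ℓ ≠ p := fun h => hℓS (h ▸ hpS)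
  have hgood : W.IsGoodPrimeFor ℓ := by
    by_contra h
    exact hℓS (hWS ℓ hℓ h)
  -- `σ` acts trivially on both modules
  have hσJ : ∀ x : JZero N, (p ^ k) • x = 0 → ((f ^ j)⁻¹ * g) • x = x := fun x hx =>
    h₁ _ (fun y hy => hσ y (le_sup_left (a := L₁) (b := L₂) hy)) x hx
  have hσW : ∀ x : H47wX W p, ((f ^ j)⁻¹ * g) • x = x := fun x =>
    h₂ _ (fun y hy => hσ y (le_sup_right (a := L₁) (b := L₂) hy)) x
  have hgJ : ∀ x : JZero N, (p ^ k) • x = 0 → g • x = (f ^ j) • x := by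
    intro x hx
    conv_lhs => rw [hg]
    rw [mul_smul, hσJ x hx]
  have hgW : ∀ Q : ((W.map (Int.castRingHom ℚ))⁄(AlgebraicClosure ℚ)).Point,
      (p : ℤ) • Q = 0 → g • Q = (f ^ j) • Q := by
    intro Q hQ
    have hQm : Q ∈ Submodule.torsionBy ℤ
        ((W.map (Int.castRingHom ℚ))⁄(AlgebraicClosure ℚ)).Point (p : ℤ) :=
      (Submodule.mem_torsionBy_iff _ _).mpr hQ
    have h3 := congrArg (fun z : H47wX W p => (z : ((W.map (Int.castRingHom ℚ))⁄(AlgebraicClosure ℚ)).Point))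
      (hσW ⟨Q, hQm⟩)
    have h4 : ((f ^ j)⁻¹ * g) • Q = Q := h3
    conv_lhs => rw [hg]
    rw [mul_smul, h4]
  refine ⟨acTrace (W.apOfModel ℓ) (ℓ : ℤ) j, (ℓ : ℤ) ^ j, ?_, ?_, ?_, ?_⟩
  · -- the trace
    have hV2 : Module.finrank (ZMod p) (H47wX W p) = 2 :=
      Fermat.Agent.Tors.finrank_torsionBy_qbar (W.map (Int.castRingHom ℚ)) (h47w_Δ_ne W hΔ) p
    haveI : Module.Finite (ZMod p) (H47wX W p) :=
      Module.finite_of_finrank_pos (by rw [hV2]; norm_num)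
    have hfin := Fermat.Agent.EFrob.finalU W ℓ p hℓ hp hne hgood A' hA' f hf
    have hρσ : Point.galoisRepModuleEnd (K := AlgebraicClosure ℚ) ℚ
        (W.map (Int.castRingHom ℚ)).toAffine p ((f ^ j)⁻¹ * g) = 1 :=
      LinearMap.ext fun x => hσW x
    have hρg : Point.galoisRepModuleEnd (K := AlgebraicClosure ℚ) ℚ
        (W.map (Int.castRingHom ℚ)).toAffine p g =
        Point.galoisRepModuleEnd (K := AlgebraicClosure ℚ) ℚ
          (W.map (Int.castRingHom ℚ)).toAffine p f ^ j := by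
      conv_lhs => rw [hg]
      rw [map_mul, hρσ, mul_one, map_pow]
    have hcp := Fermat.Agent.S34.charpoly_of_finrank_two hV2
      (Point.galoisRepModuleEnd (K := AlgebraicClosure ℚ) ℚ
        (W.map (Int.castRingHom ℚ)).toAffine p f)
    have htr := Fermat.Agent.S31.TI_trace_pow hV2 _ _ _ hcp j
    rw [Point.galoisTrace_def, hρg, htr]
    have e1 : LinearMap.trace (ZMod p) (H47wX W p)
        (Point.galoisRepModuleEnd (K := AlgebraicClosure ℚ) ℚ
          (W.map (Int.castRingHom ℚ)).toAffine p f) = ((W.apOfModel ℓ : ℤ) : ZMod p) := hfin.1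
    rw [e1, hfin.2]
    have e2 := Fermat.Agent.S31.TI_map_acTrace (Int.castRingHom (ZMod p)) (W.apOfModel ℓ)
      (ℓ : ℤ) j
    simpa using e2
  · -- the determinant
    have hfin := Fermat.Agent.EFrob.finalU W ℓ p hℓ hp hne hgood A' hA' f hf
    have hρσ : Point.galoisRepModuleEnd (K := AlgebraicClosure ℚ) ℚ
        (W.map (Int.castRingHom ℚ)).toAffine p ((f ^ j)⁻¹ * g) = 1 :=
      LinearMap.ext fun x => hσW x
    have hρg : Point.galoisRepModuleEnd (K := AlgebraicClosure ℚ) ℚ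
        (W.map (Int.castRingHom ℚ)).toAffine p g =
        Point.galoisRepModuleEnd (K := AlgebraicClosure ℚ) ℚ
          (W.map (Int.castRingHom ℚ)).toAffine p f ^ j := by
      conv_lhs => rw [hg]
      rw [map_mul, hρσ, mul_one, map_pow]
    rw [hρg, map_pow, hfin.2]
    push_cast
    rfl
  · -- the relation on `W[p]`
    intro Q hQ
    let F : AddMonoid.End ((W.map (Int.castRingHom ℚ))⁄(AlgebraicClosure ℚ)).Point :=
      DistribMulAction.toAddMonoidEnd (AlgebraicClosure ℚ ≃ₐ[ℚ] AlgebraicClosure ℚ)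
        ((W.map (Int.castRingHom ℚ))⁄(AlgebraicClosure ℚ)).Point f
    let V : AddSubgroup ((W.map (Int.castRingHom ℚ))⁄(AlgebraicClosure ℚ)).Point :=
      (Submodule.torsionBy ℤ ((W.map (Int.castRingHom ℚ))⁄(AlgebraicClosure ℚ)).Point
        (p : ℤ)).toAddSubgroup
    have hmem : ∀ y, y ∈ V ↔ (p : ℤ) • y = 0 := fun y => Submodule.mem_torsionBy_iff _ _
    have hstab : ∀ (τ : AlgebraicClosure ℚ ≃ₐ[ℚ] AlgebraicClosure ℚ)
        (y : ((W.map (Int.castRingHom ℚ))⁄(AlgebraicClosure ℚ)).Point),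
        (p : ℤ) • y = 0 → (p : ℤ) • (τ • y) = 0 := by
      intro τ y hy
      have e : (p : ℤ) • (τ • y) = τ • ((p : ℤ) • y) :=
        (map_zsmul (DistribMulAction.toAddMonoidEnd
          (AlgebraicClosure ℚ ≃ₐ[ℚ] AlgebraicClosure ℚ)
          ((W.map (Int.castRingHom ℚ))⁄(AlgebraicClosure ℚ)).Point τ) (p : ℤ) y).symm
      rw [e, hy]
      exact smul_zero (A := ((W.map (Int.castRingHom ℚ))⁄(AlgebraicClosure ℚ)).Point) τ
    have hV : ∀ y ∈ V, F y ∈ V := fun y hy => (hmem _).mpr (hstab f y ((hmem y).mp hy))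
    have hrel : ∀ y ∈ V, F (F y) - (W.apOfModel ℓ) • F y + (ℓ : ℤ) • y = 0 := fun y hy =>
      Fermat.Agent.EFrob.finalRelU W ℓ p hℓ hp hne hgood A' hA' f hf y ((hmem y).mp hy)
    have key := h80c_quad_pow_on F V hV (W.apOfModel ℓ) (ℓ : ℤ) hrel j Q ((hmem Q).mpr hQ)
    have hFj : ∀ y : ((W.map (Int.castRingHom ℚ))⁄(AlgebraicClosure ℚ)).Point,
        (F ^ j) y = (f ^ j) • y := fun y => by
      show (DistribMulAction.toAddMonoidEnd (AlgebraicClosure ℚ ≃ₐ[ℚ] AlgebraicClosure ℚ)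
        ((W.map (Int.castRingHom ℚ))⁄(AlgebraicClosure ℚ)).Point f ^ j) y = _
      rw [← map_pow]
      rfl
    rw [hFj, hFj] at key
    have hgx : g • Q = (f ^ j) • Q := hgW Q hQ
    have hgx2 : g • g • Q = (f ^ j) • (f ^ j) • Q := by
      rw [hgx]
      exact hgW _ (hstab (f ^ j) Q hQ)
    rw [hgx2, hgx]
    exact key
  · -- the relation on `V`
    intro x hx
    let F : AddMonoid.End (JZero N) := tpjGal N f
    have hV : ∀ y ∈ h80cV W N S (p ^ k), F y ∈ h80cV W N S (p ^ k) := fun y hy =>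
      h80c_V_gal W N S _ f y hy
    have hrel : ∀ y ∈ h80cV W N S (p ^ k),
        F (F y) - (W.apOfModel ℓ) • F y + (ℓ : ℤ) • y = 0 := by
      intro y hy
      have h := hES.2 ℓ hℓ hℓN A' hA' f hf y ⟨k, hy.1⟩
      have e1 : heckeOperatorBar N ⟨ℓ, hℓ⟩ (f • y) = (W.apOfModel ℓ) • (f • y) :=
        (hV y hy).2 ⟨ℓ, hℓ⟩ hℓS
      rw [e1] at h
      have e2 : ((ℓ : ℤ)) • y = ℓ • y := natCast_zsmul y ℓ
      show f • f • y - (W.apOfModel ℓ) • (f • y) + (ℓ : ℤ) • y = 0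
      rw [e2]
      exact h
    have key := h80c_quad_pow_on F (h80cV W N S (p ^ k)) hV (W.apOfModel ℓ) (ℓ : ℤ) hrel j x hx
    have hFj : ∀ y : JZero N, (F ^ j) y = (f ^ j) • y := fun y => by
      show (tpjGal N f ^ j) y = _
      rw [← map_pow]
      rfl
    rw [hFj, hFj] at key
    have hgx : g • x = (f ^ j) • x := hgJ x hx.1
    have hgx2 : g • g • x = (f ^ j) • (f ^ j) • x := by
      rw [hgx]
      exact hgJ _ (h80c_V_gal W N S _ (f ^ j) x hx).1
    rw [hgx2, hgx]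
    exact key

end Fermat.Agent.P7
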