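import Fermat.Agent.P7.H80NonEisAbs
import Fermat.Agent.P7.H80Char
import Fermat.Agent.P7.H99W7Iface

/-!
# Wave 7 (S40), TOP leaf NON-EIS (helper80, prefix `h80e_`)

`W` an integral Weierstrass curve, `Δ ≠ 0`, `p` a prime with `W[p]` irreducible.  Then the system
of eigenvalues `a_ℓ(W)` is not Eisenstein modulo `p`:

* `h80e_nonEis_set` : for every finite set `S` of primes there is a prime `ℓ ∉ S`, `ℓ ≠ p`, good
  for `W`, with `p ∤ ℓ + 1 - a_ℓ(W)`;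
* `h80e_nonEis` : for `p ∣ N` there is `ℓ ∈ H99wGood W N` with `p ∤ ℓ + 1 - a_ℓ(W)`;
* `h80e_nonEis_eigen` : the consumer form (4th hypothesis of `H99wToric`) for every `x` with
  `H99wEigen W N x`.

Proof: otherwise every Frobenius at a prime `ℓ ∉ S` has trace `1 + det` on `W[p]`; by the weak
Chebotarev theorem every `g ∈ G_ℚ` is a power of such a Frobenius on `W[p]`, so `tr = 1 + det` on
the whole image (`h80e_trace_eq`), and `W[p]` has a stable line (`h80e_reducible`).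
-/

set_option autoImplicit false
set_option linter.style.haveILetI false
set_option linter.unusedSectionVars false
set_option linter.unusedVariables false
set_option linter.style.longLine false

open ModularCurve WeierstrassCurve WeierstrassCurve.Affine

noncomputable section

namespace Fermat.Agent.P7

open Fermat.Agent.S30 (acTrace)

/-- the power sums of `X² - (1 + d) X + d = (X - 1)(X - d)`. -/
theorem h80e_acTrace_eis {R : Type*} [CommRing R] (d : R) (j : ℕ) :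
    acTrace (1 + d) d j = 1 + d ^ j := by
  have h := Fermat.Agent.S31.TI_pow_add_pow (Commute.all (1 : R) d) (acTrace (1 + d) d)
    (Fermat.Agent.S30.acTrace_zero _ _) (Fermat.Agent.S30.acTrace_one _ _)
    (fun k => by rw [Fermat.Agent.S30.acTrace_add_two, one_mul]) j
  rw [one_pow] at h
  exact h.symm

set_option maxHeartbeats 1000000 in
/-- if every Frobenius outside `S` has trace `ℓ + 1` on `W[p]`, then `tr = 1 + det` on the whole
image of Galois. -/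
theorem h80e_trace_eq (W : WeierstrassCurve ℤ) (hΔ : W.Δ ≠ 0) {p : ℕ} (hp : p.Prime)
    (S : Finset ℕ) (hpS : p ∈ S)
    (hWS : ∀ q : ℕ, q.Prime → ¬ W.IsGoodPrimeFor q → q ∈ S)
    (hE : ∀ ℓ : ℕ, ℓ.Prime → ℓ ∉ S → ((W.apOfModel ℓ : ℤ) : ZMod p) = 1 + ((ℓ : ℤ) : ZMod p))
    (g : AlgebraicClosure ℚ ≃ₐ[ℚ] AlgebraicClosure ℚ) :
    LinearMap.trace (ZMod p) (H47wX W p)
      (Point.galoisRepModuleEnd (K := AlgebraicClosure ℚ) ℚ
        (W.map (Int.castRingHom ℚ)).toAffine p g) =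
    1 + LinearMap.det (Point.galoisRepModuleEnd (K := AlgebraicClosure ℚ) ℚ
        (W.map (Int.castRingHom ℚ)).toAffine p g) := by
  classical
  haveI : Fact p.Prime := ⟨hp⟩
  obtain ⟨L₂, hL₂, h₂⟩ := (h47w_isGalAct W hΔ p hp.ne_zero).cont
  obtain ⟨ℓ, hℓ, hℓS, A', hA', f, hf, j, hj⟩ := Fermat.Agent.Cheb.weakChebotarev L₂ hL₂ g S
  have hσ : ∀ x ∈ L₂, ((f ^ j)⁻¹ * g) x = x := fun x hx => by
    rw [AlgEquiv.mul_apply, hj x hx]
    exact (f ^ j).symm_apply_apply x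
  have hg : g = f ^ j * ((f ^ j)⁻¹ * g) := by rw [mul_inv_cancel_left]
  have hne : ℓ ≠ p := fun h => hℓS (h ▸ hpS)
  have hgood : W.IsGoodPrimeFor ℓ := by
    by_contra h
    exact hℓS (hWS ℓ hℓ h)
  have hσW : ∀ x : H47wX W p, ((f ^ j)⁻¹ * g) • x = x := fun x => h₂ _ hσ x
  have hV2 : Module.finrank (ZMod p) (H47wX W p) = 2 :=
    Fermat.Agent.Tors.finrank_torsionBy_qbar (W.map (Int.castRingHom ℚ)) (h47w_Δ_ne W hΔ) p
  haveI : Module.Finite (ZMod p) (H47wX W p) :=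
    Module.finite_of_finrank_pos (by rw [hV2]; norm_num)
  have hfin := Fermat.Agent.EFrob.finalU W ℓ p hℓ hp hne hgood A' hA' f hf
  have hρσ : Point.galoisRepModuleEnd (K := AlgebraicClosure ℚ) ℚ
      (W.map (Int.castRingHom ℚ)).toAffine p ((f ^ j)⁻¹ * g) = 1 :=
    LinearMap.ext fun x => hσW x
  have hρg : Point.galoisRepModuleEnd (K := AlgebraicClosure ℚ) ℚ
      (W.map (Int.castRingHom ℚ)).toAffine p g =
      Point.galoisRepModuleEnd (K := AlgebraicClosure ℚ) ℚ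
        (W.map (Int.castRingHom ℚ)).toAffine p f ^ j := by
    conv_lhs => rw [hg]
    rw [map_mul, hρσ, mul_one, map_pow]
  have hcp := Fermat.Agent.S34.charpoly_of_finrank_two hV2
    (Point.galoisRepModuleEnd (K := AlgebraicClosure ℚ) ℚ
      (W.map (Int.castRingHom ℚ)).toAffine p f)
  have htr := Fermat.Agent.S31.TI_trace_pow hV2 _ _ _ hcp j
  have e1 : LinearMap.trace (ZMod p) (H47wX W p)
      (Point.galoisRepModuleEnd (K := AlgebraicClosure ℚ) ℚ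
        (W.map (Int.castRingHom ℚ)).toAffine p f) = ((W.apOfModel ℓ : ℤ) : ZMod p) := hfin.1
  have e2 : LinearMap.det (Point.galoisRepModuleEnd (K := AlgebraicClosure ℚ) ℚ
        (W.map (Int.castRingHom ℚ)).toAffine p f) = ((ℓ : ℤ) : ZMod p) := by
    rw [hfin.2]
    push_cast
    rfl
  rw [hρg, htr, map_pow, e1, e2, hE ℓ hℓ hℓS, h80e_acTrace_eis]

/-- **NON-EIS, set form.** -/
theorem h80e_nonEis_set (W : WeierstrassCurve ℤ) (hΔ : W.Δ ≠ 0) {p : ℕ} (hp : p.Prime)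
    (hirr : W.ModRepIsIrreducible p) (S : Finset ℕ) :
    ∃ ℓ : ℕ, ℓ.Prime ∧ ℓ ∉ S ∧ ℓ ≠ p ∧ W.IsGoodPrimeFor ℓ ∧
      ¬ (p : ℤ) ∣ (ℓ : ℤ) + 1 - W.apOfModel ℓ := by
  classical
  haveI : Fact p.Prime := ⟨hp⟩
  by_contra hcon
  -- the excluded primes
  let S' : Finset ℕ := S ∪ {p} ∪ W.Δ.natAbs.primeFactors
  have hpS' : p ∈ S' :=
    Finset.mem_union_left _ (Finset.mem_union_right _ (Finset.mem_singleton_self p))
  have hWS' : ∀ q : ℕ, q.Prime → ¬ W.IsGoodPrimeFor q → q ∈ S' := by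
    intro q hq hbad
    apply Finset.mem_union_right
    rw [Nat.mem_primeFactors]
    refine ⟨hq, ?_, Int.natAbs_ne_zero.mpr hΔ⟩
    have h1 : (q : ℤ) ∣ W.Δ := not_not.mp hbad
    exact Int.natCast_dvd.mp h1
  have hE : ∀ ℓ : ℕ, ℓ.Prime → ℓ ∉ S' →
      ((W.apOfModel ℓ : ℤ) : ZMod p) = 1 + ((ℓ : ℤ) : ZMod p) := by
    intro ℓ hℓ hℓS'
    have hℓS : ℓ ∉ S := fun h => hℓS' (Finset.mem_union_left _ (Finset.mem_union_left _ h))
    have hℓp : ℓ ≠ p := fun h =>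
      hℓS' (Finset.mem_union_left _ (Finset.mem_union_right _ (Finset.mem_singleton.mpr h)))
    have hgood : W.IsGoodPrimeFor ℓ := by
      by_contra h
      exact hℓS' (hWS' ℓ hℓ h)
    have hdvd : (p : ℤ) ∣ (ℓ : ℤ) + 1 - W.apOfModel ℓ := by
      by_contra h
      exact hcon ⟨ℓ, hℓ, hℓS, hℓp, hgood, h⟩
    have h2 := (ZMod.intCast_zmod_eq_zero_iff_dvd _ p).mpr hdvd
    push_cast at h2 ⊢
    linear_combination -h2
  have hV2 : Module.finrank (ZMod p) (H47wX W p) = 2 :=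
    Fermat.Agent.Tors.finrank_torsionBy_qbar (W.map (Int.castRingHom ℚ)) (h47w_Δ_ne W hΔ) p
  obtain ⟨N, hN0, hN1, hNst⟩ := h80e_reducible (p := p) hV2
    (Point.galoisRepModuleEnd (K := AlgebraicClosure ℚ) ℚ
      (W.map (Int.castRingHom ℚ)).toAffine p)
    (fun g => h80e_trace_eq W hΔ hp S' hpS' hWS' hE g)
  rcases hirr.2 N (fun σ x hx => hNst σ x hx) with h | h
  · exact hN0 h
  · exact hN1 h

/-- **NON-EIS** at a level divisible by `p`. -/
theorem h80e_nonEis (W : WeierstrassCurve ℤ) (hΔ : W.Δ ≠ 0) {p : ℕ} (hp : p.Prime)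
    (hirr : W.ModRepIsIrreducible p) (N : ℕ) [NeZero N] :
    ∃ ℓ ∈ H99wGood W N, ¬ (p : ℤ) ∣ ((ℓ : ℕ) : ℤ) + 1 - W.apOfModel (ℓ : ℕ) := by
  obtain ⟨ℓ, hℓ, hℓS, -, hgood, hne⟩ := h80e_nonEis_set W hΔ hp hirr N.primeFactors
  refine ⟨⟨ℓ, hℓ⟩, ⟨hgood, fun hdvd => hℓS ?_⟩, hne⟩
  rw [Nat.mem_primeFactors]
  exact ⟨hℓ, hdvd, NeZero.ne N⟩

/-- **NON-EIS, consumer form**: every eigenvector of the good Hecke operators with the eigenvalues
of `W` is a non-Eisenstein eigenvector of one `T_ℓ`. -/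
theorem h80e_nonEis_eigen (W : WeierstrassCurve ℤ) (hΔ : W.Δ ≠ 0) {p : ℕ} (hp : p.Prime)
    (hirr : W.ModRepIsIrreducible p) (N : ℕ) [NeZero N] (x : JZero N) (hx : H99wEigen W N x) :
    ∃ ℓ : Nat.Primes, ¬ (ℓ : ℕ) ∣ N ∧ ∃ c : ℤ,
      heckeOperatorBar N ℓ x = c • x ∧ ¬ (p : ℤ) ∣ ((ℓ : ℕ) : ℤ) + 1 - c := by
  obtain ⟨ℓ, hℓ, hne⟩ := h80e_nonEis W hΔ hp hirr N
  exact ⟨ℓ, hℓ.2, W.apOfModel (ℓ : ℕ), hx ℓ hℓ, hne⟩

end Fermat.Agent.P7
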