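import Fermat.Agent.P7.H3DlogFinal
import Fermat.Agent.P7.H10CuspOrthHcusp
import Fermat.Agent.P7.H37GapMS2
import Fermat.Agent.P7.H45SlopeZero

/-!
# Wave 7 (row 38), DLOG final wiring: the leaves of helper3's `h3g_s44_of_leaves` from the landed
material (helper42, prefix `h42w_`)

helper3's final wire (`P7/H3DlogFinal.lean`) reduces (I-2) to the three primitive leaves
`H3gConstM p`, `H3gCuspRed p`, `H3gOrthM p`.  Here:

* `h42w_cuspRed p : H3gCuspRed p` — UNCONDITIONAL (helper10's `h10x_cuspOrthRed_gauss`);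
* `h42w_constM_of_S2 : H26iS2 → H3gConstM p` (helper37's `h37k_const_S2`);
* `h42w_in_of_S2_orth : H26iS2 → H3gOrthM p → H3gDlogIn p`;
* `h42w_dlog_of_S2_orth : H26iS2 → H3gOrthM p → H16tDlog p`;
* `h42w_s44_of_S2_orth` : **the frozen statement S44 from the two atoms left**: (S2) `H26iS2`
  (the `q`-order place of the generic fibre of a good level reduces to the `q`-order place of
  the special fibre) and ORTH(M) `H3gOrthM p` for `p ≥ 5`.  (I-1) is helper45's unconditional
  `h45y_slopeZero`.

Every declaration is a proved theorem; nothing is assumed.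
-/

set_option autoImplicit false
set_option linter.unusedSectionVars false
set_option linter.unusedVariables false
set_option linter.style.haveILetI false
set_option synthInstance.maxHeartbeats 400000

open ModularCurve AlgebraicCurve IsLocalRing

noncomputable section

namespace Fermat.Agent.P7

open Fermat.Agent.S37 Fermat.Agent.S35 Fermat.Agent.P6
open Fermat.Agent.Red.GV (gaussV gaussR)

/-- **CUSP-ORTH-RED**, primitive form of helper3, unconditional. -/
theorem h42w_cuspRed (p : ℕ) : H3gCuspRed p := by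
  intro hp _ M _ hpM A hA Q hQ f hf hreg w hw
  obtain ⟨h, c, hc, rfl⟩ := hw
  exact h10x_cuspOrthRed_gauss hp A hA M hpM f (h10x_regOff_of_place M Q hQ f hreg) hf h c hc

/-- **CONST(M)**, primitive form of helper3, from (S2). -/
theorem h42w_constM_of_S2 (hS2 : H26iS2) (p : ℕ) : H3gConstM p := by
  intro hp _ M _ hpM A hA Q hQ
  exact h37k_const_S2 M A hS2 hp hpM hA Q hQ

/-- the single DLOG input from (S2) and ORTH(M). -/
theorem h42w_in_of_S2_orth (hS2 : H26iS2) {p : ℕ} (hO : H3gOrthM p) : H3gDlogIn p :=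
  h3g_in_of_leaves (h42w_constM_of_S2 hS2 p) (h42w_cuspRed p) hO

/-- (I-2) from (S2) and ORTH(M). -/
theorem h42w_dlog_of_S2_orth (hS2 : H26iS2) {p : ℕ} (hO : H3gOrthM p) : H16tDlog p :=
  h3g_dlog_of_in (h42w_in_of_S2_orth hS2 hO)

/-- **the frozen statement S44 from the two atoms (S2) and ORTH(M).** -/
theorem h42w_s44_of_S2_orth (hS2 : H26iS2) (hO : ∀ p : ℕ, 5 ≤ p → H3gOrthM p)
    (P : FreyPackage) {N : ℕ} (hcond : P.IsConductorLevel N) (hpN : P.p ∣ N)
    (hirr : WeierstrassCurve.Affine.Point.GaloisRepIsIrreducible (K := AlgebraicClosure ℚ) ℚ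
      P.freyCurve P.p)
    (hmod : P.ModularRepOfLevel N) :
    ∃ M : ℕ, M ∣ N ∧ ¬ P.p ∣ M ∧ P.ModularRepOfLevel M :=
  h3g_s44_of_leaves (fun p _ => h45y_slopeZero p)
    (fun p _ => h42w_constM_of_S2 hS2 p) (fun p _ => h42w_cuspRed p) hO
    P hcond hpN hirr hmod

end Fermat.Agent.P7
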