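import Fermat.Agent.P7.H42FreyTwo
import Fermat.Agent.P7.H17Glue0

/-!
# Wave 7 (S44), row GLUE-2 for curves which are bad at `2` (helper42)

Block (A) of TORIC acts at the good level `goodLevel p M = lcm (M, 4)` (`p` odd), so the Hecke
polynomial `e` of GLUE and the non-Eisenstein prime must be prime to `goodLevel p M * p`.
When `2` is a bad prime of `W` (every integral model of a Frey curve, `h42f_not_good_two`) this
is automatic: the landed `h17g_glue0` only uses good primes of `W`.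

* `h42f_not_dvd_goodLevel` : `ℓ ≠ 2` prime, `ℓ ∤ M p`, `p ≠ 2`  ⟹  `ℓ ∤ goodLevel p M * p`.
* `H42fGlue2At W p M` : the per-curve output shape of row GLUE-2 (helper98).
* `h42f_glue2_of_bad` : GLUE-2 for `W` bad at `2`.
* `h42f_glue2_frey` : GLUE-2 for every integral model of a Frey curve.
* `h42f_good_not_dvd_goodLevel` : every `ℓ ∈ H99wGood W (M * p)` is prime to
  `goodLevel p M * p` when `2` is bad for `W`.
-/

set_option autoImplicit false
set_option linter.unusedSectionVars false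

open AlgebraicCurve ModularCurve WeierstrassCurve

noncomputable section

namespace Fermat.Agent.P7

open Fermat.Agent.S37

/-- an odd prime not dividing `M p` does not divide `goodLevel p M * p` (`p` odd). -/
theorem h42f_not_dvd_goodLevel {p M ℓ : ℕ} (hp2 : p ≠ 2) (hℓ : ℓ.Prime) (hℓ2 : ℓ ≠ 2)
    (h : ¬ ℓ ∣ M * p) : ¬ ℓ ∣ goodLevel p M * p := by
  intro hd
  rcases (Nat.Prime.dvd_mul hℓ).mp hd with h1 | h1
  · have h2 : ℓ ∣ M * 4 := by
      have h3 : goodLevel p M ∣ M * 4 := by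
        unfold goodLevel auxLevel
        rw [if_neg hp2]
        exact Nat.lcm_dvd_mul M 4
      exact h1.trans h3
    rcases (Nat.Prime.dvd_mul hℓ).mp h2 with h3 | h3
    · exact h (h3.trans (Nat.dvd_mul_right M p))
    · have h4 : ℓ ∣ 2 ^ 2 := by norm_num; exact h3
      have h5 : ℓ ∣ 2 := hℓ.dvd_of_dvd_pow h4
      exact hℓ2 ((Nat.prime_dvd_prime_iff_eq hℓ Nat.prime_two).mp h5)
  · exact h (h1.trans (Nat.dvd_mul_left p M))

/-- when `2` is bad for `W`, the good primes away from `M p` are prime to `goodLevel p M * p`. -/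
theorem h42f_good_not_dvd_goodLevel (W : WeierstrassCurve ℤ) {p M : ℕ} (hp2 : p ≠ 2)
    (h2 : ¬ W.IsGoodPrimeFor 2) {ℓ : Nat.Primes} (hℓ : ℓ ∈ H99wGood W (M * p)) :
    ¬ (ℓ : ℕ) ∣ goodLevel p M * p := by
  refine h42f_not_dvd_goodLevel hp2 ℓ.2 ?_ hℓ.2
  intro h
  exact h2 (h ▸ hℓ.1)

/-- **the per-curve output shape of row GLUE-2**: a Hecke polynomial in good primes of `W`, all
prime to `goodLevel p M * p`, killing `S₂(Γ₀(M))` and not vanishing modulo `p` at the system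
`a_ℓ(W)`. -/
def H42fGlue2At (W : WeierstrassCurve ℤ) (p M : ℕ) [NeZero M] : Prop :=
  ∃ e : MvPolynomial Nat.Primes ℤ,
    (∀ ℓ ∈ e.vars, ¬ (ℓ : ℕ) ∣ goodLevel p M * p) ∧
    (∀ ℓ ∈ e.vars, W.IsGoodPrimeFor (ℓ : ℕ)) ∧
    H99wKillsCusp M e ∧
    ¬ (p : ℤ) ∣ MvPolynomial.eval (fun ℓ : Nat.Primes => W.apOfModel (ℓ : ℕ)) e

/-- **GLUE-2 for curves which are bad at `2`.** -/
theorem h42f_glue2_of_bad (W : WeierstrassCurve ℤ) (hΔ : W.Δ ≠ 0) {p : ℕ} (hp : p.Prime)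
    (hp2 : p ≠ 2) (M : ℕ) [NeZero M] (hpM : ¬ p ∣ M) (h2 : ¬ W.IsGoodPrimeFor 2)
    (hnot : ¬ W.IsResiduallyModularOfLevel p M) : H42fGlue2At W p M := by
  obtain ⟨e, hsupp, hkill, hev⟩ := h17g_glue0 W hΔ p hp M hpM hnot
  have hvars : ∀ ℓ ∈ e.vars, ℓ ∈ H99wGood W (M * p) := by
    intro ℓ hℓ
    exact (MvPolynomial.mem_supported.mp hsupp) (Finset.mem_coe.mpr hℓ)
  exact ⟨e, fun ℓ hℓ => h42f_good_not_dvd_goodLevel W hp2 h2 (hvars ℓ hℓ),
    fun ℓ hℓ => (hvars ℓ hℓ).1, hkill, hev⟩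

/-- **GLUE-2 for every integral model of a Frey curve.** -/
theorem h42f_glue2_frey (P : FreyPackage) {W : WeierstrassCurve ℤ}
    (hW : W.IsIntegralModelOf P.freyCurve) (hΔ : W.Δ ≠ 0) (M : ℕ) [NeZero M]
    (hpM : ¬ P.p ∣ M) (hnot : ¬ W.IsResiduallyModularOfLevel P.p M) :
    H42fGlue2At W P.p M :=
  h42f_glue2_of_bad W hΔ P.pp (by have := P.hp5; omega) M hpM (h42f_not_good_two P hW) hnot

end Fermat.Agent.P7
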