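import Fermat.Agent.S13.FreyInt
import Fermat.Prelude.Def_FLTPrelim_Modularity

/-!
# Wave 7 (S44): `2` is a bad prime of every integral model of a Frey curve (helper42)

For a Frey package `P` the Frey curve has `c₄ = a^{2p} + a^p b^p + b^{2p}` (odd) and
`2⁸ Δ = (abc)^{2p}` with `b` even and `2 p ≥ 10`.  The quotient `c₄³ / Δ` is invariant under
changes of variables, so every integral model `W` satisfies
`c₄(W)³ (abc)^{2p} = 2⁸ c₄(Frey)³ Δ(W)` in `ℤ`, hence `2 ∣ Δ(W)`.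

* `h42f_two_dvd_disc` : `W.IsIntegralModelOf P.freyCurve → (2 : ℤ) ∣ W.Δ`.
* `h42f_not_good_two` : `W.IsIntegralModelOf P.freyCurve → ¬ W.IsGoodPrimeFor 2`.
* `h42f_good_ne_two`  : a good prime of such a `W` is odd.

Use (row GLUE-2 / T-TOP of wave 7): the Hecke polynomial of `h17g_glue0` and the non-Eisenstein
prime only involve good primes of `W`, hence no `T₂`; they are prime to `lcm (M, 4) * p`.
-/

set_option autoImplicit false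

namespace Fermat.Agent.P7

open WeierstrassCurve

/-- `c₄` of the Frey curve. -/
theorem h42f_frey_c4 (P : FreyPackage) :
    P.freyCurve.c₄ =
      (((P.a ^ P.p) ^ 2 + P.a ^ P.p * P.b ^ P.p + (P.b ^ P.p) ^ 2 : ℤ) : ℚ) := by
  simp only [WeierstrassCurve.c₄, WeierstrassCurve.b₂, WeierstrassCurve.b₄,
    FreyPackage.freyCurve]
  push_cast
  ring

/-- `c₄` of the Frey curve is odd. -/
theorem h42f_frey_c4_odd (P : FreyPackage) :
    ¬ (2 : ℤ) ∣ (P.a ^ P.p) ^ 2 + P.a ^ P.p * P.b ^ P.p + (P.b ^ P.p) ^ 2 := by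
  have hb : (2 : ℤ) ∣ P.b ^ P.p := dvd_pow (Fermat.Agent.S13.frey_two_dvd_b P) P.hp0
  have ha : ¬ (2 : ℤ) ∣ P.a := by
    have h4 := Fermat.Agent.S13.frey_a_mod_four P
    omega
  intro h
  have h1 : (2 : ℤ) ∣ P.a ^ P.p * P.b ^ P.p + (P.b ^ P.p) ^ 2 :=
    dvd_add (Dvd.dvd.mul_left hb _) (dvd_pow hb (by norm_num))
  have h2 : (2 : ℤ) ∣ (P.a ^ P.p) ^ 2 := by
    have := dvd_sub h h1
    have e : (P.a ^ P.p) ^ 2 + P.a ^ P.p * P.b ^ P.p + (P.b ^ P.p) ^ 2 -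
        (P.a ^ P.p * P.b ^ P.p + (P.b ^ P.p) ^ 2) = (P.a ^ P.p) ^ 2 := by ring
    rwa [e] at this
  exact ha (Int.prime_two.dvd_of_dvd_pow (Int.prime_two.dvd_of_dvd_pow h2))

/-- `2⁹` divides `(abc)^{2p}`. -/
theorem h42f_pow_dvd (P : FreyPackage) :
    (2 : ℤ) ^ 9 ∣ ((P.a * P.b * P.c) ^ P.p) ^ 2 := by
  obtain ⟨m, hm⟩ := Fermat.Agent.S13.frey_two_dvd_b P
  have hp5 := P.hp5
  have e : ((P.a * P.b * P.c) ^ P.p) ^ 2 =
      (2 : ℤ) ^ 9 * (2 ^ (2 * P.p - 9) * ((P.a * m * P.c) ^ P.p) ^ 2) := by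
    have h1 : (2 : ℤ) ^ 9 * 2 ^ (2 * P.p - 9) = (2 ^ P.p) ^ 2 := by
      rw [← pow_add, ← pow_mul]
      congr 1
      omega
    rw [← mul_assoc, h1, hm]
    ring
  exact ⟨_, e⟩

/-- **every integral model of a Frey curve has even discriminant.** -/
theorem h42f_two_dvd_disc (P : FreyPackage) {W : WeierstrassCurve ℤ}
    (hW : W.IsIntegralModelOf P.freyCurve) : (2 : ℤ) ∣ W.Δ := by
  obtain ⟨C, hC⟩ := hW
  have hΔ : ((W.Δ : ℤ) : ℚ) = (C.u⁻¹ : ℚˣ) ^ 12 * P.freyCurve.Δ := by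
    have h1 : (W.map (Int.castRingHom ℚ)).Δ = ((W.Δ : ℤ) : ℚ) := by
      rw [WeierstrassCurve.map_Δ]; rfl
    rw [← h1, ← hC, WeierstrassCurve.variableChange_Δ]
  have hc : ((W.c₄ : ℤ) : ℚ) = (C.u⁻¹ : ℚˣ) ^ 4 * P.freyCurve.c₄ := by
    have h1 : (W.map (Int.castRingHom ℚ)).c₄ = ((W.c₄ : ℤ) : ℚ) := by
      rw [WeierstrassCurve.map_c₄]; rfl
    rw [← h1, ← hC, WeierstrassCurve.variableChange_c₄]
  set c : ℤ := (P.a ^ P.p) ^ 2 + P.a ^ P.p * P.b ^ P.p + (P.b ^ P.p) ^ 2 with hcdef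
  have hD := Fermat.Agent.S13.freyCurve_Δ P
  have hc4 : P.freyCurve.c₄ = ((c : ℤ) : ℚ) := h42f_frey_c4 P
  -- the integer identity `c₄(W)³ (abc)^{2p} = 2⁸ c³ Δ(W)`
  have key : W.c₄ ^ 3 * ((P.a * P.b * P.c) ^ P.p) ^ 2 = 2 ^ 8 * c ^ 3 * W.Δ := by
    have hq : ((W.c₄ ^ 3 * ((P.a * P.b * P.c) ^ P.p) ^ 2 : ℤ) : ℚ) =
        ((2 ^ 8 * c ^ 3 * W.Δ : ℤ) : ℚ) := by
      have e1 : ((W.c₄ ^ 3 * ((P.a * P.b * P.c) ^ P.p) ^ 2 : ℤ) : ℚ) =
          ((W.c₄ : ℤ) : ℚ) ^ 3 * (((P.a : ℚ) * P.b * P.c) ^ P.p) ^ 2 := by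
        push_cast
        ring
      have e2 : ((2 ^ 8 * c ^ 3 * W.Δ : ℤ) : ℚ) = 2 ^ 8 * ((c : ℤ) : ℚ) ^ 3 * ((W.Δ : ℤ) : ℚ) := by
        push_cast
        ring
      rw [e1, e2, hc, hΔ, ← hD, hc4]
      ring
    exact_mod_cast hq
  have h9 : (2 : ℤ) ^ 9 ∣ 2 ^ 8 * c ^ 3 * W.Δ := by
    rw [← key]
    exact Dvd.dvd.mul_left (h42f_pow_dvd P) _
  have h2 : (2 : ℤ) ∣ c ^ 3 * W.Δ := by
    obtain ⟨k, hk⟩ := h9
    refine ⟨k, ?_⟩
    have h8 : (2 : ℤ) ^ 8 ≠ 0 := by norm_num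
    apply mul_left_cancel₀ h8
    rw [← mul_assoc, hk]
    ring
  rcases Int.prime_two.dvd_or_dvd h2 with h | h
  · exact absurd (Int.prime_two.dvd_of_dvd_pow h) (h42f_frey_c4_odd P)
  · exact h

/-- **`2` is not a good prime of an integral model of a Frey curve.** -/
theorem h42f_not_good_two (P : FreyPackage) {W : WeierstrassCurve ℤ}
    (hW : W.IsIntegralModelOf P.freyCurve) : ¬ W.IsGoodPrimeFor 2 := by
  intro h
  apply h
  have := h42f_two_dvd_disc P hW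
  exact_mod_cast this

/-- a good prime of an integral model of a Frey curve is odd. -/
theorem h42f_good_ne_two (P : FreyPackage) {W : WeierstrassCurve ℤ}
    (hW : W.IsIntegralModelOf P.freyCurve) {ℓ : ℕ} (hℓ : W.IsGoodPrimeFor ℓ) : ℓ ≠ 2 := by
  rintro rfl
  exact h42f_not_good_two P hW hℓ

end Fermat.Agent.P7
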