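import Fermat.Agent.S21.E.Api
import Fermat.Agent.S21.E.Min.Core
import Fermat.Agent.S21.EPrim.Conj

/-!
# Wave 7, DLOG, row DL6B GENUS-MATCH, leaf GM1 = COUNT (helper66)

For a tuple `t` of `Γ` in the sense of `S21/E` (analytic Dedekind-Weber family `v_k` of weakly
holomorphic `Γ`-invariant functions with degrees `d_k`) and `n ≥ d_k` for all `k`, the functions
`j ^ a * v_k`, `a + d_k ≤ n`, are weakly holomorphic of degree `≤ n` and linearly independent
over `ℂ`; there are `(n + 1) * μ - ∑ d_k` of them (`μ = [SL(2,ℤ) : Γ]`).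

* `h66g_isWH_mono`, `h66g_isWH_jmul`, `h66g_isWH_jpow_mul` : degree calculus for `IsWH`.
* `h66g_range_jFun_infinite` : `j` takes infinitely many values.
* `h66g_poly_rel` : a relation `∑ P_k(j) v_k = 0` with polynomial coefficients is trivial.
* `h66g_fam_isWH`, `h66g_fam_indep`, `h66g_card` : the family, indexed by `H66gIdx t n`.
* `h66g_count` : the same, indexed by `Fin ((n + 1) * μ - t.total)`.
-/

set_option autoImplicit false

open UpperHalfPlane hiding I
open Complex Filter Function Topology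
open scoped Manifold MatrixGroups ModularForm Real

namespace Fermat.Agent.P7

noncomputable section

open Fermat.Agent.S21.E Fermat.Agent.S21.EPrim

local notation "Δ" => ModularForm.discriminant
local notation "E₄" => ModularForm.E₄

variable {Γ : Subgroup SL(2, ℤ)}

/-! ### Degree calculus for `IsWH` -/

theorem h66g_bdd_disc_pow (m : ℕ) : IsBoundedAtImInfty (fun z : ℍ => Δ z ^ m) := by
  induction m with
  | zero =>
    have : (fun z : ℍ => Δ z ^ 0) = fun _ : ℍ => (1 : ℂ) := by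
      ext z; simp
    rw [this]
    exact const_boundedAtFilter _ (1 : ℂ)
  | succ m ih =>
    have h := ih.mul Min.bdd_disc
    have e : (fun z : ℍ => Δ z ^ (m + 1)) = (fun z : ℍ => Δ z ^ m) * fun z : ℍ => Δ z := by
      ext z
      simp [pow_succ]
    rw [e]
    exact h

theorem h66g_bdd_E4_cube : IsBoundedAtImInfty (fun z : ℍ => E₄ z ^ 3) :=
  Min.bdd_of_tendsto (tendsto_E4.pow 3)

/-- `IsWH` is monotone in the degree. -/
theorem h66g_isWH_mono {d e : ℕ} (h : d ≤ e) {f : ℍ → ℂ} (hf : IsWH Γ d f) : IsWH Γ e f where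
  holo := hf.holo
  inv := hf.inv
  bdd g := by
    have h1 := (h66g_bdd_disc_pow (e - d)).mul (hf.bdd g)
    have e1 : (fun z : ℍ => Δ z ^ e * f (g • z)) =
        (fun z : ℍ => Δ z ^ (e - d)) * fun z : ℍ => Δ z ^ d * f (g • z) := by
      ext z
      simp only [Pi.mul_apply]
      rw [← mul_assoc, ← pow_add, Nat.sub_add_cancel h]
    rw [e1]
    exact h1

/-- multiplication by `j` raises the degree by one. -/
theorem h66g_isWH_jmul {d : ℕ} {f : ℍ → ℂ} (hf : IsWH Γ d f) :
    IsWH Γ (d + 1) (fun z => jFun z * f z) where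
  holo := by
    have h := mdifferentiable_jFun.mul hf.holo
    have e : (fun z : ℍ => jFun z * f z) = jFun * f := rfl
    rw [e]
    exact h
  inv γ hγ z := by rw [jFun_smul, hf.inv γ hγ z]
  bdd g := by
    have h1 := h66g_bdd_E4_cube.mul (hf.bdd g)
    have e1 : (fun z : ℍ => Δ z ^ (d + 1) * (jFun (g • z) * f (g • z))) =
        (fun z : ℍ => E₄ z ^ 3) * fun z : ℍ => Δ z ^ d * f (g • z) := by
      ext z
      simp only [Pi.mul_apply, jFun_smul]
      unfold jFun
      have hΔ : Δ z ≠ 0 := ModularForm.discriminant_ne_zero z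
      field_simp
      ring
    rw [e1]
    exact h1

/-- multiplication by `j ^ a` raises the degree by `a`. -/
theorem h66g_isWH_jpow_mul {d : ℕ} {f : ℍ → ℂ} (hf : IsWH Γ d f) (a : ℕ) :
    IsWH Γ (d + a) (fun z => jFun z ^ a * f z) := by
  induction a with
  | zero => simpa using hf
  | succ a ih =>
    have h := h66g_isWH_jmul ih
    have e : (fun z : ℍ => jFun z ^ (a + 1) * f z) =
        fun z : ℍ => jFun z * (jFun z ^ a * f z) := by
      ext z; ring
    rw [e]
    exact h

/-! ### `j` takes infinitely many values -/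

theorem h66g_range_jFun_infinite : (Set.range jFun).Infinite := by
  intro hfin
  obtain ⟨C, hC⟩ : ∃ C : ℝ, ∀ z : ℍ, ‖jFun z‖ ≤ C := by
    obtain ⟨C, hC⟩ := (hfin.image (fun w : ℂ => ‖w‖)).bddAbove
    exact ⟨C, fun z => hC ⟨jFun z, ⟨z, rfl⟩, rfl⟩⟩
  obtain ⟨Y, hY⟩ := exists_jFun_bounds
  set y : ℝ := max (max Y 1) (|C| + 1) with hy
  have hy1 : (1 : ℝ) ≤ y := le_trans (le_max_right Y 1) (le_max_left _ _)
  have hyY : Y ≤ y := le_trans (le_max_left Y 1) (le_max_left _ _)
  have hyC : |C| + 1 ≤ y := le_max_right _ _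
  have hypos : (0 : ℝ) < y := lt_of_lt_of_le one_pos hy1
  let z : ℍ := ⟨⟨0, y⟩, hypos⟩
  have hzim : z.im = y := rfl
  have h1 := (hY z (by rw [hzim]; exact hyY)).1
  rw [hzim] at h1
  have hpi : (3 : ℝ) < Real.pi := Real.pi_gt_three
  have hexp : Real.exp (-2 * Real.pi * y) * (2 * Real.pi * y) < 1 := by
    have h2 : 2 * Real.pi * y + 1 ≤ Real.exp (2 * Real.pi * y) := Real.add_one_le_exp _
    have h3 : Real.exp (-2 * Real.pi * y) * Real.exp (2 * Real.pi * y) = 1 := by
      rw [← Real.exp_add]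
      have : -2 * Real.pi * y + 2 * Real.pi * y = 0 := by ring
      rw [this, Real.exp_zero]
    have h4 : 0 < Real.exp (-2 * Real.pi * y) := Real.exp_pos _
    nlinarith
  have h5 : ‖jFun z‖ * Real.exp (-2 * Real.pi * y) ≤ |C| * Real.exp (-2 * Real.pi * y) :=
    mul_le_mul_of_nonneg_right ((hC z).trans (le_abs_self C)) (Real.exp_pos _).le
  have h6 : 0 < Real.exp (-2 * Real.pi * y) := Real.exp_pos _
  have h7 : |C| ≤ y := by linarith
  have h8 : 0 ≤ |C| := abs_nonneg C
  -- `|C| e^{-2πy} ≤ y e^{-2πy} < 1 / (2π) < 1/2`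
  have h9 : |C| * Real.exp (-2 * Real.pi * y) ≤ y * Real.exp (-2 * Real.pi * y) :=
    mul_le_mul_of_nonneg_right h7 h6.le
  have h10 : y * Real.exp (-2 * Real.pi * y) * (2 * Real.pi) < 1 := by
    have : y * Real.exp (-2 * Real.pi * y) * (2 * Real.pi) =
        Real.exp (-2 * Real.pi * y) * (2 * Real.pi * y) := by ring
    rw [this]
    exact hexp
  have h11 : 0 ≤ y * Real.exp (-2 * Real.pi * y) := mul_nonneg hypos.le h6.le
  nlinarith

/-! ### Polynomial relations -/

theorem h66g_mdiff_eval (P : Polynomial ℂ) : MDiff (fun z : ℍ => P.eval (jFun z)) := by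
  have e : (fun z : ℍ => P.eval (jFun z)) =
      fun z : ℍ => ∑ i ∈ Finset.range (P.natDegree + 1), P.coeff i * jFun z ^ i := by
    ext z
    rw [Polynomial.eval_eq_sum_range]
  rw [e]
  refine Api.mdiff_finset_sum _ _ fun i _ => ?_
  have h := (Api.mdiff_const (P.coeff i)).mul (mdifferentiable_jFun.pow i)
  have e2 : (fun z : ℍ => P.coeff i * jFun z ^ i) = (fun _ : ℍ => P.coeff i) * jFun ^ i := rfl
  rw [e2]
  exact h

variable [Fintype (SL(2, ℤ) ⧸ Γ)] [DecidableEq (SL(2, ℤ) ⧸ Γ)]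

/-- a relation `∑_k P_k(j) v_k = 0` with polynomial coefficients forces `P_k = 0`. -/
theorem h66g_poly_rel (t : Tuple Γ) (P : SL(2, ℤ) ⧸ Γ → Polynomial ℂ)
    (h : ∀ z : ℍ, ∑ k, (P k).eval (jFun z) * t.v k z = 0) : ∀ k, P k = 0 := by
  have h1 : ∀ z : ℍ, (cmat Γ t.v z).det ≠ 0 → ∀ k, (P k).eval (jFun z) = 0 := by
    intro z hz
    have hv : Matrix.vecMul (fun k => (P k).eval (jFun z)) (cmat Γ t.v z) = 0 := by
      ext x
      have h2 := h ((Quotient.out x)⁻¹ • z)
      simp only [jFun_smul] at h2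
      simpa [Matrix.vecMul, dotProduct, cmat, cj] using h2
    have h3 := Matrix.eq_zero_of_vecMul_eq_zero hz hv
    intro k
    exact congrFun h3 k
  have h2 : ∀ k, ∀ z : ℍ, (P k).eval (jFun z) = 0 := by
    intro k
    by_contra hne
    obtain ⟨z1, hz1⟩ := not_forall.mp hne
    have hev := Api.eventually_ne_zero_of_mdiff (h66g_mdiff_eval (P k)) ⟨z1, hz1⟩ z1
    have hdet := det_eventually_ne_zero t z1
    obtain ⟨z, hz, hzd⟩ := (hev.and hdet).exists
    exact hz (h1 z hzd k)
  intro k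
  refine Polynomial.eq_zero_of_infinite_isRoot _ ?_
  refine Set.Infinite.mono ?_ h66g_range_jFun_infinite
  rintro _ ⟨z, rfl⟩
  exact h2 k z

/-! ### The family -/

/-- index type of the count: pairs `(k, a)` with `a + d_k ≤ n`. -/
abbrev H66gIdx (t : Tuple Γ) (n : ℕ) : Type := Σ k : SL(2, ℤ) ⧸ Γ, Fin (n + 1 - t.d k)

/-- the functions `j ^ a * v_k`. -/
def h66gFam (t : Tuple Γ) (n : ℕ) (i : H66gIdx t n) : ℍ → ℂ :=
  fun z => jFun z ^ (i.2 : ℕ) * t.v i.1 z

theorem h66g_fam_isWH (t : Tuple Γ) (n : ℕ) (i : H66gIdx t n) : IsWH Γ n (h66gFam t n i) := by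
  have h1 := i.2.2
  exact h66g_isWH_mono (by omega) (h66g_isWH_jpow_mul (t.wh i.1) (i.2 : ℕ))

theorem h66g_fam_indep (t : Tuple Γ) (n : ℕ) : LinearIndependent ℂ (h66gFam t n) := by
  classical
  rw [Fintype.linearIndependent_iff]
  intro c hc i
  set P : SL(2, ℤ) ⧸ Γ → Polynomial ℂ := fun k =>
    ∑ a : Fin (n + 1 - t.d k), Polynomial.monomial (a : ℕ) (c ⟨k, a⟩) with hP
  have hrel : ∀ z : ℍ, ∑ k, (P k).eval (jFun z) * t.v k z = 0 := by
    intro z
    have h1 := congrFun hc z
    simp only [Finset.sum_apply, Pi.smul_apply, smul_eq_mul, Pi.zero_apply, h66gFam] at h1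
    rw [Fintype.sum_sigma] at h1
    rw [← h1]
    refine Finset.sum_congr rfl fun k _ => ?_
    simp only [hP, Polynomial.eval_finsetSum, Polynomial.eval_monomial, Finset.sum_mul]
    refine Finset.sum_congr rfl fun a _ => ?_
    ring
  have h0 := h66g_poly_rel t P hrel i.1
  have h2 : (P i.1).coeff (i.2 : ℕ) = c i := by
    simp only [hP, Polynomial.finsetSum_coeff, Polynomial.coeff_monomial]
    rw [Finset.sum_eq_single i.2]
    · simp
    · intro b _ hb
      rw [if_neg]
      intro hab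
      exact hb (Fin.ext hab)
    · intro hi
      exact absurd (Finset.mem_univ _) hi
  rw [← h2, h0, Polynomial.coeff_zero]

theorem h66g_card (t : Tuple Γ) (n : ℕ) (hn : ∀ k, t.d k ≤ n) :
    Fintype.card (H66gIdx t n) + t.total = (n + 1) * Fintype.card (SL(2, ℤ) ⧸ Γ) := by
  rw [Fintype.card_sigma]
  simp only [Fintype.card_fin]
  unfold Tuple.total
  rw [← Finset.sum_add_distrib]
  have : ∀ k ∈ (Finset.univ : Finset (SL(2, ℤ) ⧸ Γ)), n + 1 - t.d k + t.d k = n + 1 := by
    intro k _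
    have := hn k
    omega
  rw [Finset.sum_congr rfl this, Finset.sum_const, Finset.card_univ, smul_eq_mul, mul_comm]

/-- **GM1 = COUNT**: `(n + 1) μ - ∑ d_k` linearly independent weakly holomorphic functions of
degree `≤ n`. -/
theorem h66g_count (t : Tuple Γ) (n : ℕ) (hn : ∀ k, t.d k ≤ n) :
    ∃ w : Fin ((n + 1) * Fintype.card (SL(2, ℤ) ⧸ Γ) - t.total) → (ℍ → ℂ),
      (∀ i, IsWH Γ n (w i)) ∧ LinearIndependent ℂ w := by
  have hcard : Fintype.card (H66gIdx t n) =
      (n + 1) * Fintype.card (SL(2, ℤ) ⧸ Γ) - t.total := by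
    have := h66g_card t n hn
    omega
  let e := Fintype.equivFinOfCardEq hcard
  refine ⟨fun i => h66gFam t n (e.symm i), fun i => h66g_fam_isWH t n _, ?_⟩
  exact (h66g_fam_indep t n).comp e.symm e.symm.injective

end

end Fermat.Agent.P7
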