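import Fermat.Agent.P7.H26GenusMatchIface
import Fermat.Agent.P7.H66Count

/-!
# Wave 7, DLOG, row DL6B GENUS-MATCH, leaf GM-INDEP in the frozen shape (helper42)

`h42i_indep : H26mIndep` (the frozen `Prop` of `P7/H26GenusMatchIface.lean`, helper26): for a tuple
`t` of `Γ₀(N)` (`S21/E`) and `n ≥ d_k` for all `k`, there are `r` linearly independent weakly
holomorphic functions of degree `≤ n` with `r + t.total = (n + 1) μ`, `μ = [SL(2,ℤ) : Γ₀(N)]`.

Adapter on top of the landed count of helper66 (`P7/H66Count.lean`: `h66gFam`, `h66g_fam_isWH`,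
`h66g_fam_indep`, `h66g_card`).
-/

set_option autoImplicit false

open UpperHalfPlane hiding I
open CongruenceSubgroup
open scoped MatrixGroups

noncomputable section

namespace Fermat.Agent.P7

open Fermat.Agent.S21.E (IsWH Tuple)

/-- the general form: any subgroup `Γ` of finite index. -/
theorem h42i_indep_gen {Γ : Subgroup SL(2, ℤ)} [Fintype (SL(2, ℤ) ⧸ Γ)]
    [DecidableEq (SL(2, ℤ) ⧸ Γ)] (t : Tuple Γ) (n : ℕ) (hn : ∀ k, t.d k ≤ n) :
    ∃ (r : ℕ) (F : Fin r → ℍ → ℂ), r + t.total = (n + 1) * Γ.index ∧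
      (∀ i, IsWH Γ n (F i)) ∧ LinearIndependent ℂ F := by
  classical
  have hidx : Γ.index = Fintype.card (SL(2, ℤ) ⧸ Γ) := by
    rw [Subgroup.index_eq_card, Nat.card_eq_fintype_card]
  let e := Fintype.equivFin (H66gIdx t n)
  refine ⟨Fintype.card (H66gIdx t n), fun i => h66gFam t n (e.symm i), ?_, ?_, ?_⟩
  · rw [hidx]
    exact h66g_card t n hn
  · intro i
    exact h66g_fam_isWH t n _
  · exact (h66g_fam_indep t n).comp e.symm e.symm.injective

/-- **GM-INDEP**, the frozen shape. -/
theorem h42i_indep : H26mIndep := by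
  intro N _ _ _ t n hn
  exact h42i_indep_gen t n hn

end Fermat.Agent.P7
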