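import Fermat.Agent.P7.H66S0Iface
import Fermat.Agent.Red.KR.Basic
import Fermat.Agent.Red.Desc.Degree

/-!
# Wave 7, DLOG at the non-good level, row H2-S0 (helper66): (D) reduction of norms

`N ∣ N'` levels prime to `p`, `A` over `p`.  If the Gauss valuation of level `N'` has FULL RESIDUE
DEGREE over the one of level `N` (a family `b` of `[FF N' : FF N]` elements with `H87vInd`,
helper87), then for `x ∈ softV A N'`:

* `h66s_norm_mem`   : `Nm x ∈ softV A N`;
* `h66s_norm_unit`  : `x` a Gauss unit `⟹` `Nm x` a Gauss unit;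
* `h66s_trace_mem`  : `Tr x ∈ softV A N`;
* `h66s_norm_red`   : `softR x = softR y`, `y ∈ softV A N` `⟹` `softR (Nm x) = (softR y) ^ d`,
  `d = finrankAlong Kbar (degen h)`.

`h66s_fd_*` : the same for `N = M`, `N' = goodLevel p M` from the frozen Prop `H66sFullDeg`
(`P7/H66S0Iface.lean`).  The norm is `Algebra.norm (FF N)` for `algebraAlong (degen h)`, which is
`Red.KR.normAlong (degen h)` (and `Jac.K1.normAlong (degen h)`) by `rfl`: forms `*_along`.
-/

set_option autoImplicit false
set_option linter.unusedSectionVars false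
set_option linter.style.haveILetI false
set_option linter.unusedVariables false

open AlgebraicCurve ModularCurve

noncomputable section

namespace Fermat.Agent.P7

open Fermat.Agent.S37 Fermat.Agent.Red.GV Fermat.Agent.Red.GV.Soft Fermat.Agent.Red.Desc
open Fermat.Agent.S21.C1

section General

variable {p : ℕ} (hp : p.Prime) (A : ValuationSubring Kbar) (hA : A.LiesOverPrime p)
variable {N N' : ℕ} [NeZero N] [NeZero N'] (h : N ∣ N')

/-- the Gauss valuation of level `N` is the restriction of the one of level `N'`. -/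
theorem h66s_hU :
    letI := algebraAlong (degen h)
    ∀ x : FF N, x ∈ softRing A N hp hA ↔
      algebraMap (FF N) (FF N') x ∈ softRing A N' hp hA := by
  letI := algebraAlong (degen h)
  intro x
  exact (degen_mem_softV_iff A h x).symm

theorem h66s_card :
    letI := algebraAlong (degen h)
    Fintype.card (Fin (finrankAlong Kbar (degen h))) = Module.finrank (FF N) (FF N') := by
  letI := algebraAlong (degen h)
  rw [Fintype.card_fin]
  rfl

/-- **the norm of a Gauss-integral function is Gauss-integral.** -/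
theorem h66s_norm_mem (b : Fin (finrankAlong Kbar (degen h)) → FF N')
    (hb : letI := algebraAlong (degen h)
      H87vInd (softRing A N hp hA) (softRing A N' hp hA) b)
    (x : FF N') (hx : x ∈ softV A N') :
    (letI := algebraAlong (degen h); Algebra.norm (FF N) x) ∈ softV A N := by
  letI := algebraAlong (degen h)
  haveI : Module.Finite (FF N) (FF N') := (finrank_degen_mul N N' h).1
  exact h87v_norm_mem (softRing A N hp hA) (softRing A N' hp hA) (h66s_hU hp A hA h) hb
    (h66s_card h) (y := x) hx

/-- **the trace of a Gauss-integral function is Gauss-integral.** -/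
theorem h66s_trace_mem (b : Fin (finrankAlong Kbar (degen h)) → FF N')
    (hb : letI := algebraAlong (degen h)
      H87vInd (softRing A N hp hA) (softRing A N' hp hA) b)
    (x : FF N') (hx : x ∈ softV A N') :
    (letI := algebraAlong (degen h); Algebra.trace (FF N) (FF N') x) ∈ softV A N := by
  letI := algebraAlong (degen h)
  haveI : Module.Finite (FF N) (FF N') := (finrank_degen_mul N N' h).1
  exact h87v_trace_mem (softRing A N hp hA) (softRing A N' hp hA) (h66s_hU hp A hA h) hb
    (h66s_card h) (y := x) hx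

/-- **the norm of a Gauss unit is a Gauss unit.** -/
theorem h66s_norm_unit (b : Fin (finrankAlong Kbar (degen h)) → FF N')
    (hb : letI := algebraAlong (degen h)
      H87vInd (softRing A N hp hA) (softRing A N' hp hA) b)
    (x : FF N') (hx : x ∈ softV A N') (hx' : x⁻¹ ∈ softV A N') :
    (letI := algebraAlong (degen h); Algebra.norm (FF N) x) ∈ softV A N ∧
      (letI := algebraAlong (degen h); Algebra.norm (FF N) x)⁻¹ ∈ softV A N := by
  letI := algebraAlong (degen h)
  haveI : Module.Finite (FF N) (FF N') := (finrank_degen_mul N N' h).1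
  exact h87v_norm_unit (softRing A N hp hA) (softRing A N' hp hA) (h66s_hU hp A hA h) hb
    (h66s_card h) (y := x) hx hx'

/-- **reduction of the norm**: `softR x = softR y` with `y` of level `N` `⟹`
`softR (Nm x) = (softR y) ^ d`. -/
theorem h66s_norm_red (b : Fin (finrankAlong Kbar (degen h)) → FF N')
    (hb : letI := algebraAlong (degen h)
      H87vInd (softRing A N hp hA) (softRing A N' hp hA) b)
    (x : FF N') (hx : x ∈ softV A N') (y : softV A N)
    (hxy : softR A N' ⟨x, hx⟩ = softR A N y) :
    ∃ hn : (letI := algebraAlong (degen h); Algebra.norm (FF N) x) ∈ softV A N,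
      softR A N ⟨_, hn⟩ = softR A N y ^ finrankAlong Kbar (degen h) := by
  letI := algebraAlong (degen h)
  haveI : Module.Finite (FF N) (FF N') := (finrank_degen_mul N N' h).1
  have hn : Algebra.norm (FF N) x ∈ softV A N := h66s_norm_mem hp A hA h b hb x hx
  refine ⟨hn, ?_⟩
  have hdy : degen h (y : FF N) ∈ softV A N' := (degen_mem_softV_iff A h _).2 y.2
  have hsub : x - degen h (y : FF N) ∈ softV A N' := sub_mem hx hdy
  have h0 : softR A N' ⟨x - degen h (y : FF N), hsub⟩ = 0 := by
    have e : (⟨x - degen h (y : FF N), hsub⟩ : softV A N') =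
        ⟨x, hx⟩ - ⟨degen h (y : FF N), hdy⟩ := rfl
    rw [e, map_sub, softR_degen A h y hdy, hxy, sub_self]
  have hyc : x - algebraMap (FF N) (FF N') (y : FF N) ∈ (softRing A N' hp hA).nonunits :=
    (softR_eq_zero_iff_mem_nonunits A N' hp hA ⟨_, hsub⟩).1 h0
  have hc := h87v_norm_congr (softRing A N hp hA) (softRing A N' hp hA) (h66s_hU hp A hA h) hb
    (h66s_card h) (y := x) hx (c := (y : FF N)) y.2 hyc
  have hd : Module.finrank (FF N) (FF N') = finrankAlong Kbar (degen h) := rfl
  rw [hd] at hc
  have hpow : (y : FF N) ^ finrankAlong Kbar (degen h) ∈ softV A N := pow_mem y.2 _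
  have hsub' : Algebra.norm (FF N) x - (y : FF N) ^ finrankAlong Kbar (degen h) ∈ softV A N :=
    sub_mem hn hpow
  have h1 : softR A N ⟨_, hsub'⟩ = 0 :=
    (softR_eq_zero_iff_mem_nonunits A N hp hA ⟨_, hsub'⟩).2 hc
  have e' : (⟨Algebra.norm (FF N) x - (y : FF N) ^ finrankAlong Kbar (degen h), hsub'⟩ :
      softV A N) = ⟨Algebra.norm (FF N) x, hn⟩ - y ^ finrankAlong Kbar (degen h) := rfl
  rw [e', map_sub, map_pow, sub_eq_zero] at h1
  exact h1

/-- `Red.KR.normAlong` form of `h66s_norm_red`. -/
theorem h66s_norm_red_along (b : Fin (finrankAlong Kbar (degen h)) → FF N')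
    (hb : letI := algebraAlong (degen h)
      H87vInd (softRing A N hp hA) (softRing A N' hp hA) b)
    (x : FF N') (hx : x ∈ softV A N') (y : softV A N)
    (hxy : softR A N' ⟨x, hx⟩ = softR A N y) :
    ∃ hn : Fermat.Agent.Red.KR.normAlong (degen h) x ∈ softV A N,
      softR A N ⟨_, hn⟩ = softR A N y ^ finrankAlong Kbar (degen h) :=
  h66s_norm_red hp A hA h b hb x hx y hxy

/-- `Red.KR.normAlong` form of `h66s_norm_unit`. -/
theorem h66s_norm_unit_along (b : Fin (finrankAlong Kbar (degen h)) → FF N')
    (hb : letI := algebraAlong (degen h)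
      H87vInd (softRing A N hp hA) (softRing A N' hp hA) b)
    (x : FF N') (hx : x ∈ softV A N') (hx' : x⁻¹ ∈ softV A N') :
    Fermat.Agent.Red.KR.normAlong (degen h) x ∈ softV A N ∧
      (Fermat.Agent.Red.KR.normAlong (degen h) x)⁻¹ ∈ softV A N :=
  h66s_norm_unit hp A hA h b hb x hx hx'

end General

section FullDeg

variable (hFD : H66sFullDeg)
variable {p : ℕ} (hp : p.Prime) (M : ℕ) [NeZero M] (hM : ¬ p ∣ M)
variable (A : ValuationSubring Kbar) (hA : A.LiesOverPrime p)

include hFD hM hp hA in
/-- **(D) NORM-MEM** at `goodLevel p M` over `M`. -/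
theorem h66s_fd_norm_mem (x : FF (goodLevel p M)) (hx : x ∈ softV A (goodLevel p M)) :
    Fermat.Agent.Red.KR.normAlong (degen (dvd_goodLevel p M)) x ∈ softV A M := by
  obtain ⟨b, hb⟩ := hFD p hp M hM A hA
  exact h66s_norm_mem hp A hA (dvd_goodLevel p M) b hb x hx

include hFD hM hp hA in
/-- **(D) NORM-UNIT** at `goodLevel p M` over `M`. -/
theorem h66s_fd_norm_unit (x : FF (goodLevel p M)) (hx : x ∈ softV A (goodLevel p M))
    (hx' : x⁻¹ ∈ softV A (goodLevel p M)) :
    Fermat.Agent.Red.KR.normAlong (degen (dvd_goodLevel p M)) x ∈ softV A M ∧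
      (Fermat.Agent.Red.KR.normAlong (degen (dvd_goodLevel p M)) x)⁻¹ ∈ softV A M := by
  obtain ⟨b, hb⟩ := hFD p hp M hM A hA
  exact h66s_norm_unit hp A hA (dvd_goodLevel p M) b hb x hx hx'

include hFD hM hp hA in
/-- **(D) NORM-RED** at `goodLevel p M` over `M`: `softR x = softR y`, `y` of level `M` `⟹`
`softR (Nm x) = (softR y) ^ d`, `d = [FF M⁺ : FF M]`. -/
theorem h66s_fd_norm_red (x : FF (goodLevel p M)) (hx : x ∈ softV A (goodLevel p M))
    (y : softV A M) (hxy : softR A (goodLevel p M) ⟨x, hx⟩ = softR A M y) :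
    ∃ hn : Fermat.Agent.Red.KR.normAlong (degen (dvd_goodLevel p M)) x ∈ softV A M,
      softR A M ⟨_, hn⟩ =
        softR A M y ^ finrankAlong Kbar (degen (dvd_goodLevel p M)) := by
  obtain ⟨b, hb⟩ := hFD p hp M hM A hA
  exact h66s_norm_red hp A hA (dvd_goodLevel p M) b hb x hx y hxy

end FullDeg

end Fermat.Agent.P7
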