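import Fermat.Agent.P5.H50LinkBridge
import Fermat.Agent.P5.H40RRInst
import Fermat.Agent.P5.H38LinkA
import Fermat.Agent.Red.GV.BarGalois
import Fermat.Agent.Red.GV.Asm1
import Fermat.Agent.Red.ModelO.ValCrit
import Fermat.Agent.S28.RAsm

/-!
# P7 (wave 7, row 38), DLOG at the level `M`, sub-leaf (c) PS-INT of H2-LIFT (helper71)

`N` a level prime to `p`, `A` over `p`, `r` a reduction map of places (`H13sIsRed A N r`),
`oo` the `q`-order place of `FF N` and `r oo` the `q`-order place of the special fibre.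

**PS-INT**: a Gauss-integral function `F` without pole in the class of `oo`
(`r v = r oo → 0 ≤ v.ord F`) has its `q`-expansion in `A[[q]]`.  If `F` is a Gauss unit without
zero or pole in the class, the constant term is a unit of `A`.

Proof: `t = 1/j` has a simple zero at `oo` and no other zero or pole in the class (RED-DIV);
`F(oo) ∈ A` (else `1 - F/F(oo)` is a Gauss unit with reduction `1` and a zero in the class);
`(F - F(oo)) / t` is again Gauss-integral without pole in the class; induction.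
-/

set_option autoImplicit false
set_option linter.unusedSectionVars false
set_option linter.unusedVariables false
set_option linter.style.longLine false

open AlgebraicCurve ModularCurve

noncomputable section

namespace Fermat.Agent.P7

open Fermat.Agent.S37 Fermat.Agent.Red.GV Fermat.Agent.P5

/-- coefficient vanishing of a product. -/
theorem h71p_coeff_mul_lt {R : Type*} [CommRing R] {x y : LaurentSeries R} {a b : ℤ}
    (hx : ∀ i : ℤ, i < a → x.coeff i = 0) (hy : ∀ j : ℤ, j < b → y.coeff j = 0) :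
    ∀ l : ℤ, l < a + b → (x * y).coeff l = 0 := by
  intro l hl
  rw [HahnSeries.coeff_mul]
  apply Finset.sum_eq_zero
  rintro ⟨i, j⟩ hij
  rw [Finset.mem_antidiagonal] at hij
  obtain ⟨hi, hj, hsum⟩ := hij
  simp only at hi hj hsum
  exfalso
  have hi' : a ≤ i := by
    by_contra h
    exact hi (hx i (not_le.mp h))
  have hj' : b ≤ j := by
    by_contra h
    exact hj (hy j (not_le.mp h))
  omega

/-- the order of an inverse. -/
theorem h71p_order_inv {k : Type*} [Field k] {x : LaurentSeries k} (hx : x ≠ 0) :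
    (x⁻¹).order = -x.order := by
  have h1 : (x * x⁻¹).order = x.order + (x⁻¹).order :=
    HahnSeries.order_mul hx (inv_ne_zero hx)
  rw [mul_inv_cancel₀ hx, HahnSeries.order_one] at h1
  omega

section Level

variable {N : ℕ} [NeZero N] {p : ℕ} {A : ValuationSubring Kbar}
  {r : Place Kbar (FF N) → Place (h13sK A) (h13sFt A N)}

/-- the `q`-order place is not finite. -/
theorem h71p_not_fin (oo : Place Kbar (FF N))
    (hoo : ∀ x : FF N, x ≠ 0 → oo.ord x = ((x : FF N) : LaurentSeries Kbar).order) :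
    ¬ IsFinAt A oo := by
  rintro ⟨a, -, hval⟩
  have hcoe : ((jB N - cst N a : FF N) : LaurentSeries Kbar) = jK Kbar - HahnSeries.C a := by
    rw [← coe_jB N, ← coe_cst N a]
    rfl
  have hcoeff : ((jB N - cst N a : FF N) : LaurentSeries Kbar).coeff (-1) ≠ 0 := by
    rw [hcoe, HahnSeries.coeff_sub]
    have h1 : (jK Kbar).coeff (-1 : ℤ) = 1 := coeff_jqModC_neg_one Kbar
    have h2 : (HahnSeries.C a : LaurentSeries Kbar).coeff (-1 : ℤ) = 0 := by
      rw [HahnSeries.C_apply, HahnSeries.coeff_single_of_ne (by norm_num)]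
    rw [h1, h2, sub_zero]
    exact one_ne_zero
  have hne : (jB N - cst N a : FF N) ≠ 0 := by
    intro h0
    apply hcoeff
    rw [h0]
    rfl
  have hpos := Fermat.Agent.Red.SM.h31_ord_pos_of_mem_nonunits oo hval hne
  rw [hoo _ hne] at hpos
  have hle := HahnSeries.order_le_of_coeff_ne_zero hcoeff
  omega

/-- `1/j` has no pole in the class of the `q`-order place. -/
theorem h71p_t_nonneg (hr : H13sIsRed A N r) (oo : Place Kbar (FF N))
    (hoo : ∀ x : FF N, x ≠ 0 → oo.ord x = ((x : FF N) : LaurentSeries Kbar).order)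
    (v : Place Kbar (FF N)) (hv : r v = r oo) : 0 ≤ v.ord (jB N)⁻¹ := by
  have hS : SameRed A v oo := (hr.2.1 v oo).1 hv
  rcases hS with ⟨-, hfin, -⟩ | ⟨-, -, hcong⟩
  · exact absurd hfin (h71p_not_fin oo hoo)
  · obtain ⟨a, b, -, -, hva, -, -⟩ := hcong _ (Fermat.Agent.Red.ModelO.h85_jB_inv_mem_modelInf N A)
    exact h38l_ord_nonneg_of_val hva


/-- the coercion of `1/j`. -/
theorem h71p_coe_t : (((jB N)⁻¹ : FF N) : LaurentSeries Kbar) = (jK Kbar)⁻¹ := by
  rw [← coe_jB N]
  rfl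

theorem h71p_order_t : (((jB N)⁻¹ : FF N) : LaurentSeries Kbar).order = 1 := by
  rw [h71p_coe_t]
  have h1 : (jK Kbar)⁻¹.order = -(jK Kbar).order :=
    h71p_order_inv (jqModC_ne_zero_of_nontrivial Kbar)
  have : (jK Kbar).order = -1 := Fermat.Agent.S28.Asm.order_jqModC' Kbar
  rw [h1, this]
  norm_num

theorem h71p_t_ne_zero : ((jB N)⁻¹ : FF N) ≠ 0 := by
  intro h
  have h1 := h71p_order_t (N := N)
  rw [h] at h1
  have h2 : ((0 : FF N) : LaurentSeries Kbar) = 0 := rfl
  rw [h2, HahnSeries.order_zero] at h1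
  exact zero_ne_one h1

/-- the reduction of `1/j` has `q`-order `1`. -/
theorem h71p_gaussR_t (hp : p.Prime) (hN : ¬ p ∣ N) (hA : A.LiesOverPrime p) :
    (gaussR A N ⟨(jB N)⁻¹, jB_inv_mem_gaussV A N hp hN hA⟩).order = 1 := by
  have hmul : (⟨(jB N)⁻¹, jB_inv_mem_gaussV A N hp hN hA⟩ : gaussV A N) *
      ⟨jB N, jB_mem_gaussV A N⟩ = 1 := by
    apply Subtype.ext
    show (jB N)⁻¹ * jB N = 1
    exact inv_mul_cancel₀ (fun h => h71p_t_ne_zero (N := N) (by rw [h, inv_zero]))
  have h1 := congrArg (gaussR A N) hmul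
  rw [map_mul, map_one, gaussR_jB] at h1
  rw [eq_inv_of_mul_eq_one_left h1,
    h71p_order_inv (jqModC_ne_zero_of_nontrivial (IsLocalRing.ResidueField A))]
  have : (jqModC (IsLocalRing.ResidueField A)).order = -1 :=
    Fermat.Agent.S28.Asm.order_jqModC' _
  rw [this]
  norm_num

/-- `1/j` has neither zero nor pole at the places `≠ oo` of the class of `oo`. -/
theorem h71p_t_zero (hp : p.Prime) (hN : ¬ p ∣ N) (hA : A.LiesOverPrime p)
    (hr : H13sIsRed A N r) (oo : Place Kbar (FF N))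
    (hoo : ∀ x : FF N, x ≠ 0 → oo.ord x = ((x : FF N) : LaurentSeries Kbar).order)
    (hQ : ∀ x : gaussV A N, gaussR A N x ≠ 0 →
      (r oo).ord (h13sRed A N x) = (gaussR A N x).order)
    (v : Place Kbar (FF N)) (hv : r v = r oo) (hne : v ≠ oo) : v.ord (jB N)⁻¹ = 0 := by
  classical
  have h0 := h71p_t_nonneg hr oo hoo v hv
  by_contra hnz
  have h1 : 1 ≤ v.ord (jB N)⁻¹ := by omega
  set E : Divisor Kbar (FF N) := Finsupp.single oo (-1) + Finsupp.single v (-1) with hE
  have hjV : ((jB N)⁻¹ : FF N)⁻¹ ∈ gaussV A N := by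
    rw [inv_inv]
    exact jB_mem_gaussV A N
  have hge := h50b_ord_red_ge r hr (h40r_base_FF (N := N)) (jB N)⁻¹ h71p_t_ne_zero
    (jB_inv_mem_gaussV A N hp hN hA) hjV E (r oo) (fun v' hv' => by
      rw [hE, Finsupp.add_apply, Finsupp.single_apply, Finsupp.single_apply]
      by_cases e1 : oo = v'
      · subst e1
        rw [if_pos rfl, if_neg hne, hoo _ h71p_t_ne_zero, h71p_order_t]
        norm_num
      · rw [if_neg e1]
        by_cases e2 : v = v'
        · subst e2
          rw [if_pos rfl]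
          omega
        · rw [if_neg e2]
          have := h71p_t_nonneg hr oo hoo v' hv'
          omega)
  have hpush : h13sPush r E (r oo) = -2 := by
    unfold h13sPush
    rw [hE, Finsupp.mapDomain_add, Finsupp.mapDomain_single, Finsupp.mapDomain_single, hv,
      Finsupp.add_apply, Finsupp.single_apply, if_pos rfl]
    norm_num
  have hred : gaussR A N ⟨(jB N)⁻¹, jB_inv_mem_gaussV A N hp hN hA⟩ ≠ 0 := by
    intro h
    have := h71p_gaussR_t (A := A) (N := N) hp hN hA
    rw [h, HahnSeries.order_zero] at this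
    exact zero_ne_one this
  rw [hpush, hQ _ hred, h71p_gaussR_t hp hN hA] at hge
  omega

/-- coefficients of a function regular at the `q`-order place. -/
theorem h71p_coeff_neg (oo : Place Kbar (FF N))
    (hoo : ∀ x : FF N, x ≠ 0 → oo.ord x = ((x : FF N) : LaurentSeries Kbar).order)
    (F : FF N) (hF : 0 ≤ oo.ord F) (i : ℤ) (hi : i < 0) :
    ((F : FF N) : LaurentSeries Kbar).coeff i = 0 := by
  by_cases h0 : F = 0
  · rw [h0]
    rfl
  · apply HahnSeries.coeff_eq_zero_of_lt_order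
    rw [← hoo F h0]
    omega

/-- a nonzero function whose coefficients vanish below `m` has order `≥ m` at `oo`. -/
theorem h71p_ord_ge (oo : Place Kbar (FF N))
    (hoo : ∀ x : FF N, x ≠ 0 → oo.ord x = ((x : FF N) : LaurentSeries Kbar).order)
    (F : FF N) (hF0 : F ≠ 0) (m : ℤ)
    (h : ∀ i : ℤ, i < m → ((F : FF N) : LaurentSeries Kbar).coeff i = 0) : m ≤ oo.ord F := by
  rw [hoo F hF0]
  by_contra hlt
  have hne : ((F : FF N) : LaurentSeries Kbar) ≠ 0 := by
    intro h1
    apply hF0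
    exact Subtype.ext h1
  exact (HahnSeries.coeff_order_eq_zero.not.mpr hne) (h _ (not_le.mp hlt))

/-- **the value at `oo` is in `A`.** -/
theorem h71p_value_mem (hp : p.Prime) (hN : ¬ p ∣ N) (hA : A.LiesOverPrime p)
    (hr : H13sIsRed A N r) (oo : Place Kbar (FF N))
    (hoo : ∀ x : FF N, x ≠ 0 → oo.ord x = ((x : FF N) : LaurentSeries Kbar).order)
    (F : FF N) (hF : F ∈ gaussV A N) (hpole : ∀ v, r v = r oo → 0 ≤ v.ord F) :
    ((F : FF N) : LaurentSeries Kbar).coeff 0 ∈ A := by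
  by_contra hnot
  set a₀ : Kbar := ((F : FF N) : LaurentSeries Kbar).coeff 0 with ha₀
  have ha0 : a₀ ≠ 0 := by
    intro h
    apply hnot
    rw [h]
    exact A.zero_mem
  have hcA : a₀⁻¹ ∈ A := (A.mem_or_inv_mem a₀).resolve_left hnot
  have hcnu : -a₀⁻¹ ∈ A.nonunits := by
    rw [ValuationSubring.mem_nonunits_iff_or]
    right
    rw [inv_neg, inv_inv]
    intro h
    apply hnot
    have := A.neg_mem _ h
    rwa [neg_neg] at this
  obtain ⟨hG0, hGi⟩ := one_add_cst_mul_inv_mem_gaussV A N hp hN hA (-a₀⁻¹) hcnu F hF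
  have hcst : cst N (-a₀⁻¹) ∈ gaussV A N :=
    (cst_mem_gaussV_iff A N hA _).2 (ValuationSubring.nonunits_subset hcnu)
  have hGV : 1 + cst N (-a₀⁻¹) * F ∈ gaussV A N :=
    add_mem (one_mem _) (mul_mem hcst hF)
  -- the reduction of `G` is `1`
  have hredG : gaussR A N ⟨1 + cst N (-a₀⁻¹) * F, hGV⟩ = 1 := by
    have e : (⟨1 + cst N (-a₀⁻¹) * F, hGV⟩ : gaussV A N) =
        1 + ⟨cst N (-a₀⁻¹), hcst⟩ * ⟨F, hF⟩ := rfl
    rw [e, map_add, map_one, map_mul, gaussR_cst_of_nonunit A N hA _ hcnu hcst, zero_mul]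
    exact add_zero _
  have hred1 : h13sRed A N ⟨1 + cst N (-a₀⁻¹) * F, hGV⟩ = 1 := by
    apply (h13sIncl A N).toRingHom.injective
    show h13sIncl A N (h13sRed A N ⟨1 + cst N (-a₀⁻¹) * F, hGV⟩) = h13sIncl A N 1
    rw [h13sIncl_red, hredG, map_one]
    rfl
  -- `G` is regular on the class and vanishes at `oo`
  have hreg : ∀ v, r v = r oo → 0 ≤ v.ord (1 + cst N (-a₀⁻¹) * F) := by
    intro v hv
    apply Fermat.Agent.S24.DiffPlace.ord_nonneg_of_mem
    exact add_mem (one_mem _) (mul_mem (v.algebraMap_mem' _)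
      (Fermat.Agent.S24.DiffPlace.mem_of_ord_nonneg v (hpole v hv)))
  have hcoe : ((1 + cst N (-a₀⁻¹) * F : FF N) : LaurentSeries Kbar) =
      1 + HahnSeries.C (-a₀⁻¹) * ((F : FF N) : LaurentSeries Kbar) := by
    rw [← coe_cst N (-a₀⁻¹)]
    rfl
  have hpos : 1 ≤ oo.ord (1 + cst N (-a₀⁻¹) * F) := by
    apply h71p_ord_ge oo hoo _ hG0 1
    intro i hi
    rw [hcoe, HahnSeries.coeff_add, HahnSeries.C_mul_eq_smul, HahnSeries.coeff_smul,
      HahnSeries.coeff_one]
    rcases lt_or_eq_of_le (show i ≤ 0 by omega) with hlt | heq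
    · rw [if_neg (by omega), h71p_coeff_neg oo hoo F (hpole oo rfl) i hlt, smul_zero, add_zero]
    · subst heq
      rw [if_pos rfl, ← ha₀, smul_eq_mul, neg_mul, inv_mul_cancel₀ ha0]
      ring
  have h1 := h50b_ord_red_pos r hr (h40r_base_FF (N := N)) _ hG0 hGV hGi (r oo) hreg oo rfl hpos
  rw [hred1, Place.ord_one] at h1
  omega


/-- **the step**: `(F - F(oo)) · j` is again Gauss-integral without pole in the class. -/
theorem h71p_step (hp : p.Prime) (hN : ¬ p ∣ N) (hA : A.LiesOverPrime p)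
    (hr : H13sIsRed A N r) (oo : Place Kbar (FF N))
    (hoo : ∀ x : FF N, x ≠ 0 → oo.ord x = ((x : FF N) : LaurentSeries Kbar).order)
    (hQ : ∀ x : gaussV A N, gaussR A N x ≠ 0 →
      (r oo).ord (h13sRed A N x) = (gaussR A N x).order)
    (F : FF N) (hF : F ∈ gaussV A N) (hpole : ∀ v, r v = r oo → 0 ≤ v.ord F)
    (a₀ : Kbar) (ha₀ : a₀ = ((F : FF N) : LaurentSeries Kbar).coeff 0) (haA : a₀ ∈ A) :
    (F - cst N a₀) * jB N ∈ gaussV A N ∧
      ∀ v, r v = r oo → 0 ≤ v.ord ((F - cst N a₀) * jB N) := by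
  refine ⟨mul_mem (sub_mem hF ((cst_mem_gaussV_iff A N hA _).2 haA)) (jB_mem_gaussV A N), ?_⟩
  intro v hv
  by_cases hvo : v = oo
  · subst hvo
    by_cases h0 : (F - cst N a₀) * jB N = 0
    · rw [h0, Place.ord_zero]
    · apply h71p_ord_ge v hoo _ h0 0
      have hcoe : (((F - cst N a₀) * jB N : FF N) : LaurentSeries Kbar) =
          (((F : FF N) : LaurentSeries Kbar) - HahnSeries.C a₀) * jK Kbar := by
        rw [← coe_cst N a₀, ← coe_jB N]
        rfl
      rw [hcoe]
      have h1 : ∀ i : ℤ, i < 1 →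
          (((F : FF N) : LaurentSeries Kbar) - HahnSeries.C a₀).coeff i = 0 := by
        intro i hi
        rw [HahnSeries.coeff_sub, HahnSeries.C_apply]
        rcases lt_or_eq_of_le (show i ≤ 0 by omega) with hlt | heq
        · rw [h71p_coeff_neg v hoo F (hpole v rfl) i hlt,
            HahnSeries.coeff_single_of_ne (by omega), sub_zero]
        · subst heq
          rw [HahnSeries.coeff_single_same, ← ha₀, sub_self]
      have h2 : ∀ j : ℤ, j < -1 → (jK Kbar).coeff j = 0 := fun j hj =>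
        coeff_jqModC_of_lt Kbar hj
      intro i hi
      exact h71p_coeff_mul_lt h1 h2 i (by omega)
  · apply Fermat.Agent.S24.DiffPlace.ord_nonneg_of_mem
    refine mul_mem (sub_mem (Fermat.Agent.S24.DiffPlace.mem_of_ord_nonneg v (hpole v hv))
      (v.algebraMap_mem' _)) ?_
    apply Fermat.Agent.S24.DiffPlace.mem_of_ord_nonneg
    have h1 := h71p_t_zero hp hN hA hr oo hoo hQ v hv hvo
    rw [Place.ord_inv] at h1
    omega

/-- **approximation**: the coefficients below `n` are those of a series over `A`. -/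
theorem h71p_approx (hp : p.Prime) (hN : ¬ p ∣ N) (hA : A.LiesOverPrime p)
    (hr : H13sIsRed A N r) (oo : Place Kbar (FF N))
    (hoo : ∀ x : FF N, x ≠ 0 → oo.ord x = ((x : FF N) : LaurentSeries Kbar).order)
    (hQ : ∀ x : gaussV A N, gaussR A N x ≠ 0 →
      (r oo).ord (h13sRed A N x) = (gaussR A N x).order) (n : ℕ) :
    ∀ F : FF N, F ∈ gaussV A N → (∀ v, r v = r oo → 0 ≤ v.ord F) →
      ∃ b : LaurentSeries A, (∀ i : ℤ, i < 0 → b.coeff i = 0) ∧
        ∀ i : ℤ, i < n → ((F : FF N) : LaurentSeries Kbar).coeff i = (embA A b).coeff i := by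
  induction n with
  | zero =>
    intro F hF hpole
    refine ⟨0, fun i _ => rfl, fun i hi => ?_⟩
    rw [map_zero]
    exact h71p_coeff_neg oo hoo F (hpole oo rfl) i (by exact_mod_cast hi)
  | succ n ih =>
    intro F hF hpole
    have haA := h71p_value_mem hp hN hA hr oo hoo F hF hpole
    set a₀ : Kbar := ((F : FF N) : LaurentSeries Kbar).coeff 0 with ha₀
    obtain ⟨hF1, hpole1⟩ := h71p_step hp hN hA hr oo hoo hQ F hF hpole a₀ ha₀ haA
    obtain ⟨b₁, hb₁0, hb₁⟩ := ih _ hF1 hpole1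
    obtain ⟨τ, -, hτ, -⟩ := Fermat.Agent.Red.GV.Asm.exists_jinvA A (IsLocalRing.residue A)
    have htinv : ∀ j : ℤ, j < 1 → ((jK Kbar)⁻¹).coeff j = 0 := by
      intro j hj
      apply HahnSeries.coeff_eq_zero_of_lt_order
      have := h71p_order_t (N := N)
      rw [h71p_coe_t] at this
      rw [this]
      exact hj
    have hτ0 : ∀ j : ℤ, j < 1 → τ.coeff j = 0 := by
      intro j hj
      have h1 := htinv j hj
      rw [← hτ, Fermat.Agent.Red.GV.h36_embA_coeff] at h1
      exact Subtype.ext h1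
    refine ⟨HahnSeries.C (⟨a₀, haA⟩ : A) + τ * b₁, fun i hi => ?_, fun i hi => ?_⟩
    · rw [HahnSeries.coeff_add, HahnSeries.C_apply, HahnSeries.coeff_single_of_ne (by omega),
        zero_add]
      exact h71p_coeff_mul_lt hτ0 hb₁0 i (by omega)
    · have hjne : jB N ≠ 0 := fun h => h71p_t_ne_zero (N := N) (by rw [h, inv_zero])
      have hFeq : F = cst N a₀ + (jB N)⁻¹ * ((F - cst N a₀) * jB N) := by
        field_simp
        ring
      have hcoe : ((F : FF N) : LaurentSeries Kbar) = HahnSeries.C a₀ +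
          (jK Kbar)⁻¹ * (((F - cst N a₀) * jB N : FF N) : LaurentSeries Kbar) := by
        conv_lhs => rw [hFeq]
        rw [← coe_cst N a₀, ← h71p_coe_t (N := N)]
        rfl
      have hemb : embA A (HahnSeries.C (⟨a₀, haA⟩ : A) + τ * b₁) =
          HahnSeries.C a₀ + (jK Kbar)⁻¹ * embA A b₁ := by
        rw [map_add, map_mul, Fermat.Agent.Red.GV.Asm.embA_C, hτ]
      rw [hcoe, hemb, HahnSeries.coeff_add, HahnSeries.coeff_add]
      congr 1
      have hdiff : ∀ l : ℤ, l < (n : ℤ) →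
          ((((F - cst N a₀) * jB N : FF N) : LaurentSeries Kbar) - embA A b₁).coeff l = 0 := by
        intro l hl
        rw [HahnSeries.coeff_sub, hb₁ l hl, sub_self]
      have h3 := h71p_coeff_mul_lt htinv hdiff i (by push_cast at hi; omega)
      rw [mul_sub, HahnSeries.coeff_sub, sub_eq_zero] at h3
      exact h3

/-- **PS-INT**: a Gauss-integral function without pole in the class of the `q`-order place has
its `q`-expansion in `A[[q]]`. -/
theorem h71p_psInt (hp : p.Prime) (hN : ¬ p ∣ N) (hA : A.LiesOverPrime p)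
    (hr : H13sIsRed A N r) (oo : Place Kbar (FF N))
    (hoo : ∀ x : FF N, x ≠ 0 → oo.ord x = ((x : FF N) : LaurentSeries Kbar).order)
    (hQ : ∀ x : gaussV A N, gaussR A N x ≠ 0 →
      (r oo).ord (h13sRed A N x) = (gaussR A N x).order)
    (F : FF N) (hF : F ∈ gaussV A N) (hpole : ∀ v, r v = r oo → 0 ≤ v.ord F) :
    ∃ b : LaurentSeries A, embA A b = ((F : FF N) : LaurentSeries Kbar) ∧
      ∀ i : ℤ, i < 0 → b.coeff i = 0 := by
  have hc : ∀ n : ℤ, ∃ a : A, ((F : FF N) : LaurentSeries Kbar).coeff n = (a : Kbar) := by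
    intro n
    rcases lt_or_ge n 0 with hn | hn
    · exact ⟨0, h71p_coeff_neg oo hoo F (hpole oo rfl) n hn⟩
    · obtain ⟨b, -, hb⟩ := h71p_approx hp hN hA hr oo hoo hQ (n.toNat + 1) F hF hpole
      refine ⟨b.coeff n, ?_⟩
      rw [hb n (by push_cast; omega)]
      rfl
  choose c hc using hc
  have hc0 : ∀ n : ℤ, n < 0 → c n = 0 := by
    intro n hn
    have h1 := hc n
    rw [h71p_coeff_neg oo hoo F (hpole oo rfl) n hn] at h1
    exact Subtype.ext h1.symm
  have hbdd : BddBelow (Function.support c) := by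
    refine ⟨0, fun n hn => ?_⟩
    by_contra h
    exact hn (hc0 n (not_le.mp h))
  refine ⟨HahnSeries.ofSuppBddBelow c hbdd, ?_, fun i hi => hc0 i hi⟩
  ext n
  rw [Fermat.Agent.Red.GV.h36_embA_coeff, hc n]
  rfl

/-- the values of the coefficients, in the form `∀ n, ∃ a ∈ A`. -/
theorem h71p_coeff_mem (hp : p.Prime) (hN : ¬ p ∣ N) (hA : A.LiesOverPrime p)
    (hr : H13sIsRed A N r) (oo : Place Kbar (FF N))
    (hoo : ∀ x : FF N, x ≠ 0 → oo.ord x = ((x : FF N) : LaurentSeries Kbar).order)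
    (hQ : ∀ x : gaussV A N, gaussR A N x ≠ 0 →
      (r oo).ord (h13sRed A N x) = (gaussR A N x).order)
    (F : FF N) (hF : F ∈ gaussV A N) (hpole : ∀ v, r v = r oo → 0 ≤ v.ord F) (n : ℤ) :
    ((F : FF N) : LaurentSeries Kbar).coeff n ∈ A ∧
      (n < 0 → ((F : FF N) : LaurentSeries Kbar).coeff n = 0) := by
  obtain ⟨b, hb, hb0⟩ := h71p_psInt hp hN hA hr oo hoo hQ F hF hpole
  refine ⟨?_, fun hn => h71p_coeff_neg oo hoo F (hpole oo rfl) n hn⟩
  rw [← hb, Fermat.Agent.Red.GV.h36_embA_coeff]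
  exact (b.coeff n).2

/-- the constant coefficient of a product of two power series. -/
theorem h71p_coeff_mul_zero {R : Type*} [CommRing R] {x y : LaurentSeries R}
    (hx : ∀ i : ℤ, i < 0 → x.coeff i = 0) (hy : ∀ j : ℤ, j < 0 → y.coeff j = 0) :
    (x * y).coeff 0 = x.coeff 0 * y.coeff 0 := by
  rw [HahnSeries.coeff_mul]
  refine Finset.sum_eq_single (⟨0, 0⟩ : ℤ × ℤ) ?_ ?_
  · rintro ⟨i, j⟩ hb hne
    rw [Finset.mem_antidiagonal] at hb
    obtain ⟨hi, hj, hij⟩ := hb
    simp only at hi hj hij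
    exfalso
    have hi' : 0 ≤ i := by
      by_contra h
      exact hi (hx i (not_le.mp h))
    have hj' : 0 ≤ j := by
      by_contra h
      exact hj (hy j (not_le.mp h))
    apply hne
    have e1 : i = 0 := by omega
    have e2 : j = 0 := by omega
    rw [e1, e2]
  · intro hb
    rw [Finset.mem_antidiagonal] at hb
    simp only [HahnSeries.mem_support, ne_eq, add_zero, and_true, not_and, not_not] at hb
    by_cases h : x.coeff 0 = 0
    · rw [h, zero_mul]
    · rw [hb h, mul_zero]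

/-- **PS-INT, unit form**: a Gauss unit without zero or pole in the class of the `q`-order
place has its `q`-expansion in `A[[q]]`, with unit constant term. -/
theorem h71p_psInt_unit (hp : p.Prime) (hN : ¬ p ∣ N) (hA : A.LiesOverPrime p)
    (hr : H13sIsRed A N r) (oo : Place Kbar (FF N))
    (hoo : ∀ x : FF N, x ≠ 0 → oo.ord x = ((x : FF N) : LaurentSeries Kbar).order)
    (hQ : ∀ x : gaussV A N, gaussR A N x ≠ 0 →
      (r oo).ord (h13sRed A N x) = (gaussR A N x).order)
    (F : FF N) (hF0 : F ≠ 0) (hF : F ∈ gaussV A N) (hFi : F⁻¹ ∈ gaussV A N)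
    (hzp : ∀ v, r v = r oo → v.ord F = 0) :
    ∃ b : LaurentSeries A, embA A b = ((F : FF N) : LaurentSeries Kbar) ∧
      (∀ i : ℤ, i < 0 → b.coeff i = 0) ∧ IsUnit (b.coeff 0) := by
  obtain ⟨b, hb, hb0⟩ := h71p_psInt hp hN hA hr oo hoo hQ F hF
    (fun v hv => by rw [hzp v hv])
  obtain ⟨b', hb', hb'0⟩ := h71p_psInt hp hN hA hr oo hoo hQ F⁻¹ hFi
    (fun v hv => by rw [Place.ord_inv, hzp v hv, neg_zero])
  refine ⟨b, hb, hb0, ?_⟩
  have hmul : b * b' = 1 := by
    apply Fermat.Agent.Red.GV.embA_injective A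
    rw [map_mul, map_one, hb, hb']
    have : ((F⁻¹ : FF N) : LaurentSeries Kbar) = ((F : FF N) : LaurentSeries Kbar)⁻¹ := rfl
    rw [this]
    exact mul_inv_cancel₀ (fun h => hF0 (Subtype.ext h))
  have h1 := h71p_coeff_mul_zero hb0 hb'0
  rw [hmul, HahnSeries.coeff_one, if_pos rfl] at h1
  exact IsUnit.of_mul_eq_one _ h1.symm


/-! ### Variants in the shapes of the consumers -/

/-- the hypothesis `hQ` from `r oo = Q`, `Q` the `q`-order place of the special fibre. -/
theorem h71p_hQ_of_place (oo : Place Kbar (FF N)) (Q : Place (h13sK A) (h13sFt A N))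
    (hQ : ∀ f : h13sFt A N, f ≠ 0 → Q.ord f = (h13sIncl A N f).order) (hrQ : r oo = Q) :
    ∀ x : gaussV A N, gaussR A N x ≠ 0 →
      (r oo).ord (h13sRed A N x) = (gaussR A N x).order := by
  intro x hx
  have hne : h13sRed A N x ≠ 0 := by
    intro h
    apply hx
    have := congrArg (h13sIncl A N) h
    rwa [h13sIncl_red, map_zero] at this
  rw [hrQ, hQ _ hne, h13sIncl_red]
  rfl

/-- **PS-INT**, with the class of `oo` given by `SameRed` and `r oo = Q`. -/
theorem h71p_psInt_sameRed (hp : p.Prime) (hN : ¬ p ∣ N) (hA : A.LiesOverPrime p)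
    (hr : H13sIsRed A N r) (oo : Place Kbar (FF N))
    (hoo : ∀ x : FF N, x ≠ 0 → oo.ord x = ((x : FF N) : LaurentSeries Kbar).order)
    (Q : Place (h13sK A) (h13sFt A N))
    (hQ : ∀ f : h13sFt A N, f ≠ 0 → Q.ord f = (h13sIncl A N f).order) (hrQ : r oo = Q)
    (F : FF N) (hF : F ∈ gaussV A N) (hpole : ∀ v, SameRed A v oo → 0 ≤ v.ord F) :
    ∃ b : LaurentSeries A, embA A b = ((F : FF N) : LaurentSeries Kbar) ∧
      ∀ i : ℤ, i < 0 → b.coeff i = 0 :=
  h71p_psInt hp hN hA hr oo hoo (h71p_hQ_of_place oo Q hQ hrQ) F hF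
    (fun v hv => hpole v ((hr.2.1 v oo).1 hv))

/-- **PS-INT, unit form**, with the class of `oo` given by `SameRed` and `r oo = Q`. -/
theorem h71p_psInt_unit_sameRed (hp : p.Prime) (hN : ¬ p ∣ N) (hA : A.LiesOverPrime p)
    (hr : H13sIsRed A N r) (oo : Place Kbar (FF N))
    (hoo : ∀ x : FF N, x ≠ 0 → oo.ord x = ((x : FF N) : LaurentSeries Kbar).order)
    (Q : Place (h13sK A) (h13sFt A N))
    (hQ : ∀ f : h13sFt A N, f ≠ 0 → Q.ord f = (h13sIncl A N f).order) (hrQ : r oo = Q)
    (F : FF N) (hF0 : F ≠ 0) (hF : F ∈ gaussV A N) (hFi : F⁻¹ ∈ gaussV A N)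
    (hzp : ∀ v, SameRed A v oo → v.ord F = 0) :
    ∃ b : LaurentSeries A, embA A b = ((F : FF N) : LaurentSeries Kbar) ∧
      (∀ i : ℤ, i < 0 → b.coeff i = 0) ∧ IsUnit (b.coeff 0) :=
  h71p_psInt_unit hp hN hA hr oo hoo (h71p_hQ_of_place oo Q hQ hrQ) F hF0 hF hFi
    (fun v hv => hzp v ((hr.2.1 v oo).1 hv))

/-- the reduction of a function with `q`-expansion `embA b` is `redA b`; with PS-INT: the
Gauss reduction of `F` is the coefficientwise reduction of its `q`-expansion. -/
theorem h71p_gaussR_eq (F : FF N) (hF : F ∈ gaussV A N) (b : LaurentSeries A)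
    (hb : embA A b = ((F : FF N) : LaurentSeries Kbar)) :
    gaussR A N ⟨F, hF⟩ = redA (IsLocalRing.residue A) b :=
  gaussRed_of_embA A (IsLocalRing.residue A) N ⟨F, hF⟩ b hb

end Level

end Fermat.Agent.P7
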