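import Fermat.Agent.P7.H19OrthTop
import Fermat.Agent.P7.H38OrthBack
import Fermat.Agent.P7.H44OrthLift
import Fermat.Agent.P7.H48Eval
import Fermat.Agent.P7.H31GoingUp
import Fermat.Agent.P7.H71PsInt
import Fermat.Agent.P7.H66S0Norm
import Fermat.Agent.P7.H96FullDeg
import Fermat.Agent.P7.H56SymFinal
import Fermat.Agent.P7.H1S2
import Fermat.Agent.P7.H93QIntM
import Fermat.Agent.P7.H98mDeg
import Fermat.Agent.P7.H37ConstM
import Fermat.Agent.P7.H37GapLevel
import Fermat.Agent.P7.H10IntQ
import Fermat.Agent.P5.H88RedDivFinal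
import Fermat.Agent.P7.H3DlogFinal3
import Fermat.Agent.Red.NormLocAux
import Fermat.Agent.Red.MatchLoc

/-!
# Wave 7 (row 38), DLOG at the non-good level: ORTH(M), assembly (helper42, prefix `h42o_`)

`h42o_orthNorm p : H19oOrthNormM p` (helper19's normalised form of ORTH(M)) from the landed
leaves: RED-DIV (`h88r_redDiv`), (S2) (`h1i_s2`), SYM-LITE (`h56s_symLiteUnit_final`), the exact
lift (`h44o_exact_lift`), FULL-DEG + NORM-RED (`h96h_fullDeg`, `h66s_fd_norm_red`), DISC
(`h31d_degen_norm_ord_eq_zero`), PS-INT (`h71p_psInt_unit`), INT(M) (`h93m_int`), EVAL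
(`h48e_eval_along`) and the back half (`h38o_orth_back_pow`).

Then `h42o_orthM p : H3gOrthM p` and `h42o_s44` : the frozen statement S44.

Every declaration is a proved theorem; nothing is assumed.
-/

set_option autoImplicit false
set_option linter.unusedSectionVars false
set_option linter.unusedVariables false
set_option linter.style.haveILetI false
set_option linter.style.longLine false
set_option synthInstance.maxHeartbeats 400000
set_option maxHeartbeats 1600000

open ModularCurve AlgebraicCurve IsLocalRing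

noncomputable section

namespace Fermat.Agent.P7

open Fermat.Agent.S37 Fermat.Agent.Red Fermat.Agent.Red.GV Fermat.Agent.Red.GV.Soft
  Fermat.Agent.LGC Fermat.Agent.Jac.K1 Fermat.Agent.P5
open Fermat.Agent.Red.CH0 (isIntegral_degen)

/-- **ORTH(M), normalised form.** -/
theorem h42o_orthNorm (p : ℕ) : H19oOrthNormM p := by
  classical
  intro hp h5 M _ hM A hA Q hQ y hy hg hy0 hyi hgi ho hdiv f hf hreg
  haveI : NeZero p := ⟨hp.ne_zero⟩
  haveI : CharP (ResidueField A) p := h10x_charP A hp hA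
  have hd : M ∣ goodLevel p M := dvd_goodLevel p M
  have hMp : ¬ p ∣ goodLevel p M := not_dvd_goodLevel hp hM
  have haux : auxLevel p ∣ goodLevel p M := auxLevel_dvd_goodLevel p M
  obtain ⟨r, hr⟩ := h88r_redDiv p hp (goodLevel p M) hMp haux A hA
  obtain ⟨oo, hoo⟩ := h37n_place_infty (goodLevel p M)
  obtain ⟨Qb, hQb⟩ := h37g_place_infty A (goodLevel p M)
  have hrQ : r oo = Qb :=
    h1i_s2 p hp (goodLevel p M) hMp haux A hA r hr Qb (fun x hx => (hQb x hx).symm) oo
      (fun x hx => (hoo x hx).symm)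
  have hooQ : oo.restrictAlong (degen hd) (isIntegral_degen hd) = Q :=
    h37k_restrict_infty hd Q oo hQ hoo
  have hVeq : softV A (goodLevel p M) = gaussV A (goodLevel p M) :=
    softV_eq_gaussV A (goodLevel p M) hp hMp hA
  -- the reduction of `degen y` at the good level
  have hys : degen hd y ∈ softV A (goodLevel p M) := (degen_mem_softV_iff A hd y).mpr hy
  have hincl : h13sIncl A (goodLevel p M) (h13sRed A (goodLevel p M) ⟨degen hd y, hg⟩) =
      softR A M ⟨y, hy⟩ := by
    rw [h13sIncl_red, ← softR_eq_gaussR A (goodLevel p M) (degen hd y) hys hg]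
    exact softR_degen A hd ⟨y, hy⟩ hys
  have hs0 : softR A M ⟨y, hy⟩ ≠ 0 := (softR_ne_zero_iff A M ⟨y, hy⟩).mpr ⟨hy0, hyi⟩
  have hsp0 : h13sRed A (goodLevel p M) ⟨degen hd y, hg⟩ ≠ 0 := by
    intro h
    rw [h, map_zero] at hincl
    exact hs0 hincl.symm
  -- the finite set `S` of the reductions of the places over `Q`
  have hB : H13rBase Kbar (FF (goodLevel p M)) := h40r_base_FF (goodLevel p M)
  have ht0 : degen hd ((jB M)⁻¹) ≠ 0 :=
    (map_ne_zero_iff _ (degen hd).injective).mpr (h71p_t_ne_zero (N := M))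
  obtain ⟨D, hD, -⟩ := hB.pd (degen hd ((jB M)⁻¹)) ht0
  have hQt : Q.ord ((jB M)⁻¹) = 1 := by
    rw [← hQ _ (h71p_t_ne_zero (N := M))]
    exact h71p_order_t (N := M)
  have hgi' : degen hd y⁻¹ ∈ gaussV A (goodLevel p M) := by
    rw [map_inv₀]
    exact hgi
  set S : Finset (Place (h13sK A) (h13sFt A (goodLevel p M))) :=
    (D.support.image r).filter
      (fun Q' => Q'.ord (h13sRed A (goodLevel p M) ⟨degen hd y, hg⟩) = 0) with hS
  have hSmem : ∀ c : Place Kbar (FF (goodLevel p M)),
      c.restrictAlong (degen hd) (isIntegral_degen hd) = Q → r c ∈ S := by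
    intro c hc
    rw [hS, Finset.mem_filter]
    refine ⟨Finset.mem_image_of_mem r ?_, ?_⟩
    · rw [Finsupp.mem_support_iff, hD c, Place.ord_restrictAlong (degen hd) (isIntegral_degen hd),
        hc, hQt, mul_one]
      have := Fermat.Agent.Red.NLA.h87_ramificationIndexAlong_pos (degen hd) (isIntegral_degen hd) c
      exact_mod_cast this.ne'
    · exact h56s_symLiteUnit_final p hp M hM A hA r hr Q (fun x hx => (hQ x hx).symm) c hc y hy
        hyi hg hgi' ho
  -- the exact lift
  obtain ⟨g', hg'V, hg'i, hg'red, hg'off⟩ := h44o_exact_lift hp hMp haux hA r hr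
    (h13sRed A (goodLevel p M) ⟨degen hd y, hg⟩) hsp0 S
    (fun Q' hQ' => (Finset.mem_filter.mp hQ').2)
  have hoff : ∀ w c : Place Kbar (FF (goodLevel p M)), w.ord g' ≠ 0 →
      c.restrictAlong (degen hd) (isIntegral_degen hd) = Q → r c ≠ r w := by
    intro w c hw hc h
    exact hg'off w hw (h ▸ hSmem c hc)
  have hg'0 : g' ≠ 0 := by
    rintro rfl
    apply hsp0
    rw [← hg'red]
    exact h88r_red_zero (A := A) (M := goodLevel p M)
  have hg's : g' ∈ softV A (goodLevel p M) := by rw [hVeq]; exact hg'V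
  have hg'is : g'⁻¹ ∈ softV A (goodLevel p M) := by rw [hVeq]; exact hg'i
  have hxy : softR A (goodLevel p M) ⟨g', hg's⟩ = softR A M ⟨y, hy⟩ := by
    rw [softR_eq_gaussR A (goodLevel p M) g' hg's hg'V, ← h13sIncl_red, hg'red, hincl]
  -- the norm
  obtain ⟨hgM, hgMi⟩ := h66s_fd_norm_unit h96h_fullDeg hp M hM A hA g' hg's hg'is
  obtain ⟨hn, hnred⟩ := h66s_fd_norm_red h96h_fullDeg hp M hM A hA g' hg's ⟨y, hy⟩ hxy
  have hg0 : Fermat.Agent.Red.KR.normAlong (degen hd) g' ≠ 0 := by
    intro h0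
    have h1 : softR A M ⟨_, hn⟩ = 0 := by
      rw [softR_eq_zero_iff]
      exact Or.inl h0
    rw [hnred] at h1
    exact pow_ne_zero _ hs0 h1
  have hF : degen hd (Fermat.Agent.Red.KR.normAlong (degen hd) g') ∈ gaussV A (goodLevel p M) := by
    rw [← hVeq]
    exact (degen_mem_softV_iff A hd _).mpr hgM
  have hFi : (degen hd (Fermat.Agent.Red.KR.normAlong (degen hd) g'))⁻¹ ∈
      gaussV A (goodLevel p M) := by
    rw [← map_inv₀, ← hVeq]
    exact (degen_mem_softV_iff A hd _).mpr hgMi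
  have hF0 : degen hd (Fermat.Agent.Red.KR.normAlong (degen hd) g') ≠ 0 :=
    (map_ne_zero_iff _ (degen hd).injective).mpr hg0
  have hzp : ∀ v : Place Kbar (FF (goodLevel p M)), r v = r oo →
      v.ord (degen hd (Fermat.Agent.Red.KR.normAlong (degen hd) g')) = 0 := by
    intro v hv
    refine h31d_degen_norm_ord_eq_zero hd hr g' hg'0 oo (fun c v' hc hv' => ?_) v hv
    by_contra hne
    exact hoff v' c hne (hc.trans hooQ) hv'.symm
  obtain ⟨b, hb, hbneg, hbunit⟩ := h71p_psInt_unit hp hMp hA hr oo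
    (fun x hx => (hoo x hx).symm)
    (h71p_hQ_of_place oo Qb (fun x hx => (hQb x hx).symm) hrQ)
    (degen hd (Fermat.Agent.Red.KR.normAlong (degen hd) g')) hF0 hF hFi hzp
  have hb' : embA A b =
      (((Fermat.Agent.Red.KR.normAlong (degen hd) g' : FF M)) : LaurentSeries Kbar) := by
    rw [hb, coe_degen]
  -- INT(M) for `f` and its values
  obtain ⟨a, ha⟩ := h93m_int hp hM hA Q hQ f hf
    (fun v hv => Fermat.Agent.S24.DiffPlace.mem_of_ord_nonneg v (hreg v hv))
  have hval : ∀ v : Place Kbar (FF M), ∃ c : Kbar, v ≠ Q → ValueAt v f c := by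
    intro v
    by_cases hv : v = Q
    · exact ⟨0, fun h => absurd hv h⟩
    · obtain ⟨c, hc⟩ := Fermat.Agent.Red.Match.exists_valueAt v
        (Fermat.Agent.S24.DiffPlace.mem_of_ord_nonneg v (hreg v hv))
      exact ⟨c, fun _ => hc⟩
  choose fv hfv using hval
  -- the support of `div g'`
  obtain ⟨Dg, hDg, -⟩ := hB.pd g' hg'0
  have hS1 : ∀ w ∈ Dg.support,
      w.restrictAlong (degen hd) (isIntegral_degen hd) ≠ Q := by
    intro w hw hc
    have hw' : w.ord g' ≠ 0 := by
      rw [← hDg w]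
      exact Finsupp.mem_support_iff.mp hw
    exact hoff w w hw' hc rfl
  have hS2 : ∀ w : Place Kbar (FF (goodLevel p M)),
      w.restrictAlong (degen hd) (isIntegral_degen hd) ≠ Q → w.ord g' ≠ 0 → w ∈ Dg.support := by
    intro w _ hw
    rw [Finsupp.mem_support_iff, hDg w]
    exact hw
  have hFf : degen hd f ∈ gaussV A (goodLevel p M) := by
    rw [← hVeq]
    exact (degen_mem_softV_iff A hd f).mpr (gaussV_le_softV A M hf)
  have hsum := h48e_eval_along A hp hMp hA r hr (degen hd) (isIntegral_degen hd) Q f hreg fv hfv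
    hFf g' hg'0 hg'V hg'i (fun Q' => by rw [hg'red]; exact hdiv Q') hoff Dg.support hS2
  -- the reduction of the norm
  have hdk : ((finrankAlong Kbar (degen hd) : ℕ) : ResidueField A) ≠ 0 := by
    intro h0
    have h1 := (CharP.cast_eq_zero_iff (ResidueField A) p _).mp h0
    have h2 := h98m_deg_coprime hp h5 M
    have h3 : p ∣ Nat.gcd (finrankAlong Kbar (degen (dvd_goodLevel p M))) p :=
      Nat.dvd_gcd h1 dvd_rfl
    rw [Nat.Coprime] at h2
    rw [h2] at h3
    exact hp.one_lt.ne' (Nat.dvd_one.mp h3)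
  have hred : redA (residue A) b =
      HahnSeries.C (1 : ResidueField A) *
        softR A M ⟨y, hy⟩ ^ finrankAlong Kbar (degen hd) := by
    rw [map_one, one_mul, ← hnred]
    exact (softR_of_embA A M ⟨_, hn⟩ b hb').symm
  exact h38o_orth_back_pow A hd Q hQ f hf hreg a ha fv hfv g' hg'0 b hb' hbneg hbunit
    (softR A M ⟨y, hy⟩) hs0 (finrankAlong Kbar (degen hd)) hdk 1 one_ne_zero hred
    Dg.support hS1 hS2 hsum

/-- **ORTH(M)**, helper3's primitive form. -/
theorem h42o_orthM (p : ℕ) : H3gOrthM p := h19o_orthM_of_norm (h42o_orthNorm p)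

/-- **the frozen statement S44.** -/
theorem h42o_s44 (P : FreyPackage) {N : ℕ} (hcond : P.IsConductorLevel N) (hpN : P.p ∣ N)
    (hirr : WeierstrassCurve.Affine.Point.GaloisRepIsIrreducible (K := AlgebraicClosure ℚ) ℚ
      P.freyCurve P.p)
    (hmod : P.ModularRepOfLevel N) :
    ∃ M : ℕ, M ∣ N ∧ ¬ P.p ∣ M ∧ P.ModularRepOfLevel M :=
  h3g_s44_of_orth (fun p _ => h42o_orthM p) P hcond hpN hirr hmod

end Fermat.Agent.P7
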