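import Fermat.Agent.P6.H25KummerPlus
import Fermat.Agent.P6.H63TorNode
import Fermat.Agent.P6.H71PU
import Fermat.Agent.LGC.Gal75

/-!
# P7 (wave 7, S40), block (5) TORIC, last step (helper94): START + NEW ⇒ TORIC

Setting: `p` an odd prime, `M` ANY level with `p ∤ M`, `N = M * p`, `A` a valuation subring of
`ℚ̄` over `p`, `I` the inertia group of `A`, `W_∞ = softV A N` the Gauss valuation ring of the
component at infinity, `r = p ^ k`.

* `h94w_twGateAt` : the function form of NEW+ at EVERY level `M * p`, `p ∤ M`, unconditional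
  (landed TOR-GATE-p `h63t_torGate`, ladder `h94i_iter`, descent `h25p_twGateAt_descent`).
* `h94w_toric_of_start` : **START + NEW ⇒ TORIC**, torsion form: a class `x` of `J₀(M p)` with
  `α_* x = β_* x = 0` which has a Kummer representative `w` (`IsKummerPair (p ^ k) x w`) with
  the start congruence `w = h ^ r (1 + c s)`, `c ∈ 𝔪_A`, `s ∈ W_∞`, satisfies `τ x = a x` for
  every `τ ∈ I` acting on `μ_{p^k}` by the exponent `a`.
* `h94w_start_of_one` : the start congruence from the reduction: if `w / g ^ r` is a unit of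
  `W_∞` with reduction `1` (i.e. the reduction of `w` at `W_∞` is an `r`-th power), then `w` has
  the start congruence, with a NONZERO `c ∈ 𝔪_A`.
* `h94w_toric_of_one` : the combination.

So the block (5) TORIC of wave 7 is reduced to: the reduction at `W_∞` of a Kummer
representative is a `p`-th power.  Nothing is assumed.
-/

set_option autoImplicit false
set_option linter.unusedSectionVars false
set_option linter.unusedVariables false
set_option linter.style.haveILetI false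
set_option synthInstance.maxHeartbeats 400000

open AlgebraicCurve ModularCurve

noncomputable section

namespace Fermat.Agent.P7

open Fermat.Agent.S37 Fermat.Agent.Red.KR Fermat.Agent.Red.Kron Fermat.Agent.LGC
  Fermat.Agent.S35 Fermat.Agent.P6
open Fermat.Agent.Red.GV Fermat.Agent.Red.GV.Soft
open Fermat.Agent.Jac.K1 (IsKummerPair)

/-- **NEW+, function form, at every level** `M * p`, `p ∤ M` (unconditional). -/
theorem h94w_twGateAt {p : ℕ} (hp : p.Prime) (hp2 : p ≠ 2) (M : ℕ) [NeZero M] (hpM : ¬ p ∣ M)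
    (A : ValuationSubring Kbar) (hA : A.LiesOverPrime p) {τ : GQ}
    (hτ : τ ∈ A.inertiaSubgroupIn ℚ) :
    haveI : NeZero p := ⟨hp.ne_zero⟩; H25pTwGateAt p M A τ := by
  haveI : NeZero p := ⟨hp.ne_zero⟩
  exact h25p_twGateAt_descent hp M hpM A τ
    (h11n_twGate_of_tor h63t_torGate p hp hp2 (goodLevel p M) (not_dvd_goodLevel hp hpM)
      (auxLevel_dvd_goodLevel p M) A hA τ hτ)

/-- **START + NEW ⇒ TORIC** (torsion form, every level `M * p`, `p ∤ M`). -/
theorem h94w_toric_of_start {p : ℕ} (hp : p.Prime) (hp2 : p ≠ 2) (M : ℕ) [NeZero M]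
    (hpM : ¬ p ∣ M) (A : ValuationSubring Kbar) (hA : A.LiesOverPrime p) :
    haveI : NeZero p := ⟨hp.ne_zero⟩
    ∀ τ ∈ A.inertiaSubgroupIn ℚ, ∀ (k a : ℕ), H11Cyc p k τ a →
    ∀ (x : JZero (M * p)) (w : FF (M * p)), IsKummerPair (p ^ k) x w →
      pushAlpha M p x = 0 → pushBeta M p x = 0 →
      (∃ c ∈ A.nonunits, h94iDeep A M p (p ^ k) w c) →
      τ • x = a • x := by
  haveI : NeZero p := ⟨hp.ne_zero⟩
  intro τ hτ k a ha x w hw hα hβ hstart
  have hn : p ^ k ≠ 0 := pow_ne_zero _ hp.ne_zero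
  obtain ⟨g₁, -, hg₁⟩ := h33s_norm_eq_pow_of_pushAlpha M p hn hw hα
  obtain ⟨g₂, -, hg₂⟩ := h33s_norm_eq_pow_of_pushBeta M p hn hw hβ
  obtain ⟨h, hh⟩ := h94w_twGateAt hp hp2 M hpM A hA hτ k a ha w hw.ne_zero
    (fun v => hw.dvd_ord v) ⟨⟨g₁, hg₁⟩, ⟨g₂, hg₂⟩⟩ hstart
  exact h25p_class_of_pow (M * p) τ a hn hw h hh

/-- **the start congruence from the reduction**: if `w / g ^ r` has reduction `1` at the Gauss
valuation `W_∞`, then `w = h ^ r (1 + c s)` with a nonzero `c ∈ 𝔪_A` and `s ∈ W_∞`. -/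
theorem h94w_start_of_one {ℓ : ℕ} (hℓ : ℓ.Prime) (M : ℕ) [NeZero M] [NeZero ℓ]
    (A : ValuationSubring Kbar) (hA : A.LiesOverPrime ℓ) (r : ℕ) {w g : FF (M * ℓ)}
    (hg : g ≠ 0) (h1 : h75q_One A (M * ℓ) (w * (g ^ r)⁻¹)) :
    ∃ c ∈ A.nonunits, c ≠ 0 ∧ h94iDeep A M ℓ r w c := by
  obtain ⟨hmem, hred⟩ := h1
  have hsub : w * (g ^ r)⁻¹ - 1 ∈ softV A (M * ℓ) := sub_mem hmem (one_mem _)
  have hred0 : softR A (M * ℓ) ⟨w * (g ^ r)⁻¹ - 1, hsub⟩ = 0 := by
    have e : (⟨w * (g ^ r)⁻¹ - 1, hsub⟩ : softV A (M * ℓ)) = ⟨w * (g ^ r)⁻¹, hmem⟩ - 1 := rfl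
    rw [e, map_sub, map_one, hred, sub_self]
  obtain ⟨π, hπ, hπ0, z, hz, e⟩ := h71u_exists_depth A (M * ℓ) hℓ hA _ hsub hred0
  refine ⟨π, hπ, hπ0, g, hg, z, hz, ?_⟩
  have hgr : g ^ r ≠ 0 := pow_ne_zero _ hg
  have e' : w * (g ^ r)⁻¹ = 1 + cst (M * ℓ) π * z := by
    rw [← e]
    ring
  calc w = g ^ r * (w * (g ^ r)⁻¹) := by field_simp
    _ = g ^ r * (1 + cst (M * ℓ) π * z) := by rw [e']

/-- **TORIC from the reduction**: a new class whose Kummer representative has an `r`-th power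
reduction at `W_∞` is toric. -/
theorem h94w_toric_of_one {p : ℕ} (hp : p.Prime) (hp2 : p ≠ 2) (M : ℕ) [NeZero M]
    (hpM : ¬ p ∣ M) (A : ValuationSubring Kbar) (hA : A.LiesOverPrime p) :
    haveI : NeZero p := ⟨hp.ne_zero⟩
    ∀ τ ∈ A.inertiaSubgroupIn ℚ, ∀ (k a : ℕ), H11Cyc p k τ a →
    ∀ (x : JZero (M * p)) (w g : FF (M * p)), IsKummerPair (p ^ k) x w →
      pushAlpha M p x = 0 → pushBeta M p x = 0 → g ≠ 0 →
      h75q_One A (M * p) (w * (g ^ (p ^ k))⁻¹) →
      τ • x = a • x := by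
  haveI : NeZero p := ⟨hp.ne_zero⟩
  intro τ hτ k a ha x w g hw hα hβ hg h1
  obtain ⟨c, hc, -, hd⟩ := h94w_start_of_one hp M A hA (p ^ k) hg h1
  exact h94w_toric_of_start hp hp2 M hpM A hA τ hτ k a ha x w hw hα hβ ⟨c, hc, hd⟩

end Fermat.Agent.P7
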