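import Fermat.Agent.P7.H60ClassHecke
import Fermat.Agent.P7.H44Slope
import Fermat.Agent.P7.H94ToricStart

/-!
# Wave 7 (S40), block (A) T-ABEL: adapters to the Kummer / slope vocabulary (helper60)

`p` a prime, `M` a good level (`p ∤ M`, `auxLevel p ∣ M`), `N = M p`, `A` over `p`.
`X₀ = h60bX0 … n`, `c = h60bC …` (`P7/H60ClassInf.lean`), `IsKummerPair n x u`
(`Jac/Kummer.lean`), `h44slOrd`, `h44slSlope` (helper44, `P7/H44Slope.lean`).

* `h60g_pres_of_kummer` : a Kummer representative `u` of `x` gives a presentation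
  `(D, c u)` of `x` (`c u` a unit of `W_∞`).
* `h60g_red_of_pres` : for a presentation `(D, u)`, `h60bRedU u` is a scaled reduction of `u`
  in the sense of helper44; `h60g_ord_eq : h44slOrd A M p u Q = ord_Q (h60bRedU u)`.
* `h60g_mem_X0_iff` : for a Kummer representative `u` of `x`:
  `x ∈ X₀ ↔ ∀ Q, n ∣ h44slOrd A M p u Q`; `h60g_mem_X0_of_slope` (`n = p`, all slopes `0`).
* `h60g_deep_cst` : the START congruence does not depend on the scaling constant.
* `h60g_start` : `x ∈ X₀`, `c x = 0`, `u` ANY Kummer representative ⟹ START for `u`.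
* `h60g_toric` : **(A) + (S) at a good level**: (HKQ) for `e`, `e x = x`, `x` new
  (`α_* x = β_* x = 0`), `p ∣ ord_Q ū` at all places `Q` ⟹ `τ x = a x` for `τ` in the inertia
  group acting on `μ_p` by the exponent `a` (`p` odd).
-/

set_option autoImplicit false
set_option linter.unusedSectionVars false
set_option linter.unusedVariables false
set_option linter.style.longLine false
set_option linter.style.haveILetI false
set_option synthInstance.maxHeartbeats 400000

open AlgebraicCurve ModularCurve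

noncomputable section

namespace Fermat.Agent.P7

open Fermat.Agent.S37 Fermat.Agent.Red.GV Fermat.Agent.Red.GV.Soft Fermat.Agent.P5
  Fermat.Agent.P6 Fermat.Agent.Red Fermat.Agent.LGC Fermat.Agent.S35
open Fermat.Agent.Jac.K1 (IsKummerPair)

variable {M : ℕ} [NeZero M] {A : ValuationSubring Kbar} {p : ℕ} [NeZero p]

/-- a Kummer representative, scaled to a unit of `W_∞`, gives a presentation. -/
theorem h60g_pres_of_kummer (hp : p.Prime) (hA : A.LiesOverPrime p) {n : ℕ}
    {x : JZero (M * p)} {u : FF (M * p)} (h : IsKummerPair n x u) :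
    ∃ (c : Kbar) (D : Divisor.degZero (K := Kbar) (F := FF (M * p))), c ≠ 0 ∧
      H60bPres A M p n x D (cst (M * p) c * u) := by
  obtain ⟨hu0, D, hD, hdiv⟩ := h
  obtain ⟨c, hc, hu, hui⟩ := exists_cst_mul_unit_soft A (M * p) hp hA u hu0
  have hc' : cst (M * p) c ≠ 0 := by
    rwa [Ne, map_eq_zero_iff _ (algebraMap Kbar (FF (M * p))).injective]
  refine ⟨c, D, hc, hD, fun v => ?_, hu, hui, mul_ne_zero hc' hu0⟩
  rw [v.ord_mul hc' hu0, Fermat.Agent.S24.DiffPlace.ord_algebraMap, zero_add]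
  exact (hdiv v).symm

/-- a presentation gives a Kummer representative. -/
theorem h60g_kummer_of_pres {n : ℕ} {x : JZero (M * p)}
    {D : Divisor.degZero (K := Kbar) (F := FF (M * p))} {u : FF (M * p)}
    (h : H60bPres A M p n x D u) : IsKummerPair n x u :=
  ⟨h.ne_zero, D, h.cls, fun v => (h.div v).symm⟩

/-! ### The slope vocabulary of helper44 -/

/-- for a presentation `(D, u)`, `h60bRedU u` is a scaled reduction of `u`. -/
theorem h60g_red_of_pres (hp : p.Prime) (hM : ¬ p ∣ M) (hA : A.LiesOverPrime p) {n : ℕ}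
    {x : JZero (M * p)} {D : Divisor.degZero (K := Kbar) (F := FF (M * p))}
    {u : FF (M * p)} (h : H60bPres A M p n x D u) :
    H44slRed A M p u (h60bRedU hp hM hA u) := by
  have h1 : cst (M * p) (1 : Kbar) * u = u := by
    rw [show cst (M * p) (1 : Kbar) = 1 from map_one _, one_mul]
  have hm : cst (M * p) (1 : Kbar) * u ∈ softV A (M * p) := by rw [h1]; exact h.mem
  have hi : (cst (M * p) (1 : Kbar) * u)⁻¹ ∈ softV A (M * p) := by rw [h1]; exact h.inv_mem
  refine ⟨h.ne_zero, 1, one_ne_zero, hm, hi, ?_⟩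
  rw [h60b_incl_redU hp hM hA h.mem]
  show softR A (M * p) ⟨cst (M * p) (1 : Kbar) * u, hm⟩ = softR A (M * p) ⟨u, h.mem⟩
  congr 1
  exact Subtype.ext h1

/-- the order of helper44 is the order of `h60bRedU u`, for a presentation `(D, u)`. -/
theorem h60g_ord_eq (hp : p.Prime) (hM : ¬ p ∣ M) (hA : A.LiesOverPrime p) {n : ℕ}
    {x : JZero (M * p)} {D : Divisor.degZero (K := Kbar) (F := FF (M * p))}
    {u : FF (M * p)} (h : H60bPres A M p n x D u) (Q : Place (h13sK A) (h13sFt A M)) :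
    h44slOrd A M p u Q = Q.ord (h60bRedU hp hM hA u) :=
  h44sl_ord_eq (h60g_red_of_pres hp hM hA h) Q

/-- **membership in `X₀` in terms of the orders of the scaled reduction** of ANY Kummer
representative. -/
theorem h60g_mem_X0_iff (hp : p.Prime) (hM : ¬ p ∣ M) (haux : auxLevel p ∣ M)
    (hA : A.LiesOverPrime p) {n : ℕ} (hn : 0 < n) {x : JZero (M * p)} {u : FF (M * p)}
    (h : IsKummerPair n x u) :
    x ∈ h60bX0 hp hM hA n ↔
      ∀ Q : Place (h13sK A) (h13sFt A M), (n : ℤ) ∣ h44slOrd A M p u Q := by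
  obtain ⟨c, D, hc, hpres⟩ := h60g_pres_of_kummer (A := A) hp hA h
  have hord : ∀ Q : Place (h13sK A) (h13sFt A M),
      h44slOrd A M p u Q = Q.ord (h60bRedU hp hM hA (cst (M * p) c * u)) := by
    intro Q
    rw [← h60g_ord_eq hp hM hA hpres Q]
    exact (h44sl_ord_cst_mul hp hM hA hc u Q).symm
  constructor
  · intro hx Q
    rw [hord Q]
    exact (h60b_div_of_mem hp hM haux hA hn hx hpres).2 Q
  · intro hQ
    refine ⟨cst (M * p) c * u, ⟨D, hpres⟩,
      h60b_redU_ne_zero hp hM hA hpres.mem hpres.inv_mem hpres.ne_zero, fun Q => ?_⟩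
    rw [← hord Q]
    exact hQ Q

/-- **all slopes `0`** (at every place: supersingular or not) gives membership in `X₀`. -/
theorem h60g_mem_X0_of_slope (hp : p.Prime) (hM : ¬ p ∣ M) (haux : auxLevel p ∣ M)
    (hA : A.LiesOverPrime p) {x : JZero (M * p)} {u : FF (M * p)}
    (h : IsKummerPair p x u)
    (hs : ∀ Q : Place (h13sK A) (h13sFt A M), h44slSlope A M p u Q = 0) :
    x ∈ h60bX0 hp hM hA p := by
  rw [h60g_mem_X0_iff hp hM haux hA hp.pos h]
  intro Q
  exact (ZMod.intCast_zmod_eq_zero_iff_dvd _ p).1 (hs Q)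

/-! ### START for every Kummer representative -/

/-- the START congruence does not depend on the scaling constant. -/
theorem h60g_deep_cst {n : ℕ} (hn : 0 < n) {c : Kbar} (hc : c ≠ 0) {u : FF (M * p)}
    {d : Kbar} (h : h94iDeep A M p n (cst (M * p) c * u) d) : h94iDeep A M p n u d := by
  obtain ⟨g, hg, s, hs, e⟩ := h
  obtain ⟨b, hb⟩ := IsAlgClosed.exists_pow_nat_eq c hn
  have hb0 : b ≠ 0 := by
    rintro rfl
    rw [zero_pow hn.ne'] at hb
    exact hc hb.symm
  have hb' : cst (M * p) b ≠ 0 := by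
    rwa [Ne, map_eq_zero_iff _ (algebraMap Kbar (FF (M * p))).injective]
  have hcb : cst (M * p) c = cst (M * p) b ^ n := by
    rw [← hb]
    exact map_pow (algebraMap Kbar (FF (M * p))) b n
  refine ⟨g * (cst (M * p) b)⁻¹, mul_ne_zero hg (inv_ne_zero hb'), s, hs, ?_⟩
  have hbn : cst (M * p) b ^ n ≠ 0 := pow_ne_zero n hb'
  rw [hcb] at e
  rw [mul_pow, inv_pow, mul_assoc, mul_comm ((cst (M * p) b ^ n)⁻¹), ← mul_assoc, ← e,
    mul_comm (cst (M * p) b ^ n), mul_assoc, mul_inv_cancel₀ hbn, mul_one]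

/-- **START**: `x ∈ X₀` with `c x = 0`: every Kummer representative `u` of `x` is an `n`-th
power modulo `𝔪_A` at `W_∞`. -/
theorem h60g_start (hp : p.Prime) (hM : ¬ p ∣ M) (haux : auxLevel p ∣ M)
    (hA : A.LiesOverPrime p) {n : ℕ} (hn : 0 < n) {x : JZero (M * p)}
    (hx : x ∈ h60bX0 hp hM hA n) (hc : h60bC hp hM haux hA hn ⟨x, hx⟩ = 0)
    {u : FF (M * p)} (h : IsKummerPair n x u) :
    ∃ c ∈ A.nonunits, h94iDeep A M p n u c := by
  obtain ⟨c, D, hc0, hpres⟩ := h60g_pres_of_kummer (A := A) hp hA h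
  obtain ⟨d, hd, hdeep⟩ := h60b_start hp hM haux hA hn hx hc hpres
  exact ⟨d, hd, h60g_deep_cst hn hc0 hdeep⟩

/-! ### (A) + (S) at a good level -/

/-- **(A) + (S) at a good level `M`**: `e` a Hecke polynomial in the `T_ℓ`, `ℓ ∤ M p`, killing
the `p`-torsion of `J₀(M) ⧸ redKerPic M A` (HKQ); `x` a new class of level `M p` with `e x = x`,
`w` a Kummer representative of `x` whose scaled reduction at `W_∞` has all orders divisible by
`p` (slopes `0` + purity).  Then the inertia group acts on `x` through the cyclotomic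
character. -/
theorem h60g_toric (hp : p.Prime) (hp2 : p ≠ 2) (hM : ¬ p ∣ M) (haux : auxLevel p ∣ M)
    (hA : A.LiesOverPrime p) (e : MvPolynomial Nat.Primes ℤ)
    (he : ∀ ℓ ∈ e.vars, ¬ (ℓ : ℕ) ∣ M * p) (hkill : H89qKillsRed M p A e)
    (τ : GQ) (hτ : τ ∈ A.inertiaSubgroupIn ℚ) (a : ℕ) (ha : H11Cyc p 1 τ a)
    (x : JZero (M * p)) (w : FF (M * p)) (hw : IsKummerPair p x w)
    (hα : pushAlpha M p x = 0) (hβ : pushBeta M p x = 0)
    (hs : ∀ Q : Place (h13sK A) (h13sFt A M), (p : ℤ) ∣ h44slOrd A M p w Q)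
    (hex : (letI := heckeModuleBar (M * p); e • x = x)) :
    τ • x = a • x := by
  have hx : x ∈ h60bX0 hp hM hA p := (h60g_mem_X0_iff hp hM haux hA hp.pos hw).2 hs
  have hc := h60e_C_eq_zero hp hM haux hA e he hkill hx hex
  obtain ⟨c, hcA, hdeep⟩ := h60g_start hp hM haux hA hp.pos hx hc hw
  have hw1 : IsKummerPair (p ^ 1) x w := by rw [pow_one]; exact hw
  refine h94w_toric_of_start hp hp2 M hM A hA τ hτ 1 a ha x w hw1 hα hβ ⟨c, hcA, ?_⟩
  rw [pow_one]
  exact hdeep

end Fermat.Agent.P7
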