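import Fermat.Agent.P7.H44SlopeUnif
import Fermat.Agent.P7.H85SlopeBridge
import Fermat.Agent.P7.H60ClassSlope

/-!
# P7 (wave 7, S44/S40), block (5) T-TORIC, row T-RHO-SLOPE, part 5 (helper44): assembly of
block (R): slopes zero at the nodes `⟹` `p ∣ div ū`

`p ∤ M` a prime, `M` a good level, `A` over `p`, `u ≠ 0` a function of level `M p` with
`p ∣ div u`.

* `H44slNodeForm A M p hp hA 𝔫 u m` : `u` has a **normal form with exponent `m`** at the node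
  `𝔫` of the finite chart of level `M p`: node coordinates `x y = a c` (`x, y ∈ 𝔫`, `c ∉ 𝔫`,
  `a ≠ 0`, `𝔫 = (x, y) + 𝔪_A B` locally, `x` a unit of `W_∞`) and
  `u = κ x ^ m ε g₁ ^ p`, `g₁ = x ^ s ε∞`, `κ` a constant, `ε` a unit of `ssV` without zeros and
  poles centered at `𝔫`, `ε∞ ∈ 1 + π W_∞`.  (This is the part of the conclusion of helper90's
  `h90s_node_normal_level` which concerns the component `C_∞`.)
* `h44sl_nodeForm_exists` : a normal form exists at every crossing point (good levels).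
* `h44sl_nodeForm_ord` : `ord_Q(ū) ≡ m mod p` at THE place `Q` at `𝔫`, for every normal form.
* `h44sl_nodeForm_unique` : the exponent is well defined modulo `p`.
* `h44sl_all_of_nodes` : **(R) assembled**: if at every crossing point `𝔫` SOME normal form of
  `u` has exponent `m ≡ 0 mod p` (blocks (C) + (E)), then `p ∣ ord_Q(ū)` at EVERY place `Q` of
  the special fibre (cusps included) -- the hypothesis of helper60's `h60g_toric`.
* `h44sl_nodes_of_all` : the converse.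
* `h44sl_kummer_all_of_nodes` : the same for a Kummer representative `w` of a class `x`.
* `h44sl_toric_of_nodes` : **(R) + (A) + (S) at a good level**: helper60's `h60g_toric` with the
  hypothesis "all orders divisible by `p`" replaced by "slope zero at the crossing points"
  (the output of blocks (C) + (E)); remaining inputs: (HKQ) and the slopes.

Nothing is assumed: every statement is proved.
-/

set_option autoImplicit false
set_option linter.style.haveILetI false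
set_option linter.unusedSectionVars false
set_option linter.unusedVariables false
set_option synthInstance.maxHeartbeats 400000

open AlgebraicCurve ModularCurve IsLocalRing

noncomputable section

namespace Fermat.Agent.P7

open Fermat.Agent.S37 Fermat.Agent.Red Fermat.Agent.Red.GG Fermat.Agent.Red.GV
  Fermat.Agent.Red.GV.Soft Fermat.Agent.LGC Fermat.Agent.P5 Fermat.Agent.S35 Fermat.Agent.P6

open Fermat.Agent.Jac.K1 (IsKummerPair)

/-- **`u` has a normal form with exponent `m` at the node `𝔫`.** -/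
def H44slNodeForm (A : ValuationSubring Kbar) (M p : ℕ) [NeZero M] [NeZero p]
    (hp : p.Prime) (hA : A.LiesOverPrime p)
    (𝔫 : Ideal (chart (M * p) A (jSS M p))) (u : FF (M * p)) (m : ℤ) : Prop :=
  ∃ (x y c : chart (M * p) A (jSS M p)) (a : A),
    x ∈ 𝔫 ∧ y ∈ 𝔫 ∧ c ∉ 𝔫 ∧ a ≠ 0 ∧
    x * y = algebraMap A (chart (M * p) A (jSS M p)) a * c ∧
    (∀ z ∈ 𝔫, ∃ s, s ∉ 𝔫 ∧ s * z ∈ Ideal.span {x, y} ⊔ mExt A M p (jSS M p)) ∧
    ((x : FF (M * p)))⁻¹ ∈ h85cWinf A M p hp hA ∧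
    ∃ (s : ℤ) (κ ε g₁ εinf : FF (M * p)) (π : A),
      π ∈ maximalIdeal A ∧ h13x_IsConst A κ ∧
      u = κ * (x : FF (M * p)) ^ m * ε * g₁ ^ p ∧
      ε ∈ ssV A M p ∧ ε⁻¹ ∈ ssV A M p ∧
      (∀ k, h26Centered (chart (M * p) A (jSS M p)) (chartVal (M * p) (jSS M p)) 𝔫 k →
        chartVal (M * p) (jSS M p) k ε = 1) ∧
      g₁ = (x : FF (M * p)) ^ s * εinf ∧ εinf ∈ h26U π (softV A (M * p))

variable {A : ValuationSubring Kbar} {M p : ℕ} [NeZero M] [NeZero p]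

section Node

variable (hp : p.Prime) (hM : ¬ p ∣ M) (hA : A.LiesOverPrime p)
  (𝔫 : Ideal (chart (M * p) A (jSS M p))) (h𝔫 : 𝔫.IsMaximal)
  (hPinf : h62i_Pinf A M hp hM hA ≤ 𝔫) (hP0 : h62i_P0 A M hp hM hA ≤ 𝔫)
  (Q : Place (h13sK A) (h13sFt A M))
  (hQ : H85wAt hp hM hA (h62i_mem_soft A M hp hM hA) Q 𝔫)

include hM h𝔫 hPinf hP0 hQ in
/-- **the order at the place at a node**: `ord_Q(ū) ≡ m mod p` for every normal form. -/
theorem h44sl_nodeForm_ord {u : FF (M * p)} (hu0 : u ≠ 0) {m : ℤ}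
    (h : H44slNodeForm A M p hp hA 𝔫 u m) :
    ∃ s : ℤ, h44slOrd A M p u Q = m + p * s := by
  obtain ⟨x, y, c, a, hx, hy, hc, ha, hxy, hprin, hxinf, s, κ, ε, g₁, εinf, π, hπ, hκ, hu,
    hε, hεi, hεc, hg, hεinf⟩ := h
  have hboth := h62x_torOnBoth A M hp hM hA 𝔫 hPinf hP0
  exact ⟨s, (h44sl_slope_eq hp hM hA 𝔫 h𝔫 hboth x y c hx hc a ha hxy hprin hxinf Q hQ
    hπ hκ hu0 hu hε hεi hεc hg hεinf).1⟩

include hM h𝔫 hPinf hP0 hQ in
/-- the slope at the place at a node is the exponent of any normal form. -/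
theorem h44sl_nodeForm_slope {u : FF (M * p)} (hu0 : u ≠ 0) {m : ℤ}
    (h : H44slNodeForm A M p hp hA 𝔫 u m) :
    h44slSlope A M p u Q = (m : ZMod p) := by
  obtain ⟨s, hs⟩ := h44sl_nodeForm_ord hp hM hA 𝔫 h𝔫 hPinf hP0 Q hQ hu0 h
  unfold h44slSlope
  rw [hs, Int.cast_add, Int.cast_mul, Int.cast_natCast, ZMod.natCast_self, zero_mul, add_zero]

include hM h𝔫 hPinf hP0 hQ in
/-- `p ∣ ord_Q(ū)` iff the exponent of a normal form is divisible by `p`. -/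
theorem h44sl_nodeForm_dvd_iff {u : FF (M * p)} (hu0 : u ≠ 0) {m : ℤ}
    (h : H44slNodeForm A M p hp hA 𝔫 u m) :
    (p : ℤ) ∣ h44slOrd A M p u Q ↔ (p : ℤ) ∣ m := by
  obtain ⟨s, hs⟩ := h44sl_nodeForm_ord hp hM hA 𝔫 h𝔫 hPinf hP0 Q hQ hu0 h
  rw [hs]
  constructor
  · intro h1
    have h2 : (p : ℤ) ∣ m + p * s - p * s := dvd_sub h1 (dvd_mul_right _ _)
    rwa [add_sub_cancel_right] at h2
  · intro h1
    exact dvd_add h1 (dvd_mul_right _ _)

end Node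

section Good

variable (hp : p.Prime) (hM : ¬ p ∣ M) (haux : auxLevel p ∣ M) (hA : A.LiesOverPrime p)

include hM haux in
/-- **the exponent of a normal form at a node is well defined modulo `p`.** -/
theorem h44sl_nodeForm_unique (𝔫 : Ideal (chart (M * p) A (jSS M p))) (h𝔫 : 𝔫.IsMaximal)
    (hPinf : h62i_Pinf A M hp hM hA ≤ 𝔫) (hP0 : h62i_P0 A M hp hM hA ≤ 𝔫)
    {u : FF (M * p)} (hu0 : u ≠ 0) {m m' : ℤ}
    (h : H44slNodeForm A M p hp hA 𝔫 u m) (h' : H44slNodeForm A M p hp hA 𝔫 u m') :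
    (p : ℤ) ∣ m - m' := by
  obtain ⟨Q, hQ, -⟩ := h85w_exists_place_fin A M hp hM haux hA 𝔫 h𝔫 hPinf
  obtain ⟨s, hs⟩ := h44sl_nodeForm_ord hp hM hA 𝔫 h𝔫 hPinf hP0 Q hQ hu0 h
  obtain ⟨s', hs'⟩ := h44sl_nodeForm_ord hp hM hA 𝔫 h𝔫 hPinf hP0 Q hQ hu0 h'
  rw [hs] at hs'
  exact ⟨s' - s, by linarith⟩

include hM haux in
/-- **a normal form exists at every crossing point** (helper90 + `h62x_torNode`). -/
theorem h44sl_nodeForm_exists (𝔫 : Ideal (chart (M * p) A (jSS M p))) (h𝔫 : 𝔫.IsMaximal)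
    (hPinf : h62i_Pinf A M hp hM hA ≤ 𝔫) (hP0 : h62i_P0 A M hp hM hA ≤ 𝔫)
    {u : FF (M * p)} (hu0 : u ≠ 0)
    (hord : ∀ v : Place Kbar (FF (M * p)), (p : ℤ) ∣ v.ord u) :
    ∃ m : ℤ, H44slNodeForm A M p hp hA 𝔫 u m := by
  obtain ⟨hboth, x, hx, y, hy, c, hc, a, ha, hxy, hprin, hxinf, hy0⟩ :=
    h62x_torNode A M hp hM haux hA 𝔫 h𝔫 hPinf hP0
  have hle : mExt A M p (jSS M p) ≤ 𝔫 := le_trans (h62i_m_le_Pinf A M hp hM hA) hPinf
  obtain ⟨m, s, κ, α, g₁, ε, εinf, ε0, π, hπ, hπ0, hκ, hκ0, hα, hα0, hnf, hε, hεi, hεc,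
    hg, hεinf, hg', hε0⟩ :=
    h90s_node_normal_level A M hp hM hA 𝔫 h𝔫 hle hboth x y c hx hy hc a ha hxy hprin hxinf hy0
      u hu0 p hp.pos hord
  exact ⟨m, x, y, c, a, hx, hy, hc, ha, hxy, hprin, hxinf, s, κ, ε, g₁, εinf, π, hπ, hκ, hnf,
    hε, hεi, hεc, hg, hεinf⟩

include hM haux in
/-- **block (R) assembled**: slopes zero at the crossing points `⟹` `p ∣ ord_Q(ū)` at every
place `Q` of the special fibre. -/
theorem h44sl_all_of_nodes {u : FF (M * p)} (hu0 : u ≠ 0)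
    (hord : ∀ v : Place Kbar (FF (M * p)), (p : ℤ) ∣ v.ord u)
    (hnode : ∀ 𝔫 : Ideal (chart (M * p) A (jSS M p)), 𝔫.IsMaximal →
      h62i_Pinf A M hp hM hA ≤ 𝔫 → h62i_P0 A M hp hM hA ≤ 𝔫 →
      ∃ m : ℤ, H44slNodeForm A M p hp hA 𝔫 u m ∧ (p : ℤ) ∣ m)
    (Q : Place (h13sK A) (h13sFt A M)) : (p : ℤ) ∣ h44slOrd A M p u Q := by
  apply h85w_all_of_ss_slope A M hp hM haux hA p u hu0 hord
  rintro Q' ⟨𝔫, h𝔫, hPinf, hP0, hQ'⟩
  obtain ⟨m, hm, hpm⟩ := hnode 𝔫 h𝔫 hPinf hP0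
  exact (h44sl_nodeForm_dvd_iff hp hM hA 𝔫 h𝔫 hPinf hP0 Q' hQ' hu0 hm).mpr hpm

include hM haux in
/-- the converse: if `p ∣ ord_Q(ū)` at every place, every normal form at every crossing point
has exponent `≡ 0 mod p`. -/
theorem h44sl_nodes_of_all {u : FF (M * p)} (hu0 : u ≠ 0)
    (hall : ∀ Q : Place (h13sK A) (h13sFt A M), (p : ℤ) ∣ h44slOrd A M p u Q)
    (𝔫 : Ideal (chart (M * p) A (jSS M p))) (h𝔫 : 𝔫.IsMaximal)
    (hPinf : h62i_Pinf A M hp hM hA ≤ 𝔫) (hP0 : h62i_P0 A M hp hM hA ≤ 𝔫)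
    {m : ℤ} (h : H44slNodeForm A M p hp hA 𝔫 u m) : (p : ℤ) ∣ m := by
  obtain ⟨Q, hQ, -⟩ := h85w_exists_place_fin A M hp hM haux hA 𝔫 h𝔫 hPinf
  exact (h44sl_nodeForm_dvd_iff hp hM hA 𝔫 h𝔫 hPinf hP0 Q hQ hu0 h).mp (hall Q)

include hM haux in
/-- block (R) for a Kummer representative. -/
theorem h44sl_kummer_all_of_nodes {x : JZero (M * p)} {w : FF (M * p)}
    (hw : IsKummerPair p x w)
    (hnode : ∀ 𝔫 : Ideal (chart (M * p) A (jSS M p)), 𝔫.IsMaximal →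
      h62i_Pinf A M hp hM hA ≤ 𝔫 → h62i_P0 A M hp hM hA ≤ 𝔫 →
      ∃ m : ℤ, H44slNodeForm A M p hp hA 𝔫 w m ∧ (p : ℤ) ∣ m)
    (Q : Place (h13sK A) (h13sFt A M)) : (p : ℤ) ∣ h44slOrd A M p w Q := by
  obtain ⟨hw0, D, -, hdiv⟩ := hw
  exact h44sl_all_of_nodes hp hM haux hA hw0
    (fun v => ⟨(D : Divisor Kbar (FF (M * p))) v, (hdiv v).symm⟩) hnode Q

include haux in
/-- **(R) + (A) + (S) at a good level `M`**: `e` a Hecke polynomial in the `T_ℓ`, `ℓ ∤ M p`,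
killing the `p`-torsion of `J₀(M) ⧸ redKerPic M A` (HKQ); `x` a new class of level `M p` with
`e x = x`, `w` a Kummer representative of `x` with slope zero at every crossing point of the
special fibre (blocks (C) + (E)).  Then the inertia group acts on `x` through the cyclotomic
character. -/
theorem h44sl_toric_of_nodes (hp2 : p ≠ 2) (e : MvPolynomial Nat.Primes ℤ)
    (he : ∀ ℓ ∈ e.vars, ¬ (ℓ : ℕ) ∣ M * p) (hkill : H89qKillsRed M p A e)
    (τ : GQ) (hτ : τ ∈ A.inertiaSubgroupIn ℚ) (a : ℕ) (ha : H11Cyc p 1 τ a)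
    (x : JZero (M * p)) (w : FF (M * p)) (hw : IsKummerPair p x w)
    (hα : pushAlpha M p x = 0) (hβ : pushBeta M p x = 0)
    (hnode : ∀ 𝔫 : Ideal (chart (M * p) A (jSS M p)), 𝔫.IsMaximal →
      h62i_Pinf A M hp hM hA ≤ 𝔫 → h62i_P0 A M hp hM hA ≤ 𝔫 →
      ∃ m : ℤ, H44slNodeForm A M p hp hA 𝔫 w m ∧ (p : ℤ) ∣ m)
    (hex : (letI := heckeModuleBar (M * p); e • x = x)) :
    τ • x = a • x :=
  h60g_toric hp hp2 hM haux hA e he hkill τ hτ a ha x w hw hα hβ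
    (h44sl_kummer_all_of_nodes hp hM haux hA hw hnode) hex

end Good

end Fermat.Agent.P7
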