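import Fermat.Agent.P7.H85SlopeAbs
import Fermat.Agent.P6.H62PuritySmInst
import Fermat.Agent.P5.H13SFIface

/-!
# P7 (wave 7, S40), block (T) TORIC, row T-RHO-PURITY (helper85): purity off the supersingular
points, finite chart

`ℓ` a prime, `M` a good level (`ℓ ∤ M`, `auxLevel ℓ ∣ M`), `N = M ℓ`, `A` a valuation subring of
`ℚ̄` over `ℓ`, `k = h13sK A` its residue field, `F~ = h13sFt A M ⊆ k((q))` the function field of
the special fibre of level `M` (P5 vocabulary, `P5/H13SFIface.lean`), `W∞ = softV A N` the Gauss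
valuation ring of level `N` at the cusp `∞`, `red∞ = softR A N : W∞ → k((q))`,
`B = chart N A (jSS M ℓ)` the finite chart of level `N`, `P∞ = h62i_Pinf`, `P₀ = h62i_P0` the two
components of its special fibre.

* `H85wCentred A M ℓ Q 𝔫` : the place `Q` of `F~` is centred (through `red∞`) at the closed
  point `𝔫` of the finite chart of level `N`: `red∞ (B) ⊆ O_Q` and `red∞ (B ∖ 𝔫) ⊆ O_Q^×`.
* `h85w_purity_fin` : **PURITY off SS, finite chart.**  If `𝔫 ⊇ P∞`, `𝔫 ⊉ P₀` (a point of the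
  component `C∞` which is not a crossing point, i.e. not supersingular), `Q` is centred at `𝔫`,
  `u` is a unit of `W∞` with `r ∣ div u` (ANY `r`, e.g. `r = ℓ`), then `r ∣ ord_Q (red∞ u)`.
* `H85wPurityFin` : the frozen `Prop`; `h85w_purityFin : H85wPurityFin`.

The crossing points (`𝔫 ⊇ P∞ + P₀`, `S35.TorNodeAt`) are the supersingular points: there the
order of `red∞ u` is the slope modulo `r` (row T-RHO-SLOPE).
-/

set_option autoImplicit false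
set_option linter.unusedSectionVars false
set_option linter.unusedVariables false
set_option linter.style.haveILetI false
set_option synthInstance.maxHeartbeats 400000

open AlgebraicCurve ModularCurve WithZero IsLocalRing

noncomputable section

namespace Fermat.Agent.P7

open Fermat.Agent.S37 Fermat.Agent.Red Fermat.Agent.Red.GG Fermat.Agent.Red.GV
  Fermat.Agent.Red.GV.Soft Fermat.Agent.LGC Fermat.Agent.S35 Fermat.Agent.P5 Fermat.Agent.P6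

section Level

variable (A : ValuationSubring Kbar) (M ℓ : ℕ) [NeZero M] [NeZero ℓ]

/-- the reduction at `W∞` of level `M ℓ`, with values in `k((q))`, `k = h13sK A`. -/
def h85wRed : softV A (M * ℓ) →+* LaurentSeries (h13sK A) := softR A (M * ℓ)

theorem h85wRed_apply (x : softV A (M * ℓ)) : h85wRed A M ℓ x = softR A (M * ℓ) x := rfl

/-- the subring of `W∞` of the functions whose reduction lies in the function field of the
special fibre of level `M`. -/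
def h85wS : Subring (softV A (M * ℓ)) :=
  (h13sF A M).toSubring.comap (h85wRed A M ℓ)

theorem h85w_mem_S_iff (x : softV A (M * ℓ)) :
    x ∈ h85wS A M ℓ ↔ h85wRed A M ℓ x ∈ h13sF A M := Iff.rfl

/-- **the place `Q` of the special fibre of level `M` is centred at the closed point `𝔫` of
the finite chart of level `M ℓ`** (through the reduction at `W∞`). -/
def H85wCentred (Q : Place (h13sK A) (h13sFt A M))
    (𝔫 : Ideal (chart (M * ℓ) A (jSS M ℓ))) : Prop :=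
  ∀ (b : chart (M * ℓ) A (jSS M ℓ)) (hb : (b : FF (M * ℓ)) ∈ softV A (M * ℓ)),
    ∃ y : h13sFt A M, h13sIncl A M y = h85wRed A M ℓ ⟨(b : FF (M * ℓ)), hb⟩ ∧
      y ∈ Q.toValuationSubring ∧ (b ∉ 𝔫 → y⁻¹ ∈ Q.toValuationSubring)

variable {A M ℓ}

theorem h85w_incl_injective : Function.Injective (h13sIncl A M) :=
  (h13sIncl A M).toRingHom.injective

/-- the reduction of an element of `1 + 𝔪_A W∞` is `1`. -/
theorem h85w_red_U1 {w : FF (M * ℓ)} (hw : w ∈ h86t_U1 A (softV A (M * ℓ)))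
    (hwV : w ∈ softV A (M * ℓ)) : h85wRed A M ℓ ⟨w, hwV⟩ = 1 := by
  obtain ⟨π, hπ, x, hx, rfl⟩ := hw
  have hπn : (π : Kbar) ∈ A.nonunits := (GG.mem_maximalIdeal_iff A π).mp hπ
  have hc : cst (M * ℓ) (π : Kbar) ∈ softV A (M * ℓ) :=
    (cst_mem_softV_iff A (M * ℓ) _).mpr π.2
  have h0 : softR A (M * ℓ) ⟨_, hc⟩ = 0 := softR_cst_of_nonunit A (M * ℓ) _ hπn hc
  have e : (⟨1 + algebraMap A (FF (M * ℓ)) π * x, hwV⟩ : softV A (M * ℓ)) =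
      1 + ⟨cst (M * ℓ) (π : Kbar), hc⟩ * ⟨x, hx⟩ := rfl
  rw [h85wRed_apply, e, map_add, map_one, map_mul, h0, zero_mul, add_zero]
  rfl

/-- the reduction of a unit of `W∞` is nonzero. -/
theorem h85w_red_ne_zero {x : FF (M * ℓ)} (hx : x ∈ softV A (M * ℓ)) (hx0 : x ≠ 0)
    (hxi : x⁻¹ ∈ softV A (M * ℓ)) : h85wRed A M ℓ ⟨x, hx⟩ ≠ 0 :=
  (softR_ne_zero_iff A (M * ℓ) ⟨x, hx⟩).mpr ⟨hx0, hxi⟩

/-- the reduction of an inverse. -/
theorem h85w_red_inv {x : FF (M * ℓ)} (hx : x ∈ softV A (M * ℓ)) (hx0 : x ≠ 0)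
    (hxi : x⁻¹ ∈ softV A (M * ℓ)) :
    h85wRed A M ℓ ⟨x⁻¹, hxi⟩ = (h85wRed A M ℓ ⟨x, hx⟩)⁻¹ := by
  have e : (⟨x, hx⟩ : softV A (M * ℓ)) * ⟨x⁻¹, hxi⟩ = 1 :=
    Subtype.ext (mul_inv_cancel₀ hx0)
  have h1 := congrArg (h85wRed A M ℓ) e
  rw [map_mul, map_one] at h1
  exact eq_inv_of_mul_eq_one_right h1

/-- `S` is stable under inverses. -/
theorem h85w_inv_mem_S {x : FF (M * ℓ)} (hx : x ∈ softV A (M * ℓ)) (hx0 : x ≠ 0)
    (hxi : x⁻¹ ∈ softV A (M * ℓ)) (hS : (⟨x, hx⟩ : softV A (M * ℓ)) ∈ h85wS A M ℓ) :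
    (⟨x⁻¹, hxi⟩ : softV A (M * ℓ)) ∈ h85wS A M ℓ := by
  rw [h85w_mem_S_iff, h85w_red_inv hx hx0 hxi]
  exact (h13sF A M).inv_mem ((h85w_mem_S_iff A M ℓ _).mp hS)

/-- `1 + 𝔪_A W∞ ⊆ S`. -/
theorem h85w_U1_mem_S {w : FF (M * ℓ)} (hw : w ∈ h86t_U1 A (softV A (M * ℓ)))
    (hwV : w ∈ softV A (M * ℓ)) : (⟨w, hwV⟩ : softV A (M * ℓ)) ∈ h85wS A M ℓ := by
  rw [h85w_mem_S_iff, h85w_red_U1 hw hwV]
  exact (h13sF A M).one_mem

/-- integral powers of a unit of `W∞` in `S` are in `S`. -/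
theorem h85w_zpow_mem_S {x : FF (M * ℓ)} (hx : x ∈ softV A (M * ℓ)) (hx0 : x ≠ 0)
    (hxi : x⁻¹ ∈ softV A (M * ℓ)) (hS : (⟨x, hx⟩ : softV A (M * ℓ)) ∈ h85wS A M ℓ) (d : ℤ)
    (hd : x ^ d ∈ softV A (M * ℓ)) : (⟨x ^ d, hd⟩ : softV A (M * ℓ)) ∈ h85wS A M ℓ := by
  obtain ⟨n, rfl | rfl⟩ := d.eq_nat_or_neg
  · have e : (⟨x ^ (n : ℤ), hd⟩ : softV A (M * ℓ)) = ⟨x, hx⟩ ^ n :=
      Subtype.ext (by simp)
    rw [e]
    exact (h85wS A M ℓ).pow_mem hS n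
  · have e : (⟨x ^ (-(n : ℤ)), hd⟩ : softV A (M * ℓ)) = ⟨x⁻¹, hxi⟩ ^ n :=
      Subtype.ext (by simp)
    rw [e]
    exact (h85wS A M ℓ).pow_mem (h85w_inv_mem_S hx hx0 hxi hS) n

section Purity

variable (hℓ : ℓ.Prime) (hM : ¬ ℓ ∣ M) (haux : auxLevel ℓ ∣ M) (hA : A.LiesOverPrime ℓ)
  (𝔫 : Ideal (chart (M * ℓ) A (jSS M ℓ))) (h𝔫 : 𝔫.IsMaximal)
  (Q : Place (h13sK A) (h13sFt A M))

include hℓ hM hA in
/-- the reduction of an element of the local ring at `𝔫` lies in `O_Q`. -/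
theorem h85w_local_mem (hPinf : h62i_Pinf A M hℓ hM hA ≤ 𝔫) (hQ : H85wCentred A M ℓ Q 𝔫)
    {x : FF (M * ℓ)} (hx : x ∈ h62yO (chart (M * ℓ) A (jSS M ℓ)) 𝔫 h𝔫.isPrime)
    (hxV : x ∈ softV A (M * ℓ)) :
    ∃ y : h13sFt A M, h13sIncl A M y = h85wRed A M ℓ ⟨x, hxV⟩ ∧ y ∈ Q.toValuationSubring := by
  obtain ⟨s, hs, hsx⟩ := hx
  have hsV : (s : FF (M * ℓ)) ∈ softV A (M * ℓ) := h62i_mem_soft A M hℓ hM hA s
  have hbV : (s : FF (M * ℓ)) * x ∈ softV A (M * ℓ) := (softV A (M * ℓ)).mul_mem hsV hxV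
  obtain ⟨ys, hys, -, hysi⟩ := hQ s hsV
  obtain ⟨yb, hyb, hybQ, -⟩ := hQ ⟨_, hsx⟩ hbV
  have hs0 : h85wRed A M ℓ ⟨(s : FF (M * ℓ)), hsV⟩ ≠ 0 := by
    intro h0
    exact hs (hPinf ((h62i_mem_Pinf_iff_softR A M hℓ hM hA s).mpr h0))
  have hys0 : ys ≠ 0 := by
    intro h0
    rw [h0, map_zero] at hys
    exact hs0 hys.symm
  refine ⟨yb * ys⁻¹, ?_, Q.toValuationSubring.mul_mem _ _ hybQ (hysi hs)⟩
  have e : (⟨(s : FF (M * ℓ)) * x, hbV⟩ : softV A (M * ℓ)) = ⟨(s : FF (M * ℓ)), hsV⟩ * ⟨x, hxV⟩ :=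
    rfl
  rw [map_mul, map_inv₀, hyb, hys, e, map_mul]
  field_simp

include hℓ hM haux hA h𝔫 in
/-- **PURITY off the supersingular points, finite chart.** -/
theorem h85w_purity_fin (hPinf : h62i_Pinf A M hℓ hM hA ≤ 𝔫)
    (hP0 : ¬ h62i_P0 A M hℓ hM hA ≤ 𝔫) (hQ : H85wCentred A M ℓ Q 𝔫)
    (r : ℕ) (u : FF (M * ℓ)) (hu : u ∈ softV A (M * ℓ)) (hu0 : u ≠ 0)
    (hui : u⁻¹ ∈ softV A (M * ℓ))
    (hr : ∀ v : Place Kbar (FF (M * ℓ)), (r : ℤ) ∣ v.ord u)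
    (ū : h13sFt A M) (hū : h13sIncl A M ū = h85wRed A M ℓ ⟨u, hu⟩) :
    (r : ℤ) ∣ Q.ord ū := by
  obtain ⟨t, h⟩ := h62y_smooth_inf A M hℓ hM haux hA 𝔫 h𝔫 hPinf hP0
  obtain ⟨d, w, ε, hw, hue, hεO, hεO'⟩ :=
    h85w_factor h u hu0 hu hui r (exists_val_eq (M * ℓ) (jSS M ℓ) u hu0 r hr)
  have hAW : ∀ a : A, algebraMap A (FF (M * ℓ)) a ∈ softV A (M * ℓ) := h62y_AW h
  have hWu : ∀ m ∈ maximalIdeal A, ∀ x ∈ softV A (M * ℓ),
      (1 + algebraMap A (FF (M * ℓ)) m * x)⁻¹ ∈ softV A (M * ℓ) :=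
    fun m hm x hx => (h62y_one_add_inv h hm hx).2
  have htV : (t : FF (M * ℓ)) ∈ softV A (M * ℓ) := h.hBW _ t.2
  have htd : (t : FF (M * ℓ)) ^ d ∈ softV A (M * ℓ) := h26_zpow_mem _ htV h.htW d
  have hwV : w ∈ softV A (M * ℓ) := h86t_U1_mem hAW hw
  have hεV : ε ∈ softV A (M * ℓ) := h62y_O_le_W h hεO
  have hεV' : ε⁻¹ ∈ softV A (M * ℓ) := h62y_O_le_W h hεO'
  -- the reductions
  obtain ⟨yt, hyt, -, -⟩ := hQ t htV
  have htS : (⟨(t : FF (M * ℓ)), htV⟩ : softV A (M * ℓ)) ∈ h85wS A M ℓ := by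
    rw [h85w_mem_S_iff, ← hyt]
    exact yt.2
  have hxS : (⟨(t : FF (M * ℓ)) ^ d, htd⟩ * ⟨w, hwV⟩ : softV A (M * ℓ)) ∈ h85wS A M ℓ :=
    (h85wS A M ℓ).mul_mem (h85w_zpow_mem_S htV h.ht0 h.htW htS d htd) (h85w_U1_mem_S hw hwV)
  set yx : h13sFt A M := ⟨_, (h85w_mem_S_iff A M ℓ _).mp hxS⟩ with hyx
  have hyxi : h13sIncl A M yx =
      h85wRed A M ℓ (⟨(t : FF (M * ℓ)) ^ d, htd⟩ * ⟨w, hwV⟩) := rfl
  obtain ⟨ye, hye, hyeQ⟩ := h85w_local_mem hℓ hM hA 𝔫 h𝔫 Q hPinf hQ hεO hεV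
  obtain ⟨ye', hye', hyeQ'⟩ := h85w_local_mem hℓ hM hA 𝔫 h𝔫 Q hPinf hQ hεO' hεV'
  have hε0 : ε ≠ 0 := by
    rintro rfl
    rw [mul_zero] at hue
    exact hu0 hue
  have hee : ye * ye' = 1 := by
    apply h85w_incl_injective (A := A) (M := M)
    have h1 : h85wRed A M ℓ ⟨ε, hεV⟩ ≠ 0 := h85w_red_ne_zero hεV hε0 hεV'
    have h2 : h13sIncl A M (ye * ye') =
        h85wRed A M ℓ ⟨ε, hεV⟩ * h85wRed A M ℓ ⟨ε⁻¹, hεV'⟩ := by
      rw [map_mul, hye, hye']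
    rw [h2, h85w_red_inv hεV hε0 hεV', mul_inv_cancel₀ h1]
    exact (map_one _).symm
  have hū' : ū = yx ^ r * ye := by
    apply h85w_incl_injective
    rw [hū, map_mul, map_pow, hyxi, hye, ← map_pow, ← map_mul]
    congr 1
    exact Subtype.ext hue
  -- the orders
  have hye0 : ye ≠ 0 := left_ne_zero_of_mul_eq_one hee
  have hū0 : ū ≠ 0 := by
    intro h0
    rw [h0, map_zero] at hū
    have h1 : h85wRed A M ℓ ⟨u, hu⟩ ≠ 0 := h85w_red_ne_zero hu hu0 hui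
    exact h1 hū.symm
  have hz0 : yx ^ r ≠ 0 := by
    intro h0
    rw [hū', h0, zero_mul] at hū0
    exact hū0 rfl
  have hordE : Q.ord ye = 0 := by
    have hyei : ye⁻¹ = ye' := (eq_inv_of_mul_eq_one_right hee).symm
    set U : (Q.toValuationSubring)ˣ :=
      ⟨⟨ye, hyeQ⟩, ⟨ye', hyeQ'⟩, Subtype.ext hee, Subtype.ext (by rw [mul_comm]; exact hee)⟩
      with hU
    exact Q.ord_coe_unit U
  rw [hū', Q.ord_mul hz0 hye0, hordE, add_zero, ← zpow_natCast, Q.ord_zpow]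
  exact dvd_mul_right _ _

end Purity

end Level

/-- **T-RHO-PURITY, finite chart** (frozen `Prop`): purity off the supersingular points. -/
def H85wPurityFin : Prop :=
  ∀ (p : ℕ) (hp : p.Prime) (M : ℕ) [NeZero M] (hM : ¬ p ∣ M), auxLevel p ∣ M →
    haveI : NeZero p := ⟨hp.ne_zero⟩
    ∀ (A : ValuationSubring Kbar) (hA : A.LiesOverPrime p)
      (𝔫 : Ideal (chart (M * p) A (jSS M p))), 𝔫.IsMaximal →
      h62i_Pinf A M hp hM hA ≤ 𝔫 → ¬ h62i_P0 A M hp hM hA ≤ 𝔫 →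
    ∀ Q : Place (h13sK A) (h13sFt A M), H85wCentred A M p Q 𝔫 →
    ∀ (r : ℕ) (u : FF (M * p)) (hu : u ∈ softV A (M * p)), u ≠ 0 → u⁻¹ ∈ softV A (M * p) →
      (∀ v : Place Kbar (FF (M * p)), (r : ℤ) ∣ v.ord u) →
      ∀ ū : h13sFt A M, h13sIncl A M ū = softR A (M * p) ⟨u, hu⟩ → (r : ℤ) ∣ Q.ord ū

/-- **T-RHO-PURITY, finite chart.** -/
theorem h85w_purityFin : H85wPurityFin := by
  intro p hp M _ hM haux
  haveI : NeZero p := ⟨hp.ne_zero⟩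
  intro A hA 𝔫 h𝔫 hPinf hP0 Q hQ r u hu hu0 hui hr ū hū
  exact h85w_purity_fin hp hM haux hA 𝔫 h𝔫 Q hPinf hP0 hQ r u hu hu0 hui hr ū hū

end Fermat.Agent.P7
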