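import Fermat.Agent.P7.H44SlopeNF
import Fermat.Agent.P7.H85Slope

/-!
# P7 (wave 7, S40), block (5) T-TORIC, row T-RHO-SLOPE, part 3 (helper44): the order of the
scaled reduction at a place centred at a node

`p ∤ M` a prime, `A` over `p`, `B = chart (M p) A (jSS M p)` the finite chart of level `M p`,
`𝔫` a closed point of its special fibre lying on both components (`S35.TorOnBoth`, e.g. a node
`S35.TorNodeAt`), `Q` a place of the special fibre `kC = h13sFt A M` centred at `𝔫`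
(`H85wCentred`, helper85).

* `h44sl_Pinf_le` : a point on both components lies on the component `C_∞`.
* `h44sl_mem_local` : a function of `ssV` without poles centered at `𝔫` is in the local ring
  `B_𝔫`.
* `h44sl_unit_ord` : a unit `ε` of `ssV` without zeros and poles centered at `𝔫` has
  `ord_Q(ε̄) = 0`.
* `h44sl_ord_node` : **for EVERY normal form** `u = κ x ^ m ε g₁ ^ r`, `g₁ = x ^ s ε∞`
  (`ε∞ ∈ 1 + π W_∞`, `ε` a unit of `ssV` without zeros and poles centered at `𝔫`):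
  `ord_Q(ū) = (m + r s) ord_Q(x̄)`.
* `h44sl_dvd_of_slope_zero` : if moreover `p ∣ m` and `r = p`, then `p ∣ ord_Q(ū)`
  (**slope zero at the node ⟹ the divisor of `ū` is divisible by `p` at `Q`**).
* `h44sl_node_exists` : existence form (helper90's normal form + the order).

Nothing is assumed: every statement is proved.
-/

set_option autoImplicit false
set_option linter.style.haveILetI false
set_option linter.unusedSectionVars false
set_option linter.unusedVariables false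
set_option synthInstance.maxHeartbeats 400000

open AlgebraicCurve ModularCurve IsLocalRing

noncomputable section

namespace Fermat.Agent.P7

open Fermat.Agent.S37 Fermat.Agent.Red Fermat.Agent.Red.GG Fermat.Agent.Red.GV
  Fermat.Agent.Red.GV.Soft Fermat.Agent.LGC Fermat.Agent.P5 Fermat.Agent.S35 Fermat.Agent.P6

variable {A : ValuationSubring Kbar} {M p : ℕ} [NeZero M] [NeZero p]

section Node

variable (hp : p.Prime) (hM : ¬ p ∣ M) (hA : A.LiesOverPrime p)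
  (𝔫 : Ideal (chart (M * p) A (jSS M p)))

/-- a point lying on both components lies on the component `C_∞`. -/
theorem h44sl_Pinf_le (hboth : TorOnBoth A M p hp hM hA (jSS M p) 𝔫) :
    h62i_Pinf A M hp hM hA ≤ 𝔫 := by
  intro b hb
  rw [h62i_mem_Pinf_iff_softR] at hb
  rcases (softR_eq_zero_iff A (M * p) ⟨_, h62i_mem_soft A M hp hM hA b⟩).mp hb with h0 | h1
  · have hb0 : b = 0 := Subtype.ext h0
    rw [hb0]
    exact 𝔫.zero_mem
  · exact hboth.1 b h1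

include hp hM hA in
/-- a function of `ssV` without poles centered at `𝔫` is in the local ring `B_𝔫`. -/
theorem h44sl_mem_local (h𝔫 : 𝔫.IsMaximal) {ε : FF (M * p)} (hε : ε ∈ ssV A M p)
    (hεc : ∀ k, h26Centered (chart (M * p) A (jSS M p)) (chartVal (M * p) (jSS M p)) 𝔫 k →
      chartVal (M * p) (jSS M p) k ε ≤ 1) :
    ε ∈ h62yO (chart (M * p) A (jSS M p)) 𝔫 h𝔫.isPrime := by
  haveI := h𝔫.isPrime
  have hC : IfaceSSChart A M p (jSS M p) := h85s_ifaceSSChart_fin A M p hp hM hA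
  obtain ⟨a, ha, s, hs, hsε⟩ := h26_stepC hC.hfin hC.hint hC.hB 𝔫 ε hεc
  refine ⟨s, hs, ?_⟩
  have hsV : (s : FF (M * p)) * ε ∈ ssV A M p :=
    (ssV A M p).mul_mem (hC.hBV _ s.2) hε
  exact hC.hQEP a ha _ hsV hsε

/-- **a unit of `ssV` without zeros and poles centered at `𝔫` reduces to a unit at every place
centred at `𝔫`.** -/
theorem h44sl_unit_ord (h𝔫 : 𝔫.IsMaximal) (hboth : TorOnBoth A M p hp hM hA (jSS M p) 𝔫)
    (Q : Place (h13sK A) (h13sFt A M)) (hQ : H85wCentred A M p Q 𝔫)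
    {ε : FF (M * p)} (hε : ε ∈ ssV A M p) (hεi : ε⁻¹ ∈ ssV A M p)
    (hεc : ∀ k, h26Centered (chart (M * p) A (jSS M p)) (chartVal (M * p) (jSS M p)) 𝔫 k →
      chartVal (M * p) (jSS M p) k ε = 1) :
    h44slOrd A M p ε Q = 0 := by
  have hPinf := h44sl_Pinf_le hp hM hA 𝔫 hboth
  have hεV : ε ∈ softV A (M * p) := h85c_ssV_le_Winf A M p hp hA hε
  have hεV' : ε⁻¹ ∈ softV A (M * p) := h85c_ssV_le_Winf A M p hp hA hεi
  have hεO := h44sl_mem_local hp hM hA 𝔫 h𝔫 hε (fun k hk => (hεc k hk).le)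
  have hεO' := h44sl_mem_local hp hM hA 𝔫 h𝔫 hεi (fun k hk => by
    rw [map_inv₀, hεc k hk, inv_one])
  obtain ⟨ye, hye, hyeQ⟩ := h85w_local_mem hp hM hA 𝔫 h𝔫 Q hPinf hQ hεO hεV
  obtain ⟨ye', hye', hyeQ'⟩ := h85w_local_mem hp hM hA 𝔫 h𝔫 Q hPinf hQ hεO' hεV'
  by_cases hε0 : ε = 0
  · rw [hε0, h44sl_ord_zero]
  have hee : ye * ye' = 1 := by
    apply h85w_incl_injective (A := A) (M := M)
    have h1 : h85wRed A M p ⟨ε, hεV⟩ ≠ 0 := h85w_red_ne_zero hεV hε0 hεV'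
    have h2 : h13sIncl A M (ye * ye') =
        h85wRed A M p ⟨ε, hεV⟩ * h85wRed A M p ⟨ε⁻¹, hεV'⟩ := by
      rw [map_mul, hye, hye']
    rw [h2, h85w_red_inv hεV hε0 hεV', mul_inv_cancel₀ h1]
    exact (map_one _).symm
  have hred : H44slRed A M p ε ye := h44sl_red_of_unit hεV hεV' hε0 hye.symm
  rw [h44sl_ord_eq hred]
  exact Q.ord_coe_unit
    ⟨⟨ye, hyeQ⟩, ⟨ye', hyeQ'⟩, Subtype.ext hee, Subtype.ext (by rw [mul_comm]; exact hee)⟩

/-- **the order at a place centred at a node, for EVERY normal form**: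
`ord_Q(ū) = (m + r s) ord_Q(x̄)`. -/
theorem h44sl_ord_node (h𝔫 : 𝔫.IsMaximal) (hboth : TorOnBoth A M p hp hM hA (jSS M p) 𝔫)
    (Q : Place (h13sK A) (h13sFt A M)) (hQ : H85wCentred A M p Q 𝔫)
    {x u κ ε g₁ εinf : FF (M * p)} {m s : ℤ} {r : ℕ} {π : A} (hπ : π ∈ maximalIdeal A)
    (hκ : h13x_IsConst A κ) (hx : x ≠ 0) (hu0 : u ≠ 0)
    (hu : u = κ * x ^ m * ε * g₁ ^ r)
    (hε : ε ∈ ssV A M p) (hεi : ε⁻¹ ∈ ssV A M p)
    (hεc : ∀ k, h26Centered (chart (M * p) A (jSS M p)) (chartVal (M * p) (jSS M p)) 𝔫 k →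
      chartVal (M * p) (jSS M p) k ε = 1)
    (hg : g₁ = x ^ s * εinf) (hεinf : εinf ∈ h26U π (softV A (M * p))) :
    h44slOrd A M p u Q = (m + r * s) * h44slOrd A M p x Q := by
  have hκ0 : κ ≠ 0 := by
    intro h0
    apply hu0
    rw [hu, h0, zero_mul, zero_mul, zero_mul]
  have hε0 : ε ≠ 0 := by
    intro h0
    apply hu0
    rw [hu, h0, mul_zero, zero_mul]
  rw [h44sl_ord_of_normal hp hM hA Q hπ hκ hκ0 hx hε0 hu hg hεinf,
    h44sl_unit_ord hp hM hA 𝔫 h𝔫 hboth Q hQ hε hεi hεc, add_zero]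

/-- **slope zero at the node ⟹ `p ∣ ord_Q(ū)`.** -/
theorem h44sl_dvd_of_slope_zero (h𝔫 : 𝔫.IsMaximal)
    (hboth : TorOnBoth A M p hp hM hA (jSS M p) 𝔫)
    (Q : Place (h13sK A) (h13sFt A M)) (hQ : H85wCentred A M p Q 𝔫)
    {x u κ ε g₁ εinf : FF (M * p)} {m s : ℤ} {π : A} (hπ : π ∈ maximalIdeal A)
    (hκ : h13x_IsConst A κ) (hx : x ≠ 0) (hu0 : u ≠ 0)
    (hu : u = κ * x ^ m * ε * g₁ ^ p)
    (hε : ε ∈ ssV A M p) (hεi : ε⁻¹ ∈ ssV A M p)
    (hεc : ∀ k, h26Centered (chart (M * p) A (jSS M p)) (chartVal (M * p) (jSS M p)) 𝔫 k →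
      chartVal (M * p) (jSS M p) k ε = 1)
    (hg : g₁ = x ^ s * εinf) (hεinf : εinf ∈ h26U π (softV A (M * p)))
    (hm : (p : ℤ) ∣ m) :
    (p : ℤ) ∣ h44slOrd A M p u Q := by
  rw [h44sl_ord_node hp hM hA 𝔫 h𝔫 hboth Q hQ hπ hκ hx hu0 hu hε hεi hεc hg hεinf]
  exact Dvd.dvd.mul_right (dvd_add hm (dvd_mul_right _ _)) _

/-- the slope at a place centred at a node is `m · ord_Q(x̄) mod p`. -/
theorem h44sl_slope_node_centred (h𝔫 : 𝔫.IsMaximal)
    (hboth : TorOnBoth A M p hp hM hA (jSS M p) 𝔫)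
    (Q : Place (h13sK A) (h13sFt A M)) (hQ : H85wCentred A M p Q 𝔫)
    {x u κ ε g₁ εinf : FF (M * p)} {m s : ℤ} {π : A} (hπ : π ∈ maximalIdeal A)
    (hκ : h13x_IsConst A κ) (hx : x ≠ 0) (hu0 : u ≠ 0)
    (hu : u = κ * x ^ m * ε * g₁ ^ p)
    (hε : ε ∈ ssV A M p) (hεi : ε⁻¹ ∈ ssV A M p)
    (hεc : ∀ k, h26Centered (chart (M * p) A (jSS M p)) (chartVal (M * p) (jSS M p)) 𝔫 k →
      chartVal (M * p) (jSS M p) k ε = 1)
    (hg : g₁ = x ^ s * εinf) (hεinf : εinf ∈ h26U π (softV A (M * p))) :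
    h44slSlope A M p u Q = (m : ZMod p) * h44slSlope A M p x Q := by
  unfold h44slSlope
  rw [h44sl_ord_node hp hM hA 𝔫 h𝔫 hboth Q hQ hπ hκ hx hu0 hu hε hεi hεc hg hεinf,
    Int.cast_mul, Int.cast_add, Int.cast_mul, Int.cast_natCast, ZMod.natCast_self, zero_mul,
    add_zero]

set_option maxHeartbeats 1600000 in
/-- **existence form**: at a node `𝔫` (coordinates `x y = a c`) and a place `Q` of the special
fibre centred at `𝔫`, every `u ≠ 0` with `p ∣ div u` has a normal form (helper90) with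
`ord_Q(ū) = (m + p s) ord_Q(x̄)`. -/
theorem h44sl_node_exists (h𝔫 : 𝔫.IsMaximal)
    (hle : mExt A M p (jSS M p) ≤ 𝔫)
    (hboth : TorOnBoth A M p hp hM hA (jSS M p) 𝔫)
    (x y c : chart (M * p) A (jSS M p)) (hx : x ∈ 𝔫) (hy : y ∈ 𝔫) (hc : c ∉ 𝔫)
    (a : A) (ha : a ≠ 0)
    (hxy : x * y = algebraMap A (chart (M * p) A (jSS M p)) a * c)
    (hprin : ∀ z ∈ 𝔫, ∃ s, s ∉ 𝔫 ∧ s * z ∈ Ideal.span {x, y} ⊔ mExt A M p (jSS M p))
    (hxinf : ((x : FF (M * p)))⁻¹ ∈ h85cWinf A M p hp hA)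
    (hy0 : ((y : FF (M * p)))⁻¹ ∈ h85cW0 A M p hp hM hA)
    (Q : Place (h13sK A) (h13sFt A M)) (hQ : H85wCentred A M p Q 𝔫)
    (u : FF (M * p)) (hu : u ≠ 0)
    (hord : ∀ v : Place Kbar (FF (M * p)), (p : ℤ) ∣ v.ord u) :
    ∃ (m s : ℤ) (κ α g₁ ε εinf ε0 : FF (M * p)) (π : A),
      π ∈ maximalIdeal A ∧ π ≠ 0 ∧
      h13x_IsConst A κ ∧ κ ≠ 0 ∧ h13x_IsConst A α ∧ α ≠ 0 ∧
      u = κ * (x : FF (M * p)) ^ m * ε * g₁ ^ p ∧
      ε ∈ ssV A M p ∧ ε⁻¹ ∈ ssV A M p ∧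
      g₁ = (x : FF (M * p)) ^ s * εinf ∧ εinf ∈ h26U π (h85cWinf A M p hp hA).toSubring ∧
      g₁ = α * ε0 ∧ ε0 ∈ h26U π (h85cW0 A M p hp hM hA).toSubring ∧
      h44slOrd A M p u Q = (m + p * s) * h44slOrd A M p (x : FF (M * p)) Q := by
  obtain ⟨m, s, κ, α, g₁, ε, εinf, ε0, π, hπ, hπ0, hκ, hκ0, hα, hα0, hnf, hε, hεi, hεc,
    hg, hεinf, hg', hε0⟩ :=
    h90s_node_normal_level A M hp hM hA 𝔫 h𝔫 hle hboth x y c hx hy hc a ha hxy hprin hxinf hy0
      u hu p hp.pos hord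
  have hx0 : (x : FF (M * p)) ≠ 0 := by
    intro h0
    have h1 : ((x * y : chart (M * p) A (jSS M p)) : FF (M * p)) = 0 := by
      push_cast
      rw [h0, zero_mul]
    rw [hxy] at h1
    have h2 : algebraMap A (FF (M * p)) a * (c : FF (M * p)) = 0 := h1
    rcases mul_eq_zero.mp h2 with h3 | h3
    · apply ha
      have h4 : cst (M * p) (a : Kbar) = 0 := h3
      have h5 : (a : Kbar) = 0 := by
        by_contra h6
        exact h44sl_cst_ne_zero h6 h4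
      exact Subtype.ext h5
    · apply hc
      have h4 : c = 0 := Subtype.ext h3
      rw [h4]
      exact 𝔫.zero_mem
  have hεinf' : εinf ∈ h26U π (softV A (M * p)) := hεinf
  exact ⟨m, s, κ, α, g₁, ε, εinf, ε0, π, hπ, hπ0, hκ, hκ0, hα, hα0, hnf, hε, hεi, hg,
    hεinf, hg', hε0,
    h44sl_ord_node hp hM hA 𝔫 h𝔫 hboth Q hQ hπ hκ hx0 hu hnf hε hεi hεc hg hεinf'⟩

end Node

end Fermat.Agent.P7
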