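import Fermat.Agent.P7.H44Slope
import Fermat.Agent.P7.H90SlopeLevel

/-!
# P7 (wave 7, S40), block (5) T-TORIC, row T-RHO-SLOPE, part 2 (helper44): the slope and the
node normal form

Bridge between the two descriptions of the slope of a function `u` of level `M p` at a
supersingular point:

* the **node-chart form** (helper90, `h90s_node_normal_level`): `u = κ x ^ m ε g₁ ^ r`,
  `g₁ = x ^ s ε∞`, `ε∞ ∈ 1 + π W_∞`, at a node `x y = a c` of the finite chart;
* the **place form** (`P7/H44Slope.lean`): `ord_e(ū)` at a place `e` of the special fibre.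

* `h44sl_red_of_unit`, `h44sl_red_of_congOne` (`ε∞ ∈ 1 + π W_∞` has scaled reduction `1`),
  `h44sl_red_zpow`, `h44sl_ord_zpow`, `h44sl_ord_isConst`.
* `h44sl_ord_of_normal` : `ord_e(ū) = (m + r s) ord_e(x̄) + ord_e(ε̄)`.
* `H44slAt A M p hp hM hA 𝔫 x e` : the place `e` of `kC` **sits at the node** `𝔫` (on the
  `∞`-branch): `ord_e(x̄) = 1` and `ord_e(ε̄) = 0` for the units `ε` of `ssV` without zeros and
  poles centered at `𝔫`.
* `h44sl_slope_node` : if `e` sits at the node `𝔫`, then for every `u ≠ 0` with `p ∣ div u` the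
  exponent `m` of `x` in a normal form of `u` at `𝔫` is the slope: `m_e(u) = m mod p`, and
  `ord_e(ū) = m + p s`.

Nothing is assumed: every statement is proved.
-/

set_option autoImplicit false
set_option linter.style.haveILetI false
set_option linter.unusedSectionVars false
set_option linter.unusedVariables false
set_option synthInstance.maxHeartbeats 400000

open AlgebraicCurve ModularCurve IsLocalRing

noncomputable section

namespace Fermat.Agent.P7

open Fermat.Agent.S37 Fermat.Agent.Red Fermat.Agent.Red.GG Fermat.Agent.Red.GV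
  Fermat.Agent.Red.GV.Soft Fermat.Agent.LGC Fermat.Agent.P5 Fermat.Agent.S35 Fermat.Agent.P6

variable {A : ValuationSubring Kbar} {M p : ℕ} [NeZero M] [NeZero p]

/-- a unit of `W_∞` is scaled. -/
theorem h44sl_red_of_unit {u : FF (M * p)} (hm : u ∈ softV A (M * p))
    (hi : u⁻¹ ∈ softV A (M * p)) (hu0 : u ≠ 0) {f : h13sFt A M}
    (hr : h44slR A (M * p) ⟨u, hm⟩ = h13sIncl A M f) : H44slRed A M p u f := by
  have h1 : cst (M * p) (1 : Kbar) * u = u := by
    show algebraMap Kbar (FF (M * p)) 1 * u = u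
    rw [map_one, one_mul]
  have hm' : cst (M * p) (1 : Kbar) * u ∈ softV A (M * p) := by rw [h1]; exact hm
  refine ⟨hu0, 1, one_ne_zero, hm', ?_, ?_⟩
  · rw [h1]; exact hi
  · rw [h44slR_congr hm' hm h1, hr]

/-- **`1 + π W_∞` has scaled reduction `1`.** -/
theorem h44sl_red_of_congOne {π : A} (hπ : π ∈ maximalIdeal A) {u : FF (M * p)}
    (hu : u ∈ h26U π (softV A (M * p))) : H44slRed A M p u 1 := by
  obtain ⟨v, hv, rfl⟩ := hu
  have hπn : (π : Kbar) ∈ A.nonunits :=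
    ValuationSubring.mem_nonunits_iff_exists_mem_maximalIdeal.mpr ⟨π.2, hπ⟩
  have hc : cst (M * p) (π : Kbar) ∈ softV A (M * p) :=
    (cst_mem_softV_iff A (M * p) _).mpr π.2
  have e1 : algebraMap A (FF (M * p)) π = cst (M * p) (π : Kbar) := rfl
  have hcv : cst (M * p) (π : Kbar) * v ∈ softV A (M * p) := (softV A (M * p)).mul_mem hc hv
  have hm : 1 + algebraMap A (FF (M * p)) π * v ∈ softV A (M * p) := by
    rw [e1]
    exact (softV A (M * p)).add_mem (softV A (M * p)).one_mem hcv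
  have hr : h44slR A (M * p) ⟨1 + algebraMap A (FF (M * p)) π * v, hm⟩ = 1 := by
    have h2 : (⟨1 + algebraMap A (FF (M * p)) π * v, hm⟩ : softV A (M * p)) =
        1 + ⟨cst (M * p) (π : Kbar), hc⟩ * ⟨v, hv⟩ := Subtype.ext rfl
    rw [h2, map_add, map_one, map_mul]
    have h3 : h44slR A (M * p) ⟨cst (M * p) (π : Kbar), hc⟩ = 0 :=
      softR_cst_of_nonunit A (M * p) _ hπn hc
    rw [h3, zero_mul, add_zero]
  have hne : softR A (M * p) ⟨1 + algebraMap A (FF (M * p)) π * v, hm⟩ ≠ 0 := by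
    intro h0
    have h4 : h44slR A (M * p) ⟨1 + algebraMap A (FF (M * p)) π * v, hm⟩ = 0 := h0
    rw [hr] at h4
    exact one_ne_zero h4
  obtain ⟨hu0, hi⟩ := (softR_ne_zero_iff A (M * p) ⟨_, hm⟩).mp hne
  exact h44sl_red_of_unit hm hi hu0 (by rw [hr, map_one])

theorem h44sl_red_zpow {u : FF (M * p)} {f : h13sFt A M}
    (hu : H44slRed A M p u f) (n : ℤ) : H44slRed A M p (u ^ n) (f ^ n) := by
  obtain ⟨k, rfl | rfl⟩ := n.eq_nat_or_neg
  · rw [zpow_natCast, zpow_natCast]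
    exact h44sl_red_pow hu k
  · rw [zpow_neg, zpow_neg, zpow_natCast, zpow_natCast]
    exact h44sl_red_inv (h44sl_red_pow hu k)

section Exists

variable (hp : p.Prime) (hM : ¬ p ∣ M) (hA : A.LiesOverPrime p)

include hp hM hA

theorem h44sl_ord_zpow {u : FF (M * p)} (hu : u ≠ 0) (n : ℤ)
    (e : Place (h13sK A) (h13sFt A M)) :
    h44slOrd A M p (u ^ n) e = n * h44slOrd A M p u e := by
  obtain ⟨f, hf⟩ := h44sl_exists_red hp hM hA hu
  rw [h44sl_ord_eq (h44sl_red_zpow hf n), h44sl_ord_eq hf, Place.ord_zpow]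

/-- the constants in the sense of `h13x_IsConst` have order `0`. -/
theorem h44sl_ord_isConst {κ : FF (M * p)} (hκ : h13x_IsConst A κ)
    (e : Place (h13sK A) (h13sFt A M)) : h44slOrd A M p κ e = 0 := by
  obtain ⟨a, b, hb, hab⟩ := hκ
  have hb0 : algebraMap A (FF (M * p)) b ≠ 0 := by
    intro h0
    apply hb
    have h1 : cst (M * p) (b : Kbar) = 0 := h0
    have h2 : (b : Kbar) = 0 := by
      by_contra h3
      exact h44sl_cst_ne_zero h3 h1
    exact Subtype.ext h2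
  have h1 : κ = cst (M * p) ((a : Kbar) / (b : Kbar)) := by
    have h2 : cst (M * p) ((a : Kbar) / (b : Kbar)) =
        cst (M * p) (a : Kbar) / cst (M * p) (b : Kbar) :=
      map_div₀ (algebraMap Kbar (FF (M * p))) _ _
    have hb0' : cst (M * p) (b : Kbar) ≠ 0 := hb0
    rw [h2]
    exact (eq_div_iff hb0').mpr hab
  rw [h1, h44sl_ord_cst]

/-- **the order of the scaled reduction of a normal form**:
`u = κ x ^ m ε g₁ ^ r`, `g₁ = x ^ s ε∞`, `ε∞ ∈ 1 + π W_∞`
`⟹ ord_e(ū) = (m + r s) ord_e(x̄) + ord_e(ε̄)`. -/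
theorem h44sl_ord_of_normal (e : Place (h13sK A) (h13sFt A M))
    {x u κ ε g₁ εinf : FF (M * p)} {m s : ℤ} {r : ℕ} {π : A} (hπ : π ∈ maximalIdeal A)
    (hκ : h13x_IsConst A κ) (hκ0 : κ ≠ 0) (hx : x ≠ 0) (hε : ε ≠ 0)
    (hu : u = κ * x ^ m * ε * g₁ ^ r) (hg : g₁ = x ^ s * εinf)
    (hεinf : εinf ∈ h26U π (softV A (M * p))) :
    h44slOrd A M p u e =
      (m + r * s) * h44slOrd A M p x e + h44slOrd A M p ε e := by
  have hred := h44sl_red_of_congOne (M := M) (p := p) hπ hεinf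
  have hεinf0 : εinf ≠ 0 := hred.1
  have h1 : h44slOrd A M p εinf e = 0 := by rw [h44sl_ord_eq hred, Place.ord_one]
  have hxs : x ^ s ≠ 0 := zpow_ne_zero s hx
  have hxm : x ^ m ≠ 0 := zpow_ne_zero m hx
  have hg0 : g₁ ≠ 0 := by rw [hg]; exact mul_ne_zero hxs hεinf0
  have h2 : h44slOrd A M p g₁ e = s * h44slOrd A M p x e := by
    rw [hg, h44sl_ord_mul hp hM hA hxs hεinf0, h44sl_ord_zpow hp hM hA hx, h1, add_zero]
  rw [hu, h44sl_ord_mul hp hM hA (mul_ne_zero (mul_ne_zero hκ0 hxm) hε) (pow_ne_zero r hg0),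
    h44sl_ord_mul hp hM hA (mul_ne_zero hκ0 hxm) hε,
    h44sl_ord_mul hp hM hA hκ0 hxm, h44sl_ord_isConst hp hM hA hκ,
    h44sl_ord_zpow hp hM hA hx, h44sl_ord_pow hp hM hA, h2]
  ring

end Exists

/-! ### The place at a node -/

/-- **the place `e` of the special fibre sits at the node `𝔫`** (on the `∞`-branch, with
parameter `x`): `ord_e(x̄) = 1`, and the units of `ssV` without zeros and poles centered at `𝔫`
reduce to units at `e`. -/
def H44slAt (A : ValuationSubring Kbar) (M p : ℕ) [NeZero M] [NeZero p]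
    (𝔫 : Ideal (chart (M * p) A (jSS M p))) (x : FF (M * p))
    (e : Place (h13sK A) (h13sFt A M)) : Prop :=
  h44slOrd A M p x e = 1 ∧
  ∀ ε : FF (M * p), ε ∈ ssV A M p → ε⁻¹ ∈ ssV A M p →
    (∀ k, h26Centered (chart (M * p) A (jSS M p)) (chartVal (M * p) (jSS M p)) 𝔫 k →
      chartVal (M * p) (jSS M p) k ε = 1) →
    h44slOrd A M p ε e = 0

set_option maxHeartbeats 1600000 in
/-- **the slope through the node chart is the slope at the place**: at a node `𝔫` with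
coordinates `x y = a c` and a place `e` of `kC` sitting at `𝔫`, every `u ≠ 0` with
`p ∣ div u` has a normal form `u = κ x ^ m ε g₁ ^ p` (helper90) with
`ord_e(ū) = m + p s`, hence `m_e(u) = m mod p`. -/
theorem h44sl_slope_node (hp : p.Prime) (hM : ¬ p ∣ M) (hA : A.LiesOverPrime p)
    (𝔫 : Ideal (chart (M * p) A (jSS M p))) (h𝔫 : 𝔫.IsMaximal)
    (hle : mExt A M p (jSS M p) ≤ 𝔫)
    (hboth : TorOnBoth A M p hp hM hA (jSS M p) 𝔫)
    (x y c : chart (M * p) A (jSS M p)) (hx : x ∈ 𝔫) (hy : y ∈ 𝔫) (hc : c ∉ 𝔫)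
    (a : A) (ha : a ≠ 0)
    (hxy : x * y = algebraMap A (chart (M * p) A (jSS M p)) a * c)
    (hprin : ∀ z ∈ 𝔫, ∃ s, s ∉ 𝔫 ∧ s * z ∈ Ideal.span {x, y} ⊔ mExt A M p (jSS M p))
    (hxinf : ((x : FF (M * p)))⁻¹ ∈ h85cWinf A M p hp hA)
    (hy0 : ((y : FF (M * p)))⁻¹ ∈ h85cW0 A M p hp hM hA)
    (e : Place (h13sK A) (h13sFt A M)) (he : H44slAt A M p 𝔫 (x : FF (M * p)) e)
    (u : FF (M * p)) (hu : u ≠ 0)
    (hord : ∀ v : Place Kbar (FF (M * p)), (p : ℤ) ∣ v.ord u) :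
    ∃ (m s : ℤ) (κ α g₁ ε εinf ε0 : FF (M * p)) (π : A),
      π ∈ maximalIdeal A ∧ π ≠ 0 ∧
      h13x_IsConst A κ ∧ κ ≠ 0 ∧ h13x_IsConst A α ∧ α ≠ 0 ∧
      u = κ * (x : FF (M * p)) ^ m * ε * g₁ ^ p ∧
      ε ∈ ssV A M p ∧ ε⁻¹ ∈ ssV A M p ∧
      g₁ = (x : FF (M * p)) ^ s * εinf ∧ εinf ∈ h26U π (h85cWinf A M p hp hA).toSubring ∧
      g₁ = α * ε0 ∧ ε0 ∈ h26U π (h85cW0 A M p hp hM hA).toSubring ∧
      h44slOrd A M p u e = m + p * s ∧
      h44slSlope A M p u e = (m : ZMod p) := by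
  obtain ⟨m, s, κ, α, g₁, ε, εinf, ε0, π, hπ, hπ0, hκ, hκ0, hα, hα0, hnf, hε, hεi, hεc,
    hg, hεinf, hg', hε0⟩ :=
    h90s_node_normal_level A M hp hM hA 𝔫 h𝔫 hle hboth x y c hx hy hc a ha hxy hprin hxinf hy0
      u hu p hp.pos hord
  have hx0 : (x : FF (M * p)) ≠ 0 := by
    intro h0
    have h1 := he.1
    rw [h0, h44sl_ord_zero] at h1
    exact zero_ne_one h1
  have hε0' : ε ≠ 0 := by
    intro h0
    apply hu
    rw [hnf, h0, mul_zero, zero_mul]
  have hεinf' : εinf ∈ h26U π (softV A (M * p)) := hεinf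
  have hordu : h44slOrd A M p u e = m + p * s := by
    rw [h44sl_ord_of_normal hp hM hA e hπ hκ hκ0 hx0 hε0' hnf hg hεinf', he.1,
      he.2 ε hε hεi hεc, mul_one, add_zero]
  refine ⟨m, s, κ, α, g₁, ε, εinf, ε0, π, hπ, hπ0, hκ, hκ0, hα, hα0, hnf, hε, hεi, hg,
    hεinf, hg', hε0, hordu, ?_⟩
  unfold h44slSlope
  rw [hordu, Int.cast_add, Int.cast_mul, Int.cast_natCast, ZMod.natCast_self, zero_mul,
    add_zero]

end Fermat.Agent.P7
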