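import Fermat.Agent.P7.H23Break

/-!
# Wave 7 (S44), row L-MULT, step (2) BREAK-CONVERSE (helper45, twin help for helper64)

GLOBAL frame of helper23 (`P7/H23ValI1`, `P7/H23Break`): `A` a valuation subring of `ℚ̄` over the
odd prime `p`, `I₁ = h23vI1 p A`, `K₁ = Fix(I₁)`, `v = A.valuation`.

* `h45u_bezout_val` : value-group arithmetic: `r ^ k = t ^ a`, `r ^ p = t ^ m`, `0 < k < p`
  ⟹ `r = t ^ n` for some `n : ℤ`.
* `h45u_breakConv` : **BREAK-CONVERSE**.  `β₀ ≠ 0`, `β₀ ^ p ∈ K₁`, `b ∈ I₁`, `b β₀ = ζ β₀`,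
  `z ≠ 0` fixed by `I_{β₀}`, and `(b z - z) / (z (ζ - 1)) ∉ A`
  (additively `v(b z - z) < v(z) + v(ζ - 1)`) ⟹ `v(β₀) = v(ζ - 1) ^ n` for some `n : ℤ`.
* `h45u_unitGen` : hence the Kummer generator can be taken a UNIT: `β = β₀ (ζ - 1) ^ (-n)`.
* `h45u_resolvent` : a Kummer generator from an element `x` moved by `b ∈ I₁` such that every
  `a ∈ I₁` acts on the `b`-orbit of `x` as a power of `b`.
* `h45u_kummerUnit` : the combined statement used by LOCAL-MULT: with a witness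
  `(b x - x) / ((x - c) (ζ - 1)) ∉ A`, `c ∈ K₁`, there is a UNIT `β` of `A` with `β ^ p ∈ K₁`
  whose stabiliser in `I₁` fixes `x`.
-/

set_option autoImplicit false
set_option linter.style.haveILetI false
set_option linter.unusedSectionVars false

open Fermat.Agent.PT.Loc Fermat.Agent.S56F Fermat.Agent.PT.Bridge

noncomputable section

namespace Fermat.Agent.P7

variable {p : ℕ} [Fact p.Prime]

/-- value-group arithmetic: if `r ^ k` and `r ^ p` are integral powers of `t` and `0 < k < p`,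
then `r` is an integral power of `t`. -/
theorem h45u_bezout_val {Γ : Type*} [LinearOrderedCommGroupWithZero Γ] {r t : Γ}
    (hr : r ≠ 0) {k : ℕ} (hk0 : 0 < k) (hkp : k < p) {a m : ℤ}
    (h1 : r ^ k = t ^ a) (h2 : r ^ p = t ^ m) : ∃ n : ℤ, r = t ^ n := by
  have hp : p.Prime := Fact.out
  have hcop : Nat.Coprime k p := by
    rw [Nat.coprime_comm]
    exact (Nat.Prime.coprime_iff_not_dvd hp).mpr fun h => by
      have := Nat.le_of_dvd hk0 h
      omega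
  have hb : ((Nat.gcd k p : ℕ) : ℤ) = k * Nat.gcdA k p + p * Nat.gcdB k p :=
    Nat.gcd_eq_gcd_ab k p
  rw [hcop.gcd_eq_one] at hb
  refine ⟨a * Nat.gcdA k p + m * Nat.gcdB k p, ?_⟩
  have h3 : r = r ^ ((k : ℤ) * Nat.gcdA k p + (p : ℤ) * Nat.gcdB k p) := by
    rw [← hb]
    simp
  rw [zpow_add₀ hr, zpow_mul, zpow_mul, zpow_natCast, zpow_natCast, h1, h2, ← zpow_mul,
    ← zpow_mul] at h3
  by_cases ht : t = 0
  · -- then `r ^ k = 0 ^ a`; `r ≠ 0` forces `a = 0` and similarly `m = 0`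
    subst ht
    have ha : a = 0 := by
      by_contra ha
      rw [zero_zpow a ha] at h1
      exact hr (pow_eq_zero_iff (by omega) |>.mp h1)
    have hm : m = 0 := by
      by_contra hm
      rw [zero_zpow m hm] at h2
      exact hr (pow_eq_zero_iff hp.ne_zero |>.mp h2)
    subst ha hm
    simp only [zero_mul, add_zero, zpow_zero] at h3 ⊢
    rw [mul_one] at h3
    exact h3
  · rw [zpow_add₀ ht]
    exact h3

/-- a sum whose nonzero terms have pairwise distinct valuations dominates each of its terms. -/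
theorem h45u_term_le {K : Type*} [Field K] {Γ : Type*} [LinearOrderedCommGroupWithZero Γ]
    (v : Valuation K Γ) (S : Finset ℕ) (t : ℕ → K)
    (hdist : ∀ i ∈ S, ∀ j ∈ S, i ≠ j → t i ≠ 0 → t j ≠ 0 → v (t i) ≠ v (t j)) :
    ∀ j ∈ S, v (t j) ≤ v (∑ i ∈ S, t i) := by
  classical
  intro j hj
  obtain ⟨j₀, hj₀, hmax⟩ := Finset.exists_max_image S (fun i => v (t i)) ⟨j, hj⟩
  by_cases h0 : t j₀ = 0
  · have h1 := hmax j hj
    rw [h0, map_zero] at h1
    rw [le_antisymm h1 zero_le]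
    exact zero_le
  have hv0 : v (t j₀) ≠ 0 := (Valuation.ne_zero_iff v).mpr h0
  have hlt : ∀ i ∈ S.erase j₀, v (t i) < v (t j₀) := by
    intro i hi
    have hi' := Finset.mem_erase.mp hi
    refine lt_of_le_of_ne (hmax i hi'.2) ?_
    by_cases hti : t i = 0
    · rw [hti, map_zero]
      exact fun h => hv0 h.symm
    · exact hdist i hi'.2 j₀ hj₀ hi'.1 hti h0
  have hsum : v (∑ i ∈ S.erase j₀, t i) < v (t j₀) := Valuation.map_sum_lt v hv0 hlt
  have hz : ∑ i ∈ S, t i = t j₀ + ∑ i ∈ S.erase j₀, t i :=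
    (Finset.add_sum_erase S t hj₀).symm
  rw [hz, Valuation.map_add_eq_of_lt_left v hsum]
  exact hmax j hj

/-- **BREAK-CONVERSE.**  If some `z ∈ Fix(I_{β₀})ˣ` moves under `b` by strictly less than
`v(z) + v(ζ - 1)` (additively), the Kummer generator `β₀` has its valuation in the value group
of `K₁ = Fix(I₁)`. -/
theorem h45u_breakConv (hp2 : p ≠ 2) (A : ValuationSubring Qb) (hA : A.LiesOverPrime p)
    {ζ : Qb} (hζ : IsPrimitiveRoot ζ p)
    {β₀ : Qb} (hβ0 : β₀ ≠ 0) (hβ : ∀ a ∈ h23vI1 p A, a (β₀ ^ p) = β₀ ^ p)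
    {b : GQ} (hb : b ∈ h23vI1 p A) (hbβ : b β₀ = ζ * β₀)
    {z : Qb} (hz0 : z ≠ 0) (hz : ∀ a ∈ h23vI1 p A, a β₀ = β₀ → a z = z)
    (hw : (b z - z) * (z * (ζ - 1))⁻¹ ∉ A) :
    ∃ n : ℤ, A.valuation β₀ = A.valuation (ζ - 1) ^ n := by
  have hp : p.Prime := Fact.out
  by_contra hcon0
  have hcon : ∀ n : ℤ, A.valuation β₀ ≠ A.valuation (ζ - 1) ^ n := fun n hn => hcon0 ⟨n, hn⟩
  obtain ⟨c, hc, hzc⟩ := h23v_resolvent A hβ0 hβ hz
  have hζ1 : ζ - 1 ≠ 0 := sub_ne_zero.mpr (hζ.ne_one hp.one_lt)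
  have hw0 : A.valuation (ζ - 1) ≠ 0 := (Valuation.ne_zero_iff _).mpr hζ1
  have hr0 : A.valuation β₀ ≠ 0 := (Valuation.ne_zero_iff _).mpr hβ0
  -- the `p`-th power of `v(β₀)`
  obtain ⟨m, hm⟩ := h23w_val_K1 hp2 A hA hζ (pow_ne_zero p hβ0) hβ
  rw [map_pow] at hm
  -- the terms
  have hbz : b z - z = ∑ j ∈ Finset.range p, (ζ ^ j - 1) * (c j * β₀ ^ j) := by
    conv_lhs => rw [hzc]
    rw [map_sum, ← Finset.sum_sub_distrib]
    refine Finset.sum_congr rfl fun j _ => ?_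
    rw [map_mul, map_pow, hc j b hb, hbβ]
    ring
  have hdist : ∀ i ∈ Finset.range p, ∀ j ∈ Finset.range p, i ≠ j → c i * β₀ ^ i ≠ 0 →
      c j * β₀ ^ j ≠ 0 → A.valuation (c i * β₀ ^ i) ≠ A.valuation (c j * β₀ ^ j) := by
    -- by symmetry it is enough to treat `i < j`
    have key : ∀ i j : ℕ, i < j → j < p → c i ≠ 0 → c j ≠ 0 →
        A.valuation (c i * β₀ ^ i) ≠ A.valuation (c j * β₀ ^ j) := by
      intro i j hij hjp hci hcj heq
      obtain ⟨ni, hni⟩ := h23w_val_K1 hp2 A hA hζ hci (hc i)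
      obtain ⟨nj, hnj⟩ := h23w_val_K1 hp2 A hA hζ hcj (hc j)
      rw [map_mul, map_mul, map_pow, map_pow, hni, hnj] at heq
      have hj : j = i + (j - i) := by omega
      have h1 : A.valuation β₀ ^ (j - i) = A.valuation (ζ - 1) ^ (ni - nj) := by
        have h2 : A.valuation β₀ ^ j = A.valuation β₀ ^ i * A.valuation β₀ ^ (j - i) := by
          conv_lhs => rw [hj]
          rw [pow_add]
        rw [h2] at heq
        have h3 : A.valuation β₀ ^ i ≠ 0 := pow_ne_zero _ hr0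
        have h4 : A.valuation (ζ - 1) ^ nj ≠ 0 := zpow_ne_zero _ hw0
        rw [zpow_sub₀ hw0]
        field_simp
        calc A.valuation β₀ ^ (j - i) * A.valuation (ζ - 1) ^ nj
            = (A.valuation (ζ - 1) ^ nj * (A.valuation β₀ ^ i * A.valuation β₀ ^ (j - i))) *
                (A.valuation β₀ ^ i)⁻¹ := by
              field_simp
          _ = (A.valuation (ζ - 1) ^ ni * A.valuation β₀ ^ i) * (A.valuation β₀ ^ i)⁻¹ := by
              rw [heq]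
          _ = A.valuation (ζ - 1) ^ ni := by
              field_simp
      obtain ⟨n, hn⟩ := h45u_bezout_val (p := p) hr0 (by omega : 0 < j - i) (by omega) h1 hm
      exact hcon n hn
    intro i hi j hj hij hti htj
    have hci : c i ≠ 0 := left_ne_zero_of_mul hti
    have hcj : c j ≠ 0 := left_ne_zero_of_mul htj
    rcases lt_or_gt_of_ne hij with h | h
    · exact key i j h (Finset.mem_range.mp hj) hci hcj
    · exact fun heq => key j i h (Finset.mem_range.mp hi) hcj hci heq.symm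
  have hle := h45u_term_le A.valuation (Finset.range p) (fun j => c j * β₀ ^ j) hdist
  rw [← hzc] at hle
  apply hw
  rw [← A.valuation_le_one_iff, map_mul, map_inv₀, map_mul]
  have hvz : A.valuation z ≠ 0 := (Valuation.ne_zero_iff _).mpr hz0
  have hmain : A.valuation (b z - z) ≤ A.valuation z * A.valuation (ζ - 1) := by
    rw [hbz]
    refine Valuation.map_sum_le _ fun j hj => ?_
    rw [map_mul, mul_comm (A.valuation z)]
    refine mul_le_mul' (h23w_val_root_sub_one A hζ ?_) (hle j hj)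
    rw [← pow_mul, mul_comm, pow_mul, hζ.pow_eq_one, one_pow]
  have hpos : A.valuation z * A.valuation (ζ - 1) ≠ 0 := mul_ne_zero hvz hw0
  calc A.valuation (b z - z) * (A.valuation z * A.valuation (ζ - 1))⁻¹
      ≤ (A.valuation z * A.valuation (ζ - 1)) * (A.valuation z * A.valuation (ζ - 1))⁻¹ :=
        mul_le_mul' hmain le_rfl
    _ = 1 := mul_inv_cancel₀ hpos

/-- the elements of `I₁` fix `ζ - 1` and its integral powers. -/
theorem h45u_fix_zpow (A : ValuationSubring Qb) {ζ : Qb} (hζ : IsPrimitiveRoot ζ p)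
    {a : GQ} (ha : a ∈ h23vI1 p A) (n : ℤ) : a ((ζ - 1) ^ n) = (ζ - 1) ^ n := by
  rw [map_zpow₀, map_sub, map_one, ha.2 ζ hζ.pow_eq_one]

/-- **the Kummer generator can be taken a unit** (same hypotheses as `h45u_breakConv`). -/
theorem h45u_unitGen (hp2 : p ≠ 2) (A : ValuationSubring Qb) (hA : A.LiesOverPrime p)
    {ζ : Qb} (hζ : IsPrimitiveRoot ζ p)
    {β₀ : Qb} (hβ0 : β₀ ≠ 0) (hβ : ∀ a ∈ h23vI1 p A, a (β₀ ^ p) = β₀ ^ p)
    {b : GQ} (hb : b ∈ h23vI1 p A) (hbβ : b β₀ = ζ * β₀)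
    {z : Qb} (hz0 : z ≠ 0) (hz : ∀ a ∈ h23vI1 p A, a β₀ = β₀ → a z = z)
    (hw : (b z - z) * (z * (ζ - 1))⁻¹ ∉ A) :
    ∃ β : Qb, β ∈ A ∧ β⁻¹ ∈ A ∧ (∀ a ∈ h23vI1 p A, a (β ^ p) = β ^ p) ∧
      ∀ a ∈ h23vI1 p A, (a β = β ↔ a β₀ = β₀) := by
  have hp : p.Prime := Fact.out
  obtain ⟨n, hn⟩ := h45u_breakConv hp2 A hA hζ hβ0 hβ hb hbβ hz0 hz hw
  have hζ1 : ζ - 1 ≠ 0 := sub_ne_zero.mpr (hζ.ne_one hp.one_lt)
  have hw0 : A.valuation (ζ - 1) ≠ 0 := (Valuation.ne_zero_iff _).mpr hζ1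
  have hu0 : (ζ - 1) ^ n ≠ 0 := zpow_ne_zero _ hζ1
  have hval : A.valuation (β₀ * ((ζ - 1) ^ n)⁻¹) = 1 := by
    rw [map_mul, map_inv₀, map_zpow₀, hn]
    exact mul_inv_cancel₀ (zpow_ne_zero _ hw0)
  refine ⟨β₀ * ((ζ - 1) ^ n)⁻¹, ?_, ?_, ?_, ?_⟩
  · exact (A.valuation_le_one_iff _).mp hval.le
  · refine (A.valuation_le_one_iff _).mp ?_
    rw [map_inv₀, hval, inv_one]
  · intro a ha
    rw [mul_pow, map_mul, hβ a ha, map_pow, map_inv₀, h45u_fix_zpow A hζ ha]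
  · intro a ha
    rw [map_mul, map_inv₀, h45u_fix_zpow A hζ ha]
    constructor
    · intro h
      exact mul_right_cancel₀ (inv_ne_zero hu0) h
    · intro h
      rw [h]

/-- powers of `b` on a resolvent. -/
theorem h45u_pow_res {ζ : Qb} (hζ : IsPrimitiveRoot ζ p) {b : GQ} (hbζ : b ζ = ζ) {x : Qb}
    (hbx : (b ^ p) x = x) (j i : ℕ) :
    (b ^ i) (h23vRes ζ b p x j) = ζ ^ (i * j) * h23vRes ζ b p x j := by
  have hp : p.Prime := Fact.out
  have hζ0 : ζ ≠ 0 := hζ.ne_zero hp.ne_zero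
  induction i with
  | zero => simp
  | succ i ih =>
    rw [pow_succ' b i, AlgEquiv.mul_apply, ih, map_mul, map_pow, hbζ,
      h23v_res_eigen hζ.pow_eq_one hζ0 hbζ hbx j, ← mul_assoc, ← pow_add, add_mul, one_mul]

/-- **Kummer generator from an orbit.**  `b ∈ I₁` moves `x`, `b ^ p x = x`, and every `a ∈ I₁`
acts on the `b`-orbit of `x` as a power of `b`: then some resolvent `β₀ ≠ 0` of `x` is an
eigenvector of `I₁` with eigenvalue a primitive root of unity for `b`, and its stabiliser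
fixes `x`. -/
theorem h45u_resolvent (A : ValuationSubring Qb) {ζ : Qb} (hζ : IsPrimitiveRoot ζ p)
    {b : GQ} (hb : b ∈ h23vI1 p A) {x : Qb} (hbx : (b ^ p) x = x) (hmove : b x ≠ x)
    (horb : ∀ a ∈ h23vI1 p A, ∃ i : ℕ, ∀ k : ℕ, a ((b ^ k) x) = (b ^ (k + i)) x) :
    ∃ (β₀ : Qb) (j : ℕ), β₀ ≠ 0 ∧ 0 < j ∧ j < p ∧ b β₀ = ζ ^ j * β₀ ∧
      (∀ a ∈ h23vI1 p A, a (β₀ ^ p) = β₀ ^ p) ∧
      ∀ a ∈ h23vI1 p A, a β₀ = β₀ → a x = x := by
  have hp : p.Prime := Fact.out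
  have hζ0 : ζ ≠ 0 := hζ.ne_zero hp.ne_zero
  have hbζ : b ζ = ζ := hb.2 ζ hζ.pow_eq_one
  have hpK : ((p : ℕ) : Qb) ≠ 0 := by exact_mod_cast hp.ne_zero
  -- some resolvent with `0 < j < p` is nonzero
  have hex : ∃ j ∈ Finset.range p, j ≠ 0 ∧ h23vRes ζ b p x j ≠ 0 := by
    by_contra hno
    have hall : ∀ j ∈ Finset.range p, j ≠ 0 → h23vRes ζ b p x j = 0 := by
      intro j hj hj0
      by_contra h
      exact hno ⟨j, hj, hj0, h⟩
    have hsum := h23v_res_sum hp hζ hpK b x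
    rw [Finset.sum_eq_single 0 (fun j hj hj0 => hall j hj hj0)
      (fun h => absurd (Finset.mem_range.mpr hp.pos) h)] at hsum
    have h1 := h23v_res_eigen hζ.pow_eq_one hζ0 hbζ hbx 0
    rw [pow_zero, one_mul, hsum] at h1
    exact hmove h1
  obtain ⟨j, hj, hj0, hRj⟩ := hex
  have hjp : j < p := Finset.mem_range.mp hj
  -- the action of `a ∈ I₁` on the resolvent
  have hact : ∀ a ∈ h23vI1 p A, ∀ i : ℕ, (∀ k : ℕ, a ((b ^ k) x) = (b ^ (k + i)) x) →
      a (h23vRes ζ b p x j) = ζ ^ (i * j) * h23vRes ζ b p x j := by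
    intro a ha i hi
    rw [← h45u_pow_res hζ hbζ hbx j i]
    unfold h23vRes
    rw [map_mul, map_inv₀, map_natCast, map_sum, map_mul, map_inv₀, map_natCast, map_sum]
    congr 1
    refine Finset.sum_congr rfl fun k _ => ?_
    rw [map_mul, map_pow, map_inv₀, ha.2 ζ hζ.pow_eq_one, hi k, map_mul, map_pow, map_inv₀]
    have hbiζ : (b ^ i) ζ = ζ := by
      clear hi
      induction i with
      | zero => simp
      | succ i ih => rw [pow_succ' b i, AlgEquiv.mul_apply, ih, hbζ]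
    rw [hbiζ, ← AlgEquiv.mul_apply, ← pow_add, add_comm i k]
  refine ⟨h23vRes ζ b p x j, j, hRj, Nat.pos_of_ne_zero hj0, hjp,
    h23v_res_eigen hζ.pow_eq_one hζ0 hbζ hbx j, ?_, ?_⟩
  · intro a ha
    obtain ⟨i, hi⟩ := horb a ha
    rw [map_pow, hact a ha i hi, mul_pow, ← pow_mul, mul_comm (i * j) p, pow_mul,
      hζ.pow_eq_one, one_pow, one_mul]
  · intro a ha hfix
    obtain ⟨i, hi⟩ := horb a ha
    have h1 := hact a ha i hi
    rw [hfix] at h1
    have h2 : ζ ^ (i * j) = 1 := by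
      have h3 : (ζ ^ (i * j) - 1) * h23vRes ζ b p x j = 0 := by
        rw [sub_mul, one_mul, ← h1, sub_self]
      rcases mul_eq_zero.mp h3 with h4 | h4
      · exact sub_eq_zero.mp h4
      · exact absurd h4 hRj
    have h5 : p ∣ i * j := (hζ.pow_eq_one_iff_dvd _).mp h2
    have h6 : p ∣ i := by
      rcases (Nat.Prime.dvd_mul hp).mp h5 with h | h
      · exact h
      · exact absurd (Nat.le_of_dvd (Nat.pos_of_ne_zero hj0) h) (not_le.mpr hjp)
    obtain ⟨m, rfl⟩ := h6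
    have h7 := hi 0
    rw [pow_zero, AlgEquiv.one_apply, zero_add] at h7
    rw [h7]
    -- `(b ^ (p m)) x = x`
    clear hi h1 h2 h5 h7
    induction m with
    | zero => simp
    | succ m ih =>
      rw [Nat.mul_succ, pow_add, AlgEquiv.mul_apply, hbx]
      exact ih

/-- **LOCAL-MULT, Kummer part.**  `b ∈ I₁`, `x` with `b ^ p x = x` on whose `b`-orbit every
`a ∈ I₁` acts as a power of `b`, `c ∈ K₁ = Fix(I₁)` an approximation of `x` with
`(b x - x) / ((x - c) (ζ - 1)) ∉ A` (additively `v(b x - x) < v(x - c) + v(ζ - 1)`): then there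
is a UNIT `β` of `A` with `β ^ p ∈ K₁` whose stabiliser in `I₁` fixes `x`. -/
theorem h45u_kummerUnit (hp2 : p ≠ 2) (A : ValuationSubring Qb) (hA : A.LiesOverPrime p)
    {ζ : Qb} (hζ : IsPrimitiveRoot ζ p)
    {b : GQ} (hb : b ∈ h23vI1 p A) {x : Qb} (hbx : (b ^ p) x = x)
    (horb : ∀ a ∈ h23vI1 p A, ∃ i : ℕ, ∀ k : ℕ, a ((b ^ k) x) = (b ^ (k + i)) x)
    {c : Qb} (hc : ∀ a ∈ h23vI1 p A, a c = c)
    (hw : (b x - x) * ((x - c) * (ζ - 1))⁻¹ ∉ A) :
    ∃ β : Qb, β ∈ A ∧ β⁻¹ ∈ A ∧ (∀ a ∈ h23vI1 p A, a (β ^ p) = β ^ p) ∧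
      ∀ a ∈ h23vI1 p A, a β = β → a x = x := by
  have hp : p.Prime := Fact.out
  have hmove : b x ≠ x := by
    intro h
    apply hw
    rw [h, sub_self, zero_mul]
    exact A.zero_mem
  have hxc : x - c ≠ 0 := by
    intro h
    apply hw
    rw [h, zero_mul, inv_zero, mul_zero]
    exact A.zero_mem
  obtain ⟨β₀, j, hβ0, hj0, hjp, hbβ, hβp, hstab⟩ := h45u_resolvent A hζ hb hbx hmove horb
  have hcop : j.Coprime p := by
    rw [Nat.coprime_comm, hp.coprime_iff_not_dvd]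
    exact Nat.not_dvd_of_pos_of_lt hj0 hjp
  have hζ' : IsPrimitiveRoot (ζ ^ j) p := hζ.pow_of_coprime j hcop
  -- the two depths `ζ - 1` and `ζ ^ j - 1` have the same valuation
  have hv1 : A.valuation (ζ ^ j - 1) ≤ A.valuation (ζ - 1) :=
    h23w_val_root_sub_one A hζ hζ'.pow_eq_one
  have hz : ∀ a ∈ h23vI1 p A, a β₀ = β₀ → a (x - c) = x - c := by
    intro a ha h
    rw [map_sub, hstab a ha h, hc a ha]
  have hbz : b (x - c) - (x - c) = b x - x := by
    rw [map_sub, hc b hb]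
    ring
  have hw' : (b (x - c) - (x - c)) * ((x - c) * (ζ ^ j - 1))⁻¹ ∉ A := by
    rw [hbz]
    intro hmem
    apply hw
    have hζ1 : ζ - 1 ≠ 0 := sub_ne_zero.mpr (hζ.ne_one hp.one_lt)
    have hζj1 : ζ ^ j - 1 ≠ 0 := sub_ne_zero.mpr (hζ'.ne_one hp.one_lt)
    have hq : (ζ ^ j - 1) * (ζ - 1)⁻¹ ∈ A := by
      rw [← A.valuation_le_one_iff, map_mul, map_inv₀]
      have hw0 : A.valuation (ζ - 1) ≠ 0 := (Valuation.ne_zero_iff _).mpr hζ1
      calc A.valuation (ζ ^ j - 1) * (A.valuation (ζ - 1))⁻¹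
          ≤ A.valuation (ζ - 1) * (A.valuation (ζ - 1))⁻¹ := mul_le_mul' hv1 le_rfl
        _ = 1 := mul_inv_cancel₀ hw0
    have heq : (b x - x) * ((x - c) * (ζ - 1))⁻¹ =
        ((b x - x) * ((x - c) * (ζ ^ j - 1))⁻¹) * ((ζ ^ j - 1) * (ζ - 1)⁻¹) := by
      field_simp
    rw [heq]
    exact A.mul_mem _ _ hmem hq
  obtain ⟨β, h1, h2, h3, h4⟩ := h45u_unitGen hp2 A hA hζ' hβ0 hβp hb hbβ hxc hz hw'
  exact ⟨β, h1, h2, h3, fun a ha h => hstab a ha ((h4 a ha).mp h)⟩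

end Fermat.Agent.P7
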