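import Fermat.Agent.S21.E.Main

/-!
# Wave 7 (S44), DLOG crux GENUS-MATCH, leaf GM1 = (K3) analytic COUNT (helper45, prefix `h45x_`)

On top of the landed analytic Dedekind–Weber package `S21/E` (the proof of S20):
`Γ ≤ SL(2,ℤ)` of finite index, `t` an admissible family (`Tuple Γ`) of weakly holomorphic
`Γ`-invariant functions `v_k` of degrees `d_k`, `j = E₄³ / Δ`.

* `h45x_isWH_mul` : `j ^ a * v` is weakly holomorphic of degree `≤ n` as soon as `a + d ≤ n`.
* `h45x_indep` : the functions `j ^ a * v_k` (`a ≤ n - d_k`) are `ℂ`-linearly independent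
  (from `Tuple.nondeg`).
* `h45x_count_tuple` : for `n ≥ d_k` (all `k`) there are `(n + 1) μ - Σ d_k` linearly independent
  weakly holomorphic `Γ`-invariant functions of degree `≤ n`.
* `h45x_count` : for `Γ = Γ₀(N)` there are `G n₀` with `G ≤ dim S₂(Γ₀(N))` such that for every
  `n ≥ n₀` there are `n μ + 1 - G` linearly independent weakly holomorphic functions of degree
  `≤ n` (`μ` the index).  With the dictionary `IsWH ⟶ L(n (j)_∞)` and Riemann's theorem this
  gives `g_weak ≤ G ≤ dim S₂`.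
-/

set_option autoImplicit false
set_option linter.unusedSectionVars false
set_option linter.style.haveILetI false

open UpperHalfPlane hiding I
open Complex Filter Function Topology
open scoped Manifold MatrixGroups ModularForm Real

noncomputable section

namespace Fermat.Agent.P7

open Fermat.Agent.S21.E Fermat.Agent.S21.EPrim

local notation "Δ" => ModularForm.discriminant
local notation "E₄" => ModularForm.E₄

/-- `Δ · j = E₄³`. -/
theorem h45x_disc_mul_jFun (z : ℍ) : Δ z * jFun z = E₄ z ^ 3 := by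
  unfold jFun
  have h := ModularForm.discriminant_ne_zero z
  field_simp

/-- `j` is holomorphic on `ℍ`. -/
theorem h45x_mdiff_jFun : MDiff jFun := by
  rw [UpperHalfPlane.mdifferentiable_iff]
  have h4 : DifferentiableOn ℂ ((E₄ : ℍ → ℂ) ∘ ofComplex) {z | 0 < z.im} :=
    UpperHalfPlane.mdifferentiable_iff.1 (ModularFormClass.holo E₄)
  have hΔ : DifferentiableOn ℂ ((Δ : ℍ → ℂ) ∘ ofComplex) {z | 0 < z.im} :=
    UpperHalfPlane.mdifferentiable_iff.1 (ModularFormClass.holo CuspForm.discriminant)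
  have : (jFun ∘ ofComplex) = fun w => ((E₄ : ℍ → ℂ) ∘ ofComplex) w ^ 3
      / ((Δ : ℍ → ℂ) ∘ ofComplex) w := by
    funext w
    simp [jFun]
  rw [this]
  exact (h4.pow 3).div hΔ (fun w _ => ModularForm.discriminant_ne_zero _)

/-- bounds for `‖j‖` near `i∞`. -/
theorem h45x_jFun_bounds :
    ∃ Y : ℝ, ∀ z : ℍ, Y ≤ z.im →
      (1 / 2 : ℝ) < ‖jFun z‖ * Real.exp (-2 * Real.pi * z.im) := by
  have h := tendsto_jFun_mul_q.eventually
    (Metric.ball_mem_nhds (1 : ℂ) (by norm_num : (0:ℝ) < 1/2))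
  obtain ⟨Y, hY⟩ := (atImInfty_mem _).1 h
  refine ⟨Y, fun z hz => ?_⟩
  have hz' := hY z hz
  simp only [Set.mem_ofPred_eq, Complex.dist_eq] at hz'
  have hn : ‖jFun z * Function.Periodic.qParam 1 (z : ℂ)‖
      = ‖jFun z‖ * Real.exp (-2 * Real.pi * z.im) := by
    rw [norm_mul, Function.Periodic.norm_qParam]
    simp
  rw [← hn]
  have h2 := norm_sub_norm_le 1 (jFun z * Function.Periodic.qParam 1 (z : ℂ))
  rw [norm_sub_rev] at h2
  rw [norm_one] at h2
  linarith

/-- `j ^ a * v` is weakly holomorphic of degree `≤ n` when `a + d ≤ n`. -/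
theorem h45x_isWH_mul {Γ : Subgroup SL(2, ℤ)} {d : ℕ} {v : ℍ → ℂ} (hv : IsWH Γ d v) (a n : ℕ)
    (han : a + d ≤ n) : IsWH Γ n (fun z => jFun z ^ a * v z) where
  holo := (h45x_mdiff_jFun.pow a).mul hv.holo
  inv γ hγ z := by
    show jFun (γ • z) ^ a * v (γ • z) = jFun z ^ a * v z
    rw [jFun_smul, hv.inv γ hγ z]
  bdd g := by
    have h1 : IsBoundedAtImInfty (fun z : ℍ => Δ z ^ (n - (a + d))) := Min.bdd_pow_disc _
    have h2 : IsBoundedAtImInfty (fun z : ℍ => (E₄ z ^ 3) ^ a) :=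
      MinReduced.bdd_pow (MinReduced.bdd_pow MinReduced.E4_bdd 3) a
    have h3 := hv.bdd g
    have h4 := (h1.mul h2).mul h3
    refine h4.congr' (Eventually.of_forall fun z => ?_) (by rfl)
    simp only [Pi.mul_apply]
    rw [jFun_smul, ← h45x_disc_mul_jFun z]
    have e : n = (n - (a + d)) + a + d := by omega
    conv_rhs => rw [e]
    ring

/-- `j` is unbounded on `ℍ`. -/
theorem h45x_jFun_unbounded (R : ℝ) : ∃ z : ℍ, R < ‖jFun z‖ := by
  obtain ⟨Y, hY⟩ := h45x_jFun_bounds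
  set y : ℝ := max (max Y 1) (2 * R) with hy
  have hy1 : (1 : ℝ) ≤ y := le_trans (le_max_right _ _) (le_max_left _ _)
  have hyY : Y ≤ y := le_trans (le_max_left _ _) (le_max_left _ _)
  have hyR : 2 * R ≤ y := le_max_right _ _
  have hy0 : (0 : ℝ) < y := by linarith
  refine ⟨⟨(y : ℂ) * Complex.I, by simpa using hy0⟩, ?_⟩
  have him : (⟨(y : ℂ) * Complex.I, by simpa using hy0⟩ : ℍ).im = y := by
    show ((y : ℂ) * Complex.I).im = y
    simp
  have h1 := hY ⟨(y : ℂ) * Complex.I, by simpa using hy0⟩ (by rw [him]; exact hyY)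
  rw [him] at h1
  set J := ‖jFun ⟨(y : ℂ) * Complex.I, by simpa using hy0⟩‖ with hJ
  have hJ0 : 0 ≤ J := norm_nonneg _
  -- `exp (-2π y) ≤ 1 / (1 + 2π y) ≤ 1 / y`
  have hpi : (3 : ℝ) < Real.pi := Real.pi_gt_three
  have hexp : Real.exp (-2 * Real.pi * y) * y ≤ 1 := by
    have h2 : 2 * Real.pi * y + 1 ≤ Real.exp (2 * Real.pi * y) := Real.add_one_le_exp _
    have h3 : Real.exp (-2 * Real.pi * y) * Real.exp (2 * Real.pi * y) = 1 := by
      rw [← Real.exp_add]
      have : -2 * Real.pi * y + 2 * Real.pi * y = 0 := by ring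
      rw [this, Real.exp_zero]
    have h4 : 0 < Real.exp (-2 * Real.pi * y) := Real.exp_pos _
    have h5 : y ≤ Real.exp (2 * Real.pi * y) := by nlinarith
    calc Real.exp (-2 * Real.pi * y) * y
        ≤ Real.exp (-2 * Real.pi * y) * Real.exp (2 * Real.pi * y) :=
          mul_le_mul_of_nonneg_left h5 h4.le
      _ = 1 := h3
  -- `1/2 < J e ≤ J / y`
  have h6 : (1 / 2 : ℝ) * y < J := by
    have h7 : (1 / 2 : ℝ) * y < J * Real.exp (-2 * Real.pi * y) * y :=
      mul_lt_mul_of_pos_right h1 hy0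
    have h8 : J * Real.exp (-2 * Real.pi * y) * y ≤ J := by
      rw [mul_assoc]
      exact mul_le_of_le_one_right hJ0 hexp
    linarith
  linarith

/-- a polynomial vanishing on all values of `j` is zero. -/
theorem h45x_poly_eq_zero (P : Polynomial ℂ) (h : ∀ z : ℍ, P.eval (jFun z) = 0) : P = 0 := by
  by_contra hP
  classical
  -- the roots are bounded
  obtain ⟨R, hR⟩ : ∃ R : ℝ, ∀ w ∈ P.roots.toFinset, ‖w‖ ≤ R := by
    refine ⟨∑ w ∈ P.roots.toFinset, ‖w‖, fun w hw => ?_⟩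
    exact Finset.single_le_sum (f := fun w => ‖w‖) (fun i _ => norm_nonneg i) hw
  obtain ⟨z, hz⟩ := h45x_jFun_unbounded R
  have hroot : jFun z ∈ P.roots.toFinset := by
    rw [Multiset.mem_toFinset, Polynomial.mem_roots hP]
    exact h z
  exact absurd (hR _ hroot) (not_le.mpr hz)

section Tuple

variable {Γ : Subgroup SL(2, ℤ)} [Fintype (SL(2, ℤ) ⧸ Γ)] [DecidableEq (SL(2, ℤ) ⧸ Γ)]

/-- the family `j ^ a * v_k`, `a ≤ n - d_k`. -/
def h45xFam (t : Tuple Γ) (n : ℕ) (i : Σ k : SL(2, ℤ) ⧸ Γ, Fin (n + 1 - t.d k)) : ℍ → ℂ :=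
  fun z => jFun z ^ (i.2 : ℕ) * t.v i.1 z

theorem h45x_fam_isWH (t : Tuple Γ) (n : ℕ)
    (i : Σ k : SL(2, ℤ) ⧸ Γ, Fin (n + 1 - t.d k)) : IsWH Γ n (h45xFam t n i) := by
  have h := i.2.2
  exact h45x_isWH_mul (t.wh i.1) (i.2 : ℕ) n (by omega)

/-- the polynomial attached to a coefficient family. -/
def h45xPoly (t : Tuple Γ) (n : ℕ) (c : (Σ k : SL(2, ℤ) ⧸ Γ, Fin (n + 1 - t.d k)) → ℂ)
    (k : SL(2, ℤ) ⧸ Γ) : Polynomial ℂ :=
  ∑ a : Fin (n + 1 - t.d k), Polynomial.C (c ⟨k, a⟩) * Polynomial.X ^ (a : ℕ)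

theorem h45x_poly_coeff (t : Tuple Γ) (n : ℕ)
    (c : (Σ k : SL(2, ℤ) ⧸ Γ, Fin (n + 1 - t.d k)) → ℂ) (k : SL(2, ℤ) ⧸ Γ)
    (a : Fin (n + 1 - t.d k)) : (h45xPoly t n c k).coeff (a : ℕ) = c ⟨k, a⟩ := by
  unfold h45xPoly
  rw [Polynomial.finsetSum_coeff]
  rw [Finset.sum_eq_single a]
  · rw [Polynomial.coeff_C_mul, Polynomial.coeff_X_pow, if_pos rfl, mul_one]
  · intro b _ hb
    rw [Polynomial.coeff_C_mul, Polynomial.coeff_X_pow, if_neg, mul_zero]
    intro hab
    exact hb (Fin.ext hab.symm)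
  · intro h
    exact absurd (Finset.mem_univ a) h

theorem h45x_poly_eval (t : Tuple Γ) (n : ℕ)
    (c : (Σ k : SL(2, ℤ) ⧸ Γ, Fin (n + 1 - t.d k)) → ℂ) (k : SL(2, ℤ) ⧸ Γ) (w : ℂ) :
    (h45xPoly t n c k).eval w = ∑ a : Fin (n + 1 - t.d k), c ⟨k, a⟩ * w ^ (a : ℕ) := by
  unfold h45xPoly
  rw [Polynomial.eval_finsetSum]
  refine Finset.sum_congr rfl fun a _ => ?_
  rw [Polynomial.eval_mul, Polynomial.eval_C, Polynomial.eval_pow, Polynomial.eval_X]

/-- **independence**: the functions `j ^ a * v_k` are linearly independent over `ℂ`. -/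
theorem h45x_indep (t : Tuple Γ) (n : ℕ) : LinearIndependent ℂ (h45xFam t n) := by
  classical
  rw [Fintype.linearIndependent_iff]
  intro c hc
  -- pointwise relation
  have hrel : ∀ z : ℍ, ∑ k, (h45xPoly t n c k).eval (jFun z) * t.v k z = 0 := by
    intro z
    have h1 := congrFun hc z
    rw [Finset.sum_apply] at h1
    simp only [Pi.smul_apply, smul_eq_mul, Pi.zero_apply] at h1
    rw [Fintype.sum_sigma] at h1
    rw [← h1]
    refine Finset.sum_congr rfl fun k _ => ?_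
    rw [h45x_poly_eval, Finset.sum_mul]
    refine Finset.sum_congr rfl fun a _ => ?_
    show c ⟨k, a⟩ * jFun z ^ (a : ℕ) * t.v k z = c ⟨k, a⟩ * (jFun z ^ (a : ℕ) * t.v k z)
    ring
  -- the vector of values is killed by the matrix of conjugates
  have hvec : ∀ z : ℍ, Matrix.vecMul (fun k => (h45xPoly t n c k).eval (jFun z))
      (cmat Γ t.v z) = 0 := by
    intro z
    funext x
    have h1 := hrel ((Quotient.out x)⁻¹ • z)
    rw [show (Matrix.vecMul (fun k => (h45xPoly t n c k).eval (jFun z)) (cmat Γ t.v z)) x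
      = ∑ k, (h45xPoly t n c k).eval (jFun z) * cmat Γ t.v z k x from rfl]
    simp only [jFun_smul] at h1
    exact h1
  -- the values vanish where the determinant does not
  have hval : ∀ z : ℍ, (cmat Γ t.v z).det ≠ 0 → ∀ k, (h45xPoly t n c k).eval (jFun z) = 0 := by
    intro z hz k
    have h1 := Matrix.eq_zero_of_vecMul_eq_zero hz (hvec z)
    exact congrFun h1 k
  -- hence everywhere, by continuity
  have hall : ∀ k, ∀ z₀ : ℍ, (h45xPoly t n c k).eval (jFun z₀) = 0 := by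
    intro k z₀
    have hcont : Continuous (fun z : ℍ => (h45xPoly t n c k).eval (jFun z)) :=
      (Polynomial.continuous _).comp h45x_mdiff_jFun.continuous
    have h1 : Tendsto (fun z : ℍ => (h45xPoly t n c k).eval (jFun z)) (𝓝[≠] z₀)
        (𝓝 ((h45xPoly t n c k).eval (jFun z₀))) :=
      (hcont.tendsto z₀).mono_left nhdsWithin_le_nhds
    have h2 : Tendsto (fun z : ℍ => (h45xPoly t n c k).eval (jFun z)) (𝓝[≠] z₀) (𝓝 0) := by
      refine Tendsto.congr' ?_ tendsto_const_nhds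
      filter_upwards [det_eventually_ne_zero t z₀] with z hz
      exact (hval z hz k).symm
    haveI := Api.nhdsNE_neBot z₀
    exact tendsto_nhds_unique h1 h2
  rintro ⟨k, a⟩
  have hP : h45xPoly t n c k = 0 := h45x_poly_eq_zero _ (hall k)
  rw [← h45x_poly_coeff t n c k a, hP, Polynomial.coeff_zero]

/-- the number of members of the family. -/
theorem h45x_card (t : Tuple Γ) (n : ℕ) (hn : ∀ k, t.d k ≤ n) :
    Fintype.card (Σ k : SL(2, ℤ) ⧸ Γ, Fin (n + 1 - t.d k))
      = (n + 1) * Fintype.card (SL(2, ℤ) ⧸ Γ) - t.total := by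
  rw [Fintype.card_sigma]
  simp only [Fintype.card_fin]
  have h1 : ∑ k : SL(2, ℤ) ⧸ Γ, (n + 1 - t.d k) + t.total
      = (n + 1) * Fintype.card (SL(2, ℤ) ⧸ Γ) := by
    unfold Tuple.total
    rw [← Finset.sum_add_distrib]
    have h2 : ∀ k ∈ (Finset.univ : Finset (SL(2, ℤ) ⧸ Γ)), n + 1 - t.d k + t.d k = n + 1 := by
      intro k _
      have := hn k
      omega
    rw [Finset.sum_congr rfl h2, Finset.sum_const, Finset.card_univ, smul_eq_mul, mul_comm]
  omega

/-- **the count for a tuple.** -/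
theorem h45x_count_tuple (t : Tuple Γ) (n : ℕ) (hn : ∀ k, t.d k ≤ n) :
    ∃ f : Fin ((n + 1) * Fintype.card (SL(2, ℤ) ⧸ Γ) - t.total) → ℍ → ℂ,
      (∀ i, IsWH Γ n (f i)) ∧ LinearIndependent ℂ f := by
  classical
  have hcard := h45x_card t n hn
  let e : Fin ((n + 1) * Fintype.card (SL(2, ℤ) ⧸ Γ) - t.total) ≃
      (Σ k : SL(2, ℤ) ⧸ Γ, Fin (n + 1 - t.d k)) :=
    (finCongr hcard.symm).trans (Fintype.equivFin _).symm
  refine ⟨fun i => h45xFam t n (e i), fun i => h45x_fam_isWH t n (e i), ?_⟩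
  exact (h45x_indep t n).comp e e.injective

end Tuple

/-- **GM1 / (K3), the analytic count for `Γ₀(N)`.**  There are `G` and `n₀` with
`G ≤ dim S₂(Γ₀(N))` such that for every `n ≥ n₀` there are `n μ + 1 - G` linearly independent
`Γ₀(N)`-invariant weakly holomorphic functions of degree `≤ n` (`μ` the index of `Γ₀(N)`). -/
theorem h45x_count (N : ℕ) [NeZero N] :
    ∃ G n₀ : ℕ,
      G ≤ Module.finrank ℂ (CuspForm ((CongruenceSubgroup.Gamma0 N).map
        (Matrix.SpecialLinearGroup.mapGL ℝ)) 2) ∧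
      ∀ n : ℕ, n₀ ≤ n →
        ∃ f : Fin (n * (CongruenceSubgroup.Gamma0 N).index + 1 - G) → ℍ → ℂ,
          (∀ i, IsWH (CongruenceSubgroup.Gamma0 N) n (f i)) ∧ LinearIndependent ℂ f := by
  classical
  letI : Fintype (SL(2, ℤ) ⧸ CongruenceSubgroup.Gamma0 N) :=
    Subgroup.fintypeQuotientOfFiniteIndex
  have hneg : (-1 : SL(2, ℤ)) ∈ CongruenceSubgroup.Gamma0 N := by
    rw [CongruenceSubgroup.Gamma0_mem]; simp
  obtain ⟨t, ht⟩ := exists_isMin (nonempty_tuple_Gamma0 N)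
  obtain ⟨ω, hω⟩ := exists_linearIndependent_cuspForms hneg ht.saturated ht.reduced
  haveI : FiniteDimensional ℂ (CuspForm ((CongruenceSubgroup.Gamma0 N).map
      (Matrix.SpecialLinearGroup.mapGL ℝ)) 2) :=
    Fermat.Agent.S49.finiteDimensional_cuspForm N 2
  have h2 := hω.fintype_card_le_finrank
  rw [Fintype.card_fin] at h2
  refine ⟨t.total + 1 - (CongruenceSubgroup.Gamma0 N).index, t.total, h2, fun n hn => ?_⟩
  have hd : ∀ k, t.d k ≤ n := fun k =>
    le_trans (Finset.single_le_sum (f := t.d) (fun i _ => Nat.zero_le _) (Finset.mem_univ k)) hn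
  obtain ⟨f, hf, hfi⟩ := h45x_count_tuple t n hd
  have hidx : (CongruenceSubgroup.Gamma0 N).index
      = Fintype.card (SL(2, ℤ) ⧸ CongruenceSubgroup.Gamma0 N) := by
    rw [Subgroup.index_eq_card, Nat.card_eq_fintype_card]
  have hμ : 1 ≤ Fintype.card (SL(2, ℤ) ⧸ CongruenceSubgroup.Gamma0 N) :=
    Fintype.card_pos_iff.mpr ⟨x0 _⟩
  have hle : n * (CongruenceSubgroup.Gamma0 N).index + 1
      - (t.total + 1 - (CongruenceSubgroup.Gamma0 N).index)
      ≤ (n + 1) * Fintype.card (SL(2, ℤ) ⧸ CongruenceSubgroup.Gamma0 N) - t.total := by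
    rw [hidx]
    have h3 : (n + 1) * Fintype.card (SL(2, ℤ) ⧸ CongruenceSubgroup.Gamma0 N)
        = n * Fintype.card (SL(2, ℤ) ⧸ CongruenceSubgroup.Gamma0 N)
          + Fintype.card (SL(2, ℤ) ⧸ CongruenceSubgroup.Gamma0 N) := by ring
    have h4 : n ≤ n * Fintype.card (SL(2, ℤ) ⧸ CongruenceSubgroup.Gamma0 N) :=
      Nat.le_mul_of_pos_right n hμ
    rw [h3]
    omega
  refine ⟨fun i => f (Fin.castLE hle i), fun i => hf _, ?_⟩
  exact hfi.comp (Fin.castLE hle) (Fin.castLE_injective hle)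

end Fermat.Agent.P7

namespace Fermat.Agent.P7

open Fermat.Agent.S21.E in
/-- the same with the level written as in the frozen statement S20. -/
theorem h45x_count' (N : ℕ) [NeZero N] :
    ∃ G n₀ : ℕ,
      G ≤ Module.finrank ℂ (CuspForm (CongruenceSubgroup.Gamma0 N) 2) ∧
      ∀ n : ℕ, n₀ ≤ n →
        ∃ f : Fin (n * (CongruenceSubgroup.Gamma0 N).index + 1 - G) → UpperHalfPlane → ℂ,
          (∀ i, IsWH (CongruenceSubgroup.Gamma0 N) n (f i)) ∧ LinearIndependent ℂ f :=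
  h45x_count N

end Fermat.Agent.P7
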