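import Mathlib
import Fermat.Agent.P7.H83ResNormAll

/-!
# Wave 7, DLOG at the non-good level: signs of the orders of a norm (helper83)

`φ : F →ₐ[K] F'` finite, `K` algebraically closed of characteristic zero, `Nm = normAlong φ`.

* `h83o_ord_normAlong_nonneg` : `g'` regular at every place over `v` ⟹ `Nm g'` regular at `v`.
* `h83o_ord_normAlong_pos` : moreover a zero over `v` ⟹ `Nm g'` has a zero at `v`.
* `h83o_exists_pos_of_ord_normAlong_pos` : `Nm g'` has a zero at `v` ⟹ `g'` has a zero at some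
  place over `v`.
* `h83o_exists_neg_of_ord_normAlong_neg` : the same for poles.
* `FF N → FF M` instances `h83o_ord_norm_FF_nonneg`, `h83o_ord_norm_FF_pos`,
  `h83o_exists_pos_of_ord_norm_FF_pos`, `h83o_exists_neg_of_ord_norm_FF_neg`.
-/

set_option autoImplicit false
set_option linter.unusedSectionVars false
set_option linter.style.haveILetI false

open AlgebraicCurve IntermediateField ModularCurve

noncomputable section

namespace Fermat.Agent.P7

open Fermat.Agent.S37

section Along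

variable {K F F' : Type*} [Field K] [IsAlgClosed K] [CharZero K] [Field F] [Field F']
  [Algebra K F] [Algebra K F'] [HasPrincipalDivisors K F']

/-- the order of the norm as the sum over the whole fibre. -/
theorem h83o_ord_normAlong_eq_sum_fiber (φ : F →ₐ[K] F')
    (hφ : φ.toRingHom.IsIntegral) (hfin : FiniteAlong K φ) (x : F') [FiniteDimensional K⟮x⟯ F']
    (g' : F') (hg' : g' ≠ 0) (v : Place K F) :
    v.ord (Fermat.Agent.Red.KR.normAlong φ g') = ∑ w ∈ Place.fiberAlong φ hφ v, w.ord g' :=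
  (Fermat.Agent.Red.GFF.sum_fiberAlong_ord_eq_ord_norm φ hφ hfin x v g' hg').symm

theorem h83o_ord_normAlong_nonneg (φ : F →ₐ[K] F')
    (hφ : φ.toRingHom.IsIntegral) (hfin : FiniteAlong K φ) (x : F') [FiniteDimensional K⟮x⟯ F']
    (g' : F') (hg' : g' ≠ 0) (v : Place K F)
    (hreg : ∀ w : Place K F', w.restrictAlong φ hφ = v → 0 ≤ w.ord g') :
    0 ≤ v.ord (Fermat.Agent.Red.KR.normAlong φ g') := by
  rw [h83o_ord_normAlong_eq_sum_fiber φ hφ hfin x g' hg' v]
  exact Finset.sum_nonneg fun w hw => hreg w (Place.mem_fiberAlong.mp hw)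

theorem h83o_ord_normAlong_pos (φ : F →ₐ[K] F')
    (hφ : φ.toRingHom.IsIntegral) (hfin : FiniteAlong K φ) (x : F') [FiniteDimensional K⟮x⟯ F']
    (g' : F') (hg' : g' ≠ 0) (v : Place K F)
    (hreg : ∀ w : Place K F', w.restrictAlong φ hφ = v → 0 ≤ w.ord g')
    (w₀ : Place K F') (hw₀ : w₀.restrictAlong φ hφ = v) (hpos : 0 < w₀.ord g') :
    0 < v.ord (Fermat.Agent.Red.KR.normAlong φ g') := by
  rw [h83o_ord_normAlong_eq_sum_fiber φ hφ hfin x g' hg' v]
  exact Finset.sum_pos' (fun w hw => hreg w (Place.mem_fiberAlong.mp hw))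
    ⟨w₀, Place.mem_fiberAlong.mpr hw₀, hpos⟩

theorem h83o_ord_normAlong_nonpos (φ : F →ₐ[K] F')
    (hφ : φ.toRingHom.IsIntegral) (hfin : FiniteAlong K φ) (x : F') [FiniteDimensional K⟮x⟯ F']
    (g' : F') (hg' : g' ≠ 0) (v : Place K F)
    (hreg : ∀ w : Place K F', w.restrictAlong φ hφ = v → w.ord g' ≤ 0) :
    v.ord (Fermat.Agent.Red.KR.normAlong φ g') ≤ 0 := by
  rw [h83o_ord_normAlong_eq_sum_fiber φ hφ hfin x g' hg' v]
  exact Finset.sum_nonpos fun w hw => hreg w (Place.mem_fiberAlong.mp hw)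

theorem h83o_exists_pos_of_ord_normAlong_pos (φ : F →ₐ[K] F')
    (hφ : φ.toRingHom.IsIntegral) (hfin : FiniteAlong K φ) (x : F') [FiniteDimensional K⟮x⟯ F']
    (g' : F') (hg' : g' ≠ 0) (v : Place K F)
    (hv : 0 < v.ord (Fermat.Agent.Red.KR.normAlong φ g')) :
    ∃ w : Place K F', w.restrictAlong φ hφ = v ∧ 0 < w.ord g' := by
  by_contra hcon
  push Not at hcon
  have := h83o_ord_normAlong_nonpos φ hφ hfin x g' hg' v hcon
  omega

theorem h83o_exists_neg_of_ord_normAlong_neg (φ : F →ₐ[K] F')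
    (hφ : φ.toRingHom.IsIntegral) (hfin : FiniteAlong K φ) (x : F') [FiniteDimensional K⟮x⟯ F']
    (g' : F') (hg' : g' ≠ 0) (v : Place K F)
    (hv : v.ord (Fermat.Agent.Red.KR.normAlong φ g') < 0) :
    ∃ w : Place K F', w.restrictAlong φ hφ = v ∧ w.ord g' < 0 := by
  by_contra hcon
  push Not at hcon
  have := h83o_ord_normAlong_nonneg φ hφ hfin x g' hg' v hcon
  omega

end Along

section NeZero

variable {K F F' : Type*} [Field K] [Field F] [Field F'] [Algebra K F] [Algebra K F']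

/-- the norm of a nonzero element is nonzero. -/
theorem h83o_normAlong_ne_zero (φ : F →ₐ[K] F') (hfin : FiniteAlong K φ) (g' : F')
    (hg' : g' ≠ 0) : Fermat.Agent.Red.KR.normAlong φ g' ≠ 0 := by
  letI := algebraAlong φ
  haveI : Module.Finite F F' := hfin
  show Algebra.norm F g' ≠ 0
  rw [Ne, Algebra.norm_eq_zero_iff]
  exact hg'

end NeZero

section Level

variable {N M : ℕ} [NeZero N] [NeZero M] (h : N ∣ M)

theorem h83o_ord_norm_FF_eq_sum_fiber (g' : FF M) (hg' : g' ≠ 0) (v : Place Kbar (FF N)) :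
    haveI := Fermat.Agent.Red.HKMod.hasPrincipalDivisors_FF M
    v.ord (Fermat.Agent.Red.KR.normAlong (degen h) g') =
      ∑ w ∈ Place.fiberAlong (degen h) (Fermat.Agent.Red.CH0.isIntegral_degen h) v,
        w.ord g' := by
  haveI := Fermat.Agent.Red.HKMod.finiteDimensional_jBar M
  haveI := Fermat.Agent.Red.HKMod.hasPrincipalDivisors_FF M
  exact h83o_ord_normAlong_eq_sum_fiber (degen h) (Fermat.Agent.Red.CH0.isIntegral_degen h)
    (Fermat.Agent.Red.CH0.finiteAlong_degen h) (Fermat.Agent.S24.jBar M) g' hg' v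

theorem h83o_ord_norm_FF_nonneg (g' : FF M) (hg' : g' ≠ 0) (v : Place Kbar (FF N))
    (hreg : ∀ w : Place Kbar (FF M),
      w.restrictAlong (degen h) (Fermat.Agent.Red.CH0.isIntegral_degen h) = v → 0 ≤ w.ord g') :
    0 ≤ v.ord (Fermat.Agent.Red.KR.normAlong (degen h) g') := by
  haveI := Fermat.Agent.Red.HKMod.finiteDimensional_jBar M
  haveI := Fermat.Agent.Red.HKMod.hasPrincipalDivisors_FF M
  exact h83o_ord_normAlong_nonneg (degen h) (Fermat.Agent.Red.CH0.isIntegral_degen h)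
    (Fermat.Agent.Red.CH0.finiteAlong_degen h) (Fermat.Agent.S24.jBar M) g' hg' v hreg

theorem h83o_ord_norm_FF_pos (g' : FF M) (hg' : g' ≠ 0) (v : Place Kbar (FF N))
    (hreg : ∀ w : Place Kbar (FF M),
      w.restrictAlong (degen h) (Fermat.Agent.Red.CH0.isIntegral_degen h) = v → 0 ≤ w.ord g')
    (w₀ : Place Kbar (FF M))
    (hw₀ : w₀.restrictAlong (degen h) (Fermat.Agent.Red.CH0.isIntegral_degen h) = v)
    (hpos : 0 < w₀.ord g') :
    0 < v.ord (Fermat.Agent.Red.KR.normAlong (degen h) g') := by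
  haveI := Fermat.Agent.Red.HKMod.finiteDimensional_jBar M
  haveI := Fermat.Agent.Red.HKMod.hasPrincipalDivisors_FF M
  exact h83o_ord_normAlong_pos (degen h) (Fermat.Agent.Red.CH0.isIntegral_degen h)
    (Fermat.Agent.Red.CH0.finiteAlong_degen h) (Fermat.Agent.S24.jBar M) g' hg' v hreg w₀ hw₀
    hpos

theorem h83o_exists_pos_of_ord_norm_FF_pos (g' : FF M) (hg' : g' ≠ 0) (v : Place Kbar (FF N))
    (hv : 0 < v.ord (Fermat.Agent.Red.KR.normAlong (degen h) g')) :
    ∃ w : Place Kbar (FF M),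
      w.restrictAlong (degen h) (Fermat.Agent.Red.CH0.isIntegral_degen h) = v ∧
        0 < w.ord g' := by
  haveI := Fermat.Agent.Red.HKMod.finiteDimensional_jBar M
  haveI := Fermat.Agent.Red.HKMod.hasPrincipalDivisors_FF M
  exact h83o_exists_pos_of_ord_normAlong_pos (degen h)
    (Fermat.Agent.Red.CH0.isIntegral_degen h) (Fermat.Agent.Red.CH0.finiteAlong_degen h)
    (Fermat.Agent.S24.jBar M) g' hg' v hv

theorem h83o_exists_neg_of_ord_norm_FF_neg (g' : FF M) (hg' : g' ≠ 0) (v : Place Kbar (FF N))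
    (hv : v.ord (Fermat.Agent.Red.KR.normAlong (degen h) g') < 0) :
    ∃ w : Place Kbar (FF M),
      w.restrictAlong (degen h) (Fermat.Agent.Red.CH0.isIntegral_degen h) = v ∧
        w.ord g' < 0 := by
  haveI := Fermat.Agent.Red.HKMod.finiteDimensional_jBar M
  haveI := Fermat.Agent.Red.HKMod.hasPrincipalDivisors_FF M
  exact h83o_exists_neg_of_ord_normAlong_neg (degen h)
    (Fermat.Agent.Red.CH0.isIntegral_degen h) (Fermat.Agent.Red.CH0.finiteAlong_degen h)
    (Fermat.Agent.S24.jBar M) g' hg' v hv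

/-- the norm of a nonzero function is nonzero. -/
theorem h83o_norm_FF_ne_zero (g' : FF M) (hg' : g' ≠ 0) :
    Fermat.Agent.Red.KR.normAlong (degen h) g' ≠ 0 :=
  h83o_normAlong_ne_zero (degen h) (Fermat.Agent.Red.CH0.finiteAlong_degen h) g' hg'

end Level

end Fermat.Agent.P7
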