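import Fermat.Agent.P7.H56SymInst
import Fermat.Agent.P7.H52ExactIface

/-!
# Wave 7 (S44), DLOG at a non-good level: SYM-LITE from the EXACT FUNCTION (helper56)

Row `H2-SYMLITE`: the level theorem `h56s_symLite_level` of `P7/H56SymInst.lean` applied to the
exact function of helper52's frozen interface `H52xExactAt` (`P7/H52ExactIface.lean`).

`M` prime to `p`, `M⁺ = goodLevel p M`, `r` the reduction map of places at the level `M⁺`,
`vM` the `q`-order place of `FF M`, `c` ANY place of `FF M⁺` over `vM`.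

* `h56s_symLite_of_exactAt` : `y ∈ softV A M` with `0 ≤ ord_q (softR y)` `⟹`
  `0 ≤ ord_{r c} (red (degen y))`.
* `h56s_symLite_unit_of_exactAt` : `y` a Gauss unit of level `M` with `ord_q (softR y) = 0` `⟹`
  `ord_{r c} (red (degen y)) = 0`.
* `H56sSymLite`, `H56sSymLiteUnit` : the two statements for all data (frozen shapes);
  `h56s_symLite_of_exact : H52xExact → H56sSymLite`,
  `h56s_symLiteUnit_of_exact : H52xExact → H56sSymLiteUnit`.
-/

set_option autoImplicit false
set_option linter.unusedSectionVars false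
set_option linter.unusedVariables false
set_option linter.style.longLine false
set_option linter.style.haveILetI false

open AlgebraicCurve ModularCurve Polynomial

noncomputable section

namespace Fermat.Agent.P7

open Fermat.Agent.S37 Fermat.Agent.Red.GV Fermat.Agent.Red.GV.Soft Fermat.Agent.P5
open Fermat.Agent.Red.CH0 (isIntegral_degen)

section Exact

variable {p M : ℕ} [NeZero M] (A : ValuationSubring Kbar)
  (r : Place Kbar (FF (goodLevel p M)) → Place (h13sK A) (h13sFt A (goodLevel p M)))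
  (vM : Place Kbar (FF M))

/-- **SYM-LITE from the exact function.** -/
theorem h56s_symLite_of_exactAt (hex : H52xExactAt p M A r vM)
    (c : Place Kbar (FF (goodLevel p M)))
    (hc : c.restrictAlong (degen (dvd_goodLevel p M))
      (isIntegral_degen (dvd_goodLevel p M)) = vM)
    (y : FF M) (hy : y ∈ softV A M)
    (hyp : degen (dvd_goodLevel p M) y ∈ gaussV A (goodLevel p M))
    (hy0 : 0 ≤ (softR A M ⟨y, hy⟩).order) :
    0 ≤ (r c).ord (h13sRed A (goodLevel p M) ⟨degen (dvd_goodLevel p M) y, hyp⟩) := by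
  obtain ⟨m, h, hh, hd, hm, -, hreg, hvM, hord, hpole⟩ := hex
  exact h56s_symLite_level_red A (dvd_goodLevel p M) h hh m hm hord
    (h56s_rel_of_pole M h m hm vM hvM hreg) (r c) hd (hpole c hc) y hy hyp hy0

/-- **SYM-LITE from the exact function, unit form.** -/
theorem h56s_symLite_unit_of_exactAt (hex : H52xExactAt p M A r vM)
    (c : Place Kbar (FF (goodLevel p M)))
    (hc : c.restrictAlong (degen (dvd_goodLevel p M))
      (isIntegral_degen (dvd_goodLevel p M)) = vM)
    (y : FF M) (hy : y ∈ softV A M) (hyi : y⁻¹ ∈ softV A M)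
    (hyp : degen (dvd_goodLevel p M) y ∈ gaussV A (goodLevel p M))
    (hyip : degen (dvd_goodLevel p M) y⁻¹ ∈ gaussV A (goodLevel p M))
    (hy0 : (softR A M ⟨y, hy⟩).order = 0) :
    (r c).ord (h13sRed A (goodLevel p M) ⟨degen (dvd_goodLevel p M) y, hyp⟩) = 0 := by
  obtain ⟨m, h, hh, hd, hm, -, hreg, hvM, hord, hpole⟩ := hex
  exact h56s_symLite_level_unit A (dvd_goodLevel p M) h hh m hm hord
    (h56s_rel_of_pole M h m hm vM hvM hreg) (r c) hd (hpole c hc) y hy hyi hyp hyip hy0

end Exact

/-- **SYM-LITE** (row `H2-SYMLITE`), frozen shape. -/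
def H56sSymLite : Prop :=
  ∀ (p : ℕ), p.Prime → ∀ (M : ℕ) [NeZero M], ¬ p ∣ M →
    ∀ A : ValuationSubring Kbar, A.LiesOverPrime p →
    ∀ r : Place Kbar (FF (goodLevel p M)) → Place (h13sK A) (h13sFt A (goodLevel p M)),
      H13sIsRed A (goodLevel p M) r →
    ∀ vM : Place Kbar (FF M), H52xIsQPlace M vM →
    ∀ c : Place Kbar (FF (goodLevel p M)),
      c.restrictAlong (degen (dvd_goodLevel p M))
        (isIntegral_degen (dvd_goodLevel p M)) = vM →
    ∀ (y : FF M) (hy : y ∈ softV A M)
      (hyp : degen (dvd_goodLevel p M) y ∈ gaussV A (goodLevel p M)),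
      0 ≤ (softR A M ⟨y, hy⟩).order →
        0 ≤ (r c).ord (h13sRed A (goodLevel p M) ⟨degen (dvd_goodLevel p M) y, hyp⟩)

/-- **SYM-LITE, unit form** (row `H2-SYMLITE`), frozen shape. -/
def H56sSymLiteUnit : Prop :=
  ∀ (p : ℕ), p.Prime → ∀ (M : ℕ) [NeZero M], ¬ p ∣ M →
    ∀ A : ValuationSubring Kbar, A.LiesOverPrime p →
    ∀ r : Place Kbar (FF (goodLevel p M)) → Place (h13sK A) (h13sFt A (goodLevel p M)),
      H13sIsRed A (goodLevel p M) r →
    ∀ vM : Place Kbar (FF M), H52xIsQPlace M vM →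
    ∀ c : Place Kbar (FF (goodLevel p M)),
      c.restrictAlong (degen (dvd_goodLevel p M))
        (isIntegral_degen (dvd_goodLevel p M)) = vM →
    ∀ (y : FF M) (hy : y ∈ softV A M) (_hyi : y⁻¹ ∈ softV A M)
      (hyp : degen (dvd_goodLevel p M) y ∈ gaussV A (goodLevel p M))
      (_hyip : degen (dvd_goodLevel p M) y⁻¹ ∈ gaussV A (goodLevel p M)),
      (softR A M ⟨y, hy⟩).order = 0 →
        (r c).ord (h13sRed A (goodLevel p M) ⟨degen (dvd_goodLevel p M) y, hyp⟩) = 0

theorem h56s_symLite_of_exact (hex : H52xExact) : H56sSymLite := by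
  intro p hp M _ hM A hA r hr vM hvM c hc y hy hyp hy0
  exact h56s_symLite_of_exactAt A r vM (hex p hp M hM A hA r hr vM hvM) c hc y hy hyp hy0

theorem h56s_symLiteUnit_of_exact (hex : H52xExact) : H56sSymLiteUnit := by
  intro p hp M _ hM A hA r hr vM hvM c hc y hy hyi hyp hyip hy0
  exact h56s_symLite_unit_of_exactAt A r vM (hex p hp M hM A hA r hr vM hvM) c hc y hy hyi
    hyp hyip hy0

end Fermat.Agent.P7
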