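import Fermat.Agent.P7.H88ExactIface
import Fermat.Agent.P7.H36S2OfInt
import Fermat.Agent.P7.H1IntModel
import Fermat.Agent.P7.H56SymExact

/-!
# Wave 7, block (A), DLOG at a non-good level: H2-EXACT and SYM-LITE, UNCONDITIONAL (helper88)

* `h88e_S2 : H52xS2` : the `q`-order place of the generic fibre of a good level reduces to the
  `q`-order place of the special fibre (from helper1's `h1i_int : H26iInt` and helper36's
  `h36s_s2_of_int`).
* `h88e_exact_final : H52xExact` : the exact function (frozen interface of
  `P7/H52ExactIface.lean`).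
* `h88e_symLite : H56sSymLite`, `h88e_symLiteUnit : H56sSymLiteUnit` : SYM-LITE (frozen shapes
  of `P7/H56SymExact.lean`).
-/

set_option autoImplicit false

open AlgebraicCurve ModularCurve

noncomputable section

namespace Fermat.Agent.P7

open Fermat.Agent.S37 Fermat.Agent.Red.GV Fermat.Agent.P5

/-- **(S2)** in the shape of `P7/H52ExactIface.lean`. -/
theorem h88e_S2 : H52xS2 := fun p hp N _ hN haux A hA r hr v Q hv hQ =>
  h36s_s2_of_int h1i_int p hp N hN haux A hA r hr Q hQ v hv

/-- **H2-EXACT**, unconditional. -/
theorem h88e_exact_final : H52xExact := h88e_exact_iface h88e_S2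

/-- **SYM-LITE**, unconditional. -/
theorem h88e_symLite : H56sSymLite := h56s_symLite_of_exact h88e_exact_final

/-- **SYM-LITE, unit form**, unconditional. -/
theorem h88e_symLiteUnit : H56sSymLiteUnit := h56s_symLiteUnit_of_exact h88e_exact_final

end Fermat.Agent.P7
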