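import Fermat.Agent.P7.H44OrthLift
import Fermat.Agent.P7.H93QInt
import Fermat.Agent.P7.H83NormOrd
import Fermat.Agent.P7.H88ExactFinal
import Fermat.Agent.P5.H50LinkBridge
import Fermat.Agent.P5.H58SFCech

/-!
# Wave 7 (S44), block (A) DLOG at the non-good level, ORTH(M), leaf DISC (helper45, `h45k_`)

`M` prime to `ℓ`, `N` a level with `M ∣ N`, `ℓ ∤ N` (in the application `N = goodLevel ℓ M`),
`A` over `ℓ`, `r` a reduction map of places at level `N` (`H13sIsRed A N r`), `voo` / `vM` the
`q`-order places of `FF N` / `FF M`, (S2): `r voo` is the `q`-order place of the special fibre.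

* `h45k_disc` : let `g ∈ FF N`, `g ≠ 0`, be such that no zero or pole of `g` lies in the
  residue class of a place over `vM` (this is what the exact lift `h44o_exact_lift` with
  `S = {r c | c over vM}` provides).  Then `degen (Nm g)` (`Nm = normAlong degen : FF N → FF M`)
  has NO zero and NO pole in the residue class of `voo`.  Input: an EXACT function `h` of
  level `M` (regular off `vM`, pole of order `m ≥ 1` at `vM`, reduction of `q`-order `-m`).
* `h45k_disc_exact` : the same with the EXACT function in the frozen shape `H52xExactAt`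
  (`N = goodLevel p M`).
* `h45k_disc_final` : the same, UNCONDITIONAL (EXACT = `h88e_exact_final`, (S2) = `h88e_S2`).

Proof (finding 1461 (H2), msgs of helper46 / helper67): if `v'` in the class of `voo` is a zero
or pole of `degen (Nm g)`, then `w = v' ∩ FF M` is a zero or pole of `Nm g`, so some `v` over
`w` is a zero or pole of `g` (norm-order formula, helper83) and `w ≠ vM`.  Let `a = h (w)`.
If `a ∈ A`, RED-DIV for the Gauss unit `degen h - a` on the class of `voo` gives
`-m = ord (red) ≥ -m + 1` (pole of order `m` at `voo`, zero at `v'`, no other pole in the class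
since `voo` is the only place of the class over `vM`).  If `a ∉ A`, `degen h` has a pole in the
class of `v` (`h44o_value_mem`, helper44), i.e. the class of `v` is the class of a place over
`vM`: excluded.

Tools: `h45k_order_sub_C`, `h45k_valueAt_degen`, `h45k_ord_degen_nonneg`, `h45k_over_eq`,
`h45k_qplace_restrict`.  Nothing is assumed: every statement is proved.
-/

set_option autoImplicit false
set_option linter.unusedSectionVars false
set_option linter.unusedVariables false
set_option linter.style.longLine false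
set_option linter.style.haveILetI false
set_option synthInstance.maxHeartbeats 400000

open AlgebraicCurve ModularCurve

noncomputable section

namespace Fermat.Agent.P7

open Fermat.Agent.S37 Fermat.Agent.Red.GV Fermat.Agent.Red.GV.Soft Fermat.Agent.P5
  Fermat.Agent.Red.HKMod Fermat.Agent.Red.Match
open Fermat.Agent.Red.CH0 (isIntegral_degen)

variable {M N : ℕ} [NeZero M] [NeZero N] {A : ValuationSubring Kbar} {ℓ : ℕ}

/-- subtracting a constant does not change a negative order. -/
theorem h45k_order_sub_C {R : Type*} [CommRing R] (x : LaurentSeries R) (c : R)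
    (hx : x.order < 0) : (x - HahnSeries.C c).order = x.order := by
  have hx0 : x ≠ 0 := by
    rintro rfl
    rw [HahnSeries.order_zero] at hx
    exact lt_irrefl _ hx
  have hcoeff : ∀ n : ℤ, n < 0 → (x - HahnSeries.C c).coeff n = x.coeff n := by
    intro n hn
    rw [HahnSeries.coeff_sub, HahnSeries.C_apply, HahnSeries.coeff_single_of_ne (ne_of_lt hn),
      sub_zero]
  have h1 : (x - HahnSeries.C c).coeff x.order ≠ 0 := by
    rw [hcoeff _ hx]
    exact HahnSeries.coeff_order_eq_zero.not.mpr hx0
  have h2 : (x - HahnSeries.C c).order ≤ x.order := HahnSeries.order_le_of_coeff_ne_zero h1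
  have hy0 : x - HahnSeries.C c ≠ 0 := by
    intro h
    rw [h] at h1
    exact h1 rfl
  have h3 : x.coeff (x - HahnSeries.C c).order ≠ 0 := by
    rw [← hcoeff _ (lt_of_le_of_lt h2 hx)]
    exact HahnSeries.coeff_order_eq_zero.not.mpr hy0
  exact le_antisymm h2 (HahnSeries.order_le_of_coeff_ne_zero h3)

/-- values transfer along the restriction of places. -/
theorem h45k_valueAt_degen (hd : M ∣ N) (v : Place Kbar (FF N)) (x : FF M) (a : Kbar) :
    ValueAt v (degen hd x) a ↔
      ValueAt (v.restrictAlong (degen hd) (isIntegral_degen hd)) x a := by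
  unfold ValueAt
  have h1 : degen hd x - cst N a = degen hd (x - cst M a) := by
    rw [map_sub, (degen hd).commutes a]
  rw [h1, h88e_mem_nonunits_degen]
  rfl

/-- regularity transfers along the restriction of places. -/
theorem h45k_ord_degen_nonneg (hd : M ∣ N) (v : Place Kbar (FF N)) (x : FF M)
    (h : 0 ≤ (v.restrictAlong (degen hd) (isIntegral_degen hd)).ord x) :
    0 ≤ v.ord (degen hd x) := by
  rw [Place.ord_restrictAlong (degen hd) (isIntegral_degen hd) v x]
  exact mul_nonneg (Int.natCast_nonneg _) h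


/-- a place over the `q`-order place of `FF M` in the residue class of the `q`-order place of
`FF N` is the `q`-order place of `FF N`. -/
theorem h45k_over_eq (hℓ : ℓ.Prime) (hN : ¬ ℓ ∣ N) (hA : A.LiesOverPrime ℓ) (hd : M ∣ N)
    (r : Place Kbar (FF N) → Place (h13sK A) (h13sFt A N)) (hr : H13sIsRed A N r)
    (voo : Place Kbar (FF N)) (hvoo : H52xIsQPlace N voo)
    (hS2 : H52xIsQPlaceSF A N (r voo))
    (vM : Place Kbar (FF M)) (hvM : H52xIsQPlace M vM)
    (v : Place Kbar (FF N)) (hv : r v = r voo)
    (hover : v.restrictAlong (degen hd) (isIntegral_degen hd) = vM) : v = voo := by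
  refine h88e_unique_pole hℓ hN hA r hr voo hvoo (r voo) hS2 rfl v hv ?_
  have hj0 : jB N ≠ 0 := h88e_jB_ne N
  have e1 : degen hd (jB M) = jB N := Fermat.Agent.Red.CH0.degen_jBar hd
  rw [← e1, Place.ord_restrictAlong (degen hd) (isIntegral_degen hd) v (jB M), hover,
    h88e_qplace_ord_j vM hvM]
  have h1 : v.ord (degen hd (jB M)) ≠ 0 := by
    intro h0
    -- `1 / j` is in the maximal ideal of `vM`, hence of `v`
    have h2 : (jB M)⁻¹ ∈ vM.toValuationSubring.nonunits := by
      apply h44o_mem_nonunits
      right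
      rw [Place.ord_inv, h88e_qplace_ord_j vM hvM]
      norm_num
    have h3 : degen hd (jB M)⁻¹ ∈ v.toValuationSubring.nonunits := by
      rw [h88e_mem_nonunits_degen]
      rw [← hover] at h2
      exact h2
    have h4 : degen hd (jB M)⁻¹ ≠ 0 := by
      rw [map_inv₀, e1]
      exact inv_ne_zero hj0
    have h5 := h44o_ord_pos v h4 h3
    rw [map_inv₀, Place.ord_inv, h0] at h5
    omega
  rw [Place.ord_restrictAlong (degen hd) (isIntegral_degen hd) v (jB M), hover,
    h88e_qplace_ord_j vM hvM] at h1
  have h6 : (0 : ℤ) ≤ (Place.ramificationIndexAlong (degen hd) v : ℤ) := Int.natCast_nonneg _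
  rcases eq_or_lt_of_le h6 with h7 | h7
  · rw [← h7] at h1
    simp at h1
  · linarith


/-- the `q`-order place of `FF N` lies over the `q`-order place of `FF M`. -/
theorem h45k_qplace_restrict (hd : M ∣ N) (voo : Place Kbar (FF N)) (hvoo : H52xIsQPlace N voo)
    (vM : Place Kbar (FF M)) (hvM : H52xIsQPlace M vM) :
    voo.restrictAlong (degen hd) (isIntegral_degen hd) = vM :=
  Place.ext (h88e_qplace_comap hd voo hvoo vM hvM)

/-- **DISC**: the norm of a function of level `N` whose zeros and poles avoid the residue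
classes of the places over the `q`-order place `vM` of `FF M` has no zero and no pole in the
residue class of the `q`-order place of `FF N`.  (`h` is an EXACT function of level `M`.) -/
theorem h45k_disc (hℓ : ℓ.Prime) (hN : ¬ ℓ ∣ N) (hA : A.LiesOverPrime ℓ) (hd : M ∣ N)
    (r : Place Kbar (FF N) → Place (h13sK A) (h13sFt A N)) (hr : H13sIsRed A N r)
    (voo : Place Kbar (FF N)) (hvoo : H52xIsQPlace N voo)
    (hS2 : H52xIsQPlaceSF A N (r voo))
    (vM : Place Kbar (FF M)) (hvM : H52xIsQPlace M vM)
    (m : ℕ) (hm : 1 ≤ m) (h : FF M) (hh : h ∈ softV A M) (hdV : degen hd h ∈ gaussV A N)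
    (hreg : ∀ v : Place Kbar (FF M), v ≠ vM → 0 ≤ v.ord h)
    (hord : vM.ord h = -(m : ℤ))
    (hsoft : (softR A M ⟨h, hh⟩).order = -(m : ℤ))
    (g : FF N) (hg0 : g ≠ 0)
    (hsep : ∀ v : Place Kbar (FF N), v.ord g ≠ 0 → ∀ c : Place Kbar (FF N),
      c.restrictAlong (degen hd) (isIntegral_degen hd) = vM → r v ≠ r c)
    (v' : Place Kbar (FF N)) (hv' : r v' = r voo) :
    v'.ord (degen hd (Fermat.Agent.Red.KR.normAlong (degen hd) g)) = 0 := by
  classical
  by_contra hne
  have hG0 : Fermat.Agent.Red.KR.normAlong (degen hd) g ≠ 0 := h83o_norm_FF_ne_zero hd g hg0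
  obtain ⟨w, hw⟩ : ∃ w, w = v'.restrictAlong (degen hd) (isIntegral_degen hd) := ⟨_, rfl⟩
  have hordw : w.ord (Fermat.Agent.Red.KR.normAlong (degen hd) g) ≠ 0 := by
    intro h0
    apply hne
    rw [Place.ord_restrictAlong (degen hd) (isIntegral_degen hd) v' _, ← hw, h0, mul_zero]
  obtain ⟨v, hvw, hvg⟩ : ∃ v : Place Kbar (FF N),
      v.restrictAlong (degen hd) (isIntegral_degen hd) = w ∧ v.ord g ≠ 0 := by
    rcases lt_or_gt_of_ne hordw with hlt | hgt
    · obtain ⟨v, hv1, hv2⟩ := h83o_exists_neg_of_ord_norm_FF_neg hd g hg0 w hlt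
      exact ⟨v, hv1, hv2.ne⟩
    · obtain ⟨v, hv1, hv2⟩ := h83o_exists_pos_of_ord_norm_FF_pos hd g hg0 w hgt
      exact ⟨v, hv1, hv2.ne'⟩
  have hwM : w ≠ vM := by
    intro h1
    exact hsep v hvg v (by rw [hvw, h1]) rfl
  have hregw : 0 ≤ w.ord h := hreg w hwM
  obtain ⟨a, ha⟩ := Fermat.Agent.Red.Match.exists_valueAt w
    (Fermat.Agent.S24.DiffPlace.mem_of_ord_nonneg w hregw)
  have hav : ValueAt v (degen hd h) a :=
    (h45k_valueAt_degen hd v h a).mpr (by rw [hvw]; exact ha)
  have hav' : ValueAt v' (degen hd h) a :=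
    (h45k_valueAt_degen hd v' h a).mpr (by rw [← hw]; exact ha)
  by_cases haA : a ∈ A
  · -- the value is integral: RED-DIV for `degen h - a` on the class of `voo`
    have hcV : cst N a ∈ gaussV A N := h50l_cst_mem hA haA
    have hFV : degen hd h - cst N a ∈ gaussV A N := sub_mem hdV hcV
    have hh0 : h ≠ 0 := by
      rintro rfl
      rw [Place.ord_zero] at hord
      omega
    have hordh : ((h : FF M) : LaurentSeries Kbar).order = -(m : ℤ) := by
      rw [← hvM h hh0, hord]
    have hF_coe : ((degen hd h - cst N a : FF N) : LaurentSeries Kbar)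
        = (h : LaurentSeries Kbar) - HahnSeries.C a := by
      rw [h93q_coe_sub_cst, coe_degen]
    have hordF_ser : ((degen hd h - cst N a : FF N) : LaurentSeries Kbar).order
        = -(m : ℤ) := by
      have h1 := h45k_order_sub_C (h : LaurentSeries Kbar) a (by rw [hordh]; omega)
      rw [hF_coe]
      exact h1.trans hordh
    have hF0 : degen hd h - cst N a ≠ 0 := by
      intro h0
      rw [h0] at hordF_ser
      have h1 : (((0 : FF N) : LaurentSeries Kbar)).order = 0 := by
        rw [ZeroMemClass.coe_zero, HahnSeries.order_zero]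
      omega
    have hordF : voo.ord (degen hd h - cst N a) = -(m : ℤ) := by
      rw [hvoo _ hF0, hordF_ser]
    have hred : h13sIncl A N (h13sRed A N ⟨degen hd h - cst N a, hFV⟩)
        = softR A M ⟨h, hh⟩ - HahnSeries.C (IsLocalRing.residue A ⟨a, haA⟩) := by
      have e : (⟨degen hd h - cst N a, hFV⟩ : gaussV A N)
          = ⟨degen hd h, hdV⟩ - ⟨cst N a, hcV⟩ := rfl
      rw [h13sIncl_red, e, map_sub, ← h13sIncl_red, h88e_incl_red_degen hd h hh hdV,
        h58g_gaussR_cst N A haA hcV]
      rfl
    have hredord : (h13sIncl A N (h13sRed A N ⟨degen hd h - cst N a, hFV⟩)).order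
        = -(m : ℤ) := by
      have h1 := h45k_order_sub_C (softR A M ⟨h, hh⟩) (IsLocalRing.residue A ⟨a, haA⟩)
        (by rw [hsoft]; omega)
      rw [hred]
      exact h1.trans hsoft
    have hred0 : h13sRed A N ⟨degen hd h - cst N a, hFV⟩ ≠ 0 := by
      intro h0
      rw [h0, map_zero, HahnSeries.order_zero] at hredord
      omega
    have hFi : (degen hd h - cst N a)⁻¹ ∈ gaussV A N := by
      by_contra hFi
      exact hred0 ((h50l_red_eq_zero_iff hℓ hN hA ⟨_, hFV⟩).mpr (Or.inr hFi))
    have hv'ne : v' ≠ voo := by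
      intro h1
      apply hwM
      rw [hw, h1]
      exact h45k_qplace_restrict hd voo hvoo vM hvM
    have hFm : degen hd h - cst N a ∈ v'.toValuationSubring.nonunits := hav'
    obtain ⟨E, hE⟩ : ∃ E : Divisor Kbar (FF N),
        E = Finsupp.single voo (m : ℤ) + Finsupp.single v' (-1) := ⟨_, rfl⟩
    have hge := h50b_ord_red_ge r hr (h40r_base_FF (N := N)) _ hF0 hFV hFi E (r voo)
      (fun c hc => by
        rw [hE, Finsupp.add_apply, Finsupp.single_apply, Finsupp.single_apply]
        by_cases e1 : voo = c
        · subst e1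
          rw [if_pos rfl, if_neg hv'ne, hordF]
          omega
        · rw [if_neg e1]
          by_cases e2 : v' = c
          · subst e2
            rw [if_pos rfl]
            have := h44o_ord_pos v' hF0 hFm
            omega
          · rw [if_neg e2]
            have hcM : c.restrictAlong (degen hd) (isIntegral_degen hd) ≠ vM := fun hcM =>
              e1 (h45k_over_eq hℓ hN hA hd r hr voo hvoo hS2 vM hvM c hc hcM).symm
            have h2 := h45k_ord_degen_nonneg hd c h (hreg _ hcM)
            have h3 : 0 ≤ c.ord (degen hd h - cst N a) := by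
              apply Fermat.Agent.S24.DiffPlace.ord_nonneg_of_mem
              exact sub_mem (Fermat.Agent.S24.DiffPlace.mem_of_ord_nonneg c h2)
                (c.algebraMap_mem' a)
            omega)
    have hpush : h13sPush r E (r voo) = (m : ℤ) - 1 := by
      unfold h13sPush
      rw [hE, Finsupp.mapDomain_add, Finsupp.mapDomain_single, Finsupp.mapDomain_single, hv',
        Finsupp.add_apply, Finsupp.single_eq_same, Finsupp.single_eq_same]
      ring
    rw [hpush, hS2 _ hred0, hredord] at hge
    omega
  · -- the value is not integral: `degen h` has a pole in the class of `v`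
    have h1 : ¬ ∀ c : Place Kbar (FF N), r c = r v → 0 ≤ c.ord (degen hd h) :=
      fun hregc => haA (h44o_value_mem hℓ hN hA r hr _ hdV v hregc a hav)
    obtain ⟨c, hc'⟩ := not_forall.mp h1
    obtain ⟨hc, hc2⟩ := Classical.not_imp.mp hc'
    have hcneg := not_le.mp hc2
    have hcM : c.restrictAlong (degen hd) (isIntegral_degen hd) = vM := by
      by_contra hcM
      have h2 := h45k_ord_degen_nonneg hd c h (hreg _ hcM)
      omega
    exact hsep v hvg c hcM hc.symm


section Good

variable {p : ℕ}

/-- **DISC**, with the EXACT function in the frozen shape `H52xExactAt`. -/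
theorem h45k_disc_exact (hp : p.Prime) (hM : ¬ p ∣ M) (hA : A.LiesOverPrime p)
    (r : Place Kbar (FF (goodLevel p M)) → Place (h13sK A) (h13sFt A (goodLevel p M)))
    (hr : H13sIsRed A (goodLevel p M) r)
    (voo : Place Kbar (FF (goodLevel p M))) (hvoo : H52xIsQPlace (goodLevel p M) voo)
    (hS2 : H52xIsQPlaceSF A (goodLevel p M) (r voo))
    (vM : Place Kbar (FF M)) (hvM : H52xIsQPlace M vM)
    (hex : H52xExactAt p M A r vM)
    (g : FF (goodLevel p M)) (hg0 : g ≠ 0)
    (hsep : ∀ v : Place Kbar (FF (goodLevel p M)), v.ord g ≠ 0 →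
      ∀ c : Place Kbar (FF (goodLevel p M)),
        c.restrictAlong (degen (dvd_goodLevel p M)) (isIntegral_degen (dvd_goodLevel p M)) = vM →
          r v ≠ r c)
    (v' : Place Kbar (FF (goodLevel p M))) (hv' : r v' = r voo) :
    v'.ord (degen (dvd_goodLevel p M)
      (Fermat.Agent.Red.KR.normAlong (degen (dvd_goodLevel p M)) g)) = 0 := by
  obtain ⟨m, h, hh, hdV, hm, -, hreg, hord, hsoft, -⟩ := hex
  exact h45k_disc hp (not_dvd_goodLevel hp hM) hA (dvd_goodLevel p M) r hr voo hvoo hS2 vM hvM
    m hm h hh hdV hreg hord hsoft g hg0 hsep v' hv'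

/-- **DISC**, unconditional at the good level `goodLevel p M`. -/
theorem h45k_disc_final (hp : p.Prime) (hM : ¬ p ∣ M) (hA : A.LiesOverPrime p)
    (r : Place Kbar (FF (goodLevel p M)) → Place (h13sK A) (h13sFt A (goodLevel p M)))
    (hr : H13sIsRed A (goodLevel p M) r)
    (voo : Place Kbar (FF (goodLevel p M))) (hvoo : H52xIsQPlace (goodLevel p M) voo)
    (vM : Place Kbar (FF M)) (hvM : H52xIsQPlace M vM)
    (g : FF (goodLevel p M)) (hg0 : g ≠ 0)
    (hsep : ∀ v : Place Kbar (FF (goodLevel p M)), v.ord g ≠ 0 →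
      ∀ c : Place Kbar (FF (goodLevel p M)),
        c.restrictAlong (degen (dvd_goodLevel p M)) (isIntegral_degen (dvd_goodLevel p M)) = vM →
          r v ≠ r c)
    (v' : Place Kbar (FF (goodLevel p M))) (hv' : r v' = r voo) :
    v'.ord (degen (dvd_goodLevel p M)
      (Fermat.Agent.Red.KR.normAlong (degen (dvd_goodLevel p M)) g)) = 0 := by
  obtain ⟨Q, hQ⟩ := h26g_place_inf (A := A) (M := goodLevel p M)
  have hS2 : r voo = Q :=
    h88e_S2 p hp (goodLevel p M) (not_dvd_goodLevel hp hM) (auxLevel_dvd_goodLevel p M) A hA r hr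
      voo Q hvoo hQ
  have hS2' : H52xIsQPlaceSF A (goodLevel p M) (r voo) := by
    rw [hS2]
    exact hQ
  exact h45k_disc_exact hp hM hA r hr voo hvoo hS2' vM hvM
    (h88e_exact_final p hp M hM A hA r hr vM hvM) g hg0 hsep v' hv'

end Good

end Fermat.Agent.P7
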