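import Fermat.Agent.P7.H45Count
import Fermat.Agent.P7.H39WHField
import Fermat.Agent.P7.H15GenusIface
import Fermat.Agent.P7.H26GenusMatchIface

/-!
# Wave 7 (S44), DLOG crux GENUS-MATCH: the leaves WH and COUNT in the frozen shapes (helper45)

From the landed `h39o_k1` (helper39, `P7/H39WHField.lean`) and the landed analytic count
(`P7/H45Count.lean`):

* `h45x_gWH : H15gWH` and `h45x_mWH : H26mWH` (adapters of `h39o_k1`);
* `h45x_indep_texp` : linear independence passes from functions to their expansions;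
* `h45x_gCount : H15gCount` : for EVERY `n` there are `r` independent elements of
  `L_ℂ(n (j)_∞) ⊆ FC M` with `n μ + 1 ≤ r + dim S₂(Γ₀(M))`.
-/

set_option autoImplicit false
set_option linter.unusedSectionVars false
set_option linter.style.haveILetI false

open ModularCurve AlgebraicCurve UpperHalfPlane CongruenceSubgroup
open scoped MatrixGroups Manifold

noncomputable section

namespace Fermat.Agent.P7

open Fermat.Agent.S28 (HasTExp)
open Fermat.Agent.Jac (FC jC)
open Fermat.Agent.S21.E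

/-- **GM-1a**, frozen shape of `P7/H15GenusIface.lean`. -/
theorem h45x_gWH : H15gWH := by
  intro M _ d f hf
  obtain ⟨F, hF, -, hv⟩ := h39o_k1 M d f hf
  refine ⟨F, hF, fun v => Or.inr ?_⟩
  obtain ⟨h1, h2⟩ := hv v
  rcases le_or_gt 0 (v.ord (jC M)) with h | h
  · rw [min_eq_left h, mul_zero]
    exact h1 h
  · rw [min_eq_right h.le]
    exact h2 h

/-- **GM-WH**, frozen shape of `P7/H26GenusMatchIface.lean`. -/
theorem h45x_mWH : H26mWH := by
  intro N _ d A hA
  obtain ⟨F, hF, -, hv⟩ := h39o_k1 N d A hA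
  refine ⟨F, hF, fun v => ?_⟩
  obtain ⟨h1, h2⟩ := hv v
  rcases le_or_gt 0 (v.ord (jC N)) with h | h
  · have h3 : max 0 (-(v.ord (jC N))) = 0 := max_eq_left (by omega)
    rw [h3, mul_zero, add_zero]
    exact h1 h
  · have h3 : max 0 (-(v.ord (jC N))) = -(v.ord (jC N)) := max_eq_right (by omega)
    rw [h3]
    have := h2 h
    linarith

/-- expansion of a scalar multiple. -/
theorem h45x_hasTExp_smul {N : ℕ} (c : ℂ) {g : ℍ → ℂ} {s : LaurentSeries ℂ}
    (h : HasTExp N g s) : HasTExp N (c • g) (c • s) := by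
  rw [Fermat.Agent.S28.hasTExp_iff] at *
  intro τ
  have h1 := (h τ).mul_left c
  have e : (fun n : ℤ => (c • s).coeff n * Fermat.Agent.S28.tParam N τ ^ n)
      = fun n : ℤ => c * (s.coeff n * Fermat.Agent.S28.tParam N τ ^ n) := by
    funext n
    rw [HahnSeries.coeff_smul, smul_eq_mul, mul_assoc]
  rw [e]
  exact h1

/-- expansion of a finite linear combination. -/
theorem h45x_hasTExp_sum {N : ℕ} {r : ℕ} (c : Fin r → ℂ) {g : Fin r → ℍ → ℂ}
    {s : Fin r → LaurentSeries ℂ} (h : ∀ i, HasTExp N (g i) (s i)) :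
    HasTExp N (∑ i, c i • g i) (∑ i, c i • s i) :=
  Fermat.Agent.S28.HasTExp.finset_sum Finset.univ fun i _ => h45x_hasTExp_smul (c i) (h i)

/-- a function with expansion `0` vanishes. -/
theorem h45x_eq_zero_of_hasTExp_zero {N : ℕ} {G : ℍ → ℂ} (h : HasTExp N G 0) : G = 0 := by
  rw [Fermat.Agent.S28.hasTExp_iff] at h
  funext τ
  have h1 := h τ
  have h2 : HasSum (fun n : ℤ => (0 : LaurentSeries ℂ).coeff n *
      Fermat.Agent.S28.tParam N τ ^ n) 0 := by
    have : (fun n : ℤ => (0 : LaurentSeries ℂ).coeff n *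
        Fermat.Agent.S28.tParam N τ ^ n) = fun _ => 0 := by
      funext n
      simp
    rw [this]
    exact hasSum_zero
  exact h1.unique h2

/-- **independence passes to the expansions**. -/
theorem h45x_indep_texp {M : ℕ} [NeZero M] {r : ℕ} {f : Fin r → ℍ → ℂ} {F : Fin r → FC M}
    (h : ∀ i, HasTExp 1 (f i) ((F i : FC M) : LaurentSeries ℂ)) (hf : LinearIndependent ℂ f) :
    LinearIndependent ℂ F := by
  rw [Fintype.linearIndependent_iff] at hf ⊢
  intro c hc
  apply hf c
  have h1 : (∑ i, c i • ((F i : FC M) : LaurentSeries ℂ)) = 0 := by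
    have h2 := congrArg (fun x : FC M => (x : LaurentSeries ℂ)) hc
    simp only [AddSubmonoidClass.coe_finsetSum, IntermediateField.coe_smul,
      ZeroMemClass.coe_zero] at h2
    rw [← h2]
    refine Finset.sum_congr rfl fun i _ => ?_
    ext n
    rw [HahnSeries.coeff_smul]
    symm
    rw [Algebra.smul_def (c i) ((F i : FC M) : LaurentSeries ℂ), HahnSeries.algebraMap_apply']
    have h3 : algebraMap ℂ (PowerSeries ℂ) (c i) = PowerSeries.C (c i) := rfl
    rw [h3, HahnSeries.ofPowerSeries_C, HahnSeries.C_mul_eq_smul, HahnSeries.coeff_smul]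
  have h3 := h45x_hasTExp_sum c h
  rw [h1] at h3
  exact h45x_eq_zero_of_hasTExp_zero h3

/-- **GM-1b**, frozen shape of `P7/H15GenusIface.lean`: the count over `ℂ`, for EVERY `n`. -/
theorem h45x_gCount : H15gCount := by
  intro M _ n
  classical
  letI : Fintype (SL(2, ℤ) ⧸ Gamma0 M) := Subgroup.fintypeQuotientOfFiniteIndex
  have hneg : (-1 : SL(2, ℤ)) ∈ Gamma0 M := by
    rw [Gamma0_mem]; simp
  obtain ⟨t, ht⟩ := exists_isMin (nonempty_tuple_Gamma0 M)
  obtain ⟨ω, hω⟩ := exists_linearIndependent_cuspForms hneg ht.saturated ht.reduced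
  haveI : FiniteDimensional ℂ (CuspForm ((Gamma0 M).map
      (Matrix.SpecialLinearGroup.mapGL ℝ)) 2) :=
    Fermat.Agent.S49.finiteDimensional_cuspForm M 2
  have h2 : t.total + 1 - (Gamma0 M).index ≤ Module.finrank ℂ (CuspForm (Gamma0 M) 2) := by
    have := hω.fintype_card_le_finrank
    rw [Fintype.card_fin] at this
    exact this
  have hidx : (Gamma0 M).index = Fintype.card (SL(2, ℤ) ⧸ Gamma0 M) := by
    rw [Subgroup.index_eq_card, Nat.card_eq_fintype_card]
  -- the family, for every `n`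
  have hcardge : (n + 1) * Fintype.card (SL(2, ℤ) ⧸ Gamma0 M)
      ≤ Fintype.card (Σ k : SL(2, ℤ) ⧸ Gamma0 M, Fin (n + 1 - t.d k)) + t.total := by
    rw [Fintype.card_sigma]
    simp only [Fintype.card_fin]
    unfold Tuple.total
    rw [← Finset.sum_add_distrib]
    have h3 : ∑ _k : SL(2, ℤ) ⧸ Gamma0 M, (n + 1)
        ≤ ∑ k : SL(2, ℤ) ⧸ Gamma0 M, (n + 1 - t.d k + t.d k) :=
      Finset.sum_le_sum fun k _ => by omega
    rw [Finset.sum_const, Finset.card_univ, smul_eq_mul, mul_comm] at h3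
    exact h3
  let e : Fin (Fintype.card (Σ k : SL(2, ℤ) ⧸ Gamma0 M, Fin (n + 1 - t.d k))) ≃
      (Σ k : SL(2, ℤ) ⧸ Gamma0 M, Fin (n + 1 - t.d k)) := (Fintype.equivFin _).symm
  have hwh : ∀ i, IsWH (Gamma0 M) n (h45xFam t n (e i)) := fun i => h45x_fam_isWH t n (e i)
  have hind : LinearIndependent ℂ (fun i => h45xFam t n (e i)) :=
    (h45x_indep t n).comp e e.injective
  choose F hF using fun i => h45x_gWH M n _ (hwh i)
  refine ⟨_, F, h45x_indep_texp (fun i => (hF i).1) hind, fun i => (hF i).2, ?_⟩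
  rw [hidx]
  have h4 : (n + 1) * Fintype.card (SL(2, ℤ) ⧸ Gamma0 M)
      = n * Fintype.card (SL(2, ℤ) ⧸ Gamma0 M) + Fintype.card (SL(2, ℤ) ⧸ Gamma0 M) := by ring
  rw [hidx] at h2
  omega

end Fermat.Agent.P7
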