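import Fermat.Agent.P7.H45Count
import Fermat.Agent.P7.H26GenusMatchIface

/-!
# Wave 7 (S44), DLOG crux GENUS-MATCH, leaf GM-INDEP in the frozen shape `H26mIndep` (helper45)

`h45x_gmIndep : H26mIndep` from the landed count `h45x_count_tuple` (`P7/H45Count.lean`).
-/

set_option autoImplicit false
set_option linter.unusedSectionVars false
set_option linter.style.haveILetI false

open UpperHalfPlane hiding I
open CongruenceSubgroup
open scoped MatrixGroups

noncomputable section

namespace Fermat.Agent.P7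

open Fermat.Agent.S21.E

/-- **GM-INDEP**, frozen shape of `P7/H26GenusMatchIface.lean`. -/
theorem h45x_gmIndep : H26mIndep := by
  intro N _ _ _ t n hn
  obtain ⟨f, hf, hfi⟩ := h45x_count_tuple t n hn
  have hidx : (Gamma0 N).index = Fintype.card (SL(2, ℤ) ⧸ Gamma0 N) := by
    rw [Subgroup.index_eq_card, Nat.card_eq_fintype_card]
  have hcard := h45x_card t n hn
  have hle : t.total ≤ (n + 1) * Fintype.card (SL(2, ℤ) ⧸ Gamma0 N) := by
    have h1 : ∑ k : SL(2, ℤ) ⧸ Gamma0 N, t.d k
        ≤ ∑ _k : SL(2, ℤ) ⧸ Gamma0 N, (n + 1) :=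
      Finset.sum_le_sum fun k _ => le_trans (hn k) (Nat.le_succ n)
    rw [Finset.sum_const, Finset.card_univ, smul_eq_mul, mul_comm] at h1
    exact h1
  refine ⟨(n + 1) * Fintype.card (SL(2, ℤ) ⧸ Gamma0 N) - t.total, f, ?_, hf, hfi⟩
  rw [hidx]
  omega

end Fermat.Agent.P7
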