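import Fermat.Agent.P7.H26IntIface

/-!
# Wave 7 (S44), block (A) DLOG at the level `M`, leaf DL4-M-CONST, piece (b) (helper45,
prefix `h45z_`): INT-ABS from CORE

`h45z_intAbs : H26iCore → H26iIntAbs` (frozen Props of `P7/H26IntIface.lean`, helper26):
a Gauss-integral Laurent series `x ∈ ℚ̄((q))` (`Q(j) x ∈ A((q))`, `Q ∈ A[X]`, `Q̄ ≠ 0`) which is
integral over `A((q))` has coefficients in `A`.

Proof: induction on the degree of `Q` (`h45z_peel`), peeling one root `d ∈ ℚ̄` of `Q` at a time:

* `d ∈ A`: `Q = (X - d) Q₁` in `A[X]` and `j - d` is a unit of `A((q))` (`h45z_exists_inv_sub`);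
* `d ∉ A`: `δ = 1 / d ∈ 𝔪_A`, `Q = (1 - δ X) Q₂` with `Q₂ ∈ A[X]` (coefficient recursion),
  `Q̄₂ = Q̄`, `x' = (1 - δ j) x` is integral and `Q₂(j) x' ∈ A((q))`, so `x' ∈ A((q))` by
  induction, and `x ∈ A((q))` by `h45z_step` = CORE in Laurent series form: with `T = 1 / j`
  (`h45z_exists_T`), `x (T - δ) = T x' ∈ A((q))`; multiply by `q ^ e` (`h45z_exists_ps`),
  `e ≫ 0`, to land in power series, integrality over `A[[q]]` by `scaleRoots`
  (`h45z_integral_ps`).

Nothing is assumed: every statement is proved (the only hypothesis is the frozen Prop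
`H26iCore`).
-/

set_option autoImplicit false
set_option linter.unusedSectionVars false
set_option linter.unusedVariables false
set_option linter.style.longLine false

open AlgebraicCurve ModularCurve

noncomputable section

namespace Fermat.Agent.P7

open Fermat.Agent.S37 Fermat.Agent.Red.GV Fermat.Agent.P5

/-- a Laurent series of order `≥ -e` times `q ^ e` is a power series. -/
theorem h45z_exists_ps {R : Type} [CommRing R] (h : LaurentSeries R) (e : ℕ)
    (he : -(e : ℤ) ≤ h.order) :
    ∃ p : PowerSeries R, HahnSeries.ofPowerSeries ℤ R p = HahnSeries.single (e : ℤ) 1 * h := by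
  refine ⟨PowerSeries.X ^ ((e : ℤ) + h.order).toNat * h.powerSeriesPart, ?_⟩
  have h1 : (((e : ℤ) + h.order).toNat : ℤ) = (e : ℤ) + h.order :=
    Int.toNat_of_nonneg (by omega)
  have h2 := LaurentSeries.single_order_mul_powerSeriesPart h
  rw [map_mul, HahnSeries.ofPowerSeries_X_pow, h1]
  conv_rhs => rw [← h2]
  rw [← mul_assoc, HahnSeries.single_mul_single, mul_one]

/-- the inverse of `q⁻¹ · unit` is a power series `T = q · unit`. -/
theorem h45z_exists_inv {R : Type} [CommRing R] (u : PowerSeries R)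
    (hu : PowerSeries.constantCoeff u = 1) :
    ∃ T : PowerSeries R, PowerSeries.coeff 0 T = 0 ∧ PowerSeries.coeff 1 T = 1 ∧
      HahnSeries.ofPowerSeries ℤ R T *
        (HahnSeries.single (-1 : ℤ) 1 * HahnSeries.ofPowerSeries ℤ R u) = 1 := by
  have hunit : IsUnit u := by
    rw [PowerSeries.isUnit_iff_constantCoeff, hu]
    exact isUnit_one
  obtain ⟨v, hv⟩ := hunit.exists_left_inv
  have hcv : PowerSeries.constantCoeff v = 1 := by
    have h1 := congrArg PowerSeries.constantCoeff hv
    rw [map_mul, hu, mul_one, map_one] at h1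
    exact h1
  refine ⟨PowerSeries.X * v, ?_, ?_, ?_⟩
  · rw [PowerSeries.coeff_zero_eq_constantCoeff_apply, map_mul, PowerSeries.constantCoeff_X,
      zero_mul]
  · rw [show (1 : ℕ) = 0 + 1 from rfl, PowerSeries.coeff_succ_X_mul,
      PowerSeries.coeff_zero_eq_constantCoeff_apply, hcv]
  · rw [map_mul, HahnSeries.ofPowerSeries_X]
    calc HahnSeries.single (1 : ℤ) (1 : R) * HahnSeries.ofPowerSeries ℤ _ v *
          (HahnSeries.single (-1 : ℤ) 1 * HahnSeries.ofPowerSeries ℤ _ u)
        = (HahnSeries.single (1 : ℤ) (1 : R) * HahnSeries.single (-1 : ℤ) 1) *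
          (HahnSeries.ofPowerSeries ℤ _ v * HahnSeries.ofPowerSeries ℤ _ u) := by ring
      _ = 1 := by
          have h1 : HahnSeries.ofPowerSeries ℤ R v * HahnSeries.ofPowerSeries ℤ R u = 1 := by
            rw [← map_mul, hv, map_one]
          have h2 : HahnSeries.single (1 : ℤ) (1 : R) * HahnSeries.single (-1 : ℤ) 1 = 1 := by
            rw [HahnSeries.single_mul_single]
            simp
          rw [h1, h2, mul_one]

/-- `T = 1 / j` as a power series. -/
theorem h45z_exists_T (R : Type) [CommRing R] :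
    ∃ T : PowerSeries R, PowerSeries.coeff 0 T = 0 ∧ PowerSeries.coeff 1 T = 1 ∧
      HahnSeries.ofPowerSeries ℤ R T * jqModC R = 1 :=
  h45z_exists_inv _
    (P2MW.S_ModularCurve_coeff_jqModC_neg_one.ModularCurve.CharLRows.constantCoeff_jNum_map _)

/-- `j - d` is invertible in `R((q))`. -/
theorem h45z_exists_inv_sub (R : Type) [CommRing R] (d : R) :
    ∃ w : LaurentSeries R, w * (jqModC R - HahnSeries.C d) = 1 := by
  set u : PowerSeries R := jNum.map (Int.castRingHom R) with hu
  have hc : PowerSeries.constantCoeff u = 1 :=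
    P2MW.S_ModularCurve_coeff_jqModC_neg_one.ModularCurve.CharLRows.constantCoeff_jNum_map _
  have hc' : PowerSeries.constantCoeff (u - PowerSeries.C d * PowerSeries.X) = 1 := by
    rw [map_sub, map_mul, PowerSeries.constantCoeff_X, mul_zero, sub_zero, hc]
  obtain ⟨T, -, -, hT⟩ := h45z_exists_inv _ hc'
  refine ⟨HahnSeries.ofPowerSeries ℤ R T, ?_⟩
  have h1 : HahnSeries.single (-1 : ℤ) (1 : R) *
      HahnSeries.ofPowerSeries ℤ R (u - PowerSeries.C d * PowerSeries.X)
      = jqModC R - HahnSeries.C d := by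
    rw [map_sub, map_mul, HahnSeries.ofPowerSeries_X, HahnSeries.ofPowerSeries_C, mul_sub,
      jqModC, ← hu]
    congr 1
    rw [HahnSeries.C_apply, HahnSeries.single_mul_single, HahnSeries.single_mul_single]
    simp
  rw [← h1]
  exact hT


/-- `embA ∘ ofPowerSeries = ofPowerSeries ∘ map`. -/
theorem h45z_embA_ofPS (A : ValuationSubring Kbar) (p : PowerSeries A) :
    embA A (HahnSeries.ofPowerSeries ℤ A p)
      = HahnSeries.ofPowerSeries ℤ Kbar (PowerSeries.map A.subtype p) :=
  coeffMap_ofPowerSeries _ p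

/-- integrality over `A((q))` of `x` gives integrality over `A[[q]]` of `q ^ e x`, `e ≫ 0`. -/
theorem h45z_integral_ps (A : ValuationSubring Kbar) {x : LaurentSeries Kbar}
    (hx : (embA A).IsIntegralElem x) :
    ∃ e₀ : ℕ, ∀ e : ℕ, e₀ ≤ e → ∀ z : PowerSeries Kbar,
      HahnSeries.ofPowerSeries ℤ Kbar z = HahnSeries.single (e : ℤ) 1 * x →
      (PowerSeries.map A.subtype).IsIntegralElem z := by
  obtain ⟨P, hPm, hP⟩ := hx
  refine ⟨∑ i ∈ Finset.range P.natDegree, (-(P.coeff i).order).toNat, fun e he z hz => ?_⟩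
  set s : LaurentSeries A := HahnSeries.single (e : ℤ) 1 with hs
  have hlift : P.scaleRoots s ∈ Polynomial.lifts (HahnSeries.ofPowerSeries ℤ A) := by
    rw [Polynomial.lifts_iff_coeff_lifts]
    intro i
    rw [Polynomial.coeff_scaleRoots]
    rcases lt_trichotomy i P.natDegree with hi | hi | hi
    · have h1 : s ^ (P.natDegree - i)
          = HahnSeries.single (((e * (P.natDegree - i) : ℕ)) : ℤ) 1 := by
        rw [hs, HahnSeries.single_pow, one_pow]
        congr 1
        rw [nsmul_eq_mul, Nat.cast_mul, mul_comm]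
      have h2 : -((e * (P.natDegree - i) : ℕ) : ℤ) ≤ (P.coeff i).order := by
        have h3 : (-(P.coeff i).order).toNat ≤ e :=
          le_trans (Finset.single_le_sum (f := fun i => (-(P.coeff i).order).toNat)
            (fun _ _ => Nat.zero_le _) (Finset.mem_range.mpr hi)) he
        have h4 : e ≤ e * (P.natDegree - i) := Nat.le_mul_of_pos_right e (Nat.sub_pos_of_lt hi)
        have h5 : -(P.coeff i).order ≤ ((-(P.coeff i).order).toNat : ℤ) := Int.self_le_toNat _
        have h6 : ((e : ℕ) : ℤ) ≤ ((e * (P.natDegree - i) : ℕ) : ℤ) := by exact_mod_cast h4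
        have h7 : (((-(P.coeff i).order).toNat : ℕ) : ℤ) ≤ (e : ℤ) := by exact_mod_cast h3
        omega
      obtain ⟨p, hp⟩ := h45z_exists_ps (P.coeff i) _ h2
      exact ⟨p, by rw [hp, h1, mul_comm]⟩
    · rw [hi, Nat.sub_self, pow_zero, mul_one, Polynomial.coeff_natDegree, hPm.leadingCoeff]
      exact ⟨1, map_one _⟩
    · rw [Polynomial.coeff_eq_zero_of_natDegree_lt hi, zero_mul]
      exact ⟨0, map_zero _⟩
  have hmon : (P.scaleRoots s).Monic := (Polynomial.monic_scaleRoots_iff s).mpr hPm
  obtain ⟨P', hP'map, -, hP'mon⟩ := Polynomial.lifts_and_degree_eq_and_monic hlift hmon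
  refine ⟨P', hP'mon, ?_⟩
  have hinj : Function.Injective (HahnSeries.ofPowerSeries ℤ Kbar) :=
    HahnSeries.ofPowerSeries_injective
  apply hinj
  rw [map_zero, Polynomial.hom_eval₂, hz]
  have hcomp : (HahnSeries.ofPowerSeries ℤ Kbar).comp (PowerSeries.map A.subtype)
      = (embA A).comp (HahnSeries.ofPowerSeries ℤ A) :=
    RingHom.ext fun p => (h45z_embA_ofPS A p).symm
  rw [hcomp]
  rw [← Polynomial.eval₂_map]
  rw [hP'map]
  have hes : embA A s = HahnSeries.single (e : ℤ) 1 := by
    rw [hs, embA, coeffMap_single, map_one]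
  rw [← hes]
  exact Polynomial.scaleRoots_eval₂_eq_zero (embA A) hP


theorem h45z_embA_single (A : ValuationSubring Kbar) (n : ℤ) :
    embA A (HahnSeries.single n 1) = HahnSeries.single n 1 := by
  rw [embA, coeffMap_single, map_one]

theorem h45z_embA_C (A : ValuationSubring Kbar) (a : A) :
    embA A (HahnSeries.C a) = HahnSeries.C (a : Kbar) := by
  rw [HahnSeries.C_apply, embA, coeffMap_single]
  rfl

/-- **one zero in the disc** (Laurent series form of CORE): `x` integral over `A((q))` with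
`(1 - δ j) x ∈ A((q))`, `δ ∈ 𝔪_A`, lies in `A((q))`. -/
theorem h45z_step (hcore : H26iCore) (A : ValuationSubring Kbar) {x : LaurentSeries Kbar}
    (hx : (embA A).IsIntegralElem x) (δ : A) (hδ : (δ : Kbar) ∈ A.nonunits)
    (y' : LaurentSeries A)
    (hy' : embA A y' = (1 - HahnSeries.C (δ : Kbar) * jK Kbar) * x) :
    ∃ y : LaurentSeries A, embA A y = x := by
  by_cases hδ0 : δ = 0
  · refine ⟨y', ?_⟩
    rw [hy', hδ0]
    simp
  obtain ⟨T, hT0, hT1, hTj⟩ := h45z_exists_T A
  obtain ⟨e₀, he₀⟩ := h45z_integral_ps A hx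
  set Th : LaurentSeries A := HahnSeries.ofPowerSeries ℤ A T with hTh
  set e : ℕ := e₀ + (-x.order).toNat + (-(y' * Th).order).toNat with he
  have hex : -(e : ℤ) ≤ x.order := by
    have h1 : -x.order ≤ ((-x.order).toNat : ℤ) := Int.self_le_toNat _
    have h2 : (((-x.order).toNat : ℕ) : ℤ) ≤ (e : ℤ) := by
      exact_mod_cast (by omega : (-x.order).toNat ≤ e)
    omega
  have hey : -(e : ℤ) ≤ (y' * Th).order := by
    have h1 : -(y' * Th).order ≤ ((-(y' * Th).order).toNat : ℤ) := Int.self_le_toNat _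
    have h2 : (((-(y' * Th).order).toNat : ℕ) : ℤ) ≤ (e : ℤ) := by
      exact_mod_cast (by omega : (-(y' * Th).order).toNat ≤ e)
    omega
  obtain ⟨z, hz⟩ := h45z_exists_ps x e hex
  obtain ⟨xx, hxx⟩ := h45z_exists_ps (y' * Th) e hey
  have hint := he₀ e (by omega) z hz
  have hembj : embA A (jqModC A) = jK Kbar := embA_jqModC A
  have hTK : embA A Th * jK Kbar = 1 := by
    rw [← hembj, ← map_mul, hTj, map_one]
  have hkey : x * (embA A Th - HahnSeries.C (δ : Kbar)) = embA A (y' * Th) := by
    rw [map_mul, hy']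
    linear_combination (x * HahnSeries.C (δ : Kbar)) * hTK
  have hinj : Function.Injective (HahnSeries.ofPowerSeries ℤ Kbar) :=
    HahnSeries.ofPowerSeries_injective
  have heq : z * PowerSeries.map A.subtype (T - PowerSeries.C δ)
      = PowerSeries.map A.subtype xx := by
    apply hinj
    rw [map_mul, hz, ← h45z_embA_ofPS, ← h45z_embA_ofPS, hxx, map_sub,
      HahnSeries.ofPowerSeries_C, map_sub, h45z_embA_C, map_mul (embA A), h45z_embA_single,
      mul_assoc, ← hTh, hkey, map_mul]
  obtain ⟨yz, hyz⟩ := hcore A T xx z δ hδ hδ0 hT0 (by rw [hT1]; exact isUnit_one) heq hint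
  refine ⟨HahnSeries.single (-(e : ℤ)) 1 * HahnSeries.ofPowerSeries ℤ A yz, ?_⟩
  rw [map_mul, h45z_embA_ofPS, hyz, hz, h45z_embA_single, ← mul_assoc,
    HahnSeries.single_mul_single]
  simp


theorem h45z_evalA_C (A : ValuationSubring Kbar) (a : A) :
    evalA A (jK Kbar) (Polynomial.C a) = HahnSeries.C (a : Kbar) := by
  show Polynomial.eval₂ _ _ _ = _
  rw [Polynomial.eval₂_C]
  rfl

theorem h45z_evalA_X (A : ValuationSubring Kbar) :
    evalA A (jK Kbar) Polynomial.X = jK Kbar := by
  show Polynomial.eval₂ _ _ _ = _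
  rw [Polynomial.eval₂_X]

/-- **root peeling**: induction on the degree of the denominator `Q`. -/
theorem h45z_peel (hcore : H26iCore) (A : ValuationSubring Kbar) :
    ∀ (n : ℕ) (Q : Polynomial A), Q.natDegree ≤ n → Q.map (IsLocalRing.residue A) ≠ 0 →
      ∀ x : LaurentSeries Kbar, (embA A).IsIntegralElem x →
        (∃ y : LaurentSeries A, embA A y = evalA A (jK Kbar) Q * x) →
        ∃ y : LaurentSeries A, embA A y = x := by
  intro n
  induction n with
  | zero =>
    rintro Q hQ hQπ x hx ⟨y, hy⟩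
    obtain ⟨a, rfl⟩ : ∃ a, Q = Polynomial.C a :=
      ⟨Q.coeff 0, Polynomial.eq_C_of_natDegree_le_zero hQ⟩
    rw [Polynomial.map_C] at hQπ
    have ha : IsLocalRing.residue A a ≠ 0 := fun h => hQπ (by rw [h, map_zero])
    have hau : IsUnit a := by
      by_contra h
      exact ha ((IsLocalRing.residue_eq_zero_iff a).mpr ((IsLocalRing.mem_maximalIdeal a).mpr h))
    obtain ⟨u, rfl⟩ := hau
    refine ⟨HahnSeries.C (↑u⁻¹ : A) * y, ?_⟩
    rw [map_mul, hy, h45z_embA_C, h45z_evalA_C, ← mul_assoc, ← map_mul]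
    have h1 : ((↑u⁻¹ : A) : Kbar) * ((u : A) : Kbar) = 1 := by
      exact congrArg Subtype.val (Units.inv_mul u)
    rw [h1, map_one, one_mul]
  | succ n ih =>
    rintro Q hQ hQπ x hx ⟨y, hy⟩
    by_cases hle : Q.natDegree ≤ n
    · exact ih Q hle hQπ x hx ⟨y, hy⟩
    have hdeg : Q.natDegree = n + 1 := by omega
    have hinjA : Function.Injective A.subtype := Subtype.val_injective
    set Q' : Polynomial Kbar := Q.map A.subtype with hQ'
    have hdeg' : Q'.natDegree = n + 1 := by
      rw [hQ', Polynomial.natDegree_map_eq_of_injective hinjA, hdeg]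
    have hQ'0 : Q' ≠ 0 := by
      intro h
      rw [h, Polynomial.natDegree_zero] at hdeg'
      omega
    have hdne : Q'.degree ≠ 0 := by
      rw [Polynomial.degree_eq_natDegree hQ'0, hdeg']
      exact_mod_cast Nat.succ_ne_zero n
    obtain ⟨d, hd⟩ := IsAlgClosed.exists_root Q' hdne
    obtain ⟨Q1', hQ1'⟩ := Polynomial.dvd_iff_isRoot.mpr hd
    have hQ1'0 : Q1' ≠ 0 := by
      intro h
      rw [h, mul_zero] at hQ1'
      exact hQ'0 hQ1'
    have hdegQ1' : Q1'.natDegree = n := by
      have h1 := congrArg Polynomial.natDegree hQ1'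
      rw [Polynomial.natDegree_mul (Polynomial.X_sub_C_ne_zero d) hQ1'0,
        Polynomial.natDegree_X_sub_C, hdeg'] at h1
      omega
    by_cases hdA : d ∈ A
    · -- the root is integral: `j - d` is a unit of `A((q))`
      have hroot : Q.IsRoot (⟨d, hdA⟩ : A) := by
        rw [Polynomial.IsRoot.def]
        apply hinjA
        rw [map_zero, ← Polynomial.eval_map_apply]
        exact hd
      obtain ⟨Q1, hQ1⟩ := Polynomial.dvd_iff_isRoot.mpr hroot
      have hQ10 : Q1 ≠ 0 := by
        intro h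
        rw [h, mul_zero] at hQ1
        rw [hQ1, Polynomial.natDegree_zero] at hdeg
        omega
      have hdegQ1 : Q1.natDegree ≤ n := by
        have h1 := congrArg Polynomial.natDegree hQ1
        rw [Polynomial.natDegree_mul (Polynomial.X_sub_C_ne_zero _) hQ10,
          Polynomial.natDegree_X_sub_C, hdeg] at h1
        omega
      have hQ1π : Q1.map (IsLocalRing.residue A) ≠ 0 := by
        intro h
        apply hQπ
        rw [hQ1, Polynomial.map_mul, h, mul_zero]
      obtain ⟨w, hw⟩ := h45z_exists_inv_sub A (⟨d, hdA⟩ : A)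
      have hw' : embA A w * (jK Kbar - HahnSeries.C d) = 1 := by
        have h1 := congrArg (embA A) hw
        rw [map_mul, map_sub, embA_jqModC, h45z_embA_C, map_one] at h1
        exact h1
      have hev : evalA A (jK Kbar) Q = (jK Kbar - HahnSeries.C d) * evalA A (jK Kbar) Q1 := by
        rw [hQ1, map_mul, map_sub, h45z_evalA_X, h45z_evalA_C]
      refine ih Q1 hdegQ1 hQ1π x hx ⟨w * y, ?_⟩
      rw [map_mul, hy, hev]
      linear_combination (evalA A (jK Kbar) Q1 * x) * hw'
    · -- the root is outside `A`: `δ = 1 / d ∈ 𝔪_A`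
      have hd0 : d ≠ 0 := by
        rintro rfl
        exact hdA A.zero_mem
      have hδA : d⁻¹ ∈ A := (A.mem_or_inv_mem d).resolve_left hdA
      have hδn : d⁻¹ ∈ A.nonunits := by
        rw [ValuationSubring.mem_nonunits_iff, map_inv₀]
        have h1 : ¬ A.valuation d ≤ 1 := fun h => hdA ((A.valuation_le_one_iff d).mp h)
        exact inv_lt_one_of_one_lt₀ (not_le.mp h1)
      obtain ⟨Q2', hQ2'⟩ : ∃ Q2' : Polynomial Kbar, Q2' = Polynomial.C (-d) * Q1' := ⟨_, rfl⟩
      have hfac : Q' = (1 - Polynomial.C d⁻¹ * Polynomial.X) * Q2' := by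
        rw [hQ1', hQ2']
        have h1 : (Polynomial.C d⁻¹ : Polynomial Kbar) * Polynomial.C d = 1 := by
          rw [← Polynomial.C_mul, inv_mul_cancel₀ hd0, Polynomial.C_1]
        rw [Polynomial.C_neg]
        linear_combination (-(Polynomial.X * Q1')) * h1
      have hcoeff : ∀ m, Q2'.coeff m ∈ A := by
        have hrel : ∀ m, Q'.coeff m = Q2'.coeff m - d⁻¹ * (Polynomial.X * Q2').coeff m := by
          intro m
          conv_lhs => rw [hfac]
          rw [sub_mul, one_mul, Polynomial.coeff_sub, mul_assoc, Polynomial.coeff_C_mul]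
        have hQ'c : ∀ m, Q'.coeff m ∈ A := by
          intro m
          rw [hQ', Polynomial.coeff_map]
          exact (Q.coeff m).2
        intro m
        induction m with
        | zero =>
          have h1 := hrel 0
          rw [Polynomial.coeff_X_mul_zero, mul_zero, sub_zero] at h1
          rw [← h1]
          exact hQ'c 0
        | succ m ihm =>
          have h1 := hrel (m + 1)
          rw [Polynomial.coeff_X_mul] at h1
          have h2 : Q2'.coeff (m + 1) = Q'.coeff (m + 1) + d⁻¹ * Q2'.coeff m := by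
            rw [h1]
            ring
          rw [h2]
          exact A.add_mem _ _ (hQ'c _) (A.mul_mem _ _ hδA ihm)
      have hlift : Q2' ∈ Polynomial.lifts A.subtype := by
        rw [Polynomial.lifts_iff_coeff_lifts]
        intro m
        exact ⟨⟨Q2'.coeff m, hcoeff m⟩, rfl⟩
      obtain ⟨Q2, hQ2⟩ := (Polynomial.mem_lifts _).mp hlift
      have hQfac : Q = (1 - Polynomial.C (⟨d⁻¹, hδA⟩ : A) * Polynomial.X) * Q2 := by
        apply Polynomial.map_injective A.subtype hinjA
        rw [Polynomial.map_mul, Polynomial.map_sub, Polynomial.map_one, Polynomial.map_mul,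
          Polynomial.map_C, Polynomial.map_X, hQ2]
        exact hfac
      have hdegQ2 : Q2.natDegree ≤ n := by
        have h1 : Q2.natDegree = Q2'.natDegree := by
          rw [← hQ2, Polynomial.natDegree_map_eq_of_injective hinjA]
        rw [h1, hQ2', Polynomial.natDegree_C_mul (neg_ne_zero.mpr hd0), hdegQ1']
      have hπδ : IsLocalRing.residue A (⟨d⁻¹, hδA⟩ : A) = 0 := by
        rw [IsLocalRing.residue_eq_zero_iff]
        exact (ValuationSubring.coe_mem_nonunits_iff).mp hδn
      have hQ2π : Q2.map (IsLocalRing.residue A) ≠ 0 := by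
        intro h
        apply hQπ
        rw [hQfac, Polynomial.map_mul, h, mul_zero]
      have hev : evalA A (jK Kbar) Q
          = (1 - HahnSeries.C d⁻¹ * jK Kbar) * evalA A (jK Kbar) Q2 := by
        rw [hQfac, map_mul, map_sub, map_one, map_mul, h45z_evalA_X, h45z_evalA_C]
      have hx' : (embA A).IsIntegralElem ((1 - HahnSeries.C d⁻¹ * jK Kbar) * x) := by
        have h1 : (1 - HahnSeries.C d⁻¹ * jK Kbar)
            = embA A (1 - HahnSeries.C (⟨d⁻¹, hδA⟩ : A) * jqModC A) := by
          rw [map_sub, map_one, map_mul, h45z_embA_C, embA_jqModC]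
        rw [h1]
        exact RingHom.IsIntegralElem.mul _ (RingHom.isIntegralElem_map _) hx
      obtain ⟨y', hy'⟩ := ih Q2 hdegQ2 hQ2π _ hx' ⟨y, by rw [hy, hev]; ring⟩
      exact h45z_step hcore A hx (⟨d⁻¹, hδA⟩ : A) hδn y' hy'

/-- **INT-ABS from CORE.** -/
theorem h45z_intAbs (hcore : H26iCore) : H26iIntAbs := by
  rintro A x ⟨Q, hQ, y, hy⟩ hx
  exact h45z_peel hcore A Q.natDegree Q le_rfl hQ x hx ⟨y, hy⟩

end Fermat.Agent.P7
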