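import Mathlib

/-!
# Wave 7 (S44), row L-MULT, step (1) (helper45): elementwise unipotent groups on a plane

`V` an abelian group killed by the prime `p` with `p ^ 2` elements (e.g. `W[p]`), `G` a group
acting on `V` by automorphisms, `H ≤ G` a subgroup all of whose elements are unipotent on `V`
(`(a - 1) ^ 2 = 0`, the STAR relation for `a ∈ I₁`).  If `b ∈ H` moves `Q`, put `T = b Q - Q`:

* `h45v_unipotent` : `T ≠ 0`, `p T = 0`, every `a ∈ H` fixes `T` and `a Q = Q + i T`
  (`i : ℕ`), and `V = ℤ Q + ℤ T`;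
* `h45v_orbit` : hence `a ((b ^ k) Q) = (b ^ (k + i)) Q` for all `k` (the orbit hypothesis of
  `P7/H45BreakConv.h45u_kummerUnit` after applying any `G`-equivariant function `x`), and
  `(b ^ p) Q = Q`;
* `h45v_trivial_of_fix` : if `a ∈ H` fixes `Q` then `a` acts trivially on `V`.

Mathlib only.
-/

set_option autoImplicit false
set_option linter.unusedSectionVars false

namespace Fermat.Agent.P7

variable {p : ℕ} [Fact p.Prime]
variable {G V : Type*} [Group G] [AddCommGroup V] [DistribMulAction G V]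

/-- in a group killed by `p`, a nonzero element is killed exactly by the multiples of `p`. -/
theorem h45v_zsmul_eq_zero_iff (hpV : ∀ v : V, p • v = 0) {T : V} (hT : T ≠ 0) (m : ℤ) :
    m • T = 0 ↔ (p : ℤ) ∣ m := by
  have hp : p.Prime := Fact.out
  have hord : addOrderOf T = p := addOrderOf_eq_prime (hpV T) hT
  rw [← hord]
  exact (addOrderOf_dvd_iff_zsmul_eq_zero).symm

/-- two independent elements span a group of order `p ^ 2` killed by `p`. -/
theorem h45v_span (_hpV : ∀ v : V, p • v = 0) (hcard : Nat.card V = p ^ 2) {Q T : V}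
    (hind : ∀ m n : ℤ, m • Q + n • T = 0 → (p : ℤ) ∣ m ∧ (p : ℤ) ∣ n) :
    ∀ v : V, ∃ m n : ℤ, v = m • Q + n • T := by
  classical
  have hp : p.Prime := Fact.out
  have : NeZero p := ⟨hp.ne_zero⟩
  have : Finite V := Nat.finite_of_card_ne_zero (by rw [hcard]; exact pow_ne_zero 2 hp.ne_zero)
  let f : ZMod p × ZMod p → V := fun x => (x.1.val : ℤ) • Q + (x.2.val : ℤ) • T
  have hinj : Function.Injective f := by
    rintro ⟨m, n⟩ ⟨m', n'⟩ h
    simp only [f] at h
    have h1 : ((m.val : ℤ) - m'.val) • Q + ((n.val : ℤ) - n'.val) • T = 0 := by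
      rw [sub_smul, sub_smul]
      have : (m.val : ℤ) • Q + (n.val : ℤ) • T - ((m'.val : ℤ) • Q + (n'.val : ℤ) • T) = 0 := by
        rw [h, sub_self]
      rw [← this]
      abel
    obtain ⟨h2, h3⟩ := hind _ _ h1
    have e1 : m = m' := by
      have := (ZMod.intCast_zmod_eq_zero_iff_dvd _ p).mpr h2
      push_cast at this
      rw [ZMod.natCast_zmod_val, ZMod.natCast_zmod_val] at this
      exact sub_eq_zero.mp this
    have e2 : n = n' := by
      have := (ZMod.intCast_zmod_eq_zero_iff_dvd _ p).mpr h3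
      push_cast at this
      rw [ZMod.natCast_zmod_val, ZMod.natCast_zmod_val] at this
      exact sub_eq_zero.mp this
    rw [e1, e2]
  have hc : Nat.card (ZMod p × ZMod p) = Nat.card V := by
    rw [Nat.card_prod, Nat.card_zmod, hcard, pow_two]
  have hbij : Function.Bijective f := (Nat.bijective_iff_injective_and_card f).mpr ⟨hinj, hc⟩
  intro v
  obtain ⟨⟨m, n⟩, hmn⟩ := hbij.2 v
  exact ⟨m.val, n.val, hmn.symm⟩

/-- **elementwise unipotent subgroups of `GL(V)`, `V` a plane over `𝔽_p`.** -/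
theorem h45v_unipotent (hpV : ∀ v : V, p • v = 0) (hcard : Nat.card V = p ^ 2)
    (H : Subgroup G)
    (huni : ∀ a ∈ H, ∀ v : V, a • a • v - (2 : ℤ) • a • v + v = 0)
    {b : G} (hb : b ∈ H) {Q : V} (hQ : b • Q ≠ Q) :
    b • Q - Q ≠ 0 ∧ (∀ a ∈ H, a • (b • Q - Q) = b • Q - Q) ∧
      (∀ a ∈ H, ∃ i : ℕ, a • Q = Q + i • (b • Q - Q)) ∧
      ∀ v : V, ∃ m n : ℤ, v = m • Q + n • (b • Q - Q) := by
  have hp : p.Prime := Fact.out
  set T : V := b • Q - Q with hTdef
  have hT0 : T ≠ 0 := sub_ne_zero.mpr hQ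
  have hbQ : b • Q = Q + T := by rw [hTdef]; abel
  -- `b T = T`
  have hbT : b • T = T := by
    have h1 := huni b hb Q
    rw [hTdef, smul_sub]
    have h2 : b • b • Q = (2 : ℤ) • b • Q - Q := by
      rw [← sub_eq_zero]
      rw [← h1]
      abel
    rw [h2, two_smul]
    abel
  -- independence
  have hind : ∀ m n : ℤ, m • Q + n • T = 0 → (p : ℤ) ∣ m ∧ (p : ℤ) ∣ n := by
    intro m n h
    have h1 : b • (m • Q + n • T) - (m • Q + n • T) = m • T := by
      rw [smul_add, smul_comm b m Q, smul_comm b n T, hbQ, hbT, smul_add]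
      abel
    rw [h, smul_zero, sub_zero] at h1
    have hm : (p : ℤ) ∣ m := (h45v_zsmul_eq_zero_iff hpV hT0 m).mp h1.symm
    have hmQ : m • Q = 0 := by
      obtain ⟨k, rfl⟩ := hm
      rw [mul_comm, mul_smul, natCast_zsmul, hpV, smul_zero]
    rw [hmQ, zero_add] at h
    exact ⟨hm, (h45v_zsmul_eq_zero_iff hpV hT0 n).mp h⟩
  have hspan := h45v_span hpV hcard hind
  -- the kernel of `b - 1` is `ℤ T`
  have hker : ∀ v : V, b • v = v → ∃ n : ℤ, v = n • T := by
    intro v hv
    obtain ⟨m, n, rfl⟩ := hspan v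
    have h1 : b • (m • Q + n • T) - (m • Q + n • T) = m • T := by
      rw [smul_add, smul_comm b m Q, smul_comm b n T, hbQ, hbT, smul_add]
      abel
    rw [hv, sub_self] at h1
    have hm : (p : ℤ) ∣ m := (h45v_zsmul_eq_zero_iff hpV hT0 m).mp h1.symm
    have hmQ : m • Q = 0 := by
      obtain ⟨k, rfl⟩ := hm
      rw [mul_comm, mul_smul, natCast_zsmul, hpV, smul_zero]
    exact ⟨n, by rw [hmQ, zero_add]⟩
  -- a multiple `n T` killed by the square-zero relation
  have hsq : ∀ (n : ℤ) (w : V), w ≠ 0 → (n * n) • w = 0 → n • w = 0 := by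
    intro n w hw h
    have h1 := (h45v_zsmul_eq_zero_iff hpV hw (n * n)).mp h
    have hpz : Prime (p : ℤ) := Nat.prime_iff_prime_int.mp hp
    have h2 : (p : ℤ) ∣ n := by
      rcases hpz.dvd_or_dvd h1 with h | h <;> exact h
    exact (h45v_zsmul_eq_zero_iff hpV hw n).mpr h2
  -- every `a ∈ H` fixes `T`
  have hfixT : ∀ a ∈ H, a • T = T := by
    intro a ha
    -- `N = a - 1`, `M = b - 1`; `(a b - 1)^2 T = 0` gives `a (M N T) = 0`
    have hab := huni (a * b) (H.mul_mem ha hb) T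
    have haa := huni a ha
    rw [mul_smul, mul_smul, hbT] at hab
    -- `hab : a • b • a • T - 2 • a • T + T = 0`
    have h1 : b • (a • T) = a • T := by
      have h2 : a • (b • (a • T)) = a • (a • T) := by
        have h3 := haa T
        have h4 : a • a • T = (2 : ℤ) • a • T - T := by
          rw [← sub_eq_zero, ← h3]
          abel
        have h5 : a • b • a • T = (2 : ℤ) • a • T - T := by
          rw [← sub_eq_zero, ← hab]
          abel
        rw [h5, h4]
      exact MulAction.injective a h2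
    obtain ⟨n, hn⟩ := hker (a • T) h1
    -- `a T = n T`, and `(a - 1)^2 T = 0` gives `(n - 1)^2 T = 0`
    have h3 := haa T
    rw [hn, smul_comm a n T, hn] at h3
    have h4 : ((n - 1) * (n - 1)) • T = 0 := by
      have : ((n - 1) * (n - 1)) • T = n • n • T - (2 : ℤ) • n • T + T := by
        rw [← mul_smul, ← mul_smul]
        have e : (n - 1) * (n - 1) = n * n - 2 * n + 1 := by ring
        rw [e, add_smul, sub_smul, one_smul]
      rw [this, h3]
    have h5 := hsq (n - 1) T hT0 h4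
    rw [sub_smul, one_smul, sub_eq_zero] at h5
    rw [hn, h5]
  refine ⟨hT0, hfixT, ?_, hspan⟩
  intro a ha
  obtain ⟨m, n, hmn⟩ := hspan (a • Q - Q)
  -- `(a - 1)^2 Q = 0` gives `m (a Q - Q) = 0`
  have haQ : a • Q = Q + (m • Q + n • T) := by rw [← hmn]; abel
  have h1 := huni a ha Q
  have h2 : a • (a • Q) = Q + (m • Q + n • T) + (m • (Q + (m • Q + n • T)) + n • T) := by
    calc a • (a • Q) = a • (Q + (m • Q + n • T)) := by rw [haQ]
      _ = a • Q + (m • (a • Q) + n • (a • T)) := by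
          rw [smul_add, smul_add, smul_comm a m Q, smul_comm a n T]
      _ = Q + (m • Q + n • T) + (m • (Q + (m • Q + n • T)) + n • T) := by
          rw [hfixT a ha, haQ]
  have h3 : m • (m • Q + n • T) = 0 := by
    have : m • (m • Q + n • T) = a • a • Q - (2 : ℤ) • a • Q + Q := by
      rw [h2, haQ, two_smul, smul_add m Q (m • Q + n • T)]
      abel
    rw [this, h1]
  -- hence `m ≡ 0`
  have hm : (p : ℤ) ∣ m := by
    by_contra hnot
    have hw : m • Q + n • T ≠ 0 := fun h => hnot (hind m n h).1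
    exact hnot ((h45v_zsmul_eq_zero_iff hpV hw m).mp h3)
  have hmQ : m • Q = 0 := by
    obtain ⟨k, rfl⟩ := hm
    rw [mul_comm, mul_smul, natCast_zsmul, hpV, smul_zero]
  rw [hmQ, zero_add] at haQ
  -- replace `n : ℤ` by a natural number
  refine ⟨(n % p).toNat, ?_⟩
  rw [haQ]
  congr 1
  have hpz : (0 : ℤ) < p := by exact_mod_cast hp.pos
  have h5 : ((n % p).toNat : ℤ) = n % p := Int.toNat_of_nonneg (Int.emod_nonneg n hpz.ne')
  have h6 : n • T = (n % p) • T := by
    conv_lhs => rw [← Int.emod_add_mul_ediv n p]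
    rw [add_smul, mul_smul, natCast_zsmul, hpV, add_zero]
  calc n • T = (n % p) • T := h6
    _ = ((n % p).toNat : ℤ) • T := by rw [h5]
    _ = (n % p).toNat • T := natCast_zsmul _ _

/-- the `b`-orbit of `Q`: `(b ^ k) Q = Q + k T`. -/
theorem h45v_pow_smul {b : G} {Q : V} (hbT : b • (b • Q - Q) = b • Q - Q) (k : ℕ) :
    (b ^ k) • Q = Q + k • (b • Q - Q) := by
  induction k with
  | zero => simp
  | succ k ih =>
    rw [pow_succ', mul_smul, ih, smul_add, smul_comm b k (b • Q - Q), hbT, succ_nsmul]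
    abel

/-- **the orbit hypothesis of `h45u_kummerUnit`**: every `a ∈ H` acts on the `b`-orbit of `Q`
as a power of `b`, and `(b ^ p) Q = Q`. -/
theorem h45v_orbit (hpV : ∀ v : V, p • v = 0) (hcard : Nat.card V = p ^ 2)
    (H : Subgroup G)
    (huni : ∀ a ∈ H, ∀ v : V, a • a • v - (2 : ℤ) • a • v + v = 0)
    {b : G} (hb : b ∈ H) {Q : V} (hQ : b • Q ≠ Q) :
    (b ^ p) • Q = Q ∧
      ∀ a ∈ H, ∃ i : ℕ, ∀ k : ℕ, a • ((b ^ k) • Q) = (b ^ (k + i)) • Q := by
  obtain ⟨-, hfix, hsh, -⟩ := h45v_unipotent hpV hcard H huni hb hQ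
  have hbT := hfix b hb
  refine ⟨by rw [h45v_pow_smul hbT, hpV, add_zero], fun a ha => ?_⟩
  obtain ⟨i, hi⟩ := hsh a ha
  refine ⟨i, fun k => ?_⟩
  rw [h45v_pow_smul hbT, h45v_pow_smul hbT, smul_add, smul_comm a k (b • Q - Q), hfix a ha, hi,
    add_nsmul]
  abel

/-- an element of `H` fixing `Q` acts trivially on `V`. -/
theorem h45v_trivial_of_fix (hpV : ∀ v : V, p • v = 0) (hcard : Nat.card V = p ^ 2)
    (H : Subgroup G)
    (huni : ∀ a ∈ H, ∀ v : V, a • a • v - (2 : ℤ) • a • v + v = 0)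
    {b : G} (hb : b ∈ H) {Q : V} (hQ : b • Q ≠ Q) {a : G} (ha : a ∈ H) (haQ : a • Q = Q) :
    ∀ v : V, a • v = v := by
  obtain ⟨-, hfix, -, hspan⟩ := h45v_unipotent hpV hcard H huni hb hQ
  intro v
  obtain ⟨m, n, rfl⟩ := hspan v
  rw [smul_add, smul_comm a m Q, smul_comm a n (b • Q - Q), haQ, hfix a ha]

/-- for `p` odd, an element of `H` sending `Q` to `± Q` fixes `Q` (consumer: `a` fixes the
`x`-coordinate of `Q`). -/
theorem h45v_fix_of_neg (hp2 : p ≠ 2) (hpV : ∀ v : V, p • v = 0) (hcard : Nat.card V = p ^ 2)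
    (H : Subgroup G)
    (huni : ∀ a ∈ H, ∀ v : V, a • a • v - (2 : ℤ) • a • v + v = 0)
    {b : G} (hb : b ∈ H) {Q : V} (hQ : b • Q ≠ Q) {a : G} (ha : a ∈ H)
    (haQ : a • Q = Q ∨ a • Q = -Q) : a • Q = Q := by
  have hp : p.Prime := Fact.out
  rcases haQ with h | h
  · exact h
  exfalso
  obtain ⟨hT0, hfix, hsh, -⟩ := h45v_unipotent hpV hcard H huni hb hQ
  obtain ⟨i, hi⟩ := hsh a ha
  have hbT := hfix b hb
  -- `2 Q = - i T`, apply `b - 1`
  have h1 : (2 : ℤ) • Q + (i : ℤ) • (b • Q - Q) = 0 := by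
    have h2 : Q + i • (b • Q - Q) = -Q := by rw [← hi, h]
    rw [two_smul, natCast_zsmul]
    calc Q + Q + i • (b • Q - Q) = Q + (Q + i • (b • Q - Q)) := by abel
      _ = Q + -Q := by rw [h2]
      _ = 0 := by abel
  have h3 : b • ((2 : ℤ) • Q + (i : ℤ) • (b • Q - Q)) - ((2 : ℤ) • Q + (i : ℤ) • (b • Q - Q)) =
      (2 : ℤ) • (b • Q - Q) := by
    rw [smul_add, smul_comm b (2 : ℤ) Q, smul_comm b (i : ℤ) (b • Q - Q), hbT, smul_sub]
    abel
  rw [h1, smul_zero, sub_zero] at h3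
  have h4 := (h45v_zsmul_eq_zero_iff hpV hT0 2).mp h3.symm
  have h5 : p ∣ 2 := by exact_mod_cast h4
  have h6 := (Nat.prime_dvd_prime_iff_eq hp Nat.prime_two).mp h5
  exact hp2 h6

end Fermat.Agent.P7
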