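import Mathlib

/-!
# Wave 7 (S40), block (C) T-CONST-PHASE: abstract algebra of the break (helper46)

Mathlib only.  Abstract form of the elementary steps of the paper proof in
finding 1366 (kind proof7):

* `h46y_break`   : (B0) if every element of `R` is `∑_{j<p} π^j c_j` with `c_j` fixed by the
  ring endomorphism `b` and `b π = π (1 + θ π^i0)`, then `π^(i0+1) ∣ b r - r` for all `r`.
* `h46y_break_unit` : for `f = π^n * r`, `r` a unit: `b f = f * (1 + θ π^i0)^n * (1 + π^(i0+1) t)`.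
* `h46y_pow_prime_sub_one` : `π^e ∣ p` ⟹ `π^(min (p a) (e + a)) ∣ (1 + π^a ρ)^p - 1`.
* `h46y_one_add_pow` : `(1 + θ π^i0)^(p n) = 1 + n θ^p π^(p i0)` modulo `π^(p i0 + 1)`
  when `π^e ∣ p`, `p i0 < e + i0`.
* `h46y_dvd_of_cong` : `n θ^p π^(p i0) ≡ n' θ^p π^(p i0)` mod `π^(p i0+1)`, `θ` unit modulo `π`,
  `π` regular and not a unit, `π ∣ p` ⟹ `p ∣ n - n'`.
* `h46y_resolvent` : approximate Hilbert 90 identity for an endomorphism `b` with `b^[p] = id`: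
  `Ξ * b h = h + (N Ξ - 1) * θ` for the resolvent `h = ∑_{i<p} (∏_{l<i} b^l Ξ) b^i θ`.
-/

namespace Fermat.Agent.P7

open Finset

section Break

variable {R : Type*} [CommRing R]

/-- `π^(j+i0) ∣ (π (1 + θ π^i0))^j - π^j` for `j ≥ 1`; for `j = 0` the difference is `0`. -/
theorem h46y_pow_sub (π θ : R) (i0 j : ℕ) :
    π ^ (j + i0) ∣ (π * (1 + θ * π ^ i0)) ^ j - π ^ j := by
  have h1 : (π * (1 + θ * π ^ i0)) ^ j - π ^ j = π ^ j * ((1 + θ * π ^ i0) ^ j - 1) := by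
    rw [mul_pow]; ring
  rw [h1, pow_add]
  refine mul_dvd_mul_left _ ?_
  have h2 : (1 + θ * π ^ i0) - 1 ∣ (1 + θ * π ^ i0) ^ j - 1 := by
    simpa using sub_dvd_pow_sub_pow (1 + θ * π ^ i0) 1 j
  refine dvd_trans ?_ h2
  exact ⟨θ, by ring⟩

/-- (B0), additive form. -/
theorem h46y_break (p : ℕ) (b : R →+* R) (π θ : R) (i0 : ℕ)
    (hb : b π = π * (1 + θ * π ^ i0))
    (r : R) (c : ℕ → R) (hc : ∀ j, b (c j) = c j)
    (hr : r = ∑ j ∈ range p, π ^ j * c j) :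
    π ^ (i0 + 1) ∣ b r - r := by
  subst hr
  rw [map_sum, ← Finset.sum_sub_distrib]
  refine Finset.dvd_sum ?_
  intro j _
  rw [map_mul, map_pow, hb, hc j, ← sub_mul]
  refine Dvd.dvd.mul_right ?_ _
  rcases Nat.eq_zero_or_pos j with h0 | hpos
  · subst h0; simp
  · refine dvd_trans (pow_dvd_pow π ?_) (h46y_pow_sub π θ i0 j)
    omega

/-- (B0), multiplicative form: `f = π^n r`, `r` a unit with `π^(i0+1) ∣ b r - r`. -/
theorem h46y_break_unit (b : R →+* R) (π θ : R) (i0 n : ℕ)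
    (hb : b π = π * (1 + θ * π ^ i0))
    (r s : R) (hrs : r * s = 1) (hr : π ^ (i0 + 1) ∣ b r - r) :
    ∃ t : R, b (π ^ n * r) = (π ^ n * r) * (1 + θ * π ^ i0) ^ n * (1 + π ^ (i0 + 1) * t) := by
  obtain ⟨d, hd⟩ := hr
  refine ⟨d * s, ?_⟩
  have hbr : b r = r + π ^ (i0 + 1) * d := by rw [← hd]; ring
  rw [map_mul, map_pow, hb, hbr, mul_pow]
  have : r + π ^ (i0 + 1) * d = r * (1 + π ^ (i0 + 1) * (d * s)) := by
    have : r * (1 + π ^ (i0 + 1) * (d * s)) = r + π ^ (i0 + 1) * d * (r * s) := by ring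
    rw [this, hrs, mul_one]
  rw [this]; ring

end Break

section Powers

variable {R : Type*} [CommRing R]

/-- `(1 + x)^p - 1 = x^p + p * x * (...)`. -/
theorem h46y_one_add_pow_prime (p : ℕ) (hp : p.Prime) (x : R) :
    ∃ y : R, (1 + x) ^ p - 1 = x ^ p + (p : R) * x * y := by
  obtain ⟨r, hr⟩ := exists_add_pow_prime_eq hp (1 : R) x
  refine ⟨r, ?_⟩
  rw [hr]; ring

/-- `π^e ∣ p` ⟹ `π^(min (p a) (e + a)) ∣ (1 + π^a ρ)^p - 1`. -/
theorem h46y_pow_prime_sub_one (p : ℕ) (hp : p.Prime) (π ρ : R) (e a : ℕ)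
    (he : π ^ e ∣ (p : R)) :
    π ^ (min (p * a) (e + a)) ∣ (1 + π ^ a * ρ) ^ p - 1 := by
  obtain ⟨y, hy⟩ := h46y_one_add_pow_prime p hp (π ^ a * ρ)
  rw [hy]
  refine dvd_add ?_ ?_
  · rw [mul_pow, ← pow_mul, mul_comm a p]
    exact Dvd.dvd.mul_right (pow_dvd_pow π (min_le_left _ _)) _
  · obtain ⟨q, hq⟩ := he
    have : (p : R) * (π ^ a * ρ) * y = π ^ (e + a) * (q * ρ * y) := by
      rw [hq, pow_add]; ring
    rw [this]
    exact Dvd.dvd.mul_right (pow_dvd_pow π (min_le_right _ _)) _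

/-- `(1 + θ π^i0)^p = 1 + θ^p π^(p i0)` modulo `π^(p i0 + 1)` when `π^e ∣ p`, `p i0 < e + i0`. -/
theorem h46y_one_add_pow_p (p : ℕ) (hp : p.Prime) (π θ : R) (e i0 : ℕ)
    (he : π ^ e ∣ (p : R)) (hlt : p * i0 < e + i0) :
    π ^ (p * i0 + 1) ∣ (1 + θ * π ^ i0) ^ p - (1 + θ ^ p * π ^ (p * i0)) := by
  obtain ⟨y, hy⟩ := h46y_one_add_pow_prime p hp (θ * π ^ i0)
  have h1 : (1 + θ * π ^ i0) ^ p - (1 + θ ^ p * π ^ (p * i0))
      = (p : R) * (θ * π ^ i0) * y := by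
    have : (1 + θ * π ^ i0) ^ p = 1 + ((θ * π ^ i0) ^ p + (p : R) * (θ * π ^ i0) * y) := by
      rw [← hy]; ring
    rw [this, mul_pow, ← pow_mul, mul_comm i0 p]; ring
  rw [h1]
  obtain ⟨q, hq⟩ := he
  have : (p : R) * (θ * π ^ i0) * y = π ^ (e + i0) * (q * θ * y) := by
    rw [hq, pow_add]; ring
  rw [this]
  exact Dvd.dvd.mul_right (pow_dvd_pow π (by omega)) _

/-- `(1 + c)^n = 1 + n c` modulo `c^2`. -/
theorem h46y_one_add_pow_lin (c : R) (n : ℕ) :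
    c ^ 2 ∣ (1 + c) ^ n - (1 + n * c) := by
  induction n with
  | zero => simp
  | succ n ih =>
    obtain ⟨d, hd⟩ := ih
    refine ⟨d * (1 + c) + n, ?_⟩
    have : (1 + c) ^ (n + 1) = ((1 + c) ^ n - (1 + n * c)) * (1 + c) + (1 + n * c) * (1 + c) := by
      ring
    rw [this, hd]; push_cast; ring

/-- `(1 + θ π^i0)^(p n) = 1 + n θ^p π^(p i0)` modulo `π^(p i0 + 1)`
(`π^e ∣ p`, `p i0 < e + i0`, `1 ≤ i0`). -/
theorem h46y_one_add_pow (p : ℕ) (hp : p.Prime) (π θ : R) (e i0 : ℕ)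
    (he : π ^ e ∣ (p : R)) (hlt : p * i0 < e + i0) (hi0 : 1 ≤ i0) (n : ℕ) :
    π ^ (p * i0 + 1) ∣ (1 + θ * π ^ i0) ^ (p * n) - (1 + n * (θ ^ p * π ^ (p * i0))) := by
  have h1 := h46y_one_add_pow_p p hp π θ e i0 he hlt
  -- `A := (1 + θ π^i0)^p`, `B := 1 + θ^p π^(p i0)`; `A ≡ B`, so `A^n ≡ B^n`.
  have h2 : π ^ (p * i0 + 1) ∣ ((1 + θ * π ^ i0) ^ p) ^ n - (1 + θ ^ p * π ^ (p * i0)) ^ n :=
    dvd_trans h1 (sub_dvd_pow_sub_pow _ _ n)
  have h3 : π ^ (p * i0 + 1) ∣ (1 + θ ^ p * π ^ (p * i0)) ^ n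
      - (1 + n * (θ ^ p * π ^ (p * i0))) := by
    refine dvd_trans ?_ (h46y_one_add_pow_lin (θ ^ p * π ^ (p * i0)) n)
    have hsq : (θ ^ p * π ^ (p * i0)) ^ 2 = π ^ (p * i0 + p * i0) * (θ ^ p) ^ 2 := by
      rw [pow_add]; ring
    rw [hsq]
    refine Dvd.dvd.mul_right (pow_dvd_pow π ?_) _
    have : 1 ≤ p * i0 := Nat.one_le_iff_ne_zero.mpr
      (Nat.mul_ne_zero hp.ne_zero (by omega))
    omega
  have : (1 + θ * π ^ i0) ^ (p * n) - (1 + n * (θ ^ p * π ^ (p * i0)))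
      = (((1 + θ * π ^ i0) ^ p) ^ n - (1 + θ ^ p * π ^ (p * i0)) ^ n)
        + ((1 + θ ^ p * π ^ (p * i0)) ^ n - (1 + n * (θ ^ p * π ^ (p * i0)))) := by
    rw [pow_mul]; ring
  rw [this]
  exact dvd_add h2 h3

/-- The final arithmetic: if `n θ^p π^(p i0) ≡ n' θ^p π^(p i0)` modulo `π^(p i0 + 1)`,
`θ` is a unit modulo `π`, `π` is regular, not a unit, and `π ∣ p`, then `p ∣ n - n'`. -/
theorem h46y_dvd_of_cong (p : ℕ) (hp : p.Prime) (π θ θ' : R) (m : ℕ)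
    (hreg : IsLeftRegular π) (hnu : ¬ IsUnit π) (hpπ : π ∣ (p : R))
    (hθ : π ∣ θ * θ' - 1) (n n' : ℤ)
    (h : π ^ (m + 1) ∣ (n : R) * (θ * π ^ m) - (n' : R) * (θ * π ^ m)) :
    (p : ℤ) ∣ n - n' := by
  -- cancel `π^m`
  have hregm : IsLeftRegular (π ^ m) := hreg.pow m
  obtain ⟨d, hd⟩ := h
  have h1 : π ^ m * (((n - n' : ℤ) : R) * θ) = π ^ m * (π * d) := by
    have : π ^ m * (((n - n' : ℤ) : R) * θ)
        = (n : R) * (θ * π ^ m) - (n' : R) * (θ * π ^ m) := by push_cast; ring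
    rw [this, hd, pow_succ]; ring
  have h2 : ((n - n' : ℤ) : R) * θ = π * d := hregm h1
  -- multiply by `θ'`
  have h3 : π ∣ ((n - n' : ℤ) : R) := by
    obtain ⟨q, hq⟩ := hθ
    have : ((n - n' : ℤ) : R) = π * d * θ' - ((n - n' : ℤ) : R) * (π * q) := by
      rw [← h2, ← hq]; ring
    rw [this]
    exact dvd_sub (Dvd.dvd.mul_right (Dvd.intro _ rfl) _)
      (Dvd.dvd.mul_left (Dvd.intro _ rfl) _)
  by_contra hnd
  -- `p ∤ n - n'` gives a Bezout relation, hence `π ∣ 1`.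
  have hcop : IsCoprime (p : ℤ) (n - n') := by
    rw [Int.isCoprime_iff_gcd_eq_one]
    have := (Nat.Prime.coprime_iff_not_dvd hp).mpr
      (fun hdiv => hnd (Int.natCast_dvd.mpr hdiv))
    simpa [Int.gcd, Nat.Coprime] using this
  obtain ⟨a, c, hac⟩ := hcop
  have h4 : π ∣ (1 : R) := by
    have : (1 : R) = (a : R) * (p : R) + (c : R) * ((n - n' : ℤ) : R) := by
      have := congrArg (fun z : ℤ => (z : R)) hac
      simp only [Int.cast_add, Int.cast_mul, Int.cast_one, Int.cast_natCast] at this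
      rw [← this]
    rw [this]
    exact dvd_add (Dvd.dvd.mul_left hpπ _) (Dvd.dvd.mul_left h3 _)
  exact hnu (isUnit_of_dvd_one h4)

end Powers

section Resolvent

variable {F : Type*} [CommRing F]

/-- partial norms `a_i = ∏_{l<i} b^l Ξ`. -/
def h46yA (b : F →+* F) (Ξ : F) (i : ℕ) : F := ∏ l ∈ range i, (b^[l]) Ξ

/-- resolvent `h = ∑_{i<p} a_i b^i θ`. -/
def h46yH (b : F →+* F) (p : ℕ) (Ξ θ : F) : F :=
  ∑ i ∈ range p, h46yA b Ξ i * (b^[i]) θ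

theorem h46y_A_succ (b : F →+* F) (Ξ : F) (i : ℕ) :
    Ξ * b (h46yA b Ξ i) = h46yA b Ξ (i + 1) := by
  unfold h46yA
  rw [map_prod, Finset.prod_range_succ']
  simp only [Function.iterate_zero, id_eq]
  rw [mul_comm]
  congr 1
  refine Finset.prod_congr rfl ?_
  intro l _
  rw [Function.iterate_succ_apply']

/-- Approximate Hilbert 90: `Ξ * b h = h + (N Ξ - 1) θ` if `b^[p] θ = θ`. -/
theorem h46y_resolvent (b : F →+* F) (p : ℕ) (Ξ θ : F) (hθ : (b^[p]) θ = θ) :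
    Ξ * b (h46yH b p Ξ θ) = h46yH b p Ξ θ + (h46yA b Ξ p - 1) * θ := by
  unfold h46yH
  rw [map_sum, Finset.mul_sum]
  have h1 : ∀ i ∈ range p, Ξ * b (h46yA b Ξ i * (b^[i]) θ)
      = h46yA b Ξ (i + 1) * (b^[i + 1]) θ := by
    intro i _
    rw [map_mul, ← mul_assoc, h46y_A_succ, Function.iterate_succ_apply']
  rw [Finset.sum_congr rfl h1]
  have h2 := Finset.sum_range_succ' (fun i => h46yA b Ξ i * (b^[i]) θ) p
  have h3 := Finset.sum_range_succ (fun i => h46yA b Ξ i * (b^[i]) θ) p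
  simp only [Function.iterate_zero, id_eq] at h2
  have hA0 : h46yA b Ξ 0 = 1 := by simp [h46yA]
  rw [hA0, one_mul] at h2
  rw [hθ] at h3
  -- sum_{i<p} f(i+1) = sum_{i<p+1} f i - f 0 = sum_{i<p} f i + f p - f 0
  have : ∑ i ∈ range p, h46yA b Ξ (i + 1) * (b^[i + 1]) θ
      = ∑ i ∈ range p, h46yA b Ξ i * (b^[i]) θ + h46yA b Ξ p * θ - θ := by
    rw [← h3, h2]; ring
  rw [this]; ring

end Resolvent

end Fermat.Agent.P7
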