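import Mathlib

/-!
# Wave 7 (S40), block (5c), abstract graph algebra (helper46, prefix `h46v_`)

The dual graph of the two-component model has two vertices and one edge for every supersingular
point; its first homology is `ker (deg) ⊆ ℤ ^ E` and the monodromy pairing is the restriction of
the (weighted) standard pairing.  Mathlib only.

* `h46v_const_of_orth` : a vector orthogonal to the degree-zero vectors is constant
  (any commutative ring, weights that are not zero divisors).
* `h46v_slope_dichotomy` : a degree-zero vector `s` over `ZMod p` orthogonal to the degree-zero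
  vectors is `0`, or `p ∣ #E` and `s` is a nonzero constant.
* `h46v_int_dichotomy` : the same for integer vectors modulo `p`.
* `h46v_eisenstein` : if moreover `s` is an eigenvector, with eigenvalue `a`, of an operator `T`
  with `T 1 = c • 1`, then `s = 0` or `a = c` (the Eisenstein alternative).
-/

set_option autoImplicit false

namespace Fermat.Agent.P7

open Finset

variable {E : Type*} [Fintype E]

/-- a vector orthogonal (for a weighted standard pairing) to all vectors of degree zero has
constant weighted coordinates. -/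
theorem h46v_wconst_of_orth {R : Type*} [CommRing R] (l s : E → R)
    (h : ∀ η : E → R, ∑ e, η e = 0 → ∑ e, l e * s e * η e = 0) (e₁ e₂ : E) :
    l e₁ * s e₁ = l e₂ * s e₂ := by
  classical
  by_cases he : e₁ = e₂
  · rw [he]
  have h1 := h (fun e => (if e = e₁ then 1 else 0) - (if e = e₂ then 1 else 0)) (by
    rw [Finset.sum_sub_distrib]
    simp)
  simp only [mul_sub, Finset.sum_sub_distrib, mul_ite, mul_one, mul_zero,
    Finset.sum_ite_eq', Finset.mem_univ, if_true] at h1
  exact sub_eq_zero.mp h1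

/-- a vector orthogonal to all vectors of degree zero is constant. -/
theorem h46v_const_of_orth {R : Type*} [CommRing R] (s : E → R)
    (h : ∀ η : E → R, ∑ e, η e = 0 → ∑ e, s e * η e = 0) (e₁ e₂ : E) : s e₁ = s e₂ := by
  have := h46v_wconst_of_orth (fun _ => (1 : R)) s (fun η hη => by simpa using h η hη) e₁ e₂
  simpa using this

/-- **the slope dichotomy**: a degree-zero vector over `ZMod p` in the radical of the monodromy
pairing vanishes, or `p` divides the number of edges and the vector is a nonzero constant. -/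
theorem h46v_slope_dichotomy (p : ℕ) [Fact p.Prime] (s : E → ZMod p) (hs : ∑ e, s e = 0)
    (h : ∀ η : E → ZMod p, ∑ e, η e = 0 → ∑ e, s e * η e = 0) :
    (∀ e, s e = 0) ∨
      ((Fintype.card E : ZMod p) = 0 ∧ ∃ c : ZMod p, c ≠ 0 ∧ ∀ e, s e = c) := by
  classical
  by_cases h0 : ∀ e, s e = 0
  · exact Or.inl h0
  right
  obtain ⟨e₀, he₀⟩ := not_forall.mp h0
  have hc : ∀ e, s e = s e₀ := fun e => h46v_const_of_orth s h e e₀
  refine ⟨?_, s e₀, he₀, hc⟩
  have h1 : ∑ e, s e = (Fintype.card E : ZMod p) * s e₀ := by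
    rw [Finset.sum_congr rfl fun e _ => hc e, Finset.sum_const, Finset.card_univ, nsmul_eq_mul]
  rw [h1] at hs
  rcases mul_eq_zero.mp hs with h2 | h2
  · exact h2
  · exact absurd h2 he₀

/-- the integral form of the slope dichotomy. -/
theorem h46v_int_dichotomy (p : ℕ) [Fact p.Prime] (ξ : E → ℤ) (hξ : (p : ℤ) ∣ ∑ e, ξ e)
    (h : ∀ η : E → ℤ, ∑ e, η e = 0 → (p : ℤ) ∣ ∑ e, ξ e * η e) :
    (∀ e, (p : ℤ) ∣ ξ e) ∨
      (p ∣ Fintype.card E ∧ ∃ c : ℤ, ¬ (p : ℤ) ∣ c ∧ ∀ e, (p : ℤ) ∣ ξ e - c) := by
  classical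
  have key : ∀ e₁ e₂, (p : ℤ) ∣ ξ e₁ - ξ e₂ := by
    intro e₁ e₂
    by_cases he : e₁ = e₂
    · rw [he, sub_self]; exact dvd_zero _
    have h1 := h (fun e => (if e = e₁ then 1 else 0) - (if e = e₂ then 1 else 0)) (by
      rw [Finset.sum_sub_distrib]
      simp)
    simpa only [mul_sub, Finset.sum_sub_distrib, mul_ite, mul_one, mul_zero,
      Finset.sum_ite_eq', Finset.mem_univ, if_true] using h1
  by_cases h0 : ∀ e, (p : ℤ) ∣ ξ e
  · exact Or.inl h0
  right
  obtain ⟨e₀, he₀⟩ := not_forall.mp h0
  refine ⟨?_, ξ e₀, he₀, fun e => key e e₀⟩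
  have h1 : (p : ℤ) ∣ ∑ e, (ξ e - ξ e₀) := Finset.dvd_sum fun e _ => key e e₀
  have h2 : ∑ e, (ξ e - ξ e₀) = ∑ e, ξ e - (Fintype.card E : ℤ) * ξ e₀ := by
    rw [Finset.sum_sub_distrib, Finset.sum_const, Finset.card_univ, nsmul_eq_mul]
  rw [h2] at h1
  have h3 : (p : ℤ) ∣ (Fintype.card E : ℤ) * ξ e₀ := by
    have := dvd_sub hξ h1
    simpa using this
  have hp : Prime (p : ℤ) := Nat.prime_iff_prime_int.mp (Fact.out : p.Prime)
  rcases hp.dvd_or_dvd h3 with h4 | h4
  · exact Int.natCast_dvd_natCast.mp h4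
  · exact absurd h4 he₀

omit [Fintype E] in
/-- **the Eisenstein alternative**: a constant vector which is an eigenvector of an operator
acting on the constants by `c` has eigenvalue `c`, or vanishes. -/
theorem h46v_eisenstein {k : Type*} [Field k] (T : (E → k) →ₗ[k] (E → k)) (c a : k)
    (hT : T (fun _ => 1) = c • (fun _ => (1 : k))) (s : E → k) (d : k) (hsd : ∀ e, s e = d)
    (hs : T s = a • s) : (∀ e, s e = 0) ∨ a = c := by
  by_cases hd : d = 0
  · exact Or.inl fun e => by rw [hsd e, hd]
  rcases isEmpty_or_nonempty E with hE | ⟨⟨e⟩⟩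
  · exact Or.inl fun e => (hE.false e).elim
  right
  have h1 : s = d • (fun _ => (1 : k)) := by
    funext e
    simp [hsd e]
  rw [h1, map_smul, hT, smul_smul, smul_smul] at hs
  have h2 := congrFun hs e
  simp only [Pi.smul_apply, smul_eq_mul, mul_one] at h2
  have h3 : d * c = d * a := by rw [h2, mul_comm]
  exact (mul_left_cancel₀ hd h3).symm

end Fermat.Agent.P7
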