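import Fermat.Agent.P7.H47DiscSeries

/-!
# Wave 7, block (A), route DLOG, ORTH(M): DISC-SERIES from (S2) (helper47, prefix `h47k_`)

`N` a level prime to `p`, `r` a reduction map of places, `v∞` the `q`-order place of `FF N`,
`Q` the `q`-order place of the special fibre, (S2) `r v∞ = Q`.

* `h47k_not_fin` : no place of the fibre of `v∞` is finite; `h47k_jinv_mem` : `j⁻¹` is regular on
  the fibre.
* `h47k_cusp_of_s2` : `v∞` is the only pole of `j` in its fibre (hypothesis `hcusp` of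
  `h47k_disc_series`), from (S2) and RED-DIV for `j⁻¹`.
* `h47k_disc_series_s2`, `h47k_disc_unit_s2` : DISC-SERIES with (S2) as the only input.
-/

set_option autoImplicit false
set_option linter.unusedSectionVars false
set_option linter.style.haveILetI false

open AlgebraicCurve ModularCurve

noncomputable section

namespace Fermat.Agent.P7

open Fermat.Agent.S37 Fermat.Agent.Red.GV Fermat.Agent.P5

section Cusp

variable {p : ℕ} (A : ValuationSubring Kbar) (N : ℕ) [NeZero N]

/-- `j ≠ 0` in `FF N`. -/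
theorem h47k_jB_ne_zero : jB N ≠ 0 := by
  intro h
  have h1 : ((jB N : FF N) : LaurentSeries Kbar) = 0 := by rw [h]; rfl
  rw [coe_jB] at h1
  exact Fermat.Agent.Red.GV.Asm.jK_ne_zero Kbar h1

/-- the order of `j` at the `q`-order place. -/
theorem h47k_ord_jB (voo : Place Kbar (FF N))
    (hvoo : ∀ f : FF N, f ≠ 0 → voo.ord f = (f : LaurentSeries Kbar).order) :
    voo.ord (jB N) = -1 := by
  rw [hvoo _ (h47k_jB_ne_zero N), coe_jB]
  exact Fermat.Agent.S28.Asm.order_jqModC' Kbar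

/-- `j⁻¹` is regular at every place of the fibre of the `q`-order place. -/
theorem h47k_jinv_mem (r : Place Kbar (FF N) → Place (h13sK A) (h13sFt A N))
    (hr : H13sIsRed A N r) (voo : Place Kbar (FF N))
    (hvoo : ∀ f : FF N, f ≠ 0 → voo.ord f = (f : LaurentSeries Kbar).order)
    (w : Place Kbar (FF N)) (hw : r w = r voo) : (jB N)⁻¹ ∈ w.toValuationSubring := by
  by_contra hni
  have hj : jB N ∈ w.toValuationSubring :=
    (w.toValuationSubring.mem_or_inv_mem (jB N)).resolve_right hni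
  have hjnu : jB N ∈ w.toValuationSubring.nonunits := by
    rw [ValuationSubring.mem_nonunits_iff_or]
    right
    exact hni
  have hfinw : IsFinAt A w := by
    refine ⟨0, A.zero_mem, ?_⟩
    show jB N - cst N 0 ∈ w.toValuationSubring.nonunits
    have h0 : cst N (0 : Kbar) = 0 := map_zero _
    rw [h0, sub_zero]
    exact hjnu
  have hsame : SameRed A w voo := (hr.2.1 w voo).1 hw
  have hfinv : IsFinAt A voo := by
    rcases hsame with h | h
    · exact h.2.1
    · exact absurd hfinw h.1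
  obtain ⟨a, -, ha⟩ := hfinv
  obtain ⟨h1, -⟩ := ValuationSubring.mem_nonunits_iff_exists_mem_maximalIdeal.1 ha
  have h2 : jB N ∈ voo.toValuationSubring := by
    have := add_mem h1 (voo.algebraMap_mem' a)
    rwa [sub_add_cancel] at this
  have h3 := h68r_ord_nonneg_of_mem voo h2
  rw [h47k_ord_jB N voo hvoo] at h3
  omega

/-- **the `q`-order place is the only pole of `j` in its fibre**, from (S2). -/
theorem h47k_cusp_of_s2 (hp : p.Prime) (hN : ¬ p ∣ N) (hA : A.LiesOverPrime p)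
    (r : Place Kbar (FF N) → Place (h13sK A) (h13sFt A N)) (hr : H13sIsRed A N r)
    (Q : Place (h13sK A) (h13sFt A N))
    (hQ : ∀ f : h13sFt A N, f ≠ 0 → Q.ord f = (h13sIncl A N f).order)
    (voo : Place Kbar (FF N))
    (hvoo : ∀ f : FF N, f ≠ 0 → voo.ord f = (f : LaurentSeries Kbar).order)
    (hS2 : r voo = Q)
    (w : Place Kbar (FF N)) (hw : r w = r voo) (hwv : w ≠ voo) :
    jB N ∈ w.toValuationSubring := by
  classical
  have hj0 := h47k_jB_ne_zero N
  have hji0 : (jB N)⁻¹ ≠ 0 := inv_ne_zero hj0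
  have hjV := jB_mem_gaussV A N
  have hjiV := jB_inv_mem_gaussV A N hp hN hA
  have hjiiV : ((jB N)⁻¹)⁻¹ ∈ gaussV A N := by rw [inv_inv]; exact hjV
  obtain ⟨D, hD, -⟩ := (h40r_base_FF N).pd _ hji0
  have h3 := hr.2.2 _ hjiV hjiiV D hD (r voo)
  -- the reduction of `j⁻¹` has `q`-order `1`
  have hred : (h13sIncl A N (h13sRed A N ⟨(jB N)⁻¹, hjiV⟩)).order = 1 := by
    rw [h13sIncl_red]
    have hmul : gaussR A N ⟨(jB N)⁻¹, hjiV⟩ * gaussR A N ⟨jB N, hjV⟩ = 1 := by
      rw [← map_mul]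
      have e : (⟨(jB N)⁻¹, hjiV⟩ : gaussV A N) * ⟨jB N, hjV⟩ = 1 :=
        Subtype.ext (inv_mul_cancel₀ hj0)
      rw [e, map_one]
    rw [gaussR_jB] at hmul
    have hk0 : jqModC (IsLocalRing.ResidueField A) ≠ 0 :=
      jqModC_ne_zero_of_nontrivial _
    have hx0 : gaussR A N ⟨(jB N)⁻¹, hjiV⟩ ≠ 0 := by
      intro h
      rw [h, zero_mul] at hmul
      exact zero_ne_one hmul
    have h1 := HahnSeries.order_mul hx0 hk0
    rw [hmul, HahnSeries.order_one, Fermat.Agent.S28.Asm.order_jqModC'] at h1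
    exact add_neg_eq_zero.1 h1.symm
  have hred0 : h13sRed A N ⟨(jB N)⁻¹, hjiV⟩ ≠ 0 := by
    intro h
    rw [h, map_zero, HahnSeries.order_zero] at hred
    exact zero_ne_one hred
  rw [hS2, hQ _ hred0, hred] at h3
  -- positivity on the fibre
  have hfib : ∀ v : Place Kbar (FF N), r v = Q → 0 ≤ D v := by
    intro v hv
    rw [hD v]
    exact h68r_ord_nonneg_of_mem v (h47k_jinv_mem A N r hr voo hvoo v (hv.trans hS2.symm))
  have hDv : D voo = 1 := by
    rw [hD voo, voo.ord_inv, h47k_ord_jB N voo hvoo]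
    rfl
  -- remove the point `voo`
  set D' : Divisor Kbar (FF N) := D - Finsupp.single voo (1 : ℤ) with hD'
  have hDD : D = D' + Finsupp.single voo (1 : ℤ) := by rw [hD', sub_add_cancel]
  have hfib' : ∀ v : Place Kbar (FF N), r v = Q → 0 ≤ D' v := by
    intro v hv
    rw [hD', Finsupp.sub_apply]
    by_cases hvv : v = voo
    · rw [hvv, hDv, Finsupp.single_eq_same, sub_self]
    · rw [Finsupp.single_eq_of_ne hvv, sub_zero]
      exact hfib v hv
  have hpush : Finsupp.mapDomain r D Q = Finsupp.mapDomain r D' Q + 1 := by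
    conv_lhs => rw [hDD]
    rw [Finsupp.mapDomain_add, Finsupp.add_apply, Finsupp.mapDomain_single, hS2,
      Finsupp.single_eq_same]
  have h8 : h13sPush r D Q = Finsupp.mapDomain r D Q := rfl
  rw [h8, hpush] at h3
  have h9 : D' w ≤ Finsupp.mapDomain r D' Q := h71r_push_ge r D' Q hfib' w (hw.trans hS2)
  have h10 : D' w = D w := by
    rw [hD', Finsupp.sub_apply, Finsupp.single_eq_of_ne hwv, sub_zero]
  have h11 : 0 ≤ D w := hfib w (hw.trans hS2)
  have h12 : D w = 0 := by omega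
  rw [hD w, w.ord_inv] at h12
  apply h68r_mem_of_ord_nonneg
  right
  omega

/-- **DISC-SERIES from (S2).** -/
theorem h47k_disc_series_s2 (hp : p.Prime) (hN : ¬ p ∣ N) (hA : A.LiesOverPrime p)
    (r : Place Kbar (FF N) → Place (h13sK A) (h13sFt A N)) (hr : H13sIsRed A N r)
    (Q : Place (h13sK A) (h13sFt A N))
    (hQ : ∀ f : h13sFt A N, f ≠ 0 → Q.ord f = (h13sIncl A N f).order)
    (voo : Place Kbar (FF N))
    (hvoo : ∀ f : FF N, f ≠ 0 → voo.ord f = (f : LaurentSeries Kbar).order)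
    (hS2 : r voo = Q)
    (F : FF N) (hF : F ∈ gaussV A N)
    (hreg : ∀ w : Place Kbar (FF N), r w = Q → 0 ≤ w.ord F) :
    ∃ b : LaurentSeries A, embA A b = (F : LaurentSeries Kbar) ∧
      (∀ m : ℤ, m < 0 → b.coeff m = 0) ∧
      gaussR A N ⟨F, hF⟩ = redA (IsLocalRing.residue A) b :=
  h47k_disc_series A N hp hN hA r hr voo hvoo
    (h47k_cusp_of_s2 A N hp hN hA r hr Q hQ voo hvoo hS2) F hF
    (fun w hw => h68r_mem_of_ord_nonneg w (Or.inr (hreg w (hw.trans hS2))))

/-- **DISC-SERIES for units, from (S2)**: a Gauss unit without zero or pole in the fibre of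
the `q`-order place has its `q`-expansion in `A[[q]]`, with unit constant term. -/
theorem h47k_disc_unit_s2 (hp : p.Prime) (hN : ¬ p ∣ N) (hA : A.LiesOverPrime p)
    (r : Place Kbar (FF N) → Place (h13sK A) (h13sFt A N)) (hr : H13sIsRed A N r)
    (Q : Place (h13sK A) (h13sFt A N))
    (hQ : ∀ f : h13sFt A N, f ≠ 0 → Q.ord f = (h13sIncl A N f).order)
    (voo : Place Kbar (FF N))
    (hvoo : ∀ f : FF N, f ≠ 0 → voo.ord f = (f : LaurentSeries Kbar).order)
    (hS2 : r voo = Q)
    (F : FF N) (hF0 : F ≠ 0) (hF : F ∈ gaussV A N) (hFi : F⁻¹ ∈ gaussV A N)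
    (hreg : ∀ w : Place Kbar (FF N), r w = Q → w.ord F = 0) :
    ∃ b : LaurentSeries A, embA A b = (F : LaurentSeries Kbar) ∧
      (∀ m : ℤ, m < 0 → b.coeff m = 0) ∧ IsUnit (b.coeff 0) ∧
      gaussR A N ⟨F, hF⟩ = redA (IsLocalRing.residue A) b :=
  h47k_disc_unit A N hp hN hA r hr voo hvoo
    (h47k_cusp_of_s2 A N hp hN hA r hr Q hQ voo hvoo hS2) F hF0 hF hFi
    (fun w hw => h68r_mem_of_ord_nonneg w (Or.inr (by rw [hreg w (hw.trans hS2)])))
    (fun w hw => h68r_mem_of_ord_nonneg w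
      (Or.inr (by rw [w.ord_inv, hreg w (hw.trans hS2), neg_zero])))

end Cusp

end Fermat.Agent.P7
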