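import Fermat.Agent.P5.H13SFIface
import Fermat.Agent.P5.H40RRInst
import Fermat.Agent.P5.H71RepAbs
import Fermat.Agent.P5.H68RROneStep
import Fermat.Agent.Red.GV.BarGalois
import Fermat.Agent.Red.GV.Series
import Fermat.Agent.Red.GV.Asm4
import Fermat.Agent.S28.RAsm
import Fermat.Agent.Red.GV.SoftBar

/-!
# Wave 7, block (A), route DLOG, ORTH(M): the leaf DISC-SERIES (helper47, prefix `h47k_`)

`N` a level prime to `p`, `A` a valuation subring of `ℚ̄` over `p`, `r` a reduction map of places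
(`H13sIsRed A N r`, landed at good levels: `h88r_redDiv`), `v∞` the `q`-order place of `FF N`.

* `h47k_value_mem` : **EVAL at one place.**  If `F ∈ gaussV A N` is regular at every place of the
  fibre `r⁻¹(r v₀)` and `F - a` vanishes at `v₀`, then `a ∈ A`
  (RED-DIV for the Gauss unit `a⁻¹ F - 1`, of reduction `-1`).
* `h47k_coeff_mem` : **DISC-SERIES.**  If moreover `v₀ = v∞` is the `q`-order place and `j` has no
  pole in the fibre except `v∞`, then every coefficient of the `q`-expansion of `F` lies in `A`.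
* `h47k_disc_series` : the same as `∃ b : LaurentSeries A, embA A b = F`, `b` a power series.
* `h47k_disc_unit` : if `F` is a unit on the fibre, the constant term of `b` is a unit of `A`.
-/

set_option autoImplicit false
set_option linter.unusedSectionVars false
set_option linter.style.haveILetI false

open AlgebraicCurve ModularCurve

noncomputable section

namespace Fermat.Agent.P7

open Fermat.Agent.S37 Fermat.Agent.Red.GV Fermat.Agent.P5

/-! ### The series `j⁻¹` -/

/-- `j⁻¹` has coefficients in `A`. -/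
theorem h47k_jinv (A : ValuationSubring Kbar) :
    ∃ τ : LaurentSeries A, embA A τ = (jK Kbar)⁻¹ := by
  obtain ⟨y, hy⟩ := exists_jqModC_inv A
  refine ⟨y, ?_⟩
  have h3 : embA A y * embA A (jqModC A) = 1 := by rw [← map_mul, hy, map_one]
  rw [embA_jqModC] at h3
  exact eq_inv_of_mul_eq_one_left h3

/-- `j⁻¹` has order `1`. -/
theorem h47k_order_jinv : ((jK Kbar)⁻¹).order = 1 := by
  have hj : jK Kbar ≠ 0 := Fermat.Agent.Red.GV.Asm.jK_ne_zero Kbar
  have h1 : (jK Kbar * (jK Kbar)⁻¹).order = (jK Kbar).order + ((jK Kbar)⁻¹).order :=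
    HahnSeries.order_mul hj (inv_ne_zero hj)
  have h2 : (jK Kbar).order = -1 := Fermat.Agent.S28.Asm.order_jqModC' Kbar
  rw [mul_inv_cancel₀ hj, HahnSeries.order_one, h2] at h1
  omega

/-! ### EVAL at one place -/

section Eval

variable {p : ℕ} (A : ValuationSubring Kbar) (N : ℕ) [NeZero N]

/-- **EVAL at one place**: a Gauss-integral function regular on a fibre of the reduction map
takes its values on that fibre in `A`. -/
theorem h47k_value_mem (hp : p.Prime) (hN : ¬ p ∣ N) (hA : A.LiesOverPrime p)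
    (r : Place Kbar (FF N) → Place (h13sK A) (h13sFt A N)) (hr : H13sIsRed A N r)
    (v₀ : Place Kbar (FF N)) (F : FF N) (hF : F ∈ gaussV A N)
    (hreg : ∀ w : Place Kbar (FF N), r w = r v₀ → F ∈ w.toValuationSubring)
    (a : Kbar) (ha : F - cst N a ∈ v₀.toValuationSubring.nonunits) : a ∈ A := by
  by_contra haA
  have ha0 : a ≠ 0 := fun h => haA (h ▸ A.zero_mem)
  have hai : a⁻¹ ∈ A := (A.mem_or_inv_mem a).resolve_left haA
  have hainu : a⁻¹ ∈ A.nonunits := by
    rw [ValuationSubring.mem_nonunits_iff, map_inv₀]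
    have h1 : 1 < A.valuation a :=
      lt_of_not_ge fun h => haA ((A.valuation_le_one_iff a).1 h)
    exact inv_lt_one_of_one_lt₀ h1
  have hc1 : cst N a⁻¹ ∈ gaussV A N := (cst_mem_gaussV_iff A N hA a⁻¹).2 hai
  have hG : cst N a⁻¹ * F - 1 ∈ gaussV A N :=
    sub_mem (mul_mem hc1 hF) (one_mem _)
  have hGR : gaussR A N ⟨cst N a⁻¹ * F - 1, hG⟩ = -1 := by
    have e : (⟨cst N a⁻¹ * F - 1, hG⟩ : gaussV A N) = ⟨cst N a⁻¹, hc1⟩ * ⟨F, hF⟩ - 1 := rfl
    rw [e, map_sub, map_mul, gaussR_cst_of_nonunit A N hA a⁻¹ hainu hc1, zero_mul, map_one,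
      zero_sub]
  have hGne : gaussR A N ⟨cst N a⁻¹ * F - 1, hG⟩ ≠ 0 := by
    rw [hGR]
    exact neg_ne_zero.2 one_ne_zero
  have hGu : (cst N a⁻¹ * F - 1 : FF N) ≠ 0 ∧ (cst N a⁻¹ * F - 1 : FF N)⁻¹ ∈ gaussV A N := by
    have h := (gaussR_eq_zero_iff A N hp hN hA ⟨cst N a⁻¹ * F - 1, hG⟩).not.1 hGne
    rw [not_or, not_not] at h
    exact h
  obtain ⟨D, hD, -⟩ := (h40r_base_FF N).pd _ hGu.1
  have h3 := hr.2.2 _ hG hGu.2 D hD (r v₀)
  -- the right hand side vanishes
  have hred : h13sRed A N ⟨cst N a⁻¹ * F - 1, hG⟩ =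
      algebraMap (h13sK A) (h13sFt A N) (-1) := by
    have hinj : Function.Injective (h13sIncl A N) := (h13sIncl A N).toRingHom.injective
    apply hinj
    rw [h13sIncl_red, hGR, AlgHom.commutes, map_neg, map_one]
    rfl
  rw [hred, Fermat.Agent.S24.DiffPlace.ord_algebraMap] at h3
  -- the left hand side is positive
  have hfib : ∀ w : Place Kbar (FF N), r w = r v₀ → 0 ≤ D w := by
    intro w hw
    rw [hD w]
    apply h68r_ord_nonneg_of_mem
    exact sub_mem (mul_mem (w.algebraMap_mem' a⁻¹) (hreg w hw)) (one_mem _)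
  have h4 : D v₀ ≤ Finsupp.mapDomain r D (r v₀) := h71r_push_ge r D (r v₀) hfib v₀ rfl
  have h5 : 0 < D v₀ := by
    rw [hD v₀]
    have e : cst N a⁻¹ * F - 1 = cst N a⁻¹ * (F - cst N a) := by
      have : cst N a⁻¹ * cst N a = 1 := by
        rw [← map_mul, inv_mul_cancel₀ ha0, map_one]
      rw [mul_sub, this]
    have hmem : cst N a⁻¹ * F - 1 ∈ v₀.toValuationSubring.nonunits := by
      rw [e, ValuationSubring.mem_nonunits_iff, map_mul]
      have h6 : v₀.toValuationSubring.valuation (cst N a⁻¹) ≤ 1 :=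
        (ValuationSubring.valuation_le_one_iff _ _).2 (v₀.algebraMap_mem' a⁻¹)
      have h7 : v₀.toValuationSubring.valuation (F - cst N a) < 1 :=
        (ValuationSubring.mem_nonunits_iff _).1 ha
      calc v₀.toValuationSubring.valuation (cst N a⁻¹) *
            v₀.toValuationSubring.valuation (F - cst N a)
          ≤ 1 * v₀.toValuationSubring.valuation (F - cst N a) := mul_le_mul' h6 le_rfl
        _ = v₀.toValuationSubring.valuation (F - cst N a) := one_mul _
        _ < 1 := h7
    obtain ⟨hm, hmax⟩ := ValuationSubring.mem_nonunits_iff_exists_mem_maximalIdeal.1 hmem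
    exact (h68r_mem_maximalIdeal_iff v₀ ⟨_, hm⟩ hGu.1).1 hmax
  have h8 : h13sPush r D (r v₀) = Finsupp.mapDomain r D (r v₀) := rfl
  rw [h8] at h3
  omega

end Eval

/-! ### DISC-SERIES -/

section Series

variable {p : ℕ} (A : ValuationSubring Kbar) (N : ℕ) [NeZero N]

omit [NeZero N] in
/-- a function regular at the `q`-order place has no coefficient of negative degree. -/
theorem h47k_coeff_neg (voo : Place Kbar (FF N))
    (hvoo : ∀ f : FF N, f ≠ 0 → voo.ord f = (f : LaurentSeries Kbar).order)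
    (F : FF N) (hF : F ∈ voo.toValuationSubring) {m : ℤ} (hm : m < 0) :
    (F : LaurentSeries Kbar).coeff m = 0 := by
  rcases eq_or_ne F 0 with rfl | hF0
  · rfl
  · apply HahnSeries.coeff_eq_zero_of_lt_order
    have h1 := h68r_ord_nonneg_of_mem voo hF
    rw [hvoo F hF0] at h1
    omega

omit [NeZero N] in
/-- `F - F(∞)` vanishes at the `q`-order place. -/
theorem h47k_sub_cst_nonunit (voo : Place Kbar (FF N))
    (hvoo : ∀ f : FF N, f ≠ 0 → voo.ord f = (f : LaurentSeries Kbar).order)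
    (F : FF N) (hF : F ∈ voo.toValuationSubring) :
    F - cst N ((F : LaurentSeries Kbar).coeff 0) ∈ voo.toValuationSubring.nonunits := by
  set a₀ : Kbar := (F : LaurentSeries Kbar).coeff 0 with ha₀
  have hG : F - cst N a₀ ∈ voo.toValuationSubring := sub_mem hF (voo.algebraMap_mem' a₀)
  rcases eq_or_ne (F - cst N a₀) 0 with h0 | h0
  · rw [h0, ValuationSubring.mem_nonunits_iff, map_zero]
    exact zero_lt_one
  · have hc : ((F - cst N a₀ : FF N) : LaurentSeries Kbar) =
        (F : LaurentSeries Kbar) - HahnSeries.C a₀ := by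
      have h1 : ((F - cst N a₀ : FF N) : LaurentSeries Kbar) =
          (F : LaurentSeries Kbar) - ((cst N a₀ : FF N) : LaurentSeries Kbar) := rfl
      rw [h1, Fermat.Agent.Red.GV.Soft.soft_coe_cst]
    have h00 : ((F - cst N a₀ : FF N) : LaurentSeries Kbar).coeff 0 = 0 := by
      rw [hc, HahnSeries.coeff_sub, HahnSeries.C_apply, HahnSeries.coeff_single_same, ha₀,
        sub_self]
    have hord : 0 ≤ ((F - cst N a₀ : FF N) : LaurentSeries Kbar).order := by
      have h1 := h68r_ord_nonneg_of_mem voo hG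
      rwa [hvoo _ h0] at h1
    have hne : ((F - cst N a₀ : FF N) : LaurentSeries Kbar) ≠ 0 := fun h => h0 (Subtype.ext h)
    have hord' : ((F - cst N a₀ : FF N) : LaurentSeries Kbar).order ≠ 0 := by
      intro h
      have h2 := HahnSeries.coeff_order_eq_zero.not.mpr hne
      rw [h] at h2
      exact h2 h00
    have hpos : 0 < voo.ord (F - cst N a₀) := by
      rw [hvoo _ h0]
      omega
    rw [ValuationSubring.mem_nonunits_iff_exists_mem_maximalIdeal]
    exact ⟨hG, (h68r_mem_maximalIdeal_iff voo ⟨_, hG⟩ h0).2 hpos⟩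

/-- **DISC-SERIES, inductive form.** -/
theorem h47k_coeff_mem_aux (hp : p.Prime) (hN : ¬ p ∣ N) (hA : A.LiesOverPrime p)
    (r : Place Kbar (FF N) → Place (h13sK A) (h13sFt A N)) (hr : H13sIsRed A N r)
    (voo : Place Kbar (FF N))
    (hvoo : ∀ f : FF N, f ≠ 0 → voo.ord f = (f : LaurentSeries Kbar).order)
    (hcusp : ∀ w : Place Kbar (FF N), r w = r voo → w ≠ voo → jB N ∈ w.toValuationSubring)
    (n : ℕ) : ∀ F : FF N, F ∈ gaussV A N →
      (∀ w : Place Kbar (FF N), r w = r voo → F ∈ w.toValuationSubring) →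
      ∀ m : ℤ, m < n → (F : LaurentSeries Kbar).coeff m ∈ A := by
  induction n with
  | zero =>
    intro F _ hreg m hm
    have hm' : m < 0 := by exact_mod_cast hm
    rw [h47k_coeff_neg N voo hvoo F (hreg voo rfl) hm']
    exact A.zero_mem
  | succ n ih =>
    intro F hF hreg m hm
    set a₀ : Kbar := (F : LaurentSeries Kbar).coeff 0 with ha₀
    have hnu := h47k_sub_cst_nonunit N voo hvoo F (hreg voo rfl)
    have ha₀A : a₀ ∈ A := h47k_value_mem A N hp hN hA r hr voo F hF hreg a₀ hnu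
    have hjne : jB N ≠ 0 := by
      intro h
      have h1 : ((jB N : FF N) : LaurentSeries Kbar) = 0 := by rw [h]; rfl
      rw [coe_jB] at h1
      exact Fermat.Agent.Red.GV.Asm.jK_ne_zero Kbar h1
    have hF₁ : (F - cst N a₀) * jB N ∈ gaussV A N :=
      mul_mem (sub_mem hF ((cst_mem_gaussV_iff A N hA a₀).2 ha₀A)) (jB_mem_gaussV A N)
    have hreg₁ : ∀ w : Place Kbar (FF N), r w = r voo →
        (F - cst N a₀) * jB N ∈ w.toValuationSubring := by
      intro w hw
      by_cases hwv : w = voo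
      · subst hwv
        rcases eq_or_ne (F - cst N a₀) 0 with h0 | h0
        · rw [h0, zero_mul]
          exact w.toValuationSubring.zero_mem
        · apply h68r_mem_of_ord_nonneg
          right
          rw [w.ord_mul h0 hjne]
          obtain ⟨hm1, hmax⟩ := ValuationSubring.mem_nonunits_iff_exists_mem_maximalIdeal.1 hnu
          have h1 : 0 < w.ord (F - cst N a₀) := (h68r_mem_maximalIdeal_iff w ⟨_, hm1⟩ h0).1 hmax
          have h2 : w.ord (jB N) = -1 := by
            rw [hvoo _ hjne, coe_jB]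
            exact Fermat.Agent.S28.Asm.order_jqModC' Kbar
          omega
      · exact mul_mem (sub_mem (hreg w hw) (w.algebraMap_mem' a₀)) (hcusp w hw hwv)
    have ih₁ := ih _ hF₁ hreg₁
    obtain ⟨τ, hτ⟩ := h47k_jinv A
    -- the series identity
    have hser : (F : LaurentSeries Kbar) = HahnSeries.C a₀ +
        (((F - cst N a₀) * jB N : FF N) : LaurentSeries Kbar) * (jK Kbar)⁻¹ := by
      have h1 : (((F - cst N a₀) * jB N : FF N) : LaurentSeries Kbar) =
          ((F : LaurentSeries Kbar) - ((cst N a₀ : FF N) : LaurentSeries Kbar)) *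
            ((jB N : FF N) : LaurentSeries Kbar) := rfl
      rw [h1, coe_jB, Fermat.Agent.Red.GV.Soft.soft_coe_cst,
        mul_inv_cancel_right₀ (Fermat.Agent.Red.GV.Asm.jK_ne_zero Kbar)]
      ring
    rw [hser, HahnSeries.coeff_add]
    refine add_mem ?_ ?_
    · rw [HahnSeries.C_apply]
      rcases eq_or_ne m 0 with rfl | hm0
      · rw [HahnSeries.coeff_single_same]
        exact ha₀A
      · rw [HahnSeries.coeff_single_of_ne hm0]
        exact A.zero_mem
    · rw [HahnSeries.coeff_mul]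
      refine sum_mem fun ij hij => ?_
      rw [Finset.mem_antidiagonal] at hij
      obtain ⟨-, h2, h3⟩ := hij
      have h4 : (1 : ℤ) ≤ ij.2 := by
        have h5 := HahnSeries.order_le_of_coeff_ne_zero (HahnSeries.mem_support _ _ |>.1 h2)
        rwa [h47k_order_jinv] at h5
      refine mul_mem (ih₁ ij.1 ?_) ?_
      · have : m < (n : ℤ) + 1 := by exact_mod_cast hm
        omega
      · rw [← hτ]
        exact (τ.coeff ij.2).2

/-- **DISC-SERIES**: a Gauss-integral function regular on the fibre of the `q`-order place has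
all its `q`-expansion coefficients in `A`. -/
theorem h47k_coeff_mem (hp : p.Prime) (hN : ¬ p ∣ N) (hA : A.LiesOverPrime p)
    (r : Place Kbar (FF N) → Place (h13sK A) (h13sFt A N)) (hr : H13sIsRed A N r)
    (voo : Place Kbar (FF N))
    (hvoo : ∀ f : FF N, f ≠ 0 → voo.ord f = (f : LaurentSeries Kbar).order)
    (hcusp : ∀ w : Place Kbar (FF N), r w = r voo → w ≠ voo → jB N ∈ w.toValuationSubring)
    (F : FF N) (hF : F ∈ gaussV A N)
    (hreg : ∀ w : Place Kbar (FF N), r w = r voo → F ∈ w.toValuationSubring) (m : ℤ) :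
    (F : LaurentSeries Kbar).coeff m ∈ A := by
  refine h47k_coeff_mem_aux A N hp hN hA r hr voo hvoo hcusp (m.toNat + 1) F hF hreg m ?_
  have := Int.self_le_toNat m
  push_cast
  omega

/-- the series over `A` with prescribed coefficients. -/
def h47kMk (x : LaurentSeries Kbar) (h : ∀ m : ℤ, x.coeff m ∈ A) : LaurentSeries A where
  coeff m := ⟨x.coeff m, h m⟩
  isPWO_support' := x.isPWO_support.mono fun m hm => by
    rw [Function.mem_support] at hm
    rw [HahnSeries.mem_support]
    intro h0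
    exact hm (Subtype.ext h0)

theorem h47k_embA_mk (x : LaurentSeries Kbar) (h : ∀ m : ℤ, x.coeff m ∈ A) :
    embA A (h47kMk A x h) = x := by
  ext m
  rfl

/-- **DISC-SERIES, series form.** -/
theorem h47k_disc_series (hp : p.Prime) (hN : ¬ p ∣ N) (hA : A.LiesOverPrime p)
    (r : Place Kbar (FF N) → Place (h13sK A) (h13sFt A N)) (hr : H13sIsRed A N r)
    (voo : Place Kbar (FF N))
    (hvoo : ∀ f : FF N, f ≠ 0 → voo.ord f = (f : LaurentSeries Kbar).order)
    (hcusp : ∀ w : Place Kbar (FF N), r w = r voo → w ≠ voo → jB N ∈ w.toValuationSubring)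
    (F : FF N) (hF : F ∈ gaussV A N)
    (hreg : ∀ w : Place Kbar (FF N), r w = r voo → F ∈ w.toValuationSubring) :
    ∃ b : LaurentSeries A, embA A b = (F : LaurentSeries Kbar) ∧
      (∀ m : ℤ, m < 0 → b.coeff m = 0) ∧
      gaussR A N ⟨F, hF⟩ = redA (IsLocalRing.residue A) b := by
  have hc := h47k_coeff_mem A N hp hN hA r hr voo hvoo hcusp F hF hreg
  refine ⟨h47kMk A _ hc, h47k_embA_mk A _ hc, fun m hm => ?_, ?_⟩
  · apply Subtype.ext
    exact h47k_coeff_neg N voo hvoo F (hreg voo rfl) hm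
  · exact gaussRed_of_embA A (IsLocalRing.residue A) N ⟨F, hF⟩ _ (h47k_embA_mk A _ hc)

/-- **DISC-SERIES, units**: a Gauss unit which is a unit on the fibre of the `q`-order place has
a `q`-expansion in `A[[q]]` with unit constant term. -/
theorem h47k_disc_unit (hp : p.Prime) (hN : ¬ p ∣ N) (hA : A.LiesOverPrime p)
    (r : Place Kbar (FF N) → Place (h13sK A) (h13sFt A N)) (hr : H13sIsRed A N r)
    (voo : Place Kbar (FF N))
    (hvoo : ∀ f : FF N, f ≠ 0 → voo.ord f = (f : LaurentSeries Kbar).order)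
    (hcusp : ∀ w : Place Kbar (FF N), r w = r voo → w ≠ voo → jB N ∈ w.toValuationSubring)
    (F : FF N) (hF0 : F ≠ 0) (hF : F ∈ gaussV A N) (hFi : F⁻¹ ∈ gaussV A N)
    (hreg : ∀ w : Place Kbar (FF N), r w = r voo → F ∈ w.toValuationSubring)
    (hregi : ∀ w : Place Kbar (FF N), r w = r voo → F⁻¹ ∈ w.toValuationSubring) :
    ∃ b : LaurentSeries A, embA A b = (F : LaurentSeries Kbar) ∧
      (∀ m : ℤ, m < 0 → b.coeff m = 0) ∧ IsUnit (b.coeff 0) ∧
      gaussR A N ⟨F, hF⟩ = redA (IsLocalRing.residue A) b := by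
  obtain ⟨b, hb, hbneg, hbred⟩ :=
    h47k_disc_series A N hp hN hA r hr voo hvoo hcusp F hF hreg
  have hci := h47k_coeff_mem A N hp hN hA r hr voo hvoo hcusp F⁻¹ hFi hregi 0
  refine ⟨b, hb, hbneg, ?_, hbred⟩
  -- orders
  have hFi0 : F⁻¹ ≠ 0 := inv_ne_zero hF0
  have h1 : 0 ≤ voo.ord F := h68r_ord_nonneg_of_mem voo (hreg voo rfl)
  have h2 : 0 ≤ voo.ord F⁻¹ := h68r_ord_nonneg_of_mem voo (hregi voo rfl)
  rw [voo.ord_inv] at h2
  have h3 : voo.ord F = 0 := by omega
  have hoF : (F : LaurentSeries Kbar).order = 0 := by rw [← hvoo F hF0, h3]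
  have hoFi : ((F⁻¹ : FF N) : LaurentSeries Kbar).order = 0 := by
    rw [← hvoo _ hFi0, voo.ord_inv, h3, neg_zero]
  have hprod : (F : LaurentSeries Kbar) * ((F⁻¹ : FF N) : LaurentSeries Kbar) = 1 := by
    have h4 : (F : LaurentSeries Kbar) * ((F⁻¹ : FF N) : LaurentSeries Kbar) =
        ((F * F⁻¹ : FF N) : LaurentSeries Kbar) := rfl
    rw [h4, mul_inv_cancel₀ hF0]
    rfl
  have h5 := HahnSeries.coeff_mul_order_add_order (F : LaurentSeries Kbar)
    ((F⁻¹ : FF N) : LaurentSeries Kbar)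
  rw [HahnSeries.leadingCoeff_eq, HahnSeries.leadingCoeff_eq, hoF, hoFi, add_zero, hprod,
    HahnSeries.coeff_one, if_pos rfl] at h5
  have h6 : ((b.coeff 0 : A) : Kbar) = (F : LaurentSeries Kbar).coeff 0 := by
    rw [← hb]
    rfl
  have h7 : b.coeff 0 * (⟨((F⁻¹ : FF N) : LaurentSeries Kbar).coeff 0, hci⟩ : A) = 1 := by
    apply Subtype.ext
    show ((b.coeff 0 : A) : Kbar) * ((F⁻¹ : FF N) : LaurentSeries Kbar).coeff 0 = 1
    rw [h6]
    exact h5.symm
  exact IsUnit.of_mul_eq_one _ h7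

end Series

end Fermat.Agent.P7
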