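import Fermat.Agent.P7.H47LocTop
import Fermat.Agent.EFrob.DetCyc
import Fermat.Agent.S56F.FLT1_helper87
import Fermat.Agent.S56F.FLD0_helper89
import Fermat.Agent.PT.Bridge.LocGrpE
import Fermat.Agent.PT.Bridge.Inertia
import Fermat.Agent.P6.H70FlatOrdBridge

/-!
# Wave 7 (S40), row L-PEU, part (B) W-INSTANCE (helper47, prefix `h47v`)

The instance `V = W[p](ℚ̄)`, `ρ = h47wRho W p : Gq p →* Module.End (ZMod p) V` of the local core
of L-PEU (helper24, `P7/H24Peu.lean`):

* `h47v_rank` : `finrank (ZMod p) W[p] = 2`; `h47v_moduleFinite`;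
* `h47v_det` : `cycExp p s a → det (ρ s) = a` (landed `EFrob.galoisDet_eq_of_zeta` and
  `h87f_detBridge`);
* `H47vOrdGlob W p P` : the GLOBAL hypothesis of (L): every `σ` in the inertia group of `P`
  satisfies `(σ - a)(σ - 1) = 0` on `W[p]` (`a` an exponent of `σ` on `μ_p`);
* `h47v_ord_loc` : its translation to `ρ`: there is `g` with `g⁻¹ • padicPlace p = P` and
  `(ρ s - a)(ρ s - 1) = 0` for `s ∈ inertia p`, `cycExp p s a` (pointwise form);
  `h47v_ord_loc_mul`, `h47v_ord_loc_mul'` : the two product forms in `Module.End`;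
* `h47v_glob_of_loc` : the converse transport of a pointwise statement on `inertia p` to the
  inertia group of `P` (for the conclusion of (L));
* `h47v_locFlat` : `LocFlat` for `ρ` from a local order at one place (landed block (4) wiring).
-/

set_option autoImplicit false
set_option linter.style.haveILetI false

open WeierstrassCurve WeierstrassCurve.Affine.Point
open Fermat.Agent.PT.Loc Fermat.Agent.S56F Fermat.Agent.PT.Bridge
open scoped WeierstrassCurve.Affine Pointwise

noncomputable section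

namespace Fermat.Agent.P7

variable (W : WeierstrassCurve ℤ) (p : ℕ) [Fact p.Prime]

/-- `W[p](ℚ̄)` has rank `2` over `ZMod p`. -/
theorem h47v_rank (hΔ : W.Δ ≠ 0) : Module.finrank (ZMod p) (H47wX W p) = 2 :=
  Tors.finrank_torsionBy_qbar (W.map (Int.castRingHom ℚ)) (h47w_Δ_ne W hΔ) p

theorem h47v_moduleFinite (hΔ : W.Δ ≠ 0) : Module.Finite (ZMod p) (H47wX W p) :=
  Module.finite_of_finrank_pos (by rw [h47v_rank W p hΔ]; norm_num)

theorem h47wRho_eq (s : Gq p) :
    h47wRho W p s = galoisRepModuleEnd (K := AlgebraicClosure ℚ) ℚ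
      (W.map (Int.castRingHom ℚ)).toAffine p (ιp p s) := rfl

/-- the determinant of the local representation is the cyclotomic exponent. -/
theorem h47v_det (hΔ : W.Δ ≠ 0) (s : Gq p) (a : ℕ) (ha : cycExp p s a) :
    LinearMap.det (h47wRho W p s) = (a : ZMod p) := by
  have hp : p.Prime := Fact.out
  haveI : NeZero p := ⟨hp.ne_zero⟩
  haveI : NeZero (p : AlgebraicClosure ℚ) := ⟨Nat.cast_ne_zero.mpr hp.ne_zero⟩
  obtain ⟨ζ, hζ⟩ := HasEnoughRootsOfUnity.exists_primitiveRoot (AlgebraicClosure ℚ) p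
  have h1 : ιp p s ζ = ζ ^ a := h87f_detBridge p s a ha ζ hζ.pow_eq_one
  rw [h47wRho_eq]
  exact EFrob.galoisDet_eq_of_zeta W hΔ hp hζ (ιp p s) a h1

/-- **The global hypothesis of (L)**: every element `σ` of the inertia group of `P` satisfies
`(σ - a)(σ - 1) = 0` on `W[p]`, `a` any exponent of `σ` on `μ_p`. -/
def H47vOrdGlob (P : ValuationSubring H47wQb) : Prop :=
  ∀ σ ∈ P.inertiaSubgroupIn ℚ, ∀ a : ℕ, (∀ ζ : H47wQb, ζ ^ p = 1 → σ ζ = ζ ^ a) →
    ∀ x : H47wX W p, σ • (σ • x - x) = a • (σ • x - x)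

variable {W p}

theorem h47v_smul_nsmul (σ : H47wGQ) (a : ℕ) (x : H47wX W p) : σ • (a • x) = a • (σ • x) :=
  map_nsmul (DistribSMul.toAddMonoidHom (H47wX W p) σ) a x

/-- inertia, local versus global. -/
theorem h47v_inertia_conj (g : H47wGQ) {s : Gq p} (hs : s ∈ inertia p) :
    g⁻¹ * ιp p s * g ∈ (g⁻¹ • padicPlace p).inertiaSubgroupIn ℚ :=
  (h23b_mem_inertia_conj_iff p g _).mpr ⟨s, (h89d0_inertiaIffRoots p s).mp hs, rfl⟩

/-- inertia, global versus local. -/
theorem h47v_inertia_of_conj (g : H47wGQ) {σ : H47wGQ}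
    (hσ : σ ∈ (g⁻¹ • padicPlace p).inertiaSubgroupIn ℚ) :
    ∃ s : Gq p, s ∈ inertia p ∧ σ = g⁻¹ * ιp p s * g := by
  obtain ⟨h, hh, rfl⟩ := (h23b_mem_inertia_conj_iff p g σ).mp hσ
  exact ⟨h, (h89d0_inertiaIffRoots p h).mpr hh, rfl⟩

theorem h47v_conj_smul (g : H47wGQ) (s : Gq p) (x : H47wX W p) :
    (g⁻¹ * ιp p s * g) • (g⁻¹ • x) = g⁻¹ • (ιp p s • x) := by
  rw [mul_smul, mul_smul, smul_inv_smul]

/-- **the translation of the global hypothesis**, pointwise form. -/
theorem h47v_ord_loc_of (g : H47wGQ) (hglob : H47vOrdGlob W p (g⁻¹ • padicPlace p))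
    (s : Gq p) (hs : s ∈ inertia p) (a : ℕ) (ha : cycExp p s a) (x : H47wX W p) :
    h47wRho W p s (h47wRho W p s x - x) = a • (h47wRho W p s x - x) := by
  have h1 := hglob _ (h47v_inertia_conj g hs) a
    (Fermat.Agent.P6.h70b_exp_glob p g s p a ha) (g⁻¹ • x)
  rw [h47v_conj_smul, ← smul_sub, h47v_conj_smul, ← h47v_smul_nsmul] at h1
  have h2 := congrArg (fun y => g • y) h1
  simp only [smul_inv_smul] at h2
  exact h2

/-- **the translation of the global hypothesis**: a conjugating element and the local form. -/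
theorem h47v_ord_loc {P : ValuationSubring H47wQb} (hP : P.LiesOverPrime p)
    (hglob : H47vOrdGlob W p P) :
    ∃ g : H47wGQ, g⁻¹ • padicPlace p = P ∧
      ∀ s ∈ inertia p, ∀ a : ℕ, cycExp p s a → ∀ x : H47wX W p,
        h47wRho W p s (h47wRho W p s x - x) = a • (h47wRho W p s x - x) := by
  obtain ⟨g, hg⟩ := h23b_exists_smul_padicPlace p hP
  refine ⟨g, hg, fun s hs a ha x => ?_⟩
  subst hg
  exact h47v_ord_loc_of g hglob s hs a ha x

/-- product form `(ρ s - a)(ρ s - 1) = 0`. -/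
theorem h47v_ord_loc_mul (g : H47wGQ) (hglob : H47vOrdGlob W p (g⁻¹ • padicPlace p))
    (s : Gq p) (hs : s ∈ inertia p) (a : ℕ) (ha : cycExp p s a) :
    (h47wRho W p s - (a : Module.End (ZMod p) (H47wX W p))) * (h47wRho W p s - 1) = 0 := by
  apply LinearMap.ext
  intro x
  have h1 := h47v_ord_loc_of g hglob s hs a ha x
  simp only [Module.End.mul_apply, LinearMap.sub_apply, Module.End.one_apply,
    LinearMap.zero_apply, Module.End.natCast_apply]
  rw [h1, sub_self]

/-- product form `(ρ s - 1)(ρ s - a) = 0`. -/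
theorem h47v_ord_loc_mul' (g : H47wGQ) (hglob : H47vOrdGlob W p (g⁻¹ • padicPlace p))
    (s : Gq p) (hs : s ∈ inertia p) (a : ℕ) (ha : cycExp p s a) :
    (h47wRho W p s - 1) * (h47wRho W p s - (a : Module.End (ZMod p) (H47wX W p))) = 0 := by
  have h1 := h47v_ord_loc_mul g hglob s hs a ha
  have hc : Commute (h47wRho W p s - 1)
      (h47wRho W p s - (a : Module.End (ZMod p) (H47wX W p))) :=
    ((Commute.refl _).sub_left (Commute.one_left _)).sub_right
      ((Nat.cast_commute a _).symm)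
  rw [hc.eq]
  exact h1

/-- **transport of a local pointwise statement to the inertia group of `P`** (for the
conclusion of (L)): if `Φ` holds for `ιp s`, `s ∈ inertia p`, and is invariant under
conjugation, it holds on the inertia group of `g⁻¹ • padicPlace p`. -/
theorem h47v_glob_of_loc (g : H47wGQ) (Φ : H47wGQ → Prop)
    (hconj : ∀ σ, Φ σ → Φ (g⁻¹ * σ * g))
    (hloc : ∀ s ∈ inertia p, Φ (ιp p s)) :
    ∀ σ ∈ (g⁻¹ • padicPlace p).inertiaSubgroupIn ℚ, Φ σ := by
  intro σ hσ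
  obtain ⟨s, hs, rfl⟩ := h47v_inertia_of_conj g hσ
  exact hconj _ (hloc s hs)

/-- the cyclotomic exponents of `g⁻¹ ιp(s) g` on `μ_m(ℚ̄)` are those of `s` on `μ_m(Om p)`. -/
theorem h47v_cyc_iff (g : H47wGQ) (s : Gq p) (m : ℕ) (hm : 0 < m) (a : ℕ) :
    (∀ ζ : H47wQb, ζ ^ m = 1 → (g⁻¹ * ιp p s * g) ζ = ζ ^ a) ↔
      ∀ μ : Om p, μ ^ m = 1 → s μ = μ ^ a :=
  ⟨Fermat.Agent.P6.h70b_exp_loc p g s m hm a, Fermat.Agent.P6.h70b_exp_glob p g s m a⟩

variable (W p)

/-- `LocFlat` for the local representation, from a local order at one place over `p`. -/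
theorem h47v_locFlat (hΔ : W.Δ ≠ 0) (A : ValuationSubring H47wQb) (hA : A.LiesOverPrime p)
    (G : Set (H47wX W p → H47wQb)) (hG : P5.H96LocOrder A (h47wAct W p) G) :
    LocFlat p (H47wX W p) (fun σ v => h47wRho W p σ v) :=
  h47w_locFlat_rho_of_order W hΔ p A hA G hG

end Fermat.Agent.P7
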