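import Fermat.Agent.P7.H47PeuLoc
import Fermat.Agent.P7.H99W7Iface
import Fermat.Agent.PT.Bridge.LocGrpA

/-!
# Wave 7 (S40), row L-PEU: `H99wLocal` from the local TRANSPORT leaf (helper47, prefix `h47l`)

* `H47lTransport` : **(C) TRANSPORT, frozen, purely local**: a unit `β` of `Om p` on which
  `I₁ = {s ∈ inertia p | cycExp p s 1}` acts through `p`-th roots of unity can be replaced by a
  unit `b` ALGEBRAIC over `ℚ` with `b ^ p` fixed by `I₁` and `Stab_{I₁}(b) ⊆ Stab_{I₁}(β)`.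
* `h47l_local_of : H47lTransport → H99wLocal` : the compiled assembly (landed local core
  `h47u_peu_loc` = `h24p_core` at `W[p]`, flatness of `W[p]` = `h61w_flat`, bridge
  `P = g⁻¹ • padicPlace p`).
-/

set_option autoImplicit false
set_option linter.style.haveILetI false

open WeierstrassCurve WeierstrassCurve.Affine.Point
open Fermat.Agent.PT.Loc Fermat.Agent.S56F Fermat.Agent.PT.Bridge
open scoped WeierstrassCurve.Affine Pointwise

noncomputable section

namespace Fermat.Agent.P7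

/-- **(C) TRANSPORT** (local): the Kummer generator of a peu ramifié class can be chosen
algebraic over `ℚ`. -/
def H47lTransport : Prop :=
  ∀ (p : ℕ) [Fact p.Prime], p ≠ 2 → ∀ ζ β : Om p, ζ ^ p = 1 → ζ ≠ 1 → ‖β‖ = 1 →
    (∀ s ∈ inertia p, cycExp p s 1 → ∃ j : ℕ, s β = ζ ^ j * β) →
    ∃ b : Om p, IsAlgebraic ℚ b ∧ ‖b‖ = 1 ∧
      (∀ s ∈ inertia p, cycExp p s 1 → s (b ^ p) = b ^ p) ∧
      ∀ s ∈ inertia p, cycExp p s 1 → s b = b → s β = β

section

variable {p : ℕ} [Fact p.Prime]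

theorem h47l_mem_conj_iff (g : H47wGQ) (x : H47wQb) :
    g⁻¹ x ∈ g⁻¹ • padicPlace p ↔ ‖padicEmbedding p x‖ ≤ 1 := by
  rw [ValuationSubring.mem_pointwise_smul_iff_inv_smul_mem, inv_inv, AlgEquiv.smul_def,
    ← AlgEquiv.mul_apply, mul_inv_cancel, AlgEquiv.one_apply, mem_padicPlace_iff]
  exact Iff.rfl

theorem h47l_exists_primitive : ∃ ζ : Om p, ζ ^ p = 1 ∧ ζ ≠ 1 := by
  have hp : p.Prime := Fact.out
  haveI : NeZero (p : Om p) := ⟨Nat.cast_ne_zero.mpr hp.ne_zero⟩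
  obtain ⟨ζ, hζ⟩ := HasEnoughRootsOfUnity.exists_primitiveRoot (Om p) p
  exact ⟨ζ, hζ.pow_eq_one, hζ.ne_one hp.one_lt⟩

end

/-- **the assembly of (L)**: `H99wLocal` from the local transport leaf. -/
theorem h47l_local_of (hT : H47lTransport) : H99wLocal := by
  intro W p hp hp2 hgood A hA hord
  haveI : Fact p.Prime := ⟨hp⟩
  -- the global hypothesis in the shape `H47vOrdGlob`
  have hglob : H47vOrdGlob W p A := by
    intro σ hσ a ha x
    have h1 := hord σ hσ a ha x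
    have h2 : σ • σ • x = ((1 : ℤ) + a) • σ • x - a • x := by
      rw [sub_add_eq_add_sub, sub_eq_zero] at h1
      rw [← h1, add_sub_cancel_right]
    have h3 : ((1 : ℤ) + a) • σ • x = σ • x + a • σ • x := by
      rw [add_smul, one_smul, natCast_zsmul]
    show σ • (σ • x - x) = a • (σ • x - x)
    rw [smul_sub σ, h2, h3, smul_sub]
    abel
  obtain ⟨g, hg, hloc⟩ := h47u_peu_loc W p hp2 hgood hA hglob
  subst hg
  obtain ⟨ζ, hζ, hζ1⟩ := h47l_exists_primitive (p := p)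
  obtain ⟨β, hβ1, hβK, hβtriv⟩ := hloc ζ hζ hζ1
  obtain ⟨b, hbalg, hb1, hbp, hbfix⟩ := hT p hp2 ζ β hζ hζ1 hβ1 hβK
  obtain ⟨y, rfl⟩ := h23b_exists_padicEmbedding_eq_of_isAlgebraic p hbalg
  have hy0 : y ≠ 0 := by
    rintro rfl
    rw [_root_.map_zero, norm_zero] at hb1
    exact zero_ne_one hb1
  -- local elements of the inertia group
  have hI : ∀ a ∈ (g⁻¹ • padicPlace p).inertiaSubgroupIn ℚ, H99wFixMu p a →
      ∃ s : Gq p, s ∈ inertia p ∧ cycExp p s 1 ∧ a = g⁻¹ * ιp p s * g := by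
    intro a ha hmu
    obtain ⟨s, hs, rfl⟩ := h47v_inertia_of_conj g ha
    refine ⟨s, hs, ?_, rfl⟩
    exact (h47v_cyc_iff g s p hp.pos 1).mp (fun ζ' hζ' => by rw [pow_one]; exact hmu ζ' hζ')
  have hconj : ∀ (s : Gq p) (x : H47wQb), (g⁻¹ * ιp p s * g) (g⁻¹ x) = g⁻¹ (ιp p s x) := by
    intro s x
    simp only [AlgEquiv.mul_apply]
    rw [← AlgEquiv.mul_apply g g⁻¹, mul_inv_cancel, AlgEquiv.one_apply]
  refine ⟨g⁻¹ y, ?_, ?_, ?_, ?_⟩
  · exact (h47l_mem_conj_iff g y).mpr hb1.le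
  · rw [← map_inv₀]
    refine (h47l_mem_conj_iff g y⁻¹).mpr ?_
    rw [map_inv₀, norm_inv, hb1, inv_one]
  · intro a ha hmu
    obtain ⟨s, hs, hs1, rfl⟩ := hI a ha hmu
    rw [← map_pow, hconj]
    congr 1
    apply h23b_padicEmbedding_injective p
    rw [padicEmbedding_localGaloisToGlobal, map_pow]
    exact hbp s hs hs1
  · intro a ha hmu hfix P
    obtain ⟨s, hs, hs1, rfl⟩ := hI a ha hmu
    rw [hconj] at hfix
    have h1 : ιp p s y = y := g⁻¹.injective hfix
    have h2 : s (padicEmbedding p y) = padicEmbedding p y := by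
      rw [← padicEmbedding_localGaloisToGlobal, h1]
    have h3 := hβtriv s hs hs1 (hbfix s hs hs1 h2) (g • P)
    rw [h47wRho_apply] at h3
    show (g⁻¹ * ιp p s * g) • P = P
    rw [mul_smul, mul_smul, h3, inv_smul_smul]

end Fermat.Agent.P7
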