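import Fermat.Agent.P7.H47LocalFinal
import Fermat.Agent.P7.H77MultIface

/-!
# Wave 7 (S44), row LM-5-PEU, conditional form (helper47, prefix `h47m`)

The chain `h47u_peu_loc → h47l_local_of → h47l_local` of the good reduction case
(`P7/H47PeuLoc.lean`, `P7/H47Local.lean`, `P7/H47LocalFinal.lean`) used the good reduction ONLY
through the flatness of `W[p]`.  Here the same chain with flatness as a HYPOTHESIS, in the three
shapes in which a flatness leaf may deliver it; the conclusion is the per-curve local Prop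
`H77mLocalAt W p` of `P7/H77MultIface.lean` (body of `H99wLocal`, no reduction hypothesis).

* `h47m_peu_loc` : local core at `ρ = h47wRho W p` from `LocFlat`;
* `h47m_localAt_of_locFlat` : `W.Δ ≠ 0`, `p` odd, `LocFlat p W[p] ρ` ⟹ `H77mLocalAt W p`;
* `h47m_localAt_of_flat` : the same from the global flatness `h97c_Flat p W[p] act`;
* `h47m_localAt_of_order` : the same from ONE local order `H96LocOrder A act G` at ONE valuation
  subring `A` over `p`.
-/

set_option autoImplicit false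
set_option linter.style.haveILetI false

open WeierstrassCurve WeierstrassCurve.Affine.Point
open Fermat.Agent.PT.Loc Fermat.Agent.S56F Fermat.Agent.PT.Bridge
open scoped WeierstrassCurve.Affine Pointwise

noncomputable section

namespace Fermat.Agent.P7

/-- **L-PEU, local core at `W[p]`, flatness as a hypothesis.** -/
theorem h47m_peu_loc (W : WeierstrassCurve ℤ) (p : ℕ) [Fact p.Prime] (hp2 : p ≠ 2)
    (hΔ : W.Δ ≠ 0) (hflat : LocFlat p (H47wX W p) (fun σ v => h47wRho W p σ v))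
    {P : ValuationSubring H47wQb} (hP : P.LiesOverPrime p) (hglob : H47vOrdGlob W p P) :
    ∃ g : H47wGQ, g⁻¹ • padicPlace p = P ∧
      ∀ ζ : Om p, ζ ^ p = 1 → ζ ≠ 1 →
        ∃ β : Om p, ‖β‖ = 1 ∧
          (∀ s ∈ inertia p, cycExp p s 1 → ∃ j : ℕ, s β = ζ ^ j * β) ∧
          ∀ s ∈ inertia p, cycExp p s 1 → s β = β → ∀ v, h47wRho W p s v = v := by
  obtain ⟨g, hg⟩ := h23b_exists_smul_padicPlace p hP
  subst hg
  haveI : Module.Finite (ZMod p) (H47wX W p) := h47v_moduleFinite W p hΔ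
  refine ⟨g, rfl, fun ζ hζ hζ1 => ?_⟩
  exact h24p_core hp2 (h47v_rank W p hΔ) (h47wRho W p) (h47v_det W p hΔ)
    hflat (fun s hs a ha v => h47u_hord g hglob s hs a ha v) ζ hζ hζ1

/-- **(L) at a fixed curve, from `LocFlat`**: `W.Δ ≠ 0`, `p` odd, `W[p]` locally flat at `p`
⟹ `H77mLocalAt W p`. -/
theorem h47m_localAt_of_locFlat (W : WeierstrassCurve ℤ) (hΔ : W.Δ ≠ 0) (p : ℕ)
    [Fact p.Prime] (hp2 : p ≠ 2)
    (hflat : LocFlat p (H47wX W p) (fun σ v => h47wRho W p σ v)) :
    H77mLocalAt W p := by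
  intro A hA hord
  have hp : p.Prime := Fact.out
  -- the global hypothesis in the shape `H47vOrdGlob`
  have hglob : H47vOrdGlob W p A := by
    intro σ hσ a ha x
    have h1 := hord σ hσ a ha x
    have h2 : σ • σ • x = ((1 : ℤ) + a) • σ • x - a • x := by
      rw [sub_add_eq_add_sub, sub_eq_zero] at h1
      rw [← h1, add_sub_cancel_right]
    have h3 : ((1 : ℤ) + a) • σ • x = σ • x + a • σ • x := by
      rw [add_smul, one_smul, natCast_zsmul]
    show σ • (σ • x - x) = a • (σ • x - x)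
    rw [smul_sub σ, h2, h3, smul_sub]
    abel
  obtain ⟨g, hg, hloc⟩ := h47m_peu_loc W p hp2 hΔ hflat hA hglob
  subst hg
  obtain ⟨ζ, hζ, hζ1⟩ := h47l_exists_primitive (p := p)
  obtain ⟨β, hβ1, hβK, hβtriv⟩ := hloc ζ hζ hζ1
  obtain ⟨b, hbalg, hb1, hbp, hbfix⟩ := h47l_transport p hp2 ζ β hζ hζ1 hβ1 hβK
  obtain ⟨y, rfl⟩ := h23b_exists_padicEmbedding_eq_of_isAlgebraic p hbalg
  have hy0 : y ≠ 0 := by
    rintro rfl
    rw [_root_.map_zero, norm_zero] at hb1
    exact zero_ne_one hb1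
  -- local elements of the inertia group
  have hI : ∀ a ∈ (g⁻¹ • padicPlace p).inertiaSubgroupIn ℚ, H99wFixMu p a →
      ∃ s : Gq p, s ∈ inertia p ∧ cycExp p s 1 ∧ a = g⁻¹ * ιp p s * g := by
    intro a ha hmu
    obtain ⟨s, hs, rfl⟩ := h47v_inertia_of_conj g ha
    refine ⟨s, hs, ?_, rfl⟩
    exact (h47v_cyc_iff g s p hp.pos 1).mp (fun ζ' hζ' => by rw [pow_one]; exact hmu ζ' hζ')
  have hconj : ∀ (s : Gq p) (x : H47wQb), (g⁻¹ * ιp p s * g) (g⁻¹ x) = g⁻¹ (ιp p s x) := by
    intro s x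
    simp only [AlgEquiv.mul_apply]
    rw [← AlgEquiv.mul_apply g g⁻¹, mul_inv_cancel, AlgEquiv.one_apply]
  refine ⟨g⁻¹ y, ?_, ?_, ?_, ?_⟩
  · exact (h47l_mem_conj_iff g y).mpr hb1.le
  · rw [← map_inv₀]
    refine (h47l_mem_conj_iff g y⁻¹).mpr ?_
    rw [map_inv₀, norm_inv, hb1, inv_one]
  · intro a ha hmu
    obtain ⟨s, hs, hs1, rfl⟩ := hI a ha hmu
    rw [← map_pow, hconj]
    congr 1
    apply h23b_padicEmbedding_injective p
    rw [padicEmbedding_localGaloisToGlobal, map_pow]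
    exact hbp s hs hs1
  · intro a ha hmu hfix P
    obtain ⟨s, hs, hs1, rfl⟩ := hI a ha hmu
    rw [hconj] at hfix
    have h1 : ιp p s y = y := g⁻¹.injective hfix
    have h2 : s (padicEmbedding p y) = padicEmbedding p y := by
      rw [← padicEmbedding_localGaloisToGlobal, h1]
    have h3 := hβtriv s hs hs1 (hbfix s hs hs1 h2) (g • P)
    rw [h47wRho_apply] at h3
    show (g⁻¹ * ιp p s * g) • P = P
    rw [mul_smul, mul_smul, h3, inv_smul_smul]

/-- **(L) at a fixed curve, from the global flatness** of `W[p]` at `p`. -/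
theorem h47m_localAt_of_flat (W : WeierstrassCurve ℤ) (hΔ : W.Δ ≠ 0) (p : ℕ)
    [Fact p.Prime] (hp2 : p ≠ 2)
    (hflat : P5.h97c_Flat p (H47wX W p) (h47wAct W p)) :
    H77mLocalAt W p := by
  haveI : Finite (H47wX W p) := h47w_finite W hΔ p (Fact.out : p.Prime).ne_zero
  exact h47m_localAt_of_locFlat W hΔ p hp2
    (h47w_locFlat_of_flat p (H47wX W p) (h47wAct W p) (h47w_isAct W p) hflat)

/-- **(L) at a fixed curve, from ONE local order** at one valuation subring over `p`. -/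
theorem h47m_localAt_of_order (W : WeierstrassCurve ℤ) (hΔ : W.Δ ≠ 0) (p : ℕ)
    [Fact p.Prime] (hp2 : p ≠ 2) (A : ValuationSubring H47wQb) (hA : A.LiesOverPrime p)
    (G : Set (H47wX W p → H47wQb)) (hG : P5.H96LocOrder A (h47wAct W p) G) :
    H77mLocalAt W p :=
  h47m_localAt_of_locFlat W hΔ p hp2 (h47w_locFlat_rho_of_order W hΔ p A hA G hG)

end Fermat.Agent.P7
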