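import Fermat.Agent.P7.H99IrrModel
import Fermat.Agent.P7.H99W7Iface2
import Fermat.Agent.P7.H77MultIface

/-!
# Wave 7 (S44), LOCAL-MULT: transport of the local Prop between integral models
(helper47, prefix `h47m`)

* `H47mLocalQ E p` : the body of `H99wLocalAt` for a curve `E / ℚ`;
  `H99wLocalAt W p = H47mLocalQ W_ℚ p` and `H77mLocalAt W p = H47mLocalQ W_ℚ p` by `Iff.rfl`.
* `h47m_localQ_variableChange` : `H47mLocalQ E p ↔ H47mLocalQ (C • E) p` (`E.Δ ≠ 0`, `p` prime).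
* `h47m_localAt_of_models` : two integral models `W₀`, `W` of the same `F / ℚ` (`F.Δ ≠ 0`):
  `H99wLocalAt W₀ p → H99wLocalAt W p`; `h47m_localAt77_of_models` the same for `H77mLocalAt`.
-/

set_option autoImplicit false
set_option linter.unusedSectionVars false
set_option linter.style.haveILetI false

open WeierstrassCurve WeierstrassCurve.Affine WeierstrassCurve.Affine.Point

noncomputable section

namespace Fermat.Agent.P7

local notation "Qbar" => AlgebraicClosure ℚ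
local notation "Γℚ" => (AlgebraicClosure ℚ ≃ₐ[ℚ] AlgebraicClosure ℚ)

/-- the body of `H99wLocalAt` for a curve over `ℚ`. -/
def H47mLocalQ (E : WeierstrassCurve ℚ) (p : ℕ) : Prop :=
  ∀ A : ValuationSubring Qbar, A.LiesOverPrime p →
    (∀ a ∈ A.inertiaSubgroupIn ℚ, ∀ e : ℕ, (∀ μ : Qbar, μ ^ p = 1 → a μ = μ ^ e) →
      ∀ P : Submodule.torsionBy ℤ (E⁄Qbar).Point p,
        a • a • P - ((1 : ℤ) + e) • a • P + e • P = 0) →
    ∃ β : Qbar, β ∈ A ∧ β⁻¹ ∈ A ∧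
      (∀ a ∈ A.inertiaSubgroupIn ℚ, H99wFixMu p a → a (β ^ p) = β ^ p) ∧
      ∀ a ∈ A.inertiaSubgroupIn ℚ, H99wFixMu p a → a β = β →
        ∀ P : Submodule.torsionBy ℤ (E⁄Qbar).Point p, a • P = P

theorem h47m_localAt_iff (W : WeierstrassCurve ℤ) (p : ℕ) :
    H99wLocalAt W p ↔ H47mLocalQ (W.map (Int.castRingHom ℚ)) p := Iff.rfl

theorem h47m_localAt77_iff (W : WeierstrassCurve ℤ) (p : ℕ) :
    H77mLocalAt W p ↔ H47mLocalQ (W.map (Int.castRingHom ℚ)) p := Iff.rfl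

theorem h47m_localAt77_iff99 (W : WeierstrassCurve ℤ) (p : ℕ) :
    H77mLocalAt W p ↔ H99wLocalAt W p := Iff.rfl

/-- the comparison map of a variable change is bijective on `p`-torsion. -/
theorem h47m_psi_bijective (E : WeierstrassCurve ℚ) (hΔ : E.Δ ≠ 0) (C : VariableChange ℚ)
    {p : ℕ} (hp : p.Prime) : Function.Bijective (h99iPsi E C p) := by
  have hΔ' : (C • E).Δ ≠ 0 := by
    rw [WeierstrassCurve.variableChange_Δ]
    exact mul_ne_zero (pow_ne_zero _ (Units.ne_zero _)) hΔ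
  haveI := Fermat.Agent.Tors.finite_torsionBy_qbar E hΔ p hp.ne_zero
  haveI := Fermat.Agent.Tors.finite_torsionBy_qbar (C • E) hΔ' p hp.ne_zero
  exact (h99i_psi_injective E C p).bijective_of_nat_card_le (by
    rw [Fermat.Agent.Tors.card_torsionBy_qbar E hΔ p hp.ne_zero,
      Fermat.Agent.Tors.card_torsionBy_qbar (C • E) hΔ' p hp.ne_zero])

/-- abstract transport along a bijective equivariant additive map. -/
theorem h47m_transport_abs {X Y : Type*} [AddCommGroup X] [AddCommGroup Y]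
    [MulAction Γℚ X] [MulAction Γℚ Y] (ψ : X →+ Y) (hψ : Function.Bijective ψ)
    (hsm : ∀ (τ : Γℚ) (x : X), ψ (τ • x) = τ • ψ x) (p : ℕ)
    (hY : ∀ A : ValuationSubring Qbar, A.LiesOverPrime p →
      (∀ a ∈ A.inertiaSubgroupIn ℚ, ∀ e : ℕ, (∀ μ : Qbar, μ ^ p = 1 → a μ = μ ^ e) →
        ∀ P : Y, a • a • P - ((1 : ℤ) + e) • a • P + e • P = 0) →
      ∃ β : Qbar, β ∈ A ∧ β⁻¹ ∈ A ∧
        (∀ a ∈ A.inertiaSubgroupIn ℚ, H99wFixMu p a → a (β ^ p) = β ^ p) ∧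
        ∀ a ∈ A.inertiaSubgroupIn ℚ, H99wFixMu p a → a β = β → ∀ P : Y, a • P = P) :
    ∀ A : ValuationSubring Qbar, A.LiesOverPrime p →
      (∀ a ∈ A.inertiaSubgroupIn ℚ, ∀ e : ℕ, (∀ μ : Qbar, μ ^ p = 1 → a μ = μ ^ e) →
        ∀ P : X, a • a • P - ((1 : ℤ) + e) • a • P + e • P = 0) →
      ∃ β : Qbar, β ∈ A ∧ β⁻¹ ∈ A ∧
        (∀ a ∈ A.inertiaSubgroupIn ℚ, H99wFixMu p a → a (β ^ p) = β ^ p) ∧
        ∀ a ∈ A.inertiaSubgroupIn ℚ, H99wFixMu p a → a β = β → ∀ P : X, a • P = P := by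
  intro A hA hord
  have hordY : ∀ a ∈ A.inertiaSubgroupIn ℚ, ∀ e : ℕ, (∀ μ : Qbar, μ ^ p = 1 → a μ = μ ^ e) →
      ∀ P : Y, a • a • P - ((1 : ℤ) + e) • a • P + e • P = 0 := by
    intro a ha e he P
    obtain ⟨Q, rfl⟩ := hψ.2 P
    have h := congrArg ψ (hord a ha e he Q)
    rw [map_add, map_sub, map_zsmul, map_nsmul, hsm, hsm, _root_.map_zero] at h
    exact h
  obtain ⟨β, h1, h2, h3, h4⟩ := hY A hA hordY
  refine ⟨β, h1, h2, h3, fun a ha hmu hfix P => ?_⟩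
  apply hψ.1
  rw [hsm]
  exact h4 a ha hmu hfix (ψ P)

/-- **variable change, down**: `H47mLocalQ E p → H47mLocalQ (C • E) p`. -/
theorem h47m_localQ_of_base (E : WeierstrassCurve ℚ) (hΔ : E.Δ ≠ 0) (C : VariableChange ℚ)
    {p : ℕ} (hp : p.Prime) (h : H47mLocalQ E p) : H47mLocalQ (C • E) p :=
  h47m_transport_abs (h99iPsi E C p) (h47m_psi_bijective E hΔ C hp)
    (fun τ x => h99i_psi_smul E C p τ x) p h

/-- **variable change, up**: `H47mLocalQ (C • E) p → H47mLocalQ E p`. -/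
theorem h47m_localQ_to_base (E : WeierstrassCurve ℚ) (hΔ : E.Δ ≠ 0) (C : VariableChange ℚ)
    {p : ℕ} (hp : p.Prime) (h : H47mLocalQ (C • E) p) : H47mLocalQ E p := by
  have hb := h47m_psi_bijective E hΔ C hp
  let φ := AddEquiv.ofBijective (h99iPsi E C p) hb
  have hφ : ∀ y, h99iPsi E C p (φ.symm y) = y := fun y => φ.apply_symm_apply y
  refine h47m_transport_abs (φ.symm : _ →+ _) φ.symm.bijective (fun τ y => ?_) p h
  apply hb.1
  change h99iPsi E C p (φ.symm (τ • y)) = h99iPsi E C p (τ • φ.symm y)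
  rw [hφ, h99i_psi_smul, hφ]

theorem h47m_localQ_variableChange (E : WeierstrassCurve ℚ) (hΔ : E.Δ ≠ 0)
    (C : VariableChange ℚ) {p : ℕ} (hp : p.Prime) :
    H47mLocalQ E p ↔ H47mLocalQ (C • E) p :=
  ⟨h47m_localQ_of_base E hΔ C hp, h47m_localQ_to_base E hΔ C hp⟩

/-- **(L) for an integral model from (L) for the curve over `ℚ`.** -/
theorem h47m_localAt_of_localQ (F : WeierstrassCurve ℚ) (hΔ : F.Δ ≠ 0)
    {W : WeierstrassCurve ℤ} (hW : W.IsIntegralModelOf F) {p : ℕ} (hp : p.Prime)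
    (h : H47mLocalQ F p) : H99wLocalAt W p := by
  obtain ⟨C, hC⟩ := hW
  rw [h47m_localAt_iff, ← hC]
  exact h47m_localQ_of_base F hΔ C hp h

/-- **(L) for the curve over `ℚ` from (L) for ONE integral model.** -/
theorem h47m_localQ_of_localAt (F : WeierstrassCurve ℚ) (hΔ : F.Δ ≠ 0)
    {W : WeierstrassCurve ℤ} (hW : W.IsIntegralModelOf F) {p : ℕ} (hp : p.Prime)
    (h : H99wLocalAt W p) : H47mLocalQ F p := by
  obtain ⟨C, hC⟩ := hW
  rw [h47m_localAt_iff, ← hC] at h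
  exact h47m_localQ_to_base F hΔ C hp h

/-- **model transport**: (L) for one integral model of `F` gives (L) for every integral model. -/
theorem h47m_localAt_of_models (F : WeierstrassCurve ℚ) (hΔ : F.Δ ≠ 0)
    {W₀ W : WeierstrassCurve ℤ} (hW₀ : W₀.IsIntegralModelOf F) (hW : W.IsIntegralModelOf F)
    {p : ℕ} (hp : p.Prime) (h : H99wLocalAt W₀ p) : H99wLocalAt W p :=
  h47m_localAt_of_localQ F hΔ hW hp (h47m_localQ_of_localAt F hΔ hW₀ hp h)

/-- the same for `H77mLocalAt`. -/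
theorem h47m_localAt77_of_models (F : WeierstrassCurve ℚ) (hΔ : F.Δ ≠ 0)
    {W₀ W : WeierstrassCurve ℤ} (hW₀ : W₀.IsIntegralModelOf F) (hW : W.IsIntegralModelOf F)
    {p : ℕ} (hp : p.Prime) (h : H77mLocalAt W₀ p) : H77mLocalAt W p :=
  h47m_localAt_of_models F hΔ hW₀ hW hp h

end Fermat.Agent.P7
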