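import Fermat.Agent.P7.H61LocOrd
import Fermat.Agent.P5.H97DescTop
import Fermat.Agent.P5.H87Adapter

/-!
# Wave 7 (S40), block (4) LOCAL-W, short route (helper61): `W[n]` is flat at a good prime

`W` a Weierstrass curve over `ℤ`, `p` a prime with `p ∤ Δ`, `n ≥ 1`,
`X = W(ℚ̄)[n]` with its Galois action `h61wAct`.

* `h61w_good_of_int`   : `W` is good (`H61wGood`) at every valuation subring of `ℚ̄` over `p`;
* `h61w_exists_prime`  : an auxiliary prime `ℓ ∤ 6 n`, unit at `A`;
* `h61w_isGalAct`      : `h61wAct` is a continuous Galois action (`H98pIsGalAct`);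
* `h61w_locOrder_int`  : the local order `H96LocOrder` at `A` (from `h61w_locOrder`);
* `h61w_hasOrder`      : `h97c_HasOrder p X act` (landed ALG-DESC `h97d_descent`);
* `h61w_flat`          : `h97c_Flat p X act` (landed ADAPT `h87x_adapter`): `W[n]` is the group of
  `ℚ̄`-points of a finite flat cocommutative Hopf algebra over `ℤ_(p)`, Galois-equivariantly.
-/

set_option autoImplicit false
set_option linter.unusedSectionVars false
set_option linter.style.haveILetI false

open WeierstrassCurve WeierstrassCurve.Affine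

noncomputable section

namespace Fermat.Agent.P7

open Fermat.Agent.S05 Fermat.Agent.S37 Fermat.Agent.P5

/-! ### arithmetic of `A` -/

section Arith

variable {A : ValuationSubring Kbar}

theorem h61w_add_mem_nonunits {x y : Kbar} (hx : x ∈ A.nonunits) (hy : y ∈ A.nonunits) :
    x + y ∈ A.nonunits := by
  rw [A.mem_nonunits_iff] at hx hy ⊢
  exact A.valuation.map_add_lt hx hy

/-- an integer prime to `p` is a unit of a valuation subring over `p`. -/
theorem h61w_int_unit {p : ℕ} (hp : p.Prime) (hA : A.LiesOverPrime p) {m : ℤ}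
    (hm : ¬ (p : ℤ) ∣ m) : ((m : ℤ) : Kbar) ∉ A.nonunits := by
  intro hmem
  have hcop : IsCoprime (p : ℤ) m :=
    (Prime.coprime_iff_not_dvd (Nat.prime_iff_prime_int.1 hp)).2 hm
  obtain ⟨a, b, hab⟩ := hcop
  have h1 : ((a : ℤ) : Kbar) * ((p : ℕ) : Kbar) + ((b : ℤ) : Kbar) * ((m : ℤ) : Kbar) = 1 := by
    have := congrArg (fun z : ℤ => (z : Kbar)) hab
    push_cast at this
    exact this
  have hpm : ((p : ℕ) : Kbar) ∈ A.nonunits := hA
  have h2 : ((a : ℤ) : Kbar) * ((p : ℕ) : Kbar) ∈ A.nonunits :=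
    H86.mul_mem_nonunits_of_mem A (intCast_mem A a) hpm
  have h3 : ((b : ℤ) : Kbar) * ((m : ℤ) : Kbar) ∈ A.nonunits :=
    H86.mul_mem_nonunits_of_mem A (intCast_mem A b) hmem
  have h4 := h61w_add_mem_nonunits h2 h3
  rw [h1, A.mem_nonunits_iff, map_one] at h4
  exact lt_irrefl _ h4

/-- an auxiliary prime. -/
theorem h61w_exists_prime {p : ℕ} (hp : p.Prime) (hA : A.LiesOverPrime p) {n : ℕ} (hn : 0 < n) :
    ∃ ℓ : ℕ, ℓ.Prime ∧ (ℓ : Kbar) ∉ A.nonunits ∧ ¬ ℓ ∣ n ∧ ℓ ≠ 2 ∧ ℓ ≠ 3 := by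
  obtain ⟨ℓ, hℓ, hℓp⟩ := Nat.exists_infinite_primes (n + p + 4)
  refine ⟨ℓ, hℓp, ?_, ?_, by omega, by omega⟩
  · have hne : ¬ (p : ℤ) ∣ (ℓ : ℤ) := by
      intro h
      have h' : p ∣ ℓ := by exact_mod_cast h
      have := (Nat.prime_dvd_prime_iff_eq hp hℓp).1 h'
      omega
    have := h61w_int_unit hp hA hne
    simpa using this
  · intro h
    have := Nat.le_of_dvd hn h
    omega

end Arith

/-! ### good reduction -/

theorem h61w_good_of_int (W : WeierstrassCurve ℤ) {p : ℕ} (hp : p.Prime)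
    (hgood : ¬ (p : ℤ) ∣ W.Δ) {A : ValuationSubring Kbar} (hA : A.LiesOverPrime p) :
    H61wGood A ((W.map (Int.castRingHom ℚ))⁄Kbar) := by
  have e₁ : ((W.map (Int.castRingHom ℚ))⁄Kbar).a₁ = ((W.a₁ : ℤ) : Kbar) := by
    simp [WeierstrassCurve.baseChange]
  have e₂ : ((W.map (Int.castRingHom ℚ))⁄Kbar).a₂ = ((W.a₂ : ℤ) : Kbar) := by
    simp [WeierstrassCurve.baseChange]
  have e₃ : ((W.map (Int.castRingHom ℚ))⁄Kbar).a₃ = ((W.a₃ : ℤ) : Kbar) := by
    simp [WeierstrassCurve.baseChange]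
  have e₄ : ((W.map (Int.castRingHom ℚ))⁄Kbar).a₄ = ((W.a₄ : ℤ) : Kbar) := by
    simp [WeierstrassCurve.baseChange]
  have e₆ : ((W.map (Int.castRingHom ℚ))⁄Kbar).a₆ = ((W.a₆ : ℤ) : Kbar) := by
    simp [WeierstrassCurve.baseChange]
  have eΔ : ((W.map (Int.castRingHom ℚ))⁄Kbar).Δ = ((W.Δ : ℤ) : Kbar) := by
    simp [WeierstrassCurve.baseChange, WeierstrassCurve.map_Δ]
  refine ⟨?_, ?_, ?_, ?_, ?_, ?_⟩
  · rw [e₁]; exact intCast_mem A _
  · rw [e₂]; exact intCast_mem A _
  · rw [e₃]; exact intCast_mem A _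
  · rw [e₄]; exact intCast_mem A _
  · rw [e₆]; exact intCast_mem A _
  · rw [eΔ]; exact h61w_int_unit hp hA hgood

/-! ### the Galois action is continuous -/

theorem h61w_isGalAct (W' : Affine ℚ) (n : ℕ) [Finite (h61wTors W' n)] :
    H98pIsGalAct (h61wAct W' n) where
  one := fun x => one_smul _ x
  mul := fun σ τ x => mul_smul σ τ x
  add := fun σ x y => smul_add σ x y
  cont := by
    classical
    let S : Set Kbar :=
      Set.range (fun P : h61wTors W' n => h61wX (P : (W'⁄Kbar).Point)) ∪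
        Set.range (fun P : h61wTors W' n => h61wY (P : (W'⁄Kbar).Point))
    have hSfin : S.Finite := (Set.finite_range _).union (Set.finite_range _)
    haveI : Finite S := hSfin.to_subtype
    haveI : Algebra.IsAlgebraic ℚ Kbar := AlgebraicClosure.isAlgebraic ℚ
    have hfd : FiniteDimensional ℚ (IntermediateField.adjoin ℚ S) :=
      IntermediateField.finiteDimensional_adjoin
        (fun x _ => (Algebra.IsAlgebraic.isAlgebraic x).isIntegral)
    refine ⟨IntermediateField.adjoin ℚ S, hfd, ?_⟩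
    intro σ hσ x
    apply Subtype.ext
    show σ • (x : (W'⁄Kbar).Point) = (x : (W'⁄Kbar).Point)
    have hX : σ (h61wX (x : (W'⁄Kbar).Point)) = h61wX (x : (W'⁄Kbar).Point) :=
      hσ _ (IntermediateField.subset_adjoin ℚ S (Or.inl ⟨x, rfl⟩))
    have hY : σ (h61wY (x : (W'⁄Kbar).Point)) = h61wY (x : (W'⁄Kbar).Point) :=
      hσ _ (IntermediateField.subset_adjoin ℚ S (Or.inr ⟨x, rfl⟩))
    generalize (x : (W'⁄Kbar).Point) = P at hX hY
    rcases P with _ | ⟨a, b, h⟩
    · exact smul_zero (A := (W'⁄Kbar).Point) σ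
    · obtain ⟨h', e⟩ := h61w_smul_some σ h
      rw [e, Point.some.injEq]
      exact ⟨hX, hY⟩

/-! ### the results -/

/-- **LOCAL-W, the local order**, for a Weierstrass curve over `ℤ` at a prime of good
reduction. -/
theorem h61w_locOrder_int (W : WeierstrassCurve ℤ) {p : ℕ} (hp : p.Prime)
    (hgood : ¬ (p : ℤ) ∣ W.Δ) {A : ValuationSubring Kbar} (hA : A.LiesOverPrime p)
    {n : ℕ} (hn : 0 < n) :
    H96LocOrder A (h61wAct (W.map (Int.castRingHom ℚ)) n)
      (h61wG (W.map (Int.castRingHom ℚ)) A n) :=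
  h61w_locOrder (h61w_good_of_int W hp hgood hA) hn (h61w_exists_prime hp hA hn)

/-- **LOCAL-W**: `W[n]` has a function order over `ℤ_(p)` at a prime `p` of good reduction. -/
theorem h61w_hasOrder (W : WeierstrassCurve ℤ) {p : ℕ} [Fact p.Prime]
    (hgood : ¬ (p : ℤ) ∣ W.Δ) {A : ValuationSubring Kbar} (hA : A.LiesOverPrime p)
    {n : ℕ} (hn : 0 < n) :
    h97c_HasOrder p (h61wTors (W.map (Int.castRingHom ℚ)) n)
      (h61wAct (W.map (Int.castRingHom ℚ)) n) := by
  have hp : p.Prime := Fact.out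
  haveI : Finite (h61wTors (W.map (Int.castRingHom ℚ)) n) :=
    h61w_finite (h61w_good_of_int W hp hgood hA) hn
  exact h97d_descent p _ _ (h61w_isGalAct _ n) A hA _ (h61w_locOrder_int W hp hgood hA hn)

/-- **LOCAL-W**: `W[n]` is flat at a prime `p` of good reduction (Prelude shape). -/
theorem h61w_flat (W : WeierstrassCurve ℤ) {p : ℕ} [Fact p.Prime]
    (hgood : ¬ (p : ℤ) ∣ W.Δ) {A : ValuationSubring Kbar} (hA : A.LiesOverPrime p)
    {n : ℕ} (hn : 0 < n) :
    h97c_Flat p (h61wTors (W.map (Int.castRingHom ℚ)) n)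
      (h61wAct (W.map (Int.castRingHom ℚ)) n) := by
  have hp : p.Prime := Fact.out
  haveI : Finite (h61wTors (W.map (Int.castRingHom ℚ)) n) :=
    h61w_finite (h61w_good_of_int W hp hgood hA) hn
  exact h87x_adapter p _ _ (h61w_hasOrder W hgood hA hn)

end Fermat.Agent.P7
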