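import Fermat.Agent.P7.H47LocInst
import Fermat.Agent.P7.H24Peu
import Fermat.Agent.P7.H61LocFlat

/-!
# Wave 7 (S40), row L-PEU: the local core at the instance `W[p]` (helper47, prefix `h47u`)

`W` a Weierstrass curve over `ℤ`, `p` an odd prime of good reduction,
`ρ = h47wRho W p : Gq p →* Module.End (ZMod p) W[p](ℚ̄)`.

* `h47u_flat` : `W[n]` is flat at `p` (helper61's `h61w_flat`, in the vocabulary of
  `P7/H47LocTop.lean`);
* `h47u_locFlat` : `LocFlat p W[p] ρ`, UNCONDITIONAL;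
* `h47u_hord` : the global hypothesis `H47vOrdGlob` in the exact shape `hord` of `h24p_core`;
* `h47u_peu_loc` : **L-PEU, local form at the instance**: if every element of the inertia group
  of `P` (a place over `p`) satisfies `(σ - a)(σ - 1) = 0` on `W[p]`, then there is `g` with
  `g⁻¹ • padicPlace p = P` and, for every primitive `p`-th root of unity `ζ` of `Om p`, a unit
  `β` of `Om p` with `s β = ζ ^ j β` for `s ∈ I₁ = {s ∈ inertia p | cycExp p s 1}` and such that
  every `s ∈ I₁` fixing `β` acts trivially on `W[p]`;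
* `h47u_peu_glob_of_loc` : the same conclusion read on the inertia group of `P`: every
  `σ = g⁻¹ ιp(s) g` (`s ∈ I₁`, `s β = β`) acts trivially on `W[p]`.
-/

set_option autoImplicit false
set_option linter.style.haveILetI false

open WeierstrassCurve WeierstrassCurve.Affine.Point
open Fermat.Agent.PT.Loc Fermat.Agent.S56F Fermat.Agent.PT.Bridge
open scoped WeierstrassCurve.Affine Pointwise

noncomputable section

namespace Fermat.Agent.P7

variable (W : WeierstrassCurve ℤ) (p : ℕ) [Fact p.Prime]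

theorem h47u_Δ_ne (hgood : ¬ (p : ℤ) ∣ W.Δ) : W.Δ ≠ 0 := fun h =>
  hgood (by rw [h]; exact dvd_zero _)

/-- `W[n]` is flat at a prime of good reduction (helper61), vocabulary of `H47LocTop`. -/
theorem h47u_flat (hgood : ¬ (p : ℤ) ∣ W.Δ) {n : ℕ} (hn : 0 < n) :
    P5.h97c_Flat p (H47wX W n) (h47wAct W n) :=
  h61w_flat W hgood (h23b_padicPlace_liesOver p) hn

/-- `LocFlat` for the local mod `p` representation of `W`, unconditional. -/
theorem h47u_locFlat (hgood : ¬ (p : ℤ) ∣ W.Δ) :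
    LocFlat p (H47wX W p) (fun σ v => h47wRho W p σ v) := by
  haveI : Finite (H47wX W p) :=
    h47w_finite W (h47u_Δ_ne W p hgood) p (Fact.out : p.Prime).ne_zero
  exact h47w_locFlat_of_flat p (H47wX W p) (h47wAct W p) (h47w_isAct W p)
    (h47u_flat W p hgood (Fact.out : p.Prime).pos)

variable {W p}

/-- the global hypothesis, in the shape `hord` of `h24p_core`. -/
theorem h47u_hord (g : H47wGQ) (hglob : H47vOrdGlob W p (g⁻¹ • padicPlace p))
    (s : Gq p) (hs : s ∈ inertia p) (a : ℕ) (ha : cycExp p s a) (v : H47wX W p) :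
    h47wRho W p s (h47wRho W p s v - ((a : ℕ) : ZMod p) • v) =
      h47wRho W p s v - ((a : ℕ) : ZMod p) • v := by
  have h1 := h47v_ord_loc_of g hglob s hs a ha v
  have hcast : ((a : ℕ) : ZMod p) • v = a • v := Nat.cast_smul_eq_nsmul (ZMod p) a v
  rw [hcast, map_sub, map_nsmul]
  rw [map_sub, smul_sub, sub_eq_iff_eq_add] at h1
  rw [h1]
  abel

variable (W p)

/-- **L-PEU, local form at the instance `W[p]`.** -/
theorem h47u_peu_loc (hp2 : p ≠ 2) (hgood : ¬ (p : ℤ) ∣ W.Δ)
    {P : ValuationSubring H47wQb} (hP : P.LiesOverPrime p) (hglob : H47vOrdGlob W p P) :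
    ∃ g : H47wGQ, g⁻¹ • padicPlace p = P ∧
      ∀ ζ : Om p, ζ ^ p = 1 → ζ ≠ 1 →
        ∃ β : Om p, ‖β‖ = 1 ∧
          (∀ s ∈ inertia p, cycExp p s 1 → ∃ j : ℕ, s β = ζ ^ j * β) ∧
          ∀ s ∈ inertia p, cycExp p s 1 → s β = β → ∀ v, h47wRho W p s v = v := by
  obtain ⟨g, hg⟩ := h23b_exists_smul_padicPlace p hP
  subst hg
  have hΔ := h47u_Δ_ne W p hgood
  haveI : Module.Finite (ZMod p) (H47wX W p) := h47v_moduleFinite W p hΔ
  refine ⟨g, rfl, fun ζ hζ hζ1 => ?_⟩
  exact h24p_core hp2 (h47v_rank W p hΔ) (h47wRho W p) (h47v_det W p hΔ)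
    (h47u_locFlat W p hgood) (fun s hs a ha v => h47u_hord g hglob s hs a ha v) ζ hζ hζ1

variable {W p}

/-- the conclusion of `h47u_peu_loc` read on the inertia group of `g⁻¹ • padicPlace p`. -/
theorem h47u_peu_glob_of_loc (g : H47wGQ) (β : Om p)
    (hβ : ∀ s ∈ inertia p, cycExp p s 1 → s β = β → ∀ v, h47wRho W p s v = v)
    (σ : H47wGQ) (hσ : σ ∈ (g⁻¹ • padicPlace p).inertiaSubgroupIn ℚ)
    (hσ1 : ∀ ζ : H47wQb, ζ ^ p = 1 → σ ζ = ζ)
    (hfix : ∀ s : Gq p, σ = g⁻¹ * ιp p s * g → s β = β) (x : H47wX W p) :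
    σ • x = x := by
  obtain ⟨s, hs, rfl⟩ := h47v_inertia_of_conj g hσ
  have hp : p.Prime := Fact.out
  have hcyc : cycExp p s 1 := by
    have := (h47v_cyc_iff g s p hp.pos 1).mp (fun ζ hζ => by rw [pow_one]; exact hσ1 ζ hζ)
    exact this
  have h1 := hβ s hs hcyc (hfix s rfl) (g • x)
  rw [h47wRho_apply] at h1
  rw [mul_smul, mul_smul, h1, inv_smul_smul]

end Fermat.Agent.P7
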