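import Fermat.Agent.P7.H26GenusMatchIface
import Fermat.Agent.P7.H39WHField

/-!
# Wave 7, block (A), DLOG kill gate DL6B (GENUS-MATCH), leaf GM-WH (helper48, prefix `h48g_`)

`h48g_wh : H26mWH` : the frozen leaf GM-WH of `P7/H26GenusMatchIface.lean` (helper26), from the
landed leaf (K1) `h39o_k1` of helper39 (`P7/H39WHField.lean`, CONV + DICT of `Jac/`).
-/

set_option autoImplicit false

open UpperHalfPlane hiding I
open AlgebraicCurve ModularCurve CongruenceSubgroup
open scoped MatrixGroups

noncomputable section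

namespace Fermat.Agent.P7

open Fermat.Agent.Jac (FC jC)
open Fermat.Agent.S28 (HasTExp)
open Fermat.Agent.S21.E (IsWH)

/-- **GM-WH**, unconditional. -/
theorem h48g_wh : H26mWH := by
  intro N _ d A hA
  obtain ⟨F, hF, -, hord⟩ := h39o_k1 N d A hA
  refine ⟨F, hF, fun v => ?_⟩
  rcases le_or_gt 0 (v.ord (jC N)) with hj | hj
  · have h1 := (hord v).1 hj
    have h2 : max 0 (-(v.ord (jC N))) = 0 := max_eq_left (by omega)
    rw [h2, mul_zero, add_zero]
    exact h1
  · have h1 := (hord v).2 hj
    have h2 : max 0 (-(v.ord (jC N))) = -(v.ord (jC N)) := max_eq_right (by omega)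
    rw [h2]
    linarith

end Fermat.Agent.P7
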