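import Fermat.Agent.P7.H17Glue0
import Fermat.Agent.P7.H80NonEis
import Fermat.Agent.S30.Inputs
import Fermat.Agent.S54.Frobenius

/-!
# Wave 7 (row 38: S44 / S40), TOP leaf GLUE-2 (helper51, prefix `h51g_`)

Block (A) of TORIC acts with the Hecke polynomial `e` at the good level `goodLevel p M * p`, so
every variable of `e` must be prime to `goodLevel p M * p` (in particular `≠ 2` when `M` is odd).

* `h51g_cong_ext` (CONG-EXT): if a normalised eigenform `g` of level `N` is congruent to `W`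
  modulo `𝔪 ∣ p` at all good primes outside a finite set `S`, it is congruent to `W` at EVERY
  good prime `ℓ ∤ N`, `ℓ ≠ p` (attached residual representation of `g` = landed S29, weak
  Chebotarev, trace of Frobenius on `W[p]`).
* `h51g_modular_of_ne_top`, `h51g_glue_poly` : GLUE for an arbitrary finite set `T` of additional
  excluded primes.
* `h51g_glue2` : the consumer form: a Hecke polynomial `e` whose variables are good primes of `W`
  not dividing `goodLevel p M * p`, killing `S₂(Γ₀(M))`, with `p ∤ e(a_ℓ(W))`.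
-/

set_option autoImplicit false
set_option linter.style.haveILetI false
set_option linter.unusedSectionVars false
set_option linter.unusedVariables false
set_option linter.style.longLine false

open AlgebraicCurve ModularCurve WeierstrassCurve WeierstrassCurve.Affine

noncomputable section

namespace Fermat.Agent.P7

open Fermat.Agent.S30 (heckeTAll acTrace)
open Fermat.Agent.S31 (TI_evS TI_tS TI_Sc TI_Kills TI_evS_X TI_coe_evS TI_trace_pow
  TI_trace_of_charpoly TI_map_acTrace)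
open Fermat.Agent.S35 (hkCut hkCut_mem_supported hk_evS_cut hk_evS_surjective
  h45e_eigenOfChar_core)
open Fermat.Agent.S37 (goodLevel auxLevel dvd_goodLevel auxLevel_dvd_goodLevel)

set_option maxHeartbeats 1000000 in
/-- **CONG-EXT.**  Congruences with `W` at the good primes outside a finite set extend to all
good primes. -/
theorem h51g_cong_ext (W : WeierstrassCurve ℤ) (hΔ : W.Δ ≠ 0) {p : ℕ} (hp : p.Prime) {N : ℕ}
    [NeZero N] {g : CuspForm (CongruenceSubgroup.Gamma0 N) 2} (hg : g.IsNormalizedEigenform)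
    (𝔪 : Ideal (integralClosure ℤ ℂ)) (hmax : 𝔪.IsMaximal)
    (hpm : (p : integralClosure ℤ ℂ) ∈ 𝔪) (S : Finset ℕ)
    (hcong : ∀ r : ℕ, r.Prime → r ∉ S → W.IsGoodPrimeFor r → ¬ r ∣ N → r ≠ p →
      ∃ a : integralClosure ℤ ℂ, (a : ℂ) = ModularFormClass.qCoeff g r ∧
        a - ((W.apOfModel r : ℤ) : integralClosure ℤ ℂ) ∈ 𝔪)
    (ℓ : ℕ) (hℓ : ℓ.Prime) (hgood : W.IsGoodPrimeFor ℓ) (hℓN : ¬ ℓ ∣ N) (hℓp : ℓ ≠ p) :
    ∃ a : integralClosure ℤ ℂ, (a : ℂ) = ModularFormClass.qCoeff g ℓ ∧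
      a - ((W.apOfModel ℓ : ℤ) : integralClosure ℤ ℂ) ∈ 𝔪 := by
  classical
  haveI : Fact p.Prime := ⟨hp⟩
  -- the residue field
  letI : Field (integralClosure ℤ ℂ ⧸ 𝔪) := Ideal.Quotient.field 𝔪
  have hpK : ((p : ℕ) : integralClosure ℤ ℂ ⧸ 𝔪) = 0 := by
    have : ((p : ℕ) : integralClosure ℤ ℂ ⧸ 𝔪) =
        Ideal.Quotient.mk 𝔪 ((p : ℕ) : integralClosure ℤ ℂ) := by simp
    rw [this]
    exact Ideal.Quotient.eq_zero_iff_mem.2 hpm
  haveI : CharP (integralClosure ℤ ℂ ⧸ 𝔪) p := (CharP.charP_iff_prime_eq_zero hp).2 hpK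
  have hcastK : ∀ q : ℕ, q.Prime → q ≠ p → ((q : ℕ) : integralClosure ℤ ℂ ⧸ 𝔪) ≠ 0 := by
    intro q hq hqp h0
    have hdvd : p ∣ q := (CharP.cast_eq_zero_iff (integralClosure ℤ ℂ ⧸ 𝔪) p q).1 h0
    exact hqp ((Nat.prime_dvd_prime_iff_eq hp hq).mp hdvd).symm
  -- the representation attached to `g`
  obtain ⟨ρ, hatt, -⟩ := Fermat.Agent.S29.s29_of_geometry
    (Fermat.Agent.S30.geometricInputs_of_full Fermat.Agent.S30.geometricInputsFull) hg hp
    (Ideal.Quotient.mk 𝔪)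
  obtain ⟨L₁, hL₁fin, hL₁⟩ := ρ.factorsThroughFiniteLevel
  obtain ⟨L₂, hL₂, h₂⟩ := (h47w_isGalAct W hΔ p hp.ne_zero).cont
  haveI := hL₁fin
  haveI := hL₂
  have hLfin : FiniteDimensional ℚ ↥(L₁ ⊔ L₂) := IntermediateField.finiteDimensional_sup L₁ L₂
  -- a Frobenius element at `ℓ`
  obtain ⟨A, τ, hA, hτ⟩ := Fermat.Agent.S54.exists_isFrobeniusAt ℓ hℓ
  -- weak Chebotarev
  obtain ⟨r, hr, hrS', A', hA', f, hf, n, hn⟩ := Fermat.Agent.Cheb.weakChebotarev (L₁ ⊔ L₂)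
    hLfin τ (S ∪ {p} ∪ N.primeFactors ∪ W.Δ.natAbs.primeFactors)
  have hrS : r ∉ S := fun h => hrS'
    (Finset.mem_union_left _ (Finset.mem_union_left _ (Finset.mem_union_left _ h)))
  have hrp : r ≠ p := fun h => hrS' (Finset.mem_union_left _ (Finset.mem_union_left _
    (Finset.mem_union_right _ (Finset.mem_singleton.mpr h))))
  have hrN : ¬ r ∣ N := fun h => hrS' (Finset.mem_union_left _ (Finset.mem_union_right _
    (Nat.mem_primeFactors.mpr ⟨hr, h, NeZero.ne N⟩)))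
  have hrgood : W.IsGoodPrimeFor r := by
    intro hbad
    apply hrS'
    apply Finset.mem_union_right
    rw [Nat.mem_primeFactors]
    exact ⟨hr, Int.natCast_dvd.mp hbad, Int.natAbs_ne_zero.mpr hΔ⟩
  have hσ : ∀ x ∈ L₁ ⊔ L₂, ((f ^ n)⁻¹ * τ) x = x := fun x hx => by
    rw [AlgEquiv.mul_apply, hn x hx]
    exact (f ^ n).symm_apply_apply x
  have hτ' : τ = f ^ n * ((f ^ n)⁻¹ * τ) := by rw [mul_inv_cancel_left]
  -- the side of `g`
  have hρσ : ρ.ρ ((f ^ n)⁻¹ * τ) = 1 :=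
    hL₁ _ (fun x hx => hσ x ((le_sup_left : L₁ ≤ L₁ ⊔ L₂) hx))
  have hρτ : ρ.ρ τ = ρ.ρ f ^ n := by
    conv_lhs => rw [hτ']
    rw [map_mul, hρσ, mul_one, map_pow]
  obtain ⟨ar, har, hcpr⟩ := hatt r hr hrN (hcastK r hr hrp) A' hA' f hf
  obtain ⟨aℓ, haℓ, hcpℓ⟩ := hatt ℓ hℓ hℓN (hcastK ℓ hℓ hℓp) A hA τ hτ
  have htrτ : LinearMap.trace (integralClosure ℤ ℂ ⧸ 𝔪) ρ.V (ρ.ρ τ) =
      Ideal.Quotient.mk 𝔪 aℓ := TI_trace_of_charpoly ρ.finrank_eq _ _ _ hcpℓ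
  have htrpow : LinearMap.trace (integralClosure ℤ ℂ ⧸ 𝔪) ρ.V (ρ.ρ f ^ n) =
      acTrace (Ideal.Quotient.mk 𝔪 ar) ((r : ℕ) : integralClosure ℤ ℂ ⧸ 𝔪) n :=
    TI_trace_pow ρ.finrank_eq _ _ _ hcpr n
  -- the congruence at `r`
  obtain ⟨ar', har', hmem⟩ := hcong r hr hrS hrgood hrN hrp
  have harr : ar' = ar := Subtype.ext (har'.trans har.symm)
  have hφar : Ideal.Quotient.mk 𝔪 ar =
      ((W.apOfModel r : ℤ) : integralClosure ℤ ℂ ⧸ 𝔪) := by
    have h0 := Ideal.Quotient.eq_zero_iff_mem.2 hmem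
    rw [harr, map_sub, sub_eq_zero, map_intCast] at h0
    exact h0
  -- the side of `W`
  have hσW : ∀ x : H47wX W p, ((f ^ n)⁻¹ * τ) • x = x :=
    fun x => h₂ _ (fun y hy => hσ y ((le_sup_right : L₂ ≤ L₁ ⊔ L₂) hy)) x
  have hV2 : Module.finrank (ZMod p) (H47wX W p) = 2 :=
    Fermat.Agent.Tors.finrank_torsionBy_qbar (W.map (Int.castRingHom ℚ)) (h47w_Δ_ne W hΔ) p
  haveI : Module.Finite (ZMod p) (H47wX W p) :=
    Module.finite_of_finrank_pos (by rw [hV2]; norm_num)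
  have hfinr := Fermat.Agent.EFrob.finalU W r p hr hp hrp hrgood A' hA' f hf
  have hfinℓ := Fermat.Agent.EFrob.finalU W ℓ p hℓ hp hℓp hgood A hA τ hτ
  have hWσ : Point.galoisRepModuleEnd (K := AlgebraicClosure ℚ) ℚ
      (W.map (Int.castRingHom ℚ)).toAffine p ((f ^ n)⁻¹ * τ) = 1 :=
    LinearMap.ext fun x => hσW x
  have hWτ : Point.galoisRepModuleEnd (K := AlgebraicClosure ℚ) ℚ
      (W.map (Int.castRingHom ℚ)).toAffine p τ =
      Point.galoisRepModuleEnd (K := AlgebraicClosure ℚ) ℚ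
        (W.map (Int.castRingHom ℚ)).toAffine p f ^ n := by
    conv_lhs => rw [hτ']
    rw [map_mul, hWσ, mul_one, map_pow]
  have hcp := Fermat.Agent.S34.charpoly_of_finrank_two hV2
    (Point.galoisRepModuleEnd (K := AlgebraicClosure ℚ) ℚ
      (W.map (Int.castRingHom ℚ)).toAffine p f)
  have htrW := TI_trace_pow hV2 _ _ _ hcp n
  have e1 : LinearMap.trace (ZMod p) (H47wX W p)
      (Point.galoisRepModuleEnd (K := AlgebraicClosure ℚ) ℚ
        (W.map (Int.castRingHom ℚ)).toAffine p f) = ((W.apOfModel r : ℤ) : ZMod p) := hfinr.1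
  have e2 : LinearMap.det (Point.galoisRepModuleEnd (K := AlgebraicClosure ℚ) ℚ
        (W.map (Int.castRingHom ℚ)).toAffine p f) = (((r : ℕ) : ℤ) : ZMod p) := by
    rw [hfinr.2]
    push_cast
    rfl
  have e3 : LinearMap.trace (ZMod p) (H47wX W p)
      (Point.galoisRepModuleEnd (K := AlgebraicClosure ℚ) ℚ
        (W.map (Int.castRingHom ℚ)).toAffine p τ) = ((W.apOfModel ℓ : ℤ) : ZMod p) := hfinℓ.1
  -- the integral form of the comparison
  have keyP : ((W.apOfModel ℓ : ℤ) : ZMod p) =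
      ((acTrace (W.apOfModel r) ((r : ℕ) : ℤ) n : ℤ) : ZMod p) := by
    rw [← e3, hWτ, htrW, e1, e2]
    exact (TI_map_acTrace (Int.castRingHom (ZMod p)) (W.apOfModel r) ((r : ℕ) : ℤ) n).symm
  have keyZ : (p : ℤ) ∣ W.apOfModel ℓ - acTrace (W.apOfModel r) ((r : ℕ) : ℤ) n := by
    rw [← ZMod.intCast_zmod_eq_zero_iff_dvd, Int.cast_sub, keyP, sub_self]
  have keyK : ((W.apOfModel ℓ : ℤ) : integralClosure ℤ ℂ ⧸ 𝔪) =
      ((acTrace (W.apOfModel r) ((r : ℕ) : ℤ) n : ℤ) : integralClosure ℤ ℂ ⧸ 𝔪) := by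
    obtain ⟨c, hc⟩ := keyZ
    have h1 := congrArg (Int.cast : ℤ → integralClosure ℤ ℂ ⧸ 𝔪) hc
    rw [Int.cast_sub, Int.cast_mul, Int.cast_natCast, hpK, zero_mul, sub_eq_zero] at h1
    exact h1
  have hfinal : Ideal.Quotient.mk 𝔪 aℓ =
      ((W.apOfModel ℓ : ℤ) : integralClosure ℤ ℂ ⧸ 𝔪) := by
    rw [← htrτ, hρτ, htrpow, hφar, keyK]
    have h3 := TI_map_acTrace (Int.castRingHom (integralClosure ℤ ℂ ⧸ 𝔪)) (W.apOfModel r)
      ((r : ℕ) : ℤ) n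
    rw [eq_intCast, eq_intCast, eq_intCast, Int.cast_natCast] at h3
    exact h3.symm
  refine ⟨aℓ, haℓ, ?_⟩
  apply Ideal.Quotient.eq_zero_iff_mem.1
  rw [map_sub, hfinal, map_intCast, sub_self]

/-! ## GLUE with additional excluded primes -/

/-- the excluded primes: those of `h17gS W p N` (`p`, the primes of `N`, the bad primes of `W`)
and the additional finite set `T`. -/
def h51gS (W : WeierstrassCurve ℤ) (p N : ℕ) (T : Finset ℕ) : Finset ℕ := h17gS W p N ∪ T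

theorem h51g_not_mem_S_iff (W : WeierstrassCurve ℤ) (hΔ : W.Δ ≠ 0) {p N : ℕ} (hN : N ≠ 0)
    (T : Finset ℕ) {ℓ : ℕ} (hℓ : ℓ.Prime) :
    ℓ ∉ h51gS W p N T ↔ (ℓ ≠ p ∧ ¬ ℓ ∣ N ∧ W.IsGoodPrimeFor ℓ) ∧ ℓ ∉ T := by
  rw [h51gS, Finset.mem_union, not_or, h17g_not_mem_S_iff W hΔ hN hℓ]

theorem h51g_mem_S_of_dvd (W : WeierstrassCurve ℤ) (p : ℕ) {N : ℕ} (hN : N ≠ 0) (T : Finset ℕ) :
    ∀ r : ℕ, r.Prime → r ∣ N → r ∈ h51gS W p N T := fun r hr hrN =>
  Finset.mem_union_left _ (h17g_mem_S_of_dvd W p hN r hr hrN)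

/-- the generators of the ideal of the eigensystem away from `h51gS`. -/
def h51gGen (W : WeierstrassCurve ℤ) (p N : ℕ) (T : Finset ℕ) :
    Set (MvPolynomial Nat.Primes ℤ) :=
  {MvPolynomial.C (p : ℤ)} ∪
    {Q | ∃ ℓ : Nat.Primes, (ℓ : ℕ) ∉ h51gS W p N T ∧
      Q = MvPolynomial.X ℓ - MvPolynomial.C (W.apOfModel ℓ)}

/-- the ideal `(p, T_ℓ - a_ℓ(W) : ℓ ∉ S ∪ T)` of `ℤ[T_ℓ]`. -/
def h51gIdeal (W : WeierstrassCurve ℤ) (p N : ℕ) (T : Finset ℕ) :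
    Ideal (MvPolynomial Nat.Primes ℤ) :=
  Ideal.span (h51gGen W p N T)

theorem h51g_C_mem (W : WeierstrassCurve ℤ) (p N : ℕ) (T : Finset ℕ) :
    MvPolynomial.C (p : ℤ) ∈ h51gIdeal W p N T :=
  Ideal.subset_span (Or.inl rfl)

theorem h51g_X_sub_mem (W : WeierstrassCurve ℤ) (p N : ℕ) (T : Finset ℕ) (ℓ : Nat.Primes)
    (hℓ : (ℓ : ℕ) ∉ h51gS W p N T) :
    MvPolynomial.X ℓ - MvPolynomial.C (W.apOfModel ℓ) ∈ h51gIdeal W p N T :=
  Ideal.subset_span (Or.inr ⟨ℓ, hℓ, rfl⟩)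

/-- cutting off the variables in `S ∪ T` preserves the ideal. -/
theorem h51g_cut_mem (W : WeierstrassCurve ℤ) (p N : ℕ) (T : Finset ℕ)
    {Q : MvPolynomial Nat.Primes ℤ} (hQ : Q ∈ h51gIdeal W p N T) :
    hkCut (h51gS W p N T) Q ∈ h51gIdeal W p N T := by
  classical
  have hle : h51gIdeal W p N T ≤
      (h51gIdeal W p N T).comap (hkCut (h51gS W p N T)).toRingHom := by
    rw [h51gIdeal, Ideal.span_le]
    rintro Q (hQ | ⟨ℓ, hℓ, rfl⟩)
    · rw [Set.mem_singleton_iff] at hQ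
      rw [hQ, SetLike.mem_coe, Ideal.mem_comap]
      show hkCut (h51gS W p N T) (MvPolynomial.C (p : ℤ)) ∈ _
      rw [hkCut, MvPolynomial.aeval_C]
      exact h51g_C_mem W p N T
    · rw [SetLike.mem_coe, Ideal.mem_comap]
      show hkCut (h51gS W p N T) (MvPolynomial.X ℓ - MvPolynomial.C (W.apOfModel ℓ)) ∈ _
      rw [map_sub, hkCut, MvPolynomial.aeval_X, MvPolynomial.aeval_C, if_neg hℓ]
      exact h51g_X_sub_mem W p N T ℓ hℓ
  exact Ideal.mem_comap.mp (hle hQ)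

/-- the evaluation at the system `a_ℓ(W)` maps the ideal into `p ℤ`. -/
theorem h51g_eval_ideal (W : WeierstrassCurve ℤ) (p N : ℕ) (T : Finset ℕ)
    {Q : MvPolynomial Nat.Primes ℤ} (hQ : Q ∈ h51gIdeal W p N T) :
    (p : ℤ) ∣ MvPolynomial.eval (fun ℓ : Nat.Primes => W.apOfModel (ℓ : ℕ)) Q := by
  have hle : h51gIdeal W p N T ≤
      (Ideal.span {(p : ℤ)}).comap
        (MvPolynomial.eval (fun ℓ : Nat.Primes => W.apOfModel (ℓ : ℕ))) := by
    rw [h51gIdeal, Ideal.span_le]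
    rintro Q (hQ | ⟨ℓ, hℓ, rfl⟩)
    · rw [Set.mem_singleton_iff] at hQ
      rw [hQ, SetLike.mem_coe, Ideal.mem_comap, MvPolynomial.eval_C]
      exact Ideal.mem_span_singleton_self _
    · rw [SetLike.mem_coe, Ideal.mem_comap, map_sub, MvPolynomial.eval_X, MvPolynomial.eval_C,
        sub_self]
      exact Ideal.zero_mem _
  exact Ideal.mem_span_singleton.mp (Ideal.mem_comap.mp (hle hQ))

/-- **Deligne--Serre + CONG-EXT.**  If the ideal of the eigensystem of `W` modulo `p` away from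
`S ∪ T` generates a proper ideal of the Hecke algebra of level `N` away from `S ∪ T`, then `W` is
residually modular of level `N` at `p`. -/
theorem h51g_modular_of_ne_top (W : WeierstrassCurve ℤ) (hΔ : W.Δ ≠ 0) {p : ℕ} (hp : p.Prime)
    (N : ℕ) [NeZero N] (T : Finset ℕ)
    (h : (h51gIdeal W p N T).map
      ((TI_evS N (h51gS W p N T) : MvPolynomial Nat.Primes ℤ →ₐ[ℤ]
        CuspForm.heckeAlgebra N 2 (↑(h51gS W p N T) : Set ℕ)) : MvPolynomial Nat.Primes ℤ →+*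
        CuspForm.heckeAlgebra N 2 (↑(h51gS W p N T) : Set ℕ)) ≠ ⊤) :
    W.IsResiduallyModularOfLevel p N := by
  classical
  set S : Finset ℕ := h51gS W p N T with hS
  haveI : Module.Finite ℤ (CuspForm.heckeAlgebra N 2 (↑S : Set ℕ)) :=
    Fermat.Agent.S22.result N 2 (↑S : Set ℕ)
  haveI : FiniteDimensional ℂ (CuspForm (CongruenceSubgroup.Gamma0 N) 2) :=
    Fermat.Agent.S49.finiteDimensional_cuspForm N 2
  set ev : MvPolynomial Nat.Primes ℤ →+* CuspForm.heckeAlgebra N 2 (↑S : Set ℕ) :=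
    ((TI_evS N S : MvPolynomial Nat.Primes ℤ →ₐ[ℤ] CuspForm.heckeAlgebra N 2 (↑S : Set ℕ)) :
      MvPolynomial Nat.Primes ℤ →+* CuspForm.heckeAlgebra N 2 (↑S : Set ℕ)) with hev
  obtain ⟨𝔪₀, hmax₀, hle₀⟩ := Ideal.exists_le_maximal _ h
  haveI := hmax₀
  haveI : 𝔪₀.IsPrime := hmax₀.isPrime
  let ρ : CuspForm.heckeAlgebra N 2 (↑S : Set ℕ) →+*
      Module.End ℂ (CuspForm (CongruenceSubgroup.Gamma0 N) 2) :=
    (CuspForm.heckeAlgebra N 2 (↑S : Set ℕ)).val.toRingHom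
  have hρ : Function.Injective ρ := Subtype.val_injective
  obtain ⟨v, χ, -, -, hker⟩ := Fermat.Agent.S49.exists_eigenchar_ker_le ρ hρ 𝔪₀
  obtain ⟨χ', 𝔪', hχ', hmax', hmem⟩ := Fermat.Agent.S49.exists_integral_lift χ 𝔪₀ hker
  obtain ⟨g, hg, hgcoeff⟩ := h45e_eigenOfChar_core N (↑S : Set ℕ) χ
  have hmem' : ∀ Q ∈ h51gIdeal W p N T, χ' (ev Q) ∈ 𝔪' := fun Q hQ =>
    hmem _ (hle₀ (Ideal.mem_map_of_mem ev hQ))
  have hpm : (p : integralClosure ℤ ℂ) ∈ 𝔪' := by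
    have h1 := hmem' _ (h51g_C_mem W p N T)
    have e1 : χ' (ev (MvPolynomial.C (p : ℤ))) = (p : integralClosure ℤ ℂ) := by
      rw [eq_intCast (MvPolynomial.C : ℤ →+* MvPolynomial Nat.Primes ℤ), map_intCast,
        map_intCast, Int.cast_natCast]
    rwa [e1] at h1
  -- the congruences outside `S`
  have hcong : ∀ r : ℕ, r.Prime → r ∉ S → W.IsGoodPrimeFor r → ¬ r ∣ N → r ≠ p →
      ∃ a : integralClosure ℤ ℂ, (a : ℂ) = ModularFormClass.qCoeff g r ∧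
        a - ((W.apOfModel r : ℤ) : integralClosure ℤ ℂ) ∈ 𝔪' := by
    intro ℓ hℓ hℓS hgood hℓN hℓp
    have hℓS' : ℓ ∉ (↑S : Set ℕ) := fun h => hℓS (Finset.mem_coe.mp h)
    refine ⟨χ' (CuspForm.heckeAlgebra.T hℓ hℓN hℓS'), ?_, ?_⟩
    · rw [hχ', hgcoeff ℓ hℓ hℓN hℓS']
    · obtain ⟨ℓ', hℓ'⟩ : ∃ ℓ' : Nat.Primes, (ℓ' : ℕ) = ℓ := ⟨⟨ℓ, hℓ⟩, rfl⟩
      subst hℓ'
      have h1 := hmem' _ (h51g_X_sub_mem W p N T ℓ' hℓS)
      have e1 : ev (MvPolynomial.X ℓ' - MvPolynomial.C (W.apOfModel (ℓ' : ℕ))) =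
          CuspForm.heckeAlgebra.T hℓ hℓN hℓS' -
            ((W.apOfModel (ℓ' : ℕ) : ℤ) : CuspForm.heckeAlgebra N 2 (↑S : Set ℕ)) := by
        rw [map_sub, eq_intCast (MvPolynomial.C : ℤ →+* MvPolynomial Nat.Primes ℤ),
          map_intCast]
        congr 1
        exact TI_evS_X N S ℓ' hℓN hℓS'
      rw [e1, map_sub, map_intCast] at h1
      exact h1
  exact ⟨g, 𝔪', hg, hmax', hpm, fun ℓ hℓ hgood hℓN hℓp =>
    h51g_cong_ext W hΔ hp hg 𝔪' hmax' hpm S hcong ℓ hℓ hgood hℓN hℓp⟩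

/-- **GLUE with excluded primes.**  If `W` is not residually modular of level `N` at `p`, some
Hecke polynomial `P ∈ 1 + 𝔫` in the variables outside `S ∪ T` kills the cusp forms of weight 2
and level `N`. -/
theorem h51g_glue_poly (W : WeierstrassCurve ℤ) (hΔ : W.Δ ≠ 0) {p : ℕ} (hp : p.Prime) (N : ℕ)
    [NeZero N] (T : Finset ℕ) (hnot : ¬ W.IsResiduallyModularOfLevel p N) :
    ∃ P : MvPolynomial Nat.Primes ℤ,
      P ∈ MvPolynomial.supported ℤ (TI_Sc (h51gS W p N T)) ∧ P - 1 ∈ h51gIdeal W p N T ∧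
      ((MvPolynomial.aeval (R := ℤ) (heckeTAll N) P : CuspForm.heckeAlgebra N 2 (∅ : Set ℕ)) :
        Module.End ℂ (CuspForm (CongruenceSubgroup.Gamma0 N) 2)) = 0 := by
  classical
  set S : Finset ℕ := h51gS W p N T with hS
  have hSN : ∀ r : ℕ, r.Prime → r ∣ N → r ∈ S := h51g_mem_S_of_dvd W p (NeZero.ne N) T
  set ev : MvPolynomial Nat.Primes ℤ →+* CuspForm.heckeAlgebra N 2 (↑S : Set ℕ) :=
    ((TI_evS N S : MvPolynomial Nat.Primes ℤ →ₐ[ℤ] CuspForm.heckeAlgebra N 2 (↑S : Set ℕ)) :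
      MvPolynomial Nat.Primes ℤ →+* CuspForm.heckeAlgebra N 2 (↑S : Set ℕ)) with hev
  have hsurj : Function.Surjective ev := hk_evS_surjective N S hSN
  have htop : (h51gIdeal W p N T).map ev = ⊤ := by
    by_contra h
    exact hnot (h51g_modular_of_ne_top W hΔ hp N T h)
  have h1 : (1 : CuspForm.heckeAlgebra N 2 (↑S : Set ℕ)) ∈ (h51gIdeal W p N T).map ev := by
    rw [htop]
    exact Submodule.mem_top
  obtain ⟨Q, hQ, hQ1⟩ := (Ideal.mem_map_iff_of_surjective ev hsurj).mp h1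
  set P : MvPolynomial Nat.Primes ℤ := 1 - hkCut S Q with hP
  have hPsupp : P ∈ MvPolynomial.supported ℤ (TI_Sc S) :=
    Subalgebra.sub_mem _ (Subalgebra.one_mem _) (hkCut_mem_supported S Q)
  have hPmem : P - 1 ∈ h51gIdeal W p N T := by
    have e : P - 1 = -(hkCut S Q) := by rw [hP]; ring
    rw [e]
    exact (h51gIdeal W p N T).neg_mem (h51g_cut_mem W p N T hQ)
  have hPev : TI_evS N S P = 0 := by
    rw [hP, map_sub, map_one, hk_evS_cut]
    have : TI_evS N S Q = 1 := hQ1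
    rw [this, sub_self]
  refine ⟨P, hPsupp, hPmem, ?_⟩
  rw [← TI_coe_evS hSN hPsupp, hPev]
  rfl

/-- **GLUE-2, general form.**  `W` not residually modular of level `M` at `p`, `T` any finite set
of primes: there is a Hecke polynomial `e` whose variables are good primes of `W`, outside `T`,
prime to `M p`, which kills `S₂(Γ₀(M))` and does not vanish modulo `p` at the system `a_ℓ(W)`. -/
theorem h51g_glue2_set (W : WeierstrassCurve ℤ) (hΔ : W.Δ ≠ 0) {p : ℕ} (hp : p.Prime) (M : ℕ)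
    [NeZero M] (T : Finset ℕ) (hnot : ¬ W.IsResiduallyModularOfLevel p M) :
    ∃ e : MvPolynomial Nat.Primes ℤ,
      (∀ ℓ ∈ e.vars, (ℓ : ℕ) ∉ T ∧ (ℓ : ℕ) ≠ p ∧ ¬ (ℓ : ℕ) ∣ M ∧ W.IsGoodPrimeFor (ℓ : ℕ)) ∧
      H99wKillsCusp M e ∧
      ¬ (p : ℤ) ∣ MvPolynomial.eval (fun ℓ : Nat.Primes => W.apOfModel (ℓ : ℕ)) e := by
  classical
  obtain ⟨P, hPsupp, hPmem, hPzero⟩ := h51g_glue_poly W hΔ hp M T hnot
  refine ⟨P, ?_, hPzero, ?_⟩
  · intro ℓ hℓ
    have hsub := (MvPolynomial.mem_supported.mp hPsupp) (Finset.mem_coe.mpr hℓ)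
    have hℓS : (ℓ : ℕ) ∉ h51gS W p M T := hsub
    obtain ⟨⟨h1, h2, h3⟩, h4⟩ := (h51g_not_mem_S_iff W hΔ (NeZero.ne M) T ℓ.2).mp hℓS
    exact ⟨h4, h1, h2, h3⟩
  · intro hdvd
    have h1 := h51g_eval_ideal W p M T hPmem
    rw [map_sub, map_one] at h1
    have h2 : (p : ℤ) ∣ 1 := by
      have := dvd_sub hdvd h1
      rwa [sub_sub_cancel] at this
    have h3 : p ∣ 1 := by exact_mod_cast h2
    exact hp.one_lt.ne' (Nat.dvd_one.mp h3)

/-- **GLUE-2, consumer form** (row GLUE-2 of `w7_tasks`): the variables of `e` are good primes of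
`W` which do not divide `goodLevel p M * p`. -/
theorem h51g_glue2 (W : WeierstrassCurve ℤ) (hΔ : W.Δ ≠ 0) {p : ℕ} (hp : p.Prime) (M : ℕ)
    [NeZero M] (hnot : ¬ W.IsResiduallyModularOfLevel p M) :
    ∃ e : MvPolynomial Nat.Primes ℤ,
      (∀ ℓ ∈ e.vars, ¬ (ℓ : ℕ) ∣ goodLevel p M * p) ∧
      (∀ ℓ ∈ e.vars, W.IsGoodPrimeFor (ℓ : ℕ)) ∧
      (∀ ℓ ∈ e.vars, ¬ (ℓ : ℕ) ∣ M * p) ∧
      H99wKillsCusp M e ∧
      ¬ (p : ℤ) ∣ MvPolynomial.eval (fun ℓ : Nat.Primes => W.apOfModel (ℓ : ℕ)) e := by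
  classical
  have hne : goodLevel p M * p ≠ 0 :=
    Nat.mul_ne_zero (NeZero.ne (goodLevel p M)) hp.ne_zero
  obtain ⟨e, hvars, hkill, heval⟩ :=
    h51g_glue2_set W hΔ hp M (goodLevel p M * p).primeFactors hnot
  refine ⟨e, ?_, ?_, ?_, hkill, heval⟩
  · intro ℓ hℓ hdvd
    exact (hvars ℓ hℓ).1 (Nat.mem_primeFactors.mpr ⟨ℓ.2, hdvd, hne⟩)
  · intro ℓ hℓ
    exact (hvars ℓ hℓ).2.2.2
  · intro ℓ hℓ hdvd
    obtain ⟨-, h1, h2, -⟩ := hvars ℓ hℓ
    rcases (Nat.Prime.dvd_mul ℓ.2).mp hdvd with h | h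
    · exact h2 h
    · exact h1 ((Nat.prime_dvd_prime_iff_eq ℓ.2 hp).mp h)

end Fermat.Agent.P7
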