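import Mathlib

/-!
# Wave 7 (S40), row T-LEVEL / T-A5-OCC: the DIVIDE-FIRST lemma (helper51)

Abstract (Mathlib only).  `J'` = `J₀(M')`, `J⁺ = J₀(M⁺)` (good level), `J₁⁺ ≤ J⁺` the kernel of
reduction, `π^* : J' → J⁺`, `π_* : J⁺ → J'` with `π_* π^* = d` (`d = deg π > 0`),
`P` a Hecke polynomial on `J'`, `P⁺` the same polynomial on `J⁺` (`π^* P = P⁺ π^*`),
`Φ = π^* ∘ (t • P) ∘ π_*`.

If `Φ` kills the `p`-primary torsion of `J⁺ / J₁⁺` (rows T-A1, T-A2, T-A3) and `J'` is divisible,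
then every class `c ∈ J⁺ / J₁⁺` with `p c = 0`, `P⁺ c = c` which is OLD (`c = π^* y` modulo `J₁⁺`)
vanishes.  There is NO condition on `d` or on `t` (they may be divisible by `p`): one divides the
old lift `y` by `d t` BEFORE applying `Φ`.

Everything is stated with representatives in `J⁺` and membership in `J₁⁺` (no quotient).
-/

set_option autoImplicit false

namespace Fermat.Agent.P7

section
variable {J' Jp : Type*} [AddCommGroup J'] [AddCommGroup Jp]

/-- a torsion class modulo `J1` splits into a `p`-primary part and a prime-to-`p` part. -/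
theorem h51o_split (J1 : AddSubgroup Jp) {p : ℕ} (hp : p.Prime) {N : ℕ} (hN : 0 < N)
    (z : Jp) (hz : N • z ∈ J1) :
    ∃ (zp zm : Jp) (k m : ℕ), z = zp + zm ∧ p ^ k • zp ∈ J1 ∧ m • zm ∈ J1 ∧
      Nat.Coprime m p := by
  obtain ⟨k, m, hm, hNk⟩ := Nat.exists_eq_pow_mul_and_not_dvd hN.ne' p hp.ne_one
  have hcop : Nat.Coprime m p := by
    rw [Nat.coprime_comm]
    exact (Nat.Prime.coprime_iff_not_dvd hp).2 hm
  have hcop' : IsCoprime (m : ℤ) ((p ^ k : ℕ) : ℤ) := by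
    rw [Nat.isCoprime_iff_coprime]
    exact Nat.Coprime.pow_right k hcop
  obtain ⟨u, v, huv⟩ := hcop'
  -- `u * m + v * p ^ k = 1`
  refine ⟨(u * (m : ℤ)) • z, (v * ((p ^ k : ℕ) : ℤ)) • z, k, m, ?_, ?_, ?_, hcop⟩
  · rw [← add_smul, huv, one_smul]
  · have h1 : p ^ k • ((u * (m : ℤ)) • z) = u • (N • z) := by
      rw [hNk]
      simp only [← natCast_zsmul, smul_smul]
      congr 1
      push_cast
      ring
    rw [h1]
    exact J1.zsmul_mem hz u
  · have h1 : m • ((v * ((p ^ k : ℕ) : ℤ)) • z) = v • (N • z) := by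
      rw [hNk]
      simp only [← natCast_zsmul, smul_smul]
      congr 1
      push_cast
      ring
    rw [h1]
    exact J1.zsmul_mem hz v

/-- **DIVIDE-FIRST.**  See the module docstring. -/
theorem h51o_oldKill {p : ℕ} (hp : p.Prime)
    (hdiv : ∀ (n : ℕ), 0 < n → ∀ y : J', ∃ y' : J', n • y' = y)
    (pullπ : J' →+ Jp) (pushπ : Jp →+ J') {d : ℕ} (hd : 0 < d)
    (hpp : ∀ y : J', pushπ (pullπ y) = d • y)
    (P : J' →+ J') (Pp : Jp →+ Jp) (hPcomm : ∀ y : J', pullπ (P y) = Pp (pullπ y))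
    (J1 : AddSubgroup Jp) (hP1 : ∀ z ∈ J1, Pp z ∈ J1)
    {t : ℕ} (ht : 0 < t)
    (hΦ1 : ∀ z ∈ J1, pullπ (t • P (pushπ z)) ∈ J1)
    (hkill : ∀ (z : Jp) (k : ℕ), p ^ k • z ∈ J1 → pullπ (t • P (pushπ z)) ∈ J1)
    (c : Jp) (hpc : p • c ∈ J1) (hPc : Pp c - c ∈ J1)
    (y : J') (hold : c - pullπ y ∈ J1) :
    c ∈ J1 := by
  classical
  -- divide the old lift by `n = d t`
  have hn : 0 < d * t := Nat.mul_pos hd ht
  obtain ⟨y', hy'⟩ := hdiv (d * t) hn y
  set c' : Jp := pullπ y' with hc'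
  -- `Φ c' = P⁺ (π^* y)`
  have hΦc' : pullπ (t • P (pushπ c')) = Pp (pullπ y) := by
    rw [hc', hpp, ← hPcomm, ← hy']
    congr 1
    rw [map_nsmul, map_nsmul, smul_smul, mul_comm]
  -- `Φ c' ≡ c` modulo `J1`
  have hΦc : pullπ (t • P (pushπ c')) - c ∈ J1 := by
    rw [hΦc']
    have h1 : Pp (pullπ y) - c = -(Pp (c - pullπ y)) + (Pp c - c) := by
      rw [map_sub]; abel
    rw [h1]
    exact J1.add_mem (J1.neg_mem (hP1 _ hold)) hPc
  -- `c'` is torsion modulo `J1`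
  have htors : (p * (d * t)) • c' ∈ J1 := by
    have h1 : (p * (d * t)) • c' = p • c - p • (c - pullπ y) := by
      rw [hc', mul_smul, ← map_nsmul pullπ (d * t) y', hy', smul_sub]
      abel
    rw [h1]
    exact J1.sub_mem hpc (J1.nsmul_mem hold p)
  obtain ⟨zp, zm, k, m, hsplit, hzp, hzm, hcop⟩ :=
    h51o_split J1 hp (Nat.mul_pos hp.pos hn) c' htors
  -- `Φ` kills the `p`-part
  have hΦp : pullπ (t • P (pushπ zp)) ∈ J1 := hkill zp k hzp
  -- `m • Φ zm ∈ J1`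
  have hΦm : m • pullπ (t • P (pushπ zm)) ∈ J1 := by
    have h1 : m • pullπ (t • P (pushπ zm)) = pullπ (t • P (pushπ (m • zm))) := by
      simp only [map_nsmul]
      rw [smul_comm]
    rw [h1]
    exact hΦ1 _ hzm
  -- `Φ c' = Φ zp + Φ zm`
  have hadd : pullπ (t • P (pushπ c')) =
      pullπ (t • P (pushπ zp)) + pullπ (t • P (pushπ zm)) := by
    rw [hsplit]
    simp only [map_add, smul_add]
  -- hence `m • c ∈ J1`
  have hmc : m • c ∈ J1 := by
    have h1 : m • c = m • pullπ (t • P (pushπ zp)) + m • pullπ (t • P (pushπ zm))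
        - m • (pullπ (t • P (pushπ c')) - c) := by
      rw [hadd, smul_sub, smul_add]
      abel
    rw [h1]
    exact J1.sub_mem (J1.add_mem (J1.nsmul_mem hΦp m) hΦm) (J1.nsmul_mem hΦc m)
  -- Bezout with `p`
  have hcop' : IsCoprime (m : ℤ) (p : ℤ) := by
    rw [Nat.isCoprime_iff_coprime]; exact hcop
  obtain ⟨u, v, huv⟩ := hcop'
  have hfin : c = u • (m • c) + v • (p • c) := by
    have h1 : u • (m • c) + v • (p • c) = (u * (m : ℤ) + v * (p : ℤ)) • c := by
      simp only [← natCast_zsmul, smul_smul, add_smul]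
    rw [h1, huv, one_smul]
  rw [hfin]
  exact J1.add_mem (J1.zsmul_mem hmc u) (J1.zsmul_mem hpc v)

end

end Fermat.Agent.P7
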