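import Fermat.Agent.P7.H9LocTors
import Fermat.Agent.P7.H8LocWInst
import Fermat.Agent.P7.H34LocInert
import Fermat.Agent.P7.H34LocAdd
import Fermat.Agent.S05.Kernel
import Fermat.Agent.S05.FreyArith
import Fermat.Agent.S13.AsmGroups
import Fermat.Agent.Tors.Qbar
import Fermat.Agent.P5.H98DescFin
import Fermat.Agent.P5.H87Adapter

/-!
# P7 (wave 7, row 38 via S44), block LOCAL-MULT, leaf LM3 INST-Q (helper52)

The fields `z_out`, `z_int`, `z_inj`, `z_decomp`, `E_decomp`, `add` of the abstract order step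
(`H8wKer` of `P7/H8LocWAbs.lean`, torsion-restricted form `H9mKer` of `P7/H9LocTors.lean`) for a
model `W' : WeierstrassCurve ℚ` whose coefficients are integral at a valuation subring `A` of
`ℚ̄` (e.g. the S05 short nodal Frey models `freyShort`, `freyShortC`, whose coefficients are
not integers).  `P7/H8LocWInst.lean` does this for `W : WeierstrassCurve ℤ` only.

* `H52qInt W' A` : the five coefficients of `W'` lie in `A`;
  `h52q_int_of_isShortNodal : IsShortNodal A p W' → H52qInt W' A`;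
  `h52q_int_of_isGoodModel`, `h52q_int_of_int` (the case of `P7/H8LocWInst.lean`).
* `h52qE1 W' A h` : the kernel of reduction (S05 `kernelOfReduction`), `h52qZ W' A` : the
  coordinate `z = -x/y` on it (zero outside).
* the fields: `h52q_z_out`, `h52q_z_int`, `h52q_z_inj`, `h52q_z_decomp`, `h52q_E_decomp`,
  `h52q_add` (no hypothesis on the reduction type; `add` needs `A` over a prime).
* `h52q_ker_tors` : the six fields + the two torsion-restricted inputs `inert`, `lift` (leaf LM2)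
  ⟹ `H9mKer A (h52qE1 W' A h) (h52qZ W' A) m`; `h52q_ker` : the unrestricted form `H8wKer`.
* `h52q_finite`, `h52q_isGalAct` (FIN for a `ℚ`-model), `h52q_locOrder_tors`,
  `h52q_flat_tors` : the inputs at ONE `A` over `p` ⟹ `h97c_Flat p W'[n]`.
-/

set_option autoImplicit false
set_option linter.style.haveILetI false
set_option linter.unusedSectionVars false

noncomputable section

namespace Fermat.Agent.P7

open WeierstrassCurve WeierstrassCurve.Affine Fermat.Agent.S05 Fermat.Agent.S37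
  Fermat.Agent.P5
open scoped WeierstrassCurve.Affine

/-- the group of `ℚ̄`-points of a model over `ℚ`. -/
abbrev h52qPt (W' : WeierstrassCurve ℚ) : Type := (W'⁄Kbar).Point

/-- the coefficients of `W'` are integral at `A`. -/
structure H52qInt (W' : WeierstrassCurve ℚ) (A : ValuationSubring Kbar) : Prop where
  a₁ : (W'⁄Kbar).a₁ ∈ A
  a₂ : (W'⁄Kbar).a₂ ∈ A
  a₃ : (W'⁄Kbar).a₃ ∈ A
  a₄ : (W'⁄Kbar).a₄ ∈ A
  a₆ : (W'⁄Kbar).a₆ ∈ A

section Int

variable (W' : WeierstrassCurve ℚ) (A : ValuationSubring Kbar)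

theorem h52q_coeff_a₁ : (W'⁄Kbar).a₁ = algebraMap ℚ Kbar W'.a₁ := rfl
theorem h52q_coeff_a₂ : (W'⁄Kbar).a₂ = algebraMap ℚ Kbar W'.a₂ := rfl
theorem h52q_coeff_a₃ : (W'⁄Kbar).a₃ = algebraMap ℚ Kbar W'.a₃ := rfl
theorem h52q_coeff_a₄ : (W'⁄Kbar).a₄ = algebraMap ℚ Kbar W'.a₄ := rfl
theorem h52q_coeff_a₆ : (W'⁄Kbar).a₆ = algebraMap ℚ Kbar W'.a₆ := rfl

/-- integrality from integrality of the rational coefficients. -/
theorem h52q_int_of_mem (h₁ : algebraMap ℚ Kbar W'.a₁ ∈ A) (h₂ : algebraMap ℚ Kbar W'.a₂ ∈ A)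
    (h₃ : algebraMap ℚ Kbar W'.a₃ ∈ A) (h₄ : algebraMap ℚ Kbar W'.a₄ ∈ A)
    (h₆ : algebraMap ℚ Kbar W'.a₆ ∈ A) : H52qInt W' A :=
  ⟨h₁, h₂, h₃, h₄, h₆⟩

/-- the S05 short nodal models are integral. -/
theorem h52q_int_of_isShortNodal {p : ℕ} (h : IsShortNodal A p W') : H52qInt W' A := by
  obtain ⟨π, u, e, hπ, -, hu⟩ := h.a₄
  refine h52q_int_of_mem W' A ?_ h.a₂_unit.mem ?_ ?_ ?_
  · rw [h.a₁, map_zero]; exact zero_mem A
  · rw [h.a₃, map_zero]; exact zero_mem A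
  · rw [e, map_mul, map_pow]
    exact mul_mem hu.mem (pow_mem (K56.mem_of_mem_nonunits A hπ) p)
  · rw [h.a₆, map_zero]; exact zero_mem A

/-- the S05 good models are integral. -/
theorem h52q_int_of_isGoodModel (h : IsGoodModel A W') : H52qInt W' A :=
  h52q_int_of_mem W' A h.a₁ h.a₂ h.a₃ h.a₄ h.a₆

/-- models over `ℤ` are integral (the case of `P7/H8LocWInst.lean`). -/
theorem h52q_int_of_int (W : WeierstrassCurve ℤ) :
    H52qInt (W.map (Int.castRingHom ℚ)) A :=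
  ⟨h8w_a₁_mem W A, h8w_a₂_mem W A, h8w_a₃_mem W A, h8w_a₄_mem W A, h8w_a₆_mem W A⟩

end Int

section Defs

variable (W' : WeierstrassCurve ℚ) (A : ValuationSubring Kbar)

/-- the kernel of reduction at `A`. -/
def h52qE1 (h : H52qInt W' A) : AddSubgroup (h52qPt W') :=
  kernelOfReduction A h.a₁ h.a₂ h.a₃ h.a₄ h.a₆

theorem h52q_mem_E1 (h : H52qInt W' A) {P : h52qPt W'} : P ∈ h52qE1 W' A h ↔ InE1 A P :=
  Iff.rfl

open Classical in
/-- the coordinate `z = -x/y` on the kernel of reduction, zero outside. -/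
def h52qZ : h52qPt W' → Kbar := fun P => if InE1 A P then K56.zcoord P else 0

theorem h52qZ_pos {P : h52qPt W'} (h : InE1 A P) : h52qZ W' A P = K56.zcoord P := by
  unfold h52qZ
  rw [if_pos h]

theorem h52qZ_neg {P : h52qPt W'} (h : ¬ InE1 A P) : h52qZ W' A P = 0 := by
  unfold h52qZ
  rw [if_neg h]

end Defs

section Fields

variable (W' : WeierstrassCurve ℚ) (A : ValuationSubring Kbar)

/-- **field `z_out`.** -/
theorem h52q_z_out (h : H52qInt W' A) : ∀ x, x ∉ h52qE1 W' A h → h52qZ W' A x = 0 :=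
  fun _ hx => h52qZ_neg W' A hx

/-- the coordinate of a point of the kernel of reduction is a non-unit. -/
theorem h52q_z_nonunit (h : H52qInt W' A) {P : h52qPt W'} (hP : InE1 A P) :
    h52qZ W' A P ∈ A.nonunits := by
  rw [h52qZ_pos W' A hP]
  exact K56.zcoord_mem_nonunits A _ h.a₁ h.a₂ h.a₃ h.a₄ h.a₆ hP

/-- **field `z_int`.** -/
theorem h52q_z_int (h : H52qInt W' A) : ∀ x, h52qZ W' A x ∈ A := by
  intro x
  by_cases hx : InE1 A x
  · exact K56.mem_of_mem_nonunits A (h52q_z_nonunit W' A h hx)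
  · rw [h52qZ_neg W' A hx]
    exact zero_mem A

/-- **field `z_inj`.** -/
theorem h52q_z_inj (h : H52qInt W' A) :
    ∀ x ∈ h52qE1 W' A h, ∀ y ∈ h52qE1 W' A h, h52qZ W' A x = h52qZ W' A y → x = y := by
  intro x hx y hy e
  rw [h52qZ_pos W' A hx, h52qZ_pos W' A hy] at e
  exact h34i_zcoord_inj A (W'⁄Kbar) h.a₁ h.a₂ h.a₃ h.a₄ h.a₆ hx hy e

/-- the kernel of reduction is stable under the decomposition group (both directions). -/
theorem h52q_inE1_smul_iff {τ : GQ} (hτ : τ ∈ A.decompositionSubgroup ℚ) (P : h52qPt W') :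
    InE1 A (τ • P) ↔ InE1 A P :=
  h34i_inE1_smul_iff (R := ℚ) (S := ℚ) (K := Kbar) W'.toAffine A hτ

/-- **field `E_decomp`.** -/
theorem h52q_E_decomp (h : H52qInt W' A) :
    ∀ τ ∈ A.decompositionSubgroup ℚ, ∀ x ∈ h52qE1 W' A h, τ • x ∈ h52qE1 W' A h :=
  fun _ hτ x hx => (h52q_inE1_smul_iff W' A hτ x).2 hx

/-- the chart coordinate is Galois equivariant. -/
theorem h52q_zcoord_smul (τ : GQ) (P : h52qPt W') :
    K56.zcoord (τ • P) = τ (K56.zcoord P) :=
  h34i_zcoord_smul (R := ℚ) (S := ℚ) (K := Kbar) W'.toAffine τ P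

/-- **field `z_decomp`.** -/
theorem h52q_z_decomp :
    ∀ τ ∈ A.decompositionSubgroup ℚ, ∀ x : h52qPt W', h52qZ W' A (τ • x) = τ (h52qZ W' A x) := by
  intro τ hτ P
  by_cases hP : InE1 A P
  · rw [h52qZ_pos W' A hP, h52qZ_pos W' A ((h52q_inE1_smul_iff W' A hτ P).2 hP),
      h52q_zcoord_smul]
  · rw [h52qZ_neg W' A hP, h52qZ_neg W' A (fun h => hP ((h52q_inE1_smul_iff W' A hτ P).1 h)),
      map_zero]

/-- the restriction of `h52qZ` to a subset of `E¹` is the restriction of `zcoord`. -/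
theorem h52qR_eq {S : Set (h52qPt W')} (hS : ∀ P ∈ S, InE1 A P) :
    h8wR A (h52qZ W' A) S = Algebra.adjoin A {fun x : ↥S => K56.zcoord (x : h52qPt W')} := by
  unfold h8wR
  congr 2
  funext x
  exact h52qZ_pos W' A (hS _ x.2)

/-- **field `add`** (`A` over a prime): the pointwise group law in the product algebra. -/
theorem h52q_add {ℓ : ℕ} (hℓ : ℓ.Prime) (hA : A.LiesOverPrime ℓ) (h : H52qInt W' A) :
    ∀ S S' : Set (h52qPt W'), S.Finite → S'.Finite → S ⊆ (h52qE1 W' A h : Set (h52qPt W')) →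
      S' ⊆ (h52qE1 W' A h : Set (h52qPt W')) →
      (fun p : ↥S × ↥S' => h52qZ W' A ((p.1 : h52qPt W') + (p.2 : h52qPt W'))) ∈
        h96c_prod A (h8wR A (h52qZ W' A) S) (h8wR A (h52qZ W' A) S') := by
  intro S S' hS hS' hSE hS'E
  have hSE' : ∀ P ∈ S, InE1 A P := fun P hP => hSE hP
  have hS'E' : ∀ P ∈ S', InE1 A P := fun P hP => hS'E hP
  exact h34j_add_qbar A hℓ hA (W'⁄Kbar) h.a₁ h.a₂ h.a₃ h.a₄ h.a₆ (h52qZ W' A)
    (fun P hP => h52qZ_pos W' A hP) S S' hS hS' hSE' hS'E'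

end Fields

section Ker

variable (W' : WeierstrassCurve ℚ) (A : ValuationSubring Kbar)

/-- **LM3, torsion-restricted assembly**: the six fields + the two inputs of leaf LM2 on the
`m`-torsion give the inputs `H9mKer` of the torsion-restricted order step. -/
theorem h52q_ker_tors {ℓ : ℕ} (hℓ : ℓ.Prime) (hA : A.LiesOverPrime ℓ) (h : H52qInt W' A)
    (m : ℤ)
    (inert : ∀ σ ∈ A.inertiaSubgroupIn ℚ, ∀ P : h52qPt W', m • P = 0 → InE1 A (σ • P - P))
    (lift : ∀ P : h52qPt W', m • P = 0 → ∃ c₀ : h52qPt W',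
      (∀ σ ∈ A.inertiaSubgroupIn ℚ, σ • c₀ = c₀) ∧ InE1 A (P - c₀)) :
    H9mKer A (h52qE1 W' A h) (h52qZ W' A) m where
  z_out := h52q_z_out W' A h
  z_int := h52q_z_int W' A h
  z_inj := h52q_z_inj W' A h
  z_decomp := h52q_z_decomp W' A
  E_decomp := h52q_E_decomp W' A h
  inert := inert
  lift := lift
  add := h52q_add W' A hℓ hA h

/-- **LM3, unrestricted assembly** (shape of `P7/H8LocWInst.lean`, for a `ℚ`-model). -/
theorem h52q_ker {ℓ : ℕ} (hℓ : ℓ.Prime) (hA : A.LiesOverPrime ℓ) (h : H52qInt W' A)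
    (inert : ∀ σ ∈ A.inertiaSubgroupIn ℚ, ∀ P : h52qPt W', InE1 A (σ • P - P))
    (lift : ∀ P : h52qPt W', ∃ c₀ : h52qPt W',
      (∀ σ ∈ A.inertiaSubgroupIn ℚ, σ • c₀ = c₀) ∧ InE1 A (P - c₀)) :
    H8wKer A (h52qE1 W' A h) (h52qZ W' A) where
  z_out := h52q_z_out W' A h
  z_int := h52q_z_int W' A h
  z_inj := h52q_z_inj W' A h
  z_decomp := h52q_z_decomp W' A
  E_decomp := h52q_E_decomp W' A h
  inert := inert
  lift := lift
  add := h52q_add W' A hℓ hA h

end Ker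

section Fin

variable (W' : WeierstrassCurve ℚ)

/-- the torsion of a `ℚ`-model is finite. -/
theorem h52q_finite (hΔ : W'.Δ ≠ 0) (n : ℕ) (hn : n ≠ 0) : Finite (h8wT (h52qPt W') (n : ℤ)) :=
  Fermat.Agent.Tors.finite_torsionBy_qbar W' hΔ n hn

/-- **FIN** for a `ℚ`-model: the Galois action on `W'[n]` is a continuous action. -/
theorem h52q_isGalAct (hΔ : W'.Δ ≠ 0) (n : ℕ) (hn : n ≠ 0) :
    H98pIsGalAct (h8wAct (𝔾 := h52qPt W') (n : ℤ)) where
  one := fun x => Subtype.ext (one_smul GQ (x : h52qPt W'))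
  mul := fun σ τ x => Subtype.ext (mul_smul σ τ (x : h52qPt W'))
  add := fun σ x y => Subtype.ext (smul_add σ (x : h52qPt W') (y : h52qPt W'))
  cont := by
    haveI : Finite (Fermat.Agent.S13.Tors W' n) := h52q_finite W' hΔ n hn
    haveI : Algebra.IsAlgebraic ℚ Kbar := AlgebraicClosure.isAlgebraic ℚ
    obtain ⟨S₁, hS₁⟩ := Fermat.Agent.S13.Asm.exists_finset_fix (W := W') (p := n)
    refine ⟨IntermediateField.adjoin ℚ (S₁ : Set Kbar),
      IntermediateField.finiteDimensional_adjoin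
        (fun x _ => (Algebra.IsIntegral.isIntegral x)), ?_⟩
    intro σ hσ x
    have h1 := hS₁ σ (fun s hs => hσ s (IntermediateField.subset_adjoin ℚ _ hs)) x
    exact h1

/-- the local order on `W'[n]` from the torsion-restricted inputs. -/
theorem h52q_locOrder_tors (hΔ : W'.Δ ≠ 0) (A : ValuationSubring Kbar) {ℓ : ℕ} (hℓ : ℓ.Prime)
    (hA : A.LiesOverPrime ℓ) (h : H52qInt W' A) (n : ℕ) (hn : n ≠ 0)
    (inert : ∀ σ ∈ A.inertiaSubgroupIn ℚ, ∀ P : h52qPt W', (n : ℤ) • P = 0 →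
      InE1 A (σ • P - P))
    (lift : ∀ P : h52qPt W', (n : ℤ) • P = 0 → ∃ c₀ : h52qPt W',
      (∀ σ ∈ A.inertiaSubgroupIn ℚ, σ • c₀ = c₀) ∧ InE1 A (P - c₀)) :
    H96LocOrder A (h8wAct (𝔾 := h52qPt W') (n : ℤ))
      (h8wG A (h52qE1 W' A h) (h52qZ W' A) (n : ℤ)) := by
  haveI : Finite (h8wT (h52qPt W') (n : ℤ)) := h52q_finite W' hΔ n hn
  exact h9m_locOrder (h52q_ker_tors W' A hℓ hA h (n : ℤ) inert lift)

/-- **LOCAL for a `ℚ`-model, conditional on the two torsion-restricted inputs of LM2**: if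
inertia at ONE `A` over `p` acts trivially modulo `E¹` on `W'[n]` and every point of `W'[n]` has
an inertia-fixed lift modulo `E¹`, then `W'[n]` is flat at `p` (the shape `h97c_Flat`). -/
theorem h52q_flat_tors (hΔ : W'.Δ ≠ 0) (p : ℕ) [hp : Fact p.Prime] (n : ℕ) (hn : n ≠ 0)
    (A : ValuationSubring Kbar) (hA : A.LiesOverPrime p) (h : H52qInt W' A)
    (inert : ∀ σ ∈ A.inertiaSubgroupIn ℚ, ∀ P : h52qPt W', (n : ℤ) • P = 0 →
      InE1 A (σ • P - P))
    (lift : ∀ P : h52qPt W', (n : ℤ) • P = 0 → ∃ c₀ : h52qPt W',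
      (∀ σ ∈ A.inertiaSubgroupIn ℚ, σ • c₀ = c₀) ∧ InE1 A (P - c₀)) :
    h97c_Flat p (h8wT (h52qPt W') (n : ℤ)) (h8wAct (𝔾 := h52qPt W') (n : ℤ)) := by
  haveI : Finite (h8wT (h52qPt W') (n : ℤ)) := h52q_finite W' hΔ n hn
  have hO := h52q_locOrder_tors W' hΔ A hp.out hA h n hn inert lift
  exact h87x_adapter p _ _ (h98f_descent p _ _ (h52q_isGalAct W' hΔ n hn) A hA _ hO)

end Fin

end Fermat.Agent.P7
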