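import Fermat.Agent.P7.H39GenusWH
import Fermat.Agent.P7.H66Count
import Fermat.Agent.Jac.SelC

/-!
# Wave 7, block (A), LATTICE leaf L1 (analytic → `FC M`), row LAT-1-AN (helper52, prefix `h52l_`)

For a tuple `t` of `Γ₀(M)` in the sense of `S21/E` and `m ≥ d_k` for all `k`, there is a
`ℂ`-linearly independent family of `(m + 1) μ - t.total` elements `F` of `FC M`
(`μ = [SL(2,ℤ) : Γ₀(M)]`) lying in `L_ℂ(m (j)_∞)`:
`0 ≤ v.ord F + m * max 0 (- v.ord (jC M))` for every place `v` of `FC M` over `ℂ`.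

Short assembly of landed material:
* `h66g_count` (helper66): the functions `j ^ a * v_k`, `a + d_k ≤ m`, weakly holomorphic of
  degree `≤ m` and linearly independent;
* `h39o_k1_max` / `h39o_k1_min` (helper39): a weakly holomorphic function of degree `≤ m` is an
  element of `FC M` in `L_ℂ(m (j)_∞)`;
* `Jac.h29_eq_zero_of_hasTExp_zero`: the expansion is injective.

* `h52l_indep_of_hasTExp` : linear independence passes from functions to their expansions.
* `h52l_latAn`        : the leaf, `max` form, indexed by `Fin ((m + 1) * card - t.total)`.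
* `h52l_latAn_index`  : the same with `(Gamma0 M).index`.
* `h52l_latAn_min`    : `min` form `m * min 0 (v.ord j) ≤ v.ord F`.
* `h52l_latAn_inLC`   : in the vocabulary `H15gInLC` of `P7/H15GenusIface.lean`.
-/

set_option autoImplicit false
set_option linter.style.haveILetI false

open UpperHalfPlane hiding I
open Complex Filter Function Topology CongruenceSubgroup AlgebraicCurve
open scoped Manifold MatrixGroups ModularForm Real

noncomputable section

namespace Fermat.Agent.P7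

open Fermat.Agent.S21.E
open Fermat.Agent.S28 (HasTExp)
open Fermat.Agent.Jac (FC jC)

/-- linear independence passes from functions on `ℍ` to their expansions in `FC M`. -/
theorem h52l_indep_of_hasTExp (M : ℕ) [NeZero M] {ι : Type} [Fintype ι] (w : ι → ℍ → ℂ)
    (F : ι → FC M) (hF : ∀ i, HasTExp 1 (w i) ((F i : FC M) : LaurentSeries ℂ))
    (hw : LinearIndependent ℂ w) : LinearIndependent ℂ F := by
  classical
  rw [Fintype.linearIndependent_iff] at hw ⊢
  intro c hc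
  apply hw c
  have hsum : HasTExp 1 (∑ i, fun τ => c i * w i τ)
      (∑ i, HahnSeries.C (c i) * ((F i : FC M) : LaurentSeries ℂ)) :=
    HasTExp.finset_sum Finset.univ fun i _ => (hF i).const_mul one_pos (c i)
  have hzero : (∑ i, HahnSeries.C (c i) * ((F i : FC M) : LaurentSeries ℂ)) = 0 := by
    have h := congrArg (fun x : FC M => (x : LaurentSeries ℂ)) hc
    simp only [AddSubmonoidClass.coe_finsetSum, ZeroMemClass.coe_zero,
      IntermediateField.coe_smul] at h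
    rw [← h]
    refine Finset.sum_congr rfl fun i _ => ?_
    rw [Algebra.smul_def, LaurentSeries.algebraMap_apply ℂ (c i)]
  rw [hzero] at hsum
  have hfun := Fermat.Agent.Jac.h29_eq_zero_of_hasTExp_zero hsum
  funext z
  have := congrFun hfun z
  simpa [Finset.sum_apply] using this

/-- **LAT-1-AN**, `min` form. -/
theorem h52l_latAn_min (M : ℕ) [NeZero M] [Fintype (SL(2, ℤ) ⧸ Gamma0 M)]
    [DecidableEq (SL(2, ℤ) ⧸ Gamma0 M)] (t : Tuple (Gamma0 M)) (m : ℕ)
    (hm : ∀ k, t.d k ≤ m) :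
    ∃ F : Fin ((m + 1) * Fintype.card (SL(2, ℤ) ⧸ Gamma0 M) - t.total) → FC M,
      LinearIndependent ℂ F ∧
        ∀ i, ∀ v : Place ℂ (FC M), (m : ℤ) * min 0 (v.ord (jC M)) ≤ v.ord (F i) := by
  obtain ⟨w, hw1, hw2⟩ := h66g_count t m hm
  choose F hF1 hF2 using fun i => h39o_k1_min M m (w i) (hw1 i)
  exact ⟨F, h52l_indep_of_hasTExp M w F hF1 hw2, hF2⟩

/-- **LAT-1-AN** (row shape): for `t : S21.E.Tuple (Gamma0 M)` and `m ≥ d_k` for all `k` there
is a `ℂ`-linearly independent family of `(m + 1) * μ - t.total` elements `F` of `FC M` with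
`0 ≤ v.ord F + m * max 0 (- v.ord (jC M))` at every place `v`. -/
theorem h52l_latAn (M : ℕ) [NeZero M] [Fintype (SL(2, ℤ) ⧸ Gamma0 M)]
    [DecidableEq (SL(2, ℤ) ⧸ Gamma0 M)] (t : Tuple (Gamma0 M)) (m : ℕ)
    (hm : ∀ k, t.d k ≤ m) :
    ∃ F : Fin ((m + 1) * Fintype.card (SL(2, ℤ) ⧸ Gamma0 M) - t.total) → FC M,
      LinearIndependent ℂ F ∧
        ∀ i, ∀ v : Place ℂ (FC M), 0 ≤ v.ord (F i) + (m : ℤ) * max 0 (- v.ord (jC M)) := by
  obtain ⟨F, hF, hv⟩ := h52l_latAn_min M t m hm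
  refine ⟨F, hF, fun i v => ?_⟩
  have h := hv i v
  rcases le_or_gt 0 (v.ord (jC M)) with h0 | h0
  · rw [max_eq_left (by linarith), mul_zero, add_zero]
    rw [min_eq_left h0, mul_zero] at h
    exact h
  · rw [max_eq_right (by linarith)]
    rw [min_eq_right h0.le] at h
    linarith

/-- `Fintype.card (SL(2,ℤ) ⧸ Γ) = Γ.index`. -/
theorem h52l_card_eq_index (Γ : Subgroup SL(2, ℤ)) [Fintype (SL(2, ℤ) ⧸ Γ)] :
    Fintype.card (SL(2, ℤ) ⧸ Γ) = Γ.index := by
  rw [Subgroup.index_eq_card, Nat.card_eq_fintype_card]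

/-- **LAT-1-AN** with the index `μ = (Gamma0 M).index`. -/
theorem h52l_latAn_index (M : ℕ) [NeZero M] [Fintype (SL(2, ℤ) ⧸ Gamma0 M)]
    [DecidableEq (SL(2, ℤ) ⧸ Gamma0 M)] (t : Tuple (Gamma0 M)) (m : ℕ)
    (hm : ∀ k, t.d k ≤ m) :
    ∃ F : Fin ((m + 1) * (Gamma0 M).index - t.total) → FC M,
      LinearIndependent ℂ F ∧
        ∀ i, ∀ v : Place ℂ (FC M), 0 ≤ v.ord (F i) + (m : ℤ) * max 0 (- v.ord (jC M)) := by
  rw [← h52l_card_eq_index (Gamma0 M)]
  exact h52l_latAn M t m hm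

/-- **LAT-1-AN** in the vocabulary `H15gInLC` of `P7/H15GenusIface.lean`. -/
theorem h52l_latAn_inLC (M : ℕ) [NeZero M] [Fintype (SL(2, ℤ) ⧸ Gamma0 M)]
    [DecidableEq (SL(2, ℤ) ⧸ Gamma0 M)] (t : Tuple (Gamma0 M)) (m : ℕ)
    (hm : ∀ k, t.d k ≤ m) :
    ∃ F : Fin ((m + 1) * (Gamma0 M).index - t.total) → FC M,
      LinearIndependent ℂ F ∧ ∀ i, H15gInLC M m (F i) := by
  rw [← h52l_card_eq_index (Gamma0 M)]
  obtain ⟨F, hF, hv⟩ := h52l_latAn_min M t m hm
  exact ⟨F, hF, fun i v => Or.inr (hv i v)⟩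

/-- **LAT-1-AN** for the dimension count: `r` independent elements of `L_ℂ(m (j)_∞)` with
`(m + 1) μ ≤ r + t.total` (no subtraction). -/
theorem h52l_latAn_count (M : ℕ) [NeZero M] [Fintype (SL(2, ℤ) ⧸ Gamma0 M)]
    [DecidableEq (SL(2, ℤ) ⧸ Gamma0 M)] (t : Tuple (Gamma0 M)) (m : ℕ)
    (hm : ∀ k, t.d k ≤ m) :
    ∃ (r : ℕ) (F : Fin r → FC M), (m + 1) * (Gamma0 M).index ≤ r + t.total ∧
      LinearIndependent ℂ F ∧
        ∀ i, ∀ v : Place ℂ (FC M), 0 ≤ v.ord (F i) + (m : ℤ) * max 0 (- v.ord (jC M)) := by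
  obtain ⟨F, hF, hv⟩ := h52l_latAn_index M t m hm
  exact ⟨_, F, by omega, hF, hv⟩

end Fermat.Agent.P7
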