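import Fermat.Agent.P7.H23Break
import Fermat.Agent.S36.H23Tame
import Fermat.Agent.S05.FreyArith

/-!
# P7 (wave 7, row 38 via S44), block LOCAL-FREY, leaf S44-ZT (helper52)

GLOBAL frame: `A` a valuation subring of `ℚ̄` over the odd prime `p`, `I = A.inertiaSubgroupIn ℚ`,
`I₁ = h23vI1 p A` (inertia trivial on `μ_p`), `v = A.valuation`, `ζ` a `p`-th root of unity `≠ 1`.

**`h52z_val_eq`** (the frozen row S44-ZT): let `t ≠ 0` be a non-unit of `A` such that
* (i) `t` is fixed by `I₁`;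
* (ii) `v(p) ≤ v(t) ^ 2`;
* (iii) for every `a ∈ I` acting on `μ_p` by `μ ↦ μ ^ e` there is `c : ℕ`, `c ≡ 1` or `c ≡ e`
  modulo `p`, with `v(a t - c t) ≤ v(t) ^ 3`.
Then `v(t) = v(ζ - 1)`.

(Application: `t = z(T)` the chart coordinate of a nonzero `p`-torsion point `T` of the kernel
of reduction of a Weierstrass curve; (iii) holds because `a T ∈ {T, e T}` and
`z(c T) ≡ c z(T)` modulo `z(T)^3`.)

Proof: `v(t) = v(ζ - 1) ^ n` with `1 ≤ n`, `2 n ≤ p - 1` (value group of `Fix(I₁)`, landed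
`h23v_val`, `h23w_val_zeta`); for `a ∈ I` with `a ζ = ζ ^ g`, `g` a primitive root modulo `p`
(landed transitivity `S36.h23t_cyc`), `a t / t ≡ g ^ n` modulo `𝔪_A`, hence `g ^ n ≡ 1` or
`g ^ n ≡ g` modulo `p`, which forces `n = 1`.

Auxiliary statements of independent use: `h52z_val_pow` (`v(t) = v(ζ - 1) ^ n`, `1 ≤ n`, for
every non-unit `t ≠ 0` fixed by `I₁`), `h52z_inertia_ratio` (`a t - e ^ n t ∈ t 𝔪_A`),
`h52z_exists_primitive` (an element of `I` acting on `μ_p` through a primitive root).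
-/

set_option autoImplicit false
set_option linter.style.haveILetI false
set_option linter.unusedSectionVars false

open Fermat.Agent.PT.Loc Fermat.Agent.S56F Fermat.Agent.PT.Bridge

noncomputable section

namespace Fermat.Agent.P7

/-! ## order lemmas in the value group -/

section Order

variable {Γ : Type*} [LinearOrderedCommGroupWithZero Γ]

theorem h52z_pow_eq_one {x : Γ} {k : ℕ} (hk : k ≠ 0) (h : x ^ k = 1) : x = 1 := by
  rcases lt_trichotomy x 1 with h1 | h1 | h1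
  · exact absurd h ((pow_lt_one_iff hk).mpr h1).ne
  · exact h1
  · exact absurd h (one_lt_pow₀ h1 hk).ne'

theorem h52z_pow_inj {x y : Γ} (hy : y ≠ 0) {k : ℕ} (hk : k ≠ 0) (h : x ^ k = y ^ k) :
    x = y := by
  have h1 : (x * y⁻¹) ^ k = 1 := by
    rw [mul_pow, inv_pow, h, mul_inv_cancel₀ (pow_ne_zero k hy)]
  have h2 := h52z_pow_eq_one hk h1
  calc x = x * y⁻¹ * y := by rw [mul_assoc, inv_mul_cancel₀ hy, mul_one]
    _ = y := by rw [h2, one_mul]

theorem h52z_pow_lt {a : Γ} (h0 : a ≠ 0) (h1 : a < 1) {m n : ℕ} (h : m < n) :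
    a ^ n < a ^ m := by
  obtain ⟨d, rfl⟩ := Nat.exists_eq_add_of_lt h
  have hd : a ^ (d + 1) < 1 := (pow_lt_one_iff (Nat.succ_ne_zero d)).mpr h1
  have hm : 0 < a ^ m := zero_lt_iff.mpr (pow_ne_zero m h0)
  calc a ^ (m + d + 1) = a ^ m * a ^ (d + 1) := by rw [add_assoc, pow_add]
    _ < a ^ m * 1 := by
      exact mul_lt_mul_of_pos_left hd hm
    _ = a ^ m := mul_one _

end Order

/-! ## the maximal ideal -/

section Ideal

variable {A : ValuationSubring Qb}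

theorem h52z_mem_iff {x : Qb} : x ∈ A.nonunits ↔ A.valuation x < 1 :=
  ValuationSubring.mem_nonunits_iff A

theorem h52z_add {x y : Qb} (hx : x ∈ A.nonunits) (hy : y ∈ A.nonunits) :
    x + y ∈ A.nonunits := by
  rw [h52z_mem_iff] at hx hy ⊢
  exact lt_of_le_of_lt (A.valuation.map_add x y) (max_lt hx hy)

theorem h52z_neg {x : Qb} (hx : x ∈ A.nonunits) : -x ∈ A.nonunits := by
  rw [h52z_mem_iff] at hx ⊢
  rwa [Valuation.map_neg]

theorem h52z_sub {x y : Qb} (hx : x ∈ A.nonunits) (hy : y ∈ A.nonunits) :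
    x - y ∈ A.nonunits := by
  rw [sub_eq_add_neg]
  exact h52z_add hx (h52z_neg hy)

theorem h52z_mul {x y : Qb} (hx : x ∈ A) (hy : y ∈ A.nonunits) : x * y ∈ A.nonunits := by
  rw [h52z_mem_iff] at hy ⊢
  have hx' : A.valuation x ≤ 1 := (A.valuation_le_one_iff x).mpr hx
  rw [map_mul]
  calc A.valuation x * A.valuation y ≤ 1 * A.valuation y := mul_le_mul_left hx' _
    _ = A.valuation y := one_mul _
    _ < 1 := hy

theorem h52z_mul' {x y : Qb} (hx : x ∈ A.nonunits) (hy : y ∈ A) : x * y ∈ A.nonunits := by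
  rw [mul_comm]
  exact h52z_mul hy hx

theorem h52z_mem_of_nonunit {x : Qb} (hx : x ∈ A.nonunits) : x ∈ A :=
  (A.valuation_le_one_iff x).mp (h52z_mem_iff.mp hx).le

/-- `s ^ N - e ^ N ∈ 𝔪` if `s - e ∈ 𝔪` (`s, e ∈ A`). -/
theorem h52z_pow_sub_pow {s e : Qb} (hs : s ∈ A) (he : e ∈ A) (h : s - e ∈ A.nonunits)
    (N : ℕ) : s ^ N - e ^ N ∈ A.nonunits := by
  induction N with
  | zero =>
    rw [pow_zero, pow_zero, sub_self]
    exact h52z_mem_iff.mpr (by rw [map_zero]; exact zero_lt_one)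
  | succ N ih =>
    have e1 : s ^ (N + 1) - e ^ (N + 1) = s * (s ^ N - e ^ N) + (s - e) * e ^ N := by ring
    rw [e1]
    exact h52z_add (h52z_mul hs ih) (h52z_mul' h (pow_mem he N))

end Ideal

variable {p : ℕ} [Fact p.Prime]

/-! ## the value group of `Fix(I₁)` in terms of `ζ - 1` -/

theorem h52z_primitive {ζ : Qb} (hζ : ζ ^ p = 1) (hζ1 : ζ ≠ 1) : IsPrimitiveRoot ζ p := by
  have hp : p.Prime := Fact.out
  have h := orderOf_eq_prime hζ hζ1
  rw [← h]
  exact IsPrimitiveRoot.orderOf ζ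

theorem h52z_val_p_lt (A : ValuationSubring Qb) (hA : A.LiesOverPrime p) :
    A.valuation (p : Qb) < 1 :=
  h52z_mem_iff.mp hA

theorem h52z_val_zeta_lt (A : ValuationSubring Qb) (hA : A.LiesOverPrime p)
    {ζ : Qb} (hζ : IsPrimitiveRoot ζ p) : A.valuation (ζ - 1) < 1 := by
  have hp : p.Prime := Fact.out
  have h1 := h23w_val_zeta A hA hζ
  by_contra hge
  rw [not_lt] at hge
  have h2 : (1 : A.ValueGroup) ≤ A.valuation (ζ - 1) ^ (p - 1) := one_le_pow₀ hge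
  rw [h1] at h2
  exact absurd (h52z_val_p_lt A hA) (not_lt.mpr h2)

theorem h52z_val_zeta_ne (A : ValuationSubring Qb) {ζ : Qb} (hζ : IsPrimitiveRoot ζ p) :
    A.valuation (ζ - 1) ≠ 0 := by
  have hp : p.Prime := Fact.out
  exact (Valuation.ne_zero_iff _).mpr (sub_ne_zero.mpr (hζ.ne_one hp.one_lt))

/-- **the value group of `Fix(I₁)`**: a non-unit `t ≠ 0` fixed by `I₁` has
`v(t) = v(ζ - 1) ^ n` with `1 ≤ n`. -/
theorem h52z_val_pow (hp2 : p ≠ 2) (A : ValuationSubring Qb) (hA : A.LiesOverPrime p)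
    {ζ : Qb} (hζ : IsPrimitiveRoot ζ p) {t : Qb} (ht : t ∈ A.nonunits) (ht0 : t ≠ 0)
    (hfix : ∀ a ∈ h23vI1 p A, a t = t) :
    ∃ n : ℕ, 1 ≤ n ∧ A.valuation t = A.valuation (ζ - 1) ^ n := by
  have hp : p.Prime := Fact.out
  have hp1 : p - 1 ≠ 0 := by have := hp.two_le; omega
  obtain ⟨n, hn⟩ := h23v_val hp2 A hA ht0 hfix
  have hπ := h23w_val_zeta A hA hζ
  have htlt : A.valuation t < 1 := h52z_mem_iff.mp ht
  have htp : A.valuation t ^ (p - 1) < 1 := (pow_lt_one_iff hp1).mpr htlt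
  have hplt := h52z_val_p_lt A hA
  have hp0 : A.valuation (p : Qb) ≠ 0 :=
    (Valuation.ne_zero_iff _).mpr (by exact_mod_cast hp.ne_zero)
  -- `n ≥ 1`
  have hn1 : 1 ≤ n := by
    by_contra hcon
    rw [not_le] at hcon
    have hn0 : n ≤ 0 := by omega
    obtain ⟨k, hk⟩ : ∃ k : ℕ, n = -(k : ℤ) := ⟨(-n).toNat, by omega⟩
    rw [hk, zpow_neg, zpow_natCast] at hn
    have h1 : A.valuation (p : Qb) ^ k ≤ 1 := pow_le_one₀ zero_le hplt.le
    have h2 : (1 : A.ValueGroup) ≤ (A.valuation (p : Qb) ^ k)⁻¹ :=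
      (one_le_inv₀ (zero_lt_iff.mpr (pow_ne_zero k hp0))).mpr h1
    rw [← hn] at h2
    exact absurd htp (not_lt.mpr h2)
  obtain ⟨N, rfl⟩ : ∃ N : ℕ, n = (N : ℤ) := ⟨n.toNat, by omega⟩
  rw [zpow_natCast] at hn
  refine ⟨N, by exact_mod_cast hn1, ?_⟩
  have hπ0 := h52z_val_zeta_ne A hζ
  apply h52z_pow_inj (pow_ne_zero N hπ0) hp1
  rw [hn, ← hπ, ← pow_mul, ← pow_mul, mul_comm]

/-! ## inertia -/

/-- an element of the inertia group acting on `μ_p` through a primitive root modulo `p`. -/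
theorem h52z_exists_primitive (A : ValuationSubring Qb) (hA : A.LiesOverPrime p)
    {ζ : Qb} (hζ : IsPrimitiveRoot ζ p) :
    ∃ g : (ZMod p)ˣ, orderOf g = p - 1 ∧ ∃ a ∈ A.inertiaSubgroupIn ℚ,
      a ζ = ζ ^ (g : ZMod p).val ∧ ∀ μ : Qb, μ ^ p = 1 → a μ = μ ^ (g : ZMod p).val := by
  have hp : p.Prime := Fact.out
  obtain ⟨g, hg⟩ := IsCyclic.exists_generator (α := (ZMod p)ˣ)
  have hord : orderOf g = p - 1 := by
    rw [orderOf_eq_card_of_forall_mem_zpowers hg, Nat.card_eq_fintype_card, ZMod.card_units]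
  have hcop : Nat.Coprime (g : ZMod p).val p := by
    have h1 : IsUnit (((g : ZMod p).val : ℕ) : ZMod p) := by
      rw [ZMod.natCast_zmod_val]
      exact g.isUnit
    exact (ZMod.isUnit_iff_coprime _ _).mp h1
  obtain ⟨a, ha, haζ⟩ :=
    Fermat.Agent.S36.h23t_cyc hp A hA hζ (hζ.pow_of_coprime _ hcop)
  refine ⟨g, hord, a, ha, haζ, fun μ hμ => ?_⟩
  obtain ⟨k, -, rfl⟩ := hζ.eq_pow_of_pow_eq_one hμ
  rw [map_pow, haζ, ← pow_mul, ← pow_mul, mul_comm]

/-- `(ζ ^ e - 1) = s (ζ - 1)` with `s ≡ e` modulo `𝔪_A`. -/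
theorem h52z_geom (A : ValuationSubring Qb) (hA : A.LiesOverPrime p)
    {ζ : Qb} (hζ : IsPrimitiveRoot ζ p) (e : ℕ) :
    ∃ s : Qb, s ∈ A ∧ ζ ^ e - 1 = s * (ζ - 1) ∧ s - (e : Qb) ∈ A.nonunits := by
  have hp : p.Prime := Fact.out
  have hζA : ζ ∈ A := Fermat.Agent.S36.h23t_root_mem hp A hζ
  have hπ : ζ - 1 ∈ A.nonunits := h52z_mem_iff.mpr (h52z_val_zeta_lt A hA hζ)
  refine ⟨∑ i ∈ Finset.range e, ζ ^ i, sum_mem fun i _ => pow_mem hζA i,
    (geom_sum_mul ζ e).symm, ?_⟩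
  have h1 : (∑ i ∈ Finset.range e, ζ ^ i) - (e : Qb) = ∑ i ∈ Finset.range e, (ζ ^ i - 1) := by
    rw [Finset.sum_sub_distrib, Finset.sum_const, Finset.card_range, nsmul_eq_mul, mul_one]
  rw [h1]
  have h0 : (0 : Qb) ∈ A.nonunits := h52z_mem_iff.mpr (by rw [map_zero]; exact zero_lt_one)
  have hterm : ∀ i : ℕ, ζ ^ i - 1 ∈ A.nonunits := by
    intro i
    rw [← geom_sum_mul ζ i]
    exact h52z_mul (sum_mem fun j _ => pow_mem hζA j) hπ
  refine Finset.sum_induction _ (fun x => x ∈ A.nonunits) (fun x y hx hy => h52z_add hx hy) h0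
    (fun i _ => hterm i)

/-- **the action of the inertia modulo `𝔪`**: if `v(t) = v(ζ - 1) ^ n` and `a ∈ I` acts on `ζ`
by `ζ ↦ ζ ^ e`, then `a t - e ^ n t ∈ t 𝔪_A` (write `t = (ζ - 1) ^ n u` with `u` a unit of `A`;
`a u - u ∈ 𝔪_A` and `(ζ ^ e - 1) / (ζ - 1) ≡ e` modulo `𝔪_A`). -/
theorem h52z_inertia_ratio (A : ValuationSubring Qb) (hA : A.LiesOverPrime p)
    {ζ : Qb} (hζ : IsPrimitiveRoot ζ p) {t : Qb} (ht0 : t ≠ 0) {n : ℕ}
    (hv : A.valuation t = A.valuation (ζ - 1) ^ n) {a : GQ} (ha : a ∈ A.inertiaSubgroupIn ℚ)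
    {e : ℕ} (hae : a ζ = ζ ^ e) :
    (a t - (e : Qb) ^ n * t) * t⁻¹ ∈ A.nonunits := by
  have hp : p.Prime := Fact.out
  have hπ0 : ζ - 1 ≠ 0 := sub_ne_zero.mpr (hζ.ne_one hp.one_lt)
  have hπn0 : (ζ - 1) ^ n ≠ 0 := pow_ne_zero n hπ0
  set u : Qb := t * ((ζ - 1) ^ n)⁻¹ with hu
  have hu0 : u ≠ 0 := mul_ne_zero ht0 (inv_ne_zero hπn0)
  have hvu : A.valuation u = 1 := by
    rw [hu, map_mul, map_inv₀, map_pow, hv]
    exact mul_inv_cancel₀ (pow_ne_zero n ((Valuation.ne_zero_iff _).mpr hπ0))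
  have huA : u ∈ A := (A.valuation_le_one_iff u).mp hvu.le
  have huiA : u⁻¹ ∈ A := by
    rw [← A.valuation_le_one_iff, map_inv₀, hvu, inv_one]
  have htu : t = (ζ - 1) ^ n * u := by
    rw [hu, mul_comm t, ← mul_assoc, mul_inv_cancel₀ hπn0, one_mul]
  obtain ⟨s, hsA, hs, hse⟩ := h52z_geom A hA hζ e
  have haπ : a (ζ - 1) = s * (ζ - 1) := by
    rw [map_sub, map_one, hae, hs]
  have hau : a u - u ∈ A.nonunits := ((Fermat.Agent.Bridge.memInertia A a).mp ha).2 u huA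
  have hauA : a u ∈ A := by
    have h1 : a u = (a u - u) + u := by ring
    rw [h1]
    exact add_mem (h52z_mem_of_nonunit hau) huA
  have heA : (e : Qb) ∈ A := natCast_mem A e
  have hsn := h52z_pow_sub_pow hsA heA hse n
  have hat : a t = s ^ n * (ζ - 1) ^ n * a u := by
    rw [htu, map_mul, map_pow, haπ, mul_pow]
  have key : (a t - (e : Qb) ^ n * t) * t⁻¹ =
      ((s ^ n - (e : Qb) ^ n) * a u + (e : Qb) ^ n * (a u - u)) * u⁻¹ := by
    rw [hat]
    nth_rewrite 1 [htu]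
    rw [htu, mul_inv]
    field_simp
    ring
  rw [key]
  exact h52z_mul' (h52z_add (h52z_mul' hsn hauA) (h52z_mul (pow_mem heA n) hau)) huiA

/-! ## the frozen row -/

/-- an integer in the maximal ideal of `A` over `p` is divisible by `p`. -/
theorem h52z_dvd_of_nonunit (A : ValuationSubring Qb) (hA : A.LiesOverPrime p) {k : ℤ}
    (hk : (k : Qb) ∈ A.nonunits) : (p : ℤ) ∣ k := by
  have hp : p.Prime := Fact.out
  by_contra hnd
  have h1 : A.valuation (k : Qb) = 1 :=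
    Fermat.Agent.S05.intCast_isUnitOf_of_not_dvd hp hA hnd
  exact absurd (h52z_mem_iff.mp hk) (by rw [h1]; exact lt_irrefl _)

/-- **Row S44-ZT.**  A non-unit `t ≠ 0` fixed by `I₁`, not deeper than `√p`, on which every
`a ∈ I` acts modulo `t ^ 3` as multiplication by `1` or by the cyclotomic exponent of `a`, has
the valuation of `ζ - 1`. -/
theorem h52z_val_eq (hp2 : p ≠ 2) (A : ValuationSubring Qb) (hA : A.LiesOverPrime p)
    {ζ : Qb} (hζ : ζ ^ p = 1) (hζ1 : ζ ≠ 1) {t : Qb} (ht : t ∈ A.nonunits) (ht0 : t ≠ 0)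
    (hfix : ∀ a ∈ h23vI1 p A, a t = t)
    (hdeep : A.valuation (p : Qb) ≤ A.valuation t ^ 2)
    (hact : ∀ a ∈ A.inertiaSubgroupIn ℚ, ∀ e : ℕ, (∀ μ : Qb, μ ^ p = 1 → a μ = μ ^ e) →
      ∃ c : ℕ, ((c : ZMod p) = 1 ∨ (c : ZMod p) = e) ∧
        A.valuation (a t - c * t) ≤ A.valuation t ^ 3) :
    A.valuation t = A.valuation (ζ - 1) := by
  have hp : p.Prime := Fact.out
  have hp1 : p - 1 ≠ 0 := by have := hp.two_le; omega
  have hprim := h52z_primitive hζ hζ1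
  obtain ⟨n, hn1, hv⟩ := h52z_val_pow hp2 A hA hprim ht ht0 hfix
  have hπlt := h52z_val_zeta_lt A hA hprim
  have hπ0 := h52z_val_zeta_ne A hprim
  have hπ := h23w_val_zeta A hA hprim
  have htv0 : A.valuation t ≠ 0 := (Valuation.ne_zero_iff _).mpr ht0
  have htlt : A.valuation t < 1 := h52z_mem_iff.mp ht
  -- `2 n ≤ p - 1`
  have hn2 : 2 * n ≤ p - 1 := by
    by_contra hcon
    rw [not_le] at hcon
    have h1 := h52z_pow_lt hπ0 hπlt hcon
    rw [hπ, mul_comm, pow_mul, ← hv] at h1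
    exact absurd hdeep (not_le.mpr h1)
  -- the primitive element of the inertia
  obtain ⟨g, hord, a, ha, haζ, haμ⟩ := h52z_exists_primitive A hA hprim
  set e : ℕ := (g : ZMod p).val with he
  have hecast : ((e : ℕ) : ZMod p) = (g : ZMod p) := ZMod.natCast_zmod_val _
  obtain ⟨c, hc, hval⟩ := hact a ha e haμ
  -- `e ^ n ≡ c` modulo `𝔪`
  have h1 := h52z_inertia_ratio A hA hprim ht0 hv ha haζ
  have h2 : (a t - (c : Qb) * t) * t⁻¹ ∈ A.nonunits := by
    rw [h52z_mem_iff, map_mul, map_inv₀]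
    have h3 : A.valuation (a t - (c : Qb) * t) * (A.valuation t)⁻¹ ≤ A.valuation t ^ 2 := by
      calc A.valuation (a t - (c : Qb) * t) * (A.valuation t)⁻¹
          ≤ A.valuation t ^ 3 * (A.valuation t)⁻¹ := mul_le_mul_left hval _
        _ = A.valuation t ^ 2 := by
          rw [pow_succ, mul_assoc, mul_inv_cancel₀ htv0, mul_one]
    exact lt_of_le_of_lt h3 ((pow_lt_one_iff (by norm_num)).mpr htlt)
  have h4 : ((e : Qb) ^ n - (c : Qb)) ∈ A.nonunits := by
    have e1 : (e : Qb) ^ n - (c : Qb) =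
        (a t - (c : Qb) * t) * t⁻¹ - (a t - (e : Qb) ^ n * t) * t⁻¹ := by
      field_simp
      ring
    rw [e1]
    exact h52z_sub h2 h1
  have h5 : (p : ℤ) ∣ ((e : ℤ) ^ n - (c : ℤ)) := by
    apply h52z_dvd_of_nonunit A hA
    push_cast
    exact h4
  have h6 : (g : ZMod p) ^ n = (c : ZMod p) := by
    have h7 := (ZMod.intCast_zmod_eq_zero_iff_dvd _ p).mpr h5
    push_cast at h7
    rw [hecast] at h7
    exact sub_eq_zero.mp h7
  -- `n = 1`
  have hn : n = 1 := by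
    rcases hc with hc | hc
    · -- `g ^ n = 1`
      rw [hc] at h6
      have h8 : g ^ n = 1 := Units.ext (by rw [Units.val_pow_eq_pow_val, h6, Units.val_one])
      have h9 := orderOf_dvd_of_pow_eq_one h8
      rw [hord] at h9
      have := Nat.le_of_dvd (by omega) h9
      omega
    · -- `g ^ n = g`
      rw [hc, hecast] at h6
      have h8 : g ^ (n - 1) = 1 := by
        have h10 : g ^ n = g := Units.ext (by rw [Units.val_pow_eq_pow_val, h6])
        have h11 : g ^ (n - 1) * g = 1 * g := by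
          rw [← pow_succ, Nat.sub_add_cancel hn1, h10, one_mul]
        exact mul_right_cancel h11
      have h9 := orderOf_dvd_of_pow_eq_one h8
      rw [hord] at h9
      rcases Nat.eq_zero_or_pos (n - 1) with h0 | hpos
      · omega
      · have := Nat.le_of_dvd hpos h9
        omega
  rw [hv, hn, pow_one]

end Fermat.Agent.P7
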