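import Fermat.Agent.S13.FreyInt
import Fermat.Agent.S37.Defs
import Fermat.Prelude.Def_FLTPrelim_Modularity

/-!
# Wave 7 (S44), helper53: `2` is a bad prime of every integral model of the Frey curve

For a Frey package `P` (so `2 ∣ b`, `a` odd, `5 ≤ p`) the Frey curve has
`2⁸ Δ = (a b c)^{2p}` and `c₄ = a^{2p} + a^p b^p + b^{2p}` (odd).  Hence the `j`-invariant is not
`2`-integral and **every** integral Weierstrass model `W` of the Frey curve has `2 ∣ W.Δ`: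
from `C • E = W_ℚ` one gets `W.c₄ ^ 3 * (a b c)^{2p} = 2⁸ * c₄(E) ^ 3 * W.Δ` in `ℤ`.

Consequences (used by the top of S44): a prime which is good for `W` is odd, so a good prime
not dividing `M * p` does not divide `goodLevel p M * p` (`p` odd): for the integral models of the
Frey curve the Hecke primes of GLUE / NON-EIS automatically avoid the auxiliary level `4`.
-/

set_option autoImplicit false

namespace Fermat.Agent.P7

open WeierstrassCurve Fermat.Agent.S37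

/-- `c₄` of the Frey curve. -/
theorem h53f_frey_c₄ (P : FreyPackage) :
    P.freyCurve.c₄ =
      ((P.a : ℚ) ^ P.p) ^ 2 + (P.a : ℚ) ^ P.p * (P.b : ℚ) ^ P.p + ((P.b : ℚ) ^ P.p) ^ 2 := by
  simp only [WeierstrassCurve.c₄, WeierstrassCurve.b₂, WeierstrassCurve.b₄,
    FreyPackage.freyCurve]
  ring

/-- the integer `a^{2p} + a^p b^p + b^{2p}` is odd. -/
theorem h53f_c₄_odd (P : FreyPackage) :
    ¬ (2 : ℤ) ∣ (P.a ^ P.p) ^ 2 + P.a ^ P.p * P.b ^ P.p + (P.b ^ P.p) ^ 2 := by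
  intro h
  have hb : (2 : ℤ) ∣ P.b := Fermat.Agent.S13.frey_two_dvd_b P
  have hp0 : P.p ≠ 0 := P.pp.ne_zero
  have hbp : (2 : ℤ) ∣ P.b ^ P.p := dvd_pow hb hp0
  have h1 : (2 : ℤ) ∣ P.a ^ P.p * P.b ^ P.p + (P.b ^ P.p) ^ 2 :=
    dvd_add (Dvd.dvd.mul_left hbp _) (dvd_pow hbp two_ne_zero)
  have h2 : (2 : ℤ) ∣ (P.a ^ P.p) ^ 2 := by
    have e : (P.a ^ P.p) ^ 2 = ((P.a ^ P.p) ^ 2 + P.a ^ P.p * P.b ^ P.p + (P.b ^ P.p) ^ 2) -
        (P.a ^ P.p * P.b ^ P.p + (P.b ^ P.p) ^ 2) := by ring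
    rw [e]
    exact dvd_sub h h1
  have h3 : (2 : ℤ) ∣ P.a :=
    Int.Prime.dvd_pow' Nat.prime_two (Int.Prime.dvd_pow' Nat.prime_two h2)
  have h4 := Fermat.Agent.S13.frey_a_mod_four P
  omega

/-- `2 ^ 9` divides `(a b c)^{2p}`. -/
theorem h53f_pow_dvd (P : FreyPackage) :
    (2 : ℤ) ^ 9 ∣ ((P.a * P.b * P.c) ^ P.p) ^ 2 := by
  have hb : (2 : ℤ) ∣ P.b := Fermat.Agent.S13.frey_two_dvd_b P
  have habc : (2 : ℤ) ∣ P.a * P.b * P.c := Dvd.dvd.mul_right (Dvd.dvd.mul_left hb _) _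
  have h1 : (2 : ℤ) ^ (P.p * 2) ∣ ((P.a * P.b * P.c) ^ P.p) ^ 2 := by
    rw [← pow_mul]
    exact pow_dvd_pow_of_dvd habc _
  have hp5 := P.hp5
  exact (pow_dvd_pow (2 : ℤ) (by omega)).trans h1

/-- **the `j`-invariant identity over `ℤ`** for an integral model of the Frey curve. -/
theorem h53f_j_identity (P : FreyPackage) (W : WeierstrassCurve ℤ)
    (hW : W.IsIntegralModelOf P.freyCurve) :
    W.c₄ ^ 3 * ((P.a * P.b * P.c) ^ P.p) ^ 2 =
      2 ^ 8 * ((P.a ^ P.p) ^ 2 + P.a ^ P.p * P.b ^ P.p + (P.b ^ P.p) ^ 2) ^ 3 * W.Δ := by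
  obtain ⟨C, hC⟩ := hW
  have hΔ : ((W.Δ : ℤ) : ℚ) = C.u⁻¹ ^ 12 * P.freyCurve.Δ := by
    have h1 : (W.map (Int.castRingHom ℚ)).Δ = ((W.Δ : ℤ) : ℚ) := by
      rw [WeierstrassCurve.map_Δ]; rfl
    rw [← h1, ← hC, WeierstrassCurve.variableChange_Δ]
  have hc : ((W.c₄ : ℤ) : ℚ) = C.u⁻¹ ^ 4 * P.freyCurve.c₄ := by
    have h1 : (W.map (Int.castRingHom ℚ)).c₄ = ((W.c₄ : ℤ) : ℚ) := by
      rw [WeierstrassCurve.map_c₄]; rfl
    rw [← h1, ← hC, WeierstrassCurve.variableChange_c₄]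
  have hD := Fermat.Agent.S13.freyCurve_Δ P
  have hc4 := h53f_frey_c₄ P
  have key : ((W.c₄ : ℤ) : ℚ) ^ 3 * ((((P.a : ℚ) * P.b * P.c) ^ P.p) ^ 2) =
      2 ^ 8 * (((P.a : ℚ) ^ P.p) ^ 2 + (P.a : ℚ) ^ P.p * (P.b : ℚ) ^ P.p +
        ((P.b : ℚ) ^ P.p) ^ 2) ^ 3 * ((W.Δ : ℤ) : ℚ) := by
    rw [hc, hΔ, ← hD, ← hc4]
    ring
  exact_mod_cast key

/-- **`2` divides the discriminant of every integral model of the Frey curve.** -/
theorem h53f_two_dvd_disc (P : FreyPackage) (W : WeierstrassCurve ℤ)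
    (hW : W.IsIntegralModelOf P.freyCurve) : (2 : ℤ) ∣ W.Δ := by
  have hid := h53f_j_identity P W hW
  have h9 : (2 : ℤ) ^ 9 ∣ 2 ^ 8 *
      ((P.a ^ P.p) ^ 2 + P.a ^ P.p * P.b ^ P.p + (P.b ^ P.p) ^ 2) ^ 3 * W.Δ := by
    rw [← hid]
    exact Dvd.dvd.mul_left (h53f_pow_dvd P) _
  have h2 : (2 : ℤ) ∣
      ((P.a ^ P.p) ^ 2 + P.a ^ P.p * P.b ^ P.p + (P.b ^ P.p) ^ 2) ^ 3 * W.Δ := by
    have e : (2 : ℤ) ^ 9 = 2 ^ 8 * 2 := by norm_num
    rw [e, mul_assoc] at h9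
    exact (mul_dvd_mul_iff_left (by norm_num : (2 : ℤ) ^ 8 ≠ 0)).1 h9
  rcases Int.Prime.dvd_mul' Nat.prime_two h2 with h | h
  · exact absurd (Int.Prime.dvd_pow' Nat.prime_two h) (h53f_c₄_odd P)
  · exact h

/-- `2` is not a good prime of an integral model of the Frey curve. -/
theorem h53f_not_good_two (P : FreyPackage) (W : WeierstrassCurve ℤ)
    (hW : W.IsIntegralModelOf P.freyCurve) : ¬ W.IsGoodPrimeFor 2 := by
  intro h
  apply h
  have := h53f_two_dvd_disc P W hW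
  exact_mod_cast this

/-- a good prime of an integral model of the Frey curve is odd. -/
theorem h53f_good_ne_two (P : FreyPackage) (W : WeierstrassCurve ℤ)
    (hW : W.IsIntegralModelOf P.freyCurve) {ℓ : ℕ} (hℓ : W.IsGoodPrimeFor ℓ) : ℓ ≠ 2 := by
  rintro rfl
  exact h53f_not_good_two P W hW hℓ

/-- an odd prime not dividing `M * p` does not divide `goodLevel p M * p` (`p ≠ 2`). -/
theorem h53f_not_dvd_goodLevel {p : ℕ} (hp2 : p ≠ 2) (M : ℕ) {ℓ : ℕ} (hℓ : ℓ.Prime)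
    (h2 : ℓ ≠ 2) (h : ¬ ℓ ∣ M * p) : ¬ ℓ ∣ goodLevel p M * p := by
  intro hd
  rcases (Nat.Prime.dvd_mul hℓ).1 hd with h1 | h1
  · have hl : goodLevel p M ∣ M * 4 := by
      unfold goodLevel auxLevel
      rw [if_neg hp2]
      exact Nat.lcm_dvd_mul M 4
    rcases (Nat.Prime.dvd_mul hℓ).1 (h1.trans hl) with h3 | h3
    · exact h (Dvd.dvd.mul_right h3 _)
    · have h4 : ℓ ∣ 2 ^ 2 := by norm_num; exact h3
      have h5 : ℓ ∣ 2 := hℓ.dvd_of_dvd_pow h4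
      exact h2 ((Nat.prime_dvd_prime_iff_eq hℓ Nat.prime_two).1 h5)
  · exact h (Dvd.dvd.mul_left h1 _)

/-- **good primes of the Frey models avoid the good level**: for an integral model `W` of the Frey
curve, a prime which is good for `W` and does not divide `M * p` does not divide
`goodLevel p M * p` (`p` odd). -/
theorem h53f_good_not_dvd_goodLevel (P : FreyPackage) (W : WeierstrassCurve ℤ)
    (hW : W.IsIntegralModelOf P.freyCurve) {p : ℕ} (hp2 : p ≠ 2) (M : ℕ) {ℓ : ℕ}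
    (hℓ : ℓ.Prime) (hgood : W.IsGoodPrimeFor ℓ) (h : ¬ ℓ ∣ M * p) :
    ¬ ℓ ∣ goodLevel p M * p :=
  h53f_not_dvd_goodLevel hp2 M hℓ (h53f_good_ne_two P W hW hgood) h

end Fermat.Agent.P7
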