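import Mathlib

/-!
# Wave 7 (S44), DLOG level design: TR-UNIQUE and CONST-ABS (helper53, prefix `h53u_`)

Mathlib only.  `k` a field, `K'` a field over `k` with an additive valuation `v` with values in
`ℤ`, trivial on the constants.  `x, t ∈ K'` with `v x = -n` (`n ≥ 1`), `v t = 1`, and
`[K' : k(x)] ≤ n` (the place `v` is TOTALLY RAMIFIED over `x = ∞`).

* `h53u_gauss`, `h53u_linearIndependent`, `h53u_exists_repr` : `1, t, …, t^(n-1)` is a
  `k(x)`-basis of `K'` and `v (∑ a_j t^j) = min_j v (a_j t^j)`;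
* `h53u_tr_unique` (**TR-UNIQUE**) : a valuation subring `O` of `K'` containing the constants with
  `x ∉ O` contains every `y` with `0 ≤ v y`;  `h53u_mem_iff`, `h53u_mem_nonunits_iff` : `O` IS the
  valuation ring of `v`;
* `h53u_const`, `h53u_const_algClosed` (**CONST-ABS**) : an element of `K'` integral over `k[x]`
  with `0 ≤ v y` is integral over `k` (a constant if `k` is algebraically closed);
* `h53u_finrank_of_forall` : the degree hypothesis from the family form;
* `q`-ORDER FORMS for `ι : K' →ₐ[k] LaurentSeries k` (`h53uV ι`, the `q`-order valuation):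
  `h53u_mem_iff_q`, `h53u_mem_nonunits_iff_q`, `h53u_const_q`, `h53u_const_q_algClosed`, with
  hypotheses `(ι x).order = -n`, `(ι t).order = 1`.

Use (finding of helper87 on the level design of DLOG): `K'` = function field of the special
fibre at level `M` inside `k((q))`, `x` = reduction of a function `f₀` with its only pole at `∞`
and unit leading coefficient, `t` = reduction of `1 / j`.  CONST-ABS is `CONST(M)`; TR-UNIQUE says
that every place of a larger field at which `x` has a pole restricts to the `q`-order place.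
-/

set_option autoImplicit false
set_option linter.unusedSectionVars false
set_option linter.unusedVariables false

open Polynomial IntermediateField

noncomputable section

namespace Fermat.Agent.P7

variable {k K' : Type*} [Field k] [Field K'] [Algebra k K']

/-- a finite sum with a unique term of minimal (finite) valuation. -/
theorem h53u_map_sum_eq {ι : Type*} [DecidableEq ι] (v : AddValuation K' (WithTop ℤ))
    {s : Finset ι} {f : ι → K'} {j : ι} (hj : j ∈ s)
    (hf : ∀ i ∈ s, i ≠ j → v (f j) < v (f i)) :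
    v (∑ i ∈ s, f i) = v (f j) := by
  classical
  rw [← Finset.add_sum_erase s f hj]
  by_cases he : (s.erase j).Nonempty
  · have hne : v (f j) ≠ ⊤ := by
      obtain ⟨i, hi⟩ := he
      have := hf i (Finset.mem_of_mem_erase hi) (Finset.ne_of_mem_erase hi)
      exact ne_top_of_lt this
    refine AddValuation.map_add_eq_of_lt_left v ?_
    refine AddValuation.map_lt_sum v hne ?_
    intro i hi
    exact hf i (Finset.mem_of_mem_erase hi) (Finset.ne_of_mem_erase hi)
  · rw [Finset.not_nonempty_iff_eq_empty] at he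
    rw [he, Finset.sum_empty, add_zero]

/-- valuation of a polynomial in `x`, `v x = -n < 0`, `v` trivial on the constants. -/
theorem h53u_val_aeval (v : AddValuation K' (WithTop ℤ))
    (hk : ∀ c : k, c ≠ 0 → v (algebraMap k K' c) = 0) {x : K'} {n : ℕ} (hn : 0 < n)
    (hx : v x = ((-(n : ℤ) : ℤ) : WithTop ℤ)) {P : k[X]} (hP : P ≠ 0) :
    v (aeval x P) = ((-(n : ℤ) * (P.natDegree : ℤ) : ℤ) : WithTop ℤ) := by
  classical
  have hterm : ∀ i : ℕ, P.coeff i ≠ 0 →
      v (algebraMap k K' (P.coeff i) * x ^ i) = ((-(n : ℤ) * (i : ℤ) : ℤ) : WithTop ℤ) := by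
    intro i hi
    rw [AddValuation.map_mul, hk _ hi, zero_add, AddValuation.map_pow, hx]
    rw [← WithTop.coe_nsmul]
    congr 1
    simp [mul_comm]
  rw [aeval_eq_sum_range]
  simp only [Algebra.smul_def]
  have hlead : P.coeff P.natDegree ≠ 0 := by
    rw [Polynomial.coeff_natDegree]
    exact leadingCoeff_ne_zero.mpr hP
  rw [h53u_map_sum_eq v (j := P.natDegree) (Finset.mem_range.mpr (Nat.lt_succ_self _))]
  · exact hterm _ hlead
  · intro i hi hij
    rw [hterm _ hlead]
    by_cases hci : P.coeff i = 0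
    · rw [hci, map_zero, zero_mul, AddValuation.map_zero]
      exact WithTop.coe_lt_top _
    · rw [hterm _ hci]
      rw [WithTop.coe_lt_coe]
      have h1 : i < P.natDegree := by
        have := Finset.mem_range.mp hi
        omega
      have h2 : (i : ℤ) < (P.natDegree : ℤ) := by exact_mod_cast h1
      have h3 : (0 : ℤ) < (n : ℤ) := by exact_mod_cast hn
      nlinarith


/-- the valuation of an element of `k(x)` is `⊤` or a multiple of `n`. -/
theorem h53u_val_adjoin (v : AddValuation K' (WithTop ℤ))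
    (hk : ∀ c : k, c ≠ 0 → v (algebraMap k K' c) = 0) {x : K'} {n : ℕ} (hn : 0 < n)
    (hx : v x = ((-(n : ℤ) : ℤ) : WithTop ℤ)) {a : K'} (ha : a ∈ k⟮x⟯) :
    a = 0 ∨ ∃ (r s : k[X]), r ≠ 0 ∧ s ≠ 0 ∧ aeval x s ≠ 0 ∧ a = aeval x r / aeval x s ∧
      v a = (((n : ℤ) * ((s.natDegree : ℤ) - (r.natDegree : ℤ)) : ℤ) : WithTop ℤ) := by
  obtain ⟨r, s, hrs⟩ := (mem_adjoin_simple_iff k a).1 ha
  by_cases hs0 : aeval x s = 0
  · left
    rw [hrs, hs0, div_zero]
  by_cases hr : r = 0
  · left
    rw [hrs, hr, map_zero, zero_div]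
  right
  have hs : s ≠ 0 := by
    rintro rfl
    exact hs0 (map_zero _)
  refine ⟨r, s, hr, hs, hs0, hrs, ?_⟩
  rw [hrs, AddValuation.map_div, h53u_val_aeval v hk hn hx hr, h53u_val_aeval v hk hn hx hs]
  have : ((-(n : ℤ) * (r.natDegree : ℤ) : ℤ) : WithTop ℤ) -
      ((-(n : ℤ) * (s.natDegree : ℤ) : ℤ) : WithTop ℤ) =
      (((-(n : ℤ) * (r.natDegree : ℤ)) - (-(n : ℤ) * (s.natDegree : ℤ)) : ℤ) : WithTop ℤ) := rfl
  rw [this]
  congr 1
  ring

/-- constants are units of a valuation subring containing them. -/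
theorem h53u_val_const (O : ValuationSubring K') (hkO : ∀ c : k, algebraMap k K' c ∈ O)
    {c : k} (hc : c ≠ 0) : O.valuation (algebraMap k K' c) = 1 := by
  have h1 : O.valuation (algebraMap k K' c) ≤ 1 :=
    (ValuationSubring.valuation_le_one_iff O _).2 (hkO c)
  have h2 : O.valuation (algebraMap k K' c⁻¹) ≤ 1 :=
    (ValuationSubring.valuation_le_one_iff O _).2 (hkO c⁻¹)
  rw [map_inv₀, map_inv₀] at h2
  have h0 : O.valuation (algebraMap k K' c) ≠ 0 := by
    rw [Valuation.ne_zero_iff]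
    exact (_root_.map_ne_zero _).2 hc
  have h3 : 1 ≤ O.valuation (algebraMap k K' c) := by
    rwa [inv_le_one₀ (zero_lt_iff.2 h0)] at h2
  exact le_antisymm h1 h3

theorem h53u_pow_mul_inv_pow {x : K'} (hx0 : x ≠ 0) {i m : ℕ} (hi : i ≤ m) :
    x ^ i * x⁻¹ ^ m = x⁻¹ ^ (m - i) := by
  obtain ⟨d, rfl⟩ := Nat.exists_eq_add_of_le hi
  rw [Nat.add_sub_cancel_left, pow_add, ← mul_assoc, ← mul_pow, mul_inv_cancel₀ hx0, one_pow,
    one_mul]

/-- `x ∉ O`: a polynomial in `x` of degree `≤ m` times `x⁻¹ ^ m` lies in `O`. -/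
theorem h53u_num_mem (O : ValuationSubring K') (hkO : ∀ c : k, algebraMap k K' c ∈ O)
    {x : K'} (hxO : x ∉ O) (P : k[X]) {m : ℕ} (hm : P.natDegree ≤ m) :
    aeval x P * x⁻¹ ^ m ∈ O := by
  have hu : x⁻¹ ∈ O := (O.mem_or_inv_mem x).resolve_left hxO
  have hx0 : x ≠ 0 := by
    rintro rfl
    exact hxO O.zero_mem
  rw [aeval_eq_sum_range, Finset.sum_mul]
  refine O.sum_mem ?_
  intro i hi
  have hi' : i ≤ m := by
    have := Finset.mem_range.mp hi
    omega
  have : (P.coeff i • x ^ i) * x⁻¹ ^ m = algebraMap k K' (P.coeff i) * x⁻¹ ^ (m - i) := by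
    rw [Algebra.smul_def, mul_assoc, h53u_pow_mul_inv_pow hx0 hi']
  rw [this]
  exact O.mul_mem _ _ (hkO _) (O.pow_mem hu _)

/-- `x ∉ O`: a polynomial `P ≠ 0` in `x` times `x⁻¹ ^ deg P` is a unit of `O`. -/
theorem h53u_den_val (O : ValuationSubring K') (hkO : ∀ c : k, algebraMap k K' c ∈ O)
    {x : K'} (hxO : x ∉ O) {P : k[X]} (hP : P ≠ 0) :
    O.valuation (aeval x P * x⁻¹ ^ P.natDegree) = 1 := by
  classical
  have hx0 : x ≠ 0 := by
    rintro rfl
    exact hxO O.zero_mem
  have hu : O.valuation x⁻¹ < 1 := by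
    have h1 : ¬ O.valuation x ≤ 1 := fun h => hxO ((ValuationSubring.valuation_le_one_iff O _).1 h)
    rw [not_le] at h1
    rw [map_inv₀]
    exact inv_lt_one_of_one_lt₀ h1
  have hlead : P.coeff P.natDegree ≠ 0 := by
    rw [Polynomial.coeff_natDegree]
    exact leadingCoeff_ne_zero.mpr hP
  rw [aeval_eq_sum_range, Finset.sum_mul]
  have hterm : ∀ i ∈ Finset.range (P.natDegree + 1),
      (P.coeff i • x ^ i) * x⁻¹ ^ P.natDegree =
        algebraMap k K' (P.coeff i) * x⁻¹ ^ (P.natDegree - i) := by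
    intro i hi
    have hi' : i ≤ P.natDegree := by
      have := Finset.mem_range.mp hi
      omega
    rw [Algebra.smul_def, mul_assoc, h53u_pow_mul_inv_pow hx0 hi']
  rw [Finset.sum_congr rfl hterm]
  rw [Valuation.map_sum_eq_of_lt (v := O.valuation) (j := P.natDegree)
    (Finset.mem_range.mpr (Nat.lt_succ_self _))]
  · rw [Nat.sub_self, pow_zero, mul_one]
    exact h53u_val_const O hkO hlead
  · intro i hi
    rw [Finset.mem_sdiff, Finset.mem_singleton] at hi
    have hi' : i < P.natDegree := by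
      have := Finset.mem_range.mp hi.1
      omega
    rw [Nat.sub_self, pow_zero, mul_one, h53u_val_const O hkO hlead]
    by_cases hci : P.coeff i = 0
    · rw [hci, map_zero, zero_mul, map_zero]
      exact zero_lt_one
    · rw [map_mul, h53u_val_const O hkO hci, one_mul, map_pow]
      exact pow_lt_one₀ zero_le hu (by omega)

/-- **elements of `k(x)` regular at `x = ∞` lie in every valuation subring `O ∌ x`**. -/
theorem h53u_adjoin_mem (v : AddValuation K' (WithTop ℤ))
    (hk : ∀ c : k, c ≠ 0 → v (algebraMap k K' c) = 0) {x : K'} {n : ℕ} (hn : 0 < n)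
    (hx : v x = ((-(n : ℤ) : ℤ) : WithTop ℤ))
    (O : ValuationSubring K') (hkO : ∀ c : k, algebraMap k K' c ∈ O) (hxO : x ∉ O)
    {a : K'} (ha : a ∈ k⟮x⟯) (hva : 0 ≤ v a) : a ∈ O := by
  rcases h53u_val_adjoin v hk hn hx ha with h0 | ⟨r, s, hr, hs, hs0, hrs, hval⟩
  · rw [h0]
    exact O.zero_mem
  have hx0 : x ≠ 0 := by
    rintro rfl
    exact hxO O.zero_mem
  have hdeg : r.natDegree ≤ s.natDegree := by
    rw [hval] at hva
    have h1 : (0 : ℤ) ≤ (n : ℤ) * ((s.natDegree : ℤ) - (r.natDegree : ℤ)) := by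
      exact_mod_cast hva
    have h3 : (0 : ℤ) < (n : ℤ) := by exact_mod_cast hn
    have h4 : (0 : ℤ) ≤ (s.natDegree : ℤ) - (r.natDegree : ℤ) := by
      by_contra hcon
      rw [not_le] at hcon
      nlinarith
    omega
  have hnum := h53u_num_mem O hkO hxO r hdeg
  have hden := h53u_den_val O hkO hxO hs
  have hupow : x⁻¹ ^ s.natDegree ≠ 0 := pow_ne_zero _ (inv_ne_zero hx0)
  have hrew : a = (aeval x r * x⁻¹ ^ s.natDegree) / (aeval x s * x⁻¹ ^ s.natDegree) := by
    rw [hrs, mul_div_mul_right _ _ hupow]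
  rw [hrew, ← ValuationSubring.valuation_le_one_iff, map_div₀, hden, div_one]
  exact (ValuationSubring.valuation_le_one_iff O _).2 hnum


/-- the valuation of a term `a * t ^ j`, `a ∈ k(x)` nonzero, `v t = 1`. -/
theorem h53u_val_term (v : AddValuation K' (WithTop ℤ))
    (hk : ∀ c : k, c ≠ 0 → v (algebraMap k K' c) = 0) {x t : K'} {n : ℕ} (hn : 0 < n)
    (hx : v x = ((-(n : ℤ) : ℤ) : WithTop ℤ)) (ht : v t = ((1 : ℤ) : WithTop ℤ))
    {a : K'} (ha : a ∈ k⟮x⟯) (ha0 : a ≠ 0) (j : ℕ) :
    ∃ m : ℤ, v a = (((n : ℤ) * m : ℤ) : WithTop ℤ) ∧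
      v (a * t ^ j) = (((n : ℤ) * m + (j : ℤ) : ℤ) : WithTop ℤ) := by
  rcases h53u_val_adjoin v hk hn hx ha with h0 | ⟨r, s, -, -, -, -, hval⟩
  · exact absurd h0 ha0
  refine ⟨(s.natDegree : ℤ) - (r.natDegree : ℤ), hval, ?_⟩
  rw [AddValuation.map_mul, AddValuation.map_pow, hval, ht, ← WithTop.coe_nsmul,
    ← WithTop.coe_add]
  congr 1
  simp

/-- **Gauss formula**: the valuation of `∑ a_j t^j` (`j < n`, `a_j ∈ k(x)`) is the minimum of the
valuations of the terms. -/
theorem h53u_gauss (v : AddValuation K' (WithTop ℤ))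
    (hk : ∀ c : k, c ≠ 0 → v (algebraMap k K' c) = 0) {x t : K'} {n : ℕ} (hn : 0 < n)
    (hx : v x = ((-(n : ℤ) : ℤ) : WithTop ℤ)) (ht : v t = ((1 : ℤ) : WithTop ℤ))
    (a : Fin n → K') (ha : ∀ i, a i ∈ k⟮x⟯) (i : Fin n) :
    v (∑ j, a j * t ^ (j : ℕ)) ≤ v (a i * t ^ (i : ℕ)) := by
  classical
  have ht0 : t ≠ 0 := by
    intro h
    rw [h, AddValuation.map_zero] at ht
    exact WithTop.top_ne_coe ht
  obtain ⟨j₀, -, hmin⟩ := Finset.exists_min_image (Finset.univ : Finset (Fin n))
    (fun j => v (a j * t ^ (j : ℕ))) ⟨i, Finset.mem_univ _⟩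
  by_cases htop : v (a j₀ * t ^ (j₀ : ℕ)) = ⊤
  · have hall : ∀ j, a j * t ^ (j : ℕ) = 0 := by
      intro j
      have h1 := hmin j (Finset.mem_univ _)
      rw [htop, top_le_iff] at h1
      exact (AddValuation.top_iff v).1 h1
    rw [Finset.sum_eq_zero (fun j _ => hall j), hall i]
  · have ha0 : a j₀ ≠ 0 := by
      intro h
      apply htop
      rw [h, zero_mul, AddValuation.map_zero]
    obtain ⟨m₀, -, hm₀⟩ := h53u_val_term v hk hn hx ht (ha j₀) ha0 (j₀ : ℕ)
    rw [h53u_map_sum_eq v (j := j₀) (Finset.mem_univ _)]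
    · exact hmin i (Finset.mem_univ _)
    · intro j _ hj
      refine lt_of_le_of_ne (hmin j (Finset.mem_univ _)) ?_
      intro heq
      by_cases haj : a j = 0
      · rw [haj, zero_mul, AddValuation.map_zero] at heq
        exact htop heq
      · obtain ⟨m, -, hm⟩ := h53u_val_term v hk hn hx ht (ha j) haj (j : ℕ)
        rw [hm₀, hm] at heq
        have h1 : (n : ℤ) * m₀ + (j₀ : ℕ) = (n : ℤ) * m + (j : ℕ) := by exact_mod_cast heq
        have h2 : ((j₀ : ℕ) : ℤ) % (n : ℤ) = ((j : ℕ) : ℤ) % (n : ℤ) := by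
          have h3 := congrArg (fun z : ℤ => z % (n : ℤ)) h1
          simpa [Int.add_mul_emod_self_left, Int.add_emod, Int.mul_emod_right] using h3
        have hj₀ : ((j₀ : ℕ) : ℤ) % (n : ℤ) = (j₀ : ℕ) :=
          Int.emod_eq_of_lt (by positivity) (by exact_mod_cast j₀.2)
        have hj' : ((j : ℕ) : ℤ) % (n : ℤ) = (j : ℕ) :=
          Int.emod_eq_of_lt (by positivity) (by exact_mod_cast j.2)
        rw [hj₀, hj'] at h2
        apply hj
        ext
        exact_mod_cast h2.symm

/-- the powers `t ^ j`, `j < n`, are linearly independent over `k(x)`. -/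
theorem h53u_linearIndependent (v : AddValuation K' (WithTop ℤ))
    (hk : ∀ c : k, c ≠ 0 → v (algebraMap k K' c) = 0) {x t : K'} {n : ℕ} (hn : 0 < n)
    (hx : v x = ((-(n : ℤ) : ℤ) : WithTop ℤ)) (ht : v t = ((1 : ℤ) : WithTop ℤ)) :
    LinearIndependent k⟮x⟯ (fun j : Fin n => t ^ (j : ℕ)) := by
  have ht0 : t ≠ 0 := by
    intro h
    rw [h, AddValuation.map_zero] at ht
    exact WithTop.top_ne_coe ht
  rw [Fintype.linearIndependent_iff]
  intro g hg i
  have hg' : ∑ j, (g j : K') * t ^ (j : ℕ) = 0 := by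
    rw [← hg]
    refine Finset.sum_congr rfl (fun j _ => ?_)
    rw [Algebra.smul_def]
    rfl
  have h1 := h53u_gauss v hk hn hx ht (fun j => (g j : K')) (fun j => (g j).2) i
  rw [hg', AddValuation.map_zero, top_le_iff] at h1
  have h2 := (AddValuation.top_iff v).1 h1
  have h3 : (g i : K') = 0 := by
    rcases mul_eq_zero.1 h2 with h | h
    · exact h
    · exact absurd h (pow_ne_zero _ ht0)
  exact_mod_cast h3

/-- every element of `K'` is a `k(x)`-combination of the `t ^ j`, `j < n`. -/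
theorem h53u_exists_repr (v : AddValuation K' (WithTop ℤ))
    (hk : ∀ c : k, c ≠ 0 → v (algebraMap k K' c) = 0) {x t : K'} {n : ℕ} (hn : 0 < n)
    (hx : v x = ((-(n : ℤ) : ℤ) : WithTop ℤ)) (ht : v t = ((1 : ℤ) : WithTop ℤ))
    [FiniteDimensional k⟮x⟯ K'] (hfin : Module.finrank k⟮x⟯ K' ≤ n) (y : K') :
    ∃ a : Fin n → K', (∀ i, a i ∈ k⟮x⟯) ∧ y = ∑ j, a j * t ^ (j : ℕ) := by
  have hli := h53u_linearIndependent (k := k) v hk hn hx ht
  have hcard : Fintype.card (Fin n) = Module.finrank k⟮x⟯ K' := by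
    have h1 := hli.fintype_card_le_finrank
    rw [Fintype.card_fin] at h1 ⊢
    omega
  have hspan := hli.span_eq_top_of_card_eq_finrank' hcard
  have hy : y ∈ Submodule.span k⟮x⟯ (Set.range fun j : Fin n => t ^ (j : ℕ)) := by
    rw [hspan]
    trivial
  obtain ⟨c, hc⟩ := (Submodule.mem_span_range_iff_exists_fun _).1 hy
  refine ⟨fun j => (c j : K'), fun j => (c j).2, ?_⟩
  rw [← hc]
  refine Finset.sum_congr rfl (fun j _ => ?_)
  rw [Algebra.smul_def]
  rfl


/-- a root of a monic relation with coefficients in a valuation subring lies in it. -/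
theorem h53u_mem_of_monic (O : ValuationSubring K') {z : K'} {m : ℕ} (c : ℕ → K')
    (hc : ∀ j, j < m → c j ∈ O) (h : z ^ m = ∑ j ∈ Finset.range m, c j * z ^ j) : z ∈ O := by
  by_contra hz
  have hz0 : z ≠ 0 := by
    rintro rfl
    exact hz O.zero_mem
  have hw : O.valuation z⁻¹ < 1 := by
    have h1 : ¬ O.valuation z ≤ 1 := fun h => hz ((ValuationSubring.valuation_le_one_iff O _).1 h)
    rw [not_le] at h1
    rw [map_inv₀]
    exact inv_lt_one_of_one_lt₀ h1
  have h1 : (1 : K') = ∑ j ∈ Finset.range m, c j * z⁻¹ ^ (m - j) := by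
    have h2 : z ^ m * z⁻¹ ^ m = 1 := by
      rw [← mul_pow, mul_inv_cancel₀ hz0, one_pow]
    rw [← h2, h, Finset.sum_mul]
    refine Finset.sum_congr rfl (fun j hj => ?_)
    rw [mul_assoc, h53u_pow_mul_inv_pow hz0 (Finset.mem_range.mp hj).le]
  have h3 : O.valuation (∑ j ∈ Finset.range m, c j * z⁻¹ ^ (m - j)) < 1 := by
    refine Valuation.map_sum_lt _ one_ne_zero ?_
    intro j hj
    have hj' := Finset.mem_range.mp hj
    rw [map_mul, map_pow]
    have h4 : O.valuation (c j) ≤ 1 := (ValuationSubring.valuation_le_one_iff O _).2 (hc j hj')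
    have h5 : O.valuation z⁻¹ ^ (m - j) < 1 := pow_lt_one₀ zero_le hw (by omega)
    calc O.valuation (c j) * O.valuation z⁻¹ ^ (m - j)
        ≤ 1 * O.valuation z⁻¹ ^ (m - j) := mul_le_mul_left h4 _
      _ < 1 := by rw [one_mul]; exact h5
  rw [← h1, map_one] at h3
  exact lt_irrefl _ h3

section Main

variable (v : AddValuation K' (WithTop ℤ))
  (hk : ∀ c : k, c ≠ 0 → v (algebraMap k K' c) = 0) {x t : K'} {n : ℕ} (hn : 0 < n)
  (hx : v x = ((-(n : ℤ) : ℤ) : WithTop ℤ)) (ht : v t = ((1 : ℤ) : WithTop ℤ))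

include hk hn hx ht in
/-- the coefficients of an element regular at `v` are regular at `x = ∞`. -/
theorem h53u_coeff_val (a : Fin n → K') (ha : ∀ i, a i ∈ k⟮x⟯)
    (hy : 0 ≤ v (∑ j, a j * t ^ (j : ℕ))) (i : Fin n) : 0 ≤ v (a i) := by
  have h1 := le_trans hy (h53u_gauss v hk hn hx ht a ha i)
  by_cases hai : a i = 0
  · rw [hai, AddValuation.map_zero]
    exact le_top
  obtain ⟨m, hm1, hm2⟩ := h53u_val_term v hk hn hx ht (ha i) hai (i : ℕ)
  rw [hm2] at h1
  rw [hm1]
  have h2 : (0 : ℤ) ≤ (n : ℤ) * m + ((i : ℕ) : ℤ) := by exact_mod_cast h1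
  have h3 : ((i : ℕ) : ℤ) < (n : ℤ) := by exact_mod_cast i.2
  have h4 : (0 : ℤ) < (n : ℤ) := by exact_mod_cast hn
  have h5 : (0 : ℤ) ≤ m := by
    by_contra hcon
    rw [not_le] at hcon
    have : (n : ℤ) * m ≤ -(n : ℤ) := by nlinarith
    omega
  have h6 : (0 : ℤ) ≤ (n : ℤ) * m := by positivity
  exact_mod_cast h6

variable [FiniteDimensional k⟮x⟯ K'] (hfin : Module.finrank k⟮x⟯ K' ≤ n)
  (O : ValuationSubring K') (hkO : ∀ c : k, algebraMap k K' c ∈ O) (hxO : x ∉ O)

include hk hn hx ht hfin hkO hxO in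
/-- the uniformiser `t` lies in every valuation subring `O ∌ x` containing the constants. -/
theorem h53u_t_mem : t ∈ O := by
  obtain ⟨c, hc, hrep⟩ := h53u_exists_repr (k := k) v hk hn hx ht hfin (t ^ n)
  have hv : 0 ≤ v (∑ j, c j * t ^ (j : ℕ)) := by
    rw [← hrep, AddValuation.map_pow, ht, ← WithTop.coe_nsmul]
    have : (0 : ℤ) ≤ n • (1 : ℤ) := by positivity
    exact_mod_cast this
  have hcO : ∀ i, c i ∈ O := fun i =>
    h53u_adjoin_mem v hk hn hx O hkO hxO (hc i) (h53u_coeff_val v hk hn hx ht c hc hv i)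
  refine h53u_mem_of_monic O (m := n) (fun j => if h : j < n then c ⟨j, h⟩ else 0) ?_ ?_
  · intro j hj
    simp only [hj, dif_pos]
    exact hcO _
  · rw [hrep, Finset.sum_range]
    refine Finset.sum_congr rfl (fun j _ => ?_)
    simp

include hk hn hx ht hfin hkO hxO in
/-- **TR-UNIQUE**: `v x = -n`, `[K' : k(x)] ≤ n`, `v t = 1`.  Every valuation subring `O` of `K'`
containing the constants and not containing `x` contains the valuation ring of `v`. -/
theorem h53u_tr_unique {y : K'} (hy : 0 ≤ v y) : y ∈ O := by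
  obtain ⟨a, ha, hrep⟩ := h53u_exists_repr (k := k) v hk hn hx ht hfin y
  have hv : 0 ≤ v (∑ j, a j * t ^ (j : ℕ)) := by rwa [← hrep]
  have haO : ∀ i, a i ∈ O := fun i =>
    h53u_adjoin_mem v hk hn hx O hkO hxO (ha i) (h53u_coeff_val v hk hn hx ht a ha hv i)
  have htO : t ∈ O := h53u_t_mem v hk hn hx ht hfin O hkO hxO
  rw [hrep]
  exact O.sum_mem (fun j _ => O.mul_mem _ _ (haO j) (O.pow_mem htO _))

include hk hn hx ht hfin hkO hxO in
/-- `O` IS the valuation ring of `v`. -/
theorem h53u_mem_iff {y : K'} : y ∈ O ↔ 0 ≤ v y := by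
  refine ⟨fun hyO => ?_, fun hy => h53u_tr_unique v hk hn hx ht hfin O hkO hxO hy⟩
  by_contra hcon
  rw [not_le] at hcon
  have hy0 : y ≠ 0 := by
    rintro rfl
    rw [AddValuation.map_zero] at hcon
    exact not_top_lt hcon
  have hx0 : x ≠ 0 := by
    rintro rfl
    exact hxO O.zero_mem
  obtain ⟨z, hz⟩ := WithTop.ne_top_iff_exists.1 (ne_top_of_lt hcon)
  rw [← hz] at hcon
  have hz0 : z < 0 := by exact_mod_cast hcon
  -- `w = x ^ (-z) / y ^ n` has valuation `0`
  set e : ℕ := z.toNat with he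
  set e' : ℕ := (-z).toNat with he'
  have he'z : (e' : ℤ) = -z := Int.toNat_of_nonneg (by omega)
  have he'1 : 1 ≤ e' := by omega
  have hw : v (x ^ e' * (y ^ n)⁻¹) = 0 := by
    rw [AddValuation.map_mul, AddValuation.map_inv, AddValuation.map_pow, AddValuation.map_pow,
      hx, ← hz, ← WithTop.coe_nsmul, ← WithTop.coe_nsmul, ← WithTop.LinearOrderedAddCommGroup.coe_neg, ← WithTop.coe_add]
    have : e' • (-(n : ℤ)) + -(n • z) = 0 := by
      simp only [nsmul_eq_mul]
      rw [he'z]
      ring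
    rw [this]
    rfl
  have hwO : x ^ e' * (y ^ n)⁻¹ ∈ O :=
    h53u_tr_unique v hk hn hx ht hfin O hkO hxO (le_of_eq hw.symm)
  have hxe : x ^ e' ∈ O := by
    have h1 : x ^ e' = (x ^ e' * (y ^ n)⁻¹) * y ^ n := by
      rw [mul_assoc, inv_mul_cancel₀ (pow_ne_zero _ hy0), mul_one]
    rw [h1]
    exact O.mul_mem _ _ hwO (O.pow_mem hyO _)
  have h2 : ¬ O.valuation x ≤ 1 := fun h => hxO ((ValuationSubring.valuation_le_one_iff O _).1 h)
  rw [not_le] at h2
  have h3 : 1 < O.valuation (x ^ e') := by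
    rw [map_pow]
    exact one_lt_pow₀ h2 (by omega)
  exact absurd ((ValuationSubring.valuation_le_one_iff O _).2 hxe) (not_le.2 h3)

include hk hn hx ht hfin hkO hxO in
/-- the nonunits of `O` are the elements of positive valuation. -/
theorem h53u_mem_nonunits_iff {y : K'} : y ∈ O.nonunits ↔ 0 < v y := by
  rw [ValuationSubring.mem_nonunits_iff]
  by_cases hy0 : y = 0
  · subst hy0
    rw [map_zero, AddValuation.map_zero]
    exact ⟨fun _ => WithTop.coe_lt_top (0 : ℤ), fun _ => zero_lt_one⟩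
  have hmem := @h53u_mem_iff k K' _ _ _ v hk x t n hn hx ht _ hfin O hkO hxO
  have hinv : v y⁻¹ = -(v y) := AddValuation.map_inv v
  constructor
  · intro h
    have h1 : 0 ≤ v y := hmem.1 ((ValuationSubring.valuation_le_one_iff O _).1 h.le)
    refine lt_of_le_of_ne h1 ?_
    intro h0
    have h2 : 0 ≤ v y⁻¹ := by rw [hinv, ← h0, neg_zero]
    have h3 := (ValuationSubring.valuation_le_one_iff O _).2 (hmem.2 h2)
    rw [map_inv₀] at h3
    have h4 : O.valuation y ≠ 0 := (Valuation.ne_zero_iff _).2 hy0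
    have h5 : 1 ≤ O.valuation y := by rwa [inv_le_one₀ (zero_lt_iff.2 h4)] at h3
    exact absurd h (not_lt.2 h5)
  · intro h
    have h1 := (ValuationSubring.valuation_le_one_iff O _).2 (hmem.2 h.le)
    refine lt_of_le_of_ne h1 ?_
    intro h0
    have h2 : O.valuation y⁻¹ ≤ 1 := by rw [map_inv₀, h0, inv_one]
    have h3 := hmem.1 ((ValuationSubring.valuation_le_one_iff O _).1 h2)
    rw [hinv] at h3
    obtain ⟨z, hz⟩ := WithTop.ne_top_iff_exists.1 ((AddValuation.ne_top_iff v).2 hy0)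
    rw [← hz] at h h3
    have h6 : (0 : ℤ) < z := by exact_mod_cast h
    have h7 : (0 : ℤ) ≤ -z := by exact_mod_cast h3
    omega


include hk hn hx ht hfin in
/-- an element integral over `k[x]` and regular at `v` lies in every valuation subring of `K'`
containing the constants. -/
theorem h53u_mem_all {y : K'} (hint : IsIntegral (Algebra.adjoin k {x}) y) (hy : 0 ≤ v y)
    (V : ValuationSubring K') (hkV : ∀ c : k, algebraMap k K' c ∈ V) : y ∈ V := by
  by_cases hxV : x ∈ V
  · have hadj : ∀ s ∈ Algebra.adjoin k {x}, s ∈ V := by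
      intro s hs
      induction hs using Algebra.adjoin_induction with
      | mem z hz =>
        rw [Set.mem_singleton_iff] at hz
        rw [hz]
        exact hxV
      | algebraMap c => exact hkV c
      | add a b _ _ ha hb => exact V.add_mem _ _ ha hb
      | mul a b _ _ ha hb => exact V.mul_mem _ _ ha hb
    obtain ⟨p, hp, hroot⟩ := hint
    rw [Polynomial.eval₂_eq_sum_range, Finset.sum_range_succ] at hroot
    have hlc : p.coeff p.natDegree = 1 := by
      rw [Polynomial.coeff_natDegree]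
      exact hp
    rw [hlc, map_one, one_mul] at hroot
    refine h53u_mem_of_monic V (m := p.natDegree)
      (fun j => -(algebraMap (Algebra.adjoin k {x}) K' (p.coeff j))) ?_ ?_
    · intro j _
      exact V.neg_mem _ (hadj _ (p.coeff j).2)
    · have h1 : y ^ p.natDegree = -∑ j ∈ Finset.range p.natDegree,
          algebraMap (Algebra.adjoin k {x}) K' (p.coeff j) * y ^ j := by
        rw [eq_neg_iff_add_eq_zero, add_comm]
        exact hroot
      rw [h1, ← Finset.sum_neg_distrib]
      refine Finset.sum_congr rfl (fun j _ => ?_)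
      rw [neg_mul]
  · exact h53u_tr_unique v hk hn hx ht hfin V hkV hxV hy

include hk hn hx ht hfin in
/-- **CONST-ABS**: `v x = -n`, `[K' : k(x)] ≤ n`, `v t = 1`.  An element of `K'` integral over
`k[x]` and regular at `v` is integral over `k`. -/
theorem h53u_const {y : K'} (hint : IsIntegral (Algebra.adjoin k {x}) y) (hy : 0 ≤ v y) :
    IsIntegral k y := by
  classical
  set s : Set K' := Set.range (algebraMap k K') with hs
  have hmem : y ∈ (⨅ V : {V : ValuationSubring K' // s ⊆ V.toSubring}, V.1.toSubring) := by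
    rw [Subring.mem_iInf]
    rintro ⟨V, hV⟩
    exact h53u_mem_all v hk hn hx ht hfin hint hy V (fun c => hV ⟨c, rfl⟩)
  rw [iInf_valuationSubring_superset] at hmem
  have hint' : IsIntegral (Subring.closure s) y := hmem
  obtain ⟨p, hp, hroot⟩ := hint'
  have hcl : ∀ z ∈ Subring.closure s, z ∈ Set.range (algebraMap k K') := by
    have hle : Subring.closure s ≤ (algebraMap k K').range := by
      rw [Subring.closure_le]
      rintro _ ⟨c, rfl⟩
      exact ⟨c, rfl⟩
    intro z hz
    exact hle hz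
  have hlifts : p.map (Subring.closure s).subtype ∈ Polynomial.lifts (algebraMap k K') := by
    rw [Polynomial.lifts_iff_coeff_lifts]
    intro i
    rw [Polynomial.coeff_map]
    exact hcl _ (p.coeff i).2
  obtain ⟨q, hq, -, hqm⟩ := Polynomial.lifts_and_degree_eq_and_monic hlifts (hp.map _)
  refine ⟨q, hqm, ?_⟩
  rw [Polynomial.eval₂_eq_eval_map, hq, Polynomial.eval_map]
  exact hroot

include hk hn hx ht hfin in
/-- **CONST-ABS**, algebraically closed constants: the element is a constant. -/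
theorem h53u_const_algClosed [IsAlgClosed k] {y : K'}
    (hint : IsIntegral (Algebra.adjoin k {x}) y) (hy : 0 ≤ v y) :
    ∃ c : k, algebraMap k K' c = y := by
  have h1 := h53u_const v hk hn hx ht hfin hint hy
  have h2 : (minpoly k y).degree = 1 :=
    IsAlgClosed.degree_eq_one_of_irreducible k (minpoly.irreducible h1)
  exact minpoly.mem_range_of_degree_eq_one k y h2

end Main

/-! ### The degree hypothesis in family form -/

/-- if every finite family of `K'` which is linearly independent over `k(x)` has at most `n`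
members, then `K'` is finite over `k(x)` of degree `≤ n`. -/
theorem h53u_finrank_of_forall {x : K'} {n : ℕ}
    (h : ∀ (m : ℕ) (b : Fin m → K'), LinearIndependent k⟮x⟯ b → m ≤ n) :
    FiniteDimensional k⟮x⟯ K' ∧ Module.finrank k⟮x⟯ K' ≤ n := by
  have hrank : Module.rank k⟮x⟯ K' ≤ n := by
    refine rank_le ?_
    intro s hs
    have h1 := h s.card (fun i => ((s.equivFin.symm i : s) : K'))
      (hs.comp _ s.equivFin.symm.injective)
    exact h1
  have hfd : FiniteDimensional k⟮x⟯ K' := by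
    rw [FiniteDimensional, ← Module.rank_lt_aleph0_iff]
    exact lt_of_le_of_lt hrank (Cardinal.natCast_lt_aleph0)
  exact ⟨hfd, Module.finrank_le_of_rank_le hrank⟩

/-! ### The `q`-order form: `K'` embedded in `k((q))` -/

section Laurent

variable (ι : K' →ₐ[k] LaurentSeries k)

/-- the `q`-order valuation of `K'` along `ι`. -/
def h53uV : AddValuation K' (WithTop ℤ) :=
  (HahnSeries.addVal ℤ k).comap (ι : K' →+* LaurentSeries k)

theorem h53uV_apply (y : K') : h53uV ι y = (ι y).orderTop := by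
  show (HahnSeries.addVal ℤ k) (ι y) = _
  rw [HahnSeries.addVal_apply]

theorem h53uV_of_ne {y : K'} (hy : y ≠ 0) : h53uV ι y = ((ι y).order : WithTop ℤ) := by
  show (HahnSeries.addVal ℤ k) (ι y) = _
  rw [HahnSeries.addVal_apply_of_ne ((_root_.map_ne_zero ι).2 hy)]

theorem h53uV_const {c : k} (hc : c ≠ 0) : h53uV ι (algebraMap k K' c) = 0 := by
  have h0 : algebraMap k K' c ≠ 0 := (_root_.map_ne_zero _).2 hc
  rw [h53uV_of_ne ι h0, AlgHom.commutes]
  have h1 : algebraMap k (LaurentSeries k) c = HahnSeries.C c := by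
    rw [HahnSeries.algebraMap_apply']
    simp
  rw [h1, HahnSeries.order_C]
  rfl

theorem h53u_ne_zero_of_order {y : K'} {m : ℤ} (hm : m ≠ 0) (hy : (ι y).order = m) : y ≠ 0 := by
  rintro rfl
  rw [map_zero, HahnSeries.order_zero] at hy
  exact hm hy.symm

theorem h53uV_nonneg_iff {y : K'} : 0 ≤ h53uV ι y ↔ 0 ≤ (ι y).order := by
  by_cases hy : y = 0
  · subst hy
    rw [AddValuation.map_zero, map_zero, HahnSeries.order_zero]
    exact ⟨fun _ => le_rfl, fun _ => le_top⟩
  · rw [h53uV_of_ne ι hy]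
    exact_mod_cast Iff.rfl

theorem h53uV_pos_iff {y : K'} : 0 < h53uV ι y ↔ y = 0 ∨ 0 < (ι y).order := by
  by_cases hy : y = 0
  · subst hy
    rw [AddValuation.map_zero]
    exact ⟨fun _ => Or.inl rfl, fun _ => WithTop.coe_lt_top (0 : ℤ)⟩
  · rw [h53uV_of_ne ι hy]
    constructor
    · intro h
      right
      exact_mod_cast h
    · rintro (h | h)
      · exact absurd h hy
      · exact_mod_cast h

variable {x t : K'} {n : ℕ} (hn : 0 < n) (hx : (ι x).order = -(n : ℤ)) (ht : (ι t).order = 1)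
  [FiniteDimensional k⟮x⟯ K'] (hfin : Module.finrank k⟮x⟯ K' ≤ n)

include hn hx in
theorem h53uV_x : h53uV ι x = ((-(n : ℤ) : ℤ) : WithTop ℤ) := by
  have hn' : (-(n : ℤ)) ≠ 0 := by
    have : (0 : ℤ) < n := by exact_mod_cast hn
    omega
  rw [h53uV_of_ne ι (h53u_ne_zero_of_order ι hn' hx), hx]

include ht in
theorem h53uV_t : h53uV ι t = ((1 : ℤ) : WithTop ℤ) := by
  rw [h53uV_of_ne ι (h53u_ne_zero_of_order ι one_ne_zero ht), ht]

include hn hx ht hfin in
/-- **TR-UNIQUE, `q`-order form.**  `K' ⊆ k((q))`, `ord_q x = -n`, `ord_q t = 1`,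
`[K' : k(x)] ≤ n`: a valuation subring `O` of `K'` containing the constants and not containing
`x` is the valuation ring of the `q`-order. -/
theorem h53u_mem_iff_q (O : ValuationSubring K') (hkO : ∀ c : k, algebraMap k K' c ∈ O)
    (hxO : x ∉ O) {y : K'} : y ∈ O ↔ 0 ≤ (ι y).order := by
  rw [← h53uV_nonneg_iff]
  exact h53u_mem_iff (h53uV ι) (fun c hc => h53uV_const ι hc) hn (h53uV_x ι hn hx)
    (h53uV_t ι ht) hfin O hkO hxO

include hn hx ht hfin in
theorem h53u_mem_nonunits_iff_q (O : ValuationSubring K')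
    (hkO : ∀ c : k, algebraMap k K' c ∈ O) (hxO : x ∉ O) {y : K'} :
    y ∈ O.nonunits ↔ y = 0 ∨ 0 < (ι y).order := by
  rw [← h53uV_pos_iff]
  exact h53u_mem_nonunits_iff (h53uV ι) (fun c hc => h53uV_const ι hc) hn (h53uV_x ι hn hx)
    (h53uV_t ι ht) hfin O hkO hxO

include hn hx ht hfin in
/-- **CONST-ABS, `q`-order form.**  An element of `K'` integral over `k[x]` whose `q`-expansion
has no pole is integral over `k`. -/
theorem h53u_const_q {y : K'} (hint : IsIntegral (Algebra.adjoin k {x}) y)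
    (hy : 0 ≤ (ι y).order) : IsIntegral k y :=
  h53u_const (h53uV ι) (fun c hc => h53uV_const ι hc) hn (h53uV_x ι hn hx) (h53uV_t ι ht) hfin
    hint ((h53uV_nonneg_iff ι).2 hy)

include hn hx ht hfin in
/-- **CONST-ABS, `q`-order form, algebraically closed constants.** -/
theorem h53u_const_q_algClosed [IsAlgClosed k] {y : K'}
    (hint : IsIntegral (Algebra.adjoin k {x}) y) (hy : 0 ≤ (ι y).order) :
    ∃ c : k, algebraMap k K' c = y :=
  h53u_const_algClosed (h53uV ι) (fun c hc => h53uV_const ι hc) hn (h53uV_x ι hn hx)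
    (h53uV_t ι ht) hfin hint ((h53uV_nonneg_iff ι).2 hy)

end Laurent

end Fermat.Agent.P7
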