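import Fermat.Agent.P7.H54LatIface
import Fermat.Agent.Jac.Desc0
import Fermat.Agent.Jac.BaseChangeOrd
import Fermat.Agent.Jac.Can
import Fermat.Agent.Jac.DegC

/-!
# Wave 7, LATTICE: the leaves LAT0 (`H54lPole`) and LAT6 (`H54lDesc`) (helper54)
-/

set_option autoImplicit false

open ModularCurve AlgebraicCurve UpperHalfPlane CongruenceSubgroup
open scoped MatrixGroups Manifold

noncomputable section

namespace Fermat.Agent.P7

open Fermat.Agent.S24 (Kbar FF embC)
open Fermat.Agent.Jac (FC jC)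
open Fermat.Agent.P5 (H26sIsPole)

/-- **LAT0**: the pole divisor of `j` on `F_ℂ`. -/
theorem h54l_pole : H54lPole := by
  intro N _
  obtain ⟨hjtr, hfin, -⟩ := Fermat.Agent.Jac.degC N
  have := hfin
  obtain ⟨hPD, -⟩ := Fermat.Agent.Jac.h4c_pd N
  have hj0 : jC N ≠ 0 := fun h => hjtr (h ▸ isAlgebraic_zero)
  obtain ⟨D₀, hD₀, -⟩ := hPD.exists_divisor (jC N) hj0
  refine ⟨D₀.mapRange (fun a => max 0 (-a)) (by simp), fun v => ?_⟩
  rw [Finsupp.mapRange_apply, hD₀]

/-- the coefficient embedding of `j`. -/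
theorem h54l_coe_jC (N : ℕ) [NeZero N] :
    ((jC N : FC N) : LaurentSeries ℂ)
      = coeffMap embC ((Fermat.Agent.S37.jB N : FF N) : LaurentSeries Kbar) := by
  rw [Fermat.Agent.Jac.coe_jC]
  show coeffEmb ℂ jq = coeffMap embC (coeffEmb Kbar jq)
  ext n
  simp only [coeffEmb_coeff, coeffMap_coeff]
  exact (Fermat.Agent.Jac.h49_embC_algebraMap _).symm

/-- **LAT6**: descent to `FF N`. -/
theorem h54l_desc : H54lDesc := by
  intro N _ Dc D hDc hD n y hy
  obtain ⟨u, hu, huy⟩ := hy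
  have huy' : ((u : FC N) : LaurentSeries ℂ) = coeffMap embC y := huy
  have hmem : coeffMap embC y ∈ laurentBaseChange ℂ (modularFunctionFieldFull N) := by
    rw [← huy']
    exact u.2
  have hyF : y ∈ modularFunctionFieldBar N := Fermat.Agent.Jac.desc N y hmem
  refine ⟨⟨y, hyF⟩, rfl, ?_⟩
  rw [mem_riemannRochSpace_iff]
  intro v₀
  obtain ⟨v, hv⟩ := Fermat.Agent.Jac.baseChangeOrd N v₀
  by_cases hy0 : (⟨y, hyF⟩ : FF N) = 0
  · exact Or.inl hy0
  refine Or.inr ?_
  have h1 : v.ord u = v₀.ord (⟨y, hyF⟩ : FF N) := hv ⟨y, hyF⟩ u huy'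
  have h2 : v.ord (jC N) = v₀.ord (Fermat.Agent.S37.jB N) :=
    hv (Fermat.Agent.S37.jB N) (jC N) (h54l_coe_jC N)
  have hu0 : u ≠ 0 := by
    rintro rfl
    apply hy0
    apply Subtype.ext
    have h3 : coeffMap embC y = 0 := by rw [← huy']; rfl
    have hinj : Function.Injective (coeffMap embC) :=
      (coeffMap embC).injective
    show y = 0
    exact hinj (h3.trans (map_zero _).symm)
  have h4 := (mem_riemannRochSpace_iff.mp hu v).resolve_left hu0
  rw [Finsupp.smul_apply, hDc v, h2] at h4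
  rw [Finsupp.smul_apply, hD v₀, ← h1]
  exact h4

end Fermat.Agent.P7
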