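import Fermat.Agent.S21.E.Defs
import Fermat.Agent.Jac.DictCDefs
import Fermat.Agent.P5.H26GenusWire
import Fermat.Prelude.Def_ModularCurve_GenusNumerics

/-!
# Wave 7, block (A) / DLOG, leaf LATTICE: interface (helper54)

Target (`H54lLattice`): the weak (Riemann) genus of `FF M` over `ℚ̄` is at most
`genusFormula M = dim S₂(Γ₀(M))`.

Route (finding of helper54, 09:55Z): the reduced basis of project ES part E (`S21/E`, over `ℂ`)
gives `(n+1) μ - total ≥ n μ + 1 - genusFormula` linearly independent weakly holomorphic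
functions of degree `≤ n` (LAT1); their `q`-expansions lie in `L_ℂ(n D_∞) ⊆ F_ℂ ⊆ ℂ((q))` (LAT2);
this space has bounded `q`-orders (LAT3), is stable under `Aut(ℂ/ℚ)` (LAT4), hence is spanned by
series with coefficients in `ℚ̄` (LAT5, echelon form + landed ORBIT); such a series lies in
`L(n D_∞) ⊆ FF M` (LAT6, landed DESC0 + BCORD).  The conclusion is weak Riemann-Roch only.

Every declaration is a definition or a `def ... : Prop`; nothing is assumed.
-/

set_option autoImplicit false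

open ModularCurve AlgebraicCurve UpperHalfPlane CongruenceSubgroup
open scoped MatrixGroups Manifold

noncomputable section

namespace Fermat.Agent.P7

open Fermat.Agent.S24 (Kbar FF embC)
open Fermat.Agent.S28 (HasTExp)
open Fermat.Agent.Jac (FC jC)
open Fermat.Agent.S21.E (IsWH)
open Fermat.Agent.P5 (H13rIsGenus H26sIsPole)

/-- the inclusion `F_ℂ → ℂ((q))` as a `ℂ`-linear map. -/
def h54lIncl (N : ℕ) : FC N →ₗ[ℂ] LaurentSeries ℂ where
  toFun u := (u : LaurentSeries ℂ)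
  map_add' _ _ := rfl
  map_smul' c u := by
    rw [RingHom.id_apply]
    have e : c • u = algebraMap ℂ (FC N) c * u := Algebra.smul_def c u
    have e2 : ((algebraMap ℂ (FC N) c : FC N) : LaurentSeries ℂ) = HahnSeries.C c := by
      have h1 : ((algebraMap ℂ (FC N) c : FC N) : LaurentSeries ℂ)
          = algebraMap ℂ (LaurentSeries ℂ) c := rfl
      rw [h1, algebraMap_laurentSeries_eq_single]
      rfl
    rw [e, MulMemClass.coe_mul, e2, HahnSeries.C_mul_eq_smul]

@[simp] theorem h54lIncl_apply (N : ℕ) (u : FC N) : h54lIncl N u = (u : LaurentSeries ℂ) := rfl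

/-- `D` is the pole divisor of `j` on `F_ℂ`. -/
def H54lIsPoleC (N : ℕ) [NeZero N] (D : Divisor ℂ (FC N)) : Prop :=
  ∀ v : Place ℂ (FC N), D v = max 0 (-(v.ord (jC N)))

/-- `L_ℂ(n D)` as a subspace of `ℂ((q))`. -/
def h54lW (N : ℕ) [NeZero N] (D : Divisor ℂ (FC N)) (n : ℕ) : Submodule ℂ (LaurentSeries ℂ) :=
  (riemannRochSpace (n • D)).map (h54lIncl N)

/-- **LAT0**: the pole divisor of `j` on `F_ℂ` exists. -/
def H54lPole : Prop :=
  ∀ (N : ℕ) [NeZero N], ∃ D : Divisor ℂ (FC N), H54lIsPoleC N D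

/-- **LAT1** (S21/E vocabulary + S20): for large `n` there are at least
`n μ + 1 - genusFormula` linearly independent weakly holomorphic functions of degree `≤ n`. -/
def H54lCount : Prop :=
  ∀ (N : ℕ) [NeZero N], ∃ n₀ : ℕ, ∀ n : ℕ, n₀ ≤ n →
    ∃ (m : ℕ) (f : Fin m → ℍ → ℂ),
      ((n : ℚ) * ((Gamma0 N).index : ℚ) + 1 ≤ (m : ℚ) + genusFormula N) ∧
      (∀ i, IsWH (Gamma0 N) n (f i)) ∧ LinearIndependent ℂ f

/-- **LAT2** (Jac vocabulary: CONV, AnC, EmbC, DictC): the `q`-expansions of weakly holomorphic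
functions of degree `≤ n` lie in `L_ℂ(n D_∞)`; linear independence is preserved. -/
def H54lAn : Prop :=
  ∀ (N : ℕ) [NeZero N] (D : Divisor ℂ (FC N)), H54lIsPoleC N D →
    ∀ (n m : ℕ) (f : Fin m → ℍ → ℂ), (∀ i, IsWH (Gamma0 N) n (f i)) → LinearIndependent ℂ f →
      ∃ s : Fin m → LaurentSeries ℂ, (∀ i, s i ∈ h54lW N D n) ∧ LinearIndependent ℂ s

/-- **LAT3** (places over `ℂ`: landed `h4c_pd`, `h4c_exists_place_infty`): the `q`-orders of the
nonzero elements of `L_ℂ(n D_∞)` are bounded. -/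
def H54lBound : Prop :=
  ∀ (N : ℕ) [NeZero N] (D : Divisor ℂ (FC N)), H54lIsPoleC N D → ∀ n : ℕ,
    ∃ C : ℤ, ∀ s ∈ h54lW N D n, s ≠ 0 → -C ≤ s.order ∧ s.order ≤ C

/-- **LAT4** (Prelude `SemilinearAut` action on places, `ord_smul`, landed `h4c_smul_jC`):
`L_ℂ(n D_∞)` is stable under the coefficientwise action of `Aut(ℂ/ℚ)`. -/
def H54lGal : Prop :=
  ∀ (N : ℕ) [NeZero N] (D : Divisor ℂ (FC N)), H54lIsPoleC N D → ∀ (n : ℕ) (σ : ℂ ≃ₐ[ℚ] ℂ),
    ∀ s ∈ h54lW N D n, coeffMap (σ : ℂ →+* ℂ) s ∈ h54lW N D n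

/-- **LAT5** (abstract; Mathlib + landed ORBIT + `Jac.exists_coeffMap_eq`): a subspace of
`ℂ((q))` with bounded orders which is stable under `Aut(ℂ/ℚ)` contains, for every linearly
independent family of `m` of its elements, `m` linearly independent series with coefficients in
`ℚ̄`. -/
def H54lEchelon : Prop :=
  ∀ (W : Submodule ℂ (LaurentSeries ℂ)) (C : ℤ),
    (∀ s ∈ W, s ≠ 0 → -C ≤ s.order ∧ s.order ≤ C) →
    (∀ (σ : ℂ ≃ₐ[ℚ] ℂ), ∀ s ∈ W, coeffMap (σ : ℂ →+* ℂ) s ∈ W) →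
    ∀ (m : ℕ) (s : Fin m → LaurentSeries ℂ), (∀ i, s i ∈ W) → LinearIndependent ℂ s →
      ∃ y : Fin m → LaurentSeries Kbar,
        (∀ i, coeffMap embC (y i) ∈ W) ∧ LinearIndependent Kbar y

/-- **LAT6** (landed DESC0 + BCORD): a series with coefficients in `ℚ̄` whose image lies in
`L_ℂ(n D_∞)` is an element of `L(n D_∞) ⊆ FF N`. -/
def H54lDesc : Prop :=
  ∀ (N : ℕ) [NeZero N] (Dc : Divisor ℂ (FC N)) (D : Divisor Kbar (FF N)),
    H54lIsPoleC N Dc → H26sIsPole N D → ∀ (n : ℕ) (y : LaurentSeries Kbar),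
      coeffMap embC y ∈ h54lW N Dc n →
      ∃ f : FF N, (f : LaurentSeries Kbar) = y ∧ f ∈ riemannRochSpace (n • D)

/-- **LATTICE**: the weak genus of `FF M` is at most `genusFormula M`. -/
def H54lLattice : Prop :=
  ∀ (M : ℕ) [NeZero M] (g : ℕ), H13rIsGenus Kbar (FF M) g → (g : ℚ) ≤ genusFormula M

/-- the conditional top of LATTICE (to be proved in `P7/H54LatTop.lean`). -/
def H54lTopStatement : Prop :=
  H54lPole → H54lCount → H54lAn → H54lBound → H54lGal → H54lEchelon → H54lDesc → H54lLattice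

end Fermat.Agent.P7
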