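import Fermat.Agent.P7.H54LatIface
import Fermat.Agent.P5.H3RRFin
import Fermat.Agent.P5.H68RRFin
import Fermat.Agent.P5.H40RRInst
import Fermat.Agent.S24.DegLe

/-!
# Wave 7, LATTICE: the conditional top (helper54)

`h54l_top : H54lTopStatement`: the seven leaves of `P7/H54LatIface.lean` imply
`H54lLattice` (the weak genus of `FF M` is at most `genusFormula M`).  Weak Riemann-Roch only.
-/

set_option autoImplicit false

open ModularCurve AlgebraicCurve UpperHalfPlane CongruenceSubgroup IntermediateField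
open scoped MatrixGroups Manifold

noncomputable section

namespace Fermat.Agent.P7

open Fermat.Agent.S24 (Kbar FF embC)
open Fermat.Agent.Jac (FC jC)
open Fermat.Agent.P5

/-- the degree of the pole divisor of `j` is `[FF M : ℚ̄(j)]`. -/
theorem h54l_deg_pole (M : ℕ) [NeZero M] (D : Divisor Kbar (FF M)) (hD : H26sIsPole M D) :
    Divisor.degree D = (Module.finrank Kbar⟮Fermat.Agent.S37.jB M⟯ (FF M) : ℤ) := by
  classical
  obtain ⟨s, hs, hsum⟩ := h40r_zeros_FF M (Fermat.Agent.S37.jB M)⁻¹ (Or.inr rfl)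
  have hBg : H13rBase Kbar (FF M) := h40r_base_FF M
  have hDeq : D = ∑ v ∈ s, Finsupp.single v (v.ord (Fermat.Agent.S37.jB M)⁻¹) := by
    ext v
    rw [hD v, Finsupp.finsetSum_apply]
    by_cases hv : v ∈ s
    · rw [Finset.sum_eq_single_of_mem v hv (fun w _ hw => Finsupp.single_eq_of_ne' hw),
        Finsupp.single_eq_same]
      have := (hs v).1 hv
      rw [Place.ord_inv] at this ⊢
      omega
    · rw [Finset.sum_eq_zero (fun w hw => Finsupp.single_eq_of_ne'
        (by rintro rfl; exact hv hw))]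
      have := (hs v).not.1 hv
      rw [Place.ord_inv] at this
      omega
  rw [hDeq, map_sum]
  have h1 : ∀ v ∈ s, Divisor.degree (Finsupp.single v (v.ord (Fermat.Agent.S37.jB M)⁻¹))
      = v.ord (Fermat.Agent.S37.jB M)⁻¹ := by
    intro v _
    rw [Divisor.degree_single, hBg.deg_one v]; simp
  rw [Finset.sum_congr rfl h1, hsum]

/-- weak Riemann-Roch: for large `n`, `g + ℓ(n D) = n deg D + 1` (`D` of positive degree). -/
theorem h54l_genus_eq {K F : Type*} [Field K] [Field F] [Algebra K F] (hB : H13rBase K F)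
    (g : ℕ) (hg : H13rIsGenus K F g) (D : Divisor K F) (hDpos : 0 < Divisor.degree D) :
    ∃ n₁ : ℕ, ∀ n : ℕ, n₁ ≤ n →
      (h13rL K F (n • D) : ℤ) + g = n * Divisor.degree D + 1 := by
  classical
  obtain ⟨hR1, D₁, hR2⟩ := hg
  refine ⟨(Divisor.degree D₁).toNat + g, fun n hn => ?_⟩
  have hn2 : Divisor.degree D₁ + g ≤ (n : ℤ) := by
    have h2 : Divisor.degree D₁ ≤ ((Divisor.degree D₁).toNat : ℤ) := Int.self_le_toNat _
    have h3 : (((Divisor.degree D₁).toNat + g : ℕ) : ℤ) ≤ (n : ℤ) := by exact_mod_cast hn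
    push_cast at h3
    linarith
  have hdegnD : Divisor.degree (n • D) = n * Divisor.degree D := by
    rw [map_nsmul, nsmul_eq_mul]
  have hpos : 0 < h13rL K F (n • D - D₁) := by
    have h1 := hR1 (n • D - D₁)
    rw [map_sub, hdegnD] at h1
    have h2 : (n : ℤ) ≤ n * Divisor.degree D := by nlinarith
    have h3 : (0 : ℤ) < (h13rL K F (n • D - D₁) : ℤ) := by linarith
    exact_mod_cast h3
  obtain ⟨x, hx⟩ : ∃ x : ↥(riemannRochSpace (n • D - D₁)), x ≠ 0 := by
    by_contra hcon
    simp only [not_exists, not_not] at hcon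
    have hbot : riemannRochSpace (n • D - D₁) = ⊥ := by
      rw [Submodule.eq_bot_iff]
      intro z hz
      exact congrArg Subtype.val (hcon ⟨z, hz⟩)
    have h1 : h13rL K F (n • D - D₁) = 0 := by
      unfold h13rL
      rw [hbot]
      exact finrank_bot K F
    omega
  have hf0 : (x : F) ≠ 0 := fun h => hx (Subtype.ext h)
  obtain ⟨Df, hDf, hDfdeg⟩ := hB.pd (x : F) hf0
  have hD' : D₁ ≤ n • D + Df := by
    rw [Finsupp.le_def]
    intro v
    have h1 := (mem_riemannRochSpace_iff.mp x.2 v).resolve_left hf0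
    rw [Finsupp.sub_apply] at h1
    rw [Finsupp.add_apply, hDf v]
    linarith
  have hinv : h13rL K F (n • D + Df) = h13rL K F (n • D) :=
    h3r_inv (n • D) (n • D + Df) (x : F) hf0 (fun v => by rw [Finsupp.add_apply, hDf v])
  have hgen := hR2 (n • D + Df) hD'
  rw [hinv, map_add, hdegnD, hDfdeg, add_zero] at hgen
  exact hgen

/-- the inclusion `FF M → ℚ̄((q))` as a linear map. -/
def h54lInclB (M : ℕ) : FF M →ₗ[Kbar] LaurentSeries Kbar where
  toFun u := (u : LaurentSeries Kbar)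
  map_add' _ _ := rfl
  map_smul' c u := by
    rw [RingHom.id_apply]
    have e : c • u = algebraMap Kbar (FF M) c * u := Algebra.smul_def c u
    have e2 : ((algebraMap Kbar (FF M) c : FF M) : LaurentSeries Kbar) = HahnSeries.C c := by
      have h1 : ((algebraMap Kbar (FF M) c : FF M) : LaurentSeries Kbar)
          = algebraMap Kbar (LaurentSeries Kbar) c := rfl
      rw [h1, algebraMap_laurentSeries_eq_single]
      rfl
    rw [e, MulMemClass.coe_mul, e2, HahnSeries.C_mul_eq_smul]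

/-- the count over `ℚ̄`: the leaves give `m ≤ ℓ(n D)`. -/
theorem h54l_count_bar (hAn : H54lAn) (hBound : H54lBound) (hGal : H54lGal)
    (hEch : H54lEchelon) (hDesc : H54lDesc) (M : ℕ) [NeZero M] (Dc : Divisor ℂ (FC M))
    (hDc : H54lIsPoleC M Dc) (D : Divisor Kbar (FF M)) (hD : H26sIsPole M D) (n m : ℕ)
    (f : Fin m → ℍ → ℂ) (hf : ∀ i, Fermat.Agent.S21.E.IsWH (Gamma0 M) n (f i))
    (hfli : LinearIndependent ℂ f) :
    m ≤ h13rL Kbar (FF M) (n • D) := by
  classical
  have hBg : H13rBase Kbar (FF M) := h40r_base_FF M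
  obtain ⟨s, hs, hsli⟩ := hAn M Dc hDc n m f hf hfli
  obtain ⟨C, hC⟩ := hBound M Dc hDc n
  obtain ⟨y, hy, hyli⟩ := hEch (h54lW M Dc n) C hC (hGal M Dc hDc n) m s hs hsli
  choose w hw1 hw2 using fun i => hDesc M Dc D hDc hD n (y i) (hy i)
  have hli : LinearIndependent Kbar
      (fun i => (⟨w i, hw2 i⟩ : ↥(riemannRochSpace (n • D)))) := by
    apply LinearIndependent.of_comp (Submodule.subtype _)
    apply LinearIndependent.of_comp (h54lInclB M)
    have he : ((h54lInclB M) ∘ (Submodule.subtype (riemannRochSpace (n • D))) ∘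
        fun i => (⟨w i, hw2 i⟩ : ↥(riemannRochSpace (n • D)))) = y := by
      funext i
      exact hw1 i
    rw [he]
    exact hyli
  haveI : Module.Finite Kbar ↥(riemannRochSpace (n • D)) := h68r_finite hBg _
  have hcard := hli.fintype_card_le_finrank
  rw [Fintype.card_fin] at hcard
  exact hcard

/-- **the top of LATTICE.** -/
theorem h54l_top : H54lTopStatement := by
  intro hPole hCount hAn hBound hGal hEch hDesc M _ g hg
  have hBg : H13rBase Kbar (FF M) := h40r_base_FF M
  obtain ⟨D, hD, hDpos⟩ := h26s_exists_pole M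
  obtain ⟨Dc, hDc⟩ := hPole M
  obtain ⟨n₀, hn₀⟩ := hCount M
  have hdeg := h54l_deg_pole M D hD
  have hle : (Module.finrank Kbar⟮Fermat.Agent.S37.jB M⟯ (FF M) : ℤ) ≤ ((Gamma0 M).index : ℤ) := by
    exact_mod_cast (Fermat.Agent.S24.finrank_le_index M).2
  obtain ⟨n₁, hn₁⟩ := h54l_genus_eq hBg g hg D hDpos
  have hgen := hn₁ (max n₀ n₁) (le_max_right _ _)
  obtain ⟨m, f, hm, hf, hfli⟩ := hn₀ (max n₀ n₁) (le_max_left _ _)
  have hcard := h54l_count_bar hAn hBound hGal hEch hDesc M Dc hDc D hD (max n₀ n₁) m f hf hfli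
  have hcard' : (m : ℤ) ≤ (h13rL Kbar (FF M) ((max n₀ n₁) • D) : ℤ) := by exact_mod_cast hcard
  have hkey : (g : ℤ) + m ≤ ((max n₀ n₁ : ℕ) : ℤ) * ((Gamma0 M).index : ℤ) + 1 := by
    have h1 : ((max n₀ n₁ : ℕ) : ℤ) * Divisor.degree D
        ≤ ((max n₀ n₁ : ℕ) : ℤ) * ((Gamma0 M).index : ℤ) := by
      apply mul_le_mul_of_nonneg_left _ (Int.natCast_nonneg _)
      rw [hdeg]; exact hle
    linarith
  have hkeyQ : (g : ℚ) + m ≤ ((max n₀ n₁ : ℕ) : ℚ) * ((Gamma0 M).index : ℚ) + 1 := by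
    exact_mod_cast hkey
  linarith

end Fermat.Agent.P7
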