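import Fermat.Agent.S35.H13TorNode

/-!
# P7 (S40), block (5b), leaf NODE-SLOPE (helper74): units and slopes at a node, abstract form

Vocabulary of `Red/LocalFact.lean` and `S35/H13TorNode.lean`: `A` a valuation ring, `F` a field
over `A`, `B ⊆ F` a chart, `V = W∞ ∩ W₀` the semistable Gauss ring, `v` the places finite on the
chart, `𝔫` a closed point of the special fibre lying on both components with a node datum
`x y = a c` (`x` a unit of `W∞`, `y` a unit of `W₀`, `a ∈ 𝔪_A`) and sections at the places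
centered at `𝔫`.  New hypothesis: the value group is archimedean with respect to `a`
(`∀ t ≠ 0, ∃ k, ¬ a ^ k ∣ t`).

* `h74u_x_prime` : `x` is prime-like in `B_𝔫`: `b₁ b₂ = s x` with `s ∉ 𝔫` and `b₁, b₂ ∈ 𝔫` is
  impossible.
* `h74u_node_unit` : a function `f` without zeros or poles centered at `𝔫` which is a unit of
  `W∞`, with `θ f` a unit of `W₀` (`θ` a constant), is `x ^ m · (unit of B_𝔫)` and
  `θ⁻¹ = t a ^ m`, `t ∈ A^×`.
* `h74u_node_slope` : a function `u` whose orders at the places centered at `𝔫` are divisible by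
  `r`, unit of `W∞`, with `θ u` a unit of `W₀`, is
  `u = e · x ^ m · (∏ (x - a_i) ^ n_i) ^ r` with `e` a unit of `B_𝔫` and
  `θ⁻¹ = t · a ^ m · (∏ (- a_i) ^ n_i) ^ r`, `t ∈ A^×`: in valuations,
  `v₀(u) - v∞(u) = m v(a) + r v(γ)`, `γ = ∏ (- x(P_i)) ^ n_i`.
-/

set_option autoImplicit false
set_option linter.unusedSectionVars false
set_option linter.style.haveILetI false

open WithZero IsLocalRing

namespace Fermat.Agent.P7

open Fermat.Agent.Red Fermat.Agent.LGC Fermat.Agent.S35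

section Node

variable {A : Type*} [CommRing A] [IsDomain A] [ValuationRing A]
  {F : Type*} [Field F] [Algebra A F]
  {B : Subalgebra A F} {V : Subring F} {ι : Type*} {v : ι → Valuation F ℤᵐ⁰}

/-- `e` is a unit of the local ring `B_𝔫`. -/
def h74uUnitAt (B : Subalgebra A F) (𝔫 : Ideal B) (e : F) : Prop :=
  ∃ s : B, s ∉ 𝔫 ∧ (s : F) * e ∈ B ∧ (s : F) * e⁻¹ ∈ B

theorem h74u_unitAt_inv {𝔫 : Ideal B} {e : F} (h : h74uUnitAt B 𝔫 e) :
    h74uUnitAt B 𝔫 e⁻¹ := by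
  obtain ⟨s, hs, h1, h2⟩ := h
  exact ⟨s, hs, h2, by rw [inv_inv]; exact h1⟩

/-- two nonunit constants have a common nonunit divisor. -/
theorem h74u_common (p q : A) (hp : p ∈ maximalIdeal A) (hq : q ∈ maximalIdeal A) :
    ∃ d ∈ maximalIdeal A, d ∣ p ∧ d ∣ q := by
  rcases ValuationRing.dvd_total p q with h | h
  · exact ⟨p, hp, dvd_rfl, h⟩
  · exact ⟨q, hq, h, dvd_rfl⟩

/-- elements of `𝔪_A B` are multiples of a single nonunit constant. -/
theorem h74u_mem_map (z : B) (hz : z ∈ (maximalIdeal A).map (algebraMap A B)) :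
    ∃ π ∈ maximalIdeal A, ∃ b : B, z = algebraMap A B π * b := by
  unfold Ideal.map at hz
  induction hz using Submodule.span_induction with
  | mem z hz =>
    obtain ⟨π, hπ, rfl⟩ := hz
    exact ⟨π, hπ, 1, by rw [mul_one]⟩
  | zero => exact ⟨0, (maximalIdeal A).zero_mem, 0, by rw [mul_zero]⟩
  | add z₁ z₂ _ _ h₁ h₂ =>
    obtain ⟨π₁, hπ₁, b₁, rfl⟩ := h₁
    obtain ⟨π₂, hπ₂, b₂, rfl⟩ := h₂
    obtain ⟨d, hd, ⟨q₁, rfl⟩, ⟨q₂, rfl⟩⟩ := h74u_common π₁ π₂ hπ₁ hπ₂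
    exact ⟨d, hd, algebraMap A B q₁ * b₁ + algebraMap A B q₂ * b₂, by
      rw [map_mul, map_mul]; ring⟩
  | smul c z _ h =>
    obtain ⟨π, hπ, b, rfl⟩ := h
    exact ⟨π, hπ, c * b, by rw [smul_eq_mul]; ring⟩

/-- elements of `(x, y) + 𝔪_A B`. -/
theorem h74u_mem_sup (x y z : B)
    (hz : z ∈ Ideal.span {x, y} ⊔ (maximalIdeal A).map (algebraMap A B)) :
    ∃ p q : B, ∃ π ∈ maximalIdeal A, ∃ b : B, z = p * x + q * y + algebraMap A B π * b := by
  obtain ⟨z₁, hz₁, z₂, hz₂, rfl⟩ := Submodule.mem_sup.mp hz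
  obtain ⟨p, q, rfl⟩ := Ideal.mem_span_pair.mp hz₁
  obtain ⟨π, hπ, b, rfl⟩ := h74u_mem_map z₂ hz₂
  exact ⟨p, q, π, hπ, b, rfl⟩

/-- **`x` is prime-like in `B_𝔫`.** -/
theorem h74u_x_prime (Winf : Subring F) (hBinf : ∀ b : B, (b : F) ∈ Winf)
    (hntinf : ∀ π ∈ maximalIdeal A, ∀ w ∈ Winf, algebraMap A F π * w ≠ 1)
    (𝔫 : Ideal B) [h𝔫 : 𝔫.IsPrime]
    (hninf : ∀ b : B, b ∉ 𝔫 → ((b : F))⁻¹ ∈ Winf)
    (x y c : B) (hx : x ∈ 𝔫) (a : A) (ham : a ∈ maximalIdeal A)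
    (hxy : x * y = algebraMap A B a * c)
    (hx0 : (x : F) ≠ 0) (hxinf : ((x : F))⁻¹ ∈ Winf)
    (hprin : ∀ z ∈ 𝔫, ∃ s, s ∉ 𝔫 ∧
      s * z ∈ Ideal.span {x, y} ⊔ (maximalIdeal A).map (algebraMap A B))
    (b₁ b₂ s : B) (hb₁ : b₁ ∈ 𝔫) (hb₂ : b₂ ∈ 𝔫) (hs : s ∉ 𝔫) (h : b₁ * b₂ = s * x) :
    False := by
  obtain ⟨s₁, hs₁, hz₁⟩ := hprin b₁ hb₁
  obtain ⟨s₂, hs₂, hz₂⟩ := hprin b₂ hb₂
  obtain ⟨p₁, q₁, π₁, hπ₁, β₁, e₁⟩ := h74u_mem_sup x y _ hz₁
  obtain ⟨p₂, q₂, π₂, hπ₂, β₂, e₂⟩ := h74u_mem_sup x y _ hz₂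
  obtain ⟨d₁, hd₁, ⟨k₁, rfl⟩, ⟨k₂, rfl⟩⟩ := h74u_common π₁ π₂ hπ₁ hπ₂
  obtain ⟨d, hd, ⟨j₁, rfl⟩, ⟨j₂, hj₂⟩⟩ := h74u_common d₁ a hd₁ ham
  set S : B := s₁ * s₂ * s - p₁ * p₂ * x with hS
  have hSn : S ∉ 𝔫 := by
    intro hmem
    have h1 : s₁ * s₂ * s ∈ 𝔫 := by
      have h2 : s₁ * s₂ * s = S + p₁ * p₂ * x := by rw [hS]; ring
      rw [h2]
      exact 𝔫.add_mem hmem (𝔫.mul_mem_left _ hx)
    rcases h𝔫.mem_or_mem h1 with h3 | h3
    · rcases h𝔫.mem_or_mem h3 with h4 | h4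
      · exact hs₁ h4
      · exact hs₂ h4
    · exact hs h3
  have hS0 : (S : F) ≠ 0 := by
    intro h0
    apply hSn
    have : S = 0 := Subtype.ext h0
    rw [this]
    exact 𝔫.zero_mem
  -- the identity in `B`
  have key : x * S = algebraMap A B d * (algebraMap A B j₂ * c * (p₁ * q₂ + q₁ * p₂)
      + algebraMap A B (j₁ * k₁) * β₁ * (s₂ * b₂)
      + algebraMap A B (j₁ * k₂) * β₂ * (p₁ * x + q₁ * y)) + q₁ * q₂ * y * y := by
    have hxy' : x * y = algebraMap A B d * algebraMap A B j₂ * c := by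
      rw [hxy, hj₂, map_mul]
    have hprod : (s₁ * b₁) * (s₂ * b₂) = s₁ * s₂ * s * x := by
      have : (s₁ * b₁) * (s₂ * b₂) = s₁ * s₂ * (b₁ * b₂) := by ring
      rw [this, h]; ring
    have e₁' : s₁ * b₁ = p₁ * x + q₁ * y + algebraMap A B d * algebraMap A B (j₁ * k₁) * β₁ := by
      rw [e₁, map_mul, map_mul, map_mul]; ring
    have e₂' : s₂ * b₂ = p₂ * x + q₂ * y + algebraMap A B d * algebraMap A B (j₁ * k₂) * β₂ := by
      rw [e₂, map_mul, map_mul, map_mul]; ring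
    have h1 : x * S = (s₁ * b₁) * (s₂ * b₂) - p₁ * p₂ * x * x := by
      rw [hprod, hS]; ring
    rw [h1]
    have h2 : (s₁ * b₁) * (s₂ * b₂) =
        (p₁ * x + q₁ * y) * (p₂ * x + q₂ * y)
        + algebraMap A B d * algebraMap A B (j₁ * k₁) * β₁ * (s₂ * b₂)
        + (p₁ * x + q₁ * y) * (algebraMap A B d * algebraMap A B (j₁ * k₂) * β₂) := by
      nth_rewrite 1 [e₁']
      rw [add_mul]
      nth_rewrite 1 [e₂']
      ring
    rw [h2]
    have h3 : (p₁ * x + q₁ * y) * (p₂ * x + q₂ * y) =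
        p₁ * p₂ * x * x + (p₁ * q₂ + q₁ * p₂) * (x * y) + q₁ * q₂ * y * y := by ring
    rw [h3, hxy']
    ring
  -- in `F`
  have hyF : (y : F) = algebraMap A F d * (algebraMap A F j₂ * (c : F) * ((x : F))⁻¹) := by
    have h1 : (x : F) * (y : F) = algebraMap A F d * algebraMap A F j₂ * (c : F) := by
      have := congrArg (Subtype.val) hxy
      rw [hj₂] at this
      simpa [map_mul] using this
    field_simp
    linear_combination h1
  have keyF : (x : F) * (S : F) = algebraMap A F d *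
      ((algebraMap A F j₂ * (c : F) * ((p₁ : F) * q₂ + q₁ * p₂)
        + algebraMap A F (j₁ * k₁) * β₁ * ((s₂ : F) * b₂)
        + algebraMap A F (j₁ * k₂) * β₂ * ((p₁ : F) * x + q₁ * y))
        + (q₁ : F) * q₂ * y * (algebraMap A F j₂ * (c : F) * ((x : F))⁻¹)) := by
    have := congrArg (Subtype.val) key
    have h2 : (x : F) * (S : F) = algebraMap A F d * (algebraMap A F j₂ * (c : F) *
        ((p₁ : F) * q₂ + q₁ * p₂)
        + algebraMap A F (j₁ * k₁) * β₁ * ((s₂ : F) * b₂)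
        + algebraMap A F (j₁ * k₂) * β₂ * ((p₁ : F) * x + q₁ * y)) + (q₁ : F) * q₂ * y * y := by
      simpa using this
    rw [h2]
    linear_combination ((q₁ : F) * q₂ * y) * hyF
  set R : F := (algebraMap A F j₂ * (c : F) * ((p₁ : F) * q₂ + q₁ * p₂)
        + algebraMap A F (j₁ * k₁) * β₁ * ((s₂ : F) * b₂)
        + algebraMap A F (j₁ * k₂) * β₂ * ((p₁ : F) * x + q₁ * y))
        + (q₁ : F) * q₂ * y * (algebraMap A F j₂ * (c : F) * ((x : F))⁻¹) with hR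
  have hAinf : ∀ t : A, algebraMap A F t ∈ Winf := fun t => hBinf (algebraMap A B t)
  have hRW : R ∈ Winf := by
    rw [hR]
    refine Winf.add_mem (Winf.add_mem (Winf.add_mem ?_ ?_) ?_) ?_
    · exact Winf.mul_mem (Winf.mul_mem (hAinf _) (hBinf c))
        (Winf.add_mem (Winf.mul_mem (hBinf _) (hBinf _)) (Winf.mul_mem (hBinf _) (hBinf _)))
    · exact Winf.mul_mem (Winf.mul_mem (hAinf _) (hBinf _)) (Winf.mul_mem (hBinf _) (hBinf _))
    · exact Winf.mul_mem (Winf.mul_mem (hAinf _) (hBinf _))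
        (Winf.add_mem (Winf.mul_mem (hBinf _) (hBinf _)) (Winf.mul_mem (hBinf _) (hBinf _)))
    · exact Winf.mul_mem (Winf.mul_mem (Winf.mul_mem (hBinf _) (hBinf _)) (hBinf _))
        (Winf.mul_mem (Winf.mul_mem (hAinf _) (hBinf c)) hxinf)
  refine hntinf d hd (R * ((x : F))⁻¹ * ((S : F))⁻¹)
    (Winf.mul_mem (Winf.mul_mem hRW hxinf) (hninf S hSn)) ?_
  have h1 : algebraMap A F d * (R * ((x : F))⁻¹ * ((S : F))⁻¹) =
      (algebraMap A F d * R) * ((x : F))⁻¹ * ((S : F))⁻¹ := by ring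
  rw [h1, ← keyF]
  field_simp

/-- **The node unit lemma, integral case**, by induction on the archimedean bound. -/
theorem h74u_unit_nat (hC : H26Chart B V v)
    (Winf W0 : Subring F)
    (hVWinf : ∀ x ∈ V, x ∈ Winf) (hVW0 : ∀ x ∈ V, x ∈ W0)
    (hWV : ∀ x : F, x ∈ Winf → x ∈ W0 → x ∈ V)
    (hntinf : ∀ π ∈ maximalIdeal A, ∀ x ∈ Winf, algebraMap A F π * x ≠ 1)
    (hnt0 : ∀ π ∈ maximalIdeal A, ∀ x ∈ W0, algebraMap A F π * x ≠ 1)
    (𝔫 : Ideal B) [h𝔫 : 𝔫.IsPrime]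
    (hninf : ∀ b : B, b ∉ 𝔫 → ((b : F))⁻¹ ∈ Winf)
    (hn0 : ∀ b : B, b ∉ 𝔫 → ((b : F))⁻¹ ∈ W0)
    (x y c : B) (hx : x ∈ 𝔫) (hc : c ∉ 𝔫) (a : A) (ham : a ∈ maximalIdeal A)
    (hxy : x * y = algebraMap A B a * c)
    (hx0 : (x : F) ≠ 0) (hy0' : (y : F) ≠ 0)
    (hxinf : ((x : F))⁻¹ ∈ Winf) (hy0 : ((y : F))⁻¹ ∈ W0)
    (hprin : ∀ z ∈ 𝔫, ∃ s, s ∉ 𝔫 ∧
      s * z ∈ Ideal.span {x, y} ⊔ (maximalIdeal A).map (algebraMap A B))
    (hvalx : ∀ k, h26Centered B v 𝔫 k → v k (x : F) = 1) :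
    ∀ (k : ℕ) (f : F) (τ : A) (w : F), f ≠ 0 → (∀ i, h26Centered B v 𝔫 i → v i f = 1) →
      f ∈ Winf → f⁻¹ ∈ Winf → w ∈ W0 → w⁻¹ ∈ W0 → f = algebraMap A F τ * w → ¬ a ^ k ∣ τ →
      ∃ (m : ℕ) (t : A), IsUnit t ∧ τ = t * a ^ m ∧
        h74uUnitAt B 𝔫 (f * ((x : F) ^ m)⁻¹) := by
  classical
  have hAV : ∀ a : A, algebraMap A F a ∈ V := fun a => hC.hBV _ (B.algebraMap_mem a)
  have hAinf : ∀ a : A, algebraMap A F a ∈ Winf := fun a => hVWinf _ (hAV a)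
  have hA0 : ∀ a : A, algebraMap A F a ∈ W0 := fun a => hVW0 _ (hAV a)
  have hBinf : ∀ b : B, (b : F) ∈ Winf := fun b => hVWinf _ (hC.hBV _ b.2)
  have hB0 : ∀ b : B, (b : F) ∈ W0 := fun b => hVW0 _ (hC.hBV _ b.2)
  have hc0 : (c : F) ≠ 0 := by
    intro h0
    apply hc
    have : c = 0 := Subtype.ext h0
    rw [this]; exact 𝔫.zero_mem
  have hxyF : (x : F) * (y : F) = algebraMap A F a * (c : F) := by
    have := congrArg (Subtype.val) hxy
    simpa using this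
  intro k
  induction k with
  | zero =>
    intro f τ w _ _ _ _ _ _ _ hk
    exact absurd (by rw [pow_zero]; exact one_dvd τ) hk
  | succ k ih =>
    intro f τ w hf hval hfinf hfinf' hw hw' hfw hk
    have hτF : algebraMap A F τ ≠ 0 := by
      intro h0
      rw [h0, zero_mul] at hfw
      exact hf hfw
    have hw0 : w ≠ 0 := by
      intro h0
      rw [h0, mul_zero] at hfw
      exact hf hfw
    have hfW0 : f ∈ W0 := by
      rw [hfw]
      exact W0.mul_mem (hA0 τ) hw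
    by_cases hτu : IsUnit τ
    · -- `f` is a unit of `V`
      obtain ⟨τ', hττ'⟩ := hτu.exists_right_inv
      have h1 : algebraMap A F τ * algebraMap A F τ' = 1 := by
        rw [← map_mul, hττ', map_one]
      have hfW0' : f⁻¹ ∈ W0 := by
        have h2 : f⁻¹ = algebraMap A F τ' * w⁻¹ := by
          rw [hfw, mul_inv]
          congr 1
          exact inv_eq_of_mul_eq_one_right h1
        rw [h2]
        exact W0.mul_mem (hA0 τ') hw'
      obtain ⟨s, hs, hs1, hs2⟩ := h75s_unit_aux hC.hfin hC.hint hC.hB hC.hBV hC.hQEP 𝔫 f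
        (hWV f hfinf hfW0) (hWV _ hfinf' hfW0') hval
      refine ⟨0, τ, hτu, by rw [pow_zero, mul_one], s, hs, ?_, ?_⟩
      · rw [pow_zero, inv_one, mul_one]; exact hs1
      · rw [pow_zero, inv_one, mul_one]; exact hs2
    · have hτm : τ ∈ maximalIdeal A := hτu
      by_cases hdiv : a ∣ τ
      · -- divide by `x`
        obtain ⟨τ', hτ'⟩ := hdiv
        have haxc : algebraMap A F a * ((x : F))⁻¹ = (y : F) * ((c : F))⁻¹ := by
          field_simp
          linear_combination -hxyF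
        have hf' : f * ((x : F))⁻¹ = algebraMap A F τ' * (w * (y : F) * ((c : F))⁻¹) := by
          rw [hfw, hτ', map_mul]
          have : algebraMap A F a * algebraMap A F τ' * w * ((x : F))⁻¹ =
              algebraMap A F τ' * w * (algebraMap A F a * ((x : F))⁻¹) := by ring
          rw [this, haxc]
          ring
        have hk' : ¬ a ^ k ∣ τ' := by
          intro h
          apply hk
          rw [hτ', pow_succ, mul_comm]
          exact mul_dvd_mul_left a h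
        obtain ⟨m, t, ht, hτt, hun⟩ := ih (f * ((x : F))⁻¹) τ' (w * (y : F) * ((c : F))⁻¹)
          (mul_ne_zero hf (inv_ne_zero hx0))
          (fun i hi => by rw [map_mul, map_inv₀, hval i hi, hvalx i hi, inv_one, mul_one])
          (Winf.mul_mem hfinf hxinf)
          (by rw [mul_inv, inv_inv]; exact Winf.mul_mem hfinf' (hBinf x))
          (W0.mul_mem (W0.mul_mem hw (hB0 y)) (hn0 c hc))
          (by
            rw [mul_inv, mul_inv, inv_inv]
            exact W0.mul_mem (W0.mul_mem hw' hy0) (hB0 c))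
          hf' hk'
        refine ⟨m + 1, t, ht, by rw [hτ', hτt, pow_succ]; ring, ?_⟩
        have h1 : f * ((x : F) ^ (m + 1))⁻¹ = f * ((x : F))⁻¹ * ((x : F) ^ m)⁻¹ := by
          rw [pow_succ, mul_inv]; ring
        rw [h1]
        exact hun
      · -- `τ` strictly divides `a`: impossible
        exfalso
        obtain ⟨τ'', hτ''⟩ : τ ∣ a := (ValuationRing.dvd_total a τ).resolve_left hdiv
        have hτ''m : τ'' ∈ maximalIdeal A := by
          by_contra hnm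
          have hu : IsUnit τ'' := IsLocalRing.notMem_maximalIdeal.mp hnm
          obtain ⟨τ₃, hτ₃⟩ := hu.exists_right_inv
          apply hdiv
          refine ⟨τ₃, ?_⟩
          rw [hτ'', mul_assoc, hτ₃, mul_one]
        set g : F := (x : F) * f⁻¹ with hg
        have hgw : g = algebraMap A F τ'' * ((c : F) * ((y : F))⁻¹ * w⁻¹) := by
          have hxval : (x : F) = algebraMap A F a * (c : F) * ((y : F))⁻¹ := by
            field_simp
            exact hxyF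
          rw [hg, hfw, mul_inv, hxval, hτ'', map_mul]
          field_simp
        have hginf : g ∈ Winf := Winf.mul_mem (hBinf x) hfinf'
        have hgW0 : g ∈ W0 := by
          rw [hgw]
          exact W0.mul_mem (hA0 τ'') (W0.mul_mem (W0.mul_mem (hB0 c) hy0) hw')
        obtain ⟨s₁, hs₁, hs₁f⟩ := h13x_regular hC 𝔫 f (hWV f hfinf hfW0)
          (fun k hk => (hval k hk).le)
        obtain ⟨s₂, hs₂, hs₂g⟩ := h13x_regular hC 𝔫 g (hWV g hginf hgW0)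
          (fun k hk => by
            rw [hg, map_mul, map_inv₀, hval k hk, hvalx k hk, inv_one, mul_one])
        set b₁ : B := ⟨(s₁ : F) * f, hs₁f⟩ with hb₁
        set b₂ : B := ⟨(s₂ : F) * g, hs₂g⟩ with hb₂
        have hb₁n : b₁ ∈ 𝔫 := by
          refine h13x_mem_of_mod W0 hnt0 𝔫 hn0 τ hτm b₁ ((s₁ : F) * w)
            (W0.mul_mem (hB0 s₁) hw) ?_
          show (s₁ : F) * f = _
          rw [hfw]; ring
        have hb₂n : b₂ ∈ 𝔫 := by
          refine h13x_mem_of_mod W0 hnt0 𝔫 hn0 τ'' hτ''m b₂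
            ((s₂ : F) * ((c : F) * ((y : F))⁻¹ * w⁻¹))
            (W0.mul_mem (hB0 s₂) (W0.mul_mem (W0.mul_mem (hB0 c) hy0) hw')) ?_
          show (s₂ : F) * g = _
          rw [hgw]; ring
        have hprod : b₁ * b₂ = (s₁ * s₂) * x := by
          apply Subtype.ext
          show (s₁ : F) * f * ((s₂ : F) * g) = (s₁ : F) * (s₂ : F) * (x : F)
          rw [hg]
          field_simp
        exact h74u_x_prime Winf hBinf hntinf 𝔫 hninf x y c hx a ham hxy hx0 hxinf hprin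
          b₁ b₂ (s₁ * s₂) hb₁n hb₂n (fun h => (h𝔫.mem_or_mem h).elim hs₁ hs₂) hprod

/-- **The node unit lemma.**  A function without zeros or poles centered at the node `𝔫`,
unit of `W∞`, with `θ f` a unit of `W₀`, is `x ^ m · (unit of B_𝔫)`, and `θ⁻¹ = t a ^ m`. -/
theorem h74u_node_unit (hC : H26Chart B V v) (hAF : Function.Injective (algebraMap A F))
    (Winf W0 : Subring F)
    (hVWinf : ∀ x ∈ V, x ∈ Winf) (hVW0 : ∀ x ∈ V, x ∈ W0)
    (hWV : ∀ x : F, x ∈ Winf → x ∈ W0 → x ∈ V)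
    (hntinf : ∀ π ∈ maximalIdeal A, ∀ x ∈ Winf, algebraMap A F π * x ≠ 1)
    (hnt0 : ∀ π ∈ maximalIdeal A, ∀ x ∈ W0, algebraMap A F π * x ≠ 1)
    (𝔫 : Ideal B) [h𝔫 : 𝔫.IsPrime]
    (hninf : ∀ b : B, b ∉ 𝔫 → ((b : F))⁻¹ ∈ Winf)
    (hn0 : ∀ b : B, b ∉ 𝔫 → ((b : F))⁻¹ ∈ W0)
    (x y c : B) (hx : x ∈ 𝔫) (hc : c ∉ 𝔫) (a : A) (ham : a ∈ maximalIdeal A)
    (harch : ∀ t : A, t ≠ 0 → ∃ k : ℕ, ¬ a ^ k ∣ t)
    (hxy : x * y = algebraMap A B a * c)
    (hx0 : (x : F) ≠ 0) (hy0' : (y : F) ≠ 0)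
    (hxinf : ((x : F))⁻¹ ∈ Winf) (hy0 : ((y : F))⁻¹ ∈ W0)
    (hprin : ∀ z ∈ 𝔫, ∃ s, s ∉ 𝔫 ∧
      s * z ∈ Ideal.span {x, y} ⊔ (maximalIdeal A).map (algebraMap A B))
    (hvalx : ∀ k, h26Centered B v 𝔫 k → v k (x : F) = 1)
    (f : F) (hf : f ≠ 0) (hval : ∀ i, h26Centered B v 𝔫 i → v i f = 1)
    (hfinf : f ∈ Winf) (hfinf' : f⁻¹ ∈ Winf)
    (θ : F) (hθ : h13x_IsConst A θ) (hθ0 : θ ≠ 0)
    (hf0 : θ * f ∈ W0) (hf0' : (θ * f)⁻¹ ∈ W0) :
    ∃ (m : ℤ) (t : A), IsUnit t ∧ θ⁻¹ = algebraMap A F t * (algebraMap A F a) ^ m ∧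
      h74uUnitAt B 𝔫 (f * ((x : F) ^ m)⁻¹) := by
  obtain ⟨τ, hτ0, hτ | hτ⟩ := h13x_const_dichotomy hAF hθ hθ0
  · -- `θ = τ`: apply the integral case to `f⁻¹`
    obtain ⟨k, hk⟩ := harch τ hτ0
    obtain ⟨m, t, ht, hτt, hun⟩ := h74u_unit_nat hC Winf W0 hVWinf hVW0 hWV hntinf hnt0 𝔫
      hninf hn0 x y c hx hc a ham hxy hx0 hy0' hxinf hy0 hprin hvalx k f⁻¹ τ (θ * f)⁻¹
      (inv_ne_zero hf) (fun i hi => by rw [map_inv₀, hval i hi, inv_one]) hfinf'
      (by rw [inv_inv]; exact hfinf) hf0' (by rw [inv_inv]; exact hf0)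
      (by rw [← hτ, mul_inv]; field_simp) hk
    obtain ⟨t', htt'⟩ := ht.exists_right_inv
    have ht'u : IsUnit t' := IsUnit.of_mul_eq_one t (by rw [mul_comm]; exact htt')
    have htF : algebraMap A F t * algebraMap A F t' = 1 := by rw [← map_mul, htt', map_one]
    refine ⟨-(m : ℤ), t', ht'u, ?_, ?_⟩
    · rw [hτ, hτt, map_mul, map_pow, mul_inv, zpow_neg, zpow_natCast]
      congr 1
      exact inv_eq_of_mul_eq_one_right htF
    · have h1 : f * ((x : F) ^ (-(m : ℤ)))⁻¹ = (f⁻¹ * ((x : F) ^ m)⁻¹)⁻¹ := by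
        rw [zpow_neg, zpow_natCast, inv_inv, mul_inv, inv_inv, inv_inv]
      rw [h1]
      exact h74u_unitAt_inv hun
  · -- `θ⁻¹ = τ`
    obtain ⟨k, hk⟩ := harch τ hτ0
    obtain ⟨m, t, ht, hτt, hun⟩ := h74u_unit_nat hC Winf W0 hVWinf hVW0 hWV hntinf hnt0 𝔫
      hninf hn0 x y c hx hc a ham hxy hx0 hy0' hxinf hy0 hprin hvalx k f τ (θ * f)
      hf hval hfinf hfinf' hf0 hf0'
      (by rw [← hτ]; field_simp) hk
    refine ⟨(m : ℤ), t, ht, ?_, ?_⟩
    · rw [hτ, hτt, map_mul, map_pow, zpow_natCast]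
    · rw [zpow_natCast]
      exact hun

/-- `x` has no zeros at the places centered at the node. -/
theorem h74u_valx (hC : H26Chart B V v) (𝔫 : Ideal B)
    (x y c : B) (hc : c ∉ 𝔫) (a : A) (ha : a ≠ 0)
    (hxy : x * y = algebraMap A B a * c)
    (hsec : ∀ i, h26Centered B v 𝔫 i → ∃ φ : B →ₐ[A] A,
      (∀ b : B, φ b = 0 ↔ v i (b : F) < 1) ∧ (RingHom.ker (φ : B →+* A)).FG) :
    ∀ k, h26Centered B v 𝔫 k → v k (x : F) = 1 := by
  intro k hk
  obtain ⟨φ, hφker, -⟩ := hsec k hk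
  refine le_antisymm (hC.hB _ x.2 k) (not_lt.mp fun hlt => ?_)
  have h1 : φ x = 0 := (hφker x).mpr hlt
  have hφxy : φ x * φ y = a * φ c := by
    have := congrArg φ hxy
    rw [map_mul, map_mul, AlgHom.commutes] at this
    exact this
  rw [h1, zero_mul] at hφxy
  rcases mul_eq_zero.mp hφxy.symm with h | h
  · exact ha h
  · exact hc (hk c ((hφker c).mp h))

/-- products of integral powers of units of a subring. -/
theorem h74u_prod_zpow_mem (W : Subring F) {α : Type*} (T : Finset α) (G : α → F) (n : α → ℤ)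
    (h : ∀ i ∈ T, G i ∈ W ∧ (G i)⁻¹ ∈ W) :
    (∏ i ∈ T, G i ^ n i) ∈ W ∧ (∏ i ∈ T, G i ^ n i)⁻¹ ∈ W := by
  constructor
  · exact Subring.prod_mem W fun i hi => h13x_zpow_mem W (h i hi).1 (h i hi).2 (n i)
  · rw [← Finset.prod_inv_distrib]
    refine Subring.prod_mem W fun i hi => ?_
    rw [← zpow_neg]
    exact h13x_zpow_mem W (h i hi).1 (h i hi).2 (-(n i))

/-- **The slope formula at a node.**  A function `u` whose orders at the places centered at the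
node `𝔫` are divisible by `r`, unit of `W∞`, with `θ u` a unit of `W₀` (`θ` a constant), is
`u = e · x ^ m · (∏ (x - a_i) ^ n_i) ^ r` with `e` a unit of `B_𝔫`, and
`θ⁻¹ = t · a ^ m · (∏ (- a_i) ^ n_i) ^ r` with `t ∈ A^×`. -/
theorem h74u_node_slope
    (hC : H26Chart B V v) (hAF : Function.Injective (algebraMap A F))
    (Winf W0 : Subring F)
    (hVWinf : ∀ x ∈ V, x ∈ Winf) (hVW0 : ∀ x ∈ V, x ∈ W0)
    (hWV : ∀ x : F, x ∈ Winf → x ∈ W0 → x ∈ V)
    (hinvinf : ∀ π ∈ maximalIdeal A, ∀ x ∈ Winf, (1 + algebraMap A F π * x)⁻¹ ∈ Winf)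
    (hinv0 : ∀ π ∈ maximalIdeal A, ∀ x ∈ W0, (1 + algebraMap A F π * x)⁻¹ ∈ W0)
    (hntinf : ∀ π ∈ maximalIdeal A, ∀ x ∈ Winf, algebraMap A F π * x ≠ 1)
    (hnt0 : ∀ π ∈ maximalIdeal A, ∀ x ∈ W0, algebraMap A F π * x ≠ 1)
    (𝔫 : Ideal B) [h𝔫 : 𝔫.IsPrime] (h𝔪𝔫 : (maximalIdeal A).map (algebraMap A B) ≤ 𝔫)
    (hninf : ∀ b : B, b ∉ 𝔫 → ((b : F))⁻¹ ∈ Winf)
    (hn0 : ∀ b : B, b ∉ 𝔫 → ((b : F))⁻¹ ∈ W0)
    (x y c : B) (hx : x ∈ 𝔫) (hy : y ∈ 𝔫) (hc : c ∉ 𝔫) (a : A) (ha : a ≠ 0)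
    (ham : a ∈ maximalIdeal A) (harch : ∀ t : A, t ≠ 0 → ∃ k : ℕ, ¬ a ^ k ∣ t)
    (hxy : x * y = algebraMap A B a * c)
    (hxinf : ((x : F))⁻¹ ∈ Winf) (hy0 : ((y : F))⁻¹ ∈ W0)
    (hprin : ∀ z ∈ 𝔫, ∃ s, s ∉ 𝔫 ∧
      s * z ∈ Ideal.span {x, y} ⊔ (maximalIdeal A).map (algebraMap A B))
    (hsec : ∀ i, h26Centered B v 𝔫 i → ∃ φ : B →ₐ[A] A,
      (∀ b : B, φ b = 0 ↔ v i (b : F) < 1) ∧ (RingHom.ker (φ : B →+* A)).FG)
    (u : F) (hu : u ≠ 0) (r : ℕ)
    (hru : ∀ i, h26Centered B v 𝔫 i → ∃ n : ℤ, v i u = exp (-((r : ℤ) * n)))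
    (huinf : u ∈ Winf) (huinf' : u⁻¹ ∈ Winf)
    (θ : F) (hθ : h13x_IsConst A θ) (hθ0 : θ ≠ 0)
    (hu0 : θ * u ∈ W0) (hu0' : (θ * u)⁻¹ ∈ W0) :
    ∃ (T : Finset ι) (ai bi gi : ι → A) (n : ι → ℤ) (m : ℤ) (e : F) (t : A),
      (∀ i ∈ T, h26Centered B v 𝔫 i ∧ ai i ∈ maximalIdeal A ∧ bi i ∈ maximalIdeal A ∧
        IsUnit (gi i) ∧ ai i * bi i = a * gi i ∧
        v i ((x : F) - algebraMap A F (ai i)) = exp (-1 : ℤ) ∧
        v i u = exp (-((r : ℤ) * n i))) ∧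
      (∀ k, h26Centered B v 𝔫 k → k ∉ T → v k u = 1) ∧
      u = e * (x : F) ^ m * (∏ i ∈ T, ((x : F) - algebraMap A F (ai i)) ^ n i) ^ r ∧
      h74uUnitAt B 𝔫 e ∧ IsUnit t ∧
      θ⁻¹ = algebraMap A F t * (algebraMap A F a) ^ m *
        (∏ i ∈ T, (-algebraMap A F (ai i)) ^ n i) ^ r := by
  classical
  have hAV : ∀ a : A, algebraMap A F a ∈ V := fun a => hC.hBV _ (B.algebraMap_mem a)
  have hAinf : ∀ a : A, algebraMap A F a ∈ Winf := fun a => hVWinf _ (hAV a)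
  have hA0 : ∀ a : A, algebraMap A F a ∈ W0 := fun a => hVW0 _ (hAV a)
  have hBinf : ∀ b : B, (b : F) ∈ Winf := fun b => hVWinf _ (hC.hBV _ b.2)
  have hB0 : ∀ b : B, (b : F) ∈ W0 := fun b => hVW0 _ (hC.hBV _ b.2)
  have haF : algebraMap A F a ≠ 0 := fun h => ha (hAF (by rw [h, map_zero]))
  have hc0 : (c : F) ≠ 0 := by
    intro h0
    apply hc
    have : c = 0 := Subtype.ext h0
    rw [this]; exact 𝔫.zero_mem
  have hxyF : (x : F) * (y : F) = algebraMap A F a * (c : F) := by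
    have := congrArg (Subtype.val) hxy
    simpa using this
  have hx0 : (x : F) ≠ 0 := by
    intro h0
    rw [h0, zero_mul] at hxyF
    exact mul_ne_zero haF hc0 hxyF.symm
  have hy0' : (y : F) ≠ 0 := by
    intro h0
    rw [h0, mul_zero] at hxyF
    exact mul_ne_zero haF hc0 hxyF.symm
  have hvalx := h74u_valx hC 𝔫 x y c hc a ha hxy hsec
  -- the data at the centered places
  have hdata : ∀ i : ι, ∃ ai bi gi : A, h26Centered B v 𝔫 i →
      ai ∈ maximalIdeal A ∧ bi ∈ maximalIdeal A ∧ IsUnit gi ∧ ai * bi = a * gi ∧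
      v i ((x : F) - algebraMap A F ai) = exp (-1 : ℤ) ∧
      (∀ k, h26Centered B v 𝔫 k → k ≠ i → v k ((x : F) - algebraMap A F ai) = 1) := by
    intro i
    by_cases hi : h26Centered B v 𝔫 i
    · obtain ⟨φ, hφker, hφfg⟩ := hsec i hi
      have hkerle : RingHom.ker (φ : B →+* A) ≤ 𝔫 := fun b hb => hi b ((hφker b).mp hb)
      have hφ𝔫 := h26_section_local 𝔫 φ hkerle
      have hconst : ∀ k, h26Centered B v 𝔫 k → v k (algebraMap A F a) = 1 := by
        intro k hk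
        obtain ⟨ψ, hψker, -⟩ := hsec k hk
        exact h75p_const_of_section hC.hB k ψ hψker a ha
      have hφxy : φ x * φ y = a * φ c := by
        have := congrArg φ hxy
        rw [map_mul, map_mul, AlgHom.commutes] at this
        exact this
      have hφc : IsUnit (φ c) := by
        by_contra hnu
        have hm : φ c ∈ maximalIdeal A := hnu
        apply hc
        have h1 : c - algebraMap A B (φ c) ∈ 𝔫 := by
          apply hkerle
          rw [RingHom.mem_ker]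
          show φ (c - algebraMap A B (φ c)) = 0
          rw [map_sub, AlgHom.commutes]
          exact sub_self _
        have h2 : algebraMap A B (φ c) ∈ 𝔫 := h𝔪𝔫 (Ideal.mem_map_of_mem _ hm)
        have h3 : c = (c - algebraMap A B (φ c)) + algebraMap A B (φ c) := by ring
        rw [h3]
        exact 𝔫.add_mem h1 h2
      exact ⟨φ x, φ y, φ c, fun _ => ⟨hφ𝔫 x hx, hφ𝔫 y hy, hφc, hφxy,
        h75p_lp_node hC 𝔫 h𝔪𝔫 x y c hx hy hc a hxy hconst hprin i hi φ hφker hφfg⟩⟩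
    · exact ⟨0, 0, 0, fun h => (hi h).elim⟩
  choose ai bi gi hdat using hdata
  have hru' : ∀ i, ∃ n : ℤ, h26Centered B v 𝔫 i → v i u = exp (-((r : ℤ) * n)) := by
    intro i
    by_cases hi : h26Centered B v 𝔫 i
    · obtain ⟨n, hn⟩ := hru i hi
      exact ⟨n, fun _ => hn⟩
    · exact ⟨0, fun h => (hi h).elim⟩
  choose n hn using hru'
  set Z : Finset ι := (h26_finite_support hC u hu).toFinset with hZ
  set T : Finset ι := Z.filter (fun i => h26Centered B v 𝔫 i) with hT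
  have hTc : ∀ i ∈ T, h26Centered B v 𝔫 i := fun i hi => (Finset.mem_filter.mp hi).2
  have hu1 : ∀ k, h26Centered B v 𝔫 k → k ∉ T → v k u = 1 := by
    intro k hk hkT
    by_contra hne
    apply hkT
    rw [hT, Finset.mem_filter, hZ, Set.Finite.mem_toFinset]
    exact ⟨hne, hk⟩
  -- the functions of (LP)
  set G : ι → F := fun i => (x : F) - algebraMap A F (ai i) with hG
  have hG1 : ∀ i ∈ T, v i (G i) = exp (-1 : ℤ) := fun i hi => (hdat i (hTc i hi)).2.2.2.2.1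
  have hG2 : ∀ i ∈ T, ∀ k, h26Centered B v 𝔫 k → k ≠ i → v k (G i) = 1 := fun i hi =>
    (hdat i (hTc i hi)).2.2.2.2.2
  set g₁ : F := ∏ i ∈ T, G i ^ n i with hg₁
  have hai0 : ∀ i ∈ T, algebraMap A F (ai i) ≠ 0 := by
    intro i hi h0
    have h1 : ai i = 0 := hAF (by rw [h0, map_zero])
    have h2 := (hdat i (hTc i hi)).2.2.2.1
    rw [h1, zero_mul] at h2
    exact mul_ne_zero ha (hdat i (hTc i hi)).2.2.1.ne_zero h2.symm
  have hGi0 : ∀ i ∈ T, G i ≠ 0 := by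
    intro i hi h0
    have h1 := hG1 i hi
    rw [h0, map_zero] at h1
    exact exp_ne_zero h1.symm
  have hg₁0 : g₁ ≠ 0 := by
    rw [hg₁]
    exact Finset.prod_ne_zero_iff.mpr fun i hi => zpow_ne_zero _ (hGi0 i hi)
  -- the first branch: `G i` is a unit of `W∞`
  have hGinf : ∀ i ∈ T, G i ∈ Winf ∧ (G i)⁻¹ ∈ Winf := by
    intro i hi
    have hGB : G i ∈ Winf := by
      rw [hG]
      exact Winf.sub_mem (hBinf x) (hAinf _)
    refine ⟨hGB, ?_⟩
    have h1 : G i = (x : F) * (1 + algebraMap A F (ai i) * (-((x : F))⁻¹)) := by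
      rw [hG]
      simp only
      field_simp
      ring
    rw [h1, mul_inv]
    exact Winf.mul_mem hxinf
      (hinvinf (ai i) (hdat i (hTc i hi)).1 _ (Winf.neg_mem hxinf))
  obtain ⟨hg₁inf, hg₁inf'⟩ := h74u_prod_zpow_mem Winf T G n hGinf
  -- the second branch
  set η0 : ι → F := fun i => 1 - (x : F) * (algebraMap A F (ai i))⁻¹ with hη0
  have hη0W : ∀ i ∈ T, η0 i ∈ W0 ∧ (η0 i)⁻¹ ∈ W0 := by
    intro i hi
    obtain ⟨gi', hgi'⟩ := (hdat i (hTc i hi)).2.2.1.exists_right_inv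
    have hab := (hdat i (hTc i hi)).2.2.2.1
    have habF : algebraMap A F (ai i) * algebraMap A F (bi i) =
        algebraMap A F a * algebraMap A F (gi i) := by
      rw [← map_mul, ← map_mul, hab]
    have hgF : algebraMap A F (gi i) * algebraMap A F gi' = 1 := by
      rw [← map_mul, hgi', map_one]
    have hai := hai0 i hi
    have hxval : (x : F) = algebraMap A F a * (c : F) * ((y : F))⁻¹ := by
      field_simp
      exact hxyF
    have key : η0 i = 1 + algebraMap A F (bi i) *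
        (-(algebraMap A F gi' * (c : F) * ((y : F))⁻¹)) := by
      have h1 : algebraMap A F a = algebraMap A F (ai i) * algebraMap A F (bi i) *
          algebraMap A F gi' := by
        rw [habF, mul_assoc, hgF, mul_one]
      have h2 : (x : F) * (algebraMap A F (ai i))⁻¹ =
          algebraMap A F (bi i) * (algebraMap A F gi' * (c : F) * ((y : F))⁻¹) := by
        rw [hxval, h1]
        field_simp
      rw [hη0]
      simp only
      rw [h2]
      ring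
    have hmem : -(algebraMap A F gi' * (c : F) * ((y : F))⁻¹) ∈ W0 :=
      W0.neg_mem (W0.mul_mem (W0.mul_mem (hA0 gi') (hB0 c)) hy0)
    rw [key]
    exact ⟨W0.add_mem W0.one_mem (W0.mul_mem (hA0 _) hmem),
      hinv0 (bi i) (hdat i (hTc i hi)).2.1 _ hmem⟩
  have hG0 : ∀ i ∈ T, G i = (-algebraMap A F (ai i)) * η0 i := by
    intro i hi
    have hai := hai0 i hi
    rw [hG, hη0]
    simp only
    field_simp
    ring
  set α : F := ∏ i ∈ T, (-algebraMap A F (ai i)) ^ n i with hα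
  set ε0 : F := ∏ i ∈ T, η0 i ^ n i with hε0
  obtain ⟨hε0W, hε0W'⟩ := h74u_prod_zpow_mem W0 T η0 n hη0W
  have hg₁α : g₁ = α * ε0 := by
    rw [hg₁, hα, hε0, ← Finset.prod_mul_distrib]
    refine Finset.prod_congr rfl fun i hi => ?_
    rw [hG0 i hi, mul_zpow]
  have hαc : h13x_IsConst A α :=
    h13x_isConst_prod T _ fun i _ =>
      h13x_isConst_zpow hAF (h13x_isConst_neg (h13x_isConst_algebraMap (ai i))) _
  have hα0 : α ≠ 0 := by
    rw [hα]
    exact Finset.prod_ne_zero_iff.mpr fun i hi =>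
      zpow_ne_zero _ (neg_ne_zero.mpr (hai0 i hi))
  have hε00 : ε0 ≠ 0 := by
    intro h0
    rw [h0, mul_zero] at hg₁α
    exact hg₁0 hg₁α
  -- the function `e₀`
  set e₀ : F := u * (g₁ ^ r)⁻¹ with he₀
  have hval_e₀ : ∀ k, h26Centered B v 𝔫 k → v k e₀ = 1 := fun k hk =>
    h75s_val_one 𝔫 T G hG1 hG2 u r n (fun i hi => hn i (hTc i hi)) hu1 k hk
  have hue₀ : u = e₀ * g₁ ^ r := by
    rw [he₀, mul_assoc, inv_mul_cancel₀ (pow_ne_zero _ hg₁0), mul_one]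
  have he₀0 : e₀ ≠ 0 := mul_ne_zero hu (inv_ne_zero (pow_ne_zero _ hg₁0))
  have he₀inf : e₀ ∈ Winf := by
    rw [he₀, ← inv_pow]
    exact Winf.mul_mem huinf (Winf.pow_mem hg₁inf' r)
  have he₀inf' : e₀⁻¹ ∈ Winf := by
    rw [he₀, mul_inv, inv_inv]
    exact Winf.mul_mem huinf' (Winf.pow_mem hg₁inf r)
  set θ' : F := θ * α ^ r with hθ'
  have hθ'c : h13x_IsConst A θ' := h13x_isConst_mul hθ (h13x_isConst_pow hαc r)
  have hθ'0 : θ' ≠ 0 := mul_ne_zero hθ0 (pow_ne_zero _ hα0)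
  have hθe : θ' * e₀ = θ * u * (ε0 ^ r)⁻¹ := by
    rw [hθ', he₀, hg₁α, mul_pow]
    have h1 : α ^ r ≠ 0 := pow_ne_zero _ hα0
    have h2 : ε0 ^ r ≠ 0 := pow_ne_zero _ hε00
    field_simp
  have he₀W0 : θ' * e₀ ∈ W0 := by
    rw [hθe, ← inv_pow]
    exact W0.mul_mem hu0 (W0.pow_mem hε0W' r)
  have he₀W0' : (θ' * e₀)⁻¹ ∈ W0 := by
    rw [hθe, mul_inv, inv_inv]
    exact W0.mul_mem hu0' (W0.pow_mem hε0W r)
  obtain ⟨m, t, ht, hθt, hun⟩ := h74u_node_unit hC hAF Winf W0 hVWinf hVW0 hWV hntinf hnt0 𝔫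
    hninf hn0 x y c hx hc a ham harch hxy hx0 hy0' hxinf hy0 hprin hvalx e₀ he₀0 hval_e₀
    he₀inf he₀inf' θ' hθ'c hθ'0 he₀W0 he₀W0'
  have hxm : (x : F) ^ m ≠ 0 := zpow_ne_zero _ hx0
  refine ⟨T, ai, bi, gi, n, m, e₀ * ((x : F) ^ m)⁻¹, t, ?_, hu1, ?_, hun, ht, ?_⟩
  · intro i hi
    have hd := hdat i (hTc i hi)
    exact ⟨hTc i hi, hd.1, hd.2.1, hd.2.2.1, hd.2.2.2.1, hd.2.2.2.2.1, hn i (hTc i hi)⟩
  · rw [mul_assoc e₀, inv_mul_cancel₀ hxm, mul_one]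
    exact hue₀
  · have h1 : θ⁻¹ = θ'⁻¹ * α ^ r := by
      rw [hθ', mul_inv]
      have h2 : α ^ r ≠ 0 := pow_ne_zero _ hα0
      field_simp
    rw [h1, hθt]

end Node

end Fermat.Agent.P7
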