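import Fermat.Agent.P6.H56Perm
import Fermat.Agent.P6.H62PuritySm
import Fermat.Agent.P7.H74NodeUnit

/-!
# Wave 7 (S40 / S44), block (5b), leaves C3 / C5: the inertia group and the local rings of the
charts of level `M * ℓ` (helper56)

`A` a valuation subring of `ℚ̄` over `ℓ`, `τ` in the inertia group of `A`, `B = chart (M * ℓ) A t`
a chart of level `M * ℓ` with Galois invariant coordinate `t` (`t = jSS M ℓ` or `(jSS M ℓ)⁻¹`),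
`𝔫` an ideal of `B` containing `𝔪_A B` (a closed point of the special fibre).

* `h56w_triv` : `τ` maps `B` into itself and is trivial modulo `𝔪_A B` (`LGC.InertiaTrivAt`).
* `h56w_gal_mem_chart`, `h56w_gal_sub_mem`, `h56w_gal_mem_ideal`, `h56w_gal_not_mem_ideal`,
  `h56w_gal_mem_ideal_iff` : `τ B ⊆ B`, `τ b - b ∈ 𝔪_A B`, `τ 𝔫 = 𝔫`.
* `h56w_gal_mem_O` : `τ` maps the local ring `h62yO B 𝔫` into itself;
  `h56w_gal_unitAt` : `τ` maps the units `h74uUnitAt B 𝔫` of the local ring to units.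
* `h56wPi` : the permutation `i ↦ τ • i` of the places of the chart;
  `h56w_pi_val` : `chartVal (π i) (τ f) = chartVal i f`;
  `h56w_pi_centered` : `π` preserves the places centered at `𝔫`.
  Together with `P6.h56p_tau_algebraMap` these are the hypotheses `hτθ`, `hπ`, `hπc` of
  `h74r_invariant` / `h74r_node_rat` (helper74) for `τ := (h56pTau (M * ℓ) τ : FF →+* FF)`,
  `θ := h56pTheta A hτ`.
* `h56w_poly_fixed` : the consumer form: a polynomial `P ∈ A[X]` with the rationality clause of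
  `h74r_node_rat` is fixed coefficientwise by every inertia element fixing `x` and `u`.
* the instances `_fin` (chart `jSS M ℓ`) and `_inf` (chart `(jSS M ℓ)⁻¹`).
-/

set_option autoImplicit false
set_option linter.unusedSectionVars false
set_option linter.unusedVariables false
set_option linter.style.haveILetI false

open AlgebraicCurve ModularCurve WithZero IsLocalRing Polynomial

noncomputable section

namespace Fermat.Agent.P7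

open Fermat.Agent.S37 Fermat.Agent.Red Fermat.Agent.Red.GG Fermat.Agent.Red.GV
  Fermat.Agent.Red.ModelO Fermat.Agent.LGC Fermat.Agent.S35 Fermat.Agent.P6

section Generic

variable (A : ValuationSubring Kbar) (M : ℕ) {ℓ : ℕ} [NeZero M] [NeZero ℓ]
  (hℓ : ℓ.Prime) (hM : ¬ ℓ ∣ M) (hA : A.LiesOverPrime ℓ)
  (t : FF (M * ℓ)) (ht : ∀ σ : GQ, gal (M * ℓ) σ • t = t) (hC : IfaceSSChart A M ℓ t)

include hℓ hM hA ht hC in
/-- the inertia group maps the chart into itself and is trivial modulo `𝔪_A`. -/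
theorem h56w_triv {τ : GQ} (hτ : τ ∈ A.inertiaSubgroupIn ℚ) :
    InertiaTrivAt (M * ℓ) A t τ :=
  h63r_triv_of_chart hℓ hM hA t hτ (ht τ) hC.hBV hC.hQEP

include hℓ hM hA ht hC in
/-- `τ B ⊆ B`. -/
theorem h56w_gal_mem_chart {τ : GQ} (hτ : τ ∈ A.inertiaSubgroupIn ℚ) {b : FF (M * ℓ)}
    (hb : b ∈ chart (M * ℓ) A t) : gal (M * ℓ) τ • b ∈ chart (M * ℓ) A t := by
  obtain ⟨c, hc, -⟩ := h56w_triv A M hℓ hM hA t ht hC hτ ⟨b, hb⟩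
  rw [← hc]
  exact c.2

include hℓ hM hA ht hC in
/-- `τ b - b ∈ 𝔪_A B`. -/
theorem h56w_gal_sub_mem {τ : GQ} (hτ : τ ∈ A.inertiaSubgroupIn ℚ)
    (b : chart (M * ℓ) A t) :
    (⟨gal (M * ℓ) τ • (b : FF (M * ℓ)),
        h56w_gal_mem_chart A M hℓ hM hA t ht hC hτ b.2⟩ : chart (M * ℓ) A t) - b
      ∈ mExt A M ℓ t := by
  obtain ⟨c, hc, hcb⟩ := h56w_triv A M hℓ hM hA t ht hC hτ b
  have e : (⟨gal (M * ℓ) τ • (b : FF (M * ℓ)),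
      h56w_gal_mem_chart A M hℓ hM hA t ht hC hτ b.2⟩ : chart (M * ℓ) A t) = c :=
    Subtype.ext hc.symm
  rw [e]
  exact hcb

include hℓ hM hA ht hC in
/-- `τ 𝔫 ⊆ 𝔫`. -/
theorem h56w_gal_mem_ideal {τ : GQ} (hτ : τ ∈ A.inertiaSubgroupIn ℚ)
    (𝔫 : Ideal (chart (M * ℓ) A t)) (hm : mExt A M ℓ t ≤ 𝔫)
    (b : chart (M * ℓ) A t) (hb : b ∈ 𝔫) :
    (⟨gal (M * ℓ) τ • (b : FF (M * ℓ)),
        h56w_gal_mem_chart A M hℓ hM hA t ht hC hτ b.2⟩ : chart (M * ℓ) A t) ∈ 𝔫 := by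
  have h := hm (h56w_gal_sub_mem A M hℓ hM hA t ht hC hτ b)
  have := 𝔫.add_mem h hb
  rwa [sub_add_cancel] at this

include hℓ hM hA ht hC in
/-- `τ b ∈ 𝔫 → b ∈ 𝔫`. -/
theorem h56w_mem_ideal_of_gal {τ : GQ} (hτ : τ ∈ A.inertiaSubgroupIn ℚ)
    (𝔫 : Ideal (chart (M * ℓ) A t)) (hm : mExt A M ℓ t ≤ 𝔫)
    (b : chart (M * ℓ) A t)
    (hb : (⟨gal (M * ℓ) τ • (b : FF (M * ℓ)),
        h56w_gal_mem_chart A M hℓ hM hA t ht hC hτ b.2⟩ : chart (M * ℓ) A t) ∈ 𝔫) :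
    b ∈ 𝔫 := by
  have h := hm (h56w_gal_sub_mem A M hℓ hM hA t ht hC hτ b)
  have := 𝔫.sub_mem hb h
  rwa [sub_sub_cancel] at this

include hℓ hM hA ht hC in
/-- `τ 𝔫 = 𝔫`. -/
theorem h56w_gal_mem_ideal_iff {τ : GQ} (hτ : τ ∈ A.inertiaSubgroupIn ℚ)
    (𝔫 : Ideal (chart (M * ℓ) A t)) (hm : mExt A M ℓ t ≤ 𝔫)
    (b : chart (M * ℓ) A t) :
    (⟨gal (M * ℓ) τ • (b : FF (M * ℓ)),
        h56w_gal_mem_chart A M hℓ hM hA t ht hC hτ b.2⟩ : chart (M * ℓ) A t) ∈ 𝔫 ↔ b ∈ 𝔫 :=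
  ⟨h56w_mem_ideal_of_gal A M hℓ hM hA t ht hC hτ 𝔫 hm b,
    h56w_gal_mem_ideal A M hℓ hM hA t ht hC hτ 𝔫 hm b⟩

include hℓ hM hA ht hC in
/-- **`τ` maps the local ring of the chart at `𝔫` into itself.** -/
theorem h56w_gal_mem_O {τ : GQ} (hτ : τ ∈ A.inertiaSubgroupIn ℚ)
    (𝔫 : Ideal (chart (M * ℓ) A t)) (h𝔫 : 𝔫.IsPrime) (hm : mExt A M ℓ t ≤ 𝔫)
    {f : FF (M * ℓ)} (hf : f ∈ h62yO (chart (M * ℓ) A t) 𝔫 h𝔫) :
    gal (M * ℓ) τ • f ∈ h62yO (chart (M * ℓ) A t) 𝔫 h𝔫 := by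
  obtain ⟨s, hs, hsf⟩ := hf
  refine ⟨⟨gal (M * ℓ) τ • (s : FF (M * ℓ)),
    h56w_gal_mem_chart A M hℓ hM hA t ht hC hτ s.2⟩,
    fun h => hs (h56w_mem_ideal_of_gal A M hℓ hM hA t ht hC hτ 𝔫 hm s h), ?_⟩
  have e : gal (M * ℓ) τ • (s : FF (M * ℓ)) * gal (M * ℓ) τ • f =
      gal (M * ℓ) τ • ((s : FF (M * ℓ)) * f) := (smul_mul' _ _ _).symm
  show gal (M * ℓ) τ • (s : FF (M * ℓ)) * gal (M * ℓ) τ • f ∈ chart (M * ℓ) A t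
  rw [e]
  exact h56w_gal_mem_chart A M hℓ hM hA t ht hC hτ hsf

include hℓ hM hA ht hC in
/-- **`τ` maps the units of the local ring at `𝔫` to units.** -/
theorem h56w_gal_unitAt {τ : GQ} (hτ : τ ∈ A.inertiaSubgroupIn ℚ)
    (𝔫 : Ideal (chart (M * ℓ) A t)) (hm : mExt A M ℓ t ≤ 𝔫)
    {e : FF (M * ℓ)} (he : h74uUnitAt (chart (M * ℓ) A t) 𝔫 e) :
    h74uUnitAt (chart (M * ℓ) A t) 𝔫 (gal (M * ℓ) τ • e) := by
  obtain ⟨s, hs, h1, h2⟩ := he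
  refine ⟨⟨gal (M * ℓ) τ • (s : FF (M * ℓ)),
    h56w_gal_mem_chart A M hℓ hM hA t ht hC hτ s.2⟩,
    fun h => hs (h56w_mem_ideal_of_gal A M hℓ hM hA t ht hC hτ 𝔫 hm s h), ?_, ?_⟩
  · have e1 : gal (M * ℓ) τ • (s : FF (M * ℓ)) * gal (M * ℓ) τ • e =
        gal (M * ℓ) τ • ((s : FF (M * ℓ)) * e) := (smul_mul' _ _ _).symm
    show gal (M * ℓ) τ • (s : FF (M * ℓ)) * gal (M * ℓ) τ • e ∈ chart (M * ℓ) A t
    rw [e1]
    exact h56w_gal_mem_chart A M hℓ hM hA t ht hC hτ h1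
  · have e1 : gal (M * ℓ) τ • (s : FF (M * ℓ)) * (gal (M * ℓ) τ • e)⁻¹ =
        gal (M * ℓ) τ • ((s : FF (M * ℓ)) * e⁻¹) := by
      rw [smul_mul', smul_inv'']
    show gal (M * ℓ) τ • (s : FF (M * ℓ)) * (gal (M * ℓ) τ • e)⁻¹ ∈ chart (M * ℓ) A t
    rw [e1]
    exact h56w_gal_mem_chart A M hℓ hM hA t ht hC hτ h2

/-! ### The permutation of the places -/

omit [NeZero M] [NeZero ℓ] in
include ht in
/-- the place `τ • i` is a place of the chart. -/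
theorem h56w_pi_mem (τ : GQ) (i : ChartPlace (M * ℓ) t) :
    t ∈ (gal (M * ℓ) τ • i.1).toValuationSubring := by
  rw [SemilinearAut.smul_toValuationSubring,
    ValuationSubring.mem_pointwise_smul_iff_inv_smul_mem]
  have h : (gal (M * ℓ) τ)⁻¹ • t = t := inv_smul_eq_iff.mpr (ht τ).symm
  rw [h]
  exact i.2

/-- the permutation `i ↦ τ • i` of the places of the chart. -/
def h56wPi (τ : GQ) (i : ChartPlace (M * ℓ) t) : ChartPlace (M * ℓ) t :=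
  ⟨gal (M * ℓ) τ • i.1, h56w_pi_mem M t ht τ i⟩

omit [NeZero M] [NeZero ℓ] in
/-- **`hπ`**: `v_{π i} (τ f) = v_i f`. -/
theorem h56w_pi_val (τ : GQ) (i : ChartPlace (M * ℓ) t) (f : FF (M * ℓ)) :
    chartVal (M * ℓ) t (h56wPi M t ht τ i) (gal (M * ℓ) τ • f) = chartVal (M * ℓ) t i f :=
  h63p_adic_smul (gal (M * ℓ) τ) i.1 f

omit [NeZero M] [NeZero ℓ] in
/-- the same with `h56pTau`. -/
theorem h56w_pi_val_tau (τ : GQ) (i : ChartPlace (M * ℓ) t) (f : FF (M * ℓ)) :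
    chartVal (M * ℓ) t (h56wPi M t ht τ i) (h56pTau (M * ℓ) τ f) = chartVal (M * ℓ) t i f :=
  h56w_pi_val M t ht τ i f

include hℓ hM hA hC in
/-- **`hπc`**: `π` preserves the places centered at a closed point of the special fibre. -/
theorem h56w_pi_centered {τ : GQ} (hτ : τ ∈ A.inertiaSubgroupIn ℚ)
    (𝔫 : Ideal (chart (M * ℓ) A t)) (hm : mExt A M ℓ t ≤ 𝔫)
    (i : ChartPlace (M * ℓ) t)
    (hi : h26Centered (chart (M * ℓ) A t) (chartVal (M * ℓ) t) 𝔫 i) :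
    h26Centered (chart (M * ℓ) A t) (chartVal (M * ℓ) t) 𝔫 (h56wPi M t ht τ i) := by
  intro b hb
  have hτ' : τ⁻¹ ∈ A.inertiaSubgroupIn ℚ := inv_mem hτ
  have hval : chartVal (M * ℓ) t (h56wPi M t ht τ i) (b : FF (M * ℓ)) =
      chartVal (M * ℓ) t i (gal (M * ℓ) τ⁻¹ • (b : FF (M * ℓ))) := by
    have h1 := h56w_pi_val M t ht τ i (gal (M * ℓ) τ⁻¹ • (b : FF (M * ℓ)))
    rw [← h1, ← mul_smul, ← map_mul, mul_inv_cancel, map_one, one_smul]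
  rw [hval] at hb
  have hc := hi ⟨gal (M * ℓ) τ⁻¹ • (b : FF (M * ℓ)),
    h56w_gal_mem_chart A M hℓ hM hA t ht hC hτ' b.2⟩ hb
  exact h56w_mem_ideal_of_gal A M hℓ hM hA t ht hC hτ' 𝔫 hm b hc

include hℓ hM hA ht hC in
/-- **the consumer form of the rationality clause of `h74r_node_rat`**: a polynomial which is
fixed by every semilinear endomorphism fixing `x`, `u` and permuting the places centered at `𝔫`
is fixed coefficientwise by every element of the inertia group fixing `x` and `u`. -/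
theorem h56w_poly_fixed (𝔫 : Ideal (chart (M * ℓ) A t)) (hm : mExt A M ℓ t ≤ 𝔫)
    (x u : FF (M * ℓ)) (P : A[X])
    (hrat : ∀ (τ : FF (M * ℓ) →+* FF (M * ℓ)) (θ' : A →+* A)
        (π : ChartPlace (M * ℓ) t → ChartPlace (M * ℓ) t),
        (∀ c, τ (algebraMap A (FF (M * ℓ)) c) = algebraMap A (FF (M * ℓ)) (θ' c)) →
        (∀ i f, chartVal (M * ℓ) t (π i) (τ f) = chartVal (M * ℓ) t i f) →
        (∀ i, h26Centered (chart (M * ℓ) A t) (chartVal (M * ℓ) t) 𝔫 i →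
          h26Centered (chart (M * ℓ) A t) (chartVal (M * ℓ) t) 𝔫 (π i)) →
        τ x = x → τ u = u → P.map θ' = P)
    {σ : GQ} (hσ : σ ∈ A.inertiaSubgroupIn ℚ)
    (hx : gal (M * ℓ) σ • x = x) (hu : gal (M * ℓ) σ • u = u) :
    P.map (h56pTheta A hσ) = P ∧ ∀ k, σ ((P.coeff k : A) : Kbar) = ((P.coeff k : A) : Kbar) := by
  have h1 : P.map (h56pTheta A hσ) = P :=
    hrat ((h56pTau (M * ℓ) σ : FF (M * ℓ) ≃+* FF (M * ℓ)) : FF (M * ℓ) →+* FF (M * ℓ))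
      (h56pTheta A hσ) (h56wPi M t ht σ)
      (fun c => h56p_tau_algebraMap A (M * ℓ) hσ c)
      (fun i f => h56w_pi_val_tau M t ht σ i f)
      (fun i hi => h56w_pi_centered A M hℓ hM hA t ht hC hσ 𝔫 hm i hi)
      hx hu
  refine ⟨h1, fun k => ?_⟩
  have h2 := congrArg (fun Q : A[X] => Q.coeff k) h1
  simp only [Polynomial.coeff_map] at h2
  have h3 := congrArg (fun a : A => (a : Kbar)) h2
  simpa [h56p_coe_theta] using h3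

end Generic

/-! ## The two charts of level `M * ℓ` -/

section Level

variable (A : ValuationSubring Kbar) (M : ℕ) {ℓ : ℕ} [NeZero M] [NeZero ℓ]
  (hℓ : ℓ.Prime) (hM : ¬ ℓ ∣ M) (hA : A.LiesOverPrime ℓ)

include hℓ hM hA in
/-- finite chart: `τ` maps the local ring at `𝔫` into itself. -/
theorem h56w_gal_mem_O_fin {τ : GQ} (hτ : τ ∈ A.inertiaSubgroupIn ℚ)
    (𝔫 : Ideal (chart (M * ℓ) A (jSS M ℓ))) (h𝔫 : 𝔫.IsPrime)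
    (hm : mExt A M ℓ (jSS M ℓ) ≤ 𝔫) {f : FF (M * ℓ)}
    (hf : f ∈ h62yO (chart (M * ℓ) A (jSS M ℓ)) 𝔫 h𝔫) :
    gal (M * ℓ) τ • f ∈ h62yO (chart (M * ℓ) A (jSS M ℓ)) 𝔫 h𝔫 :=
  h56w_gal_mem_O A M hℓ hM hA _ (h63p_gal_jSS M ℓ) (h85s_ifaceSSChart_fin A M ℓ hℓ hM hA)
    hτ 𝔫 h𝔫 hm hf

include hℓ hM hA in
/-- chart at infinity: `τ` maps the local ring at `𝔫` into itself. -/
theorem h56w_gal_mem_O_inf {τ : GQ} (hτ : τ ∈ A.inertiaSubgroupIn ℚ)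
    (𝔫 : Ideal (chart (M * ℓ) A (jSS M ℓ)⁻¹)) (h𝔫 : 𝔫.IsPrime)
    (hm : mExt A M ℓ (jSS M ℓ)⁻¹ ≤ 𝔫) {f : FF (M * ℓ)}
    (hf : f ∈ h62yO (chart (M * ℓ) A (jSS M ℓ)⁻¹) 𝔫 h𝔫) :
    gal (M * ℓ) τ • f ∈ h62yO (chart (M * ℓ) A (jSS M ℓ)⁻¹) 𝔫 h𝔫 :=
  h56w_gal_mem_O A M hℓ hM hA _ (h63p_gal_jSS_inv M ℓ)
    (h85s_ifaceSSChart_inf A M ℓ hℓ hM hA) hτ 𝔫 h𝔫 hm hf

include hℓ hM hA in
/-- finite chart: `τ` maps local units at `𝔫` to local units. -/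
theorem h56w_gal_unitAt_fin {τ : GQ} (hτ : τ ∈ A.inertiaSubgroupIn ℚ)
    (𝔫 : Ideal (chart (M * ℓ) A (jSS M ℓ))) (hm : mExt A M ℓ (jSS M ℓ) ≤ 𝔫)
    {e : FF (M * ℓ)} (he : h74uUnitAt (chart (M * ℓ) A (jSS M ℓ)) 𝔫 e) :
    h74uUnitAt (chart (M * ℓ) A (jSS M ℓ)) 𝔫 (gal (M * ℓ) τ • e) :=
  h56w_gal_unitAt A M hℓ hM hA _ (h63p_gal_jSS M ℓ) (h85s_ifaceSSChart_fin A M ℓ hℓ hM hA)
    hτ 𝔫 hm he

include hℓ hM hA in
/-- chart at infinity: `τ` maps local units at `𝔫` to local units. -/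
theorem h56w_gal_unitAt_inf {τ : GQ} (hτ : τ ∈ A.inertiaSubgroupIn ℚ)
    (𝔫 : Ideal (chart (M * ℓ) A (jSS M ℓ)⁻¹)) (hm : mExt A M ℓ (jSS M ℓ)⁻¹ ≤ 𝔫)
    {e : FF (M * ℓ)} (he : h74uUnitAt (chart (M * ℓ) A (jSS M ℓ)⁻¹) 𝔫 e) :
    h74uUnitAt (chart (M * ℓ) A (jSS M ℓ)⁻¹) 𝔫 (gal (M * ℓ) τ • e) :=
  h56w_gal_unitAt A M hℓ hM hA _ (h63p_gal_jSS_inv M ℓ)
    (h85s_ifaceSSChart_inf A M ℓ hℓ hM hA) hτ 𝔫 hm he

include hℓ hM hA in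
/-- finite chart: the quotient `τ e / e` of a local unit is a local unit (the factor `b U / U`
of `w = b u / u`). -/
theorem h56w_quot_unitAt_fin {τ : GQ} (hτ : τ ∈ A.inertiaSubgroupIn ℚ)
    (𝔫 : Ideal (chart (M * ℓ) A (jSS M ℓ))) (h𝔫 : 𝔫.IsPrime)
    (hm : mExt A M ℓ (jSS M ℓ) ≤ 𝔫)
    {e : FF (M * ℓ)} (he : h74uUnitAt (chart (M * ℓ) A (jSS M ℓ)) 𝔫 e) :
    gal (M * ℓ) τ • e * e⁻¹ ∈ h62yO (chart (M * ℓ) A (jSS M ℓ)) 𝔫 h𝔫 ∧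
      (gal (M * ℓ) τ • e * e⁻¹)⁻¹ ∈ h62yO (chart (M * ℓ) A (jSS M ℓ)) 𝔫 h𝔫 := by
  have h1 := h56w_gal_unitAt_fin A M hℓ hM hA hτ 𝔫 hm he
  obtain ⟨s, hs, hs1, hs2⟩ := he
  obtain ⟨s', hs', hs1', hs2'⟩ := h1
  have hO : ∀ {f : FF (M * ℓ)} (r : chart (M * ℓ) A (jSS M ℓ)), r ∉ 𝔫 →
      (r : FF (M * ℓ)) * f ∈ chart (M * ℓ) A (jSS M ℓ) →
      f ∈ h62yO (chart (M * ℓ) A (jSS M ℓ)) 𝔫 h𝔫 := fun r hr h => ⟨r, hr, h⟩
  constructor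
  · have : gal (M * ℓ) τ • e * e⁻¹ =
        gal (M * ℓ) τ • e * e⁻¹ := rfl
    exact (h62yO (chart (M * ℓ) A (jSS M ℓ)) 𝔫 h𝔫).mul_mem (hO s' hs' hs1') (hO s hs hs2)
  · rw [mul_inv, inv_inv]
    exact (h62yO (chart (M * ℓ) A (jSS M ℓ)) 𝔫 h𝔫).mul_mem (hO s' hs' hs2') (hO s hs hs1)

include hℓ hM hA in
/-- finite chart: the hypotheses `hπ`, `hπc` of `h74r_node_rat` for an inertia element. -/
theorem h56w_perm_fin {τ : GQ} (hτ : τ ∈ A.inertiaSubgroupIn ℚ)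
    (𝔫 : Ideal (chart (M * ℓ) A (jSS M ℓ))) (hm : mExt A M ℓ (jSS M ℓ) ≤ 𝔫) :
    ∃ π : ChartPlace (M * ℓ) (jSS M ℓ) → ChartPlace (M * ℓ) (jSS M ℓ),
      (∀ i f, chartVal (M * ℓ) (jSS M ℓ) (π i) (h56pTau (M * ℓ) τ f) =
        chartVal (M * ℓ) (jSS M ℓ) i f) ∧
      ∀ i, h26Centered (chart (M * ℓ) A (jSS M ℓ)) (chartVal (M * ℓ) (jSS M ℓ)) 𝔫 i →
        h26Centered (chart (M * ℓ) A (jSS M ℓ)) (chartVal (M * ℓ) (jSS M ℓ)) 𝔫 (π i) :=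
  ⟨h56wPi M _ (h63p_gal_jSS M ℓ) τ, fun i f => h56w_pi_val_tau M _ (h63p_gal_jSS M ℓ) τ i f,
    fun i hi => h56w_pi_centered A M hℓ hM hA _ (h63p_gal_jSS M ℓ)
      (h85s_ifaceSSChart_fin A M ℓ hℓ hM hA) hτ 𝔫 hm i hi⟩

include hℓ hM hA in
/-- chart at infinity: the hypotheses `hπ`, `hπc` of `h74r_node_rat` for an inertia element. -/
theorem h56w_perm_inf {τ : GQ} (hτ : τ ∈ A.inertiaSubgroupIn ℚ)
    (𝔫 : Ideal (chart (M * ℓ) A (jSS M ℓ)⁻¹)) (hm : mExt A M ℓ (jSS M ℓ)⁻¹ ≤ 𝔫) :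
    ∃ π : ChartPlace (M * ℓ) (jSS M ℓ)⁻¹ → ChartPlace (M * ℓ) (jSS M ℓ)⁻¹,
      (∀ i f, chartVal (M * ℓ) (jSS M ℓ)⁻¹ (π i) (h56pTau (M * ℓ) τ f) =
        chartVal (M * ℓ) (jSS M ℓ)⁻¹ i f) ∧
      ∀ i, h26Centered (chart (M * ℓ) A (jSS M ℓ)⁻¹) (chartVal (M * ℓ) (jSS M ℓ)⁻¹) 𝔫 i →
        h26Centered (chart (M * ℓ) A (jSS M ℓ)⁻¹) (chartVal (M * ℓ) (jSS M ℓ)⁻¹) 𝔫 (π i) :=
  ⟨h56wPi M _ (h63p_gal_jSS_inv M ℓ) τ,
    fun i f => h56w_pi_val_tau M _ (h63p_gal_jSS_inv M ℓ) τ i f,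
    fun i hi => h56w_pi_centered A M hℓ hM hA _ (h63p_gal_jSS_inv M ℓ)
      (h85s_ifaceSSChart_inf A M ℓ hℓ hM hA) hτ 𝔫 hm i hi⟩

include hℓ hM hA in
/-- finite chart: consumer form of the rationality clause. -/
theorem h56w_poly_fixed_fin (𝔫 : Ideal (chart (M * ℓ) A (jSS M ℓ)))
    (hm : mExt A M ℓ (jSS M ℓ) ≤ 𝔫) (x u : FF (M * ℓ)) (P : A[X])
    (hrat : ∀ (τ : FF (M * ℓ) →+* FF (M * ℓ)) (θ' : A →+* A)
        (π : ChartPlace (M * ℓ) (jSS M ℓ) → ChartPlace (M * ℓ) (jSS M ℓ)),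
        (∀ c, τ (algebraMap A (FF (M * ℓ)) c) = algebraMap A (FF (M * ℓ)) (θ' c)) →
        (∀ i f, chartVal (M * ℓ) (jSS M ℓ) (π i) (τ f) = chartVal (M * ℓ) (jSS M ℓ) i f) →
        (∀ i, h26Centered (chart (M * ℓ) A (jSS M ℓ)) (chartVal (M * ℓ) (jSS M ℓ)) 𝔫 i →
          h26Centered (chart (M * ℓ) A (jSS M ℓ)) (chartVal (M * ℓ) (jSS M ℓ)) 𝔫 (π i)) →
        τ x = x → τ u = u → P.map θ' = P)
    {σ : GQ} (hσ : σ ∈ A.inertiaSubgroupIn ℚ)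
    (hx : gal (M * ℓ) σ • x = x) (hu : gal (M * ℓ) σ • u = u) :
    P.map (h56pTheta A hσ) = P ∧ ∀ k, σ ((P.coeff k : A) : Kbar) = ((P.coeff k : A) : Kbar) :=
  h56w_poly_fixed A M hℓ hM hA _ (h63p_gal_jSS M ℓ) (h85s_ifaceSSChart_fin A M ℓ hℓ hM hA)
    𝔫 hm x u P hrat hσ hx hu

end Level

end Fermat.Agent.P7
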