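import Fermat.Agent.P7.H56InertLoc

/-!
# Wave 7 (S44 / S40), block (5b), row T-C5-ASM: the local unit factor `b E / E` (helper56)

Continuation of `P7/H56InertLoc.lean`.  `τ` in the inertia group of `A` (over `ℓ`),
`B = chart (M * ℓ) A t` a chart of level `M * ℓ` with Galois invariant coordinate, `𝔫` a prime of
`B` containing `𝔪_A B`, `O = h62yO B 𝔫` the local ring.

* `h56w_cst_quot` : for a nonzero constant `c ∈ ℚ̄`, `τ c / c` and `c / τ c` are in `A`.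
* `h56w_isConst_eq_cst` : a quotient of two constants of `A` (`S35.h13x_IsConst`) is a constant.
* `h56w_quot_unitAt` : both quotients `τ e / e`, `e / τ e` of a local unit `e` lie in `O`.
* `h56w_quot_E` : the same for `E = cst c * e` (constant times local unit): these are the
  hypotheses `hE`, `hE'` of `h84a_smooth` / `h84a_node` / `H84aNFSmooth` / `H84aNFNode`
  (helper84) for `b := h56pTau (M * ℓ) τ`, `O := (h62yO B 𝔫 h𝔫).toSubring`.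
* instances `_fin`, `_inf`.
-/

set_option autoImplicit false
set_option linter.unusedSectionVars false
set_option linter.unusedVariables false
set_option linter.style.haveILetI false

open AlgebraicCurve ModularCurve WithZero IsLocalRing Polynomial

noncomputable section

namespace Fermat.Agent.P7

open Fermat.Agent.S37 Fermat.Agent.Red Fermat.Agent.Red.GG Fermat.Agent.Red.GV
  Fermat.Agent.Red.ModelO Fermat.Agent.LGC Fermat.Agent.S35 Fermat.Agent.P6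

section Const

variable (A : ValuationSubring Kbar) {ℓ : ℕ} (hℓ : ℓ.Prime) (hA : A.LiesOverPrime ℓ)

include hℓ hA in
/-- inertia preserves the valuation: `τ c / c` and `c / τ c` are in `A`. -/
theorem h56w_cst_quot {τ : GQ} (hτ : τ ∈ A.inertiaSubgroupIn ℚ) {c : Kbar} (hc : c ≠ 0) :
    τ c * c⁻¹ ∈ A ∧ c * (τ c)⁻¹ ∈ A := by
  have hv := Fermat.Agent.S13.L2.inertia_valuation_eq A hℓ hA hτ c
  have hτc0 : τ c ≠ 0 := (map_ne_zero τ).mpr hc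
  constructor
  · rw [← A.valuation_le_one_iff, map_mul, map_inv₀, hv,
      mul_inv_cancel₀ ((Valuation.ne_zero_iff _).mpr hc)]
  · rw [← A.valuation_le_one_iff, map_mul, map_inv₀, hv,
      mul_inv_cancel₀ ((Valuation.ne_zero_iff _).mpr hc)]

end Const

section IsConst

variable (A : ValuationSubring Kbar)

/-- a quotient of two constants of `A` is a constant of `ℚ̄`. -/
theorem h56w_isConst_eq_cst (N : ℕ) {θ : FF N} (hθ : h13x_IsConst A θ) :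
    ∃ c : Kbar, θ = cst N c := by
  obtain ⟨p, q, hq, h⟩ := hθ
  have hq0 : (q : Kbar) ≠ 0 := fun h0 => hq (Subtype.ext h0)
  have hqF : algebraMap A (FF N) q ≠ 0 := by
    intro h0
    have h1 : cst N (q : Kbar) = 0 := h0
    exact hq0 ((algebraMap Kbar (FF N)).injective (h1.trans (map_zero _).symm))
  refine ⟨(p : Kbar) * (q : Kbar)⁻¹, ?_⟩
  have h2 : algebraMap A (FF N) p = cst N (p : Kbar) := rfl
  have h3 : algebraMap A (FF N) q = cst N (q : Kbar) := rfl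
  have h4 : cst N ((p : Kbar) * (q : Kbar)⁻¹) = cst N (p : Kbar) * (cst N (q : Kbar))⁻¹ := by
    show algebraMap Kbar (FF N) _ = algebraMap Kbar (FF N) _ * (algebraMap Kbar (FF N) _)⁻¹
    rw [map_mul, map_inv₀]
  rw [h4, ← h2, ← h3, ← h]
  field_simp

end IsConst

section Generic

variable (A : ValuationSubring Kbar) (M : ℕ) {ℓ : ℕ} [NeZero M] [NeZero ℓ]
  (hℓ : ℓ.Prime) (hM : ¬ ℓ ∣ M) (hA : A.LiesOverPrime ℓ)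
  (t : FF (M * ℓ)) (ht : ∀ σ : GQ, gal (M * ℓ) σ • t = t) (hC : IfaceSSChart A M ℓ t)

include hℓ hM hA ht hC in
/-- both quotients `τ e / e`, `e / τ e` of a local unit are in the local ring. -/
theorem h56w_quot_unitAt {τ : GQ} (hτ : τ ∈ A.inertiaSubgroupIn ℚ)
    (𝔫 : Ideal (chart (M * ℓ) A t)) (h𝔫 : 𝔫.IsPrime) (hm : mExt A M ℓ t ≤ 𝔫)
    {e : FF (M * ℓ)} (he : h74uUnitAt (chart (M * ℓ) A t) 𝔫 e) :
    gal (M * ℓ) τ • e * e⁻¹ ∈ h62yO (chart (M * ℓ) A t) 𝔫 h𝔫 ∧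
      e * (gal (M * ℓ) τ • e)⁻¹ ∈ h62yO (chart (M * ℓ) A t) 𝔫 h𝔫 := by
  have h1 := h56w_gal_unitAt A M hℓ hM hA t ht hC hτ 𝔫 hm he
  obtain ⟨s, hs, hs1, hs2⟩ := he
  obtain ⟨s', hs', hs1', hs2'⟩ := h1
  have hO : ∀ {f : FF (M * ℓ)} (r : chart (M * ℓ) A t), r ∉ 𝔫 →
      (r : FF (M * ℓ)) * f ∈ chart (M * ℓ) A t →
      f ∈ h62yO (chart (M * ℓ) A t) 𝔫 h𝔫 := fun r hr h => ⟨r, hr, h⟩
  exact ⟨(h62yO (chart (M * ℓ) A t) 𝔫 h𝔫).mul_mem (hO s' hs' hs1') (hO s hs hs2),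
    (h62yO (chart (M * ℓ) A t) 𝔫 h𝔫).mul_mem (hO s hs hs1) (hO s' hs' hs2')⟩

include hℓ hM hA ht hC in
/-- **the local unit factor**: for `E = cst c * e`, `c ≠ 0` a constant and `e` a local unit at
`𝔫`, both `τ E / E` and `E / τ E` are in the local ring at `𝔫`. -/
theorem h56w_quot_E {τ : GQ} (hτ : τ ∈ A.inertiaSubgroupIn ℚ)
    (𝔫 : Ideal (chart (M * ℓ) A t)) (h𝔫 : 𝔫.IsPrime) (hm : mExt A M ℓ t ≤ 𝔫)
    {c : Kbar} (hc : c ≠ 0) {e : FF (M * ℓ)} (he : h74uUnitAt (chart (M * ℓ) A t) 𝔫 e) :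
    h56pTau (M * ℓ) τ (cst (M * ℓ) c * e) * (cst (M * ℓ) c * e)⁻¹
        ∈ (h62yO (chart (M * ℓ) A t) 𝔫 h𝔫).toSubring ∧
      (cst (M * ℓ) c * e) * (h56pTau (M * ℓ) τ (cst (M * ℓ) c * e))⁻¹
        ∈ (h62yO (chart (M * ℓ) A t) 𝔫 h𝔫).toSubring := by
  obtain ⟨h1, h2⟩ := h56w_quot_unitAt A M hℓ hM hA t ht hC hτ 𝔫 h𝔫 hm he
  obtain ⟨k1, k2⟩ := h56w_cst_quot A hℓ hA hτ hc
  have hcF : cst (M * ℓ) c ≠ 0 := by
    intro h0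
    exact hc ((algebraMap Kbar (FF (M * ℓ))).injective (h0.trans (map_zero _).symm))
  have hτcF : cst (M * ℓ) (τ c) ≠ 0 := by
    intro h0
    exact (map_ne_zero τ).mpr hc
      ((algebraMap Kbar (FF (M * ℓ))).injective (h0.trans (map_zero _).symm))
  have e0 : h56pTau (M * ℓ) τ (cst (M * ℓ) c * e) =
      cst (M * ℓ) (τ c) * gal (M * ℓ) τ • e := by
    rw [map_mul, h56p_tau_apply, h56p_tau_apply, GalI.gal_smul_cst]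
  have hmul : ∀ x y : Kbar, cst (M * ℓ) (x * y) = cst (M * ℓ) x * cst (M * ℓ) y := fun x y =>
    map_mul (algebraMap Kbar (FF (M * ℓ))) x y
  have hinv : ∀ x : Kbar, cst (M * ℓ) x⁻¹ = (cst (M * ℓ) x)⁻¹ := fun x =>
    map_inv₀ (algebraMap Kbar (FF (M * ℓ))) x
  have c1 : cst (M * ℓ) (τ c * c⁻¹) ∈ h62yO (chart (M * ℓ) A t) 𝔫 h𝔫 :=
    (h62yO (chart (M * ℓ) A t) 𝔫 h𝔫).algebraMap_mem ⟨_, k1⟩
  have c2 : cst (M * ℓ) (c * (τ c)⁻¹) ∈ h62yO (chart (M * ℓ) A t) 𝔫 h𝔫 :=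
    (h62yO (chart (M * ℓ) A t) 𝔫 h𝔫).algebraMap_mem ⟨_, k2⟩
  constructor
  · have e1 : h56pTau (M * ℓ) τ (cst (M * ℓ) c * e) * (cst (M * ℓ) c * e)⁻¹ =
        cst (M * ℓ) (τ c * c⁻¹) * (gal (M * ℓ) τ • e * e⁻¹) := by
      rw [e0, hmul, hinv, mul_inv]; ring
    rw [e1]
    exact (h62yO (chart (M * ℓ) A t) 𝔫 h𝔫).mul_mem c1 h1
  · have e1 : (cst (M * ℓ) c * e) * (h56pTau (M * ℓ) τ (cst (M * ℓ) c * e))⁻¹ =
        cst (M * ℓ) (c * (τ c)⁻¹) * (e * (gal (M * ℓ) τ • e)⁻¹) := by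
      rw [e0, hmul, hinv, mul_inv]; ring
    rw [e1]
    exact (h62yO (chart (M * ℓ) A t) 𝔫 h𝔫).mul_mem c2 h2

include hℓ hM hA ht hC in
/-- the same with the constant given as a quotient of two constants of `A`. -/
theorem h56w_quot_E_isConst {τ : GQ} (hτ : τ ∈ A.inertiaSubgroupIn ℚ)
    (𝔫 : Ideal (chart (M * ℓ) A t)) (h𝔫 : 𝔫.IsPrime) (hm : mExt A M ℓ t ≤ 𝔫)
    {θ : FF (M * ℓ)} (hθ : h13x_IsConst A θ) (hθ0 : θ ≠ 0)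
    {e : FF (M * ℓ)} (he : h74uUnitAt (chart (M * ℓ) A t) 𝔫 e) :
    h56pTau (M * ℓ) τ (θ * e) * (θ * e)⁻¹ ∈ (h62yO (chart (M * ℓ) A t) 𝔫 h𝔫).toSubring ∧
      (θ * e) * (h56pTau (M * ℓ) τ (θ * e))⁻¹
        ∈ (h62yO (chart (M * ℓ) A t) 𝔫 h𝔫).toSubring := by
  obtain ⟨c, rfl⟩ := h56w_isConst_eq_cst A (M * ℓ) hθ
  have hc : c ≠ 0 := by
    rintro rfl
    apply hθ0
    exact map_zero (algebraMap Kbar (FF (M * ℓ)))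
  exact h56w_quot_E A M hℓ hM hA t ht hC hτ 𝔫 h𝔫 hm hc he

end Generic

section Level

variable (A : ValuationSubring Kbar) (M : ℕ) {ℓ : ℕ} [NeZero M] [NeZero ℓ]
  (hℓ : ℓ.Prime) (hM : ¬ ℓ ∣ M) (hA : A.LiesOverPrime ℓ)

include hℓ hM hA in
/-- finite chart: `hE`, `hE'` of `h84a_smooth` / `h84a_node` for `E = cst c * e`. -/
theorem h56w_quot_E_fin {τ : GQ} (hτ : τ ∈ A.inertiaSubgroupIn ℚ)
    (𝔫 : Ideal (chart (M * ℓ) A (jSS M ℓ))) (h𝔫 : 𝔫.IsPrime)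
    (hm : mExt A M ℓ (jSS M ℓ) ≤ 𝔫)
    {c : Kbar} (hc : c ≠ 0) {e : FF (M * ℓ)}
    (he : h74uUnitAt (chart (M * ℓ) A (jSS M ℓ)) 𝔫 e) :
    h56pTau (M * ℓ) τ (cst (M * ℓ) c * e) * (cst (M * ℓ) c * e)⁻¹
        ∈ (h62yO (chart (M * ℓ) A (jSS M ℓ)) 𝔫 h𝔫).toSubring ∧
      (cst (M * ℓ) c * e) * (h56pTau (M * ℓ) τ (cst (M * ℓ) c * e))⁻¹
        ∈ (h62yO (chart (M * ℓ) A (jSS M ℓ)) 𝔫 h𝔫).toSubring :=
  h56w_quot_E A M hℓ hM hA _ (h63p_gal_jSS M ℓ) (h85s_ifaceSSChart_fin A M ℓ hℓ hM hA)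
    hτ 𝔫 h𝔫 hm hc he

include hℓ hM hA in
/-- chart at infinity: `hE`, `hE'` of `h84a_smooth` for `E = cst c * e`. -/
theorem h56w_quot_E_inf {τ : GQ} (hτ : τ ∈ A.inertiaSubgroupIn ℚ)
    (𝔫 : Ideal (chart (M * ℓ) A (jSS M ℓ)⁻¹)) (h𝔫 : 𝔫.IsPrime)
    (hm : mExt A M ℓ (jSS M ℓ)⁻¹ ≤ 𝔫)
    {c : Kbar} (hc : c ≠ 0) {e : FF (M * ℓ)}
    (he : h74uUnitAt (chart (M * ℓ) A (jSS M ℓ)⁻¹) 𝔫 e) :
    h56pTau (M * ℓ) τ (cst (M * ℓ) c * e) * (cst (M * ℓ) c * e)⁻¹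
        ∈ (h62yO (chart (M * ℓ) A (jSS M ℓ)⁻¹) 𝔫 h𝔫).toSubring ∧
      (cst (M * ℓ) c * e) * (h56pTau (M * ℓ) τ (cst (M * ℓ) c * e))⁻¹
        ∈ (h62yO (chart (M * ℓ) A (jSS M ℓ)⁻¹) 𝔫 h𝔫).toSubring :=
  h56w_quot_E A M hℓ hM hA _ (h63p_gal_jSS_inv M ℓ) (h85s_ifaceSSChart_inf A M ℓ hℓ hM hA)
    hτ 𝔫 h𝔫 hm hc he

include hℓ hM hA in
/-- finite chart, constant given by `h13x_IsConst`. -/
theorem h56w_quot_E_isConst_fin {τ : GQ} (hτ : τ ∈ A.inertiaSubgroupIn ℚ)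
    (𝔫 : Ideal (chart (M * ℓ) A (jSS M ℓ))) (h𝔫 : 𝔫.IsPrime)
    (hm : mExt A M ℓ (jSS M ℓ) ≤ 𝔫)
    {θ : FF (M * ℓ)} (hθ : h13x_IsConst A θ) (hθ0 : θ ≠ 0) {e : FF (M * ℓ)}
    (he : h74uUnitAt (chart (M * ℓ) A (jSS M ℓ)) 𝔫 e) :
    h56pTau (M * ℓ) τ (θ * e) * (θ * e)⁻¹
        ∈ (h62yO (chart (M * ℓ) A (jSS M ℓ)) 𝔫 h𝔫).toSubring ∧
      (θ * e) * (h56pTau (M * ℓ) τ (θ * e))⁻¹
        ∈ (h62yO (chart (M * ℓ) A (jSS M ℓ)) 𝔫 h𝔫).toSubring :=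
  h56w_quot_E_isConst A M hℓ hM hA _ (h63p_gal_jSS M ℓ)
    (h85s_ifaceSSChart_fin A M ℓ hℓ hM hA) hτ 𝔫 h𝔫 hm hθ hθ0 he

include hℓ hM hA in
/-- chart at infinity, constant given by `h13x_IsConst`. -/
theorem h56w_quot_E_isConst_inf {τ : GQ} (hτ : τ ∈ A.inertiaSubgroupIn ℚ)
    (𝔫 : Ideal (chart (M * ℓ) A (jSS M ℓ)⁻¹)) (h𝔫 : 𝔫.IsPrime)
    (hm : mExt A M ℓ (jSS M ℓ)⁻¹ ≤ 𝔫)
    {θ : FF (M * ℓ)} (hθ : h13x_IsConst A θ) (hθ0 : θ ≠ 0) {e : FF (M * ℓ)}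
    (he : h74uUnitAt (chart (M * ℓ) A (jSS M ℓ)⁻¹) 𝔫 e) :
    h56pTau (M * ℓ) τ (θ * e) * (θ * e)⁻¹
        ∈ (h62yO (chart (M * ℓ) A (jSS M ℓ)⁻¹) 𝔫 h𝔫).toSubring ∧
      (θ * e) * (h56pTau (M * ℓ) τ (θ * e))⁻¹
        ∈ (h62yO (chart (M * ℓ) A (jSS M ℓ)⁻¹) 𝔫 h𝔫).toSubring :=
  h56w_quot_E_isConst A M hℓ hM hA _ (h63p_gal_jSS_inv M ℓ)
    (h85s_ifaceSSChart_inf A M ℓ hℓ hM hA) hτ 𝔫 h𝔫 hm hθ hθ0 he

end Level

end Fermat.Agent.P7
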