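import Mathlib

/-!
# Wave 7 (S44), DLOG at a non-good level: SYM-LITE, abstract core (helper56, prefix `h56s_`)

Paper proof: finding 1461, step (S3).  Mathlib only.

`k` a field, `K` a field over `k` (the function field of the special fibre of the GOOD level, inside
`k((q))`), `v` an additive valuation of `K` with values in `ℤ ∪ {⊤}` (the `q`-order), trivial on
`k`; `κ` a subfield (the residue field of the Gauss valuation of the level `M`); `h, t ∈ κ` with
`v h = -m < 0`, `v t = 1`, and `[κ : k(h)] ≤ m` (no `m + 1` elements of `κ` are linearly independent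
over `k(h)`).

* `h56s_val_aeval` : `v (P(h)) = -m · deg P` for `P ≠ 0`.
* `h56s_val_adjoin` : the values of the nonzero elements of `k(h)` are multiples of `m`.
* `h56s_expand` : every `φ ∈ κ` is `∑_{i < m} a i * t ^ i` with `a i ∈ k(h)`; if `0 ≤ v φ` then
  `0 ≤ v (a i)` for all `i`.
* `h56s_adjoin_mem` : an element `a ∈ k(h)` with `0 ≤ v a` lies in every valuation subring `O ⊇ k`
  of `K` with `h ∉ O`.
* `h56s_symLite` : **SYM-LITE**: every `φ ∈ κ` with `0 ≤ v φ` lies in every valuation subring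
  `O ⊇ k` of `K` in which `h` has a pole.
-/

set_option autoImplicit false
set_option linter.unusedSectionVars false
set_option linter.style.haveILetI false

open Polynomial

namespace Fermat.Agent.P7

section SymLite

variable {k K : Type*} [Field k] [Field K] [Algebra k K]

/-- a term `c h^i` with `i ≤ n` has value at least `-m n`. -/
theorem h56s_le_term (v : AddValuation K (WithTop ℤ))
    (hvk : ∀ c : k, 0 ≤ v (algebraMap k K c)) (h : K) (m : ℕ)
    (hvh : v h = ((-(m : ℤ) : ℤ) : WithTop ℤ)) (c : k) (i n : ℕ) (hin : i ≤ n) :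
    ((-(m : ℤ) * n : ℤ) : WithTop ℤ) ≤ v (algebraMap k K c * h ^ i) := by
  rw [AddValuation.map_mul, AddValuation.map_pow, hvh]
  have h1 : ((-(m : ℤ) * n : ℤ) : WithTop ℤ) ≤ ((-(m : ℤ) * i : ℤ) : WithTop ℤ) := by
    rw [WithTop.coe_le_coe]
    have : (i : ℤ) ≤ n := by exact_mod_cast hin
    nlinarith [Int.natCast_nonneg m]
  have h2 : (i • ((-(m : ℤ) : ℤ) : WithTop ℤ)) = ((-(m : ℤ) * i : ℤ) : WithTop ℤ) := by
    rw [← WithTop.coe_nsmul]
    congr 1
    rw [nsmul_eq_mul]
    ring
  rw [h2]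
  calc ((-(m : ℤ) * n : ℤ) : WithTop ℤ) ≤ ((-(m : ℤ) * i : ℤ) : WithTop ℤ) := h1
    _ = 0 + ((-(m : ℤ) * i : ℤ) : WithTop ℤ) := (zero_add _).symm
    _ ≤ v (algebraMap k K c) + ((-(m : ℤ) * i : ℤ) : WithTop ℤ) := by
        gcongr
        exact hvk c

/-- lower bound for the value of a polynomial in `h`. -/
theorem h56s_le_aeval (v : AddValuation K (WithTop ℤ))
    (hvk : ∀ c : k, 0 ≤ v (algebraMap k K c)) (h : K) (m : ℕ)
    (hvh : v h = ((-(m : ℤ) : ℤ) : WithTop ℤ)) (P : k[X]) (n : ℕ) (hn : P.natDegree ≤ n) :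
    ((-(m : ℤ) * n : ℤ) : WithTop ℤ) ≤ v (aeval h P) := by
  rw [aeval_eq_sum_range]
  refine AddValuation.map_le_sum v ?_
  intro i hi
  rw [Algebra.smul_def]
  refine h56s_le_term v hvk h m hvh _ i n ?_
  have := Finset.mem_range.mp hi
  omega

/-- **the value of a polynomial in `h`**: `v (P(h)) = -m · deg P` for `P ≠ 0`. -/
theorem h56s_val_aeval (v : AddValuation K (WithTop ℤ))
    (hvk : ∀ c : k, c ≠ 0 → v (algebraMap k K c) = 0) (h : K) (m : ℕ) (hm : 0 < m)
    (hvh : v h = ((-(m : ℤ) : ℤ) : WithTop ℤ)) (P : k[X]) (hP : P ≠ 0) :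
    v (aeval h P) = ((-(m : ℤ) * P.natDegree : ℤ) : WithTop ℤ) := by
  have hvk' : ∀ c : k, 0 ≤ v (algebraMap k K c) := by
    intro c
    by_cases hc : c = 0
    · rw [hc, map_zero, AddValuation.map_zero]
      exact le_top
    · rw [hvk c hc]
  have hlead : v (algebraMap k K P.leadingCoeff * h ^ P.natDegree) =
      ((-(m : ℤ) * P.natDegree : ℤ) : WithTop ℤ) := by
    rw [AddValuation.map_mul, AddValuation.map_pow, hvh,
      hvk _ (leadingCoeff_ne_zero.mpr hP), zero_add, ← WithTop.coe_nsmul]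
    congr 1
    rw [nsmul_eq_mul]
    ring
  have hsplit : aeval h P =
      algebraMap k K P.leadingCoeff * h ^ P.natDegree + aeval h P.eraseLead := by
    conv_lhs => rw [← eraseLead_add_C_mul_X_pow P]
    rw [map_add, map_mul, aeval_C, map_pow, aeval_X, add_comm]
  rw [hsplit, AddValuation.map_add_eq_of_lt_left, hlead]
  rw [hlead]
  by_cases he : P.eraseLead = 0
  · rw [he, map_zero, AddValuation.map_zero]
    exact WithTop.coe_lt_top _
  · have hdeg : 1 ≤ P.natDegree := by
      by_contra hcon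
      have h0 : P.natDegree = 0 := by omega
      apply he
      rw [eq_C_of_natDegree_eq_zero h0]
      exact eraseLead_C _
    have hle := h56s_le_aeval v hvk' h m hvh P.eraseLead (P.natDegree - 1)
      (eraseLead_natDegree_le P)
    refine lt_of_lt_of_le ?_ hle
    rw [WithTop.coe_lt_coe]
    have h1 : ((P.natDegree - 1 : ℕ) : ℤ) = (P.natDegree : ℤ) - 1 := by
      rw [Nat.cast_sub hdeg]; simp
    rw [h1]
    have hm' : (0 : ℤ) < m := by exact_mod_cast hm
    nlinarith

/-- the values of the nonzero elements of `k(h)` are multiples of `m`. -/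
theorem h56s_val_adjoin (v : AddValuation K (WithTop ℤ))
    (hvk : ∀ c : k, c ≠ 0 → v (algebraMap k K c) = 0) (h : K) (m : ℕ) (hm : 0 < m)
    (hvh : v h = ((-(m : ℤ) : ℤ) : WithTop ℤ)) (a : K)
    (ha : a ∈ IntermediateField.adjoin k {h}) (ha0 : a ≠ 0) :
    ∃ n : ℤ, v a = (((m : ℤ) * n : ℤ) : WithTop ℤ) := by
  obtain ⟨r, s, hrs⟩ := (IntermediateField.mem_adjoin_simple_iff k a).mp ha
  have hs0 : aeval h s ≠ 0 := by
    intro h0
    rw [h0, div_zero] at hrs
    exact ha0 hrs
  have hr0 : aeval h r ≠ 0 := by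
    intro h0
    rw [h0, zero_div] at hrs
    exact ha0 hrs
  have hs : s ≠ 0 := by
    rintro rfl
    exact hs0 (map_zero _)
  have hr : r ≠ 0 := by
    rintro rfl
    exact hr0 (map_zero _)
  have hmul : a * aeval h s = aeval h r := by
    rw [hrs, div_mul_cancel₀ _ hs0]
  have hv : v a + v (aeval h s) = v (aeval h r) := by
    rw [← AddValuation.map_mul, hmul]
  rw [h56s_val_aeval v hvk h m hm hvh s hs, h56s_val_aeval v hvk h m hm hvh r hr] at hv
  have hatop : v a ≠ ⊤ := (AddValuation.ne_top_iff v).mpr ha0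
  obtain ⟨z, hz⟩ := WithTop.ne_top_iff_exists.mp hatop
  rw [← hz] at hv ⊢
  rw [← WithTop.coe_add, WithTop.coe_eq_coe] at hv
  refine ⟨(s.natDegree : ℤ) - r.natDegree, ?_⟩
  rw [WithTop.coe_eq_coe]
  linarith

/-- **distinct values**: a sum of `m` terms whose values lie in distinct classes modulo `m` has
the minimal value. -/
theorem h56s_sum_distinct (v : AddValuation K (WithTop ℤ)) (m : ℕ) (y : Fin m → K)
    (hy : ∀ i : Fin m, y i = 0 ∨ ∃ n : ℤ, v (y i) = (((m : ℤ) * n + (i : ℕ) : ℤ) : WithTop ℤ))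
    (B : ℤ) (hB : (B : WithTop ℤ) ≤ v (∑ i, y i)) (i : Fin m) : (B : WithTop ℤ) ≤ v (y i) := by
  classical
  by_contra hcon
  have hlt : v (y i) < (B : WithTop ℤ) := not_le.mp hcon
  obtain ⟨i0, -, hmin⟩ := Finset.exists_min_image (Finset.univ : Finset (Fin m))
    (fun j => v (y j)) ⟨i, Finset.mem_univ i⟩
  have hlt0 : v (y i0) < (B : WithTop ℤ) := lt_of_le_of_lt (hmin i (Finset.mem_univ i)) hlt
  have hne0 : y i0 ≠ 0 := by
    intro h0
    rw [h0, AddValuation.map_zero] at hlt0
    exact not_top_lt hlt0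
  obtain ⟨n0, hn0⟩ := (hy i0).resolve_left hne0
  have hrest : v (y i0) < v (∑ j ∈ (Finset.univ : Finset (Fin m)).erase i0, y j) := by
    refine AddValuation.map_lt_sum v ?_ ?_
    · rw [hn0]; exact WithTop.coe_ne_top
    · intro j hj
      have hji : j ≠ i0 := Finset.ne_of_mem_erase hj
      refine lt_of_le_of_ne (hmin j (Finset.mem_univ j)) ?_
      intro heq
      rcases hy j with h0 | ⟨n, hn⟩
      · rw [h0, AddValuation.map_zero, hn0] at heq
        exact WithTop.coe_ne_top heq
      · rw [hn0, hn, WithTop.coe_eq_coe] at heq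
        apply hji
        have hj' : ((j : ℕ) : ℤ) < m := by exact_mod_cast j.2
        have hi' : ((i0 : ℕ) : ℤ) < m := by exact_mod_cast i0.2
        have hj0 : (0 : ℤ) ≤ ((j : ℕ) : ℤ) := Int.natCast_nonneg _
        have hi0 : (0 : ℤ) ≤ ((i0 : ℕ) : ℤ) := Int.natCast_nonneg _
        have hd : (m : ℤ) * (n0 - n) = ((j : ℕ) : ℤ) - ((i0 : ℕ) : ℤ) := by linarith
        have hz : n0 - n = 0 := by
          by_contra hnz
          rcases lt_or_gt_of_ne hnz with hneg | hpos
          · have : n0 - n ≤ -1 := by omega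
            nlinarith
          · have : 1 ≤ n0 - n := by omega
            nlinarith
        rw [hz, mul_zero] at hd
        have : ((j : ℕ) : ℤ) = ((i0 : ℕ) : ℤ) := by linarith
        exact Fin.ext (by exact_mod_cast this)
  have hsum : v (∑ j, y j) = v (y i0) := by
    rw [← Finset.add_sum_erase _ _ (Finset.mem_univ i0)]
    exact AddValuation.map_add_eq_of_lt_left v hrest
  rw [hsum] at hB
  exact absurd hB (not_le.mpr hlt0)

/-- a vanishing sum of terms with values in distinct classes modulo `m` has all terms zero. -/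
theorem h56s_sum_distinct_zero (v : AddValuation K (WithTop ℤ)) (m : ℕ) (y : Fin m → K)
    (hy : ∀ i : Fin m, y i = 0 ∨ ∃ n : ℤ, v (y i) = (((m : ℤ) * n + (i : ℕ) : ℤ) : WithTop ℤ))
    (h0 : ∑ i, y i = 0) (i : Fin m) : y i = 0 := by
  by_contra hne
  obtain ⟨n, hn⟩ := (hy i).resolve_left hne
  have hB := h56s_sum_distinct v m y hy ((m : ℤ) * n + (i : ℕ) + 1)
    (by rw [h0, AddValuation.map_zero]; exact le_top) i
  rw [hn, WithTop.coe_le_coe] at hB
  omega

/-- **expansion in the basis `1, t, .., t^(m-1)`** of `κ` over `k(h)`, with the integrality of the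
coefficients of the elements of non-negative value. -/
theorem h56s_expand (v : AddValuation K (WithTop ℤ))
    (hvk : ∀ c : k, c ≠ 0 → v (algebraMap k K c) = 0) (h t : K) (m : ℕ) (hm : 0 < m)
    (hvh : v h = ((-(m : ℤ) : ℤ) : WithTop ℤ)) (hvt : v t = ((1 : ℤ) : WithTop ℤ))
    (κ : Set K) (htκ : ∀ i : ℕ, t ^ i ∈ κ)
    (hdeg : ∀ x : Fin (m + 1) → K, (∀ i, x i ∈ κ) →
      ¬ LinearIndependent (IntermediateField.adjoin k {h}) x)
    (φ : K) (hφ : φ ∈ κ) :
    ∃ a : Fin m → K, (∀ i, a i ∈ IntermediateField.adjoin k {h}) ∧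
      φ = ∑ i, a i * t ^ (i : ℕ) ∧
      ((0 : WithTop ℤ) ≤ v φ → ∀ i, (0 : WithTop ℤ) ≤ v (a i)) := by
  classical
  have ht0 : t ≠ 0 := by
    intro h0
    rw [h0, AddValuation.map_zero] at hvt
    exact WithTop.coe_ne_top hvt.symm
  -- values of the terms
  have hterm : ∀ (b : Fin m → K), (∀ i, b i ∈ IntermediateField.adjoin k {h}) →
      ∀ i : Fin m, b i * t ^ (i : ℕ) = 0 ∨
        ∃ n : ℤ, v (b i * t ^ (i : ℕ)) = (((m : ℤ) * n + (i : ℕ) : ℤ) : WithTop ℤ) := by
    intro b hb i
    by_cases hbi : b i = 0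
    · left; rw [hbi, zero_mul]
    · right
      obtain ⟨n, hn⟩ := h56s_val_adjoin v hvk h m hm hvh (b i) (hb i) hbi
      refine ⟨n, ?_⟩
      rw [AddValuation.map_mul, AddValuation.map_pow, hn, hvt, ← WithTop.coe_nsmul,
        ← WithTop.coe_add]
      congr 1
      rw [nsmul_eq_mul, mul_one]
  set x : Fin (m + 1) → K := Fin.cons φ (fun i : Fin m => t ^ (i : ℕ)) with hx
  have hxκ : ∀ i, x i ∈ κ := by
    intro i
    refine Fin.cases ?_ ?_ i
    · rw [hx, Fin.cons_zero]; exact hφ
    · intro j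
      rw [hx, Fin.cons_succ]; exact htκ _
  obtain ⟨g, hg, hgne⟩ := Fintype.not_linearIndependent_iff.mp (hdeg x hxκ)
  rw [Fin.sum_univ_succ] at hg
  have hx0 : x 0 = φ := by rw [hx, Fin.cons_zero]
  have hxs : ∀ i : Fin m, x i.succ = t ^ (i : ℕ) := fun i => by rw [hx, Fin.cons_succ]
  simp only [hx0, hxs] at hg
  have hsm : ∀ (c : ↥(IntermediateField.adjoin k {h})) (z : K), c • z = (c : K) * z :=
    fun c z => rfl
  simp only [hsm] at hg
  have hg0 : g 0 ≠ 0 := by
    intro h0
    rw [h0] at hg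
    simp only [ZeroMemClass.coe_zero, zero_mul, zero_add] at hg
    have hall := h56s_sum_distinct_zero v m (fun i => (g i.succ : K) * t ^ (i : ℕ))
      (hterm (fun i => (g i.succ : K)) (fun i => (g i.succ).2)) hg
    obtain ⟨i, hi⟩ := hgne
    apply hi
    revert hi
    refine Fin.cases ?_ ?_ i
    · intro _; exact h0
    · intro j _
      have := hall j
      have hz : (g j.succ : K) = 0 := by
        rcases mul_eq_zero.mp this with h1 | h1
        · exact h1
        · exact absurd h1 (pow_ne_zero _ ht0)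
      exact Subtype.ext hz
  have hg0' : (g 0 : K) ≠ 0 := fun h0 => hg0 (Subtype.ext h0)
  set a : Fin m → K := fun i => -((g i.succ : K) / (g 0 : K)) with ha
  have haE : ∀ i, a i ∈ IntermediateField.adjoin k {h} := fun i =>
    neg_mem (div_mem (g i.succ).2 (g 0).2)
  have hφa : φ = ∑ i, a i * t ^ (i : ℕ) := by
    have h1 : (g 0 : K) * φ = -∑ i : Fin m, (g i.succ : K) * t ^ (i : ℕ) :=
      eq_neg_of_add_eq_zero_left hg
    have h2 : φ = (g 0 : K)⁻¹ * -∑ i : Fin m, (g i.succ : K) * t ^ (i : ℕ) := by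
      rw [← h1, inv_mul_cancel_left₀ hg0']
    rw [h2, mul_neg, Finset.mul_sum, ← Finset.sum_neg_distrib]
    refine Finset.sum_congr rfl (fun i _ => ?_)
    rw [ha]
    field_simp
  refine ⟨a, haE, hφa, ?_⟩
  intro hv i
  rw [hφa] at hv
  have hB := h56s_sum_distinct v m (fun i => a i * t ^ (i : ℕ)) (hterm a haE) 0
    (by exact_mod_cast hv) i
  by_cases hai : a i = 0
  · rw [hai, AddValuation.map_zero]; exact le_top
  · obtain ⟨n, hn⟩ := h56s_val_adjoin v hvk h m hm hvh (a i) (haE i) hai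
    have hB' : ((0 : ℤ) : WithTop ℤ) ≤ v (a i * t ^ (i : ℕ)) := hB
    rw [AddValuation.map_mul, AddValuation.map_pow, hn, hvt, ← WithTop.coe_nsmul,
      ← WithTop.coe_add, WithTop.coe_le_coe, nsmul_eq_mul, mul_one] at hB'
    rw [hn]
    have hi' : ((i : ℕ) : ℤ) < m := by exact_mod_cast i.2
    have hn0 : 0 ≤ n := by
      by_contra hneg
      have : n ≤ -1 := by omega
      nlinarith
    have : (0 : ℤ) ≤ (m : ℤ) * n := mul_nonneg (Int.natCast_nonneg m) hn0
    exact_mod_cast this

/-- `P(h) * h⁻¹ ^ n ∈ O` for `deg P ≤ n`, if `O ⊇ k` and `h⁻¹ ∈ O`. -/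
theorem h56s_aeval_mul_inv_pow_mem (O : ValuationSubring K)
    (hkO : ∀ c : k, algebraMap k K c ∈ O) (h : K) (h0 : h ≠ 0) (hinv : h⁻¹ ∈ O) (P : k[X])
    (n : ℕ) (hn : P.natDegree ≤ n) : aeval h P * h⁻¹ ^ n ∈ O := by
  rw [aeval_eq_sum_range, Finset.sum_mul]
  refine Subring.sum_mem O.toSubring ?_
  intro i hi
  have hin : i ≤ n := by
    have := Finset.mem_range.mp hi
    omega
  have h1 : h ^ i * h⁻¹ ^ n = h⁻¹ ^ (n - i) := by
    have : h⁻¹ ^ n = h⁻¹ ^ (n - i) * h⁻¹ ^ i := by rw [← pow_add, Nat.sub_add_cancel hin]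
    rw [this, mul_comm (h⁻¹ ^ (n - i)), ← mul_assoc, ← mul_pow, mul_inv_cancel₀ h0, one_pow,
      one_mul]
  rw [Algebra.smul_def, mul_assoc, h1]
  exact O.mul_mem _ _ (hkO _) (O.pow_mem hinv _)

/-- an element of `k(h)` of non-negative value lies in every valuation subring `O ⊇ k` in which
`h` has a pole. -/
theorem h56s_adjoin_mem (v : AddValuation K (WithTop ℤ))
    (hvk : ∀ c : k, c ≠ 0 → v (algebraMap k K c) = 0) (h : K) (m : ℕ) (hm : 0 < m)
    (hvh : v h = ((-(m : ℤ) : ℤ) : WithTop ℤ)) (O : ValuationSubring K)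
    (hkO : ∀ c : k, algebraMap k K c ∈ O) (hpole : h ∉ O) (a : K)
    (ha : a ∈ IntermediateField.adjoin k {h}) (hva : (0 : WithTop ℤ) ≤ v a) : a ∈ O := by
  by_cases ha0 : a = 0
  · rw [ha0]; exact O.zero_mem
  have h0 : h ≠ 0 := fun h0 => hpole (h0 ▸ O.zero_mem)
  have hinv : h⁻¹ ∈ O := (O.mem_or_inv_mem h).resolve_left hpole
  have hinvlt : O.valuation h⁻¹ < 1 := by
    have hle : O.valuation h⁻¹ ≤ 1 := (O.valuation_le_one_iff _).mpr hinv
    refine lt_of_le_of_ne hle ?_
    intro heq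
    apply hpole
    have : O.valuation h = 1 := by
      have := map_inv₀ O.valuation h
      rw [heq] at this
      exact inv_eq_one.mp this.symm
    exact (O.valuation_le_one_iff _).mp this.le
  obtain ⟨r, s, hrs⟩ := (IntermediateField.mem_adjoin_simple_iff k a).mp ha
  have hs0 : aeval h s ≠ 0 := by
    intro h0
    rw [h0, div_zero] at hrs
    exact ha0 hrs
  have hr0 : aeval h r ≠ 0 := by
    intro h0
    rw [h0, zero_div] at hrs
    exact ha0 hrs
  have hs : s ≠ 0 := by
    rintro rfl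
    exact hs0 (map_zero _)
  have hr : r ≠ 0 := by
    rintro rfl
    exact hr0 (map_zero _)
  -- degrees
  have hmul : a * aeval h s = aeval h r := by
    rw [hrs, div_mul_cancel₀ _ hs0]
  have hv : v a + v (aeval h s) = v (aeval h r) := by
    rw [← AddValuation.map_mul, hmul]
  rw [h56s_val_aeval v hvk h m hm hvh s hs, h56s_val_aeval v hvk h m hm hvh r hr] at hv
  have hatop : v a ≠ ⊤ := (AddValuation.ne_top_iff v).mpr ha0
  obtain ⟨z, hz⟩ := WithTop.ne_top_iff_exists.mp hatop
  rw [← hz] at hv hva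
  rw [← WithTop.coe_add, WithTop.coe_eq_coe] at hv
  have hz0 : (0 : ℤ) ≤ z := by exact_mod_cast hva
  have hdeg : r.natDegree ≤ s.natDegree := by
    have hm' : (0 : ℤ) < m := by exact_mod_cast hm
    have : (m : ℤ) * r.natDegree ≤ (m : ℤ) * s.natDegree := by linarith
    have := le_of_mul_le_mul_left this hm'
    exact_mod_cast this
  -- numerator and denominator, divided by `h ^ deg s`
  have hnum : aeval h r * h⁻¹ ^ s.natDegree ∈ O :=
    h56s_aeval_mul_inv_pow_mem O hkO h h0 hinv r _ hdeg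
  have hden : O.valuation (aeval h s * h⁻¹ ^ s.natDegree) = 1 := by
    have hsplit : aeval h s =
        algebraMap k K s.leadingCoeff * h ^ s.natDegree + aeval h s.eraseLead := by
      conv_lhs => rw [← eraseLead_add_C_mul_X_pow s]
      rw [map_add, map_mul, aeval_C, map_pow, aeval_X, add_comm]
    have hlead : algebraMap k K s.leadingCoeff * h ^ s.natDegree * h⁻¹ ^ s.natDegree =
        algebraMap k K s.leadingCoeff := by
      rw [mul_assoc, ← mul_pow, mul_inv_cancel₀ h0, one_pow, mul_one]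
    have hlc : O.valuation (algebraMap k K s.leadingCoeff) = 1 := by
      have hc0 : s.leadingCoeff ≠ 0 := leadingCoeff_ne_zero.mpr hs
      have h1 : O.valuation (algebraMap k K s.leadingCoeff) ≤ 1 :=
        (O.valuation_le_one_iff _).mpr (hkO _)
      have h2 : O.valuation (algebraMap k K s.leadingCoeff⁻¹) ≤ 1 :=
        (O.valuation_le_one_iff _).mpr (hkO _)
      rw [map_inv₀, map_inv₀] at h2
      have hne : O.valuation (algebraMap k K s.leadingCoeff) ≠ 0 := by
        rw [Valuation.ne_zero_iff]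
        exact fun h => hc0 ((map_eq_zero _).mp h)
      have h3 : 1 ≤ O.valuation (algebraMap k K s.leadingCoeff) :=
        (inv_le_one₀ (zero_lt_iff.mpr hne)).mp h2
      exact le_antisymm h1 h3
    rw [hsplit, add_mul, hlead]
    have hrest : O.valuation (aeval h s.eraseLead * h⁻¹ ^ s.natDegree) <
        O.valuation (algebraMap k K s.leadingCoeff) := by
      rw [hlc]
      by_cases he : s.eraseLead = 0
      · rw [he, map_zero, zero_mul, map_zero]
        exact zero_lt_one
      · have hdeg1 : 1 ≤ s.natDegree := by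
          by_contra hcon
          have h0' : s.natDegree = 0 := by omega
          apply he
          rw [eq_C_of_natDegree_eq_zero h0']
          exact eraseLead_C _
        have hmem := h56s_aeval_mul_inv_pow_mem O hkO h h0 hinv s.eraseLead
          (s.natDegree - 1) (eraseLead_natDegree_le s)
        have hpow : h⁻¹ ^ s.natDegree = h⁻¹ ^ (s.natDegree - 1) * h⁻¹ := by
          rw [← pow_succ, Nat.sub_add_cancel hdeg1]
        rw [hpow, ← mul_assoc, map_mul]
        calc O.valuation (aeval h s.eraseLead * h⁻¹ ^ (s.natDegree - 1)) * O.valuation h⁻¹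
            ≤ 1 * O.valuation h⁻¹ := by
              gcongr
              exact (O.valuation_le_one_iff _).mpr hmem
          _ = O.valuation h⁻¹ := one_mul _
          _ < 1 := hinvlt
    rw [Valuation.map_add_eq_of_lt_left _ hrest, hlc]
  have hpow0 : h⁻¹ ^ s.natDegree ≠ 0 := pow_ne_zero _ (inv_ne_zero h0)
  have hfrac : a = (aeval h r * h⁻¹ ^ s.natDegree) / (aeval h s * h⁻¹ ^ s.natDegree) := by
    rw [hrs, mul_div_mul_right _ _ hpow0]
  rw [hfrac, ← O.valuation_le_one_iff, map_div₀, hden, div_one]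
  exact (O.valuation_le_one_iff _).mpr hnum

/-- **SYM-LITE.**  `κ` a subset of `K` containing the powers of `t`, with `[κ : k(h)] ≤ m`,
`v h = -m < 0`, `v t = 1`.  Every `φ ∈ κ` of non-negative value lies in every valuation subring
`O ⊇ k` of `K` in which `h` has a pole. -/
theorem h56s_symLite (v : AddValuation K (WithTop ℤ))
    (hvk : ∀ c : k, c ≠ 0 → v (algebraMap k K c) = 0) (h t : K) (m : ℕ) (hm : 0 < m)
    (hvh : v h = ((-(m : ℤ) : ℤ) : WithTop ℤ)) (hvt : v t = ((1 : ℤ) : WithTop ℤ))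
    (κ : Set K) (htκ : ∀ i : ℕ, t ^ i ∈ κ)
    (hdeg : ∀ x : Fin (m + 1) → K, (∀ i, x i ∈ κ) →
      ¬ LinearIndependent (IntermediateField.adjoin k {h}) x)
    (O : ValuationSubring K) (hkO : ∀ c : k, algebraMap k K c ∈ O) (hpole : h ∉ O)
    (φ : K) (hφ : φ ∈ κ) (hvφ : (0 : WithTop ℤ) ≤ v φ) : φ ∈ O := by
  classical
  -- `t ∈ O`
  have htO : t ∈ O := by
    by_contra htn
    obtain ⟨a, haE, hsum, hval⟩ := h56s_expand v hvk h t m hm hvh hvt κ htκ hdeg (t ^ m) (htκ m)
    have hvtm : (0 : WithTop ℤ) ≤ v (t ^ m) := by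
      rw [AddValuation.map_pow, hvt, ← WithTop.coe_nsmul]
      have : (0 : ℤ) ≤ m • (1 : ℤ) := by
        rw [nsmul_eq_mul, mul_one]; exact Int.natCast_nonneg m
      exact_mod_cast this
    have haO : ∀ i, a i ∈ O := fun i =>
      h56s_adjoin_mem v hvk h m hm hvh O hkO hpole (a i) (haE i) (hval hvtm i)
    have hgt : 1 < O.valuation t := by
      by_contra hle
      exact htn ((O.valuation_le_one_iff _).mp (not_lt.mp hle))
    have hlt : O.valuation (∑ i : Fin m, a i * t ^ (i : ℕ)) < O.valuation t ^ m := by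
      refine Valuation.map_sum_lt _ ?_ ?_
      · exact pow_ne_zero _ (ne_of_gt (lt_trans zero_lt_one hgt))
      · intro i _
        rw [map_mul, map_pow]
        calc O.valuation (a i) * O.valuation t ^ (i : ℕ)
            ≤ 1 * O.valuation t ^ (i : ℕ) := by
              gcongr
              exact (O.valuation_le_one_iff _).mpr (haO i)
          _ = O.valuation t ^ (i : ℕ) := one_mul _
          _ < O.valuation t ^ m := pow_lt_pow_right₀ hgt i.2
    rw [← hsum, map_pow] at hlt
    exact lt_irrefl _ hlt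
  obtain ⟨a, haE, hsum, hval⟩ := h56s_expand v hvk h t m hm hvh hvt κ htκ hdeg φ hφ
  rw [hsum]
  refine Subring.sum_mem O.toSubring ?_
  intro i _
  exact O.mul_mem _ _
    (h56s_adjoin_mem v hvk h m hm hvh O hkO hpole (a i) (haE i) (hval hvφ i))
    (O.pow_mem htO _)

end SymLite

end Fermat.Agent.P7
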