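import Fermat.Agent.P7.H66S0Iface
import Fermat.Agent.P7.H56SymLite
import Fermat.Agent.P7.H56ResDeg
import Fermat.Agent.Red.HKComm.Deg
import Fermat.Agent.Red.GV.SoftGal
import Fermat.Agent.S28.RAsm

/-!
# Wave 7 (S44), DLOG at a non-good level, row H2-S0 leaf (B) RES-INEQ (helper56, prefix `h56s_`)

`h56s_resIneq : H66sResIneq` (frozen Prop of `P7/H66S0Iface.lean`, helper66): at EVERY level `M`
(no hypothesis on `p ∣ M` is used), a family of Gauss-integral functions of level `M` whose
reductions are linearly independent over `k(j̄)` has at most `ψ(M) = [FF M : ℚ̄(j)]` members.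

Proof: the residue inequality `h56s_resdeg` (`P7/H56ResDeg.lean`) with `h = j`.
-/

set_option autoImplicit false
set_option linter.unusedSectionVars false
set_option linter.unusedVariables false
set_option linter.style.longLine false
set_option linter.style.haveILetI false

open AlgebraicCurve ModularCurve Polynomial

noncomputable section

namespace Fermat.Agent.P7

open Fermat.Agent.S37 Fermat.Agent.Red.GV Fermat.Agent.Red.GV.Soft Fermat.Agent.Red.Desc
open Fermat.Agent.S21.C1

section ResIneq

variable (A : ValuationSubring Kbar)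

/-- `j̄` is transcendental over `k`, polynomial form. -/
theorem h56s_jK_transc (k : Type) [Field k] (P : k[X]) (hP : aeval (jK k) P = 0) : P = 0 := by
  by_contra hP0
  have hvk : ∀ c : k, c ≠ 0 →
      HahnSeries.addVal ℤ k (algebraMap k (LaurentSeries k) c) = 0 := by
    intro c hc
    have hne : HahnSeries.C c ≠ (0 : LaurentSeries k) := by
      intro h0
      apply hc
      have := congrArg (fun s : LaurentSeries k => s.coeff 0) h0
      simpa using this
    have e : algebraMap k (LaurentSeries k) c = HahnSeries.C c := by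
      rw [algebraMap_laurentSeries_eq_single]
      rfl
    rw [e, HahnSeries.addVal_apply, ← HahnSeries.order_eq_orderTop_of_ne_zero hne,
      HahnSeries.order_C]
    rfl
  have hj0 : jK k ≠ 0 := by
    intro h0
    have h1 := Fermat.Agent.S28.Asm.order_jqModC' k
    have h2 : (jK k).order = -1 := h1
    rw [h0, HahnSeries.order_zero] at h2
    omega
  have hvh : HahnSeries.addVal ℤ k (jK k) = ((-((1 : ℕ) : ℤ) : ℤ) : WithTop ℤ) := by
    rw [HahnSeries.addVal_apply, ← HahnSeries.order_eq_orderTop_of_ne_zero hj0]
    have h2 : (jK k).order = -1 := Fermat.Agent.S28.Asm.order_jqModC' k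
    rw [h2]
    rfl
  have h1 := h56s_val_aeval (HahnSeries.addVal ℤ k) hvk (jK k) 1 one_pos hvh P hP0
  rw [hP, AddValuation.map_zero] at h1
  exact WithTop.coe_ne_top h1.symm

/-- **(B) RES-INEQ** (frozen Prop `H66sResIneq`). -/
theorem h56s_resIneq : H66sResIneq := by
  intro p hp M _ hM A hA n c hli
  classical
  by_contra hn
  have hlt : dedekindPsi M + 1 ≤ n := by omega
  set m : ℕ := dedekindPsi M with hm
  -- the sub-family
  have hli' : LinearIndependent (h66sKj A)
      (fun i : Fin (m + 1) => softR A M (c (Fin.castLE hlt i))) :=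
    hli.comp (Fin.castLE hlt) (Fin.castLE_injective hlt)
  -- the data of the residue inequality
  have hjV : jB M ∈ softV A M := gaussV_le_softV A M (jB_mem_gaussV A M)
  have hjred : softR A M ⟨jB M, hjV⟩ = jK (IsLocalRing.ResidueField A) := by
    rw [softR_eq_gaussR A M (jB M) hjV (jB_mem_gaussV A M)]
    exact gaussR_jB A M
  have hcst : ∀ a : A, ∃ ha : algebraMap Kbar (FF M) (a : Kbar) ∈ softV A M,
      softR A M ⟨algebraMap Kbar (FF M) (a : Kbar), ha⟩ =
        algebraMap (IsLocalRing.ResidueField A) (LaurentSeries (IsLocalRing.ResidueField A))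
          (IsLocalRing.residue A a) := by
    intro a
    have ha : cst M (a : Kbar) ∈ softV A M := (cst_mem_softV_iff A M (a : Kbar)).mpr a.2
    refine ⟨ha, ?_⟩
    have e : algebraMap (IsLocalRing.ResidueField A)
        (LaurentSeries (IsLocalRing.ResidueField A)) (IsLocalRing.residue A a)
        = HahnSeries.C (IsLocalRing.residue A a) := by
      rw [algebraMap_laurentSeries_eq_single]
      rfl
    rw [e]
    exact softR_cst A M a ha
  haveI : FiniteDimensional (IntermediateField.adjoin Kbar {jB M}) (FF M) :=
    Fermat.Agent.Red.HKMod.finiteDimensional_jBar M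
  have hfin : Module.finrank (IntermediateField.adjoin Kbar {jB M}) (FF M) ≤ m :=
    le_of_eq (Fermat.Agent.Red.HKComm.hkdeg_finrank_jBar M)
  have hrel : ∀ y : Fin (m + 1) → FF M, ∃ P : Fin (m + 1) → Kbar[X], P ≠ 0 ∧
      ∑ i, aeval (jB M) (P i) * y i = 0 := fun y => h56s_rel_of_finrank (jB M) m hfin y
  have hdep := h56s_resdeg (K := Kbar) (F := FF M) (k := IsLocalRing.ResidueField A)
    (L := LaurentSeries (IsLocalRing.ResidueField A))
    (K' := LaurentSeries (IsLocalRing.ResidueField A)) A (IsLocalRing.residue A)
    (softV A M) (softR A M) hcst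
    (AlgHom.id (IsLocalRing.ResidueField A) (LaurentSeries (IsLocalRing.ResidueField A)))
    (fun _ _ h => h) ⟨jB M, hjV⟩ m hrel (jK (IsLocalRing.ResidueField A)) hjred.symm
    (h56s_jK_transc (IsLocalRing.ResidueField A))
    (fun i : Fin (m + 1) => softR A M (c (Fin.castLE hlt i))) (fun i => ⟨_, rfl⟩)
  exact hdep hli'

end ResIneq

end Fermat.Agent.P7
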