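import Fermat.Agent.P7.H56SymLite
import Fermat.Agent.P7.H56ResDeg
import Fermat.Agent.P7.H26DlogGapLevel
import Fermat.Agent.Red.GV.SoftGal
import Fermat.Agent.Red.HKMod
import Fermat.Agent.P5.H13GBase
import Fermat.Agent.P5.H68RROneStep

/-!
# Wave 7 (S44), DLOG at a non-good level: SYM-LITE at the level (helper56, prefix `h56s_`)

Row `H2-SYMLITE` of the board, leaf (2) of finding 1473 (paper proof: finding 1461 (S1) + (S3)).

`A` a valuation subring of `ℚ̄`, `k = h13sK A`, `M ∣ M₊` two levels, `κ(M) = ` the image of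
`softR A M` in `k((q))`, `kC(M₊) = h13sFt A M₊ ⊆ k((q))`.  `h ∈ softV A M` an EXACT function:
`[FF M : ℚ̄(h)] ≤ m` and `ord_q (softR h) = -m < 0`.

* `h56s_symLite_level` : every `φ ∈ kC(M₊)` whose expansion lies in `κ(M)` and has order `≥ 0` is
  regular at every place `Q` of `kC(M₊)` at which the reduction of `h` has a pole.
* `h56s_symLite_level_red` : the same for `φ = h13sRed A M₊ (degen y)`, `y ∈ softV A M`.
* `h56s_rel_of_pole` : the hypothesis `hrel` (`[FF M : ℚ̄(h)] ≤ m`) from "`h` has a single pole,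
  of order `m`".

No hypothesis on the levels is used (the good-level theory enters through the consumer: `Q = r c`,
`c` over `∞_M`, is a pole of the reduction of `h` by RED-DIV).
-/

set_option autoImplicit false
set_option linter.unusedSectionVars false
set_option linter.unusedVariables false
set_option linter.style.longLine false
set_option linter.style.haveILetI false

open AlgebraicCurve ModularCurve Polynomial

noncomputable section

namespace Fermat.Agent.P7

open Fermat.Agent.S37 Fermat.Agent.Red.GV Fermat.Agent.Red.GV.Soft Fermat.Agent.P5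

section Level

variable (A : ValuationSubring Kbar)

/-- the `q`-order, as an additive valuation of the special fibre field. -/
def h56sVal (N : ℕ) : AddValuation (h13sFt A N) (WithTop ℤ) :=
  (HahnSeries.addVal ℤ (h13sK A)).comap (h13sIncl A N).toRingHom

theorem h56sVal_apply (N : ℕ) (f : h13sFt A N) :
    h56sVal A N f = (h13sIncl A N f).orderTop := rfl

theorem h56sVal_of_ne_zero (N : ℕ) (f : h13sFt A N) (hf : h13sIncl A N f ≠ 0) :
    h56sVal A N f = (((h13sIncl A N f).order : ℤ) : WithTop ℤ) := by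
  rw [h56sVal_apply, HahnSeries.order_eq_orderTop_of_ne_zero hf]

theorem h56sVal_nonneg (N : ℕ) (f : h13sFt A N) (hf : 0 ≤ (h13sIncl A N f).order) :
    (0 : WithTop ℤ) ≤ h56sVal A N f := by
  by_cases h0 : h13sIncl A N f = 0
  · rw [h56sVal_apply, h0, HahnSeries.orderTop_zero]
    exact le_top
  · rw [h56sVal_of_ne_zero A N f h0]
    exact_mod_cast hf

theorem h56sVal_const (N : ℕ) (c : h13sK A) (hc : c ≠ 0) :
    h56sVal A N (algebraMap (h13sK A) (h13sFt A N) c) = 0 := by
  have e : (h13sIncl A N) (algebraMap (h13sK A) (h13sFt A N) c) =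
      algebraMap (h13sK A) (LaurentSeries (h13sK A)) c := (h13sIncl A N).commutes c
  have hne : HahnSeries.C c ≠ (0 : LaurentSeries (h13sK A)) := by
    intro h0
    apply hc
    have := congrArg (fun s : LaurentSeries (h13sK A) => s.coeff 0) h0
    simpa using this
  rw [h56sVal_apply, e, h40f_algebraMap_eq, ← HahnSeries.order_eq_orderTop_of_ne_zero hne,
    HahnSeries.order_C]
  rfl

/-- `1 / j` is Gauss-integral at every level, with reduction `1 / j̄`. -/
theorem h56s_jinv (N : ℕ) [NeZero N] :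
    ∃ hj : (jB N)⁻¹ ∈ softV A N,
      softR A N ⟨(jB N)⁻¹, hj⟩ = (jqModC (IsLocalRing.ResidueField A))⁻¹ := by
  have hj : jB N ∈ softV A N := gaussV_le_softV A N (jB_mem_gaussV A N)
  have hred : softR A N ⟨jB N, hj⟩ = jqModC (IsLocalRing.ResidueField A) := by
    rw [softR_eq_gaussR A N (jB N) hj (jB_mem_gaussV A N)]
    exact gaussR_jB A N
  have hne : jqModC (IsLocalRing.ResidueField A) ≠ 0 := by
    intro h0
    have h1 := Fermat.Agent.S28.Asm.order_jqModC' (IsLocalRing.ResidueField A)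
    rw [h0, HahnSeries.order_zero] at h1
    omega
  have hne' : softR A N ⟨jB N, hj⟩ ≠ 0 := by rw [hred]; exact hne
  have hinv : (jB N)⁻¹ ∈ softV A N := ((softR_ne_zero_iff A N ⟨jB N, hj⟩).mp hne').2
  refine ⟨hinv, ?_⟩
  have hj0 : jB N ≠ 0 := ((softR_ne_zero_iff A N ⟨jB N, hj⟩).mp hne').1
  have hmul : (⟨(jB N)⁻¹, hinv⟩ : softV A N) * ⟨jB N, hj⟩ = 1 :=
    Subtype.ext (inv_mul_cancel₀ hj0)
  have h2 := congrArg (softR A N) hmul
  rw [map_mul, map_one, hred] at h2
  exact eq_inv_of_mul_eq_one_left h2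

/-- **SYM-LITE at the level** (row `H2-SYMLITE`): `M ∣ M₊`, `h ∈ softV A M` with
`[FF M : ℚ̄(h)] ≤ m` (in the relation form `hrel`) and `ord_q (softR h) = -m < 0`; `Q` a place of
the special fibre field of level `M₊` at which the reduction `h̄` of `h` has a pole.  Then every
`φ` of the special fibre field of level `M₊` whose expansion is the reduction of a Gauss-integral
function of level `M` and has `q`-order `≥ 0` is regular at `Q`. -/
theorem h56s_symLite_level (M Mp : ℕ) [NeZero M] [NeZero Mp]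
    (h : FF M) (hh : h ∈ softV A M) (m : ℕ) (hm : 0 < m)
    (hord : (softR A M ⟨h, hh⟩).order = -(m : ℤ))
    (hrel : ∀ y : Fin (m + 1) → FF M, ∃ P : Fin (m + 1) → Kbar[X], P ≠ 0 ∧
      ∑ i, aeval h (P i) * y i = 0)
    (Q : Place (h13sK A) (h13sFt A Mp))
    (hbar : h13sFt A Mp) (hhbar : h13sIncl A Mp hbar = softR A M ⟨h, hh⟩)
    (hpole : Q.ord hbar < 0)
    (φ : h13sFt A Mp) (hφ : h13sIncl A Mp φ ∈ Set.range (softR A M))
    (hφ0 : 0 ≤ (h13sIncl A Mp φ).order) : 0 ≤ Q.ord φ := by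
  classical
  -- the valuation and the basic values
  have hvk : ∀ c : h13sK A, c ≠ 0 →
      h56sVal A Mp (algebraMap (h13sK A) (h13sFt A Mp) c) = 0 := h56sVal_const A Mp
  have hhne : softR A M ⟨h, hh⟩ ≠ 0 := by
    intro h0
    rw [h0, HahnSeries.order_zero] at hord
    omega
  have hhord : (h13sIncl A Mp hbar).order = -(m : ℤ) := by
    rw [hhbar]
    exact hord
  have hvh : h56sVal A Mp hbar = ((-(m : ℤ) : ℤ) : WithTop ℤ) := by
    rw [h56sVal_of_ne_zero A Mp hbar (by rw [hhbar]; exact hhne), hhord]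
  -- the parameter `t = 1 / j̄`
  obtain ⟨hjM, hjMred⟩ := h56s_jinv A M
  have hJ : h13sIncl A Mp (h26sJ A Mp) = jqModC (IsLocalRing.ResidueField A) :=
    h26g_incl_j A Mp
  have hJne : jqModC (IsLocalRing.ResidueField A) ≠ 0 := by
    intro h0
    have h1 := Fermat.Agent.S28.Asm.order_jqModC' (IsLocalRing.ResidueField A)
    rw [h0, HahnSeries.order_zero] at h1
    omega
  have htincl : h13sIncl A Mp (h26sJ A Mp)⁻¹ = (jqModC (IsLocalRing.ResidueField A))⁻¹ := by
    rw [map_inv₀, hJ]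
    rfl
  have hvt : h56sVal A Mp (h26sJ A Mp)⁻¹ = ((1 : ℤ) : WithTop ℤ) := by
    have hne : h13sIncl A Mp (h26sJ A Mp)⁻¹ ≠ 0 := by
      rw [htincl]; exact inv_ne_zero hJne
    rw [h56sVal_of_ne_zero A Mp _ hne]
    have h1 := h26g_order_map_inv (h26gIota A Mp) (h26sJ A Mp)
    have h2 : (h26gIota A Mp (h26sJ A Mp)).order = -1 := by
      rw [h26gIota_apply, h26g_incl_j]
      exact Fermat.Agent.S28.Asm.order_jqModC' _
    rw [h2] at h1
    have h3 : (h13sIncl A Mp (h26sJ A Mp)⁻¹).order = 1 := by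
      rw [← h26gIota_apply, h1]
      norm_num
    rw [h3]
  -- the residue field of the level `M`
  set κ : Set (h13sFt A Mp) := {ψ | h13sIncl A Mp ψ ∈ Set.range (softR A M)} with hκ
  have htκ : ∀ i : ℕ, (h26sJ A Mp)⁻¹ ^ i ∈ κ := by
    intro i
    refine ⟨⟨(jB M)⁻¹, hjM⟩ ^ i, ?_⟩
    rw [map_pow, hjMred, map_pow, htincl]
    rfl
  -- transcendence of `h̄`
  have htr : ∀ P : (h13sK A)[X], aeval hbar P = 0 → P = 0 := by
    intro P hP
    by_contra hP0
    have h1 := h56s_val_aeval (h56sVal A Mp) hvk hbar m hm hvh P hP0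
    rw [hP, AddValuation.map_zero] at h1
    exact WithTop.coe_ne_top h1.symm
  -- the residue inequality
  have hcst : ∀ a : A, ∃ ha : algebraMap Kbar (FF M) (a : Kbar) ∈ softV A M,
      softR A M ⟨algebraMap Kbar (FF M) (a : Kbar), ha⟩ =
        algebraMap (h13sK A) (LaurentSeries (h13sK A)) (h13sPi A a) := by
    intro a
    have ha : cst M (a : Kbar) ∈ softV A M := (cst_mem_softV_iff A M (a : Kbar)).mpr a.2
    refine ⟨ha, ?_⟩
    rw [h40f_algebraMap_eq]
    exact softR_cst A M a ha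
  have hdeg : ∀ x : Fin (m + 1) → h13sFt A Mp, (∀ i, x i ∈ κ) →
      ¬ LinearIndependent (IntermediateField.adjoin (h13sK A) {hbar}) x := by
    intro x hx
    exact h56s_resdeg (K := Kbar) (F := FF M) (k := h13sK A) (L := LaurentSeries (h13sK A))
      (K' := h13sFt A Mp) A (h13sPi A) (softV A M) (softR A M) hcst (h13sIncl A Mp)
      (h13sIncl A Mp).toRingHom.injective ⟨h, hh⟩ m hrel hbar hhbar htr x hx
  -- SYM-LITE
  have hpole' : hbar ∉ Q.toValuationSubring := by
    intro hmem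
    have := h68r_ord_nonneg_of_mem Q hmem
    omega
  have hmem : φ ∈ Q.toValuationSubring :=
    h56s_symLite (h56sVal A Mp) hvk hbar (h26sJ A Mp)⁻¹ m hm hvh hvt κ htκ hdeg
      Q.toValuationSubring (fun c => Q.algebraMap_mem' c) hpole' φ hφ
      (h56sVal_nonneg A Mp φ hφ0)
  exact h68r_ord_nonneg_of_mem Q hmem

/-- the expansion of the reduction at the level `M₊` of a function of level `M`. -/
theorem h56s_incl_red_degen {M Mp : ℕ} [NeZero M] [NeZero Mp] (hd : M ∣ Mp)
    (y : FF M) (hy : y ∈ softV A M) (hyp : degen hd y ∈ gaussV A Mp) :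
    h13sIncl A Mp (h13sRed A Mp ⟨degen hd y, hyp⟩) = softR A M ⟨y, hy⟩ := by
  rw [h13sIncl_red]
  have h1 : degen hd y ∈ softV A Mp := gaussV_le_softV A Mp hyp
  rw [← softR_eq_gaussR A Mp (degen hd y) h1 hyp]
  exact softR_degen A hd ⟨y, hy⟩ h1

/-- **SYM-LITE at the level, reduction form**: `y ∈ softV A M` with `0 ≤ ord_q (softR y)`: the
reduction of `degen y` at the level `M₊` is regular at every pole `Q` of the reduction of
`degen h`. -/
theorem h56s_symLite_level_red {M Mp : ℕ} [NeZero M] [NeZero Mp] (hd : M ∣ Mp)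
    (h : FF M) (hh : h ∈ softV A M) (m : ℕ) (hm : 0 < m)
    (hord : (softR A M ⟨h, hh⟩).order = -(m : ℤ))
    (hrel : ∀ y : Fin (m + 1) → FF M, ∃ P : Fin (m + 1) → Kbar[X], P ≠ 0 ∧
      ∑ i, aeval h (P i) * y i = 0)
    (Q : Place (h13sK A) (h13sFt A Mp))
    (hhp : degen hd h ∈ gaussV A Mp)
    (hpole : Q.ord (h13sRed A Mp ⟨degen hd h, hhp⟩) < 0)
    (y : FF M) (hy : y ∈ softV A M) (hyp : degen hd y ∈ gaussV A Mp)
    (hy0 : 0 ≤ (softR A M ⟨y, hy⟩).order) :
    0 ≤ Q.ord (h13sRed A Mp ⟨degen hd y, hyp⟩) := by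
  refine h56s_symLite_level A M Mp h hh m hm hord hrel Q (h13sRed A Mp ⟨degen hd h, hhp⟩)
    (h56s_incl_red_degen A hd h hh hhp) hpole (h13sRed A Mp ⟨degen hd y, hyp⟩) ?_ ?_
  · rw [h56s_incl_red_degen A hd y hy hyp]
    exact ⟨⟨y, hy⟩, rfl⟩
  · rw [h56s_incl_red_degen A hd y hy hyp]
    exact hy0

/-- **SYM-LITE at the level, unit form**: a Gauss unit `y` of level `M` whose reduction has
`q`-order `0` reduces at the level `M₊` to a function without zero or pole at every pole `Q` of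
the reduction of `degen h`. -/
theorem h56s_symLite_level_unit {M Mp : ℕ} [NeZero M] [NeZero Mp] (hd : M ∣ Mp)
    (h : FF M) (hh : h ∈ softV A M) (m : ℕ) (hm : 0 < m)
    (hord : (softR A M ⟨h, hh⟩).order = -(m : ℤ))
    (hrel : ∀ y : Fin (m + 1) → FF M, ∃ P : Fin (m + 1) → Kbar[X], P ≠ 0 ∧
      ∑ i, aeval h (P i) * y i = 0)
    (Q : Place (h13sK A) (h13sFt A Mp))
    (hhp : degen hd h ∈ gaussV A Mp)
    (hpole : Q.ord (h13sRed A Mp ⟨degen hd h, hhp⟩) < 0)
    (y : FF M) (hy : y ∈ softV A M) (hyi : y⁻¹ ∈ softV A M)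
    (hyp : degen hd y ∈ gaussV A Mp) (hyip : degen hd y⁻¹ ∈ gaussV A Mp)
    (hy0 : (softR A M ⟨y, hy⟩).order = 0) :
    Q.ord (h13sRed A Mp ⟨degen hd y, hyp⟩) = 0 := by
  by_cases hy00 : y = 0
  · subst hy00
    have e : h13sRed A Mp ⟨degen hd 0, hyp⟩ = 0 := by
      apply (h13sIncl A Mp).toRingHom.injective
      show h13sIncl A Mp (h13sRed A Mp ⟨degen hd 0, hyp⟩) = h13sIncl A Mp 0
      rw [h56s_incl_red_degen A hd 0 hy hyp, map_zero]
      exact map_zero (softR A M)
    rw [e, Place.ord_zero]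
  have h1 := h56s_symLite_level_red A hd h hh m hm hord hrel Q hhp hpole y hy hyp (le_of_eq hy0.symm)
  -- the inverse
  have hmul : (⟨y⁻¹, hyi⟩ : softV A M) * ⟨y, hy⟩ = 1 := Subtype.ext (inv_mul_cancel₀ hy00)
  have hmulR := congrArg (softR A M) hmul
  rw [map_mul, map_one] at hmulR
  have hne1 : softR A M ⟨y⁻¹, hyi⟩ ≠ 0 := left_ne_zero_of_mul_eq_one hmulR
  have hne2 : softR A M ⟨y, hy⟩ ≠ 0 := right_ne_zero_of_mul_eq_one hmulR
  have hordi : (softR A M ⟨y⁻¹, hyi⟩).order = 0 := by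
    have h3 := HahnSeries.order_mul hne1 hne2
    rw [hmulR, HahnSeries.order_one, hy0, add_zero] at h3
    exact h3.symm
  have h2 := h56s_symLite_level_red A hd h hh m hm hord hrel Q hhp hpole y⁻¹ hyi hyip
    (le_of_eq hordi.symm)
  -- the two reductions are inverse to each other
  have hprod : h13sRed A Mp ⟨degen hd y⁻¹, hyip⟩ * h13sRed A Mp ⟨degen hd y, hyp⟩ = 1 := by
    apply (h13sIncl A Mp).toRingHom.injective
    show h13sIncl A Mp (h13sRed A Mp ⟨degen hd y⁻¹, hyip⟩ * h13sRed A Mp ⟨degen hd y, hyp⟩)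
      = h13sIncl A Mp 1
    rw [map_mul, h56s_incl_red_degen A hd y⁻¹ hyi hyip, h56s_incl_red_degen A hd y hy hyp,
      map_one]
    exact hmulR
  have hinv : h13sRed A Mp ⟨degen hd y⁻¹, hyip⟩ = (h13sRed A Mp ⟨degen hd y, hyp⟩)⁻¹ :=
    eq_inv_of_mul_eq_one_left hprod
  rw [hinv, Place.ord_inv] at h2
  omega

/-- the hypothesis `hrel` of SYM-LITE from "`h` has a single pole, of order `m`":
`[FF M : ℚ̄(h)] = m` by the fundamental identity. -/
theorem h56s_rel_of_pole (M : ℕ) [NeZero M] (h : FF M) (m : ℕ) (hm : 0 < m)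
    (v : Place Kbar (FF M)) (hv : v.ord h = -(m : ℤ))
    (hreg : ∀ w : Place Kbar (FF M), w ≠ v → 0 ≤ w.ord h) (y : Fin (m + 1) → FF M) :
    ∃ P : Fin (m + 1) → Kbar[X], P ≠ 0 ∧ ∑ i, aeval h (P i) * y i = 0 := by
  have htr : Transcendental Kbar h :=
    Fermat.Agent.S24.DiffPlace.transcendental_of_ord_ne_zero v (by rw [hv]; omega)
  haveI : FiniteDimensional (IntermediateField.adjoin Kbar {h}) (FF M) :=
    Fermat.Agent.Red.HKMod.finiteDimensional_adjoin_FF M h htr
  have hZ : H13rZeros Kbar (FF M) h := h13g_zeros (K := Kbar) (F := FF M) h htr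
  obtain ⟨s, hs, hsum⟩ := hZ h⁻¹ (Or.inr rfl)
  have hs' : s = {v} := by
    ext w
    rw [hs, Finset.mem_singleton, Place.ord_inv]
    constructor
    · intro hw
      by_contra hne
      have := hreg w hne
      omega
    · rintro rfl
      rw [hv]
      omega
  rw [hs', Finset.sum_singleton, Place.ord_inv, hv, neg_neg] at hsum
  have hfin : Module.finrank (IntermediateField.adjoin Kbar {h}) (FF M) ≤ m := by
    have : ((Module.finrank (IntermediateField.adjoin Kbar {h}) (FF M) : ℕ) : ℤ) = (m : ℤ) :=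
      hsum.symm
    omega
  exact h56s_rel_of_finrank h m hfin y

end Level

end Fermat.Agent.P7
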