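import Fermat.Agent.P7.H57SymTr
import Fermat.Agent.P7.H93QInt

/-!
# Wave 7 (S44), DLOG at the non-good level, ORTH(M): the CORRECTED unit (helper57, prefix `h57c_`)

`N ∣ M`, `M` a good level for `p`, `A` over `p`, `r` the reduction map of places of level `M`
(`H13sIsRed A M r`), `voo` / `w₀` the `q`-order places of `FF M` / `FF N`, and (S2) in the form
`hoo : (r voo).ord f = ord_q f` on the special fibre.

For a Gauss unit `y` of level `N` with `ord_q (softR y) = 0` there is a Gauss unit `g` of level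
`N` with the SAME reduction and with NO zero and NO pole on the residue disc of `w₀`
(`{w | SameRed A w w₀}`); hence `degen g` has no zero and no pole in any class `r ⁻¹ (r c)`,
`c` a place over `w₀`.  (`g = y / y₁`, `y₁ = ∏ (1 - a_w j) ^ (ord_w y)` over the zeros and poles
`w` of `y` on the disc, `a_w = (1/j)(w) ∈ 𝔪_A`.)

This replaces, in the plan of finding 1473, the exact SEMI lift at the good level, its norm and
the full residue degree (S0): `g⁺ := degen g`, `Nm g⁺ = g ^ d`.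

* `h57c_ord_mass` : explicit form of `h57s_ord`.
* `h57c_fibre_le` : `1/j - a` (`a ∈ 𝔪_A`) has at most one zero on the fibre of `voo`, and it is
  simple.
* `h57c_exists_over` : every place of the disc of `w₀` lies under a place of the fibre of `voo`.
* `h57c_ord_phi` : the orders of `1 - a_w j` on the disc.
* `h57c_corr`, `h57c_corr_degen` : the corrected unit.

Every declaration is a proved theorem or a definition; nothing is assumed.
-/

set_option autoImplicit false
set_option linter.unusedSectionVars false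
set_option linter.unusedVariables false
set_option linter.style.haveILetI false

open AlgebraicCurve ModularCurve IsLocalRing

noncomputable section

namespace Fermat.Agent.P7

open Fermat.Agent.S37 Fermat.Agent.S37.GalI Fermat.Agent.Jac.K1 Fermat.Agent.Red.HKMod
  Fermat.Agent.Red.CH0
open Fermat.Agent.Red.GV Fermat.Agent.Red.GV.Soft Fermat.Agent.P5

variable {p : ℕ} {N M : ℕ} [NeZero N] [NeZero M] {A : ValuationSubring Kbar}

/-! ### Part 0: the explicit mass formula -/

/-- **explicit form of `h57s_ord`**: the order of the reduction of `π y` at `r c` is the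
multiplicity of `c` times the mass of `div y` on the disc of the place below `c`. -/
theorem h57c_ord_mass (h : N ∣ M) (hp : p.Prime) (hM : ¬ p ∣ M) (hA : A.LiesOverPrime p)
    {r : Place Kbar (FF M) → Place (h13sK A) (h13sFt A M)} (hr : H13sIsRed A M r)
    {y : FF N} (hy0 : y ≠ 0) (hy : y ∈ softV A N) (hyi : y⁻¹ ∈ softV A N)
    (D : Divisor Kbar (FF N)) (hD : ∀ v : Place Kbar (FF N), D v = v.ord y)
    (w₀ : Place Kbar (FF N)) (c : Place Kbar (FF M))
    (hc : c.restrictAlong (degen h) (isIntegral_degen h) = w₀)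
    (hd : degen h y ∈ gaussV A M) :
    (r c).ord (h13sRed A M ⟨degen h y, hd⟩) = h57sMult h r c * h57sMass A w₀ D := by
  classical
  haveI := Fermat.Agent.Red.HKMod.hasPrincipalDivisors_FF M
  have hdi : (degen h y)⁻¹ ∈ gaussV A M := by
    rw [← map_inv₀]
    exact softV_le_gaussV A M hp hM hA ((degen_mem_softV_iff A h _).mpr hyi)
  have h1 := h60r_push_div_unit hr hd hdi (D := h57pPull h D)
    (fun v => h57p_pull_div_fun h hD v) (r c)
  rw [← h1]
  have h2 : D = (h57sIn A w₀ D - h57sMass A w₀ D • Finsupp.single w₀ (1 : ℤ)) +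
      h57sMass A w₀ D • Finsupp.single w₀ (1 : ℤ) + h57sOut A w₀ D := by
    rw [sub_add_cancel, h57s_in_add_out]
  have h3 : h60rPush r (h57pPull h
      (h57sIn A w₀ D - h57sMass A w₀ D • Finsupp.single w₀ (1 : ℤ))) = 0 :=
    h60r_push_eq_zero_of_mem hr (h57p_pull_mem_redKer h A (h57s_in_sub_mem w₀ D))
  have h4 : h60rPush r (h57pPull h (h57sOut A w₀ D)) (r c) = 0 := by
    rw [h60r_push_apply]
    refine h57k_push_eq_zero_of_fibre _ _ fun v hv => ?_
    have hs : SameRed A v c := (hr.2.1 v c).mp hv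
    have hs' := h69w_restrict_sameRed A (degen h) (isIntegral_degen h) (degen_jBar h) hs
    rw [hc] at hs'
    show Divisor.pullbackAlong (degen h) (isIntegral_degen h) _ v = 0
    rw [Divisor.pullbackAlong_apply, h57s_out_apply_of_sameRed D hs', mul_zero]
  conv_lhs => rw [h2]
  rw [map_add, map_add, map_add, map_add, h3, zero_add, Finsupp.add_apply, h4, add_zero,
    map_zsmul, map_zsmul, Finsupp.smul_apply, smul_eq_mul, mul_comm]
  unfold h57sMult
  rw [hc]

/-- **the mass on the disc of `w₀` vanishes** when the reduction has `q`-order `0`. -/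
theorem h57c_mass_zero (h : N ∣ M) (hp : p.Prime) (hM : ¬ p ∣ M) (hA : A.LiesOverPrime p)
    {r : Place Kbar (FF M) → Place (h13sK A) (h13sFt A M)} (hr : H13sIsRed A M r)
    (voo : Place Kbar (FF M))
    (hoo : ∀ f : h13sFt A M, f ≠ 0 → (r voo).ord f = (h13sIncl A M f).order)
    {y : FF N} (hy0 : y ≠ 0) (hy : y ∈ softV A N) (hyi : y⁻¹ ∈ softV A N)
    (hord : (softR A N ⟨y, hy⟩).order = 0)
    (D : Divisor Kbar (FF N)) (hD : ∀ v : Place Kbar (FF N), D v = v.ord y) :
    h57sMass A (voo.restrictAlong (degen h) (isIntegral_degen h)) D = 0 := by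
  have hd : degen h y ∈ gaussV A M :=
    softV_le_gaussV A M hp hM hA ((degen_mem_softV_iff A h _).mpr hy)
  have h1 := h57c_ord_mass h hp hM hA hr hy0 hy hyi D hD _ voo rfl hd
  rw [hoo _ (h57s_red_ne_zero h hp hM hA hy0 hy hyi hd), h57s_incl_red h hp hM hA hy hd] at h1
  have h1' : h57sMult h r voo *
      h57sMass A (voo.restrictAlong (degen h) (isIntegral_degen h)) D = 0 :=
    h1.symm.trans hord
  rcases mul_eq_zero.mp h1' with h2 | h2
  · exact absurd h2 (h57s_mult_pos h r voo).ne'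
  · exact h2

/-! ### Part 1: the fibre of `voo` at the good level -/

section Fibre

/-- `1/j - a`, `a ∈ 𝔪_A`, is a Gauss unit with the reduction of `1/j`. -/
theorem h57c_tau_unit (hp : p.Prime) (hM : ¬ p ∣ M) (hA : A.LiesOverPrime p)
    (a : Kbar) (ha : a ∈ A.nonunits) :
    ∃ hτ : (jB M)⁻¹ - cst M a ∈ gaussV A M, (jB M)⁻¹ - cst M a ≠ 0 ∧
      ((jB M)⁻¹ - cst M a)⁻¹ ∈ gaussV A M ∧
      h13sRed A M ⟨_, hτ⟩ = h13sRed A M ⟨(jB M)⁻¹, jB_inv_mem_gaussV A M hp hM hA⟩ := by
  have hj0 : jB M ≠ 0 := h93q_jB_ne_zero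
  have hji : (jB M)⁻¹ ∈ gaussV A M := jB_inv_mem_gaussV A M hp hM hA
  have hca : cst M a ∈ gaussV A M :=
    (cst_mem_gaussV_iff A M hA _).2 (nonunits_le A ha)
  have hτ : (jB M)⁻¹ - cst M a ∈ gaussV A M := sub_mem hji hca
  have hna : -a ∈ A.nonunits := neg_mem_nonunits A ha
  obtain ⟨hφ0, hφi⟩ := one_add_cst_mul_inv_mem_gaussV A M hp hM hA (-a) hna (jB M)
    (jB_mem_gaussV A M)
  have e : (jB M)⁻¹ - cst M a = (jB M)⁻¹ * (1 + cst M (-a) * jB M) := by
    rw [cst_neg]
    field_simp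
    ring
  refine ⟨hτ, ?_, ?_, h57k_red_sub_cst hp hM hA _ hji a ha hτ⟩
  · rw [e]
    exact mul_ne_zero (inv_ne_zero hj0) hφ0
  · rw [e, mul_inv, inv_inv]
    exact mul_mem (jB_mem_gaussV A M) hφi

variable (hp : p.Prime) (hM : ¬ p ∣ M) (hA : A.LiesOverPrime p)
  (r : Place Kbar (FF M) → Place (h13sK A) (h13sFt A M)) (hr : H13sIsRed A M r)
  (voo : Place Kbar (FF M))
  (hvoo : ∀ f : FF M, f ≠ 0 → voo.ord f = (f : LaurentSeries Kbar).order)
  (hoo : ∀ f : h13sFt A M, f ≠ 0 → (r voo).ord f = (h13sIncl A M f).order)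

include hr hvoo in
/-- `1/j - a` is regular on the fibre of `voo`. -/
theorem h57c_tau_ord_nonneg (a : Kbar) (h0 : (jB M)⁻¹ - cst M a ≠ 0)
    (v : Place Kbar (FF M)) (hv : r v = r voo) :
    0 ≤ v.ord ((jB M)⁻¹ - cst M a) :=
  (h85f_mem_iff_ord v h0).1
    (sub_mem (h93q_jinv_mem_of_not_fin (h93q_fibre_not_fin r hr voo hvoo v hv))
      (v.algebraMap_mem' a))

include hp hM hA hr hvoo hoo in
/-- **(S1)**: the orders of `1/j - a`, `a ∈ 𝔪_A`, on the fibre of `voo` sum to at most `1`. -/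
theorem h57c_fibre_le (a : Kbar) (ha : a ∈ A.nonunits)
    (S : Finset (Place Kbar (FF M))) (hS : ∀ v ∈ S, r v = r voo) :
    ∑ v ∈ S, v.ord ((jB M)⁻¹ - cst M a) ≤ 1 := by
  classical
  obtain ⟨hτ, hτ0, hτi, hred⟩ := h57c_tau_unit (M := M) hp hM hA a ha
  obtain ⟨D, hD, -⟩ := (h40r_base_FF (N := M)).pd _ hτ0
  have hRD := hr.2.2 _ hτ hτi D hD (r voo)
  have hred0 : h13sRed A M ⟨(jB M)⁻¹, jB_inv_mem_gaussV A M hp hM hA⟩ ≠ 0 := by
    intro h
    have h1 := h93q_red_jinv_order (N := M) (A := A) hp hM hA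
    rw [h, map_zero, HahnSeries.order_zero] at h1
    omega
  rw [hred, hoo _ hred0, h93q_red_jinv_order hp hM hA] at hRD
  have hnn : ∀ w, r w = r voo → 0 ≤ D w := by
    intro w hw
    rw [hD w]
    exact h57c_tau_ord_nonneg r hr voo hvoo a hτ0 w hw
  have h1 := h93q_sum_le_push r D (r voo) hnn S hS
  unfold h13sPush at hRD
  rw [hRD] at h1
  calc ∑ v ∈ S, v.ord ((jB M)⁻¹ - cst M a) = ∑ v ∈ S, D v :=
        Finset.sum_congr rfl fun v _ => (hD v).symm
    _ ≤ 1 := h1

include hp hM hA hr hvoo hoo in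
/-- a zero of `1/j - a` on the fibre is simple. -/
theorem h57c_fibre_simple (a : Kbar) (ha : a ∈ A.nonunits)
    (v : Place Kbar (FF M)) (hv : r v = r voo) :
    v.ord ((jB M)⁻¹ - cst M a) ≤ 1 := by
  have h1 := h57c_fibre_le hp hM hA r hr voo hvoo hoo a ha {v} (by
    intro w hw
    rw [Finset.mem_singleton] at hw
    rw [hw]
    exact hv)
  rwa [Finset.sum_singleton] at h1

include hp hM hA hr hvoo hoo in
/-- `1/j - a` has at most one zero on the fibre. -/
theorem h57c_fibre_unique (a : Kbar) (ha : a ∈ A.nonunits)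
    (v v' : Place Kbar (FF M)) (hv : r v = r voo) (hv' : r v' = r voo) (hne : v ≠ v')
    (hpos : 0 < v.ord ((jB M)⁻¹ - cst M a)) :
    v'.ord ((jB M)⁻¹ - cst M a) = 0 := by
  classical
  obtain ⟨hτ, hτ0, -, -⟩ := h57c_tau_unit (M := M) hp hM hA a ha
  have h1 := h57c_fibre_le hp hM hA r hr voo hvoo hoo a ha {v, v'} (by
    intro w hw
    rw [Finset.mem_insert, Finset.mem_singleton] at hw
    rcases hw with rfl | rfl
    · exact hv
    · exact hv')
  rw [Finset.sum_pair hne] at h1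
  have h2 := h57c_tau_ord_nonneg r hr voo hvoo a hτ0 v' hv'
  omega

end Fibre

/-! ### Part 2: the residue disc of `w₀` at the level `N` -/

section Disc

theorem h57c_degen_tau (h : N ∣ M) (a : Kbar) :
    degen h ((jB N)⁻¹ - cst N a) = (jB M)⁻¹ - cst M a := by
  rw [map_sub, map_inv₀, degen_jBar h]
  congr 1

theorem h57c_degen_jinv (h : N ∣ M) : degen h (jB N)⁻¹ = (jB M)⁻¹ := by
  rw [map_inv₀, degen_jBar h]

theorem h57c_tau_ne_zero (a : Kbar) : (jB N)⁻¹ - cst N a ≠ 0 := by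
  intro h0
  have h2 : (((jB N)⁻¹ - cst N a : FF N) : LaurentSeries Kbar) = ((0 : FF N) : LaurentSeries Kbar) :=
    congrArg (fun x : FF N => (x : LaurentSeries Kbar)) h0
  rw [h93q_coe_sub_cst, h93q_coe_jB_inv] at h2
  have h2' : (jK Kbar)⁻¹ = HahnSeries.C a := by
    have e0 : ((0 : FF N) : LaurentSeries Kbar) = 0 := rfl
    rw [e0] at h2
    exact sub_eq_zero.mp h2
  have h3 := congrArg HahnSeries.order h2'
  rw [h93q_jinv_order, HahnSeries.order_C] at h3
  omega

variable (h : N ∣ M) (hp : p.Prime) (hM : ¬ p ∣ M) (hA : A.LiesOverPrime p)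
  (r : Place Kbar (FF M) → Place (h13sK A) (h13sFt A M)) (hr : H13sIsRed A M r)
  (voo : Place Kbar (FF M))
  (hvoo : ∀ f : FF M, f ≠ 0 → voo.ord f = (f : LaurentSeries Kbar).order)
  (hoo : ∀ f : h13sFt A M, f ≠ 0 → (r voo).ord f = (h13sIncl A M f).order)
  (w₀ : Place Kbar (FF N))
  (hw₀ : ∀ f : FF N, f ≠ 0 → w₀.ord f = (f : LaurentSeries Kbar).order)
  (hvw : voo.restrictAlong (degen h) (isIntegral_degen h) = w₀)

include hr hvw in
/-- **transfer**: every place of the disc of `w₀` lies under a place of the fibre of `voo`. -/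
theorem h57c_exists_over (w : Place Kbar (FF N)) (hw : SameRed A w w₀) :
    ∃ c : Place Kbar (FF M),
      c.restrictAlong (degen h) (isIntegral_degen h) = w ∧ r c = r voo := by
  classical
  haveI := Fermat.Agent.Red.HKMod.hasPrincipalDivisors_FF M
  have h1 : Finsupp.single w (1 : ℤ) - Finsupp.single w₀ (1 : ℤ) ∈ redKer N A :=
    single_sub_single_mem_redKer hw
  have h2 := h60r_push_eq_zero_of_mem hr (h57p_pull_mem_redKer h A h1)
  rw [map_sub, map_sub, sub_eq_zero] at h2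
  have h3 : h60rPush r (h57pPull h (Finsupp.single w₀ (1 : ℤ))) (r voo) =
      h57sMult h r voo := by
    unfold h57sMult
    rw [hvw]
  have h4 : h60rPush r (h57pPull h (Finsupp.single w (1 : ℤ))) (r voo) ≠ 0 := by
    rw [h2, h3]
    exact (h57s_mult_pos h r voo).ne'
  by_contra hcon
  rw [not_exists] at hcon
  apply h4
  rw [h60r_push_apply]
  refine h57k_push_eq_zero_of_fibre _ _ fun v hv => ?_
  show Divisor.pullbackAlong (degen h) (isIntegral_degen h) _ v = 0
  rw [Divisor.pullbackAlong_apply, Finsupp.single_apply,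
    if_neg (fun e => hcon v ⟨e.symm, hv⟩), mul_zero]

include hw₀ in
/-- the value of `1/j` at a place of the disc of `w₀` is in `𝔪_A`. -/
theorem h57c_exists_value (w : Place Kbar (FF N)) (hw : SameRed A w w₀) :
    ∃ a : Kbar, a ∈ A.nonunits ∧ ValueAt w (jB N)⁻¹ a := by
  rcases hw with ⟨-, hfin, -⟩ | ⟨-, -, hc⟩
  · exact absurd hfin (h93q_voo_not_fin w₀ hw₀)
  · obtain ⟨a, b, haA, hbA, hva, hvb, hab⟩ :=
      hc _ (Fermat.Agent.Red.ModelO.h85_jB_inv_mem_modelInf N A)
    have hb0 : ValueAt w₀ (jB N)⁻¹ 0 :=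
      h81n_valueAt_zero_of_ord_pos (inv_ne_zero h93q_jB_ne_zero)
        (by rw [h93q_ord_jinv_voo w₀ hw₀]; exact one_pos)
    have hb : b = 0 := valueAt_unique hvb hb0
    rw [hb, sub_zero] at hab
    exact ⟨a, hab, hva⟩

include hp hM hA hr hvoo hoo hvw in
/-- the zero of `1/j - a` at the place `w` of the disc with `(1/j)(w) = a` is simple. -/
theorem h57c_ord_tau_self (w : Place Kbar (FF N)) (hw : SameRed A w w₀)
    (a : Kbar) (ha : a ∈ A.nonunits) (hva : ValueAt w (jB N)⁻¹ a) :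
    w.ord ((jB N)⁻¹ - cst N a) = 1 := by
  obtain ⟨c, hc, hrc⟩ := h57c_exists_over h r hr voo w₀ hvw w hw
  have h0 : (jB N)⁻¹ - cst N a ≠ 0 := h57c_tau_ne_zero a
  have h1 : 0 < w.ord ((jB N)⁻¹ - cst N a) := (h81n_ord_pos_iff w h0).mpr hva
  have h2 := Place.ord_restrictAlong (degen h) (isIntegral_degen h) c ((jB N)⁻¹ - cst N a)
  rw [h57c_degen_tau h a, hc] at h2
  have h3 := h57c_fibre_simple hp hM hA r hr voo hvoo hoo a ha c hrc
  have h4 := Fermat.Agent.Red.NLA.h87_ramificationIndexAlong_pos (degen h)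
    (isIntegral_degen h) c
  have h5 : (1 : ℤ) ≤ (Place.ramificationIndexAlong (degen h) c : ℤ) := by exact_mod_cast h4
  rw [h2] at h3
  nlinarith

include hp hM hA hr hvoo hoo hvw in
/-- `1/j - a` has no zero at the other places of the disc. -/
theorem h57c_ord_tau_other (w w' : Place Kbar (FF N)) (hw : SameRed A w w₀)
    (hw' : SameRed A w' w₀) (hne : w' ≠ w)
    (a : Kbar) (ha : a ∈ A.nonunits) (hva : ValueAt w (jB N)⁻¹ a) :
    w'.ord ((jB N)⁻¹ - cst N a) = 0 := by
  obtain ⟨c, hc, hrc⟩ := h57c_exists_over h r hr voo w₀ hvw w hw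
  obtain ⟨c', hc', hrc'⟩ := h57c_exists_over h r hr voo w₀ hvw w' hw'
  have hcc : c ≠ c' := by
    rintro rfl
    exact hne (hc'.symm.trans hc)
  have h0 : (jB N)⁻¹ - cst N a ≠ 0 := h57c_tau_ne_zero a
  have h1 : 0 < w.ord ((jB N)⁻¹ - cst N a) := (h81n_ord_pos_iff w h0).mpr hva
  have h2 := Place.ord_restrictAlong (degen h) (isIntegral_degen h) c ((jB N)⁻¹ - cst N a)
  rw [h57c_degen_tau h a, hc] at h2
  have h2' := Place.ord_restrictAlong (degen h) (isIntegral_degen h) c' ((jB N)⁻¹ - cst N a)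
  rw [h57c_degen_tau h a, hc'] at h2'
  have h4 := Fermat.Agent.Red.NLA.h87_ramificationIndexAlong_pos (degen h)
    (isIntegral_degen h) c
  have h5 : (0 : ℤ) < (Place.ramificationIndexAlong (degen h) c : ℤ) := by exact_mod_cast h4
  have h4' := Fermat.Agent.Red.NLA.h87_ramificationIndexAlong_pos (degen h)
    (isIntegral_degen h) c'
  have h5' : (Place.ramificationIndexAlong (degen h) c' : ℤ) ≠ 0 := by
    have : (0 : ℤ) < (Place.ramificationIndexAlong (degen h) c' : ℤ) := by exact_mod_cast h4'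
    exact this.ne'
  have h6 : 0 < c.ord ((jB M)⁻¹ - cst M a) := by
    rw [h2]
    exact mul_pos h5 h1
  have h7 := h57c_fibre_unique hp hM hA r hr voo hvoo hoo a ha c c' hrc hrc' hcc h6
  rw [h2'] at h7
  exact (mul_eq_zero.mp h7).resolve_left h5'

include hp hM hA hr hvoo hoo hw₀ hvw in
/-- the order of `1/j` on the disc. -/
theorem h57c_ord_jinv [DecidableEq (Place Kbar (FF N))]
    (w' : Place Kbar (FF N)) (hw' : SameRed A w' w₀) :
    w'.ord (jB N)⁻¹ = if w' = w₀ then 1 else 0 := by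
  split_ifs with hww
  · rw [hww]
    exact h93q_ord_jinv_voo w₀ hw₀
  · obtain ⟨c', hc', hrc'⟩ := h57c_exists_over h r hr voo w₀ hvw w' hw'
    have hcv : c' ≠ voo := by
      rintro rfl
      exact hww (hc'.symm.trans hvw)
    have h1 := h93q_ord_jinv_fibre hp hM hA r hr voo hvoo hoo c' hrc' hcv
    have h2 := Place.ord_restrictAlong (degen h) (isIntegral_degen h) c' (jB N)⁻¹
    rw [h57c_degen_jinv h, hc', h1] at h2
    have h4' := Fermat.Agent.Red.NLA.h87_ramificationIndexAlong_pos (degen h)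
      (isIntegral_degen h) c'
    have h5' : (Place.ramificationIndexAlong (degen h) c' : ℤ) ≠ 0 := by
      have : (0 : ℤ) < (Place.ramificationIndexAlong (degen h) c' : ℤ) := by exact_mod_cast h4'
      exact this.ne'
    exact (mul_eq_zero.mp h2.symm).resolve_left h5'

include hp hM hA hr hvoo hoo hw₀ hvw in
/-- **the orders of `1 - a j` on the disc**, `a = (1/j)(w)`. -/
theorem h57c_ord_phi [DecidableEq (Place Kbar (FF N))]
    (w w' : Place Kbar (FF N)) (hw : SameRed A w w₀)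
    (hw' : SameRed A w' w₀) (a : Kbar) (ha : a ∈ A.nonunits)
    (hva : ValueAt w (jB N)⁻¹ a) :
    w'.ord (1 + cst N (-a) * jB N) = (if w' = w then 1 else 0) - (if w' = w₀ then 1 else 0) := by
  have hj0 : jB N ≠ 0 := h93q_jB_ne_zero
  have h0 : (jB N)⁻¹ - cst N a ≠ 0 := h57c_tau_ne_zero a
  have e : 1 + cst N (-a) * jB N = ((jB N)⁻¹ - cst N a) * jB N := by
    rw [cst_neg]
    field_simp
    ring
  have hj : w'.ord (jB N) = -(if w' = w₀ then 1 else 0) := by
    have h1 := h57c_ord_jinv h hp hM hA r hr voo hvoo hoo w₀ hw₀ hvw w' hw'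
    rw [Place.ord_inv] at h1
    omega
  rw [e, Place.ord_mul w' h0 hj0, hj]
  by_cases hww : w' = w
  · rw [if_pos hww, hww, h57c_ord_tau_self h hp hM hA r hr voo hvoo hoo w₀ hvw w hw a ha hva]
    ring
  · rw [if_neg hww,
      h57c_ord_tau_other h hp hM hA r hr voo hvoo hoo w₀ hvw w w' hw hw' hww a ha hva]
    ring

end Disc

/-! ### Part 3: principal Gauss units and finite products -/

section Principal

/-- `x` is a Gauss unit with reduction `1`. -/
def H57cOne (A : ValuationSubring Kbar) (N : ℕ) [NeZero N] (x : FF N) : Prop :=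
  ∃ hx : x ∈ gaussV A N, x⁻¹ ∈ gaussV A N ∧ gaussR A N ⟨x, hx⟩ = 1

theorem h57c_one_one : H57cOne A N 1 :=
  ⟨one_mem _, by rw [inv_one]; exact one_mem _, map_one _⟩

theorem h57c_one_ne_zero {x : FF N} (hx : H57cOne A N x) : x ≠ 0 := by
  rintro rfl
  obtain ⟨h1, -, h3⟩ := hx
  have e : (⟨0, h1⟩ : gaussV A N) = 0 := rfl
  rw [e, map_zero] at h3
  exact zero_ne_one h3

theorem h57c_one_mul {x y : FF N} (hx : H57cOne A N x) (hy : H57cOne A N y) :
    H57cOne A N (x * y) := by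
  obtain ⟨h1, h2, h3⟩ := hx
  obtain ⟨k1, k2, k3⟩ := hy
  refine ⟨mul_mem h1 k1, by rw [mul_inv]; exact mul_mem h2 k2, ?_⟩
  have e : (⟨x * y, mul_mem h1 k1⟩ : gaussV A N) = ⟨x, h1⟩ * ⟨y, k1⟩ := rfl
  rw [e, map_mul, h3, k3, mul_one]

theorem h57c_one_inv {x : FF N} (hx : H57cOne A N x) : H57cOne A N x⁻¹ := by
  have hx0 := h57c_one_ne_zero hx
  obtain ⟨h1, h2, h3⟩ := hx
  refine ⟨h2, by rw [inv_inv]; exact h1, ?_⟩
  have e : (⟨x⁻¹, h2⟩ : gaussV A N) * ⟨x, h1⟩ = 1 := Subtype.ext (inv_mul_cancel₀ hx0)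
  have h4 := congrArg (gaussR A N) e
  rw [map_mul, map_one, h3, mul_one] at h4
  exact h4

theorem h57c_one_pow {x : FF N} (hx : H57cOne A N x) (n : ℕ) : H57cOne A N (x ^ n) := by
  induction n with
  | zero => rw [pow_zero]; exact h57c_one_one
  | succ n ih => rw [pow_succ]; exact h57c_one_mul ih hx

theorem h57c_one_zpow {x : FF N} (hx : H57cOne A N x) (n : ℤ) : H57cOne A N (x ^ n) := by
  obtain ⟨m, rfl | rfl⟩ := n.eq_nat_or_neg
  · rw [zpow_natCast]
    exact h57c_one_pow hx m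
  · rw [zpow_neg, zpow_natCast]
    exact h57c_one_inv (h57c_one_pow hx m)

theorem h57c_one_prod {ι : Type*} (S : Finset ι) (f : ι → FF N)
    (hf : ∀ i ∈ S, H57cOne A N (f i)) : H57cOne A N (∏ i ∈ S, f i) := by
  classical
  induction S using Finset.induction_on with
  | empty => rw [Finset.prod_empty]; exact h57c_one_one
  | insert i S hi ih =>
    rw [Finset.prod_insert hi]
    exact h57c_one_mul (hf i (Finset.mem_insert_self i S))
      (ih fun j hj => hf j (Finset.mem_insert_of_mem hj))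

/-- `1 - a j` is a principal Gauss unit for `a ∈ 𝔪_A`. -/
theorem h57c_one_phi (hp : p.Prime) (hN : ¬ p ∣ N) (hA : A.LiesOverPrime p)
    (a : Kbar) (ha : a ∈ A.nonunits) : H57cOne A N (1 + cst N (-a) * jB N) := by
  have hna : -a ∈ A.nonunits := neg_mem_nonunits A ha
  obtain ⟨hφ0, hφi⟩ := one_add_cst_mul_inv_mem_gaussV A N hp hN hA (-a) hna (jB N)
    (jB_mem_gaussV A N)
  have hcst : cst N (-a) ∈ gaussV A N :=
    (cst_mem_gaussV_iff A N hA _).2 (nonunits_le A hna)
  refine ⟨add_mem (one_mem _) (mul_mem hcst (jB_mem_gaussV A N)), hφi, ?_⟩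
  have e : (⟨1 + cst N (-a) * jB N, add_mem (one_mem _) (mul_mem hcst (jB_mem_gaussV A N))⟩ :
      gaussV A N) = 1 + ⟨cst N (-a), hcst⟩ * ⟨jB N, jB_mem_gaussV A N⟩ := rfl
  rw [e, map_add, map_one, map_mul, gaussR_cst_of_nonunit A N hA _ hna hcst, zero_mul,
    add_zero]

/-- the order of a finite product of integral powers. -/
theorem h57c_ord_prod {K F : Type*} [Field K] [Field F] [Algebra K F] (v : Place K F)
    {ι : Type*} (S : Finset ι) (f : ι → F) (n : ι → ℤ) (hf : ∀ i ∈ S, f i ≠ 0) :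
    (∏ i ∈ S, f i ^ n i) ≠ 0 ∧ v.ord (∏ i ∈ S, f i ^ n i) = ∑ i ∈ S, n i * v.ord (f i) := by
  classical
  induction S using Finset.induction_on with
  | empty =>
    rw [Finset.prod_empty, Finset.sum_empty]
    exact ⟨one_ne_zero, Place.ord_one v⟩
  | insert i S hi ih =>
    obtain ⟨h1, h2⟩ := ih fun j hj => hf j (Finset.mem_insert_of_mem hj)
    have h3 : f i ^ n i ≠ 0 := zpow_ne_zero _ (hf i (Finset.mem_insert_self i S))
    rw [Finset.prod_insert hi, Finset.sum_insert hi]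
    refine ⟨mul_ne_zero h3 h1, ?_⟩
    rw [Place.ord_mul v h3 h1, Place.ord_zpow, h2]

end Principal

/-! ### Part 4: the corrected unit -/

section Corr

open Classical in
/-- the value of `1/j` at `w` when it lies in `𝔪_A` (and `0` otherwise). -/
def h57cVal (A : ValuationSubring Kbar) (w : Place Kbar (FF N)) : Kbar :=
  if hw : ∃ a : Kbar, a ∈ A.nonunits ∧ ValueAt w (jB N)⁻¹ a then Classical.choose hw else 0

theorem h57c_val_mem (w : Place Kbar (FF N)) : h57cVal A w ∈ A.nonunits := by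
  unfold h57cVal
  split_ifs with hw
  · exact (Classical.choose_spec hw).1
  · exact zero_mem_nonunits A

theorem h57c_val_spec (w : Place Kbar (FF N))
    (hw : ∃ a : Kbar, a ∈ A.nonunits ∧ ValueAt w (jB N)⁻¹ a) :
    ValueAt w (jB N)⁻¹ (h57cVal A w) := by
  unfold h57cVal
  rw [dif_pos hw]
  exact (Classical.choose_spec hw).2

variable (h : N ∣ M) (hp : p.Prime) (hN : ¬ p ∣ N) (hM : ¬ p ∣ M) (hA : A.LiesOverPrime p)
  (r : Place Kbar (FF M) → Place (h13sK A) (h13sFt A M)) (hr : H13sIsRed A M r)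
  (voo : Place Kbar (FF M))
  (hvoo : ∀ f : FF M, f ≠ 0 → voo.ord f = (f : LaurentSeries Kbar).order)
  (hoo : ∀ f : h13sFt A M, f ≠ 0 → (r voo).ord f = (h13sIncl A M f).order)
  (w₀ : Place Kbar (FF N))
  (hw₀ : ∀ f : FF N, f ≠ 0 → w₀.ord f = (f : LaurentSeries Kbar).order)
  (hvw : voo.restrictAlong (degen h) (isIntegral_degen h) = w₀)

include h hp hN hM hA hr hvoo hoo hw₀ hvw in
/-- **the corrected unit.**  A Gauss unit `y` of level `N` whose reduction has `q`-order `0` has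
the same reduction as a Gauss unit `g` of level `N` without zero or pole on the residue disc of
`w₀`. -/
theorem h57c_corr {y : FF N} (hy0 : y ≠ 0) (hy : y ∈ softV A N) (hyi : y⁻¹ ∈ softV A N)
    (hord : (softR A N ⟨y, hy⟩).order = 0) :
    ∃ (g : FF N) (hg : g ∈ softV A N), g ≠ 0 ∧ g⁻¹ ∈ softV A N ∧
      softR A N ⟨g, hg⟩ = softR A N ⟨y, hy⟩ ∧
      ∀ w : Place Kbar (FF N), SameRed A w w₀ → w.ord g = 0 := by
  classical
  obtain ⟨D, hD, -⟩ := (h40r_base_FF (N := N)).pd y hy0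
  have hmass : h57sMass A w₀ D = 0 := by
    have h1 := h57c_mass_zero h hp hM hA hr voo hoo hy0 hy hyi hord D hD
    rwa [hvw] at h1
  obtain ⟨E, hE⟩ : ∃ E : Divisor Kbar (FF N), E = h57sIn A w₀ D := ⟨_, rfl⟩
  have hES : ∀ w ∈ E.support, SameRed A w w₀ := by
    intro w hw
    by_contra hn
    apply Finsupp.mem_support_iff.mp hw
    rw [hE]
    unfold h57sIn
    exact Finsupp.filter_apply_neg _ _ hn
  have hEin : ∀ w, SameRed A w w₀ → E w = w.ord y := by
    intro w hw
    rw [hE]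
    unfold h57sIn
    rw [Finsupp.filter_apply_pos (fun w => SameRed A w w₀) D hw, hD]
  have hEsum : ∑ w ∈ E.support, E w = 0 := by
    rw [hE]
    exact hmass
  obtain ⟨φ, hφ⟩ : ∃ φ : Place Kbar (FF N) → FF N,
      φ = fun w => 1 + cst N (-(h57cVal A w)) * jB N := ⟨_, rfl⟩
  have hφone : ∀ w, H57cOne A N (φ w) := by
    intro w
    rw [hφ]
    exact h57c_one_phi hp hN hA _ (h57c_val_mem w)
  obtain ⟨y₁, hy₁⟩ : ∃ y₁ : FF N, y₁ = ∏ w ∈ E.support, φ w ^ E w := ⟨_, rfl⟩
  have hy₁one : H57cOne A N y₁ := by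
    rw [hy₁]
    exact h57c_one_prod _ _ fun w _ => h57c_one_zpow (hφone w) _
  have hy₁ord : ∀ w', SameRed A w' w₀ → w'.ord y₁ = w'.ord y := by
    intro w' hw'
    obtain ⟨-, h2⟩ := h57c_ord_prod w' E.support φ (fun w => E w)
      (fun w _ => h57c_one_ne_zero (hφone w))
    rw [hy₁, h2]
    have h3 : ∀ w ∈ E.support, E w * w'.ord (φ w) =
        (if w' = w then E w else 0) - (if w' = w₀ then 1 else 0) * E w := by
      intro w hw
      have hws := hES w hw
      have h4 := h57c_ord_phi h hp hM hA r hr voo hvoo hoo w₀ hw₀ hvw w w' hws hw' _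
        (h57c_val_mem w) (h57c_val_spec w (h57c_exists_value w₀ hw₀ w hws))
      rw [hφ]
      show E w * w'.ord (1 + cst N (-(h57cVal A w)) * jB N) = _
      rw [h4]
      split_ifs <;> ring
    rw [Finset.sum_congr rfl h3, Finset.sum_sub_distrib, ← Finset.mul_sum, hEsum, mul_zero,
      sub_zero, ← hEin w' hw']
    by_cases h5 : w' ∈ E.support
    · rw [Finset.sum_eq_single_of_mem w' h5 (fun b _ hb => if_neg (Ne.symm hb)), if_pos rfl]
    · rw [Finsupp.notMem_support_iff.mp h5]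
      refine Finset.sum_eq_zero fun w hw => if_neg ?_
      rintro rfl
      exact h5 hw
  have hy₁0 : y₁ ≠ 0 := h57c_one_ne_zero hy₁one
  obtain ⟨k1, k2, k3⟩ := h57c_one_inv hy₁one
  rw [inv_inv] at k2
  have hs1 : y₁⁻¹ ∈ softV A N := gaussV_le_softV A N k1
  have hs2 : y₁ ∈ softV A N := gaussV_le_softV A N k2
  refine ⟨y * y₁⁻¹, mul_mem hy hs1, mul_ne_zero hy0 (inv_ne_zero hy₁0), ?_, ?_, ?_⟩
  · rw [mul_inv, inv_inv]
    exact mul_mem hyi hs2
  · have e : (⟨y * y₁⁻¹, mul_mem hy hs1⟩ : softV A N) = ⟨y, hy⟩ * ⟨y₁⁻¹, hs1⟩ := rfl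
    rw [e, map_mul, softR_eq_gaussR A N y₁⁻¹ hs1 k1, k3, mul_one]
  · intro w hw
    rw [Place.ord_mul w hy0 (inv_ne_zero hy₁0), Place.ord_inv, hy₁ord w hw]
    ring

include h hp hN hM hA hr hvoo hoo hw₀ hvw in
/-- **the corrected unit, good-level form**: moreover `degen g` has no zero and no pole in the
class `r ⁻¹ (r c₀)` of any place `c₀` over `w₀`. -/
theorem h57c_corr_degen {y : FF N} (hy0 : y ≠ 0) (hy : y ∈ softV A N) (hyi : y⁻¹ ∈ softV A N)
    (hord : (softR A N ⟨y, hy⟩).order = 0) :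
    ∃ (g : FF N) (hg : g ∈ softV A N), g ≠ 0 ∧ g⁻¹ ∈ softV A N ∧
      softR A N ⟨g, hg⟩ = softR A N ⟨y, hy⟩ ∧
      (∀ w : Place Kbar (FF N), SameRed A w w₀ → w.ord g = 0) ∧
      ∀ c c₀ : Place Kbar (FF M),
        c₀.restrictAlong (degen h) (isIntegral_degen h) = w₀ → r c = r c₀ →
          c.ord (degen h g) = 0 := by
  obtain ⟨g, hg, hg0, hgi, hred, hdisc⟩ :=
    h57c_corr h hp hN hM hA r hr voo hvoo hoo w₀ hw₀ hvw hy0 hy hyi hord
  refine ⟨g, hg, hg0, hgi, hred, hdisc, fun c c₀ hc₀ hcc => ?_⟩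
  have hs : SameRed A c c₀ := (hr.2.1 c c₀).mp hcc
  have hs' := h69w_restrict_sameRed A (degen h) (isIntegral_degen h) (degen_jBar h) hs
  rw [hc₀] at hs'
  rw [Place.ord_restrictAlong (degen h) (isIntegral_degen h) c g, hdisc _ hs', mul_zero]

end Corr

end Fermat.Agent.P7
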