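import Fermat.Agent.P5.H89InfFin
import Fermat.Agent.P5.H88RedDivFinal
import Fermat.Agent.Red.TransferRed
import Fermat.Agent.Red.CH0
import Fermat.Agent.Red.KR.Basic

/-!
# Wave 7, block (A) T-ABEL, FIN-RED sub-leaf F4 (helper69)

`p` a prime, `M` ANY level prime to `p`, `A` a valuation subring of `ℚ̄` over `p`.

* `h69w_finCls` : for `a ∈ A` there is a FINITE set `S` of places of `F_M` such that every
  place `v` with `j(v) ∈ A`, `j(v) ≡ a mod 𝔪_A` has the same reduction as a place of `S`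
  (`S` = the restrictions of the zeros of `j - a` at the good level);
* `h69w_infCls` : there is a finite set `S` of places such that every non-finite place
  (`j(v) ∉ A`) has the same reduction as a place of `S` (the restrictions of the cusps);
* `h69w_finCls_zeros`, `h69w_infCls_cusps` : the same with `S` explicit AT LEVEL `M`: the zeros
  of `j - a`, resp. the poles of `j`.

Route: at the good level `M⁺ = goodLevel p M` the reduction map of places `r` of P5
(`h88r_redDiv`) satisfies RED-DIV; `j - b` and `j - a` have the same Gauss reduction for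
`b ≡ a`, so `r_* div (j - a) = r_* div (j - b) ≥ [r v]` at `r v`.  Descent to `M` by restriction
of places (places extend, `SameRed` is preserved by restriction).
-/

set_option autoImplicit false
set_option linter.style.haveILetI false

open AlgebraicCurve ModularCurve

noncomputable section

namespace Fermat.Agent.P7

open Fermat.Agent.S37 Fermat.Agent.Red.GV Fermat.Agent.P5

/-! ### Restriction of places along an embedding compatible with `j` -/

section Restrict

variable {N M : ℕ} [NeZero N] [NeZero M]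

/-- restriction along an embedding `φ` with `φ j = j` preserves `SameRed`
(every valuation subring `A`). -/
theorem h69w_restrict_sameRed (A : ValuationSubring Kbar) (φ : FF N →ₐ[Kbar] FF M)
    (hφ : φ.toRingHom.IsIntegral) (hj : φ (jB N) = jB M) {v w : Place Kbar (FF M)}
    (hvw : SameRed A v w) :
    SameRed A (v.restrictAlong φ hφ) (w.restrictAlong φ hφ) := by
  have hcong : ∀ t : FF N,
      (∀ f ∈ modelAt M A (φ t), CongAt A v w f) →
      ∀ f ∈ modelAt N A t, CongAt A (v.restrictAlong φ hφ) (w.restrictAlong φ hφ) f := by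
    intro t h f hf
    obtain ⟨a, b, ha, hb, hva, hwb, hab⟩ := h _ (Fermat.Agent.Red.KR.map_mem_modelAt φ A hf)
    exact ⟨a, b, ha, hb,
      (Fermat.Agent.Red.TRK.h87_valueAt_restrict φ hφ v f a).mpr hva,
      (Fermat.Agent.Red.TRK.h87_valueAt_restrict φ hφ w f b).mpr hwb, hab⟩
  rcases hvw with ⟨hv, hw, hc⟩ | ⟨hv, hw, hc⟩
  · refine Or.inl ⟨(Fermat.Agent.Red.TRK.h87_isFinAt_restrict hφ hj A v).mpr hv,
      (Fermat.Agent.Red.TRK.h87_isFinAt_restrict hφ hj A w).mpr hw, hcong (jB N) ?_⟩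
    rw [hj]
    exact hc
  · refine Or.inr ⟨fun h => hv ((Fermat.Agent.Red.TRK.h87_isFinAt_restrict hφ hj A v).mp h),
      fun h => hw ((Fermat.Agent.Red.TRK.h87_isFinAt_restrict hφ hj A w).mp h),
      hcong (jB N)⁻¹ ?_⟩
    rw [map_inv₀, hj]
    exact hc

/-- places extend along the degeneracy inclusion. -/
theorem h69w_exists_restrict_degen (h : N ∣ M) (v : Place Kbar (FF N)) :
    ∃ w : Place Kbar (FF M),
      w.restrictAlong (degen h) (Fermat.Agent.Red.CH0.isIntegral_degen h) = v := by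
  letI := algebraAlong (degen h)
  haveI := isScalarTower_along (degen h)
  haveI : Module.Finite (FF N) (FF M) := Fermat.Agent.Red.CH0.finiteAlong_degen h
  haveI := isIntegral_along (degen h) (Fermat.Agent.Red.CH0.isIntegral_degen h)
  haveI := Fermat.Agent.Red.HKMod.hasPrincipalDivisors_FF M
  haveI := Fermat.Agent.Red.HKMod.finiteDimensional_jBar M
  obtain ⟨w, hw⟩ := Fermat.Agent.Red.GFF.fiber_nonempty (K := Kbar) (F := FF N) (F' := FF M)
    (Fermat.Agent.S24.jBar M) v
  exact ⟨w, Place.mem_fiber.mp hw⟩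

end Restrict

/-! ### The good level -/

section Good

variable {p : ℕ} {M : ℕ} [NeZero M] {A : ValuationSubring Kbar}

/-- `j - a` is a Gauss unit for `a ∈ A`. -/
theorem h69w_jB_sub_cst_unit (hp : p.Prime) (hM : ¬ p ∣ M) (hA : A.LiesOverPrime p)
    {a : Kbar} (ha : a ∈ A) :
    ∃ hf : jB M - cst M a ∈ gaussV A M,
      gaussR A M ⟨jB M - cst M a, hf⟩ ≠ 0 ∧ (jB M - cst M a)⁻¹ ∈ gaussV A M := by
  have hj : jB M ∈ gaussV A M := jB_mem_gaussV A M
  have hc : cst M a ∈ gaussV A M := (cst_mem_gaussV_iff A M hA a).2 ha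
  have hx₀ : jB M - cst M a ∈ gaussV A M := sub_mem hj hc
  have hred : gaussR A M ⟨jB M - cst M a, hx₀⟩ ≠ 0 := by
    have e : (⟨jB M - cst M a, hx₀⟩ : gaussV A M) = ⟨jB M, hj⟩ - ⟨cst M a, hc⟩ := rfl
    rw [e, map_sub, gaussR_jB A M]
    have h3 := gaussRed_algebraMap A (IsLocalRing.residue A) M ⟨a, ha⟩
    have h4 : gaussR A M ⟨cst M a, hc⟩ =
        HahnSeries.C (IsLocalRing.residue A ⟨a, ha⟩) := h3
    rw [h4]
    intro h0
    have h5 := congrArg (fun s : LaurentSeries (IsLocalRing.ResidueField A) => s.coeff (-1)) h0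
    simp only [HahnSeries.coeff_sub, HahnSeries.coeff_zero] at h5
    rw [ModularCurve.coeff_jqModC_neg_one, HahnSeries.C_apply,
      HahnSeries.coeff_single_of_ne (by norm_num)] at h5
    simp at h5
  haveI : Fact p.Prime := ⟨hp⟩
  exact ⟨hx₀, hred, inv_mem_gaussSubring_of_gaussRed_ne_zero A _ M p
    (isResidueMap_residue A p hA) hM ⟨jB M - cst M a, hx₀⟩ hred⟩

/-- **FIN-CLS at a level with a reduction map**: a place `v` with `j(v) = b ≡ a` reduces to the
reduction of a zero of `j - a`. -/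
theorem h69w_finCls_at (hp : p.Prime) (hM : ¬ p ∣ M) (hA : A.LiesOverPrime p)
    {r : Place Kbar (FF M) → Place (h13sK A) (h13sFt A M)} (hr : H13sIsRed A M r)
    {a : Kbar} (ha : a ∈ A)
    (D : Divisor Kbar (FF M)) (hD : ∀ v : Place Kbar (FF M), D v = v.ord (jB M - cst M a))
    (v : Place Kbar (FF M)) {b : Kbar} (hb : b ∈ A) (hvb : ValueAt v (jB M) b)
    (hab : b - a ∈ A.nonunits) :
    ∃ w ∈ D.support, r w = r v := by
  classical
  obtain ⟨-, hfib, hdiv⟩ := hr
  obtain ⟨hf₀, hred₀, hinv₀⟩ := h69w_jB_sub_cst_unit hp hM hA ha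
  obtain ⟨hf, hredf, hinvf⟩ := h69w_jB_sub_cst_unit hp hM hA hb
  have hcst : cst M (b - a) ∈ gaussV A M :=
    (cst_mem_gaussV_iff A M hA (b - a)).2 (sub_mem hb ha)
  have hred : gaussR A M ⟨jB M - cst M b, hf⟩ = gaussR A M ⟨jB M - cst M a, hf₀⟩ := by
    have e : (⟨jB M - cst M b, hf⟩ : gaussV A M) =
        ⟨jB M - cst M a, hf₀⟩ - ⟨cst M (b - a), hcst⟩ := by
      apply Subtype.ext
      show jB M - cst M b = jB M - cst M a - cst M (b - a)
      have e1 : cst M (b - a) = cst M b - cst M a := map_sub _ b a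
      rw [e1]
      ring
    rw [e, map_sub, gaussR_cst_of_nonunit A M hA (b - a) hab hcst, sub_zero]
  have hfne : jB M - cst M b ≠ 0 := by
    intro h
    apply hredf
    have e : (⟨jB M - cst M b, hf⟩ : gaussV A M) = 0 := Subtype.ext h
    rw [e, map_zero]
  -- the divisor of `f = j - b`
  obtain ⟨D', hD', -⟩ := (h13g_gBase M).pd (jB M - cst M b) hfne
  have e1 := hdiv (jB M - cst M b) hf hinvf D' hD' (r v)
  have e2 := hdiv (jB M - cst M a) hf₀ hinv₀ D hD (r v)
  have hsame : h13sRed A M ⟨jB M - cst M b, hf⟩ = h13sRed A M ⟨jB M - cst M a, hf₀⟩ :=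
    Subtype.ext hred
  -- `f` vanishes at `v`
  have h1 : 1 ≤ D' v := by
    rw [hD' v]
    exact h71r_ord_pos_of_mem_nonunits v hfne hvb
  -- `f` is regular on the class of `v`
  have hvfin : IsFinAt A v := ⟨b, hb, hvb⟩
  have h2 : ∀ w : Place Kbar (FF M), r w = r v → 0 ≤ D' w := by
    intro w hw
    have hsr : SameRed A w v := (hfib w v).1 hw
    obtain ⟨c, -, hc⟩ : IsFinAt A w := (Fermat.Agent.Red.Match.sameRed_isFinAt_iff hsr).2 hvfin
    have hm1 : jB M ∈ w.toValuationSubring := Fermat.Agent.Red.Match.valueAt_mem hc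
    have hm2 : cst M b ∈ w.toValuationSubring :=
      Fermat.Agent.Red.Match.valueAt_mem (Fermat.Agent.Red.Match.valueAt_cst w b)
    rw [hD' w]
    exact (Fermat.Agent.S24.DiffPlace.ord_nonneg_iff_mem w).2 (sub_mem hm1 hm2)
  have h3 : 1 ≤ h13sPush r D' (r v) := le_trans h1 (h71r_push_ge r D' (r v) h2 v rfl)
  have h4 : 1 ≤ h13sPush r D (r v) := by
    rw [e2, ← hsame, ← e1]
    exact h3
  by_contra hcon
  have h5 : h13sPush r D (r v) = 0 :=
    h89n_push_eq_zero r D (r v) fun w hw hrw => hcon ⟨w, hw, hrw⟩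
  omega

end Good

/-! ### Every level prime to `p` -/

section Every

variable {p : ℕ} (M : ℕ) [NeZero M] (A : ValuationSubring Kbar)

/-- a place of the support of `div (φ f)` restricts to a place of the support of `div f`. -/
theorem h69w_restrict_mem_support {N M : ℕ} (φ : FF N →ₐ[Kbar] FF M)
    (hφ : φ.toRingHom.IsIntegral) (f : FF N)
    (D : Divisor Kbar (FF N)) (hD : ∀ v : Place Kbar (FF N), D v = v.ord f)
    (D' : Divisor Kbar (FF M)) (hD' : ∀ v : Place Kbar (FF M), D' v = v.ord (φ f))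
    {w : Place Kbar (FF M)} (hw : w ∈ D'.support) :
    w.restrictAlong φ hφ ∈ D.support := by
  rw [Finsupp.mem_support_iff] at hw ⊢
  intro h0
  apply hw
  rw [hD', Place.ord_restrictAlong φ hφ w f, ← hD, h0, mul_zero]

/-- **F4 (fin), explicit**: at every level `M` prime to `p`, a place `v` with `j(v) = b ∈ A`,
`b ≡ a mod 𝔪_A`, has the same reduction as a zero of `j - a`. -/
theorem h69w_finCls_zeros (hp : p.Prime) (hM : ¬ p ∣ M) (hA : A.LiesOverPrime p)
    {a : Kbar} (ha : a ∈ A)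
    (D : Divisor Kbar (FF M)) (hD : ∀ v : Place Kbar (FF M), D v = v.ord (jB M - cst M a))
    (v : Place Kbar (FF M)) {b : Kbar} (hb : b ∈ A) (hvb : ValueAt v (jB M) b)
    (hab : b - a ∈ A.nonunits) :
    ∃ w ∈ D.support, SameRed A v w := by
  classical
  have h : M ∣ goodLevel p M := dvd_goodLevel p M
  have hM' : ¬ p ∣ goodLevel p M := not_dvd_goodLevel hp hM
  obtain ⟨r, hr⟩ := h88r_redDiv p hp (goodLevel p M) hM' (auxLevel_dvd_goodLevel p M) A hA
  have hint := Fermat.Agent.Red.CH0.isIntegral_degen h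
  have hj : degen h (jB M) = jB (goodLevel p M) := Fermat.Agent.Red.CH0.degen_jBar h
  have hja : degen h (jB M - cst M a) = jB (goodLevel p M) - cst (goodLevel p M) a := by
    rw [map_sub, hj,
      show degen h (cst M a) = cst (goodLevel p M) a from (degen h).commutes a]
  obtain ⟨hf₀, hred₀, -⟩ := h69w_jB_sub_cst_unit (M := goodLevel p M) hp hM' hA ha
  have hne : jB (goodLevel p M) - cst (goodLevel p M) a ≠ 0 := by
    intro h0
    apply hred₀
    have e : (⟨jB (goodLevel p M) - cst (goodLevel p M) a, hf₀⟩ :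
        gaussV A (goodLevel p M)) = 0 := Subtype.ext h0
    rw [e, map_zero]
  obtain ⟨D', hD', -⟩ := (h13g_gBase (goodLevel p M)).pd _ hne
  obtain ⟨v', hv'⟩ := h69w_exists_restrict_degen h v
  have hvb' : ValueAt v' (jB (goodLevel p M)) b := by
    rw [← hj]
    refine (Fermat.Agent.Red.TRK.h87_valueAt_restrict (degen h) hint v' (jB M) b).mp ?_
    rw [hv']
    exact hvb
  obtain ⟨w', hw', hrw⟩ := h69w_finCls_at hp hM' hA hr ha D' hD' v' hb hvb' hab
  refine ⟨w'.restrictAlong (degen h) hint, ?_, ?_⟩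
  · refine h69w_restrict_mem_support (degen h) hint (jB M - cst M a) D hD D' ?_ hw'
    intro u
    rw [hD' u, hja]
  · have hs : SameRed A v' w' := (hr.2.1 v' w').1 hrw.symm
    have := h69w_restrict_sameRed A (degen h) hint hj hs
    rw [hv'] at this
    exact this

/-- **F4 (inf), explicit**: at every level `M` prime to `p`, a non-finite place (`j(v) ∉ A`) has
the same reduction as a pole of `j`. -/
theorem h69w_infCls_cusps (hp : p.Prime) (hM : ¬ p ∣ M) (hA : A.LiesOverPrime p)
    (D : Divisor Kbar (FF M)) (hD : ∀ v : Place Kbar (FF M), D v = v.ord (jB M)⁻¹)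
    (v : Place Kbar (FF M)) (hv : ¬ IsFinAt A v) :
    ∃ w ∈ D.support, SameRed A v w := by
  classical
  have h : M ∣ goodLevel p M := dvd_goodLevel p M
  have hM' : ¬ p ∣ goodLevel p M := not_dvd_goodLevel hp hM
  obtain ⟨r, hr⟩ := h88r_redDiv p hp (goodLevel p M) hM' (auxLevel_dvd_goodLevel p M) A hA
  have hint := Fermat.Agent.Red.CH0.isIntegral_degen h
  have hj : degen h (jB M) = jB (goodLevel p M) := Fermat.Agent.Red.CH0.degen_jBar h
  have hji : degen h (jB M)⁻¹ = (jB (goodLevel p M))⁻¹ := by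
    rw [map_inv₀, hj]
  have hj0 : (jB (goodLevel p M))⁻¹ ≠ 0 :=
    inv_ne_zero (Fermat.Agent.Red.ModelO.h85_jB_ne_zero (goodLevel p M))
  obtain ⟨D', hD', -⟩ := (h13g_gBase (goodLevel p M)).pd _ hj0
  obtain ⟨v', hv'⟩ := h69w_exists_restrict_degen h v
  have hv'fin : ¬ IsFinAt A v' := by
    intro hfin
    apply hv
    rw [← hv']
    exact (Fermat.Agent.Red.TRK.h87_isFinAt_restrict hint hj A v').mpr hfin
  obtain ⟨w', hw', hrw⟩ := h89n_infFin_at hp hM' hA hr D' hD' v' hv'fin
  refine ⟨w'.restrictAlong (degen h) hint, ?_, ?_⟩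
  · refine h69w_restrict_mem_support (degen h) hint (jB M)⁻¹ D hD D' ?_ hw'
    intro u
    rw [hD' u, hji]
  · have hs : SameRed A v' w' := (hr.2.1 v' w').1 hrw.symm
    have := h69w_restrict_sameRed A (degen h) hint hj hs
    rw [hv'] at this
    exact this

/-- **F4 (fin)**: above a residue `a mod 𝔪_A` of `j` there are finitely many classes of
`SameRed`, at every level `M` prime to `p`. -/
theorem h69w_finCls (hp : p.Prime) (hM : ¬ p ∣ M) (hA : A.LiesOverPrime p)
    {a : Kbar} (ha : a ∈ A) :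
    ∃ S : Finset (Place Kbar (FF M)), ∀ v : Place Kbar (FF M),
      (∃ b ∈ A, ValueAt v (jB M) b ∧ b - a ∈ A.nonunits) → ∃ w ∈ S, SameRed A v w := by
  obtain ⟨hf₀, hred₀, -⟩ := h69w_jB_sub_cst_unit (M := M) hp hM hA ha
  have hne : jB M - cst M a ≠ 0 := by
    intro h0
    apply hred₀
    have e : (⟨jB M - cst M a, hf₀⟩ : gaussV A M) = 0 := Subtype.ext h0
    rw [e, map_zero]
  obtain ⟨D, hD, -⟩ := (h13g_gBase M).pd _ hne
  refine ⟨D.support, ?_⟩
  rintro v ⟨b, hb, hvb, hab⟩
  exact h69w_finCls_zeros M A hp hM hA ha D hD v hb hvb hab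

/-- **F4 (inf)**: the non-finite places lie in finitely many classes of `SameRed`, at every
level `M` prime to `p`. -/
theorem h69w_infCls (hp : p.Prime) (hM : ¬ p ∣ M) (hA : A.LiesOverPrime p) :
    ∃ S : Finset (Place Kbar (FF M)), ∀ v : Place Kbar (FF M),
      ¬ IsFinAt A v → ∃ w ∈ S, SameRed A v w := by
  have hj0 : (jB M)⁻¹ ≠ 0 := inv_ne_zero (Fermat.Agent.Red.ModelO.h85_jB_ne_zero M)
  obtain ⟨D, hD, -⟩ := (h13g_gBase M).pd _ hj0
  exact ⟨D.support, fun v hv => h69w_infCls_cusps M A hp hM hA D hD v hv⟩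

/-- **F4, combined**: for a finite set `R ⊆ A` of values there is a finite set `S` of places
such that every place which is non-finite, or whose `j`-value is congruent to an element of `R`,
has the same reduction as a place of `S`. -/
theorem h69w_finCls_finset (hp : p.Prime) (hM : ¬ p ∣ M) (hA : A.LiesOverPrime p)
    (R : Finset Kbar) (hR : ∀ a ∈ R, a ∈ A) :
    ∃ S : Finset (Place Kbar (FF M)), ∀ v : Place Kbar (FF M),
      (¬ IsFinAt A v ∨ ∃ a ∈ R, ∃ b ∈ A, ValueAt v (jB M) b ∧ b - a ∈ A.nonunits) →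
        ∃ w ∈ S, SameRed A v w := by
  classical
  obtain ⟨Sinf, hSinf⟩ := h69w_infCls M A hp hM hA
  have hex : ∀ a : Kbar, ∃ S : Finset (Place Kbar (FF M)), a ∈ R →
      ∀ v : Place Kbar (FF M),
        (∃ b ∈ A, ValueAt v (jB M) b ∧ b - a ∈ A.nonunits) → ∃ w ∈ S, SameRed A v w := by
    intro a
    by_cases ha : a ∈ R
    · obtain ⟨S, hS⟩ := h69w_finCls M A hp hM hA (hR a ha)
      exact ⟨S, fun _ => hS⟩
    · exact ⟨∅, fun h => absurd h ha⟩
  choose Sf hSf using hex
  refine ⟨Sinf ∪ R.biUnion Sf, ?_⟩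
  rintro v (hv | ⟨a, ha, hb⟩)
  · obtain ⟨w, hw, hvw⟩ := hSinf v hv
    exact ⟨w, Finset.mem_union_left _ hw, hvw⟩
  · obtain ⟨w, hw, hvw⟩ := hSf a ha v hb
    exact ⟨w, Finset.mem_union_right _ (Finset.mem_biUnion.2 ⟨a, ha, hw⟩), hvw⟩

end Every

end Fermat.Agent.P7
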