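import Fermat.Agent.P7.H60ClassInf
import Fermat.Agent.P7.H69FinCls
import Fermat.Agent.Red.TransferRedFinal
import Fermat.Agent.Red.GFFTower

/-!
# Wave 7 (S40), block (A), row T-A4-CLASS, part (A4-b) PULL-CLASS (helper57, prefix `h57p_`)

`N ∣ M`, `π = degen : F_N → F_M` the degeneracy inclusion, `Π = π^* π_*` on the divisors of level
`M`, `d = [F_M : F_N]`.

* `h57p_push_pull` : `π_* π^* = d` on the divisors of level `N`.
* `h57p_Pi_mem_redKer` : `Π` preserves `redKer M A` (every `A`).
* `h57p_saturated` : at a good level, `n • E ∈ redKer` (`n ≠ 0`) implies `E ∈ redKer`.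
* `h57p_pull_div` (**PULL-CLASS, divisor form**) : if the pulled-back function `y₀ = π y₀₀`
  has `div y₀ = n D₁ + R₁` with `R₁ ∈ redKer`, then `Π D₁ - d D₁ ∈ redKer`.
-/

set_option autoImplicit false
set_option linter.unusedSectionVars false
set_option linter.unusedVariables false
set_option linter.style.haveILetI false

open AlgebraicCurve ModularCurve IsLocalRing

noncomputable section

namespace Fermat.Agent.P7

open Fermat.Agent.S37 Fermat.Agent.Jac.K1 Fermat.Agent.Red.HKMod Fermat.Agent.Red.CH0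
open Fermat.Agent.Red.GV Fermat.Agent.Red.GV.Soft Fermat.Agent.P5

section Div

variable {N M : ℕ} [NeZero N] [NeZero M] (h : N ∣ M)

/-- `π^*` on divisors. -/
def h57pPull : Divisor Kbar (FF N) →+ Divisor Kbar (FF M) :=
  haveI := Fermat.Agent.Red.HKMod.hasPrincipalDivisors_FF M
  Divisor.pullbackAlong (degen h) (isIntegral_degen h)

/-- `π_*` on divisors. -/
def h57pPush : Divisor Kbar (FF M) →+ Divisor Kbar (FF N) :=
  Divisor.pushforwardAlong (degen h) (isIntegral_degen h)

/-- `Π = π^* π_*` on the divisors of level `M`. -/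
def h57pPi : Divisor Kbar (FF M) →+ Divisor Kbar (FF M) :=
  (h57pPull h).comp (h57pPush h)

/-- the degree of `π`. -/
def h57pDeg : ℕ := finrankAlong Kbar (degen h)

theorem h57p_push_single (u : Place Kbar (FF M)) (n : ℤ) :
    h57pPush h (Finsupp.single u n) =
      Finsupp.single (u.restrictAlong (degen h) (isIntegral_degen h)) n := by
  have h1 := Divisor.pushforwardAlong_single (degen h) (isIntegral_degen h) u n
  have h2 := Fermat.Agent.Red.GFF.inertiaDegAlong_eq_one_of_deg (degen h) (isIntegral_degen h)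
    u (place_deg_FF M u)
  rw [h2, Nat.cast_one, mul_one] at h1
  exact h1

theorem h57p_degree_push (D : Divisor Kbar (FF M)) :
    Divisor.degree (h57pPush h D) = Divisor.degree D :=
  Divisor.degree_pushforwardAlong (degen h) (isIntegral_degen h) D

theorem h57p_degree_pull (D : Divisor Kbar (FF N)) :
    Divisor.degree (h57pPull h D) = (h57pDeg h : ℤ) * Divisor.degree D := by
  haveI := Fermat.Agent.Red.HKMod.hasPrincipalDivisors_FF M
  exact Divisor.degree_pullbackAlong (degen h) (isIntegral_degen h)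
    (fundamentalIdentityAlong_degen h) D

/-- **`π_* π^* = d`** on the divisors of level `N`. -/
theorem h57p_push_pull (D : Divisor Kbar (FF N)) :
    h57pPush h (h57pPull h D) = (h57pDeg h : ℤ) • D := by
  haveI := Fermat.Agent.Red.HKMod.hasPrincipalDivisors_FF M
  induction D using Finsupp.induction_linear with
  | zero => rw [map_zero, map_zero, smul_zero]
  | add D E hD hE => rw [map_add, map_add, hD, hE, smul_add]
  | single v n =>
    -- the push-forward of the pull-back is supported at `v`
    have h1 : h57pPull h (Finsupp.single v n) =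
        ∑ W ∈ Place.fiberAlong (degen h) (isIntegral_degen h) v,
          Finsupp.single W (n * W.ramificationIndexAlong (degen h)) :=
      Divisor.pullbackAlong_single (degen h) (isIntegral_degen h) v n
    have h2 : h57pPush h (h57pPull h (Finsupp.single v n)) =
        Finsupp.single v (∑ W ∈ Place.fiberAlong (degen h) (isIntegral_degen h) v,
          (n * W.ramificationIndexAlong (degen h) : ℤ)) := by
      rw [h1, map_sum, Finsupp.single_finsetSum]
      refine Finset.sum_congr rfl (fun W hW => ?_)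
      rw [h57p_push_single, Place.mem_fiberAlong.mp hW]
    -- its degree
    have h3 := h57p_degree_push h (h57pPull h (Finsupp.single v n))
    rw [h57p_degree_pull, h2, Divisor.degree_single, Divisor.degree_single, place_deg_FF N v,
      Nat.cast_one, mul_one, mul_one] at h3
    rw [h2, h3, Finsupp.smul_single, smul_eq_mul]

/-- `π_*` maps `redKer M A` into `redKer N A`. -/
theorem h57p_push_mem_redKer (A : ValuationSubring Kbar) {D : Divisor Kbar (FF M)}
    (hD : D ∈ redKer M A) : h57pPush h D ∈ redKer N A := by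
  unfold redKer at hD
  induction hD using AddSubgroup.closure_induction with
  | mem D hD =>
    obtain ⟨v, w, hvw, rfl⟩ := hD
    rw [map_sub, h57p_push_single, h57p_push_single]
    exact single_sub_single_mem_redKer
      (h69w_restrict_sameRed A (degen h) (isIntegral_degen h) (degen_jBar h) hvw)
  | zero =>
    rw [map_zero]
    exact zero_mem _
  | add x y _ _ hx hy =>
    rw [map_add]
    exact add_mem hx hy
  | neg x _ hx =>
    rw [map_neg]
    exact neg_mem hx

/-- `π^*` maps `redKer N A` into `redKer M A`. -/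
theorem h57p_pull_mem_redKer (A : ValuationSubring Kbar) {D : Divisor Kbar (FF N)}
    (hD : D ∈ redKer N A) : h57pPull h D ∈ redKer M A := by
  haveI := Fermat.Agent.Red.HKMod.hasPrincipalDivisors_FF M
  exact Fermat.Agent.Red.TRK.ifaceTransferRed N M h A (isIntegral_degen h) D hD

/-- `Π` preserves `redKer M A`. -/
theorem h57p_Pi_mem_redKer (A : ValuationSubring Kbar) {D : Divisor Kbar (FF M)}
    (hD : D ∈ redKer M A) : h57pPi h D ∈ redKer M A :=
  h57p_pull_mem_redKer h A (h57p_push_mem_redKer h A hD)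

/-- the divisor of a pulled-back function is the pull-back of the divisor. -/
theorem h57p_pull_div_fun {y : FF N} {Δ : Divisor Kbar (FF N)}
    (hΔ : ∀ v : Place Kbar (FF N), Δ v = v.ord y) (w : Place Kbar (FF M)) :
    h57pPull h Δ w = w.ord (degen h y) := by
  haveI := Fermat.Agent.Red.HKMod.hasPrincipalDivisors_FF M
  show Divisor.pullbackAlong (degen h) (isIntegral_degen h) Δ w = _
  rw [Divisor.pullbackAlong_apply, Place.ord_restrictAlong (degen h) (isIntegral_degen h) w y,
    hΔ]

end Div

/-! ### Saturation and the divisor form of PULL-CLASS (good level `M`) -/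

section Good

variable {p : ℕ} {N M : ℕ} [NeZero N] [NeZero M] (A : ValuationSubring Kbar)

/-- **saturation of the kernel of reduction** at a good level. -/
theorem h57p_saturated (hp : p.Prime) (hM : ¬ p ∣ M) (haux : auxLevel p ∣ M)
    (hA : A.LiesOverPrime p) {n : ℤ} (hn : n ≠ 0) {E : Divisor Kbar (FF M)}
    (hE : n • E ∈ redKer M A) : E ∈ redKer M A := by
  have hr := h60a_isRed hp hM haux hA
  rw [← h60r_push_eq_zero_iff hr] at hE ⊢
  rw [map_zsmul] at hE
  rcases smul_eq_zero.mp hE with h0 | h0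
  · exact absurd h0 hn
  · exact h0

/-- **presentation of a Gauss unit** whose reduction has divisor divisible by `n`. -/
theorem h57p_pres_of_unit (hp : p.Prime) (hM : ¬ p ∣ M) (haux : auxLevel p ∣ M)
    (hA : A.LiesOverPrime p) {n : ℕ} (hn : 0 < n) {f : FF M} (hf : f ∈ gaussV A M)
    (hfi : f⁻¹ ∈ gaussV A M) (hf0 : f ≠ 0) (hdiv : H60aDiv A M n (h13sRed A M ⟨f, hf⟩)) :
    ∃ (D : Divisor.degZero (K := Kbar) (F := FF M)) (R : Divisor Kbar (FF M)),
      R ∈ redKer M A ∧
        ∀ v : Place Kbar (FF M), v.ord f = (n : ℤ) * (D : Divisor Kbar (FF M)) v + R v := by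
  have hr := h60a_isRed hp hM haux hA
  have hsp := h60r_deg_sf hp hM haux hA
  obtain ⟨s, hs⟩ := hr.1.hasRightInverse
  obtain ⟨Δ, hΔ, -⟩ := (h40r_base_FF (N := M)).pd f hf0
  set E := h60aDivN A M n (h13sRed A M ⟨f, hf⟩) with hE_def
  have hE : ∀ Q : Place (h13sK A) (h13sFt A M),
      (n : ℤ) * (E : Divisor (h13sK A) (h13sFt A M)) Q = Q.ord (h13sRed A M ⟨f, hf⟩) :=
    fun Q => h60a_divN_spec hp hM haux hA hn hdiv Q
  have hDdeg : Finsupp.mapDomain s (E : Divisor (h13sK A) (h13sFt A M)) ∈
      Divisor.degZero (K := Kbar) (F := FF M) := by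
    rw [Divisor.mem_degZero, h60r_degree_section hsp]
    exact Divisor.mem_degZero.1 E.2
  refine ⟨⟨_, hDdeg⟩, Δ - (n : ℤ) • Finsupp.mapDomain s (E : Divisor (h13sK A) (h13sFt A M)),
    ?_, fun v => ?_⟩
  · rw [← h60r_push_eq_zero_iff hr, map_sub, map_zsmul, h60r_push_section _ s hs]
    ext Q
    rw [Finsupp.sub_apply, Finsupp.smul_apply, smul_eq_mul, Finsupp.zero_apply,
      h60r_push_div_unit hr hf hfi hΔ Q, hE Q, sub_self]
  · rw [Finsupp.sub_apply, Finsupp.smul_apply, smul_eq_mul, ← hΔ v]
    ring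

/-- **PULL-CLASS, divisor form.**  `M` a good level, `N ∣ M`, `y₀ = π y₀₀` pulled back from
level `N` with `div y₀ = n D₁ + R₁`, `R₁ ∈ redKer`: then `Π D₁ - d D₁ ∈ redKer`. -/
theorem h57p_pull_div (hp : p.Prime) (hM : ¬ p ∣ M) (haux : auxLevel p ∣ M)
    (hA : A.LiesOverPrime p) (h : N ∣ M) {n : ℤ} (hn : n ≠ 0) {y : FF N} (hy : y ≠ 0)
    (D₁ R₁ : Divisor Kbar (FF M)) (hR₁ : R₁ ∈ redKer M A)
    (hdiv : ∀ v : Place Kbar (FF M), v.ord (degen h y) = n * D₁ v + R₁ v) :
    h57pPi h D₁ - (h57pDeg h : ℤ) • D₁ ∈ redKer M A := by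
  obtain ⟨Δ, hΔ, -⟩ := (h40r_base_FF (N := N)).pd y hy
  have e1 : h57pPull h Δ = n • D₁ + R₁ := by
    ext w
    rw [h57p_pull_div_fun h hΔ w, hdiv w, Finsupp.add_apply, Finsupp.smul_apply, smul_eq_mul]
  have e2 : h57pPi h (h57pPull h Δ) = (h57pDeg h : ℤ) • h57pPull h Δ := by
    show h57pPull h (h57pPush h (h57pPull h Δ)) = _
    rw [h57p_push_pull, map_zsmul]
  have e3 : n • (h57pPi h D₁ - (h57pDeg h : ℤ) • D₁) =
      -(h57pPi h R₁ - (h57pDeg h : ℤ) • R₁) := by
    have e4 := e2
    rw [e1, map_add, map_zsmul, smul_add] at e4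
    rw [smul_sub, smul_comm n ((h57pDeg h : ℤ)) D₁, neg_sub]
    rw [sub_eq_sub_iff_add_eq_add]
    rw [e4]
    exact add_comm _ _
  apply h57p_saturated A hp hM haux hA hn
  rw [e3]
  exact neg_mem (sub_mem (h57p_Pi_mem_redKer h A hR₁) ((redKer M A).zsmul_mem hR₁ _))

end Good

end Fermat.Agent.P7
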