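import Fermat.Agent.P7.H69RedHecke
import Fermat.Agent.P7.H69FinCls
import Fermat.Agent.P5.H69Level
import Fermat.Agent.S35.Skeleton
import Fermat.Agent.S29.Package
import Fermat.Agent.Red.TransferRedFinal
import Fermat.Agent.Red.HKComm.Main

/-!
# Wave 7, block (A) T-ABEL, leaf A3 PHI-RED (helper69; twin helper86 for the Hecke/degree facts)

`N ∣ M` two levels, `π = degen h : F_N → F_M` the degeneracy inclusion.

* `h69wPush h : J₀(M) →+ J₀(N)` : the push-forward `π_*` (`S35.pic0Push` along `degen h`);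
  the pull-back `π^*` is the landed `P5.h69vPull h : J₀(N) →+ J₀(M)`;
* `h69wAct N P : J₀(N) →+ J₀(N)` : the action of the Hecke polynomial `P` (`= P • ·` for
  `heckeModuleBar N`);
* `h69wTr h = π^* ∘ π_*`, `h69wPhi h P = π^* ∘ P ∘ π_*` : endomorphisms of `J₀(M)`.

Facts (every valuation subring `A` unless said otherwise):

* `h69wPush_mem`, `h69vPull_mem` : `π_*`, `π^*` respect the kernels of reduction `redKerPic`;
* `h69wTr_mem`; `h69wPhi_mem` (`A` over `p ∤ N`, `P` supported on the primes `ℓ ∤ N`):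
  `Φ (redKerPic M A) ⊆ redKerPic M A`;
* `h69wPush_galois`, `h69wAct_galois`, `h69wTr_galois`, `h69wPhi_galois` : equivariance under
  `G_ℚ`;
* `h69wPhi_torsion` : if `P` kills `J₀(N)[n]` then `Φ` kills `J₀(M)[n]`;
* `h69wPhiQuot` : the endomorphism induced by `Φ` on `J₀(M) ⧸ redKerPic M A`.
-/

set_option autoImplicit false
set_option linter.style.haveILetI false
set_option linter.unusedSectionVars false

open AlgebraicCurve ModularCurve

noncomputable section

namespace Fermat.Agent.P7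

open Fermat.Agent.S37 Fermat.Agent.P5

/-! ### The push-forward along a degeneracy inclusion -/

section Push

variable {N M : ℕ} [NeZero N] [NeZero M] (h : N ∣ M)

/-- **the push-forward `π_* : J₀(M) → J₀(N)`** along the degeneracy inclusion `F_N ⊆ F_M`. -/
def h69wPush : JZero M →+ JZero N :=
  Fermat.Agent.S35.pic0Push (degen h) (Fermat.Agent.Red.CH0.isIntegral_degen h)
    (Fermat.Agent.Red.CH0.finiteAlong_degen h) (Fermat.Agent.Red.CH0.normFormulaAlong_degen h)

theorem h69wPush_mk (D : Divisor.degZero (K := Kbar) (F := FF M)) :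
    h69wPush h (Pic0.mk D) =
      Pic0.mk (Fermat.Agent.S35.degZeroPush (degen h)
        (Fermat.Agent.Red.CH0.isIntegral_degen h) D) := rfl

/-- the push-forward commutes with the Galois action. -/
theorem h69wPush_galois (σ : GQ) (x : JZero M) : h69wPush h (σ • x) = σ • h69wPush h x := by
  obtain ⟨D, rfl⟩ := Pic0.mk_surjective x
  rw [galois_smul_pic0_def, galois_smul_pic0_def, SemilinearAut.pic0_smul_mk, h69wPush_mk,
    h69wPush_mk, SemilinearAut.pic0_smul_mk]
  refine congrArg Pic0.mk (Subtype.ext ?_)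
  show Divisor.pushforwardAlong (degen h) (Fermat.Agent.Red.CH0.isIntegral_degen h)
      (gal M σ • (D : Divisor Kbar (FF M)))
    = gal N σ • Divisor.pushforwardAlong (degen h) (Fermat.Agent.Red.CH0.isIntegral_degen h)
      (D : Divisor Kbar (FF M))
  exact Fermat.Agent.Red.HKGal.pushforwardAlong_smul (degen h)
    (Fermat.Agent.Red.CH0.isIntegral_degen h) (gal N σ) (gal M σ) (h69v_intertwines h σ)
    (fun v => by rw [Fermat.Agent.Red.HKMod.place_deg_FF N v]; exact one_ne_zero) _

/-- the push-forward of a place is its restriction. -/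
theorem h69w_push_single (u : Place Kbar (FF M)) :
    Divisor.pushforwardAlong (degen h) (Fermat.Agent.Red.CH0.isIntegral_degen h)
        (Finsupp.single u (1 : ℤ)) =
      Finsupp.single (u.restrictAlong (degen h) (Fermat.Agent.Red.CH0.isIntegral_degen h))
        (1 : ℤ) := by
  have h1 := Divisor.pushforwardAlong_single (degen h)
    (Fermat.Agent.Red.CH0.isIntegral_degen h) u (1 : ℤ)
  have h2 := Fermat.Agent.Red.GFF.inertiaDegAlong_eq_one_of_deg (degen h)
    (Fermat.Agent.Red.CH0.isIntegral_degen h) u (Fermat.Agent.Red.HKMod.place_deg_FF M u)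
  rw [h2, Nat.cast_one, mul_one] at h1
  exact h1

/-- **`π_*` maps `redKer M A` into `redKer N A`** (divisors; every `A`). -/
theorem h69w_push_redKer (A : ValuationSubring Kbar) {D : Divisor Kbar (FF M)}
    (hD : D ∈ redKer M A) :
    Divisor.pushforwardAlong (degen h) (Fermat.Agent.Red.CH0.isIntegral_degen h) D ∈
      redKer N A := by
  unfold redKer at hD
  induction hD using AddSubgroup.closure_induction with
  | mem D hD =>
    obtain ⟨v, w, hvw, rfl⟩ := hD
    rw [map_sub, h69w_push_single, h69w_push_single]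
    exact single_sub_single_mem_redKer
      (h69w_restrict_sameRed A (degen h) (Fermat.Agent.Red.CH0.isIntegral_degen h)
        (Fermat.Agent.Red.CH0.degen_jBar h) hvw)
  | zero =>
    rw [map_zero]
    exact zero_mem _
  | add x y _ _ hx hy =>
    rw [map_add]
    exact add_mem hx hy
  | neg x _ hx =>
    rw [map_neg]
    exact neg_mem hx

/-- **`π_*` maps `redKerPic M A` into `redKerPic N A`** (every `A`). -/
theorem h69wPush_mem (A : ValuationSubring Kbar) {x : JZero M} (hx : x ∈ redKerPic M A) :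
    h69wPush h x ∈ redKerPic N A := by
  obtain ⟨D, hD, rfl⟩ := hx
  exact ⟨Fermat.Agent.S35.degZeroPush (degen h) (Fermat.Agent.Red.CH0.isIntegral_degen h) D,
    h69w_push_redKer h A hD, rfl⟩

/-- **`π^*` maps `redKerPic N A` into `redKerPic M A`** (every `A`; landed TRK-a). -/
theorem h69vPull_mem (A : ValuationSubring Kbar) {x : JZero N} (hx : x ∈ redKerPic N A) :
    h69vPull h x ∈ redKerPic M A := by
  haveI := h69v_pd h
  obtain ⟨D, hD, rfl⟩ := hx
  exact ⟨h69vDegZero h D,
    Fermat.Agent.Red.TRK.ifaceTransferRed N M h A (h69v_hint h) (D : Divisor Kbar (FF N)) hD, rfl⟩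

end Push

/-! ### Hecke polynomials as additive endomorphisms -/

section Act

variable (N : ℕ) [NeZero N]

/-- the action of the Hecke polynomial `P` on `J₀(N)`, as an additive endomorphism. -/
def h69wAct (P : MvPolynomial Nat.Primes ℤ) : JZero N →+ JZero N :=
  (heckeEvalBar (Fermat.Agent.Red.HKComm.heckeOperatorsCommuteBar N) P).toAddMonoidHom

theorem h69wAct_apply (P : MvPolynomial Nat.Primes ℤ) (x : JZero N) :
    h69wAct N P x = (letI := heckeModuleBar N; P • x) :=
  (heckeModuleBar_smul_def (Fermat.Agent.Red.HKComm.heckeOperatorsCommuteBar N) P x).symm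

theorem h69wAct_X (ℓ : Nat.Primes) (x : JZero N) :
    h69wAct N (MvPolynomial.X ℓ) x = heckeOperatorBar N ℓ x := by
  show heckeEvalBar (Fermat.Agent.Red.HKComm.heckeOperatorsCommuteBar N) (heckeGen ℓ) x = _
  rw [heckeEvalBar_heckeGen]

theorem h69wAct_mul (P Q : MvPolynomial Nat.Primes ℤ) (x : JZero N) :
    h69wAct N (P * Q) x = h69wAct N P (h69wAct N Q x) := by
  show heckeEvalBar _ (P * Q) x = heckeEvalBar _ P (heckeEvalBar _ Q x)
  rw [map_mul]
  rfl

theorem h69wAct_C (a : ℤ) (x : JZero N) : h69wAct N (MvPolynomial.C a) x = a • x := by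
  rw [h69wAct_apply]
  exact heckeModuleBar_C_smul a x

/-- Hecke polynomials commute with the Galois action. -/
theorem h69wAct_galois (P : MvPolynomial Nat.Primes ℤ) (σ : GQ) (x : JZero N) :
    h69wAct N P (σ • x) = σ • h69wAct N P x :=
  Fermat.Agent.S29.pkg_heckeEvalBar_galois
    (Fermat.Agent.Red.HKComm.heckeOperatorsCommuteBar N)
    (Fermat.Agent.Red.HKComm.heckeGaloisCommute N).2 P σ x

/-- Hecke polynomials in the `T_ℓ`, `ℓ ∤ N`, respect the kernel of reduction (`A` over
`p ∤ N`). -/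
theorem h69wAct_mem {p : ℕ} (hp : p.Prime) (hpN : ¬ p ∣ N) (A : ValuationSubring Kbar)
    (hA : A.LiesOverPrime p) (P : MvPolynomial Nat.Primes ℤ)
    (hP : P ∈ MvPolynomial.supported ℤ {ℓ : Nat.Primes | ¬ (ℓ : ℕ) ∣ N})
    {x : JZero N} (hx : x ∈ redKerPic N A) : h69wAct N P x ∈ redKerPic N A := by
  rw [h69wAct_apply]
  exact h69w_smul_mem hp N hpN A hA P hP hx

end Act

/-! ### The operators `π^* π_*` and `Φ = π^* P π_*` -/

section Phi

variable {N M : ℕ} [NeZero N] [NeZero M] (h : N ∣ M)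

/-- `π^* ∘ π_*`, an endomorphism of `J₀(M)`. -/
def h69wTr : JZero M →+ JZero M := (h69vPull h).comp (h69wPush h)

/-- **`Φ = π^* ∘ P ∘ π_*`**, an endomorphism of `J₀(M)` (`P` a Hecke polynomial, acting at the
level `N`). -/
def h69wPhi (P : MvPolynomial Nat.Primes ℤ) : JZero M →+ JZero M :=
  (h69vPull h).comp ((h69wAct N P).comp (h69wPush h))

theorem h69wTr_apply (x : JZero M) : h69wTr h x = h69vPull h (h69wPush h x) := rfl

theorem h69wPhi_apply (P : MvPolynomial Nat.Primes ℤ) (x : JZero M) :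
    h69wPhi h P x = h69vPull h (h69wAct N P (h69wPush h x)) := rfl

theorem h69wPhi_smul (P : MvPolynomial Nat.Primes ℤ) (x : JZero M) :
    h69wPhi h P x = h69vPull h (letI := heckeModuleBar N; P • h69wPush h x) := by
  rw [h69wPhi_apply, h69wAct_apply]

/-- `Φ` for `P = 1` is `π^* π_*`. -/
theorem h69wPhi_one (x : JZero M) : h69wPhi h 1 x = h69wTr h x := by
  rw [h69wPhi_apply, h69wTr_apply]
  congr 1
  have e := h69wAct_C N 1 (h69wPush h x)
  rw [one_smul] at e
  exact e

/-- `Φ_{C t * P} = t • Φ_P`. -/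
theorem h69wPhi_C_mul (t : ℤ) (P : MvPolynomial Nat.Primes ℤ) (x : JZero M) :
    h69wPhi h (MvPolynomial.C t * P) x = t • h69wPhi h P x := by
  rw [h69wPhi_apply, h69wPhi_apply, h69wAct_mul, h69wAct_C, map_zsmul]

theorem h69wTr_mem (A : ValuationSubring Kbar) {x : JZero M} (hx : x ∈ redKerPic M A) :
    h69wTr h x ∈ redKerPic M A :=
  h69vPull_mem h A (h69wPush_mem h A hx)

/-- **`Φ` respects the kernel of reduction** (`A` over `p ∤ N`, `P` a polynomial in the `T_ℓ`,
`ℓ ∤ N`). -/
theorem h69wPhi_mem {p : ℕ} (hp : p.Prime) (hpN : ¬ p ∣ N) (A : ValuationSubring Kbar)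
    (hA : A.LiesOverPrime p) (P : MvPolynomial Nat.Primes ℤ)
    (hP : P ∈ MvPolynomial.supported ℤ {ℓ : Nat.Primes | ¬ (ℓ : ℕ) ∣ N})
    {x : JZero M} (hx : x ∈ redKerPic M A) : h69wPhi h P x ∈ redKerPic M A :=
  h69vPull_mem h A (h69wAct_mem N hp hpN A hA P hP (h69wPush_mem h A hx))

theorem h69wTr_galois (σ : GQ) (x : JZero M) : h69wTr h (σ • x) = σ • h69wTr h x := by
  rw [h69wTr_apply, h69wTr_apply, h69wPush_galois, h69vPull_galois]

/-- **`Φ` commutes with the Galois action.** -/
theorem h69wPhi_galois (P : MvPolynomial Nat.Primes ℤ) (σ : GQ) (x : JZero M) :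
    h69wPhi h P (σ • x) = σ • h69wPhi h P x := by
  rw [h69wPhi_apply, h69wPhi_apply, h69wPush_galois, h69wAct_galois, h69vPull_galois]

/-- **`Φ` kills the `n`-torsion of `J₀(M)` as soon as `P` kills the `n`-torsion of `J₀(N)`.** -/
theorem h69wPhi_torsion (P : MvPolynomial Nat.Primes ℤ) (n : ℕ)
    (hkill : ∀ y : JZero N, n • y = 0 → (letI := heckeModuleBar N; P • y) = 0)
    (x : JZero M) (hx : n • x = 0) : h69wPhi h P x = 0 := by
  rw [h69wPhi_smul, hkill (h69wPush h x) (by rw [← map_nsmul, hx, map_zero]), map_zero]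

/-- the endomorphism induced by `Φ` on `J₀(M) ⧸ redKerPic M A`. -/
def h69wPhiQuot {p : ℕ} (hp : p.Prime) (hpN : ¬ p ∣ N) (A : ValuationSubring Kbar)
    (hA : A.LiesOverPrime p) (P : MvPolynomial Nat.Primes ℤ)
    (hP : P ∈ MvPolynomial.supported ℤ {ℓ : Nat.Primes | ¬ (ℓ : ℕ) ∣ N}) :
    (JZero M ⧸ redKerPic M A) →+ (JZero M ⧸ redKerPic M A) :=
  QuotientAddGroup.map (redKerPic M A) (redKerPic M A) (h69wPhi h P)
    (fun _ hx => h69wPhi_mem h hp hpN A hA P hP hx)

theorem h69wPhiQuot_mk {p : ℕ} (hp : p.Prime) (hpN : ¬ p ∣ N) (A : ValuationSubring Kbar)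
    (hA : A.LiesOverPrime p) (P : MvPolynomial Nat.Primes ℤ)
    (hP : P ∈ MvPolynomial.supported ℤ {ℓ : Nat.Primes | ¬ (ℓ : ℕ) ∣ N}) (x : JZero M) :
    h69wPhiQuot h hp hpN A hA P hP (QuotientAddGroup.mk x) =
      QuotientAddGroup.mk (h69wPhi h P x) :=
  rfl

end Phi

end Fermat.Agent.P7
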