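import Fermat.Agent.S35.HK.H41PushComm
import Fermat.Agent.P5.H69Level

/-!
# Wave 7, block (A), leaf A3 PHI (twin helper86, prefix `h86p_`): push-forward along a general
degeneracy inclusion `F_N ⊆ F_M`, `N ∣ M`

* `h86pPush h : J₀(M) →+ J₀(N)` : the push-forward of divisor classes along `degen h`;
* `h86p_push_hecke` : it commutes with the Hecke operators `T_r`, `r ∤ M`
  (base change in the square `F_N → F_M`, `F_N → F_{N r}`, generation by `GEN`, degrees by `DEG`);
* `h86p_push_smul` : it commutes with every Hecke polynomial supported off `M`;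
* `h86p_push_pull` : `π_* π^* = [F_M : F_N]` on `J₀(N)` (`π^*` = the landed `P5.h69vPull h`);
* `h86p_finrank` : `[F_M : F_N] ψ(N) = ψ(M)`.
-/

set_option autoImplicit false
set_option linter.style.haveILetI false
set_option linter.unusedSectionVars false

open AlgebraicCurve ModularCurve IntermediateField

noncomputable section

namespace Fermat.Agent.P7

open Fermat.Agent.S24 (Kbar FF jBar jdBar cst)
open Fermat.Agent.S37 (degen coe_degen)
open Fermat.Agent.S35
open Fermat.Agent.Red.HKMod
open Fermat.Agent.Red.HKComm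
open Fermat.Agent.Red.Kron

/-- principal divisors of `F_M` (local instance). -/
local instance h86p_instPD (M : ℕ) [NeZero M] : HasPrincipalDivisors Kbar (FF M) :=
  hasPrincipalDivisors_FF M

/-- `F_M` is finite over `K(j)` (local instance). -/
local instance h86p_instFD (M : ℕ) [NeZero M] : FiniteDimensional Kbar⟮jBar M⟯ (FF M) :=
  finiteDimensional_jBar M

/-! ## the degeneracy inclusion as `δ(1)` -/

theorem h86p_degen_eq {N M : ℕ} [NeZero N] [NeZero M] (h : N ∣ M) (h1 : N * 1 ∣ M) :
    degen h = degenE 1 h1 :=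
  AlgHom.ext fun x => Subtype.ext <| by
    rw [coe_degen, coe_degenE, qExpand_one_apply]

/-! ## degrees -/

/-- `[F_{M r} : F_{N r}] = [F_M : F_N]` for a prime `r ∤ M`. -/
theorem h86p_deg {N M r : ℕ} [NeZero N] [NeZero M] [NeZero r] (hr : r.Prime) (hrM : ¬ r ∣ M)
    (hα : N * 1 ∣ M) (ha : N * r * 1 ∣ M * r) :
    finrankAlong Kbar (degenE 1 ha) = finrankAlong Kbar (degenE 1 hα) := by
  have hNM : N ∣ M := by rwa [mul_one] at hα
  have hrN : ¬ r ∣ N := fun h => hrM (h.trans hNM)
  have h1 := h52deg_deg (N * r) (M * r) ha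
  have h2 := h52deg_deg N M hα
  have hcN : N.Coprime r := (Nat.Coprime.symm ((Nat.Prime.coprime_iff_not_dvd hr).mpr hrN))
  have hcM : M.Coprime r := (Nat.Coprime.symm ((Nat.Prime.coprime_iff_not_dvd hr).mpr hrM))
  have h3 : dedekindPsi (N * r) = dedekindPsi N * dedekindPsi r :=
    Fermat.Agent.S21.C1.dedekindPsi_mul hcN
  have h4 : dedekindPsi (M * r) = dedekindPsi M * dedekindPsi r :=
    Fermat.Agent.S21.C1.dedekindPsi_mul hcM
  have hN : dedekindPsi N ≠ 0 := hksq_dedekindPsi_ne_zero N (NeZero.ne N)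
  have hr0 : dedekindPsi r ≠ 0 := hksq_dedekindPsi_ne_zero r (NeZero.ne r)
  have h5 : finrankAlong Kbar (degenE 1 ha) * (dedekindPsi N * dedekindPsi r) =
      finrankAlong Kbar (degenE 1 hα) * (dedekindPsi N * dedekindPsi r) := by
    calc finrankAlong Kbar (degenE 1 ha) * (dedekindPsi N * dedekindPsi r)
        = dedekindPsi (M * r) := by rw [← h3, h1]
      _ = dedekindPsi M * dedekindPsi r := h4
      _ = finrankAlong Kbar (degenE 1 hα) * (dedekindPsi N * dedekindPsi r) := by
          rw [← h2]; ring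
  exact Nat.eq_of_mul_eq_mul_right
    (Nat.pos_of_ne_zero (mul_ne_zero hN hr0)) h5

/-! ## push-forward and the Hecke correspondence on divisors -/

/-- `δ(1)_* ∘ T_r = T_r ∘ δ(1)_*` on divisors, for `N ∣ M` and a prime `r ∤ M`. -/
theorem h86p_push_corr {N M r : ℕ} [NeZero N] [NeZero M] [NeZero r] (hr : r.Prime)
    (hrM : ¬ r ∣ M) (hα : N * 1 ∣ M)
    (h1 : M * 1 ∣ M * r) (hrr : M * r ∣ M * r)
    (h1' : N * 1 ∣ N * r) (hrr' : N * r ∣ N * r)
    (D : Divisor Kbar (FF M)) :
    Divisor.pushforwardAlong (degenE 1 hα) (isIntegral_degenE 1 hα)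
        (corrE M (M * r) 1 r h1 hrr D)
      = corrE N (N * r) 1 r h1' hrr'
          (Divisor.pushforwardAlong (degenE 1 hα) (isIntegral_degenE 1 hα) D) := by
  have hNM : N ∣ M := by rwa [mul_one] at hα
  have ha : N * r * 1 ∣ M * r := by
    rw [mul_one]
    exact mul_dvd_mul_right hNM r
  have hdeg := h86p_deg hr hrM hα ha
  have hgen : (degenE 1 ha).fieldRange ⊔ (degenE r hrr).fieldRange = ⊤ :=
    hksq_generation gen M (N * r) (M * r) r rfl ha hrr
  have hBC := h41h_baseChange 1 r hα hrr' ha hrr hdeg hgen D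
  rw [corrE_apply, corrE_apply, hBC]
  have hE : N * (1 * 1) ∣ M * r := by
    rw [mul_one, mul_one]
    exact hNM.trans (dvd_mul_right _ _)
  have e1 : (degenE 1 h1).comp (degenE 1 hα) = degenE (1 * 1) hE := degenE_comp 1 1 hα h1 hE
  have e2 : (degenE 1 ha).comp (degenE 1 h1') = degenE (1 * 1) hE :=
    degenE_comp 1 1 h1' ha hE
  have e12 : (degenE 1 h1).comp (degenE 1 hα) = (degenE 1 ha).comp (degenE 1 h1') := by
    rw [e1, e2]
  have hi1 : ((degenE 1 h1).comp (degenE 1 hα)).toRingHom.IsIntegral := by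
    rw [e1]
    exact isIntegral_degenE _ _
  have hi2 : ((degenE 1 ha).comp (degenE 1 h1')).toRingHom.IsIntegral := by
    rw [e2]
    exact isIntegral_degenE _ _
  rw [← Fermat.Agent.Red.GFF.pushforwardAlong_comp (degenE 1 hα) (degenE 1 h1)
      (isIntegral_degenE 1 hα) (isIntegral_degenE 1 h1) hi1 (place_deg_FF M)
      (place_deg_FF (M * r)),
    ← Fermat.Agent.Red.GFF.pushforwardAlong_comp (degenE 1 h1') (degenE 1 ha)
      (isIntegral_degenE 1 h1') (isIntegral_degenE 1 ha) hi2 (place_deg_FF (N * r))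
      (place_deg_FF (M * r)),
    hkc_pushforwardAlong_congr e12 hi1 hi2]

/-! ## the push-forward on `J₀` -/

section Class

variable {N M : ℕ} [NeZero N] [NeZero M] (h : N ∣ M)

/-- the push-forward `π_* : J₀(M) →+ J₀(N)` along the degeneracy inclusion `F_N ⊆ F_M`. -/
def h86pPush : JZero M →+ JZero N :=
  pic0Push (degen h) (Fermat.Agent.Red.CH0.isIntegral_degen h)
    (Fermat.Agent.Red.CH0.finiteAlong_degen h) (Fermat.Agent.Red.CH0.normFormulaAlong_degen h)

theorem h86pPush_mk (D : Divisor.degZero (K := Kbar) (F := FF M)) :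
    h86pPush h (Pic0.mk D)
      = Pic0.mk (degZeroPush (degen h) (Fermat.Agent.Red.CH0.isIntegral_degen h) D) :=
  rfl

/-- `π_* ∘ T_r = T_r ∘ π_*` on divisors, for a prime `r ∤ M`. -/
theorem h86p_push_heckeDivBar (r : ℕ) [NeZero r] (hr : r.Prime) (hrM : ¬ r ∣ M)
    (D : Divisor Kbar (FF M)) :
    Divisor.pushforwardAlong (degen h) (Fermat.Agent.Red.CH0.isIntegral_degen h)
        (heckeDivBar (heckeAlphaBarIntegral M r) (heckeBetaBarIntegral M r) D)
      = heckeDivBar (heckeAlphaBarIntegral N r) (heckeBetaBarIntegral N r)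
          (Divisor.pushforwardAlong (degen h) (Fermat.Agent.Red.CH0.isIntegral_degen h) D) := by
  have hα : N * 1 ∣ M := by
    rw [mul_one]
    exact h
  have h1 : M * 1 ∣ M * r := by
    rw [mul_one]
    exact dvd_mul_right _ _
  have h1' : N * 1 ∣ N * r := by
    rw [mul_one]
    exact dvd_mul_right _ _
  rw [heckeDivBar_eq_corrE M r, heckeDivBar_eq_corrE N r,
    hkc_pushforwardAlong_congr (h86p_degen_eq h hα) (Fermat.Agent.Red.CH0.isIntegral_degen h)
      (isIntegral_degenE 1 hα)]
  exact h86p_push_corr hr hrM hα h1 (dvd_refl _) h1' (dvd_refl _) D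

/-- **push–Hecke.**  `π_* : J₀(M) → J₀(N)` commutes with the Hecke operators `T_r`, `r ∤ M`. -/
theorem h86p_push_hecke (r : Nat.Primes) (hr : ¬ (r : ℕ) ∣ M) (y : JZero M) :
    h86pPush h (heckeOperatorBar M r y) = heckeOperatorBar N r (h86pPush h y) := by
  haveI : NeZero (r : ℕ) := ⟨r.2.ne_zero⟩
  obtain ⟨D, rfl⟩ := Pic0.mk_surjective y
  rw [heckeOperatorBar_mk M r D, h86pPush_mk, h86pPush_mk, heckeOperatorBar_mk N r]
  congr 1
  apply Subtype.ext
  exact h86p_push_heckeDivBar h r r.2 hr D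

/-- **push–Hecke, polynomial form.**  `π_*` commutes with every polynomial in the `T_r`,
`r ∤ M`. -/
theorem h86p_push_smul (P : MvPolynomial Nat.Primes ℤ)
    (hP : P ∈ MvPolynomial.supported ℤ {ℓ : Nat.Primes | ¬ (ℓ : ℕ) ∣ M}) (y : JZero M) :
    h86pPush h (letI := heckeModuleBar M; P • y)
      = (letI := heckeModuleBar N; P • h86pPush h y) := by
  letI iM := heckeModuleBar M
  letI iN := heckeModuleBar N
  have hcM : HeckeOperatorsCommuteBar M := Fermat.Agent.Red.HKComm.heckeOperatorsCommuteBar M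
  have hcN : HeckeOperatorsCommuteBar N := Fermat.Agent.Red.HKComm.heckeOperatorsCommuteBar N
  show h86pPush h (P • y) = P • h86pPush h y
  rw [MvPolynomial.supported_eq_adjoin_X] at hP
  induction hP using Algebra.adjoin_induction generalizing y with
  | mem Q hQ =>
    obtain ⟨ℓ, hℓ, rfl⟩ := hQ
    have e1 : (MvPolynomial.X ℓ : MvPolynomial Nat.Primes ℤ) • y = heckeOperatorBar M ℓ y :=
      heckeModuleBar_heckeGen_smul hcM ℓ y
    have e2 : (MvPolynomial.X ℓ : MvPolynomial Nat.Primes ℤ) • h86pPush h y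
        = heckeOperatorBar N ℓ (h86pPush h y) :=
      heckeModuleBar_heckeGen_smul hcN ℓ (h86pPush h y)
    rw [e1, e2]
    exact h86p_push_hecke h ℓ hℓ y
  | algebraMap r =>
    have e1 : (algebraMap ℤ (MvPolynomial Nat.Primes ℤ) r) • y = r • y :=
      heckeModuleBar_C_smul r y
    have e2 : (algebraMap ℤ (MvPolynomial Nat.Primes ℤ) r) • h86pPush h y
        = r • h86pPush h y :=
      heckeModuleBar_C_smul r (h86pPush h y)
    rw [e1, e2, map_zsmul]
  | add Q R _ _ hQ hR =>
    rw [add_smul, add_smul, map_add, hQ, hR]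
  | mul Q R _ _ hQ hR =>
    rw [mul_smul, mul_smul, hQ, hR]

/-! ## `π_* π^* = [F_M : F_N]` -/

/-- `π_* π^* D = [F_M : F_N] D` on divisors. -/
theorem h86p_push_pull_div (D : Divisor Kbar (FF N)) :
    Divisor.pushforwardAlong (degen h) (Fermat.Agent.Red.CH0.isIntegral_degen h)
        (Divisor.pullbackAlong (degen h) (Fermat.Agent.Red.CH0.isIntegral_degen h) D)
      = (finrankAlong Kbar (degen h) : ℤ) • D := by
  induction D using Finsupp.induction_linear with
  | zero => simp
  | add D E hD hE => rw [map_add, map_add, hD, hE, smul_add]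
  | single v n =>
    rw [Divisor.pullbackAlong_single, map_sum]
    have key : ∀ W ∈ Place.fiberAlong (degen h) (Fermat.Agent.Red.CH0.isIntegral_degen h) v,
        Divisor.pushforwardAlong (degen h) (Fermat.Agent.Red.CH0.isIntegral_degen h)
          (Finsupp.single W (n * (W.ramificationIndexAlong (degen h) : ℤ)))
        = Finsupp.single v (n * (W.ramificationIndexAlong (degen h) : ℤ)) := by
      intro W hW
      rw [Divisor.pushforwardAlong_single,
        hkc_inertiaDegAlong_eq_one (degen h) (Fermat.Agent.Red.CH0.isIntegral_degen h)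
          (Fermat.Agent.Red.CH0.finiteAlong_degen h) (jBar M) W,
        Place.mem_fiberAlong.mp hW, Nat.cast_one, mul_one]
    rw [Finset.sum_congr rfl key, ← Finsupp.single_finsetSum, ← Finset.mul_sum,
      Fermat.Agent.Red.GFF.sum_ramificationIndexAlong_eq_finrankAlong (degen h)
        (Fermat.Agent.Red.CH0.isIntegral_degen h) (Fermat.Agent.Red.CH0.finiteAlong_degen h)
        (jBar M) v,
      Finsupp.smul_single, smul_eq_mul, mul_comm]

/-- **push ∘ pull.**  `π_* π^* = [F_M : F_N]` on `J₀(N)`. -/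
theorem h86p_push_pull (x : JZero N) :
    h86pPush h (Fermat.Agent.P5.h69vPull h x) = finrankAlong Kbar (degen h) • x := by
  obtain ⟨D, rfl⟩ := Pic0.mk_surjective x
  rw [Fermat.Agent.P5.h69vPull_mk, h86pPush_mk]
  have e : degZeroPush (degen h) (Fermat.Agent.Red.CH0.isIntegral_degen h)
      (Fermat.Agent.P5.h69vDegZero h D) = finrankAlong Kbar (degen h) • D := by
    apply Subtype.ext
    have := h86p_push_pull_div h (D : Divisor Kbar (FF N))
    rw [natCast_zsmul] at this
    exact this
  rw [e]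
  rfl

/-- `[F_M : F_N] ψ(N) = ψ(M)`. -/
theorem h86p_finrank : finrankAlong Kbar (degen h) * dedekindPsi N = dedekindPsi M := by
  have hα : N * 1 ∣ M := by
    rw [mul_one]
    exact h
  rw [h86p_degen_eq h hα]
  exact h52deg_deg N M hα

end Class

end Fermat.Agent.P7
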