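import Fermat.Agent.P7.H57PullClass
import Fermat.Agent.P7.H69Phi
import Fermat.Agent.P7.H86PhiHecke
import Fermat.Agent.Jac.HANNorm

/-!
# Wave 7 (S40), block (A), row T-A4-CLASS, part (A4-b) PULL-CLASS on classes (helper57,
prefix `h57p_`)

`N ∣ M`, `M` a good level (`p ∤ M`, `auxLevel p ∣ M`), `π = degen : F_N → F_M`,
`π' = degen : F_{N p} → F_{M p}`, `Π = π^* π_*` (`h69wTr`), `d = [F_M : F_N]`.

* `h57p_tr_sub_mem` : class form of `h57p_pull_div`;
* `h57p_deg_eq` : `[F_{M p} : F_{N p}] = [F_M : F_N]`;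
* `h57p_hPi` : `Π' (π'^* x₀) = d • π'^* x₀` (the hypothesis `hPi` of `h89q_occ_plus'`);
* `h57p_pres_pull` : the pull-back of a presentation is a presentation;
* `h57p_class_tr` (**PULL-CLASS**) : for `x = π'^* x₀ ∈ X₀` and every `y` with `c x = [y]`:
  `Π y - d • y ∈ redKerPic M A`;
* `h57p_heqPi` : the hypothesis `heqPi` of `h89q_occ_plus'` for `(h60bX0, h60bC)`.
-/

set_option autoImplicit false
set_option linter.unusedSectionVars false
set_option linter.unusedVariables false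
set_option linter.style.haveILetI false

open AlgebraicCurve ModularCurve IsLocalRing

noncomputable section

namespace Fermat.Agent.P7

open Fermat.Agent.S37 Fermat.Agent.Red.HKMod Fermat.Agent.Red.CH0
open Fermat.Agent.Red.GV Fermat.Agent.Red.GV.Soft Fermat.Agent.P5

section Cls

variable {N M : ℕ} [NeZero N] [NeZero M] (h : N ∣ M)

/-- `Π` on classes is `Π` on divisors. -/
theorem h57p_tr_mk (D : Divisor.degZero (K := Kbar) (F := FF M)) :
    ∃ E : Divisor.degZero (K := Kbar) (F := FF M),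
      (E : Divisor Kbar (FF M)) = h57pPi h (D : Divisor Kbar (FF M)) ∧
        h69wTr h (Pic0.mk D) = Pic0.mk E :=
  ⟨h69vDegZero h (Fermat.Agent.S35.degZeroPush (degen h) (isIntegral_degen h) D), rfl, rfl⟩

/-- class form of `h57p_pull_div`. -/
theorem h57p_tr_sub_mem (A : ValuationSubring Kbar)
    (D : Divisor.degZero (K := Kbar) (F := FF M))
    (hD : h57pPi h (D : Divisor Kbar (FF M)) - (h57pDeg h : ℤ) • (D : Divisor Kbar (FF M)) ∈
      redKer M A) :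
    h69wTr h (Pic0.mk D) - h57pDeg h • (Pic0.mk D : JZero M) ∈ redKerPic M A := by
  obtain ⟨E, hE, e⟩ := h57p_tr_mk h D
  refine ⟨E - h57pDeg h • D, ?_, ?_⟩
  · rw [AddSubgroup.coe_sub, AddSubgroup.coe_nsmul, hE, ← natCast_zsmul]
    exact hD
  · rw [e]
    rfl

end Cls

/-! ### The degree at level `N p → M p` -/

section Deg

variable {p : ℕ} [NeZero p] {N M : ℕ} [NeZero N] [NeZero M]

/-- **`[F_{M p} : F_{N p}] = [F_M : F_N]`** for `p ∤ M`. -/
theorem h57p_deg_eq (hp : p.Prime) (hM : ¬ p ∣ M) (h : N ∣ M) :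
    h57pDeg (mul_dvd_mul_right h p) = h57pDeg h := by
  have hN : ¬ p ∣ N := fun hpN => hM (hpN.trans h)
  have e1 := h86p_finrank (mul_dvd_mul_right h p)
  have e2 := h86p_finrank h
  rw [Fermat.Agent.Jac.h12_dedekindPsi_mul_prime N p hp hN,
    Fermat.Agent.Jac.h12_dedekindPsi_mul_prime M p hp hM, ← e2, ← mul_assoc] at e1
  have h3 : 0 < dedekindPsi N := Fermat.Agent.Jac.h12_dedekindPsi_pos N
  have h4 := Nat.eq_of_mul_eq_mul_right (Nat.succ_pos p) e1
  exact Nat.eq_of_mul_eq_mul_right h3 h4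

/-- **`hPi`** : `Π' (π'^* x₀) = d • π'^* x₀`. -/
theorem h57p_hPi (hp : p.Prime) (hM : ¬ p ∣ M) (h : N ∣ M) (x₀ : JZero (N * p)) :
    h69wTr (mul_dvd_mul_right h p) (h69vPull (mul_dvd_mul_right h p) x₀) =
      h57pDeg h • h69vPull (mul_dvd_mul_right h p) x₀ := by
  rw [h69wTr_apply]
  have e := h86p_push_pull (mul_dvd_mul_right h p) x₀
  have e' : h69wPush (mul_dvd_mul_right h p) (h69vPull (mul_dvd_mul_right h p) x₀) =
      h57pDeg (mul_dvd_mul_right h p) • x₀ := e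
  rw [e', map_nsmul, h57p_deg_eq hp hM h]

end Deg

/-! ### PULL-CLASS -/

section Main

variable {p : ℕ} [NeZero p] {N M : ℕ} [NeZero N] [NeZero M] {A : ValuationSubring Kbar}

/-- the pull-back of a presentation is a presentation. -/
theorem h57p_pres_pull (h : N ∣ M) {n : ℕ} {x₀ : JZero (N * p)}
    {D₀ : Divisor.degZero (K := Kbar) (F := FF (N * p))} {u₀ : FF (N * p)}
    (h₀ : H60bPres A N p n x₀ D₀ u₀) :
    H60bPres A M p n (h69vPull (mul_dvd_mul_right h p) x₀)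
      (h69vDegZero (mul_dvd_mul_right h p) D₀) (degen (mul_dvd_mul_right h p) u₀) where
  cls := by rw [← h₀.cls, h69vPull_mk]
  div v := by
    have h1 := h57p_pull_div_fun (mul_dvd_mul_right h p) (y := u₀)
      (Δ := (n : ℤ) • (D₀ : Divisor Kbar (FF (N * p))))
      (fun w => by rw [Finsupp.smul_apply, smul_eq_mul]; exact (h₀.div w).symm) v
    rw [← h1, map_zsmul, Finsupp.smul_apply, smul_eq_mul]
    rfl
  mem := (degen_mem_softV_iff A (mul_dvd_mul_right h p) u₀).mpr h₀.mem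
  inv_mem := by
    rw [← map_inv₀]
    exact (degen_mem_softV_iff A (mul_dvd_mul_right h p) _).mpr h₀.inv_mem
  ne_zero := (map_ne_zero_iff _ (degen (mul_dvd_mul_right h p)).injective).mpr h₀.ne_zero

/-- **PULL-CLASS.**  `M` a good level, `N ∣ M`, `x = π'^* x₀` a class of `X₀` pulled back from
the level `N p`: every representative `y` of `c x` satisfies `Π y ≡ d y` modulo the kernel of
reduction. -/
theorem h57p_class_tr (hp : p.Prime) (hM : ¬ p ∣ M) (haux : auxLevel p ∣ M)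
    (hA : A.LiesOverPrime p) (h : N ∣ M) {n : ℕ} (hn : 0 < n)
    {x₀ : JZero (N * p)} (hx₀ : n • x₀ = 0)
    (hx : h69vPull (mul_dvd_mul_right h p) x₀ ∈ h60bX0 hp hM hA n) {y : JZero M}
    (hy : h60bC hp hM haux hA hn ⟨h69vPull (mul_dvd_mul_right h p) x₀, hx⟩ =
      QuotientAddGroup.mk y) :
    h69wTr h y - h57pDeg h • y ∈ redKerPic M A := by
  have hN : ¬ p ∣ N := fun hpN => hM (hpN.trans h)
  obtain ⟨D₀, u₀, h₀⟩ := h60b_exists_pres (M := N) hp hA hx₀
  have hpres := h57p_pres_pull (A := A) h h₀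
  -- the reduction at `W_∞`, at the level `N`
  obtain ⟨y₀₀, hy₀₀, hy₀₀0, hy₀₀i, e₀⟩ :=
    h26w_resdeg_unit A N p hp hN hA u₀ h₀.mem h₀.inv_mem h₀.ne_zero
  have hy₀S : degen h y₀₀ ∈ softV A M := (degen_mem_softV_iff A h y₀₀).mpr hy₀₀
  have hy₀iS : (degen h y₀₀)⁻¹ ∈ softV A M := by
    rw [← map_inv₀]
    exact (degen_mem_softV_iff A h _).mpr hy₀₀i
  have hy₀G : degen h y₀₀ ∈ gaussV A M := softV_le_gaussV A M hp hM hA hy₀S
  have hy₀iG : (degen h y₀₀)⁻¹ ∈ gaussV A M := softV_le_gaussV A M hp hM hA hy₀iS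
  have hy₀0 : degen h y₀₀ ≠ 0 := (map_ne_zero_iff _ (degen h).injective).mpr hy₀₀0
  have e1 : softR A M ⟨degen h y₀₀, gaussV_le_softV A M hy₀G⟩ =
      softR A (M * p) ⟨degen (mul_dvd_mul_right h p) u₀, hpres.mem⟩ := by
    rw [softR_degen A h ⟨y₀₀, hy₀₀⟩, softR_degen A (mul_dvd_mul_right h p) ⟨u₀, h₀.mem⟩]
    exact e₀
  have e2 : h60bRedU hp hM hA (degen (mul_dvd_mul_right h p) u₀) =
      h13sRed A M ⟨degen h y₀₀, hy₀G⟩ := by
    rw [h60b_redU_of_mem hp hM hA hpres.mem]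
    exact h60b_redInf_eq_of_level hp hM hA hpres.mem hy₀G e1
  have hd := h60b_div_of_mem hp hM haux hA hn hx hpres
  rw [e2] at hd
  obtain ⟨D₁, R₁, hR₁, hdiv⟩ := h57p_pres_of_unit A hp hM haux hA hn hy₀G hy₀iG hy₀0 hd
  have hc : h60bC hp hM haux hA hn ⟨h69vPull (mul_dvd_mul_right h p) x₀, hx⟩ =
      h60aQ A (Pic0.mk D₁) := by
    rw [h60b_C_spec hp hM haux hA hn hx hpres, e2]
    exact h60a_cls_of_unit hp hM haux hA hn hy₀G hy₀iG D₁ R₁ hR₁ hdiv
  have hyD : y - Pic0.mk D₁ ∈ redKerPic M A := by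
    rw [hc] at hy
    have h2 : (QuotientAddGroup.mk (y - Pic0.mk D₁) : JZero M ⧸ redKerPic M A) = 0 := by
      rw [QuotientAddGroup.mk_sub, ← hy]
      exact sub_self _
    exact (QuotientAddGroup.eq_zero_iff _).mp h2
  have hD₁ := h57p_tr_sub_mem h A D₁
    (h57p_pull_div A hp hM haux hA h (n := (n : ℤ)) (by exact_mod_cast hn.ne') hy₀₀0
      (D₁ : Divisor Kbar (FF M)) R₁ hR₁ hdiv)
  have e3 : h69wTr h y - h57pDeg h • y =
      (h69wTr h (y - Pic0.mk D₁) - h57pDeg h • (y - Pic0.mk D₁)) +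
        (h69wTr h (Pic0.mk D₁) - h57pDeg h • (Pic0.mk D₁ : JZero M)) := by
    rw [map_sub, nsmul_sub]
    abel
  rw [e3]
  exact add_mem (sub_mem (h69wTr_mem h A hyD) ((redKerPic M A).nsmul_mem hyD _)) hD₁

/-- **the hypothesis `heqPi` of `h89q_occ_plus'`** for `(X₀, c) = (h60bX0, h60bC)`,
`Π' = h69wTr` at the level `M p`, `Π = h69wTr` at the level `M`, `x = π'^* x₀`. -/
theorem h57p_heqPi (hp : p.Prime) (hM : ¬ p ∣ M) (haux : auxLevel p ∣ M)
    (hA : A.LiesOverPrime p) (h : N ∣ M) {n : ℕ} (hn : 0 < n)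
    {x₀ : JZero (N * p)} (hx₀ : n • x₀ = 0)
    (hx : h69vPull (mul_dvd_mul_right h p) x₀ ∈ h60bX0 hp hM hA n)
    (hPix : h69wTr (mul_dvd_mul_right h p) (h69vPull (mul_dvd_mul_right h p) x₀) ∈
      h60bX0 hp hM hA n) (y : JZero M)
    (hy : h60bC hp hM haux hA hn ⟨h69vPull (mul_dvd_mul_right h p) x₀, hx⟩ =
      QuotientAddGroup.mk y) :
    h60bC hp hM haux hA hn
        ⟨h69wTr (mul_dvd_mul_right h p) (h69vPull (mul_dvd_mul_right h p) x₀), hPix⟩ =
      QuotientAddGroup.mk (h69wTr h y) := by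
  have e1 : (⟨h69wTr (mul_dvd_mul_right h p) (h69vPull (mul_dvd_mul_right h p) x₀), hPix⟩ :
      h60bX0 (M := M) hp hM hA n) =
      h57pDeg h • ⟨h69vPull (mul_dvd_mul_right h p) x₀, hx⟩ := by
    apply Subtype.ext
    rw [AddSubgroup.coe_nsmul]
    exact h57p_hPi hp hM h x₀
  rw [e1, map_nsmul, hy]
  have h2 := h57p_class_tr hp hM haux hA h hn hx₀ hx hy
  have h3 : (QuotientAddGroup.mk (h69wTr h y - h57pDeg h • y) : JZero M ⧸ redKerPic M A) = 0 :=
    (QuotientAddGroup.eq_zero_iff _).mpr h2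
  rw [QuotientAddGroup.mk_sub, sub_eq_zero] at h3
  rw [h3]
  rfl

/-- `Π' x ∈ X₀` for `x = π'^* x₀ ∈ X₀`. -/
theorem h57p_Pi_mem_X0 (hp : p.Prime) (hM : ¬ p ∣ M) (hA : A.LiesOverPrime p) (h : N ∣ M)
    {n : ℕ} {x₀ : JZero (N * p)}
    (hx : h69vPull (mul_dvd_mul_right h p) x₀ ∈ h60bX0 hp hM hA n) :
    h69wTr (mul_dvd_mul_right h p) (h69vPull (mul_dvd_mul_right h p) x₀) ∈
      h60bX0 hp hM hA n := by
  rw [h57p_hPi hp hM h x₀]
  exact (h60bX0 hp hM hA n).nsmul_mem hx _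

end Main

end Fermat.Agent.P7
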