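import Fermat.Agent.P7.H66S0Iface
import Fermat.Agent.P5.H26GenusFinal
import Fermat.Agent.P5.H26PushPole
import Fermat.Agent.P5.H40SFField
import Fermat.Agent.Red.HKComm.Deg
import Fermat.Agent.Red.GV.SoftGal

/-!
# Wave 7, DLOG at the non-good level, row H2-S0-A-DEGSF (helper58, twin): `H66sDegSF`

At a GOOD level `N` (`p ∤ N`, `auxLevel p ∣ N`) the special fibre field has degree `ψ(N)` over
`k(j̄)`, and there are `ψ(N)` Gauss-integral functions whose reductions are linearly independent
over `k(j̄) ⊆ k((q))`.

* `h58d_degree_pole` : abstract: the degree of the pole divisor of `x` is `[F : K(x)]`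
  (from `H13rZeros` for `1 / x`, all places of degree one).
* `h58d_finrank_sf` : `[kC(N) : k(j̄)] = ψ(N)` (pole divisor of `j`, `h26s_push_pole`,
  `h42p_degree_push`, `hkdeg_finrank_jBar`).
* `h58d_degSF : H66sDegSF`.
-/

set_option autoImplicit false
set_option linter.unusedSectionVars false
set_option linter.style.haveILetI false
set_option maxHeartbeats 400000

open AlgebraicCurve ModularCurve

noncomputable section

namespace Fermat.Agent.P7

open Fermat.Agent.S37 Fermat.Agent.Red.GV Fermat.Agent.Red.GV.Soft Fermat.Agent.P5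

/-- the degree of the pole divisor of `x` is `[F : K(x)]`. -/
theorem h58d_degree_pole {K F : Type*} [Field K] [Field F] [Algebra K F]
    (hdeg : ∀ v : Place K F, v.deg = 1) (x : F) (hZ : H13rZeros K F x)
    (D : Divisor K F) (hD : ∀ v : Place K F, D v = max 0 (-(v.ord x))) :
    Divisor.degree D = (Module.finrank (IntermediateField.adjoin K {x}) F : ℤ) := by
  classical
  obtain ⟨s, hs, hsum⟩ := hZ x⁻¹ (Or.inr rfl)
  rw [h42p_degree_eq_sum hdeg, ← hsum]
  have hsub : D.support ⊆ s := by
    intro v hv
    rw [Finsupp.mem_support_iff, hD v] at hv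
    rw [hs v, Place.ord_inv]
    by_contra h
    apply hv
    exact max_eq_left (by omega)
  rw [Finsupp.sum_of_support_subset D hsub (fun _ n => n) (fun _ _ => rfl)]
  refine Finset.sum_congr rfl fun v hv => ?_
  have h1 := (hs v).1 hv
  rw [Place.ord_inv] at h1 ⊢
  rw [hD v]
  exact max_eq_right (by omega)

/-- **`[kC(N) : k(j̄)] = ψ(N)` at a good level.** -/
theorem h58d_finrank_sf {p : ℕ} (hp : p.Prime) (N : ℕ) [NeZero N] (hN : ¬ p ∣ N)
    (haux : auxLevel p ∣ N) (A : ValuationSubring Kbar) (hA : A.LiesOverPrime p) :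
    Module.finrank (IntermediateField.adjoin (h13sK A) {h26sJ A N}) (h13sFt A N) =
      dedekindPsi N := by
  obtain ⟨⟨hdeg1, -, -, -⟩, hZ, -⟩ := h26s_rest hp N hN haux A hA
  obtain ⟨r, hr⟩ := h88r_redDiv p hp N hN haux A hA
  obtain ⟨D, hD, -⟩ := h26s_exists_pole N
  have e1 : Divisor.degree D =
      (Module.finrank (IntermediateField.adjoin Kbar {jB N}) (FF N) : ℤ) :=
    h58d_degree_pole (h40r_base_FF N).deg_one (jB N) (h40r_zeros_FF N) D hD
  have e2 : Divisor.degree (h13sPush r D) =
      (Module.finrank (IntermediateField.adjoin (h13sK A) {h26sJ A N}) (h13sFt A N) : ℤ) :=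
    h58d_degree_pole hdeg1 (h26sJ A N) hZ _
      (fun Q => h26s_push_pole hp N hN A hA r hr D hD Q)
  have e3 : Divisor.degree (h13sPush r D) = Divisor.degree D :=
    h42p_degree_push (h40r_base_FF N).deg_one hdeg1 r D
  have e4 : Module.finrank (IntermediateField.adjoin Kbar {jB N}) (FF N) = dedekindPsi N :=
    Fermat.Agent.Red.HKComm.hkdeg_finrank_jBar N
  have : (Module.finrank (IntermediateField.adjoin (h13sK A) {h26sJ A N}) (h13sFt A N) : ℤ) =
      (dedekindPsi N : ℤ) := by
    rw [← e2, e3, e1, e4]
  exact_mod_cast this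

/-- the special fibre field is finite over `k(j̄)`. -/
theorem h58d_finite_sf {p : ℕ} (hp : p.Prime) (N : ℕ) [NeZero N] (hN : ¬ p ∣ N)
    (haux : auxLevel p ∣ N) (A : ValuationSubring Kbar) (hA : A.LiesOverPrime p) :
    FiniteDimensional (IntermediateField.adjoin (h13sK A) {h26sJ A N}) (h13sFt A N) :=
  (h26s_rest hp N hN haux A hA).2.2

/-- the inclusion of the special fibre field sends `j̄` to `j(q)`. -/
theorem h58d_incl_J (N : ℕ) [NeZero N] (A : ValuationSubring Kbar) :
    h13sIncl A N (h26sJ A N) = jK (h13sK A) := gaussR_jB A N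

/-- abstract transport of linear independence over `k(x)` along a homomorphism of fields. -/
theorem h58d_li_map {k F L : Type*} [Field k] [Field F] [Field L] [Algebra k F] [Algebra k L]
    (f : F →ₐ[k] L) (x : F) {ι : Type*} (b : ι → F)
    (hb : LinearIndependent (IntermediateField.adjoin k {x}) b) :
    LinearIndependent (IntermediateField.adjoin k {f x}) (fun i => f (b i)) := by
  have hmap : (IntermediateField.adjoin k {x}).map f = IntermediateField.adjoin k {f x} := by
    rw [IntermediateField.adjoin_map, Set.image_singleton]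
  have hmem : ∀ r : IntermediateField.adjoin k {x},
      f (r : F) ∈ IntermediateField.adjoin k {f x} := by
    intro r
    rw [← hmap]
    exact ⟨r, r.2, rfl⟩
  let i : IntermediateField.adjoin k {x} → IntermediateField.adjoin k {f x} :=
    fun r => ⟨_, hmem r⟩
  have hi : Function.Surjective i := by
    rintro ⟨y, hy⟩
    rw [← hmap] at hy
    obtain ⟨r, hr, rfl⟩ := hy
    exact ⟨⟨r, hr⟩, rfl⟩
  exact hb.map_of_surjective_injective i (f.toRingHom : F →+ L) hi
    (fun m hm => (map_eq_zero f).1 hm)
    (fun r m => by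
      show f ((r : F) * m) = f (r : F) * f m
      exact map_mul _ _ _)

/-- linear independence of the images, in the vocabulary of `h66sKj`. -/
theorem h58d_li_incl (N : ℕ) [NeZero N] (A : ValuationSubring Kbar) {ι : Type*}
    (b : ι → h13sFt A N)
    (hb : LinearIndependent (IntermediateField.adjoin (h13sK A) {h26sJ A N}) b) :
    LinearIndependent (IntermediateField.adjoin (h13sK A) {jK (h13sK A)})
      (fun i => h13sIncl A N (b i)) := by
  have hli := h58d_li_map (h13sIncl A N) (h26sJ A N) b hb
  rw [h58d_incl_J N A] at hli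
  exact hli

/-- **(A) DEG-SF**: `ψ(N)` reductions linearly independent over `k(j̄)` at a good level. -/
theorem h58d_degSF : H66sDegSF := by
  intro p hp N _ hN haux A hA
  classical
  haveI := h58d_finite_sf hp N hN haux A hA
  have hfr := h58d_finrank_sf hp N hN haux A hA
  let b := Module.finBasisOfFinrankEq (IntermediateField.adjoin (h13sK A) {h26sJ A N})
    (h13sFt A N) hfr
  have hlift : ∀ i, ∃ x : gaussV A N, h13sRed A N x = b i := fun i =>
    h40f_field p hp N hN haux A hA (b i)
  choose x hx using hlift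
  have hsv : ∀ i, ((x i : gaussV A N) : FF N) ∈ softV A N := fun i =>
    gaussV_le_softV A N (x i).2
  refine ⟨fun i => ⟨x i, hsv i⟩, ?_⟩
  have hval : ∀ i, softR A N ⟨x i, hsv i⟩ = h13sIncl A N (b i) := by
    intro i
    rw [← hx i, h13sIncl_red]
    exact softR_eq_gaussR A N _ (hsv i) (x i).2
  have hli := h58d_li_incl N A b b.linearIndependent
  have hfun : (fun i => softR A N ⟨x i, hsv i⟩) =
      fun i => h13sIncl A N (b i) := funext hval
  rw [hfun]
  exact hli

end Fermat.Agent.P7
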