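import Fermat.Agent.S05.Kernel

/-!
# Wave 7 (S40), block (4) LOCAL-W, leaf LAW (helper58)

The EXACT addition law of a Weierstrass curve on the kernel of reduction `E¹`, written in the
chart at infinity `(z, w) = (-x / y, -1 / y)` as a composition of polynomial maps and of
inverses of elements of `1 + 𝔪_A`.

* `h58wWc P` : the `w`-coordinate of a point (`0` at the origin); the `z`-coordinate is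
  `S05.K56.zcoord`.
* `h58wLam`, `h58wNu`, `h58wZ3`, `h58wW3`, `h58wDen`, `h58wZ`, `h58wW` : slope, intercept, third
  root, its `w`, the denominator of the inverse, and the coordinates of the sum.
* `h58w_law` : for `P₁, P₂ ∈ E¹`,
  `z (P₁ + P₂) = h58wZ W z₁ w₁ z₂ w₂` and `w (P₁ + P₂) = h58wW W z₁ w₁ z₂ w₂`.
* `h58w_units` : for ALL `z₁, w₁, z₂, w₂ ∈ 𝔪_A` the three denominators `1 - zg2`, `zc3 Λ`,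
  `h58wDen` are in `1 + 𝔪_A` and `Λ, ν, z₃, w₃, Z, W ∈ 𝔪_A`.
-/

set_option autoImplicit false

namespace Fermat.Agent.P7

open WeierstrassCurve WeierstrassCurve.Affine Fermat.Agent.S05 Fermat.Agent.S05.K56

variable {K : Type*} [Field K]

/-- The chart coordinate `w = -1 / y` of a point (`0` at the origin). -/
def h58wWc {W : Affine K} : W.Point → K
  | .zero => 0
  | .some _ y _ => -1 / y

theorem h58wWc_zero {W : Affine K} : h58wWc (0 : W.Point) = 0 := rfl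

theorem h58wWc_some {W : Affine K} {x y : K} (h : W.Nonsingular x y) :
    h58wWc (Point.some x y h) = -1 / y := rfl

/-- the slope of the chord / tangent. -/
def h58wLam (W : Affine K) (z₁ w₁ z₂ w₂ : K) : K :=
  zg1 W z₁ z₂ w₂ * (1 - zg2 W z₁ w₁ w₂)⁻¹

/-- the intercept of the chord / tangent. -/
def h58wNu (W : Affine K) (z₁ w₁ z₂ w₂ : K) : K :=
  w₁ - h58wLam W z₁ w₁ z₂ w₂ * z₁

/-- the `z`-coordinate of the third point of intersection. -/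
def h58wZ3 (W : Affine K) (z₁ w₁ z₂ w₂ : K) : K :=
  -z₁ - z₂ - zc2 W (h58wLam W z₁ w₁ z₂ w₂) (h58wNu W z₁ w₁ z₂ w₂) *
    (zc3 W (h58wLam W z₁ w₁ z₂ w₂))⁻¹

/-- the `w`-coordinate of the third point of intersection. -/
def h58wW3 (W : Affine K) (z₁ w₁ z₂ w₂ : K) : K :=
  h58wLam W z₁ w₁ z₂ w₂ * h58wZ3 W z₁ w₁ z₂ w₂ + h58wNu W z₁ w₁ z₂ w₂

/-- the denominator of the inverse of the third point. -/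
def h58wDen (W : Affine K) (z₁ w₁ z₂ w₂ : K) : K :=
  1 - W.a₁ * h58wZ3 W z₁ w₁ z₂ w₂ - W.a₃ * h58wW3 W z₁ w₁ z₂ w₂

/-- the `z`-coordinate of the sum. -/
def h58wZ (W : Affine K) (z₁ w₁ z₂ w₂ : K) : K :=
  -h58wZ3 W z₁ w₁ z₂ w₂ * (h58wDen W z₁ w₁ z₂ w₂)⁻¹

/-- the `w`-coordinate of the sum. -/
def h58wW (W : Affine K) (z₁ w₁ z₂ w₂ : K) : K :=
  -h58wW3 W z₁ w₁ z₂ w₂ * (h58wDen W z₁ w₁ z₂ w₂)⁻¹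

section field

variable (W : Affine K)

/-- the line through the origin and a point `(z, w)` of the curve: the third root. -/
theorem h58w_line_origin {z w Λ : K} (E : w = fzw W z w) (hw : w = Λ * z) (hz : z ≠ 0)
    (hc3 : zc3 W Λ ≠ 0) (hD : 1 - W.a₁ * z - W.a₃ * w ≠ 0) :
    -z - zc2 W Λ 0 * (zc3 W Λ)⁻¹ = -z * (1 - W.a₁ * z - W.a₃ * w)⁻¹ := by
  have hc := cubic_expand W Λ 0 z
  simp only [add_zero] at hc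
  rw [← hw] at hc
  have hc0 : zc0 W 0 = 0 := by simp [zc0]
  have hq : zc3 W Λ * z ^ 2 + zc2 W Λ 0 * z + zc1 W Λ 0 = 0 := by
    apply mul_left_cancel₀ hz
    linear_combination -hc - E - hc0
  have hc1 : zc1 W Λ 0 = -Λ := by simp [zc1]
  have hc2 : zc2 W Λ 0 = W.a₁ * Λ + W.a₃ * Λ ^ 2 := by simp [zc2]
  rw [hc1] at hq
  have key : (z * zc3 W Λ + zc2 W Λ 0) * (1 - W.a₁ * z - W.a₃ * w) = z * zc3 W Λ := by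
    apply mul_left_cancel₀ hz
    rw [hc2] at hq ⊢
    rw [hw]
    linear_combination (1 - W.a₁ * z - W.a₃ * Λ * z) * hq - hq
  obtain ⟨D, hDdef⟩ : ∃ D, D = 1 - W.a₁ * z - W.a₃ * w := ⟨_, rfl⟩
  obtain ⟨c, hcdef⟩ : ∃ c, c = zc3 W Λ := ⟨_, rfl⟩
  obtain ⟨q, hqdef⟩ : ∃ q, q = zc2 W Λ 0 := ⟨_, rfl⟩
  rw [← hDdef] at hD key ⊢
  rw [← hcdef] at hc3 key ⊢
  rw [← hqdef] at key ⊢
  field_simp
  linear_combination -key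

/-- **The exact addition law, affine case, field level**: two affine points with `y ≠ 0`, the
three denominators nonzero. -/
theorem h58w_law_affine [DecidableEq K] {x₁ y₁ x₂ y₂ : K}
    (h₁ : W.Nonsingular x₁ y₁) (h₂ : W.Nonsingular x₂ y₂) (hy₁ : y₁ ≠ 0) (hy₂ : y₂ ≠ 0)
    (hg : 1 - zg2 W (-x₁ / y₁) (-1 / y₁) (-1 / y₂) ≠ 0)
    (hc3 : zc3 W (h58wLam W (-x₁ / y₁) (-1 / y₁) (-x₂ / y₂) (-1 / y₂)) ≠ 0)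
    (hden : h58wDen W (-x₁ / y₁) (-1 / y₁) (-x₂ / y₂) (-1 / y₂) ≠ 0) :
    zcoord (Point.some x₁ y₁ h₁ + Point.some x₂ y₂ h₂) =
        h58wZ W (-x₁ / y₁) (-1 / y₁) (-x₂ / y₂) (-1 / y₂) ∧
      h58wWc (Point.some x₁ y₁ h₁ + Point.some x₂ y₂ h₂) =
        h58wW W (-x₁ / y₁) (-1 / y₁) (-x₂ / y₂) (-1 / y₂) := by
  obtain ⟨z₁, hz₁def⟩ : ∃ z₁, z₁ = -x₁ / y₁ := ⟨_, rfl⟩
  obtain ⟨w₁, hw₁def⟩ : ∃ w₁, w₁ = -1 / y₁ := ⟨_, rfl⟩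
  obtain ⟨z₂, hz₂def⟩ : ∃ z₂, z₂ = -x₂ / y₂ := ⟨_, rfl⟩
  obtain ⟨w₂, hw₂def⟩ : ∃ w₂, w₂ = -1 / y₂ := ⟨_, rfl⟩
  rw [← hz₁def, ← hw₁def, ← hz₂def, ← hw₂def] at hc3 hden ⊢
  rw [← hz₁def, ← hw₁def, ← hw₂def] at hg
  have hw₁0 : w₁ ≠ 0 := by rw [hw₁def]; exact div_ne_zero (neg_ne_zero.2 one_ne_zero) hy₁
  have hw₂0 : w₂ ≠ 0 := by rw [hw₂def]; exact div_ne_zero (neg_ne_zero.2 one_ne_zero) hy₂
  have hye₁ : y₁ = -1 / w₁ := by rw [hw₁def]; field_simp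
  have hye₂ : y₂ = -1 / w₂ := by rw [hw₂def]; field_simp
  have hxe₁ : x₁ = z₁ / w₁ := by rw [hz₁def, hw₁def]; field_simp
  have hxe₂ : x₂ = z₂ / w₂ := by rw [hz₂def, hw₂def]; field_simp
  have E₁ : w₁ = fzw W z₁ w₁ :=
    fzw_of_equation W hw₁0 (by rw [← hxe₁, ← hye₁]; exact h₁.1)
  have E₂ : w₂ = fzw W z₂ w₂ :=
    fzw_of_equation W hw₂0 (by rw [← hxe₂, ← hye₂]; exact h₂.1)
  obtain ⟨Λ, hΛdef⟩ : ∃ Λ, Λ = h58wLam W z₁ w₁ z₂ w₂ := ⟨_, rfl⟩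
  obtain ⟨ν, hνdef⟩ : ∃ ν, ν = h58wNu W z₁ w₁ z₂ w₂ := ⟨_, rfl⟩
  obtain ⟨z₃, hz₃def⟩ : ∃ z₃, z₃ = h58wZ3 W z₁ w₁ z₂ w₂ := ⟨_, rfl⟩
  have hΛ : Λ * (1 - zg2 W z₁ w₁ w₂) = zg1 W z₁ z₂ w₂ := by
    rw [hΛdef, h58wLam, mul_assoc, inv_mul_cancel₀ hg, mul_one]
  have hw₁ : w₁ = Λ * z₁ + ν := by
    rw [hνdef, h58wNu, ← hΛdef]; ring
  have hw₂ : w₂ = Λ * z₂ + ν := by
    have hch := chord_eq W E₁ E₂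
    have h3 : (w₂ - w₁ - (z₂ - z₁) * Λ) * (1 - zg2 W z₁ w₁ w₂) = 0 := by
      linear_combination hch - (z₂ - z₁) * hΛ
    rcases mul_eq_zero.1 h3 with h4 | h4
    · linear_combination h4 + hw₁
    · exact absurd h4 hg
  rw [← hΛdef] at hc3
  have hz₃ : z₃ = -z₁ - z₂ - zc2 W Λ ν * (zc3 W Λ)⁻¹ := by
    rw [hz₃def, h58wZ3, ← hΛdef, ← hνdef]
  have hV1 : zc3 W Λ * (z₁ + z₂ + z₃) = -zc2 W Λ ν := by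
    rw [hz₃]; field_simp; ring
  have hW3 : h58wW3 W z₁ w₁ z₂ w₂ = Λ * z₃ + ν := by
    rw [h58wW3, ← hΛdef, ← hνdef, ← hz₃def]
  have hDen : h58wDen W z₁ w₁ z₂ w₂ = 1 - W.a₁ * z₃ - W.a₃ * (Λ * z₃ + ν) := by
    rw [h58wDen, hW3, ← hz₃def]
  rw [hDen] at hden
  rw [h58wZ, h58wW, hDen, hW3, ← hz₃def]
  by_cases hν : ν = 0
  · rw [hν, add_zero] at hw₁ hw₂
    obtain ⟨hV1', hadd⟩ := add_eq_zero_of_line_through_origin W h₁ h₂ hw₁0 hw₂0 hxe₁ hye₁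
      hxe₂ hye₂ hw₁ hw₂ hΛ
    have hz₃0 : z₃ = 0 := by
      rw [hν] at hV1
      have h5 : zc3 W Λ * z₃ = 0 := by linear_combination hV1 - hV1'
      rcases mul_eq_zero.1 h5 with h6 | h6
      · exact absurd h6 hc3
      · exact h6
    rw [hadd, hz₃0, hν]
    simp [zcoord_zero, h58wWc_zero]
  · obtain ⟨hw₃0, -, x₃, y₃, h₃, hx₃, hy₃, hadd⟩ := add_eq_neg_third W h₁ h₂ hw₁0 hw₂0
      hxe₁ hye₁ hxe₂ hye₂ hw₁ hw₂ hΛ hν hV1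
    obtain ⟨w₃, hw₃def⟩ : ∃ w₃, w₃ = Λ * z₃ + ν := ⟨_, rfl⟩
    rw [← hw₃def] at hw₃0 hx₃ hy₃ hden ⊢
    obtain ⟨D, hDdef⟩ : ∃ D, D = 1 - W.a₁ * z₃ - W.a₃ * w₃ := ⟨_, rfl⟩
    rw [← hDdef] at hden ⊢
    have hneg : W.negY x₃ y₃ = D / w₃ := by
      rw [negY, hx₃, hy₃, hDdef]; field_simp
    rw [hadd, Point.neg_some, zcoord_some, h58wWc_some, hneg, hx₃]
    constructor
    · field_simp
    · field_simp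

/-- the sum of `0` and a point on the line `w = Λ z` through the origin. -/
theorem h58w_origin_core {z w Λ : K} (E : w = fzw W z w) (hw : w = Λ * z) (hz : z ≠ 0)
    (hc3 : zc3 W Λ ≠ 0) (hD : 1 - W.a₁ * z - W.a₃ * w ≠ 0) (z₃ : K)
    (hz₃ : z₃ = -z - zc2 W Λ 0 * (zc3 W Λ)⁻¹) :
    -z₃ * (1 - W.a₁ * z₃ - W.a₃ * (Λ * z₃ + 0))⁻¹ = z ∧
      -(Λ * z₃ + 0) * (1 - W.a₁ * z₃ - W.a₃ * (Λ * z₃ + 0))⁻¹ = w := by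
  have h1 := h58w_line_origin W E hw hz hc3 hD
  rw [← hz₃] at h1
  obtain ⟨D, hDdef⟩ : ∃ D, D = 1 - W.a₁ * z - W.a₃ * w := ⟨_, rfl⟩
  rw [← hDdef] at hD h1
  have h2 : 1 - W.a₁ * z₃ - W.a₃ * (Λ * z₃ + 0) = D⁻¹ := by
    apply eq_inv_of_mul_eq_one_left
    rw [h1]
    have h3 : D⁻¹ * D = 1 := inv_mul_cancel₀ hD
    have h4 : D = 1 - W.a₁ * z - W.a₃ * (Λ * z) := by rw [hDdef, hw]
    linear_combination (W.a₁ * z + W.a₃ * Λ * z) * h3 + h4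
  rw [h2, inv_inv, h1]
  have h3 : D⁻¹ * D = 1 := inv_mul_cancel₀ hD
  constructor
  · linear_combination z * h3
  · rw [hw]; linear_combination Λ * z * h3

end field

section val

variable (A : ValuationSubring K) (W : Affine K)

theorem h58w_nonunits_sub_mem {s t : K} (hs : s ∈ A.nonunits) (ht : t ∈ A.nonunits) :
    s - t ∈ A.nonunits := by
  rw [sub_eq_add_neg]
  exact nonunits_add_mem A hs (nonunits_neg_mem A ht)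

theorem h58w_zg1_mem (ha₁ : W.a₁ ∈ A) (ha₂ : W.a₂ ∈ A) (ha₄ : W.a₄ ∈ A) {z₁ z₂ w₂ : K}
    (hz₁ : z₁ ∈ A.nonunits) (hz₂ : z₂ ∈ A.nonunits) (hw₂ : w₂ ∈ A.nonunits) :
    zg1 W z₁ z₂ w₂ ∈ A.nonunits := by
  have hz₁A := mem_of_mem_nonunits A hz₁
  have hz₂A := mem_of_mem_nonunits A hz₂
  have hw₂A := mem_of_mem_nonunits A hw₂
  rw [zg1]
  refine nonunits_add_mem A (nonunits_add_mem A (nonunits_add_mem A (nonunits_add_mem A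
    (nonunits_add_mem A ?_ ?_) ?_) ?_) ?_) ?_
  · exact nonunits_pow_mem A hz₂ two_ne_zero
  · exact nonunits_mul_mem A hz₁ hz₂A
  · exact nonunits_pow_mem A hz₁ two_ne_zero
  · exact mem_mul_nonunits A ha₁ hw₂
  · exact mem_mul_nonunits A (mul_mem ha₂ (add_mem hz₂A hz₁A)) hw₂
  · exact mem_mul_nonunits A ha₄ (nonunits_pow_mem A hw₂ two_ne_zero)

theorem h58w_zg2_mem (ha₁ : W.a₁ ∈ A) (ha₂ : W.a₂ ∈ A) (ha₃ : W.a₃ ∈ A) (ha₄ : W.a₄ ∈ A)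
    (ha₆ : W.a₆ ∈ A) {z₁ w₁ w₂ : K}
    (hz₁ : z₁ ∈ A.nonunits) (hw₁ : w₁ ∈ A.nonunits) (hw₂ : w₂ ∈ A.nonunits) :
    zg2 W z₁ w₁ w₂ ∈ A.nonunits := by
  have hz₁A := mem_of_mem_nonunits A hz₁
  have hw₁A := mem_of_mem_nonunits A hw₁
  have hw₂A := mem_of_mem_nonunits A hw₂
  rw [zg2]
  refine nonunits_add_mem A (nonunits_add_mem A (nonunits_add_mem A (nonunits_add_mem A
    ?_ ?_) ?_) ?_) ?_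
  · exact mem_mul_nonunits A ha₁ hz₁
  · exact mem_mul_nonunits A ha₂ (nonunits_pow_mem A hz₁ two_ne_zero)
  · exact mem_mul_nonunits A ha₃ (nonunits_add_mem A hw₂ hw₁)
  · exact mem_mul_nonunits A (mul_mem ha₄ hz₁A) (nonunits_add_mem A hw₂ hw₁)
  · exact mem_mul_nonunits A ha₆ (nonunits_add_mem A (nonunits_add_mem A
      (nonunits_pow_mem A hw₂ two_ne_zero) (nonunits_mul_mem A hw₂ hw₁A))
      (nonunits_pow_mem A hw₁ two_ne_zero))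

theorem h58w_lam_mem (ha₁ : W.a₁ ∈ A) (ha₂ : W.a₂ ∈ A) (ha₃ : W.a₃ ∈ A) (ha₄ : W.a₄ ∈ A)
    (ha₆ : W.a₆ ∈ A) {z₁ w₁ z₂ w₂ : K}
    (hz₁ : z₁ ∈ A.nonunits) (hw₁ : w₁ ∈ A.nonunits) (hz₂ : z₂ ∈ A.nonunits)
    (hw₂ : w₂ ∈ A.nonunits) : h58wLam W z₁ w₁ z₂ w₂ ∈ A.nonunits := by
  rw [h58wLam]
  exact nonunits_mul_mem A (h58w_zg1_mem A W ha₁ ha₂ ha₄ hz₁ hz₂ hw₂)
    (inv_one_sub_mem A (h58w_zg2_mem A W ha₁ ha₂ ha₃ ha₄ ha₆ hz₁ hw₁ hw₂))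

theorem h58w_nu_mem (ha₁ : W.a₁ ∈ A) (ha₂ : W.a₂ ∈ A) (ha₃ : W.a₃ ∈ A) (ha₄ : W.a₄ ∈ A)
    (ha₆ : W.a₆ ∈ A) {z₁ w₁ z₂ w₂ : K}
    (hz₁ : z₁ ∈ A.nonunits) (hw₁ : w₁ ∈ A.nonunits) (hz₂ : z₂ ∈ A.nonunits)
    (hw₂ : w₂ ∈ A.nonunits) : h58wNu W z₁ w₁ z₂ w₂ ∈ A.nonunits := by
  rw [h58wNu]
  exact h58w_nonunits_sub_mem A hw₁ (nonunits_mul_mem A
    (h58w_lam_mem A W ha₁ ha₂ ha₃ ha₄ ha₆ hz₁ hw₁ hz₂ hw₂) (mem_of_mem_nonunits A hz₁))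

/-- `zc3 Λ ∈ 1 + 𝔪_A` for `Λ ∈ 𝔪_A`. -/
theorem h58w_zc3_unit (ha₂ : W.a₂ ∈ A) (ha₄ : W.a₄ ∈ A) (ha₆ : W.a₆ ∈ A) {Λ : K}
    (hΛ : Λ ∈ A.nonunits) : ∃ s ∈ A.nonunits, zc3 W Λ = 1 - s := by
  have hΛA := mem_of_mem_nonunits A hΛ
  refine ⟨-(Λ * (W.a₂ + W.a₄ * Λ + W.a₆ * Λ ^ 2)), nonunits_neg_mem A (nonunits_mul_mem A hΛ
    (add_mem (add_mem ha₂ (mul_mem ha₄ hΛA)) (mul_mem ha₆ (pow_mem hΛA 2)))), ?_⟩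
  rw [zc3]; ring

theorem h58w_zc3_ne_zero (ha₂ : W.a₂ ∈ A) (ha₄ : W.a₄ ∈ A) (ha₆ : W.a₆ ∈ A) {Λ : K}
    (hΛ : Λ ∈ A.nonunits) : zc3 W Λ ≠ 0 := by
  obtain ⟨s, hs, h⟩ := h58w_zc3_unit A W ha₂ ha₄ ha₆ hΛ
  rw [h]; exact one_sub_ne_zero A hs

theorem h58w_zc3_inv_mem (ha₂ : W.a₂ ∈ A) (ha₄ : W.a₄ ∈ A) (ha₆ : W.a₆ ∈ A) {Λ : K}
    (hΛ : Λ ∈ A.nonunits) : (zc3 W Λ)⁻¹ ∈ A := by
  obtain ⟨s, hs, h⟩ := h58w_zc3_unit A W ha₂ ha₄ ha₆ hΛ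
  rw [h]; exact inv_one_sub_mem A hs

theorem h58w_zc2_mem (ha₁ : W.a₁ ∈ A) (ha₂ : W.a₂ ∈ A) (ha₃ : W.a₃ ∈ A) (ha₄ : W.a₄ ∈ A)
    (ha₆ : W.a₆ ∈ A) {Λ ν : K} (hΛ : Λ ∈ A.nonunits) (hν : ν ∈ A.nonunits) :
    zc2 W Λ ν ∈ A.nonunits := by
  have hΛA := mem_of_mem_nonunits A hΛ
  have hνA := mem_of_mem_nonunits A hν
  have h2A : (2 : K) ∈ A := ofNat_mem A 2
  have h3A : (3 : K) ∈ A := ofNat_mem A 3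
  rw [zc2]
  refine nonunits_add_mem A (nonunits_add_mem A (nonunits_add_mem A (nonunits_add_mem A
    ?_ ?_) ?_) ?_) ?_
  · exact mem_mul_nonunits A ha₁ hΛ
  · exact mem_mul_nonunits A ha₂ hν
  · exact mem_mul_nonunits A ha₃ (nonunits_pow_mem A hΛ two_ne_zero)
  · exact mem_mul_nonunits A (mul_mem (mul_mem h2A ha₄) hΛA) hν
  · exact mem_mul_nonunits A (mul_mem (mul_mem h3A ha₆) (pow_mem hΛA 2)) hν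

theorem h58w_z3_mem (ha₁ : W.a₁ ∈ A) (ha₂ : W.a₂ ∈ A) (ha₃ : W.a₃ ∈ A) (ha₄ : W.a₄ ∈ A)
    (ha₆ : W.a₆ ∈ A) {z₁ w₁ z₂ w₂ : K}
    (hz₁ : z₁ ∈ A.nonunits) (hw₁ : w₁ ∈ A.nonunits) (hz₂ : z₂ ∈ A.nonunits)
    (hw₂ : w₂ ∈ A.nonunits) : h58wZ3 W z₁ w₁ z₂ w₂ ∈ A.nonunits := by
  have hΛ := h58w_lam_mem A W ha₁ ha₂ ha₃ ha₄ ha₆ hz₁ hw₁ hz₂ hw₂
  have hν := h58w_nu_mem A W ha₁ ha₂ ha₃ ha₄ ha₆ hz₁ hw₁ hz₂ hw₂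
  rw [h58wZ3]
  exact h58w_nonunits_sub_mem A (h58w_nonunits_sub_mem A (nonunits_neg_mem A hz₁) hz₂)
    (nonunits_mul_mem A (h58w_zc2_mem A W ha₁ ha₂ ha₃ ha₄ ha₆ hΛ hν)
      (h58w_zc3_inv_mem A W ha₂ ha₄ ha₆ hΛ))

theorem h58w_w3_mem (ha₁ : W.a₁ ∈ A) (ha₂ : W.a₂ ∈ A) (ha₃ : W.a₃ ∈ A) (ha₄ : W.a₄ ∈ A)
    (ha₆ : W.a₆ ∈ A) {z₁ w₁ z₂ w₂ : K}
    (hz₁ : z₁ ∈ A.nonunits) (hw₁ : w₁ ∈ A.nonunits) (hz₂ : z₂ ∈ A.nonunits)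
    (hw₂ : w₂ ∈ A.nonunits) : h58wW3 W z₁ w₁ z₂ w₂ ∈ A.nonunits := by
  have hΛ := h58w_lam_mem A W ha₁ ha₂ ha₃ ha₄ ha₆ hz₁ hw₁ hz₂ hw₂
  have hν := h58w_nu_mem A W ha₁ ha₂ ha₃ ha₄ ha₆ hz₁ hw₁ hz₂ hw₂
  have hz₃ := h58w_z3_mem A W ha₁ ha₂ ha₃ ha₄ ha₆ hz₁ hw₁ hz₂ hw₂
  rw [h58wW3]
  exact nonunits_add_mem A (nonunits_mul_mem A hΛ (mem_of_mem_nonunits A hz₃)) hν

/-- the denominator of the inverse is in `1 + 𝔪_A`. -/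
theorem h58w_den_unit (ha₁ : W.a₁ ∈ A) (ha₂ : W.a₂ ∈ A) (ha₃ : W.a₃ ∈ A) (ha₄ : W.a₄ ∈ A)
    (ha₆ : W.a₆ ∈ A) {z₁ w₁ z₂ w₂ : K}
    (hz₁ : z₁ ∈ A.nonunits) (hw₁ : w₁ ∈ A.nonunits) (hz₂ : z₂ ∈ A.nonunits)
    (hw₂ : w₂ ∈ A.nonunits) : ∃ s ∈ A.nonunits, h58wDen W z₁ w₁ z₂ w₂ = 1 - s := by
  have hz₃ := h58w_z3_mem A W ha₁ ha₂ ha₃ ha₄ ha₆ hz₁ hw₁ hz₂ hw₂
  have hw₃ := h58w_w3_mem A W ha₁ ha₂ ha₃ ha₄ ha₆ hz₁ hw₁ hz₂ hw₂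
  refine ⟨W.a₁ * h58wZ3 W z₁ w₁ z₂ w₂ + W.a₃ * h58wW3 W z₁ w₁ z₂ w₂,
    nonunits_add_mem A (mem_mul_nonunits A ha₁ hz₃) (mem_mul_nonunits A ha₃ hw₃), ?_⟩
  rw [h58wDen]; ring

theorem h58w_den_ne_zero (ha₁ : W.a₁ ∈ A) (ha₂ : W.a₂ ∈ A) (ha₃ : W.a₃ ∈ A) (ha₄ : W.a₄ ∈ A)
    (ha₆ : W.a₆ ∈ A) {z₁ w₁ z₂ w₂ : K}
    (hz₁ : z₁ ∈ A.nonunits) (hw₁ : w₁ ∈ A.nonunits) (hz₂ : z₂ ∈ A.nonunits)
    (hw₂ : w₂ ∈ A.nonunits) : h58wDen W z₁ w₁ z₂ w₂ ≠ 0 := by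
  obtain ⟨s, hs, h⟩ := h58w_den_unit A W ha₁ ha₂ ha₃ ha₄ ha₆ hz₁ hw₁ hz₂ hw₂
  rw [h]; exact one_sub_ne_zero A hs

theorem h58w_den_inv_mem (ha₁ : W.a₁ ∈ A) (ha₂ : W.a₂ ∈ A) (ha₃ : W.a₃ ∈ A) (ha₄ : W.a₄ ∈ A)
    (ha₆ : W.a₆ ∈ A) {z₁ w₁ z₂ w₂ : K}
    (hz₁ : z₁ ∈ A.nonunits) (hw₁ : w₁ ∈ A.nonunits) (hz₂ : z₂ ∈ A.nonunits)
    (hw₂ : w₂ ∈ A.nonunits) : (h58wDen W z₁ w₁ z₂ w₂)⁻¹ ∈ A := by
  obtain ⟨s, hs, h⟩ := h58w_den_unit A W ha₁ ha₂ ha₃ ha₄ ha₆ hz₁ hw₁ hz₂ hw₂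
  rw [h]; exact inv_one_sub_mem A hs

theorem h58w_Z_mem (ha₁ : W.a₁ ∈ A) (ha₂ : W.a₂ ∈ A) (ha₃ : W.a₃ ∈ A) (ha₄ : W.a₄ ∈ A)
    (ha₆ : W.a₆ ∈ A) {z₁ w₁ z₂ w₂ : K}
    (hz₁ : z₁ ∈ A.nonunits) (hw₁ : w₁ ∈ A.nonunits) (hz₂ : z₂ ∈ A.nonunits)
    (hw₂ : w₂ ∈ A.nonunits) : h58wZ W z₁ w₁ z₂ w₂ ∈ A.nonunits := by
  rw [h58wZ]
  exact nonunits_mul_mem A (nonunits_neg_mem A
    (h58w_z3_mem A W ha₁ ha₂ ha₃ ha₄ ha₆ hz₁ hw₁ hz₂ hw₂))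
    (h58w_den_inv_mem A W ha₁ ha₂ ha₃ ha₄ ha₆ hz₁ hw₁ hz₂ hw₂)

theorem h58w_W_mem (ha₁ : W.a₁ ∈ A) (ha₂ : W.a₂ ∈ A) (ha₃ : W.a₃ ∈ A) (ha₄ : W.a₄ ∈ A)
    (ha₆ : W.a₆ ∈ A) {z₁ w₁ z₂ w₂ : K}
    (hz₁ : z₁ ∈ A.nonunits) (hw₁ : w₁ ∈ A.nonunits) (hz₂ : z₂ ∈ A.nonunits)
    (hw₂ : w₂ ∈ A.nonunits) : h58wW W z₁ w₁ z₂ w₂ ∈ A.nonunits := by
  rw [h58wW]
  exact nonunits_mul_mem A (nonunits_neg_mem A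
    (h58w_w3_mem A W ha₁ ha₂ ha₃ ha₄ ha₆ hz₁ hw₁ hz₂ hw₂))
    (h58w_den_inv_mem A W ha₁ ha₂ ha₃ ha₄ ha₆ hz₁ hw₁ hz₂ hw₂)

/-- the `w`-coordinate of a point of `E¹` is in the maximal ideal. -/
theorem h58w_wc_mem (ha₁ : W.a₁ ∈ A) (ha₂ : W.a₂ ∈ A) (ha₃ : W.a₃ ∈ A) (ha₄ : W.a₄ ∈ A)
    (ha₆ : W.a₆ ∈ A) {P : W.Point} (hP : InE1 A P) : h58wWc P ∈ A.nonunits := by
  rcases hP with rfl | ⟨x, y, h, rfl, hx⟩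
  · rw [h58wWc_zero]; exact zero_mem_nonunits A
  · rw [h58wWc_some]
    exact (formal_coords_of_not_mem A W ha₁ ha₂ ha₃ ha₄ ha₆ h.1 hx).2.2

/-- the chart equation `w = f(z, w)` for every point with `y ≠ 0` (and for the origin). -/
theorem h58w_wc_eq (ha₁ : W.a₁ ∈ A) (ha₂ : W.a₂ ∈ A) (ha₃ : W.a₃ ∈ A) (ha₄ : W.a₄ ∈ A)
    (ha₆ : W.a₆ ∈ A) {P : W.Point} (hP : InE1 A P) :
    h58wWc P = fzw W (zcoord P) (h58wWc P) := by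
  rcases hP with rfl | ⟨x, y, h, rfl, hx⟩
  · rw [h58wWc_zero, zcoord_zero]; simp [fzw]
  · rw [h58wWc_some, zcoord_some]
    obtain ⟨hy0, -, -⟩ := formal_coords_of_not_mem A W ha₁ ha₂ ha₃ ha₄ ha₆ h.1 hx
    have hw0 : (-1 / y : K) ≠ 0 := div_ne_zero (neg_ne_zero.2 one_ne_zero) hy0
    apply fzw_of_equation W hw0
    have e1 : -x / y / (-1 / y) = x := by field_simp
    have e2 : -1 / (-1 / y) = y := by field_simp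
    rw [e1, e2]
    exact h.1

/-- **LAW: the exact addition law on the kernel of reduction.** -/
theorem h58w_law [DecidableEq K] (ha₁ : W.a₁ ∈ A) (ha₂ : W.a₂ ∈ A) (ha₃ : W.a₃ ∈ A)
    (ha₄ : W.a₄ ∈ A) (ha₆ : W.a₆ ∈ A) {P₁ P₂ : W.Point} (hP₁ : InE1 A P₁) (hP₂ : InE1 A P₂) :
    zcoord (P₁ + P₂) = h58wZ W (zcoord P₁) (h58wWc P₁) (zcoord P₂) (h58wWc P₂) ∧
      h58wWc (P₁ + P₂) = h58wW W (zcoord P₁) (h58wWc P₁) (zcoord P₂) (h58wWc P₂) := by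
  have hz₁ := zcoord_mem_nonunits A W ha₁ ha₂ ha₃ ha₄ ha₆ hP₁
  have hz₂ := zcoord_mem_nonunits A W ha₁ ha₂ ha₃ ha₄ ha₆ hP₂
  have hw₁ := h58w_wc_mem A W ha₁ ha₂ ha₃ ha₄ ha₆ hP₁
  have hw₂ := h58w_wc_mem A W ha₁ ha₂ ha₃ ha₄ ha₆ hP₂
  have E₁ := h58w_wc_eq A W ha₁ ha₂ ha₃ ha₄ ha₆ hP₁
  have E₂ := h58w_wc_eq A W ha₁ ha₂ ha₃ ha₄ ha₆ hP₂
  have hg2 := h58w_zg2_mem A W ha₁ ha₂ ha₃ ha₄ ha₆ hz₁ hw₁ hw₂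
  have hg := one_sub_ne_zero A hg2
  have hΛm := h58w_lam_mem A W ha₁ ha₂ ha₃ ha₄ ha₆ hz₁ hw₁ hz₂ hw₂
  have hc3 := h58w_zc3_ne_zero A W ha₂ ha₄ ha₆ hΛm
  have hden := h58w_den_ne_zero A W ha₁ ha₂ ha₃ ha₄ ha₆ hz₁ hw₁ hz₂ hw₂
  have hΛ : h58wLam W (zcoord P₁) (h58wWc P₁) (zcoord P₂) (h58wWc P₂) *
      (1 - zg2 W (zcoord P₁) (h58wWc P₁) (h58wWc P₂)) =
      zg1 W (zcoord P₁) (zcoord P₂) (h58wWc P₂) := by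
    rw [h58wLam, mul_assoc, inv_mul_cancel₀ hg, mul_one]
  have hch := chord_eq W E₁ E₂
  by_cases hP₁0 : P₁ = 0
  · -- `0 + P₂`
    subst hP₁0
    rw [zero_add]
    by_cases hP₂0 : P₂ = 0
    · subst hP₂0
      simp [h58wZ, h58wW, h58wZ3, h58wW3, h58wNu, h58wLam, zcoord_zero, h58wWc_zero, zg1, zc2]
    have hz0 := zcoord_ne_zero A W ha₁ ha₂ ha₃ ha₄ ha₆ hP₂ hP₂0
    rw [zcoord_zero, h58wWc_zero] at hΛ hch hc3 hden ⊢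
    obtain ⟨Λ, hΛdef⟩ : ∃ Λ, Λ = h58wLam W 0 0 (zcoord P₂) (h58wWc P₂) := ⟨_, rfl⟩
    rw [← hΛdef] at hΛ hc3
    have hwΛ : h58wWc P₂ = Λ * zcoord P₂ := by
      have h3 : (h58wWc P₂ - Λ * zcoord P₂) * (1 - zg2 W 0 0 (h58wWc P₂)) = 0 := by
        linear_combination hch - zcoord P₂ * hΛ
      rcases mul_eq_zero.1 h3 with h4 | h4
      · linear_combination h4
      · exact absurd h4 hg
    have hD : 1 - W.a₁ * zcoord P₂ - W.a₃ * h58wWc P₂ ≠ 0 := by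
      have : 1 - W.a₁ * zcoord P₂ - W.a₃ * h58wWc P₂ =
          1 - (W.a₁ * zcoord P₂ + W.a₃ * h58wWc P₂) := by ring
      rw [this]
      exact one_sub_ne_zero A (nonunits_add_mem A (mem_mul_nonunits A ha₁ hz₂)
        (mem_mul_nonunits A ha₃ hw₂))
    have hν : h58wNu W 0 0 (zcoord P₂) (h58wWc P₂) = 0 := by
      rw [h58wNu]; ring
    have hz₃ : h58wZ3 W 0 0 (zcoord P₂) (h58wWc P₂) =
        -zcoord P₂ - zc2 W Λ 0 * (zc3 W Λ)⁻¹ := by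
      rw [h58wZ3, hν, ← hΛdef]; ring
    have hcore := h58w_origin_core W E₂ hwΛ hz0 hc3 hD _ hz₃
    rw [h58wZ, h58wW, h58wDen, h58wW3, hν, ← hΛdef]
    exact ⟨hcore.1.symm, hcore.2.symm⟩
  by_cases hP₂0 : P₂ = 0
  · -- `P₁ + 0`
    subst hP₂0
    rw [add_zero]
    have hz0 := zcoord_ne_zero A W ha₁ ha₂ ha₃ ha₄ ha₆ hP₁ hP₁0
    rw [zcoord_zero, h58wWc_zero] at hΛ hch hc3 hden ⊢
    obtain ⟨Λ, hΛdef⟩ : ∃ Λ, Λ = h58wLam W (zcoord P₁) (h58wWc P₁) 0 0 := ⟨_, rfl⟩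
    rw [← hΛdef] at hΛ hc3
    have hwΛ : h58wWc P₁ = Λ * zcoord P₁ := by
      have h3 : (h58wWc P₁ - Λ * zcoord P₁) * (1 - zg2 W (zcoord P₁) (h58wWc P₁) 0) = 0 := by
        linear_combination -hch - zcoord P₁ * hΛ
      rcases mul_eq_zero.1 h3 with h4 | h4
      · linear_combination h4
      · exact absurd h4 hg
    have hD : 1 - W.a₁ * zcoord P₁ - W.a₃ * h58wWc P₁ ≠ 0 := by
      have : 1 - W.a₁ * zcoord P₁ - W.a₃ * h58wWc P₁ =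
          1 - (W.a₁ * zcoord P₁ + W.a₃ * h58wWc P₁) := by ring
      rw [this]
      exact one_sub_ne_zero A (nonunits_add_mem A (mem_mul_nonunits A ha₁ hz₁)
        (mem_mul_nonunits A ha₃ hw₁))
    have hν : h58wNu W (zcoord P₁) (h58wWc P₁) 0 0 = 0 := by
      rw [h58wNu, ← hΛdef]; linear_combination hwΛ
    have hz₃ : h58wZ3 W (zcoord P₁) (h58wWc P₁) 0 0 =
        -zcoord P₁ - zc2 W Λ 0 * (zc3 W Λ)⁻¹ := by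
      rw [h58wZ3, hν, ← hΛdef]; ring
    have hcore := h58w_origin_core W E₁ hwΛ hz0 hc3 hD _ hz₃
    rw [h58wZ, h58wW, h58wDen, h58wW3, hν, ← hΛdef]
    exact ⟨hcore.1.symm, hcore.2.symm⟩
  -- both affine
  rcases hP₁ with rfl | ⟨x₁, y₁, h₁, rfl, hx₁⟩
  · exact absurd rfl hP₁0
  rcases hP₂ with rfl | ⟨x₂, y₂, h₂, rfl, hx₂⟩
  · exact absurd rfl hP₂0
  obtain ⟨hy₁, -, -⟩ := formal_coords_of_not_mem A W ha₁ ha₂ ha₃ ha₄ ha₆ h₁.1 hx₁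
  obtain ⟨hy₂, -, -⟩ := formal_coords_of_not_mem A W ha₁ ha₂ ha₃ ha₄ ha₆ h₂.1 hx₂
  rw [zcoord_some, h58wWc_some] at hg hc3 hden
  rw [zcoord_some, h58wWc_some] at hc3 hden
  rw [h58wWc_some] at hg
  simp only [zcoord_some, h58wWc_some]
  exact h58w_law_affine W h₁ h₂ hy₁ hy₂ hg hc3 hden

/-- **the inverse on the kernel of reduction** in the chart `(z, w)`. -/
theorem h58w_neg (ha₁ : W.a₁ ∈ A) (ha₂ : W.a₂ ∈ A) (ha₃ : W.a₃ ∈ A)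
    (ha₄ : W.a₄ ∈ A) (ha₆ : W.a₆ ∈ A) {P : W.Point} (hP : InE1 A P) :
    zcoord (-P) = -zcoord P * (1 - W.a₁ * zcoord P - W.a₃ * h58wWc P)⁻¹ ∧
      h58wWc (-P) = -h58wWc P * (1 - W.a₁ * zcoord P - W.a₃ * h58wWc P)⁻¹ := by
  have hz := zcoord_mem_nonunits A W ha₁ ha₂ ha₃ ha₄ ha₆ hP
  have hw := h58w_wc_mem A W ha₁ ha₂ ha₃ ha₄ ha₆ hP
  have hD : 1 - W.a₁ * zcoord P - W.a₃ * h58wWc P ≠ 0 := by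
    have : 1 - W.a₁ * zcoord P - W.a₃ * h58wWc P =
        1 - (W.a₁ * zcoord P + W.a₃ * h58wWc P) := by ring
    rw [this]
    exact one_sub_ne_zero A (nonunits_add_mem A (mem_mul_nonunits A ha₁ hz)
      (mem_mul_nonunits A ha₃ hw))
  rcases hP with rfl | ⟨x, y, h, rfl, hx⟩
  · simp [zcoord_zero, h58wWc_zero]
  · obtain ⟨hy0, -, -⟩ := formal_coords_of_not_mem A W ha₁ ha₂ ha₃ ha₄ ha₆ h.1 hx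
    rw [zcoord_some, h58wWc_some] at hD ⊢
    rw [Point.neg_some, zcoord_some, h58wWc_some]
    obtain ⟨D, hDdef⟩ : ∃ D, D = 1 - W.a₁ * (-x / y) - W.a₃ * (-1 / y) := ⟨_, rfl⟩
    rw [← hDdef] at hD ⊢
    have hneg : W.negY x y = -(y * D) := by
      rw [negY, hDdef]; field_simp; ring
    rw [hneg]
    constructor
    · field_simp
    · field_simp

/-- the denominator of the inverse is in `1 + 𝔪_A`. -/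
theorem h58w_neg_den_inv_mem (ha₁ : W.a₁ ∈ A) (ha₃ : W.a₃ ∈ A) {z w : K}
    (hz : z ∈ A.nonunits) (hw : w ∈ A.nonunits) :
    (1 - W.a₁ * z - W.a₃ * w)⁻¹ ∈ A := by
  have : 1 - W.a₁ * z - W.a₃ * w = 1 - (W.a₁ * z + W.a₃ * w) := by ring
  rw [this]
  exact inv_one_sub_mem A (nonunits_add_mem A (mem_mul_nonunits A ha₁ hz)
    (mem_mul_nonunits A ha₃ hw))

/-- `1 - zg2` is a unit of `A`: its inverse is in `A`. -/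
theorem h58w_zg2_inv_mem (ha₁ : W.a₁ ∈ A) (ha₂ : W.a₂ ∈ A) (ha₃ : W.a₃ ∈ A) (ha₄ : W.a₄ ∈ A)
    (ha₆ : W.a₆ ∈ A) {z₁ w₁ w₂ : K}
    (hz₁ : z₁ ∈ A.nonunits) (hw₁ : w₁ ∈ A.nonunits) (hw₂ : w₂ ∈ A.nonunits) :
    (1 - zg2 W z₁ w₁ w₂)⁻¹ ∈ A ∧ (1 - zg2 W z₁ w₁ w₂) * (1 - zg2 W z₁ w₁ w₂)⁻¹ = 1 := by
  have h := h58w_zg2_mem A W ha₁ ha₂ ha₃ ha₄ ha₆ hz₁ hw₁ hw₂
  exact ⟨inv_one_sub_mem A h, mul_inv_cancel₀ (one_sub_ne_zero A h)⟩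

/-- the value at `(0, 0, 0, 0)`. -/
theorem h58w_Z_zero : h58wZ W 0 0 0 0 = 0 ∧ h58wW W 0 0 0 0 = 0 := by
  simp [h58wZ, h58wW, h58wZ3, h58wW3, h58wNu, h58wLam, zg1, zc2]

end val

end Fermat.Agent.P7
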