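import Fermat.Agent.P7.H39WHField

/-!
# Wave 7 (S44), DLOG leaf DL5 DICTIONARY: the analytic QUOTIENT-EXPANSION lemma
(helper58, prefix `h58q_`)

If `P = Q * A` on the upper half plane with `A` holomorphic and `P`, `Q` have Laurent expansions
`p`, `q ≠ 0` in `𝕋 = exp (2πiτ/N)` (`S28.HasTExp N`), then `A` has a Laurent expansion `a`, and
`a * q = p`.

* `h58q_eq_zero_of_im_large` : identity theorem on `ℍ` (a holomorphic function vanishing for
  large imaginary part is `0`);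
* `h58q_quot` : the quotient expansion;
* `h58q_quot_fun` : the same with `Q ≠ 0` as a function;
* `h58q_quot_smul` : the form for translates `τ ↦ A (g • τ)`.
-/

set_option autoImplicit false
set_option linter.unusedSectionVars false

open UpperHalfPlane Filter Topology
open scoped Manifold MatrixGroups

noncomputable section

namespace Fermat.Agent.P7

open Fermat.Agent.S28 (HasTExp tParam)
open Fermat.Agent.Jac

/-- **identity theorem on `ℍ`**: a holomorphic function vanishing for large imaginary part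
vanishes. -/
theorem h58q_eq_zero_of_im_large {H : ℍ → ℂ} (hH : MDiff H) {Y : ℝ}
    (h : ∀ τ : ℍ, Y < τ.im → H τ = 0) : H = 0 := by
  have hpc : IsPreconnected {z : ℂ | 0 < z.im} :=
    (Complex.isConnected_of_upperHalfPlane subset_rfl (by grind)).isPreconnected
  have hm0 : (0 : ℝ) ≤ max Y 0 := le_max_right Y 0
  have hmY : Y ≤ max Y 0 := le_max_left Y 0
  set z₀ : ℂ := ⟨0, max Y 0 + 1⟩ with hz₀def
  have hz₀im : z₀.im = max Y 0 + 1 := rfl
  have hz₀ : z₀ ∈ {z : ℂ | 0 < z.im} := by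
    show 0 < z₀.im
    rw [hz₀im]; linarith
  have hev : (H ∘ UpperHalfPlane.ofComplex) =ᶠ[𝓝 z₀] 0 := by
    have hopen : IsOpen {z : ℂ | max Y 0 < z.im} :=
      isOpen_lt continuous_const Complex.continuous_im
    have hmem : {z : ℂ | max Y 0 < z.im} ∈ 𝓝 z₀ :=
      hopen.mem_nhds (by show max Y 0 < z₀.im; rw [hz₀im]; linarith)
    filter_upwards [hmem] with z hz
    have hz' : max Y 0 < z.im := hz
    have hzpos : 0 < z.im := lt_of_le_of_lt hm0 hz'
    simp only [Function.comp_apply, Pi.zero_apply]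
    rw [UpperHalfPlane.ofComplex_apply_of_im_pos hzpos]
    exact h _ (lt_of_le_of_lt hmY hz')
  have key := (Fermat.Agent.S24.h58_analyticOnNhd hH).eqOn_zero_of_preconnected_of_eventuallyEq_zero
    hpc hz₀ hev
  funext w
  have hw := key w.im_pos
  simpa [UpperHalfPlane.ofComplex_apply] using hw

/-- the power series part of an expansion, as a function on the unit disc, continuous at `0`. -/
theorem h58q_series_fun {N : ℕ} (hN : 0 < N) {G : ℍ → ℂ} {s : LaurentSeries ℂ}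
    (hs : HasTExp N G s) :
    ∃ φ : ℂ → ℂ, ContinuousAt φ 0 ∧ φ 0 = s.coeff s.order ∧
      ∀ τ : ℍ, G τ = φ (tParam N τ) * tParam N τ ^ s.order := by
  rw [Fermat.Agent.S28.hasTExp_iff] at hs
  have hM : ∀ n : ℤ, n < s.order → s.coeff n = 0 := fun n hn =>
    HahnSeries.coeff_eq_zero_of_lt_order hn
  have key : ∀ τ : ℍ, HasSum (fun k : ℕ => s.coeff (s.order + k) * tParam N τ ^ k)
      (G τ * (tParam N τ ^ s.order)⁻¹) := by
    intro τ
    have ht := Fermat.Agent.S28.tParam_ne_zero N τ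
    have h1 := hs τ
    have e : G τ = G τ * (tParam N τ ^ s.order)⁻¹ * tParam N τ ^ s.order := by
      rw [mul_assoc, inv_mul_cancel₀ (zpow_ne_zero _ ht), mul_one]
    rw [e] at h1
    exact (Fermat.Agent.S28.hasSum_laurent_iff ht s.order hM _).mp h1
  have hsum : ∀ t : ℂ, t ≠ 0 → ‖t‖ < 1 →
      Summable (fun k : ℕ => s.coeff (s.order + k) * t ^ k) := by
    intro t ht0 ht1
    obtain ⟨τ, rfl⟩ := Fermat.Agent.S28.exists_tParam_eq hN ht0 ht1
    exact (key τ).summable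
  have hd := Fermat.Agent.S28.differentiableOn_tsum_pow hsum
  refine ⟨fun t : ℂ => ∑' k : ℕ, s.coeff (s.order + k) * t ^ k,
    (hd.continuousOn).continuousAt (Metric.ball_mem_nhds 0 one_pos), ?_, fun τ => ?_⟩
  · have := Fermat.Agent.S28.tsum_pow_zero (fun k : ℕ => s.coeff (s.order + k))
    simpa using this
  · have ht := Fermat.Agent.S28.tParam_ne_zero N τ
    show G τ = (∑' k : ℕ, s.coeff (s.order + k) * tParam N τ ^ k) * tParam N τ ^ s.order
    rw [(key τ).tsum_eq, mul_assoc, inv_mul_cancel₀ (zpow_ne_zero _ ht), mul_one]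

/-- `‖𝕋‖ < r` for large imaginary part. -/
theorem h58q_norm_tParam_lt {N : ℕ} (hN : 0 < N) {r : ℝ} (hr : 0 < r) :
    ∃ Y : ℝ, ∀ τ : ℍ, Y < τ.im → ‖tParam N τ‖ < r := by
  have hN' : (0 : ℝ) < (N : ℝ) := by exact_mod_cast hN
  refine ⟨-(N : ℝ) * Real.log r / (2 * Real.pi), fun τ hτ => ?_⟩
  have h := (Function.Periodic.norm_qParam_lt_iff hN'
    (-(N : ℝ) * Real.log r / (2 * Real.pi)) (τ : ℂ)).mpr hτ
  have e : -2 * Real.pi * (-(N : ℝ) * Real.log r / (2 * Real.pi)) / (N : ℝ) = Real.log r := by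
    have hpi : Real.pi ≠ 0 := Real.pi_ne_zero
    field_simp
  rw [e, Real.exp_log hr] at h
  exact h

/-- the expansion of `𝕋 ^ (-K)`. -/
theorem h58q_hasTExp_tParam_inv (N K : ℕ) :
    HasTExp N (fun τ => (tParam N τ ^ K)⁻¹) (HahnSeries.single (-(K : ℤ)) (1 : ℂ)) := by
  refine ⟨K, 1, by simp, fun τ => ?_⟩
  have ht := Fermat.Agent.S28.tParam_ne_zero N τ
  rw [inv_mul_cancel₀ (pow_ne_zero _ ht)]
  have h := hasSum_single (f := fun n : ℕ => PowerSeries.coeff n (1 : PowerSeries ℂ) *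
    tParam N τ ^ n) 0 (fun n hn => by simp [PowerSeries.coeff_one, hn])
  simpa using h

/-- **QUOTIENT EXPANSION.**  `P = Q * A` on `ℍ`, `A` holomorphic, `P` and `Q` with Laurent
expansions `p` and `q ≠ 0` in `𝕋 = exp (2πiτ/N)`: then `A` has a Laurent expansion `a` with
`a * q = p`. -/
theorem h58q_quot {N : ℕ} (hN : 0 < N) {P Q A : ℍ → ℂ} (hA : MDiff A)
    (hrel : ∀ τ, P τ = Q τ * A τ) {p q : LaurentSeries ℂ}
    (hp : HasTExp N P p) (hq : HasTExp N Q q) (hq0 : q ≠ 0) :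
    ∃ a : LaurentSeries ℂ, HasTExp N A a ∧ a * q = p := by
  obtain ⟨φ, hφc, hφ0, hφ⟩ := h58q_series_fun hN hq
  obtain ⟨ψ, hψc, -, hψ⟩ := h58q_series_fun hN hp
  have hc0 : q.coeff q.order ≠ 0 := fun h => hq0 (HahnSeries.coeff_order_eq_zero.mp h)
  have hφ0' : φ 0 ≠ 0 := by rw [hφ0]; exact hc0
  have hφpos : 0 < ‖φ 0‖ := norm_pos_iff.mpr hφ0'
  -- the radius
  obtain ⟨δ₁, hδ₁, h₁⟩ := Metric.continuousAt_iff.mp hφc (‖φ 0‖ / 2) (by positivity)
  obtain ⟨δ₂, hδ₂, h₂⟩ := Metric.continuousAt_iff.mp hψc 1 one_pos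
  have hφlow : ∀ t : ℂ, ‖t‖ < min δ₁ δ₂ → ‖φ 0‖ / 2 ≤ ‖φ t‖ := by
    intro t ht
    have h := h₁ (x := t) (by rw [dist_zero_right]; exact lt_of_lt_of_le ht (min_le_left _ _))
    rw [dist_eq_norm] at h
    have h3 : ‖φ 0‖ ≤ ‖φ t‖ + ‖φ t - φ 0‖ := by
      have := norm_sub_le (φ t) (φ t - φ 0)
      simpa using this
    linarith
  have hψup : ∀ t : ℂ, ‖t‖ < min δ₁ δ₂ → ‖ψ t‖ ≤ ‖ψ 0‖ + 1 := by
    intro t ht
    have h := h₂ (x := t) (by rw [dist_zero_right]; exact lt_of_lt_of_le ht (min_le_right _ _))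
    rw [dist_eq_norm] at h
    have h3 : ‖ψ t‖ ≤ ‖ψ 0‖ + ‖ψ t - ψ 0‖ := by
      have := norm_add_le (ψ 0) (ψ t - ψ 0)
      simpa using this
    linarith
  obtain ⟨Y, hY⟩ := h58q_norm_tParam_lt hN (lt_min hδ₁ hδ₂)
  have hQne : ∀ τ : ℍ, Y < τ.im → Q τ ≠ 0 := by
    intro τ hτ
    rw [hφ τ]
    refine mul_ne_zero ?_ (zpow_ne_zero _ (Fermat.Agent.S28.tParam_ne_zero N τ))
    intro h0
    have := hφlow _ (hY τ hτ)
    rw [h0, norm_zero] at this
    linarith
  -- periodicity of `A`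
  have hPper := h39o_periodic_of_hasTExp hN hp
  have hQper := h39o_periodic_of_hasTExp hN hq
  have hAper : ∀ τ : ℍ, A ((N : ℝ) +ᵥ τ) = A τ := by
    have hshift : MDiff (fun τ : ℍ => A ((N : ℝ) +ᵥ τ)) := by
      have h1 : (fun τ : ℍ => A ((N : ℝ) +ᵥ τ)) =
          fun τ : ℍ => A ((ModularGroup.T ^ (N : ℤ)) • τ) := by
        funext τ
        rw [UpperHalfPlane.modular_T_zpow_smul]
        simp
      rw [h1]
      exact h72_mdiff_comp_smul hA _
    have hdiff : MDiff (fun τ : ℍ => A ((N : ℝ) +ᵥ τ) - A τ) := hshift.sub hA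
    have h0 := h58q_eq_zero_of_im_large hdiff (Y := Y) (fun τ hτ => by
      have hQ := hQne τ hτ
      have e1 : Q τ * A ((N : ℝ) +ᵥ τ) = Q τ * A τ := by
        rw [← hrel τ, ← hQper τ, ← hrel, hPper τ]
      have := mul_left_cancel₀ hQ e1
      show A ((N : ℝ) +ᵥ τ) - A τ = 0
      rw [this, sub_self])
    intro τ
    have := congrFun h0 τ
    exact sub_eq_zero.mp this
  -- the bounded function
  set K : ℕ := (q.order - p.order).toNat with hK
  have hKge : q.order - p.order ≤ (K : ℤ) := Int.self_le_toNat _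
  set D : ℍ → ℂ := fun τ => A τ * tParam N τ ^ K with hD
  have hDhol : MDiff D := hA.mul ((h72_mdiff_tParam N).pow K)
  have hDper : ∀ τ : ℍ, D ((N : ℝ) +ᵥ τ) = D τ := by
    intro τ
    simp only [hD]
    rw [hAper τ, h72_tParam_vadd hN]
  have hDbdd : IsBoundedAtImInfty D := by
    rw [UpperHalfPlane.isBoundedAtImInfty_iff]
    refine ⟨(‖ψ 0‖ + 1) / (‖φ 0‖ / 2), Y + 1, fun τ hτ => ?_⟩
    have hτ' : Y < τ.im := by linarith
    have ht := Fermat.Agent.S28.tParam_ne_zero N τ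
    have ht1 := Fermat.Agent.S28.norm_tParam_lt_one hN τ
    have hsmall := hY τ hτ'
    have hQ := hQne τ hτ'
    have hφt : φ (tParam N τ) ≠ 0 := by
      intro h0
      apply hQ
      rw [hφ τ, h0, zero_mul]
    -- `D = ψ / φ * 𝕋 ^ (K + ord p - ord q)`
    have hAeq : A τ = P τ / Q τ := by
      rw [hrel τ]; field_simp
    have hDeq : D τ = ψ (tParam N τ) / φ (tParam N τ) *
        tParam N τ ^ ((K : ℤ) + p.order - q.order) := by
      simp only [hD]
      rw [hAeq, hφ τ, hψ τ, zpow_sub₀ ht, zpow_add₀ ht, zpow_natCast]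
      field_simp
    rw [hDeq, norm_mul, norm_div, norm_zpow]
    have hexp : (0 : ℤ) ≤ (K : ℤ) + p.order - q.order := by omega
    have hpow : ‖tParam N τ‖ ^ ((K : ℤ) + p.order - q.order) ≤ 1 := by
      obtain ⟨e, he⟩ := Int.eq_ofNat_of_zero_le hexp
      rw [he, zpow_natCast]
      exact pow_le_one₀ (norm_nonneg _) ht1.le
    have hfrac : ‖ψ (tParam N τ)‖ / ‖φ (tParam N τ)‖ ≤ (‖ψ 0‖ + 1) / (‖φ 0‖ / 2) := by
      have h1 := hφlow _ hsmall
      have h2 := hψup _ hsmall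
      have h3 : (0 : ℝ) < ‖φ 0‖ / 2 := by positivity
      exact div_le_div₀ (by positivity) h2 h3 h1
    have hnn : (0 : ℝ) ≤ ‖ψ (tParam N τ)‖ / ‖φ (tParam N τ)‖ := by positivity
    calc ‖ψ (tParam N τ)‖ / ‖φ (tParam N τ)‖ * ‖tParam N τ‖ ^ ((K : ℤ) + p.order - q.order)
        ≤ ‖ψ (tParam N τ)‖ / ‖φ (tParam N τ)‖ * 1 := mul_le_mul_of_nonneg_left hpow hnn
      _ = ‖ψ (tParam N τ)‖ / ‖φ (tParam N τ)‖ := mul_one _
      _ ≤ _ := hfrac
  obtain ⟨d, hd⟩ := h39o_hasTExp_of_bdd hN hDhol hDper hDbdd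
  have ha : HasTExp N A (HahnSeries.ofPowerSeries ℤ ℂ d * HahnSeries.single (-(K : ℤ)) 1) := by
    refine (hd.mul hN (h58q_hasTExp_tParam_inv N K)).congr (fun τ => ?_)
    have ht := Fermat.Agent.S28.tParam_ne_zero N τ
    simp only [Pi.mul_apply, hD]
    rw [mul_assoc, mul_inv_cancel₀ (pow_ne_zero _ ht), mul_one]
  refine ⟨_, ha, ?_⟩
  have hprod := (ha.mul hN hq).congr (g₂ := P) (fun τ => by
    simp only [Pi.mul_apply]
    rw [hrel τ, mul_comm])
  exact HasTExp.unique hN hprod hp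

/-- **QUOTIENT EXPANSION**, with `Q ≠ 0` as a function. -/
theorem h58q_quot_fun {N : ℕ} (hN : 0 < N) {P Q A : ℍ → ℂ} (hA : MDiff A)
    (hrel : ∀ τ, P τ = Q τ * A τ) (hQ0 : Q ≠ 0) {p q : LaurentSeries ℂ}
    (hp : HasTExp N P p) (hq : HasTExp N Q q) :
    ∃ a : LaurentSeries ℂ, HasTExp N A a ∧ a * q = p := by
  refine h58q_quot hN hA hrel hp hq ?_
  rintro rfl
  apply hQ0
  funext τ
  have h := (Fermat.Agent.S28.hasTExp_iff.mp hq) τ
  simp only [HahnSeries.coeff_zero, zero_mul] at h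
  exact h.unique hasSum_zero

/-- **QUOTIENT EXPANSION at every cusp**: the translates `τ ↦ A (g • τ)`. -/
theorem h58q_quot_smul {N : ℕ} (hN : 0 < N) {P Q A : ℍ → ℂ} (hA : MDiff A)
    (hrel : ∀ τ, P τ = Q τ * A τ) (hQ0 : Q ≠ 0) (g : SL(2, ℤ)) {p q : LaurentSeries ℂ}
    (hp : HasTExp N (fun τ => P (g • τ)) p) (hq : HasTExp N (fun τ => Q (g • τ)) q) :
    ∃ a : LaurentSeries ℂ, HasTExp N (fun τ => A (g • τ)) a ∧ a * q = p := by
  refine h58q_quot_fun hN (h72_mdiff_comp_smul hA g) (fun τ => hrel (g • τ)) ?_ hp hq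
  intro h
  apply hQ0
  funext τ
  have := congrFun h (g⁻¹ • τ)
  simpa using this

end Fermat.Agent.P7
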