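import Fermat.Agent.P7.H58Law

/-!
# Wave 7 (row 38, target S44), block LOCAL-MULT, leaf SHIFT (helper58)

Exact translation formulas with valuations on an integral Weierstrass model, for the paper proof
of LOCAL-MULT (finding 1404 (B), step (3)).

* `h58s_addX_sub` : the exact identity
  `x(Q + T) - x(Q) = N / (x₂ - x₁)²`, `N = h58sNum W x₁ y₁ x₂ y₂` (any Weierstrass curve).
* `h58s_node_shift` : on a short nodal model `y² = x³ + a₂ x² + a₄ x` (`2`, `a₂` units), for `Q`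
  near the node (`x₁ ∈ 𝔪`, `a₄ / x₁ ∈ 𝔪`) and `T` in the kernel of reduction:
  `v (x(Q + T) - x(Q)) = v (x(Q)) * v (z(T))`.
-/

set_option autoImplicit false

namespace Fermat.Agent.P7

open WeierstrassCurve WeierstrassCurve.Affine Fermat.Agent.S05 Fermat.Agent.S05.K56

variable {K : Type*} [Field K]

/-- the numerator of `x(Q + T) - x(Q)`. -/
def h58sNum (W : Affine K) (x₁ y₁ x₂ y₂ : K) : K :=
  -2 * y₁ * y₂ - W.a₁ * (x₁ * y₂ + x₂ * y₁) - W.a₃ * (y₁ + y₂)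
    + (3 * x₁ ^ 2 + 2 * W.a₂ * x₁ + W.a₄) * x₂ + W.a₄ * x₁ - x₁ ^ 3 + 2 * W.a₆

/-- **the exact chord identity**: `x(Q + T) - x(Q) = N / (x₂ - x₁)²`. -/
theorem h58s_addX_sub (W : Affine K) {x₁ y₁ x₂ y₂ : K} (h₁ : W.Equation x₁ y₁)
    (h₂ : W.Equation x₂ y₂) (hx : x₁ ≠ x₂) :
    W.addX x₁ x₂ ((y₁ - y₂) / (x₁ - x₂)) - x₁ = h58sNum W x₁ y₁ x₂ y₂ / (x₂ - x₁) ^ 2 := by
  have hne : x₁ - x₂ ≠ 0 := sub_ne_zero.2 hx
  have hne' : x₂ - x₁ ≠ 0 := sub_ne_zero.2 (Ne.symm hx)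
  rw [equation_iff] at h₁ h₂
  have e : (x₂ - x₁) ^ 2 = (x₁ - x₂) ^ 2 := by ring
  rw [e, eq_div_iff (pow_ne_zero 2 hne)]
  simp only [addX, h58sNum]
  field_simp
  linear_combination h₁ + h₂

/-- the `x`-coordinate of a sum of two affine points with distinct `x`-coordinates. -/
theorem h58s_add_X [DecidableEq K] (W : Affine K) {x₁ y₁ x₂ y₂ x₃ y₃ : K}
    (hQ : W.Nonsingular x₁ y₁) (hT : W.Nonsingular x₂ y₂) (hR : W.Nonsingular x₃ y₃)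
    (hx : x₁ ≠ x₂)
    (hadd : Point.some x₁ y₁ hQ + Point.some x₂ y₂ hT = Point.some x₃ y₃ hR) :
    x₃ - x₁ = h58sNum W x₁ y₁ x₂ y₂ / (x₂ - x₁) ^ 2 := by
  have hxy : ¬(x₁ = x₂ ∧ y₁ = W.negY x₂ y₂) := fun h => hx h.1
  rw [Point.add_some hxy, Point.some.injEq] at hadd
  rw [← hadd.1, slope_of_X_ne hx]
  exact h58s_addX_sub W hQ.1 hT.1 hx

section node

variable (A : ValuationSubring K) (W : Affine K)

/-- on the short nodal model, a point near the node has `v(y) = v(x)`. -/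
theorem h58s_node_val_y (h₁₀ : W.a₁ = 0) (h₃₀ : W.a₃ = 0) (h₆₀ : W.a₆ = 0)
    (hv₂ : A.valuation W.a₂ = 1) {x₁ y₁ : K} (hQ : W.Equation x₁ y₁)
    (hx₁ : x₁ ∈ A.nonunits) (hx₁0 : x₁ ≠ 0) (h4 : W.a₄ / x₁ ∈ A.nonunits) :
    A.valuation (y₁ / x₁) = 1 ∧ y₁ ≠ 0 := by
  rw [equation_iff, h₁₀, h₃₀, h₆₀] at hQ
  have hsq : (y₁ / x₁) ^ 2 = W.a₂ + (x₁ + W.a₄ / x₁) := by
    field_simp
    linear_combination hQ
  have hm : x₁ + W.a₄ / x₁ ∈ A.nonunits := nonunits_add_mem A hx₁ h4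
  have hv : A.valuation (W.a₂ + (x₁ + W.a₄ / x₁)) = 1 := by
    rw [A.mem_nonunits_iff] at hm
    have := A.valuation.map_add_eq_of_lt_left (x := W.a₂) (y := x₁ + W.a₄ / x₁)
      (by rw [hv₂]; exact hm)
    rw [this, hv₂]
  have h1 : A.valuation (y₁ / x₁) ^ 2 = 1 := by rw [← map_pow, hsq, hv]
  have h2 : A.valuation (y₁ / x₁) = 1 :=
    (pow_eq_one_iff_of_nonneg zero_le two_ne_zero).mp h1
  refine ⟨h2, ?_⟩
  rintro rfl
  rw [zero_div, map_zero] at h2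
  exact zero_ne_one h2

/-- a point of the kernel of reduction of the short model: `v(y / x²) = v(x / y)`. -/
theorem h58s_ker_val (h₁₀ : W.a₁ = 0) (h₃₀ : W.a₃ = 0) (h₆₀ : W.a₆ = 0)
    (ha₂ : W.a₂ ∈ A) (ha₄ : W.a₄ ∈ A) {x₂ y₂ : K} (hT : W.Equation x₂ y₂) (hx₂ : x₂ ∉ A) :
    A.valuation (y₂ / x₂ ^ 2) = A.valuation (x₂ / y₂) := by
  have hx0 : x₂ ≠ 0 := ne_zero_of_not_mem A hx₂
  have hs : x₂⁻¹ ∈ A.nonunits := inv_mem_nonunits_of_not_mem A hx₂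
  have hsA : x₂⁻¹ ∈ A := mem_of_mem_nonunits A hs
  have hy0 : y₂ ≠ 0 :=
    (formal_coords_of_not_mem A W (by rw [h₁₀]; exact zero_mem _) ha₂
      (by rw [h₃₀]; exact zero_mem _) ha₄ (by rw [h₆₀]; exact zero_mem _) hT hx₂).1
  rw [equation_iff, h₁₀, h₃₀, h₆₀] at hT
  have hm : -(W.a₂ * x₂⁻¹ + W.a₄ * x₂⁻¹ ^ 2) ∈ A.nonunits :=
    nonunits_neg_mem A (nonunits_add_mem A (mem_mul_nonunits A ha₂ hs)
      (mem_mul_nonunits A ha₄ (nonunits_pow_mem A hs two_ne_zero)))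
  have hq : y₂ / x₂ ^ 2 = x₂ / y₂ * (1 - -(W.a₂ * x₂⁻¹ + W.a₄ * x₂⁻¹ ^ 2)) := by
    field_simp
    linear_combination hT
  rw [hq, map_mul, valuation_one_sub A hm, mul_one]

/-- **NODE-SHIFT.**  On the short nodal model `y² = x³ + a₂ x² + a₄ x` (`2` and `a₂` units of
`A`), let `Q = (x₁, y₁)` reduce to the node strictly inside the annulus (`x₁ ∈ 𝔪`,
`a₄ / x₁ ∈ 𝔪`) and let `T = (x₂, y₂)` lie in the kernel of reduction.  Then
`v (x(Q + T) - x(Q)) = v (x(Q)) * v (x(T) / y(T))`. -/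
theorem h58s_node_shift [DecidableEq K] (h₁₀ : W.a₁ = 0) (h₃₀ : W.a₃ = 0) (h₆₀ : W.a₆ = 0)
    (hv₂ : A.valuation W.a₂ = 1) (h2 : A.valuation (2 : K) = 1)
    {x₁ y₁ x₂ y₂ x₃ y₃ : K}
    (hQ : W.Nonsingular x₁ y₁) (hT : W.Nonsingular x₂ y₂) (hR : W.Nonsingular x₃ y₃)
    (hx₁ : x₁ ∈ A.nonunits) (hx₁0 : x₁ ≠ 0) (h4 : W.a₄ / x₁ ∈ A.nonunits) (hx₂ : x₂ ∉ A)
    (hadd : Point.some x₁ y₁ hQ + Point.some x₂ y₂ hT = Point.some x₃ y₃ hR) :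
    A.valuation (x₃ - x₁) = A.valuation x₁ * A.valuation (x₂ / y₂) := by
  have hx₁A : x₁ ∈ A := mem_of_mem_nonunits A hx₁
  have ha₂ : W.a₂ ∈ A := (A.valuation_le_one_iff _).mp hv₂.le
  have h2A : (2 : K) ∈ A := (A.valuation_le_one_iff _).mp h2.le
  have h2inv : (2 : K)⁻¹ ∈ A := by
    rw [← A.valuation_le_one_iff, map_inv₀, h2, inv_one]
  have h20 : (2 : K) ≠ 0 := by
    rintro h; rw [h, map_zero] at h2; exact zero_ne_one h2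
  have ha₄ : W.a₄ ∈ A := by
    have : W.a₄ = W.a₄ / x₁ * x₁ := by field_simp
    rw [this]; exact mul_mem (mem_of_mem_nonunits A h4) hx₁A
  have hx : x₁ ≠ x₂ := by rintro rfl; exact hx₂ hx₁A
  have hx0 : x₂ ≠ 0 := ne_zero_of_not_mem A hx₂
  have hs : x₂⁻¹ ∈ A.nonunits := inv_mem_nonunits_of_not_mem A hx₂
  obtain ⟨hyx, hy₁0⟩ := h58s_node_val_y A W h₁₀ h₃₀ h₆₀ hv₂ hQ.1 hx₁ hx₁0 h4
  have hxy : A.valuation (x₁ / y₁) = 1 := by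
    have : x₁ / y₁ = (y₁ / x₁)⁻¹ := by rw [inv_div]
    rw [this, map_inv₀, hyx, inv_one]
  have hxyA : x₁ / y₁ ∈ A := (A.valuation_le_one_iff _).mp hxy.le
  obtain ⟨hy₂0, hz, hw⟩ := formal_coords_of_not_mem A W (by rw [h₁₀]; exact zero_mem _) ha₂
      (by rw [h₃₀]; exact zero_mem _) ha₄ (by rw [h₆₀]; exact zero_mem _) hT.1 hx₂
  have hz' : x₂ / y₂ ∈ A.nonunits := by
    have := nonunits_neg_mem A hz
    rwa [neg_div, neg_neg] at this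
  have hw' : y₂⁻¹ ∈ A.nonunits := by
    have := nonunits_neg_mem A hw
    rwa [neg_div, neg_neg, one_div] at this
  -- the error term
  obtain ⟨E, hEdef⟩ : ∃ E, E = 2⁻¹ * (x₁ / y₁ * (3 * x₁ + 2 * W.a₂ + W.a₄ / x₁) * (x₂ / y₂)
      + x₁ / y₁ * (W.a₄ - x₁ ^ 2) * y₂⁻¹) := ⟨_, rfl⟩
  have h3A : (3 : K) ∈ A := by
    have : (3 : K) = 2 + 1 := by norm_num
    rw [this]; exact add_mem h2A (one_mem _)
  have hE : E ∈ A.nonunits := by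
    rw [hEdef]
    refine mem_mul_nonunits A h2inv (nonunits_add_mem A ?_ ?_)
    · refine mem_mul_nonunits A (mul_mem hxyA (add_mem (add_mem (mul_mem h3A hx₁A)
        (mul_mem h2A ha₂)) (mem_of_mem_nonunits A h4))) hz'
    · exact mem_mul_nonunits A (mul_mem hxyA (sub_mem ha₄ (pow_mem hx₁A 2))) hw'
  have hm : x₁ * x₂⁻¹ ∈ A.nonunits := mem_mul_nonunits A hx₁A hs
  have key := h58s_add_X W hQ hT hR hx hadd
  have hne : x₂ - x₁ ≠ 0 := sub_ne_zero.2 (Ne.symm hx)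
  have hne1 : 1 - x₁ * x₂⁻¹ ≠ 0 := one_sub_ne_zero A hm
  have hform : x₃ - x₁ = -(2 * y₁ * (y₂ / x₂ ^ 2)) * (1 - E) * ((1 - x₁ * x₂⁻¹) ^ 2)⁻¹ := by
    rw [key, hEdef, h58sNum, h₁₀, h₃₀, h₆₀]
    field_simp
    ring
  rw [hform, map_mul, map_mul, Valuation.map_neg, map_mul, map_mul, h2, one_mul, map_inv₀, map_pow,
    valuation_one_sub A hm, valuation_one_sub A hE, one_pow, inv_one, mul_one, mul_one,
    h58s_ker_val A W h₁₀ h₃₀ h₆₀ ha₂ ha₄ hT.1 hx₂]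
  congr 1
  have : y₁ = y₁ / x₁ * x₁ := by field_simp
  rw [this, map_mul, hyx, one_mul]

end node

end Fermat.Agent.P7
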