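import Fermat.Agent.P7.H58Law

/-!
# Wave 7 (row 38, target S44), block LOCAL-MULT, leaf SHIFT, part (E) (helper58)

E1-SHIFT: on an integral Weierstrass model (all `a_i ∈ A`, no hypothesis on `2`), translation by
a point `T` of the kernel of reduction moves the `z`-coordinate of a point `Q` of the kernel of
reduction by exactly `v(z_T)`:

* `h58e_E1_shift` : `Q, T ∈ E¹ ⟹ v (z(Q + T) - z(Q)) = v (z(T))`;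
* `h58e_E1_sub` : `P₁, P₂ ∈ E¹ ⟹ v (z(P₁) - z(P₂)) = v (z(P₁ - P₂))`;
* `h58e_shift_chart` : the exact chart form
  `Z(z₁, w₁, z₂, w₂) - z₁ = z₂ (1 - e) / Den`, `e ∈ 𝔪_A`.
-/

set_option autoImplicit false

namespace Fermat.Agent.P7

open WeierstrassCurve WeierstrassCurve.Affine Fermat.Agent.S05 Fermat.Agent.S05.K56

variable {K : Type*} [Field K]

/-- the bracket of the core identity. -/
def h58eB (W : Affine K) (Λ ν : K) : K :=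
  W.a₂ + 2 * W.a₄ * Λ + 3 * W.a₆ * Λ ^ 2 +
    (W.a₁ + W.a₃ * Λ) * (W.a₁ + 2 * W.a₃ * Λ + W.a₄ * ν + 3 * W.a₆ * Λ * ν)

/-- **core identity** (pure algebra from the first two Vieta relations): `z₃ + z₁ Den` is
divisible by `z₂`. -/
theorem h58e_core (W : Affine K) {z₁ z₂ z₃ Λ ν μ : K}
    (hV1 : zc3 W Λ * (z₁ + z₂ + z₃) = -zc2 W Λ ν)
    (hV2 : zc3 W Λ * (z₁ * z₂ + z₁ * z₃ + z₂ * z₃) = zc1 W Λ ν)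
    (hν : ν = z₂ * μ) :
    zc3 W Λ * (z₃ + z₁ * (1 - W.a₁ * z₃ - W.a₃ * (Λ * z₃ + ν))) =
      -z₂ * (zc3 W Λ - (W.a₁ + W.a₃ * Λ) * zc3 W Λ * (z₁ + z₃) +
        (W.a₃ * zc3 W Λ * z₁ + h58eB W Λ ν) * μ) := by
  simp only [zc2, zc1, h58eB] at *
  linear_combination hV1 - (W.a₁ + W.a₃ * Λ) * hV2 -
    (W.a₃ * zc3 W Λ * z₁ + (W.a₂ + 2 * W.a₄ * Λ + 3 * W.a₆ * Λ ^ 2 +
      (W.a₁ + W.a₃ * Λ) * (W.a₁ + 2 * W.a₃ * Λ + W.a₄ * ν + 3 * W.a₆ * Λ * ν))) * hν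

section val

variable (A : ValuationSubring K) (W : Affine K)

/-- **E1-SHIFT, exact chart form**: for two solutions `(z₁, w₁)`, `(z₂, w₂)` of `w = f(z, w)` in
`𝔪_A`, the `z`-coordinate of the sum is `z₁ + z₂ (1 - e) / Den` with `e ∈ 𝔪_A`. -/
theorem h58e_shift_chart (ha₁ : W.a₁ ∈ A) (ha₂ : W.a₂ ∈ A) (ha₃ : W.a₃ ∈ A) (ha₄ : W.a₄ ∈ A)
    (ha₆ : W.a₆ ∈ A) {z₁ w₁ z₂ w₂ : K}
    (hz₁ : z₁ ∈ A.nonunits) (hw₁ : w₁ ∈ A.nonunits) (hz₂ : z₂ ∈ A.nonunits)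
    (hw₂ : w₂ ∈ A.nonunits) (E₁ : w₁ = fzw W z₁ w₁) (E₂ : w₂ = fzw W z₂ w₂) :
    ∃ e ∈ A.nonunits,
      h58wZ W z₁ w₁ z₂ w₂ - z₁ = z₂ * (1 - e) * (h58wDen W z₁ w₁ z₂ w₂)⁻¹ := by
  have hz₁A := mem_of_mem_nonunits A hz₁
  have hz₂A := mem_of_mem_nonunits A hz₂
  have hg2 := h58w_zg2_mem A W ha₁ ha₂ ha₃ ha₄ ha₆ hz₁ hw₁ hw₂
  have hg := one_sub_ne_zero A hg2
  have hΛm := h58w_lam_mem A W ha₁ ha₂ ha₃ ha₄ ha₆ hz₁ hw₁ hz₂ hw₂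
  have hνm := h58w_nu_mem A W ha₁ ha₂ ha₃ ha₄ ha₆ hz₁ hw₁ hz₂ hw₂
  have hz₃m := h58w_z3_mem A W ha₁ ha₂ ha₃ ha₄ ha₆ hz₁ hw₁ hz₂ hw₂
  have hc3 := h58w_zc3_ne_zero A W ha₂ ha₄ ha₆ hΛm
  have hc3i := h58w_zc3_inv_mem A W ha₂ ha₄ ha₆ hΛm
  have hden := h58w_den_ne_zero A W ha₁ ha₂ ha₃ ha₄ ha₆ hz₁ hw₁ hz₂ hw₂
  have hdenE : h58wDen W z₁ w₁ z₂ w₂ = 1 - W.a₁ * h58wZ3 W z₁ w₁ z₂ w₂ -
      W.a₃ * (h58wLam W z₁ w₁ z₂ w₂ * h58wZ3 W z₁ w₁ z₂ w₂ + h58wNu W z₁ w₁ z₂ w₂) := by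
    rw [h58wDen, h58wW3]
  have hZE : h58wZ W z₁ w₁ z₂ w₂ =
      -h58wZ3 W z₁ w₁ z₂ w₂ * (h58wDen W z₁ w₁ z₂ w₂)⁻¹ := by rw [h58wZ]
  have hz₃E : h58wZ3 W z₁ w₁ z₂ w₂ = -z₁ - z₂ -
      zc2 W (h58wLam W z₁ w₁ z₂ w₂) (h58wNu W z₁ w₁ z₂ w₂) *
        (zc3 W (h58wLam W z₁ w₁ z₂ w₂))⁻¹ := by rw [h58wZ3]
  have hνE : h58wNu W z₁ w₁ z₂ w₂ = w₁ - h58wLam W z₁ w₁ z₂ w₂ * z₁ := by rw [h58wNu]
  have hΛ : h58wLam W z₁ w₁ z₂ w₂ * (1 - zg2 W z₁ w₁ w₂) = zg1 W z₁ z₂ w₂ := by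
    rw [h58wLam, mul_assoc, inv_mul_cancel₀ hg, mul_one]
  obtain ⟨Λ, hΛdef⟩ : ∃ Λ, Λ = h58wLam W z₁ w₁ z₂ w₂ := ⟨_, rfl⟩
  obtain ⟨ν, hνdef⟩ : ∃ ν, ν = h58wNu W z₁ w₁ z₂ w₂ := ⟨_, rfl⟩
  obtain ⟨z₃, hz₃def⟩ : ∃ z₃, z₃ = h58wZ3 W z₁ w₁ z₂ w₂ := ⟨_, rfl⟩
  obtain ⟨D, hDdef⟩ : ∃ D, D = h58wDen W z₁ w₁ z₂ w₂ := ⟨_, rfl⟩
  rw [← hΛdef, ← hνdef, ← hz₃def, ← hDdef] at hdenE
  rw [← hz₃def, ← hDdef] at hZE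
  rw [← hΛdef, ← hνdef, ← hz₃def] at hz₃E
  rw [← hΛdef, ← hνdef] at hνE
  rw [← hΛdef] at hΛ hΛm hc3 hc3i
  rw [← hνdef] at hνm
  rw [← hz₃def] at hz₃m
  rw [← hDdef] at hden ⊢
  have hΛA := mem_of_mem_nonunits A hΛm
  have hνA := mem_of_mem_nonunits A hνm
  have hch := chord_eq W E₁ E₂
  have hw₁' : w₁ = Λ * z₁ + ν := by rw [hνE]; ring
  have hw₂' : w₂ = Λ * z₂ + ν := by
    have h0 : (w₂ - w₁ - Λ * (z₂ - z₁)) * (1 - zg2 W z₁ w₁ w₂) = 0 := by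
      linear_combination hch - (z₂ - z₁) * hΛ
    rcases mul_eq_zero.1 h0 with h | h
    · linear_combination h + hw₁'
    · exact absurd h hg
  have hV1 : zc3 W Λ * (z₁ + z₂ + z₃) = -zc2 W Λ ν := by
    rw [hz₃E]
    field_simp
    ring
  have hV2 := vieta2 W hw₁' hw₂' hΛ hV1
  obtain ⟨d, hd, hwd⟩ := w_eq_z_cube_mul A W ha₁ ha₂ ha₃ ha₄ ha₆ hz₂ hw₂ E₂
  obtain ⟨μ, hμdef⟩ : ∃ μ, μ = z₂ ^ 2 * d - Λ := ⟨_, rfl⟩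
  have hμm : μ ∈ A.nonunits := by
    rw [hμdef]
    exact h58w_nonunits_sub_mem A (nonunits_mul_mem A (nonunits_pow_mem A hz₂ two_ne_zero) hd)
      hΛm
  have hν : ν = z₂ * μ := by
    rw [hμdef]; linear_combination -hw₂' + hwd
  have core := h58e_core W hV1 hV2 hν
  have h2A : (2 : K) ∈ A := ofNat_mem A 2
  have h3A : (3 : K) ∈ A := ofNat_mem A 3
  have hB : h58eB W Λ ν ∈ A := by
    rw [h58eB]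
    exact add_mem (add_mem (add_mem ha₂ (mul_mem (mul_mem h2A ha₄) hΛA))
      (mul_mem (mul_mem h3A ha₆) (pow_mem hΛA 2)))
      (mul_mem (add_mem ha₁ (mul_mem ha₃ hΛA))
        (add_mem (add_mem (add_mem ha₁ (mul_mem (mul_mem h2A ha₃) hΛA)) (mul_mem ha₄ hνA))
          (mul_mem (mul_mem (mul_mem h3A ha₆) hΛA) hνA)))
  refine ⟨(W.a₁ + W.a₃ * Λ) * (z₁ + z₃) - (W.a₃ * z₁ + h58eB W Λ ν * (zc3 W Λ)⁻¹) * μ, ?_, ?_⟩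
  · exact h58w_nonunits_sub_mem A
      (mem_mul_nonunits A (add_mem ha₁ (mul_mem ha₃ hΛA)) (nonunits_add_mem A hz₁ hz₃m))
      (mem_mul_nonunits A (add_mem (mul_mem ha₃ hz₁A) (mul_mem hB hc3i)) hμm)
  · rw [hZE]
    rw [← hdenE] at core
    obtain ⟨c, hcdef⟩ : ∃ c, c = zc3 W Λ := ⟨_, rfl⟩
    obtain ⟨B, hBdef⟩ : ∃ B, B = h58eB W Λ ν := ⟨_, rfl⟩
    rw [← hcdef] at core hc3 ⊢
    rw [← hBdef] at core ⊢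
    field_simp
    linear_combination -core

/-- **E1-SHIFT, chart form, valuation.** -/
theorem h58e_shift_chart_val (ha₁ : W.a₁ ∈ A) (ha₂ : W.a₂ ∈ A) (ha₃ : W.a₃ ∈ A)
    (ha₄ : W.a₄ ∈ A) (ha₆ : W.a₆ ∈ A) {z₁ w₁ z₂ w₂ : K}
    (hz₁ : z₁ ∈ A.nonunits) (hw₁ : w₁ ∈ A.nonunits) (hz₂ : z₂ ∈ A.nonunits)
    (hw₂ : w₂ ∈ A.nonunits) (E₁ : w₁ = fzw W z₁ w₁) (E₂ : w₂ = fzw W z₂ w₂) :
    A.valuation (h58wZ W z₁ w₁ z₂ w₂ - z₁) = A.valuation z₂ := by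
  obtain ⟨e, he, h⟩ := h58e_shift_chart A W ha₁ ha₂ ha₃ ha₄ ha₆ hz₁ hw₁ hz₂ hw₂ E₁ E₂
  obtain ⟨s, hs, hD⟩ := h58w_den_unit A W ha₁ ha₂ ha₃ ha₄ ha₆ hz₁ hw₁ hz₂ hw₂
  rw [h, hD, map_mul, map_mul, map_inv₀, valuation_one_sub A he, valuation_one_sub A hs,
    inv_one, mul_one, mul_one]

/-- **E1-SHIFT.**  For `Q, T` in the kernel of reduction of an integral Weierstrass model,
`v (z(Q + T) - z(Q)) = v (z(T))`. -/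
theorem h58e_E1_shift [DecidableEq K] (ha₁ : W.a₁ ∈ A) (ha₂ : W.a₂ ∈ A) (ha₃ : W.a₃ ∈ A)
    (ha₄ : W.a₄ ∈ A) (ha₆ : W.a₆ ∈ A) {Q T : W.Point} (hQ : InE1 A Q) (hT : InE1 A T) :
    A.valuation (zcoord (Q + T) - zcoord Q) = A.valuation (zcoord T) := by
  rw [(h58w_law A W ha₁ ha₂ ha₃ ha₄ ha₆ hQ hT).1]
  exact h58e_shift_chart_val A W ha₁ ha₂ ha₃ ha₄ ha₆
    (zcoord_mem_nonunits A W ha₁ ha₂ ha₃ ha₄ ha₆ hQ) (h58w_wc_mem A W ha₁ ha₂ ha₃ ha₄ ha₆ hQ)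
    (zcoord_mem_nonunits A W ha₁ ha₂ ha₃ ha₄ ha₆ hT) (h58w_wc_mem A W ha₁ ha₂ ha₃ ha₄ ha₆ hT)
    (h58w_wc_eq A W ha₁ ha₂ ha₃ ha₄ ha₆ hQ) (h58w_wc_eq A W ha₁ ha₂ ha₃ ha₄ ha₆ hT)

/-- **E1-SHIFT, difference form.**  For `P₁, P₂` in the kernel of reduction,
`v (z(P₁) - z(P₂)) = v (z(P₁ - P₂))`. -/
theorem h58e_E1_sub [DecidableEq K] (ha₁ : W.a₁ ∈ A) (ha₂ : W.a₂ ∈ A) (ha₃ : W.a₃ ∈ A)
    (ha₄ : W.a₄ ∈ A) (ha₆ : W.a₆ ∈ A) {P₁ P₂ : W.Point} (hP₁ : InE1 A P₁) (hP₂ : InE1 A P₂) :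
    A.valuation (zcoord P₁ - zcoord P₂) = A.valuation (zcoord (P₁ - P₂)) := by
  have h := h58e_E1_shift A W ha₁ ha₂ ha₃ ha₄ ha₆ hP₂
    (inE1_sub A ha₁ ha₂ ha₃ ha₄ ha₆ hP₁ hP₂)
  rwa [add_sub_cancel] at h

/-- the valuation of the chart coordinate of an affine point: `v(z) = v(x / y)`. -/
theorem h58e_val_zcoord {x y : K} (h : W.Nonsingular x y) :
    A.valuation (zcoord (Point.some x y h)) = A.valuation (x / y) := by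
  rw [zcoord_some, neg_div, Valuation.map_neg]

/-- **E1-SHIFT, strict witness form**: for `Q ≠ 0` and `T` in the kernel of reduction,
`v (z(Q)) * v (z(T)) < v (z(Q + T) - z(Q))` as soon as `T ≠ 0` (multiplicative notation: the
shift `z(Q + T) - z(Q)` is strictly LARGER than `z(Q) z(T)`). -/
theorem h58e_E1_shift_lt [DecidableEq K] (ha₁ : W.a₁ ∈ A) (ha₂ : W.a₂ ∈ A) (ha₃ : W.a₃ ∈ A)
    (ha₄ : W.a₄ ∈ A) (ha₆ : W.a₆ ∈ A) {Q T : W.Point} (hQ : InE1 A Q) (hT : InE1 A T)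
    (hT0 : T ≠ 0) :
    A.valuation (zcoord Q) * A.valuation (zcoord T) <
      A.valuation (zcoord (Q + T) - zcoord Q) := by
  rw [h58e_E1_shift A W ha₁ ha₂ ha₃ ha₄ ha₆ hQ hT]
  have hz := zcoord_mem_nonunits A W ha₁ ha₂ ha₃ ha₄ ha₆ hQ
  rw [A.mem_nonunits_iff] at hz
  have hT' := zcoord_ne_zero A W ha₁ ha₂ ha₃ ha₄ ha₆ hT hT0
  have hpos : 0 < A.valuation (zcoord T) := by
    rw [Valuation.pos_iff]; exact hT'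
  calc A.valuation (zcoord Q) * A.valuation (zcoord T)
      < 1 * A.valuation (zcoord T) := mul_lt_mul_of_pos_right hz hpos
    _ = A.valuation (zcoord T) := one_mul _

end val

end Fermat.Agent.P7
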