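import Fermat.Agent.P7.H26IntIface

/-!
# Wave 7, DLOG at the level `M`, leaf DL4-M-CONST: the CORE lemma `H26iCore`
(twin, helper59, prefix `h59c_`)

`R` a valuation ring (ANY rank; no completeness), `B = R[[q]]`, `T = q · unit ∈ B`, `δ ∈ R`,
`δ ≠ 0`, `π = T - δ`, `I_M = (π, δ ^ M)`.

* `h59c_peel`, `h59c_pow_dvd` : `π f = a` (a constant) ⟹ `δ ^ k ∣ a` for all `k`;
* `h59c_dvd_of_mem` (F2) : `a ∈ I_M` ⟹ `δ ^ M ∣ a`;
* `h59c_exists_const` (F1) : `B = R + I_M`;
* `h59c_mem_span` : `x ^ n ∈ (π)`, `n ≠ 0` ⟹ `x ∈ I_M` for all `M`;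
* `h59c_coeff_mem` : `z π = x` over the fraction field and `x ∈ I_M` ⟹ the coefficients of `z`
  of index `< M` lie in `R`;
* `h59c_core_gen` : the CORE lemma for any valuation subring of any field;
* `h59c_core : H26iCore` (the frozen Prop of `P7/H26IntIface.lean`).

Mathlib only (plus the frozen Prop).  Nothing is assumed.
-/

set_option autoImplicit false
set_option linter.unusedSectionVars false

open PowerSeries

noncomputable section

namespace Fermat.Agent.P7

section Dom

variable {R : Type*} [CommRing R] [IsDomain R]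

/-- `T = X * shift T` when `T` has zero constant term. -/
theorem h59c_eq_X_mul (T : PowerSeries R) (hT0 : coeff 0 T = 0) :
    T = X * PowerSeries.mk fun n => coeff (n + 1) T := by
  have h := eq_X_mul_shift_add_const T
  rw [← coeff_zero_eq_constantCoeff_apply, hT0, map_zero, add_zero] at h
  exact h

/-- the shift of `T` is a unit. -/
theorem h59c_isUnit_shift (T : PowerSeries R) (hT1 : IsUnit (coeff 1 T)) :
    IsUnit (PowerSeries.mk fun n => coeff (n + 1) T) := by
  rw [isUnit_iff_constantCoeff, ← coeff_zero_eq_constantCoeff_apply, coeff_mk]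
  exact hT1

theorem h59c_C_ne_zero {δ : R} (hδ : δ ≠ 0) : (C δ : PowerSeries R) ≠ 0 := by
  intro h
  apply hδ
  have := congrArg (coeff 0) h
  simpa using this

/-- **peeling**: `(T - δ) f = a` ⟹ `a = δ a₁`, `f = δ f₁`, `(T - δ) f₁ = a₁`. -/
theorem h59c_peel (T f : PowerSeries R) (a δ : R) (hδ : δ ≠ 0) (hT0 : coeff 0 T = 0)
    (hT1 : IsUnit (coeff 1 T)) (h : (T - C δ) * f = C a) :
    ∃ (f₁ : PowerSeries R) (a₁ : R), a = δ * a₁ ∧ (T - C δ) * f₁ = C a₁ := by
  have hTt : T = X * PowerSeries.mk fun n => coeff (n + 1) T := h59c_eq_X_mul T hT0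
  obtain ⟨v, hv⟩ := (h59c_isUnit_shift T hT1).exists_right_inv
  set t : PowerSeries R := PowerSeries.mk fun n => coeff (n + 1) T with ht
  have hexp : (T - C δ) * f = X * (t * f) - C δ * f := by
    rw [sub_mul]
    congr 1
    rw [← mul_assoc, ← hTt]
  have hg : ∀ j, coeff j (t * f) = δ * coeff (j + 1) f := by
    intro j
    have h1 := congrArg (coeff (j + 1)) h
    rw [hexp, map_sub, coeff_succ_X_mul, coeff_C_mul, coeff_succ_C] at h1
    exact sub_eq_zero.mp h1
  have h0 : a = δ * (-(coeff 0 f)) := by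
    have h1 := congrArg (coeff 0) h
    rw [hexp, map_sub, coeff_zero_X_mul, coeff_C_mul, coeff_C, if_pos rfl] at h1
    rw [← h1]
    ring
  have hg' : t * f = C δ * PowerSeries.mk fun j => coeff (j + 1) f := by
    ext j
    rw [hg j, coeff_C_mul, coeff_mk]
  have hf : f = C δ * (v * PowerSeries.mk fun j => coeff (j + 1) f) := by
    calc f = (t * v) * f := by rw [hv, one_mul]
      _ = v * (t * f) := by ring
      _ = C δ * (v * PowerSeries.mk fun j => coeff (j + 1) f) := by rw [hg']; ring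
  refine ⟨v * PowerSeries.mk fun j => coeff (j + 1) f, -(coeff 0 f), h0, ?_⟩
  apply mul_left_cancel₀ (h59c_C_ne_zero hδ)
  rw [← map_mul, ← h0, ← h]
  conv_rhs => rw [hf]
  ring

/-- `(T - δ) f = a` ⟹ `δ ^ k ∣ a` for every `k`. -/
theorem h59c_pow_dvd (T : PowerSeries R) (δ : R) (hδ : δ ≠ 0) (hT0 : coeff 0 T = 0)
    (hT1 : IsUnit (coeff 1 T)) :
    ∀ (k : ℕ) (f : PowerSeries R) (a : R), (T - C δ) * f = C a → δ ^ k ∣ a := by
  intro k
  induction k with
  | zero =>
    intro f a _
    rw [pow_zero]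
    exact one_dvd a
  | succ k ih =>
    intro f a h
    obtain ⟨f₁, a₁, ha, h₁⟩ := h59c_peel T f a δ hδ hT0 hT1 h
    obtain ⟨c, hc⟩ := ih f₁ a₁ h₁
    exact ⟨c, by rw [ha, hc]; ring⟩

/-- (F1): every power series is a constant modulo `(T - δ, δ ^ M)`. -/
theorem h59c_exists_const (T : PowerSeries R) (δ : R) (hT0 : coeff 0 T = 0)
    (hT1 : IsUnit (coeff 1 T)) :
    ∀ (M : ℕ) (b : PowerSeries R),
      ∃ a : R, b - C a ∈ Ideal.span ({T - C δ, C (δ ^ M)} : Set (PowerSeries R)) := by
  have hTt : T = X * PowerSeries.mk fun n => coeff (n + 1) T := h59c_eq_X_mul T hT0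
  obtain ⟨v, hv⟩ := (h59c_isUnit_shift T hT1).exists_right_inv
  set t : PowerSeries R := PowerSeries.mk fun n => coeff (n + 1) T with ht
  intro M
  induction M with
  | zero =>
    intro b
    refine ⟨0, ?_⟩
    have h1 : (1 : PowerSeries R) ∈ Ideal.span ({T - C δ, C (δ ^ 0)} : Set (PowerSeries R)) := by
      rw [pow_zero, map_one]
      exact Ideal.subset_span (by simp)
    rw [(Ideal.eq_top_iff_one _).mpr h1]
    trivial
  | succ M ih =>
    intro b
    have hb : b - C (constantCoeff b) = X * PowerSeries.mk fun n => coeff (n + 1) b := by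
      have := eq_X_mul_shift_add_const b
      exact sub_eq_of_eq_add this
    set b' : PowerSeries R := PowerSeries.mk fun n => coeff (n + 1) b with hb'
    obtain ⟨a', ha'⟩ := ih (v * b')
    rw [Ideal.mem_span_pair] at ha'
    obtain ⟨f, g, hfg⟩ := ha'
    have hX : X * b' = T * (v * b') := by
      calc X * b' = X * ((t * v) * b') := by rw [hv, one_mul]
        _ = (X * t) * (v * b') := by ring
        _ = T * (v * b') := by rw [← hTt]
    refine ⟨constantCoeff b + δ * a', ?_⟩
    rw [Ideal.mem_span_pair]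
    refine ⟨C a' + T * f + g * C (δ ^ M), g, ?_⟩
    rw [pow_succ, map_add, map_mul, map_mul]
    linear_combination T * hfg - hX - hb

/-- a power of `x` in `(π)` for a root of a polynomial with scaled roots. -/
theorem h59c_pow_mem {B : Type*} [CommRing B] (π x : B) (p : Polynomial B) (hp : p.Monic)
    (hn : p.natDegree ≠ 0)
    (h : Polynomial.eval x (Polynomial.scaleRoots p π) = 0) :
    x ^ p.natDegree ∈ Ideal.span ({π} : Set B) := by
  rw [Polynomial.eval_eq_sum_range, Polynomial.natDegree_scaleRoots, Finset.sum_range_succ,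
    Polynomial.coeff_scaleRoots, hp.coeff_natDegree, Nat.sub_self, pow_zero, one_mul,
    one_mul] at h
  have hx : x ^ p.natDegree =
      -∑ i ∈ Finset.range p.natDegree, (Polynomial.scaleRoots p π).coeff i * x ^ i := by
    rw [eq_neg_iff_add_eq_zero, add_comm]
    exact h
  rw [hx]
  refine neg_mem (Ideal.sum_mem _ fun i hi => ?_)
  rw [Polynomial.coeff_scaleRoots]
  have hi' : p.natDegree - i ≠ 0 := by
    have := Finset.mem_range.mp hi
    omega
  have hπ : π ^ (p.natDegree - i) ∈ Ideal.span ({π} : Set B) :=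
    Ideal.pow_mem_of_mem _ (Ideal.subset_span (Set.mem_singleton π)) _ (Nat.pos_of_ne_zero hi')
  exact Ideal.mul_mem_right _ _ (Ideal.mul_mem_left _ _ hπ)

end Dom

section Val

variable {R : Type*} [CommRing R] [IsDomain R] [ValuationRing R]

/-- in a valuation ring, `u ^ n ∣ a ^ n` (`n ≠ 0`) implies `u ∣ a`. -/
theorem h59c_dvd_of_pow_dvd (u a : R) (n : ℕ) (hn : n ≠ 0) (h : u ^ n ∣ a ^ n) : u ∣ a := by
  rcases ValuationRing.dvd_total u a with hd | ⟨c, hc⟩
  · exact hd
  · rcases eq_or_ne a 0 with rfl | ha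
    · exact dvd_zero u
    · obtain ⟨e, he⟩ := h
      have h1 : a ^ n * 1 = a ^ n * (c ^ n * e) := by
        rw [mul_one]
        conv_lhs => rw [he, hc]
        ring
      have h2 : c ^ n * e = 1 := (mul_left_cancel₀ (pow_ne_zero n ha) h1).symm
      have hcu : IsUnit (c ^ n) := IsUnit.of_mul_eq_one e h2
      have hc' : IsUnit c := (isUnit_pow_iff hn).mp hcu
      obtain ⟨w, rfl⟩ := hc'
      exact ⟨↑w⁻¹, by rw [hc]; simp [mul_assoc]⟩

/-- (F2): a constant in `(T - δ, δ ^ M)` is divisible by `δ ^ M`. -/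
theorem h59c_dvd_of_mem (T : PowerSeries R) (δ : R) (hδ : δ ≠ 0) (hT0 : coeff 0 T = 0)
    (hT1 : IsUnit (coeff 1 T)) (M : ℕ) (a : R)
    (h : C a ∈ Ideal.span ({T - C δ, C (δ ^ M)} : Set (PowerSeries R))) : δ ^ M ∣ a := by
  rw [Ideal.mem_span_pair] at h
  obtain ⟨f, g, hfg⟩ := h
  rcases ValuationRing.dvd_total (δ ^ M) a with hd | ⟨c, hc⟩
  · exact hd
  · by_cases hcu : IsUnit c
    · obtain ⟨w, rfl⟩ := hcu
      exact ⟨↑w⁻¹, by rw [hc]; simp [mul_assoc]⟩
    · have hu : IsUnit (1 - C c * g : PowerSeries R) := by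
        rw [isUnit_iff_constantCoeff, map_sub, map_one, map_mul, constantCoeff_C]
        refine IsLocalRing.isUnit_one_sub_self_of_mem_nonunits _ ?_
        rw [mem_nonunits_iff]
        intro hh
        exact hcu (isUnit_of_mul_isUnit_left hh)
      obtain ⟨v, hv⟩ := hu.exists_right_inv
      have h2 : C a * (1 - C c * g) = f * (T - C δ) := by
        have h3 : (C (δ ^ M) : PowerSeries R) = C a * C c := by rw [hc, map_mul]
        rw [h3] at hfg
        linear_combination -hfg
      have h1 : (T - C δ) * (f * v) = C a := by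
        calc (T - C δ) * (f * v) = (f * (T - C δ)) * v := by ring
          _ = C a * ((1 - C c * g) * v) := by rw [← h2]; ring
          _ = C a := by rw [hv, mul_one]
      exact h59c_pow_dvd T δ hδ hT0 hT1 M _ a h1

/-- `x ^ n ∈ (T - δ)`, `n ≠ 0` ⟹ `x ∈ (T - δ, δ ^ M)` for every `M`. -/
theorem h59c_mem_span (T : PowerSeries R) (δ : R) (hδ : δ ≠ 0) (hT0 : coeff 0 T = 0)
    (hT1 : IsUnit (coeff 1 T)) (x : PowerSeries R) (n : ℕ) (hn : n ≠ 0)
    (hx : x ^ n ∈ Ideal.span ({T - C δ} : Set (PowerSeries R))) (M : ℕ) :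
    x ∈ Ideal.span ({T - C δ, C (δ ^ M)} : Set (PowerSeries R)) := by
  obtain ⟨a, ha⟩ := h59c_exists_const T δ hT0 hT1 (n * M) x
  set I : Ideal (PowerSeries R) := Ideal.span {T - C δ, C (δ ^ (n * M))} with hI
  have hπI : Ideal.span ({T - C δ} : Set (PowerSeries R)) ≤ I :=
    Ideal.span_mono (by intro y hy; rw [Set.mem_singleton_iff] at hy; rw [hy]; simp)
  have h1 : (C a) ^ n - x ^ n ∈ I := by
    obtain ⟨d, hd⟩ := sub_dvd_pow_sub_pow (C a : PowerSeries R) x n
    rw [hd]
    have : C a - x ∈ I := by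
      have := neg_mem ha
      rwa [neg_sub] at this
    exact I.mul_mem_right _ this
  have h2 : C (a ^ n) ∈ I := by
    rw [map_pow]
    have := I.add_mem h1 (hπI hx)
    rwa [sub_add_cancel] at this
  have h3 : δ ^ (n * M) ∣ a ^ n := h59c_dvd_of_mem T δ hδ hT0 hT1 (n * M) (a ^ n) h2
  have h4 : δ ^ M ∣ a := by
    apply h59c_dvd_of_pow_dvd (δ ^ M) a n hn
    rwa [← pow_mul, mul_comm M n]
  set J : Ideal (PowerSeries R) := Ideal.span {T - C δ, C (δ ^ M)} with hJ
  have hIJ : I ≤ J := by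
    rw [hI, Ideal.span_le]
    rintro y hy
    rcases hy with rfl | hy
    · exact Ideal.subset_span (by simp)
    · rw [Set.mem_singleton_iff] at hy
      rw [hy]
      have hM : M ≤ n * M := Nat.le_mul_of_pos_left M (Nat.pos_of_ne_zero hn)
      obtain ⟨e, he⟩ := pow_dvd_pow δ hM
      rw [he, map_mul]
      exact J.mul_mem_right _ (Ideal.subset_span (by simp))
  have h5 : C a ∈ J := by
    obtain ⟨e, he⟩ := h4
    rw [he, map_mul]
    exact J.mul_mem_right _ (Ideal.subset_span (by simp))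
  have := J.add_mem (hIJ ha) h5
  rwa [sub_add_cancel] at this

end Val

section Sub

variable {K : Type*} [Field K] (A : ValuationSubring K)

/-- the coefficients of index `< M` of `z = x / (T - δ)` lie in `A` when
`x ∈ (T - δ, δ ^ M)`. -/
theorem h59c_coeff_mem (T x y r : PowerSeries A) (z : PowerSeries K) (δ : A) (hδ : δ ≠ 0)
    (hT0 : coeff 0 T = 0) (M : ℕ)
    (hz : z * PowerSeries.map A.subtype (T - C δ) = PowerSeries.map A.subtype x)
    (hx : y * (T - C δ) + r * C (δ ^ M) = x) (k : ℕ) (hk : k < M) :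
    ∃ c : A, (c : K) = coeff k z := by
  set ι : PowerSeries A →+* PowerSeries K := PowerSeries.map A.subtype with hι
  have hTt : T = X * PowerSeries.mk fun n => coeff (n + 1) T := h59c_eq_X_mul T hT0
  obtain ⟨G, hG⟩ := sub_dvd_pow_sub_pow T (C δ : PowerSeries A) M
  -- `x = (y - r G) π + r T ^ M`
  have hx' : x = (y - r * G) * (T - C δ) + r * T ^ M := by
    rw [← hx, map_pow]
    linear_combination (-r) * hG
  have hTM : T ^ M = X ^ M * (PowerSeries.mk fun n => coeff (n + 1) T) ^ M := by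
    conv_lhs => rw [hTt]
    rw [mul_pow]
  have hunit : IsUnit (ι (T - C δ)) := by
    rw [isUnit_iff_constantCoeff, ← coeff_zero_eq_constantCoeff_apply, hι, coeff_map, map_sub,
      hT0, zero_sub, coeff_C, if_pos rfl]
    rw [isUnit_iff_ne_zero]
    intro h0
    apply hδ
    have : ((-δ : A) : K) = 0 := h0
    have h2 : (-δ : A) = 0 := by exact_mod_cast this
    simpa using h2
  obtain ⟨w, hw⟩ := hunit.exists_right_inv
  have hkey : z - ι (y - r * G) =
      X ^ M * (ι (r * (PowerSeries.mk fun n => coeff (n + 1) T) ^ M) * w) := by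
    have h1 : (z - ι (y - r * G)) * ι (T - C δ) =
        X ^ M * ι (r * (PowerSeries.mk fun n => coeff (n + 1) T) ^ M) := by
      rw [sub_mul, hz, ← map_mul]
      conv_lhs => rw [hx']
      rw [map_add, add_sub_cancel_left, hTM, map_mul, map_mul, map_mul, map_pow, hι,
        PowerSeries.map_X]
      ring
    calc z - ι (y - r * G) = (z - ι (y - r * G)) * (ι (T - C δ) * w) := by rw [hw, mul_one]
      _ = ((z - ι (y - r * G)) * ι (T - C δ)) * w := by ring
      _ = _ := by rw [h1]; ring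
  refine ⟨coeff k (y - r * G), ?_⟩
  have h2 := congrArg (coeff k) hkey
  rw [coeff_X_pow_mul', if_neg (not_le.mpr hk), map_sub, sub_eq_zero] at h2
  rw [h2, hι, coeff_map]
  rfl

/-- **CORE**, for any valuation subring of any field. -/
theorem h59c_core_gen (T x : PowerSeries A) (z : PowerSeries K) (δ : A) (hδ : δ ≠ 0)
    (hT0 : coeff 0 T = 0) (hT1 : IsUnit (coeff 1 T))
    (hz : z * PowerSeries.map A.subtype (T - C δ) = PowerSeries.map A.subtype x)
    (hint : (PowerSeries.map A.subtype).IsIntegralElem z) :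
    ∃ y : PowerSeries A, PowerSeries.map A.subtype y = z := by
  obtain ⟨p, hp, hpz⟩ := hint
  have hinj : Function.Injective (PowerSeries.map A.subtype) :=
    PowerSeries.map_injective _ A.subtype_injective
  have hn : p.natDegree ≠ 0 := by
    intro h0
    have h1 : p = 1 := Polynomial.eq_one_of_monic_natDegree_zero hp h0
    rw [h1, Polynomial.eval₂_one] at hpz
    exact one_ne_zero hpz
  have h1 := Polynomial.scaleRoots_eval₂_eq_zero (PowerSeries.map A.subtype) (s := T - C δ) hpz
  rw [mul_comm, hz, Polynomial.eval₂_at_apply] at h1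
  have h2 : Polynomial.eval x (Polynomial.scaleRoots p (T - C δ)) = 0 := by
    apply hinj
    rw [h1, map_zero]
  have h3 := h59c_pow_mem (T - C δ) x p hp hn h2
  have h4 : ∀ k : ℕ, ∃ c : A, (c : K) = coeff k z := by
    intro k
    have h5 := h59c_mem_span T δ hδ hT0 hT1 x p.natDegree hn h3 (k + 1)
    rw [Ideal.mem_span_pair] at h5
    obtain ⟨y, r, hyr⟩ := h5
    exact h59c_coeff_mem A T x y r z δ hδ hT0 (k + 1) hz hyr k (Nat.lt_succ_self k)
  choose c hc using h4
  refine ⟨PowerSeries.mk c, ?_⟩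
  ext k
  rw [coeff_map, coeff_mk]
  exact hc k

end Sub

open Fermat.Agent.S37 in
/-- **CORE** (the frozen Prop of `P7/H26IntIface.lean`), unconditional. -/
theorem h59c_core : H26iCore := by
  intro A T x z δ _ hδ0 hT0 hT1 hz hint
  exact h59c_core_gen A T x z δ hδ0 hT0 hT1 hz hint

end Fermat.Agent.P7
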