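import Fermat.Agent.Red.LocalGate

/-!
# Wave 7 (S40), block (5b), leaf C2 POLY (twin, helper59): the variation of a distinguished
polynomial under an automorphism

Vocabulary of `Red/GateAbs.lean`: `A` a valuation ring, `F` a field over `A`, `W` a subring of `F`
(a Gauss valuation ring) with `1 + 𝔪_A W ⊆ W^×`, `h26U π W = 1 + π W`.  `b` a ring automorphism of
`F` acting on the constants through `θ : A →+* A`.

* `h59pNear δ W = 1 + δ 𝔪_A W` (`= ⋃_{m ∈ 𝔪_A} h26U (δ m) W`), a group under the hypotheses on `W`.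
* `h59p_series` : `G = 1 + ∑_{k<d} r_k τ^(k+1)`, `r_k ∈ 𝔪_A`, `τ ∈ W` fixed by `b`,
  `θ r_k - r_k ∈ δ 𝔪_A` ⟹ `b G / G ∈ 1 + δ 𝔪_A W`.
* `h59p_monic` : (i) `g = P(t)`, `P` monic with lower coefficients in `𝔪_A`, `t` a unit of `W`
  fixed by `b`, `θ s_k - s_k ∈ δ 𝔪_A` ⟹ `b g / g ∈ 1 + δ 𝔪_A W`.
* `h59p_node` : (ii) the other side of a node: `x = a ξ`, `ξ ∈ W₀` fixed by `b`, `P` monic of
  degree `d` with `s_0 = P(0) ≠ 0` and `a ^ k s_k = r_k s_0`, `r_k ∈ 𝔪_A`, `θ r_k - r_k ∈ δ 𝔪_A`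
  (all roots strictly inside the annulus) ⟹ `b g / g ∈ (θ s_0 / s_0) (1 + δ 𝔪_A W₀)`.
* `h59p_pow` : (iii) `p δ ∈ δ ^ p 𝔪_A` ⟹ `(1 + δ 𝔪_A W) ^ p ⊆ 1 + δ ^ p 𝔪_A W`.
* `h59p_var_quot` : the variation of a quotient of constants.
-/

set_option autoImplicit false
set_option linter.unusedSectionVars false
set_option linter.unusedVariables false

open IsLocalRing Polynomial

namespace Fermat.Agent.P7

open Fermat.Agent.Red

section Near

variable {A : Type*} [CommRing A] [IsDomain A] [ValuationRing A]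
  {F : Type*} [Field F] [Algebra A F]

/-- the set `1 + δ 𝔪_A W`. -/
def h59pNear (δ : A) (W : Subring F) : Set F :=
  {z | ∃ m ∈ maximalIdeal A, z ∈ h26U (δ * m) W}

variable {δ : A} {W : Subring F}

theorem h59p_near_one : (1 : F) ∈ h59pNear δ W :=
  ⟨0, (maximalIdeal A).zero_mem, h26U_one⟩

theorem h59p_U_of_dvd (hAW : ∀ a : A, algebraMap A F a ∈ W) {π π' : A} (h : π ∣ π') {x : F}
    (hx : x ∈ h26U π' W) : x ∈ h26U π W := by
  obtain ⟨a, rfl⟩ := h
  obtain ⟨y, hy, rfl⟩ := hx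
  exact ⟨algebraMap A F a * y, W.mul_mem (hAW a) hy, by rw [map_mul]; ring⟩

/-- two elements of `𝔪_A` have a common divisor in `𝔪_A`. -/
theorem h59p_common₂ (m₁ m₂ : A) (h₁ : m₁ ∈ maximalIdeal A) (h₂ : m₂ ∈ maximalIdeal A) :
    ∃ m ∈ maximalIdeal A, m ∣ m₁ ∧ m ∣ m₂ := by
  rcases ValuationRing.dvd_total m₁ m₂ with h | h
  · exact ⟨m₁, h₁, dvd_rfl, h⟩
  · exact ⟨m₂, h₂, h, dvd_rfl⟩

/-- a finite family of elements of `𝔪_A` has a common divisor in `𝔪_A`. -/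
theorem h59p_common {ι : Type*} (T : Finset ι) (c : ι → A)
    (hc : ∀ i ∈ T, c i ∈ maximalIdeal A) : ∃ m ∈ maximalIdeal A, ∀ i ∈ T, m ∣ c i := by
  classical
  induction T using Finset.induction_on with
  | empty => exact ⟨0, (maximalIdeal A).zero_mem, fun i hi => by simp at hi⟩
  | insert i T hi ih =>
    obtain ⟨m, hm, hmT⟩ := ih fun j hj => hc j (Finset.mem_insert_of_mem hj)
    obtain ⟨m', hm', h1, h2⟩ := h59p_common₂ m (c i) hm (hc i (Finset.mem_insert_self i T))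
    refine ⟨m', hm', fun j hj => ?_⟩
    rcases Finset.mem_insert.mp hj with rfl | hj
    · exact h2
    · exact h1.trans (hmT j hj)

theorem h59p_near_mul (hAW : ∀ a : A, algebraMap A F a ∈ W) {x y : F}
    (hx : x ∈ h59pNear δ W) (hy : y ∈ h59pNear δ W) : x * y ∈ h59pNear δ W := by
  obtain ⟨m₁, hm₁, hx⟩ := hx
  obtain ⟨m₂, hm₂, hy⟩ := hy
  obtain ⟨m, hm, h1, h2⟩ := h59p_common₂ m₁ m₂ hm₁ hm₂
  exact ⟨m, hm, h26U_mul (hAW _) (h59p_U_of_dvd hAW (mul_dvd_mul_left δ h1) hx)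
    (h59p_U_of_dvd hAW (mul_dvd_mul_left δ h2) hy)⟩

theorem h59p_near_inv
    (hinv : ∀ π ∈ maximalIdeal A, ∀ x ∈ W, (1 + algebraMap A F π * x)⁻¹ ∈ W)
    (hnt : ∀ π ∈ maximalIdeal A, ∀ x ∈ W, algebraMap A F π * x ≠ 1) {x : F}
    (hx : x ∈ h59pNear δ W) : x⁻¹ ∈ h59pNear δ W := by
  obtain ⟨m, hm, hx⟩ := hx
  have hδm : δ * m ∈ maximalIdeal A := Ideal.mul_mem_left _ _ hm
  exact ⟨m, hm, h26U_inv (hinv _ hδm) (hnt _ hδm) hx⟩

theorem h59p_near_pow (hAW : ∀ a : A, algebraMap A F a ∈ W) {x : F}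
    (hx : x ∈ h59pNear δ W) (n : ℕ) : x ^ n ∈ h59pNear δ W := by
  obtain ⟨m, hm, hx⟩ := hx
  exact ⟨m, hm, h26U_pow (hAW _) hx n⟩

theorem h59p_near_div (hAW : ∀ a : A, algebraMap A F a ∈ W)
    (hinv : ∀ π ∈ maximalIdeal A, ∀ x ∈ W, (1 + algebraMap A F π * x)⁻¹ ∈ W)
    (hnt : ∀ π ∈ maximalIdeal A, ∀ x ∈ W, algebraMap A F π * x ≠ 1) {x y : F}
    (hx : x ∈ h59pNear δ W) (hy : y ∈ h59pNear δ W) : x * y⁻¹ ∈ h59pNear δ W :=
  h59p_near_mul hAW hx (h59p_near_inv hinv hnt hy)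

theorem h59p_near_mem (hAW : ∀ a : A, algebraMap A F a ∈ W) {x : F}
    (hx : x ∈ h59pNear δ W) : x ∈ W := by
  obtain ⟨m, hm, hx⟩ := hx
  exact h26U_mem_V (hAW _) hx

end Near

section Series

variable {A : Type*} [CommRing A] [IsDomain A] [ValuationRing A]
  {F : Type*} [Field F] [Algebra A F]

/-- **the variation of a series**: `G = 1 + ∑_{k<d} r_k τ^(k+1)` with `r_k ∈ 𝔪_A`,
`θ r_k - r_k ∈ δ 𝔪_A`, `τ ∈ W` fixed by `b`: `b G / G ∈ 1 + δ 𝔪_A W`. -/
theorem h59p_series (W : Subring F) (hAW : ∀ a : A, algebraMap A F a ∈ W)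
    (hinv : ∀ π ∈ maximalIdeal A, ∀ x ∈ W, (1 + algebraMap A F π * x)⁻¹ ∈ W)
    (hnt : ∀ π ∈ maximalIdeal A, ∀ x ∈ W, algebraMap A F π * x ≠ 1)
    (b : F ≃+* F) (θ : A →+* A) (hbθ : ∀ a : A, b (algebraMap A F a) = algebraMap A F (θ a))
    (τ : F) (hτ : τ ∈ W) (hbτ : b τ = τ) (δ : A) (d : ℕ) (r : ℕ → A)
    (hr : ∀ k < d, r k ∈ maximalIdeal A)
    (hvar : ∀ k < d, ∃ q ∈ maximalIdeal A, θ (r k) - r k = δ * q) :
    (1 + ∑ k ∈ Finset.range d, algebraMap A F (r k) * τ ^ (k + 1)) ≠ 0 ∧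
    b (1 + ∑ k ∈ Finset.range d, algebraMap A F (r k) * τ ^ (k + 1)) *
      (1 + ∑ k ∈ Finset.range d, algebraMap A F (r k) * τ ^ (k + 1))⁻¹ ∈ h59pNear δ W := by
  classical
  -- the variation
  have hq : ∀ k : ℕ, ∃ q : A, k < d → q ∈ maximalIdeal A ∧ θ (r k) - r k = δ * q := by
    intro k
    by_cases hk : k < d
    · obtain ⟨q, hq, h⟩ := hvar k hk
      exact ⟨q, fun _ => ⟨hq, h⟩⟩
    · exact ⟨0, fun h => (hk h).elim⟩
  choose q hq using hq
  obtain ⟨m, hm, hmq⟩ := h59p_common (Finset.range d) q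
    (fun k hk => (hq k (Finset.mem_range.mp hk)).1)
  obtain ⟨m₀, hm₀, hmr⟩ := h59p_common (Finset.range d) r
    (fun k hk => hr k (Finset.mem_range.mp hk))
  have hq' : ∀ k : ℕ, ∃ q' : A, k < d → q k = m * q' := by
    intro k
    by_cases hk : k < d
    · obtain ⟨q', h⟩ := hmq k (Finset.mem_range.mpr hk)
      exact ⟨q', fun _ => h⟩
    · exact ⟨0, fun h => (hk h).elim⟩
  choose q' hq' using hq'
  have hr' : ∀ k : ℕ, ∃ r' : A, k < d → r k = m₀ * r' := by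
    intro k
    by_cases hk : k < d
    · obtain ⟨r', h⟩ := hmr k (Finset.mem_range.mpr hk)
      exact ⟨r', fun _ => h⟩
    · exact ⟨0, fun h => (hk h).elim⟩
  choose r' hr' using hr'
  set G : F := 1 + ∑ k ∈ Finset.range d, algebraMap A F (r k) * τ ^ (k + 1) with hG
  set Q : F := ∑ k ∈ Finset.range d, algebraMap A F (q' k) * τ ^ (k + 1) with hQ
  set S' : F := ∑ k ∈ Finset.range d, algebraMap A F (r' k) * τ ^ (k + 1) with hS'
  have hQW : Q ∈ W := W.sum_mem fun k _ => W.mul_mem (hAW _) (W.pow_mem hτ _)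
  have hS'W : S' ∈ W := W.sum_mem fun k _ => W.mul_mem (hAW _) (W.pow_mem hτ _)
  have hGS : G = 1 + algebraMap A F m₀ * S' := by
    rw [hG, hS', Finset.mul_sum]
    congr 1
    refine Finset.sum_congr rfl fun k hk => ?_
    rw [hr' k (Finset.mem_range.mp hk), map_mul]
    ring
  have hGU : G ∈ h26U m₀ W := ⟨S', hS'W, hGS⟩
  have hG0 : G ≠ 0 := h26U_ne_zero (hnt m₀ hm₀) hGU
  have hGinv : G⁻¹ ∈ W := by
    rw [hGS]
    exact hinv m₀ hm₀ S' hS'W
  have hbG : b G = G + algebraMap A F (δ * m) * Q := by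
    rw [hG, hQ, map_add, map_one, map_sum, Finset.mul_sum, add_assoc, ← Finset.sum_add_distrib]
    congr 1
    refine Finset.sum_congr rfl fun k hk => ?_
    have hk' := Finset.mem_range.mp hk
    rw [map_mul, map_pow, hbτ, hbθ]
    have h1 : θ (r k) = r k + δ * m * q' k := by
      have := (hq k hk').2
      rw [hq' k hk'] at this
      rw [← mul_assoc] at this
      exact (sub_eq_iff_eq_add'.mp this)
    rw [h1, map_add, map_mul (algebraMap A F) (δ * m) (q' k)]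
    ring
  refine ⟨hG0, m, hm, Q * G⁻¹, W.mul_mem hQW hGinv, ?_⟩
  rw [hbG]
  field_simp

/-- (i) **the variation of a distinguished polynomial at a unit coordinate**: `g = P(t)`,
`P` monic with lower coefficients in `𝔪_A` whose variation under `θ` lies in `δ 𝔪_A`, `t` a unit
of `W` fixed by `b`: `b g / g ∈ 1 + δ 𝔪_A W`. -/
theorem h59p_monic (W : Subring F) (hAW : ∀ a : A, algebraMap A F a ∈ W)
    (hinv : ∀ π ∈ maximalIdeal A, ∀ x ∈ W, (1 + algebraMap A F π * x)⁻¹ ∈ W)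
    (hnt : ∀ π ∈ maximalIdeal A, ∀ x ∈ W, algebraMap A F π * x ≠ 1)
    (b : F ≃+* F) (θ : A →+* A) (hbθ : ∀ a : A, b (algebraMap A F a) = algebraMap A F (θ a))
    (t : F) (ht0 : t ≠ 0) (htinv : t⁻¹ ∈ W) (hbt : b t = t) (δ : A)
    (P : A[X]) (hP : P.Monic)
    (hs : ∀ k < P.natDegree, P.coeff k ∈ maximalIdeal A)
    (hvar : ∀ k < P.natDegree, ∃ q ∈ maximalIdeal A, θ (P.coeff k) - P.coeff k = δ * q) :
    aeval t P ≠ 0 ∧ b (aeval t P) * (aeval t P)⁻¹ ∈ h59pNear δ W := by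
  set d := P.natDegree with hd
  have hbt' : b t⁻¹ = t⁻¹ := by rw [map_inv₀, hbt]
  obtain ⟨hG0, hG⟩ := h59p_series W hAW hinv hnt b θ hbθ t⁻¹ htinv hbt' δ d
    (fun k => P.coeff (d - 1 - k)) (fun k hk => hs _ (by omega))
    (fun k hk => hvar _ (by omega))
  set G : F := 1 + ∑ k ∈ Finset.range d, algebraMap A F (P.coeff (d - 1 - k)) * t⁻¹ ^ (k + 1)
    with hGdef
  have key : aeval t P = t ^ d * G := by
    have h1 : aeval t P = t ^ d + ∑ j ∈ Finset.range d, algebraMap A F (P.coeff j) * t ^ j := by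
      conv_lhs => rw [hP.as_sum]
      rw [map_add, map_pow, aeval_X, map_sum]
      congr 1
      refine Finset.sum_congr rfl fun j _ => ?_
      rw [map_mul, aeval_C, map_pow, aeval_X]
    rw [h1, hGdef, mul_add, mul_one, Finset.mul_sum]
    congr 1
    rw [← Finset.sum_range_reflect]
    refine Finset.sum_congr rfl fun k hk => ?_
    have hk' := Finset.mem_range.mp hk
    have h2 : t ^ d = t ^ (d - 1 - k) * t ^ (k + 1) := by
      rw [← pow_add]
      congr 1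
      omega
    rw [h2, inv_pow]
    have h3 : t ^ (k + 1) ≠ 0 := pow_ne_zero _ ht0
    field_simp
  have htd : t ^ d ≠ 0 := pow_ne_zero _ ht0
  refine ⟨by rw [key]; exact mul_ne_zero htd hG0, ?_⟩
  have h4 : b (aeval t P) * (aeval t P)⁻¹ = b G * G⁻¹ := by
    rw [key, map_mul, map_pow, hbt]
    field_simp
  rw [h4]
  exact hG

/-- (ii) **the variation of a distinguished polynomial on the other side of a node**:
`x = a ξ` with `ξ ∈ W₀` fixed by `b` (`x y = a c`, `ξ = c / y`), `θ a = a`, `P` monic of degree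
`d` with `s₀ = P(0) ≠ 0` and `a ^ (k+1) s_(k+1) = r_k s₀`, `r_k ∈ 𝔪_A` with variation in `δ 𝔪_A`
(all roots strictly inside the annulus): `b g / g = (θ s₀ / s₀) z` with `z ∈ 1 + δ 𝔪_A W₀`. -/
theorem h59p_node (W : Subring F) (hAW : ∀ a : A, algebraMap A F a ∈ W)
    (hAF : Function.Injective (algebraMap A F))
    (hinv : ∀ π ∈ maximalIdeal A, ∀ x ∈ W, (1 + algebraMap A F π * x)⁻¹ ∈ W)
    (hnt : ∀ π ∈ maximalIdeal A, ∀ x ∈ W, algebraMap A F π * x ≠ 1)
    (b : F ≃+* F) (θ : A →+* A) (hbθ : ∀ a : A, b (algebraMap A F a) = algebraMap A F (θ a))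
    (a : A) (hθa : θ a = a) (ξ : F) (hξ : ξ ∈ W) (hbξ : b ξ = ξ) (δ : A)
    (P : A[X]) (hP : P.Monic) (hs0 : P.coeff 0 ≠ 0) (r : ℕ → A)
    (hrel : ∀ k < P.natDegree, a ^ (k + 1) * P.coeff (k + 1) = r k * P.coeff 0)
    (hr : ∀ k < P.natDegree, r k ∈ maximalIdeal A)
    (hvar : ∀ k < P.natDegree, ∃ q ∈ maximalIdeal A, θ (r k) - r k = δ * q) :
    aeval (algebraMap A F a * ξ) P ≠ 0 ∧
    ∃ z ∈ h59pNear δ W, b (aeval (algebraMap A F a * ξ) P) * (aeval (algebraMap A F a * ξ) P)⁻¹ =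
      algebraMap A F (θ (P.coeff 0)) * (algebraMap A F (P.coeff 0))⁻¹ * z := by
  set d := P.natDegree with hd
  obtain ⟨hG0, hG⟩ := h59p_series W hAW hinv hnt b θ hbθ ξ hξ hbξ δ d r hr hvar
  set G : F := 1 + ∑ k ∈ Finset.range d, algebraMap A F (r k) * ξ ^ (k + 1) with hGdef
  have hsF : algebraMap A F (P.coeff 0) ≠ 0 := fun h => hs0 (hAF (by rw [h, map_zero]))
  have key : aeval (algebraMap A F a * ξ) P = algebraMap A F (P.coeff 0) * G := by
    have h1 : aeval (algebraMap A F a * ξ) P =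
        ∑ j ∈ Finset.range (d + 1), algebraMap A F (P.coeff j) * (algebraMap A F a * ξ) ^ j := by
      rw [aeval_eq_sum_range]
      refine Finset.sum_congr rfl fun j _ => ?_
      rw [Algebra.smul_def]
    rw [h1, Finset.sum_range_succ', hGdef, mul_add, mul_one, Finset.mul_sum, pow_zero, mul_one,
      add_comm]
    congr 1
    refine Finset.sum_congr rfl fun k hk => ?_
    have hk' := Finset.mem_range.mp hk
    have h2 := congrArg (algebraMap A F) (hrel k hk')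
    rw [map_mul, map_mul, map_pow] at h2
    rw [mul_pow, ← mul_assoc, mul_comm (algebraMap A F (P.coeff (k + 1))), h2]
    ring
  refine ⟨by rw [key]; exact mul_ne_zero hsF hG0, b G * G⁻¹, hG, ?_⟩
  rw [key, map_mul, hbθ]
  field_simp

end Series

section Pow

variable {A : Type*} [CommRing A] [IsDomain A] [ValuationRing A]
  {F : Type*} [Field F] [Algebra A F]

/-- (iii) **the `p`-th power step**: if `p δ ∈ δ ^ p 𝔪_A` then
`(1 + δ 𝔪_A W) ^ p ⊆ 1 + δ ^ p 𝔪_A W`. -/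
theorem h59p_pow (W : Subring F) (hAW : ∀ a : A, algebraMap A F a ∈ W)
    {p : ℕ} (hp : p.Prime) (δ : A)
    (hpδ : ∃ m₀ ∈ maximalIdeal A, (p : A) * δ = δ ^ p * m₀) {z : F}
    (hz : z ∈ h59pNear δ W) : z ^ p ∈ h59pNear (δ ^ p) W := by
  obtain ⟨m, hm, w, hw, rfl⟩ := hz
  obtain ⟨m₀, hm₀, hpm⟩ := hpδ
  set y : W := ⟨algebraMap A F (δ * m) * w, W.mul_mem (hAW _) hw⟩ with hy
  obtain ⟨R, hR⟩ := exists_add_pow_prime_eq hp (1 : W) y
  have hRF := congrArg (fun u : W => (u : F)) hR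
  simp only [Subring.coe_add, Subring.coe_pow, Subring.coe_one, Subring.coe_mul, one_pow,
    mul_one, Subring.coe_natCast] at hRF
  have hyF : (y : F) = algebraMap A F (δ * m) * w := rfl
  rw [hyF] at hRF
  refine ⟨m, hm, algebraMap A F (m ^ (p - 1)) * w ^ p + algebraMap A F m₀ * (w * (R : F)),
    W.add_mem (W.mul_mem (hAW _) (W.pow_mem hw _))
      (W.mul_mem (hAW _) (W.mul_mem hw R.2)), ?_⟩
  rw [hRF]
  have h1 : (algebraMap A F (δ * m) * w) ^ p =
      algebraMap A F (δ ^ p * m) * (algebraMap A F (m ^ (p - 1)) * w ^ p) := by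
    have h2 : m ^ p = m * m ^ (p - 1) := by
      rw [← pow_succ', Nat.sub_add_cancel hp.one_le]
    rw [mul_pow, ← map_pow, mul_pow, h2, map_mul, map_mul, map_mul]
    ring
  have h3 : ((p : ℕ) : F) * (algebraMap A F (δ * m) * w) * (R : F) =
      algebraMap A F (δ ^ p * m) * (algebraMap A F m₀ * (w * (R : F))) := by
    have h4 : ((p : ℕ) : F) * algebraMap A F (δ * m) = algebraMap A F (δ ^ p * m) *
        algebraMap A F m₀ := by
      rw [← map_natCast (algebraMap A F), ← map_mul, ← map_mul]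
      congr 1
      rw [← mul_assoc, hpm]
      ring
    calc ((p : ℕ) : F) * (algebraMap A F (δ * m) * w) * (R : F)
        = (((p : ℕ) : F) * algebraMap A F (δ * m)) * (w * (R : F)) := by ring
      _ = _ := by rw [h4]; ring
  rw [h1, h3]
  ring

/-- the variation of a quotient of constants: if `θ s = s (1 + δ e)`, `θ s' = s' (1 + δ e')`,
`δ ∈ 𝔪_A`, `θ c = c` and `r s' = c s`, `s' ≠ 0`, then `θ r - r ∈ δ r A`. -/
theorem h59p_var_quot (θ : A →+* A) (δ : A) (hδ : δ ∈ maximalIdeal A)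
    (s s' c r e e' : A) (hs : θ s = s * (1 + δ * e)) (hs' : θ s' = s' * (1 + δ * e'))
    (hc : θ c = c) (hs'0 : s' ≠ 0) (hrel : r * s' = c * s) :
    ∃ q : A, θ r - r = δ * (r * q) := by
  have hu : IsUnit (1 + δ * e') := by
    have h1 : δ * e' ∈ maximalIdeal A := Ideal.mul_mem_right _ _ hδ
    have h2 : ¬ (1 + δ * e') ∈ maximalIdeal A := by
      intro h3
      have := (maximalIdeal A).sub_mem h3 h1
      simp at this
    exact (IsLocalRing.notMem_maximalIdeal).mp h2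
  obtain ⟨u', hu'⟩ := hu.exists_right_inv
  have h1 : θ r * (s' * (1 + δ * e')) = r * s' * (1 + δ * e) := by
    have := congrArg θ hrel
    rw [map_mul, map_mul, hs, hs', hc] at this
    rw [this, hrel]
    ring
  have h2 : θ r * (1 + δ * e') = r * (1 + δ * e) := by
    apply mul_left_cancel₀ hs'0
    linear_combination h1
  refine ⟨(e - e') * u', ?_⟩
  have h3 : θ r = r * (1 + δ * e) * u' := by
    calc θ r = θ r * ((1 + δ * e') * u') := by rw [hu', mul_one]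
      _ = θ r * (1 + δ * e') * u' := by ring
      _ = r * (1 + δ * e) * u' := by rw [h2]
  have h4 : (1 + δ * e) * u' = 1 + δ * ((e - e') * u') := by
    linear_combination (1 : A) * hu'
  rw [h3, mul_assoc, h4]
  ring

end Pow

end Fermat.Agent.P7
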