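import Fermat.Agent.P6.H71Ladder
import Fermat.Agent.P6.H71Start

/-!
# P7 (wave 7, S40), block T-CONST, Step 3 of finding 1396: the CONSTANT LADDER (helper5)

`ℓ ∤ M` prime, `A` a valuation subring of `ℚ̄` over `ℓ`, `W_∞ = softV A (Mℓ)`, `w = kFricke`,
`W_0 = w (W_∞)`, `α, β : F_M → F_{Mℓ}` the degeneracy maps.

The landed ladder (`P6.h71l_ladder`) raises the depth of a congruence `w / g^r ∈ 1 + π W` when
the norms of `w` are `r`-th powers.  Here is its version WITHOUT `r`-th powers, to a FINITE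
depth `d`: if the two norms of `w` are constants modulo `d` (at level `M`) and `w` is a
constant modulo ONE nonzero `π₀ ∈ 𝔪_A` at `W_∞`, then `w` is a constant modulo `d` at `W_∞` and
at `W_0`.

* `H5wCongC A N π x` : `x ∈ ℚ̄ˣ · (1 + π W)` (level `N`).
* `h5w_step_alpha`, `h5w_step_beta` : one step (depth `c` on one side gives depth `d` on the
  other side, `d ∣ c ℓ`, `d ∣ c²`, if the norm is a constant modulo `d`).
* `h5w_constLadder` : the constant ladder.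
* `h5w_constLadder_gal` : the same for `w = σ u / u`, `σ` in the inertia group (the start is
  the landed `P6.h71s_start`).
-/

set_option autoImplicit false
set_option linter.style.haveILetI false
set_option linter.unusedSectionVars false
set_option synthInstance.maxHeartbeats 400000

open AlgebraicCurve ModularCurve IsLocalRing

noncomputable section

namespace Fermat.Agent.P7

open Fermat.Agent.Red.GV Fermat.Agent.Red.GV.Soft Fermat.Agent.Red.Kron Fermat.Agent.LGC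
  Fermat.Agent.S37 Fermat.Agent.Red Fermat.Agent.Red.KR Fermat.Agent.P6

/-- `x` is a nonzero constant times an element of `1 + π W`, `W` the Gauss ring of level `N`. -/
def H5wCongC (A : ValuationSubring Kbar) (N : ℕ) (π : Kbar) (x : FF N) : Prop :=
  ∃ κ : Kbar, κ ≠ 0 ∧ H71Cong A N π (cst N κ * x)

section Basic

variable (A : ValuationSubring Kbar) (N : ℕ) [NeZero N]

theorem h5w_cst_mul (a b : Kbar) : cst N (a * b) = cst N a * cst N b :=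
  map_mul (algebraMap Kbar (FF N)) a b

theorem h5w_cst_inv (a : Kbar) : cst N a⁻¹ = (cst N a)⁻¹ :=
  map_inv₀ (algebraMap Kbar (FF N)) a

theorem h5w_cst_pow (a : Kbar) (n : ℕ) : cst N (a ^ n) = cst N a ^ n :=
  map_pow (algebraMap Kbar (FF N)) a n

theorem h5w_cst_ne_zero {a : Kbar} (ha : a ≠ 0) : cst N a ≠ 0 :=
  (map_ne_zero_iff (algebraMap Kbar (FF N)) (algebraMap Kbar (FF N)).injective).mpr ha

/-- the product of two elements of `1 + π W`. -/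
theorem h5w_cong_mul {π : Kbar} (hπ : π ∈ A) {x y : FF N} (hx : H71Cong A N π x)
    (hy : H71Cong A N π y) : H71Cong A N π (x * y) := by
  obtain ⟨z, hz, rfl⟩ := hx
  obtain ⟨z', hz', rfl⟩ := hy
  have hc : cst N π ∈ softV A N := (cst_mem_softV_iff A N π).mpr hπ
  refine ⟨z + z' + cst N π * (z * z'),
    add_mem (add_mem hz hz') (mul_mem hc (mul_mem hz hz')), ?_⟩
  ring

/-- the inverse of an element of `1 + π W`, `π ∈ 𝔪_A`. -/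
theorem h5w_cong_inv {π : Kbar} (hπ : π ∈ A.nonunits) {x : FF N} (hx : H71Cong A N π x) :
    H71Cong A N π x⁻¹ := by
  obtain ⟨z, hz, rfl⟩ := hx
  obtain ⟨-, z', hz', h⟩ := h71u_one_add_inv A N hπ hz
  exact ⟨z', hz', h⟩

/-- an element of `1 + π W`, `π ∈ 𝔪_A`, is not zero. -/
theorem h5w_cong_ne_zero {π : Kbar} (hπ : π ∈ A.nonunits) {x : FF N} (hx : H71Cong A N π x) :
    x ≠ 0 := by
  obtain ⟨z, hz, rfl⟩ := hx
  exact (h71u_one_add_inv A N hπ hz).1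

/-- monotonicity of `H5wCongC`. -/
theorem h5w_congC_mono {π π' a : Kbar} (ha : a ∈ A) (hπ : π = π' * a) {x : FF N}
    (hx : H5wCongC A N π x) : H5wCongC A N π' x := by
  obtain ⟨κ, hκ, h⟩ := hx
  exact ⟨κ, hκ, h71l_cong_mono A ha hπ h⟩

/-- the coarser of two nonzero non-units. -/
theorem h5w_exists_coarser {x y : Kbar} (hx : x ∈ A.nonunits) (hx0 : x ≠ 0)
    (hy : y ∈ A.nonunits) (hy0 : y ≠ 0) :
    ∃ e : Kbar, e ∈ A.nonunits ∧ e ≠ 0 ∧ x * e⁻¹ ∈ A ∧ y * e⁻¹ ∈ A := by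
  rcases A.mem_or_inv_mem (y * x⁻¹) with h | h
  · exact ⟨x, hx, hx0, by rw [mul_inv_cancel₀ hx0]; exact A.one_mem, h⟩
  · refine ⟨y, hy, hy0, ?_, by rw [mul_inv_cancel₀ hy0]; exact A.one_mem⟩
    have e : x * y⁻¹ = (y * x⁻¹)⁻¹ := by rw [mul_inv, inv_inv, mul_comm]
    rw [e]
    exact h

end Basic

section Steps

variable (A : ValuationSubring Kbar) (M ℓ : ℕ) [NeZero M] [NeZero ℓ]

/-- `α` maps `1 + π W` (level `M`) into `1 + π W_∞` (level `M ℓ`). -/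
theorem h5w_cong_alpha {π : Kbar} {x : FF M} (hx : H71Cong A M π x) :
    H71Cong A (M * ℓ) π (heckeAlphaBar Kbar M ℓ x) := by
  obtain ⟨z, hz, rfl⟩ := hx
  refine ⟨heckeAlphaBar Kbar M ℓ z, (alpha_mem_softV_iff A ℓ z).mpr hz, ?_⟩
  rw [map_add, map_one, map_mul,
    show heckeAlphaBar Kbar M ℓ (cst M π) = cst (M * ℓ) π from
      (heckeAlphaBar Kbar M ℓ).commutes π]

/-- the norm along `α` of a constant multiple. -/
theorem h5w_norm_alpha_cst (κ : Kbar) (w : FF (M * ℓ)) :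
    normAlong (heckeAlphaBar Kbar M ℓ) (cst (M * ℓ) κ * w) =
      cst M κ ^ finrankAlong Kbar (heckeAlphaBar Kbar M ℓ) *
        normAlong (heckeAlphaBar Kbar M ℓ) w := by
  rw [normAlong_mul, ← normAlong_map,
    show heckeAlphaBar Kbar M ℓ (cst M κ) = cst (M * ℓ) κ from
      (heckeAlphaBar Kbar M ℓ).commutes κ]

/-- the norm along `β` of a constant multiple. -/
theorem h5w_norm_beta_cst (κ : Kbar) (w : FF (M * ℓ)) :
    normAlong (heckeBetaBar Kbar M ℓ) (cst (M * ℓ) κ * w) =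
      cst M κ ^ finrankAlong Kbar (heckeBetaBar Kbar M ℓ) *
        normAlong (heckeBetaBar Kbar M ℓ) w := by
  rw [normAlong_mul, ← normAlong_map,
    show heckeBetaBar Kbar M ℓ (cst M κ) = cst (M * ℓ) κ from
      (heckeBetaBar Kbar M ℓ).commutes κ]

/-- the common algebra of the two steps: `X (1 + d z') = κ₀ⁿ Y`, `κ₁ Y ∈ 1 + d W` give
`X ∈ ℚ̄ˣ (1 + d W)`. -/
theorem h5w_step_alg {d : Kbar} (hd : d ∈ A.nonunits) {X Y z' : FF (M * ℓ)}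
    (hz' : z' ∈ softV A (M * ℓ)) (κ₀ κ₁ : Kbar) (hκ₀ : κ₀ ≠ 0) (hκ₁ : κ₁ ≠ 0) (n : ℕ)
    (e : cst (M * ℓ) κ₀ ^ n * Y = X * (1 + cst (M * ℓ) d * z'))
    (hY : H71Cong A (M * ℓ) d (cst (M * ℓ) κ₁ * Y)) :
    H71Cong A (M * ℓ) d (cst (M * ℓ) (κ₁ * (κ₀ ^ n)⁻¹) * X) := by
  have hinv : H71Cong A (M * ℓ) d (1 + cst (M * ℓ) d * z')⁻¹ :=
    h5w_cong_inv A (M * ℓ) hd ⟨z', hz', rfl⟩
  have hu0 : 1 + cst (M * ℓ) d * z' ≠ 0 := (h71u_one_add_inv A (M * ℓ) hd hz').1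
  have hprod := h5w_cong_mul A (M * ℓ) (A.nonunits_le hd) hY hinv
  have hk0 : cst (M * ℓ) κ₀ ≠ 0 := h5w_cst_ne_zero (M * ℓ) hκ₀
  have hX : X = cst (M * ℓ) κ₀ ^ n * Y * (1 + cst (M * ℓ) d * z')⁻¹ := by
    rw [e, mul_assoc, mul_inv_cancel₀ hu0, mul_one]
  have e2 : cst (M * ℓ) (κ₁ * (κ₀ ^ n)⁻¹) * X =
      cst (M * ℓ) κ₁ * Y * (1 + cst (M * ℓ) d * z')⁻¹ := by
    rw [hX, show cst (M * ℓ) (κ₁ * (κ₀ ^ n)⁻¹) = cst (M * ℓ) κ₁ * (cst (M * ℓ) κ₀ ^ n)⁻¹ by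
      rw [h5w_cst_mul, h5w_cst_inv, h5w_cst_pow]]
    have hkn : cst (M * ℓ) κ₀ ^ n ≠ 0 := pow_ne_zero n hk0
    field_simp
  rw [e2]
  exact hprod

/-- **step along `α`** (constant form): depth `c` at `W_0` gives depth `d` at `W_∞`, if the
norm along `α` is a constant modulo `d`. -/
theorem h5w_step_alpha (hℓ : ℓ.Prime) (hM : ¬ ℓ ∣ M) (hA : A.LiesOverPrime ℓ)
    (w : FF (M * ℓ)) (hw : w ≠ 0)
    {c d : Kbar} (hc : c ∈ A) (hd : d ∈ A.nonunits) (hd0 : d ≠ 0) (hd1 : c * ℓ * d⁻¹ ∈ A)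
    (hd2 : c ^ 2 * d⁻¹ ∈ A)
    (hα : H5wCongC A M d (normAlong (heckeAlphaBar Kbar M ℓ) w))
    (h0 : ∃ κ : Kbar, κ ≠ 0 ∧
      H71Cong A (M * ℓ) c (kFricke M ℓ hℓ hM (cst (M * ℓ) κ * w))) :
    H5wCongC A (M * ℓ) d w := by
  obtain ⟨κ₀, hκ₀, z, hz, hx⟩ := h0
  obtain ⟨κ₁, hκ₁, hN⟩ := hα
  have hk0 : cst (M * ℓ) κ₀ ≠ 0 := h5w_cst_ne_zero (M * ℓ) hκ₀
  have hx0 : cst (M * ℓ) κ₀ * w ≠ 0 := mul_ne_zero hk0 hw
  obtain ⟨z', hz', e⟩ := h71p_depth_alpha A M ℓ hℓ hM hA (cst (M * ℓ) κ₀ * w) hx0 c hc z hz hx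
    d hd0 hd1 hd2
  have e' : heckeAlphaBar Kbar M ℓ
      (normAlong (heckeAlphaBar Kbar M ℓ) (cst (M * ℓ) κ₀ * w)) =
      cst (M * ℓ) κ₀ * w * (1 + cst (M * ℓ) d * z') := e
  rw [h5w_norm_alpha_cst, map_mul, map_pow,
    show heckeAlphaBar Kbar M ℓ (cst M κ₀) = cst (M * ℓ) κ₀ from
      (heckeAlphaBar Kbar M ℓ).commutes κ₀] at e'
  have hY : H71Cong A (M * ℓ) d (cst (M * ℓ) κ₁ *
      heckeAlphaBar Kbar M ℓ (normAlong (heckeAlphaBar Kbar M ℓ) w)) := by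
    have h := h5w_cong_alpha A M ℓ hN
    rwa [map_mul, show heckeAlphaBar Kbar M ℓ (cst M κ₁) = cst (M * ℓ) κ₁ from
      (heckeAlphaBar Kbar M ℓ).commutes κ₁] at h
  have h := h5w_step_alg A M ℓ hd hz' κ₀ κ₁ hκ₀ hκ₁ _ e' hY
  refine ⟨κ₁ * (κ₀ ^ finrankAlong Kbar (heckeAlphaBar Kbar M ℓ))⁻¹ * κ₀,
    mul_ne_zero (mul_ne_zero hκ₁ (inv_ne_zero (pow_ne_zero _ hκ₀))) hκ₀, ?_⟩
  rw [show cst (M * ℓ) (κ₁ * (κ₀ ^ finrankAlong Kbar (heckeAlphaBar Kbar M ℓ))⁻¹ * κ₀) * w =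
    cst (M * ℓ) (κ₁ * (κ₀ ^ finrankAlong Kbar (heckeAlphaBar Kbar M ℓ))⁻¹) *
      (cst (M * ℓ) κ₀ * w) by rw [h5w_cst_mul (M * ℓ) _ κ₀]; ring]
  exact h

/-- **step along `β`** (constant form): depth `c` at `W_∞` gives depth `d` at `W_0`, if the
norm along `β` is a constant modulo `d`. -/
theorem h5w_step_beta (hℓ : ℓ.Prime) (hM : ¬ ℓ ∣ M) (hA : A.LiesOverPrime ℓ)
    (w : FF (M * ℓ)) (hw : w ≠ 0)
    {c d : Kbar} (hc : c ∈ A) (hd : d ∈ A.nonunits) (hd0 : d ≠ 0) (hd1 : c * ℓ * d⁻¹ ∈ A)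
    (hd2 : c ^ 2 * d⁻¹ ∈ A)
    (hβ : H5wCongC A M d (normAlong (heckeBetaBar Kbar M ℓ) w))
    (h0 : H5wCongC A (M * ℓ) c w) :
    ∃ κ : Kbar, κ ≠ 0 ∧
      H71Cong A (M * ℓ) d (kFricke M ℓ hℓ hM (cst (M * ℓ) κ * w)) := by
  obtain ⟨κ₀, hκ₀, z, hz, hx⟩ := h0
  obtain ⟨κ₁, hκ₁, hN⟩ := hβ
  have hk0 : cst (M * ℓ) κ₀ ≠ 0 := h5w_cst_ne_zero (M * ℓ) hκ₀
  have hx0 : cst (M * ℓ) κ₀ * w ≠ 0 := mul_ne_zero hk0 hw
  obtain ⟨z', hz', e⟩ := h71p_depth_beta A M ℓ hℓ hM hA (cst (M * ℓ) κ₀ * w) hx0 c hc z hz hx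
    d hd0 hd1 hd2
  have e' : heckeAlphaBar Kbar M ℓ
      (normAlong (heckeBetaBar Kbar M ℓ) (cst (M * ℓ) κ₀ * w)) =
      kFricke M ℓ hℓ hM (cst (M * ℓ) κ₀ * w) * (1 + cst (M * ℓ) d * z') := e
  rw [h5w_norm_beta_cst, map_mul, map_pow,
    show heckeAlphaBar Kbar M ℓ (cst M κ₀) = cst (M * ℓ) κ₀ from
      (heckeAlphaBar Kbar M ℓ).commutes κ₀] at e'
  have hY : H71Cong A (M * ℓ) d (cst (M * ℓ) κ₁ *
      heckeAlphaBar Kbar M ℓ (normAlong (heckeBetaBar Kbar M ℓ) w)) := by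
    have h := h5w_cong_alpha A M ℓ hN
    rwa [map_mul, show heckeAlphaBar Kbar M ℓ (cst M κ₁) = cst (M * ℓ) κ₁ from
      (heckeAlphaBar Kbar M ℓ).commutes κ₁] at h
  have h := h5w_step_alg A M ℓ hd hz' κ₀ κ₁ hκ₀ hκ₁ _ e' hY
  refine ⟨κ₁ * (κ₀ ^ finrankAlong Kbar (heckeBetaBar Kbar M ℓ))⁻¹ * κ₀,
    mul_ne_zero (mul_ne_zero hκ₁ (inv_ne_zero (pow_ne_zero _ hκ₀))) hκ₀, ?_⟩
  have hc1 : ∀ (a : Kbar) (y : FF (M * ℓ)),
      kFricke M ℓ hℓ hM (cst (M * ℓ) a * y) = cst (M * ℓ) a * kFricke M ℓ hℓ hM y := by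
    intro a y
    rw [map_mul]
    congr 1
    exact (kFricke M ℓ hℓ hM).commutes a
  rw [hc1] at h ⊢
  rw [show cst (M * ℓ) (κ₁ * (κ₀ ^ finrankAlong Kbar (heckeBetaBar Kbar M ℓ))⁻¹ * κ₀) *
      kFricke M ℓ hℓ hM w =
    cst (M * ℓ) (κ₁ * (κ₀ ^ finrankAlong Kbar (heckeBetaBar Kbar M ℓ))⁻¹) *
      (cst (M * ℓ) κ₀ * kFricke M ℓ hℓ hM w) by rw [h5w_cst_mul (M * ℓ) _ κ₀]; ring]
  exact h

/-- the two-sided statement at depth `c`. -/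
def H5wBoth (hℓ : ℓ.Prime) (hM : ¬ ℓ ∣ M) (c : Kbar) (w : FF (M * ℓ)) : Prop :=
  H5wCongC A (M * ℓ) c w ∧
    ∃ κ : Kbar, κ ≠ 0 ∧ H71Cong A (M * ℓ) c (kFricke M ℓ hℓ hM (cst (M * ℓ) κ * w))

/-- **THE CONSTANT LADDER.**  If the norms of `w` along `α` and `β` are constants modulo `d`
(level `M`) and `w` is a constant modulo one nonzero `π₀ ∈ 𝔪_A` at `W_∞`, then `w` is a constant
modulo `d` at `W_∞` and at `W_0`. -/
theorem h5w_constLadder (hℓ : ℓ.Prime) (hM : ¬ ℓ ∣ M) (hA : A.LiesOverPrime ℓ)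
    (w : FF (M * ℓ)) (hw : w ≠ 0) {d : Kbar} (hd : d ∈ A.nonunits) (hd0 : d ≠ 0)
    (hα : H5wCongC A M d (normAlong (heckeAlphaBar Kbar M ℓ) w))
    (hβ : H5wCongC A M d (normAlong (heckeBetaBar Kbar M ℓ) w))
    (hstart : ∃ π₀ : Kbar, π₀ ∈ A.nonunits ∧ π₀ ≠ 0 ∧ H5wCongC A (M * ℓ) π₀ w) :
    H5wBoth A M ℓ hℓ hM d w := by
  obtain ⟨π₀, hπ₀, hπ₀0, hst⟩ := hstart
  have hℓA : (ℓ : Kbar) ∈ A.nonunits := hA
  have hℓ0 : (ℓ : Kbar) ≠ 0 := by exact_mod_cast hℓ.ne_zero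
  obtain ⟨e₁, he₁, he₁0, hℓe₁, hπe₁⟩ := h5w_exists_coarser A hℓA hℓ0 hπ₀ hπ₀0
  obtain ⟨e₀, he₀, he₀0, he₁e, hde⟩ := h5w_exists_coarser A he₁ he₁0 hd hd0
  have he₀A : e₀ ∈ A := A.nonunits_le he₀
  have hℓe : (ℓ : Kbar) * e₀⁻¹ ∈ A := by
    have e : (ℓ : Kbar) * e₀⁻¹ = ((ℓ : Kbar) * e₁⁻¹) * (e₁ * e₀⁻¹) := by
      field_simp
    rw [e]
    exact A.mul_mem _ _ hℓe₁ he₁e
  have hπe : π₀ * e₀⁻¹ ∈ A := by
    have e : π₀ * e₀⁻¹ = (π₀ * e₁⁻¹) * (e₁ * e₀⁻¹) := by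
      field_simp
    rw [e]
    exact A.mul_mem _ _ hπe₁ he₁e
  -- the induction: every `c` dividing `e₀ ^ (k + 1)` and `d`
  have hQ : ∀ k : ℕ, ∀ c : Kbar, c ∈ A.nonunits → c ≠ 0 → e₀ ^ (k + 1) * c⁻¹ ∈ A →
      d * c⁻¹ ∈ A → H5wBoth A M ℓ hℓ hM c w := by
    intro k
    induction k with
    | zero =>
      intro c hc hc0 hec hdc
      have hcA : c ∈ A := A.nonunits_le hc
      have h1 : H5wCongC A (M * ℓ) c w := by
        refine h5w_congC_mono A (M * ℓ) (a := π₀ * c⁻¹) ?_ ?_ hst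
        · have e : π₀ * c⁻¹ = (π₀ * e₀⁻¹) * (e₀ ^ (0 + 1) * c⁻¹) := by
            rw [zero_add, pow_one]
            field_simp
          rw [e]
          exact A.mul_mem _ _ hπe hec
        · field_simp
      refine ⟨h1, ?_⟩
      refine h5w_step_beta A M ℓ hℓ hM hA w hw hcA hc hc0 ?_ ?_
        (h5w_congC_mono A M (a := d * c⁻¹) hdc (by field_simp) hβ) h1
      · have e : c * (ℓ : Kbar) * c⁻¹ = ℓ := by field_simp
        rw [e]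
        exact A.nonunits_le hℓA
      · have e : c ^ 2 * c⁻¹ = c := by field_simp
        rw [e]
        exact hcA
    | succ k ih =>
      intro c hc hc0 hec hdc
      rcases A.mem_or_inv_mem (e₀ ^ (k + 1) * c⁻¹) with h | h
      · exact ih c hc hc0 h hdc
      · -- `e₀ ^ (k + 1)` divides `c`
        have hce : c * (e₀ ^ (k + 1))⁻¹ ∈ A := by
          have e : c * (e₀ ^ (k + 1))⁻¹ = (e₀ ^ (k + 1) * c⁻¹)⁻¹ := by
            rw [mul_inv, inv_inv, mul_comm]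
          rw [e]
          exact h
        have hc'0 : e₀ ^ (k + 1) ≠ 0 := pow_ne_zero _ he₀0
        have hc' : e₀ ^ (k + 1) ∈ A.nonunits := h71l_pow_mem_nonunits A he₀ k
        have hc'A : e₀ ^ (k + 1) ∈ A := A.nonunits_le hc'
        have hdc' : d * (e₀ ^ (k + 1))⁻¹ ∈ A := by
          have e : d * (e₀ ^ (k + 1))⁻¹ = (d * c⁻¹) * (c * (e₀ ^ (k + 1))⁻¹) := by
            field_simp
          rw [e]
          exact A.mul_mem _ _ hdc hce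
        obtain ⟨hinf, h0⟩ := ih (e₀ ^ (k + 1)) hc' hc'0
          (by rw [mul_inv_cancel₀ hc'0]; exact A.one_mem) hdc'
        have hd1 : e₀ ^ (k + 1) * (ℓ : Kbar) * c⁻¹ ∈ A := by
          have e : e₀ ^ (k + 1) * (ℓ : Kbar) * c⁻¹ =
              ((ℓ : Kbar) * e₀⁻¹) * (e₀ ^ (k + 1 + 1) * c⁻¹) := by
            field_simp
            ring
          rw [e]
          exact A.mul_mem _ _ hℓe hec
        have hd2 : (e₀ ^ (k + 1)) ^ 2 * c⁻¹ ∈ A := by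
          have e : (e₀ ^ (k + 1)) ^ 2 * c⁻¹ = e₀ ^ k * (e₀ ^ (k + 1 + 1) * c⁻¹) := by
            field_simp
            ring
          rw [e]
          exact A.mul_mem _ _ (pow_mem he₀A k) hec
        exact ⟨h5w_step_alpha A M ℓ hℓ hM hA w hw hc'A hc hc0 hd1 hd2
            (h5w_congC_mono A M (a := d * c⁻¹) hdc (by field_simp) hα) h0,
          h5w_step_beta A M ℓ hℓ hM hA w hw hc'A hc hc0 hd1 hd2
            (h5w_congC_mono A M (a := d * c⁻¹) hdc (by field_simp) hβ) hinf⟩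
  obtain ⟨k, hk⟩ := h71l_arch A hℓ hA he₀ he₀0 hd0
  refine hQ k d hd hd0 ?_ (by rw [mul_inv_cancel₀ hd0]; exact A.one_mem)
  have e : e₀ ^ (k + 1) * d⁻¹ = e₀ * (e₀ ^ k * d⁻¹) := by
    rw [pow_succ]
    ring
  rw [e]
  exact A.mul_mem _ _ he₀A hk

/-- **THE CONSTANT LADDER for `w = σ u / u`**, `σ` in the inertia group: the start congruence is
the landed `P6.h71s_start`. -/
theorem h5w_constLadder_gal (hℓ : ℓ.Prime) (hM : ¬ ℓ ∣ M) (hA : A.LiesOverPrime ℓ)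
    (σ : GQ) (hσ : σ ∈ A.inertiaSubgroupIn ℚ) (u : FF (M * ℓ)) (hu : u ≠ 0)
    {d : Kbar} (hd : d ∈ A.nonunits) (hd0 : d ≠ 0)
    (hα : H5wCongC A M d
      (normAlong (heckeAlphaBar Kbar M ℓ) (gal (M * ℓ) σ • u / u)))
    (hβ : H5wCongC A M d
      (normAlong (heckeBetaBar Kbar M ℓ) (gal (M * ℓ) σ • u / u))) :
    H5wBoth A M ℓ hℓ hM d (gal (M * ℓ) σ • u / u) := by
  have hσu : gal (M * ℓ) σ • u ≠ 0 := by
    intro h
    apply hu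
    have := congrArg (fun y => (gal (M * ℓ) σ)⁻¹ • y) h
    simpa using this
  obtain ⟨c, hc, π, hπ, hπ0, hs⟩ := h71s_start ℓ hℓ (M * ℓ) A hA σ hσ u hu
  exact h5w_constLadder A M ℓ hℓ hM hA _ (div_ne_zero hσu hu) hd hd0 hα hβ
    ⟨π, hπ, hπ0, c, hc, hs⟩

end Steps

end Fermat.Agent.P7
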