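import Fermat.Agent.P7.H85SlopeCtr
import Fermat.Agent.S35.H21TorCusp

/-!
# P7 (wave 7, S40), block (T) TORIC, row T-RHO-PURITY part 2b (helper85): purity at every
place of the special fibre which is not supersingular

`ℓ` a prime, `M` a good level, `A` over `ℓ`, `F~ = h13sFt A M`, `W∞ = softV A (M ℓ)`,
`ρ = h60bRedInf : W∞ → F~`.

* `h85w_purity_at` : **purity at a smooth point, chart-generic**: a place `Q` at a closed point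
  `𝔫` of a chart with a smooth datum `H62ySmooth` (`W = W∞`), `u` a unit of `W∞` with
  `r ∣ div u` ⟹ `r ∣ ord_Q (ρ u)`;
* `h85w_smooth_cusp` : the smooth datum at the cusps of `C∞` (chart at infinity);
* `H85wSS Q` : the place `Q` is supersingular (it has a centre on both components);
* `h85w_purity_all` : for EVERY place `Q`: `r ∣ ord_Q (ρ u)` or `Q` is supersingular;
* `H85wPurity` : the frozen `Prop`, `h85w_purity : H85wPurity`.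
-/

set_option autoImplicit false
set_option linter.unusedSectionVars false
set_option linter.unusedVariables false
set_option linter.style.haveILetI false
set_option linter.style.longLine false
set_option synthInstance.maxHeartbeats 400000

open AlgebraicCurve ModularCurve WithZero IsLocalRing

noncomputable section

namespace Fermat.Agent.P7

open Fermat.Agent.S37 Fermat.Agent.Red Fermat.Agent.Red.GG Fermat.Agent.Red.GV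
  Fermat.Agent.Red.GV.Soft Fermat.Agent.LGC Fermat.Agent.S35 Fermat.Agent.P5 Fermat.Agent.P6
  Fermat.Agent.Red.Nz Fermat.Agent.Red.ModelO Fermat.Agent.Red.Kron Fermat.Agent.Red.KR

section Generic

variable {A : ValuationSubring Kbar} {M ℓ : ℕ} [NeZero M] [NeZero ℓ]
  (hℓ : ℓ.Prime) (hM : ¬ ℓ ∣ M) (hA : A.LiesOverPrime ℓ)
  {t : FF (M * ℓ)}

/-- the reduction of an element of the local ring at `𝔫` lies in `O_Q`. -/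
theorem h85w_local_mem_at
    (hBW : ∀ b : chart (M * ℓ) A t, (b : FF (M * ℓ)) ∈ softV A (M * ℓ))
    (𝔫 : Ideal (chart (M * ℓ) A t)) (h𝔫 : 𝔫.IsPrime)
    (hker : ∀ b : chart (M * ℓ) A t, h85wRho hℓ hM hA hBW b = 0 → b ∈ 𝔫)
    (Q : Place (h13sK A) (h13sFt A M)) (hQ : H85wAt hℓ hM hA hBW Q 𝔫)
    {x : FF (M * ℓ)} (hx : x ∈ h62yO (chart (M * ℓ) A t) 𝔫 h𝔫)
    (hxV : x ∈ softV A (M * ℓ)) :
    h60bRedInf hℓ hM hA ⟨x, hxV⟩ ∈ Q.toValuationSubring := by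
  obtain ⟨s, hs, hsx⟩ := hx
  obtain ⟨-, h2⟩ := h85w_at_unit hℓ hM hA hBW Q 𝔫 h𝔫 hker hQ s
  obtain ⟨h3, -⟩ := h85w_at_unit hℓ hM hA hBW Q 𝔫 h𝔫 hker hQ ⟨_, hsx⟩
  have hs0 : h85wRho hℓ hM hA hBW s ≠ 0 := fun h => hs (hker s h)
  have e : h85wRho hℓ hM hA hBW ⟨_, hsx⟩ =
      h85wRho hℓ hM hA hBW s * h60bRedInf hℓ hM hA ⟨x, hxV⟩ := by
    rw [h85w_rho_apply, h85w_rho_apply, ← map_mul]
    rfl
  have e2 : h60bRedInf hℓ hM hA ⟨x, hxV⟩ =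
      h85wRho hℓ hM hA hBW ⟨_, hsx⟩ * (h85wRho hℓ hM hA hBW s)⁻¹ := by
    rw [e]
    field_simp
  rw [e2]
  exact Q.toValuationSubring.mul_mem _ _ h3 (h2 hs)

/-- **PURITY at a smooth point, chart-generic.** -/
theorem h85w_purity_at
    (hBW : ∀ b : chart (M * ℓ) A t, (b : FF (M * ℓ)) ∈ softV A (M * ℓ))
    (𝔫 : Ideal (chart (M * ℓ) A t))
    (hker : ∀ b : chart (M * ℓ) A t, h85wRho hℓ hM hA hBW b = 0 → b ∈ 𝔫)
    (Q : Place (h13sK A) (h13sFt A M)) (hQ : H85wAt hℓ hM hA hBW Q 𝔫)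
    {V₀ W' : Subring (FF (M * ℓ))} {t' : chart (M * ℓ) A t}
    (h : H62ySmooth (chart (M * ℓ) A t) V₀ (chartVal (M * ℓ) t) (softV A (M * ℓ)) W' 𝔫 t')
    (r : ℕ) (u : FF (M * ℓ)) (hu : u ∈ softV A (M * ℓ)) (hu0 : u ≠ 0)
    (hui : u⁻¹ ∈ softV A (M * ℓ))
    (hr : ∀ v : Place Kbar (FF (M * ℓ)), (r : ℤ) ∣ v.ord u) :
    (r : ℤ) ∣ Q.ord (h60bRedInf hℓ hM hA ⟨u, hu⟩) := by
  obtain ⟨d, w, ε, hw, hue, hεO, hεO'⟩ :=
    h85w_factor h u hu0 hu hui r (exists_val_eq (M * ℓ) t u hu0 r hr)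
  have hAW : ∀ a : A, algebraMap A (FF (M * ℓ)) a ∈ softV A (M * ℓ) := h62y_AW h
  have htV : (t' : FF (M * ℓ)) ∈ softV A (M * ℓ) := h.hBW _ t'.2
  have htd : (t' : FF (M * ℓ)) ^ d ∈ softV A (M * ℓ) := h26_zpow_mem _ htV h.htW d
  have hwV : w ∈ softV A (M * ℓ) := h86t_U1_mem hAW hw
  have hεV : ε ∈ softV A (M * ℓ) := h62y_O_le_W h hεO
  have hεV' : ε⁻¹ ∈ softV A (M * ℓ) := h62y_O_le_W h hεO'
  have hε0 : ε ≠ 0 := by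
    rintro rfl
    rw [mul_zero] at hue
    exact hu0 hue
  set ρ := h60bRedInf hℓ hM hA with hρ
  have hyeQ : ρ ⟨ε, hεV⟩ ∈ Q.toValuationSubring :=
    h85w_local_mem_at hℓ hM hA hBW 𝔫 h.hprime hker Q hQ hεO hεV
  have hyeQ' : ρ ⟨ε⁻¹, hεV'⟩ ∈ Q.toValuationSubring :=
    h85w_local_mem_at hℓ hM hA hBW 𝔫 h.hprime hker Q hQ hεO' hεV'
  have hee : ρ ⟨ε, hεV⟩ * ρ ⟨ε⁻¹, hεV'⟩ = 1 := by
    rw [← map_mul, ← map_one ρ]
    congr 1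
    exact Subtype.ext (mul_inv_cancel₀ hε0)
  have hū' : ρ ⟨u, hu⟩ = ρ (⟨(t' : FF (M * ℓ)) ^ d, htd⟩ * ⟨w, hwV⟩) ^ r * ρ ⟨ε, hεV⟩ := by
    rw [← map_pow, ← map_mul]
    congr 1
    exact Subtype.ext hue
  have hye0 : ρ ⟨ε, hεV⟩ ≠ 0 := left_ne_zero_of_mul_eq_one hee
  have hū0 : ρ ⟨u, hu⟩ ≠ 0 := h60b_redInf_ne_zero hℓ hM hA hu hui hu0
  have hz0 : ρ (⟨(t' : FF (M * ℓ)) ^ d, htd⟩ * ⟨w, hwV⟩) ^ r ≠ 0 := by
    intro h0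
    rw [hū', h0, zero_mul] at hū0
    exact hū0 rfl
  have hordE : Q.ord (ρ ⟨ε, hεV⟩) = 0 := by
    set U : (Q.toValuationSubring)ˣ :=
      ⟨⟨ρ ⟨ε, hεV⟩, hyeQ⟩, ⟨ρ ⟨ε⁻¹, hεV'⟩, hyeQ'⟩, Subtype.ext hee,
        Subtype.ext (by rw [mul_comm]; exact hee)⟩ with hU
    exact Q.ord_coe_unit U
  rw [hū', Q.ord_mul hz0 hye0, hordE, add_zero, ← zpow_natCast, Q.ord_zpow]
  exact dvd_mul_right _ _

end Generic

/-! ### The cusps of `C∞` -/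

section Cusp

variable (A : ValuationSubring Kbar) (M : ℕ) {ℓ : ℕ} [NeZero M] [NeZero ℓ]
  (hℓ : ℓ.Prime) (hM : ¬ ℓ ∣ M) (haux : auxLevel ℓ ∣ M) (hA : A.LiesOverPrime ℓ)
  (𝔫 : Ideal (chart (M * ℓ) A (jSS M ℓ)⁻¹)) (h𝔫 : 𝔫.IsMaximal)

include h𝔫 in
/-- **the smooth datum at the cusps of `C∞`.** -/
theorem h85w_smooth_cusp
    (hker : ∀ b : chart (M * ℓ) A (jSS M ℓ)⁻¹,
      h85wRho hℓ hM hA (h85w_link_inf A M hℓ hM haux hA).hBW b = 0 → b ∈ 𝔫)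
    (ht : (⟨(jSS M ℓ)⁻¹, h85_self_mem_modelAt (M * ℓ) A (jSS M ℓ)⁻¹⟩ :
      chart (M * ℓ) A (jSS M ℓ)⁻¹) ∈ 𝔫) :
    ∃ t, H62ySmooth (chart (M * ℓ) A (jSS M ℓ)⁻¹) (ssV A M ℓ)
      (chartVal (M * ℓ) (jSS M ℓ)⁻¹) (softV A (M * ℓ))
      (h85cW0 A M ℓ hℓ hM hA).toSubring 𝔫 t := by
  have L := h85w_link_inf A M hℓ hM haux hA
  have hC : IfaceSSChart A M ℓ (jSS M ℓ)⁻¹ := h85s_ifaceSSChart_inf A M ℓ hℓ hM hA
  have hBsoft : ∀ b ∈ chart (M * ℓ) A (jSS M ℓ)⁻¹, b ∈ softV A (M * ℓ) ∧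
      kFricke M ℓ hℓ hM b ∈ softV A (M * ℓ) := fun b hb =>
    (h63r_mem_ssV_iff hℓ hM hA _).mp (hC.hBV _ hb)
  -- elements of `𝔪 W∞ ∩ B` are in `𝔫`
  have hP : ∀ b : chart (M * ℓ) A (jSS M ℓ)⁻¹, ∀ m ∈ maximalIdeal A, ∀ y ∈ softV A (M * ℓ),
      (b : FF (M * ℓ)) = algebraMap A (FF (M * ℓ)) m * y → b ∈ 𝔫 := by
    intro b m hm y hy hb
    apply hker
    rw [h85w_rho_apply, h60b_redInf_eq_zero_iff]
    have hmn : (m : Kbar) ∈ A.nonunits := (GG.mem_maximalIdeal_iff A m).mp hm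
    have hc : cst (M * ℓ) (m : Kbar) ∈ softV A (M * ℓ) :=
      (cst_mem_softV_iff A (M * ℓ) _).mpr m.2
    have h0 : softR A (M * ℓ) ⟨_, hc⟩ = 0 := softR_cst_of_nonunit A (M * ℓ) _ hmn hc
    have e : (⟨(b : FF (M * ℓ)), L.hBW b⟩ : softV A (M * ℓ)) = ⟨_, hc⟩ * ⟨y, hy⟩ :=
      Subtype.ext hb
    rw [e, map_mul, h0, zero_mul]
  have hm : mExt A M ℓ (jSS M ℓ)⁻¹ ≤ 𝔫 := by
    rw [Ideal.map_le_iff_le_comap]
    intro a ha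
    rw [Ideal.mem_comap]
    exact hP _ a ha 1 (one_mem _) (by rw [mul_one]; rfl)
  obtain ⟨t, ht', ht0, htinv, hprin⟩ := h21u_ifaceTorCusp A M ℓ hℓ hM haux hA 𝔫 h𝔫 hm ht
  refine ⟨t, ?_⟩
  refine
    { hC := hC
      hinj := algebraMap_injective_FF (M * ℓ) A
      harch := harch_of_liesOver A hℓ hA
      hWW := fun x hx hx' => h63r_mem_ssV_of_soft hℓ hM hA hx hx'
      hBW := fun b hb => (hBsoft b hb).1
      hBW' := fun b hb => (hBsoft b hb).2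
      hWval := h62y_Winf_val A hℓ hA (M * ℓ)
      hWnt := h62y_Winf_nt A (M * ℓ)
      hprime := h𝔫.isPrime
      hm𝔫 := hm
      hP𝔫 := hP
      he := ?_
      ht := ht'
      ht0 := ht0
      htW := h63r_ssV_le_soft hℓ hA htinv
      hprin := hprin
      hsec := fun i hi => h85s_ifaceSSSection_of A M ℓ _ (h71_finite_inf' hℓ hM hA) i 𝔫 h𝔫 hm hi }
  -- the function `e = y ^ ℓ - t ^ (ℓ² - 1)`: zero on `C₀`, one at the cusps of `C∞`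
  obtain ⟨hy, hwy, htS, hwtS, hVinf, hV0⟩ := h21c_soft_facts A M ℓ hℓ hM hA
  set tB : chart (M * ℓ) A (jSS M ℓ)⁻¹ :=
    ⟨(jSS M ℓ)⁻¹, h85_self_mem_modelAt (M * ℓ) A (jSS M ℓ)⁻¹⟩ with htB
  set yB : chart (M * ℓ) A (jSS M ℓ)⁻¹ := ⟨h21c_y M ℓ, h21c_y_mem_chart A M ℓ hℓ hM hA⟩
    with hyB
  have htBval : (tB : FF (M * ℓ)) = h21c_t M ℓ := h21c_jSS_inv_eq M ℓ
  have hℓ2 : 1 ≤ ℓ * ℓ - 1 := by
    have := hℓ.two_le
    have : 4 ≤ ℓ * ℓ := by nlinarith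
    omega
  have hy1 : 1 - yB ∈ 𝔫 := by
    apply hker
    rw [h85w_rho_apply, h60b_redInf_eq_zero_iff]
    exact (softR_eq_zero_iff_mem_nonunits A (M * ℓ) hℓ hA ⟨_, L.hBW (1 - yB)⟩).mpr hVinf
  have hyn : yB ∉ 𝔫 := by
    intro h
    have := 𝔫.add_mem hy1 h
    rw [sub_add_cancel] at this
    exact h𝔫.ne_top ((Ideal.eq_top_iff_one _).mpr this)
  have hen : yB ^ ℓ - tB ^ (ℓ * ℓ - 1) ∉ 𝔫 := by
    intro h
    have h1 : tB ^ (ℓ * ℓ - 1) ∈ 𝔫 := 𝔫.pow_mem_of_mem ht _ (by omega)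
    have h2 := 𝔫.add_mem h h1
    rw [sub_add_cancel] at h2
    exact hyn (h𝔫.isPrime.mem_of_pow_mem _ h2)
  have he0 : ((yB ^ ℓ - tB ^ (ℓ * ℓ - 1) : chart (M * ℓ) A (jSS M ℓ)⁻¹) : FF (M * ℓ)) ≠ 0 := by
    intro h0
    apply hen
    have : yB ^ ℓ - tB ^ (ℓ * ℓ - 1) = 0 := Subtype.ext h0
    rw [this]
    exact 𝔫.zero_mem
  have hcoe : ((yB ^ ℓ - tB ^ (ℓ * ℓ - 1) : chart (M * ℓ) A (jSS M ℓ)⁻¹) : FF (M * ℓ)) =
      h21c_y M ℓ ^ ℓ - h21c_t M ℓ ^ (ℓ * ℓ - 1) := by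
    rw [← htBval]
    rfl
  have hw0 : kFricke M ℓ hℓ hM (h21c_y M ℓ ^ ℓ - h21c_t M ℓ ^ (ℓ * ℓ - 1)) ≠ 0 := by
    rw [← hcoe]
    exact (map_ne_zero _).mpr he0
  obtain ⟨p, hp0, hp, u, hu, hxu⟩ := h63r_nonunit_scale hℓ hA (M * ℓ) hw0 hV0
  refine ⟨yB ^ ℓ - tB ^ (ℓ * ℓ - 1), hen, ⟨p, A.nonunits_le hp⟩,
    ValuationSubring.coe_mem_nonunits_iff.mp hp, ?_, kFricke M ℓ hℓ hM u, ?_, ?_⟩
  · intro h0
    exact hp0 (congrArg Subtype.val h0)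
  · show kFricke M ℓ hℓ hM (kFricke M ℓ hℓ hM u) ∈ softV A (M * ℓ)
    rw [kFricke_kFricke]
    exact hu
  · rw [hcoe]
    have := congrArg (kFricke M ℓ hℓ hM) hxu
    rw [kFricke_kFricke, map_mul] at this
    rw [this]
    congr 1
    exact (kFricke M ℓ hℓ hM).commutes p

end Cusp

/-! ### All places -/

section All

variable (A : ValuationSubring Kbar) (M : ℕ) {ℓ : ℕ} [NeZero M] [NeZero ℓ]
  (hℓ : ℓ.Prime) (hM : ¬ ℓ ∣ M) (haux : auxLevel ℓ ∣ M) (hA : A.LiesOverPrime ℓ)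

/-- **the place `Q` of the special fibre is supersingular**: it has a centre on the finite
chart of level `M ℓ` which lies on both components. -/
def H85wSS (Q : Place (h13sK A) (h13sFt A M)) : Prop :=
  ∃ 𝔫 : Ideal (chart (M * ℓ) A (jSS M ℓ)), 𝔫.IsMaximal ∧
    h62i_Pinf A M hℓ hM hA ≤ 𝔫 ∧ h62i_P0 A M hℓ hM hA ≤ 𝔫 ∧
    H85wAt hℓ hM hA (h62i_mem_soft A M hℓ hM hA) Q 𝔫

include haux in
/-- **PURITY at every place**: `r ∣ ord_Q (ρ u)` unless `Q` is supersingular. -/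
theorem h85w_purity_all (r : ℕ) (u : FF (M * ℓ)) (hu : u ∈ softV A (M * ℓ)) (hu0 : u ≠ 0)
    (hui : u⁻¹ ∈ softV A (M * ℓ))
    (hr : ∀ v : Place Kbar (FF (M * ℓ)), (r : ℤ) ∣ v.ord u)
    (Q : Place (h13sK A) (h13sFt A M)) :
    (r : ℤ) ∣ Q.ord (h60bRedInf hℓ hM hA ⟨u, hu⟩) ∨ H85wSS A M hℓ hM hA Q := by
  rcases h85w_exists_centre A M hℓ hM haux hA Q with
    ⟨𝔫, h𝔫, hPinf, hQ, -⟩ | ⟨𝔫, h𝔫, hker, ht, hQ⟩
  · by_cases hP0 : h62i_P0 A M hℓ hM hA ≤ 𝔫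
    · exact Or.inr ⟨𝔫, h𝔫, hPinf, hP0, hQ⟩
    · left
      obtain ⟨t, h⟩ := h62y_smooth_inf A M hℓ hM haux hA 𝔫 h𝔫 hPinf hP0
      have hker : ∀ b : chart (M * ℓ) A (jSS M ℓ),
          h85wRho hℓ hM hA (h62i_mem_soft A M hℓ hM hA) b = 0 → b ∈ 𝔫 :=
        fun b hb => hPinf ((h85w_ker_fin A M hℓ hM hA b).mp hb)
      exact h85w_purity_at hℓ hM hA _ 𝔫 hker Q hQ h r u hu hu0 hui hr
  · left
    obtain ⟨t, h⟩ := h85w_smooth_cusp A M hℓ hM haux hA 𝔫 h𝔫 hker ht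
    exact h85w_purity_at hℓ hM hA _ 𝔫 hker Q hQ h r u hu hu0 hui hr

end All

/-- **T-RHO-PURITY** (frozen `Prop`): purity off the supersingular places. -/
def H85wPurity : Prop :=
  ∀ (p : ℕ) (hp : p.Prime) (M : ℕ) [NeZero M] (hM : ¬ p ∣ M), auxLevel p ∣ M →
    haveI : NeZero p := ⟨hp.ne_zero⟩
    ∀ (A : ValuationSubring Kbar) (hA : A.LiesOverPrime p)
      (r : ℕ) (u : FF (M * p)) (hu : u ∈ softV A (M * p)), u ≠ 0 → u⁻¹ ∈ softV A (M * p) →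
      (∀ v : Place Kbar (FF (M * p)), (r : ℤ) ∣ v.ord u) →
      ∀ Q : Place (h13sK A) (h13sFt A M),
        (r : ℤ) ∣ Q.ord (h60bRedInf hp hM hA ⟨u, hu⟩) ∨ H85wSS A M hp hM hA Q

/-- **T-RHO-PURITY.** -/
theorem h85w_purity : H85wPurity := by
  intro p hp M _ hM haux
  haveI : NeZero p := ⟨hp.ne_zero⟩
  intro A hA r u hu hu0 hui hr Q
  exact h85w_purity_all A M hp hM haux hA r u hu hu0 hui hr Q

end Fermat.Agent.P7
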