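import Fermat.Agent.P7.H5EisHm
import Fermat.Agent.P7.H85SlopeCusp
import Fermat.Agent.P7.H60ClassSlope
import Fermat.Agent.P7.H90NodeRat

/-!
# P7 (wave 7, row 38), block T-TORIC, row T-EIS: all places (helper5)

`p ∤ M` a prime, `M` a good level (`auxLevel p ∣ M`), `A` over `p`, `u` a Kummer representative
of a `p`-torsion class `x₀` of level `M p` with `T_ℓ x₀ = c x₀`, `p ∤ ℓ + 1 - c`.

* `h5e_unit_centred` : a function `e` with `t e, t e⁻¹ ∈ B` for some `t ∉ 𝔫` has no zeros and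
  poles centred at `𝔫`.
* `h5e_data_of_form` : the rational node normal form of helper90 (`h90g_node_rat`,
  `u = θ x ^ m e (P(x) / Q(x)) ^ p`) gives node data (`H5eNodeData`) with the constant
  `α₀ = P(0) / Q(0)`; `h5e_fix_of_poly` : `α₀` is fixed by the inertia elements fixing `P`, `Q`.
* `H5eNodePkg` : the package at a supersingular node (coordinates, node data of `u` and of
  `T_ℓ u` with `I_β`-fixed constants, EXPORT of (5b) for `u` and for `T_ℓ u`).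
* `h5e_ss_of_pkg` : the package gives `p ∣ ord_Q(ū)` at the place `Q` at the node.
* `h5e_all` : **T-EIS + PURITY**: packages at all supersingular nodes give
  `p ∣ ord_Q(ū)` at **every** place `Q` of the special fibre (the hypothesis `hs` of
  `h60g_toric`, helper60).

Nothing is assumed: every statement is proved.
-/

set_option autoImplicit false
set_option linter.style.haveILetI false
set_option linter.style.longLine false
set_option linter.unusedSectionVars false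
set_option linter.unusedVariables false
set_option synthInstance.maxHeartbeats 400000

open AlgebraicCurve ModularCurve IsLocalRing Polynomial

noncomputable section

namespace Fermat.Agent.P7

open Fermat.Agent.S37 Fermat.Agent.Red Fermat.Agent.Red.GG Fermat.Agent.Red.GV
  Fermat.Agent.Red.GV.Soft Fermat.Agent.LGC Fermat.Agent.P5 Fermat.Agent.S35 Fermat.Agent.P6
  Fermat.Agent.Red.Kron Fermat.Agent.Red.ModelO
open Fermat.Agent.Jac.K1 (IsKummerPair)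

variable {A : ValuationSubring Kbar} {M p : ℕ} [NeZero M] [NeZero p]

/-- a function `e ≠ 0` with `t e, t e⁻¹ ∈ B` for some `t ∉ 𝔫` has no zeros and poles centred
at `𝔫`. -/
theorem h5e_unit_centred (𝔫 : Ideal (chart (M * p) A (jSS M p))) {e : FF (M * p)}
    (he0 : e ≠ 0)
    (ht : ∃ t : chart (M * p) A (jSS M p), t ∉ 𝔫 ∧
      (t : FF (M * p)) * e ∈ chart (M * p) A (jSS M p) ∧
      (t : FF (M * p)) * e⁻¹ ∈ chart (M * p) A (jSS M p))
    (k : ChartPlace (M * p) (jSS M p))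
    (hk : h26Centered (chart (M * p) A (jSS M p)) (chartVal (M * p) (jSS M p)) 𝔫 k) :
    chartVal (M * p) (jSS M p) k e = 1 := by
  obtain ⟨t, ht𝔫, h1, h2⟩ := ht
  have hB := GGC97_hB (M * p) A (jSS M p)
  have ht1 : chartVal (M * p) (jSS M p) k (t : FF (M * p)) = 1 := by
    refine le_antisymm (hB _ t.2 k) (not_lt.mp fun hlt => ht𝔫 (hk t hlt))
  have h3 := hB _ h1 k
  have h4 := hB _ h2 k
  rw [map_mul, ht1, one_mul] at h3 h4
  rw [map_inv₀] at h4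
  have hpos : 0 < chartVal (M * p) (jSS M p) k e :=
    zero_lt_iff.mpr ((_root_.map_ne_zero _).mpr he0)
  exact le_antisymm h3 ((inv_le_one₀ hpos).mp h4)

section Form

variable (hp : p.Prime) (hM : ¬ p ∣ M) (hA : A.LiesOverPrime p)
  (𝔫 : Ideal (chart (M * p) A (jSS M p)))

/-- **node data from the rational node normal form** (helper90): the constant is
`α₀ = P(0) / Q(0)`. -/
theorem h5e_data_of_form (x : FF (M * p)) (hx0 : x ≠ 0)
    {u θ e εinf ε0 : FF (M * p)} (hu0 : u ≠ 0) {m s : ℤ} {P R : A[X]} {π : A}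
    (hθ : h13x_IsConst A θ)
    (he : e ∈ ssV A M p) (hei : e⁻¹ ∈ ssV A M p)
    (ht : ∃ t : chart (M * p) A (jSS M p), t ∉ 𝔫 ∧
      (t : FF (M * p)) * e ∈ chart (M * p) A (jSS M p) ∧
      (t : FF (M * p)) * e⁻¹ ∈ chart (M * p) A (jSS M p))
    (hu : u = θ * x ^ m * e * (aeval x P * (aeval x R)⁻¹) ^ p)
    (hπ : π ∈ maximalIdeal A)
    (hεinf : εinf ∈ h26U π (h85cWinf A M p hp hA).toSubring)
    (hε0 : ε0 ∈ h26U π (h85cW0 A M p hp hM hA).toSubring)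
    (hg : aeval x P * (aeval x R)⁻¹ = x ^ s * εinf)
    (hg' : aeval x P * (aeval x R)⁻¹ =
      algebraMap A (FF (M * p)) (P.coeff 0) * (algebraMap A (FF (M * p)) (R.coeff 0))⁻¹ * ε0) :
    H5eNodeData A M hp hM hA 𝔫 x u m (((P.coeff 0 : A) : Kbar) * ((R.coeff 0 : A) : Kbar)⁻¹) := by
  obtain ⟨κ₀, rfl⟩ := h50t_isConst_eq_cst A (M * p) hθ
  have hκ₀ : κ₀ ≠ 0 := by
    intro h0
    apply hu0
    rw [hu, h0]
    simp only [cst, map_zero, zero_mul]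
  have he0 : e ≠ 0 := by
    intro h0
    apply hu0
    rw [hu, h0, mul_zero, zero_mul]
  have hg0 : aeval x P * (aeval x R)⁻¹ ≠ 0 := by
    intro h0
    apply hu0
    rw [hu, h0, zero_pow hp.ne_zero, mul_zero]
  have hcst : cst (M * p) (((P.coeff 0 : A) : Kbar) * ((R.coeff 0 : A) : Kbar)⁻¹) =
      algebraMap A (FF (M * p)) (P.coeff 0) * (algebraMap A (FF (M * p)) (R.coeff 0))⁻¹ := by
    have e1 : algebraMap A (FF (M * p)) (P.coeff 0) = cst (M * p) ((P.coeff 0 : A) : Kbar) := rfl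
    have e2 : algebraMap A (FF (M * p)) (R.coeff 0) = cst (M * p) ((R.coeff 0 : A) : Kbar) := rfl
    rw [e1, e2]
    simp only [cst, map_mul, map_inv₀]
  have hα : ((P.coeff 0 : A) : Kbar) * ((R.coeff 0 : A) : Kbar)⁻¹ ≠ 0 := by
    intro h0
    apply hg0
    rw [hg', ← hcst, h0]
    simp only [cst, map_zero, zero_mul]
  refine ⟨s, κ₀, aeval x P * (aeval x R)⁻¹, e, εinf, ε0, π, hπ, hκ₀, hα, hu, he, hei,
    fun k hk => h5e_unit_centred 𝔫 he0 ht k hk, hg, hεinf, ?_, hε0⟩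
  rw [hcst]
  exact hg'

omit [NeZero M] [NeZero p] in
/-- the constant `P(0) / Q(0)` is fixed by an inertia element fixing `P` and `Q`. -/
theorem h5e_fix_of_poly {σ : GQ} (hσ : σ ∈ A.inertiaSubgroupIn ℚ) {P R : A[X]}
    (hP : P.map (h56pTheta A hσ) = P) (hR : R.map (h56pTheta A hσ) = R) :
    σ (((P.coeff 0 : A) : Kbar) * ((R.coeff 0 : A) : Kbar)⁻¹) =
      ((P.coeff 0 : A) : Kbar) * ((R.coeff 0 : A) : Kbar)⁻¹ := by
  have h1 : h56pTheta A hσ (P.coeff 0) = P.coeff 0 := by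
    conv_rhs => rw [← hP]
    rw [coeff_map]
  have h2 : h56pTheta A hσ (R.coeff 0) = R.coeff 0 := by
    conv_rhs => rw [← hR]
    rw [coeff_map]
  have h3 : σ ((P.coeff 0 : A) : Kbar) = ((P.coeff 0 : A) : Kbar) := by
    rw [← h56p_coe_theta A hσ, h1]
  have h4 : σ ((R.coeff 0 : A) : Kbar) = ((R.coeff 0 : A) : Kbar) := by
    rw [← h56p_coe_theta A hσ, h2]
  rw [map_mul, map_inv₀, h3, h4]

end Form

/-! ### The package at a supersingular node and the final statement -/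

/-- **the T-EIS package at a supersingular node `𝔫`**: coordinates `x y = p c`, node data of
`u` and of `T_ℓ u` with `I_β`-fixed constants `α₀`, `α₀'`, and the EXPORT of (5b) at depth `D₀`
for `u` and for `T_ℓ u`. -/
def H5eNodePkg (A : ValuationSubring Kbar) (M : ℕ) {p : ℕ} [NeZero M] [NeZero p]
    (hp : p.Prime) (hM : ¬ p ∣ M) (hA : A.LiesOverPrime p) (ℓ : ℕ) [NeZero ℓ]
    (β : Kbar) (b : GQ) (δ D₀ : Kbar) (u : FF (M * p))
    (𝔫 : Ideal (chart (M * p) A (jSS M p))) : Prop :=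
  ∃ x y c : chart (M * p) A (jSS M p), x ∈ 𝔫 ∧ y ∈ 𝔫 ∧ c ∉ 𝔫 ∧
    x * y = algebraMap A (chart (M * p) A (jSS M p)) ((p : ℕ) : A) * c ∧
    (∀ z ∈ 𝔫, ∃ s, s ∉ 𝔫 ∧ s * z ∈ Ideal.span {x, y} ⊔ mExt A M p (jSS M p)) ∧
    ((x : FF (M * p)))⁻¹ ∈ h85cWinf A M p hp hA ∧
    ((y : FF (M * p)))⁻¹ ∈ h85cW0 A M p hp hM hA ∧
    ∃ (m m' : ℤ) (α₀ α₀' : Kbar),
      H5eNodeData A M hp hM hA 𝔫 (x : FF (M * p)) u m α₀ ∧
      H5eNodeData A M hp hM hA 𝔫 (x : FF (M * p)) (h57rT (M * p) ℓ u) m' α₀' ∧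
      (∀ a ∈ h23vI1 p A, a β = β → a α₀ = α₀) ∧
      (∀ a ∈ h23vI1 p A, a β = β → a α₀' = α₀') ∧
      H5eExport A M hp hM b δ D₀ u α₀ ∧
      H5eExport A M hp hM b δ D₀ (h57rT (M * p) ℓ u) α₀'

section All

variable (hp : p.Prime) (hM : ¬ p ∣ M) (hA : A.LiesOverPrime p)

/-- **T-EIS at a supersingular node, from the package.** -/
theorem h5e_ss_of_pkg {ℓ : ℕ} (hℓ : ℓ.Prime) (hℓN : ¬ ℓ ∣ M * p)
    {ζ β : Kbar} {b : GQ} {δ : Kbar} (hB : H23wBreak p A ζ β b δ)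
    {x₀ : JZero (M * p)} {u : FF (M * p)}
    (hu : IsKummerPair p x₀ u) (c₀ : ℤ)
    (hc₀ : heckeOperatorBar (M * p) ⟨ℓ, hℓ⟩ x₀ = c₀ • x₀)
    (hne : ¬ (p : ℤ) ∣ (ℓ : ℤ) + 1 - c₀)
    {D₀ : Kbar} (hD₀ : D₀ ∈ A.nonunits) (hD₀0 : D₀ ≠ 0)
    (𝔫 : Ideal (chart (M * p) A (jSS M p))) (h𝔫 : 𝔫.IsMaximal)
    (hPinf : h62i_Pinf A M hp hM hA ≤ 𝔫) (hP0 : h62i_P0 A M hp hM hA ≤ 𝔫)
    (hpkg : haveI : NeZero ℓ := ⟨hℓ.ne_zero⟩
      H5eNodePkg A M hp hM hA ℓ β b δ D₀ u 𝔫)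
    (Q : Place (h13sK A) (h13sFt A M))
    (hQ : H85wAt hp hM hA (h62i_mem_soft A M hp hM hA) Q 𝔫) :
    (p : ℤ) ∣ h44slOrd A M p u Q := by
  haveI : NeZero ℓ := ⟨hℓ.ne_zero⟩
  obtain ⟨x, y, c, hx, hy, hc, hxy, hprin, hxinf, hy0, m, m', α₀, α₀', h, h', hfix, hfix',
    hE, hE'⟩ := hpkg
  have hboth := h62x_torOnBoth A M hp hM hA 𝔫 hPinf hP0
  exact h5e_ss_pow hp hM hA 𝔫 h𝔫 hboth x y c hx hc hxy hprin hxinf hy0 Q hQ hℓ hℓN hB hu
    c₀ hc₀ hne h h' hfix hfix' hD₀ hD₀0 hE hE'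

/-- **T-EIS + PURITY**: at a good level, packages at all supersingular nodes give
`p ∣ ord_Q(ū)` at every place `Q` of the special fibre. -/
theorem h5e_all (haux : auxLevel p ∣ M) {ℓ : ℕ} (hℓ : ℓ.Prime) (hℓN : ¬ ℓ ∣ M * p)
    {ζ β : Kbar} {b : GQ} {δ : Kbar} (hB : H23wBreak p A ζ β b δ)
    {x₀ : JZero (M * p)} {u : FF (M * p)}
    (hu : IsKummerPair p x₀ u) (c₀ : ℤ)
    (hc₀ : heckeOperatorBar (M * p) ⟨ℓ, hℓ⟩ x₀ = c₀ • x₀)
    (hne : ¬ (p : ℤ) ∣ (ℓ : ℤ) + 1 - c₀)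
    {D₀ : Kbar} (hD₀ : D₀ ∈ A.nonunits) (hD₀0 : D₀ ≠ 0)
    (hpkg : haveI : NeZero ℓ := ⟨hℓ.ne_zero⟩
      ∀ 𝔫 : Ideal (chart (M * p) A (jSS M p)), 𝔫.IsMaximal →
        h62i_Pinf A M hp hM hA ≤ 𝔫 → h62i_P0 A M hp hM hA ≤ 𝔫 →
        H5eNodePkg A M hp hM hA ℓ β b δ D₀ u 𝔫)
    (Q : Place (h13sK A) (h13sFt A M)) :
    (p : ℤ) ∣ h44slOrd A M p u Q := by
  haveI : NeZero ℓ := ⟨hℓ.ne_zero⟩
  obtain ⟨k, D, hk, hpres⟩ := h60g_pres_of_kummer (A := A) hp hA hu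
  have hdiv : ∀ v : Place Kbar (FF (M * p)), (p : ℤ) ∣ v.ord (cst (M * p) k * u) :=
    fun v => ⟨_, hpres.div v⟩
  rcases h85w_purity_all A M hp hM haux hA p (cst (M * p) k * u) hpres.mem hpres.ne_zero
    hpres.inv_mem hdiv Q with h1 | ⟨𝔫, h𝔫, hPinf, hP0, hQ⟩
  · rw [← h44sl_ord_cst_mul hp hM hA hk u Q, h60g_ord_eq hp hM hA hpres Q,
      h60b_redU_of_mem hp hM hA hpres.mem]
    exact h1
  · exact h5e_ss_of_pkg hp hM hA hℓ hℓN hB hu c₀ hc₀ hne hD₀ hD₀0 𝔫 h𝔫 hPinf hP0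
      (hpkg 𝔫 h𝔫 hPinf hP0) Q hQ

end All

end Fermat.Agent.P7
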