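import Fermat.Agent.P7.H5EisLevel
import Fermat.Agent.P7.H23BreakW

/-!
# P7 (wave 7, row 38), block T-TORIC: (E) in the tame case and the tame / wild split (helper5)

`p ∤ M` an odd prime, `M` a good level, `A` over `p`, `I₁` the inertia at `A` acting trivially
on `μ_p`, `β` a unit of `A` with `β ^ p ∈ Fix(I₁)`, `u` a Kummer representative, fixed by the
stabiliser `I_β` of `β` in `I₁`, of a class `x₀` with `T_ℓ x₀ = c x₀`, `ℓ ∤ M p`,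
`p ∤ ℓ + 1 - c`.

* `h5t_node_tame`, `h5t_all_tame` : **the tame case** (`u` fixed by all of `I₁`):
  `p ∣ ord_Q(ū)` at every place `Q` of the special fibre.  (No BREAK, no EXPORT: the node
  constants are fixed by `I₁`, so their valuations are tame, `h23v_val`.)
* `h5t_kummer_all` : **tame or wild**: `p ∣ ord_Q(ū)` at every place `Q`
  (`h23w_cases` + `h5t_all_tame` + `h5e_level_all`).

Nothing is assumed: every statement is proved.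
-/

set_option autoImplicit false
set_option linter.unusedSectionVars false
set_option linter.unusedVariables false
set_option linter.style.longLine false
set_option linter.style.haveILetI false
set_option synthInstance.maxHeartbeats 400000
set_option maxHeartbeats 1600000

open AlgebraicCurve ModularCurve WithZero IsLocalRing Polynomial

noncomputable section

namespace Fermat.Agent.P7

open Fermat.Agent.S37 Fermat.Agent.S37.GalI Fermat.Agent.Red Fermat.Agent.Red.GG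
  Fermat.Agent.Red.GV Fermat.Agent.Red.GV.Soft Fermat.Agent.Red.ModelO Fermat.Agent.Red.Kron
  Fermat.Agent.LGC Fermat.Agent.S35 Fermat.Agent.P5 Fermat.Agent.P6
open Fermat.Agent.Jac.K1 (IsKummerPair)

variable (A : ValuationSubring Kbar) (M : ℕ) {p : ℕ} [NeZero M] [NeZero p]

/-- **(E) at a crossing point, tame case**: `u` fixed by all of `I₁`. -/
theorem h5t_node_tame (hp : p.Prime) (hp2 : p ≠ 2) (hM : ¬ p ∣ M) (haux : auxLevel p ∣ M)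
    (hA : A.LiesOverPrime p)
    {ℓ : ℕ} (hℓ : ℓ.Prime) (hℓN : ¬ ℓ ∣ M * p)
    {x₀ : JZero (M * p)} {u : FF (M * p)} (hu : IsKummerPair p x₀ u)
    (hfix : ∀ a ∈ h23vI1 p A, gal (M * p) a • u = u)
    (c₀ : ℤ) (hc₀ : heckeOperatorBar (M * p) ⟨ℓ, hℓ⟩ x₀ = c₀ • x₀)
    (hne : ¬ (p : ℤ) ∣ (ℓ : ℤ) + 1 - c₀)
    (e₀ : H78lNode A M hp hM hA)
    (e : Place (h13sK A) (h13sFt A M))
    (he : H85wAt hp hM hA (h62i_mem_soft A M hp hM hA) e e₀.1) :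
    (p : ℤ) ∣ h44slOrd A M p u e := by
  classical
  haveI : NeZero ℓ := ⟨hℓ.ne_zero⟩
  haveI : Fact p.Prime := ⟨hp⟩
  have hT : IsKummerPair p (heckeOperatorBar (M * p) ⟨ℓ, hℓ⟩ x₀) (h57rT (M * p) ℓ u) :=
    h57l_kummer_T (M * p) ⟨ℓ, hℓ⟩ hu
  have hfixT : ∀ a ∈ h23vI1 p A, gal (M * p) a • h57rT (M * p) ℓ u = h57rT (M * p) ℓ u := by
    intro a ha
    rw [h27e_T_gal, hfix a ha]
  have hb : (1 : GQ) ∈ A.inertiaSubgroupIn ℚ := Subgroup.one_mem _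
  have hθ : ∀ z : A, h56pTheta A hb z = z := fun z => Subtype.ext (by
    rw [h56p_coe_theta]
    rfl)
  have hvar : ∀ (v : FF (M * p)) (z : A),
      (∀ σ (hσ : σ ∈ A.inertiaSubgroupIn ℚ), gal (M * p) σ • v = v →
        h56pTheta A hσ z = z) → ∃ c : A, h56pTheta A hb z = z * (1 + (0 : A) * c) :=
    fun v z _ => ⟨0, by rw [hθ z, mul_zero, add_zero, mul_one]⟩
  obtain ⟨m, γP, γQ, hγP, hγQ, -, hN50, ⟨s, hs⟩, hfx⟩ :=
    h19l_nfNode_kummer A M hp hM haux hA e₀.1 e₀.2.1 e₀.2.2.1 e₀.2.2.2 hb (0 : A) hu (hvar u)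
  obtain ⟨m', γP', γQ', hγP', hγQ', -, hN50', ⟨s', hs'⟩, hfx'⟩ :=
    h19l_nfNode_kummer A M hp hM haux hA e₀.1 e₀.2.1 e₀.2.2.1 e₀.2.2.2 hb (0 : A) hT
      (hvar _)
  have hm : (p : ℤ) ∣ m' - c₀ * m :=
    h19l_hm A M hp hM hA hℓ hu c₀ hc₀ e (hs e he) (hs' e he)
  have hα : ((γP : Kbar) / (γQ : Kbar)) ≠ 0 := h50t_nodeForm_ne_zero hp hM hA hN50
  have hα' : ((γP' : Kbar) / (γQ' : Kbar)) ≠ 0 := h50t_nodeForm_ne_zero hp hM hA hN50'
  have hz0 : ((γP' : Kbar) / (γQ' : Kbar)) / ((γP : Kbar) / (γQ : Kbar)) ^ (ℓ + 1) ≠ 0 :=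
    div_ne_zero hα' (pow_ne_zero _ hα)
  have hzfix : ∀ a ∈ h23vI1 p A,
      a (((γP' : Kbar) / (γQ' : Kbar)) / ((γP : Kbar) / (γQ : Kbar)) ^ (ℓ + 1)) =
        ((γP' : Kbar) / (γQ' : Kbar)) / ((γP : Kbar) / (γQ : Kbar)) ^ (ℓ + 1) := by
    intro a ha
    rw [map_div₀, map_pow, hfx a ha.1 (hfix a ha), hfx' a ha.1 (hfixT a ha)]
  have hval := h23v_val hp2 A hA hz0 hzfix
  have hdvd := h27g_eis_node A M ℓ hp hM hA hℓ hℓN hu.1 hN50 hN50' hval hm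
  have hpm : (p : ℤ) ∣ m := (Int.Prime.dvd_mul' hp hdvd).resolve_left hne
  exact h19l_ord_of_dvd A M (hs e he) hpm

/-- **(E) + (R), tame case**: `p ∣ ord_Q(ū)` at every place `Q` of the special fibre. -/
theorem h5t_all_tame (hp : p.Prime) (hp2 : p ≠ 2) (hM : ¬ p ∣ M) (haux : auxLevel p ∣ M)
    (hA : A.LiesOverPrime p)
    {ℓ : ℕ} (hℓ : ℓ.Prime) (hℓN : ¬ ℓ ∣ M * p)
    {x₀ : JZero (M * p)} {u : FF (M * p)} (hu : IsKummerPair p x₀ u)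
    (hfix : ∀ a ∈ h23vI1 p A, gal (M * p) a • u = u)
    (c₀ : ℤ) (hc₀ : heckeOperatorBar (M * p) ⟨ℓ, hℓ⟩ x₀ = c₀ • x₀)
    (hne : ¬ (p : ℤ) ∣ (ℓ : ℤ) + 1 - c₀)
    (Q : Place (h13sK A) (h13sFt A M)) :
    (p : ℤ) ∣ h44slOrd A M p u Q :=
  h19l_all_of_nodes A M hp hM haux hA u hu.1 (fun v => hu.dvd_ord v)
    (fun 𝔫 h𝔫 hPinf hP0 e he =>
      h5t_node_tame A M hp hp2 hM haux hA hℓ hℓN hu hfix c₀ hc₀ hne
        ⟨𝔫, h𝔫, hPinf, hP0⟩ e he) Q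

/-- **(E) + (R), tame or wild**: `β` a unit of `A` with `β ^ p ∈ Fix(I₁)`, `u` a Kummer
representative fixed by the stabiliser of `β` in `I₁`, non-Eisenstein eigenvalue:
`p ∣ ord_Q(ū)` at every place `Q` of the special fibre. -/
theorem h5t_kummer_all (hp : p.Prime) (hp2 : p ≠ 2) (hM : ¬ p ∣ M) (haux : auxLevel p ∣ M)
    (hA : A.LiesOverPrime p)
    {ℓ : ℕ} (hℓ : ℓ.Prime) (hℓN : ¬ ℓ ∣ M * p)
    {β : Kbar} (hβA : β ∈ A) (hβA' : β⁻¹ ∈ A)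
    (hβ : ∀ a ∈ h23vI1 p A, a (β ^ p) = β ^ p)
    {x₀ : JZero (M * p)} {u : FF (M * p)} (hu : IsKummerPair p x₀ u)
    (hfix : ∀ a ∈ h23vI1 p A, a β = β → gal (M * p) a • u = u)
    (c₀ : ℤ) (hc₀ : heckeOperatorBar (M * p) ⟨ℓ, hℓ⟩ x₀ = c₀ • x₀)
    (hne : ¬ (p : ℤ) ∣ (ℓ : ℤ) + 1 - c₀)
    (Q : Place (h13sK A) (h13sFt A M)) :
    (p : ℤ) ∣ h44slOrd A M p u Q := by
  haveI : Fact p.Prime := ⟨hp⟩
  by_cases hβ0 : β = 0
  · refine h5t_all_tame A M hp hp2 hM haux hA hℓ hℓN hu (fun a ha => hfix a ha ?_) c₀ hc₀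
      hne Q
    rw [hβ0, map_zero]
  · refine h23w_cases hp2 A hA hβ0 hβA hβA' hβ ?_ ?_
    · intro htame
      exact h5t_all_tame A M hp hp2 hM haux hA hℓ hℓN hu
        (fun a ha => hfix a ha (htame a ha)) c₀ hc₀ hne Q
    · intro b ζ δ hb hbI hζ hbβ hS hW
      exact h5e_level_all A M hp hM haux hA hℓ hℓN hζ hW hbI hu hfix c₀ hc₀ hne Q

end Fermat.Agent.P7
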