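import Fermat.Agent.P7.H60RedClass

/-!
# Wave 7 (S40), block (A) T-ABEL, leaf T-ABEL-CLASS (helper60)

`M` a good level (`ℓ ∤ M`, `auxLevel ℓ ∣ M`), `A` a valuation subring of `ℚ̄` over `ℓ`,
`k = h13sK A`, `F~ = h13sFt A M` the function field of the special fibre.

* `h60aRed … : Place ℚ̄ (FF M) → Place k F~` : THE reduction map of places;
  `h60a_isRed`, `h60a_red_unique` (any `r` with `H13sIsRed A M r` is equal to it).
* `h60aIso … : JZero M ⧸ redKerPic M A ≃+ Pic0 k F~` (the canonical one),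
  `h60aQ x` the class of `x : JZero M` in the quotient.
* `H60aDiv A M n y` : `y ≠ 0` in `F~` and `n ∣ ord_Q y` at every place `Q` of `F~`.
* `h60aDivN … n y` : the divisor `(1/n) div y` of the special fibre (degree `0`);
  `h60aClsSF … n y` its class in `Pic0 k F~`;
* **`h60aCls … n y : JZero M ⧸ redKerPic M A`** : the class `c(y)` of T-ABEL-CLASS.
  - `h60a_cls_spec` : `c(y)` is the class of ANY divisor `D` of degree `0` of the generic fibre
    with `n · r_* D = div y` (well defined);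
  - `h60a_cls_of_unit` : if `f` is a Gauss unit with `div f = n D + R`, `R ∈ redKer M A`,
    then `c(f~) = [D]`;
  - `h60a_cls_mul`, `h60a_cls_inv`, `h60a_cls_pow`, `h60a_cls_const`, `h60a_nsmul_cls`;
  - `h60a_cls_eq_zero_iff` : `c(y) = 0 ↔ ∃ g, y = g ^ n` (`k` is algebraically closed, so
    `k^× F~^{×n} = F~^{×n}`).
-/

set_option autoImplicit false
set_option linter.unusedSectionVars false
set_option linter.unusedVariables false
set_option linter.style.longLine false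
set_option linter.style.haveILetI false

open AlgebraicCurve ModularCurve

noncomputable section

namespace Fermat.Agent.P7

open Fermat.Agent.S37 Fermat.Agent.Red.GV Fermat.Agent.P5

variable {M : ℕ} [NeZero M] {A : ValuationSubring Kbar} {ℓ : ℕ}

/-! ### Uniqueness of the reduction map -/

open scoped Classical in
/-- the value of a push-forward. -/
theorem h60a_mapDomain_apply {α β : Type*} (f : α → β) (x : α →₀ ℤ) (b : β) :
    Finsupp.mapDomain f x b = ∑ a ∈ x.support, if f a = b then x a else 0 := by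
  rw [Finsupp.mapDomain, Finsupp.sum, Finsupp.finsetSum_apply]
  refine Finset.sum_congr rfl (fun a _ => ?_)
  rw [Finsupp.single_apply]

/-- two places with the same order function are equal. -/
theorem h60a_place_eq_of_ord {K F : Type*} [Field K] [Field F] [Algebra K F]
    {Q Q' : Place K F} (h : ∀ y : F, y ≠ 0 → Q.ord y = Q'.ord y) : Q = Q' := by
  apply Place.ext
  ext y
  rcases eq_or_ne y 0 with rfl | hy
  · exact ⟨fun _ => zero_mem _, fun _ => zero_mem _⟩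
  · rw [← Fermat.Agent.S24.DiffPlace.ord_nonneg_iff_mem, ← Fermat.Agent.S24.DiffPlace.ord_nonneg_iff_mem,
      h y hy]

/-- **the reduction map of places is unique.** -/
theorem h60a_red_eq (hℓ : ℓ.Prime) (hM : ¬ ℓ ∣ M) (hA : A.LiesOverPrime ℓ)
    {r r' : Place Kbar (FF M) → Place (h13sK A) (h13sFt A M)}
    (hr : H13sIsRed A M r) (hr' : H13sIsRed A M r') : r = r' := by
  funext v
  apply h60a_place_eq_of_ord
  intro y hy
  obtain ⟨f, hf, hfi, hfy⟩ := h40f_exists_unit A M hℓ hM hA y hy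
  have hf0 : f ≠ 0 := by
    rintro rfl
    apply hy
    rw [← hfy]
    exact map_zero (h60qRed A M)
  obtain ⟨D, hD, -⟩ := (h40r_base_FF (N := M)).pd f hf0
  have h1 := hr.2.2 f hf hfi D hD (r v)
  have h2 := hr'.2.2 f hf hfi D hD (r' v)
  rw [hfy] at h1 h2
  rw [← h1, ← h2]
  unfold h13sPush
  rw [h60a_mapDomain_apply, h60a_mapDomain_apply]
  refine Finset.sum_congr rfl (fun w _ => ?_)
  have e : r w = r v ↔ r' w = r' v := by rw [hr.2.1 w v, hr'.2.1 w v]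
  by_cases hw : r w = r v
  · rw [if_pos hw, if_pos (e.1 hw)]
  · rw [if_neg hw, if_neg (fun h => hw (e.2 h))]

/-! ### The canonical reduction -/

/-- THE reduction map of places at a good level. -/
def h60aRed (hℓ : ℓ.Prime) (hM : ¬ ℓ ∣ M) (haux : auxLevel ℓ ∣ M)
    (hA : A.LiesOverPrime ℓ) : Place Kbar (FF M) → Place (h13sK A) (h13sFt A M) :=
  Classical.choose (h60q_redDiv ℓ hℓ M hM haux A hA)

theorem h60a_isRed (hℓ : ℓ.Prime) (hM : ¬ ℓ ∣ M) (haux : auxLevel ℓ ∣ M)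
    (hA : A.LiesOverPrime ℓ) : H13sIsRed A M (h60aRed hℓ hM haux hA) :=
  Classical.choose_spec (h60q_redDiv ℓ hℓ M hM haux A hA)

theorem h60a_red_unique (hℓ : ℓ.Prime) (hM : ¬ ℓ ∣ M) (haux : auxLevel ℓ ∣ M)
    (hA : A.LiesOverPrime ℓ) {r : Place Kbar (FF M) → Place (h13sK A) (h13sFt A M)}
    (hr : H13sIsRed A M r) : r = h60aRed hℓ hM haux hA :=
  h60a_red_eq hℓ hM hA hr (h60a_isRed hℓ hM haux hA)

/-- the canonical isomorphism `J₀(M) / (kernel of reduction) ≃ Pic⁰(F~ / k)`. -/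
def h60aIso (hℓ : ℓ.Prime) (hM : ¬ ℓ ∣ M) (haux : auxLevel ℓ ∣ M)
    (hA : A.LiesOverPrime ℓ) : (JZero M ⧸ redKerPic M A) ≃+ Pic0 (h13sK A) (h13sFt A M) :=
  h60rIso hℓ hM haux hA (h60a_isRed hℓ hM haux hA)

/-- the class of `x : J₀(M)` modulo the kernel of reduction. -/
def h60aQ (A : ValuationSubring Kbar) (x : JZero M) : JZero M ⧸ redKerPic M A :=
  QuotientAddGroup.mk x

theorem h60a_Q_add (x y : JZero M) : h60aQ A (x + y) = h60aQ A x + h60aQ A y := rfl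

theorem h60a_Q_eq_zero_iff (x : JZero M) : h60aQ A x = 0 ↔ x ∈ redKerPic M A :=
  QuotientAddGroup.eq_zero_iff x

theorem h60a_Q_surjective : Function.Surjective (h60aQ (M := M) A) :=
  QuotientAddGroup.mk_surjective

theorem h60a_iso_Q (hℓ : ℓ.Prime) (hM : ¬ ℓ ∣ M) (haux : auxLevel ℓ ∣ M)
    (hA : A.LiesOverPrime ℓ) (D : Divisor.degZero (K := Kbar) (F := FF M)) :
    h60aIso hℓ hM haux hA (h60aQ A (Pic0.mk D)) =
      Pic0.mk (h60rPushZero hℓ hM haux hA (h60aRed hℓ hM haux hA) D) := rfl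

/-! ### The divisor `(1/n) div y` -/

/-- `y ≠ 0` and `n ∣ ord_Q y` at every place `Q` of the special fibre. -/
def H60aDiv (A : ValuationSubring Kbar) (M : ℕ) (n : ℕ) (y : h13sFt A M) : Prop :=
  y ≠ 0 ∧ ∀ Q : Place (h13sK A) (h13sFt A M), (n : ℤ) ∣ Q.ord y

theorem h60a_div_mul {n : ℕ} {y y' : h13sFt A M} (hy : H60aDiv A M n y)
    (hy' : H60aDiv A M n y') : H60aDiv A M n (y * y') :=
  ⟨mul_ne_zero hy.1 hy'.1, fun Q => by
    rw [Q.ord_mul hy.1 hy'.1]
    exact dvd_add (hy.2 Q) (hy'.2 Q)⟩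

theorem h60a_div_inv {n : ℕ} {y : h13sFt A M} (hy : H60aDiv A M n y) :
    H60aDiv A M n y⁻¹ :=
  ⟨inv_ne_zero hy.1, fun Q => by
    rw [Q.ord_inv]
    exact (dvd_neg).2 (hy.2 Q)⟩

theorem h60a_div_pow (n : ℕ) {g : h13sFt A M} (hg : g ≠ 0) : H60aDiv A M n (g ^ n) :=
  ⟨pow_ne_zero n hg, fun Q => by
    rw [Fermat.Agent.Jac.K1.ord_pow]
    exact dvd_mul_right _ _⟩

theorem h60a_div_const (n : ℕ) {c : h13sK A} (hc : c ≠ 0) :
    H60aDiv A M n (algebraMap (h13sK A) (h13sFt A M) c) :=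
  ⟨by rwa [Ne, map_eq_zero_iff _ (algebraMap (h13sK A) (h13sFt A M)).injective], fun Q => by
    rw [Fermat.Agent.S24.DiffPlace.ord_algebraMap]
    exact dvd_zero _⟩

/-- existence of `(1/n) div y`. -/
theorem h60a_exists_divN (hbase : H13rBase (h13sK A) (h13sFt A M)) {n : ℕ} (hn : 0 < n)
    {y : h13sFt A M} (hy : H60aDiv A M n y) :
    ∃ E : Divisor.degZero (K := h13sK A) (F := h13sFt A M),
      ∀ Q : Place (h13sK A) (h13sFt A M),
        (n : ℤ) * (E : Divisor (h13sK A) (h13sFt A M)) Q = Q.ord y := by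
  obtain ⟨D, hD, hdeg⟩ := hbase.pd y hy.1
  let E : Divisor (h13sK A) (h13sFt A M) :=
    D.mapRange (fun a : ℤ => a / (n : ℤ)) (Int.zero_ediv _)
  have hE : ∀ Q : Place (h13sK A) (h13sFt A M), (n : ℤ) * E Q = Q.ord y := by
    intro Q
    show (n : ℤ) * (D Q / (n : ℤ)) = Q.ord y
    rw [hD Q]
    exact Int.mul_ediv_cancel' (hy.2 Q)
  have hnE : (n : ℤ) • E = D := by
    ext Q
    rw [Finsupp.smul_apply, smul_eq_mul, hE, hD]
  have hdegE : Divisor.degree E = 0 := by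
    have h1 : (n : ℤ) • Divisor.degree E = 0 := by rw [← map_zsmul, hnE, hdeg]
    rcases smul_eq_zero.1 h1 with h | h
    · exact absurd h (Int.natCast_ne_zero.2 hn.ne')
    · exact h
  exact ⟨⟨E, Divisor.mem_degZero.2 hdegE⟩, hE⟩

/-- uniqueness of `(1/n) div y`. -/
theorem h60a_divN_unique {n : ℕ} (hn : 0 < n) {y : h13sFt A M}
    {E E' : Divisor.degZero (K := h13sK A) (F := h13sFt A M)}
    (hE : ∀ Q : Place (h13sK A) (h13sFt A M),
      (n : ℤ) * (E : Divisor (h13sK A) (h13sFt A M)) Q = Q.ord y)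
    (hE' : ∀ Q : Place (h13sK A) (h13sFt A M),
      (n : ℤ) * (E' : Divisor (h13sK A) (h13sFt A M)) Q = Q.ord y) : E = E' := by
  apply Subtype.ext
  ext Q
  exact mul_left_cancel₀ (Int.natCast_ne_zero.2 hn.ne') ((hE Q).trans (hE' Q).symm)

/-! ### The class of `(1/n) div y` -/

open scoped Classical in
/-- the divisor `(1/n) div y` of the special fibre (junk value `0`). -/
def h60aDivN (A : ValuationSubring Kbar) (M : ℕ) (n : ℕ) (y : h13sFt A M) :
    Divisor.degZero (K := h13sK A) (F := h13sFt A M) :=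
  if h : ∃ E : Divisor.degZero (K := h13sK A) (F := h13sFt A M),
      ∀ Q : Place (h13sK A) (h13sFt A M),
        (n : ℤ) * (E : Divisor (h13sK A) (h13sFt A M)) Q = Q.ord y
  then Classical.choose h else 0

theorem h60a_divN_spec' {n : ℕ} {y : h13sFt A M}
    (h : ∃ E : Divisor.degZero (K := h13sK A) (F := h13sFt A M),
      ∀ Q : Place (h13sK A) (h13sFt A M),
        (n : ℤ) * (E : Divisor (h13sK A) (h13sFt A M)) Q = Q.ord y)
    (Q : Place (h13sK A) (h13sFt A M)) :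
    (n : ℤ) * (h60aDivN A M n y : Divisor (h13sK A) (h13sFt A M)) Q = Q.ord y := by
  unfold h60aDivN
  rw [dif_pos h]
  exact Classical.choose_spec h Q

/-- `(1/n) div y` is the unique divisor `E` with `n E = div y`. -/
theorem h60a_divN_eq {n : ℕ} (hn : 0 < n) {y : h13sFt A M}
    {E : Divisor.degZero (K := h13sK A) (F := h13sFt A M)}
    (hE : ∀ Q : Place (h13sK A) (h13sFt A M),
      (n : ℤ) * (E : Divisor (h13sK A) (h13sFt A M)) Q = Q.ord y) :
    h60aDivN A M n y = E :=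
  h60a_divN_unique hn (h60a_divN_spec' ⟨E, hE⟩) hE

theorem h60a_divN_spec (hℓ : ℓ.Prime) (hM : ¬ ℓ ∣ M) (haux : auxLevel ℓ ∣ M)
    (hA : A.LiesOverPrime ℓ) {n : ℕ} (hn : 0 < n) {y : h13sFt A M} (hy : H60aDiv A M n y)
    (Q : Place (h13sK A) (h13sFt A M)) :
    (n : ℤ) * (h60aDivN A M n y : Divisor (h13sK A) (h13sFt A M)) Q = Q.ord y :=
  h60a_divN_spec' (h60a_exists_divN (h26s_base ℓ hℓ M hM haux A hA) hn hy) Q

/-- the class of `(1/n) div y` in `Pic⁰` of the special fibre. -/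
def h60aClsSF (A : ValuationSubring Kbar) (M : ℕ) (n : ℕ) (y : h13sFt A M) :
    Pic0 (h13sK A) (h13sFt A M) :=
  Pic0.mk (h60aDivN A M n y)

/-- **the class `c(y)` of T-ABEL-CLASS**, in `J₀(M) / (kernel of reduction)`. -/
def h60aCls (hℓ : ℓ.Prime) (hM : ¬ ℓ ∣ M) (haux : auxLevel ℓ ∣ M)
    (hA : A.LiesOverPrime ℓ) (n : ℕ) (y : h13sFt A M) : JZero M ⧸ redKerPic M A :=
  (h60aIso hℓ hM haux hA).symm (h60aClsSF A M n y)

theorem h60a_iso_cls (hℓ : ℓ.Prime) (hM : ¬ ℓ ∣ M) (haux : auxLevel ℓ ∣ M)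
    (hA : A.LiesOverPrime ℓ) (n : ℕ) (y : h13sFt A M) :
    h60aIso hℓ hM haux hA (h60aCls hℓ hM haux hA n y) = h60aClsSF A M n y :=
  (h60aIso hℓ hM haux hA).apply_symm_apply _

theorem h60a_cls_eq_zero_iff_sf (hℓ : ℓ.Prime) (hM : ¬ ℓ ∣ M) (haux : auxLevel ℓ ∣ M)
    (hA : A.LiesOverPrime ℓ) (n : ℕ) (y : h13sFt A M) :
    h60aCls hℓ hM haux hA n y = 0 ↔ h60aClsSF A M n y = 0 := by
  constructor
  · intro h
    have h1 := h60a_iso_cls hℓ hM haux hA n y
    rw [h, map_zero] at h1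
    exact h1.symm
  · intro h
    unfold h60aCls
    rw [h, map_zero]

/-- **WELL DEFINED**: `c(y)` is the class of any divisor `D` of degree `0` of the generic
fibre with `n · r_* D = div y`. -/
theorem h60a_cls_spec (hℓ : ℓ.Prime) (hM : ¬ ℓ ∣ M) (haux : auxLevel ℓ ∣ M)
    (hA : A.LiesOverPrime ℓ) {n : ℕ} (hn : 0 < n) {y : h13sFt A M}
    {r : Place Kbar (FF M) → Place (h13sK A) (h13sFt A M)} (hr : H13sIsRed A M r)
    (D : Divisor.degZero (K := Kbar) (F := FF M))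
    (hD : ∀ Q : Place (h13sK A) (h13sFt A M),
      (n : ℤ) * h13sPush r (D : Divisor Kbar (FF M)) Q = Q.ord y) :
    h60aCls hℓ hM haux hA n y = h60aQ A (Pic0.mk D) := by
  obtain rfl := h60a_red_unique hℓ hM haux hA hr
  unfold h60aCls
  rw [AddEquiv.symm_apply_eq, h60a_iso_Q]
  unfold h60aClsSF
  congr 1
  exact h60a_divN_eq hn hD

/-- **the class of the reduction of a Gauss unit** `f` with `div f = n D + R`,
`R ∈ redKer M A`: `c(f~) = [D]`. -/
theorem h60a_cls_of_unit (hℓ : ℓ.Prime) (hM : ¬ ℓ ∣ M) (haux : auxLevel ℓ ∣ M)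
    (hA : A.LiesOverPrime ℓ) {n : ℕ} (hn : 0 < n) {f : FF M} (hf : f ∈ gaussV A M)
    (hfi : f⁻¹ ∈ gaussV A M) (D : Divisor.degZero (K := Kbar) (F := FF M))
    (R : Divisor Kbar (FF M)) (hR : R ∈ redKer M A)
    (hdiv : ∀ v : Place Kbar (FF M),
      v.ord f = (n : ℤ) * (D : Divisor Kbar (FF M)) v + R v) :
    h60aCls hℓ hM haux hA n (h13sRed A M ⟨f, hf⟩) = h60aQ A (Pic0.mk D) := by
  have hr := h60a_isRed hℓ hM haux hA
  refine h60a_cls_spec hℓ hM haux hA hn hr D (fun Q => ?_)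
  have h1 : ∀ v : Place Kbar (FF M),
      ((n : ℤ) • (D : Divisor Kbar (FF M)) + R) v = v.ord f := by
    intro v
    rw [Finsupp.add_apply, Finsupp.smul_apply, smul_eq_mul]
    exact (hdiv v).symm
  have h2 := h60r_push_div_unit hr hf hfi h1 Q
  rw [map_add, map_zsmul, h60r_push_eq_zero_of_mem hr hR, add_zero, Finsupp.smul_apply,
    smul_eq_mul] at h2
  exact h2

/-- **the class of a Kummer function**: `x = [D]`, `div f = n D`, `f` scaled to a Gauss unit: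
`c(f~) = x mod (kernel of reduction)`. -/
theorem h60a_cls_kummer (hℓ : ℓ.Prime) (hM : ¬ ℓ ∣ M) (haux : auxLevel ℓ ∣ M)
    (hA : A.LiesOverPrime ℓ) {n : ℕ} (hn : 0 < n) {f : FF M} (hf : f ∈ gaussV A M)
    (hfi : f⁻¹ ∈ gaussV A M) (D : Divisor.degZero (K := Kbar) (F := FF M))
    (hdiv : ∀ v : Place Kbar (FF M), v.ord f = (n : ℤ) * (D : Divisor Kbar (FF M)) v) :
    h60aCls hℓ hM haux hA n (h13sRed A M ⟨f, hf⟩) = h60aQ A (Pic0.mk D) :=
  h60a_cls_of_unit hℓ hM haux hA hn hf hfi D 0 (redKer M A).zero_mem (fun v => by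
    rw [hdiv v, Finsupp.zero_apply, add_zero])

/-! ### Algebraic properties -/

section Props

/-- **ADDITIVE.** -/
theorem h60a_cls_mul (hℓ : ℓ.Prime) (hM : ¬ ℓ ∣ M) (haux : auxLevel ℓ ∣ M)
    (hA : A.LiesOverPrime ℓ) {n : ℕ} (hn : 0 < n) {y y' : h13sFt A M}
    (hy : H60aDiv A M n y) (hy' : H60aDiv A M n y') :
    h60aCls hℓ hM haux hA n (y * y') =
      h60aCls hℓ hM haux hA n y + h60aCls hℓ hM haux hA n y' := by
  have h1 : h60aDivN A M n (y * y') = h60aDivN A M n y + h60aDivN A M n y' := by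
    apply h60a_divN_eq hn
    intro Q
    rw [AddSubgroup.coe_add, Finsupp.add_apply, mul_add,
      h60a_divN_spec hℓ hM haux hA hn hy, h60a_divN_spec hℓ hM haux hA hn hy',
      Q.ord_mul hy.1 hy'.1]
  unfold h60aCls h60aClsSF
  rw [h1, Pic0.mk_add, map_add]

theorem h60a_cls_one (hℓ : ℓ.Prime) (hM : ¬ ℓ ∣ M) (haux : auxLevel ℓ ∣ M)
    (hA : A.LiesOverPrime ℓ) {n : ℕ} (hn : 0 < n) :
    h60aCls hℓ hM haux hA n (1 : h13sFt A M) = 0 := by
  have h1 : h60aDivN A M n (1 : h13sFt A M) = 0 := by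
    apply h60a_divN_eq hn
    intro Q
    rw [AddSubgroup.coe_zero, Finsupp.zero_apply, mul_zero, Place.ord_one]
  unfold h60aCls h60aClsSF
  rw [h1, Pic0.mk_zero, map_zero]

theorem h60a_cls_inv (hℓ : ℓ.Prime) (hM : ¬ ℓ ∣ M) (haux : auxLevel ℓ ∣ M)
    (hA : A.LiesOverPrime ℓ) {n : ℕ} (hn : 0 < n) {y : h13sFt A M}
    (hy : H60aDiv A M n y) :
    h60aCls hℓ hM haux hA n y⁻¹ = -h60aCls hℓ hM haux hA n y := by
  have h1 := h60a_cls_mul hℓ hM haux hA hn hy (h60a_div_inv hy)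
  rw [mul_inv_cancel₀ hy.1, h60a_cls_one hℓ hM haux hA hn] at h1
  exact (neg_eq_of_add_eq_zero_right h1.symm).symm

/-- the class of a divisor of degree zero of the special fibre is `0` if the divisor is
principal. -/
theorem h60a_clsSF_eq_zero_iff (n : ℕ) (y : h13sFt A M) :
    h60aClsSF A M n y = 0 ↔
      ∃ g : h13sFt A M, g ≠ 0 ∧ ∀ Q : Place (h13sK A) (h13sFt A M),
        (h60aDivN A M n y : Divisor (h13sK A) (h13sFt A M)) Q = Q.ord g := by
  unfold h60aClsSF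
  rw [h60r_mk_eq_zero_iff]
  rfl

/-- **`c(y) = 0` iff `y` is an `n`-th power.** -/
theorem h60a_cls_eq_zero_iff (hℓ : ℓ.Prime) (hM : ¬ ℓ ∣ M) (haux : auxLevel ℓ ∣ M)
    (hA : A.LiesOverPrime ℓ) {n : ℕ} (hn : 0 < n) {y : h13sFt A M}
    (hy : H60aDiv A M n y) :
    h60aCls hℓ hM haux hA n y = 0 ↔ ∃ g : h13sFt A M, y = g ^ n := by
  have hbase := h26s_base ℓ hℓ M hM haux A hA
  rw [h60a_cls_eq_zero_iff_sf, h60a_clsSF_eq_zero_iff]
  constructor
  · rintro ⟨g, hg, hDg⟩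
    have hgn : g ^ n ≠ 0 := pow_ne_zero n hg
    have hord : ∀ Q : Place (h13sK A) (h13sFt A M), 0 ≤ Q.ord (y * (g ^ n)⁻¹) := by
      intro Q
      rw [Q.ord_mul hy.1 (inv_ne_zero hgn), Q.ord_inv, Fermat.Agent.Jac.K1.ord_pow,
        ← h60a_divN_spec hℓ hM haux hA hn hy Q, hDg Q, add_neg_cancel]
    obtain ⟨c, hc⟩ := hbase.const _ hord
    haveI : IsAlgClosed (h13sK A) := Fermat.Agent.S18.h72_residueField_isAlgClosed A
    obtain ⟨d, hd⟩ := IsAlgClosed.exists_pow_nat_eq c hn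
    refine ⟨algebraMap (h13sK A) (h13sFt A M) d * g, ?_⟩
    have h1 : y = algebraMap (h13sK A) (h13sFt A M) c * g ^ n := by
      rw [hc, mul_assoc, inv_mul_cancel₀ hgn, mul_one]
    rw [h1, mul_pow, ← map_pow, hd]
  · rintro ⟨g, rfl⟩
    have hg0 : g ≠ 0 := by
      rintro rfl
      apply hy.1
      rw [zero_pow hn.ne']
    refine ⟨g, hg0, fun Q => ?_⟩
    have h1 := h60a_divN_spec hℓ hM haux hA hn hy Q
    rw [Fermat.Agent.Jac.K1.ord_pow] at h1
    exact mul_left_cancel₀ (Int.natCast_ne_zero.2 hn.ne') h1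

/-- **`c(y) = 0` iff `y ∈ k^× F~^{×n}`.** -/
theorem h60a_cls_eq_zero_iff_const (hℓ : ℓ.Prime) (hM : ¬ ℓ ∣ M) (haux : auxLevel ℓ ∣ M)
    (hA : A.LiesOverPrime ℓ) {n : ℕ} (hn : 0 < n) {y : h13sFt A M}
    (hy : H60aDiv A M n y) :
    h60aCls hℓ hM haux hA n y = 0 ↔
      ∃ (c : h13sK A) (g : h13sFt A M), y = algebraMap (h13sK A) (h13sFt A M) c * g ^ n := by
  rw [h60a_cls_eq_zero_iff hℓ hM haux hA hn hy]
  constructor
  · rintro ⟨g, hg⟩
    exact ⟨1, g, by rw [map_one, one_mul, hg]⟩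
  · rintro ⟨c, g, hg⟩
    haveI : IsAlgClosed (h13sK A) := Fermat.Agent.S18.h72_residueField_isAlgClosed A
    obtain ⟨d, hd⟩ := IsAlgClosed.exists_pow_nat_eq c hn
    exact ⟨algebraMap (h13sK A) (h13sFt A M) d * g, by rw [hg, mul_pow, ← map_pow, hd]⟩

theorem h60a_cls_pow (hℓ : ℓ.Prime) (hM : ¬ ℓ ∣ M) (haux : auxLevel ℓ ∣ M)
    (hA : A.LiesOverPrime ℓ) {n : ℕ} (hn : 0 < n) {g : h13sFt A M} (hg : g ≠ 0) :
    h60aCls hℓ hM haux hA n (g ^ n) = 0 :=
  (h60a_cls_eq_zero_iff hℓ hM haux hA hn (h60a_div_pow n hg)).2 ⟨g, rfl⟩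

theorem h60a_cls_const (hℓ : ℓ.Prime) (hM : ¬ ℓ ∣ M) (haux : auxLevel ℓ ∣ M)
    (hA : A.LiesOverPrime ℓ) {n : ℕ} (hn : 0 < n) {c : h13sK A} (hc : c ≠ 0) :
    h60aCls hℓ hM haux hA n (algebraMap (h13sK A) (h13sFt A M) c) = 0 :=
  (h60a_cls_eq_zero_iff_const hℓ hM haux hA hn (h60a_div_const n hc)).2
    ⟨c, 1, by rw [one_pow, mul_one]⟩

/-- **`n · c(y) = 0`.** -/
theorem h60a_nsmul_cls (hℓ : ℓ.Prime) (hM : ¬ ℓ ∣ M) (haux : auxLevel ℓ ∣ M)
    (hA : A.LiesOverPrime ℓ) {n : ℕ} (hn : 0 < n) {y : h13sFt A M}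
    (hy : H60aDiv A M n y) : n • h60aCls hℓ hM haux hA n y = 0 := by
  have h1 : n • h60aClsSF A M n y = 0 := by
    unfold h60aClsSF
    have e : n • (Pic0.mk (h60aDivN A M n y) : Pic0 (h13sK A) (h13sFt A M)) =
        Pic0.mk (n • h60aDivN A M n y) := rfl
    rw [e, h60r_mk_eq_zero_iff]
    refine ⟨y, hy.1, fun Q => ?_⟩
    rw [AddSubgroup.coe_nsmul, Finsupp.smul_apply, nsmul_eq_mul]
    exact h60a_divN_spec hℓ hM haux hA hn hy Q
  unfold h60aCls
  rw [← map_nsmul, h1, map_zero]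

/-- **PRESENTATION**: every `y` with `n ∣ div y` is the reduction of a Gauss unit `f` with
`div f = n D + R`, `D` of degree `0`, `R` in the kernel of reduction; then `c(y) = [D]`. -/
theorem h60a_exists_pres (hℓ : ℓ.Prime) (hM : ¬ ℓ ∣ M) (haux : auxLevel ℓ ∣ M)
    (hA : A.LiesOverPrime ℓ) {n : ℕ} (hn : 0 < n) {y : h13sFt A M}
    (hy : H60aDiv A M n y) :
    ∃ (f : FF M) (hf : f ∈ gaussV A M), f⁻¹ ∈ gaussV A M ∧ f ≠ 0 ∧
      h13sRed A M ⟨f, hf⟩ = y ∧
      ∃ (D : Divisor.degZero (K := Kbar) (F := FF M)) (R : Divisor Kbar (FF M)),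
        R ∈ redKer M A ∧ Divisor.degree R = 0 ∧
        (∀ v : Place Kbar (FF M),
          v.ord f = (n : ℤ) * (D : Divisor Kbar (FF M)) v + R v) ∧
        h60aCls hℓ hM haux hA n y = h60aQ A (Pic0.mk D) := by
  have hr := h60a_isRed hℓ hM haux hA
  have hsp := h60r_deg_sf hℓ hM haux hA
  obtain ⟨f, hf, hfi, hfy⟩ := h40f_exists_unit A M hℓ hM hA y hy.1
  have hf0 : f ≠ 0 := by
    rintro rfl
    apply hy.1
    rw [← hfy]
    exact map_zero (h60qRed A M)
  obtain ⟨D₀, hD₀, hD₀deg⟩ := (h40r_base_FF (N := M)).pd f hf0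
  obtain ⟨s, hs⟩ := hr.1.hasRightInverse
  -- a lift of `(1/n) div y`
  let E := h60aDivN A M n y
  have hEdeg : Finsupp.mapDomain s (E : Divisor (h13sK A) (h13sFt A M)) ∈
      Divisor.degZero (K := Kbar) (F := FF M) := by
    rw [Divisor.mem_degZero, h60r_degree_section hsp]
    exact Divisor.mem_degZero.1 E.2
  let D : Divisor.degZero (K := Kbar) (F := FF M) := ⟨_, hEdeg⟩
  have hpushD : h60rPush (h60aRed hℓ hM haux hA) (D : Divisor Kbar (FF M)) =
      (E : Divisor (h13sK A) (h13sFt A M)) := h60r_push_section _ s hs _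
  have hpush : h60rPush (h60aRed hℓ hM haux hA)
      (D₀ - (n : ℤ) • (D : Divisor Kbar (FF M))) = 0 := by
    ext Q
    rw [map_sub, map_zsmul, hpushD, Finsupp.sub_apply, Finsupp.smul_apply, smul_eq_mul,
      h60r_push_div_unit hr hf hfi hD₀ Q, hfy, h60a_divN_spec hℓ hM haux hA hn hy Q, sub_self,
      Finsupp.zero_apply]
  have hR : D₀ - (n : ℤ) • (D : Divisor Kbar (FF M)) ∈ redKer M A :=
    h60r_mem_of_push_eq_zero hr hpush
  have hRdeg : Divisor.degree (D₀ - (n : ℤ) • (D : Divisor Kbar (FF M))) = 0 := by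
    rw [map_sub, map_zsmul, hD₀deg, Divisor.mem_degZero.1 D.2, smul_zero, sub_zero]
  have hdiv : ∀ v : Place Kbar (FF M),
      v.ord f = (n : ℤ) * (D : Divisor Kbar (FF M)) v +
        (D₀ - (n : ℤ) • (D : Divisor Kbar (FF M))) v := by
    intro v
    rw [Finsupp.sub_apply, Finsupp.smul_apply, smul_eq_mul, hD₀ v]
    ring
  refine ⟨f, hf, hfi, hf0, hfy, D, _, hR, hRdeg, hdiv, ?_⟩
  rw [← hfy]
  exact h60a_cls_of_unit hℓ hM haux hA hn hf hfi D _ hR hdiv

end Props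

end Fermat.Agent.P7
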