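import Fermat.Agent.S37.Defs
import Fermat.Prelude.Def_ModularCurve_HeckeModule
import Mathlib.Algebra.MvPolynomial.Supported

/-!
# Wave 7 (S40), block (T) TORIC, row T-ABEL-OCC (helper89): the wiring `c x = c (e x) = e (c x) = 0`

Abstract frame: `R = ℤ[X_ℓ]`, `X` and `J` two `R`-modules (`X = J₀(M p)`, `J = J₀(M)`),
`X₀ ≤ X` an additive subgroup stable under the `X_ℓ`, `ℓ ∈ S` (the classes with all slopes `0`),
`J¹ ≤ J` an additive subgroup (`redKerPic M A`), `c : X₀ →+ J ⧸ J¹` the class map.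

* `H89qStable S X₀` : `X₀` is stable under the `X_ℓ`, `ℓ ∈ S`.
* `H89qEquiv S X₀ J¹ c` : `c` is equivariant for the `X_ℓ`, `ℓ ∈ S`
  (`c x = [y] → c (X_ℓ x) = [X_ℓ y]`; this contains the stability of `J¹` on the image of `c`).
* `H89qKillsQuot n J¹ e` : **the frozen input (HKQ)** : `e` kills the `n`-torsion of the QUOTIENT
  `J ⧸ J¹` (`n y ∈ J¹ → e y ∈ J¹`).  This is NOT a consequence of `e = 0` on the torsion POINTS of
  `J` alone: it is the output of the KILL lemma (helper93) + FIN-RED.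
* `h89q_poly` : stability and equivariance for every polynomial in the `X_ℓ`, `ℓ ∈ S`.
* `h89q_occ_abs` : `x ∈ X₀`, `n x = 0`, `e x = x`, `e ∈ ℤ[X_ℓ : ℓ ∈ S]`, (HKQ) ⟹ `c x = 0`.
* `h89q_occ` : the same at `X = J₀(M p)`, `J = J₀(M)`, `J¹ = redKerPic M A`,
  `S = {ℓ ∤ M p}` (Hecke module structures of the Prelude).
-/

set_option autoImplicit false
set_option linter.unusedSectionVars false
set_option linter.style.haveILetI false

open AlgebraicCurve ModularCurve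

noncomputable section

namespace Fermat.Agent.P7

open Fermat.Agent.S37

section Abstract

variable {ι : Type*} {X J : Type*} [AddCommGroup X] [AddCommGroup J]
  [Module (MvPolynomial ι ℤ) X] [Module (MvPolynomial ι ℤ) J]

/-- `X₀` is stable under the operators `X_ℓ`, `ℓ ∈ S`. -/
def H89qStable (S : Set ι) (X₀ : AddSubgroup X) : Prop :=
  ∀ ℓ ∈ S, ∀ x ∈ X₀, (MvPolynomial.X ℓ : MvPolynomial ι ℤ) • x ∈ X₀

/-- the class map `c : X₀ → J ⧸ J¹` is equivariant for the operators `X_ℓ`, `ℓ ∈ S`. -/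
def H89qEquiv (S : Set ι) (X₀ : AddSubgroup X) (J1 : AddSubgroup J) (c : X₀ →+ J ⧸ J1) : Prop :=
  ∀ ℓ ∈ S, ∀ (x : X) (hx : x ∈ X₀) (hx' : (MvPolynomial.X ℓ : MvPolynomial ι ℤ) • x ∈ X₀)
    (y : J), c ⟨x, hx⟩ = QuotientAddGroup.mk y →
      c ⟨(MvPolynomial.X ℓ : MvPolynomial ι ℤ) • x, hx'⟩ =
        QuotientAddGroup.mk ((MvPolynomial.X ℓ : MvPolynomial ι ℤ) • y)

/-- **(HKQ), the frozen input of T-ABEL-OCC**: `e` kills the `n`-torsion of the quotient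
`J ⧸ J¹`. -/
def H89qKillsQuot (n : ℕ) (J1 : AddSubgroup J) (e : MvPolynomial ι ℤ) : Prop :=
  ∀ y : J, n • y ∈ J1 → e • y ∈ J1

theorem h89q_C_smul {Y : Type*} [AddCommGroup Y] [Module (MvPolynomial ι ℤ) Y] (r : ℤ) (y : Y) :
    (MvPolynomial.C r : MvPolynomial ι ℤ) • y = r • y := by
  have h : (MvPolynomial.C r : MvPolynomial ι ℤ) = r • (1 : MvPolynomial ι ℤ) := by
    rw [MvPolynomial.smul_eq_C_mul, mul_one]
  rw [h, smul_assoc, one_smul]

theorem h89q_algebraMap_smul {Y : Type*} [AddCommGroup Y] [Module (MvPolynomial ι ℤ) Y] (r : ℤ)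
    (y : Y) : (algebraMap ℤ (MvPolynomial ι ℤ) r) • y = r • y := by
  rw [MvPolynomial.algebraMap_eq, h89q_C_smul]

/-- stability and equivariance extend to every polynomial in the `X_ℓ`, `ℓ ∈ S`. -/
theorem h89q_poly {S : Set ι} {X₀ : AddSubgroup X} {J1 : AddSubgroup J} {c : X₀ →+ J ⧸ J1}
    (hst : H89qStable S X₀) (heq : H89qEquiv S X₀ J1 c)
    {P : MvPolynomial ι ℤ} (hP : P ∈ MvPolynomial.supported ℤ S) :
    ∀ (x : X) (hx : x ∈ X₀), ∃ hx' : P • x ∈ X₀, ∀ y : J,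
      c ⟨x, hx⟩ = QuotientAddGroup.mk y → c ⟨P • x, hx'⟩ = QuotientAddGroup.mk (P • y) := by
  rw [MvPolynomial.supported_eq_adjoin_X] at hP
  refine Algebra.adjoin_induction (p := fun P _ =>
    ∀ (x : X) (hx : x ∈ X₀), ∃ hx' : P • x ∈ X₀, ∀ y : J,
      c ⟨x, hx⟩ = QuotientAddGroup.mk y → c ⟨P • x, hx'⟩ = QuotientAddGroup.mk (P • y))
    ?_ ?_ ?_ ?_ hP
  · rintro _ ⟨ℓ, hℓ, rfl⟩ x hx
    exact ⟨hst ℓ hℓ x hx, fun y hy => heq ℓ hℓ x hx (hst ℓ hℓ x hx) y hy⟩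
  · intro r x hx
    have hmem : (algebraMap ℤ (MvPolynomial ι ℤ) r) • x ∈ X₀ := by
      rw [h89q_algebraMap_smul]
      exact X₀.zsmul_mem hx r
    refine ⟨hmem, fun y hy => ?_⟩
    have h2 : (⟨(algebraMap ℤ (MvPolynomial ι ℤ) r) • x, hmem⟩ : X₀) = r • ⟨x, hx⟩ := by
      apply Subtype.ext
      rw [AddSubgroup.coe_zsmul]
      exact h89q_algebraMap_smul r x
    rw [h2, map_zsmul, hy, h89q_algebraMap_smul r y]
    rfl
  · intro P Q _ _ hPi hQi x hx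
    obtain ⟨hP', hPc⟩ := hPi x hx
    obtain ⟨hQ', hQc⟩ := hQi x hx
    have hmem : (P + Q) • x ∈ X₀ := by
      rw [add_smul]
      exact X₀.add_mem hP' hQ'
    refine ⟨hmem, fun y hy => ?_⟩
    have h2 : (⟨(P + Q) • x, hmem⟩ : X₀) = ⟨P • x, hP'⟩ + ⟨Q • x, hQ'⟩ := by
      apply Subtype.ext
      rw [AddSubgroup.coe_add]
      exact add_smul P Q x
    rw [h2, map_add, hPc y hy, hQc y hy, add_smul]
    rfl
  · intro P Q _ _ hPi hQi x hx
    obtain ⟨hQ', hQc⟩ := hQi x hx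
    obtain ⟨hP', hPc⟩ := hPi (Q • x) hQ'
    have hmem : (P * Q) • x ∈ X₀ := by
      rw [mul_smul]
      exact hP'
    refine ⟨hmem, fun y hy => ?_⟩
    have h2 : (⟨(P * Q) • x, hmem⟩ : X₀) = ⟨P • Q • x, hP'⟩ := by
      apply Subtype.ext
      exact mul_smul P Q x
    rw [h2, hPc (Q • y) (hQc y hy), mul_smul]

/-- **T-ABEL-OCC, abstract form.**  `x ∈ X₀` with `n x = 0` and `e x = x` for a polynomial `e`
in the `X_ℓ`, `ℓ ∈ S`, killing the `n`-torsion of `J ⧸ J¹`: the class `c x` is zero. -/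
theorem h89q_occ_abs {S : Set ι} {X₀ : AddSubgroup X} {J1 : AddSubgroup J} {c : X₀ →+ J ⧸ J1}
    (hst : H89qStable S X₀) (heq : H89qEquiv S X₀ J1 c)
    {e : MvPolynomial ι ℤ} (he : e ∈ MvPolynomial.supported ℤ S)
    {n : ℕ} (hkill : H89qKillsQuot n J1 e)
    {x : X} (hx : x ∈ X₀) (hnx : n • x = 0) (hex : e • x = x) :
    c ⟨x, hx⟩ = 0 := by
  obtain ⟨y, hy⟩ := QuotientAddGroup.mk_surjective (s := J1) (c ⟨x, hx⟩)
  -- `n y ∈ J¹`
  have hny : n • y ∈ J1 := by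
    have h1 : n • (⟨x, hx⟩ : X₀) = 0 := by
      apply Subtype.ext
      rw [AddSubgroup.coe_nsmul]
      exact hnx
    have h2 : n • c ⟨x, hx⟩ = 0 := by rw [← map_nsmul, h1, map_zero]
    rw [← hy] at h2
    exact (QuotientAddGroup.eq_zero_iff (n • y)).mp h2
  obtain ⟨hx', hc⟩ := h89q_poly hst heq he x hx
  have h3 : (⟨e • x, hx'⟩ : X₀) = ⟨x, hx⟩ := Subtype.ext hex
  have h4 := hc y hy.symm
  rw [h3] at h4
  rw [h4]
  exact (QuotientAddGroup.eq_zero_iff (e • y)).mpr (hkill y hny)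

end Abstract

/-! ## The concrete form at `J₀(M p)` and `J₀(M)` -/

section Concrete

variable (M p : ℕ) [NeZero M] [NeZero p]

/-- the allowed Hecke primes: `ℓ ∤ M p`. -/
def h89qS : Set Nat.Primes := {ℓ | ¬ (ℓ : ℕ) ∣ M * p}

/-- **(HKQ) at level `M`**: the Hecke polynomial `e` kills the `p`-torsion of
`J₀(M) ⧸ redKerPic M A`. -/
def H89qKillsRed (A : ValuationSubring Kbar) (e : MvPolynomial Nat.Primes ℤ) : Prop :=
  letI := heckeModuleBar M
  ∀ y : JZero M, p • y ∈ redKerPic M A → e • y ∈ redKerPic M A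

/-- the class map `c : X₀ → J₀(M) ⧸ redKerPic M A` is Hecke-equivariant at the primes
`ℓ ∤ M p`. -/
def H89qClassEquiv (A : ValuationSubring Kbar) (X₀ : AddSubgroup (JZero (M * p)))
    (c : X₀ →+ JZero M ⧸ redKerPic M A) : Prop :=
  ∀ ℓ : Nat.Primes, ¬ (ℓ : ℕ) ∣ M * p →
    ∀ (x : JZero (M * p)) (hx : x ∈ X₀) (hx' : heckeOperatorBar (M * p) ℓ x ∈ X₀) (y : JZero M),
      c ⟨x, hx⟩ = QuotientAddGroup.mk y →
        c ⟨heckeOperatorBar (M * p) ℓ x, hx'⟩ = QuotientAddGroup.mk (heckeOperatorBar M ℓ y)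

/-- **T-ABEL-OCC, concrete form.**  `X₀ ≤ J₀(M p)` stable under the `T_ℓ`, `ℓ ∤ M p`,
`c : X₀ →+ J₀(M) ⧸ redKerPic M A` additive and Hecke-equivariant, `e` a Hecke polynomial in the
`T_ℓ`, `ℓ ∤ M p`, killing the `p`-torsion of `J₀(M) ⧸ redKerPic M A`; then `c x = 0` for every
`x ∈ X₀` with `p x = 0` and `e x = x`. -/
theorem h89q_occ (hcM : HeckeOperatorsCommuteBar M) (hcN : HeckeOperatorsCommuteBar (M * p))
    (A : ValuationSubring Kbar) (X₀ : AddSubgroup (JZero (M * p)))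
    (hst : ∀ ℓ : Nat.Primes, ¬ (ℓ : ℕ) ∣ M * p → ∀ x ∈ X₀, heckeOperatorBar (M * p) ℓ x ∈ X₀)
    (c : X₀ →+ JZero M ⧸ redKerPic M A) (heq : H89qClassEquiv M p A X₀ c)
    (e : MvPolynomial Nat.Primes ℤ) (he : ∀ ℓ ∈ e.vars, ¬ (ℓ : ℕ) ∣ M * p)
    (hkill : H89qKillsRed M p A e)
    (x : JZero (M * p)) (hx : x ∈ X₀) (hpx : p • x = 0)
    (hex : (letI := heckeModuleBar (M * p); e • x = x)) :
    c ⟨x, hx⟩ = 0 := by
  letI iN := heckeModuleBar (M * p)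
  letI iM := heckeModuleBar M
  have hXN : ∀ (ℓ : Nat.Primes) (z : JZero (M * p)),
      (MvPolynomial.X ℓ : MvPolynomial Nat.Primes ℤ) • z = heckeOperatorBar (M * p) ℓ z :=
    fun ℓ z => heckeModuleBar_heckeGen_smul hcN ℓ z
  have hXM : ∀ (ℓ : Nat.Primes) (z : JZero M),
      (MvPolynomial.X ℓ : MvPolynomial Nat.Primes ℤ) • z = heckeOperatorBar M ℓ z :=
    fun ℓ z => heckeModuleBar_heckeGen_smul hcM ℓ z
  have hst' : H89qStable (h89qS M p) X₀ := by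
    intro ℓ hℓ z hz
    rw [hXN]
    exact hst ℓ hℓ z hz
  have heq' : H89qEquiv (h89qS M p) X₀ (redKerPic M A) c := by
    intro ℓ hℓ z hz hz' y hy
    have hz'' : heckeOperatorBar (M * p) ℓ z ∈ X₀ := hst ℓ hℓ z hz
    have h1 := heq ℓ hℓ z hz hz'' y hy
    have h2 : (⟨(MvPolynomial.X ℓ : MvPolynomial Nat.Primes ℤ) • z, hz'⟩ : X₀) =
        ⟨heckeOperatorBar (M * p) ℓ z, hz''⟩ := Subtype.ext (hXN ℓ z)
    rw [h2, h1, hXM]
  have he' : e ∈ MvPolynomial.supported ℤ (h89qS M p) := by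
    rw [MvPolynomial.mem_supported]
    intro ℓ hℓ
    exact he ℓ (by simpa using hℓ)
  exact h89q_occ_abs hst' heq' he' (n := p) hkill hx hpx hex

end Concrete

end Fermat.Agent.P7
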