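import Fermat.Agent.P7.H60ClassInf
import Fermat.Agent.P7.H28RedEquiv
import Fermat.Agent.P7.H89Occp

/-!
# Wave 7 (S40), block (A) T-ABEL, leaf T-A4-CLASS: Hecke equivariance of the class map (helper60)

`p` a prime, `M` a good level (`p ∤ M`, `auxLevel p ∣ M`), `N = M p`, `A` over `p`,
`X₀ = h60bX0 … n ≤ J₀(M p)`, `c = h60bC … : X₀ →+ J₀(M) ⧸ redKerPic M A`
(`P7/H60ClassInf.lean`), `ℓ ∤ M p` a prime.

* `h60e_pres_hecke` : `(D, u)` a presentation of `x` ⟹ `(T_ℓ D, T_ℓ u)` is a presentation of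
  `T_ℓ x` (`T_ℓ u = h57rT u = Nm_α (β u)`, helper57).
* `h60e_red_T` : **cross-level**: if the reduction at `W_∞` of `u` (level `M p`) is the
  reduction of the Gauss-integral `f` of level `M`, then `red_∞ (T_ℓ u) = red (T_ℓ f)`.
* `h60e_cls_T` : at level `M`: `f` a Gauss unit with `div f = n D + R`, `R ∈ redKer`:
  `n ∣ div (red (T_ℓ f))` and `c(red (T_ℓ f)) = [T_ℓ D]`.
* `h60e_hecke_mem` : **`X₀` is stable under `T_ℓ`**.
* `h60e_C_hecke` : `c x = [y] ⟹ c (T_ℓ x) = [T_ℓ y]`.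
* `h60e_classEquiv : H89qClassEquiv M p A X₀ c` (the frozen shape of helper89,
  `P7/H89Occp.lean`), `h60e_stable`.
* `h60e_C_eq_zero`, `h60e_start_of_kill` : with (HKQ) `H89qKillsRed M p A e` and `e x = x`:
  `c x = 0`, hence START for every Kummer function of `x` (wiring of `h89q_occ`).
-/

set_option autoImplicit false
set_option linter.unusedSectionVars false
set_option linter.unusedVariables false
set_option linter.style.longLine false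
set_option linter.style.haveILetI false
set_option synthInstance.maxHeartbeats 400000

open AlgebraicCurve ModularCurve

noncomputable section

namespace Fermat.Agent.P7

open Fermat.Agent.S37 Fermat.Agent.Red.GV Fermat.Agent.Red.GV.Soft Fermat.Agent.P5
  Fermat.Agent.P6 Fermat.Agent.Red Fermat.Agent.LGC

variable {M : ℕ} [NeZero M] {A : ValuationSubring Kbar} {p : ℕ} [NeZero p]

/-! ### The Hecke norm preserves the Gauss valuation ring -/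

/-- `T_ℓ` preserves the Gauss valuation ring of any level (residue characteristic `p`). -/
theorem h60e_T_mem (hp : p.Prime) (hA : A.LiesOverPrime p) {N ℓ : ℕ} [NeZero N] [NeZero ℓ]
    (hℓ : ℓ.Prime) (hN : ¬ ℓ ∣ N) {u : FF N} (hu : u ∈ softV A N) (hu0 : u ≠ 0) :
    h57rT N ℓ u ∈ softV A N := by
  have h1 := h57r_T_inv_mem A N ℓ hp hA hℓ hN u⁻¹ (inv_ne_zero hu0) (by rwa [inv_inv])
  rwa [h57r_T_inv N ℓ u hu0, inv_inv] at h1

/-! ### Presentations -/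

/-- **the Hecke operator on presentations**. -/
theorem h60e_pres_hecke (hp : p.Prime) (hA : A.LiesOverPrime p) (ℓ : Nat.Primes)
    (hℓN : ¬ (ℓ : ℕ) ∣ M * p) {n : ℕ} {x : JZero (M * p)}
    {D : Divisor.degZero (K := Kbar) (F := FF (M * p))} {u : FF (M * p)}
    (h : H60bPres A M p n x D u) :
    ∃ D' : Divisor.degZero (K := Kbar) (F := FF (M * p)),
      H60bPres A M p n (heckeOperatorBar (M * p) ℓ x) D'
        (haveI : NeZero (ℓ : ℕ) := ⟨ℓ.2.ne_zero⟩; h57rT (M * p) (ℓ : ℕ) u) := by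
  haveI : NeZero (ℓ : ℕ) := ⟨ℓ.2.ne_zero⟩
  obtain ⟨hα, hβ, hPD, hfin, hFI, hNF⟩ := Fermat.Agent.Red.HKMod.heckeInputsAlong (M * p) (ℓ : ℕ)
  haveI := hPD
  have hT : ∀ y : JZero (M * p),
      heckeOperatorBar (M * p) ℓ y = heckePic0Bar hα hβ hFI hfin hNF y := by
    intro y
    rw [heckeOperatorBar_apply]
    exact congrArg (fun f => f y) (heckeOperatorAlong_eq hα hβ hFI hfin hNF)
  refine ⟨Pic0.degZeroCorrespondence (heckeBetaBar Kbar (M * p) (ℓ : ℕ))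
    (heckeAlphaBar Kbar (M * p) (ℓ : ℕ)) hβ hα hFI D, ?_, ?_, ?_, ?_, ?_⟩
  · rw [← h.cls, hT]
    rfl
  · intro v
    have h1 := h28r_div_T (M * p) (ℓ : ℕ) hα hβ hfin hNF u h.ne_zero
      ((n : ℤ) • (D : Divisor Kbar (FF (M * p))))
      (fun w => by rw [Finsupp.smul_apply, smul_eq_mul]; exact (h.div w).symm) v
    rw [← h1, map_zsmul, Finsupp.smul_apply, smul_eq_mul]
    rfl
  · exact h60e_T_mem hp hA ℓ.2 hℓN h.mem h.ne_zero
  · exact h57r_T_inv_mem A (M * p) (ℓ : ℕ) hp hA ℓ.2 hℓN u h.ne_zero h.inv_mem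
  · exact h57r_T_ne_zero (M * p) (ℓ : ℕ) u h.ne_zero

/-! ### The cross-level congruence -/

/-- **cross-level**: if the reduction at `W_∞` of `u` (level `M p`) is the reduction of the
Gauss-integral `f` of level `M`, then the reduction of `T_ℓ u` is the reduction of `T_ℓ f`. -/
theorem h60e_softR_T (hp : p.Prime) (hA : A.LiesOverPrime p) {ℓ : ℕ} [NeZero ℓ]
    (hℓ : ℓ.Prime) (hℓN : ¬ ℓ ∣ M * p) {u : FF (M * p)} (hu : u ∈ softV A (M * p))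
    (hu0 : u ≠ 0) {f : FF M} (hf : f ∈ softV A M) (hf0 : f ≠ 0)
    (e : softR A (M * p) ⟨u, hu⟩ = softR A M ⟨f, hf⟩) :
    softR A (M * p) ⟨h57rT (M * p) ℓ u, h60e_T_mem hp hA hℓ hℓN hu hu0⟩ =
      softR A M ⟨h57rT M ℓ f,
        h60e_T_mem hp hA hℓ (fun h => hℓN (Dvd.dvd.mul_right h p)) hf hf0⟩ := by
  have hℓM : ¬ ℓ ∣ M := fun h => hℓN (Dvd.dvd.mul_right h p)
  have hαf : heckeAlphaBar Kbar M p f ∈ softV A (M * p) := (alpha_mem_softV_iff A p f).mpr hf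
  have hαf0 : heckeAlphaBar Kbar M p f ≠ 0 := by
    intro h0
    exact hf0 ((map_eq_zero _).mp h0)
  have e1 : softR A (M * p) ⟨u, hu⟩ = softR A (M * p) ⟨heckeAlphaBar Kbar M p f, hαf⟩ := by
    rw [e]
    exact (softR_alpha A p ⟨f, hf⟩ hαf).symm
  have hTf : h57rT M ℓ f ∈ softV A M := h60e_T_mem hp hA hℓ hℓM hf hf0
  have hTαf : h57rT (M * p) ℓ (heckeAlphaBar Kbar M p f) ∈ softV A (M * p) :=
    h60e_T_mem hp hA hℓ hℓN hαf hαf0
  have e2 := h57r_T_red_congr A (M * p) ℓ hp hA hℓ hℓN u (heckeAlphaBar Kbar M p f) hu hαf e1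
    (h60e_T_mem hp hA hℓ hℓN hu hu0) hTαf
  rw [e2]
  have e3 : h57rT (M * p) ℓ (heckeAlphaBar Kbar M p f) =
      heckeAlphaBar Kbar M p (h57rT M ℓ f) := h57r_T_alpha M p ℓ hℓ hℓN f
  have hαTf : heckeAlphaBar Kbar M p (h57rT M ℓ f) ∈ softV A (M * p) :=
    (alpha_mem_softV_iff A p _).mpr hTf
  have e4 : softR A (M * p) ⟨h57rT (M * p) ℓ (heckeAlphaBar Kbar M p f), hTαf⟩ =
      softR A (M * p) ⟨heckeAlphaBar Kbar M p (h57rT M ℓ f), hαTf⟩ := by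
    congr 1
    exact Subtype.ext e3
  rw [e4]
  exact softR_alpha A p ⟨h57rT M ℓ f, hTf⟩ hαTf

/-- **cross-level, in the special fibre field**. -/
theorem h60e_red_T (hp : p.Prime) (hM : ¬ p ∣ M) (hA : A.LiesOverPrime p) {ℓ : ℕ} [NeZero ℓ]
    (hℓ : ℓ.Prime) (hℓN : ¬ ℓ ∣ M * p) {u : FF (M * p)} (hu : u ∈ softV A (M * p))
    (hu0 : u ≠ 0) {f : FF M} (hf : f ∈ gaussV A M) (hf0 : f ≠ 0)
    (e : h13sRed A M ⟨f, hf⟩ = h60bRedU hp hM hA u)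
    (hTf : h57rT M ℓ f ∈ gaussV A M) :
    h60bRedU hp hM hA (h57rT (M * p) ℓ u) = h13sRed A M ⟨h57rT M ℓ f, hTf⟩ := by
  have hfS : f ∈ softV A M := gaussV_le_softV A M hf
  have e0 : softR A (M * p) ⟨u, hu⟩ = softR A M ⟨f, hfS⟩ := by
    rw [← h60b_incl_redU hp hM hA hu, ← e, h13sIncl_red, softR_eq_gaussR A M f hfS hf]
  have h1 := h60e_softR_T hp hA hℓ hℓN hu hu0 hfS hf0 e0
  apply h60q_incl_injective A M
  rw [h60b_incl_redU hp hM hA (h60e_T_mem hp hA hℓ hℓN hu hu0), h13sIncl_red, h1]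
  exact softR_eq_gaussR A M _ _ hTf

/-! ### Level `M` -/

/-- the divisor of the reduction of a Gauss unit `f` with `div f = n D + R`, `R ∈ redKer`, is
divisible by `n`. -/
theorem h60e_div_of_unit (hp : p.Prime) (hM : ¬ p ∣ M) (haux : auxLevel p ∣ M)
    (hA : A.LiesOverPrime p) {n : ℕ} {f : FF M} (hf : f ∈ gaussV A M)
    (hfi : f⁻¹ ∈ gaussV A M) (hf0 : f ≠ 0) (D : Divisor Kbar (FF M))
    (R : Divisor Kbar (FF M)) (hR : R ∈ redKer M A)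
    (hdiv : ∀ v : Place Kbar (FF M), v.ord f = (n : ℤ) * D v + R v) :
    H60aDiv A M n (h13sRed A M ⟨f, hf⟩) := by
  have hr := h60a_isRed hp hM haux hA
  refine ⟨h60q_red_ne_zero hf hfi hf0, fun Q => ?_⟩
  have h1 : ∀ v : Place Kbar (FF M), ((n : ℤ) • D + R) v = v.ord f := by
    intro v
    rw [Finsupp.add_apply, Finsupp.smul_apply, smul_eq_mul]
    exact (hdiv v).symm
  have h2 := h60r_push_div_unit hr hf hfi h1 Q
  rw [map_add, map_zsmul, h60r_push_eq_zero_of_mem hr hR, add_zero, Finsupp.smul_apply,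
    smul_eq_mul] at h2
  exact ⟨_, h2.symm⟩

/-- **level `M`**: `f` a Gauss unit with `div f = n D + R`, `R ∈ redKer M A`: then `T_ℓ f` is a
Gauss unit, `n ∣ div (red (T_ℓ f))` and `c(red (T_ℓ f)) = [T_ℓ D]`. -/
theorem h60e_cls_T (hp : p.Prime) (hM : ¬ p ∣ M) (haux : auxLevel p ∣ M)
    (hA : A.LiesOverPrime p) (ℓ : Nat.Primes) (hℓM : ¬ (ℓ : ℕ) ∣ M) {n : ℕ} (hn : 0 < n)
    {f : FF M} (hf : f ∈ gaussV A M) (hfi : f⁻¹ ∈ gaussV A M) (hf0 : f ≠ 0)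
    (D : Divisor.degZero (K := Kbar) (F := FF M)) (R : Divisor Kbar (FF M))
    (hR : R ∈ redKer M A)
    (hdiv : ∀ v : Place Kbar (FF M),
      v.ord f = (n : ℤ) * (D : Divisor Kbar (FF M)) v + R v) :
    haveI : NeZero (ℓ : ℕ) := ⟨ℓ.2.ne_zero⟩
    ∃ hT : h57rT M (ℓ : ℕ) f ∈ gaussV A M,
      H60aDiv A M n (h13sRed A M ⟨h57rT M (ℓ : ℕ) f, hT⟩) ∧
      h60aCls hp hM haux hA n (h13sRed A M ⟨h57rT M (ℓ : ℕ) f, hT⟩) =
        h60aQ A (heckeOperatorBar M ℓ (Pic0.mk D)) := by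
  haveI : NeZero (ℓ : ℕ) := ⟨ℓ.2.ne_zero⟩
  obtain ⟨hα, hβ, hPD, hfin, hFI, hNF⟩ := Fermat.Agent.Red.HKMod.heckeInputsAlong M (ℓ : ℕ)
  haveI := hPD
  have hT : ∀ y : JZero M, heckeOperatorBar M ℓ y = heckePic0Bar hα hβ hFI hfin hNF y := by
    intro y
    rw [heckeOperatorBar_apply]
    exact congrArg (fun f => f y) (heckeOperatorAlong_eq hα hβ hFI hfin hNF)
  obtain ⟨hTf, hTfi⟩ := h28r_T_unit A M (ℓ : ℕ) hp hM hA ℓ.2 hℓM f hf0 ⟨hf, hfi⟩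
  have hTf0 : h57rT M (ℓ : ℕ) f ≠ 0 := h57r_T_ne_zero M (ℓ : ℕ) f hf0
  -- the divisor of `T_ℓ f`
  have hdivT : ∀ v : Place Kbar (FF M), v.ord (h57rT M (ℓ : ℕ) f) =
      (n : ℤ) * (heckeDivBar hα hβ (D : Divisor Kbar (FF M))) v + (heckeDivBar hα hβ R) v := by
    intro v
    have h1 := h28r_div_T M (ℓ : ℕ) hα hβ hfin hNF f hf0
      ((n : ℤ) • (D : Divisor Kbar (FF M)) + R)
      (fun w => by
        rw [Finsupp.add_apply, Finsupp.smul_apply, smul_eq_mul]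
        exact (hdiv w).symm) v
    rw [← h1, map_add, map_zsmul, Finsupp.add_apply, Finsupp.smul_apply, smul_eq_mul]
  have hTR : heckeDivBar hα hβ R ∈ redKer M A :=
    h69w_heckeDivBar_mem hp hM ℓ.2 hℓM A hA hα hβ hR
  refine ⟨hTf, ?_, ?_⟩
  · exact h60e_div_of_unit hp hM haux hA hTf hTfi hTf0 _ _ hTR hdivT
  · have h2 := h60a_cls_of_unit hp hM haux hA hn hTf hTfi
      (Pic0.degZeroCorrespondence (heckeBetaBar Kbar M (ℓ : ℕ))
        (heckeAlphaBar Kbar M (ℓ : ℕ)) hβ hα hFI D) _ hTR hdivT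
    rw [h2, hT]
    rfl

/-! ### Stability and equivariance -/

/-- the data of `T_ℓ x` for `x ∈ X₀`. -/
theorem h60e_hecke_data (hp : p.Prime) (hM : ¬ p ∣ M) (haux : auxLevel p ∣ M)
    (hA : A.LiesOverPrime p) (ℓ : Nat.Primes) (hℓN : ¬ (ℓ : ℕ) ∣ M * p) {n : ℕ} (hn : 0 < n)
    {x : JZero (M * p)} (hx : x ∈ h60bX0 hp hM hA n) :
    ∃ (hx' : heckeOperatorBar (M * p) ℓ x ∈ h60bX0 hp hM hA n) (z : JZero M),
      h60bC hp hM haux hA hn ⟨x, hx⟩ = h60aQ A z ∧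
      h60bC hp hM haux hA hn ⟨heckeOperatorBar (M * p) ℓ x, hx'⟩ =
        h60aQ A (heckeOperatorBar M ℓ z) := by
  haveI : NeZero (ℓ : ℕ) := ⟨ℓ.2.ne_zero⟩
  have hℓM : ¬ (ℓ : ℕ) ∣ M := fun h => hℓN (Dvd.dvd.mul_right h p)
  obtain ⟨u, ⟨D, h⟩, hd⟩ := hx
  have hx0 : x ∈ h60bX0 hp hM hA n := ⟨u, ⟨D, h⟩, hd⟩
  obtain ⟨f, hf, hfi, hf0, hfy, DM, R, hR, -, hdiv, hcls⟩ :=
    h60a_exists_pres hp hM haux hA hn hd
  obtain ⟨D', h'⟩ := h60e_pres_hecke hp hA ℓ hℓN h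
  obtain ⟨hTf, hTd, hTc⟩ := h60e_cls_T hp hM haux hA ℓ hℓM hn hf hfi hf0 DM R hR hdiv
  have e := h60e_red_T hp hM hA ℓ.2 hℓN h.mem h.ne_zero hf hf0 hfy hTf
  have hx' : heckeOperatorBar (M * p) ℓ x ∈ h60bX0 hp hM hA n := by
    refine ⟨h57rT (M * p) (ℓ : ℕ) u, ⟨D', h'⟩, ?_⟩
    rw [e]
    exact hTd
  refine ⟨hx', Pic0.mk DM, ?_, ?_⟩
  · rw [h60b_C_spec hp hM haux hA hn hx0 h]
    exact hcls
  · rw [h60b_C_spec hp hM haux hA hn hx' h', e]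
    exact hTc

/-- **`X₀` is stable under `T_ℓ`**, `ℓ ∤ M p`. -/
theorem h60e_hecke_mem (hp : p.Prime) (hM : ¬ p ∣ M) (haux : auxLevel p ∣ M)
    (hA : A.LiesOverPrime p) (ℓ : Nat.Primes) (hℓN : ¬ (ℓ : ℕ) ∣ M * p) {n : ℕ} (hn : 0 < n)
    {x : JZero (M * p)} (hx : x ∈ h60bX0 hp hM hA n) :
    heckeOperatorBar (M * p) ℓ x ∈ h60bX0 hp hM hA n :=
  (h60e_hecke_data hp hM haux hA ℓ hℓN hn hx).1

/-- **the class map is Hecke-equivariant**: `c x = [y] ⟹ c (T_ℓ x) = [T_ℓ y]`. -/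
theorem h60e_C_hecke (hp : p.Prime) (hM : ¬ p ∣ M) (haux : auxLevel p ∣ M)
    (hA : A.LiesOverPrime p) (ℓ : Nat.Primes) (hℓN : ¬ (ℓ : ℕ) ∣ M * p) {n : ℕ} (hn : 0 < n)
    {x : JZero (M * p)} (hx : x ∈ h60bX0 hp hM hA n)
    (hx' : heckeOperatorBar (M * p) ℓ x ∈ h60bX0 hp hM hA n) (y : JZero M)
    (hy : h60bC hp hM haux hA hn ⟨x, hx⟩ = QuotientAddGroup.mk y) :
    h60bC hp hM haux hA hn ⟨heckeOperatorBar (M * p) ℓ x, hx'⟩ =
      QuotientAddGroup.mk (heckeOperatorBar M ℓ y) := by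
  have hℓM : ¬ (ℓ : ℕ) ∣ M := fun h => hℓN (Dvd.dvd.mul_right h p)
  obtain ⟨hx'', z, hz, hTz⟩ := h60e_hecke_data hp hM haux hA ℓ hℓN hn hx
  rw [hTz]
  have h1 : (QuotientAddGroup.mk y : JZero M ⧸ redKerPic M A) = QuotientAddGroup.mk z := by
    rw [← hy, hz]
    rfl
  have h2 : y - z ∈ redKerPic M A := by
    rw [← QuotientAddGroup.eq_zero_iff, QuotientAddGroup.mk_sub, h1, sub_self]
  have h3 := h69w_heckeOperatorBar_mem hp M hM ℓ hℓM A hA h2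
  rw [map_sub] at h3
  have h4 : (QuotientAddGroup.mk (heckeOperatorBar M ℓ y - heckeOperatorBar M ℓ z) :
      JZero M ⧸ redKerPic M A) = 0 := (QuotientAddGroup.eq_zero_iff _).mpr h3
  rw [QuotientAddGroup.mk_sub, sub_eq_zero] at h4
  exact h4.symm

/-- **T-A4-CLASS, Hecke part** (the frozen shape `H89qClassEquiv` of helper89). -/
theorem h60e_classEquiv (hp : p.Prime) (hM : ¬ p ∣ M) (haux : auxLevel p ∣ M)
    (hA : A.LiesOverPrime p) {n : ℕ} (hn : 0 < n) :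
    H89qClassEquiv M p A (h60bX0 hp hM hA n) (h60bC hp hM haux hA hn) :=
  fun ℓ hℓN x hx hx' y hy => h60e_C_hecke hp hM haux hA ℓ hℓN hn hx hx' y hy

/-- the stability hypothesis of `h89q_occ`. -/
theorem h60e_stable (hp : p.Prime) (hM : ¬ p ∣ M) (haux : auxLevel p ∣ M)
    (hA : A.LiesOverPrime p) {n : ℕ} (hn : 0 < n) :
    ∀ ℓ : Nat.Primes, ¬ (ℓ : ℕ) ∣ M * p → ∀ x ∈ h60bX0 (M := M) hp hM hA n,
      heckeOperatorBar (M * p) ℓ x ∈ h60bX0 hp hM hA n :=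
  fun ℓ hℓN x hx => h60e_hecke_mem hp hM haux hA ℓ hℓN hn hx

/-! ### The conclusion of (A) at the good level, from (HKQ) -/

/-- **(A) from (HKQ)**: `e` a Hecke polynomial in the `T_ℓ`, `ℓ ∤ M p`, killing the
`p`-torsion of `J₀(M) ⧸ redKerPic M A`; `x ∈ X₀` with `e x = x`: then `c x = 0`. -/
theorem h60e_C_eq_zero (hp : p.Prime) (hM : ¬ p ∣ M) (haux : auxLevel p ∣ M)
    (hA : A.LiesOverPrime p) (e : MvPolynomial Nat.Primes ℤ)
    (he : ∀ ℓ ∈ e.vars, ¬ (ℓ : ℕ) ∣ M * p) (hkill : H89qKillsRed M p A e)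
    {x : JZero (M * p)} (hx : x ∈ h60bX0 hp hM hA p)
    (hex : (letI := heckeModuleBar (M * p); e • x = x)) :
    h60bC hp hM haux hA hp.pos ⟨x, hx⟩ = 0 :=
  h89q_occ M p (Fermat.Agent.Red.HKComm.heckeOperatorsCommuteBar M)
    (Fermat.Agent.Red.HKComm.heckeOperatorsCommuteBar (M * p)) A (h60bX0 hp hM hA p)
    (h60e_stable hp hM haux hA hp.pos) (h60bC hp hM haux hA hp.pos)
    (h60e_classEquiv hp hM haux hA hp.pos) e he hkill x hx
    (h60b_nsmul_of_mem hp hM hA hx) hex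

/-- **(A) ⟹ START**: under (HKQ), every Kummer function `u` of a class `x ∈ X₀` with `e x = x`
is a `p`-th power modulo `𝔪_A` at `W_∞`. -/
theorem h60e_start_of_kill (hp : p.Prime) (hM : ¬ p ∣ M) (haux : auxLevel p ∣ M)
    (hA : A.LiesOverPrime p) (e : MvPolynomial Nat.Primes ℤ)
    (he : ∀ ℓ ∈ e.vars, ¬ (ℓ : ℕ) ∣ M * p) (hkill : H89qKillsRed M p A e)
    {x : JZero (M * p)} (hx : x ∈ h60bX0 hp hM hA p)
    (hex : (letI := heckeModuleBar (M * p); e • x = x))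
    {D : Divisor.degZero (K := Kbar) (F := FF (M * p))} {u : FF (M * p)}
    (h : H60bPres A M p p x D u) :
    ∃ c ∈ A.nonunits, h94iDeep A M p p u c :=
  h60b_start hp hM haux hA hp.pos hx (h60e_C_eq_zero hp hM haux hA e he hkill hx hex) h

end Fermat.Agent.P7
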