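import Fermat.Agent.P7.H26IntIface
import Fermat.Agent.Red.GV.Asm1
import Fermat.Agent.S05.RealOrd
import Fermat.Agent.Bridge.Dict

/-!
# Wave 7, DLOG at the level `M`, leaf DL4-M-CONST: INT-ABS without CORE (helper60, prefix `h60m_`)

`A` a valuation subring of `ℚ̄`.  Every such `A` has rank `≤ 1`, hence is completely integrally
closed, and so is `A((q))` inside `ℚ̄((q))`:

* `h60m_rank_one` : `d ≠ 0`, `d c ^ m ∈ A` for all `m`  `⇒`  `c ∈ A`;
* `h60m_pow_mem_range` : `x` integral over `A((q))` of degree `N`, `d x ∈ A((q))`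
  `⇒`  `d ^ N x ^ m ∈ A((q))` for all `m`;
* `h60m_leading` : `x` integral over `A((q))`, `d x ∈ A((q))` for some `d ≠ 0` of `A((q))`
  `⇒`  the leading coefficient of `x` lies in `A`;
* `h60m_coeff_mem` : same hypotheses `⇒` every coefficient of `x` lies in `A`;
* `h60m_almost` : the same for an almost integral `x` (`d x ^ m ∈ A((q))` for all `m`);
* `h60m_intAbs : H26iIntAbs`, the frozen Prop of `P7/H26IntIface.lean`, proved directly (the
  denominator `Q(j)` only has to be nonzero; no root is peeled off, `H26iCore` is not used).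

Every declaration is a proved theorem; nothing is assumed.
-/

set_option autoImplicit false

open AlgebraicCurve ModularCurve

noncomputable section

namespace Fermat.Agent.P7

open Fermat.Agent.S37 Fermat.Agent.Red.GV Fermat.Agent.P5

/-- every element of `ℚ̄` is algebraic over `ℤ`. -/
theorem h60m_isAlgebraic_int (x : Kbar) : IsAlgebraic ℤ x :=
  Fermat.Agent.Bridge.qb_isAlgebraic_int x

/-- **rank one**: a valuation subring of `ℚ̄` is completely integrally closed. -/
theorem h60m_rank_one (A : ValuationSubring Kbar) {d c : Kbar} (hd0 : d ≠ 0)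
    (h : ∀ m : ℕ, d * c ^ m ∈ A) : c ∈ A := by
  by_cases hA : A = ⊤
  · rw [hA]; exact ValuationSubring.mem_top _
  by_contra hc
  obtain ⟨q, hq, hqA⟩ : ∃ q : ℕ, q.Prime ∧ (q : Kbar) ∈ A.nonunits := by
    by_contra hcon
    push Not at hcon
    exact hA (Fermat.Agent.Bridge.eq_top_of_no_prime A hcon)
  have hd : d ∈ A := by simpa using h 0
  have hc1 : 1 < A.valuation c := by
    rw [← not_le, A.valuation_le_one_iff]; exact hc
  have hcv0 : A.valuation c ≠ 0 := (lt_trans zero_lt_one hc1).ne'
  have hcinv : c⁻¹ ∈ A.nonunits := by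
    rw [A.mem_nonunits_iff, map_inv₀]
    exact inv_lt_one_of_one_lt₀ hc1
  obtain ⟨r, _, hr⟩ := Fermat.Agent.S05.RO.exists_val_pow_le hq hqA (h60m_isAlgebraic_int c⁻¹)
    hcinv
  obtain ⟨k, hk⟩ := Fermat.Agent.S05.RO.exists_pow_le_val hq hqA (h60m_isAlgebraic_int d) hd0 hd
  have h1 : (A.valuation c⁻¹) ^ (r * k) ≤ A.valuation d := by
    rw [pow_mul]
    exact (pow_le_pow_left₀ zero_le hr k).trans hk
  have h2 := h (r * k + 1)
  rw [← A.valuation_le_one_iff, map_mul, map_pow] at h2
  have h3 : A.valuation c ≤ 1 := by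
    calc A.valuation c
        = (A.valuation c⁻¹) ^ (r * k) * (A.valuation c) ^ (r * k + 1) := by
          rw [map_inv₀, inv_pow, pow_succ, ← mul_assoc,
            inv_mul_cancel₀ (pow_ne_zero _ hcv0), one_mul]
      _ ≤ A.valuation d * (A.valuation c) ^ (r * k + 1) := by
          gcongr
      _ ≤ 1 := h2
  exact absurd h3 (not_le.mpr hc1)

/-- the leading coefficient of a power. -/
theorem h60m_leadingCoeff_pow {R : Type*} [CommRing R] [IsDomain R] (x : LaurentSeries R)
    (m : ℕ) : (x ^ m).leadingCoeff = x.leadingCoeff ^ m := by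
  induction m with
  | zero => simp
  | succ m ih => rw [pow_succ, HahnSeries.leadingCoeff_mul, ih, pow_succ]

/-- the leading coefficient of a series with coefficients in `A` lies in `A`. -/
theorem h60m_leadingCoeff_embA {K : Type} [Field K] (A : ValuationSubring K)
    (w : LaurentSeries A) : (embA A w).leadingCoeff ∈ A := by
  rw [HahnSeries.leadingCoeff_eq, h36_embA_coeff]
  exact (w.coeff _).2

/-- **bounded denominators**: `x` integral over `A((q))` with `d x ∈ A((q))`: all the
`d ^ N x ^ m` lie in `A((q))`, `N` the degree of an integral equation. -/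
theorem h60m_pow_mem_range {K : Type} [Field K] (A : ValuationSubring K)
    (x : LaurentSeries K) (hint : (embA A).IsIntegralElem x) (d y : LaurentSeries A)
    (hy : embA A y = embA A d * x) :
    ∃ N : ℕ, ∀ m : ℕ, ∃ w : LaurentSeries A, embA A w = embA A d ^ N * x ^ m := by
  obtain ⟨P, hP, hPx⟩ := hint
  have hP1 : P ≠ 1 := by
    rintro rfl
    rw [Polynomial.eval₂_one] at hPx
    exact one_ne_zero hPx
  refine ⟨P.natDegree, fun m => ?_⟩
  set G : Polynomial (LaurentSeries A) := Polynomial.X ^ m %ₘ P with hG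
  have hGdeg : G.natDegree < P.natDegree := Polynomial.natDegree_modByMonic_lt _ hP hP1
  have hxm : x ^ m = ∑ i ∈ Finset.range P.natDegree, embA A (G.coeff i) * x ^ i := by
    rw [← Polynomial.eval₂_eq_sum_range' (embA A) hGdeg x, hG,
      Polynomial.eval₂_modByMonic_eq_self_of_root hPx, Polynomial.eval₂_pow,
      Polynomial.eval₂_X]
  refine ⟨∑ i ∈ Finset.range P.natDegree, G.coeff i * d ^ (P.natDegree - i) * y ^ i, ?_⟩
  rw [map_sum, hxm, Finset.mul_sum]
  refine Finset.sum_congr rfl fun i hi => ?_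
  have hi' : i < P.natDegree := Finset.mem_range.mp hi
  rw [map_mul, map_mul, map_pow, map_pow, hy, mul_pow]
  have : embA A d ^ P.natDegree = embA A d ^ (P.natDegree - i) * embA A d ^ i := by
    rw [← pow_add, Nat.sub_add_cancel hi'.le]
  rw [this]
  ring

/-- **almost integral elements, leading coefficient**. -/
theorem h60m_leading_almost (A : ValuationSubring Kbar) (x : LaurentSeries Kbar)
    (D : LaurentSeries A) (hD : D ≠ 0)
    (h : ∀ m : ℕ, ∃ w : LaurentSeries A, embA A w = embA A D * x ^ m) :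
    x.leadingCoeff ∈ A := by
  have hD' : embA A D ≠ 0 := fun h0 => hD (embA_injective A (by rw [h0, map_zero]))
  refine h60m_rank_one A (d := (embA A D).leadingCoeff)
    (HahnSeries.leadingCoeff_ne_zero.mpr hD') fun m => ?_
  obtain ⟨w, hw⟩ := h m
  rw [← h60m_leadingCoeff_pow, ← HahnSeries.leadingCoeff_mul, ← hw]
  exact h60m_leadingCoeff_embA A w

/-- **almost integral elements**: `D ≠ 0` in `A((q))` with `D x ^ m ∈ A((q))` for all `m`
`⇒` `x ∈ A((q))`. -/
theorem h60m_almost (A : ValuationSubring Kbar) (x : LaurentSeries Kbar)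
    (D : LaurentSeries A) (hD : D ≠ 0)
    (h : ∀ m : ℕ, ∃ w : LaurentSeries A, embA A w = embA A D * x ^ m) :
    ∀ n : ℤ, x.coeff n ∈ A := by
  by_contra hcon
  push Not at hcon
  -- the least index with a coefficient outside `A`
  obtain ⟨n₀, hn₀, hmin⟩ := Int.exists_least_of_bdd (P := fun n => x.coeff n ∉ A)
    ⟨x.order, fun z hz => HahnSeries.order_le_of_coeff_ne_zero
      (fun h0 => hz (by rw [h0]; exact A.zero_mem))⟩ hcon
  have hlow : ∀ i : ℤ, i < n₀ → x.coeff i ∈ A := by
    intro i hi
    by_contra hi'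
    exact absurd (hmin i hi') (not_le.mpr hi)
  -- the head of `x`
  obtain ⟨a, ha⟩ : ∃ a : LaurentSeries A, ∀ i : ℤ,
      (embA A a).coeff i = if i < n₀ then x.coeff i else 0 := by
    have hsupp : (Function.support fun i : ℤ => if i < n₀ then x.coeff i else 0).IsPWO := by
      refine x.isPWO_support.mono fun i hi => ?_
      simp only [Function.mem_support, ne_eq] at hi ⊢
      intro h0
      exact hi (by rw [h0, ite_self])
    obtain ⟨a, ha⟩ := (exists_embA_eq_iff A ⟨_, hsupp⟩).mpr (fun i => by
      show (if i < n₀ then x.coeff i else 0) ∈ A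
      split_ifs with hi
      · exact hlow i hi
      · exact A.zero_mem)
    exact ⟨a, fun i => by rw [ha]⟩
  set x' : LaurentSeries Kbar := x - embA A a with hx'
  have hx'lt : ∀ i : ℤ, i < n₀ → x'.coeff i = 0 := by
    intro i hi
    rw [hx', HahnSeries.coeff_sub, ha, if_pos hi, sub_self]
  have hx'n : x'.coeff n₀ = x.coeff n₀ := by
    rw [hx', HahnSeries.coeff_sub, ha, if_neg (lt_irrefl _), sub_zero]
  have hx'ne : x'.coeff n₀ ≠ 0 := by
    rw [hx'n]
    intro h0
    exact hn₀ (by rw [h0]; exact A.zero_mem)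
  have hord : x'.order = n₀ := by
    refine le_antisymm (HahnSeries.order_le_of_coeff_ne_zero hx'ne) ?_
    by_contra hlt
    have hx'0 : x' ≠ 0 := fun h0 => hx'ne (by rw [h0]; rfl)
    have h1 := hx'lt _ (not_le.mp hlt)
    rw [← HahnSeries.leadingCoeff_eq] at h1
    exact hx'0 (HahnSeries.leadingCoeff_eq_zero.mp h1)
  -- `x'` is almost integral with the same denominator
  have h' : ∀ m : ℕ, ∃ w : LaurentSeries A, embA A w = embA A D * x' ^ m := by
    intro m
    have hexp : x' ^ m = ∑ i ∈ Finset.range (m + 1),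
        x ^ i * (-(embA A a)) ^ (m - i) * (m.choose i : LaurentSeries Kbar) := by
      rw [hx', sub_eq_add_neg, add_pow]
    choose w hw using h
    refine ⟨∑ i ∈ Finset.range (m + 1), w i * (-a) ^ (m - i) * (m.choose i : LaurentSeries A), ?_⟩
    rw [map_sum, hexp, Finset.mul_sum]
    refine Finset.sum_congr rfl fun i _ => ?_
    rw [map_mul, map_mul, map_pow, map_neg, map_natCast, hw i]
    ring
  have hlead := h60m_leading_almost A x' D hD h'
  rw [HahnSeries.leadingCoeff_eq, hord, hx'n] at hlead
  exact hn₀ hlead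

/-- **INT-ABS, general form**: `x` integral over `A((q))` with `d x ∈ A((q))` for some nonzero
`d` of `A((q))` has coefficients in `A`. -/
theorem h60m_coeff_mem (A : ValuationSubring Kbar) (x : LaurentSeries Kbar)
    (hint : (embA A).IsIntegralElem x) (d : LaurentSeries A) (hd : d ≠ 0)
    (hdx : ∃ y : LaurentSeries A, embA A y = embA A d * x) :
    ∀ n : ℤ, x.coeff n ∈ A := by
  obtain ⟨y, hy⟩ := hdx
  obtain ⟨N, hN⟩ := h60m_pow_mem_range A x hint d y hy
  refine h60m_almost A x (d ^ N) (pow_ne_zero _ hd) fun m => ?_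
  obtain ⟨w, hw⟩ := hN m
  exact ⟨w, by rw [hw, map_pow]⟩

/-- the leading coefficient of an integral element with a denominator. -/
theorem h60m_leading (A : ValuationSubring Kbar) (x : LaurentSeries Kbar)
    (hint : (embA A).IsIntegralElem x) (d : LaurentSeries A) (hd : d ≠ 0)
    (hdx : ∃ y : LaurentSeries A, embA A y = embA A d * x) : x.leadingCoeff ∈ A := by
  rw [HahnSeries.leadingCoeff_eq]
  exact h60m_coeff_mem A x hint d hd hdx _

/-- **INT-ABS** (frozen Prop of `P7/H26IntIface.lean`): a Gauss-integral Laurent series which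
is integral over `A((q))` has coefficients in `A`. -/
theorem h60m_intAbs : H26iIntAbs := by
  intro A x hx hint
  obtain ⟨Q, hQ, y, hy⟩ := hx
  rw [exists_embA_eq_iff]
  refine h60m_coeff_mem A x hint (Fermat.Agent.S28.evalC (jqModC A) Q) ?_
    ⟨y, ?_⟩
  · intro h0
    have h1 := Asm.evalA_ne_zero A (IsLocalRing.residue A) Q hQ
    rw [← Asm.embA_evalC_j, h0, map_zero] at h1
    exact h1 rfl
  · rw [hy, Asm.embA_evalC_j]

end Fermat.Agent.P7
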