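import Fermat.Agent.P5.H60RedDivTop
import Fermat.Agent.P5.H26GenusFinal

/-!
# Wave 7 (S40), block (5d) RED-EQUIV, leaf RED-PIC (helper60)

`M` a good level (`ℓ ∤ M`, `auxLevel ℓ ∣ M`), `A` a valuation subring of `ℚ̄` over `ℓ`,
`k = h13sK A`, `F~ = h13sFt A M` the function field of the special fibre, `r` a reduction map
of places (`H13sIsRed A M r`; it exists: `h60q_redDiv`).

THE REDUCTION OF DIVISOR CLASSES.  UNCONDITIONAL (only landed inputs):

* `h60rPush r` : the push-forward of divisors along `r`, as a homomorphism;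
  `h60r_push_eq_zero_iff : r_* D = 0 ↔ D ∈ redKer M A`; `h60r_degree_push`;
  `h60r_push_principal` : `r_*` maps principal divisors to principal divisors
  (`r_* div f = div (c f)~`, `c f` a Gauss unit);
* `h60rRho … r hr : JZero M →+ Pic0 k F~` : the reduction of classes;
  `h60r_rho_mk`, `h60r_rho_surjective`, `h60r_rho_ker : ker = redKerPic M A`;
  `h60r_rho_eq_zero_iff`, `h60r_rho_eq_iff : ρ x = ρ y ↔ x - y ∈ redKerPic M A`;
* `h60rIso : JZero M ⧸ redKerPic M A ≃+ Pic0 k F~`;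
* `h60r_exists_rho` : the packaged existence statement (no `r` in the statement);
* KUMMER CRITERION `h60r_kummer` : for a degree-zero divisor `D` and `f ≠ 0` with
  `div f = n D`: `n • [D]` is `0`, and `[D] ∈ redKerPic M A` iff the reduction of a Gauss-unit
  multiple of `f` is an `n`-th power in `F~` (`n ≥ 1`).
-/

set_option autoImplicit false
set_option linter.unusedSectionVars false
set_option linter.unusedVariables false
set_option linter.style.longLine false
set_option linter.style.haveILetI false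

open AlgebraicCurve ModularCurve

noncomputable section

namespace Fermat.Agent.P7

open Fermat.Agent.S37 Fermat.Agent.Red.GV Fermat.Agent.P5

variable {M : ℕ} [NeZero M] {A : ValuationSubring Kbar} {ℓ : ℕ}

/-! ### The push-forward of divisors -/

/-- the push-forward of divisors along a map of places, as a homomorphism. -/
def h60rPush (r : Place Kbar (FF M) → Place (h13sK A) (h13sFt A M)) :
    Divisor Kbar (FF M) →+ Divisor (h13sK A) (h13sFt A M) :=
  Finsupp.mapDomain.addMonoidHom r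

theorem h60r_push_apply (r : Place Kbar (FF M) → Place (h13sK A) (h13sFt A M))
    (D : Divisor Kbar (FF M)) : h60rPush r D = h13sPush r D := rfl

theorem h60r_push_single (r : Place Kbar (FF M) → Place (h13sK A) (h13sFt A M))
    (v : Place Kbar (FF M)) (n : ℤ) :
    h60rPush r (Finsupp.single v n) = Finsupp.single (r v) n :=
  Finsupp.mapDomain_single

/-- the kernel of reduction is killed by the push-forward. -/
theorem h60r_push_eq_zero_of_mem {r : Place Kbar (FF M) → Place (h13sK A) (h13sFt A M)}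
    (hr : H13sIsRed A M r) {D : Divisor Kbar (FF M)} (hD : D ∈ redKer M A) :
    h60rPush r D = 0 := by
  have h : redKer M A ≤ (h60rPush r).ker := by
    unfold redKer
    rw [AddSubgroup.closure_le]
    rintro _ ⟨v, w, hvw, rfl⟩
    show h60rPush r _ = 0
    rw [map_sub, h60r_push_single, h60r_push_single, (hr.2.1 v w).2 hvw, sub_self]
  exact h hD

/-- `D - s_* r_* D` lies in the kernel of reduction, for every section `s` of `r`. -/
theorem h60r_sub_section_mem {r : Place Kbar (FF M) → Place (h13sK A) (h13sFt A M)}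
    (hr : H13sIsRed A M r) (s : Place (h13sK A) (h13sFt A M) → Place Kbar (FF M))
    (hs : ∀ Q, r (s Q) = Q) (D : Divisor Kbar (FF M)) :
    D - Finsupp.mapDomain s (h60rPush r D) ∈ redKer M A := by
  induction D using Finsupp.induction_linear with
  | zero =>
    rw [map_zero, Finsupp.mapDomain_zero, sub_zero]
    exact (redKer M A).zero_mem
  | add D E hD hE =>
    rw [map_add, Finsupp.mapDomain_add, add_sub_add_comm]
    exact (redKer M A).add_mem hD hE
  | single v n =>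
    rw [h60r_push_single, Finsupp.mapDomain_single]
    have e : (Finsupp.single v n - Finsupp.single (s (r v)) n : Divisor Kbar (FF M))
        = n • (Finsupp.single v (1 : ℤ) - Finsupp.single (s (r v)) (1 : ℤ)) := by
      rw [smul_sub, Finsupp.smul_single, Finsupp.smul_single, smul_eq_mul, mul_one]
    rw [e]
    exact (redKer M A).zsmul_mem
      (single_sub_single_mem_redKer ((hr.2.1 v (s (r v))).1 (hs (r v)).symm)) n

/-- a divisor with trivial push-forward lies in the kernel of reduction. -/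
theorem h60r_mem_of_push_eq_zero {r : Place Kbar (FF M) → Place (h13sK A) (h13sFt A M)}
    (hr : H13sIsRed A M r) {D : Divisor Kbar (FF M)} (hD : h60rPush r D = 0) :
    D ∈ redKer M A := by
  obtain ⟨s, hs⟩ := hr.1.hasRightInverse
  have h := h60r_sub_section_mem hr s hs D
  rwa [hD, Finsupp.mapDomain_zero, sub_zero] at h

/-- **the kernel of the push-forward is the kernel of reduction.** -/
theorem h60r_push_eq_zero_iff {r : Place Kbar (FF M) → Place (h13sK A) (h13sFt A M)}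
    (hr : H13sIsRed A M r) (D : Divisor Kbar (FF M)) :
    h60rPush r D = 0 ↔ D ∈ redKer M A :=
  ⟨h60r_mem_of_push_eq_zero hr, h60r_push_eq_zero_of_mem hr⟩

/-- the push-forward along a section. -/
theorem h60r_push_section (r : Place Kbar (FF M) → Place (h13sK A) (h13sFt A M))
    (s : Place (h13sK A) (h13sFt A M) → Place Kbar (FF M))
    (hs : ∀ Q, r (s Q) = Q) (E : Divisor (h13sK A) (h13sFt A M)) :
    h60rPush r (Finsupp.mapDomain s E) = E := by
  show Finsupp.mapDomain r (Finsupp.mapDomain s E) = E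
  rw [← Finsupp.mapDomain_comp]
  have h : r ∘ s = id := funext hs
  rw [h, Finsupp.mapDomain_id]

/-- the push-forward preserves the degree (all places have degree one). -/
theorem h60r_degree_push (hsp : ∀ Q : Place (h13sK A) (h13sFt A M), Q.deg = 1)
    (r : Place Kbar (FF M) → Place (h13sK A) (h13sFt A M)) (D : Divisor Kbar (FF M)) :
    Divisor.degree (h60rPush r D) = Divisor.degree D := by
  induction D using Finsupp.induction_linear with
  | zero => rw [map_zero, map_zero, map_zero]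
  | add D E hD hE => rw [map_add, map_add, map_add, hD, hE]
  | single v n =>
    rw [h60r_push_single, Divisor.degree_single, Divisor.degree_single,
      Fermat.Agent.Red.HKMod.place_deg_FF, hsp]

/-- the degree of the transport along a section. -/
theorem h60r_degree_section (hsp : ∀ Q : Place (h13sK A) (h13sFt A M), Q.deg = 1)
    (s : Place (h13sK A) (h13sFt A M) → Place Kbar (FF M))
    (E : Divisor (h13sK A) (h13sFt A M)) :
    Divisor.degree (Finsupp.mapDomain s E) = Divisor.degree E := by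
  induction E using Finsupp.induction_linear with
  | zero => rw [Finsupp.mapDomain_zero, map_zero, map_zero]
  | add D E hD hE => rw [Finsupp.mapDomain_add, map_add, map_add, hD, hE]
  | single v n =>
    rw [Finsupp.mapDomain_single, Divisor.degree_single, Divisor.degree_single,
      Fermat.Agent.Red.HKMod.place_deg_FF, hsp]

/-! ### Principal divisors -/

/-- the divisor of a function is the divisor of each of its constant multiples. -/
theorem h60r_div_cst_mul {D : Divisor Kbar (FF M)} {f : FF M}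
    (hD : ∀ v : Place Kbar (FF M), D v = v.ord f) {c : Kbar} (hc : c ≠ 0) :
    ∀ v : Place Kbar (FF M), D v = v.ord (cst M c * f) := by
  intro v
  rw [hD v]
  rcases eq_or_ne f 0 with rfl | hf
  · rw [mul_zero]
  · have hc' : cst M c ≠ 0 := by
      rwa [Ne, map_eq_zero_iff _ (algebraMap Kbar (FF M)).injective]
    rw [v.ord_mul hc' hf, Fermat.Agent.S24.DiffPlace.ord_algebraMap, zero_add]

/-- **the push-forward of the divisor of a Gauss unit is the divisor of its reduction**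
(`H13sIsRed`, third conjunct, in homomorphism form). -/
theorem h60r_push_div_unit {r : Place Kbar (FF M) → Place (h13sK A) (h13sFt A M)}
    (hr : H13sIsRed A M r) {f : FF M} (hf : f ∈ gaussV A M) (hfi : f⁻¹ ∈ gaussV A M)
    {D : Divisor Kbar (FF M)} (hD : ∀ v : Place Kbar (FF M), D v = v.ord f)
    (Q : Place (h13sK A) (h13sFt A M)) :
    h60rPush r D Q = Q.ord (h13sRed A M ⟨f, hf⟩) :=
  hr.2.2 f hf hfi D hD Q

/-- **the push-forward of a principal divisor is principal.** -/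
theorem h60r_push_principal (hℓ : ℓ.Prime) (hM : ¬ ℓ ∣ M) (hA : A.LiesOverPrime ℓ)
    {r : Place Kbar (FF M) → Place (h13sK A) (h13sFt A M)} (hr : H13sIsRed A M r)
    {D : Divisor Kbar (FF M)} (hD : D ∈ Divisor.principal (K := Kbar) (F := FF M)) :
    h60rPush r D ∈ Divisor.principal (K := h13sK A) (F := h13sFt A M) := by
  obtain ⟨f, hf, hDf⟩ := hD
  obtain ⟨c, hc, hu, hui⟩ := exists_cst_mul_unit A M hℓ hM hA f hf
  have hc' : cst M c ≠ 0 := by
    rwa [Ne, map_eq_zero_iff _ (algebraMap Kbar (FF M)).injective]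
  have hu0 : cst M c * f ≠ 0 := mul_ne_zero hc' hf
  exact ⟨h13sRed A M ⟨_, hu⟩, h60q_red_ne_zero hu hui hu0,
    fun Q => h60r_push_div_unit hr hu hui (h60r_div_cst_mul hDf hc) Q⟩

/-! ### The reduction of classes -/

section Rho

/-- every place of the special fibre has degree one. -/
theorem h60r_deg_sf (hℓ : ℓ.Prime) (hM : ¬ ℓ ∣ M) (haux : auxLevel ℓ ∣ M)
    (hA : A.LiesOverPrime ℓ) (Q : Place (h13sK A) (h13sFt A M)) : Q.deg = 1 :=
  (h26s_base ℓ hℓ M hM haux A hA).deg_one Q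

/-- the push-forward on the divisors of degree zero. -/
def h60rPushZero (hℓ : ℓ.Prime) (hM : ¬ ℓ ∣ M) (haux : auxLevel ℓ ∣ M)
    (hA : A.LiesOverPrime ℓ)
    (r : Place Kbar (FF M) → Place (h13sK A) (h13sFt A M)) :
    Divisor.degZero (K := Kbar) (F := FF M) →+
      Divisor.degZero (K := h13sK A) (F := h13sFt A M) :=
  ((h60rPush r).comp (Divisor.degZero (K := Kbar) (F := FF M)).subtype).codRestrict
    (Divisor.degZero (K := h13sK A) (F := h13sFt A M))
    (fun D => by
      show Divisor.degree (h60rPush r (D : Divisor Kbar (FF M))) = 0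
      rw [h60r_degree_push (h60r_deg_sf hℓ hM haux hA)]
      exact Divisor.mem_degZero.1 D.2)

theorem h60r_pushZero_coe (hℓ : ℓ.Prime) (hM : ¬ ℓ ∣ M) (haux : auxLevel ℓ ∣ M)
    (hA : A.LiesOverPrime ℓ)
    (r : Place Kbar (FF M) → Place (h13sK A) (h13sFt A M))
    (D : Divisor.degZero (K := Kbar) (F := FF M)) :
    ((h60rPushZero hℓ hM haux hA r D : Divisor.degZero (K := h13sK A) (F := h13sFt A M)) :
      Divisor (h13sK A) (h13sFt A M)) = h60rPush r (D : Divisor Kbar (FF M)) := rfl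

/-- **the reduction of divisor classes** `ρ : J₀(M) → Pic⁰(F~ / k)`. -/
def h60rRho (hℓ : ℓ.Prime) (hM : ¬ ℓ ∣ M) (haux : auxLevel ℓ ∣ M)
    (hA : A.LiesOverPrime ℓ)
    {r : Place Kbar (FF M) → Place (h13sK A) (h13sFt A M)} (hr : H13sIsRed A M r) :
    JZero M →+ Pic0 (h13sK A) (h13sFt A M) :=
  QuotientAddGroup.map _ _ (h60rPushZero hℓ hM haux hA r) (by
    intro D hD
    rw [AddSubgroup.mem_comap, AddSubgroup.mem_addSubgroupOf, h60r_pushZero_coe]
    exact h60r_push_principal hℓ hM hA hr (AddSubgroup.mem_addSubgroupOf.1 hD))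

theorem h60r_rho_mk (hℓ : ℓ.Prime) (hM : ¬ ℓ ∣ M) (haux : auxLevel ℓ ∣ M)
    (hA : A.LiesOverPrime ℓ)
    {r : Place Kbar (FF M) → Place (h13sK A) (h13sFt A M)}
    (hr : H13sIsRed A M r) (D : Divisor.degZero (K := Kbar) (F := FF M)) :
    h60rRho hℓ hM haux hA hr (Pic0.mk D) = Pic0.mk (h60rPushZero hℓ hM haux hA r D) := rfl

/-- the class of a degree-zero divisor of the special fibre is `0` iff it is principal. -/
theorem h60r_mk_eq_zero_iff (E : Divisor.degZero (K := h13sK A) (F := h13sFt A M)) :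
    Pic0.mk E = 0 ↔
      (E : Divisor (h13sK A) (h13sFt A M)) ∈
        Divisor.principal (K := h13sK A) (F := h13sFt A M) := by
  unfold Pic0.mk
  rw [QuotientAddGroup.eq_zero_iff, AddSubgroup.mem_addSubgroupOf]

/-- the class of a degree-zero divisor of the generic fibre is `0` iff it is principal. -/
theorem h60r_mk_eq_zero_iff_gen (E : Divisor.degZero (K := Kbar) (F := FF M)) :
    (Pic0.mk E : JZero M) = 0 ↔
      (E : Divisor Kbar (FF M)) ∈ Divisor.principal (K := Kbar) (F := FF M) := by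
  unfold Pic0.mk
  rw [QuotientAddGroup.eq_zero_iff, AddSubgroup.mem_addSubgroupOf]

/-- **the reduction of classes is surjective.** -/
theorem h60r_rho_surjective (hℓ : ℓ.Prime) (hM : ¬ ℓ ∣ M) (haux : auxLevel ℓ ∣ M)
    (hA : A.LiesOverPrime ℓ)
    {r : Place Kbar (FF M) → Place (h13sK A) (h13sFt A M)}
    (hr : H13sIsRed A M r) : Function.Surjective (h60rRho hℓ hM haux hA hr) := by
  intro y
  obtain ⟨E, rfl⟩ := Pic0.mk_surjective y
  obtain ⟨s, hs⟩ := hr.1.hasRightInverse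
  have hdeg : Finsupp.mapDomain s (E : Divisor (h13sK A) (h13sFt A M)) ∈
      Divisor.degZero (K := Kbar) (F := FF M) := by
    rw [Divisor.mem_degZero, h60r_degree_section (h60r_deg_sf hℓ hM haux hA)]
    exact Divisor.mem_degZero.1 E.2
  refine ⟨Pic0.mk ⟨_, hdeg⟩, ?_⟩
  rw [h60r_rho_mk]
  congr 1
  apply Subtype.ext
  rw [h60r_pushZero_coe]
  exact h60r_push_section r s hs E

/-- **the kernel of the reduction of classes is the kernel of reduction.** -/
theorem h60r_rho_eq_zero_iff (hℓ : ℓ.Prime) (hM : ¬ ℓ ∣ M) (haux : auxLevel ℓ ∣ M)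
    (hA : A.LiesOverPrime ℓ)
    {r : Place Kbar (FF M) → Place (h13sK A) (h13sFt A M)}
    (hr : H13sIsRed A M r) (x : JZero M) :
    h60rRho hℓ hM haux hA hr x = 0 ↔ x ∈ redKerPic M A := by
  constructor
  · intro hx
    obtain ⟨D, rfl⟩ := Pic0.mk_surjective x
    rw [h60r_rho_mk, h60r_mk_eq_zero_iff, h60r_pushZero_coe] at hx
    obtain ⟨y, hy, hDy⟩ := hx
    obtain ⟨f, hf, hfi, hfy⟩ := h40f_exists_unit A M hℓ hM hA y hy
    have hf0 : f ≠ 0 := by
      rintro rfl
      apply hy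
      rw [← hfy]
      exact map_zero (h60qRed A M)
    obtain ⟨E, hE, hEdeg⟩ := (h40r_base_FF (N := M)).pd f hf0
    have hpush : h60rPush r E = h60rPush r (D : Divisor Kbar (FF M)) := by
      ext Q
      rw [h60r_push_div_unit hr hf hfi hE Q, hfy]
      exact (hDy Q).symm
    have hmem : (D : Divisor Kbar (FF M)) - E ∈ redKer M A := by
      apply h60r_mem_of_push_eq_zero hr
      rw [map_sub, hpush, sub_self]
    have hEz : E ∈ Divisor.degZero (K := Kbar) (F := FF M) := Divisor.mem_degZero.2 hEdeg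
    refine ⟨D - ⟨E, hEz⟩, hmem, ?_⟩
    have h1 : (Pic0.mk (⟨E, hEz⟩ : Divisor.degZero (K := Kbar) (F := FF M)) : JZero M) = 0 :=
      (h60r_mk_eq_zero_iff_gen _).2 ⟨f, hf0, hE⟩
    have h2 : D = (D - ⟨E, hEz⟩) + ⟨E, hEz⟩ := (sub_add_cancel _ _).symm
    conv_lhs => rw [h2]
    rw [Pic0.mk_add, h1, add_zero]
  · rintro ⟨D, hD, rfl⟩
    rw [h60r_rho_mk]
    have h1 : h60rPushZero hℓ hM haux hA r D = 0 :=
      Subtype.ext (h60r_push_eq_zero_of_mem hr hD)
    rw [h1]
    rfl

theorem h60r_rho_ker (hℓ : ℓ.Prime) (hM : ¬ ℓ ∣ M) (haux : auxLevel ℓ ∣ M)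
    (hA : A.LiesOverPrime ℓ)
    {r : Place Kbar (FF M) → Place (h13sK A) (h13sFt A M)}
    (hr : H13sIsRed A M r) : (h60rRho hℓ hM haux hA hr).ker = redKerPic M A := by
  ext x
  rw [AddMonoidHom.mem_ker]
  exact h60r_rho_eq_zero_iff hℓ hM haux hA hr x

theorem h60r_rho_eq_iff (hℓ : ℓ.Prime) (hM : ¬ ℓ ∣ M) (haux : auxLevel ℓ ∣ M)
    (hA : A.LiesOverPrime ℓ)
    {r : Place Kbar (FF M) → Place (h13sK A) (h13sFt A M)}
    (hr : H13sIsRed A M r) (x y : JZero M) :
    h60rRho hℓ hM haux hA hr x = h60rRho hℓ hM haux hA hr y ↔ x - y ∈ redKerPic M A := by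
  rw [← h60r_rho_eq_zero_iff hℓ hM haux hA hr, map_sub, sub_eq_zero]

/-- **RED-PIC**: `J₀(M) / (kernel of reduction) ≃ Pic⁰` of the special fibre. -/
def h60rIso (hℓ : ℓ.Prime) (hM : ¬ ℓ ∣ M) (haux : auxLevel ℓ ∣ M)
    (hA : A.LiesOverPrime ℓ)
    {r : Place Kbar (FF M) → Place (h13sK A) (h13sFt A M)} (hr : H13sIsRed A M r) :
    (JZero M ⧸ redKerPic M A) ≃+ Pic0 (h13sK A) (h13sFt A M) :=
  (QuotientAddGroup.quotientAddEquivOfEq (h60r_rho_ker hℓ hM haux hA hr).symm).trans
    (QuotientAddGroup.quotientKerEquivOfSurjective _ (h60r_rho_surjective hℓ hM haux hA hr))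

theorem h60r_iso_mk (hℓ : ℓ.Prime) (hM : ¬ ℓ ∣ M) (haux : auxLevel ℓ ∣ M)
    (hA : A.LiesOverPrime ℓ)
    {r : Place Kbar (FF M) → Place (h13sK A) (h13sFt A M)}
    (hr : H13sIsRed A M r) (x : JZero M) :
    h60rIso hℓ hM haux hA hr (QuotientAddGroup.mk x) = h60rRho hℓ hM haux hA hr x := rfl

/-- **RED-PIC, packaged**: at a good level the quotient of `J₀(M)` by the kernel of reduction
is `Pic⁰` of the special fibre. -/
theorem h60r_exists_rho (hℓ : ℓ.Prime) (hM : ¬ ℓ ∣ M) (haux : auxLevel ℓ ∣ M)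
    (hA : A.LiesOverPrime ℓ) :
    ∃ ρ : JZero M →+ Pic0 (h13sK A) (h13sFt A M),
      Function.Surjective ρ ∧ ρ.ker = redKerPic M A ∧
      ∃ r : Place Kbar (FF M) → Place (h13sK A) (h13sFt A M), H13sIsRed A M r ∧
        ∀ D : Divisor.degZero (K := Kbar) (F := FF M),
          ∃ E : Divisor.degZero (K := h13sK A) (F := h13sFt A M),
            (E : Divisor (h13sK A) (h13sFt A M)) = h13sPush r (D : Divisor Kbar (FF M)) ∧
              ρ (Pic0.mk D) = Pic0.mk E := by
  obtain ⟨r, hr⟩ := h60q_redDiv ℓ hℓ M hM haux A hA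
  exact ⟨h60rRho hℓ hM haux hA hr, h60r_rho_surjective hℓ hM haux hA hr,
    h60r_rho_ker hℓ hM haux hA hr, r, hr,
    fun D => ⟨h60rPushZero hℓ hM haux hA r D, rfl, rfl⟩⟩

end Rho

/-! ### The Kummer criterion -/

section Kummer

/-- a Gauss-integral function with reduction `0` is `c s`, `c ∈ 𝔪_A` nonzero, `s` integral. -/
theorem h60r_ker_red (hℓ : ℓ.Prime) (hM : ¬ ℓ ∣ M) (hA : A.LiesOverPrime ℓ) {x : FF M}
    (hx : x ∈ gaussV A M) (h0 : h13sRed A M ⟨x, hx⟩ = 0) :
    ∃ c : Kbar, c ∈ A.nonunits ∧ c ≠ 0 ∧ ∃ s ∈ gaussV A M, x = cst M c * s := by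
  have h0' : gaussR A M ⟨x, hx⟩ = 0 := (h60q_red_eq_zero_iff _).1 h0
  by_cases hx0 : x = 0
  · refine ⟨(ℓ : Kbar), hA, ?_, 0, zero_mem _, ?_⟩
    · exact_mod_cast hℓ.ne_zero
    · rw [hx0, mul_zero]
  obtain ⟨c, hc0, hu, hui⟩ := exists_cst_mul_unit A M hℓ hM hA x hx0
  have hcc : cst M c⁻¹ * cst M c = 1 := by
    rw [← map_mul, inv_mul_cancel₀ hc0, map_one]
  have hxu : x = cst M c⁻¹ * (cst M c * x) := by
    rw [← mul_assoc, hcc, one_mul]
  have hcA : c ∉ A := by
    intro hcA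
    have h1 : cst M c ∈ gaussV A M := (cst_mem_gaussV_iff A M hA c).mpr hcA
    have h2 : x⁻¹ ∈ gaussV A M := by
      have e : x⁻¹ = cst M c * (cst M c * x)⁻¹ := by
        have hc' : cst M c ≠ 0 := by
          intro h0
          rw [h0, mul_zero] at hcc
          exact zero_ne_one hcc
        rw [mul_inv, ← mul_assoc, mul_inv_cancel₀ hc', one_mul]
      rw [e]
      exact mul_mem h1 hui
    rcases (gaussR_eq_zero_iff A M hℓ hM hA ⟨x, hx⟩).mp h0' with h | h
    · exact hx0 h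
    · exact h h2
  have hci : c⁻¹ ∈ A.nonunits := by
    rw [ValuationSubring.mem_nonunits_iff_or]
    right
    rwa [inv_inv]
  exact ⟨c⁻¹, hci, inv_ne_zero hc0, _, hu, hxu⟩

/-- the reduction of `1 + c s`, `c ∈ 𝔪_A`, is `1`; `1 + c s` is a Gauss unit. -/
theorem h60r_one_add (hℓ : ℓ.Prime) (hM : ¬ ℓ ∣ M) (hA : A.LiesOverPrime ℓ) {c : Kbar}
    (hc : c ∈ A.nonunits) {s : FF M} (hs : s ∈ gaussV A M) :
    ∃ h : 1 + cst M c * s ∈ gaussV A M, h13sRed A M ⟨_, h⟩ = 1 ∧
      (1 + cst M c * s)⁻¹ ∈ gaussV A M ∧ 1 + cst M c * s ≠ 0 := by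
  have hcA : c ∈ A := A.nonunits_le hc
  have hcV : cst M c ∈ gaussV A M := (cst_mem_gaussV_iff A M hA c).mpr hcA
  have hy : 1 + cst M c * s ∈ gaussV A M := add_mem (one_mem _) (mul_mem hcV hs)
  have hc0 : h60qRed A M ⟨cst M c, hcV⟩ = 0 := by
    by_cases hc00 : c = 0
    · have e : (⟨cst M c, hcV⟩ : gaussV A M) = 0 := Subtype.ext (by
        show cst M c = 0
        rw [hc00]
        exact map_zero _)
      rw [e, map_zero]
    rw [h60q_red_eq_zero_iff, gaussR_eq_zero_iff A M hℓ hM hA]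
    right
    intro hi
    have hi' : cst M c⁻¹ ∈ gaussV A M := by
      have e : cst M c⁻¹ = (cst M c)⁻¹ := map_inv₀ (algebraMap Kbar (FF M)) c
      rw [e]
      exact hi
    have h1 : c⁻¹ ∈ A := (cst_mem_gaussV_iff A M hA c⁻¹).mp hi'
    rw [ValuationSubring.mem_nonunits_iff_or] at hc
    rcases hc with hc | hc
    · exact hc00 hc
    · exact hc h1
  have hr : h60qRed A M ⟨_, hy⟩ = 1 := by
    have e : (⟨_, hy⟩ : gaussV A M) = 1 + ⟨_, hcV⟩ * ⟨s, hs⟩ := rfl
    rw [e, map_add, map_one, map_mul, hc0, zero_mul, add_zero]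
  have hne : gaussR A M ⟨_, hy⟩ ≠ 0 := by
    intro h
    have h1 := (h60q_red_eq_zero_iff (⟨_, hy⟩ : gaussV A M)).2 h
    rw [hr] at h1
    exact one_ne_zero h1
  have h2 := (not_iff_not.2 (gaussR_eq_zero_iff A M hℓ hM hA ⟨_, hy⟩)).1 hne
  rw [not_or, not_not] at h2
  exact ⟨hy, hr, h2.2, h2.1⟩

/-- **KUMMER CRITERION, unit form**: `D` of degree `0`, `f` a Gauss unit with `div f = n D`
(`n ≥ 1`): the class of `D` lies in the kernel of reduction iff the reduction of `f` is an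
`n`-th power in the function field of the special fibre. -/
theorem h60r_kummer_unit (hℓ : ℓ.Prime) (hM : ¬ ℓ ∣ M) (haux : auxLevel ℓ ∣ M)
    (hA : A.LiesOverPrime ℓ) {n : ℕ} (hn : 0 < n)
    (D : Divisor.degZero (K := Kbar) (F := FF M)) {f : FF M} (hf : f ∈ gaussV A M)
    (hfi : f⁻¹ ∈ gaussV A M) (hf0 : f ≠ 0)
    (hdiv : ∀ v : Place Kbar (FF M), (n : ℤ) * (D : Divisor Kbar (FF M)) v = v.ord f) :
    (Pic0.mk D : JZero M) ∈ redKerPic M A ↔ ∃ g : h13sFt A M, h13sRed A M ⟨f, hf⟩ = g ^ n := by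
  obtain ⟨r, hr⟩ := h60q_redDiv ℓ hℓ M hM haux A hA
  have hbase := h26s_base ℓ hℓ M hM haux A hA
  have hfbar : h13sRed A M ⟨f, hf⟩ ≠ 0 := h60q_red_ne_zero hf hfi hf0
  have hnD : ∀ Q : Place (h13sK A) (h13sFt A M),
      (n : ℤ) * h60rPush r (D : Divisor Kbar (FF M)) Q = Q.ord (h13sRed A M ⟨f, hf⟩) := by
    intro Q
    have h1 : ∀ v : Place Kbar (FF M),
        ((n : ℤ) • (D : Divisor Kbar (FF M))) v = v.ord f := by
      intro v
      rw [Finsupp.smul_apply, smul_eq_mul]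
      exact hdiv v
    have h2 := h60r_push_div_unit hr hf hfi h1 Q
    rw [map_zsmul, Finsupp.smul_apply, smul_eq_mul] at h2
    exact h2
  rw [← h60r_rho_eq_zero_iff hℓ hM haux hA hr, h60r_rho_mk, h60r_mk_eq_zero_iff,
    h60r_pushZero_coe]
  constructor
  · rintro ⟨g, hg, hDg⟩
    -- `f~ / g ^ n` has no zero and no pole
    have hgn : g ^ n ≠ 0 := pow_ne_zero n hg
    have hord : ∀ Q : Place (h13sK A) (h13sFt A M),
        0 ≤ Q.ord (h13sRed A M ⟨f, hf⟩ * (g ^ n)⁻¹) := by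
      intro Q
      rw [Q.ord_mul hfbar (inv_ne_zero hgn), Q.ord_inv, Fermat.Agent.Jac.K1.ord_pow, ← hnD Q,
        hDg Q, add_neg_cancel]
    obtain ⟨c, hc⟩ := hbase.const _ hord
    haveI : IsAlgClosed (h13sK A) := Fermat.Agent.S18.h72_residueField_isAlgClosed A
    obtain ⟨d, hd⟩ := IsAlgClosed.exists_pow_nat_eq c hn
    refine ⟨algebraMap (h13sK A) (h13sFt A M) d * g, ?_⟩
    have h1 : h13sRed A M ⟨f, hf⟩ = algebraMap (h13sK A) (h13sFt A M) c * g ^ n := by
      rw [hc, mul_assoc, inv_mul_cancel₀ hgn, mul_one]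
    rw [h1, mul_pow, ← map_pow, hd]
  · rintro ⟨g, hg⟩
    have hg0 : g ≠ 0 := by
      rintro rfl
      rw [zero_pow hn.ne'] at hg
      exact hfbar hg
    refine ⟨g, hg0, fun Q => ?_⟩
    have h1 := hnD Q
    rw [hg, Fermat.Agent.Jac.K1.ord_pow] at h1
    exact mul_left_cancel₀ (Int.natCast_ne_zero.2 hn.ne') h1

/-- the divisor of a nonzero function, as a divisor of degree zero. -/
theorem h60r_exists_div {h : FF M} (hh : h ≠ 0) :
    ∃ E : Divisor.degZero (K := Kbar) (F := FF M),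
      (∀ v : Place Kbar (FF M), (E : Divisor Kbar (FF M)) v = v.ord h) ∧
        (Pic0.mk E : JZero M) = 0 := by
  obtain ⟨E, hE, hEdeg⟩ := (h40r_base_FF (N := M)).pd h hh
  exact ⟨⟨E, Divisor.mem_degZero.2 hEdeg⟩, hE, (h60r_mk_eq_zero_iff_gen _).2 ⟨h, hh, hE⟩⟩

/-- **KUMMER CRITERION, congruence form**: `D` of degree `0`, `f ≠ 0` with `div f = n D`
(`n ≥ 1`): the class of `D` lies in the kernel of reduction iff `f = h ^ n (1 + c s)` with
`c ∈ 𝔪_A` and `s` Gauss-integral (`f` is an `n`-th power modulo `𝔪_A`). -/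
theorem h60r_kummer (hℓ : ℓ.Prime) (hM : ¬ ℓ ∣ M) (haux : auxLevel ℓ ∣ M)
    (hA : A.LiesOverPrime ℓ) {n : ℕ} (hn : 0 < n)
    (D : Divisor.degZero (K := Kbar) (F := FF M)) {f : FF M} (hf0 : f ≠ 0)
    (hdiv : ∀ v : Place Kbar (FF M), (n : ℤ) * (D : Divisor Kbar (FF M)) v = v.ord f) :
    (Pic0.mk D : JZero M) ∈ redKerPic M A ↔
      ∃ h : FF M, h ≠ 0 ∧ ∃ c : Kbar, c ∈ A.nonunits ∧ ∃ s ∈ gaussV A M,
        f = h ^ n * (1 + cst M c * s) := by
  constructor
  · intro hD
    obtain ⟨a, ha, hu, hui⟩ := exists_cst_mul_unit A M hℓ hM hA f hf0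
    have ha' : cst M a ≠ 0 := by
      rwa [Ne, map_eq_zero_iff _ (algebraMap Kbar (FF M)).injective]
    have hu0 : cst M a * f ≠ 0 := mul_ne_zero ha' hf0
    have hdiv' : ∀ v : Place Kbar (FF M),
        (n : ℤ) * (D : Divisor Kbar (FF M)) v = v.ord (cst M a * f) := by
      intro v
      rw [hdiv v, v.ord_mul ha' hf0, Fermat.Agent.S24.DiffPlace.ord_algebraMap, zero_add]
    obtain ⟨g, hg⟩ := (h60r_kummer_unit hℓ hM haux hA hn D hu hui hu0 hdiv').1 hD
    have hg0 : g ≠ 0 := by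
      rintro rfl
      rw [zero_pow hn.ne'] at hg
      exact h60q_red_ne_zero hu hui hu0 hg
    obtain ⟨h₁, hh₁, hh₁i, hh₁g⟩ := h40f_exists_unit A M hℓ hM hA g hg0
    have hh₁0 : h₁ ≠ 0 := by
      rintro rfl
      apply hg0
      rw [← hh₁g]
      exact map_zero (h60qRed A M)
    -- `w = a f / h₁ ^ n` reduces to `1`
    have hw : cst M a * f * (h₁⁻¹) ^ n ∈ gaussV A M := mul_mem hu (pow_mem hh₁i n)
    have hwr : h60qRed A M ⟨_, hw⟩ = 1 := by
      have e : (⟨_, hw⟩ : gaussV A M) = ⟨_, hu⟩ * ⟨_, hh₁i⟩ ^ n := rfl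
      rw [e, map_mul, map_pow, h60q_red_inv hh₁ hh₁i hh₁0]
      have e1 : h60qRed A M ⟨_, hu⟩ = g ^ n := hg
      have e2 : h60qRed A M ⟨h₁, hh₁⟩ = g := hh₁g
      rw [e1, e2, inv_pow, mul_inv_cancel₀ (pow_ne_zero n hg0)]
    have hw1 : cst M a * f * (h₁⁻¹) ^ n - 1 ∈ gaussV A M := sub_mem hw (one_mem _)
    have hw1r : h13sRed A M ⟨_, hw1⟩ = 0 := by
      have e : (⟨_, hw1⟩ : gaussV A M) = ⟨_, hw⟩ - 1 := rfl
      show h60qRed A M ⟨_, hw1⟩ = 0
      rw [e, map_sub, map_one, hwr, sub_self]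
    obtain ⟨c, hc, -, s, hs, hcs⟩ := h60r_ker_red hℓ hM hA hw1 hw1r
    obtain ⟨b, hb⟩ := IsAlgClosed.exists_pow_nat_eq a hn
    have hb0 : b ≠ 0 := by
      rintro rfl
      rw [zero_pow hn.ne'] at hb
      exact ha hb.symm
    have hb' : cst M b ≠ 0 := by
      rwa [Ne, map_eq_zero_iff _ (algebraMap Kbar (FF M)).injective]
    refine ⟨h₁ * (cst M b)⁻¹, mul_ne_zero hh₁0 (inv_ne_zero hb'), c, hc, s, hs, ?_⟩
    have e1 : cst M a * f * (h₁⁻¹) ^ n = 1 + cst M c * s := by
      rw [← hcs]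
      ring
    have e2 : cst M a = cst M b ^ n := by
      rw [← hb]
      exact map_pow (algebraMap Kbar (FF M)) b n
    rw [← e1, e2, mul_pow, inv_pow, inv_pow]
    field_simp
  · rintro ⟨h, hh, c, hc, s, hs, hfe⟩
    obtain ⟨hu, hur, hui, hu0⟩ := h60r_one_add hℓ hM hA hc hs
    obtain ⟨E, hE, hEc⟩ := h60r_exists_div hh
    have hdiv' : ∀ v : Place Kbar (FF M),
        (n : ℤ) * ((D - E : Divisor.degZero (K := Kbar) (F := FF M)) :
          Divisor Kbar (FF M)) v = v.ord (1 + cst M c * s) := by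
      intro v
      have h1 : v.ord f = (n : ℤ) * v.ord h + v.ord (1 + cst M c * s) := by
        rw [hfe, v.ord_mul (pow_ne_zero n hh) hu0, Fermat.Agent.Jac.K1.ord_pow]
      rw [AddSubgroup.coe_sub, Finsupp.sub_apply, mul_sub, hdiv v, hE v, h1]
      ring
    have h2 := (h60r_kummer_unit hℓ hM haux hA hn (D - E) hu hui hu0 hdiv').2
      ⟨1, by rw [hur, one_pow]⟩
    have h3 : (Pic0.mk D : JZero M) = Pic0.mk (D - E) := by
      have e : D = (D - E) + E := (sub_add_cancel _ _).symm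
      conv_lhs => rw [e]
      rw [Pic0.mk_add, hEc, add_zero]
    rw [h3]
    exact h2

end Kummer

end Fermat.Agent.P7
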