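import Fermat.Agent.S05.Kernel
import Fermat.Agent.S05.H86Good

/-!
# Wave 7 (S40), block (4) LOCAL-W, short route (helper61): the geometry

`K` a field, `A` a valuation subring, `W` a Weierstrass curve over `K` with coefficients in `A`
and unit discriminant (`H61wGood A W`), `E₁ = InE1 A` the kernel of reduction (S05).

* `h61wX`, `h61wY` : the coordinates of a point (`0` at the origin).
* `h61w_coord_mem` : a point outside `E₁` has integral coordinates.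
* `h61w_unit` : if `R, R', R - R', R + R' ∉ E₁` then `x(R) - x(R')` is a unit of `A`.
* `h61w_addX`, `h61w_addY` : the chord formulas for `x(R) ≠ x(R')`.
* Galois: `h61w_X_smul`, `h61w_inE1_smul` (decomposition group), normality of inertia.
-/

set_option autoImplicit false
set_option linter.unusedSectionVars false
set_option linter.style.haveILetI false

namespace Fermat.Agent.P7

open WeierstrassCurve WeierstrassCurve.Affine
open Fermat.Agent.S05

section Coord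

variable {K : Type*} [Field K]

/-- the `x`-coordinate of a point (`0` at the origin). -/
def h61wX {W : Affine K} : W.Point → K
  | .zero => 0
  | .some x _ _ => x

/-- the `y`-coordinate of a point (`0` at the origin). -/
def h61wY {W : Affine K} : W.Point → K
  | .zero => 0
  | .some _ y _ => y

@[simp] theorem h61wX_some {W : Affine K} {x y : K} (h : W.Nonsingular x y) :
    h61wX (Point.some x y h) = x := rfl

@[simp] theorem h61wY_some {W : Affine K} {x y : K} (h : W.Nonsingular x y) :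
    h61wY (Point.some x y h) = y := rfl

/-- integral coefficients and unit discriminant. -/
structure H61wGood (A : ValuationSubring K) (W : Affine K) : Prop where
  a₁ : W.a₁ ∈ A
  a₂ : W.a₂ ∈ A
  a₃ : W.a₃ ∈ A
  a₄ : W.a₄ ∈ A
  a₆ : W.a₆ ∈ A
  Δ : W.Δ ∉ A.nonunits

variable {A : ValuationSubring K} {W : Affine K}

theorem h61w_exists_some (P : W.Point) (hP : ¬ InE1 A P) :
    ∃ (x y : K) (h : W.Nonsingular x y), P = Point.some x y h ∧ x ∈ A := by
  rcases P with _ | ⟨x, y, h⟩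
  · exact absurd (inE1_zero A) hP
  · refine ⟨x, y, h, rfl, ?_⟩
    by_contra hx
    exact hP ((inE1_some A h).2 hx)

theorem h61w_coord_mem (hW : H61wGood A W) (P : W.Point) (hP : ¬ InE1 A P) :
    h61wX P ∈ A ∧ h61wY P ∈ A := by
  obtain ⟨x, y, h, rfl, hx⟩ := h61w_exists_some P hP
  exact ⟨hx, H86.y_mem_of_x_mem hW.a₁ hW.a₂ hW.a₃ hW.a₄ hW.a₆ h.1 hx⟩

theorem h61w_eq_of_coord (P P' : W.Point) (hP : ¬ InE1 A P) (hP' : ¬ InE1 A P')
    (hx : h61wX P = h61wX P') (hy : h61wY P = h61wY P') : P = P' := by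
  obtain ⟨x, y, h, rfl, -⟩ := h61w_exists_some P hP
  obtain ⟨x', y', h', rfl, -⟩ := h61w_exists_some P' hP'
  simp only [h61wX_some, h61wY_some] at hx hy
  subst hx
  subst hy
  rfl

variable [DecidableEq K]

/-- **the unit lemma.** -/
theorem h61w_unit (hW : H61wGood A W) (R R' : W.Point) (hR : ¬ InE1 A R) (hR' : ¬ InE1 A R')
    (hsub : ¬ InE1 A (R - R')) (hadd : ¬ InE1 A (R + R')) :
    h61wX R - h61wX R' ∉ A.nonunits := by
  obtain ⟨x₁, y₁, h₁, rfl, hx₁⟩ := h61w_exists_some R hR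
  obtain ⟨x₂, y₂, h₂, rfl, hx₂⟩ := h61w_exists_some R' hR'
  simp only [h61wX_some]
  intro hx
  have hy₁ : y₁ ∈ A := H86.y_mem_of_x_mem hW.a₁ hW.a₂ hW.a₃ hW.a₄ hW.a₆ h₁.1 hx₁
  have hy₂ : y₂ ∈ A := H86.y_mem_of_x_mem hW.a₁ hW.a₂ hW.a₃ hW.a₄ hW.a₆ h₂.1 hx₂
  have hns := H86.partials_not_both_nonunits (A := A) (W := W) hW.a₁ hW.a₂ hW.Δ h₁.1 hx₁
  -- the product `(y₁ - y₂)(y₁ - negY x₂ y₂)` is a nonunit
  have e₁ := (Affine.equation_iff x₁ y₁).1 h₁.1
  have e₂ := (Affine.equation_iff x₂ y₂).1 h₂.1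
  have hprod : (y₁ - y₂) * (y₁ - W.negY x₂ y₂) =
      (x₁ - x₂) * (x₁ ^ 2 + x₁ * x₂ + x₂ ^ 2 + W.a₂ * (x₁ + x₂) + W.a₄ - W.a₁ * y₁) := by
    simp only [Affine.negY]
    linear_combination e₁ - e₂
  have hfac : x₁ ^ 2 + x₁ * x₂ + x₂ ^ 2 + W.a₂ * (x₁ + x₂) + W.a₄ - W.a₁ * y₁ ∈ A :=
    sub_mem (add_mem (add_mem (add_mem (add_mem (pow_mem hx₁ 2) (mul_mem hx₁ hx₂))
      (pow_mem hx₂ 2)) (mul_mem hW.a₂ (add_mem hx₁ hx₂))) hW.a₄) (mul_mem hW.a₁ hy₁)
  have hpm : (y₁ - y₂) * (y₁ - W.negY x₂ y₂) ∈ A.nonunits := by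
    rw [hprod]
    exact H86.mul_mem_nonunits_of_mem' A hx hfac
  have hnegY : W.negY x₂ y₂ ∈ A := by
    simp only [Affine.negY]
    exact sub_mem (sub_mem (neg_mem hy₂) (mul_mem hW.a₁ hx₂)) hW.a₃
  have hcases : y₁ - y₂ ∈ A.nonunits ∨ y₁ - W.negY x₂ y₂ ∈ A.nonunits := by
    by_contra hcon
    push Not at hcon
    have h1 : A.valuation (y₁ - y₂) = 1 :=
      H86.valuation_eq_one_of_mem_of_not_mem_nonunits A (sub_mem hy₁ hy₂) hcon.1
    have h2 : A.valuation (y₁ - W.negY x₂ y₂) = 1 :=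
      H86.valuation_eq_one_of_mem_of_not_mem_nonunits A (sub_mem hy₁ hnegY) hcon.2
    have h3 := (A.mem_nonunits_iff).1 hpm
    rw [map_mul, h1, h2, one_mul] at h3
    exact lt_irrefl _ h3
  rcases hcases with hy | hy
  · exact hsub (H86.sub_inE1_of_same_reduction (A := A) (W := W) hW.a₁ hW.a₂ hW.a₃ hW.a₄ h₁ h₂
      hx₁ hy₁ hx₂ hy₂ hx hy hns)
  · have h₂' : W.Nonsingular x₂ (W.negY x₂ y₂) := (nonsingular_neg ..).mpr h₂
    have hneg : -Point.some x₂ y₂ h₂ = Point.some x₂ (W.negY x₂ y₂) h₂' := rfl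
    have := H86.sub_inE1_of_same_reduction (A := A) (W := W) hW.a₁ hW.a₂ hW.a₃ hW.a₄ h₁ h₂'
      hx₁ hy₁ hx₂ hnegY hx hy hns
    rw [← hneg, sub_neg_eq_add] at this
    exact hadd this

/-- the chord formula for the `x`-coordinate. -/
theorem h61w_addX (R R' : W.Point) (hR : R ≠ 0) (hR' : R' ≠ 0) (hne : h61wX R ≠ h61wX R') :
    h61wX (R + R') =
      ((h61wY R - h61wY R') * (h61wX R - h61wX R')⁻¹) ^ 2
        + W.a₁ * ((h61wY R - h61wY R') * (h61wX R - h61wX R')⁻¹) - W.a₂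
        - h61wX R - h61wX R' := by
  rcases R with _ | ⟨x₁, y₁, h₁⟩
  · exact absurd rfl hR
  rcases R' with _ | ⟨x₂, y₂, h₂⟩
  · exact absurd rfl hR'
  simp only [h61wX_some, h61wY_some] at hne ⊢
  rw [Point.add_of_X_ne hne, h61wX_some, Affine.slope_of_X_ne hne, Affine.addX, div_eq_mul_inv]

/-- the chord formula for the `y`-coordinate. -/
theorem h61w_addY (R R' : W.Point) (hR : R ≠ 0) (hR' : R' ≠ 0) (hne : h61wX R ≠ h61wX R') :
    h61wY (R + R') =
      -(((h61wY R - h61wY R') * (h61wX R - h61wX R')⁻¹) * (h61wX (R + R') - h61wX R)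
          + h61wY R) - W.a₁ * h61wX (R + R') - W.a₃ := by
  rcases R with _ | ⟨x₁, y₁, h₁⟩
  · exact absurd rfl hR
  rcases R' with _ | ⟨x₂, y₂, h₂⟩
  · exact absurd rfl hR'
  simp only [h61wX_some, h61wY_some] at hne ⊢
  rw [Point.add_of_X_ne hne, h61wX_some, h61wY_some, Affine.slope_of_X_ne hne, Affine.addY,
    Affine.negAddY, Affine.negY, div_eq_mul_inv]

end Coord

/-! ## Galois action -/

section Gal

variable {R : Type*} {S : Type*} {K : Type*} [CommRing R] [Field S] [Field K]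
  [DecidableEq K] [Algebra R S] [Algebra R K] [Algebra S K] [IsScalarTower R S K]
  {W' : Affine R} {A : ValuationSubring K}

theorem h61w_smul_some (σ : K ≃ₐ[S] K) {x y : K} (h : (W'⁄K).Nonsingular x y) :
    ∃ h' : (W'⁄K).Nonsingular (σ x) (σ y),
      σ • (Point.some x y h : (W'⁄K).Point) = Point.some (σ x) (σ y) h' := by
  have hnsσ : (W'⁄K).Nonsingular (σ x) (σ y) := by
    have := (Affine.baseChange_nonsingular (W := W') σ.toAlgHom.injective x y).2 h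
    simpa using this
  refine ⟨hnsσ, ?_⟩
  have hsmul : σ • (Point.some x y h : (W'⁄K).Point) =
      Point.map (W' := W') σ.toAlgHom (Point.some x y h) := rfl
  have hmap := Point.map_some (W' := W') (f := σ.toAlgHom) h
  rw [hsmul, hmap]
  rfl

theorem h61w_X_smul (σ : K ≃ₐ[S] K) (P : (W'⁄K).Point) :
    h61wX (σ • P) = σ (h61wX P) := by
  rcases P with _ | ⟨x, y, h⟩
  · have h0 : σ • (Point.zero : (W'⁄K).Point) = 0 := smul_zero σ
    rw [h0]
    exact (map_zero σ).symm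
  · obtain ⟨h', e⟩ := h61w_smul_some σ h
    rw [e]
    rfl

theorem h61w_Y_smul (σ : K ≃ₐ[S] K) (P : (W'⁄K).Point) :
    h61wY (σ • P) = σ (h61wY P) := by
  rcases P with _ | ⟨x, y, h⟩
  · have h0 : σ • (Point.zero : (W'⁄K).Point) = 0 := smul_zero σ
    rw [h0]
    exact (map_zero σ).symm
  · obtain ⟨h', e⟩ := h61w_smul_some σ h
    rw [e]
    rfl

/-- the decomposition group preserves `A`. -/
theorem h61w_decomp_mem {τ : K ≃ₐ[S] K} (hτ : τ ∈ A.decompositionSubgroup S) {a : K}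
    (ha : a ∈ A) : τ a ∈ A :=
  (((⟨τ, hτ⟩ : A.decompositionSubgroup S) • (⟨a, ha⟩ : A) : A)).2

/-- the inertia group is normalised by the decomposition group. -/
theorem h61w_conj_mem {τ σ : K ≃ₐ[S] K} (hτ : τ ∈ A.decompositionSubgroup S)
    (hσ : σ ∈ A.inertiaSubgroupIn S) : τ * σ * τ⁻¹ ∈ A.inertiaSubgroupIn S := by
  obtain ⟨i', hi', rfl⟩ := hσ
  refine ⟨(⟨τ, hτ⟩ : A.decompositionSubgroup S) * i' * (⟨τ, hτ⟩ : A.decompositionSubgroup S)⁻¹,
    ?_, rfl⟩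
  have hn : (A.inertiaSubgroup S).Normal := by
    unfold ValuationSubring.inertiaSubgroup
    exact MonoidHom.normal_ker _
  exact hn.conj_mem i' hi' ⟨τ, hτ⟩

/-- the decomposition group preserves the kernel of reduction. -/
theorem h61w_inE1_smul {τ : K ≃ₐ[S] K} (hτ : τ ∈ A.decompositionSubgroup S)
    {P : (W'⁄K).Point} (hP : InE1 A P) : InE1 A (τ • P) := by
  rcases hP with rfl | ⟨x, y, h, rfl, hx⟩
  · rw [smul_zero]
    exact inE1_zero A
  · obtain ⟨h', e⟩ := h61w_smul_some τ h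
    rw [e, inE1_some]
    intro hτx
    have hτ' : τ⁻¹ ∈ A.decompositionSubgroup S := (A.decompositionSubgroup S).inv_mem hτ
    have := h61w_decomp_mem hτ' hτx
    have e2 : τ⁻¹ (τ x) = x := by
      show (τ⁻¹ * τ) x = x
      rw [inv_mul_cancel]
      rfl
    rw [e2] at this
    exact hx this

end Gal

/-! ## The translation points -/

section QQ

variable {R : Type*} {S : Type*} {K : Type*} [CommRing R] [Field S] [Field K]
  [DecidableEq K] [Algebra R S] [Algebra R K] [Algebra S K] [IsScalarTower R S K]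
  {W' : Affine R}

/-- `Q ∈ E[n] + E₁`. -/
def h61wBad (A : ValuationSubring K) (n : ℕ) (Q : (W'⁄K).Point) : Prop :=
  ∃ P : (W'⁄K).Point, n • P = 0 ∧ InE1 A (Q - P)

variable (S) in
/-- the admissible translation points: fixed by inertia, and no multiple `2 ^ j 3 ^ k Q` lies in
`E[n] + E₁`. -/
structure H61wQQ (A : ValuationSubring K) (n : ℕ) (Q : (W'⁄K).Point) : Prop where
  fixed : ∀ σ : K ≃ₐ[S] K, σ ∈ A.inertiaSubgroupIn S → σ • Q = Q
  good : ∀ j k : ℕ, ¬ h61wBad A n ((2 ^ j * 3 ^ k) • Q)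

variable {A : ValuationSubring K} {n : ℕ}

theorem h61w_bad_neg {Q : (W'⁄K).Point} (h : h61wBad A n (-Q)) : h61wBad A n Q := by
  obtain ⟨P, hP, hE⟩ := h
  refine ⟨-P, by rw [smul_neg, hP, neg_zero], ?_⟩
  have := inE1_neg A hE
  have e : -(-Q - P) = Q - -P := by abel
  rw [e] at this
  exact this

theorem h61w_bad_smul {τ : K ≃ₐ[S] K} (hτ : τ ∈ A.decompositionSubgroup S)
    {Q : (W'⁄K).Point} (h : h61wBad A n (τ • Q)) : h61wBad A n Q := by
  obtain ⟨P, hP, hE⟩ := h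
  have hτ' : τ⁻¹ ∈ A.decompositionSubgroup S := (A.decompositionSubgroup S).inv_mem hτ
  refine ⟨τ⁻¹ • P, by rw [smul_comm, hP, smul_zero], ?_⟩
  have := h61w_inE1_smul hτ' hE
  rw [smul_sub, inv_smul_smul] at this
  exact this

theorem h61w_QQ_neg {Q : (W'⁄K).Point} (hQ : H61wQQ S A n Q) : H61wQQ S A n (-Q) := by
  refine ⟨fun σ hσ => by rw [smul_neg, hQ.fixed σ hσ], fun j k hb => hQ.good j k ?_⟩
  rw [smul_neg] at hb
  exact h61w_bad_neg hb

theorem h61w_QQ_two {Q : (W'⁄K).Point} (hQ : H61wQQ S A n Q) : H61wQQ S A n (2 • Q) := by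
  refine ⟨fun σ hσ => by rw [smul_comm, hQ.fixed σ hσ], fun j k hb => hQ.good (j + 1) k ?_⟩
  have e : (2 ^ j * 3 ^ k) • (2 • Q) = (2 ^ (j + 1) * 3 ^ k) • Q := by
    rw [← mul_smul]
    congr 1
    ring
  rw [← e]
  exact hb

theorem h61w_QQ_three {Q : (W'⁄K).Point} (hQ : H61wQQ S A n Q) : H61wQQ S A n (3 • Q) := by
  refine ⟨fun σ hσ => by rw [smul_comm, hQ.fixed σ hσ], fun j k hb => hQ.good j (k + 1) ?_⟩
  have e : (2 ^ j * 3 ^ k) • (3 • Q) = (2 ^ j * 3 ^ (k + 1)) • Q := by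
    rw [← mul_smul]
    congr 1
    ring
  rw [← e]
  exact hb

theorem h61w_QQ_smul {τ : K ≃ₐ[S] K} (hτ : τ ∈ A.decompositionSubgroup S)
    {Q : (W'⁄K).Point} (hQ : H61wQQ S A n Q) : H61wQQ S A n (τ • Q) := by
  have hτ' : τ⁻¹ ∈ A.decompositionSubgroup S := (A.decompositionSubgroup S).inv_mem hτ
  refine ⟨fun σ hσ => ?_, fun j k hb => hQ.good j k ?_⟩
  · have h1 := h61w_conj_mem hτ' hσ
    rw [inv_inv] at h1
    have h2 := hQ.fixed _ h1
    have h3 : (τ⁻¹ * σ * τ) • Q = τ⁻¹ • (σ • (τ • Q)) := by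
      rw [mul_smul, mul_smul]
    rw [h3] at h2
    have h4 := congrArg (fun P => τ • P) h2
    simp only [smul_inv_smul] at h4
    exact h4
  · rw [smul_comm] at hb
    exact h61w_bad_smul hτ hb

/-- a translate of an `n`-torsion point by an admissible point is outside `E₁`. -/
theorem h61w_not_inE1_add {Q : (W'⁄K).Point} (hQ : H61wQQ S A n Q) {P : (W'⁄K).Point}
    (hP : n • P = 0) : ¬ InE1 A (P + Q) := by
  intro hE
  apply hQ.good 0 0
  refine ⟨-P, by rw [smul_neg, hP, neg_zero], ?_⟩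
  have e : (2 ^ 0 * 3 ^ 0) • Q - -P = P + Q := by
    simp only [pow_zero, mul_one, one_smul]
    abel
  rw [e]
  exact hE

/-- a translate by `3 Q`. -/
theorem h61w_not_inE1_add_three {Q : (W'⁄K).Point} (hQ : H61wQQ S A n Q) {P : (W'⁄K).Point}
    (hP : n • P = 0) : ¬ InE1 A (P + 3 • Q) :=
  h61w_not_inE1_add (h61w_QQ_three hQ) hP

/-- **existence**: a nonzero point of prime order `ℓ ∤ 6 n`, `ℓ` a unit of `A`, is admissible. -/
theorem h61w_QQ_of_torsion (hW : H61wGood A (W'⁄K)) {ℓ : ℕ} (hℓ : ℓ.Prime)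
    (hℓu : (ℓ : K) ∉ A.nonunits) (hℓn : ¬ ℓ ∣ n) (hℓ2 : ℓ ≠ 2) (hℓ3 : ℓ ≠ 3)
    {Q : (W'⁄K).Point} (hQ : ℓ • Q = 0) (hQ0 : Q ≠ 0) : H61wQQ S A n Q := by
  refine ⟨fun σ hσ => ?_, fun j k hb => ?_⟩
  · exact H86.inertia_smul_eq_of_good W' A hW.a₁ hW.a₂ hW.a₃ hW.a₄ hW.a₆ hW.Δ ℓ
      (kernelTorsionFree A hW.a₁ hW.a₂ hW.a₃ hW.a₄ hW.a₆ hℓu) hσ Q hQ
  · obtain ⟨P, hP, hE⟩ := hb
    have h1 : InE1 A (n • ((2 ^ j * 3 ^ k) • Q - P)) :=
      inE1_nsmul A hW.a₁ hW.a₂ hW.a₃ hW.a₄ hW.a₆ hE n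
    rw [smul_sub, hP, sub_zero, ← mul_smul] at h1
    have h2 : ℓ • ((n * (2 ^ j * 3 ^ k)) • Q) = 0 := by
      rw [smul_comm, hQ, smul_zero]
    have h3 := eq_zero_of_nsmul_eq_zero_of_inE1 A hW.a₁ hW.a₂ hW.a₃ hW.a₄ hW.a₆ hℓu h1 h2
    have hord : addOrderOf Q = ℓ := by
      haveI : Fact ℓ.Prime := ⟨hℓ⟩
      exact addOrderOf_eq_prime hQ hQ0
    have h4 : ℓ ∣ n * (2 ^ j * 3 ^ k) := by
      rw [← hord]
      exact addOrderOf_dvd_of_nsmul_eq_zero h3
    rcases (Nat.Prime.dvd_mul hℓ).1 h4 with h5 | h5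
    · exact hℓn h5
    · rcases (Nat.Prime.dvd_mul hℓ).1 h5 with h6 | h6
      · have := (Nat.prime_dvd_prime_iff_eq hℓ Nat.prime_two).1 (hℓ.dvd_of_dvd_pow h6)
        exact hℓ2 this
      · have := (Nat.prime_dvd_prime_iff_eq hℓ Nat.prime_three).1 (hℓ.dvd_of_dvd_pow h6)
        exact hℓ3 this

end QQ

end Fermat.Agent.P7
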