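import Fermat.Agent.P7.H61Sweedler
import Fermat.Agent.P7.H61LocCore
import Fermat.Agent.Tors.CardTorsion
import Fermat.Agent.P5.H96LawIface

/-!
# Wave 7 (S40), block (4) LOCAL-W, short route (helper61): the local order on `W[n]`

`W'` a Weierstrass curve over `ℚ`, `A` a valuation subring of `ℚ̄` at which `W'` has integral
coefficients and unit discriminant (`H61wGood A (W'⁄ℚ̄)`), `n ≥ 1`,
`X = W'(ℚ̄)[n] = Submodule.torsionBy ℤ (W'⁄ℚ̄).Point n` with its Galois action.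

The order is generated by the TRANSLATED Weierstrass coordinates
`P ↦ x (P + T)`, `P ↦ y (P + T)`, `T` an admissible point (`H61wQQ`: fixed by inertia, no
multiple `2 ^ j 3 ^ k T` in `E[n] + E₁`).  No formal group, no interpolation:

* integrality: `P + T ∉ E₁`;
* inertia-equivariance: `T` is fixed by inertia;
* stability under the decomposition group: `τ T` is admissible;
* separation: the coordinates of `P + T` determine `P`;
* Sweedler closure: `P + P' + T = (P + 2 T) + (P' - T)` and `x (P + 2 T) - x (P' - T)` is a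
  UNIT of `A` for all `P, P'` (`h61w_unit`), so the chord formula is exact and the inverse of
  the denominator is an `A`-polynomial in it (`h61w_inv_mem`).

Main result: `h61w_locOrder : H96LocOrder A (h61wAct W' n) (h61wG W' A n)`.
-/

set_option autoImplicit false
set_option linter.unusedSectionVars false
set_option linter.style.haveILetI false

open WeierstrassCurve WeierstrassCurve.Affine

noncomputable section

namespace Fermat.Agent.P7

open Fermat.Agent.S05 Fermat.Agent.S37 Fermat.Agent.P5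

variable (W' : Affine ℚ) (A : ValuationSubring Kbar) (n : ℕ)

/-- `W'(ℚ̄)[n]`. -/
abbrev h61wTors : Type := ↥(Submodule.torsionBy ℤ (W'⁄Kbar).Point (n : ℤ))

/-- the Galois action on `W'(ℚ̄)[n]`. -/
def h61wAct (σ : GQ) (P : h61wTors W' n) : h61wTors W' n := σ • P

theorem h61wAct_coe (σ : GQ) (P : h61wTors W' n) :
    ((h61wAct W' n σ P : h61wTors W' n) : (W'⁄Kbar).Point) = σ • (P : (W'⁄Kbar).Point) := rfl

/-- the translated `x`-coordinate. -/
def h61wFx (T : (W'⁄Kbar).Point) : h61wTors W' n → Kbar :=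
  fun P => h61wX ((P : (W'⁄Kbar).Point) + T)

/-- the translated `y`-coordinate. -/
def h61wFy (T : (W'⁄Kbar).Point) : h61wTors W' n → Kbar :=
  fun P => h61wY ((P : (W'⁄Kbar).Point) + T)

/-- the generators of the local order. -/
def h61wG : Set (h61wTors W' n → Kbar) :=
  {f | ∃ T : (W'⁄Kbar).Point, H61wQQ ℚ A n T ∧ (f = h61wFx W' n T ∨ f = h61wFy W' n T)}

variable {W' A n}

theorem h61w_tors_nsmul (P : h61wTors W' n) : n • (P : (W'⁄Kbar).Point) = 0 := by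
  have h := (Submodule.mem_torsionBy_iff _ _).1 P.2
  rw [natCast_zsmul] at h
  exact h

theorem h61w_Fx_mem {T : (W'⁄Kbar).Point} (hT : H61wQQ ℚ A n T) :
    h61wFx W' n T ∈ h61wG W' A n := ⟨T, hT, Or.inl rfl⟩

theorem h61w_Fy_mem {T : (W'⁄Kbar).Point} (hT : H61wQQ ℚ A n T) :
    h61wFy W' n T ∈ h61wG W' A n := ⟨T, hT, Or.inr rfl⟩

/-! ### finiteness and existence of admissible points -/

theorem h61w_Δ_ne_zero (hW : H61wGood A (W'⁄Kbar)) : (W'.baseChange Kbar).Δ ≠ 0 := by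
  intro h0
  apply hW.Δ
  have : (W'⁄Kbar).Δ = 0 := h0
  rw [this]
  exact zero_mem _

theorem h61w_finite (hW : H61wGood A (W'⁄Kbar)) (hn : 0 < n) : Finite (h61wTors W' n) := by
  have hc := Fermat.Agent.Tors.card_torsion (W'.baseChange Kbar) (h61w_Δ_ne_zero hW) n
    (by exact_mod_cast hn.ne')
  have hfin : Finite {P : (W'⁄Kbar).Point // n • P = 0} := by
    apply Nat.finite_of_card_ne_zero
    rw [hc]
    exact pow_ne_zero 2 hn.ne'
  let φ : h61wTors W' n → {P : (W'⁄Kbar).Point // n • P = 0} :=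
    fun P => ⟨(P : (W'⁄Kbar).Point), h61w_tors_nsmul P⟩
  have hφ : Function.Injective φ := by
    intro P P' h
    apply Subtype.ext
    exact congrArg Subtype.val h
  exact Finite.of_injective φ hφ

theorem h61w_exists_torsion (hW : H61wGood A (W'⁄Kbar)) {ℓ : ℕ} (hℓ : ℓ.Prime) :
    ∃ Q : (W'⁄Kbar).Point, ℓ • Q = 0 ∧ Q ≠ 0 := by
  have hc := Fermat.Agent.Tors.card_torsion (W'.baseChange Kbar) (h61w_Δ_ne_zero hW) ℓ
    (by exact_mod_cast hℓ.ne_zero)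
  have hfin : Finite {P : (W'⁄Kbar).Point // ℓ • P = 0} := by
    apply Nat.finite_of_card_ne_zero
    rw [hc]
    exact pow_ne_zero 2 hℓ.ne_zero
  have hnt : Nontrivial {P : (W'⁄Kbar).Point // ℓ • P = 0} := by
    rw [← Finite.one_lt_card_iff_nontrivial, hc]
    exact Nat.one_lt_pow (by norm_num) hℓ.one_lt
  obtain ⟨a, b, hab⟩ := hnt.exists_pair_ne
  by_cases ha : (a : (W'⁄Kbar).Point) = 0
  · refine ⟨b, b.2, fun hb => hab ?_⟩
    apply Subtype.ext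
    rw [ha, hb]
  · exact ⟨a, a.2, ha⟩

theorem h61w_exists_QQ (hW : H61wGood A (W'⁄Kbar))
    (hℓ : ∃ ℓ : ℕ, ℓ.Prime ∧ (ℓ : Kbar) ∉ A.nonunits ∧ ¬ ℓ ∣ n ∧ ℓ ≠ 2 ∧ ℓ ≠ 3) :
    ∃ T : (W'⁄Kbar).Point, H61wQQ ℚ A n T := by
  obtain ⟨ℓ, hℓp, hℓu, hℓn, hℓ2, hℓ3⟩ := hℓ
  obtain ⟨Q, hQ, hQ0⟩ := h61w_exists_torsion hW hℓp
  exact ⟨Q, h61w_QQ_of_torsion hW hℓp hℓu hℓn hℓ2 hℓ3 hQ hQ0⟩

/-! ### the easy axioms -/

theorem h61w_int (hW : H61wGood A (W'⁄Kbar)) :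
    ∀ f ∈ h61wG W' A n, ∀ x, f x ∈ A := by
  rintro f ⟨T, hT, rfl | rfl⟩ x
  · exact (h61w_coord_mem hW _ (h61w_not_inE1_add hT (h61w_tors_nsmul x))).1
  · exact (h61w_coord_mem hW _ (h61w_not_inE1_add hT (h61w_tors_nsmul x))).2

theorem h61w_inert :
    ∀ f ∈ h61wG W' A n, ∀ σ ∈ A.inertiaSubgroupIn ℚ, ∀ x, f (h61wAct W' n σ x) = σ (f x) := by
  rintro f ⟨T, hT, rfl | rfl⟩ σ hσ x
  · show h61wX (σ • (x : (W'⁄Kbar).Point) + T) = σ (h61wX ((x : (W'⁄Kbar).Point) + T))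
    rw [← h61w_X_smul, smul_add, hT.fixed σ hσ]
  · show h61wY (σ • (x : (W'⁄Kbar).Point) + T) = σ (h61wY ((x : (W'⁄Kbar).Point) + T))
    rw [← h61w_Y_smul, smul_add, hT.fixed σ hσ]

theorem h61w_decomp :
    ∀ f ∈ h61wG W' A n, ∀ τ ∈ A.decompositionSubgroup ℚ,
      (fun x => τ (f (h61wAct W' n τ⁻¹ x))) ∈ h61wG W' A n := by
  rintro f ⟨T, hT, rfl | rfl⟩ τ hτ
  · refine ⟨τ • T, h61w_QQ_smul hτ hT, Or.inl ?_⟩
    funext x
    show τ (h61wX (τ⁻¹ • (x : (W'⁄Kbar).Point) + T)) = h61wX ((x : (W'⁄Kbar).Point) + τ • T)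
    rw [← h61w_X_smul, smul_add, smul_inv_smul]
  · refine ⟨τ • T, h61w_QQ_smul hτ hT, Or.inr ?_⟩
    funext x
    show τ (h61wY (τ⁻¹ • (x : (W'⁄Kbar).Point) + T)) = h61wY ((x : (W'⁄Kbar).Point) + τ • T)
    rw [← h61w_Y_smul, smul_add, smul_inv_smul]

theorem h61w_sep {T : (W'⁄Kbar).Point} (hT : H61wQQ ℚ A n T) :
    ∀ x y : h61wTors W' n, (∀ f ∈ h61wG W' A n, f x = f y) → x = y := by
  intro x y h
  have hx := h (h61wFx W' n T) (h61w_Fx_mem hT)
  have hy := h (h61wFy W' n T) (h61w_Fy_mem hT)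
  have e := h61w_eq_of_coord (A := A) _ _ (h61w_not_inE1_add hT (h61w_tors_nsmul x))
    (h61w_not_inE1_add hT (h61w_tors_nsmul y)) hx hy
  apply Subtype.ext
  exact add_right_cancel e

/-! ### Sweedler closure -/

section Comul

/-- the chord data at a pair of torsion points: the four translated points are outside `E₁`
and the difference of the `x`-coordinates is a unit. -/
theorem h61w_pair (hW : H61wGood A (W'⁄Kbar)) {Q : (W'⁄Kbar).Point} (hQ : H61wQQ ℚ A n Q)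
    (P P' : h61wTors W' n) :
    ¬ InE1 A ((P : (W'⁄Kbar).Point) + 2 • Q) ∧ ¬ InE1 A ((P' : (W'⁄Kbar).Point) + -Q) ∧
      h61wX ((P : (W'⁄Kbar).Point) + 2 • Q) - h61wX ((P' : (W'⁄Kbar).Point) + -Q)
        ∉ A.nonunits ∧
      (((P + P' : h61wTors W' n) : (W'⁄Kbar).Point) + Q
        = ((P : (W'⁄Kbar).Point) + 2 • Q) + ((P' : (W'⁄Kbar).Point) + -Q)) := by
  have hR := h61w_not_inE1_add (h61w_QQ_two hQ) (h61w_tors_nsmul P)
  have hR' := h61w_not_inE1_add (h61w_QQ_neg hQ) (h61w_tors_nsmul P')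
  have e : ((P + P' : h61wTors W' n) : (W'⁄Kbar).Point) + Q
      = ((P : (W'⁄Kbar).Point) + 2 • Q) + ((P' : (W'⁄Kbar).Point) + -Q) := by
    rw [Submodule.coe_add, two_nsmul]
    abel
  have hadd : ¬ InE1 A (((P : (W'⁄Kbar).Point) + 2 • Q) + ((P' : (W'⁄Kbar).Point) + -Q)) := by
    rw [← e]
    exact h61w_not_inE1_add hQ (h61w_tors_nsmul (P + P'))
  have hsub : ¬ InE1 A (((P : (W'⁄Kbar).Point) + 2 • Q) - ((P' : (W'⁄Kbar).Point) + -Q)) := by
    have e2 : ((P : (W'⁄Kbar).Point) + 2 • Q) - ((P' : (W'⁄Kbar).Point) + -Q)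
        = ((P - P' : h61wTors W' n) : (W'⁄Kbar).Point) + 3 • Q := by
      rw [Submodule.coe_sub, two_nsmul, succ_nsmul, two_nsmul]
      abel
    rw [e2]
    exact h61w_not_inE1_add_three hQ (h61w_tors_nsmul (P - P'))
  exact ⟨hR, hR', h61w_unit hW _ _ hR hR' hsub hadd, e⟩

theorem h61w_ne_zero_of_not_inE1 {R : (W'⁄Kbar).Point} (hR : ¬ InE1 A R) : R ≠ 0 := by
  rintro rfl
  exact hR (inE1_zero A)

/-- **Sweedler closure**, in the algebra of Sweedler forms. -/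
theorem h61w_comul_mem (hW : H61wGood A (W'⁄Kbar)) (hn : 0 < n) {Q : (W'⁄Kbar).Point}
    (hQ : H61wQQ ℚ A n Q) :
    (fun z : h61wTors W' n × h61wTors W' n => h61wFx W' n Q (z.1 + z.2))
        ∈ h61wSwAlg (Algebra.adjoin A (h61wG W' A n)) (Algebra.adjoin A (h61wG W' A n)) ∧
      (fun z : h61wTors W' n × h61wTors W' n => h61wFy W' n Q (z.1 + z.2))
        ∈ h61wSwAlg (Algebra.adjoin A (h61wG W' A n)) (Algebra.adjoin A (h61wG W' A n)) := by
  classical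
  haveI : Finite (h61wTors W' n) := h61w_finite hW hn
  set C : Subalgebra A (h61wTors W' n → Kbar) := Algebra.adjoin A (h61wG W' A n) with hC
  set T : Subalgebra A (h61wTors W' n × h61wTors W' n → Kbar) := h61wSwAlg C C with hT
  have hQ2 := h61w_QQ_two hQ
  have hQm := h61w_QQ_neg hQ
  -- the four coordinate functions
  let x₁ : h61wTors W' n × h61wTors W' n → Kbar := fun z => h61wFx W' n (2 • Q) z.1
  let y₁ : h61wTors W' n × h61wTors W' n → Kbar := fun z => h61wFy W' n (2 • Q) z.1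
  let x₂ : h61wTors W' n × h61wTors W' n → Kbar := fun z => h61wFx W' n (-Q) z.2
  let y₂ : h61wTors W' n × h61wTors W' n → Kbar := fun z => h61wFy W' n (-Q) z.2
  have hx₁ : x₁ ∈ T := h61w_fst_mem C C (Algebra.subset_adjoin (h61w_Fx_mem hQ2))
  have hy₁ : y₁ ∈ T := h61w_fst_mem C C (Algebra.subset_adjoin (h61w_Fy_mem hQ2))
  have hx₂ : x₂ ∈ T := h61w_snd_mem C C (Algebra.subset_adjoin (h61w_Fx_mem hQm))
  have hy₂ : y₂ ∈ T := h61w_snd_mem C C (Algebra.subset_adjoin (h61w_Fy_mem hQm))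
  -- the denominator and its inverse
  have hu : x₁ - x₂ ∈ T := T.sub_mem hx₁ hx₂
  have huA : ∀ z, (x₁ - x₂) z ∈ A := by
    intro z
    obtain ⟨hR, hR', -, -⟩ := h61w_pair hW hQ z.1 z.2
    exact sub_mem (h61w_coord_mem hW _ hR).1 (h61w_coord_mem hW _ hR').1
  have huU : ∀ z, (x₁ - x₂) z ∉ A.nonunits := by
    intro z
    exact (h61w_pair hW hQ z.1 z.2).2.2.1
  have hinv : (fun z => ((x₁ - x₂) z)⁻¹) ∈ T := h61w_inv_mem A T (x₁ - x₂) hu huA huU
  -- the slope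
  have hℓ : (y₁ - y₂) * (fun z => ((x₁ - x₂) z)⁻¹) ∈ T := T.mul_mem (T.sub_mem hy₁ hy₂) hinv
  -- the coordinates of the sum
  have hx₃ : ((y₁ - y₂) * (fun z => ((x₁ - x₂) z)⁻¹)) ^ 2
      + algebraMap A _ (⟨(W'⁄Kbar).a₁, hW.a₁⟩ : A) * ((y₁ - y₂) * (fun z => ((x₁ - x₂) z)⁻¹))
      - algebraMap A _ (⟨(W'⁄Kbar).a₂, hW.a₂⟩ : A) - x₁ - x₂ ∈ T :=
    T.sub_mem (T.sub_mem (T.sub_mem (T.add_mem (T.pow_mem hℓ 2)
      (T.mul_mem (T.algebraMap_mem _) hℓ)) (T.algebraMap_mem _)) hx₁) hx₂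
  have ex : (fun z : h61wTors W' n × h61wTors W' n => h61wFx W' n Q (z.1 + z.2))
      = ((y₁ - y₂) * (fun z => ((x₁ - x₂) z)⁻¹)) ^ 2
      + algebraMap A _ (⟨(W'⁄Kbar).a₁, hW.a₁⟩ : A) * ((y₁ - y₂) * (fun z => ((x₁ - x₂) z)⁻¹))
      - algebraMap A _ (⟨(W'⁄Kbar).a₂, hW.a₂⟩ : A) - x₁ - x₂ := by
    funext z
    obtain ⟨hR, hR', hU, e⟩ := h61w_pair hW hQ z.1 z.2
    have hne : h61wX ((z.1 : (W'⁄Kbar).Point) + 2 • Q) ≠ h61wX ((z.2 : (W'⁄Kbar).Point) + -Q) := by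
      intro h
      apply hU
      rw [h, sub_self]
      exact zero_mem _
    show h61wX (((z.1 + z.2 : h61wTors W' n) : (W'⁄Kbar).Point) + Q) = _
    rw [e, h61w_addX _ _ (h61w_ne_zero_of_not_inE1 hR) (h61w_ne_zero_of_not_inE1 hR') hne]
    rfl
  have hy₃ : -(((y₁ - y₂) * (fun z => ((x₁ - x₂) z)⁻¹))
        * ((fun z : h61wTors W' n × h61wTors W' n => h61wFx W' n Q (z.1 + z.2)) - x₁) + y₁)
      - algebraMap A _ (⟨(W'⁄Kbar).a₁, hW.a₁⟩ : A)
        * (fun z : h61wTors W' n × h61wTors W' n => h61wFx W' n Q (z.1 + z.2))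
      - algebraMap A _ (⟨(W'⁄Kbar).a₃, hW.a₃⟩ : A) ∈ T := by
    have hx₃' : (fun z : h61wTors W' n × h61wTors W' n => h61wFx W' n Q (z.1 + z.2)) ∈ T := by
      rw [ex]
      exact hx₃
    exact T.sub_mem (T.sub_mem (T.neg_mem (T.add_mem (T.mul_mem hℓ (T.sub_mem hx₃' hx₁)) hy₁))
      (T.mul_mem (T.algebraMap_mem _) hx₃')) (T.algebraMap_mem _)
  have ey : (fun z : h61wTors W' n × h61wTors W' n => h61wFy W' n Q (z.1 + z.2))
      = -(((y₁ - y₂) * (fun z => ((x₁ - x₂) z)⁻¹))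
        * ((fun z : h61wTors W' n × h61wTors W' n => h61wFx W' n Q (z.1 + z.2)) - x₁) + y₁)
      - algebraMap A _ (⟨(W'⁄Kbar).a₁, hW.a₁⟩ : A)
        * (fun z : h61wTors W' n × h61wTors W' n => h61wFx W' n Q (z.1 + z.2))
      - algebraMap A _ (⟨(W'⁄Kbar).a₃, hW.a₃⟩ : A) := by
    funext z
    obtain ⟨hR, hR', hU, e⟩ := h61w_pair hW hQ z.1 z.2
    have hne : h61wX ((z.1 : (W'⁄Kbar).Point) + 2 • Q) ≠ h61wX ((z.2 : (W'⁄Kbar).Point) + -Q) := by
      intro h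
      apply hU
      rw [h, sub_self]
      exact zero_mem _
    show h61wY (((z.1 + z.2 : h61wTors W' n) : (W'⁄Kbar).Point) + Q) = _
    have hxe : h61wFx W' n Q (z.1 + z.2)
        = h61wX (((z.1 : (W'⁄Kbar).Point) + 2 • Q) + ((z.2 : (W'⁄Kbar).Point) + -Q)) := by
      show h61wX (((z.1 + z.2 : h61wTors W' n) : (W'⁄Kbar).Point) + Q) = _
      rw [e]
    rw [e, h61w_addY _ _ (h61w_ne_zero_of_not_inE1 hR) (h61w_ne_zero_of_not_inE1 hR') hne]
    simp only [Pi.sub_apply, Pi.add_apply, Pi.mul_apply, Pi.neg_apply, hxe]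
    rfl
  refine ⟨?_, ?_⟩
  · rw [ex]
    exact hx₃
  · rw [ey]
    exact hy₃

end Comul

/-! ### the local order -/

/-- **LOCAL-W, the local order**: the translated Weierstrass coordinates generate a local order
on `W'(ℚ̄)[n]` at every valuation subring `A` of good reduction. -/
theorem h61w_locOrder (hW : H61wGood A (W'⁄Kbar)) (hn : 0 < n)
    (hℓ : ∃ ℓ : ℕ, ℓ.Prime ∧ (ℓ : Kbar) ∉ A.nonunits ∧ ¬ ℓ ∣ n ∧ ℓ ≠ 2 ∧ ℓ ≠ 3) :
    H96LocOrder A (h61wAct W' n) (h61wG W' A n) := by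
  obtain ⟨T₀, hT₀⟩ := h61w_exists_QQ hW hℓ
  refine ⟨h61w_int hW, h61w_inert, ?_, h61w_sep hT₀, ?_⟩
  · intro f hf τ hτ
    exact h61w_decomp f hf τ hτ
  · rintro f ⟨Q, hQ, rfl | rfl⟩
    · obtain ⟨m, a, b, ha, hb, hab⟩ := (h61w_comul_mem hW hn hQ).1
      exact ⟨m, a, b, ha, hb, fun x y => hab (x, y)⟩
    · obtain ⟨m, a, b, ha, hb, hab⟩ := (h61w_comul_mem hW hn hQ).2
      exact ⟨m, a, b, ha, hb, fun x y => hab (x, y)⟩

end Fermat.Agent.P7
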