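import Fermat.Agent.P7.H47LocTop
import Fermat.Agent.P7.H61LocFlat

/-!
# Wave 7 (S40), block (4) LOCAL-W CLOSED (helper61): wiring of the short route into the TOP
of helper47

`W : WeierstrassCurve ℤ`, `p` a prime with `p ∤ W.Δ`, `A` a valuation subring of `ℚ̄` over `p`.
UNCONDITIONAL:

* `h61w_locOrder_top` : the local order of `P7/H61LocOrd.lean` in the vocabulary of
  `P7/H47LocTop.lean` (`h47wAct W n` on `H47wX W n`);
* `h61w_flat_top`     : `h97c_Flat p (H47wX W n) (h47wAct W n)`;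
* `h61w_locFlat`      : `S56F.LocFlat p (H47wX W n) (fun τ => h47wAct W n (ιp p τ))`;
* `h61w_locFlat_rho`  : `S56F.LocFlat p (H47wX W p) (fun σ v => h47wRho W p σ v)`, the input
  shape of `h4o_ordPeuRep`.
-/

set_option autoImplicit false
set_option linter.unusedSectionVars false
set_option linter.style.haveILetI false

noncomputable section

namespace Fermat.Agent.P7

theorem h61w_Δ_ne_of_good (W : WeierstrassCurve ℤ) {p : ℕ} (hgood : ¬ (p : ℤ) ∣ W.Δ) :
    W.Δ ≠ 0 := fun h => hgood (h ▸ dvd_zero _)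

/-- the local order, in the vocabulary of the TOP. -/
theorem h61w_locOrder_top (W : WeierstrassCurve ℤ) {p : ℕ} (hp : p.Prime)
    (hgood : ¬ (p : ℤ) ∣ W.Δ) (A : ValuationSubring H47wQb) (hA : A.LiesOverPrime p)
    {n : ℕ} (hn : 0 < n) :
    P5.H96LocOrder A (h47wAct W n) (h61wG (W.map (Int.castRingHom ℚ)) A n) :=
  h61w_locOrder_int W hp hgood hA hn

/-- **LOCAL-W**: `W[n]` is flat at a prime of good reduction. -/
theorem h61w_flat_top (W : WeierstrassCurve ℤ) (p : ℕ) [Fact p.Prime]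
    (hgood : ¬ (p : ℤ) ∣ W.Δ) (A : ValuationSubring H47wQb) (hA : A.LiesOverPrime p)
    {n : ℕ} (hn : 0 < n) :
    P5.h97c_Flat p (H47wX W n) (h47wAct W n) :=
  h47w_flat_of_order W (h61w_Δ_ne_of_good W hgood) p n hn.ne' A hA _
    (h61w_locOrder_top W Fact.out hgood A hA hn)

/-- **LOCAL-W**, local form. -/
theorem h61w_locFlat (W : WeierstrassCurve ℤ) (p : ℕ) [Fact p.Prime]
    (hgood : ¬ (p : ℤ) ∣ W.Δ) (A : ValuationSubring H47wQb) (hA : A.LiesOverPrime p)
    {n : ℕ} (hn : 0 < n) :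
    S56F.LocFlat p (H47wX W n) (fun τ => h47wAct W n (S56F.ιp p τ)) :=
  h47w_locFlat_of_order W (h61w_Δ_ne_of_good W hgood) p n hn.ne' A hA _
    (h61w_locOrder_top W Fact.out hgood A hA hn)

/-- **LOCAL-W**, for the local mod-`p` representation (input shape of `h4o_ordPeuRep`). -/
theorem h61w_locFlat_rho (W : WeierstrassCurve ℤ) (p : ℕ) [Fact p.Prime]
    (hgood : ¬ (p : ℤ) ∣ W.Δ) (A : ValuationSubring H47wQb) (hA : A.LiesOverPrime p) :
    S56F.LocFlat p (H47wX W p) (fun σ v => h47wRho W p σ v) :=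
  h47w_locFlat_rho_of_order W (h61w_Δ_ne_of_good W hgood) p A hA _
    (h61w_locOrder_top W Fact.out hgood A hA (Fact.out : p.Prime).pos)

end Fermat.Agent.P7
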