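import Fermat.Agent.P7.H23ValI1
import Mathlib.LinearAlgebra.Vandermonde
import Mathlib.LinearAlgebra.Matrix.Nondegenerate

/-!
# Wave 7, multiplicative LOCAL block (helper61, prefix `h61m_`): Kummer generators in the
global frame

GLOBAL frame of `P7/H23ValI1.lean`: `A` a valuation subring of `ℚ̄` over `p`,
`I₁ = h23vI1 p A`, `v = A.valuation`.

* `h61m_kummer_ne` : for pairwise distinct `X i` (`i : ZMod p`) and a primitive `p`-th root of
  unity `ζ` some Lagrange resolvent `∑ i, ζ ^ i.val * X i ^ k` is nonzero (Vandermonde).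
* `h61m_kummer_shift` : the resolvent is an eigenvector of every automorphism shifting the `X i`.
* `h61m_unit_gen` : **unit Kummer generator**.  `θ ≠ 0`, `θ ^ p ∈ Fix(I₁)`, `b ∈ I₁`,
  `b θ = ζ θ`; if some unit `η` of `A` fixed by the stabiliser of `θ` in `I₁` has
  `(b η - η) / (ζ - 1) ∉ 𝔪_A`, then `v(θ) = v(c₀)` for some `c₀ ≠ 0` in `Fix(I₁)`.
-/

set_option autoImplicit false
set_option linter.style.haveILetI false
set_option linter.unusedSectionVars false

open Fermat.Agent.S56F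

noncomputable section

namespace Fermat.Agent.P7

section Kummer

variable {K : Type*} [Field K]

/-- the `p`-th roots of unity as a function on `ZMod p`. -/
def h61mE (p : ℕ) (ζ : K) (i : ZMod p) : K := ζ ^ i.val

theorem h61mE_add {p : ℕ} [NeZero p] {ζ : K} (hζ : ζ ^ p = 1) (i j : ZMod p) :
    h61mE p ζ (i + j) = h61mE p ζ i * h61mE p ζ j := by
  unfold h61mE
  rw [ZMod.val_add, ← pow_add, pow_eq_pow_mod (i.val + j.val) hζ]

theorem h61mE_zero {p : ℕ} [NeZero p] (ζ : K) : h61mE p ζ (0 : ZMod p) = 1 := by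
  unfold h61mE
  rw [ZMod.val_zero, pow_zero]

theorem h61mE_ne_zero {p : ℕ} {ζ : K} (hζ0 : ζ ≠ 0) (i : ZMod p) : h61mE p ζ i ≠ 0 :=
  pow_ne_zero _ hζ0

/-- the Lagrange resolvent of the family `X` with exponent `k`. -/
def h61mTheta (p : ℕ) [NeZero p] (ζ : K) (X : ZMod p → K) (k : ℕ) : K :=
  ∑ i : ZMod p, h61mE p ζ i * X i ^ k

/-- **Vandermonde**: some resolvent of pairwise distinct numbers is nonzero. -/
theorem h61m_kummer_ne {p : ℕ} [NeZero p] {ζ : K} (hζ0 : ζ ≠ 0) (X : ZMod p → K)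
    (hX : Function.Injective X) : ∃ k : ℕ, k < p ∧ h61mTheta p ζ X k ≠ 0 := by
  classical
  by_contra hno
  push Not at hno
  -- transport to `Fin p`
  have hp0 : p ≠ 0 := NeZero.ne p
  obtain ⟨n, rfl⟩ : ∃ n, p = n + 1 := Nat.exists_eq_succ_of_ne_zero hp0
  -- `ZMod (n + 1) = Fin (n + 1)` definitionally
  let Y : Fin (n + 1) → K := fun i => X (i : ZMod (n + 1))
  have hY : Function.Injective Y := fun a b h => hX h
  have hdet : (Matrix.vandermonde Y).det ≠ 0 :=
    Matrix.det_vandermonde_ne_zero_iff.mpr hY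
  let w : Fin (n + 1) → K := fun i => h61mE (n + 1) ζ (i : ZMod (n + 1))
  have hw : Matrix.vecMul w (Matrix.vandermonde Y) = 0 := by
    funext k
    have h := hno (k : ℕ) k.2
    simp only [Matrix.vecMul, dotProduct, Matrix.vandermonde_apply, Pi.zero_apply]
    exact h
  have hw0 := Matrix.eq_zero_of_vecMul_eq_zero hdet hw
  have h1 : w 0 = 0 := congrFun hw0 0
  exact h61mE_ne_zero hζ0 _ h1

/-- **shift**: a ring automorphism fixing `ζ` and shifting the family `X` by `c` multiplies the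
resolvent by `ζ ^ (-c)`. -/
theorem h61m_kummer_shift {p : ℕ} [NeZero p] {ζ : K} (hζ : ζ ^ p = 1) (X : ZMod p → K)
    (σ : K →+* K) (hσζ : σ ζ = ζ) (c : ZMod p) (hσ : ∀ i, σ (X i) = X (i + c)) (k : ℕ) :
    σ (h61mTheta p ζ X k) = h61mE p ζ (-c) * h61mTheta p ζ X k := by
  unfold h61mTheta
  rw [map_sum, Finset.mul_sum]
  have h1 : ∀ i : ZMod p, σ (h61mE p ζ i * X i ^ k) =
      h61mE p ζ (-c) * (h61mE p ζ (i + c) * X (i + c) ^ k) := by
    intro i
    rw [map_mul, map_pow, hσ i, ← mul_assoc, ← h61mE_add hζ]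
    have h2 : σ (h61mE p ζ i) = h61mE p ζ i := by
      unfold h61mE
      rw [map_pow, hσζ]
    rw [h2]
    congr 2
    ring
  rw [Finset.sum_congr rfl (fun i _ => h1 i)]
  exact Fintype.sum_equiv (Equiv.addRight c) _ _ (fun i => rfl)

end Kummer

section Unit

variable {p : ℕ} [Fact p.Prime]

/-- if a power `θ ^ d`, `0 < d < p`, has the valuation of an element of `Fix(I₁)`, so has
`θ` (Bézout). -/
theorem h61m_val_of_pow (A : ValuationSubring Qb) {θ : Qb} (hθ0 : θ ≠ 0)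
    (hθ : ∀ a ∈ h23vI1 p A, a (θ ^ p) = θ ^ p) {d : ℕ} (hd0 : 0 < d) (hdp : d < p)
    {c : Qb} (hc0 : c ≠ 0) (hc : ∀ a ∈ h23vI1 p A, a c = c)
    (hv : A.valuation θ ^ d = A.valuation c) :
    ∃ c₀ : Qb, c₀ ≠ 0 ∧ (∀ a ∈ h23vI1 p A, a c₀ = c₀) ∧ A.valuation c₀ = A.valuation θ := by
  have hp : p.Prime := Fact.out
  have hcop : Nat.Coprime d p :=
    Nat.Coprime.symm ((Nat.Prime.coprime_iff_not_dvd hp).mpr (Nat.not_dvd_of_pos_of_lt hd0 hdp))
  have hbez : (d : ℤ) * Nat.gcdA d p + (p : ℤ) * Nat.gcdB d p = 1 := by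
    have h := Nat.gcd_eq_gcd_ab d p
    rw [hcop.gcd_eq_one] at h
    push_cast at h
    linarith
  have hvθ0 : A.valuation θ ≠ 0 := (Valuation.ne_zero_iff _).mpr hθ0
  refine ⟨c ^ (Nat.gcdA d p) * (θ ^ p) ^ (Nat.gcdB d p), ?_, ?_, ?_⟩
  · exact mul_ne_zero (zpow_ne_zero _ hc0) (zpow_ne_zero _ (pow_ne_zero _ hθ0))
  · intro a ha
    rw [map_mul, map_zpow₀, map_zpow₀, hc a ha, hθ a ha]
  · rw [map_mul, map_zpow₀, map_zpow₀, map_pow, ← hv, ← zpow_natCast, ← zpow_natCast,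
      ← zpow_mul, ← zpow_mul, ← zpow_add₀ hvθ0, hbez, zpow_one]

/-- a root of unity is a unit of `A`. -/
theorem h61m_val_root (A : ValuationSubring Qb) {ζ : Qb} {n : ℕ} (hn : n ≠ 0)
    (hζ : ζ ^ n = 1) : A.valuation ζ = 1 := by
  have h1 : A.valuation ζ ^ n = 1 := by rw [← map_pow, hζ, map_one]
  rcases lt_trichotomy (A.valuation ζ) 1 with h | h | h
  · exact absurd h1 (pow_lt_one₀ zero_le h hn).ne
  · exact h
  · exact absurd h1 (one_lt_pow₀ h hn).ne'

/-- **unit Kummer generator.**  If some unit of `Fix(Stab θ)` is moved by `b` exactly at the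
depth `ζ - 1`, the Kummer generator `θ` has the valuation of an element of `Fix(I₁)`. -/
theorem h61m_unit_gen (A : ValuationSubring Qb)
    {ζ θ : Qb} (hζ : IsPrimitiveRoot ζ p) (hθ0 : θ ≠ 0)
    (hθ : ∀ a ∈ h23vI1 p A, a (θ ^ p) = θ ^ p)
    {b : GQ} (hb : b ∈ h23vI1 p A) (hbθ : b θ = ζ * θ)
    {η : Qb} (hη0 : η ≠ 0) (hη1 : η ∈ A) (hη2 : η⁻¹ ∈ A)
    (hηfix : ∀ a ∈ h23vI1 p A, a θ = θ → a η = η)
    (hshallow : (b η - η) * (ζ - 1)⁻¹ ∉ A.nonunits) :
    ∃ c₀ : Qb, c₀ ≠ 0 ∧ (∀ a ∈ h23vI1 p A, a c₀ = c₀) ∧ A.valuation c₀ = A.valuation θ := by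
  classical
  have hp : p.Prime := Fact.out
  by_contra hno
  push Not at hno
  obtain ⟨c, hc, hsum⟩ := h23v_resolvent A hθ0 hθ hηfix
  have hvθ0 : A.valuation θ ≠ 0 := (Valuation.ne_zero_iff _).mpr hθ0
  -- no coincidences
  have hL : ∀ d : ℕ, 0 < d → d < p → ∀ c' : Qb, c' ≠ 0 → (∀ a ∈ h23vI1 p A, a c' = c') →
      A.valuation θ ^ d ≠ A.valuation c' := by
    intro d hd0 hdp c' hc'0 hc' h
    obtain ⟨c₀, h0, h1, h2⟩ := h61m_val_of_pow A hθ0 hθ hd0 hdp hc'0 hc' h
    exact hno c₀ h0 h1 h2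
  set f : ℕ → Qb := fun j => c j * θ ^ j with hf
  have hfne : ∀ j, f j ≠ 0 → c j ≠ 0 := by
    intro j hj h
    apply hj
    simp only [hf, h, zero_mul]
  -- distinct valuations
  have hA : ∀ i j : ℕ, i < j → j < p → f i ≠ 0 → f j ≠ 0 →
      A.valuation (f i) ≠ A.valuation (f j) := by
    intro i j hij hjp hi hj h
    have hci := hfne i hi
    have hcj := hfne j hj
    simp only [hf, map_mul, map_pow] at h
    have hsplit : A.valuation θ ^ j = A.valuation θ ^ (j - i) * A.valuation θ ^ i := by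
      rw [← pow_add, Nat.sub_add_cancel hij.le]
    rw [hsplit, ← mul_assoc] at h
    have h2 := mul_right_cancel₀ (pow_ne_zero i hvθ0) h
    have hvcj : A.valuation (c j) ≠ 0 := (Valuation.ne_zero_iff _).mpr hcj
    have h3 : A.valuation θ ^ (j - i) = A.valuation (c i * (c j)⁻¹) := by
      rw [map_mul, map_inv₀, h2, mul_comm (A.valuation (c j)), mul_assoc,
        mul_inv_cancel₀ hvcj, mul_one]
    refine hL (j - i) (Nat.sub_pos_of_lt hij) (lt_of_le_of_lt (Nat.sub_le j i) hjp) _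
      (mul_ne_zero hci (inv_ne_zero hcj)) ?_ h3
    intro a ha
    rw [map_mul, map_inv₀, hc i a ha, hc j a ha]
  have hA' : ∀ i j : ℕ, i ≠ j → i < p → j < p → f i ≠ 0 → f j ≠ 0 →
      A.valuation (f i) ≠ A.valuation (f j) := by
    intro i j hij hi hj hfi hfj
    rcases lt_or_gt_of_ne hij with h | h
    · exact hA i j h hj hfi hfj
    · exact (hA j i h hi hfj hfi).symm
  -- the dominant term
  set S : Finset ℕ := (Finset.range p).filter (fun j => f j ≠ 0) with hS
  have hSne : S.Nonempty := by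
    by_contra h
    rw [Finset.not_nonempty_iff_eq_empty] at h
    apply hη0
    rw [hsum]
    refine Finset.sum_eq_zero fun j hj => ?_
    by_contra hj0
    have : j ∈ S := Finset.mem_filter.mpr ⟨hj, hj0⟩
    rw [h] at this
    exact absurd this (Finset.notMem_empty j)
  obtain ⟨j₀, hj₀S, hj₀max⟩ := S.exists_max_image (fun j => A.valuation (f j)) hSne
  have hj₀ := Finset.mem_filter.mp hj₀S
  have hj₀p : j₀ < p := Finset.mem_range.mp hj₀.1
  have hvj₀ : A.valuation (f j₀) ≠ 0 := (Valuation.ne_zero_iff _).mpr hj₀.2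
  have hlt : ∀ i ∈ Finset.range p \ {j₀}, A.valuation (f i) < A.valuation (f j₀) := by
    intro i hi
    rw [Finset.mem_sdiff, Finset.mem_singleton] at hi
    by_cases hfi : f i = 0
    · rw [hfi, map_zero]
      exact zero_lt_iff.mpr hvj₀
    · have hiS : i ∈ S := Finset.mem_filter.mpr ⟨hi.1, hfi⟩
      exact lt_of_le_of_ne (hj₀max i hiS)
        (hA' i j₀ hi.2 (Finset.mem_range.mp hi.1) hj₀p hfi hj₀.2)
  have hvη : A.valuation η = A.valuation (f j₀) := by
    rw [hsum]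
    exact Valuation.map_sum_eq_of_lt _ hj₀.1 hlt
  have hvη1 : A.valuation η = 1 := h23v_val_eq_one hη0 hη1 hη2
  have hj₀0 : j₀ = 0 := by
    by_contra hne
    have h1 : A.valuation (c j₀) * A.valuation θ ^ j₀ = 1 := by
      rw [← hvη1, hvη]
      simp only [hf, map_mul, map_pow]
    have hcj := hfne j₀ hj₀.2
    have hvcj : A.valuation (c j₀) ≠ 0 := (Valuation.ne_zero_iff _).mpr hcj
    have h2 : A.valuation θ ^ j₀ = A.valuation (c j₀)⁻¹ := by
      rw [map_inv₀]
      exact eq_inv_of_mul_eq_one_right h1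
    refine hL j₀ (Nat.pos_of_ne_zero hne) hj₀p _ (inv_ne_zero hcj) ?_ h2
    intro a ha
    rw [map_inv₀, hc j₀ a ha]
  have hsmall : ∀ j ∈ Finset.range p, j ≠ 0 → A.valuation (f j) < 1 := by
    intro j hj hj0
    have := hlt j (by
      rw [Finset.mem_sdiff, Finset.mem_singleton]
      exact ⟨hj, by rw [hj₀0]; exact hj0⟩)
    rwa [← hvη, hvη1] at this
  -- the variation of `η`
  have hζp : ζ ^ p = 1 := hζ.pow_eq_one
  have hvζ : A.valuation ζ = 1 := h61m_val_root A hp.ne_zero hζp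
  have hζ1 : ζ - 1 ≠ 0 := sub_ne_zero.mpr (hζ.ne_one hp.one_lt)
  have hbf : ∀ j, b (f j) = ζ ^ j * f j := by
    intro j
    simp only [hf]
    rw [map_mul, map_pow, hc j b hb, hbθ, mul_pow]
    ring
  have hvar : (b η - η) * (ζ - 1)⁻¹ =
      ∑ j ∈ Finset.range p, (∑ i ∈ Finset.range j, ζ ^ i) * f j := by
    rw [hsum, map_sum, ← Finset.sum_sub_distrib, Finset.sum_mul]
    refine Finset.sum_congr rfl fun j _ => ?_
    rw [hbf j]
    have hg : ζ ^ j - 1 = (ζ - 1) * ∑ i ∈ Finset.range j, ζ ^ i := (mul_geom_sum ζ j).symm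
    have : ζ ^ j * f j - f j = (ζ ^ j - 1) * f j := by ring
    rw [this, hg]
    field_simp
  apply hshallow
  rw [ValuationSubring.mem_nonunits_iff, hvar]
  refine Valuation.map_sum_lt _ one_ne_zero fun j hj => ?_
  by_cases hj0 : j = 0
  · rw [hj0, Finset.range_zero, Finset.sum_empty, zero_mul, map_zero]
    exact zero_lt_one
  · rw [map_mul]
    have h1 : A.valuation (∑ i ∈ Finset.range j, ζ ^ i) ≤ 1 := by
      refine Valuation.map_sum_le _ fun i _ => ?_
      rw [map_pow, hvζ, one_pow]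
    calc A.valuation (∑ i ∈ Finset.range j, ζ ^ i) * A.valuation (f j)
        ≤ 1 * A.valuation (f j) := by gcongr
      _ < 1 := by rw [one_mul]; exact hsmall j hj hj0

end Unit

end Fermat.Agent.P7
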