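import Mathlib

/-!
# Wave 7 (S40), block (4) LOCAL-W, short route (helper61): Sweedler forms over any base

`R` a commutative ring, `K` a commutative `R`-algebra, `M`, `N` types.

* `h61wSw C D F` : the function `F : M × N → K` is a finite sum of products `a i x * b i y`,
  `a i ∈ C`, `b i ∈ D` (`C`, `D` subalgebras of functions).
* `h61wSwAlg C D` : these functions form an `R`-subalgebra of `M × N → K`.
* `h61w_inv_mem` : in a subalgebra `T` (over a valuation subring `A` of a field `K`) of functions
  on a FINITE type, a function all of whose values are units of `A` has its pointwise inverse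
  in `T` (the polynomial `∏ (X - u y)` has coefficients in `A` and a unit constant term).
-/

set_option autoImplicit false
set_option linter.unusedSectionVars false
set_option linter.style.haveILetI false

namespace Fermat.Agent.P7

section Sw

variable {R : Type*} [CommRing R] {K : Type*} [CommRing K] [Algebra R K] {M N : Type*}

/-- `F` is a finite sum of products `a i x * b i y`, `a i ∈ C`, `b i ∈ D`. -/
def h61wSw (C : Subalgebra R (M → K)) (D : Subalgebra R (N → K)) (F : M × N → K) : Prop :=
  ∃ (n : ℕ) (a : Fin n → M → K) (b : Fin n → N → K),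
    (∀ i, a i ∈ C) ∧ (∀ i, b i ∈ D) ∧ ∀ z : M × N, F z = ∑ i, a i z.1 * b i z.2

variable (C : Subalgebra R (M → K)) (D : Subalgebra R (N → K))

theorem h61wSw_zero : h61wSw C D 0 :=
  ⟨0, fun i => i.elim0, fun i => i.elim0, fun i => i.elim0, fun i => i.elim0,
    fun _ => by simp⟩

theorem h61wSw_tmul {a : M → K} {b : N → K} (ha : a ∈ C) (hb : b ∈ D) :
    h61wSw C D (fun z => a z.1 * b z.2) :=
  ⟨1, fun _ => a, fun _ => b, fun _ => ha, fun _ => hb, fun _ => by simp⟩

theorem h61wSw_add {F G : M × N → K} (hF : h61wSw C D F) (hG : h61wSw C D G) :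
    h61wSw C D (F + G) := by
  obtain ⟨n, a, b, ha, hb, hab⟩ := hF
  obtain ⟨n', a', b', ha', hb', hab'⟩ := hG
  refine ⟨n + n', Fin.append a a', Fin.append b b', ?_, ?_, ?_⟩
  · intro i
    refine Fin.addCases (fun j => ?_) (fun j => ?_) i
    · rw [Fin.append_left]; exact ha j
    · rw [Fin.append_right]; exact ha' j
  · intro i
    refine Fin.addCases (fun j => ?_) (fun j => ?_) i
    · rw [Fin.append_left]; exact hb j
    · rw [Fin.append_right]; exact hb' j
  · intro z
    rw [Pi.add_apply, Fin.sum_univ_add, hab, hab']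
    simp only [Fin.append_left, Fin.append_right]

theorem h61wSw_sum {ι : Type*} (s : Finset ι) {F : ι → M × N → K}
    (hF : ∀ i ∈ s, h61wSw C D (F i)) : h61wSw C D (∑ i ∈ s, F i) := by
  classical
  induction s using Finset.induction_on with
  | empty =>
    rw [Finset.sum_empty]
    exact h61wSw_zero C D
  | insert i s hi ih =>
    rw [Finset.sum_insert hi]
    exact h61wSw_add C D (hF i (Finset.mem_insert_self i s))
      (ih fun j hj => hF j (Finset.mem_insert_of_mem hj))

theorem h61wSw_mul_tmul {F : M × N → K} (hF : h61wSw C D F) {a : M → K} {b : N → K}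
    (ha : a ∈ C) (hb : b ∈ D) : h61wSw C D (F * fun z => a z.1 * b z.2) := by
  obtain ⟨n, a', b', ha', hb', hab'⟩ := hF
  refine ⟨n, fun i => a' i * a, fun i => b' i * b, fun i => mul_mem (ha' i) ha,
    fun i => mul_mem (hb' i) hb, fun z => ?_⟩
  rw [Pi.mul_apply, hab', Finset.sum_mul]
  refine Finset.sum_congr rfl fun i _ => ?_
  simp only [Pi.mul_apply]
  ring

theorem h61wSw_mul {F G : M × N → K} (hF : h61wSw C D F) (hG : h61wSw C D G) :
    h61wSw C D (F * G) := by
  obtain ⟨n, a, b, ha, hb, hab⟩ := hG
  have h1 := h61wSw_sum C D (Finset.univ : Finset (Fin n))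
    (F := fun i => F * fun z => a i z.1 * b i z.2)
    (fun i _ => h61wSw_mul_tmul C D hF (ha i) (hb i))
  have e : F * G = ∑ i : Fin n, F * fun z => a i z.1 * b i z.2 := by
    funext z
    rw [Pi.mul_apply, hab, Finset.sum_apply, Finset.mul_sum]
    rfl
  rw [e]
  exact h1

theorem h61wSw_algebraMap (r : R) : h61wSw C D (algebraMap R (M × N → K) r) := by
  have h := h61wSw_tmul C D (C.algebraMap_mem r) (one_mem D)
  have e : (algebraMap R (M × N → K) r) =
      fun z : M × N => (algebraMap R (M → K) r) z.1 * (1 : N → K) z.2 := by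
    funext z
    simp [Pi.algebraMap_apply]
  rw [e]
  exact h

/-- The Sweedler forms, as a subalgebra of the functions on `M × N`. -/
def h61wSwAlg : Subalgebra R (M × N → K) where
  carrier := {F | h61wSw C D F}
  mul_mem' := fun hF hG => h61wSw_mul C D hF hG
  add_mem' := fun hF hG => h61wSw_add C D hF hG
  algebraMap_mem' := fun r => h61wSw_algebraMap C D r

theorem h61w_mem_swAlg {F : M × N → K} : F ∈ h61wSwAlg C D ↔ h61wSw C D F := Iff.rfl

theorem h61w_fst_mem {a : M → K} (ha : a ∈ C) : (fun z : M × N => a z.1) ∈ h61wSwAlg C D := by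
  have h := h61wSw_tmul C D ha (one_mem D)
  have e : (fun z : M × N => a z.1) = fun z : M × N => a z.1 * (1 : N → K) z.2 := by
    funext z
    simp
  rw [h61w_mem_swAlg, e]
  exact h

theorem h61w_snd_mem {b : N → K} (hb : b ∈ D) : (fun z : M × N => b z.2) ∈ h61wSwAlg C D := by
  have h := h61wSw_tmul C D (one_mem C) hb
  have e : (fun z : M × N => b z.2) = fun z : M × N => (1 : M → K) z.1 * b z.2 := by
    funext z
    simp
  rw [h61w_mem_swAlg, e]
  exact h

end Sw

section Inv

open Polynomial

variable {K : Type*} [Field K] (A : ValuationSubring K) {Y : Type*} [Finite Y]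

/-- In a subalgebra of functions on a finite type, a function with unit values has its
pointwise inverse in the subalgebra. -/
theorem h61w_inv_mem (T : Subalgebra A (Y → K)) (u : Y → K) (hu : u ∈ T)
    (hA : ∀ y, u y ∈ A) (hunit : ∀ y, u y ∉ A.nonunits) :
    (fun y => (u y)⁻¹) ∈ T := by
  classical
  letI : Fintype Y := Fintype.ofFinite Y
  -- the polynomial with roots the values of `u`
  let P : A[X] := ∏ y : Y, (X - C (⟨u y, hA y⟩ : A))
  have hP0 : aeval u P = 0 := by
    funext y₀
    have h1 : (aeval u P) y₀ = aeval (u y₀) P := by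
      have := Polynomial.aeval_algHom_apply (Pi.evalAlgHom A (fun _ : Y => K) y₀) u P
      exact this.symm
    rw [h1, Pi.zero_apply]
    show aeval (u y₀) (∏ y : Y, (X - C (⟨u y, hA y⟩ : A))) = 0
    rw [map_prod]
    refine Finset.prod_eq_zero (Finset.mem_univ y₀) ?_
    rw [map_sub, aeval_X, aeval_C]
    exact sub_self _
  -- its constant term is a unit
  have hc : IsUnit (P.coeff 0) := by
    have h2 : P.coeff 0 = ∏ y : Y, (-(⟨u y, hA y⟩ : A)) := by
      rw [Polynomial.coeff_zero_eq_eval_zero]
      show eval 0 (∏ y : Y, (X - C (⟨u y, hA y⟩ : A))) = _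
      rw [Polynomial.eval_prod]
      refine Finset.prod_congr rfl fun y _ => ?_
      simp
    rw [h2]
    refine IsUnit.prod_univ_iff.2 fun y => ?_ 
    rw [IsUnit.neg_iff]
    by_contra hnu
    apply hunit y
    rw [ValuationSubring.mem_nonunits_iff_exists_mem_maximalIdeal]
    exact ⟨hA y, (IsLocalRing.mem_maximalIdeal _).2 hnu⟩
  obtain ⟨c, hcc⟩ := hc
  -- `P = divX P * X + C (coeff 0)`
  have hdiv : P = P.divX * X + C (P.coeff 0) := (Polynomial.divX_mul_X_add P).symm
  have h3 : aeval u P.divX * u + algebraMap A (Y → K) (P.coeff 0) = 0 := by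
    have := congrArg (aeval u) hdiv
    rw [hP0, map_add, map_mul, aeval_X, aeval_C] at this
    exact this.symm
  have hmem : aeval u P.divX ∈ T := by
    have := (aeval (⟨u, hu⟩ : T) P.divX).2
    have e : ((aeval (⟨u, hu⟩ : T) P.divX : T) : Y → K) = aeval u P.divX := by
      have := Polynomial.aeval_algHom_apply T.val (⟨u, hu⟩ : T) P.divX
      exact this.symm
    rw [← e]
    exact this
  have hinv : (fun y => (u y)⁻¹) = (-(↑(c⁻¹) : A)) • aeval u P.divX := by
    funext y
    have h4 := congrFun h3 y
    rw [Pi.add_apply, Pi.mul_apply, Pi.zero_apply, Pi.algebraMap_apply] at h4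
    have hu0 : u y ≠ 0 := by
      intro h0
      apply hunit y
      rw [h0]
      exact zero_mem _
    have hc1 : ((↑(c⁻¹) : A) : K) * ((P.coeff 0 : A) : K) = 1 := by
      rw [← hcc]
      have h7 : ((↑(c⁻¹) : A) * (↑c : A)) = 1 := Units.inv_mul c
      have h8 := congrArg (fun a : A => (a : K)) h7
      exact h8
    rw [Pi.smul_apply]
    have h5 : (-(↑(c⁻¹) : A)) • (aeval u P.divX) y
        = -((↑(c⁻¹) : A) : K) * (aeval u P.divX) y := by
      rw [Algebra.smul_def]
      rfl
    rw [h5]
    have h6 : (algebraMap A K) (P.coeff 0) = ((P.coeff 0 : A) : K) := rfl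
    rw [h6] at h4
    have h9 : -((↑(c⁻¹) : A) : K) * (aeval u P.divX) y * u y = 1 := by
      linear_combination (-((↑(c⁻¹) : A) : K)) * h4 + hc1
    exact (eq_inv_of_mul_eq_one_left h9).symm
  rw [hinv]
  exact Subalgebra.smul_mem T hmem _

end Inv

end Fermat.Agent.P7
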