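import Fermat.Agent.P6.H62PuritySmInst
import Fermat.Agent.P6.H56Perm
import Fermat.Agent.S35.H21TorCusp
import Fermat.Agent.LGC.H4Cusp
import Fermat.Agent.LGC.H31Comp

/-!
# P7 (wave 7), block (5b), leaf T-C3-NF, CUSPS (helper62): the smooth datum at the cusps of the
chart at infinity of level `M ℓ`, with a Galois-fixed local parameter

`B₁ = chart (M ℓ) A (jSS M ℓ)⁻¹`, `𝔫` a maximal ideal of `B₁` containing `V = 1 / jSS`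
(`h4c_V`), lying on `C∞` (`h85cPinf ≤ 𝔫`) or on `C₀` (`h85cP0 ≤ 𝔫`): the index types
`H78lCuspInf`, `H78lCuspZero` of `P7/H78ChartIface.lean`.

* `h62cu_orbit_prod` (abstract, Mathlib only): a polynomial divides a polynomial fixed by a group
  acting with finite orbits on the coefficients (product over the orbit);
* `h62cu_LP_rat_inf` : a RATIONAL local parameter at every closed point of the special fibre of
  the chart at infinity of level `M`;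
* `h62cu_cusp_inf` : at a cusp on `C∞`: `t = α t₁ ∈ B₁`, fixed by the whole Galois group, with
  the smooth datum `H62ySmooth B₁ ssV chartVal W∞ W₀ 𝔫 t`;
* `h62cu_cusp_zero` : at a cusp on `C₀`: `t = S ^ E · β t₁ ∈ B₁`, fixed by the inertia group at
  `A`, with the smooth datum `H62ySmooth B₁ ssV chartVal W₀ W∞ 𝔫 t`.
-/

set_option autoImplicit false
set_option linter.unusedSectionVars false
set_option linter.unusedVariables false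
set_option linter.style.longLine false
set_option linter.style.haveILetI false
set_option synthInstance.maxHeartbeats 400000

open AlgebraicCurve ModularCurve WithZero IsLocalRing Polynomial

noncomputable section

namespace Fermat.Agent.P7

/-! ### The product over a finite orbit -/

section Orbit

variable {A : Type*} [CommRing A] {G : Type*} [Group G]

/-- the orbit of a polynomial under a family of ring endomorphisms with finite orbits on the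
elements is finite. -/
theorem h62cu_orbit_finite (θ : G → A →+* A)
    (hfin : ∀ a : A, (Set.range fun σ => θ σ a).Finite) (s : A[X]) :
    (Set.range fun σ => s.map (θ σ)).Finite := by
  classical
  set d := s.natDegree with hd
  set U : Set A := ⋃ k ∈ Finset.range (d + 1), Set.range fun σ => θ σ (s.coeff k) with hU
  have hUfin : U.Finite :=
    Set.Finite.biUnion (Finset.finite_toSet _) fun k _ => hfin _
  let π : A[X] → Fin (d + 1) → A := fun f i => f.coeff i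
  have hfinset : {f : A[X] | f.natDegree ≤ d ∧ ∀ i : Fin (d + 1), f.coeff i ∈ U}.Finite := by
    refine ((Set.Finite.pi fun _ => hUfin).subset ?_).of_finite_image (?_ : Set.InjOn π _)
    · exact Set.image_subset_iff.2 fun f hf i _ => hf.2 i
    · refine fun x hx y hy hxy => (ext_iff_natDegree_le hx.1 hy.1).2 fun i hi => ?_
      exact id congr_fun hxy ⟨i, Nat.lt_succ_of_le hi⟩
  refine hfinset.subset ?_
  rintro _ ⟨σ, rfl⟩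
  refine ⟨natDegree_map_le, fun i => ?_⟩
  rw [coeff_map]
  exact Set.mem_biUnion (Finset.mem_coe.mpr (Finset.mem_range.mpr i.2)) ⟨σ, rfl⟩

/-- **the product over the orbit**: `s` divides a polynomial `s'` fixed by the action, with
`s'(0) = 1` when `s(0) = 1`. -/
theorem h62cu_orbit_prod (θ : G → A →+* A) (hone : ∀ a, θ 1 a = a)
    (hmul : ∀ σ τ a, θ (σ * τ) a = θ σ (θ τ a))
    (hfin : ∀ a : A, (Set.range fun σ => θ σ a).Finite) (s : A[X]) :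
    ∃ s' : A[X], s ∣ s' ∧ (s.coeff 0 = 1 → s'.coeff 0 = 1) ∧ ∀ τ, s'.map (θ τ) = s' := by
  classical
  have hO := h62cu_orbit_finite θ hfin s
  have hmem : ∀ q, q ∈ hO.toFinset ↔ ∃ σ, s.map (θ σ) = q := by
    intro q
    rw [Set.Finite.mem_toFinset]
    exact Set.mem_range
  have hcomp : ∀ σ τ : G, (θ τ).comp (θ σ) = θ (τ * σ) := by
    intro σ τ
    ext a
    rw [RingHom.comp_apply, hmul]
  have hid : θ 1 = RingHom.id A := by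
    ext a
    rw [hone, RingHom.id_apply]
  refine ⟨∏ q ∈ hO.toFinset, q, ?_, ?_, ?_⟩
  · refine Finset.dvd_prod_of_mem _ ((hmem s).mpr ⟨1, ?_⟩)
    rw [hid, Polynomial.map_id]
  · intro hs
    rw [coeff_zero_eq_eval_zero, eval_prod]
    refine Finset.prod_eq_one fun q hq => ?_
    obtain ⟨σ, rfl⟩ := (hmem q).mp hq
    rw [← coeff_zero_eq_eval_zero, coeff_map, hs, map_one]
  · intro τ
    rw [Polynomial.map_prod]
    refine Finset.prod_bij' (fun q _ => q.map (θ τ)) (fun q _ => q.map (θ τ⁻¹)) ?_ ?_ ?_ ?_ ?_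
    · intro q hq
      obtain ⟨σ, rfl⟩ := (hmem q).mp hq
      refine (hmem _).mpr ⟨τ * σ, ?_⟩
      rw [Polynomial.map_map, hcomp]
    · intro q hq
      obtain ⟨σ, rfl⟩ := (hmem q).mp hq
      refine (hmem _).mpr ⟨τ⁻¹ * σ, ?_⟩
      rw [Polynomial.map_map, hcomp]
    · intro q _
      rw [Polynomial.map_map, hcomp, inv_mul_cancel, hid, Polynomial.map_id]
    · intro q _
      rw [Polynomial.map_map, hcomp, mul_inv_cancel, hid, Polynomial.map_id]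
    · intro q _
      rfl

end Orbit

open Fermat.Agent.S37 Fermat.Agent.S37.GalI Fermat.Agent.Red Fermat.Agent.Red.GG
  Fermat.Agent.Red.GV Fermat.Agent.Red.GV.Soft Fermat.Agent.Red.Kron Fermat.Agent.Red.KR
  Fermat.Agent.Red.ModelO Fermat.Agent.LGC Fermat.Agent.S35 Fermat.Agent.P6 Fermat.Agent.S28

/-! ### The inertia group on the polynomials with coefficients in `A` -/

section Inertia

variable (A : ValuationSubring Kbar)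

/-- the orbits of the inertia group on `A` are finite. -/
theorem h62cu_theta_orbit_finite (a : A) :
    (Set.range fun σ : ↥(A.inertiaSubgroupIn ℚ) => h56pTheta A σ.2 a).Finite := by
  haveI : Algebra.IsAlgebraic ℚ Kbar := AlgebraicClosure.isAlgebraic ℚ
  have hint : IsIntegral ℚ (a : Kbar) := (Algebra.IsAlgebraic.isAlgebraic (a : Kbar)).isIntegral
  have hfinK : ((minpoly ℚ (a : Kbar)).rootSet Kbar).Finite := Polynomial.rootSet_finite _ _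
  refine Set.Finite.of_finite_image (f := (Subtype.val : A → Kbar)) (hfinK.subset ?_)
    Subtype.val_injective.injOn
  rintro _ ⟨_, ⟨σ, rfl⟩, rfl⟩
  show ((h56pTheta A σ.2 a : A) : Kbar) ∈ _
  rw [h56p_coe_theta, Polynomial.mem_rootSet]
  refine ⟨minpoly.ne_zero hint, ?_⟩
  have h1 : minpoly ℚ ((σ : GQ) (a : Kbar)) = minpoly ℚ (a : Kbar) :=
    minpoly.algEquiv_eq (σ : GQ) (a : Kbar)
  rw [← h1]
  exact minpoly.aeval ℚ _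

theorem h62cu_theta_one (a : A) :
    h56pTheta A (1 : ↥(A.inertiaSubgroupIn ℚ)).2 a = a := by
  apply Subtype.ext
  rw [h56p_coe_theta]
  rfl

theorem h62cu_theta_mul (σ τ : ↥(A.inertiaSubgroupIn ℚ)) (a : A) :
    h56pTheta A (σ * τ).2 a = h56pTheta A σ.2 (h56pTheta A τ.2 a) := by
  apply Subtype.ext
  rw [h56p_coe_theta, h56p_coe_theta, h56p_coe_theta]
  rfl

/-- `τ (s(t)) = (τ s)(t)` for `t` fixed by `τ`. -/
theorem h62cu_gal_evalF (N : ℕ) {τ : GQ} (hτ : τ ∈ A.inertiaSubgroupIn ℚ) (t : FF N)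
    (ht : gal N τ • t = t) (s : A[X]) :
    gal N τ • evalF N A t s = evalF N A t (s.map (h56pTheta A hτ)) := by
  induction s using Polynomial.induction_on with
  | C a =>
    rw [Polynomial.map_C, evalF_C, evalF_C, GalI.gal_smul_cst]
    rfl
  | add p q hp hq => rw [map_add, smul_add, hp, hq, Polynomial.map_add, map_add]
  | monomial n a h =>
    have e1 : (C a * X ^ (n + 1) : A[X]) = C a * X ^ n * X := by rw [pow_succ, mul_assoc]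
    have e2 : (C a * X ^ n * X : A[X]).map (h56pTheta A hτ) =
        (C a * X ^ n : A[X]).map (h56pTheta A hτ) * X := by
      rw [Polynomial.map_mul, Polynomial.map_X]
    rw [e1, map_mul, smul_mul', h, evalF_X, ht, e2, map_mul, evalF_X]

/-- a polynomial `s`, `s(0) = 1`, divides a polynomial `s'`, `s'(0) = 1`, fixed by the inertia
group. -/
theorem h62cu_exists_fixed (s : A[X]) (hs : s.coeff 0 = 1) :
    ∃ s' : A[X], s ∣ s' ∧ s'.coeff 0 = 1 ∧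
      ∀ (τ : GQ) (hτ : τ ∈ A.inertiaSubgroupIn ℚ), s'.map (h56pTheta A hτ) = s' := by
  obtain ⟨s', h1, h2, h3⟩ := h62cu_orbit_prod
    (fun σ : ↥(A.inertiaSubgroupIn ℚ) => h56pTheta A σ.2)
    (h62cu_theta_one A) (h62cu_theta_mul A) (h62cu_theta_orbit_finite A) s
  exact ⟨s', h1, h2 hs, fun τ hτ => h3 ⟨τ, hτ⟩⟩

end Inertia

/-! ### A rational local parameter at the closed points of the chart at infinity of level `M` -/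

section LevelM

variable (A : ValuationSubring Kbar) (M : ℕ) {ℓ : ℕ} [NeZero M] [NeZero ℓ]

/-- the Galois-fixed elements of the chart at infinity of level `M`. -/
def h62cuR : Subring (chart M A (jB M)⁻¹) :=
  (h62x_fixed M).comap (chart M A (jB M)⁻¹).val.toRingHom

theorem h62cu_mem_R (u : chart M A (jB M)⁻¹) : u ∈ h62cuR A M ↔ IsRat (u : FF M) :=
  h62x_mem_fixed_iff_isRat M (u : FF M)

/-- **a rational local parameter** at every closed point of the special fibre of the chart at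
infinity of level `M`; it is a unit of the Gauss ring. -/
theorem h62cu_LP_rat_inf (hℓ : ℓ.Prime) (hM : ¬ ℓ ∣ M) (haux : auxLevel ℓ ∣ M)
    (hA : A.LiesOverPrime ℓ) (𝔰 : Ideal (chart M A (jB M)⁻¹)) (h𝔰 : 𝔰.IsMaximal)
    (hle : (maximalIdeal A).map (algebraMap A (chart M A (jB M)⁻¹)) ≤ 𝔰) :
    ∃ t₁ ∈ 𝔰, (((t₁ : FF M) ≠ 0 ∧ (t₁ : FF M)⁻¹ ∈ gaussV A M) ∧ IsRat (t₁ : FF M)) ∧
      ∀ y ∈ 𝔰, ∃ s, s ∉ 𝔰 ∧
        s * y ∈ Ideal.span {t₁} ⊔ (maximalIdeal A).map (algebraMap A (chart M A (jB M)⁻¹)) := by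
  have hded := h13l_hded_inf M A hℓ hM haux hA
  have hnf := h13l_hnf_inf M A hℓ hM hA
  set 𝔪 : Ideal (chart M A (jB M)⁻¹) :=
    (maximalIdeal A).map (algebraMap A (chart M A (jB M)⁻¹)) with h𝔪def
  haveI h𝔪prime : 𝔪.IsPrime := (Ideal.Quotient.isDomain_iff_prime 𝔪).mp hded.toIsDomain
  haveI h𝔰p : 𝔰.IsPrime := h𝔰.isPrime
  have hne : ¬ 𝔰 ≤ 𝔪 := by
    intro hle'
    have h1 : 𝔪 = 𝔰 := le_antisymm hle hle'
    apply hnf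
    have h2 : 𝔪.IsMaximal := h1 ▸ h𝔰
    exact (Ideal.Quotient.maximal_ideal_iff_isField_quotient 𝔪).mp h2
  obtain ⟨t₀, ht₀, -, -, hall⟩ :=
    h67_ifaceLocalUnif_inf M A Fermat.Agent.Red.SM.h13_ifaceSmooth hℓ hM haux hA 𝔰 h𝔰 hle
  obtain ⟨u, huR, hu⟩ := h62l_exists_LP_mem 𝔪 𝔰 hle hne
    (fun a ha => Ideal.mem_map_of_mem _ ha) (h62cuR A M)
    (h31c_span_rat_inf A M hℓ hM hA (h62cuR A M) (fun u hu => (h62cu_mem_R A M u).mpr hu))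
    (h13l_hres M A (jB M)⁻¹ 𝔰 h𝔰 hle) (h62d_sep A hℓ hA) (t₁ := t₀) ⟨ht₀, hall⟩
  have hu𝔪 : u ∉ 𝔪 := fun h =>
    h62l_not_mem_sq_of_LP 𝔪 𝔰 hle hne hu (h62l_le_sq 𝔪 𝔰 h)
  have hV : modelAt M A (jB M)⁻¹ ≤ gaussV A M := modelInf_le_gaussV A M hℓ hM hA
  have hred : gaussR A M ⟨(u : FF M), hV u.2⟩ ≠ 0 := by
    intro h0
    obtain ⟨c, x', hc0, hc, hx', hux⟩ :=
      exists_eq_cst_mul_of_gaussR_eq_zero_inf A M hℓ hM hA ⟨(u : FF M), hV u.2⟩ u.2 h0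
    apply hu𝔪
    have e : u = algebraMap A (chart M A (jB M)⁻¹) ⟨c, A.nonunits_le hc⟩ * ⟨x', hx'⟩ :=
      Subtype.ext hux
    rw [e]
    exact Ideal.mul_mem_right _ _
      (Ideal.mem_map_of_mem _ (ValuationSubring.coe_mem_nonunits_iff.mp hc))
  have hunit := (gaussR_eq_zero_iff A M hℓ hM hA ⟨(u : FF M), hV u.2⟩).not.mp hred
  obtain ⟨hu1, hu2⟩ := not_or.mp hunit
  exact ⟨u, hu.1, ⟨⟨hu1, not_not.mp hu2⟩, (h62cu_mem_R A M u).mp huR⟩, hu.2⟩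

end LevelM

/-! ### The Galois-fixed local parameter at the cusps of level `M ℓ` -/

section Param

variable (A : ValuationSubring Kbar) (M : ℕ) {ℓ : ℕ} [NeZero M] [NeZero ℓ]
  (hℓ : ℓ.Prime) (hM : ¬ ℓ ∣ M) (haux : auxLevel ℓ ∣ M) (hA : A.LiesOverPrime ℓ)
  (𝔫 : Ideal (chart (M * ℓ) A (jSS M ℓ)⁻¹)) (h𝔫 : 𝔫.IsMaximal)

include haux h𝔫 in
set_option maxHeartbeats 1600000 in
/-- **the cusps on `C∞`**: the local parameter `α t₁`, `t₁` rational. -/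
theorem h62cu_param_inf (hm : mExt A M ℓ (jSS M ℓ)⁻¹ ≤ 𝔫) (ht : h4c_V A M ℓ ∈ 𝔫)
    (hyn : (⟨h21c_y M ℓ, h21c_y_mem_chart A M ℓ hℓ hM hA⟩ :
      chart (M * ℓ) A (jSS M ℓ)⁻¹) ∉ 𝔫) :
    ∃ t' ∈ 𝔫, (t' : FF (M * ℓ)) ≠ 0 ∧ ((t' : FF (M * ℓ)))⁻¹ ∈ ssV A M ℓ ∧
      (∀ σ : GQ, gal (M * ℓ) σ • (t' : FF (M * ℓ)) = t') ∧
      ∀ z ∈ 𝔫, ∃ s, s ∉ 𝔫 ∧ s * z ∈ Ideal.span {t'} ⊔ mExt A M ℓ (jSS M ℓ)⁻¹ := by
  classical
  haveI h𝔫p : 𝔫.IsPrime := h𝔫.isPrime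
  have hC : IfaceSSChart A M ℓ (jSS M ℓ)⁻¹ := h85s_ifaceSSChart_inf A M ℓ hℓ hM hA
  obtain ⟨hy, hwy, htS, hwtS, hVinf, hV0⟩ := h21c_soft_facts A M ℓ hℓ hM hA
  have hBsoft : ∀ b : chart (M * ℓ) A (jSS M ℓ)⁻¹, (b : FF (M * ℓ)) ∈ softV A (M * ℓ) ∧
      kFricke M ℓ hℓ hM (b : FF (M * ℓ)) ∈ softV A (M * ℓ) := fun b =>
    (h63r_mem_ssV_iff hℓ hM hA _).mp (hC.hBV _ b.2)
  have hres := h21c_hres A (M * ℓ) (jSS M ℓ)⁻¹ 𝔫 h𝔫 hm ht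
  have Ha := h21c_surjInf A M ℓ hℓ hM haux hA
  set tB : chart (M * ℓ) A (jSS M ℓ)⁻¹ :=
    ⟨(jSS M ℓ)⁻¹, h85_self_mem_modelAt (M * ℓ) A (jSS M ℓ)⁻¹⟩ with htB
  set yB : chart (M * ℓ) A (jSS M ℓ)⁻¹ := ⟨h21c_y M ℓ, h21c_y_mem_chart A M ℓ hℓ hM hA⟩
    with hyB
  have htBval : (tB : FF (M * ℓ)) = h21c_t M ℓ := h21c_jSS_inv_eq M ℓ
  have hαmem : ∀ x : chart M A (jB M)⁻¹,
      heckeAlphaBar Kbar M ℓ (x : FF M) ∈ chart (M * ℓ) A (jSS M ℓ)⁻¹ := by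
    intro x
    show _ ∈ modelAt (M * ℓ) A (jSS M ℓ)⁻¹
    rw [h85s_jSS_inv_eq_α]
    exact Fermat.Agent.Red.KR.map_mem_modelAt (heckeAlphaBar Kbar M ℓ) A x.2
  have he0 : (yB ^ ℓ - tB ^ (ℓ * ℓ - 1)) ∉ 𝔫 := by
    intro h
    have hk : 0 < ℓ * ℓ - 1 := by
      have := hℓ.two_le
      have h7 : 2 * 2 ≤ ℓ * ℓ := Nat.mul_le_mul this this
      omega
    have h1 : yB ^ ℓ ∈ 𝔫 := by
      have h2 : yB ^ ℓ = (yB ^ ℓ - tB ^ (ℓ * ℓ - 1)) + tB ^ (ℓ * ℓ - 1) := by ring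
      rw [h2]
      exact 𝔫.add_mem h (𝔫.pow_mem_of_mem ht _ hk)
    exact hyn (h𝔫p.mem_of_pow_mem _ h1)
  have he0val : ((yB ^ ℓ - tB ^ (ℓ * ℓ - 1) : chart (M * ℓ) A (jSS M ℓ)⁻¹) :
      FF (M * ℓ)) = h21c_y M ℓ ^ ℓ - h21c_t M ℓ ^ (ℓ * ℓ - 1) := by
    push_cast
    rw [htBval]
  have key : ∃ t₁ : chart M A (jB M)⁻¹,
      (((t₁ : FF M) ≠ 0 ∧ (t₁ : FF M)⁻¹ ∈ gaussV A M) ∧ IsRat (t₁ : FF M)) ∧
      ∀ σ t' : chart (M * ℓ) A (jSS M ℓ)⁻¹, σ ∉ 𝔫 →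
        (t' : FF (M * ℓ)) = (σ : FF (M * ℓ)) * h21c_phi A M ℓ (heckeAlphaBar Kbar M ℓ) t₁ →
        t' ∈ 𝔫 ∧ ∀ z ∈ 𝔫, ∃ s, s ∉ 𝔫 ∧
          s * z ∈ Ideal.span {t'} ⊔ mExt A M ℓ (jSS M ℓ)⁻¹ := by
    refine h21u_smooth_local (chart (M * ℓ) A (jSS M ℓ)⁻¹) 𝔫
      (h21c_phi A M ℓ (heckeAlphaBar Kbar M ℓ)) hm hres ?_ ?_
      (fun t₁ => ((t₁ : FF M) ≠ 0 ∧ (t₁ : FF M)⁻¹ ∈ gaussV A M) ∧ IsRat (t₁ : FF M))
      (fun 𝔰 h𝔰 hle => h62cu_LP_rat_inf A M hℓ hM haux hA 𝔰 h𝔰 hle)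
    · intro x
      refine ⟨1, (Ideal.ne_top_iff_one 𝔫).mp h𝔫.ne_top, ?_⟩
      rw [h21c_phi_apply]
      simpa using hαmem x
    · intro z hz
      obtain ⟨x, hx, hxz⟩ := Ha z z.2
      refine ⟨⟨x, hx⟩, yB ^ ℓ - tB ^ (ℓ * ℓ - 1), he0,
        (yB ^ ℓ - tB ^ (ℓ * ℓ - 1)) * ⟨_, hαmem ⟨x, hx⟩⟩, ?_, ?_⟩
      · rw [h21c_phi_apply]
        push_cast
        ring
      · apply h21c_mem_mExt A M ℓ hℓ hM hA
        · have e : (((yB ^ ℓ - tB ^ (ℓ * ℓ - 1)) * z -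
              (yB ^ ℓ - tB ^ (ℓ * ℓ - 1)) * ⟨_, hαmem ⟨x, hx⟩⟩ :
              chart (M * ℓ) A (jSS M ℓ)⁻¹) : FF (M * ℓ)) =
              ((yB ^ ℓ - tB ^ (ℓ * ℓ - 1) : chart (M * ℓ) A (jSS M ℓ)⁻¹) : FF (M * ℓ)) *
                ((z : FF (M * ℓ)) - heckeAlphaBar Kbar M ℓ x) := by
            push_cast
            ring
          rw [e]
          exact GalI.mul_mem_nonunits_right _ (hBsoft _).1 hxz
        · have e1 : (((yB ^ ℓ - tB ^ (ℓ * ℓ - 1)) * z -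
              (yB ^ ℓ - tB ^ (ℓ * ℓ - 1)) * ⟨_, hαmem ⟨x, hx⟩⟩ :
              chart (M * ℓ) A (jSS M ℓ)⁻¹) : FF (M * ℓ)) =
              ((yB ^ ℓ - tB ^ (ℓ * ℓ - 1) : chart (M * ℓ) A (jSS M ℓ)⁻¹) : FF (M * ℓ)) *
              ((z - ⟨_, hαmem ⟨x, hx⟩⟩ : chart (M * ℓ) A (jSS M ℓ)⁻¹) : FF (M * ℓ)) := by
            push_cast
            ring
          rw [e1, map_mul, he0val]
          exact GalI.mul_mem_nonunits_left _ hV0 (hBsoft _).2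
  obtain ⟨t₁, ⟨⟨ht₁0, ht₁inv⟩, hrat⟩, H⟩ := key
  obtain ⟨ht', hgen⟩ := H 1 ⟨_, hαmem t₁⟩
    ((Ideal.ne_top_iff_one 𝔫).mp h𝔫.ne_top)
    (by rw [h21c_phi_apply, Subalgebra.coe_one, one_mul])
  have hα0 : heckeAlphaBar Kbar M ℓ (t₁ : FF M) ≠ 0 :=
    (map_ne_zero (heckeAlphaBar Kbar M ℓ)).mpr ht₁0
  have hαinv : (heckeAlphaBar Kbar M ℓ (t₁ : FF M))⁻¹ ∈ ssV A M ℓ := by
    have e2 : (heckeAlphaBar Kbar M ℓ (t₁ : FF M))⁻¹ =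
        heckeAlphaBar Kbar M ℓ ((t₁ : FF M)⁻¹) := (map_inv₀ _ _).symm
    rw [e2]
    exact h21u_alpha_mem_ssV A M ℓ hℓ hM hA _ (gaussV_le_softV A M ht₁inv)
  refine ⟨⟨_, hαmem t₁⟩, ht', hα0, hαinv, fun σ => ?_, hgen⟩
  have h2 : gal (M * ℓ) σ • heckeAlphaBar Kbar M ℓ (t₁ : FF M) =
      heckeAlphaBar Kbar M ℓ (gal M σ • (t₁ : FF M)) :=
    Fermat.Agent.Red.HKGal.intertwines_heckeAlphaBar M ℓ σ (t₁ : FF M)
  rw [GalI.gal_smul_of_isRat σ hrat] at h2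
  exact h2

include haux h𝔫 in
set_option maxHeartbeats 1600000 in
/-- **the cusps on `C₀`**: the local parameter `S ^ E · β t₁`, `t₁` rational, `S = s(1/j)` with
`s` fixed by the inertia group. -/
theorem h62cu_param_zero (hm : mExt A M ℓ (jSS M ℓ)⁻¹ ≤ 𝔫) (ht : h4c_V A M ℓ ∈ 𝔫)
    (hyn : (⟨h21c_y M ℓ, h21c_y_mem_chart A M ℓ hℓ hM hA⟩ :
      chart (M * ℓ) A (jSS M ℓ)⁻¹) ∈ 𝔫) :
    ∃ t' ∈ 𝔫, (t' : FF (M * ℓ)) ≠ 0 ∧ ((t' : FF (M * ℓ)))⁻¹ ∈ ssV A M ℓ ∧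
      (∀ τ : GQ, τ ∈ A.inertiaSubgroupIn ℚ → gal (M * ℓ) τ • (t' : FF (M * ℓ)) = t') ∧
      ∀ z ∈ 𝔫, ∃ s, s ∉ 𝔫 ∧ s * z ∈ Ideal.span {t'} ⊔ mExt A M ℓ (jSS M ℓ)⁻¹ := by
  classical
  haveI h𝔫p : 𝔫.IsPrime := h𝔫.isPrime
  have hC : IfaceSSChart A M ℓ (jSS M ℓ)⁻¹ := h85s_ifaceSSChart_inf A M ℓ hℓ hM hA
  obtain ⟨hy, hwy, htS, hwtS, hVinf, hV0⟩ := h21c_soft_facts A M ℓ hℓ hM hA
  have hBsoft : ∀ b : chart (M * ℓ) A (jSS M ℓ)⁻¹, (b : FF (M * ℓ)) ∈ softV A (M * ℓ) ∧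
      kFricke M ℓ hℓ hM (b : FF (M * ℓ)) ∈ softV A (M * ℓ) := fun b =>
    (h63r_mem_ssV_iff hℓ hM hA _).mp (hC.hBV _ b.2)
  have hres := h21c_hres A (M * ℓ) (jSS M ℓ)⁻¹ 𝔫 h𝔫 hm ht
  have Hb := h21c_surjZero A M ℓ hℓ hM haux hA
  set tB : chart (M * ℓ) A (jSS M ℓ)⁻¹ :=
    ⟨(jSS M ℓ)⁻¹, h85_self_mem_modelAt (M * ℓ) A (jSS M ℓ)⁻¹⟩ with htB
  set yB : chart (M * ℓ) A (jSS M ℓ)⁻¹ := ⟨h21c_y M ℓ, h21c_y_mem_chart A M ℓ hℓ hM hA⟩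
    with hyB
  have htBval : (tB : FF (M * ℓ)) = h21c_t M ℓ := h21c_jSS_inv_eq M ℓ
  -- the multiplier, made inertia-invariant
  obtain ⟨s₀, hs₀0, hmult₀⟩ := h21c_exists_mult A M ℓ hℓ hM hA
  obtain ⟨s, ⟨q, hq⟩, hs0, hsfix⟩ := h62cu_exists_fixed A s₀ hs₀0
  have hmult : ∀ f ∈ modelInf M A, ∃ E : ℕ,
      evalF (M * ℓ) A (jB (M * ℓ))⁻¹ s ^ E * heckeBetaBar Kbar M ℓ f ∈
        modelAt (M * ℓ) A (jB (M * ℓ))⁻¹ := by
    intro f hf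
    obtain ⟨E, hE⟩ := hmult₀ f hf
    refine ⟨E, ?_⟩
    have hqmem : evalF (M * ℓ) A (jB (M * ℓ))⁻¹ q ∈ modelAt (M * ℓ) A (jB (M * ℓ))⁻¹ :=
      Fermat.Agent.Red.Match.ringAdj_le_modelAt _ A _ (evalF_mem_ringAdj _ A _ q)
    have e : evalF (M * ℓ) A (jB (M * ℓ))⁻¹ s ^ E * heckeBetaBar Kbar M ℓ f =
        evalF (M * ℓ) A (jB (M * ℓ))⁻¹ q ^ E *
          (evalF (M * ℓ) A (jB (M * ℓ))⁻¹ s₀ ^ E * heckeBetaBar Kbar M ℓ f) := by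
      rw [hq, map_mul]
      ring
    rw [e]
    exact mul_mem (pow_mem hqmem E) hE
  -- `S = s(t)`
  have hSmem : evalF (M * ℓ) A (jB (M * ℓ))⁻¹ s ∈ chart (M * ℓ) A (jSS M ℓ)⁻¹ :=
    (h21c_mem_chart_iff A M ℓ _).mpr
      (Fermat.Agent.Red.Match.ringAdj_le_modelAt _ A _ (evalF_mem_ringAdj _ A _ s))
  have hS'mem : evalF (M * ℓ) A (jB (M * ℓ))⁻¹ s.divX ∈ chart (M * ℓ) A (jSS M ℓ)⁻¹ :=
    (h21c_mem_chart_iff A M ℓ _).mpr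
      (Fermat.Agent.Red.Match.ringAdj_le_modelAt _ A _ (evalF_mem_ringAdj _ A _ s.divX))
  set S : chart (M * ℓ) A (jSS M ℓ)⁻¹ := ⟨_, hSmem⟩ with hS
  have hSn : S ∉ 𝔫 := by
    intro h
    have e : S = ⟨_, hS'mem⟩ * tB + 1 := by
      apply Subtype.ext
      show evalF (M * ℓ) A (jB (M * ℓ))⁻¹ s =
        evalF (M * ℓ) A (jB (M * ℓ))⁻¹ s.divX * (jSS M ℓ)⁻¹ + 1
      rw [h21c_jSS_eq]
      exact h21c_evalF_sub_one A (M * ℓ) _ s hs0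
    have h1 : (1 : chart (M * ℓ) A (jSS M ℓ)⁻¹) ∈ 𝔫 := by
      have h2 : (1 : chart (M * ℓ) A (jSS M ℓ)⁻¹) = S - ⟨_, hS'mem⟩ * tB := by
        rw [e]; ring
      rw [h2]
      exact 𝔫.sub_mem h (𝔫.mul_mem_left _ ht)
    exact h𝔫.ne_top ((Ideal.eq_top_iff_one _).mpr h1)
  have hSEn : ∀ E : ℕ, S ^ E ∉ 𝔫 := fun E h => hSn (h𝔫p.mem_of_pow_mem E h)
  have hmult' : ∀ x : chart M A (jB M)⁻¹, ∃ E : ℕ,
      ((S ^ E : chart (M * ℓ) A (jSS M ℓ)⁻¹) : FF (M * ℓ)) *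
        heckeBetaBar Kbar M ℓ (x : FF M) ∈ chart (M * ℓ) A (jSS M ℓ)⁻¹ := by
    intro x
    obtain ⟨E, hE⟩ := hmult x x.2
    refine ⟨E, ?_⟩
    rw [Subalgebra.coe_pow]
    exact (h21c_mem_chart_iff A M ℓ _).mpr hE
  -- `e_∞ = 1 - y`
  have hen : (1 - yB) ∉ 𝔫 := by
    intro h
    have h1 : (1 : chart (M * ℓ) A (jSS M ℓ)⁻¹) ∈ 𝔫 := by
      have h2 : (1 : chart (M * ℓ) A (jSS M ℓ)⁻¹) = (1 - yB) + yB := by ring
      rw [h2]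
      exact 𝔫.add_mem h hyn
    exact h𝔫.ne_top ((Ideal.eq_top_iff_one _).mpr h1)
  have key : ∃ t₁ : chart M A (jB M)⁻¹,
      (((t₁ : FF M) ≠ 0 ∧ (t₁ : FF M)⁻¹ ∈ gaussV A M) ∧ IsRat (t₁ : FF M)) ∧
      ∀ σ t' : chart (M * ℓ) A (jSS M ℓ)⁻¹, σ ∉ 𝔫 →
        (t' : FF (M * ℓ)) = (σ : FF (M * ℓ)) * h21c_phi A M ℓ (heckeBetaBar Kbar M ℓ) t₁ →
        t' ∈ 𝔫 ∧ ∀ z ∈ 𝔫, ∃ s, s ∉ 𝔫 ∧
          s * z ∈ Ideal.span {t'} ⊔ mExt A M ℓ (jSS M ℓ)⁻¹ := by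
    refine h21u_smooth_local (chart (M * ℓ) A (jSS M ℓ)⁻¹) 𝔫
      (h21c_phi A M ℓ (heckeBetaBar Kbar M ℓ)) hm hres ?_ ?_
      (fun t₁ => ((t₁ : FF M) ≠ 0 ∧ (t₁ : FF M)⁻¹ ∈ gaussV A M) ∧ IsRat (t₁ : FF M))
      (fun 𝔰 h𝔰 hle => h62cu_LP_rat_inf A M hℓ hM haux hA 𝔰 h𝔰 hle)
    · intro x
      obtain ⟨E, hE⟩ := hmult' x
      exact ⟨S ^ E, hSEn E, hE⟩
    · intro z hz
      obtain ⟨x, hx, hxz⟩ := Hb z z.2
      obtain ⟨E, hE⟩ := hmult' ⟨x, hx⟩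
      refine ⟨⟨x, hx⟩, (1 - yB) * S ^ E, fun h => (h𝔫p.mem_or_mem h).elim hen (hSEn E),
        (1 - yB) * ⟨_, hE⟩, ?_, ?_⟩
      · rw [h21c_phi_apply]
        push_cast
        ring
      · apply h21c_mem_mExt A M ℓ hℓ hM hA
        · have e : (((1 - yB) * S ^ E * z - (1 - yB) * ⟨_, hE⟩ :
              chart (M * ℓ) A (jSS M ℓ)⁻¹) : FF (M * ℓ)) =
              (1 - h21c_y M ℓ) * ((S ^ E * z - ⟨_, hE⟩ :
                chart (M * ℓ) A (jSS M ℓ)⁻¹) : FF (M * ℓ)) := by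
            push_cast
            ring
          rw [e]
          exact GalI.mul_mem_nonunits_left _ hVinf (hBsoft _).1
        · have e1 : (((1 - yB) * S ^ E * z - (1 - yB) * ⟨_, hE⟩ :
              chart (M * ℓ) A (jSS M ℓ)⁻¹) : FF (M * ℓ)) =
              (((1 - yB) * S ^ E : chart (M * ℓ) A (jSS M ℓ)⁻¹) : FF (M * ℓ)) *
              ((z : FF (M * ℓ)) - heckeBetaBar Kbar M ℓ x) := by
            push_cast
            ring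
          rw [e1, map_mul, map_sub, kFricke_beta]
          exact GalI.mul_mem_nonunits_right _ (hBsoft _).2 hxz
  obtain ⟨t₁, ⟨⟨ht₁0, ht₁inv⟩, hrat⟩, H⟩ := key
  obtain ⟨E, hE⟩ := hmult' t₁
  obtain ⟨ht', hgen⟩ := H (S ^ E) ⟨_, hE⟩ (hSEn E) rfl
  have hS0 : evalF (M * ℓ) A (jB (M * ℓ))⁻¹ s ≠ 0 := by
    intro h0
    apply hSn
    have : S = 0 := Subtype.ext h0
    rw [this]
    exact 𝔫.zero_mem
  have hβ0 : heckeBetaBar Kbar M ℓ (t₁ : FF M) ≠ 0 :=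
    (map_ne_zero (heckeBetaBar Kbar M ℓ)).mpr ht₁0
  have hval : ((⟨_, hE⟩ : chart (M * ℓ) A (jSS M ℓ)⁻¹) : FF (M * ℓ)) =
      evalF (M * ℓ) A (jB (M * ℓ))⁻¹ s ^ E * heckeBetaBar Kbar M ℓ (t₁ : FF M) := by
    show ((S ^ E : chart (M * ℓ) A (jSS M ℓ)⁻¹) : FF (M * ℓ)) * _ = _
    rw [Subalgebra.coe_pow]
  refine ⟨⟨_, hE⟩, ht', ?_, ?_, fun τ hτ => ?_, hgen⟩
  · rw [hval]
    exact mul_ne_zero (pow_ne_zero _ hS0) hβ0
  · have e2 : (heckeBetaBar Kbar M ℓ (t₁ : FF M))⁻¹ =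
        heckeBetaBar Kbar M ℓ ((t₁ : FF M)⁻¹) := (map_inv₀ _ _).symm
    rw [hval, mul_inv, ← inv_pow, e2]
    exact mul_mem (pow_mem (h21u_evalF_inv_mem_ssV A M ℓ hℓ hM hA s hs0) E)
      (h21u_beta_mem_ssV A M ℓ hℓ hM hA _ (gaussV_le_softV A M ht₁inv))
  · have h2 : gal (M * ℓ) τ • heckeBetaBar Kbar M ℓ (t₁ : FF M) =
        heckeBetaBar Kbar M ℓ (gal M τ • (t₁ : FF M)) :=
      Fermat.Agent.Red.HKGal.intertwines_heckeBetaBar M ℓ τ (t₁ : FF M)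
    rw [GalI.gal_smul_of_isRat τ hrat] at h2
    have hj : gal (M * ℓ) τ • (jB (M * ℓ))⁻¹ = (jB (M * ℓ))⁻¹ := by
      rw [smul_inv'', GalI.gal_smul_jB]
    have h3 : gal (M * ℓ) τ • evalF (M * ℓ) A (jB (M * ℓ))⁻¹ s =
        evalF (M * ℓ) A (jB (M * ℓ))⁻¹ s := by
      rw [h62cu_gal_evalF A (M * ℓ) hτ _ hj s, hsfix τ hτ]
    rw [hval, smul_mul', smul_pow', h3, h2]

end Param

/-! ### The smooth datum at the cusps -/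

section Datum

variable (A : ValuationSubring Kbar) (M : ℕ) {ℓ : ℕ} [NeZero M] [NeZero ℓ]
  (hℓ : ℓ.Prime) (hM : ¬ ℓ ∣ M) (haux : auxLevel ℓ ∣ M) (hA : A.LiesOverPrime ℓ)
  (𝔫 : Ideal (chart (M * ℓ) A (jSS M ℓ)⁻¹)) (h𝔫 : 𝔫.IsMaximal)

/-- a cusp on `C∞` does not contain `y`. -/
theorem h62cu_y_not_mem (h𝔫 : 𝔫.IsMaximal) (hP : h85cPinf A M ℓ hℓ hA (jSS M ℓ)⁻¹ ≤ 𝔫) :
    (⟨h21c_y M ℓ, h21c_y_mem_chart A M ℓ hℓ hM hA⟩ : chart (M * ℓ) A (jSS M ℓ)⁻¹) ∉ 𝔫 := by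
  have hC : IfaceSSChart A M ℓ (jSS M ℓ)⁻¹ := h85s_ifaceSSChart_inf A M ℓ hℓ hM hA
  obtain ⟨hy, hwy, htS, hwtS, hVinf, hV0⟩ := h21c_soft_facts A M ℓ hℓ hM hA
  intro h
  have h1 : (1 - ⟨h21c_y M ℓ, h21c_y_mem_chart A M ℓ hℓ hM hA⟩ :
      chart (M * ℓ) A (jSS M ℓ)⁻¹) ∈ 𝔫 :=
    hP ((h85c_mem_Pinf_iff A M ℓ hℓ hA hC).mpr hVinf)
  have := 𝔫.add_mem h1 h
  rw [sub_add_cancel] at this
  exact h𝔫.ne_top ((Ideal.eq_top_iff_one _).mpr this)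

/-- a cusp on `C₀` contains `y`. -/
theorem h62cu_y_mem (h𝔫 : 𝔫.IsMaximal) (hP : h85cP0 A M ℓ hℓ hM hA (jSS M ℓ)⁻¹ ≤ 𝔫)
    (hV : h4c_V A M ℓ ∈ 𝔫) :
    (⟨h21c_y M ℓ, h21c_y_mem_chart A M ℓ hℓ hM hA⟩ : chart (M * ℓ) A (jSS M ℓ)⁻¹) ∈ 𝔫 := by
  have hC : IfaceSSChart A M ℓ (jSS M ℓ)⁻¹ := h85s_ifaceSSChart_inf A M ℓ hℓ hM hA
  obtain ⟨hy, hwy, htS, hwtS, hVinf, hV0⟩ := h21c_soft_facts A M ℓ hℓ hM hA
  set tB : chart (M * ℓ) A (jSS M ℓ)⁻¹ := h4c_V A M ℓ with htB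
  set yB : chart (M * ℓ) A (jSS M ℓ)⁻¹ := ⟨h21c_y M ℓ, h21c_y_mem_chart A M ℓ hℓ hM hA⟩
    with hyB
  have htBval : (tB : FF (M * ℓ)) = h21c_t M ℓ := h21c_jSS_inv_eq M ℓ
  have he0val : ((yB ^ ℓ - tB ^ (ℓ * ℓ - 1) : chart (M * ℓ) A (jSS M ℓ)⁻¹) :
      FF (M * ℓ)) = h21c_y M ℓ ^ ℓ - h21c_t M ℓ ^ (ℓ * ℓ - 1) := by
    push_cast
    rw [htBval]
  have h1 : yB ^ ℓ - tB ^ (ℓ * ℓ - 1) ∈ 𝔫 := by
    apply hP
    rw [h85c_mem_P0_iff A M ℓ hℓ hM hA hC, he0val]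
    exact hV0
  have hk : 0 < ℓ * ℓ - 1 := by
    have := hℓ.two_le
    have h7 : 2 * 2 ≤ ℓ * ℓ := Nat.mul_le_mul this this
    omega
  have h2 : yB ^ ℓ ∈ 𝔫 := by
    have h3 : yB ^ ℓ = (yB ^ ℓ - tB ^ (ℓ * ℓ - 1)) + tB ^ (ℓ * ℓ - 1) := by ring
    rw [h3]
    exact 𝔫.add_mem h1 (𝔫.pow_mem_of_mem hV _ hk)
  exact h𝔫.isPrime.mem_of_pow_mem _ h2

include haux h𝔫 in
/-- **the smooth datum at the cusps on `C∞`**, with a local parameter fixed by the Galois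
group. -/
theorem h62cu_cusp_inf (hP : h85cPinf A M ℓ hℓ hA (jSS M ℓ)⁻¹ ≤ 𝔫) (hV : h4c_V A M ℓ ∈ 𝔫) :
    ∃ t : chart (M * ℓ) A (jSS M ℓ)⁻¹,
      (∀ σ : GQ, gal (M * ℓ) σ • (t : FF (M * ℓ)) = t) ∧
      H62ySmooth (chart (M * ℓ) A (jSS M ℓ)⁻¹) (ssV A M ℓ) (chartVal (M * ℓ) (jSS M ℓ)⁻¹)
        (softV A (M * ℓ)) (h85cW0 A M ℓ hℓ hM hA).toSubring 𝔫 t := by
  have hC : IfaceSSChart A M ℓ (jSS M ℓ)⁻¹ := h85s_ifaceSSChart_inf A M ℓ hℓ hM hA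
  have hm : mExt A M ℓ (jSS M ℓ)⁻¹ ≤ 𝔫 := le_trans (h85c_hmPinf A M ℓ hℓ hA hC) hP
  have hBsoft : ∀ b ∈ chart (M * ℓ) A (jSS M ℓ)⁻¹, b ∈ softV A (M * ℓ) ∧
      kFricke M ℓ hℓ hM b ∈ softV A (M * ℓ) := fun b hb =>
    (h63r_mem_ssV_iff hℓ hM hA _).mp (hC.hBV _ hb)
  have hyn := h62cu_y_not_mem A M hℓ hM hA 𝔫 h𝔫 hP
  obtain ⟨t, ht, ht0, htinv, htf, hprin⟩ := h62cu_param_inf A M hℓ hM haux hA 𝔫 h𝔫 hm hV hyn
  refine ⟨t, htf, ?_⟩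
  refine
    { hC := hC
      hinj := algebraMap_injective_FF (M * ℓ) A
      harch := harch_of_liesOver A hℓ hA
      hWW := fun x hx hx' => h63r_mem_ssV_of_soft hℓ hM hA hx hx'
      hBW := fun b hb => (hBsoft b hb).1
      hBW' := fun b hb => (hBsoft b hb).2
      hWval := h62y_Winf_val A hℓ hA (M * ℓ)
      hWnt := h62y_Winf_nt A (M * ℓ)
      hprime := h𝔫.isPrime
      hm𝔫 := hm
      hP𝔫 := ?_
      he := ?_
      ht := ht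
      ht0 := ht0
      htW := h63r_ssV_le_soft hℓ hA htinv
      hprin := hprin
      hsec := fun i hi => h85s_ifaceSSSection_of A M ℓ _ (h71_finite_inf' hℓ hM hA) i 𝔫 h𝔫 hm hi }
  · intro b m hm' y hy hb
    by_cases hb0 : (b : FF (M * ℓ)) = 0
    · have : b = 0 := Subtype.ext hb0
      rw [this]
      exact 𝔫.zero_mem
    apply hP
    rw [h85c_mem_Pinf_iff A M ℓ hℓ hA hC]
    refine (GalI.mem_nonunits_iff_inv _ hb0).mpr fun hinv => ?_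
    apply h62y_Winf_nt A (M * ℓ) m hm' (y * (b : FF (M * ℓ))⁻¹) (mul_mem hy hinv)
    rw [← mul_assoc, ← hb, mul_inv_cancel₀ hb0]
  · obtain ⟨hy, hwy, htS, hwtS, hVinf, hV0⟩ := h21c_soft_facts A M ℓ hℓ hM hA
    set tB : chart (M * ℓ) A (jSS M ℓ)⁻¹ := h4c_V A M ℓ with htB
    set yB : chart (M * ℓ) A (jSS M ℓ)⁻¹ := ⟨h21c_y M ℓ, h21c_y_mem_chart A M ℓ hℓ hM hA⟩
      with hyB
    have htBval : (tB : FF (M * ℓ)) = h21c_t M ℓ := h21c_jSS_inv_eq M ℓ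
    have hk : 0 < ℓ * ℓ - 1 := by
      have := hℓ.two_le
      have h7 : 2 * 2 ≤ ℓ * ℓ := Nat.mul_le_mul this this
      omega
    have hen : yB ^ ℓ - tB ^ (ℓ * ℓ - 1) ∉ 𝔫 := by
      intro h
      have h1 : tB ^ (ℓ * ℓ - 1) ∈ 𝔫 := 𝔫.pow_mem_of_mem hV _ hk
      have h2 := 𝔫.add_mem h h1
      rw [sub_add_cancel] at h2
      exact hyn (h𝔫.isPrime.mem_of_pow_mem _ h2)
    have he0 : ((yB ^ ℓ - tB ^ (ℓ * ℓ - 1) : chart (M * ℓ) A (jSS M ℓ)⁻¹) : FF (M * ℓ)) ≠ 0 := by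
      intro h0
      apply hen
      have : yB ^ ℓ - tB ^ (ℓ * ℓ - 1) = 0 := Subtype.ext h0
      rw [this]
      exact 𝔫.zero_mem
    have hcoe : ((yB ^ ℓ - tB ^ (ℓ * ℓ - 1) : chart (M * ℓ) A (jSS M ℓ)⁻¹) : FF (M * ℓ)) =
        h21c_y M ℓ ^ ℓ - h21c_t M ℓ ^ (ℓ * ℓ - 1) := by
      push_cast
      rw [htBval]
    have hw0 : kFricke M ℓ hℓ hM (h21c_y M ℓ ^ ℓ - h21c_t M ℓ ^ (ℓ * ℓ - 1)) ≠ 0 := by
      rw [← hcoe]
      exact (_root_.map_ne_zero _).mpr he0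
    obtain ⟨p, hp0, hp, u, hu, hxu⟩ := h63r_nonunit_scale hℓ hA (M * ℓ) hw0 hV0
    refine ⟨yB ^ ℓ - tB ^ (ℓ * ℓ - 1), hen, ⟨p, A.nonunits_le hp⟩,
      ValuationSubring.coe_mem_nonunits_iff.mp hp, ?_, kFricke M ℓ hℓ hM u, ?_, ?_⟩
    · intro h0
      exact hp0 (congrArg Subtype.val h0)
    · show kFricke M ℓ hℓ hM (kFricke M ℓ hℓ hM u) ∈ softV A (M * ℓ)
      rw [kFricke_kFricke]
      exact hu
    · rw [hcoe]
      have := congrArg (kFricke M ℓ hℓ hM) hxu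
      rw [kFricke_kFricke, map_mul] at this
      rw [this]
      congr 1
      exact (kFricke M ℓ hℓ hM).commutes p

include haux h𝔫 in
/-- **the smooth datum at the cusps on `C₀`**, with a local parameter fixed by the inertia
group at `A`. -/
theorem h62cu_cusp_zero (hP : h85cP0 A M ℓ hℓ hM hA (jSS M ℓ)⁻¹ ≤ 𝔫) (hV : h4c_V A M ℓ ∈ 𝔫) :
    ∃ t : chart (M * ℓ) A (jSS M ℓ)⁻¹,
      (∀ τ : GQ, τ ∈ A.inertiaSubgroupIn ℚ → gal (M * ℓ) τ • (t : FF (M * ℓ)) = t) ∧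
      H62ySmooth (chart (M * ℓ) A (jSS M ℓ)⁻¹) (ssV A M ℓ) (chartVal (M * ℓ) (jSS M ℓ)⁻¹)
        (h85cW0 A M ℓ hℓ hM hA).toSubring (softV A (M * ℓ)) 𝔫 t := by
  have hC : IfaceSSChart A M ℓ (jSS M ℓ)⁻¹ := h85s_ifaceSSChart_inf A M ℓ hℓ hM hA
  have hm : mExt A M ℓ (jSS M ℓ)⁻¹ ≤ 𝔫 := le_trans (h85c_hmP0 A M ℓ hℓ hM hA hC) hP
  have hBsoft : ∀ b ∈ chart (M * ℓ) A (jSS M ℓ)⁻¹, b ∈ softV A (M * ℓ) ∧
      kFricke M ℓ hℓ hM b ∈ softV A (M * ℓ) := fun b hb =>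
    (h63r_mem_ssV_iff hℓ hM hA _).mp (hC.hBV _ hb)
  have hyn := h62cu_y_mem A M hℓ hM hA 𝔫 h𝔫 hP hV
  obtain ⟨t, ht, ht0, htinv, htf, hprin⟩ := h62cu_param_zero A M hℓ hM haux hA 𝔫 h𝔫 hm hV hyn
  refine ⟨t, htf, ?_⟩
  refine
    { hC := hC
      hinj := algebraMap_injective_FF (M * ℓ) A
      harch := harch_of_liesOver A hℓ hA
      hWW := fun x hx hx' => h63r_mem_ssV_of_soft hℓ hM hA hx' hx
      hBW := fun b hb => (hBsoft b hb).2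
      hBW' := fun b hb => (hBsoft b hb).1
      hWval := h62y_W0_val A M hℓ hM hA
      hWnt := h62y_W0_nt A M hℓ hM hA
      hprime := h𝔫.isPrime
      hm𝔫 := hm
      hP𝔫 := ?_
      he := ?_
      ht := ht
      ht0 := ht0
      htW := h63r_w_ssV_le_soft hℓ hM hA htinv
      hprin := hprin
      hsec := fun i hi => h85s_ifaceSSSection_of A M ℓ _ (h71_finite_inf' hℓ hM hA) i 𝔫 h𝔫 hm hi }
  · intro b m hm' y hy hb
    by_cases hb0 : (b : FF (M * ℓ)) = 0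
    · have : b = 0 := Subtype.ext hb0
      rw [this]
      exact 𝔫.zero_mem
    apply hP
    rw [h85c_mem_P0_iff A M ℓ hℓ hM hA hC]
    have hwb0 : kFricke M ℓ hℓ hM (b : FF (M * ℓ)) ≠ 0 := (_root_.map_ne_zero _).mpr hb0
    have hy' : kFricke M ℓ hℓ hM y ∈ softV A (M * ℓ) := hy
    have hwb : kFricke M ℓ hℓ hM (b : FF (M * ℓ)) =
        algebraMap A (FF (M * ℓ)) m * kFricke M ℓ hℓ hM y := by
      rw [hb, map_mul, h62y_kFricke_algebraMap]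
    refine (GalI.mem_nonunits_iff_inv _ hwb0).mpr fun hinv => ?_
    apply h62y_Winf_nt A (M * ℓ) m hm'
      (kFricke M ℓ hℓ hM y * (kFricke M ℓ hℓ hM (b : FF (M * ℓ)))⁻¹) (mul_mem hy' hinv)
    rw [← mul_assoc, ← hwb, mul_inv_cancel₀ hwb0]
  · obtain ⟨hy, hwy, htS, hwtS, hVinf, hV0⟩ := h21c_soft_facts A M ℓ hℓ hM hA
    set yB : chart (M * ℓ) A (jSS M ℓ)⁻¹ := ⟨h21c_y M ℓ, h21c_y_mem_chart A M ℓ hℓ hM hA⟩
      with hyB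
    have hen : (1 - yB) ∉ 𝔫 := by
      intro h
      have h1 := 𝔫.add_mem h hyn
      rw [sub_add_cancel] at h1
      exact h𝔫.ne_top ((Ideal.eq_top_iff_one _).mpr h1)
    have he0 : (1 - h21c_y M ℓ : FF (M * ℓ)) ≠ 0 := by
      intro h0
      apply hen
      have : (1 - yB : chart (M * ℓ) A (jSS M ℓ)⁻¹) = 0 := Subtype.ext h0
      rw [this]
      exact 𝔫.zero_mem
    obtain ⟨p, hp0, hp, u, hu, hxu⟩ := h63r_nonunit_scale hℓ hA (M * ℓ) he0 hVinf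
    refine ⟨1 - yB, hen, ⟨p, A.nonunits_le hp⟩,
      ValuationSubring.coe_mem_nonunits_iff.mp hp, ?_, u, hu, hxu⟩
    intro h0
    exact hp0 (congrArg Subtype.val h0)

end Datum

end Fermat.Agent.P7
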