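import Fermat.Agent.P6.H62PuritySm
import Fermat.Agent.LGC.Red63
import Fermat.Agent.LGC.SS85Chart
import Fermat.Agent.LGC.Gal75

/-!
# P7 (wave 7, S40), block (5b), leaf for C5 (helper62): the inertia group preserves the local
rings of the charts at the closed points of the special fibre

`O_𝔫 = h62yO B 𝔫` the local ring of the chart `B` at a prime `𝔫 ⊇ 𝔪_A B`, inside the function
field.

* `h62w_loc_stable` (abstract): a ring endomorphism `b` of `F` which maps `B` into `B` and is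
  trivial modulo `𝔪_A B` maps `O_𝔫` into `O_𝔫`; `h62w_loc_unit`: for a unit `f` of `O_𝔫` the
  quotient `b f / f` is a unit of `O_𝔫`;
* `h62w_gal_mem_O_fin`, `h62w_gal_mem_O_inf` (level `M p`, finite chart and chart at infinity):
  for `σ` in the inertia group at `A`, `gal σ • f ∈ O_𝔫` for `f ∈ O_𝔫`;
* `h62w_gal_unit_fin`, `h62w_gal_unit_inf` : `(gal σ • f) / f` is a unit of `O_𝔫` for a unit
  `f` of `O_𝔫`.
-/

set_option autoImplicit false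
set_option linter.unusedSectionVars false
set_option linter.unusedVariables false
set_option linter.style.longLine false

open AlgebraicCurve ModularCurve WithZero IsLocalRing

noncomputable section

namespace Fermat.Agent.P7

open Fermat.Agent.S37 Fermat.Agent.S37.GalI Fermat.Agent.Red Fermat.Agent.Red.GG
  Fermat.Agent.Red.GV Fermat.Agent.Red.GV.Soft Fermat.Agent.Red.ModelO Fermat.Agent.Red.Kron
  Fermat.Agent.LGC Fermat.Agent.P6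

section Abs

variable {A : Type*} [CommRing A] [IsDomain A] [ValuationRing A]
  {F : Type*} [Field F] [Algebra A F]

/-- an endomorphism which is trivial modulo `𝔪_A B` preserves the local ring at `𝔫`. -/
theorem h62w_loc_stable (B : Subalgebra A F) (𝔫 : Ideal B) (h𝔫 : 𝔫.IsPrime)
    (hm : (maximalIdeal A).map (algebraMap A B) ≤ 𝔫) (b : F →+* F)
    (hb : ∀ s : B, ∃ c : B, (c : F) = b (s : F) ∧
      c - s ∈ (maximalIdeal A).map (algebraMap A B))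
    {f : F} (hf : f ∈ h62yO B 𝔫 h𝔫) : b f ∈ h62yO B 𝔫 h𝔫 := by
  obtain ⟨s, hs, hsf⟩ := hf
  obtain ⟨c, hc, hcs⟩ := hb s
  obtain ⟨c', hc', -⟩ := hb ⟨(s : F) * f, hsf⟩
  refine ⟨c, fun hcn => hs ?_, ?_⟩
  · have e : s = c - (c - s) := by ring
    rw [e]
    exact 𝔫.sub_mem hcn (hm hcs)
  · rw [hc, ← map_mul]
    have e : b ((s : F) * f) = (c' : F) := hc'.symm
    rw [e]
    exact c'.2

/-- the variation `b f / f` of a unit `f` of the local ring is a unit of the local ring. -/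
theorem h62w_loc_unit (B : Subalgebra A F) (𝔫 : Ideal B) (h𝔫 : 𝔫.IsPrime)
    (hm : (maximalIdeal A).map (algebraMap A B) ≤ 𝔫) (b : F →+* F)
    (hb : ∀ s : B, ∃ c : B, (c : F) = b (s : F) ∧
      c - s ∈ (maximalIdeal A).map (algebraMap A B))
    {f : F} (hf : f ∈ h62yO B 𝔫 h𝔫) (hf' : f⁻¹ ∈ h62yO B 𝔫 h𝔫) :
    b f * f⁻¹ ∈ h62yO B 𝔫 h𝔫 ∧ (b f * f⁻¹)⁻¹ ∈ h62yO B 𝔫 h𝔫 := by
  have h1 := h62w_loc_stable B 𝔫 h𝔫 hm b hb hf
  have h2 := h62w_loc_stable B 𝔫 h𝔫 hm b hb hf'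
  refine ⟨(h62yO B 𝔫 h𝔫).mul_mem h1 hf', ?_⟩
  rw [mul_inv, inv_inv, ← map_inv₀]
  exact (h62yO B 𝔫 h𝔫).mul_mem h2 hf

end Abs

section Level

variable (A : ValuationSubring Kbar) (M : ℕ) {p : ℕ} [NeZero M] [NeZero p]

/-- the inertia group acts trivially modulo `𝔪_A` on the finite chart. -/
theorem h62w_triv_fin (hp : p.Prime) (hM : ¬ p ∣ M) (hA : A.LiesOverPrime p) {σ : GQ}
    (hσ : σ ∈ A.inertiaSubgroupIn ℚ) : InertiaTrivAt (M * p) A (jSS M p) σ :=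
  h63r_triv_of_chart hp hM hA _ hσ (h63p_gal_jSS M p _)
    (h85s_ifaceSSChart_fin A M p hp hM hA).hBV (h85s_ifaceSSChart_fin A M p hp hM hA).hQEP

/-- the inertia group acts trivially modulo `𝔪_A` on the chart at infinity. -/
theorem h62w_triv_inf (hp : p.Prime) (hM : ¬ p ∣ M) (hA : A.LiesOverPrime p) {σ : GQ}
    (hσ : σ ∈ A.inertiaSubgroupIn ℚ) : InertiaTrivAt (M * p) A (jSS M p)⁻¹ σ :=
  h63r_triv_of_chart hp hM hA _ hσ (h63p_gal_jSS_inv M p _)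
    (h85s_ifaceSSChart_inf A M p hp hM hA).hBV (h85s_ifaceSSChart_inf A M p hp hM hA).hQEP

/-- **the inertia group preserves the local rings of a chart of level `M p`** (any coordinate
`t` on which the inertia group is trivial modulo `𝔪_A`). -/
theorem h62w_gal_mem_O (t : FF (M * p)) {σ : GQ} (htriv : InertiaTrivAt (M * p) A t σ)
    (𝔫 : Ideal (chart (M * p) A t)) (h𝔫 : 𝔫.IsPrime) (hle : mExt A M p t ≤ 𝔫)
    {f : FF (M * p)} (hf : f ∈ h62yO (chart (M * p) A t) 𝔫 h𝔫) :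
    gal (M * p) σ • f ∈ h62yO (chart (M * p) A t) 𝔫 h𝔫 :=
  h62w_loc_stable (chart (M * p) A t) 𝔫 h𝔫 hle
    (SemilinearAut.toRingAut (gal (M * p) σ)).toRingHom (fun s => htriv s) hf

/-- the variation `(gal σ • f) / f` of a unit of the local ring is a unit of the local ring. -/
theorem h62w_gal_unit (t : FF (M * p)) {σ : GQ} (htriv : InertiaTrivAt (M * p) A t σ)
    (𝔫 : Ideal (chart (M * p) A t)) (h𝔫 : 𝔫.IsPrime) (hle : mExt A M p t ≤ 𝔫)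
    {f : FF (M * p)} (hf : f ∈ h62yO (chart (M * p) A t) 𝔫 h𝔫)
    (hf' : f⁻¹ ∈ h62yO (chart (M * p) A t) 𝔫 h𝔫) :
    gal (M * p) σ • f * f⁻¹ ∈ h62yO (chart (M * p) A t) 𝔫 h𝔫 ∧
      (gal (M * p) σ • f * f⁻¹)⁻¹ ∈ h62yO (chart (M * p) A t) 𝔫 h𝔫 :=
  h62w_loc_unit (chart (M * p) A t) 𝔫 h𝔫 hle
    (SemilinearAut.toRingAut (gal (M * p) σ)).toRingHom (fun s => htriv s) hf hf'

/-- finite chart. -/
theorem h62w_gal_mem_O_fin (hp : p.Prime) (hM : ¬ p ∣ M) (hA : A.LiesOverPrime p) {σ : GQ}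
    (hσ : σ ∈ A.inertiaSubgroupIn ℚ)
    (𝔫 : Ideal (chart (M * p) A (jSS M p))) (h𝔫 : 𝔫.IsPrime) (hle : mExt A M p (jSS M p) ≤ 𝔫)
    {f : FF (M * p)} (hf : f ∈ h62yO (chart (M * p) A (jSS M p)) 𝔫 h𝔫) :
    gal (M * p) σ • f ∈ h62yO (chart (M * p) A (jSS M p)) 𝔫 h𝔫 :=
  h62w_gal_mem_O A M _ (h62w_triv_fin A M hp hM hA hσ) 𝔫 h𝔫 hle hf

/-- chart at infinity. -/
theorem h62w_gal_mem_O_inf (hp : p.Prime) (hM : ¬ p ∣ M) (hA : A.LiesOverPrime p) {σ : GQ}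
    (hσ : σ ∈ A.inertiaSubgroupIn ℚ)
    (𝔫 : Ideal (chart (M * p) A (jSS M p)⁻¹)) (h𝔫 : 𝔫.IsPrime)
    (hle : mExt A M p (jSS M p)⁻¹ ≤ 𝔫)
    {f : FF (M * p)} (hf : f ∈ h62yO (chart (M * p) A (jSS M p)⁻¹) 𝔫 h𝔫) :
    gal (M * p) σ • f ∈ h62yO (chart (M * p) A (jSS M p)⁻¹) 𝔫 h𝔫 :=
  h62w_gal_mem_O A M _ (h62w_triv_inf A M hp hM hA hσ) 𝔫 h𝔫 hle hf

/-- finite chart, units. -/
theorem h62w_gal_unit_fin (hp : p.Prime) (hM : ¬ p ∣ M) (hA : A.LiesOverPrime p) {σ : GQ}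
    (hσ : σ ∈ A.inertiaSubgroupIn ℚ)
    (𝔫 : Ideal (chart (M * p) A (jSS M p))) (h𝔫 : 𝔫.IsPrime) (hle : mExt A M p (jSS M p) ≤ 𝔫)
    {f : FF (M * p)} (hf : f ∈ h62yO (chart (M * p) A (jSS M p)) 𝔫 h𝔫)
    (hf' : f⁻¹ ∈ h62yO (chart (M * p) A (jSS M p)) 𝔫 h𝔫) :
    gal (M * p) σ • f * f⁻¹ ∈ h62yO (chart (M * p) A (jSS M p)) 𝔫 h𝔫 ∧
      (gal (M * p) σ • f * f⁻¹)⁻¹ ∈ h62yO (chart (M * p) A (jSS M p)) 𝔫 h𝔫 :=
  h62w_gal_unit A M _ (h62w_triv_fin A M hp hM hA hσ) 𝔫 h𝔫 hle hf hf'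

/-- chart at infinity, units. -/
theorem h62w_gal_unit_inf (hp : p.Prime) (hM : ¬ p ∣ M) (hA : A.LiesOverPrime p) {σ : GQ}
    (hσ : σ ∈ A.inertiaSubgroupIn ℚ)
    (𝔫 : Ideal (chart (M * p) A (jSS M p)⁻¹)) (h𝔫 : 𝔫.IsPrime)
    (hle : mExt A M p (jSS M p)⁻¹ ≤ 𝔫)
    {f : FF (M * p)} (hf : f ∈ h62yO (chart (M * p) A (jSS M p)⁻¹) 𝔫 h𝔫)
    (hf' : f⁻¹ ∈ h62yO (chart (M * p) A (jSS M p)⁻¹) 𝔫 h𝔫) :
    gal (M * p) σ • f * f⁻¹ ∈ h62yO (chart (M * p) A (jSS M p)⁻¹) 𝔫 h𝔫 ∧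
      (gal (M * p) σ • f * f⁻¹)⁻¹ ∈ h62yO (chart (M * p) A (jSS M p)⁻¹) 𝔫 h𝔫 :=
  h62w_gal_unit A M _ (h62w_triv_inf A M hp hM hA hσ) 𝔫 h𝔫 hle hf hf'

/-- the action on the constants. -/
theorem h62w_gal_cst (N : ℕ) {σ : GQ} (c : Kbar) :
    gal N σ • (cst N c : FF N) = cst N (σ c) := gal_smul_cst σ c

/-- the constants: `σ c / c` is a unit of every local ring for `σ` in the inertia group. -/
theorem h62w_gal_cst_unit (t : FF (M * p)) {σ : GQ} (hσ : σ ∈ A.inertiaSubgroupIn ℚ)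
    (𝔫 : Ideal (chart (M * p) A t)) (h𝔫 : 𝔫.IsPrime) (c : Kbar) (hc : c ≠ 0) :
    gal (M * p) σ • (cst (M * p) c : FF (M * p)) * (cst (M * p) c)⁻¹
        ∈ h62yO (chart (M * p) A t) 𝔫 h𝔫 ∧
      (gal (M * p) σ • (cst (M * p) c : FF (M * p)) * (cst (M * p) c)⁻¹)⁻¹
        ∈ h62yO (chart (M * p) A t) 𝔫 h𝔫 := by
  obtain ⟨h1, h2⟩ := h75q_inertia_div_mem A hσ c hc
  have hσc : σ c ≠ 0 := (map_ne_zero _).mpr hc
  have hm : ∀ a b : Kbar, (cst (M * p) (a * b) : FF (M * p)) = cst (M * p) a * cst (M * p) b :=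
    fun a b => map_mul (algebraMap Kbar (FF (M * p))) a b
  have hi : ∀ a : Kbar, (cst (M * p) a⁻¹ : FF (M * p)) = (cst (M * p) a)⁻¹ :=
    fun a => map_inv₀ (algebraMap Kbar (FF (M * p))) a
  have e1 : gal (M * p) σ • (cst (M * p) c : FF (M * p)) * (cst (M * p) c)⁻¹
      = algebraMap A (FF (M * p)) ⟨σ c / c, h1⟩ := by
    rw [h62w_gal_cst]
    show cst (M * p) (σ c) * (cst (M * p) c)⁻¹ = cst (M * p) (σ c / c)
    rw [div_eq_mul_inv, hm, hi]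
  have e2 : (gal (M * p) σ • (cst (M * p) c : FF (M * p)) * (cst (M * p) c)⁻¹)⁻¹
      = algebraMap A (FF (M * p)) ⟨c / σ c, h2⟩ := by
    rw [h62w_gal_cst]
    show (cst (M * p) (σ c) * (cst (M * p) c)⁻¹)⁻¹ = cst (M * p) (c / σ c)
    rw [div_eq_mul_inv, hm, hi, mul_inv, inv_inv]
    exact mul_comm _ _
  constructor
  · rw [e1]
    exact (h62yO (chart (M * p) A t) 𝔫 h𝔫).algebraMap_mem _
  · rw [e2]
    exact (h62yO (chart (M * p) A t) 𝔫 h𝔫).algebraMap_mem _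

end Level

end Fermat.Agent.P7
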