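import Fermat.Agent.S35.H13TorNode

/-!
# P7 (wave 7, S40), block (5b): the NODE JUMP FORMULA, abstract form (helper62)

Vocabulary of `S35/H13TorNode.lean`: `A` a valuation ring, `F` a field over `A`, `B ⊆ F` a chart,
`V = W∞ ∩ W₀` the semistable Gauss ring, `v` the places finite on the chart, `𝔫` a closed point
of the special fibre lying on both components, with a node datum `x y = a c`
(`x` a unit of `W∞`, `y` a unit of `W₀`) and sections at the places centered at `𝔫`.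

In contrast with `h13x_node_normal` there is NO hypothesis `u ≡ 1`: for every `u ≠ 0` whose
divisor is divisible by `r` at the places centered at `𝔫`,

  `u = θ · x ^ m · e · (∏ i ∈ T, (x - a_i) ^ n_i) ^ r`

with `θ` a constant, `m : ℤ` the SLOPE of `u` at the node, `e` a unit of `B_𝔫` (a Gauss unit
without zeros or poles centered at `𝔫`) and `a_i ∈ 𝔪_A` the values of `x` at the zeros and poles
of `u` centered at `𝔫`.  Consequently

* on the first branch `u = θ · x ^ (m + r s) · (unit of W∞)`, `s = ∑ n_i`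
  (`h62j_branch_inf`): the order at the node of the reduction of `u / θ` is `m + r s`;
* on the second branch `u = θ · a ^ m · α ^ r · (unit of W₀)`, `α = ∏ (- a_i) ^ n_i`
  (`h62j_branch_zero`): the jump of the Gauss norms of `u` across the node is `a ^ m α ^ r`.

The new input is `h62j_unit_slope`: a function without zeros or poles centered at the node is
`θ · x ^ m · (unit of B_𝔫)`; it needs a scaling property at both branches (every function is a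
constant times a unit of `W`) and the rank one property `t ∣ a ^ K`.
-/

set_option autoImplicit false
set_option linter.unusedSectionVars false
set_option linter.unusedVariables false
set_option linter.style.longLine false
set_option linter.style.haveILetI false

open WithZero IsLocalRing

namespace Fermat.Agent.P7

open Fermat.Agent.Red Fermat.Agent.LGC Fermat.Agent.S35

section Node

variable {A : Type*} [CommRing A] [IsDomain A] [ValuationRing A]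
  {F : Type*} [Field F] [Algebra A F]
  {B : Subalgebra A F} {V : Subring F} {ι : Type*} {v : ι → Valuation F ℤᵐ⁰}

/-- elements of `𝔪_A B` are of the form `m b`. -/
theorem h62j_mem_mB {z : B} (hz : z ∈ (maximalIdeal A).map (algebraMap A B)) :
    ∃ m ∈ maximalIdeal A, ∃ b : B, z = algebraMap A B m * b := by
  rw [Ideal.map] at hz
  refine Submodule.span_induction (p := fun z _ => ∃ m ∈ maximalIdeal A, ∃ b : B,
    z = algebraMap A B m * b) ?_ ?_ ?_ ?_ hz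
  · rintro x ⟨m, hm, rfl⟩
    exact ⟨m, hm, 1, by rw [mul_one]⟩
  · exact ⟨0, zero_mem _, 0, by simp⟩
  · rintro x y _ _ ⟨m, hm, b, rfl⟩ ⟨m', hm', b', rfl⟩
    rcases ValuationRing.dvd_total m m' with ⟨d, rfl⟩ | ⟨d, rfl⟩
    · exact ⟨m, hm, b + algebraMap A B d * b', by rw [map_mul]; ring⟩
    · exact ⟨m', hm', algebraMap A B d * b + b', by rw [map_mul]; ring⟩
  · rintro a x _ ⟨m, hm, b, rfl⟩
    exact ⟨m, hm, a * b, by rw [smul_eq_mul]; ring⟩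

/-- the set `𝔪_A W`. -/
def h62jSmall (A : Type*) [CommRing A] [IsLocalRing A] {F : Type*} [Field F] [Algebra A F]
    (W : Subring F) (z : F) : Prop :=
  ∃ π ∈ maximalIdeal A, ∃ w ∈ W, z = algebraMap A F π * w

theorem h62j_small_add (W : Subring F) (hAW : ∀ a : A, algebraMap A F a ∈ W) {z₁ z₂ : F}
    (h₁ : h62jSmall A W z₁) (h₂ : h62jSmall A W z₂) : h62jSmall A W (z₁ + z₂) := by
  obtain ⟨π₁, hπ₁, w₁, hw₁, rfl⟩ := h₁
  obtain ⟨π₂, hπ₂, w₂, hw₂, rfl⟩ := h₂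
  rcases ValuationRing.dvd_total π₁ π₂ with ⟨d, rfl⟩ | ⟨d, rfl⟩
  · exact ⟨π₁, hπ₁, w₁ + algebraMap A F d * w₂, W.add_mem hw₁ (W.mul_mem (hAW d) hw₂),
      by rw [map_mul]; ring⟩
  · exact ⟨π₂, hπ₂, algebraMap A F d * w₁ + w₂, W.add_mem (W.mul_mem (hAW d) hw₁) hw₂,
      by rw [map_mul]; ring⟩

theorem h62j_small_mul (W : Subring F) {z w : F} (h : h62jSmall A W z) (hw : w ∈ W) :
    h62jSmall A W (z * w) := by
  obtain ⟨π, hπ, w₁, hw₁, rfl⟩ := h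
  exact ⟨π, hπ, w₁ * w, W.mul_mem hw₁ hw, by ring⟩

theorem h62j_small_const (W : Subring F) {π : A} (hπ : π ∈ maximalIdeal A) {w : F}
    (hw : w ∈ W) : h62jSmall A W (algebraMap A F π * w) :=
  ⟨π, hπ, w, hw, rfl⟩

/-- the constant of a node is not a unit. -/
theorem h62j_a_mem (𝔫 : Ideal B) [h𝔫 : 𝔫.IsPrime] (x y c : B) (hx : x ∈ 𝔫) (hc : c ∉ 𝔫) (a : A)
    (hxy : x * y = algebraMap A B a * c) : a ∈ maximalIdeal A := by
  by_contra hne
  have hu : IsUnit a := IsLocalRing.notMem_maximalIdeal.mp hne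
  have h1 : algebraMap A B a * c ∈ 𝔫 := hxy ▸ 𝔫.mul_mem_right y hx
  rcases h𝔫.mem_or_mem h1 with h2 | h2
  · exact h𝔫.ne_top (Ideal.eq_top_of_isUnit_mem _ h2 (hu.map _))
  · exact hc h2

/-- **No crossing.**  The local parameter `x` of the first branch at a node is not, up to a unit
of `B_𝔫`, a product of two elements of `𝔫`. -/
theorem h62j_no_cross (Winf : Subring F) (hBinf : ∀ b : B, (b : F) ∈ Winf)
    (hntinf : ∀ π ∈ maximalIdeal A, ∀ x ∈ Winf, algebraMap A F π * x ≠ 1)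
    (𝔫 : Ideal B) [h𝔫 : 𝔫.IsPrime]
    (hninf : ∀ b : B, b ∉ 𝔫 → ((b : F))⁻¹ ∈ Winf)
    (x y c : B) (hx : x ∈ 𝔫) (hc : c ∉ 𝔫) (a : A)
    (hxy : x * y = algebraMap A B a * c) (hx0 : (x : F) ≠ 0)
    (hxinf : ((x : F))⁻¹ ∈ Winf)
    (hprin : ∀ z ∈ 𝔫, ∃ s, s ∉ 𝔫 ∧
      s * z ∈ Ideal.span {x, y} ⊔ (maximalIdeal A).map (algebraMap A B))
    (b₁ b₂ S : B) (hb₁ : b₁ ∈ 𝔫) (hb₂ : b₂ ∈ 𝔫) (hS : S ∉ 𝔫) (hbb : b₁ * b₂ = S * x) :
    False := by
  have hAinf : ∀ a : A, algebraMap A F a ∈ Winf := fun a => hBinf (algebraMap A B a)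
  have ham : a ∈ maximalIdeal A := h62j_a_mem 𝔫 x y c hx hc a hxy
  obtain ⟨σ₁, hσ₁, h1⟩ := hprin b₁ hb₁
  obtain ⟨σ₂, hσ₂, h2⟩ := hprin b₂ hb₂
  obtain ⟨p₁, hp₁, μ₁, hμ₁, e1⟩ := Submodule.mem_sup.mp h1
  obtain ⟨p₂, hp₂, μ₂, hμ₂, e2⟩ := Submodule.mem_sup.mp h2
  obtain ⟨E₁, E₁', rfl⟩ := Ideal.mem_span_pair.mp hp₁
  obtain ⟨E₂, E₂', rfl⟩ := Ideal.mem_span_pair.mp hp₂
  obtain ⟨m₁, hm₁, β₁, rfl⟩ := h62j_mem_mB hμ₁
  obtain ⟨m₂, hm₂, β₂, rfl⟩ := h62j_mem_mB hμ₂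
  set D : B := σ₁ * σ₂ * S - x * (E₁ * E₂) with hD
  have hDn : D ∉ 𝔫 := by
    intro hmem
    have h3 : σ₁ * σ₂ * S ∈ 𝔫 := by
      have h4 : σ₁ * σ₂ * S = D + x * (E₁ * E₂) := by rw [hD]; ring
      rw [h4]
      exact 𝔫.add_mem hmem (𝔫.mul_mem_right _ hx)
    rcases h𝔫.mem_or_mem h3 with h5 | h5
    · rcases h𝔫.mem_or_mem h5 with h6 | h6
      · exact hσ₁ h6
      · exact hσ₂ h6
    · exact hS h5
  have hD0 : (D : F) ≠ 0 := by
    intro h0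
    apply hDn
    have : D = 0 := Subtype.ext h0
    rw [this]; exact 𝔫.zero_mem
  have key : x * D = algebraMap A B a * (c * (E₁ * E₂' + E₁' * E₂)) + E₁' * E₂' * y * y
      + algebraMap A B m₁ * (β₁ * (E₂ * x + E₂' * y + algebraMap A B m₂ * β₂))
      + algebraMap A B m₂ * (β₂ * (E₁ * x + E₁' * y)) := by
    rw [hD]
    linear_combination (-(σ₁ * σ₂)) * hbb
      - (E₂ * x + E₂' * y + algebraMap A B m₂ * β₂) * e1 - (σ₁ * b₁) * e2
      + (E₁ * E₂' + E₁' * E₂) * hxy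
  have hxyF : (x : F) * (y : F) = algebraMap A F a * (c : F) := by
    have := congrArg (Subtype.val) hxy
    simpa using this
  have hyF : (y : F) = algebraMap A F a * ((c : F) * ((x : F))⁻¹) := by
    field_simp
    rw [mul_comm]
    exact hxyF
  have keyF : (x : F) * (D : F) = algebraMap A F a * ((c : F) * ((E₁ : F) * E₂' + E₁' * E₂)
        + (E₁' : F) * E₂' * y * ((c : F) * ((x : F))⁻¹))
      + algebraMap A F m₁ * ((β₁ : F) * (E₂ * x + E₂' * y + algebraMap A F m₂ * β₂))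
      + algebraMap A F m₂ * ((β₂ : F) * (E₁ * x + E₁' * y)) := by
    have h3 := congrArg (Subtype.val) key
    have h4 : (x : F) * (D : F) = algebraMap A F a * ((c : F) * ((E₁ : F) * E₂' + E₁' * E₂))
        + (E₁' : F) * E₂' * y * y
        + algebraMap A F m₁ * ((β₁ : F) * (E₂ * x + E₂' * y + algebraMap A F m₂ * β₂))
        + algebraMap A F m₂ * ((β₂ : F) * (E₁ * x + E₁' * y)) := by
      simpa using h3
    rw [h4]
    have h5 : (E₁' : F) * E₂' * y * y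
        = algebraMap A F a * ((E₁' : F) * E₂' * y * ((c : F) * ((x : F))⁻¹)) := by
      have h5' : algebraMap A F a * ((E₁' : F) * E₂' * y * ((c : F) * ((x : F))⁻¹))
          = (E₁' : F) * E₂' * y * (algebraMap A F a * ((c : F) * ((x : F))⁻¹)) := by ring
      rw [h5', ← hyF]
    rw [h5]
    ring
  have hsmall : h62jSmall A Winf ((x : F) * (D : F)) := by
    rw [keyF]
    refine h62j_small_add Winf hAinf (h62j_small_add Winf hAinf
      (h62j_small_const Winf ham ?_) (h62j_small_const Winf hm₁ ?_))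
      (h62j_small_const Winf hm₂ ?_)
    · exact Winf.add_mem (Winf.mul_mem (hBinf c) (Winf.add_mem (Winf.mul_mem (hBinf _) (hBinf _))
        (Winf.mul_mem (hBinf _) (hBinf _))))
        (Winf.mul_mem (Winf.mul_mem (Winf.mul_mem (hBinf _) (hBinf _)) (hBinf _))
          (Winf.mul_mem (hBinf c) hxinf))
    · exact Winf.mul_mem (hBinf _) (Winf.add_mem (Winf.add_mem (Winf.mul_mem (hBinf _) (hBinf _))
        (Winf.mul_mem (hBinf _) (hBinf _))) (Winf.mul_mem (hAinf _) (hBinf _)))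
    · exact Winf.mul_mem (hBinf _) (Winf.add_mem (Winf.mul_mem (hBinf _) (hBinf _))
        (Winf.mul_mem (hBinf _) (hBinf _)))
  obtain ⟨π, hπ, w, hw, hπw⟩ := hsmall
  apply hntinf π hπ (w * ((x : F))⁻¹ * ((D : F))⁻¹)
    (Winf.mul_mem (Winf.mul_mem hw hxinf) (hninf D hDn))
  have h6 : algebraMap A F π * (w * ((x : F))⁻¹ * ((D : F))⁻¹)
      = (algebraMap A F π * w) * ((x : F))⁻¹ * ((D : F))⁻¹ := by ring
  rw [h6, ← hπw]
  field_simp

/-- nonvanishing of the coordinates of a node. -/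
theorem h62j_ne_zero (hAF : Function.Injective (algebraMap A F))
    (𝔫 : Ideal B) (x y c : B) (hc : c ∉ 𝔫) (a : A) (ha : a ≠ 0)
    (hxy : x * y = algebraMap A B a * c) :
    algebraMap A F a ≠ 0 ∧ (c : F) ≠ 0 ∧ (x : F) ≠ 0 ∧ (y : F) ≠ 0 ∧
      (x : F) * (y : F) = algebraMap A F a * (c : F) := by
  have haF : algebraMap A F a ≠ 0 := fun h => ha (hAF (by rw [h, map_zero]))
  have hc0 : (c : F) ≠ 0 := by
    intro h0
    apply hc
    have : c = 0 := Subtype.ext h0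
    rw [this]; exact 𝔫.zero_mem
  have hxyF : (x : F) * (y : F) = algebraMap A F a * (c : F) := by
    have := congrArg (Subtype.val) hxy
    simpa using this
  refine ⟨haF, hc0, ?_, ?_, hxyF⟩
  · intro h0
    rw [h0, zero_mul] at hxyF
    exact mul_ne_zero haF hc0 hxyF.symm
  · intro h0
    rw [h0, mul_zero] at hxyF
    exact mul_ne_zero haF hc0 hxyF.symm

/-- **Integrality of the slope.**  A unit `f` of `W∞` without zeros or poles centered at the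
node which is `t · (unit of W₀)` on the second branch, `t ∈ A`, `t ∣ a ^ K`: then `t` is a power
of the constant `a` of the node, up to a unit of `A`. -/
theorem h62j_pos (hC : H26Chart B V v) (hAF : Function.Injective (algebraMap A F))
    (Winf W0 : Subring F)
    (hVWinf : ∀ x ∈ V, x ∈ Winf) (hVW0 : ∀ x ∈ V, x ∈ W0)
    (hWV : ∀ x : F, x ∈ Winf → x ∈ W0 → x ∈ V)
    (hntinf : ∀ π ∈ maximalIdeal A, ∀ x ∈ Winf, algebraMap A F π * x ≠ 1)
    (hnt0 : ∀ π ∈ maximalIdeal A, ∀ x ∈ W0, algebraMap A F π * x ≠ 1)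
    (𝔫 : Ideal B) [h𝔫 : 𝔫.IsPrime]
    (hninf : ∀ b : B, b ∉ 𝔫 → ((b : F))⁻¹ ∈ Winf)
    (hn0 : ∀ b : B, b ∉ 𝔫 → ((b : F))⁻¹ ∈ W0)
    (x y c : B) (hx : x ∈ 𝔫) (hy : y ∈ 𝔫) (hc : c ∉ 𝔫) (a : A) (ha : a ≠ 0)
    (hxy : x * y = algebraMap A B a * c)
    (hxinf : ((x : F))⁻¹ ∈ Winf) (hy0 : ((y : F))⁻¹ ∈ W0)
    (hprin : ∀ z ∈ 𝔫, ∃ s, s ∉ 𝔫 ∧
      s * z ∈ Ideal.span {x, y} ⊔ (maximalIdeal A).map (algebraMap A B))
    (hvalx : ∀ k, h26Centered B v 𝔫 k → v k (x : F) = 1) :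
    ∀ (K : ℕ) (f : F) (t : A), f ≠ 0 → t ≠ 0 → t ∣ a ^ K → f ∈ Winf → f⁻¹ ∈ Winf →
      f * (algebraMap A F t)⁻¹ ∈ W0 → (f * (algebraMap A F t)⁻¹)⁻¹ ∈ W0 →
      (∀ k, h26Centered B v 𝔫 k → v k f = 1) →
      ∃ (m : ℕ) (w : A), IsUnit w ∧ t = a ^ m * w := by
  have hAV : ∀ a : A, algebraMap A F a ∈ V := fun a => hC.hBV _ (B.algebraMap_mem a)
  have hAinf : ∀ a : A, algebraMap A F a ∈ Winf := fun a => hVWinf _ (hAV a)
  have hA0 : ∀ a : A, algebraMap A F a ∈ W0 := fun a => hVW0 _ (hAV a)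
  have hBinf : ∀ b : B, (b : F) ∈ Winf := fun b => hVWinf _ (hC.hBV _ b.2)
  have hB0 : ∀ b : B, (b : F) ∈ W0 := fun b => hVW0 _ (hC.hBV _ b.2)
  obtain ⟨haF, hc0, hx0, hy0', hxyF⟩ := h62j_ne_zero hAF 𝔫 x y c hc a ha hxy
  intro K
  induction K with
  | zero =>
    intro f t _ _ htK _ _ _ _ _
    rw [pow_zero] at htK
    exact ⟨0, t, isUnit_of_dvd_one htK, by rw [pow_zero, one_mul]⟩
  | succ K ih =>
    intro f t hf0 ht0 htK hf hf' hρ hρ' hval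
    by_cases htu : IsUnit t
    · exact ⟨0, t, htu, by rw [pow_zero, one_mul]⟩
    have htm : t ∈ maximalIdeal A := htu
    have htF : algebraMap A F t ≠ 0 := fun h => ht0 (hAF (by rw [h, map_zero]))
    by_cases hat : a ∣ t
    · obtain ⟨t', rfl⟩ := hat
      have ht'0 : t' ≠ 0 := right_ne_zero_of_mul ht0
      have ht'F : algebraMap A F t' ≠ 0 := fun h => ht'0 (hAF (by rw [h, map_zero]))
      have ht'K : t' ∣ a ^ K := by
        rw [pow_succ'] at htK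
        exact (mul_dvd_mul_iff_left ha).mp htK
      have e1 : f * ((x : F))⁻¹ * (algebraMap A F t')⁻¹
          = (f * (algebraMap A F (a * t'))⁻¹) * ((y : F) * ((c : F))⁻¹) := by
        rw [map_mul]
        field_simp
        linear_combination (-1 : F) * hxyF
      obtain ⟨m, w, hw, hm⟩ := ih (f * ((x : F))⁻¹) t' (mul_ne_zero hf0 (inv_ne_zero hx0))
        ht'0 ht'K (Winf.mul_mem hf hxinf)
        (by rw [mul_inv, inv_inv]; exact Winf.mul_mem hf' (hBinf x))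
        (by rw [e1]; exact W0.mul_mem hρ (W0.mul_mem (hB0 y) (hn0 c hc)))
        (by
          rw [e1, mul_inv, mul_inv (y : F), inv_inv]
          exact W0.mul_mem hρ' (W0.mul_mem hy0 (hB0 c)))
        (fun k hk => by rw [map_mul, map_inv₀, hval k hk, hvalx k hk, inv_one, mul_one])
      exact ⟨m + 1, w, hw, by rw [hm, pow_succ']; ring⟩
    · exfalso
      rcases ValuationRing.dvd_total a t with h | ⟨s, hs⟩
      · exact hat h
      have hsm : s ∈ maximalIdeal A := by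
        by_contra hne
        have hsu : IsUnit s := IsLocalRing.notMem_maximalIdeal.mp hne
        obtain ⟨s', hss'⟩ := hsu.exists_right_inv
        apply hat
        exact ⟨s', by rw [hs, mul_assoc, hss', mul_one]⟩
      have hsF : algebraMap A F a = algebraMap A F t * algebraMap A F s := by
        rw [← map_mul, hs]
      -- `f` is regular and vanishes at the node
      have hf0W : f ∈ W0 := by
        have h1 : f = algebraMap A F t * (f * (algebraMap A F t)⁻¹) := by field_simp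
        rw [h1]
        exact W0.mul_mem (hA0 t) hρ
      obtain ⟨s₁, hs₁, hs₁f⟩ := h13x_regular hC 𝔫 f (hWV f hf hf0W)
        (fun k hk => (hval k hk).le)
      set b₁ : B := ⟨(s₁ : F) * f, hs₁f⟩ with hb₁
      have hb₁n : b₁ ∈ 𝔫 := by
        refine h13x_mem_of_mod W0 hnt0 𝔫 hn0 t htm b₁ ((s₁ : F) * (f * (algebraMap A F t)⁻¹))
          (W0.mul_mem (hB0 s₁) hρ) ?_
        show (s₁ : F) * f = _
        field_simp
      -- `x / f` is regular and vanishes at the node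
      have e2 : (x : F) * f⁻¹ = algebraMap A F s *
          ((c : F) * ((y : F))⁻¹ * (f * (algebraMap A F t)⁻¹)⁻¹) := by
        have h1 : (x : F) = algebraMap A F t * algebraMap A F s * (c : F) * ((y : F))⁻¹ := by
          rw [← hsF]
          field_simp
          exact hxyF
        rw [mul_inv, inv_inv]
        conv_lhs => rw [h1]
        field_simp
      have hg0W : (x : F) * f⁻¹ ∈ W0 := by
        rw [e2]
        exact W0.mul_mem (hA0 s) (W0.mul_mem (W0.mul_mem (hB0 c) hy0) hρ')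
      obtain ⟨s₂, hs₂, hs₂g⟩ := h13x_regular hC 𝔫 ((x : F) * f⁻¹)
        (hWV _ (Winf.mul_mem (hBinf x) hf') hg0W)
        (fun k hk => by rw [map_mul, map_inv₀, hval k hk, hvalx k hk, inv_one, mul_one])
      set b₂ : B := ⟨(s₂ : F) * ((x : F) * f⁻¹), hs₂g⟩ with hb₂
      have hb₂n : b₂ ∈ 𝔫 := by
        refine h13x_mem_of_mod W0 hnt0 𝔫 hn0 s hsm b₂
          ((s₂ : F) * ((c : F) * ((y : F))⁻¹ * (f * (algebraMap A F t)⁻¹)⁻¹))
          (W0.mul_mem (hB0 s₂) (W0.mul_mem (W0.mul_mem (hB0 c) hy0) hρ')) ?_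
        show (s₂ : F) * ((x : F) * f⁻¹) = _
        rw [e2]
        ring
      have hbb : b₁ * b₂ = (s₁ * s₂) * x := by
        apply Subtype.ext
        show (s₁ : F) * f * ((s₂ : F) * ((x : F) * f⁻¹)) = (s₁ : F) * (s₂ : F) * (x : F)
        field_simp
      exact h62j_no_cross Winf hBinf hntinf 𝔫 hninf x y c hx hc a hxy hx0 hxinf hprin b₁ b₂
        (s₁ * s₂) hb₁n hb₂n (fun h => (h𝔫.mem_or_mem h).elim hs₁ hs₂) hbb

/-- constants have trivial valuation at a place which has a section. -/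
theorem h62j_const_val (hC : H26Chart B V v) (k : ι) (φ : B →ₐ[A] A)
    (hφker : ∀ b : B, φ b = 0 ↔ v k (b : F) < 1) {θ : F} (hθ : h13x_IsConst A θ)
    (hθ0 : θ ≠ 0) : v k θ = 1 := by
  obtain ⟨p, q, hq, hpq⟩ := hθ
  have hp : p ≠ 0 := by
    rintro rfl
    rw [map_zero] at hpq
    have h1 := h75p_const_of_section hC.hB k φ hφker q hq
    rcases mul_eq_zero.mp hpq with h | h
    · exact hθ0 h
    · rw [h, map_zero] at h1
      exact zero_ne_one h1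
  have h1 := h75p_const_of_section hC.hB k φ hφker q hq
  have h2 := h75p_const_of_section hC.hB k φ hφker p hp
  have h3 := congrArg (v k) hpq
  rw [map_mul, h1, h2, mul_one] at h3
  exact h3

/-- the coordinate `x` of a node has no zero centered at the node. -/
theorem h62j_val_x (hC : H26Chart B V v) (𝔫 : Ideal B) [h𝔫 : 𝔫.IsPrime]
    (x y c : B) (hc : c ∉ 𝔫) (a : A) (ha : a ≠ 0)
    (hxy : x * y = algebraMap A B a * c) (k : ι) (hk : h26Centered B v 𝔫 k)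
    (φ : B →ₐ[A] A) (hφker : ∀ b : B, φ b = 0 ↔ v k (b : F) < 1) : v k (x : F) = 1 := by
  refine le_antisymm (hC.hB _ x.2 k) (not_lt.mp fun hlt => ?_)
  have h1 : φ x = 0 := (hφker x).mpr hlt
  have hφxy : φ x * φ y = a * φ c := by
    have := congrArg φ hxy
    rw [map_mul, map_mul, AlgHom.commutes] at this
    exact this
  rw [h1, zero_mul] at hφxy
  rcases mul_eq_zero.mp hφxy.symm with h | h
  · exact ha h
  · exact hc (hk c ((hφker c).mp h))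

/-- the membership statements behind `h62j_unit_slope`. -/
theorem h62j_slope_mem (hC : H26Chart B V v) (hAF : Function.Injective (algebraMap A F))
    (Winf W0 : Subring F)
    (hVWinf : ∀ x ∈ V, x ∈ Winf) (hVW0 : ∀ x ∈ V, x ∈ W0)
    (hWV : ∀ x : F, x ∈ Winf → x ∈ W0 → x ∈ V)
    (𝔫 : Ideal B) [h𝔫 : 𝔫.IsPrime]
    (hn0 : ∀ b : B, b ∉ 𝔫 → ((b : F))⁻¹ ∈ W0)
    (x y c : B) (hc : c ∉ 𝔫) (a : A) (ha : a ≠ 0)
    (hxy : x * y = algebraMap A B a * c)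
    (hxinf : ((x : F))⁻¹ ∈ Winf) (hy0 : ((y : F))⁻¹ ∈ W0)
    (g : F) (t w : A) (m : ℕ) (hw : IsUnit w) (hm : t = a ^ m * w)
    (hg : g ∈ Winf) (hg' : g⁻¹ ∈ Winf)
    (hρ : g * (algebraMap A F t)⁻¹ ∈ W0) (hρ' : (g * (algebraMap A F t)⁻¹)⁻¹ ∈ W0) :
    g * ((x : F) ^ m)⁻¹ ∈ V ∧ (g * ((x : F) ^ m)⁻¹)⁻¹ ∈ V := by
  have hAV : ∀ a : A, algebraMap A F a ∈ V := fun a => hC.hBV _ (B.algebraMap_mem a)
  have hA0 : ∀ a : A, algebraMap A F a ∈ W0 := fun a => hVW0 _ (hAV a)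
  have hBinf : ∀ b : B, (b : F) ∈ Winf := fun b => hVWinf _ (hC.hBV _ b.2)
  have hB0 : ∀ b : B, (b : F) ∈ W0 := fun b => hVW0 _ (hC.hBV _ b.2)
  obtain ⟨haF, hc0, hx0, hy0', hxyF⟩ := h62j_ne_zero hAF 𝔫 x y c hc a ha hxy
  obtain ⟨w', hww'⟩ := hw.exists_right_inv
  have hwF : algebraMap A F w * algebraMap A F w' = 1 := by rw [← map_mul, hww', map_one]
  have hwF0 : algebraMap A F w ≠ 0 := left_ne_zero_of_mul_eq_one hwF
  have hw'F : (algebraMap A F w)⁻¹ = algebraMap A F w' := inv_eq_of_mul_eq_one_right hwF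
  have haq : algebraMap A F a = (x : F) * ((y : F) * ((c : F))⁻¹) := by
    field_simp
    exact hxyF.symm
  have htF : algebraMap A F t = ((x : F) * ((y : F) * ((c : F))⁻¹)) ^ m * algebraMap A F w := by
    rw [hm, map_mul, map_pow, haq]
  have e1 : g * ((x : F) ^ m)⁻¹
      = (g * (algebraMap A F t)⁻¹) * (algebraMap A F w * ((y : F) * ((c : F))⁻¹) ^ m) := by
    rw [htF, mul_pow, mul_pow]
    field_simp
  have e2 : (g * ((x : F) ^ m)⁻¹)⁻¹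
      = (g * (algebraMap A F t)⁻¹)⁻¹ * (algebraMap A F w' * ((c : F) * ((y : F))⁻¹) ^ m) := by
    have h5 : ((((y : F) * ((c : F))⁻¹) ^ m))⁻¹ = ((c : F) * ((y : F))⁻¹) ^ m := by
      rw [← inv_pow, mul_inv, inv_inv, mul_comm]
    rw [e1, mul_inv, mul_inv (algebraMap A F w), hw'F, h5]
  refine ⟨hWV _ (Winf.mul_mem hg (by rw [← inv_pow]; exact Winf.pow_mem hxinf m)) ?_,
    hWV _ (by rw [mul_inv, inv_inv]; exact Winf.mul_mem hg' (Winf.pow_mem (hBinf x) m)) ?_⟩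
  · rw [e1]
    exact W0.mul_mem hρ (W0.mul_mem (hA0 w) (W0.pow_mem (W0.mul_mem (hB0 y) (hn0 c hc)) m))
  · rw [e2]
    exact W0.mul_mem hρ' (W0.mul_mem (hA0 w') (W0.pow_mem (W0.mul_mem (hB0 c) hy0) m))

/-- **The slope of a unit.**  A function without zeros or poles centered at the node is
`θ · x ^ m · (Gauss unit)` with `θ` a constant and `m : ℤ`. -/
theorem h62j_unit_slope (hC : H26Chart B V v) (hAF : Function.Injective (algebraMap A F))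
    (Winf W0 : Subring F)
    (hVWinf : ∀ x ∈ V, x ∈ Winf) (hVW0 : ∀ x ∈ V, x ∈ W0)
    (hWV : ∀ x : F, x ∈ Winf → x ∈ W0 → x ∈ V)
    (hntinf : ∀ π ∈ maximalIdeal A, ∀ x ∈ Winf, algebraMap A F π * x ≠ 1)
    (hnt0 : ∀ π ∈ maximalIdeal A, ∀ x ∈ W0, algebraMap A F π * x ≠ 1)
    (𝔫 : Ideal B) [h𝔫 : 𝔫.IsPrime]
    (hninf : ∀ b : B, b ∉ 𝔫 → ((b : F))⁻¹ ∈ Winf)
    (hn0 : ∀ b : B, b ∉ 𝔫 → ((b : F))⁻¹ ∈ W0)
    (x y c : B) (hx : x ∈ 𝔫) (hy : y ∈ 𝔫) (hc : c ∉ 𝔫) (a : A) (ha : a ≠ 0)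
    (hxy : x * y = algebraMap A B a * c)
    (hxinf : ((x : F))⁻¹ ∈ Winf) (hy0 : ((y : F))⁻¹ ∈ W0)
    (hprin : ∀ z ∈ 𝔫, ∃ s, s ∉ 𝔫 ∧
      s * z ∈ Ideal.span {x, y} ⊔ (maximalIdeal A).map (algebraMap A B))
    (hsec : ∀ i, h26Centered B v 𝔫 i → ∃ φ : B →ₐ[A] A,
      (∀ b : B, φ b = 0 ↔ v i (b : F) < 1))
    (hscinf : ∀ f : F, f ≠ 0 → ∃ θ : F, h13x_IsConst A θ ∧ θ ≠ 0 ∧
      f * θ⁻¹ ∈ Winf ∧ (f * θ⁻¹)⁻¹ ∈ Winf)
    (hsc0 : ∀ f : F, f ≠ 0 → ∃ θ : F, h13x_IsConst A θ ∧ θ ≠ 0 ∧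
      f * θ⁻¹ ∈ W0 ∧ (f * θ⁻¹)⁻¹ ∈ W0)
    (harch : ∀ t : A, t ≠ 0 → ∃ K : ℕ, t ∣ a ^ K)
    (f : F) (hf0 : f ≠ 0) (hval : ∀ k, h26Centered B v 𝔫 k → v k f = 1) :
    ∃ (m : ℤ) (θ : F), h13x_IsConst A θ ∧ θ ≠ 0 ∧
      f * (θ * (x : F) ^ m)⁻¹ ∈ V ∧ (f * (θ * (x : F) ^ m)⁻¹)⁻¹ ∈ V ∧
      (∀ k, h26Centered B v 𝔫 k → v k (f * (θ * (x : F) ^ m)⁻¹) = 1) := by
  obtain ⟨haF, hc0, hx0, hy0', hxyF⟩ := h62j_ne_zero hAF 𝔫 x y c hc a ha hxy
  have hvalx : ∀ k, h26Centered B v 𝔫 k → v k (x : F) = 1 := by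
    intro k hk
    obtain ⟨φ, hφ⟩ := hsec k hk
    exact h62j_val_x hC 𝔫 x y c hc a ha hxy k hk φ hφ
  have hvalc : ∀ θ : F, h13x_IsConst A θ → θ ≠ 0 → ∀ k, h26Centered B v 𝔫 k → v k θ = 1 := by
    intro θ hθ hθ0 k hk
    obtain ⟨φ, hφ⟩ := hsec k hk
    exact h62j_const_val hC k φ hφ hθ hθ0
  obtain ⟨θ₁, hθ₁, hθ₁0, h1, h1'⟩ := hscinf f hf0
  set f₁ : F := f * θ₁⁻¹ with hf₁
  have hf₁0 : f₁ ≠ 0 := mul_ne_zero hf0 (inv_ne_zero hθ₁0)
  have hval₁ : ∀ k, h26Centered B v 𝔫 k → v k f₁ = 1 := by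
    intro k hk
    rw [hf₁, map_mul, map_inv₀, hval k hk, hvalc θ₁ hθ₁ hθ₁0 k hk, inv_one, mul_one]
  obtain ⟨θ₂, hθ₂, hθ₂0, h2, h2'⟩ := hsc0 f₁ hf₁0
  have hfin : ∀ m : ℤ, (f * (θ₁ * (x : F) ^ m)⁻¹ ∈ V ∧ (f * (θ₁ * (x : F) ^ m)⁻¹)⁻¹ ∈ V) →
      ∃ (m : ℤ) (θ : F), h13x_IsConst A θ ∧ θ ≠ 0 ∧
      f * (θ * (x : F) ^ m)⁻¹ ∈ V ∧ (f * (θ * (x : F) ^ m)⁻¹)⁻¹ ∈ V ∧
      (∀ k, h26Centered B v 𝔫 k → v k (f * (θ * (x : F) ^ m)⁻¹) = 1) := by
    intro m hm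
    refine ⟨m, θ₁, hθ₁, hθ₁0, hm.1, hm.2, fun k hk => ?_⟩
    rw [map_mul, map_inv₀, map_mul, map_zpow₀, hval k hk, hvalx k hk,
      hvalc θ₁ hθ₁ hθ₁0 k hk, one_zpow, mul_one, inv_one, mul_one]
  obtain ⟨t, ht0, ht | ht⟩ := h13x_const_dichotomy hAF hθ₂ hθ₂0
  · obtain ⟨K, hK⟩ := harch t ht0
    rw [ht] at h2 h2'
    obtain ⟨m, w, hw, hm⟩ := h62j_pos hC hAF Winf W0 hVWinf hVW0 hWV hntinf hnt0 𝔫 hninf hn0
      x y c hx hy hc a ha hxy hxinf hy0 hprin hvalx K f₁ t hf₁0 ht0 hK h1 h1' h2 h2' hval₁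
    obtain ⟨h3, h3'⟩ := h62j_slope_mem hC hAF Winf W0 hVWinf hVW0 hWV 𝔫 hn0 x y c hc a ha hxy
      hxinf hy0 f₁ t w m hw hm h1 h1' h2 h2'
    apply hfin (m : ℤ)
    have e : f * (θ₁ * (x : F) ^ (m : ℤ))⁻¹ = f₁ * ((x : F) ^ m)⁻¹ := by
      rw [hf₁, zpow_natCast, mul_inv]
      ring
    rw [e]
    exact ⟨h3, h3'⟩
  · obtain ⟨K, hK⟩ := harch t ht0
    rw [ht] at h2 h2'
    have e0 : f₁⁻¹ * (algebraMap A F t)⁻¹ = (f₁ * algebraMap A F t)⁻¹ :=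
      (mul_inv _ _).symm
    obtain ⟨m, w, hw, hm⟩ := h62j_pos hC hAF Winf W0 hVWinf hVW0 hWV hntinf hnt0 𝔫 hninf hn0
      x y c hx hy hc a ha hxy hxinf hy0 hprin hvalx K f₁⁻¹ t (inv_ne_zero hf₁0) ht0 hK h1'
      (by rw [inv_inv]; exact h1) (by rw [e0]; exact h2') (by rw [e0, inv_inv]; exact h2)
      (fun k hk => by rw [map_inv₀, hval₁ k hk, inv_one])
    obtain ⟨h3, h3'⟩ := h62j_slope_mem hC hAF Winf W0 hVWinf hVW0 hWV 𝔫 hn0 x y c hc a ha hxy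
      hxinf hy0 f₁⁻¹ t w m hw hm h1' (by rw [inv_inv]; exact h1) (by rw [e0]; exact h2')
      (by rw [e0, inv_inv]; exact h2)
    apply hfin (-(m : ℤ))
    have e : f * (θ₁ * (x : F) ^ (-(m : ℤ)))⁻¹ = (f₁⁻¹ * ((x : F) ^ m)⁻¹)⁻¹ := by
      have hxm : (x : F) ^ m ≠ 0 := pow_ne_zero _ hx0
      rw [hf₁, zpow_neg, zpow_natCast]
      field_simp
    rw [e, inv_inv]
    exact ⟨h3', h3⟩

/-- **The node jump formula, normal form.**  Every `u ≠ 0` whose divisor is divisible by `r` at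
the places centered at the node `𝔫` (`x y = a c`) is
`u = θ · x ^ m · e · (∏ i ∈ T, (x - a_i) ^ n_i) ^ r` with `θ` a constant, `m : ℤ`, `e` a unit of
`B_𝔫` and `a_i ∈ 𝔪_A`, `a_i ≠ 0`, the values of `x` at the zeros and poles of `u` centered at
`𝔫`; the product is `x ^ (∑ n_i) · (1 + π W∞)` and `∏ (- a_i) ^ n_i · (1 + π W₀)`. -/
theorem h62j_node_jump
    (hC : H26Chart B V v) (hAF : Function.Injective (algebraMap A F))
    (Winf W0 : Subring F)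
    (hVWinf : ∀ x ∈ V, x ∈ Winf) (hVW0 : ∀ x ∈ V, x ∈ W0)
    (hWV : ∀ x : F, x ∈ Winf → x ∈ W0 → x ∈ V)
    (hinvinf : ∀ π ∈ maximalIdeal A, ∀ x ∈ Winf, (1 + algebraMap A F π * x)⁻¹ ∈ Winf)
    (hinv0 : ∀ π ∈ maximalIdeal A, ∀ x ∈ W0, (1 + algebraMap A F π * x)⁻¹ ∈ W0)
    (hntinf : ∀ π ∈ maximalIdeal A, ∀ x ∈ Winf, algebraMap A F π * x ≠ 1)
    (hnt0 : ∀ π ∈ maximalIdeal A, ∀ x ∈ W0, algebraMap A F π * x ≠ 1)
    (𝔫 : Ideal B) [h𝔫 : 𝔫.IsPrime] (h𝔪𝔫 : (maximalIdeal A).map (algebraMap A B) ≤ 𝔫)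
    (hninf : ∀ b : B, b ∉ 𝔫 → ((b : F))⁻¹ ∈ Winf)
    (hn0 : ∀ b : B, b ∉ 𝔫 → ((b : F))⁻¹ ∈ W0)
    (x y c : B) (hx : x ∈ 𝔫) (hy : y ∈ 𝔫) (hc : c ∉ 𝔫) (a : A) (ha : a ≠ 0)
    (hxy : x * y = algebraMap A B a * c)
    (hxinf : ((x : F))⁻¹ ∈ Winf) (hy0 : ((y : F))⁻¹ ∈ W0)
    (hprin : ∀ z ∈ 𝔫, ∃ s, s ∉ 𝔫 ∧
      s * z ∈ Ideal.span {x, y} ⊔ (maximalIdeal A).map (algebraMap A B))
    (hsec : ∀ i, h26Centered B v 𝔫 i → ∃ φ : B →ₐ[A] A,
      (∀ b : B, φ b = 0 ↔ v i (b : F) < 1) ∧ (RingHom.ker (φ : B →+* A)).FG)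
    (hscinf : ∀ f : F, f ≠ 0 → ∃ θ : F, h13x_IsConst A θ ∧ θ ≠ 0 ∧
      f * θ⁻¹ ∈ Winf ∧ (f * θ⁻¹)⁻¹ ∈ Winf)
    (hsc0 : ∀ f : F, f ≠ 0 → ∃ θ : F, h13x_IsConst A θ ∧ θ ≠ 0 ∧
      f * θ⁻¹ ∈ W0 ∧ (f * θ⁻¹)⁻¹ ∈ W0)
    (harch : ∀ t : A, t ≠ 0 → ∃ K : ℕ, t ∣ a ^ K)
    (u : F) (hu : u ≠ 0) (r : ℕ)
    (hru : ∀ i, h26Centered B v 𝔫 i → ∃ n : ℤ, v i u = exp (-((r : ℤ) * n))) :
    ∃ (m : ℤ) (θ e : F) (T : Finset ι) (ai : ι → A) (n : ι → ℤ) (π : A) (εinf ε0 : F),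
      h13x_IsConst A θ ∧ θ ≠ 0 ∧
      e ∈ V ∧ e⁻¹ ∈ V ∧ (∀ k, h26Centered B v 𝔫 k → v k e = 1) ∧
      (∃ s : B, s ∉ 𝔫 ∧ (s : F) * e ∈ B ∧ (s : F) * e⁻¹ ∈ B) ∧
      (∀ i ∈ T, h26Centered B v 𝔫 i ∧ ai i ∈ maximalIdeal A ∧ ai i ≠ 0 ∧
        v i ((x : F) - algebraMap A F (ai i)) = exp (-1 : ℤ) ∧
        v i u = exp (-((r : ℤ) * n i))) ∧
      (∀ k, h26Centered B v 𝔫 k → k ∉ T → v k u = 1) ∧
      u = θ * (x : F) ^ m * e * (∏ i ∈ T, ((x : F) - algebraMap A F (ai i)) ^ n i) ^ r ∧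
      π ∈ maximalIdeal A ∧ π ≠ 0 ∧ εinf ∈ h26U π Winf ∧ ε0 ∈ h26U π W0 ∧
      ∏ i ∈ T, ((x : F) - algebraMap A F (ai i)) ^ n i = (x : F) ^ (∑ i ∈ T, n i) * εinf ∧
      ∏ i ∈ T, ((x : F) - algebraMap A F (ai i)) ^ n i
        = (∏ i ∈ T, (-algebraMap A F (ai i)) ^ n i) * ε0 := by
  classical
  have hAV : ∀ a : A, algebraMap A F a ∈ V := fun a => hC.hBV _ (B.algebraMap_mem a)
  have hAinf : ∀ a : A, algebraMap A F a ∈ Winf := fun a => hVWinf _ (hAV a)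
  have hA0 : ∀ a : A, algebraMap A F a ∈ W0 := fun a => hVW0 _ (hAV a)
  have hBinf : ∀ b : B, (b : F) ∈ Winf := fun b => hVWinf _ (hC.hBV _ b.2)
  have hB0 : ∀ b : B, (b : F) ∈ W0 := fun b => hVW0 _ (hC.hBV _ b.2)
  obtain ⟨haF, hc0, hx0, hy0', hxyF⟩ := h62j_ne_zero hAF 𝔫 x y c hc a ha hxy
  have ham : a ∈ maximalIdeal A := h62j_a_mem 𝔫 x y c hx hc a hxy
  -- the data at the centered places
  have hdata : ∀ i : ι, ∃ ai bi gi : A, h26Centered B v 𝔫 i →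
      ai ∈ maximalIdeal A ∧ bi ∈ maximalIdeal A ∧ IsUnit gi ∧ ai * bi = a * gi ∧
      v i (x : F) = 1 ∧
      v i ((x : F) - algebraMap A F ai) = exp (-1 : ℤ) ∧
      (∀ k, h26Centered B v 𝔫 k → k ≠ i → v k ((x : F) - algebraMap A F ai) = 1) := by
    intro i
    by_cases hi : h26Centered B v 𝔫 i
    · obtain ⟨φ, hφker, hφfg⟩ := hsec i hi
      have hkerle : RingHom.ker (φ : B →+* A) ≤ 𝔫 := fun b hb => hi b ((hφker b).mp hb)
      have hφ𝔫 := h26_section_local 𝔫 φ hkerle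
      have hconst : ∀ k, h26Centered B v 𝔫 k → v k (algebraMap A F a) = 1 := by
        intro k hk
        obtain ⟨ψ, hψker, -⟩ := hsec k hk
        exact h75p_const_of_section hC.hB k ψ hψker a ha
      have hφxy : φ x * φ y = a * φ c := by
        have := congrArg φ hxy
        rw [map_mul, map_mul, AlgHom.commutes] at this
        exact this
      have hφc : IsUnit (φ c) := by
        by_contra hnu
        have hm : φ c ∈ maximalIdeal A := hnu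
        apply hc
        have h1 : c - algebraMap A B (φ c) ∈ 𝔫 := by
          apply hkerle
          rw [RingHom.mem_ker]
          show φ (c - algebraMap A B (φ c)) = 0
          rw [map_sub, AlgHom.commutes]
          exact sub_self _
        have h2 : algebraMap A B (φ c) ∈ 𝔫 := h𝔪𝔫 (Ideal.mem_map_of_mem _ hm)
        have h3 : c = (c - algebraMap A B (φ c)) + algebraMap A B (φ c) := by ring
        rw [h3]
        exact 𝔫.add_mem h1 h2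
      refine ⟨φ x, φ y, φ c, fun _ => ⟨hφ𝔫 x hx, hφ𝔫 y hy, hφc, hφxy, ?_,
        h75p_lp_node hC 𝔫 h𝔪𝔫 x y c hx hy hc a hxy hconst hprin i hi φ hφker hφfg⟩⟩
      exact h62j_val_x hC 𝔫 x y c hc a ha hxy i hi φ hφker
    · exact ⟨0, 0, 0, fun h => (hi h).elim⟩
  choose ai bi gi hdat using hdata
  have hru' : ∀ i, ∃ n : ℤ, h26Centered B v 𝔫 i → v i u = exp (-((r : ℤ) * n)) := by
    intro i
    by_cases hi : h26Centered B v 𝔫 i
    · obtain ⟨n, hn⟩ := hru i hi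
      exact ⟨n, fun _ => hn⟩
    · exact ⟨0, fun h => (hi h).elim⟩
  choose n hn using hru'
  set Z : Finset ι := (h26_finite_support hC u hu).toFinset with hZ
  set T : Finset ι := Z.filter (fun i => h26Centered B v 𝔫 i) with hT
  have hTc : ∀ i ∈ T, h26Centered B v 𝔫 i := fun i hi => (Finset.mem_filter.mp hi).2
  have hu1 : ∀ k, h26Centered B v 𝔫 k → k ∉ T → v k u = 1 := by
    intro k hk hkT
    by_contra hne
    apply hkT
    rw [hT, Finset.mem_filter, hZ, Set.Finite.mem_toFinset]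
    exact ⟨hne, hk⟩
  -- the common modulus
  obtain ⟨d₁, hd₁, hd₁0, hd₁π, hd₁a⟩ := h26_common_divisor T ai
    (fun i hi => (hdat i (hTc i hi)).1) a ham ha
  obtain ⟨π, hπ, hπ0, hπd, hπb⟩ := h26_common_divisor T bi
    (fun i hi => (hdat i (hTc i hi)).2.1) d₁ hd₁ hd₁0
  have hπa : ∀ i ∈ T, π ∣ ai i := fun i hi => hπd.trans (hd₁a i hi)
  have hπinf : algebraMap A F π ∈ Winf := hAinf π
  have hπW0 : algebraMap A F π ∈ W0 := hA0 π
  -- the functions of (LP)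
  set G : ι → F := fun i => (x : F) - algebraMap A F (ai i) with hG
  have hG1 : ∀ i ∈ T, v i (G i) = exp (-1 : ℤ) := fun i hi => (hdat i (hTc i hi)).2.2.2.2.2.1
  have hG2 : ∀ i ∈ T, ∀ k, h26Centered B v 𝔫 k → k ≠ i → v k (G i) = 1 := fun i hi =>
    (hdat i (hTc i hi)).2.2.2.2.2.2
  set g₁ : F := ∏ i ∈ T, G i ^ n i with hg₁
  set sT : ℤ := ∑ i ∈ T, n i with hsT
  have hai0' : ∀ i ∈ T, ai i ≠ 0 := by
    intro i hi h1
    have h2 := (hdat i (hTc i hi)).2.2.2.1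
    rw [h1, zero_mul] at h2
    exact mul_ne_zero ha (hdat i (hTc i hi)).2.2.1.ne_zero h2.symm
  have hai0 : ∀ i ∈ T, algebraMap A F (ai i) ≠ 0 := by
    intro i hi h0
    exact hai0' i hi (hAF (by rw [h0, map_zero]))
  -- the first branch
  set ηinf : ι → F := fun i => 1 - algebraMap A F (ai i) * ((x : F))⁻¹ with hηinf
  have hηinfU : ∀ i ∈ T, ηinf i ∈ h26U π Winf := by
    intro i hi
    obtain ⟨q, hq⟩ := hπa i hi
    refine ⟨-(algebraMap A F q * ((x : F))⁻¹),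
      Winf.neg_mem (Winf.mul_mem (hAinf q) hxinf), ?_⟩
    rw [hηinf]
    simp only
    rw [hq, map_mul]
    ring
  have hGinf : ∀ i, G i = (x : F) * ηinf i := by
    intro i
    rw [hG, hηinf]
    simp only
    field_simp
  set εinf : F := ∏ i ∈ T, ηinf i ^ n i with hεinf
  have hεinfU : εinf ∈ h26U π Winf :=
    h26U_prod hπinf T _ fun i hi =>
      h26U_zpow hπinf (hinvinf π hπ) (hntinf π hπ) (hηinfU i hi) _
  have hg₁inf : g₁ = (x : F) ^ sT * εinf := by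
    rw [hg₁, hεinf, hsT, ← h26_prod_zpow_const T (x : F) hx0 n, ← Finset.prod_mul_distrib]
    refine Finset.prod_congr rfl fun i _ => ?_
    rw [hGinf i, mul_zpow]
  -- the second branch
  set η0 : ι → F := fun i => 1 - (x : F) * (algebraMap A F (ai i))⁻¹ with hη0
  have hη0U : ∀ i ∈ T, η0 i ∈ h26U π W0 := by
    intro i hi
    obtain ⟨q, hq⟩ := hπb i hi
    obtain ⟨gi', hgi'⟩ := (hdat i (hTc i hi)).2.2.1.exists_right_inv
    have hab := (hdat i (hTc i hi)).2.2.2.1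
    have habF : algebraMap A F (ai i) * algebraMap A F (bi i) =
        algebraMap A F a * algebraMap A F (gi i) := by
      rw [← map_mul, ← map_mul, hab]
    have hgF : algebraMap A F (gi i) * algebraMap A F gi' = 1 := by
      rw [← map_mul, hgi', map_one]
    refine ⟨-(algebraMap A F q * algebraMap A F gi' * (c : F) * ((y : F))⁻¹),
      W0.neg_mem (W0.mul_mem (W0.mul_mem (W0.mul_mem (hA0 q) (hA0 gi')) (hB0 c)) hy0), ?_⟩
    rw [hη0]
    simp only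
    have hai := hai0 i hi
    have hbq : algebraMap A F (bi i) = algebraMap A F π * algebraMap A F q := by
      rw [← map_mul, hq]
    have hxval : (x : F) = algebraMap A F a * (c : F) * ((y : F))⁻¹ := by
      field_simp
      exact hxyF
    have key : (x : F) * (algebraMap A F (ai i))⁻¹ =
        algebraMap A F π * (algebraMap A F q * algebraMap A F gi' * (c : F) * ((y : F))⁻¹) := by
      have h1 : algebraMap A F a = algebraMap A F (ai i) * algebraMap A F (bi i) *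
          algebraMap A F gi' := by
        rw [habF, mul_assoc, hgF, mul_one]
      rw [hxval, h1, hbq]
      field_simp
    rw [key]
    ring
  have hG0 : ∀ i ∈ T, G i = (-algebraMap A F (ai i)) * η0 i := by
    intro i hi
    have hai := hai0 i hi
    rw [hG, hη0]
    simp only
    field_simp
    ring
  set α : F := ∏ i ∈ T, (-algebraMap A F (ai i)) ^ n i with hα
  set ε0 : F := ∏ i ∈ T, η0 i ^ n i with hε0
  have hε0U : ε0 ∈ h26U π W0 :=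
    h26U_prod hπW0 T _ fun i hi =>
      h26U_zpow hπW0 (hinv0 π hπ) (hnt0 π hπ) (hη0U i hi) _
  have hg₁0 : g₁ = α * ε0 := by
    rw [hg₁, hα, hε0, ← Finset.prod_mul_distrib]
    refine Finset.prod_congr rfl fun i hi => ?_
    rw [hG0 i hi, mul_zpow]
  have hGi0 : ∀ i ∈ T, G i ≠ 0 := by
    intro i hi h0
    have h1 := hG1 i hi
    rw [h0, map_zero] at h1
    exact exp_ne_zero h1.symm
  have hg₁0' : g₁ ≠ 0 := by
    rw [hg₁]
    exact Finset.prod_ne_zero_iff.mpr fun i hi => zpow_ne_zero _ (hGi0 i hi)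
  -- the function `e`
  set e : F := u * (g₁ ^ r)⁻¹ with he
  have he0 : e ≠ 0 := mul_ne_zero hu (inv_ne_zero (pow_ne_zero _ hg₁0'))
  have hval_e : ∀ k, h26Centered B v 𝔫 k → v k e = 1 := fun k hk =>
    h75s_val_one 𝔫 T G hG1 hG2 u r n (fun i hi => hn i (hTc i hi)) hu1 k hk
  have hue : u = e * g₁ ^ r := by
    rw [he, mul_assoc, inv_mul_cancel₀ (pow_ne_zero _ hg₁0'), mul_one]
  -- the slope
  obtain ⟨m, θ, hθ, hθ0, hes, hes', hesv⟩ := h62j_unit_slope hC hAF Winf W0 hVWinf hVW0 hWV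
    hntinf hnt0 𝔫 hninf hn0 x y c hx hy hc a ha hxy hxinf hy0 hprin
    (fun i hi => (hsec i hi).imp fun φ hφ => hφ.1) hscinf hsc0 harch e he0 hval_e
  set es : F := e * (θ * (x : F) ^ m)⁻¹ with hesdef
  obtain ⟨s, hs, hse, hse'⟩ := h75s_unit_aux hC.hfin hC.hint hC.hB hC.hBV hC.hQEP 𝔫 es
    hes hes' hesv
  refine ⟨m, θ, es, T, ai, n, π, εinf, ε0, hθ, hθ0, hes, hes', hesv, ⟨s, hs, hse, hse'⟩,
    fun i hi => ⟨hTc i hi, (hdat i (hTc i hi)).1, hai0' i hi, hG1 i hi, hn i (hTc i hi)⟩,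
    hu1, ?_, hπ, hπ0, hεinfU, hε0U, hg₁inf, hg₁0⟩
  have hxm : (x : F) ^ m ≠ 0 := zpow_ne_zero _ hx0
  have hfin : u = θ * (x : F) ^ m * es * g₁ ^ r := by
    have h1 : θ * (x : F) ^ m * es = e := by
      rw [hesdef]
      field_simp
    rw [h1]
    exact hue
  exact hfin

/-- **The node jump formula.**  For `u ≠ 0` whose divisor is divisible by `r` at the places
centered at the node `𝔫` (`x y = a c`) there are a slope `m : ℤ`, an integer `s` and constants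
`θ`, `α` such that

* `u = θ · x ^ (m + r s) · (unit of W∞)` on the first branch,
* `u = θ · a ^ m · α ^ r · (unit of W₀)` on the second branch.

The jump of the Gauss norms of `u` across the node is `|a| ^ m · |α| ^ r`, and the order at the
node of the reduction of `u / θ` on the first branch is `≡ m` modulo `r`. -/
theorem h62j_jump
    (hC : H26Chart B V v) (hAF : Function.Injective (algebraMap A F))
    (Winf W0 : Subring F)
    (hVWinf : ∀ x ∈ V, x ∈ Winf) (hVW0 : ∀ x ∈ V, x ∈ W0)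
    (hWV : ∀ x : F, x ∈ Winf → x ∈ W0 → x ∈ V)
    (hinvinf : ∀ π ∈ maximalIdeal A, ∀ x ∈ Winf, (1 + algebraMap A F π * x)⁻¹ ∈ Winf)
    (hinv0 : ∀ π ∈ maximalIdeal A, ∀ x ∈ W0, (1 + algebraMap A F π * x)⁻¹ ∈ W0)
    (hntinf : ∀ π ∈ maximalIdeal A, ∀ x ∈ Winf, algebraMap A F π * x ≠ 1)
    (hnt0 : ∀ π ∈ maximalIdeal A, ∀ x ∈ W0, algebraMap A F π * x ≠ 1)
    (𝔫 : Ideal B) [h𝔫 : 𝔫.IsPrime] (h𝔪𝔫 : (maximalIdeal A).map (algebraMap A B) ≤ 𝔫)
    (hninf : ∀ b : B, b ∉ 𝔫 → ((b : F))⁻¹ ∈ Winf)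
    (hn0 : ∀ b : B, b ∉ 𝔫 → ((b : F))⁻¹ ∈ W0)
    (x y c : B) (hx : x ∈ 𝔫) (hy : y ∈ 𝔫) (hc : c ∉ 𝔫) (a : A) (ha : a ≠ 0)
    (hxy : x * y = algebraMap A B a * c)
    (hxinf : ((x : F))⁻¹ ∈ Winf) (hy0 : ((y : F))⁻¹ ∈ W0)
    (hprin : ∀ z ∈ 𝔫, ∃ s, s ∉ 𝔫 ∧
      s * z ∈ Ideal.span {x, y} ⊔ (maximalIdeal A).map (algebraMap A B))
    (hsec : ∀ i, h26Centered B v 𝔫 i → ∃ φ : B →ₐ[A] A,
      (∀ b : B, φ b = 0 ↔ v i (b : F) < 1) ∧ (RingHom.ker (φ : B →+* A)).FG)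
    (hscinf : ∀ f : F, f ≠ 0 → ∃ θ : F, h13x_IsConst A θ ∧ θ ≠ 0 ∧
      f * θ⁻¹ ∈ Winf ∧ (f * θ⁻¹)⁻¹ ∈ Winf)
    (hsc0 : ∀ f : F, f ≠ 0 → ∃ θ : F, h13x_IsConst A θ ∧ θ ≠ 0 ∧
      f * θ⁻¹ ∈ W0 ∧ (f * θ⁻¹)⁻¹ ∈ W0)
    (harch : ∀ t : A, t ≠ 0 → ∃ K : ℕ, t ∣ a ^ K)
    (u : F) (hu : u ≠ 0) (r : ℕ)
    (hru : ∀ i, h26Centered B v 𝔫 i → ∃ n : ℤ, v i u = exp (-((r : ℤ) * n))) :
    ∃ (m s : ℤ) (θ α ρinf ρ0 : F),
      h13x_IsConst A θ ∧ θ ≠ 0 ∧ h13x_IsConst A α ∧ α ≠ 0 ∧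
      ρinf ∈ Winf ∧ ρinf⁻¹ ∈ Winf ∧ ρ0 ∈ W0 ∧ ρ0⁻¹ ∈ W0 ∧
      u = θ * (x : F) ^ (m + (r : ℤ) * s) * ρinf ∧
      u = θ * (algebraMap A F a) ^ m * α ^ r * ρ0 := by
  classical
  have hAV : ∀ a : A, algebraMap A F a ∈ V := fun a => hC.hBV _ (B.algebraMap_mem a)
  have hAinf : ∀ a : A, algebraMap A F a ∈ Winf := fun a => hVWinf _ (hAV a)
  have hA0 : ∀ a : A, algebraMap A F a ∈ W0 := fun a => hVW0 _ (hAV a)
  have hB0 : ∀ b : B, (b : F) ∈ W0 := fun b => hVW0 _ (hC.hBV _ b.2)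
  obtain ⟨haF, hc0, hx0, hy0', hxyF⟩ := h62j_ne_zero hAF 𝔫 x y c hc a ha hxy
  obtain ⟨m, θ, e, T, ai, n, π, εinf, ε0, hθ, hθ0, he, he', -, -, hT, -, hue, hπ, hπ0, hεinf,
    hε0, hginf, hg0⟩ := h62j_node_jump hC hAF Winf W0 hVWinf hVW0 hWV hinvinf hinv0 hntinf hnt0
    𝔫 h𝔪𝔫 hninf hn0 x y c hx hy hc a ha hxy hxinf hy0 hprin hsec hscinf hsc0 harch u hu r hru
  set α : F := ∏ i ∈ T, (-algebraMap A F (ai i)) ^ n i with hα
  have hαc : h13x_IsConst A α :=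
    h13x_isConst_prod T _ fun i _ =>
      h13x_isConst_zpow hAF (h13x_isConst_neg (h13x_isConst_algebraMap (ai i))) _
  have hα0 : α ≠ 0 := by
    rw [hα]
    refine Finset.prod_ne_zero_iff.mpr fun i hi => zpow_ne_zero _ (neg_ne_zero.mpr ?_)
    intro h0
    exact (hT i hi).2.2.1 (hAF (by rw [h0, map_zero]))
  have hεinfr : (εinf ^ r)⁻¹ ∈ h26U π Winf :=
    h26U_inv (hinvinf π hπ) (hntinf π hπ) (h26U_pow (hAinf π) hεinf r)
  have hε0r : (ε0 ^ r)⁻¹ ∈ h26U π W0 :=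
    h26U_inv (hinv0 π hπ) (hnt0 π hπ) (h26U_pow (hA0 π) hε0 r)
  have hcy : (c : F) * ((y : F))⁻¹ ∈ W0 := W0.mul_mem (hB0 c) hy0
  have hcy' : ((c : F) * ((y : F))⁻¹)⁻¹ ∈ W0 := by
    rw [mul_inv, inv_inv]
    exact W0.mul_mem (hn0 c hc) (hB0 y)
  have hxcy : (x : F) = algebraMap A F a * ((c : F) * ((y : F))⁻¹) := by
    field_simp
    exact hxyF
  refine ⟨m, ∑ i ∈ T, n i, θ, α, e * εinf ^ r, ((c : F) * ((y : F))⁻¹) ^ m * e * ε0 ^ r,
    hθ, hθ0, hαc, hα0, ?_, ?_, ?_, ?_, ?_, ?_⟩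
  · exact Winf.mul_mem (hVWinf _ he) (Winf.pow_mem (h26U_mem_V (hAinf π) hεinf) r)
  · rw [mul_inv]
    exact Winf.mul_mem (hVWinf _ he') (h26U_mem_V (hAinf π) hεinfr)
  · exact W0.mul_mem (W0.mul_mem (h13x_zpow_mem W0 hcy hcy' m) (hVW0 _ he))
      (W0.pow_mem (h26U_mem_V (hA0 π) hε0) r)
  · rw [mul_inv, mul_inv, ← zpow_neg]
    exact W0.mul_mem (W0.mul_mem (h13x_zpow_mem W0 hcy hcy' (-m)) (hVW0 _ he'))
      (h26U_mem_V (hA0 π) hε0r)
  · have hxS : ((x : F) ^ (∑ i ∈ T, n i)) ^ r = (x : F) ^ ((r : ℤ) * ∑ i ∈ T, n i) := by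
      rw [← zpow_natCast, ← zpow_mul, mul_comm]
    rw [hue, hginf, mul_pow, hxS, zpow_add₀ hx0]
    ring
  · rw [hue, hg0, mul_pow]
    conv_lhs => rw [hxcy, mul_zpow]
    ring

end Node

end Fermat.Agent.P7
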