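import Mathlib

/-!
# P7 (wave 7, S40), block (5b), leaf C2 POLY (helper62): the variation of a polynomial under an
automorphism, valuation-ring algebra

`A` a valuation ring (a domain), `F` a field over `A`, `W ⊆ F` a subring containing the
constants with `1 + 𝔪_A W ⊆ W^×` (a Gauss valuation ring), `b : F →+* F` acting on the constants
by `θ : A →+* A`, `δ ∈ A` a depth.  Notation: `h62pSm δ W z` is `z ∈ δ 𝔪_A W`, `h62pU δ W z` is
`z ∈ 1 + δ 𝔪_A W`.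

* `h62p_var`  : `G = 1 + ∑ τ_k`, `τ_k ∈ 𝔪_A W`, `b τ_k = τ_k (1 + δ c_k)` `⟹` `b G = G z`,
  `z ∈ 1 + δ 𝔪_A W`;
* `h62p_unit` : (i) `g = t ^ d + ∑_{k < d} s_k t ^ k`, `t` a unit of `W` fixed by `b`,
  `s_k ∈ 𝔪_A`, `θ s_k - s_k ∈ δ 𝔪_A` `⟹` `b g = g z`, `z ∈ 1 + δ 𝔪_A W`;
* `h62p_node` : (ii) `g = ∑_{k ≤ d} s_k x ^ k`, `s_0 ≠ 0`, `(s_k / s_0) x ^ k ∈ 𝔪_A W` for
  `k ≥ 1` (all roots strictly inside), `θ s_k = s_k (1 + δ c_k)`, `δ ∈ 𝔪_A` `⟹`
  `b g = g (1 + δ c_0) z`, `z ∈ 1 + δ 𝔪_A W`;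
* `h62p_pth`, `h62p_pth_const` : (iii) if `p δ = δ ^ p π'`, `π' ∈ 𝔪_A`, then
  `(1 + δ 𝔪_A W) ^ p ⊆ 1 + δ ^ p 𝔪_A W` and `(1 + δ c) ^ p = 1 + δ ^ p (c ^ p + π)`, `π ∈ 𝔪_A`;
* polynomial forms `h62p_unit_poly`, `h62p_node_poly` (`g = aeval t P`).
-/

set_option autoImplicit false
set_option linter.unusedSectionVars false
set_option linter.unusedVariables false
set_option linter.style.longLine false

open IsLocalRing Polynomial

namespace Fermat.Agent.P7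

section Var

variable {A : Type*} [CommRing A] [IsDomain A] [ValuationRing A]
  {F : Type*} [Field F] [Algebra A F]

/-- `z ∈ δ 𝔪_A W`. -/
def h62pSm (δ : A) (W : Subring F) (z : F) : Prop :=
  ∃ π ∈ maximalIdeal A, ∃ w ∈ W, z = algebraMap A F (δ * π) * w

/-- `z ∈ 1 + δ 𝔪_A W`. -/
def h62pU (δ : A) (W : Subring F) (z : F) : Prop :=
  ∃ μ : F, h62pSm δ W μ ∧ z = 1 + μ

theorem h62pSm_zero (δ : A) (W : Subring F) : h62pSm δ W (0 : F) :=
  ⟨0, zero_mem _, 0, W.zero_mem, by rw [mul_zero]⟩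

theorem h62pSm_add (δ : A) (W : Subring F) (hAW : ∀ a : A, algebraMap A F a ∈ W) {z₁ z₂ : F}
    (h₁ : h62pSm δ W z₁) (h₂ : h62pSm δ W z₂) : h62pSm δ W (z₁ + z₂) := by
  obtain ⟨π₁, hπ₁, w₁, hw₁, rfl⟩ := h₁
  obtain ⟨π₂, hπ₂, w₂, hw₂, rfl⟩ := h₂
  rcases ValuationRing.dvd_total π₁ π₂ with ⟨d, rfl⟩ | ⟨d, rfl⟩
  · exact ⟨π₁, hπ₁, w₁ + algebraMap A F d * w₂, W.add_mem hw₁ (W.mul_mem (hAW d) hw₂),
      by simp only [map_mul]; ring⟩
  · exact ⟨π₂, hπ₂, algebraMap A F d * w₁ + w₂, W.add_mem (W.mul_mem (hAW d) hw₁) hw₂,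
      by simp only [map_mul]; ring⟩

theorem h62pSm_mul (δ : A) (W : Subring F) {z w : F} (h : h62pSm δ W z) (hw : w ∈ W) :
    h62pSm δ W (z * w) := by
  obtain ⟨π, hπ, w₁, hw₁, rfl⟩ := h
  exact ⟨π, hπ, w₁ * w, W.mul_mem hw₁ hw, by ring⟩

theorem h62pSm_mul' (δ : A) (W : Subring F) {z w : F} (hw : w ∈ W) (h : h62pSm δ W z) :
    h62pSm δ W (w * z) := by
  rw [mul_comm]
  exact h62pSm_mul δ W h hw

theorem h62pSm_neg (δ : A) (W : Subring F) {z : F} (h : h62pSm δ W z) : h62pSm δ W (-z) := by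
  obtain ⟨π, hπ, w, hw, rfl⟩ := h
  exact ⟨π, hπ, -w, W.neg_mem hw, by ring⟩

theorem h62pSm_sub (δ : A) (W : Subring F) (hAW : ∀ a : A, algebraMap A F a ∈ W) {z₁ z₂ : F}
    (h₁ : h62pSm δ W z₁) (h₂ : h62pSm δ W z₂) : h62pSm δ W (z₁ - z₂) := by
  rw [sub_eq_add_neg]
  exact h62pSm_add δ W hAW h₁ (h62pSm_neg δ W h₂)

theorem h62pSm_sum (δ : A) (W : Subring F) (hAW : ∀ a : A, algebraMap A F a ∈ W)
    {α : Type*} (T : Finset α) (f : α → F) (hf : ∀ k ∈ T, h62pSm δ W (f k)) :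
    h62pSm δ W (∑ k ∈ T, f k) :=
  Finset.sum_induction f (fun z => h62pSm δ W z) (fun _ _ h₁ h₂ => h62pSm_add δ W hAW h₁ h₂)
    (h62pSm_zero δ W) hf

/-- `δ 𝔪_A W ⊆ W`. -/
theorem h62pSm_mem (δ : A) (W : Subring F) (hAW : ∀ a : A, algebraMap A F a ∈ W) {z : F}
    (h : h62pSm δ W z) : z ∈ W := by
  obtain ⟨π, hπ, w, hw, rfl⟩ := h
  exact W.mul_mem (hAW _) hw

/-- `δ 𝔪_A W ⊆ 𝔪_A W`. -/
theorem h62pSm_one (δ : A) (W : Subring F) (hAW : ∀ a : A, algebraMap A F a ∈ W) {z : F}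
    (h : h62pSm δ W z) : h62pSm (1 : A) W z := by
  obtain ⟨π, hπ, w, hw, rfl⟩ := h
  exact ⟨π, hπ, algebraMap A F δ * w, W.mul_mem (hAW _) hw,
    by simp only [map_mul, map_one]; ring⟩

/-- `c · (𝔪_A W) ⊆ c 𝔪_A W`. -/
theorem h62pSm_const (δ : A) (W : Subring F) {z : F} (h : h62pSm (1 : A) W z) :
    h62pSm δ W (algebraMap A F δ * z) := by
  obtain ⟨π, hπ, w, hw, rfl⟩ := h
  exact ⟨π, hπ, w, hw, by simp only [map_mul, map_one]; ring⟩

theorem h62pU_one (δ : A) (W : Subring F) : h62pU δ W (1 : F) :=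
  ⟨0, h62pSm_zero δ W, by rw [add_zero]⟩

theorem h62pU_mem (δ : A) (W : Subring F) (hAW : ∀ a : A, algebraMap A F a ∈ W) {z : F}
    (h : h62pU δ W z) : z ∈ W := by
  obtain ⟨μ, hμ, rfl⟩ := h
  exact W.add_mem W.one_mem (h62pSm_mem δ W hAW hμ)

theorem h62pU_mul (δ : A) (W : Subring F) (hAW : ∀ a : A, algebraMap A F a ∈ W) {z₁ z₂ : F}
    (h₁ : h62pU δ W z₁) (h₂ : h62pU δ W z₂) : h62pU δ W (z₁ * z₂) := by
  obtain ⟨μ₁, hμ₁, rfl⟩ := h₁
  obtain ⟨μ₂, hμ₂, rfl⟩ := h₂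
  refine ⟨μ₁ + μ₂ + μ₁ * μ₂, h62pSm_add δ W hAW (h62pSm_add δ W hAW hμ₁ hμ₂)
    (h62pSm_mul δ W hμ₁ (h62pSm_mem δ W hAW hμ₂)), by ring⟩

/-- elements of `1 + 𝔪_A W` are units of `W`. -/
theorem h62p_inv_mem (W : Subring F)
    (hinv : ∀ π ∈ maximalIdeal A, ∀ x ∈ W, (1 + algebraMap A F π * x)⁻¹ ∈ W) {μ : F}
    (hμ : h62pSm (1 : A) W μ) : (1 + μ)⁻¹ ∈ W := by
  obtain ⟨π, hπ, w, hw, rfl⟩ := hμ
  rw [one_mul]
  exact hinv π hπ w hw

theorem h62p_ne_zero (W : Subring F)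
    (hnt : ∀ π ∈ maximalIdeal A, ∀ x ∈ W, algebraMap A F π * x ≠ 1) {μ : F}
    (hμ : h62pSm (1 : A) W μ) : (1 + μ) ≠ 0 := by
  obtain ⟨π, hπ, w, hw, rfl⟩ := hμ
  rw [one_mul]
  intro h
  apply hnt π hπ (-w) (W.neg_mem hw)
  linear_combination -h

theorem h62pU_inv (δ : A) (W : Subring F) (hAW : ∀ a : A, algebraMap A F a ∈ W)
    (hinv : ∀ π ∈ maximalIdeal A, ∀ x ∈ W, (1 + algebraMap A F π * x)⁻¹ ∈ W)
    (hnt : ∀ π ∈ maximalIdeal A, ∀ x ∈ W, algebraMap A F π * x ≠ 1) {z : F}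
    (h : h62pU δ W z) : h62pU δ W z⁻¹ := by
  obtain ⟨μ, hμ, rfl⟩ := h
  have h0 := h62p_ne_zero W hnt (h62pSm_one δ W hAW hμ)
  have h1 := h62p_inv_mem W hinv (h62pSm_one δ W hAW hμ)
  refine ⟨-(μ * (1 + μ)⁻¹), h62pSm_neg δ W (h62pSm_mul δ W hμ h1), ?_⟩
  field_simp
  ring

/-- **The variation of `1 + ∑ τ_k`**: `τ_k ∈ 𝔪_A W`, `b τ_k - τ_k ∈ δ 𝔪_A W`. -/
theorem h62p_var (δ : A) (W : Subring F) (hAW : ∀ a : A, algebraMap A F a ∈ W)
    (hinv : ∀ π ∈ maximalIdeal A, ∀ x ∈ W, (1 + algebraMap A F π * x)⁻¹ ∈ W)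
    (hnt : ∀ π ∈ maximalIdeal A, ∀ x ∈ W, algebraMap A F π * x ≠ 1)
    (b : F →+* F) {α : Type*} (T : Finset α) (τ : α → F)
    (hτ : ∀ k ∈ T, h62pSm (1 : A) W (τ k))
    (hb : ∀ k ∈ T, h62pSm δ W (b (τ k) - τ k)) :
    ∃ z : F, h62pU δ W z ∧ b (1 + ∑ k ∈ T, τ k) = (1 + ∑ k ∈ T, τ k) * z := by
  classical
  have hμ : h62pSm (1 : A) W (∑ k ∈ T, τ k) := h62pSm_sum (1 : A) W hAW T τ hτ
  have h0 := h62p_ne_zero W hnt hμ
  have h1 := h62p_inv_mem W hinv hμ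
  have hd : h62pSm δ W (b (∑ k ∈ T, τ k) - ∑ k ∈ T, τ k) := by
    rw [map_sum, ← Finset.sum_sub_distrib]
    exact h62pSm_sum δ W hAW T _ hb
  refine ⟨1 + (b (∑ k ∈ T, τ k) - ∑ k ∈ T, τ k) * (1 + ∑ k ∈ T, τ k)⁻¹,
    ⟨_, h62pSm_mul δ W hd h1, rfl⟩, ?_⟩
  rw [map_add, map_one]
  field_simp
  ring

/-- relative variation gives absolute variation. -/
theorem h62p_rel (δ : A) (W : Subring F) (hAW : ∀ a : A, algebraMap A F a ∈ W)
    {τ τ' : F} (hτ : h62pSm (1 : A) W τ) (c : A)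
    (hb : τ' = τ * algebraMap A F (1 + δ * c)) : h62pSm δ W (τ' - τ) := by
  have e : τ' - τ = algebraMap A F δ * (τ * algebraMap A F c) := by
    rw [hb, map_add, map_one, map_mul]
    ring
  rw [e]
  exact h62pSm_const δ W (h62pSm_mul (1 : A) W hτ (hAW c))

/-- **(i) the variation of a monic polynomial at a unit `t` of `W`.** -/
theorem h62p_unit (δ : A) (W : Subring F) (hAW : ∀ a : A, algebraMap A F a ∈ W)
    (hinv : ∀ π ∈ maximalIdeal A, ∀ x ∈ W, (1 + algebraMap A F π * x)⁻¹ ∈ W)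
    (hnt : ∀ π ∈ maximalIdeal A, ∀ x ∈ W, algebraMap A F π * x ≠ 1)
    (b : F →+* F) (θ : A →+* A)
    (hbθ : ∀ a : A, b (algebraMap A F a) = algebraMap A F (θ a))
    (t : F) (hbt : b t = t) (ht' : t⁻¹ ∈ W) (ht0 : t ≠ 0)
    (d : ℕ) (s : ℕ → A) (hs : ∀ k < d, s k ∈ maximalIdeal A)
    (hvar : ∀ k < d, ∃ π ∈ maximalIdeal A, θ (s k) = s k + δ * π) :
    ∃ z : F, h62pU δ W z ∧
      b (t ^ d + ∑ k ∈ Finset.range d, algebraMap A F (s k) * t ^ k)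
        = (t ^ d + ∑ k ∈ Finset.range d, algebraMap A F (s k) * t ^ k) * z := by
  classical
  set τ : ℕ → F := fun k => algebraMap A F (s k) * (t⁻¹) ^ (d - k) with hτdef
  have hτ : ∀ k ∈ Finset.range d, h62pSm (1 : A) W (τ k) := by
    intro k hk
    refine ⟨s k, hs k (Finset.mem_range.mp hk), (t⁻¹) ^ (d - k), W.pow_mem ht' _, ?_⟩
    rw [one_mul]
  have hbτ : ∀ k ∈ Finset.range d, h62pSm δ W (b (τ k) - τ k) := by
    intro k hk
    obtain ⟨π, hπ, hθ⟩ := hvar k (Finset.mem_range.mp hk)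
    refine ⟨π, hπ, (t⁻¹) ^ (d - k), W.pow_mem ht' _, ?_⟩
    rw [hτdef]
    simp only
    rw [map_mul, map_pow, map_inv₀, hbt, hbθ, hθ, map_add]
    ring
  obtain ⟨z, hz, hbz⟩ := h62p_var δ W hAW hinv hnt b (Finset.range d) τ hτ hbτ
  have hg : t ^ d + ∑ k ∈ Finset.range d, algebraMap A F (s k) * t ^ k
      = t ^ d * (1 + ∑ k ∈ Finset.range d, τ k) := by
    rw [mul_add, mul_one, Finset.mul_sum]
    congr 1
    refine Finset.sum_congr rfl fun k hk => ?_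
    have hkd : k ≤ d := (Finset.mem_range.mp hk).le
    rw [hτdef]
    simp only
    have h1 : t ^ d = t ^ k * t ^ (d - k) := by rw [← pow_add, Nat.add_sub_cancel' hkd]
    rw [h1, inv_pow]
    have h2 : t ^ (d - k) ≠ 0 := pow_ne_zero _ ht0
    field_simp
  refine ⟨z, hz, ?_⟩
  rw [hg, map_mul, map_pow, hbt, hbz]
  ring

/-- **(ii) the variation of a polynomial at a node**, on the branch where all roots are
strictly inside: `g = ∑_{k ≤ d} s_k x ^ k`, `s_0 ≠ 0`, `(s_k / s_0) x ^ k ∈ 𝔪_A W` for `k ≥ 1`. -/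
theorem h62p_node (δ : A) (hδ : δ ∈ maximalIdeal A) (W : Subring F)
    (hAW : ∀ a : A, algebraMap A F a ∈ W)
    (hinv : ∀ π ∈ maximalIdeal A, ∀ x ∈ W, (1 + algebraMap A F π * x)⁻¹ ∈ W)
    (hnt : ∀ π ∈ maximalIdeal A, ∀ x ∈ W, algebraMap A F π * x ≠ 1)
    (hAF : Function.Injective (algebraMap A F))
    (b : F →+* F) (θ : A →+* A)
    (hbθ : ∀ a : A, b (algebraMap A F a) = algebraMap A F (θ a))
    (x : F) (hbx : b x = x)
    (d : ℕ) (s : ℕ → A) (hs0 : s 0 ≠ 0)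
    (hin : ∀ k < d, ∃ μ : F, h62pSm (1 : A) W μ ∧
      algebraMap A F (s (k + 1)) * x ^ (k + 1) = algebraMap A F (s 0) * μ)
    (hvar : ∀ k ≤ d, ∃ c : A, θ (s k) = s k * (1 + δ * c)) :
    ∃ c₀ : A, θ (s 0) = s 0 * (1 + δ * c₀) ∧ ∃ z : F, h62pU δ W z ∧
      b (∑ k ∈ Finset.range (d + 1), algebraMap A F (s k) * x ^ k)
        = (∑ k ∈ Finset.range (d + 1), algebraMap A F (s k) * x ^ k)
          * algebraMap A F (1 + δ * c₀) * z := by
  classical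
  obtain ⟨c₀, hc₀⟩ := hvar 0 (Nat.zero_le d)
  have hs0F : algebraMap A F (s 0) ≠ 0 := fun h => hs0 (hAF (by rw [h, map_zero]))
  -- `1 + δ c₀` is a unit
  have hu : IsUnit (1 + δ * c₀) := by
    by_contra hnu
    have hm : 1 + δ * c₀ ∈ maximalIdeal A := hnu
    have h1 : (1 : A) ∈ maximalIdeal A := by
      have h2 : (1 : A) = (1 + δ * c₀) - δ * c₀ := by ring
      rw [h2]
      exact (maximalIdeal A).sub_mem hm (Ideal.mul_mem_right _ _ hδ)
    exact (Ideal.ne_top_iff_one _).mp (maximalIdeal.isMaximal A).ne_top h1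
  obtain ⟨v₀, hv₀⟩ := hu.exists_right_inv
  have hv₀F : algebraMap A F (1 + δ * c₀) * algebraMap A F v₀ = 1 := by
    rw [← map_mul, hv₀, map_one]
  have hθ0F : algebraMap A F (1 + δ * c₀) ≠ 0 := left_ne_zero_of_mul_eq_one hv₀F
  have hin' : ∀ k : ℕ, ∃ μ : F, k < d → h62pSm (1 : A) W μ ∧
      algebraMap A F (s (k + 1)) * x ^ (k + 1) = algebraMap A F (s 0) * μ := by
    intro k
    by_cases hk : k < d
    · obtain ⟨μ, h1, h2⟩ := hin k hk
      exact ⟨μ, fun _ => ⟨h1, h2⟩⟩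
    · exact ⟨0, fun h => (hk h).elim⟩
  choose τ hτ using hin'
  have hτ1 : ∀ k ∈ Finset.range d, h62pSm (1 : A) W (τ k) := fun k hk =>
    (hτ k (Finset.mem_range.mp hk)).1
  have hbτ : ∀ k ∈ Finset.range d, h62pSm δ W (b (τ k) - τ k) := by
    intro k hk
    have hkd := Finset.mem_range.mp hk
    obtain ⟨c, hc⟩ := hvar (k + 1) hkd
    have h1 := (hτ k hkd).2
    have h2 := congrArg b h1
    rw [map_mul, map_mul, map_pow, hbx, hbθ, hbθ, hc, hc₀, map_mul, map_mul (algebraMap A F),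
      mul_right_comm, h1] at h2
    -- `s₀ τ (1 + δ c) = s₀ (1 + δ c₀) b τ`
    have h3 : b (τ k) = τ k * algebraMap A F (1 + δ * ((c - c₀) * v₀)) := by
      have h4 : τ k * algebraMap A F (1 + δ * c)
          = algebraMap A F (1 + δ * c₀) * b (τ k) := by
        have h5 : algebraMap A F (s 0) * (τ k * algebraMap A F (1 + δ * c))
            = algebraMap A F (s 0) * (algebraMap A F (1 + δ * c₀) * b (τ k)) := by
          linear_combination h2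
        exact mul_left_cancel₀ hs0F h5
      have h6 : algebraMap A F (1 + δ * ((c - c₀) * v₀))
          = algebraMap A F (1 + δ * c) * algebraMap A F v₀ := by
        rw [← map_mul]
        congr 1
        have : (1 + δ * c) * v₀ = (1 + δ * c₀) * v₀ + δ * ((c - c₀) * v₀) := by ring
        rw [this, hv₀]
      rw [h6, ← mul_assoc, h4, mul_right_comm, hv₀F, one_mul]
    exact h62p_rel δ W hAW (hτ1 k hk) _ h3
  obtain ⟨z, hz, hbz⟩ := h62p_var δ W hAW hinv hnt b (Finset.range d) τ hτ1 hbτ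
  have hg : ∑ k ∈ Finset.range (d + 1), algebraMap A F (s k) * x ^ k
      = algebraMap A F (s 0) * (1 + ∑ k ∈ Finset.range d, τ k) := by
    rw [Finset.sum_range_succ', pow_zero, mul_one, mul_add, mul_one, Finset.mul_sum, add_comm]
    congr 1
    exact Finset.sum_congr rfl fun k hk => (hτ k (Finset.mem_range.mp hk)).2
  refine ⟨c₀, hc₀, z, hz, ?_⟩
  rw [hg, map_mul, hbθ, hc₀, hbz, map_mul]
  ring

/-- **(iii) the `p`-th power step**: `(1 + δ 𝔪_A W) ^ p ⊆ 1 + δ ^ p 𝔪_A W` if `δ ^ p ∣ p δ`. -/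
theorem h62p_pth (p : ℕ) (hp : p.Prime) (δ : A) (hδp : ∃ π' : A, (p : A) * δ = δ ^ p * π')
    (W : Subring F) (hAW : ∀ a : A, algebraMap A F a ∈ W) {z : F} (hz : h62pU δ W z) :
    h62pU (δ ^ p) W (z ^ p) := by
  obtain ⟨μ, ⟨π, hπ, w, hw, rfl⟩, rfl⟩ := hz
  obtain ⟨π', hπ'⟩ := hδp
  have hyW : algebraMap A F (δ * π) * w ∈ W := W.mul_mem (hAW _) hw
  obtain ⟨r, hr⟩ := exists_add_pow_prime_eq hp (1 : W) ⟨_, hyW⟩
  have hrF : (1 + algebraMap A F (δ * π) * w) ^ p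
      = 1 + (algebraMap A F (δ * π) * w) ^ p
        + (p : F) * 1 * (algebraMap A F (δ * π) * w) * (r : F) := by
    have := congrArg (Subtype.val) hr
    simpa using this
  have hpF : (p : F) * algebraMap A F δ = algebraMap A F (δ ^ p) * algebraMap A F π' := by
    rw [← map_mul, ← hπ', map_mul, map_natCast]
  refine ⟨(algebraMap A F (δ * π) * w) ^ p
    + (p : F) * 1 * (algebraMap A F (δ * π) * w) * (r : F), ?_, by rw [hrF]; ring⟩
  refine h62pSm_add (δ ^ p) W hAW ?_ ?_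
  · refine ⟨π ^ p, Ideal.pow_mem_of_mem _ hπ p hp.pos, w ^ p, W.pow_mem hw p, ?_⟩
    simp only [map_mul, map_pow]
    ring
  · refine ⟨π, hπ, algebraMap A F π' * w * (r : F),
      W.mul_mem (W.mul_mem (hAW _) hw) r.2, ?_⟩
    have e : (p : F) * 1 * (algebraMap A F (δ * π) * w) * (r : F)
        = ((p : F) * algebraMap A F δ) * (algebraMap A F π * w * (r : F)) := by
      simp only [map_mul]
      ring
    rw [e, hpF]
    simp only [map_mul, map_pow]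
    ring

/-- **(iii), constants**: `(1 + δ c) ^ p = 1 + δ ^ p (c ^ p + π)`, `π ∈ 𝔪_A`, if
`p δ ∈ δ ^ p 𝔪_A`. -/
theorem h62p_pth_const (p : ℕ) (hp : p.Prime) (δ : A)
    (hδp : ∃ π' ∈ maximalIdeal A, (p : A) * δ = δ ^ p * π') (c : A) :
    ∃ π ∈ maximalIdeal A, (1 + δ * c) ^ p = 1 + δ ^ p * (c ^ p + π) := by
  obtain ⟨π', hπ'm, hπ'⟩ := hδp
  obtain ⟨r, hr⟩ := exists_add_pow_prime_eq hp (1 : A) (δ * c)
  refine ⟨π' * (c * r), Ideal.mul_mem_right _ _ hπ'm, ?_⟩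
  rw [hr, one_pow, mul_pow]
  have e : (p : A) * 1 * (δ * c) * r = ((p : A) * δ) * (c * r) := by ring
  rw [e, hπ']
  ring

/-- **(i), polynomial form.** -/
theorem h62p_unit_poly (δ : A) (W : Subring F) (hAW : ∀ a : A, algebraMap A F a ∈ W)
    (hinv : ∀ π ∈ maximalIdeal A, ∀ x ∈ W, (1 + algebraMap A F π * x)⁻¹ ∈ W)
    (hnt : ∀ π ∈ maximalIdeal A, ∀ x ∈ W, algebraMap A F π * x ≠ 1)
    (b : F →+* F) (θ : A →+* A)
    (hbθ : ∀ a : A, b (algebraMap A F a) = algebraMap A F (θ a))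
    (t : F) (hbt : b t = t) (ht' : t⁻¹ ∈ W) (ht0 : t ≠ 0)
    (P : A[X]) (hP : P.Monic) (hs : ∀ k < P.natDegree, P.coeff k ∈ maximalIdeal A)
    (hvar : ∀ k < P.natDegree, ∃ π ∈ maximalIdeal A, θ (P.coeff k) = P.coeff k + δ * π) :
    ∃ z : F, h62pU δ W z ∧ b (aeval t P) = aeval t P * z := by
  have e : aeval t P = t ^ P.natDegree
      + ∑ k ∈ Finset.range P.natDegree, algebraMap A F (P.coeff k) * t ^ k := by
    rw [aeval_eq_sum_range, Finset.sum_range_succ, add_comm]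
    congr 1
    · rw [hP.coeff_natDegree, one_smul]
    · exact Finset.sum_congr rfl fun k _ => Algebra.smul_def _ _
  rw [e]
  exact h62p_unit δ W hAW hinv hnt b θ hbθ t hbt ht' ht0 P.natDegree (fun k => P.coeff k) hs hvar

/-- all roots of `P` are strictly inside, relative to `x` and `W`:
`(P_k / P_0) x ^ k ∈ 𝔪_A W` for `k ≥ 1`. -/
def h62pInside (W : Subring F) (x : F) (P : A[X]) : Prop :=
  ∀ k : ℕ, k ≠ 0 → ∃ μ : F, h62pSm (1 : A) W μ ∧
    algebraMap A F (P.coeff k) * x ^ k = algebraMap A F (P.coeff 0) * μ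

/-- **(ii), polynomial form.** -/
theorem h62p_node_poly (δ : A) (hδ : δ ∈ maximalIdeal A) (W : Subring F)
    (hAW : ∀ a : A, algebraMap A F a ∈ W)
    (hinv : ∀ π ∈ maximalIdeal A, ∀ x ∈ W, (1 + algebraMap A F π * x)⁻¹ ∈ W)
    (hnt : ∀ π ∈ maximalIdeal A, ∀ x ∈ W, algebraMap A F π * x ≠ 1)
    (hAF : Function.Injective (algebraMap A F))
    (b : F →+* F) (θ : A →+* A)
    (hbθ : ∀ a : A, b (algebraMap A F a) = algebraMap A F (θ a))
    (x : F) (hbx : b x = x)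
    (P : A[X]) (hs0 : P.coeff 0 ≠ 0) (hin : h62pInside W x P)
    (hvar : ∀ k ≤ P.natDegree, ∃ c : A, θ (P.coeff k) = P.coeff k * (1 + δ * c)) :
    ∃ c₀ : A, θ (P.coeff 0) = P.coeff 0 * (1 + δ * c₀) ∧ ∃ z : F, h62pU δ W z ∧
      b (aeval x P) = aeval x P * algebraMap A F (1 + δ * c₀) * z := by
  have e : aeval x P
      = ∑ k ∈ Finset.range (P.natDegree + 1), algebraMap A F (P.coeff k) * x ^ k := by
    rw [aeval_eq_sum_range]
    exact Finset.sum_congr rfl fun k _ => Algebra.smul_def _ _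
  rw [e]
  exact h62p_node δ hδ W hAW hinv hnt hAF b θ hbθ x hbx P.natDegree (fun k => P.coeff k) hs0
    (fun k _ => hin (k + 1) (Nat.succ_ne_zero k)) hvar

/-- Vieta: a linear factor `X - a` with `x ∈ a 𝔪_A W`. -/
theorem h62pInside_linear (W : Subring F) (x : F) (a : A) {μ : F} (hμ : h62pSm (1 : A) W μ)
    (hx : x = algebraMap A F a * μ) : h62pInside W x (X - C a : A[X]) := by
  intro k hk
  rcases Nat.lt_or_ge k 2 with h | h
  · have hk1 : k = 1 := by omega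
    subst hk1
    refine ⟨-μ, h62pSm_neg (1 : A) W hμ, ?_⟩
    simp only [coeff_sub, coeff_X_one, coeff_C_succ, sub_zero, map_one, one_mul, pow_one,
      coeff_X_zero, coeff_C_zero, zero_sub, map_neg]
    rw [hx]
    ring
  · refine ⟨0, h62pSm_zero (1 : A) W, ?_⟩
    have h1 : (X - C a : A[X]).coeff k = 0 := by
      rw [coeff_sub, coeff_X, coeff_C]
      have h2 : ¬ (1 = k) := by omega
      have h3 : ¬ (k = 0) := hk
      rw [if_neg h2, if_neg h3, sub_zero]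
    rw [h1, map_zero, zero_mul, mul_zero]

theorem h62pInside_one (W : Subring F) (x : F) : h62pInside W x (1 : A[X]) := by
  intro k hk
  refine ⟨0, h62pSm_zero (1 : A) W, ?_⟩
  rw [coeff_one, if_neg hk, map_zero, zero_mul, mul_zero]

/-- Vieta: products. -/
theorem h62pInside_mul (W : Subring F) (hAW : ∀ a : A, algebraMap A F a ∈ W) (x : F)
    {P Q : A[X]} (hP : h62pInside W x P) (hQ : h62pInside W x Q) :
    h62pInside W x (P * Q) := by
  classical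
  intro k hk
  have hterm : ∀ ij : ℕ × ℕ, ij ∈ Finset.HasAntidiagonal.antidiagonal k → ∃ μ : F, h62pSm (1 : A) W μ ∧
      algebraMap A F (P.coeff ij.1) * x ^ ij.1 * (algebraMap A F (Q.coeff ij.2) * x ^ ij.2)
        = algebraMap A F (P.coeff 0) * algebraMap A F (Q.coeff 0) * μ := by
    rintro ⟨i, j⟩ hij
    have hijk : i + j = k := Finset.HasAntidiagonal.mem_antidiagonal.mp hij
    simp only
    by_cases hi : i = 0
    · have hj : j ≠ 0 := by omega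
      obtain ⟨μ, hμ, e⟩ := hQ j hj
      refine ⟨μ, hμ, ?_⟩
      rw [e, hi, pow_zero, mul_one]
      ring
    · obtain ⟨μ, hμ, e⟩ := hP i hi
      by_cases hj : j = 0
      · refine ⟨μ, hμ, ?_⟩
        rw [e, hj, pow_zero, mul_one]
        ring
      · obtain ⟨μ', hμ', e'⟩ := hQ j hj
        refine ⟨μ * μ', h62pSm_mul (1 : A) W hμ (h62pSm_mem (1 : A) W hAW hμ'), ?_⟩
        rw [e, e']
        ring
  have hterm' : ∀ ij : ℕ × ℕ, ∃ μ : F, ij ∈ Finset.HasAntidiagonal.antidiagonal k → h62pSm (1 : A) W μ ∧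
      algebraMap A F (P.coeff ij.1) * x ^ ij.1 * (algebraMap A F (Q.coeff ij.2) * x ^ ij.2)
        = algebraMap A F (P.coeff 0) * algebraMap A F (Q.coeff 0) * μ := by
    intro ij
    by_cases h : ij ∈ Finset.HasAntidiagonal.antidiagonal k
    · obtain ⟨μ, h1, h2⟩ := hterm ij h
      exact ⟨μ, fun _ => ⟨h1, h2⟩⟩
    · exact ⟨0, fun h' => (h h').elim⟩
  choose ν hν using hterm'
  refine ⟨∑ ij ∈ Finset.HasAntidiagonal.antidiagonal k, ν ij,
    h62pSm_sum (1 : A) W hAW _ _ fun ij hij => (hν ij hij).1, ?_⟩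
  rw [coeff_mul, mul_coeff_zero, map_sum, Finset.sum_mul, map_mul, Finset.mul_sum]
  refine Finset.sum_congr rfl fun ij hij => ?_
  rw [← (hν ij hij).2, map_mul]
  have hijk : ij.1 + ij.2 = k := Finset.HasAntidiagonal.mem_antidiagonal.mp hij
  rw [← hijk, pow_add]
  ring

theorem h62pInside_pow (W : Subring F) (hAW : ∀ a : A, algebraMap A F a ∈ W) (x : F)
    {P : A[X]} (hP : h62pInside W x P) (n : ℕ) : h62pInside W x (P ^ n) := by
  induction n with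
  | zero => rw [pow_zero]; exact h62pInside_one W x
  | succ n ih => rw [pow_succ]; exact h62pInside_mul W hAW x ih hP

theorem h62pInside_prod (W : Subring F) (hAW : ∀ a : A, algebraMap A F a ∈ W) (x : F)
    {α : Type*} (T : Finset α) (P : α → A[X]) (hP : ∀ i ∈ T, h62pInside W x (P i)) :
    h62pInside W x (∏ i ∈ T, P i) :=
  Finset.prod_induction P (fun Q => h62pInside W x Q)
    (fun _ _ h₁ h₂ => h62pInside_mul W hAW x h₁ h₂) (h62pInside_one W x) hP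

/-- **Vieta adapter**: for `P = ∏ (X - a_i) ^ (n_i)` with `x ∈ a_i 𝔪_A W` for all `i`
(all roots strictly inside) the coefficient condition `h62pInside` holds. -/
theorem h62pInside_roots (W : Subring F) (hAW : ∀ a : A, algebraMap A F a ∈ W) (x : F)
    {α : Type*} (T : Finset α) (a : α → A) (n : α → ℕ)
    (hx : ∀ i ∈ T, ∃ μ : F, h62pSm (1 : A) W μ ∧ x = algebraMap A F (a i) * μ) :
    h62pInside W x (∏ i ∈ T, (X - C (a i) : A[X]) ^ n i) := by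
  refine h62pInside_prod W hAW x T _ fun i hi => ?_
  obtain ⟨μ, hμ, e⟩ := hx i hi
  exact h62pInside_pow W hAW x (h62pInside_linear W x (a i) hμ e) (n i)

/-- the constant term of `∏ (X - a_i) ^ (n_i)`. -/
theorem h62p_coeff_zero_roots {α : Type*} (T : Finset α) (a : α → A) (n : α → ℕ) :
    (∏ i ∈ T, (X - C (a i) : A[X]) ^ n i).coeff 0 = ∏ i ∈ T, (-(a i)) ^ n i := by
  rw [coeff_zero_eq_eval_zero, eval_prod]
  refine Finset.prod_congr rfl fun i _ => ?_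
  rw [eval_pow, eval_sub, eval_X, eval_C, zero_sub]

/-- the value of `∏ (X - a_i) ^ (n_i)`. -/
theorem h62p_aeval_roots {α : Type*} (T : Finset α) (a : α → A) (n : α → ℕ) (x : F) :
    aeval x (∏ i ∈ T, (X - C (a i) : A[X]) ^ n i)
      = ∏ i ∈ T, (x - algebraMap A F (a i)) ^ n i := by
  rw [map_prod]
  refine Finset.prod_congr rfl fun i _ => ?_
  rw [map_pow, map_sub, aeval_X, aeval_C]

/-- `∏ (X - a_i) ^ (n_i)` is monic. -/
theorem h62p_roots_monic {α : Type*} (T : Finset α) (a : α → A) (n : α → ℕ) :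
    (∏ i ∈ T, (X - C (a i) : A[X]) ^ n i).Monic :=
  monic_prod_of_monic _ _ fun i _ => (monic_X_sub_C (a i)).pow (n i)

/-- the lower coefficients of `∏ (X - a_i) ^ (n_i)`, `a_i ∈ 𝔪_A`, are in `𝔪_A`. -/
theorem h62p_roots_coeff_mem {α : Type*} (T : Finset α) (a : α → A) (n : α → ℕ)
    (ha : ∀ i ∈ T, a i ∈ maximalIdeal A) :
    ∀ k < (∏ i ∈ T, (X - C (a i) : A[X]) ^ n i).natDegree,
      (∏ i ∈ T, (X - C (a i) : A[X]) ^ n i).coeff k ∈ maximalIdeal A := by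
  intro k hk
  set P : A[X] := ∏ i ∈ T, (X - C (a i) : A[X]) ^ n i with hP
  have hmon : P.Monic := h62p_roots_monic T a n
  have hmap : P.map (residue A) = X ^ (∑ i ∈ T, n i) := by
    rw [hP, Polynomial.map_prod, ← Finset.prod_pow_eq_pow_sum]
    refine Finset.prod_congr rfl fun i hi => ?_
    rw [Polynomial.map_pow, Polynomial.map_sub, map_X, map_C,
      (residue_eq_zero_iff (a i)).mpr (ha i hi), map_zero, sub_zero]
  have hdeg : P.natDegree = ∑ i ∈ T, n i := by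
    have h1 := hmon.natDegree_map (residue A)
    rw [hmap, natDegree_X_pow] at h1
    exact h1.symm
  have h2 : (P.map (residue A)).coeff k = 0 := by
    rw [hmap, coeff_X_pow, if_neg]
    rw [hdeg] at hk
    exact hk.ne
  rw [coeff_map] at h2
  exact (residue_eq_zero_iff _).mp h2

/-- **(i), root form**: `g = ∏ (t - a_i) ^ (n_i)`, `a_i ∈ 𝔪_A`, `t` a unit of `W` fixed by `b`,
the coefficients of `∏ (X - a_i) ^ (n_i)` vary by `δ 𝔪_A`. -/
theorem h62p_unit_roots (δ : A) (W : Subring F) (hAW : ∀ a : A, algebraMap A F a ∈ W)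
    (hinv : ∀ π ∈ maximalIdeal A, ∀ x ∈ W, (1 + algebraMap A F π * x)⁻¹ ∈ W)
    (hnt : ∀ π ∈ maximalIdeal A, ∀ x ∈ W, algebraMap A F π * x ≠ 1)
    (b : F →+* F) (θ : A →+* A)
    (hbθ : ∀ a : A, b (algebraMap A F a) = algebraMap A F (θ a))
    (t : F) (hbt : b t = t) (ht' : t⁻¹ ∈ W) (ht0 : t ≠ 0)
    {α : Type*} (T : Finset α) (a : α → A) (n : α → ℕ)
    (ha : ∀ i ∈ T, a i ∈ maximalIdeal A)
    (hvar : ∀ k < (∏ i ∈ T, (X - C (a i) : A[X]) ^ n i).natDegree, ∃ π ∈ maximalIdeal A,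
      θ ((∏ i ∈ T, (X - C (a i) : A[X]) ^ n i).coeff k)
        = (∏ i ∈ T, (X - C (a i) : A[X]) ^ n i).coeff k + δ * π) :
    ∃ z : F, h62pU δ W z ∧
      b (∏ i ∈ T, (t - algebraMap A F (a i)) ^ n i)
        = (∏ i ∈ T, (t - algebraMap A F (a i)) ^ n i) * z := by
  rw [← h62p_aeval_roots T a n t]
  exact h62p_unit_poly δ W hAW hinv hnt b θ hbθ t hbt ht' ht0 _ (h62p_roots_monic T a n)
    (h62p_roots_coeff_mem T a n ha) hvar

/-- **(ii), root form**: `g = ∏ (x - a_i) ^ (n_i)`, `a_i ≠ 0`, `x ∈ a_i 𝔪_A W` (all roots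
strictly inside), the coefficients of `∏ (X - a_i) ^ (n_i)` have relative variation `δ`:
`b g = g · (1 + δ c₀) · z` with `θ γ = γ (1 + δ c₀)`, `γ = ∏ (- a_i) ^ (n_i)`,
`z ∈ 1 + δ 𝔪_A W`. -/
theorem h62p_node_roots (δ : A) (hδ : δ ∈ maximalIdeal A) (W : Subring F)
    (hAW : ∀ a : A, algebraMap A F a ∈ W)
    (hinv : ∀ π ∈ maximalIdeal A, ∀ x ∈ W, (1 + algebraMap A F π * x)⁻¹ ∈ W)
    (hnt : ∀ π ∈ maximalIdeal A, ∀ x ∈ W, algebraMap A F π * x ≠ 1)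
    (hAF : Function.Injective (algebraMap A F))
    (b : F →+* F) (θ : A →+* A)
    (hbθ : ∀ a : A, b (algebraMap A F a) = algebraMap A F (θ a))
    (x : F) (hbx : b x = x)
    {α : Type*} (T : Finset α) (a : α → A) (n : α → ℕ)
    (ha0 : ∀ i ∈ T, a i ≠ 0)
    (hx : ∀ i ∈ T, ∃ μ : F, h62pSm (1 : A) W μ ∧ x = algebraMap A F (a i) * μ)
    (hvar : ∀ k ≤ (∏ i ∈ T, (X - C (a i) : A[X]) ^ n i).natDegree, ∃ c : A,
      θ ((∏ i ∈ T, (X - C (a i) : A[X]) ^ n i).coeff k)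
        = (∏ i ∈ T, (X - C (a i) : A[X]) ^ n i).coeff k * (1 + δ * c)) :
    ∃ c₀ : A, θ (∏ i ∈ T, (-(a i)) ^ n i) = (∏ i ∈ T, (-(a i)) ^ n i) * (1 + δ * c₀) ∧
      ∃ z : F, h62pU δ W z ∧
      b (∏ i ∈ T, (x - algebraMap A F (a i)) ^ n i)
        = (∏ i ∈ T, (x - algebraMap A F (a i)) ^ n i) * algebraMap A F (1 + δ * c₀) * z := by
  have h0 : (∏ i ∈ T, (X - C (a i) : A[X]) ^ n i).coeff 0 ≠ 0 := by
    rw [h62p_coeff_zero_roots]
    exact Finset.prod_ne_zero_iff.mpr fun i hi => pow_ne_zero _ (neg_ne_zero.mpr (ha0 i hi))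
  obtain ⟨c₀, hc₀, z, hz, hbz⟩ := h62p_node_poly δ hδ W hAW hinv hnt hAF b θ hbθ x hbx _ h0
    (h62pInside_roots W hAW x T a n hx) hvar
  rw [h62p_coeff_zero_roots] at hc₀
  rw [h62p_aeval_roots] at hbz
  exact ⟨c₀, hc₀, z, hz, hbz⟩

end Var

end Fermat.Agent.P7
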