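import Fermat.Agent.P7.H82H0Abs

/-!
# W7 (S40), block (5b) T-CONST, leaf C4 H0, instance (I4): the exact depth dichotomy
# WITHOUT discreteness (helper63)

Paper proof: finding `proof7` part 2/2 (helper63).  Mathlib + `P7/H82H0Abs` only.

`H82wDepth V D₀ w` (the hypothesis `hdepth` of `h82w_h0_core`) is proved from an EVALUATION AT
ONE POINT instead of a discreteness hypothesis:

* `O ≤ W` a saturated subring containing the constants (the local ring at ONE closed point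
  `n₀` of the first component, `W = W₁`),
* `ev : F → A`, additive and `A`-linear on `O`, with `ev a = a` on constants (the value at an
  `A`-point of the chart through `n₀`),
* `scaleV` : every nonzero `f ∈ V` is `d · G` with `d ∈ A`, `G ∈ V`, `G ∉ 𝔪 V`
  (from the two Gauss scalings, `h63w_scaleV`),
* the local form (L1) of `w` at the single point `n₀`: `w = o (1 + D₀ z)`, `o ∈ O`, `z ∈ W`.

`h63w_depth_of_eval` is the dichotomy, `h63w_h0_of_eval` the resulting form of the abstract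
global `H⁰` argument `h82w_h0_core` with no discreteness hypothesis.

Every declaration is a proved theorem; nothing is assumed.
-/

set_option autoImplicit false
set_option linter.unusedSectionVars false
set_option linter.unusedVariables false

open IsLocalRing

namespace Fermat.Agent.P7

section H63Depth

variable {A : Type*} [CommRing A] [IsDomain A] [ValuationRing A]
  {F : Type*} [Field F] [Algebra A F]

/-- a unit of `W` does not lie in `𝔪 W`, if `𝔪 W` is a proper ideal of `W`. -/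
theorem h63w_unit_not_mem_M {W : Subring F}
    (hnt : ∀ m ∈ maximalIdeal A, ∀ y ∈ W, algebraMap A F m * y ≠ 1)
    {s : F} (hs0 : s ≠ 0) (hsi : s⁻¹ ∈ W) : s ∉ h82wM A W := by
  rintro ⟨m, hm, y, hy, h⟩
  refine hnt m hm (y * s⁻¹) (W.mul_mem hy hsi) ?_
  rw [← mul_assoc, ← h, mul_inv_cancel₀ hs0]

/-- **Gauss scaling in `V = W₁ ⊓ W₂`** from the Gauss scalings of `W₁` and of `W₂`: every
nonzero `f ∈ V` is a constant `d ∈ A` times some `G ∈ V` which is not in `𝔪 V`. -/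
theorem h63w_scaleV (W₁ W₂ : Subring F)
    (hA₁ : ∀ a : A, algebraMap A F a ∈ W₁) (hA₂ : ∀ a : A, algebraMap A F a ∈ W₂)
    (hnt₁ : ∀ m ∈ maximalIdeal A, ∀ y ∈ W₁, algebraMap A F m * y ≠ 1)
    (hnt₂ : ∀ m ∈ maximalIdeal A, ∀ y ∈ W₂, algebraMap A F m * y ≠ 1)
    (sc₁ : ∀ f ∈ W₁, f ≠ 0 → ∃ d : A, ∃ s ∈ W₁, s⁻¹ ∈ W₁ ∧ f = algebraMap A F d * s)
    (sc₂ : ∀ f ∈ W₂, f ≠ 0 → ∃ d : A, ∃ s ∈ W₂, s⁻¹ ∈ W₂ ∧ f = algebraMap A F d * s) :
    ∀ f ∈ W₁ ⊓ W₂, f ≠ 0 →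
      ∃ d : A, ∃ G ∈ W₁ ⊓ W₂, f = algebraMap A F d * G ∧ G ∉ h82wM A (W₁ ⊓ W₂) := by
  intro f hf hf0
  obtain ⟨d₁, s₁, hs₁, hs₁i, h₁⟩ := sc₁ f hf.1 hf0
  obtain ⟨d₂, s₂, hs₂, hs₂i, h₂⟩ := sc₂ f hf.2 hf0
  have hd₁ : algebraMap A F d₁ ≠ 0 := by
    intro h; apply hf0; rw [h₁, h, zero_mul]
  have hd₂ : algebraMap A F d₂ ≠ 0 := by
    intro h; apply hf0; rw [h₂, h, zero_mul]
  have hs₁0 : s₁ ≠ 0 := by
    intro h; apply hf0; rw [h₁, h, mul_zero]
  have hs₂0 : s₂ ≠ 0 := by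
    intro h; apply hf0; rw [h₂, h, mul_zero]
  rcases ValuationRing.dvd_total d₁ d₂ with ⟨c, hc⟩ | ⟨c, hc⟩
  · -- `d₂ = d₁ c` : `G = s₁ = c s₂`
    have hs : s₁ = algebraMap A F c * s₂ := by
      apply mul_left_cancel₀ hd₁
      rw [← h₁, h₂, hc, map_mul]; ring
    refine ⟨d₁, s₁, ⟨hs₁, ?_⟩, h₁, ?_⟩
    · rw [hs]; exact W₂.mul_mem (hA₂ c) hs₂
    · intro hmem
      exact h63w_unit_not_mem_M hnt₁ hs₁0 hs₁i (h82w_M_mono inf_le_left hmem)
  · -- `d₁ = d₂ c` : `G = s₂ = c s₁`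
    have hs : s₂ = algebraMap A F c * s₁ := by
      apply mul_left_cancel₀ hd₂
      rw [← h₂, h₁, hc, map_mul]; ring
    refine ⟨d₂, s₂, ⟨?_, hs₂⟩, h₂, ?_⟩
    · rw [hs]; exact W₁.mul_mem (hA₁ c) hs₁
    · intro hmem
      exact h63w_unit_not_mem_M hnt₂ hs₂0 hs₂i (h82w_M_mono inf_le_right hmem)

/-- **exact depth from the evaluation at one point** (no discreteness).  `O ≤ W` a saturated
subring containing the constants, `ev` an `A`-linear evaluation on `O`, Gauss scaling in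
`V ≤ W`, and the local form `w = o (1 + D₀ z)` (`o ∈ O`, `z ∈ W`) at this single point.  Then `w`
has an exact depth relative to the constants. -/
theorem h63w_depth_of_eval
    (V W O : Subring F) (hVW : V ≤ W) (hOW : O ≤ W)
    (hAV : ∀ a : A, algebraMap A F a ∈ V)
    (hAO : ∀ a : A, algebraMap A F a ∈ O)
    (sat : ∀ a : A, a ≠ 0 → ∀ f ∈ W, algebraMap A F a * f ∈ O → f ∈ O)
    (ev : F → A)
    (hev_sub : ∀ x ∈ O, ∀ y ∈ O, ev (x - y) = ev x - ev y)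
    (hev_smul : ∀ a : A, ∀ x ∈ O, ev (algebraMap A F a * x) = a * ev x)
    (hev_cst : ∀ a : A, ev (algebraMap A F a) = a)
    (scaleV : ∀ f ∈ V, f ≠ 0 →
      ∃ d : A, ∃ G ∈ V, f = algebraMap A F d * G ∧ G ∉ h82wM A V)
    (D₀ : A) (w : F) (hw : w ∈ V)
    (hL1 : ∃ o ∈ O, ∃ z ∈ W, w = o * (1 + algebraMap A F D₀ * z)) :
    H82wDepth V D₀ w := by
  classical
  have hAW : ∀ a : A, algebraMap A F a ∈ W := fun a => hVW (hAV a)
  obtain ⟨o, ho, z, hz, hwo⟩ := hL1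
  set a₀ : A := ev o with ha₀
  by_cases hf0 : w - algebraMap A F a₀ = 0
  · -- `w` is a constant
    refine Or.inr ⟨a₀, 0, V.zero_mem, ?_⟩
    rw [mul_zero, add_zero]
    exact sub_eq_zero.mp hf0
  obtain ⟨d, G, hG, hfG, hGn⟩ := scaleV _ (V.sub_mem hw (hAV a₀)) hf0
  have hwG : w = algebraMap A F a₀ + algebraMap A F d * G := by
    rw [← hfG]; ring
  have hd : d ≠ 0 := by
    rintro rfl
    apply hf0
    rw [hfG, map_zero, zero_mul]
  rcases ValuationRing.dvd_total D₀ d with ⟨c', hc'⟩ | ⟨c, hc⟩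
  · -- `D₀ ∣ d` : case (ii)
    refine Or.inr ⟨a₀, algebraMap A F c' * G, V.mul_mem (hAV c') hG, ?_⟩
    rw [hwG, hc', map_mul]; ring
  · -- `D₀ = d c`
    by_cases hcm : c ∈ maximalIdeal A
    · -- case (i)
      refine Or.inl ⟨a₀, d, c, G, hG, hcm, hc, hwG, ?_⟩
      rintro ⟨a, ha⟩
      -- the function `h = G - c o z` lies in `O` and vanishes at the point
      have hhW : G - algebraMap A F c * (o * z) ∈ W :=
        W.sub_mem (hVW hG) (W.mul_mem (hAW c) (W.mul_mem (hOW ho) hz))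
      have hdh : algebraMap A F d * (G - algebraMap A F c * (o * z)) =
          o - algebraMap A F a₀ := by
        have h1 : algebraMap A F a₀ + algebraMap A F d * G =
            o * (1 + algebraMap A F (d * c) * z) := by rw [← hwG, hwo, hc]
        rw [map_mul] at h1
        linear_combination h1
      have hhO : G - algebraMap A F c * (o * z) ∈ O := by
        refine sat d hd _ hhW ?_
        rw [hdh]; exact O.sub_mem ho (hAO a₀)
      have hev0 : ev (G - algebraMap A F c * (o * z)) = 0 := by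
        have h1 : d * ev (G - algebraMap A F c * (o * z)) = 0 := by
          rw [← hev_smul d _ hhO, hdh, hev_sub o ho _ (hAO a₀), hev_cst, ← ha₀, sub_self]
        rcases mul_eq_zero.mp h1 with h | h
        · exact absurd h hd
        · exact h
      -- `h - a ∈ 𝔪 W`
      have hha : G - algebraMap A F c * (o * z) - algebraMap A F a ∈ h82wM A W := by
        have h1 : G - algebraMap A F c * (o * z) - algebraMap A F a =
            (G - algebraMap A F a) - algebraMap A F c * (o * z) := by ring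
        rw [h1]
        exact h82w_M_sub hAW (h82w_M_mono hVW ha)
          (h82w_M_of hcm (W.mul_mem (hOW ho) hz))
      -- hence `a ∈ 𝔪`
      have ham : a ∈ maximalIdeal A := by
        obtain ⟨m', hm', y, hy, hmy⟩ := hha
        have hevha : ev (G - algebraMap A F c * (o * z) - algebraMap A F a) = -a := by
          rw [hev_sub _ hhO _ (hAO a), hev0, hev_cst, zero_sub]
        by_cases hm0 : m' = 0
        · rw [hm0, map_zero, zero_mul] at hmy
          rw [hmy] at hevha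
          have h0 : ev (0 : F) = 0 := by
            have := hev_cst 0
            rwa [map_zero] at this
          rw [h0] at hevha
          have : a = 0 := by
            have h2 := neg_eq_zero.mp hevha.symm
            exact h2
          rw [this]; exact zero_mem _
        · have hyO : y ∈ O := by
            refine sat m' hm0 y hy ?_
            rw [← hmy]
            exact O.sub_mem hhO (hAO a)
          have h2 : -a = m' * ev y := by
            rw [← hevha, hmy, hev_smul m' y hyO]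
          have h3 : a = -(m' * ev y) := by
            rw [← h2, neg_neg]
          rw [h3]
          exact neg_mem (Ideal.mul_mem_right _ _ hm')
      -- contradiction with `G ∉ 𝔪 V`
      apply hGn
      have h1 : G = (G - algebraMap A F a) + algebraMap A F a := by ring
      rw [h1]
      exact h82w_M_add hAV ha (h82w_M_const hAV ham)
    · -- `c` is a unit: `D₀ ∣ d`, case (ii)
      have hu : IsUnit c := by
        by_contra h
        exact hcm ((IsLocalRing.mem_maximalIdeal c).mpr h)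
      obtain ⟨u, rfl⟩ := hu
      refine Or.inr ⟨a₀, algebraMap A F (↑u⁻¹ : A) * G, V.mul_mem (hAV _) hG, ?_⟩
      rw [hwG, hc, ← mul_assoc, ← map_mul, mul_assoc, Units.mul_inv, mul_one]

/-- **C4 H0, abstract form WITHOUT discreteness** (finding 1353 step (3) + finding `proof7`
part 2/2 of helper63): the hypothesis `hdepth` of `h82w_h0_core` is discharged by an
evaluation `ev` at one point `n₀` of the first component and the Gauss scalings of `W₁`, `W₂`. -/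
theorem h63w_h0_of_eval
    (W₁ W₂ : Subring F)
    (hA₁ : ∀ a : A, algebraMap A F a ∈ W₁) (hA₂ : ∀ a : A, algebraMap A F a ∈ W₂)
    {P₁ P₂ E : Type*} (O₁ : P₁ → Subring F) (O₂ : P₂ → Subring F) (On : E → Subring F)
    (hO₁ : ∀ n, O₁ n ≤ W₁) (hO₂ : ∀ n, O₂ n ≤ W₂) (hOn : ∀ e, On e ≤ W₁ ⊓ W₂)
    (hAO₁ : ∀ n (a : A), algebraMap A F a ∈ O₁ n)
    (hAO₂ : ∀ n (a : A), algebraMap A F a ∈ O₂ n)
    (hAOn : ∀ e (a : A), algebraMap A F a ∈ On e)
    (sat₁ : ∀ n, ∀ a : A, a ≠ 0 → ∀ f ∈ W₁, algebraMap A F a * f ∈ O₁ n → f ∈ O₁ n)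
    (sat₂ : ∀ n, ∀ a : A, a ≠ 0 → ∀ f ∈ W₂, algebraMap A F a * f ∈ O₂ n → f ∈ O₂ n)
    (satn : ∀ e, ∀ a : A, a ≠ 0 → ∀ f ∈ W₁ ⊓ W₂, algebraMap A F a * f ∈ On e → f ∈ On e)
    (const₁ : ∀ f ∈ W₁, (∀ n, ∃ o ∈ O₁ n, f - o ∈ h82wM A W₁) →
      (∀ e, ∃ o ∈ On e, f - o ∈ h82wM A W₁) → ∃ a : A, f - algebraMap A F a ∈ h82wM A W₁)
    (const₂ : ∀ f ∈ W₂, (∀ n, ∃ o ∈ O₂ n, f - o ∈ h82wM A W₂) →
      (∀ e, ∃ o ∈ On e, f - o ∈ h82wM A W₂) → ∃ a : A, f - algebraMap A F a ∈ h82wM A W₂)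
    (branch : ∀ e, ∀ o ∈ On e, ∀ a₁ a₂ : A, o - algebraMap A F a₁ ∈ h82wM A W₁ →
      o - algebraMap A F a₂ ∈ h82wM A W₂ → a₁ - a₂ ∈ maximalIdeal A)
    -- the evaluation at one point of the first component, and the Gauss scalings
    (n₀ : P₁) (ev : F → A)
    (hev_sub : ∀ x ∈ O₁ n₀, ∀ y ∈ O₁ n₀, ev (x - y) = ev x - ev y)
    (hev_smul : ∀ a : A, ∀ x ∈ O₁ n₀, ev (algebraMap A F a * x) = a * ev x)
    (hev_cst : ∀ a : A, ev (algebraMap A F a) = a)
    (hnt₁ : ∀ m ∈ maximalIdeal A, ∀ y ∈ W₁, algebraMap A F m * y ≠ 1)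
    (hnt₂ : ∀ m ∈ maximalIdeal A, ∀ y ∈ W₂, algebraMap A F m * y ≠ 1)
    (sc₁ : ∀ f ∈ W₁, f ≠ 0 → ∃ d : A, ∃ s ∈ W₁, s⁻¹ ∈ W₁ ∧ f = algebraMap A F d * s)
    (sc₂ : ∀ f ∈ W₂, f ≠ 0 → ∃ d : A, ∃ s ∈ W₂, s⁻¹ ∈ W₂ ∧ f = algebraMap A F d * s)
    -- the function
    (D₀ : A) (hD₀ : D₀ ≠ 0) (hD₀m : D₀ ∈ maximalIdeal A)
    (w : F) (hw : w - 1 ∈ h82wM A (W₁ ⊓ W₂))
    (Eu : F) (hEu₁ : Eu ∈ h82wM A W₁) (hEu₂ : Eu - 1 ∈ h82wM A W₂)
    (ψ : E → A)
    (hL1₁ : ∀ n : P₁, ∃ o ∈ O₁ n, ∃ z ∈ h82wM A W₁, w = o * (1 + algebraMap A F D₀ * z))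
    (hL1₂ : ∀ n : P₂, ∃ o ∈ O₂ n, ∃ z ∈ h82wM A W₂, w = o * (1 + algebraMap A F D₀ * z))
    (hL2 : ∀ e : E, ∃ o ∈ On e, ∃ z ∈ h82wM A (W₁ ⊓ W₂),
      w = o * (1 + algebraMap A F (ψ e) * algebraMap A F D₀ * Eu) *
        (1 + algebraMap A F D₀ * z)) :
    ∀ e e' : E, ψ e - ψ e' ∈ maximalIdeal A := by
  have hAV : ∀ a : A, algebraMap A F a ∈ W₁ ⊓ W₂ := fun a => ⟨hA₁ a, hA₂ a⟩
  have hwV : w ∈ W₁ ⊓ W₂ := by
    have h1 : w = (w - 1) + 1 := by ring
    rw [h1]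
    exact (W₁ ⊓ W₂).add_mem (h82w_M_le hAV hw) (W₁ ⊓ W₂).one_mem
  have hdepth : H82wDepth (W₁ ⊓ W₂) D₀ w := by
    refine h63w_depth_of_eval (W₁ ⊓ W₂) W₁ (O₁ n₀) inf_le_left (hO₁ n₀) hAV (hAO₁ n₀)
      (sat₁ n₀) ev hev_sub hev_smul hev_cst
      (h63w_scaleV W₁ W₂ hA₁ hA₂ hnt₁ hnt₂ sc₁ sc₂) D₀ w hwV ?_
    obtain ⟨o, ho, z, hz, h⟩ := hL1₁ n₀
    exact ⟨o, ho, z, h82w_M_le hA₁ hz, h⟩
  exact h82w_h0_core W₁ W₂ hA₁ hA₂ O₁ O₂ On hO₁ hO₂ hOn hAO₁ hAO₂ hAOn sat₁ sat₂ satn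
    const₁ const₂ branch D₀ hD₀ hD₀m w hw Eu hEu₁ hEu₂ ψ hL1₁ hL1₂ hL2 hdepth

end H63Depth

end Fermat.Agent.P7
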