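import Fermat.Agent.P6.H62PuritySm
import Fermat.Agent.P7.H63Depth

/-!
# W7 (S40), block (5b) T-CONST, leaf C4 H0, instance (I4) at a smooth closed point (helper63)

Setting of `P6/H62PuritySm.lean`: `h : H62ySmooth B V₀ val W W' 𝔫 t` (a closed point `𝔫` of the
chart `B` lying on the component of `W` only), `O = h62yO B 𝔫` its local ring.

* `h63w_exists_centred` : some place of the chart is centred at `𝔫`;
* `h63w_exists_ev`      : an `A`-linear evaluation `ev : F → A` on `O` with `ev a = a`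
  (the landed section `φ` at a centred place, extended to the localisation);
* `h63w_depth_smooth`   : the exact depth dichotomy `H82wDepth V D₀ w` for every `w ∈ V ≤ W`
  with the local form `w = o (1 + D₀ z)` (`o ∈ O`, `z ∈ W`) at `𝔫`, given the Gauss scaling
  in `V`.  NO discreteness.

Every declaration is a proved theorem; nothing is assumed.
-/

set_option autoImplicit false
set_option linter.unusedSectionVars false
set_option linter.unusedVariables false
set_option linter.style.longLine false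

open WithZero IsLocalRing

namespace Fermat.Agent.P7

open Fermat.Agent.Red Fermat.Agent.LGC Fermat.Agent.P6

section H63DepthSm

variable {A : Type*} [CommRing A] [IsDomain A] [ValuationRing A]
  {F : Type*} [Field F] [Algebra A F]
  {B : Subalgebra A F} {V₀ : Subring F} {ι : Type*} {val : ι → Valuation F ℤᵐ⁰}
  {W W' : Subring F} {𝔫 : Ideal B} {t : B}

/-- some place of the chart is centred at a smooth closed point. -/
theorem h63w_exists_centred (h : H62ySmooth B V₀ val W W' 𝔫 t) :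
    ∃ i, h26Centered B val 𝔫 i := by
  by_contra hno
  have hno' : ∀ i, ¬ h26Centered B val 𝔫 i := fun i hi => hno ⟨i, hi⟩
  have := h.hprime
  obtain ⟨a, ha, s, hs, hmem⟩ := h26_stepC h.hC.hfin h.hC.hint h.hC.hB 𝔫 ((t : F)⁻¹)
    (fun i hi => absurd hi (hno' i))
  have ha0 : a ≠ 0 := by
    rintro rfl
    exact ha (map_zero _)
  have hx : (s : F) * (t : F)⁻¹ ∈ W := W.mul_mem (h.hBW _ s.2) h.htW
  obtain ⟨s', hs', hb⟩ := h62y_satB h ha0 hx hmem
  -- `s' s = b t ∈ 𝔫`
  have hst : s' * s ∈ 𝔫 := by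
    have e : s' * s = ⟨(s' : F) * ((s : F) * (t : F)⁻¹), hb⟩ * t := by
      apply Subtype.ext
      push_cast
      have := h.ht0
      field_simp
    rw [e]
    exact 𝔫.mul_mem_left _ h.ht
  exact (h.hprime.mem_or_mem hst).elim hs' hs

/-- the section at a place centred at `𝔫` is local: `φ s` is a unit for `s ∉ 𝔫`. -/
theorem h63w_phi_unit (h : H62ySmooth B V₀ val W W' 𝔫 t) {i : ι}
    (hi : h26Centered B val 𝔫 i) {φ : B →ₐ[A] A}
    (hφ : ∀ b : B, φ b = 0 ↔ val i (b : F) < 1) {s : B} (hs : s ∉ 𝔫) : IsUnit (φ s) := by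
  by_contra hu
  have hm : φ s ∈ maximalIdeal A := (IsLocalRing.mem_maximalIdeal _).mpr hu
  apply hs
  have h0 : φ (s - algebraMap A B (φ s)) = 0 := by
    rw [map_sub, AlgHom.commutes]
    simp
  have h1 : s - algebraMap A B (φ s) ∈ 𝔫 := hi _ ((hφ _).mp h0)
  have h2 : algebraMap A B (φ s) ∈ 𝔫 := h.hm𝔫 (Ideal.mem_map_of_mem _ hm)
  have := 𝔫.add_mem h1 h2
  simpa using this

/-- **the evaluation at a smooth closed point**: an `A`-linear map on the local ring
`O = h62yO B 𝔫` with values in `A`, the identity on the constants. -/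
theorem h63w_exists_ev (h : H62ySmooth B V₀ val W W' 𝔫 t) :
    ∃ ev : F → A,
      (∀ x ∈ h62yO B 𝔫 h.hprime, ∀ y ∈ h62yO B 𝔫 h.hprime, ev (x - y) = ev x - ev y) ∧
      (∀ a : A, ∀ x ∈ h62yO B 𝔫 h.hprime, ev (algebraMap A F a * x) = a * ev x) ∧
      (∀ a : A, ev (algebraMap A F a) = a) := by
  classical
  obtain ⟨i, hi⟩ := h63w_exists_centred h
  obtain ⟨φ, hφ, -⟩ := h.hsec i hi
  have hunit : ∀ {s : B}, s ∉ 𝔫 → IsUnit (φ s) := fun hs => h63w_phi_unit h hi hφ hs
  -- the candidate
  let ev : F → A := fun f =>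
    if hf : f ∈ h62yO B 𝔫 h.hprime then
      φ ⟨(hf.choose : F) * f, hf.choose_spec.2⟩ * Ring.inverse (φ hf.choose)
    else 0
  -- the defining property
  have key : ∀ f (hf : f ∈ h62yO B 𝔫 h.hprime) (s : B) (hs : s ∉ 𝔫) (hsf : (s : F) * f ∈ B),
      ev f * φ s = φ ⟨(s : F) * f, hsf⟩ := by
    intro f hf s hs hsf
    have hev : ev f =
        φ ⟨(hf.choose : F) * f, hf.choose_spec.2⟩ * Ring.inverse (φ hf.choose) := by
      simp only [ev, dif_pos hf]
    have hu₀ : IsUnit (φ hf.choose) := hunit hf.choose_spec.1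
    have e1 : (⟨(hf.choose : F) * f, hf.choose_spec.2⟩ : B) * s =
        hf.choose * ⟨(s : F) * f, hsf⟩ := by
      apply Subtype.ext
      push_cast
      ring
    have e2 : φ ⟨(hf.choose : F) * f, hf.choose_spec.2⟩ * φ s =
        φ hf.choose * φ ⟨(s : F) * f, hsf⟩ := by
      rw [← map_mul, ← map_mul, e1]
    calc ev f * φ s
        = (φ ⟨(hf.choose : F) * f, hf.choose_spec.2⟩ * φ s) * Ring.inverse (φ hf.choose) := by
          rw [hev]; ring
      _ = φ ⟨(s : F) * f, hsf⟩ * (φ hf.choose * Ring.inverse (φ hf.choose)) := by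
          rw [e2]; ring
      _ = φ ⟨(s : F) * f, hsf⟩ := by rw [Ring.mul_inverse_cancel _ hu₀, mul_one]
  refine ⟨ev, ?_, ?_, ?_⟩
  · -- additivity
    intro x hx y hy
    obtain ⟨s, hs, hsx⟩ := hx
    obtain ⟨s', hs', hsy⟩ := hy
    have hx' : x ∈ h62yO B 𝔫 h.hprime := ⟨s, hs, hsx⟩
    have hy' : y ∈ h62yO B 𝔫 h.hprime := ⟨s', hs', hsy⟩
    have hss : s * s' ∉ 𝔫 := fun hmem => (h.hprime.mem_or_mem hmem).elim hs hs'
    have hxy : x - y ∈ h62yO B 𝔫 h.hprime := (h62yO B 𝔫 h.hprime).sub_mem hx' hy'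
    have hmx : ((s * s' : B) : F) * x ∈ B := by
      have e : ((s * s' : B) : F) * x = (s' : F) * ((s : F) * x) := by push_cast; ring
      rw [e]; exact B.mul_mem s'.2 hsx
    have hmy : ((s * s' : B) : F) * y ∈ B := by
      have e : ((s * s' : B) : F) * y = (s : F) * ((s' : F) * y) := by push_cast; ring
      rw [e]; exact B.mul_mem s.2 hsy
    have hmxy : ((s * s' : B) : F) * (x - y) ∈ B := by
      rw [mul_sub]; exact B.sub_mem hmx hmy
    have h1 := key (x - y) hxy (s * s') hss hmxy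
    have h2 := key x hx' (s * s') hss hmx
    have h3 := key y hy' (s * s') hss hmy
    have e : (⟨((s * s' : B) : F) * (x - y), hmxy⟩ : B) =
        ⟨((s * s' : B) : F) * x, hmx⟩ - ⟨((s * s' : B) : F) * y, hmy⟩ := by
      apply Subtype.ext
      push_cast
      ring
    rw [e, map_sub, ← h2, ← h3, ← sub_mul] at h1
    exact (hunit hss).mul_left_injective h1
  · -- linearity
    intro a x hx
    obtain ⟨s, hs, hsx⟩ := hx
    have hx' : x ∈ h62yO B 𝔫 h.hprime := ⟨s, hs, hsx⟩
    have hax : algebraMap A F a * x ∈ h62yO B 𝔫 h.hprime :=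
      (h62yO B 𝔫 h.hprime).mul_mem ((h62yO B 𝔫 h.hprime).algebraMap_mem a) hx'
    have hmax : (s : F) * (algebraMap A F a * x) ∈ B := by
      have e : (s : F) * (algebraMap A F a * x) = algebraMap A F a * ((s : F) * x) := by ring
      rw [e]; exact B.mul_mem (B.algebraMap_mem a) hsx
    have h1 := key _ hax s hs hmax
    have h2 := key x hx' s hs hsx
    have e : (⟨(s : F) * (algebraMap A F a * x), hmax⟩ : B) =
        algebraMap A B a * ⟨(s : F) * x, hsx⟩ := by
      apply Subtype.ext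
      push_cast
      ring
    rw [e, map_mul, AlgHom.commutes, ← h2] at h1
    have h3 : ev (algebraMap A F a * x) * φ s = (a * ev x) * φ s := by
      rw [h1]; simp [mul_assoc]
    exact (hunit hs).mul_left_injective h3
  · -- constants
    intro a
    have ha : algebraMap A F a ∈ h62yO B 𝔫 h.hprime := (h62yO B 𝔫 h.hprime).algebraMap_mem a
    have h1n : (1 : B) ∉ 𝔫 := (Ideal.ne_top_iff_one 𝔫).mp h.hprime.ne_top
    have hm : ((1 : B) : F) * algebraMap A F a ∈ B := by
      rw [OneMemClass.coe_one, one_mul]; exact B.algebraMap_mem a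
    have h1 := key _ ha 1 h1n hm
    have e : (⟨((1 : B) : F) * algebraMap A F a, hm⟩ : B) = algebraMap A B a := by
      apply Subtype.ext
      push_cast
      ring
    rw [e, AlgHom.commutes, map_one, mul_one] at h1
    simpa using h1

/-- **exact depth at a smooth closed point** (no discreteness): for `w ∈ V ≤ W` with the local
form `w = o (1 + D₀ z)`, `o ∈ O = h62yO B 𝔫`, `z ∈ W`, and the Gauss scaling in `V`. -/
theorem h63w_depth_smooth (h : H62ySmooth B V₀ val W W' 𝔫 t)
    (V : Subring F) (hVW : V ≤ W) (hAV : ∀ a : A, algebraMap A F a ∈ V)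
    (scaleV : ∀ f ∈ V, f ≠ 0 →
      ∃ d : A, ∃ G ∈ V, f = algebraMap A F d * G ∧ G ∉ h82wM A V)
    (D₀ : A) (w : F) (hw : w ∈ V)
    (hL1 : ∃ o ∈ h62yO B 𝔫 h.hprime, ∃ z ∈ W, w = o * (1 + algebraMap A F D₀ * z)) :
    H82wDepth V D₀ w := by
  obtain ⟨ev, hsub, hsmul, hcst⟩ := h63w_exists_ev h
  refine h63w_depth_of_eval V W (h62yO B 𝔫 h.hprime).toSubring hVW
    (fun x hx => h62y_O_le_W h hx) hAV (fun a => (h62yO B 𝔫 h.hprime).algebraMap_mem a)
    ?_ ev hsub hsmul hcst scaleV D₀ w hw hL1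
  intro a ha f hf haf
  refine h62y_sat h ha hf ?_
  rw [Algebra.smul_def]
  exact haf

end H63DepthSm

end Fermat.Agent.P7
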