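import Fermat.Agent.P6.H62PuritySmInst
import Fermat.Agent.P7.H63DepthSm

/-!
# W7 (S40), block (5b) T-CONST, leaf C4 H0, instance (I4) AT THE LEVEL `M ℓ` (helper63)

`B = chart (M * ℓ) A (jSS M ℓ)`, `W∞ = softV A (M * ℓ)`, `W₀ = (h85cW0 A M ℓ ..).toSubring`,
`V = W∞ ⊓ W₀`.

* `h63w_scale_soft`, `h63w_scale_W0` : exact Gauss scaling `f = d · s`, `d ∈ A`, `s` a unit,
  for `f ≠ 0` in `W∞` resp. `W₀`;
* `h63w_scaleV_level` : Gauss scaling in `V`;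
* `h63w_depth_level_inf` : for every closed point `𝔫` of the finite chart lying on `C∞` only
  and every `w ∈ V` with the local form `w = o (1 + D₀ z)`, `o ∈ O_𝔫`, `z ∈ W∞`:
  the exact depth dichotomy `H82wDepth V D₀ w` (= hypothesis `hdepth` of `h82w_h0_core` with
  `W₁ = W∞`, `W₂ = W₀`);
* `h63w_depth_level_zero` : the same from a closed point lying on `C₀` only.
NO discreteness, no Galois descent: evaluation at one point (finding `proof7` 2/2, helper63).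

Every declaration is a proved theorem; nothing is assumed.
-/

set_option autoImplicit false
set_option linter.unusedSectionVars false
set_option linter.unusedVariables false
set_option linter.style.longLine false

open AlgebraicCurve ModularCurve WithZero IsLocalRing

noncomputable section

namespace Fermat.Agent.P7

open Fermat.Agent.S37 Fermat.Agent.Red Fermat.Agent.Red.GG Fermat.Agent.Red.GV
  Fermat.Agent.Red.GV.Soft Fermat.Agent.Red.Kron Fermat.Agent.Red.KR Fermat.Agent.Red.ModelO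
  Fermat.Agent.LGC Fermat.Agent.S35 Fermat.Agent.P6

variable (A : ValuationSubring Kbar) (M : ℕ) {ℓ : ℕ} [NeZero M] [NeZero ℓ]

/-- exact Gauss scaling in `W∞ = softV` (any level `N`). -/
theorem h63w_scale_soft (hℓ : ℓ.Prime) (hA : A.LiesOverPrime ℓ) (N : ℕ) :
    ∀ f ∈ softV A N, f ≠ 0 →
      ∃ d : A, ∃ s ∈ softV A N, s⁻¹ ∈ softV A N ∧ f = algebraMap A (FF N) d * s := by
  intro f hf hf0
  obtain ⟨c, hc, hu, hinv⟩ := exists_cst_mul_unit_soft A N hℓ hA f hf0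
  have hcc : cst N c ≠ 0 := fun h0 =>
    hc ((algebraMap Kbar (FF N)).injective (h0.trans (map_zero _).symm))
  have e : (cst N c)⁻¹ = cst N c⁻¹ := (map_inv₀ (algebraMap Kbar (FF N)) c).symm
  have hf' : f = cst N c⁻¹ * (cst N c * f) := by
    rw [← e, ← mul_assoc, inv_mul_cancel₀ hcc, one_mul]
  have hcst : cst N c⁻¹ ∈ softV A N := by
    have h1 : cst N c⁻¹ = f * (cst N c * f)⁻¹ := by
      rw [← e, mul_inv, ← mul_assoc, mul_comm f, mul_assoc, mul_inv_cancel₀ hf0, mul_one]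
    rw [h1]
    exact (softV A N).mul_mem hf hinv
  have hcA : c⁻¹ ∈ A := (cst_mem_softV_iff A N _).mp hcst
  exact ⟨⟨c⁻¹, hcA⟩, cst N c * f, hu, hinv, hf'⟩

/-- exact Gauss scaling in `W₀`. -/
theorem h63w_scale_W0 (hℓ : ℓ.Prime) (hM : ¬ ℓ ∣ M) (hA : A.LiesOverPrime ℓ) :
    ∀ f ∈ (h85cW0 A M ℓ hℓ hM hA).toSubring, f ≠ 0 →
      ∃ d : A, ∃ s ∈ (h85cW0 A M ℓ hℓ hM hA).toSubring,
        s⁻¹ ∈ (h85cW0 A M ℓ hℓ hM hA).toSubring ∧ f = algebraMap A (FF (M * ℓ)) d * s := by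
  intro f hf hf0
  have hf' : kFricke M ℓ hℓ hM f ∈ softV A (M * ℓ) := hf
  have hkf0 : kFricke M ℓ hℓ hM f ≠ 0 := (map_ne_zero _).mpr hf0
  obtain ⟨d, s, hs, hsi, hfs⟩ := h63w_scale_soft A hℓ hA (M * ℓ) _ hf' hkf0
  refine ⟨d, kFricke M ℓ hℓ hM s, ?_, ?_, ?_⟩
  · show kFricke M ℓ hℓ hM (kFricke M ℓ hℓ hM s) ∈ softV A (M * ℓ)
    rw [kFricke_kFricke]; exact hs
  · show kFricke M ℓ hℓ hM (kFricke M ℓ hℓ hM s)⁻¹ ∈ softV A (M * ℓ)
    rw [map_inv₀, kFricke_kFricke]; exact hsi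
  · have := congrArg (kFricke M ℓ hℓ hM) hfs
    rw [kFricke_kFricke, map_mul, h62y_kFricke_algebraMap] at this
    exact this

/-- Gauss scaling in `V = W∞ ⊓ W₀`. -/
theorem h63w_scaleV_level (hℓ : ℓ.Prime) (hM : ¬ ℓ ∣ M) (hA : A.LiesOverPrime ℓ) :
    ∀ f ∈ softV A (M * ℓ) ⊓ (h85cW0 A M ℓ hℓ hM hA).toSubring, f ≠ 0 →
      ∃ d : A, ∃ G ∈ softV A (M * ℓ) ⊓ (h85cW0 A M ℓ hℓ hM hA).toSubring,
        f = algebraMap A (FF (M * ℓ)) d * G ∧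
        G ∉ h82wM A (softV A (M * ℓ) ⊓ (h85cW0 A M ℓ hℓ hM hA).toSubring) := by
  have hA₁ : ∀ a : A, algebraMap A (FF (M * ℓ)) a ∈ softV A (M * ℓ) := fun a =>
    (cst_mem_softV_iff A (M * ℓ) _).mpr a.2
  have hA₂ : ∀ a : A, algebraMap A (FF (M * ℓ)) a ∈ (h85cW0 A M ℓ hℓ hM hA).toSubring := by
    intro a
    show kFricke M ℓ hℓ hM (algebraMap A (FF (M * ℓ)) a) ∈ softV A (M * ℓ)
    rw [h62y_kFricke_algebraMap]
    exact hA₁ a
  exact h63w_scaleV (softV A (M * ℓ)) (h85cW0 A M ℓ hℓ hM hA).toSubring hA₁ hA₂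
    (h62y_Winf_nt A (M * ℓ)) (h62y_W0_nt A M hℓ hM hA)
    (h63w_scale_soft A hℓ hA (M * ℓ)) (h63w_scale_W0 A M hℓ hM hA)

section Inst

variable (hℓ : ℓ.Prime) (hM : ¬ ℓ ∣ M) (haux : auxLevel ℓ ∣ M) (hA : A.LiesOverPrime ℓ)
  (𝔫 : Ideal (chart (M * ℓ) A (jSS M ℓ))) (h𝔫 : 𝔫.IsMaximal)

include haux in
/-- **(I4) at the level, from a closed point of `C∞` only**: the exact depth dichotomy of
`h82w_h0_core` (`W₁ = W∞`, `W₂ = W₀`) for every `w ∈ V` with the local form (L1) at `𝔫`. -/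
theorem h63w_depth_level_inf
    (hPinf : h62i_Pinf A M hℓ hM hA ≤ 𝔫) (hP0 : ¬ h62i_P0 A M hℓ hM hA ≤ 𝔫)
    (D₀ : A) (w : FF (M * ℓ))
    (hw : w ∈ softV A (M * ℓ) ⊓ (h85cW0 A M ℓ hℓ hM hA).toSubring)
    (hL1 : ∃ o ∈ h62yO (chart (M * ℓ) A (jSS M ℓ)) 𝔫 h𝔫.isPrime, ∃ z ∈ softV A (M * ℓ),
      w = o * (1 + algebraMap A (FF (M * ℓ)) D₀ * z)) :
    H82wDepth (softV A (M * ℓ) ⊓ (h85cW0 A M ℓ hℓ hM hA).toSubring) D₀ w := by
  obtain ⟨t, h⟩ := h62y_smooth_inf A M hℓ hM haux hA 𝔫 h𝔫 hPinf hP0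
  have hA₁ : ∀ a : A, algebraMap A (FF (M * ℓ)) a ∈ softV A (M * ℓ) := fun a =>
    (cst_mem_softV_iff A (M * ℓ) _).mpr a.2
  have hA₂ : ∀ a : A, algebraMap A (FF (M * ℓ)) a ∈ (h85cW0 A M ℓ hℓ hM hA).toSubring := by
    intro a
    show kFricke M ℓ hℓ hM (algebraMap A (FF (M * ℓ)) a) ∈ softV A (M * ℓ)
    rw [h62y_kFricke_algebraMap]
    exact hA₁ a
  exact h63w_depth_smooth h _ inf_le_left (fun a => ⟨hA₁ a, hA₂ a⟩)
    (h63w_scaleV_level A M hℓ hM hA) D₀ w hw hL1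

include haux in
/-- **(I4) at the level, from a closed point of `C₀` only.** -/
theorem h63w_depth_level_zero
    (hP0 : h62i_P0 A M hℓ hM hA ≤ 𝔫) (hPinf : ¬ h62i_Pinf A M hℓ hM hA ≤ 𝔫)
    (D₀ : A) (w : FF (M * ℓ))
    (hw : w ∈ softV A (M * ℓ) ⊓ (h85cW0 A M ℓ hℓ hM hA).toSubring)
    (hL1 : ∃ o ∈ h62yO (chart (M * ℓ) A (jSS M ℓ)) 𝔫 h𝔫.isPrime,
      ∃ z ∈ (h85cW0 A M ℓ hℓ hM hA).toSubring,
      w = o * (1 + algebraMap A (FF (M * ℓ)) D₀ * z)) :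
    H82wDepth (softV A (M * ℓ) ⊓ (h85cW0 A M ℓ hℓ hM hA).toSubring) D₀ w := by
  obtain ⟨t, h⟩ := h62y_smooth_zero A M hℓ hM haux hA 𝔫 h𝔫 hP0 hPinf
  have hA₁ : ∀ a : A, algebraMap A (FF (M * ℓ)) a ∈ softV A (M * ℓ) := fun a =>
    (cst_mem_softV_iff A (M * ℓ) _).mpr a.2
  have hA₂ : ∀ a : A, algebraMap A (FF (M * ℓ)) a ∈ (h85cW0 A M ℓ hℓ hM hA).toSubring := by
    intro a
    show kFricke M ℓ hℓ hM (algebraMap A (FF (M * ℓ)) a) ∈ softV A (M * ℓ)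
    rw [h62y_kFricke_algebraMap]
    exact hA₁ a
  exact h63w_depth_smooth h _ inf_le_right (fun a => ⟨hA₁ a, hA₂ a⟩)
    (h63w_scaleV_level A M hℓ hM hA) D₀ w hw hL1

end Inst

end Fermat.Agent.P7
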