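import Fermat.Agent.P7.H63DepthLevel

/-!
# W7 (S40), block (5b) T-CONST, leaf C4 H0, instance (I4) FROM A NODE (helper63)

The exact depth dichotomy `H82wDepth` of `h82w_h0_core` from the evaluation at a NODE: since
the conclusion of `h82w_h0_core` is about the nodes, the assembly needs NO existence statement
for closed points (`h63w_h0_of_node_eval`).

Abstract (chart vocabulary of `Red/LocalFact.lean`):
* `h63w_exists_centred_of_unit` : a prime `𝔫` of the chart containing a Gauss unit `g` is the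
  centre of a place;
* `h63w_exists_ev_of_section`   : the evaluation on `h62yO B 𝔫` from a section at a centred place;
* `h63w_sat_of_QEP`             : two-sided saturation of `h62yO B 𝔫` from `QEP`;
* `h63w_add_inv_mem`            : `x` unit of `W`, `y ∈ 𝔪 W ⟹ (x + y)⁻¹ ∈ W`;
* `h63w_h0_of_node_eval`        : `h82w_h0_core` with `hdepth` replaced by evaluations at the
  nodes and the Gauss scalings.
Level `M ℓ` (finite chart):
* `h63w_exists_ev_level`  : evaluation at EVERY closed point of the special fibre;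
* `h63w_depth_level_node` : `H82wDepth (W∞ ⊓ W₀) D₀ w` from the form `w = o (1 + D₀ T)`,
  `o ∈ O_𝔫`, `T ∈ W∞ ⊓ W₀`, at a node `𝔫`.

Every declaration is a proved theorem; nothing is assumed.
-/

set_option autoImplicit false
set_option linter.unusedSectionVars false
set_option linter.unusedVariables false
set_option linter.style.longLine false

open AlgebraicCurve ModularCurve WithZero IsLocalRing

noncomputable section

namespace Fermat.Agent.P7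

open Fermat.Agent.Red Fermat.Agent.LGC Fermat.Agent.P6

section Abs

variable {A : Type*} [CommRing A] [IsDomain A] [ValuationRing A]
  {F : Type*} [Field F] [Algebra A F]
  {B : Subalgebra A F} {V₀ : Subring F} {ι : Type*} {val : ι → Valuation F ℤᵐ⁰}
  {𝔫 : Ideal B}

/-- a prime of the chart containing a Gauss unit is the centre of a place. -/
theorem h63w_exists_centred_of_unit (hC : H26Chart B V₀ val) (hprime : 𝔫.IsPrime)
    {g : B} (hg : g ∈ 𝔫) (hg0 : (g : F) ≠ 0) (hgV : (g : F)⁻¹ ∈ V₀) :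
    ∃ i, h26Centered B val 𝔫 i := by
  by_contra hno
  have hno' : ∀ i, ¬ h26Centered B val 𝔫 i := fun i hi => hno ⟨i, hi⟩
  have := hprime
  obtain ⟨a, ha, s, hs, hmem⟩ := h26_stepC hC.hfin hC.hint hC.hB 𝔫 ((g : F)⁻¹)
    (fun i hi => absurd hi (hno' i))
  have hx : (s : F) * (g : F)⁻¹ ∈ V₀ := V₀.mul_mem (hC.hBV _ s.2) hgV
  have hb : (s : F) * (g : F)⁻¹ ∈ B := hC.hQEP a ha _ hx hmem
  have hsg : s ∈ 𝔫 := by
    have e : s = ⟨(s : F) * (g : F)⁻¹, hb⟩ * g := by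
      apply Subtype.ext
      push_cast
      field_simp
    rw [e]
    exact 𝔫.mul_mem_left _ hg
  exact hs hsg

/-- a section at a place centred at `𝔫 ⊇ 𝔪_A B` is local: `φ s` is a unit for `s ∉ 𝔫`. -/
theorem h63w_phi_unit_of (hm𝔫 : (maximalIdeal A).map (algebraMap A B) ≤ 𝔫) {i : ι}
    (hi : h26Centered B val 𝔫 i) {φ : B →ₐ[A] A}
    (hφ : ∀ b : B, φ b = 0 ↔ val i (b : F) < 1) {s : B} (hs : s ∉ 𝔫) : IsUnit (φ s) := by
  by_contra hu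
  have hm : φ s ∈ maximalIdeal A := (IsLocalRing.mem_maximalIdeal _).mpr hu
  apply hs
  have h0 : φ (s - algebraMap A B (φ s)) = 0 := by
    rw [map_sub, AlgHom.commutes]
    simp
  have h1 : s - algebraMap A B (φ s) ∈ 𝔫 := hi _ ((hφ _).mp h0)
  have h2 : algebraMap A B (φ s) ∈ 𝔫 := hm𝔫 (Ideal.mem_map_of_mem _ hm)
  have := 𝔫.add_mem h1 h2
  simpa using this

/-- **the evaluation on the local ring `h62yO B 𝔫`** from a section at a centred place. -/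
theorem h63w_exists_ev_of_section (hprime : 𝔫.IsPrime)
    (hm𝔫 : (maximalIdeal A).map (algebraMap A B) ≤ 𝔫) {i : ι}
    (hi : h26Centered B val 𝔫 i) (φ : B →ₐ[A] A)
    (hφ : ∀ b : B, φ b = 0 ↔ val i (b : F) < 1) :
    ∃ ev : F → A,
      (∀ x ∈ h62yO B 𝔫 hprime, ∀ y ∈ h62yO B 𝔫 hprime, ev (x - y) = ev x - ev y) ∧
      (∀ a : A, ∀ x ∈ h62yO B 𝔫 hprime, ev (algebraMap A F a * x) = a * ev x) ∧
      (∀ a : A, ev (algebraMap A F a) = a) := by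
  classical
  have hunit : ∀ {s : B}, s ∉ 𝔫 → IsUnit (φ s) := fun hs => h63w_phi_unit_of hm𝔫 hi hφ hs
  let ev : F → A := fun f =>
    if hf : f ∈ h62yO B 𝔫 hprime then
      φ ⟨(hf.choose : F) * f, hf.choose_spec.2⟩ * Ring.inverse (φ hf.choose)
    else 0
  have key : ∀ f (hf : f ∈ h62yO B 𝔫 hprime) (s : B) (hs : s ∉ 𝔫) (hsf : (s : F) * f ∈ B),
      ev f * φ s = φ ⟨(s : F) * f, hsf⟩ := by
    intro f hf s hs hsf
    have hev : ev f =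
        φ ⟨(hf.choose : F) * f, hf.choose_spec.2⟩ * Ring.inverse (φ hf.choose) := by
      simp only [ev, dif_pos hf]
    have hu₀ : IsUnit (φ hf.choose) := hunit hf.choose_spec.1
    have e1 : (⟨(hf.choose : F) * f, hf.choose_spec.2⟩ : B) * s =
        hf.choose * ⟨(s : F) * f, hsf⟩ := by
      apply Subtype.ext
      push_cast
      ring
    have e2 : φ ⟨(hf.choose : F) * f, hf.choose_spec.2⟩ * φ s =
        φ hf.choose * φ ⟨(s : F) * f, hsf⟩ := by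
      rw [← map_mul, ← map_mul, e1]
    calc ev f * φ s
        = (φ ⟨(hf.choose : F) * f, hf.choose_spec.2⟩ * φ s) * Ring.inverse (φ hf.choose) := by
          rw [hev]; ring
      _ = φ ⟨(s : F) * f, hsf⟩ * (φ hf.choose * Ring.inverse (φ hf.choose)) := by
          rw [e2]; ring
      _ = φ ⟨(s : F) * f, hsf⟩ := by rw [Ring.mul_inverse_cancel _ hu₀, mul_one]
  refine ⟨ev, ?_, ?_, ?_⟩
  · intro x hx y hy
    obtain ⟨s, hs, hsx⟩ := hx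
    obtain ⟨s', hs', hsy⟩ := hy
    have hx' : x ∈ h62yO B 𝔫 hprime := ⟨s, hs, hsx⟩
    have hy' : y ∈ h62yO B 𝔫 hprime := ⟨s', hs', hsy⟩
    have hss : s * s' ∉ 𝔫 := fun hmem => (hprime.mem_or_mem hmem).elim hs hs'
    have hxy : x - y ∈ h62yO B 𝔫 hprime := (h62yO B 𝔫 hprime).sub_mem hx' hy'
    have hmx : ((s * s' : B) : F) * x ∈ B := by
      have e : ((s * s' : B) : F) * x = (s' : F) * ((s : F) * x) := by push_cast; ring
      rw [e]; exact B.mul_mem s'.2 hsx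
    have hmy : ((s * s' : B) : F) * y ∈ B := by
      have e : ((s * s' : B) : F) * y = (s : F) * ((s' : F) * y) := by push_cast; ring
      rw [e]; exact B.mul_mem s.2 hsy
    have hmxy : ((s * s' : B) : F) * (x - y) ∈ B := by
      rw [mul_sub]; exact B.sub_mem hmx hmy
    have h1 := key (x - y) hxy (s * s') hss hmxy
    have h2 := key x hx' (s * s') hss hmx
    have h3 := key y hy' (s * s') hss hmy
    have e : (⟨((s * s' : B) : F) * (x - y), hmxy⟩ : B) =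
        ⟨((s * s' : B) : F) * x, hmx⟩ - ⟨((s * s' : B) : F) * y, hmy⟩ := by
      apply Subtype.ext
      push_cast
      ring
    rw [e, map_sub, ← h2, ← h3, ← sub_mul] at h1
    exact (hunit hss).mul_left_injective h1
  · intro a x hx
    obtain ⟨s, hs, hsx⟩ := hx
    have hx' : x ∈ h62yO B 𝔫 hprime := ⟨s, hs, hsx⟩
    have hax : algebraMap A F a * x ∈ h62yO B 𝔫 hprime :=
      (h62yO B 𝔫 hprime).mul_mem ((h62yO B 𝔫 hprime).algebraMap_mem a) hx'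
    have hmax : (s : F) * (algebraMap A F a * x) ∈ B := by
      have e : (s : F) * (algebraMap A F a * x) = algebraMap A F a * ((s : F) * x) := by ring
      rw [e]; exact B.mul_mem (B.algebraMap_mem a) hsx
    have h1 := key _ hax s hs hmax
    have h2 := key x hx' s hs hsx
    have e : (⟨(s : F) * (algebraMap A F a * x), hmax⟩ : B) =
        algebraMap A B a * ⟨(s : F) * x, hsx⟩ := by
      apply Subtype.ext
      push_cast
      ring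
    rw [e, map_mul, AlgHom.commutes, ← h2] at h1
    have h3 : ev (algebraMap A F a * x) * φ s = (a * ev x) * φ s := by
      rw [h1]; simp [mul_assoc]
    exact (hunit hs).mul_left_injective h3
  · intro a
    have ha : algebraMap A F a ∈ h62yO B 𝔫 hprime := (h62yO B 𝔫 hprime).algebraMap_mem a
    have h1n : (1 : B) ∉ 𝔫 := (Ideal.ne_top_iff_one 𝔫).mp hprime.ne_top
    have hm : ((1 : B) : F) * algebraMap A F a ∈ B := by
      rw [OneMemClass.coe_one, one_mul]; exact B.algebraMap_mem a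
    have h1 := key _ ha 1 h1n hm
    have e : (⟨((1 : B) : F) * algebraMap A F a, hm⟩ : B) = algebraMap A B a := by
      apply Subtype.ext
      push_cast
      ring
    rw [e, AlgHom.commutes, map_one, mul_one] at h1
    simpa using h1

/-- **two-sided saturation** of the local ring `h62yO B 𝔫` from `QEP`. -/
theorem h63w_sat_of_QEP (hC : H26Chart B V₀ val) (hinj : Function.Injective (algebraMap A F))
    (hprime : 𝔫.IsPrime) {V : Subring F} (hVV₀ : ∀ x ∈ V, x ∈ V₀) (hBV : ∀ b ∈ B, b ∈ V) :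
    ∀ a : A, a ≠ 0 → ∀ f ∈ V, algebraMap A F a * f ∈ h62yO B 𝔫 hprime →
      f ∈ h62yO B 𝔫 hprime := by
  intro a ha f hf haf
  obtain ⟨s, hs, hsf⟩ := haf
  have ha' : algebraMap A F a ≠ 0 := fun h0 => ha (hinj (h0.trans (map_zero _).symm))
  have h1 : a • ((s : F) * f) ∈ B := by
    rw [Algebra.smul_def]
    have e : algebraMap A F a * ((s : F) * f) = (s : F) * (algebraMap A F a * f) := by ring
    rw [e]; exact hsf
  exact ⟨s, hs, hC.hQEP a ha' _ (hVV₀ _ (V.mul_mem (hBV _ s.2) hf)) h1⟩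

/-- in a valuation-like ring `W`: `x` a unit, `y ∈ 𝔪 W ⟹ x + y ≠ 0` and `(x + y)⁻¹ ∈ W`. -/
theorem h63w_add_inv_mem {W : Subring F} (hAW : ∀ a : A, algebraMap A F a ∈ W)
    (hWval : ∀ x ∈ W, x⁻¹ ∈ W ∨ ∃ m ∈ maximalIdeal A, ∃ y ∈ W, x = algebraMap A F m * y)
    (hnt : ∀ m ∈ maximalIdeal A, ∀ y ∈ W, algebraMap A F m * y ≠ 1)
    {x y : F} (hx : x ∈ W) (hx0 : x ≠ 0) (hxi : x⁻¹ ∈ W) (hy : y ∈ h82wM A W) :
    x + y ≠ 0 ∧ (x + y)⁻¹ ∈ W := by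
  have hnot : x + y ∉ h82wM A W := by
    intro h
    have h1 : x = (x + y) - y := by ring
    have h2 : x ∈ h82wM A W := by
      rw [h1]; exact h82w_M_sub hAW h hy
    exact h63w_unit_not_mem_M hnt hx0 hxi h2
  refine ⟨?_, ?_⟩
  · intro h0
    apply hnot
    rw [h0]; exact h82w_M_zero W
  · rcases hWval _ (W.add_mem hx (h82w_M_le hAW hy)) with h | ⟨m, hm, y', hy', e⟩
    · exact h
    · exact absurd ⟨m, hm, y', hy', e⟩ hnot

end Abs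

section AbsH0

variable {A : Type*} [CommRing A] [IsDomain A] [ValuationRing A]
  {F : Type*} [Field F] [Algebra A F]

/-- **C4 H0, abstract form with evaluations at the nodes** (no discreteness, no existence of
closed points): `h82w_h0_core` with `hdepth` discharged by an evaluation at the node `e`. -/
theorem h63w_h0_of_node_eval
    (W₁ W₂ : Subring F)
    (hA₁ : ∀ a : A, algebraMap A F a ∈ W₁) (hA₂ : ∀ a : A, algebraMap A F a ∈ W₂)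
    {P₁ P₂ E : Type*} (O₁ : P₁ → Subring F) (O₂ : P₂ → Subring F) (On : E → Subring F)
    (hO₁ : ∀ n, O₁ n ≤ W₁) (hO₂ : ∀ n, O₂ n ≤ W₂) (hOn : ∀ e, On e ≤ W₁ ⊓ W₂)
    (hAO₁ : ∀ n (a : A), algebraMap A F a ∈ O₁ n)
    (hAO₂ : ∀ n (a : A), algebraMap A F a ∈ O₂ n)
    (hAOn : ∀ e (a : A), algebraMap A F a ∈ On e)
    (sat₁ : ∀ n, ∀ a : A, a ≠ 0 → ∀ f ∈ W₁, algebraMap A F a * f ∈ O₁ n → f ∈ O₁ n)
    (sat₂ : ∀ n, ∀ a : A, a ≠ 0 → ∀ f ∈ W₂, algebraMap A F a * f ∈ O₂ n → f ∈ O₂ n)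
    (satn : ∀ e, ∀ a : A, a ≠ 0 → ∀ f ∈ W₁ ⊓ W₂, algebraMap A F a * f ∈ On e → f ∈ On e)
    (const₁ : ∀ f ∈ W₁, (∀ n, ∃ o ∈ O₁ n, f - o ∈ h82wM A W₁) →
      (∀ e, ∃ o ∈ On e, f - o ∈ h82wM A W₁) → ∃ a : A, f - algebraMap A F a ∈ h82wM A W₁)
    (const₂ : ∀ f ∈ W₂, (∀ n, ∃ o ∈ O₂ n, f - o ∈ h82wM A W₂) →
      (∀ e, ∃ o ∈ On e, f - o ∈ h82wM A W₂) → ∃ a : A, f - algebraMap A F a ∈ h82wM A W₂)
    (branch : ∀ e, ∀ o ∈ On e, ∀ a₁ a₂ : A, o - algebraMap A F a₁ ∈ h82wM A W₁ →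
      o - algebraMap A F a₂ ∈ h82wM A W₂ → a₁ - a₂ ∈ maximalIdeal A)
    -- the evaluations at the nodes, and the Gauss scalings
    (hev : ∀ e : E, ∃ ev : F → A,
      (∀ x ∈ On e, ∀ y ∈ On e, ev (x - y) = ev x - ev y) ∧
      (∀ a : A, ∀ x ∈ On e, ev (algebraMap A F a * x) = a * ev x) ∧
      (∀ a : A, ev (algebraMap A F a) = a))
    (hnt₁ : ∀ m ∈ maximalIdeal A, ∀ y ∈ W₁, algebraMap A F m * y ≠ 1)
    (hnt₂ : ∀ m ∈ maximalIdeal A, ∀ y ∈ W₂, algebraMap A F m * y ≠ 1)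
    (sc₁ : ∀ f ∈ W₁, f ≠ 0 → ∃ d : A, ∃ s ∈ W₁, s⁻¹ ∈ W₁ ∧ f = algebraMap A F d * s)
    (sc₂ : ∀ f ∈ W₂, f ≠ 0 → ∃ d : A, ∃ s ∈ W₂, s⁻¹ ∈ W₂ ∧ f = algebraMap A F d * s)
    -- the function
    (D₀ : A) (hD₀ : D₀ ≠ 0) (hD₀m : D₀ ∈ maximalIdeal A)
    (w : F) (hw : w - 1 ∈ h82wM A (W₁ ⊓ W₂))
    (Eu : F) (hEu₁ : Eu ∈ h82wM A W₁) (hEu₂ : Eu - 1 ∈ h82wM A W₂)
    (ψ : E → A)
    (hL1₁ : ∀ n : P₁, ∃ o ∈ O₁ n, ∃ z ∈ h82wM A W₁, w = o * (1 + algebraMap A F D₀ * z))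
    (hL1₂ : ∀ n : P₂, ∃ o ∈ O₂ n, ∃ z ∈ h82wM A W₂, w = o * (1 + algebraMap A F D₀ * z))
    (hL2 : ∀ e : E, ∃ o ∈ On e, ∃ z ∈ h82wM A (W₁ ⊓ W₂),
      w = o * (1 + algebraMap A F (ψ e) * algebraMap A F D₀ * Eu) *
        (1 + algebraMap A F D₀ * z)) :
    ∀ e e' : E, ψ e - ψ e' ∈ maximalIdeal A := by
  intro e₀ e₀'
  have hAV : ∀ a : A, algebraMap A F a ∈ W₁ ⊓ W₂ := fun a => ⟨hA₁ a, hA₂ a⟩
  have hwV : w ∈ W₁ ⊓ W₂ := by
    have h1 : w = (w - 1) + 1 := by ring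
    rw [h1]
    exact (W₁ ⊓ W₂).add_mem (h82w_M_le hAV hw) (W₁ ⊓ W₂).one_mem
  have hEuV : Eu ∈ W₁ ⊓ W₂ := by
    refine ⟨h82w_M_le hA₁ hEu₁, ?_⟩
    have := W₂.add_mem (h82w_M_le hA₂ hEu₂) W₂.one_mem
    simpa using this
  have hdepth : H82wDepth (W₁ ⊓ W₂) D₀ w := by
    obtain ⟨ev, hsub, hsmul, hcst⟩ := hev e₀
    refine h63w_depth_of_eval (W₁ ⊓ W₂) (W₁ ⊓ W₂) (On e₀) le_rfl (hOn e₀) hAV (hAOn e₀)
      (satn e₀) ev hsub hsmul hcst
      (h63w_scaleV W₁ W₂ hA₁ hA₂ hnt₁ hnt₂ sc₁ sc₂) D₀ w hwV ?_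
    obtain ⟨o, ho, z, hz, h⟩ := hL2 e₀
    have hzV : z ∈ W₁ ⊓ W₂ := h82w_M_le hAV hz
    refine ⟨o, ho, algebraMap A F (ψ e₀) * Eu + z +
      algebraMap A F (ψ e₀) * algebraMap A F D₀ * Eu * z, ?_, ?_⟩
    · exact (W₁ ⊓ W₂).add_mem ((W₁ ⊓ W₂).add_mem ((W₁ ⊓ W₂).mul_mem (hAV _) hEuV) hzV)
        ((W₁ ⊓ W₂).mul_mem ((W₁ ⊓ W₂).mul_mem ((W₁ ⊓ W₂).mul_mem (hAV _) (hAV _)) hEuV) hzV)
    · rw [h]; ring
  exact h82w_h0_core W₁ W₂ hA₁ hA₂ O₁ O₂ On hO₁ hO₂ hOn hAO₁ hAO₂ hAOn sat₁ sat₂ satn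
    const₁ const₂ branch D₀ hD₀ hD₀m w hw Eu hEu₁ hEu₂ ψ hL1₁ hL1₂ hL2 hdepth e₀ e₀'

end AbsH0

section Level

open Fermat.Agent.S37 Fermat.Agent.Red.GG Fermat.Agent.Red.GV
  Fermat.Agent.Red.GV.Soft Fermat.Agent.Red.Kron Fermat.Agent.Red.KR Fermat.Agent.Red.ModelO
  Fermat.Agent.S35

variable (A : ValuationSubring Kbar) (M : ℕ) {ℓ : ℕ} [NeZero M] [NeZero ℓ]
  (hℓ : ℓ.Prime) (hM : ¬ ℓ ∣ M) (hA : A.LiesOverPrime ℓ)
  (𝔫 : Ideal (chart (M * ℓ) A (jSS M ℓ))) (h𝔫 : 𝔫.IsMaximal)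

theorem h63w_cst_mem_soft (a : A) : algebraMap A (FF (M * ℓ)) a ∈ softV A (M * ℓ) :=
  (cst_mem_softV_iff A (M * ℓ) _).mpr a.2

theorem h63w_cst_mem_W0 (a : A) :
    algebraMap A (FF (M * ℓ)) a ∈ (h85cW0 A M ℓ hℓ hM hA).toSubring := by
  show kFricke M ℓ hℓ hM (algebraMap A (FF (M * ℓ)) a) ∈ softV A (M * ℓ)
  rw [h62y_kFricke_algebraMap]
  exact h63w_cst_mem_soft A M a

theorem h63w_chart_mem_W0 (b : chart (M * ℓ) A (jSS M ℓ)) :
    (b : FF (M * ℓ)) ∈ (h85cW0 A M ℓ hℓ hM hA).toSubring :=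
  h62i_mem_soft A M hℓ hM hA (h62i_w A M hℓ hM hA b)

include h𝔫 in
/-- a Gauss unit of both components in the maximal ideal of a node: `x + y`. -/
theorem h63w_node_unit (hnode : TorNodeAt A M ℓ hℓ hM hA (jSS M ℓ) 𝔫) :
    ∃ g ∈ 𝔫, (g : FF (M * ℓ)) ≠ 0 ∧ ((g : FF (M * ℓ)))⁻¹ ∈ ssV A M ℓ := by
  have hprime := h𝔫.isPrime
  obtain ⟨-, x, hx, y, hy, c, hc, a, ha0, hxy, -, hxW, hyW⟩ := hnode
  -- `a ∈ 𝔪_A`
  have ham : a ∈ maximalIdeal A := by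
    by_contra hne
    have hu : IsUnit a := IsLocalRing.notMem_maximalIdeal.mp hne
    have h1 : algebraMap A (chart (M * ℓ) A (jSS M ℓ)) a * c ∈ 𝔫 := by
      rw [← hxy]; exact 𝔫.mul_mem_left _ hy
    rcases hprime.mem_or_mem h1 with h | h
    · exact hprime.ne_top (Ideal.eq_top_of_isUnit_mem _ h (hu.map _))
    · exact hc h
  have hxyF : (x : FF (M * ℓ)) * (y : FF (M * ℓ)) =
      algebraMap A (FF (M * ℓ)) a * (c : FF (M * ℓ)) := by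
    have := congrArg (Subtype.val) hxy
    simpa using this
  have hx0 : (x : FF (M * ℓ)) ≠ 0 := by
    intro h0
    have hA₁ := h63w_cst_mem_soft (ℓ := ℓ) A M
    have : (x : FF (M * ℓ))⁻¹ * (x : FF (M * ℓ)) = 0 := by rw [h0, mul_zero]
    have hc0 : (c : FF (M * ℓ)) = 0 ∨ algebraMap A (FF (M * ℓ)) a = 0 := by
      have h2 : algebraMap A (FF (M * ℓ)) a * (c : FF (M * ℓ)) = 0 := by
        rw [← hxyF, h0, zero_mul]
      rcases mul_eq_zero.mp h2 with h | h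
      · exact Or.inr h
      · exact Or.inl h
    rcases hc0 with h | h
    · apply hc
      have : c = 0 := Subtype.ext h
      rw [this]; exact 𝔫.zero_mem
    · exact ha0 (algebraMap_injective_FF (M * ℓ) A (h.trans (map_zero _).symm))
  have hy0 : (y : FF (M * ℓ)) ≠ 0 := by
    intro h0
    have h2 : algebraMap A (FF (M * ℓ)) a * (c : FF (M * ℓ)) = 0 := by
      rw [← hxyF, h0, mul_zero]
    rcases mul_eq_zero.mp h2 with h | h
    · exact ha0 (algebraMap_injective_FF (M * ℓ) A (h.trans (map_zero _).symm))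
    · apply hc
      have : c = 0 := Subtype.ext h
      rw [this]; exact 𝔫.zero_mem
  -- `y ∈ 𝔪 W∞`, `x ∈ 𝔪 W₀`
  have hyM : (y : FF (M * ℓ)) ∈ h82wM A (softV A (M * ℓ)) := by
    refine ⟨a, ham, (c : FF (M * ℓ)) * (x : FF (M * ℓ))⁻¹,
      (softV A (M * ℓ)).mul_mem (h62i_mem_soft A M hℓ hM hA c) hxW, ?_⟩
    rw [← mul_assoc, ← hxyF]
    field_simp
  have hxM : (x : FF (M * ℓ)) ∈ h82wM A (h85cW0 A M ℓ hℓ hM hA).toSubring := by
    refine ⟨a, ham, (c : FF (M * ℓ)) * (y : FF (M * ℓ))⁻¹,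
      (h85cW0 A M ℓ hℓ hM hA).toSubring.mul_mem (h63w_chart_mem_W0 A M hℓ hM hA c) hyW, ?_⟩
    rw [← mul_assoc, ← hxyF]
    field_simp
  have h1 := h63w_add_inv_mem (h63w_cst_mem_soft A M) (h62y_Winf_val A hℓ hA (M * ℓ))
    (h62y_Winf_nt A (M * ℓ)) (h62i_mem_soft A M hℓ hM hA x) hx0 hxW hyM
  have h2 := h63w_add_inv_mem (h63w_cst_mem_W0 A M hℓ hM hA) (h62y_W0_val A M hℓ hM hA)
    (h62y_W0_nt A M hℓ hM hA) (h63w_chart_mem_W0 A M hℓ hM hA y) hy0 hyW hxM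
  refine ⟨x + y, 𝔫.add_mem hx hy, ?_, ?_⟩
  · have := h1.1
    simpa using this
  · have e : (((x + y : chart (M * ℓ) A (jSS M ℓ)) : FF (M * ℓ)))⁻¹ =
        ((x : FF (M * ℓ)) + (y : FF (M * ℓ)))⁻¹ := by push_cast; rfl
    rw [e]
    refine h63r_mem_ssV_of_soft hℓ hM hA h1.2 ?_
    have h3 : ((y : FF (M * ℓ)) + (x : FF (M * ℓ)))⁻¹ ∈
        (h85cW0 A M ℓ hℓ hM hA).toSubring := h2.2
    rw [add_comm] at h3
    exact h3

/-- **the evaluation at EVERY closed point of the special fibre of the finite chart.** -/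
theorem h63w_exists_ev_level (hm : mExt A M ℓ (jSS M ℓ) ≤ 𝔫)
    (hloc : TorSmoothAt A M ℓ (jSS M ℓ) 𝔫 ∨ TorNodeAt A M ℓ hℓ hM hA (jSS M ℓ) 𝔫) :
    ∃ ev : FF (M * ℓ) → A,
      (∀ x ∈ h62yO (chart (M * ℓ) A (jSS M ℓ)) 𝔫 h𝔫.isPrime,
        ∀ y ∈ h62yO (chart (M * ℓ) A (jSS M ℓ)) 𝔫 h𝔫.isPrime, ev (x - y) = ev x - ev y) ∧
      (∀ a : A, ∀ x ∈ h62yO (chart (M * ℓ) A (jSS M ℓ)) 𝔫 h𝔫.isPrime,
        ev (algebraMap A (FF (M * ℓ)) a * x) = a * ev x) ∧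
      (∀ a : A, ev (algebraMap A (FF (M * ℓ)) a) = a) := by
  have hC : H26Chart (chart (M * ℓ) A (jSS M ℓ)) (ssV A M ℓ) (chartVal (M * ℓ) (jSS M ℓ)) :=
    h85s_ifaceSSChart_fin A M ℓ hℓ hM hA
  have hg : ∃ g ∈ 𝔫, (g : FF (M * ℓ)) ≠ 0 ∧ ((g : FF (M * ℓ)))⁻¹ ∈ ssV A M ℓ := by
    rcases hloc with ⟨t', ht', ht0, htV, -⟩ | hnode
    · exact ⟨t', ht', ht0, htV⟩
    · exact h63w_node_unit A M hℓ hM hA 𝔫 h𝔫 hnode
  obtain ⟨g, hg, hg0, hgV⟩ := hg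
  obtain ⟨i, hi⟩ := h63w_exists_centred_of_unit hC h𝔫.isPrime hg hg0 hgV
  obtain ⟨φ, hφ, -⟩ := h85s_ifaceSSSection_of A M ℓ _ (h71_finite_fin' hℓ hM hA) i 𝔫 h𝔫 hm hi
  exact h63w_exists_ev_of_section h𝔫.isPrime hm hi φ hφ

/-- **(I4) at the level, from a node**: the exact depth dichotomy of `h82w_h0_core`
(`W₁ = W∞`, `W₂ = W₀`) for every `w ∈ V = W∞ ⊓ W₀` with the form `w = o (1 + D₀ T)`,
`o ∈ O_𝔫`, `T ∈ V`, at a node `𝔫` of the finite chart. -/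
theorem h63w_depth_level_node (hm : mExt A M ℓ (jSS M ℓ) ≤ 𝔫)
    (hnode : TorNodeAt A M ℓ hℓ hM hA (jSS M ℓ) 𝔫)
    (D₀ : A) (w : FF (M * ℓ))
    (hw : w ∈ softV A (M * ℓ) ⊓ (h85cW0 A M ℓ hℓ hM hA).toSubring)
    (hL : ∃ o ∈ h62yO (chart (M * ℓ) A (jSS M ℓ)) 𝔫 h𝔫.isPrime,
      ∃ T ∈ softV A (M * ℓ) ⊓ (h85cW0 A M ℓ hℓ hM hA).toSubring,
      w = o * (1 + algebraMap A (FF (M * ℓ)) D₀ * T)) :
    H82wDepth (softV A (M * ℓ) ⊓ (h85cW0 A M ℓ hℓ hM hA).toSubring) D₀ w := by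
  have hC : H26Chart (chart (M * ℓ) A (jSS M ℓ)) (ssV A M ℓ) (chartVal (M * ℓ) (jSS M ℓ)) :=
    h85s_ifaceSSChart_fin A M ℓ hℓ hM hA
  obtain ⟨ev, hsub, hsmul, hcst⟩ :=
    h63w_exists_ev_level A M hℓ hM hA 𝔫 h𝔫 hm (Or.inr hnode)
  have hAV : ∀ a : A, algebraMap A (FF (M * ℓ)) a ∈
      softV A (M * ℓ) ⊓ (h85cW0 A M ℓ hℓ hM hA).toSubring := fun a =>
    ⟨h63w_cst_mem_soft A M a, h63w_cst_mem_W0 A M hℓ hM hA a⟩
  have hBV : ∀ b ∈ chart (M * ℓ) A (jSS M ℓ),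
      b ∈ softV A (M * ℓ) ⊓ (h85cW0 A M ℓ hℓ hM hA).toSubring := fun b hb =>
    ⟨h62i_mem_soft A M hℓ hM hA ⟨b, hb⟩, h63w_chart_mem_W0 A M hℓ hM hA ⟨b, hb⟩⟩
  have hVV₀ : ∀ x ∈ softV A (M * ℓ) ⊓ (h85cW0 A M ℓ hℓ hM hA).toSubring, x ∈ ssV A M ℓ :=
    fun x hx => h63r_mem_ssV_of_soft hℓ hM hA hx.1 hx.2
  -- the local ring of a node lies in `V`
  have hOV : (h62yO (chart (M * ℓ) A (jSS M ℓ)) 𝔫 h𝔫.isPrime).toSubring ≤
      softV A (M * ℓ) ⊓ (h85cW0 A M ℓ hℓ hM hA).toSubring := by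
    intro f hf
    obtain ⟨s, hs, hsf⟩ := hf
    have hs0 : (s : FF (M * ℓ)) ≠ 0 := by
      intro h0
      apply hs
      have : s = 0 := Subtype.ext h0
      rw [this]; exact 𝔫.zero_mem
    have hs1 : (s : FF (M * ℓ))⁻¹ ∈ h85cWinf A M ℓ hℓ hA := by
      by_contra h
      exact hs (hnode.1.1 s h)
    have hs2 : (s : FF (M * ℓ))⁻¹ ∈ h85cW0 A M ℓ hℓ hM hA := by
      by_contra h
      exact hs (hnode.1.2 s h)
    have e : f = (s : FF (M * ℓ))⁻¹ * ((s : FF (M * ℓ)) * f) := by field_simp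
    rw [e]
    exact (softV A (M * ℓ) ⊓ (h85cW0 A M ℓ hℓ hM hA).toSubring).mul_mem ⟨hs1, hs2⟩
      (hBV _ hsf)
  exact h63w_depth_of_eval _ _ (h62yO (chart (M * ℓ) A (jSS M ℓ)) 𝔫 h𝔫.isPrime).toSubring
    le_rfl hOV hAV
    (fun a => (h62yO (chart (M * ℓ) A (jSS M ℓ)) 𝔫 h𝔫.isPrime).algebraMap_mem a)
    (h63w_sat_of_QEP hC (algebraMap_injective_FF (M * ℓ) A) h𝔫.isPrime hVV₀ hBV)
    ev hsub hsmul hcst (h63w_scaleV_level A M hℓ hM hA) D₀ w hw hL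

end Level

end Fermat.Agent.P7
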