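import Fermat.Agent.P6.H88NodeRigid
import Fermat.Agent.P6.H62PuritySm
import Fermat.Agent.P7.H90SlopeLevel
import Fermat.Agent.P7.H20NodeThick

/-!
# P7 (wave 7, S40), block (5b), leaf C4 (helper67): the local ring at a node

Level instances of the hypotheses NODE and SAT (at a node) of the global `H⁰` argument
(finding 1353): the local ring `O_e = h62yO B 𝔫` of the chart at a crossing point `𝔫` of the two
components is a node datum `P6.H88nNode` (helper88, `P6/H88NodeRigid.lean`) for the two Gauss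
rings `W∞`, `W₀`:

* `h67r_node` : abstract bridge, in the vocabulary of `S35/H13TorNode.lean` /
  `P7/H90Slope.lean` (chart axioms `H26Chart B V v`, `V = W∞ ∩ W₀`, a prime `𝔫` through which
  both components pass, node coordinates `x y = a c`, `c ∉ 𝔫`):
  `H88nNode (h62yO B 𝔫) W∞ W₀ x (y / c) a`.
  [`hsat` is the `q`-expansion principle `hQEP` of the chart, `hloc` is `B ∩ 𝔪_A W ⊆ 𝔫`.]
* `h67r_node_level` : the instance at every crossing point of the finite chart `jSS M ℓ` of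
  level `M ℓ` (binders of `h90s_node_normal_level`).
* `h67r_sat`, `h67r_branch` : the two consequences in the form used by the `H⁰` argument:
  saturation of `O_e` in `W∞ ∩ W₀`, and equality modulo `π` of the two branch values of an
  element of `O_e + π (W∞ ∩ W₀)` (landed `h88n_rigid`, `K = 0`).
-/

set_option autoImplicit false
set_option linter.unusedSectionVars false
set_option linter.unusedVariables false
set_option linter.style.haveILetI false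

open AlgebraicCurve ModularCurve WithZero IsLocalRing

noncomputable section

namespace Fermat.Agent.P7

open Fermat.Agent.S37 Fermat.Agent.Red Fermat.Agent.Red.GG Fermat.Agent.Red.GV
  Fermat.Agent.Red.GV.Soft Fermat.Agent.Red.Kron Fermat.Agent.Red.ModelO Fermat.Agent.LGC
  Fermat.Agent.S35 Fermat.Agent.P6

section Abstract

variable {A : Type*} [CommRing A] [IsDomain A] [ValuationRing A]
  {F : Type*} [Field F] [Algebra A F]
  {B : Subalgebra A F} {V : Subring F} {ι : Type*} {v : ι → Valuation F ℤᵐ⁰}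

/-- **the local ring of the chart at a crossing point is a node datum.** -/
theorem h67r_node (hC : H26Chart B V v) (hAF : Function.Injective (algebraMap A F))
    (Winf W0 : Subring F)
    (hVWinf : ∀ x ∈ V, x ∈ Winf) (hVW0 : ∀ x ∈ V, x ∈ W0)
    (hWV : ∀ x : F, x ∈ Winf → x ∈ W0 → x ∈ V)
    (hntinf : ∀ π ∈ maximalIdeal A, ∀ x ∈ Winf, algebraMap A F π * x ≠ 1)
    (hnt0 : ∀ π ∈ maximalIdeal A, ∀ x ∈ W0, algebraMap A F π * x ≠ 1)
    (𝔫 : Ideal B) [h𝔫 : 𝔫.IsPrime]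
    (hninf : ∀ b : B, b ∉ 𝔫 → ((b : F))⁻¹ ∈ Winf)
    (hn0 : ∀ b : B, b ∉ 𝔫 → ((b : F))⁻¹ ∈ W0)
    (x y c : B) (hx : x ∈ 𝔫) (hy : y ∈ 𝔫) (hc : c ∉ 𝔫) (a : A) (ha : a ≠ 0)
    (hxy : x * y = algebraMap A B a * c)
    (hxinf : ((x : F))⁻¹ ∈ Winf) (hy0 : ((y : F))⁻¹ ∈ W0) :
    H88nNode (h62yO B 𝔫 h𝔫).toSubring Winf W0 (x : F) ((y : F) * ((c : F))⁻¹) a := by
  classical
  have hBinf : ∀ b : B, (b : F) ∈ Winf := fun b => hVWinf _ (hC.hBV _ b.2)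
  have hB0 : ∀ b : B, (b : F) ∈ W0 := fun b => hVW0 _ (hC.hBV _ b.2)
  have hne : ∀ s : B, s ∉ 𝔫 → (s : F) ≠ 0 := by
    intro s hs h0
    apply hs
    have : s = 0 := Subtype.ext h0
    rw [this]; exact 𝔫.zero_mem
  have hc0 : (c : F) ≠ 0 := hne c hc
  have hxyF : (x : F) * (y : F) = algebraMap A F a * (c : F) := by
    have := congrArg (Subtype.val) hxy
    simpa using this
  -- `a` is not a unit
  have ham : a ∈ maximalIdeal A := by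
    rw [mem_maximalIdeal, mem_nonunits_iff]
    intro hu
    have h1 : algebraMap A B a * c ∈ 𝔫 := by rw [← hxy]; exact 𝔫.mul_mem_right _ hx
    rcases h𝔫.mem_or_mem h1 with h2 | h2
    · have hu' : IsUnit (algebraMap A B a) := hu.map _
      exact h𝔫.ne_top (Ideal.eq_top_of_isUnit_mem _ h2 hu')
    · exact hc h2
  -- `O ⊆ W`
  have hO : ∀ (W : Subring F), (∀ b : B, (b : F) ∈ W) → (∀ b : B, b ∉ 𝔫 → ((b : F))⁻¹ ∈ W) →
      ∀ f ∈ (h62yO B 𝔫 h𝔫).toSubring, f ∈ W := by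
    intro W hBW hnW f hf
    obtain ⟨s, hs, hsf⟩ := hf
    have e : f = ((s : F))⁻¹ * ((s : F) * f) := by
      rw [← mul_assoc, inv_mul_cancel₀ (hne s hs), one_mul]
    rw [e]
    exact W.mul_mem (hnW s hs) (hBW ⟨_, hsf⟩)
  -- `B ∩ 𝔪 W ⊆ 𝔫`, in the local ring
  have hnum : ∀ (W : Subring F), (∀ π ∈ maximalIdeal A, ∀ x ∈ W, algebraMap A F π * x ≠ 1) →
      (∀ b : B, (b : F) ∈ W) → (∀ b : B, b ∉ 𝔫 → ((b : F))⁻¹ ∈ W) →
      ∀ (e : F) (s : B), (hse : (s : F) * e ∈ B) → e ∈ h88nM A W →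
        (⟨(s : F) * e, hse⟩ : B) ∈ 𝔫 := by
    intro W hnt hBW hnW e s hse he
    obtain ⟨d, hd, z, hz, rfl⟩ := he
    refine h13x_mem_of_mod W hnt 𝔫 hnW d hd ⟨_, hse⟩ ((s : F) * z) (W.mul_mem (hBW s) hz) ?_
    show (s : F) * (algebraMap A F d * z) = algebraMap A F d * ((s : F) * z)
    ring
  refine
    { hAF := hAF
      hAO := fun k => (h62yO B 𝔫 h𝔫).algebraMap_mem k
      hO₁ := hO Winf hBinf hninf
      hO₂ := hO W0 hB0 hn0
      hsat := ?_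
      hloc := ?_
      hx := h62y_B_le_O h𝔫 x.2
      hy := ⟨c, hc, ?_⟩
      hxy := ?_
      ha := ham
      ha0 := ha
      hxW := hxinf
      hyW := ?_ }
  · -- saturation
    intro δ hδ f hf1 hf2 hδf
    obtain ⟨s, hs, hsf⟩ := hδf
    have hδF : algebraMap A F δ ≠ 0 := fun h => hδ (hAF (by rw [h, map_zero]))
    have hsfV : (s : F) * f ∈ V := V.mul_mem (hC.hBV _ s.2) (hWV f hf1 hf2)
    have h1 : δ • ((s : F) * f) ∈ B := by
      have e : δ • ((s : F) * f) = (s : F) * (algebraMap A F δ * f) := by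
        rw [Algebra.smul_def]; ring
      rw [e]; exact hsf
    exact ⟨s, hs, hC.hQEP δ hδF _ hsfV h1⟩
  · -- locality
    intro e₁ he₁ e₂ he₂ hm₁ hm₂ hsum
    obtain ⟨s₁, hs₁, hb₁⟩ := he₁
    obtain ⟨s₂, hs₂, hb₂⟩ := he₂
    have h1 := hnum Winf hntinf hBinf hninf e₁ s₁ hb₁ hm₁
    have h2 := hnum W0 hnt0 hB0 hn0 e₂ s₂ hb₂ hm₂
    have h3 : s₂ * (⟨(s₁ : F) * e₁, hb₁⟩ : B) + s₁ * (⟨(s₂ : F) * e₂, hb₂⟩ : B) ∈ 𝔫 :=
      𝔫.add_mem (𝔫.mul_mem_left _ h1) (𝔫.mul_mem_left _ h2)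
    have h4 : s₂ * (⟨(s₁ : F) * e₁, hb₁⟩ : B) + s₁ * (⟨(s₂ : F) * e₂, hb₂⟩ : B) = s₁ * s₂ := by
      apply Subtype.ext
      show (s₂ : F) * ((s₁ : F) * e₁) + (s₁ : F) * ((s₂ : F) * e₂) = (s₁ : F) * (s₂ : F)
      have : (s₂ : F) * ((s₁ : F) * e₁) + (s₁ : F) * ((s₂ : F) * e₂) =
          (s₁ : F) * (s₂ : F) * (e₁ + e₂) := by ring
      rw [this, hsum, mul_one]
    rw [h4] at h3
    exact (h𝔫.mem_or_mem h3).elim hs₁ hs₂
  · -- `y / c ∈ O`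
    have e : (c : F) * ((y : F) * ((c : F))⁻¹) = (y : F) := by
      field_simp
    rw [e]; exact y.2
  · -- `x (y / c) = a`
    rw [← mul_assoc, hxyF, mul_assoc, mul_inv_cancel₀ hc0, mul_one]
  · -- `(y / c)⁻¹ ∈ W₀`
    rw [mul_inv, inv_inv]
    exact W0.mul_mem hy0 (hB0 c)

variable {O W₁ W₂ : Subring F} {x y : F} {a : A}

/-- **SAT at a node**: `O_e` is saturated in `W₁ ∩ W₂`. -/
theorem h67r_sat (hN : H88nNode O W₁ W₂ x y a) {δ : A} (hδ : δ ≠ 0) {f : F}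
    (hf₁ : f ∈ W₁) (hf₂ : f ∈ W₂) (h : algebraMap A F δ * f ∈ O) : f ∈ O :=
  hN.hsat δ hδ f hf₁ hf₂ h

/-- **NODE**: the two branch values of an element of `O_e + π (W₁ ∩ W₂)` agree modulo `π`. -/
theorem h67r_branch (hN : H88nNode O W₁ W₂ x y a) (π : A) (c₁ c₂ : A) (G o : F) (ho : o ∈ O)
    (hG₁ : G - o ∈ h88nMul π W₁) (hG₂ : G - o ∈ h88nMul π W₂)
    (h₁ : G - algebraMap A F c₁ ∈ h88nMul π W₁)
    (h₂ : G - algebraMap A F c₂ ∈ h88nMul π W₂) : π ∣ c₁ - c₂ := by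
  refine (h88n_rigid hN π 0 c₁ c₂ (fun _ => 0) (fun _ => 0) G o ho hG₁ hG₂ ?_ ?_).1
  · simpa using h₁
  · simpa using h₂

/-- **NODE**, for an element of `O_e` itself. -/
theorem h67r_branch_mem (hN : H88nNode O W₁ W₂ x y a) (π : A) (c₁ c₂ : A) (o : F) (ho : o ∈ O)
    (h₁ : o - algebraMap A F c₁ ∈ h88nMul π W₁)
    (h₂ : o - algebraMap A F c₂ ∈ h88nMul π W₂) : π ∣ c₁ - c₂ :=
  h67r_branch hN π c₁ c₂ o o ho (by rw [sub_self]; exact h88nMul_zero)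
    (by rw [sub_self]; exact h88nMul_zero) h₁ h₂

end Abstract

section Level

variable (A : ValuationSubring Kbar) (M : ℕ) {ℓ : ℕ} [NeZero M] [NeZero ℓ]

/-- **the node datum at a crossing point of the finite chart of level `M ℓ`**, explicit
coordinates. -/
theorem h67r_node_level (hℓ : ℓ.Prime) (hM : ¬ ℓ ∣ M) (hA : A.LiesOverPrime ℓ)
    (𝔫 : Ideal (chart (M * ℓ) A (jSS M ℓ))) (h𝔫 : 𝔫.IsPrime)
    (hboth : TorOnBoth A M ℓ hℓ hM hA (jSS M ℓ) 𝔫)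
    (x y c : chart (M * ℓ) A (jSS M ℓ)) (hx : x ∈ 𝔫) (hy : y ∈ 𝔫) (hc : c ∉ 𝔫)
    (a : A) (ha : a ≠ 0)
    (hxy : x * y = algebraMap A (chart (M * ℓ) A (jSS M ℓ)) a * c)
    (hxinf : ((x : FF (M * ℓ)))⁻¹ ∈ h85cWinf A M ℓ hℓ hA)
    (hy0 : ((y : FF (M * ℓ)))⁻¹ ∈ h85cW0 A M ℓ hℓ hM hA) :
    H88nNode (h62yO (chart (M * ℓ) A (jSS M ℓ)) 𝔫 h𝔫).toSubring
      (h85cWinf A M ℓ hℓ hA).toSubring (h85cW0 A M ℓ hℓ hM hA).toSubring
      (x : FF (M * ℓ)) ((y : FF (M * ℓ)) * ((c : FF (M * ℓ)))⁻¹) a := by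
  classical
  have hC₀ : IfaceSSChart A M ℓ (jSS M ℓ) := h85s_ifaceSSChart_fin A M ℓ hℓ hM hA
  have hAF := algebraMap_injective_FF (M * ℓ) A
  obtain ⟨hbi, hb0⟩ := hboth
  exact h67r_node hC₀ hAF
    (h85cWinf A M ℓ hℓ hA).toSubring (h85cW0 A M ℓ hℓ hM hA).toSubring
    (fun x hx => h85c_ssV_le_Winf A M ℓ hℓ hA hx)
    (fun x hx => h85c_ssV_le_W0 A M ℓ hℓ hM hA hx)
    (h85c_hWV A M ℓ hℓ hM hA)
    (fun π hπ x hx => h86t_Winf_nt A M ℓ hℓ hA π hπ x hx)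
    (fun π hπ x hx => h86t_W0_nt A M ℓ hℓ hM hA π hπ x hx)
    𝔫
    (fun b hb => by_contra fun h => hb (hbi b h))
    (fun b hb => by_contra fun h => hb (hb0 b h))
    x y c hx hy hc a ha hxy hxinf hy0

/-- **the node datum at a `TorNodeAt` point of the finite chart of level `M ℓ`.** -/
theorem h67r_node_of_torNodeAt (hℓ : ℓ.Prime) (hM : ¬ ℓ ∣ M) (hA : A.LiesOverPrime ℓ)
    (𝔫 : Ideal (chart (M * ℓ) A (jSS M ℓ))) (h𝔫 : 𝔫.IsPrime)
    (h : TorNodeAt A M ℓ hℓ hM hA (jSS M ℓ) 𝔫) :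
    ∃ (x y : FF (M * ℓ)) (a : A),
      H88nNode (h62yO (chart (M * ℓ) A (jSS M ℓ)) 𝔫 h𝔫).toSubring
        (h85cWinf A M ℓ hℓ hA).toSubring (h85cW0 A M ℓ hℓ hM hA).toSubring x y a := by
  obtain ⟨hboth, x, hx, y, hy, c, hc, a, ha, hxy, -, hxW, hyW⟩ := h
  exact ⟨_, _, a, h67r_node_level A M hℓ hM hA 𝔫 h𝔫 hboth x y c hx hy hc a ha hxy hxW hyW⟩

/-- **the thick node datum** (`a = ℓ`) at a `H20nTorNodeAtP` point. -/
theorem h67r_node_of_thick (hℓ : ℓ.Prime) (hM : ¬ ℓ ∣ M) (hA : A.LiesOverPrime ℓ)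
    (𝔫 : Ideal (chart (M * ℓ) A (jSS M ℓ))) (h𝔫 : 𝔫.IsPrime)
    (h : H20nTorNodeAtP A M hℓ hM hA (jSS M ℓ) 𝔫) :
    ∃ x y : FF (M * ℓ),
      H88nNode (h62yO (chart (M * ℓ) A (jSS M ℓ)) 𝔫 h𝔫).toSubring
        (h85cWinf A M ℓ hℓ hA).toSubring (h85cW0 A M ℓ hℓ hM hA).toSubring x y
        ((ℓ : ℕ) : A) := by
  obtain ⟨hboth, x, hx, y, hy, c, hc, hxy, -, hxW, hyW⟩ := h
  exact ⟨_, _, h67r_node_level A M hℓ hM hA 𝔫 h𝔫 hboth x y c hx hy hc _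
    (h20n_natCast_ne_zero A ℓ) hxy hxW hyW⟩

end Level

end Fermat.Agent.P7
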