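import Fermat.Agent.P7.H60ClassInf
import Fermat.Agent.P5.H40SFConst
import Fermat.Agent.P5.H68RROneStep
import Fermat.Agent.P7.H82H0Abs
import Fermat.Agent.P7.H85Slope
import Fermat.Agent.P7.H67NodeRing

/-!
# P7 (wave 7, S40), block (5b), leaf C4 (helper67): GLOB0 at the level `M ℓ`

"A function which is regular at every closed point of a component of the special fibre is
constant on it", for the two Gauss valuation rings `W∞ = softV A (M ℓ)` and `W₀ = w⁻¹ W∞` of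
level `M ℓ` (`ℓ ∤ M`, `auxLevel ℓ ∣ M`, `A` a valuation subring of `ℚ̄` over `ℓ`).  The residue
field of `W∞` is the function field `F~ = h13sFt A M` of the special fibre of level `M`
(RES-INFTY, helper26/helper60: `h60bRedInf`), whose functions without poles are constant
(P5, `h40c_const_sf`).

* `h67g_nonunit_mem_M` : the kernel of the reduction at `W∞` is `𝔪_A W∞`.
* `h67g_const_inf` : `f ∈ W∞` whose reduction lies in `O_Q` for every place `Q` of `F~`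
  is constant modulo `𝔪_A W∞`.
* `h67g_const_inf_of_local` : the same from local data `f ∈ O_i + 𝔪_A W∞` for a family of
  subrings `O_i` covering the places of `F~` (`H67gCover`): the hypothesis `const₁` of
  `h82w_h0_core` (helper82).
* `h67g_cover_of_centred` : a closed point of the finite chart at which `Q` is centred
  (`H85wCentred`, helper85) covers `Q`.
* `h67g_const_zero`, `h67g_const_zero_of_local` : the same at `W₀`, by the Fricke involution.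
-/

set_option autoImplicit false
set_option linter.unusedSectionVars false
set_option linter.unusedVariables false
set_option linter.style.longLine false
set_option linter.style.haveILetI false
set_option synthInstance.maxHeartbeats 400000

open AlgebraicCurve ModularCurve WithZero IsLocalRing

noncomputable section

namespace Fermat.Agent.P7

open Fermat.Agent.S37 Fermat.Agent.Red Fermat.Agent.Red.GG Fermat.Agent.Red.GV
  Fermat.Agent.Red.GV.Soft Fermat.Agent.Red.Kron Fermat.Agent.LGC Fermat.Agent.S35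
  Fermat.Agent.P5 Fermat.Agent.P6

variable {M : ℕ} [NeZero M] {A : ValuationSubring Kbar} {ℓ : ℕ} [NeZero ℓ]

/-- the constants of `A` in the function field. -/
theorem h67g_algebraMap_eq (N : ℕ) (a : A) :
    algebraMap A (FF N) a = cst N (a : Kbar) := rfl

/-- **the kernel of the reduction at `W∞` is `𝔪_A W∞`.** -/
theorem h67g_nonunit_mem_M (hℓ : ℓ.Prime) (hA : A.LiesOverPrime ℓ) (N : ℕ) [NeZero N]
    (g : softV A N) (hg : softR A N g = 0) :
    (g : FF N) ∈ h82wM A (softV A N) := by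
  by_cases hg0 : (g : FF N) = 0
  · rw [hg0]; exact h82w_M_zero _
  obtain ⟨c, hc, hu, hui⟩ := exists_cst_mul_unit_soft A N hℓ hA (g : FF N) hg0
  have hgi : (g : FF N)⁻¹ ∉ softV A N := by
    rcases (softR_eq_zero_iff A N g).mp hg with h | h
    · exact absurd h hg0
    · exact h
  -- `c ∉ A`
  have hcA : c ∉ A := by
    intro h
    apply hgi
    have hcs : cst N c ∈ softV A N := (cst_mem_softV_iff A N c).mpr h
    have e : (g : FF N)⁻¹ = cst N c * (cst N c * (g : FF N))⁻¹ := by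
      have hc0 : cst N c ≠ 0 := by
        simpa only [cst, ne_eq, map_eq_zero] using hc
      rw [mul_inv, ← mul_assoc, mul_inv_cancel₀ hc0, one_mul]
    rw [e]
    exact (softV A N).mul_mem hcs hui
  have hci : c⁻¹ ∈ A := (A.mem_or_inv_mem c).resolve_left hcA
  have hcn : c⁻¹ ∈ A.nonunits := by
    rw [ValuationSubring.mem_nonunits_iff]
    have h1 : ¬ A.valuation c ≤ 1 := fun h => hcA ((A.valuation_le_one_iff c).mp h)
    rw [not_le] at h1
    rw [map_inv₀]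
    exact inv_lt_one_of_one_lt₀ h1
  refine ⟨⟨c⁻¹, hci⟩, (GG.mem_maximalIdeal_iff A ⟨c⁻¹, hci⟩).mpr hcn, _, hu, ?_⟩
  rw [h67g_algebraMap_eq]
  show (g : FF N) = cst N c⁻¹ * (cst N c * (g : FF N))
  have hc0 : cst N c ≠ 0 := by
    simpa only [cst, ne_eq, map_eq_zero] using hc
  have e : cst N c⁻¹ = (cst N c)⁻¹ := map_inv₀ (algebraMap Kbar (FF N)) c
  rw [e, ← mul_assoc, inv_mul_cancel₀ hc0, one_mul]

/-- the reduction at `W∞` kills `𝔪_A W∞`. -/
theorem h67g_red_M (hℓ : ℓ.Prime) (hM : ¬ ℓ ∣ M) (hA : A.LiesOverPrime ℓ)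
    {z : FF (M * ℓ)} (hz : z ∈ h82wM A (softV A (M * ℓ))) (hzV : z ∈ softV A (M * ℓ)) :
    h60bRedInf hℓ hM hA ⟨z, hzV⟩ = 0 := by
  obtain ⟨m, hm, y, hy, rfl⟩ := hz
  have hmn : (m : Kbar) ∈ A.nonunits := (GG.mem_maximalIdeal_iff A m).mp hm
  have hc : cst (M * ℓ) (m : Kbar) ∈ softV A (M * ℓ) :=
    (cst_mem_softV_iff A (M * ℓ) _).mpr m.2
  have e : (⟨algebraMap A (FF (M * ℓ)) m * y, hzV⟩ : softV A (M * ℓ)) =
      ⟨cst (M * ℓ) (m : Kbar), hc⟩ * ⟨y, hy⟩ := rfl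
  rw [e, map_mul, (h60b_redInf_eq_zero_iff hℓ hM hA _).mpr
    (softR_cst_of_nonunit A (M * ℓ) _ hmn hc), zero_mul]

/-- `𝔪_A W ⊆ W`. -/
theorem h67g_M_le {F : Type*} [Field F] [Algebra A F] {W : Subring F}
    (hAW : ∀ a : A, algebraMap A F a ∈ W) {z : F} (hz : z ∈ h82wM A W) : z ∈ W := by
  obtain ⟨m, -, y, hy, rfl⟩ := hz
  exact W.mul_mem (hAW m) hy

theorem h67g_cst_mem (N : ℕ) (a : A) : algebraMap A (FF N) a ∈ softV A N :=
  (cst_mem_softV_iff A N _).mpr a.2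

/-- **GLOB0 at `W∞`**: a function of `W∞` whose reduction has no pole is constant modulo
`𝔪_A W∞`. -/
theorem h67g_const_inf (hℓ : ℓ.Prime) (hM : ¬ ℓ ∣ M) (haux : auxLevel ℓ ∣ M)
    (hA : A.LiesOverPrime ℓ) (f : FF (M * ℓ)) (hf : f ∈ softV A (M * ℓ))
    (hreg : ∀ Q : Place (h13sK A) (h13sFt A M),
      h60bRedInf hℓ hM hA ⟨f, hf⟩ ∈ Q.toValuationSubring) :
    ∃ a : A, f - algebraMap A (FF (M * ℓ)) a ∈ h82wM A (softV A (M * ℓ)) := by
  obtain ⟨c, hc⟩ := h40c_const_sf A M hℓ hM haux hA (h60bRedInf hℓ hM hA ⟨f, hf⟩)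
    (fun Q => h68r_ord_nonneg_of_mem Q (hreg Q))
  obtain ⟨a, rfl⟩ := IsLocalRing.residue_surjective (R := A) c
  refine ⟨a, ?_⟩
  have hcs : cst (M * ℓ) (a : Kbar) ∈ softV A (M * ℓ) := h67g_cst_mem (M * ℓ) a
  have hg : f - algebraMap A (FF (M * ℓ)) a ∈ softV A (M * ℓ) :=
    (softV A (M * ℓ)).sub_mem hf hcs
  have e : (⟨f - algebraMap A (FF (M * ℓ)) a, hg⟩ : softV A (M * ℓ)) =
      ⟨f, hf⟩ - ⟨cst (M * ℓ) (a : Kbar), hcs⟩ := rfl
  have h0 : h60bRedInf hℓ hM hA ⟨f - algebraMap A (FF (M * ℓ)) a, hg⟩ = 0 := by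
    rw [e, map_sub, h60b_redInf_cst hℓ hM hA a hcs, sub_eq_zero]
    exact hc.symm
  exact h67g_nonunit_mem_M hℓ hA (M * ℓ) ⟨_, hg⟩
    ((h60b_redInf_eq_zero_iff hℓ hM hA _).mp h0)

/-- the family `O` of subrings covers the places of the special fibre: every place `Q` of
`F~` has an index `i` such that the reduction at `W∞` maps `O i ∩ W∞` into `O_Q`. -/
def H67gCover (hℓ : ℓ.Prime) (hM : ¬ ℓ ∣ M) (hA : A.LiesOverPrime ℓ)
    {P : Type*} (O : P → Subring (FF (M * ℓ))) : Prop :=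
  ∀ Q : Place (h13sK A) (h13sFt A M), ∃ i : P, ∀ x ∈ O i, ∀ hx : x ∈ softV A (M * ℓ),
    h60bRedInf hℓ hM hA ⟨x, hx⟩ ∈ Q.toValuationSubring

/-- **GLOB0 at `W∞`, local form** (the hypothesis `const₁` of `h82w_h0_core`). -/
theorem h67g_const_inf_of_local (hℓ : ℓ.Prime) (hM : ¬ ℓ ∣ M) (haux : auxLevel ℓ ∣ M)
    (hA : A.LiesOverPrime ℓ) {P : Type*} (O : P → Subring (FF (M * ℓ)))
    (hcov : H67gCover hℓ hM hA O)
    (f : FF (M * ℓ)) (hf : f ∈ softV A (M * ℓ))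
    (hloc : ∀ i, ∃ o ∈ O i, f - o ∈ h82wM A (softV A (M * ℓ))) :
    ∃ a : A, f - algebraMap A (FF (M * ℓ)) a ∈ h82wM A (softV A (M * ℓ)) := by
  refine h67g_const_inf hℓ hM haux hA f hf fun Q => ?_
  obtain ⟨i, hi⟩ := hcov Q
  obtain ⟨o, ho, hfo⟩ := hloc i
  have hzV : f - o ∈ softV A (M * ℓ) := h67g_M_le (fun a => h67g_cst_mem (M * ℓ) a) hfo
  have hoV : o ∈ softV A (M * ℓ) := by
    have : o = f - (f - o) := by ring
    rw [this]; exact (softV A (M * ℓ)).sub_mem hf hzV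
  have e : (⟨f, hf⟩ : softV A (M * ℓ)) = ⟨o, hoV⟩ + ⟨f - o, hzV⟩ :=
    Subtype.ext (by simp)
  rw [e, map_add, h67g_red_M hℓ hM hA hfo hzV, add_zero]
  exact hi o ho hoV

/-- a closed point of the finite chart at which the place `Q` is centred covers `Q`. -/
theorem h67g_cover_of_centred (hℓ : ℓ.Prime) (hM : ¬ ℓ ∣ M) (hA : A.LiesOverPrime ℓ)
    (𝔫 : Ideal (chart (M * ℓ) A (jSS M ℓ))) (h𝔫 : 𝔫.IsMaximal)
    (Q : Place (h13sK A) (h13sFt A M))
    (hPinf : h62i_Pinf A M hℓ hM hA ≤ 𝔫) (hQ : H85wCentred A M ℓ Q 𝔫)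
    (x : FF (M * ℓ))
    (hx : x ∈ (h62yO (chart (M * ℓ) A (jSS M ℓ)) 𝔫 h𝔫.isPrime).toSubring)
    (hxV : x ∈ softV A (M * ℓ)) :
    h60bRedInf hℓ hM hA ⟨x, hxV⟩ ∈ Q.toValuationSubring := by
  obtain ⟨y, hy, hyQ⟩ := h85w_local_mem hℓ hM hA 𝔫 h𝔫 Q hPinf hQ hx hxV
  have e : h60bRedInf hℓ hM hA ⟨x, hxV⟩ = y := by
    apply h60q_incl_injective A M
    rw [h60b_incl_redInf, hy]
    rfl
  rw [e]; exact hyQ

/-! ### The component `W₀`, by the Fricke involution -/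

/-- the Fricke involution maps `𝔪_A W∞` onto `𝔪_A W₀`. -/
theorem h67g_fricke_M (hℓ : ℓ.Prime) (hM : ¬ ℓ ∣ M) (hA : A.LiesOverPrime ℓ)
    {z : FF (M * ℓ)} (hz : kFricke M ℓ hℓ hM z ∈ h82wM A (softV A (M * ℓ))) :
    z ∈ h82wM A (h85cW0 A M ℓ hℓ hM hA).toSubring := by
  obtain ⟨m, hm, y, hy, h⟩ := hz
  refine ⟨m, hm, kFricke M ℓ hℓ hM y, ?_, ?_⟩
  · show kFricke M ℓ hℓ hM (kFricke M ℓ hℓ hM y) ∈ softV A (M * ℓ)
    rw [kFricke_kFricke]; exact hy
  · have h1 := congrArg (kFricke M ℓ hℓ hM) h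
    rw [kFricke_kFricke, map_mul, h67g_algebraMap_eq, kFricke_cst] at h1
    rw [h67g_algebraMap_eq]
    exact h1

/-- **GLOB0 at `W₀`**: a function of `W₀` such that the reduction of `w f` has no pole is
constant modulo `𝔪_A W₀`. -/
theorem h67g_const_zero (hℓ : ℓ.Prime) (hM : ¬ ℓ ∣ M) (haux : auxLevel ℓ ∣ M)
    (hA : A.LiesOverPrime ℓ) (f : FF (M * ℓ))
    (hf : kFricke M ℓ hℓ hM f ∈ softV A (M * ℓ))
    (hreg : ∀ Q : Place (h13sK A) (h13sFt A M),
      h60bRedInf hℓ hM hA ⟨kFricke M ℓ hℓ hM f, hf⟩ ∈ Q.toValuationSubring) :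
    ∃ a : A, f - algebraMap A (FF (M * ℓ)) a ∈
      h82wM A (h85cW0 A M ℓ hℓ hM hA).toSubring := by
  obtain ⟨a, ha⟩ := h67g_const_inf hℓ hM haux hA _ hf hreg
  refine ⟨a, h67g_fricke_M hℓ hM hA ?_⟩
  rw [map_sub, h67g_algebraMap_eq, kFricke_cst]
  rw [h67g_algebraMap_eq] at ha
  exact ha

/-- **GLOB0 at `W₀`, local form** (the hypothesis `const₂` of `h82w_h0_core`): the family
`O` of subrings is such that the Fricke images `w (O i)` cover the places. -/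
theorem h67g_const_zero_of_local (hℓ : ℓ.Prime) (hM : ¬ ℓ ∣ M) (haux : auxLevel ℓ ∣ M)
    (hA : A.LiesOverPrime ℓ) {P : Type*} (O : P → Subring (FF (M * ℓ)))
    (hcov : H67gCover hℓ hM hA
      (fun i => (O i).comap (kFricke M ℓ hℓ hM : FF (M * ℓ) →+* FF (M * ℓ))))
    (f : FF (M * ℓ)) (hf : f ∈ (h85cW0 A M ℓ hℓ hM hA).toSubring)
    (hloc : ∀ i, ∃ o ∈ O i, f - o ∈ h82wM A (h85cW0 A M ℓ hℓ hM hA).toSubring) :
    ∃ a : A, f - algebraMap A (FF (M * ℓ)) a ∈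
      h82wM A (h85cW0 A M ℓ hℓ hM hA).toSubring := by
  have hfV : kFricke M ℓ hℓ hM f ∈ softV A (M * ℓ) := hf
  obtain ⟨a, ha⟩ := h67g_const_inf_of_local hℓ hM haux hA
    (fun i => (O i).comap (kFricke M ℓ hℓ hM : FF (M * ℓ) →+* FF (M * ℓ))) hcov
    (kFricke M ℓ hℓ hM f) hfV (fun i => by
      obtain ⟨o, ho, hfo⟩ := hloc i
      refine ⟨kFricke M ℓ hℓ hM o, ?_, ?_⟩
      · show kFricke M ℓ hℓ hM (kFricke M ℓ hℓ hM o) ∈ O i
        rw [kFricke_kFricke]; exact ho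
      · obtain ⟨m, hm, y, hy, h⟩ := hfo
        refine ⟨m, hm, kFricke M ℓ hℓ hM y, hy, ?_⟩
        rw [← map_sub, h, map_mul, h67g_algebraMap_eq, kFricke_cst])
  refine ⟨a, h67g_fricke_M hℓ hM hA ?_⟩
  rw [map_sub, h67g_algebraMap_eq, kFricke_cst]
  rw [h67g_algebraMap_eq] at ha
  exact ha

end Fermat.Agent.P7
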