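import Fermat.Agent.P7.H82Glob0
import Fermat.Agent.P7.H67Glob
import Fermat.Agent.P7.H63DepthNode

/-!
# W7 (S40), block (5b) T-CONST, leaf C4 H0: GLOB0 at the level `M ℓ`, BOTH components, in the
# chart form of `h82g_glob0` (helper63)

`B₀ = chart (M * ℓ) A (jSS M ℓ)`, `B∞ = chart (M * ℓ) A (jSS M ℓ)⁻¹`, `W∞ = softV A (M * ℓ)`,
`W₀ = (h85cW0 A M ℓ ..).toSubring`, `F~ = h13sFt A M` the function field of the special fibre of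
level `M`, `ρ∞ = h60bRedInf : W∞ → F~`, `ρ₀ = ρ∞ ∘ w : W₀ → F~` (`w` = Fricke).

* `h63g_glob0_inf`  : `f ∈ W∞` which is congruent modulo `𝔪_A W∞` to an element of the local
  ring `h62yO B₀ 𝔫` at every maximal ideal `𝔫` of `B₀` containing `B₀ ∩ 𝔪_A W∞`, and to an
  element of `h62yO B∞ 𝔫` at every maximal ideal `𝔫 ∋ 1/j` of `B∞` containing `B∞ ∩ 𝔪_A W∞`,
  is congruent to a constant modulo `𝔪_A W∞`;
* `h63g_glob0_zero` : the same at `W₀`.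
The centres of the places of `F~` are constructed inside `h82g_glob0` (helper82): no covering
hypothesis.  Inputs: `h40c_const_sf`, `h40c_deg_one_sf` (P5), `h60bRedInf` (helper60),
`h67g_nonunit_mem_M`, `h67g_fricke_M` (helper67).

Every declaration is a definition or a proved theorem; nothing is assumed.
-/

set_option autoImplicit false
set_option linter.unusedSectionVars false
set_option linter.unusedVariables false
set_option linter.style.longLine false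
set_option synthInstance.maxHeartbeats 400000

open AlgebraicCurve ModularCurve WithZero IsLocalRing

noncomputable section

namespace Fermat.Agent.P7

open Fermat.Agent.S37 Fermat.Agent.Red Fermat.Agent.Red.GG Fermat.Agent.Red.GV
  Fermat.Agent.Red.GV.Soft Fermat.Agent.Red.Kron Fermat.Agent.Red.ModelO Fermat.Agent.LGC
  Fermat.Agent.S35 Fermat.Agent.P5 Fermat.Agent.P6

variable {M : ℕ} [NeZero M] {A : ValuationSubring Kbar} {ℓ : ℕ} [NeZero ℓ]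

/-- the Fricke involution, from `W₀` to `W∞`. -/
def h63gFr (hℓ : ℓ.Prime) (hM : ¬ ℓ ∣ M) (hA : A.LiesOverPrime ℓ) :
    (h85cW0 A M ℓ hℓ hM hA).toSubring →+* softV A (M * ℓ) :=
  ((kFricke M ℓ hℓ hM : FF (M * ℓ) →+* FF (M * ℓ)).comp
    (h85cW0 A M ℓ hℓ hM hA).toSubring.subtype).codRestrict (softV A (M * ℓ)) (fun x => x.2)

theorem h63g_coe_Fr (hℓ : ℓ.Prime) (hM : ¬ ℓ ∣ M) (hA : A.LiesOverPrime ℓ)
    (x : (h85cW0 A M ℓ hℓ hM hA).toSubring) :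
    ((h63gFr hℓ hM hA x : softV A (M * ℓ)) : FF (M * ℓ)) = kFricke M ℓ hℓ hM (x : FF (M * ℓ)) :=
  rfl

/-- **the reduction at `W₀`** `ρ₀ = ρ∞ ∘ w`. -/
def h63gRed0 (hℓ : ℓ.Prime) (hM : ¬ ℓ ∣ M) (hA : A.LiesOverPrime ℓ) :
    (h85cW0 A M ℓ hℓ hM hA).toSubring →+* h13sFt A M :=
  (h60bRedInf hℓ hM hA).comp (h63gFr hℓ hM hA)

/-- the reduction of a constant at `W∞`. -/
theorem h63g_redInf_const (hℓ : ℓ.Prime) (hM : ¬ ℓ ∣ M) (hA : A.LiesOverPrime ℓ) (a : A) :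
    h60bRedInf hℓ hM hA ⟨algebraMap A (FF (M * ℓ)) a, h67g_cst_mem (M * ℓ) a⟩ =
      algebraMap (h13sK A) (h13sFt A M) (h13sPi A a) :=
  h60b_redInf_cst hℓ hM hA a (h67g_cst_mem (M * ℓ) a)

/-- the reduction of a constant at `W₀`. -/
theorem h63g_red0_const (hℓ : ℓ.Prime) (hM : ¬ ℓ ∣ M) (hA : A.LiesOverPrime ℓ) (a : A) :
    h63gRed0 hℓ hM hA ⟨algebraMap A (FF (M * ℓ)) a, h63w_cst_mem_W0 A M hℓ hM hA a⟩ =
      algebraMap (h13sK A) (h13sFt A M) (h13sPi A a) := by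
  have e : h63gFr hℓ hM hA ⟨algebraMap A (FF (M * ℓ)) a, h63w_cst_mem_W0 A M hℓ hM hA a⟩ =
      ⟨algebraMap A (FF (M * ℓ)) a, h67g_cst_mem (M * ℓ) a⟩ := by
    apply Subtype.ext
    rw [h63g_coe_Fr]
    exact h62y_kFricke_algebraMap A M hℓ hM a
  show h60bRedInf hℓ hM hA (h63gFr hℓ hM hA _) = _
  rw [e]
  exact h63g_redInf_const hℓ hM hA a

/-- constants of the residue field lie in the valuation ring of every place. -/
theorem h63g_const_mem_place (Q : Place (h13sK A) (h13sFt A M)) (c : h13sK A) :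
    algebraMap (h13sK A) (h13sFt A M) c ∈ Q.toValuationSubring :=
  Q.algebraMap_mem' c

/-- an element of `F~` without poles is the reduction of a constant. -/
theorem h63g_hconst (hℓ : ℓ.Prime) (hM : ¬ ℓ ∣ M) (haux : auxLevel ℓ ∣ M)
    (hA : A.LiesOverPrime ℓ) (y : h13sFt A M)
    (hy : ∀ Q : Place (h13sK A) (h13sFt A M), y ∈ Q.toValuationSubring) :
    ∃ a : A, y = algebraMap (h13sK A) (h13sFt A M) (h13sPi A a) := by
  obtain ⟨c, hc⟩ := h40c_const_sf A M hℓ hM haux hA y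
    (fun Q => h68r_ord_nonneg_of_mem Q (hy Q))
  obtain ⟨a, rfl⟩ := IsLocalRing.residue_surjective (R := A) c
  exact ⟨a, hc.symm⟩

/-- the places of `F~` have degree one: every element of `O_Q` is congruent to a constant. -/
theorem h63g_hdeg (hℓ : ℓ.Prime) (hM : ¬ ℓ ∣ M) (haux : auxLevel ℓ ∣ M)
    (hA : A.LiesOverPrime ℓ) (Q : Place (h13sK A) (h13sFt A M))
    (y : h13sFt A M) (hy : y ∈ Q.toValuationSubring) :
    ∃ a : A, (y - algebraMap (h13sK A) (h13sFt A M) (h13sPi A a))⁻¹ ∉ Q.toValuationSubring ∨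
      y - algebraMap (h13sK A) (h13sFt A M) (h13sPi A a) = 0 := by
  have hdeg := h40c_deg_one_sf A M hℓ hM haux hA Q
  obtain ⟨c, hc⟩ := Fermat.Agent.S24.EXP_surjective_of_deg Q hdeg
    (IsLocalRing.residue Q.toValuationSubring ⟨y, hy⟩)
  obtain ⟨a, rfl⟩ := IsLocalRing.residue_surjective (R := A) c
  refine ⟨a, ?_⟩
  by_cases h0 : y - algebraMap (h13sK A) (h13sFt A M) (h13sPi A a) = 0
  · exact Or.inr h0
  left
  intro hinv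
  -- `z = y - c` is in the maximal ideal of `O_Q`
  have hcQ : algebraMap (h13sK A) (h13sFt A M) (h13sPi A a) ∈ Q.toValuationSubring :=
    Q.algebraMap_mem' _
  have hz : y - algebraMap (h13sK A) (h13sFt A M) (h13sPi A a) ∈ Q.toValuationSubring :=
    Q.toValuationSubring.sub_mem hy hcQ
  have hres : IsLocalRing.residue Q.toValuationSubring
      ⟨y - algebraMap (h13sK A) (h13sFt A M) (h13sPi A a), hz⟩ = 0 := by
    have e : (⟨y - algebraMap (h13sK A) (h13sFt A M) (h13sPi A a), hz⟩ :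
        Q.toValuationSubring) = ⟨y, hy⟩ - algebraMap (h13sK A) Q.toValuationSubring
          (IsLocalRing.residue A a) := rfl
    rw [e, map_sub, sub_eq_zero, ← hc]
    rfl
  have hnu : ¬ IsUnit (⟨y - algebraMap (h13sK A) (h13sFt A M) (h13sPi A a), hz⟩ :
      Q.toValuationSubring) := by
    intro hu
    exact (IsLocalRing.residue_ne_zero_iff_isUnit _).mpr hu hres
  apply hnu
  refine IsUnit.of_mul_eq_one (⟨_, hinv⟩ : Q.toValuationSubring) ?_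
  apply Subtype.ext
  show (y - algebraMap (h13sK A) (h13sFt A M) (h13sPi A a)) *
    (y - algebraMap (h13sK A) (h13sFt A M) (h13sPi A a))⁻¹ = 1
  exact mul_inv_cancel₀ h0

/-- `A[j] = ringAdj` inside the closure used by `h82g_glob0`. -/
theorem h63g_ringAdj_le (N : ℕ) (t : FF N) :
    ringAdj N A t ≤ Subring.closure (Set.range (algebraMap A (FF N)) ∪ {t}) := by
  apply Subring.closure_mono
  rintro x (⟨a, ha, rfl⟩ | hx)
  · exact Or.inl ⟨⟨a, ha⟩, rfl⟩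
  · exact Or.inr hx

/-- the elements of a chart are integral over `A[t]`. -/
theorem h63g_chart_integral (N : ℕ) (t : FF N) (b : FF N) (hb : b ∈ chart N A t) :
    IsIntegral (ringAdj N A t) b := hb

section Inf

/-- **GLOB0 at `W∞`, chart form.** -/
theorem h63g_glob0_inf (hℓ : ℓ.Prime) (hM : ¬ ℓ ∣ M) (haux : auxLevel ℓ ∣ M)
    (hA : A.LiesOverPrime ℓ) (f : FF (M * ℓ)) (hf : f ∈ softV A (M * ℓ))
    (hreg₀ : ∀ 𝔫 : Ideal (chart (M * ℓ) A (jSS M ℓ)), 𝔫.IsMaximal →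
      (∀ b : chart (M * ℓ) A (jSS M ℓ),
        (b : FF (M * ℓ)) ∈ h82wM A (softV A (M * ℓ)) → b ∈ 𝔫) →
      ∃ o : FF (M * ℓ), (∃ s : chart (M * ℓ) A (jSS M ℓ), s ∉ 𝔫 ∧
        (s : FF (M * ℓ)) * o ∈ chart (M * ℓ) A (jSS M ℓ)) ∧
        f - o ∈ h82wM A (softV A (M * ℓ)))
    (hreginf : ∀ 𝔫 : Ideal (chart (M * ℓ) A (jSS M ℓ)⁻¹), 𝔫.IsMaximal →
      (∀ b : chart (M * ℓ) A (jSS M ℓ)⁻¹,
        (b : FF (M * ℓ)) ∈ h82wM A (softV A (M * ℓ)) → b ∈ 𝔫) →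
      (⟨(jSS M ℓ)⁻¹, h85_self_mem_modelAt (M * ℓ) A (jSS M ℓ)⁻¹⟩ :
        chart (M * ℓ) A (jSS M ℓ)⁻¹) ∈ 𝔫 →
      ∃ o : FF (M * ℓ), (∃ s : chart (M * ℓ) A (jSS M ℓ)⁻¹, s ∉ 𝔫 ∧
        (s : FF (M * ℓ)) * o ∈ chart (M * ℓ) A (jSS M ℓ)⁻¹) ∧
        f - o ∈ h82wM A (softV A (M * ℓ))) :
    ∃ a : A, f - algebraMap A (FF (M * ℓ)) a ∈ h82wM A (softV A (M * ℓ)) := by
  have hB₀W : ∀ b ∈ chart (M * ℓ) A (jSS M ℓ), b ∈ softV A (M * ℓ) := fun b hb =>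
    h63r_ssV_le_soft hℓ hA (h44v_hBV_fin A M ℓ hℓ hM hA b hb)
  have hBinfW : ∀ b ∈ chart (M * ℓ) A (jSS M ℓ)⁻¹, b ∈ softV A (M * ℓ) := fun b hb =>
    h63r_ssV_le_soft hℓ hA (h44v_hBV_inf A M ℓ hℓ hM hA b hb)
  have hker : ∀ x : softV A (M * ℓ), h60bRedInf hℓ hM hA x = 0 →
      (x : FF (M * ℓ)) ∈ h82wM A (softV A (M * ℓ)) := fun x hx =>
    h67g_nonunit_mem_M hℓ hA (M * ℓ) x ((h60b_redInf_eq_zero_iff hℓ hM hA x).mp hx)
  refine h82g_glob0 (softV A (M * ℓ)) (fun a => h67g_cst_mem (M * ℓ) a)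
    (h60bRedInf hℓ hM hA) ?_ hker
    (fun Q : Place (h13sK A) (h13sFt A M) => Q.toValuationSubring) ?_ ?_ ?_
    (jSS M ℓ) (h31o_jSS_ne_zero M ℓ) (chart (M * ℓ) A (jSS M ℓ))
    (chart (M * ℓ) A (jSS M ℓ)⁻¹) hB₀W hBinfW
    (h85_self_mem_modelAt (M * ℓ) A (jSS M ℓ)) (h85_self_mem_modelAt (M * ℓ) A (jSS M ℓ)⁻¹)
    (ringAdj (M * ℓ) A (jSS M ℓ)) (ringAdj (M * ℓ) A (jSS M ℓ)⁻¹)
    (h63g_ringAdj_le (M * ℓ) _) (h63g_ringAdj_le (M * ℓ) _)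
    (h63g_chart_integral (M * ℓ) _) (h63g_chart_integral (M * ℓ) _) f hf ?_ ?_
  · intro m hm
    exact h67g_red_M hℓ hM hA (h82w_M_const (fun a => h67g_cst_mem (M * ℓ) a) hm) _
  · intro Q a
    rw [h63g_redInf_const hℓ hM hA a]
    exact Q.algebraMap_mem' _
  · intro y hy
    obtain ⟨a, ha⟩ := h63g_hconst hℓ hM haux hA y hy
    exact ⟨a, by rw [h63g_redInf_const hℓ hM hA a]; exact ha⟩
  · intro Q y hy
    obtain ⟨a, ha⟩ := h63g_hdeg hℓ hM haux hA Q y hy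
    exact ⟨a, by rw [h63g_redInf_const hℓ hM hA a]; exact ha⟩
  · intro 𝔫 h𝔫 hcomp
    exact hreg₀ 𝔫 h𝔫 (fun b hb => hcomp b (h67g_red_M hℓ hM hA hb _))
  · intro 𝔫 h𝔫 hcomp hj
    exact hreginf 𝔫 h𝔫 (fun b hb => hcomp b (h67g_red_M hℓ hM hA hb _)) hj

end Inf

section Zero

/-- the kernel of `ρ₀` is `𝔪_A W₀`. -/
theorem h63g_red0_ker (hℓ : ℓ.Prime) (hM : ¬ ℓ ∣ M) (hA : A.LiesOverPrime ℓ)
    (x : (h85cW0 A M ℓ hℓ hM hA).toSubring) (hx : h63gRed0 hℓ hM hA x = 0) :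
    (x : FF (M * ℓ)) ∈ h82wM A (h85cW0 A M ℓ hℓ hM hA).toSubring := by
  have h1 : (h63gFr hℓ hM hA x : FF (M * ℓ)) ∈ h82wM A (softV A (M * ℓ)) :=
    h67g_nonunit_mem_M hℓ hA (M * ℓ) _ ((h60b_redInf_eq_zero_iff hℓ hM hA _).mp hx)
  exact h67g_fricke_M hℓ hM hA h1

/-- `ρ₀` kills `𝔪_A W₀`. -/
theorem h63g_red0_M (hℓ : ℓ.Prime) (hM : ¬ ℓ ∣ M) (hA : A.LiesOverPrime ℓ)
    {z : FF (M * ℓ)} (hz : z ∈ h82wM A (h85cW0 A M ℓ hℓ hM hA).toSubring)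
    (hzW : z ∈ (h85cW0 A M ℓ hℓ hM hA).toSubring) :
    h63gRed0 hℓ hM hA ⟨z, hzW⟩ = 0 := by
  obtain ⟨m, hm, y, hy, h⟩ := hz
  have hyV : kFricke M ℓ hℓ hM y ∈ softV A (M * ℓ) := hy
  have h1 : kFricke M ℓ hℓ hM z ∈ h82wM A (softV A (M * ℓ)) := by
    refine ⟨m, hm, kFricke M ℓ hℓ hM y, hyV, ?_⟩
    rw [h, map_mul, h62y_kFricke_algebraMap]
  exact h67g_red_M hℓ hM hA h1 _

/-- **GLOB0 at `W₀`, chart form.** -/
theorem h63g_glob0_zero (hℓ : ℓ.Prime) (hM : ¬ ℓ ∣ M) (haux : auxLevel ℓ ∣ M)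
    (hA : A.LiesOverPrime ℓ) (f : FF (M * ℓ))
    (hf : f ∈ (h85cW0 A M ℓ hℓ hM hA).toSubring)
    (hreg₀ : ∀ 𝔫 : Ideal (chart (M * ℓ) A (jSS M ℓ)), 𝔫.IsMaximal →
      (∀ b : chart (M * ℓ) A (jSS M ℓ),
        (b : FF (M * ℓ)) ∈ h82wM A (h85cW0 A M ℓ hℓ hM hA).toSubring → b ∈ 𝔫) →
      ∃ o : FF (M * ℓ), (∃ s : chart (M * ℓ) A (jSS M ℓ), s ∉ 𝔫 ∧
        (s : FF (M * ℓ)) * o ∈ chart (M * ℓ) A (jSS M ℓ)) ∧
        f - o ∈ h82wM A (h85cW0 A M ℓ hℓ hM hA).toSubring)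
    (hreginf : ∀ 𝔫 : Ideal (chart (M * ℓ) A (jSS M ℓ)⁻¹), 𝔫.IsMaximal →
      (∀ b : chart (M * ℓ) A (jSS M ℓ)⁻¹,
        (b : FF (M * ℓ)) ∈ h82wM A (h85cW0 A M ℓ hℓ hM hA).toSubring → b ∈ 𝔫) →
      (⟨(jSS M ℓ)⁻¹, h85_self_mem_modelAt (M * ℓ) A (jSS M ℓ)⁻¹⟩ :
        chart (M * ℓ) A (jSS M ℓ)⁻¹) ∈ 𝔫 →
      ∃ o : FF (M * ℓ), (∃ s : chart (M * ℓ) A (jSS M ℓ)⁻¹, s ∉ 𝔫 ∧
        (s : FF (M * ℓ)) * o ∈ chart (M * ℓ) A (jSS M ℓ)⁻¹) ∧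
        f - o ∈ h82wM A (h85cW0 A M ℓ hℓ hM hA).toSubring) :
    ∃ a : A, f - algebraMap A (FF (M * ℓ)) a ∈
      h82wM A (h85cW0 A M ℓ hℓ hM hA).toSubring := by
  have hB₀W : ∀ b ∈ chart (M * ℓ) A (jSS M ℓ), b ∈ (h85cW0 A M ℓ hℓ hM hA).toSubring :=
    fun b hb => h63r_w_ssV_le_soft hℓ hM hA (h44v_hBV_fin A M ℓ hℓ hM hA b hb)
  have hBinfW : ∀ b ∈ chart (M * ℓ) A (jSS M ℓ)⁻¹,
      b ∈ (h85cW0 A M ℓ hℓ hM hA).toSubring :=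
    fun b hb => h63r_w_ssV_le_soft hℓ hM hA (h44v_hBV_inf A M ℓ hℓ hM hA b hb)
  refine h82g_glob0 (h85cW0 A M ℓ hℓ hM hA).toSubring (h63w_cst_mem_W0 A M hℓ hM hA)
    (h63gRed0 hℓ hM hA) ?_ (h63g_red0_ker hℓ hM hA)
    (fun Q : Place (h13sK A) (h13sFt A M) => Q.toValuationSubring) ?_ ?_ ?_
    (jSS M ℓ) (h31o_jSS_ne_zero M ℓ) (chart (M * ℓ) A (jSS M ℓ))
    (chart (M * ℓ) A (jSS M ℓ)⁻¹) hB₀W hBinfW
    (h85_self_mem_modelAt (M * ℓ) A (jSS M ℓ)) (h85_self_mem_modelAt (M * ℓ) A (jSS M ℓ)⁻¹)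
    (ringAdj (M * ℓ) A (jSS M ℓ)) (ringAdj (M * ℓ) A (jSS M ℓ)⁻¹)
    (h63g_ringAdj_le (M * ℓ) _) (h63g_ringAdj_le (M * ℓ) _)
    (h63g_chart_integral (M * ℓ) _) (h63g_chart_integral (M * ℓ) _) f hf ?_ ?_
  · intro m hm
    exact h63g_red0_M hℓ hM hA (h82w_M_const (h63w_cst_mem_W0 A M hℓ hM hA) hm) _
  · intro Q a
    rw [h63g_red0_const hℓ hM hA a]
    exact Q.algebraMap_mem' _
  · intro y hy
    obtain ⟨a, ha⟩ := h63g_hconst hℓ hM haux hA y hy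
    exact ⟨a, by rw [h63g_red0_const hℓ hM hA a]; exact ha⟩
  · intro Q y hy
    obtain ⟨a, ha⟩ := h63g_hdeg hℓ hM haux hA Q y hy
    exact ⟨a, by rw [h63g_red0_const hℓ hM hA a]; exact ha⟩
  · intro 𝔫 h𝔫 hcomp
    exact hreg₀ 𝔫 h𝔫 (fun b hb => hcomp b (h63g_red0_M hℓ hM hA hb _))
  · intro 𝔫 h𝔫 hcomp hj
    exact hreginf 𝔫 h𝔫 (fun b hb => hcomp b (h63g_red0_M hℓ hM hA hb _)) hj

end Zero

end Fermat.Agent.P7
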