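import Fermat.Agent.P7.H78HZero
import Fermat.Agent.P6.H62PuritySmInst
import Fermat.Agent.LGC.H4Cusp
import Fermat.Agent.LGC.SS85CompAdapt

/-!
# Wave 7 (row 38), block (5b), leaf T-C4-CHART: the closed points of the special fibre of the
two charts of level `M ℓ` and the frozen form of GLOB0 (helper78)

Index types of the level instance of `H78hChart` (`P7/H78HZero.lean`), `ℓ ∤ M` prime,
`A` over `ℓ`:

* `B₀ = chart (M ℓ) A (jSS M ℓ)` the finite chart, `B∞ = chart (M ℓ) A (jSS M ℓ)⁻¹` the chart at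
  infinity, `W∞ = softV A (M ℓ)`, `W₀ = (h85cW0 ..).toSubring`;
* `H78lFinInf` : maximal ideals `𝔫` of `B₀` with `P∞ ≤ 𝔫`, `¬ P₀ ≤ 𝔫` (closed points of `C∞`
  which are not crossing points);
* `H78lFinZero` : the same for `C₀`;
* `H78lNode` : maximal ideals `𝔫` of `B₀` with `P∞ ≤ 𝔫` and `P₀ ≤ 𝔫` (the crossing points);
* `H78lCuspInf` : maximal ideals `𝔫` of `B∞` with `P∞ ≤ 𝔫` and `1 / jSS ∈ 𝔫` (cusps on `C∞`);
* `H78lCuspZero` : the same for `C₀`;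
* `h78lOinf`, `h78lOzero`, `h78lOe` : the local rings `h62yO B 𝔫` of the charts at these points.

Frozen Props (to be discharged by the GLOB0 leaves):

* `H78lGlobInf` : `f ∈ W∞` regular modulo `𝔪_A W∞` at every closed point of `B₀` on `C∞` and at
  every cusp of `B∞` on `C∞` is constant modulo `𝔪_A W∞`;
* `H78lGlobZero` : the same for `W₀`.

Definitions only.
-/

set_option autoImplicit false
set_option linter.unusedSectionVars false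
set_option linter.unusedVariables false
set_option linter.style.longLine false

open AlgebraicCurve ModularCurve WithZero IsLocalRing

noncomputable section

namespace Fermat.Agent.P7

open Fermat.Agent.S37 Fermat.Agent.Red Fermat.Agent.Red.GG Fermat.Agent.Red.GV
  Fermat.Agent.Red.GV.Soft Fermat.Agent.Red.Kron Fermat.Agent.Red.KR Fermat.Agent.Red.ModelO
  Fermat.Agent.LGC Fermat.Agent.S35 Fermat.Agent.P6

variable (A : ValuationSubring Kbar) (M : ℕ) {ℓ : ℕ} [NeZero M] [NeZero ℓ]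
  (hℓ : ℓ.Prime) (hM : ¬ ℓ ∣ M) (hA : A.LiesOverPrime ℓ)

/-- the closed points of the finite chart lying on `C∞` only. -/
def H78lFinInf : Type :=
  {𝔫 : Ideal (chart (M * ℓ) A (jSS M ℓ)) //
    𝔫.IsMaximal ∧ h62i_Pinf A M hℓ hM hA ≤ 𝔫 ∧ ¬ h62i_P0 A M hℓ hM hA ≤ 𝔫}

/-- the closed points of the finite chart lying on `C₀` only. -/
def H78lFinZero : Type :=
  {𝔫 : Ideal (chart (M * ℓ) A (jSS M ℓ)) //
    𝔫.IsMaximal ∧ h62i_P0 A M hℓ hM hA ≤ 𝔫 ∧ ¬ h62i_Pinf A M hℓ hM hA ≤ 𝔫}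

/-- the crossing points of the two components (closed points of the finite chart on both). -/
def H78lNode : Type :=
  {𝔫 : Ideal (chart (M * ℓ) A (jSS M ℓ)) //
    𝔫.IsMaximal ∧ h62i_Pinf A M hℓ hM hA ≤ 𝔫 ∧ h62i_P0 A M hℓ hM hA ≤ 𝔫}

/-- the cusps on `C∞`: closed points of the chart at infinity containing `1 / jSS`. -/
def H78lCuspInf : Type :=
  {𝔫 : Ideal (chart (M * ℓ) A (jSS M ℓ)⁻¹) //
    𝔫.IsMaximal ∧ h85cPinf A M ℓ hℓ hA (jSS M ℓ)⁻¹ ≤ 𝔫 ∧ h4c_V A M ℓ ∈ 𝔫}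

/-- the cusps on `C₀`. -/
def H78lCuspZero : Type :=
  {𝔫 : Ideal (chart (M * ℓ) A (jSS M ℓ)⁻¹) //
    𝔫.IsMaximal ∧ h85cP0 A M ℓ hℓ hM hA (jSS M ℓ)⁻¹ ≤ 𝔫 ∧ h4c_V A M ℓ ∈ 𝔫}

/-- the local rings at the smooth closed points of `C∞` (finite points, then cusps). -/
def h78lOinf : H78lFinInf A M hℓ hM hA ⊕ H78lCuspInf A M hℓ hA → Subring (FF (M * ℓ))
  | Sum.inl 𝔫 => (h62yO (chart (M * ℓ) A (jSS M ℓ)) 𝔫.1 𝔫.2.1.isPrime).toSubring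
  | Sum.inr 𝔫 => (h62yO (chart (M * ℓ) A (jSS M ℓ)⁻¹) 𝔫.1 𝔫.2.1.isPrime).toSubring

/-- the local rings at the smooth closed points of `C₀` (finite points, then cusps). -/
def h78lOzero : H78lFinZero A M hℓ hM hA ⊕ H78lCuspZero A M hℓ hM hA → Subring (FF (M * ℓ))
  | Sum.inl 𝔫 => (h62yO (chart (M * ℓ) A (jSS M ℓ)) 𝔫.1 𝔫.2.1.isPrime).toSubring
  | Sum.inr 𝔫 => (h62yO (chart (M * ℓ) A (jSS M ℓ)⁻¹) 𝔫.1 𝔫.2.1.isPrime).toSubring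

/-- the local rings at the crossing points. -/
def h78lOe (e : H78lNode A M hℓ hM hA) : Subring (FF (M * ℓ)) :=
  (h62yO (chart (M * ℓ) A (jSS M ℓ)) e.1 e.2.1.isPrime).toSubring

/-- **GLOB0 on `C∞`** (frozen Prop): a function of `W∞` which is regular modulo `𝔪_A W∞` at
every closed point of the finite chart on `C∞` and at every cusp on `C∞` is constant modulo
`𝔪_A W∞`. -/
def H78lGlobInf : Prop :=
  ∀ f ∈ softV A (M * ℓ),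
    (∀ (𝔫 : Ideal (chart (M * ℓ) A (jSS M ℓ))) (h𝔫 : 𝔫.IsMaximal),
      h62i_Pinf A M hℓ hM hA ≤ 𝔫 →
      ∃ o ∈ h62yO (chart (M * ℓ) A (jSS M ℓ)) 𝔫 h𝔫.isPrime,
        f - o ∈ h88nM A (softV A (M * ℓ))) →
    (∀ (𝔫 : Ideal (chart (M * ℓ) A (jSS M ℓ)⁻¹)) (h𝔫 : 𝔫.IsMaximal),
      h85cPinf A M ℓ hℓ hA (jSS M ℓ)⁻¹ ≤ 𝔫 → h4c_V A M ℓ ∈ 𝔫 →
      ∃ o ∈ h62yO (chart (M * ℓ) A (jSS M ℓ)⁻¹) 𝔫 h𝔫.isPrime,
        f - o ∈ h88nM A (softV A (M * ℓ))) →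
    ∃ c : A, f - algebraMap A (FF (M * ℓ)) c ∈ h88nM A (softV A (M * ℓ))

/-- **GLOB0 on `C₀`** (frozen Prop). -/
def H78lGlobZero : Prop :=
  ∀ f ∈ (h85cW0 A M ℓ hℓ hM hA).toSubring,
    (∀ (𝔫 : Ideal (chart (M * ℓ) A (jSS M ℓ))) (h𝔫 : 𝔫.IsMaximal),
      h62i_P0 A M hℓ hM hA ≤ 𝔫 →
      ∃ o ∈ h62yO (chart (M * ℓ) A (jSS M ℓ)) 𝔫 h𝔫.isPrime,
        f - o ∈ h88nM A (h85cW0 A M ℓ hℓ hM hA).toSubring) →
    (∀ (𝔫 : Ideal (chart (M * ℓ) A (jSS M ℓ)⁻¹)) (h𝔫 : 𝔫.IsMaximal),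
      h85cP0 A M ℓ hℓ hM hA (jSS M ℓ)⁻¹ ≤ 𝔫 → h4c_V A M ℓ ∈ 𝔫 →
      ∃ o ∈ h62yO (chart (M * ℓ) A (jSS M ℓ)⁻¹) 𝔫 h𝔫.isPrime,
        f - o ∈ h88nM A (h85cW0 A M ℓ hℓ hM hA).toSubring) →
    ∃ c : A, f - algebraMap A (FF (M * ℓ)) c ∈ h88nM A (h85cW0 A M ℓ hℓ hM hA).toSubring

end Fermat.Agent.P7
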