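import Fermat.Agent.P7.H63Glob0Zero
import Fermat.Agent.P7.H78ChartIface

/-!
# W7 (S40), block (5b) T-CONST, leaf C4 H0: the frozen GLOB0 Props of `P7/H78ChartIface.lean`
# (helper63)

* `h63g_globZero : H78lGlobZero A M hℓ hM hA` (GLOB0 on `C₀`),
* `h63g_globInf  : H78lGlobInf A M hℓ hM hA` (GLOB0 on `C∞`, twin of helper85's `h85w_glob_inf`),
from the landed chart forms `h63g_glob0_zero`, `h63g_glob0_inf` (`P7/H63Glob0Zero.lean`).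
Good level (`ℓ ∤ M`, `auxLevel ℓ ∣ M`), `A` over `ℓ`.  UNCONDITIONAL.

Every declaration is a proved theorem; nothing is assumed.
-/

set_option autoImplicit false
set_option linter.unusedSectionVars false
set_option linter.unusedVariables false
set_option linter.style.longLine false
set_option synthInstance.maxHeartbeats 400000

open AlgebraicCurve ModularCurve WithZero IsLocalRing

noncomputable section

namespace Fermat.Agent.P7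

open Fermat.Agent.S37 Fermat.Agent.Red Fermat.Agent.Red.GG Fermat.Agent.Red.GV
  Fermat.Agent.Red.GV.Soft Fermat.Agent.Red.Kron Fermat.Agent.Red.KR Fermat.Agent.Red.ModelO
  Fermat.Agent.LGC Fermat.Agent.S35 Fermat.Agent.P5 Fermat.Agent.P6

variable (A : ValuationSubring Kbar) (M : ℕ) {ℓ : ℕ} [NeZero M] [NeZero ℓ]

/-- an element of `P₀` of the finite chart lies in `𝔪_A W₀`. -/
theorem h63g_P0_mem_M (hℓ : ℓ.Prime) (hM : ¬ ℓ ∣ M) (hA : A.LiesOverPrime ℓ)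
    (b : chart (M * ℓ) A (jSS M ℓ)) (hb : b ∈ h62i_P0 A M hℓ hM hA) :
    (b : FF (M * ℓ)) ∈ h82wM A (h85cW0 A M ℓ hℓ hM hA).toSubring := by
  have h1 := (h62i_mem_P0_iff_softR A M hℓ hM hA b).mp hb
  exact h67g_fricke_M hℓ hM hA (h67g_nonunit_mem_M hℓ hA (M * ℓ) _ h1)

/-- an element of `P∞` of the finite chart lies in `𝔪_A W∞`. -/
theorem h63g_Pinf_mem_M (hℓ : ℓ.Prime) (hM : ¬ ℓ ∣ M) (hA : A.LiesOverPrime ℓ)
    (b : chart (M * ℓ) A (jSS M ℓ)) (hb : b ∈ h62i_Pinf A M hℓ hM hA) :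
    (b : FF (M * ℓ)) ∈ h82wM A (softV A (M * ℓ)) := by
  have h1 := (h62i_mem_Pinf_iff_softR A M hℓ hM hA b).mp hb
  exact h67g_nonunit_mem_M hℓ hA (M * ℓ) _ h1

/-- an element of `P₀` of the chart at infinity lies in `𝔪_A W₀`. -/
theorem h63g_P0_inf_mem_M (hℓ : ℓ.Prime) (hM : ¬ ℓ ∣ M) (hA : A.LiesOverPrime ℓ)
    (b : chart (M * ℓ) A (jSS M ℓ)⁻¹) (hb : b ∈ h85cP0 A M ℓ hℓ hM hA (jSS M ℓ)⁻¹) :
    (b : FF (M * ℓ)) ∈ h82wM A (h85cW0 A M ℓ hℓ hM hA).toSubring := by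
  have hC : IfaceSSChart A M ℓ (jSS M ℓ)⁻¹ := h85s_ifaceSSChart_inf A M ℓ hℓ hM hA
  have hbW : kFricke M ℓ hℓ hM (b : FF (M * ℓ)) ∈ softV A (M * ℓ) :=
    h63r_w_ssV_le_soft hℓ hM hA (h44v_hBV_inf A M ℓ hℓ hM hA b b.2)
  have h1 := (h85c_mem_P0_iff_softR A M ℓ hℓ hM hA hC b hbW).mp hb
  exact h67g_fricke_M hℓ hM hA (h67g_nonunit_mem_M hℓ hA (M * ℓ) _ h1)

/-- an element of `P∞` of the chart at infinity lies in `𝔪_A W∞`. -/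
theorem h63g_Pinf_inf_mem_M (hℓ : ℓ.Prime) (hM : ¬ ℓ ∣ M) (hA : A.LiesOverPrime ℓ)
    (b : chart (M * ℓ) A (jSS M ℓ)⁻¹) (hb : b ∈ h85cPinf A M ℓ hℓ hA (jSS M ℓ)⁻¹) :
    (b : FF (M * ℓ)) ∈ h82wM A (softV A (M * ℓ)) := by
  have hC : IfaceSSChart A M ℓ (jSS M ℓ)⁻¹ := h85s_ifaceSSChart_inf A M ℓ hℓ hM hA
  have hbW : (b : FF (M * ℓ)) ∈ softV A (M * ℓ) :=
    h63r_ssV_le_soft hℓ hA (h44v_hBV_inf A M ℓ hℓ hM hA b b.2)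
  have h1 := (h85c_mem_Pinf_iff_softR A M ℓ hℓ hA hC b hbW).mp hb
  exact h67g_nonunit_mem_M hℓ hA (M * ℓ) _ h1

/-- **GLOB0 on `C₀`**: the frozen Prop `H78lGlobZero`. -/
theorem h63g_globZero (hℓ : ℓ.Prime) (hM : ¬ ℓ ∣ M) (haux : auxLevel ℓ ∣ M)
    (hA : A.LiesOverPrime ℓ) : H78lGlobZero A M hℓ hM hA := by
  intro f hf hfin hinf
  refine h63g_glob0_zero hℓ hM haux hA f hf ?_ ?_
  · intro 𝔫 h𝔫 hcomp
    have hP : h62i_P0 A M hℓ hM hA ≤ 𝔫 := fun b hb =>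
      hcomp b (h63g_P0_mem_M A M hℓ hM hA b hb)
    obtain ⟨o, ho, hfo⟩ := hfin 𝔫 h𝔫 hP
    exact ⟨o, ho, hfo⟩
  · intro 𝔫 h𝔫 hcomp hj
    have hP : h85cP0 A M ℓ hℓ hM hA (jSS M ℓ)⁻¹ ≤ 𝔫 := fun b hb =>
      hcomp b (h63g_P0_inf_mem_M A M hℓ hM hA b hb)
    obtain ⟨o, ho, hfo⟩ := hinf 𝔫 h𝔫 hP hj
    exact ⟨o, ho, hfo⟩

/-- **GLOB0 on `C∞`**: the frozen Prop `H78lGlobInf`. -/
theorem h63g_globInf (hℓ : ℓ.Prime) (hM : ¬ ℓ ∣ M) (haux : auxLevel ℓ ∣ M)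
    (hA : A.LiesOverPrime ℓ) : H78lGlobInf A M hℓ hM hA := by
  intro f hf hfin hinf
  refine h63g_glob0_inf hℓ hM haux hA f hf ?_ ?_
  · intro 𝔫 h𝔫 hcomp
    have hP : h62i_Pinf A M hℓ hM hA ≤ 𝔫 := fun b hb =>
      hcomp b (h63g_Pinf_mem_M A M hℓ hM hA b hb)
    obtain ⟨o, ho, hfo⟩ := hfin 𝔫 h𝔫 hP
    exact ⟨o, ho, hfo⟩
  · intro 𝔫 h𝔫 hcomp hj
    have hP : h85cPinf A M ℓ hℓ hA (jSS M ℓ)⁻¹ ≤ 𝔫 := fun b hb =>
      hcomp b (h63g_Pinf_inf_mem_M A M hℓ hM hA b hb)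
    obtain ⟨o, ho, hfo⟩ := hinf 𝔫 h𝔫 hP hj
    exact ⟨o, ho, hfo⟩

end Fermat.Agent.P7
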