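import Fermat.Agent.P7.H23ValRes

/-!
# Wave 7 (fallback target S44), leaf LOCAL-MULT / ALG (helper64, prefix `h64m_`)

Pure algebra (Mathlib + the Lagrange resolvents of `P7/H23ValRes.lean`).

`K` a field, `A` a valuation subring with valuation `v`, `ζ ∈ K` a primitive `p`-th root of unity
(`p` prime), `b` an automorphism of `K` fixing `ζ`, `z ∈ K` with `b ^ p z = z`
and `c ≠ 0` fixed by `b` with

* (H1) `v(p) · v(c) ^ (p - 1) ≤ v(b z - z) ^ (p - 1)`  (`b` moves `z` at most at the depth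
  `v(ζ - 1) v(c)`),
* (H2) `v(z) ≤ v(c)`.

Then there is a UNIT `β` of `A` and `0 < j < p` with `b β = ζ ^ j β`; moreover `β` is fixed by
every automorphism fixing `ζ`, `c` and the orbit `b ^ i z` (`h64m_unit_of_witness`).

In words: the cyclic extension generated by the orbit of `z` is a Kummer extension by the `p`-th
root of a unit ("peu ramifié").
-/

set_option autoImplicit false

namespace Fermat.Agent.P7

open Finset

variable {F K : Type*} [Field F] [Field K] [Algebra F K]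

/-- a root of unity has valuation one. -/
theorem h64m_val_root (A : ValuationSubring K) {ζ : K} {p : ℕ} (hp : p ≠ 0) (hζ : ζ ^ p = 1) :
    A.valuation ζ = 1 := by
  have h1 : A.valuation ζ ^ p = 1 := by rw [← map_pow, hζ, map_one]
  exact (pow_eq_one_iff_of_nonneg zero_le hp).mp h1

/-- powers of a root of unity are integral. -/
theorem h64m_val_geom_le (A : ValuationSubring K) {ζ : K} {p : ℕ} (hp : p ≠ 0) (hζ : ζ ^ p = 1)
    (n : ℕ) : A.valuation (∑ i ∈ range n, ζ ^ i) ≤ 1 := by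
  refine Valuation.map_sum_le _ fun i _ => ?_
  rw [map_pow, h64m_val_root A hp hζ, one_pow]

/-- `v(1 - ξ ^ n) ≤ v(1 - ξ)` for a root of unity `ξ`. -/
theorem h64m_val_one_sub_pow_le (A : ValuationSubring K) {ξ : K} {p : ℕ} (hp : p ≠ 0)
    (hξ : ξ ^ p = 1) (n : ℕ) : A.valuation (1 - ξ ^ n) ≤ A.valuation (1 - ξ) := by
  have h1 : 1 - ξ ^ n = (1 - ξ) * ∑ i ∈ range n, ξ ^ i := by
    rw [mul_comm]
    exact (geom_sum_mul_neg ξ n).symm
  rw [h1, map_mul]
  calc A.valuation (1 - ξ) * A.valuation (∑ i ∈ range n, ξ ^ i)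
      ≤ A.valuation (1 - ξ) * 1 := by
        gcongr
        exact h64m_val_geom_le A hp hξ n
    _ = A.valuation (1 - ξ) := mul_one _

/-- `v(1 - ζ ^ j) = v(1 - ζ)` for `0 < j < p`. -/
theorem h64m_val_one_sub_pow (A : ValuationSubring K) {ζ : K} {p : ℕ} (hp : p.Prime)
    (hζ : IsPrimitiveRoot ζ p) {j : ℕ} (hj0 : 0 < j) (hjp : j < p) :
    A.valuation (1 - ζ ^ j) = A.valuation (1 - ζ) := by
  refine le_antisymm (h64m_val_one_sub_pow_le A hp.ne_zero hζ.pow_eq_one j) ?_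
  have hcop : j.Coprime p := by
    rw [Nat.coprime_comm, hp.coprime_iff_not_dvd]
    exact Nat.not_dvd_of_pos_of_lt hj0 hjp
  have hprim : IsPrimitiveRoot (ζ ^ j) p := hζ.pow_of_coprime j hcop
  have : NeZero p := ⟨hp.ne_zero⟩
  obtain ⟨k, -, hk⟩ := hprim.eq_pow_of_pow_eq_one hζ.pow_eq_one
  have h1 := h64m_val_one_sub_pow_le A hp.ne_zero hprim.pow_eq_one k
  rwa [hk] at h1

/-- `v(1 - ζ) ^ (p - 1) = v(p)`. -/
theorem h64m_val_one_sub_pow_card (A : ValuationSubring K) {ζ : K} {p : ℕ} (hp : p.Prime)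
    (hζ : IsPrimitiveRoot ζ p) : A.valuation (1 - ζ) ^ (p - 1) = A.valuation (p : K) := by
  obtain ⟨n, rfl⟩ : ∃ n, p = n + 1 := ⟨p - 1, (Nat.succ_pred_eq_of_pos hp.pos).symm⟩
  have h1 := hζ.prod_one_sub_pow_eq_order
  have h2 : A.valuation (∏ k ∈ range n, (1 - ζ ^ (k + 1))) = A.valuation (1 - ζ) ^ n := by
    rw [map_prod]
    rw [Finset.prod_congr rfl (fun k hk => h64m_val_one_sub_pow A hp hζ (Nat.succ_pos k)
      (Nat.succ_lt_succ (Finset.mem_range.mp hk)))]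
    rw [Finset.prod_const, Finset.card_range]
  rw [h1] at h2
  rw [Nat.add_sub_cancel, ← h2]
  push_cast
  rfl

/-- **LOCAL-MULT, ALG.** -/
theorem h64m_unit_of_witness (A : ValuationSubring K) {p : ℕ} (hp : p.Prime) {ζ : K}
    (hζ : IsPrimitiveRoot ζ p) (b : K ≃ₐ[F] K) (hbζ : b ζ = ζ) {z : K}
    (hbz : (b ^ p) z = z) {c : K} (hc0 : c ≠ 0) (hbc : b c = c)
    (hpv : A.valuation (p : K) ≠ 0)
    (H1 : A.valuation (p : K) * A.valuation c ^ (p - 1) ≤ A.valuation (b z - z) ^ (p - 1))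
    (H2 : A.valuation z ≤ A.valuation c) :
    ∃ β : K, A.valuation β = 1 ∧ ∃ j : ℕ, 0 < j ∧ j < p ∧ b β = ζ ^ j * β ∧
      ∀ a : K ≃ₐ[F] K, a ζ = ζ → a c = c → (∀ i : ℕ, a ((b ^ i) z) = (b ^ i) z) → a β = β := by
  classical
  set v := A.valuation with hv
  have hp1 : p - 1 ≠ 0 := by
    have := hp.two_le
    omega
  have hζ0 : ζ ≠ 0 := hζ.ne_zero hp.ne_zero
  have hpK : (p : K) ≠ 0 := fun h => hpv (by rw [h, map_zero])
  have hvc : v c ≠ 0 := (Valuation.ne_zero_iff _).mpr hc0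
  set R : ℕ → K := fun j => h23vRes ζ b p z j with hR
  have hRb : ∀ j, b (R j) = ζ ^ j * R j := fun j =>
    h23v_res_eigen hζ.pow_eq_one hζ0 hbζ hbz j
  have hRsum : ∑ j ∈ range p, R j = z := h23v_res_sum hp hζ hpK b z
  have hRfix : ∀ a : K ≃ₐ[F] K, a ζ = ζ → (∀ i : ℕ, a ((b ^ i) z) = (b ^ i) z) →
      ∀ j, a (R j) = R j := fun a ha1 ha2 j => h23v_res_fixed a ha1 ha2 j
  -- the quotient of two resolvents of the same valuation
  have hquot : ∀ j₁ j₂ : ℕ, j₁ < p → j₂ < p → j₁ ≠ j₂ → R j₂ ≠ 0 → v (R j₁) = v (R j₂) →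
      ∃ β : K, v β = 1 ∧ ∃ j : ℕ, 0 < j ∧ j < p ∧ b β = ζ ^ j * β ∧
        ∀ a : K ≃ₐ[F] K, a ζ = ζ → a c = c → (∀ i : ℕ, a ((b ^ i) z) = (b ^ i) z) →
          a β = β := by
    intro j₁ j₂ h1 h2 hne h0 hval
    have hv2 : v (R j₂) ≠ 0 := (Valuation.ne_zero_iff _).mpr h0
    refine ⟨R j₁ / R j₂, by rw [map_div₀, hval, div_self hv2], (j₁ + (p - j₂)) % p, ?_, ?_, ?_, ?_⟩
    · rw [Nat.pos_iff_ne_zero]
      intro h
      have hd : p ∣ j₁ + (p - j₂) := Nat.dvd_of_mod_eq_zero h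
      rcases Nat.lt_or_gt_of_ne hne with hlt | hgt
      · -- `j₁ < j₂`: `0 < j₁ + p - j₂ < p`
        have h3 : j₁ + (p - j₂) < p := by omega
        have h4 : 0 < j₁ + (p - j₂) := by omega
        exact absurd (Nat.le_of_dvd h4 hd) (not_le.mpr h3)
      · have h3 : j₁ + (p - j₂) = p + (j₁ - j₂) := by omega
        rw [h3, Nat.dvd_add_right (dvd_refl p)] at hd
        have h4 : 0 < j₁ - j₂ := by omega
        have h5 : j₁ - j₂ < p := by omega
        exact absurd (Nat.le_of_dvd h4 hd) (not_le.mpr h5)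
    · exact Nat.mod_lt _ hp.pos
    · rw [map_div₀, hRb, hRb]
      have e1 : ζ ^ ((j₁ + (p - j₂)) % p) = ζ ^ (j₁ + (p - j₂)) := by
        conv_rhs => rw [← Nat.mod_add_div (j₁ + (p - j₂)) p]
        rw [pow_add, pow_mul, hζ.pow_eq_one, one_pow, mul_one]
      have e2 : ζ ^ (j₁ + (p - j₂)) * ζ ^ j₂ = ζ ^ j₁ := by
        rw [← pow_add]
        have : j₁ + (p - j₂) + j₂ = j₁ + p := by omega
        rw [this, pow_add, hζ.pow_eq_one, mul_one]
      rw [e1]
      have hz2 : ζ ^ j₂ ≠ 0 := pow_ne_zero _ hζ0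
      field_simp
      rw [← e2]
      ring
    · intro a ha1 _ ha3
      rw [map_div₀, hRfix a ha1 ha3, hRfix a ha1 ha3]
  -- `b z - z` in terms of the resolvents
  have hdiff : b z - z = ∑ j ∈ range p, (ζ ^ j - 1) * R j := by
    have e1 : b z = ∑ j ∈ range p, ζ ^ j * R j := by
      conv_lhs => rw [← hRsum]
      rw [map_sum]
      exact Finset.sum_congr rfl fun j _ => hRb j
    rw [e1]
    conv_lhs => rw [← hRsum]
    rw [← Finset.sum_sub_distrib]
    exact Finset.sum_congr rfl fun j _ => by ring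
  have hbz0 : v (b z - z) ≠ 0 := by
    intro h0
    rw [h0, zero_pow hp1] at H1
    have : v (p : K) * v c ^ (p - 1) ≠ 0 := mul_ne_zero hpv (pow_ne_zero _ hvc)
    exact this (le_antisymm H1 zero_le)
  -- a maximal term of `b z - z`
  have hne : (range p).Nonempty := ⟨0, Finset.mem_range.mpr hp.pos⟩
  obtain ⟨j₀, hj₀, hmax⟩ := Finset.exists_max_image (range p)
    (fun j => v ((ζ ^ j - 1) * R j)) hne
  have hle : v (b z - z) ≤ v ((ζ ^ j₀ - 1) * R j₀) := by
    rw [hdiff]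
    exact Valuation.map_sum_le _ fun j hj => hmax j hj
  have hj₀0 : j₀ ≠ 0 := by
    rintro rfl
    rw [pow_zero, sub_self, zero_mul, map_zero] at hle
    exact hbz0 (le_antisymm hle zero_le)
  have hj₀p : j₀ < p := Finset.mem_range.mp hj₀
  have hε : v (ζ ^ j₀ - 1) ^ (p - 1) = v (p : K) := by
    have h1 : v (ζ ^ j₀ - 1) = v (1 - ζ) := by
      rw [← h64m_val_one_sub_pow A hp hζ (Nat.pos_of_ne_zero hj₀0) hj₀p, ← Valuation.map_neg,
        neg_sub]
    rw [h1]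
    exact h64m_val_one_sub_pow_card A hp hζ
  -- `v(c) ≤ v(R j₀)`
  have hcR : v c ≤ v (R j₀) := by
    have h1 : v (p : K) * v c ^ (p - 1) ≤ v (p : K) * v (R j₀) ^ (p - 1) := by
      calc v (p : K) * v c ^ (p - 1) ≤ v (b z - z) ^ (p - 1) := H1
        _ ≤ v ((ζ ^ j₀ - 1) * R j₀) ^ (p - 1) := pow_le_pow_left₀ zero_le hle _
        _ = v (p : K) * v (R j₀) ^ (p - 1) := by rw [map_mul, mul_pow, hε]
    have h2 : v c ^ (p - 1) ≤ v (R j₀) ^ (p - 1) := by
      by_contra hcon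
      rw [not_le] at hcon
      have h3 : v (p : K) * v (R j₀) ^ (p - 1) < v (p : K) * v c ^ (p - 1) :=
        mul_lt_mul_of_pos_left hcon (zero_lt_iff.mpr hpv)
      exact absurd h1 (not_le.mpr h3)
    by_contra hcon
    rw [not_le] at hcon
    exact absurd h2 (not_le.mpr (pow_lt_pow_left₀ hcon zero_le hp1))
  have hR0 : R j₀ ≠ 0 := by
    intro h0
    rw [h0, map_zero] at hcR
    exact hvc (le_antisymm hcR zero_le)
  rcases eq_or_lt_of_le hcR with heq | hlt
  · -- `v(R j₀) = v(c)`: `β = R j₀ / c`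
    refine ⟨R j₀ / c, by rw [map_div₀, ← heq, div_self hvc], j₀, Nat.pos_of_ne_zero hj₀0, hj₀p,
      ?_, ?_⟩
    · rw [map_div₀, hRb, hbc, mul_div_assoc]
    · intro a ha1 ha2 ha3
      rw [map_div₀, hRfix a ha1 ha3, ha2]
  · -- `v(z) ≤ v(c) < v(R j₀)`: two resolvents of maximal valuation
    obtain ⟨j₁, hj₁, hmax1⟩ := Finset.exists_max_image (range p) (fun j => v (R j)) hne
    have hj₁p : j₁ < p := Finset.mem_range.mp hj₁
    have h1 : v z < v (R j₁) := lt_of_le_of_lt H2 (lt_of_lt_of_le hlt (hmax1 j₀ hj₀))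
    have hR1 : R j₁ ≠ 0 := by
      intro h0
      rw [h0, map_zero] at h1
      exact absurd h1 (not_lt.mpr zero_le)
    by_contra hcon
    have h2 : ∀ i ∈ range p \ {j₁}, v (R i) < v (R j₁) := by
      intro i hi
      rw [Finset.mem_sdiff, Finset.mem_singleton] at hi
      refine lt_of_le_of_ne (hmax1 i hi.1) fun heq => hcon ?_
      exact hquot i j₁ (Finset.mem_range.mp hi.1) hj₁p hi.2 hR1 heq
    have h3 := Valuation.map_sum_eq_of_lt v hj₁ h2
    rw [hRsum] at h3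
    rw [h3] at h1
    exact lt_irrefl _ h1

end Fermat.Agent.P7
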