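import Fermat.Agent.S05.Kernel

/-!
# Wave 7 (target S44), LOCAL-MULT, leaf GEO (helper70)

Exact translation formula and its valuations on a SHORT Weierstrass model
`y² = x³ + a₂ x² + a₄ x` (`a₁ = a₃ = a₆ = 0`) over a field `K` with a valuation subring `A`
in which `2` is a unit.

* `h70g_shift_exact` : for `Q = (x₁, y₁)`, `T = (x₂, y₂)`, `x₁ ≠ x₂`:
  `x(Q + T) - x(Q) = [-2 y₁ y₂ + (3 x₁² + 2 a₂ x₁ + a₄) x₂ + a₄ x₁ - x₁³] / (x₂ - x₁)²`.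
* `h70g_E1_val` : for `T ∈ E¹` (`x₂ ∉ A`): `v(y₂)² = v(x₂)³`, `v(x₂) < v(y₂)`.
* `h70g_shift_val` : core valuation statement, `v(x(Q+T) - x(Q)) = v(y₁) v(x₂ / y₂)`.
* `h70g_shift_unit` : `x₁ ∈ A`, `y₁` a unit: `v(x(Q+T) - x(Q)) = v(z_T)`.
* `h70g_shift_node` : `x₁` a nonzero nonunit strictly inside the annulus (`a₄ / x₁` nonunit),
  `a₂` a unit: `v(y₁) = v(x₁)` and `v(x(Q+T) - x(Q)) = v(x₁) v(z_T)`.
* `h70g_double` : `x₁` a unit, `y₁` a nonzero nonunit, `a₂` a unit, `a₄` a nonunit: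
  `2 Q ∈ E¹`.
-/

set_option autoImplicit false
set_option linter.unusedSectionVars false

namespace Fermat.Agent.P7

open WeierstrassCurve WeierstrassCurve.Affine Fermat.Agent.S05 Fermat.Agent.S05.K56

variable {K : Type*} [Field K] [DecidableEq K]

section exact

variable (W : Affine K)

/-- the equation of a short model. -/
theorem h70g_eqn (h1 : W.a₁ = 0) (h3 : W.a₃ = 0) (h6 : W.a₆ = 0) {x y : K}
    (h : W.Equation x y) : y ^ 2 = x ^ 3 + W.a₂ * x ^ 2 + W.a₄ * x := by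
  have := (W.equation_iff x y).1 h
  rw [h1, h3, h6] at this
  linear_combination this

/-- **(a) the exact translation formula** on a short model. -/
theorem h70g_shift_exact (h1 : W.a₁ = 0) (h3 : W.a₃ = 0) (h6 : W.a₆ = 0) {x₁ y₁ x₂ y₂ : K}
    (hQ : W.Equation x₁ y₁) (hT : W.Equation x₂ y₂) (hx : x₁ ≠ x₂) :
    W.addX x₁ x₂ (W.slope x₁ x₂ y₁ y₂) - x₁ =
      (-2 * y₁ * y₂ + (3 * x₁ ^ 2 + 2 * W.a₂ * x₁ + W.a₄) * x₂ + W.a₄ * x₁ - x₁ ^ 3) /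
        (x₂ - x₁) ^ 2 := by
  have e1 := h70g_eqn W h1 h3 h6 hQ
  have e2 := h70g_eqn W h1 h3 h6 hT
  have hne : x₁ - x₂ ≠ 0 := sub_ne_zero.2 hx
  have hne' : x₂ - x₁ ≠ 0 := sub_ne_zero.2 (Ne.symm hx)
  rw [slope_of_X_ne hx, addX, h1, eq_div_iff (pow_ne_zero 2 hne')]
  have hl : (y₁ - y₂) / (x₁ - x₂) * (x₂ - x₁) = -(y₁ - y₂) := by
    field_simp
    ring
  have hl2 : ((y₁ - y₂) / (x₁ - x₂)) ^ 2 * (x₂ - x₁) ^ 2 = (y₁ - y₂) ^ 2 := by
    rw [← mul_pow, hl]; ring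
  linear_combination hl2 + e1 + e2

end exact

section val

variable (A : ValuationSubring K) (W : Affine K)

/-- the valuations of the coordinates of a point of `E¹` on a short integral model. -/
theorem h70g_E1_val (h1 : W.a₁ = 0) (h3 : W.a₃ = 0) (h6 : W.a₆ = 0)
    (ha2 : W.a₂ ∈ A) (ha4 : W.a₄ ∈ A) {x₂ y₂ : K} (hT : W.Equation x₂ y₂) (hx2 : x₂ ∉ A) :
    A.valuation y₂ ^ 2 = A.valuation x₂ ^ 3 ∧ A.valuation x₂ < A.valuation y₂ ∧
      1 < A.valuation x₂ ∧ x₂ ≠ 0 ∧ y₂ ≠ 0 := by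
  have e2 := h70g_eqn W h1 h3 h6 hT
  have hv2 : 1 < A.valuation x₂ := by
    rw [← not_le, A.valuation_le_one_iff]; exact hx2
  have hx0 : x₂ ≠ 0 := by
    rintro rfl; exact hx2 (zero_mem A)
  have hvpos : 0 < A.valuation x₂ := lt_trans zero_lt_one hv2
  have ha2' : A.valuation W.a₂ ≤ 1 := (A.valuation_le_one_iff _).2 ha2
  have ha4' : A.valuation W.a₄ ≤ 1 := (A.valuation_le_one_iff _).2 ha4
  -- `v(a₂ x² + a₄ x) < v(x³)`
  have hlt1 : A.valuation (W.a₂ * x₂ ^ 2) < A.valuation (x₂ ^ 3) := by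
    rw [map_mul, map_pow, map_pow]
    calc A.valuation W.a₂ * A.valuation x₂ ^ 2 ≤ 1 * A.valuation x₂ ^ 2 :=
          mul_le_mul' ha2' le_rfl
      _ = A.valuation x₂ ^ 2 * 1 := by rw [one_mul, mul_one]
      _ < A.valuation x₂ ^ 2 * A.valuation x₂ :=
          mul_lt_mul_of_pos_left hv2 (pow_pos hvpos 2)
      _ = A.valuation x₂ ^ 3 := by rw [← pow_succ]
  have hlt2 : A.valuation (W.a₄ * x₂) < A.valuation (x₂ ^ 3) := by
    rw [map_mul, map_pow]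
    calc A.valuation W.a₄ * A.valuation x₂ ≤ 1 * A.valuation x₂ :=
          mul_le_mul' ha4' le_rfl
      _ = A.valuation x₂ * 1 := by rw [one_mul, mul_one]
      _ < A.valuation x₂ * A.valuation x₂ ^ 2 :=
          mul_lt_mul_of_pos_left (one_lt_pow₀ hv2 (by norm_num)) hvpos
      _ = A.valuation x₂ ^ 3 := by rw [← pow_succ']
  have hy2 : A.valuation y₂ ^ 2 = A.valuation x₂ ^ 3 := by
    rw [← map_pow, e2, ← map_pow]
    have h12 : A.valuation (x₂ ^ 3 + W.a₂ * x₂ ^ 2) = A.valuation (x₂ ^ 3) :=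
      Valuation.map_add_eq_of_lt_left _ hlt1
    have : A.valuation (W.a₄ * x₂) < A.valuation (x₂ ^ 3 + W.a₂ * x₂ ^ 2) := by
      rw [h12]; exact hlt2
    rw [Valuation.map_add_eq_of_lt_left _ this, h12]
  have hy0 : y₂ ≠ 0 := by
    rintro rfl
    rw [map_zero, zero_pow (by norm_num)] at hy2
    exact absurd hy2.symm (pow_ne_zero 3 hvpos.ne')
  refine ⟨hy2, ?_, hv2, hx0, hy0⟩
  by_contra hcon
  rw [not_lt] at hcon
  have : A.valuation y₂ ^ 2 ≤ A.valuation x₂ ^ 2 := pow_le_pow_left₀ zero_le hcon 2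
  rw [hy2] at this
  have h3 : A.valuation x₂ ^ 2 < A.valuation x₂ ^ 3 := by
    calc A.valuation x₂ ^ 2 = A.valuation x₂ ^ 2 * 1 := (mul_one _).symm
      _ < A.valuation x₂ ^ 2 * A.valuation x₂ := mul_lt_mul_of_pos_left hv2 (pow_pos hvpos 2)
      _ = A.valuation x₂ ^ 3 := by rw [← pow_succ]
  exact absurd this (not_le.2 h3)

/-- **(b) core valuation statement.**  `Q = (x₁, y₁)` integral with `y₁ ≠ 0`, the two
quantities `3 x₁² + 2 a₂ x₁ + a₄` and `a₄ x₁ - x₁³` of valuation at most `v(y₁)`, `T ∈ E¹`: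
`v(x(Q + T) - x(Q)) = v(y₁) v(x₂ / y₂)`. -/
theorem h70g_shift_val (h1 : W.a₁ = 0) (h3 : W.a₃ = 0) (h6 : W.a₆ = 0)
    (ha2 : W.a₂ ∈ A) (ha4 : W.a₄ ∈ A) (h2 : A.valuation (2 : K) = 1) {x₁ y₁ x₂ y₂ : K}
    (hQ : W.Equation x₁ y₁) (hT : W.Equation x₂ y₂) (hx1 : x₁ ∈ A) (hx2 : x₂ ∉ A)
    (hy1 : y₁ ≠ 0)
    (hd : A.valuation (3 * x₁ ^ 2 + 2 * W.a₂ * x₁ + W.a₄) ≤ A.valuation y₁)
    (hc : A.valuation (W.a₄ * x₁ - x₁ ^ 3) ≤ A.valuation y₁) :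
    A.valuation (W.addX x₁ x₂ (W.slope x₁ x₂ y₁ y₂) - x₁) =
      A.valuation y₁ * A.valuation (x₂ / y₂) := by
  obtain ⟨hy2, hxy, hv2, hx0, hy0⟩ := h70g_E1_val A W h1 h3 h6 ha2 ha4 hT hx2
  have hx : x₁ ≠ x₂ := by
    rintro rfl; exact hx2 hx1
  have hv1 : A.valuation x₁ ≤ 1 := (A.valuation_le_one_iff _).2 hx1
  have hvy1 : 0 < A.valuation y₁ := zero_lt_iff.2 ((A.valuation).ne_zero_iff.2 hy1)
  have hvy2 : 0 < A.valuation y₂ := zero_lt_iff.2 ((A.valuation).ne_zero_iff.2 hy0)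
  have hvx2 : 0 < A.valuation x₂ := lt_trans zero_lt_one hv2
  rw [h70g_shift_exact W h1 h3 h6 hQ hT hx, map_div₀, map_pow, map_div₀]
  -- the denominator
  have hD : A.valuation (x₂ - x₁) = A.valuation x₂ :=
    Valuation.map_sub_eq_of_lt_left _ (lt_of_le_of_lt hv1 hv2)
  -- the main term
  have hM : A.valuation (-2 * y₁ * y₂) = A.valuation y₁ * A.valuation y₂ := by
    rw [map_mul, map_mul, Valuation.map_neg, h2, one_mul]
  -- the remainder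
  have hR1 : A.valuation ((3 * x₁ ^ 2 + 2 * W.a₂ * x₁ + W.a₄) * x₂) <
      A.valuation y₁ * A.valuation y₂ := by
    rw [map_mul]
    calc A.valuation (3 * x₁ ^ 2 + 2 * W.a₂ * x₁ + W.a₄) * A.valuation x₂
        ≤ A.valuation y₁ * A.valuation x₂ := mul_le_mul' hd le_rfl
      _ < A.valuation y₁ * A.valuation y₂ := mul_lt_mul_of_pos_left hxy hvy1
  have h1y2 : 1 < A.valuation y₂ := lt_trans hv2 hxy
  have hR2 : A.valuation (W.a₄ * x₁ - x₁ ^ 3) < A.valuation y₁ * A.valuation y₂ := by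
    calc A.valuation (W.a₄ * x₁ - x₁ ^ 3) ≤ A.valuation y₁ := hc
      _ = A.valuation y₁ * 1 := (mul_one _).symm
      _ < A.valuation y₁ * A.valuation y₂ := mul_lt_mul_of_pos_left h1y2 hvy1
  have hN : A.valuation (-2 * y₁ * y₂ + (3 * x₁ ^ 2 + 2 * W.a₂ * x₁ + W.a₄) * x₂ +
      W.a₄ * x₁ - x₁ ^ 3) = A.valuation y₁ * A.valuation y₂ := by
    have e : -2 * y₁ * y₂ + (3 * x₁ ^ 2 + 2 * W.a₂ * x₁ + W.a₄) * x₂ + W.a₄ * x₁ - x₁ ^ 3 =
        (-2 * y₁ * y₂ + (3 * x₁ ^ 2 + 2 * W.a₂ * x₁ + W.a₄) * x₂) +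
          (W.a₄ * x₁ - x₁ ^ 3) := by ring
    have h12 : A.valuation (-2 * y₁ * y₂ + (3 * x₁ ^ 2 + 2 * W.a₂ * x₁ + W.a₄) * x₂) =
        A.valuation y₁ * A.valuation y₂ := by
      rw [Valuation.map_add_eq_of_lt_left _ (by rw [hM]; exact hR1), hM]
    rw [e, Valuation.map_add_eq_of_lt_left _ (by rw [h12]; exact hR2), h12]
  rw [hN, hD]
  -- `v(y₁) v(y₂) / v(x₂)² = v(y₁) (v(x₂) / v(y₂))` from `v(y₂)² = v(x₂)³`
  rw [← mul_div_assoc, div_eq_div_iff (pow_ne_zero 2 hvx2.ne') hvy2.ne']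
  calc A.valuation y₁ * A.valuation y₂ * A.valuation y₂
      = A.valuation y₁ * A.valuation y₂ ^ 2 := by rw [mul_assoc, ← pow_two]
    _ = A.valuation y₁ * A.valuation x₂ ^ 3 := by rw [hy2]
    _ = A.valuation y₁ * A.valuation x₂ * A.valuation x₂ ^ 2 := by
        rw [mul_assoc, ← pow_succ']

/-- the valuation of the chart coordinate `z = -x / y`. -/
theorem h70g_val_z (x y : K) : A.valuation (-x / y) = A.valuation (x / y) := by
  rw [neg_div, Valuation.map_neg]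

/-- **(b), nonsingular reduction.**  `x₁ ∈ A`, `y₁` a unit, `T ∈ E¹`:
`v(x(Q + T) - x(Q)) = v(z_T)`. -/
theorem h70g_shift_unit (h1 : W.a₁ = 0) (h3 : W.a₃ = 0) (h6 : W.a₆ = 0)
    (ha2 : W.a₂ ∈ A) (ha4 : W.a₄ ∈ A) (h2 : A.valuation (2 : K) = 1) {x₁ y₁ x₂ y₂ : K}
    (hQ : W.Equation x₁ y₁) (hT : W.Equation x₂ y₂) (hx1 : x₁ ∈ A) (hx2 : x₂ ∉ A)
    (hy1 : A.valuation y₁ = 1) :
    A.valuation (W.addX x₁ x₂ (W.slope x₁ x₂ y₁ y₂) - x₁) = A.valuation (x₂ / y₂) := by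
  have hy0 : y₁ ≠ 0 := by
    rintro rfl; rw [map_zero] at hy1; exact zero_ne_one hy1
  have h3A : (3 : K) ∈ A := by
    have : (3 : K) = ((3 : ℕ) : K) := by norm_num
    rw [this]; exact natCast_mem A 3
  have h2A : (2 : K) ∈ A := (A.valuation_le_one_iff _).1 h2.le
  rw [h70g_shift_val A W h1 h3 h6 ha2 ha4 h2 hQ hT hx1 hx2 hy0 ?_ ?_, hy1, one_mul]
  · rw [hy1, A.valuation_le_one_iff]
    exact add_mem (add_mem (mul_mem h3A (pow_mem hx1 2)) (mul_mem (mul_mem h2A ha2) hx1)) ha4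
  · rw [hy1, A.valuation_le_one_iff]
    exact sub_mem (mul_mem ha4 hx1) (pow_mem hx1 3)

/-- on the annulus of the node (`x₁` a nonzero nonunit, `a₄ / x₁` a nonunit, `a₂` a unit):
`v(y₁) = v(x₁)`. -/
theorem h70g_node_val_y (h1 : W.a₁ = 0) (h3 : W.a₃ = 0) (h6 : W.a₆ = 0)
    (ha2 : A.valuation W.a₂ = 1) {x₁ y₁ : K}
    (hQ : W.Equation x₁ y₁) (hx1 : x₁ ∈ A.nonunits) (hx0 : x₁ ≠ 0)
    (hann : W.a₄ / x₁ ∈ A.nonunits) :
    A.valuation y₁ = A.valuation x₁ := by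
  have e1 := h70g_eqn W h1 h3 h6 hQ
  have hv1 : A.valuation x₁ < 1 := A.mem_nonunits_iff.1 hx1
  have hvx : 0 < A.valuation x₁ := zero_lt_iff.2 ((A.valuation).ne_zero_iff.2 hx0)
  have hv4 : A.valuation W.a₄ < A.valuation x₁ := by
    have := A.mem_nonunits_iff.1 hann
    rw [map_div₀] at this
    exact (div_lt_one₀ hvx).1 this
  have hmain : A.valuation (W.a₂ * x₁ ^ 2) = A.valuation x₁ ^ 2 := by
    rw [map_mul, ha2, one_mul, map_pow]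
  have hlt1 : A.valuation (x₁ ^ 3) < A.valuation (W.a₂ * x₁ ^ 2) := by
    rw [hmain, map_pow]
    calc A.valuation x₁ ^ 3 = A.valuation x₁ ^ 2 * A.valuation x₁ := pow_succ _ 2
      _ < A.valuation x₁ ^ 2 * 1 := mul_lt_mul_of_pos_left hv1 (pow_pos hvx 2)
      _ = A.valuation x₁ ^ 2 := mul_one _
  have hlt2 : A.valuation (W.a₄ * x₁) < A.valuation (W.a₂ * x₁ ^ 2) := by
    rw [hmain, map_mul, pow_two]
    exact mul_lt_mul_of_pos_right hv4 hvx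
  have h12 : A.valuation (x₁ ^ 3 + W.a₂ * x₁ ^ 2) = A.valuation x₁ ^ 2 := by
    rw [Valuation.map_add_eq_of_lt_right _ hlt1, hmain]
  have hsq : A.valuation y₁ ^ 2 = A.valuation x₁ ^ 2 := by
    rw [← map_pow, e1, Valuation.map_add_eq_of_lt_left _ (by rw [h12, ← hmain]; exact hlt2), h12]
  exact (pow_left_inj₀ zero_le zero_le (by norm_num)).1 hsq

/-- **(b), node.**  `x₁` a nonzero nonunit strictly inside the annulus (`a₄ / x₁` a nonunit),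
`a₂` a unit, `T ∈ E¹`: `v(x(Q + T) - x(Q)) = v(x₁) v(z_T)`. -/
theorem h70g_shift_node (h1 : W.a₁ = 0) (h3 : W.a₃ = 0) (h6 : W.a₆ = 0)
    (ha2 : A.valuation W.a₂ = 1) (h2 : A.valuation (2 : K) = 1) {x₁ y₁ x₂ y₂ : K}
    (hQ : W.Equation x₁ y₁) (hT : W.Equation x₂ y₂) (hx1 : x₁ ∈ A.nonunits) (hx0 : x₁ ≠ 0)
    (hann : W.a₄ / x₁ ∈ A.nonunits) (hx2 : x₂ ∉ A) :
    A.valuation (W.addX x₁ x₂ (W.slope x₁ x₂ y₁ y₂) - x₁) =
      A.valuation x₁ * A.valuation (x₂ / y₂) := by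
  have hy := h70g_node_val_y A W h1 h3 h6 ha2 hQ hx1 hx0 hann
  have hv1 : A.valuation x₁ < 1 := A.mem_nonunits_iff.1 hx1
  have hvx : 0 < A.valuation x₁ := zero_lt_iff.2 ((A.valuation).ne_zero_iff.2 hx0)
  have hv4 : A.valuation W.a₄ < A.valuation x₁ := by
    have := A.mem_nonunits_iff.1 hann
    rw [map_div₀] at this
    exact (div_lt_one₀ hvx).1 this
  have hx1A : x₁ ∈ A := (A.valuation_le_one_iff _).1 hv1.le
  have ha2A : W.a₂ ∈ A := (A.valuation_le_one_iff _).1 ha2.le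
  have ha4A : W.a₄ ∈ A := (A.valuation_le_one_iff _).1 (hv4.le.trans hv1.le)
  have hy0 : y₁ ≠ 0 := by
    rintro rfl; rw [map_zero] at hy; exact hvx.ne hy
  have h3A : (3 : K) ∈ A := by
    have : (3 : K) = ((3 : ℕ) : K) := by norm_num
    rw [this]; exact natCast_mem A 3
  have h2A : (2 : K) ∈ A := (A.valuation_le_one_iff _).1 h2.le
  have hle : ∀ t : K, t ∈ A → A.valuation (t * x₁) ≤ A.valuation x₁ := by
    intro t ht
    rw [map_mul]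
    calc A.valuation t * A.valuation x₁ ≤ 1 * A.valuation x₁ :=
          mul_le_mul' ((A.valuation_le_one_iff _).2 ht) le_rfl
      _ = A.valuation x₁ := one_mul _
  rw [h70g_shift_val A W h1 h3 h6 ha2A ha4A h2 hQ hT hx1A hx2 hy0 ?_ ?_, hy]
  · rw [hy]
    have e : 3 * x₁ ^ 2 + 2 * W.a₂ * x₁ + W.a₄ = (3 * x₁ + 2 * W.a₂) * x₁ + W.a₄ := by ring
    rw [e]
    exact (Valuation.map_add _ _ _).trans (max_le
      (hle _ (add_mem (mul_mem h3A hx1A) (mul_mem h2A ha2A))) hv4.le)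
  · rw [hy]
    have e : W.a₄ * x₁ - x₁ ^ 3 = (W.a₄ - x₁ ^ 2) * x₁ := by ring
    rw [e]
    exact hle _ (sub_mem ha4A (pow_mem hx1A 2))

/-- **(c) doubling.**  `x₁` a unit, `y₁` a nonzero nonunit (the point reduces to the point of
order two of the nodal cubic), `a₂` a unit, `a₄` a nonunit, `2` a unit: `x(2 Q) ∉ A`. -/
theorem h70g_double_val (h1 : W.a₁ = 0) (h3 : W.a₃ = 0) (h6 : W.a₆ = 0)
    (ha2 : A.valuation W.a₂ = 1) (ha4 : W.a₄ ∈ A.nonunits) (h2 : A.valuation (2 : K) = 1)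
    {x₁ y₁ : K} (hQ : W.Equation x₁ y₁) (hx1 : A.valuation x₁ = 1) (hy1 : y₁ ∈ A.nonunits)
    (hy0 : y₁ ≠ 0) :
    y₁ ≠ W.negY x₁ y₁ ∧ W.addX x₁ x₁ (W.slope x₁ x₁ y₁ y₁) ∉ A := by
  have e1 := h70g_eqn W h1 h3 h6 hQ
  have h20 : (2 : K) ≠ 0 := by
    intro h; rw [h, map_zero] at h2; exact zero_ne_one h2
  have hneg : W.negY x₁ y₁ = -y₁ := by rw [negY, h1, h3]; ring
  have hyne : y₁ ≠ W.negY x₁ y₁ := by
    rw [hneg]
    intro h
    have : 2 * y₁ = 0 := by linear_combination h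
    rcases mul_eq_zero.1 this with h' | h'
    · exact h20 h'
    · exact hy0 h'
  refine ⟨hyne, ?_⟩
  have hvy : A.valuation y₁ < 1 := A.mem_nonunits_iff.1 hy1
  have hvy0 : 0 < A.valuation y₁ := zero_lt_iff.2 ((A.valuation).ne_zero_iff.2 hy0)
  have hv4 : A.valuation W.a₄ < 1 := A.mem_nonunits_iff.1 ha4
  have hx1A : x₁ ∈ A := (A.valuation_le_one_iff _).1 hx1.le
  have ha2A : W.a₂ ∈ A := (A.valuation_le_one_iff _).1 ha2.le
  have h2A : (2 : K) ∈ A := (A.valuation_le_one_iff _).1 h2.le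
  have h3A : (3 : K) ∈ A := by
    have : (3 : K) = ((3 : ℕ) : K) := by norm_num
    rw [this]; exact natCast_mem A 3
  have hx0 : x₁ ≠ 0 := by
    rintro rfl; rw [map_zero] at hx1; exact zero_ne_one hx1
  -- the derivative is a unit
  have hsmall : A.valuation (3 * y₁ ^ 2 - 2 * W.a₄ * x₁) < 1 := by
    refine lt_of_le_of_lt (Valuation.map_sub _ _ _) (max_lt ?_ ?_)
    · rw [map_mul, map_pow]
      calc A.valuation 3 * A.valuation y₁ ^ 2 ≤ 1 * A.valuation y₁ ^ 2 :=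
            mul_le_mul' ((A.valuation_le_one_iff _).2 h3A) le_rfl
        _ = A.valuation y₁ ^ 2 := one_mul _
        _ < 1 := pow_lt_one₀ zero_le hvy (by norm_num)
    · rw [map_mul, map_mul, h2, one_mul, hx1, mul_one]
      exact hv4
  have hder : A.valuation (3 * x₁ ^ 2 + 2 * W.a₂ * x₁ + W.a₄) = 1 := by
    have e : (3 * x₁ ^ 2 + 2 * W.a₂ * x₁ + W.a₄) * x₁ =
        -(W.a₂ * x₁ ^ 2) + (3 * y₁ ^ 2 - 2 * W.a₄ * x₁) := by
      linear_combination (-3 : K) * e1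
    have hm : A.valuation (-(W.a₂ * x₁ ^ 2)) = 1 := by
      rw [Valuation.map_neg, map_mul, map_pow, ha2, hx1, one_mul, one_pow]
    have hr : A.valuation (-(W.a₂ * x₁ ^ 2) + (3 * y₁ ^ 2 - 2 * W.a₄ * x₁)) = 1 := by
      rw [Valuation.map_add_eq_of_lt_left _ (by rw [hm]; exact hsmall), hm]
    have := congrArg A.valuation e
    rw [hr, map_mul, hx1, mul_one] at this
    exact this
  -- the slope is not integral
  have hsl : W.slope x₁ x₁ y₁ y₁ = (3 * x₁ ^ 2 + 2 * W.a₂ * x₁ + W.a₄) / (2 * y₁) := by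
    rw [slope_of_Y_ne rfl hyne, hneg, h1]
    congr 1
    · ring
    · ring
  have hvl : 1 < A.valuation (W.slope x₁ x₁ y₁ y₁) := by
    rw [hsl, map_div₀, hder, map_mul, h2, one_mul, one_div]
    exact (one_lt_inv₀ hvy0).2 hvy
  have hvl2 : 1 < A.valuation (W.slope x₁ x₁ y₁ y₁ ^ 2) := by
    rw [map_pow]; exact one_lt_pow₀ hvl (by norm_num)
  have hrest : A.valuation (W.a₂ + 2 * x₁) ≤ 1 :=
    (A.valuation_le_one_iff _).2 (add_mem ha2A (mul_mem h2A hx1A))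
  have hX : W.addX x₁ x₁ (W.slope x₁ x₁ y₁ y₁) =
      W.slope x₁ x₁ y₁ y₁ ^ 2 - (W.a₂ + 2 * x₁) := by
    rw [addX, h1]; ring
  rw [← A.valuation_le_one_iff, not_le, hX,
    Valuation.map_sub_eq_of_lt_left _ (lt_of_le_of_lt hrest hvl2)]
  exact hvl2

end val

section points

variable (A : ValuationSubring K) {W : Affine K}

/-- a nonzero point of `E¹` in coordinates. -/
theorem h70g_E1_coords {T : W.Point} (hT : InE1 A T) (hT0 : T ≠ 0) :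
    ∃ (x₂ y₂ : K) (h₂ : W.Nonsingular x₂ y₂), T = Point.some x₂ y₂ h₂ ∧ x₂ ∉ A := by
  rcases hT with rfl | h
  · exact absurd rfl hT0
  · exact h

/-- **(b), nonsingular reduction, point form.**  `Q = (x₁, y₁)` with `x₁ ∈ A`, `y₁` a unit,
`T ≠ 0` in `E¹`, `Q + T = (x₃, y₃)`: `v(x₃ - x₁) = v(z_T)`. -/
theorem h70g_shift_unit_pt (h1 : W.a₁ = 0) (h3 : W.a₃ = 0) (h6 : W.a₆ = 0)
    (ha2 : W.a₂ ∈ A) (ha4 : W.a₄ ∈ A) (h2 : A.valuation (2 : K) = 1) {x₁ y₁ x₃ y₃ : K}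
    (hQ : W.Nonsingular x₁ y₁) (hR : W.Nonsingular x₃ y₃) {T : W.Point} (hT : InE1 A T)
    (hT0 : T ≠ 0) (hadd : Point.some x₁ y₁ hQ + T = Point.some x₃ y₃ hR)
    (hx1 : x₁ ∈ A) (hy1 : A.valuation y₁ = 1) :
    A.valuation (x₃ - x₁) = A.valuation (zcoord T) := by
  obtain ⟨x₂, y₂, h₂, rfl, hx2⟩ := h70g_E1_coords A hT hT0
  have hx : x₁ ≠ x₂ := by
    rintro rfl; exact hx2 hx1
  rw [Point.add_of_X_ne hx, Point.some.injEq] at hadd
  rw [zcoord_some, h70g_val_z, ← hadd.1]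
  exact h70g_shift_unit A W h1 h3 h6 ha2 ha4 h2 hQ.1 h₂.1 hx1 hx2 hy1

/-- **(b), node, point form.**  `Q = (x₁, y₁)` with `x₁` a nonzero nonunit, `a₄ / x₁` a
nonunit, `a₂` a unit, `T ≠ 0` in `E¹`, `Q + T = (x₃, y₃)`: `v(x₃ - x₁) = v(x₁) v(z_T)`. -/
theorem h70g_shift_node_pt (h1 : W.a₁ = 0) (h3 : W.a₃ = 0) (h6 : W.a₆ = 0)
    (ha2 : A.valuation W.a₂ = 1) (h2 : A.valuation (2 : K) = 1) {x₁ y₁ x₃ y₃ : K}
    (hQ : W.Nonsingular x₁ y₁) (hR : W.Nonsingular x₃ y₃) {T : W.Point} (hT : InE1 A T)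
    (hT0 : T ≠ 0) (hadd : Point.some x₁ y₁ hQ + T = Point.some x₃ y₃ hR)
    (hx1 : x₁ ∈ A.nonunits) (hx0 : x₁ ≠ 0) (hann : W.a₄ / x₁ ∈ A.nonunits) :
    A.valuation (x₃ - x₁) = A.valuation x₁ * A.valuation (zcoord T) := by
  obtain ⟨x₂, y₂, h₂, rfl, hx2⟩ := h70g_E1_coords A hT hT0
  have hx1A : x₁ ∈ A := (A.valuation_le_one_iff _).1 (A.mem_nonunits_iff.1 hx1).le
  have hx : x₁ ≠ x₂ := by
    rintro rfl; exact hx2 hx1A
  rw [Point.add_of_X_ne hx, Point.some.injEq] at hadd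
  rw [zcoord_some, h70g_val_z, ← hadd.1]
  exact h70g_shift_node A W h1 h3 h6 ha2 h2 hQ.1 h₂.1 hx1 hx0 hann hx2

/-- **(c) doubling, point form.**  `2 Q ∈ E¹` for a point `Q = (x₁, y₁)` with `x₁` a unit and
`y₁` a nonunit. -/
theorem h70g_double (h1 : W.a₁ = 0) (h3 : W.a₃ = 0) (h6 : W.a₆ = 0)
    (ha2 : A.valuation W.a₂ = 1) (ha4 : W.a₄ ∈ A.nonunits) (h2 : A.valuation (2 : K) = 1)
    {x₁ y₁ : K} (hQ : W.Nonsingular x₁ y₁) (hx1 : A.valuation x₁ = 1)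
    (hy1 : y₁ ∈ A.nonunits) :
    InE1 A (Point.some x₁ y₁ hQ + Point.some x₁ y₁ hQ) := by
  by_cases hy0 : y₁ = 0
  · subst hy0
    have hneg : W.negY x₁ 0 = 0 := by rw [negY, h1, h3]; ring
    rw [Point.add_self_of_Y_eq hneg.symm]
    exact inE1_zero A
  · obtain ⟨hyne, hX⟩ := h70g_double_val A W h1 h3 h6 ha2 ha4 h2 hQ.1 hx1 hy1 hy0
    rw [Point.add_self_of_Y_ne hyne]
    exact (inE1_some A _).2 hX

/-- **(c) doubling, `nsmul` form.** -/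
theorem h70g_double_nsmul (h1 : W.a₁ = 0) (h3 : W.a₃ = 0) (h6 : W.a₆ = 0)
    (ha2 : A.valuation W.a₂ = 1) (ha4 : W.a₄ ∈ A.nonunits) (h2 : A.valuation (2 : K) = 1)
    {x₁ y₁ : K} (hQ : W.Nonsingular x₁ y₁) (hx1 : A.valuation x₁ = 1)
    (hy1 : y₁ ∈ A.nonunits) :
    InE1 A ((2 : ℕ) • Point.some x₁ y₁ hQ) := by
  rw [two_nsmul]
  exact h70g_double A h1 h3 h6 ha2 ha4 h2 hQ hx1 hy1

end points

end Fermat.Agent.P7
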