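import Fermat.Agent.S13.AtPMul
import Fermat.Agent.S13.LadderDiv
import Fermat.Agent.S13.BigRoot

/-!
# Wave 7 (S44), LOCAL-MULT leaf BIG (helper71)

Short model `y² = x³ + a₂ x² + a₄ x` over a field `K` of characteristic zero, `a₂, a₄` in a
valuation subring `A` over the odd prime `p`.  A nonzero `p`-torsion point `T = (x, y)` in the
kernel of reduction (`x ∉ A`) is shallow:

  `v(p) · v(x) ^ ((p - 1) / 2) ≤ 1`,   equivalently   `v(p) ≤ v(x / y) ^ (p - 1)`.

Proof: the `(p - 1) / 2` points `k T`, `1 ≤ k ≤ (p - 1) / 2`, have pairwise distinct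
`x`-coordinates, all of valuation `v(x)` (`S13.val_x_nsmul`), all roots of the division polynomial
(`S13.T_exists_divPoly`: leading coefficient `p`, coefficients in `A`); apply the big-root bound
(`S13.bigRoot_bound`).
-/

set_option autoImplicit false
set_option linter.unusedSectionVars false

namespace Fermat.Agent.P7

open WeierstrassCurve WeierstrassCurve.Affine Polynomial
open Fermat.Agent.S51 Fermat.Agent.S13

section Big

variable {K : Type*} [Field K] [DecidableEq K]

/-- A natural number prime to `p` is a unit at a valuation subring over `p`. -/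
theorem h71b_val_nat_eq_one (A : ValuationSubring K) {p : ℕ} (hp : p.Prime)
    (hA : (p : K) ∈ A.nonunits) (k : ℕ) (hk : ¬ p ∣ k) : A.valuation (k : K) = 1 := by
  have hle : A.valuation (k : K) ≤ 1 := (A.valuation_le_one_iff _).mpr (natCast_mem A k)
  refine le_antisymm hle (not_lt.mp fun hlt => ?_)
  have hcop : IsCoprime (p : ℤ) (k : ℤ) := by
    refine (Nat.prime_iff_prime_int.mp hp).coprime_iff_not_dvd.mpr ?_
    intro h
    exact hk (Int.natCast_dvd_natCast.mp h)
  obtain ⟨a, b, hab⟩ := hcop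
  have hpv : A.valuation (p : K) < 1 := A.mem_nonunits_iff.mp hA
  have h1 : A.valuation ((a : K) * (p : K)) < 1 := by
    rw [map_mul]
    calc A.valuation (a : K) * A.valuation (p : K) ≤ 1 * A.valuation (p : K) := by
          gcongr
          exact (A.valuation_le_one_iff _).mpr (intCast_mem A a)
      _ < 1 := by rw [one_mul]; exact hpv
  have h2 : A.valuation ((b : K) * (k : K)) < 1 := by
    rw [map_mul]
    calc A.valuation (b : K) * A.valuation (k : K) ≤ 1 * A.valuation (k : K) := by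
          gcongr
          exact (A.valuation_le_one_iff _).mpr (intCast_mem A b)
      _ < 1 := by rw [one_mul]; exact hlt
  have h3 : ((a : K) * (p : K)) + ((b : K) * (k : K)) = 1 := by
    have := congrArg (fun t : ℤ => (t : K)) hab
    simpa using this
  have h4 := Valuation.map_add_lt A.valuation h1 h2
  rw [h3, map_one] at h4
  exact lt_irrefl _ h4

/-- For a point `T ≠ 0` killed by the prime `p`: `n • T = 0 ↔ p ∣ n`. -/
theorem h71b_nsmul_eq_zero_iff {G : Type*} [AddCommGroup G] {p : ℕ} (hp : p.Prime) {T : G}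
    (hT0 : T ≠ 0) (hT : p • T = 0) (n : ℕ) : n • T = 0 ↔ p ∣ n := by
  have ho : addOrderOf T = p := by
    have hd : addOrderOf T ∣ p := addOrderOf_dvd_of_nsmul_eq_zero hT
    rcases (Nat.dvd_prime hp).mp hd with h | h
    · exact absurd (AddMonoid.addOrderOf_eq_one_iff.mp h) hT0
    · exact h
  rw [← ho]
  exact addOrderOf_dvd_iff_nsmul_eq_zero.symm

/-- integer version. -/
theorem h71b_zsmul_eq_zero_iff {G : Type*} [AddCommGroup G] {p : ℕ} (hp : p.Prime) {T : G}
    (hT0 : T ≠ 0) (hT : p • T = 0) (n : ℤ) : n • T = 0 ↔ (p : ℤ) ∣ n := by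
  have ho : addOrderOf T = p := by
    have hd : addOrderOf T ∣ p := addOrderOf_dvd_of_nsmul_eq_zero hT
    rcases (Nat.dvd_prime hp).mp hd with h | h
    · exact absurd (AddMonoid.addOrderOf_eq_one_iff.mp h) hT0
    · exact h
  rw [← ho]
  exact addOrderOf_dvd_iff_zsmul_eq_zero.symm

/-- **LOCAL-MULT, leaf BIG.**  On the short model with `a₂, a₄ ∈ A`, `A` over the odd prime `p`:
a nonzero `p`-torsion point `(x, y)` with `x ∉ A` has `v(p) · v(x) ^ ((p - 1) / 2) ≤ 1`. -/
theorem h71b_big [CharZero K] (A : ValuationSubring K) (W : WeierstrassCurve K)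
    (h1 : W.a₁ = 0) (h3 : W.a₃ = 0) (h6 : W.a₆ = 0) (h2 : W.a₂ ∈ A) (h4 : W.a₄ ∈ A)
    (hΔ : W.Δ ≠ 0) {p : ℕ} (hp : p.Prime) (hp2 : p ≠ 2) (hA : (p : K) ∈ A.nonunits)
    {x y : K} (h : W.toAffine.Nonsingular x y) (hx : x ∉ A)
    (hT : p • Affine.Point.some x y h = 0) :
    A.valuation (p : K) * A.valuation x ^ ((p - 1) / 2) ≤ 1 := by
  classical
  set T : W.toAffine.Point := Affine.Point.some x y h with hTdef
  have hT0 : T ≠ 0 := Affine.Point.some_ne_zero h
  obtain ⟨D, hD0, -, hlc, hcoef, hroot, -⟩ := T_exists_divPoly (E := W.toAffine) hΔ p hp hp2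
  -- the coefficients of `D` lie in `A`
  have hb2 : W.toAffine.b₂ ∈ A.toSubring := by
    have e : W.b₂ = 4 * W.a₂ := by simp only [WeierstrassCurve.b₂, h1]; ring
    show W.b₂ ∈ A
    rw [e]
    exact A.mul_mem _ _ (by exact_mod_cast natCast_mem A 4) h2
  have hb4 : W.toAffine.b₄ ∈ A.toSubring := by
    have e : W.b₄ = 2 * W.a₄ := by simp only [WeierstrassCurve.b₄, h1]; ring
    show W.b₄ ∈ A
    rw [e]
    exact A.mul_mem _ _ (by exact_mod_cast natCast_mem A 2) h4
  have hb6 : W.toAffine.b₆ ∈ A.toSubring := by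
    have e : W.b₆ = 0 := by simp only [WeierstrassCurve.b₆, h3, h6]; ring
    show W.b₆ ∈ A
    rw [e]
    exact A.zero_mem
  have hb8 : W.toAffine.b₈ ∈ A.toSubring := by
    have e : W.b₈ = -(W.a₄ * W.a₄) := by simp only [WeierstrassCurve.b₈, h1, h3, h6]; ring
    show W.b₈ ∈ A
    rw [e]
    exact A.neg_mem _ (A.mul_mem _ _ h4 h4)
  have hDA : ∀ i, D.coeff i ∈ A := fun i => hcoef A.toSubring hb2 hb4 hb6 hb8 i
  set m := (p - 1) / 2 with hm
  have hp1 : 1 < p := hp.one_lt
  have hm2 : 2 * m < p := by omega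
  have hkp : ∀ k ∈ Finset.Icc 1 m, ¬ p ∣ k := by
    intro k hk hd
    rw [Finset.mem_Icc] at hk
    have := Nat.le_of_dvd (by omega) hd
    omega
  have key : ∀ k ∈ Finset.Icc 1 m, k • T ≠ 0 ∧ D.IsRoot (A_x (k • T)) ∧ A_x (k • T) ∉ A ∧
      A.valuation (A_x (k • T)) = A.valuation x := by
    intro k hk
    have hne : k • T ≠ 0 := fun h0 => hkp k hk ((h71b_nsmul_eq_zero_iff hp hT0 hT k).mp h0)
    have hpk : p • (k • T) = 0 := by rw [smul_comm, hT, smul_zero]
    obtain ⟨x', y', h', hP', hx', hv⟩ :=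
      val_x_nsmul A W h1 h3 h6 h2 h4 h hx k (h71b_val_nat_eq_one A hp hA k (hkp k hk))
    refine ⟨hne, (hroot _ hne).mp hpk, ?_, ?_⟩
    · rw [hTdef, hP', A_x_some]; exact hx'
    · rw [hTdef, hP', A_x_some]; exact hv
  have hinj : Set.InjOn (fun k : ℕ => A_x (k • T)) (Finset.Icc 1 m : Finset ℕ) := by
    intro k hk k' hk' hkk
    have hk1 := Finset.mem_Icc.mp (Finset.mem_coe.mp hk)
    have hk1' := Finset.mem_Icc.mp (Finset.mem_coe.mp hk')
    have hkk' : A_x (k • T) = A_x (k' • T) := hkk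
    rcases (A_x_eq_iff _ (key k hk).1 (key k' hk').1).mp hkk' with e | e
    · have e' : ((k : ℤ) - (k' : ℤ)) • T = 0 := by
        rw [sub_smul, natCast_zsmul, natCast_zsmul, e, sub_self]
      have hd := (h71b_zsmul_eq_zero_iff hp hT0 hT _).mp e'
      obtain ⟨c, hc⟩ := hd
      have hc0 : c = 0 := by
        by_contra hc0
        have h1c : 1 ≤ |c| := Int.one_le_abs hc0
        have habs : |(k : ℤ) - (k' : ℤ)| = (p : ℤ) * |c| := by
          rw [hc, abs_mul, abs_of_nonneg (by positivity : (0 : ℤ) ≤ (p : ℤ))]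
        have hlt : |(k : ℤ) - (k' : ℤ)| < (p : ℤ) := by
          rw [abs_lt]
          constructor <;> omega
        nlinarith
      rw [hc0, mul_zero] at hc
      omega
    · exfalso
      have e' : ((k : ℤ) + (k' : ℤ)) • T = 0 := by
        rw [add_smul, natCast_zsmul, natCast_zsmul, e, neg_add_cancel]
      have hd := (h71b_zsmul_eq_zero_iff hp hT0 hT _).mp e'
      have hd' : p ∣ k + k' := by exact_mod_cast hd
      have := Nat.le_of_dvd (by omega) hd'
      omega
  have hb := bigRoot_bound A D hD0 hDA ((Finset.Icc 1 m).image (fun k : ℕ => A_x (k • T)))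
    (by
      intro z hz
      obtain ⟨k, hk, rfl⟩ := Finset.mem_image.mp hz
      exact ⟨(key k hk).2.1, (key k hk).2.2.1⟩)
  rw [hlc, Finset.prod_image hinj,
    Finset.prod_congr rfl (fun k hk => (key k hk).2.2.2), Finset.prod_const, Nat.card_Icc] at hb
  simpa using hb

/-- **LOCAL-MULT, leaf BIG**, in terms of the parameter `z = x / y`:
`v(p) ≤ v(x / y) ^ (p - 1)`. -/
theorem h71b_big_z [CharZero K] (A : ValuationSubring K) (W : WeierstrassCurve K)
    (h1 : W.a₁ = 0) (h3 : W.a₃ = 0) (h6 : W.a₆ = 0) (h2 : W.a₂ ∈ A) (h4 : W.a₄ ∈ A)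
    (hΔ : W.Δ ≠ 0) {p : ℕ} (hp : p.Prime) (hp2 : p ≠ 2) (hA : (p : K) ∈ A.nonunits)
    {x y : K} (h : W.toAffine.Nonsingular x y) (hx : x ∉ A)
    (hT : p • Affine.Point.some x y h = 0) :
    A.valuation (p : K) ≤ A.valuation (x / y) ^ (p - 1) := by
  have hb := h71b_big A W h1 h3 h6 h2 h4 hΔ hp hp2 hA h hx hT
  have hz := val_x_mul_val_z_sq A W h1 h3 h6 h2 h4 h.1 hx
  set m := (p - 1) / 2 with hm
  have hpm : p - 1 = 2 * m := by
    rcases hp.eq_two_or_odd with h2' | hodd
    · exact absurd h2' hp2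
    · omega
  rw [hpm, pow_mul]
  set r := A.valuation (x / y) ^ 2 with hr
  have hxr : A.valuation x * r = 1 := hz
  calc A.valuation (p : K) = A.valuation (p : K) * (A.valuation x * r) ^ m := by
        rw [hxr, one_pow, mul_one]
    _ = (A.valuation (p : K) * A.valuation x ^ m) * r ^ m := by rw [mul_pow, mul_assoc]
    _ ≤ 1 * r ^ m := by gcongr
    _ = r ^ m := one_mul _

/-- **LOCAL-MULT, leaf BIG**, point form: a nonzero `p`-torsion point of the kernel of
reduction `E₁` has `v(p) ≤ v(z) ^ (p - 1)`, `z = x / y`. -/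
theorem h71b_big_E1 [CharZero K] (A : ValuationSubring K) (W : WeierstrassCurve K)
    (h1 : W.a₁ = 0) (h3 : W.a₃ = 0) (h6 : W.a₆ = 0) (h2 : W.a₂ ∈ A) (h4 : W.a₄ ∈ A)
    (hΔ : W.Δ ≠ 0) {p : ℕ} (hp : p.Prime) (hp2 : p ≠ 2) (hA : (p : K) ∈ A.nonunits)
    {P : W.toAffine.Point} (hP0 : P ≠ 0) (hP : p • P = 0)
    (hE1 : Fermat.Agent.S05.H97.InE1 A W P) :
    A.valuation (p : K) ≤ A.valuation (Fermat.Agent.S05.H97.zOf W P) ^ (p - 1) := by
  rcases hE1 with h0 | ⟨x, y, h, rfl, hx⟩
  · exact absurd h0 hP0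
  · rw [Fermat.Agent.S05.H97.zOf_some]
    exact h71b_big_z A W h1 h3 h6 h2 h4 hΔ hp hp2 hA h hx hP

end Big

end Fermat.Agent.P7
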