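import Mathlib

/-!
# Wave 7 (S44 / S40), LOCAL-MULT, leaf ALG: a unit Kummer generator from a witness (helper87)

Mathlib only.  `L / F` fields, `A` a valuation subring of `L`, `I₁` a subgroup of
`L ≃ₐ[F] L`, `ζ` a primitive `p`-th root of unity fixed by `I₁`, `b : L ≃ₐ[F] L`, `z ∈ L` with
`b ^ p z = z`, and every `a ∈ I₁` acts on the orbit `b ^ i z` as a shift `i ↦ i + k`
(`hact`; `Triv a` is any property implied by `p ∣ k`, e.g. "`a` is trivial on `W[p]`").

* `h87k_unit_of_witness` (strict form, no constant): if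
  `¬ v (b z - z) ≤ v (ζ - 1) * v z` then there is a unit `β` of `A` with `β ^ p` fixed by `I₁`
  and `Triv a` for every `a ∈ I₁` fixing `β`.
* `h87k_unit_of_witness_const` (form with an `I₁`-fixed constant `c ≠ 0`): the same conclusion
  from `v z ≤ v c` and `v (ζ - 1) * v c ≤ v (b z - z)`.
* `h87k_unit_of_ratio` : the underlying ratio lemma (two nonzero eigenvectors of distinct
  weights and equal valuation).

The proof uses the Lagrange resolvents `β_j = ∑ i, ζ ^ (- i j) b ^ i z` of the witness itself: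
`a β_j = ζ ^ (j k) β_j`, `p z = ∑ β_j`, `p (b z - z) = ∑ (ζ ^ j - 1) β_j`.  Either two nonzero
resolvents (or a nonzero resolvent `β_j`, `j ≠ 0`, and `p c`) have the same valuation, and
their ratio is the unit; or the nonzero resolvents have pairwise distinct valuations, and then
`v (p (b z - z)) ≤ v (ζ - 1) v (p z)`.  No Galois correspondence is used; `A` need not be
stable under `b` or `I₁`.
-/

set_option autoImplicit false
set_option linter.unusedSectionVars false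
set_option linter.style.haveILetI false
set_option linter.unusedVariables false

open Finset

noncomputable section

namespace Fermat.Agent.P7

section Orbit

variable {F L : Type*} [Field F] [Field L] [Algebra F L]

/-- the orbit `i ↦ b ^ i z`. -/
def h87kO (b : L ≃ₐ[F] L) (z : L) (i : ℕ) : L := (b ^ i) z

theorem h87kO_zero (b : L ≃ₐ[F] L) (z : L) : h87kO b z 0 = z := by
  simp [h87kO]

theorem h87kO_one (b : L ≃ₐ[F] L) (z : L) : h87kO b z 1 = b z := by
  simp [h87kO]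

theorem h87kO_add (b : L ≃ₐ[F] L) (z : L) (i k : ℕ) :
    (b ^ k) (h87kO b z i) = h87kO b z (i + k) := by
  unfold h87kO
  rw [← AlgEquiv.mul_apply, ← pow_add, add_comm]

theorem h87kO_add_mul (b : L ≃ₐ[F] L) (z : L) {p : ℕ} (hbp : (b ^ p) z = z) (i t : ℕ) :
    h87kO b z (i + p * t) = h87kO b z i := by
  induction t with
  | zero => simp
  | succ t ih =>
    have e : i + p * (t + 1) = p + (i + p * t) := by ring
    rw [e]
    unfold h87kO at ih ⊢
    rw [pow_add, pow_add, AlgEquiv.mul_apply, AlgEquiv.mul_apply]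
    have e2 : (b ^ i) ((b ^ (p * t)) z) = (b ^ i) z := by
      rw [← AlgEquiv.mul_apply, ← pow_add]
      exact ih
    rw [e2]
    rw [← AlgEquiv.mul_apply, ← pow_add, add_comm, pow_add, AlgEquiv.mul_apply, hbp]

theorem h87kO_mod (b : L ≃ₐ[F] L) (z : L) {p : ℕ} (hbp : (b ^ p) z = z) (i : ℕ) :
    h87kO b z (i % p) = h87kO b z i := by
  conv_rhs => rw [← Nat.mod_add_div i p]
  exact (h87kO_add_mul b z hbp (i % p) (i / p)).symm

end Orbit

section Res

variable {F L : Type*} [Field F] [Field L] [Algebra F L] {p : ℕ} [Fact p.Prime]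

/-- the character `i ↦ ζ ^ i` of `ZMod p`. -/
def h87kE (ζ : L) (i : ZMod p) : L := ζ ^ i.val

theorem h87kE_zero (ζ : L) : h87kE (p := p) ζ 0 = 1 := by
  simp [h87kE]

theorem h87kE_add {ζ : L} (hζ : ζ ^ p = 1) (i j : ZMod p) :
    h87kE ζ (i + j) = h87kE ζ i * h87kE ζ j := by
  unfold h87kE
  rw [← pow_add, ZMod.val_add]
  exact (pow_eq_pow_mod (i.val + j.val) hζ).symm

theorem h87kE_natCast {ζ : L} (hζ : ζ ^ p = 1) (k : ℕ) :
    h87kE ζ ((k : ℕ) : ZMod p) = ζ ^ k := by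
  unfold h87kE
  rw [ZMod.val_natCast]
  exact (pow_eq_pow_mod k hζ).symm

theorem h87kE_pow {ζ : L} (hζ : ζ ^ p = 1) (i : ZMod p) : h87kE ζ i ^ p = 1 := by
  unfold h87kE
  rw [← pow_mul, mul_comm, pow_mul, hζ, one_pow]

theorem h87kE_ne_zero {ζ : L} (hζ : ζ ^ p = 1) (i : ZMod p) : h87kE ζ i ≠ 0 := by
  intro h
  have := h87kE_pow hζ i
  rw [h, zero_pow (Fact.out : p.Prime).ne_zero] at this
  exact zero_ne_one this

theorem h87kE_eq_one_iff {ζ : L} (hζ : IsPrimitiveRoot ζ p) (i : ZMod p) :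
    h87kE ζ i = 1 ↔ i = 0 := by
  constructor
  · intro h
    unfold h87kE at h
    have hd : p ∣ i.val := (hζ.pow_eq_one_iff_dvd _).1 h
    have hlt : i.val < p := ZMod.val_lt i
    have h0 : i.val = 0 := Nat.eq_zero_of_dvd_of_lt hd hlt
    exact (ZMod.val_eq_zero i).1 h0
  · rintro rfl
    exact h87kE_zero ζ

theorem h87kE_map {ζ : L} (a : L ≃ₐ[F] L) (ha : a ζ = ζ) (i : ZMod p) :
    a (h87kE ζ i) = h87kE ζ i := by
  unfold h87kE
  rw [map_pow, ha]

/-- orthogonality. -/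
theorem h87k_orth {ζ : L} (hζ : IsPrimitiveRoot ζ p) (c : ZMod p) :
    ∑ j : ZMod p, h87kE ζ (j * c) = if c = 0 then (p : L) else 0 := by
  have h1 : ζ ^ p = 1 := hζ.pow_eq_one
  split_ifs with hc
  · subst hc
    simp [h87kE_zero, ZMod.card]
  · have hS : h87kE ζ c * ∑ j : ZMod p, h87kE ζ (j * c) = ∑ j : ZMod p, h87kE ζ (j * c) := by
      rw [Finset.mul_sum]
      refine Fintype.sum_equiv (Equiv.addRight (1 : ZMod p)) _ _ (fun j => ?_)
      rw [← h87kE_add h1]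
      congr 1
      simp only [Equiv.coe_addRight]
      ring
    have hne : h87kE ζ c - 1 ≠ 0 := by
      intro h
      exact hc ((h87kE_eq_one_iff hζ c).1 (sub_eq_zero.1 h))
    have h0 : (h87kE ζ c - 1) * ∑ j : ZMod p, h87kE ζ (j * c) = 0 := by
      rw [sub_mul, hS, one_mul, sub_self]
    exact (mul_eq_zero.1 h0).resolve_left hne

/-- the orbit indexed by `ZMod p`. -/
def h87kOz (b : L ≃ₐ[F] L) (z : L) (i : ZMod p) : L := h87kO b z i.val

theorem h87kOz_zero (b : L ≃ₐ[F] L) (z : L) : h87kOz (p := p) b z 0 = z := by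
  simp [h87kOz, h87kO_zero]

theorem h87kOz_one (b : L ≃ₐ[F] L) (z : L) : h87kOz (p := p) b z 1 = b z := by
  haveI : Fact (1 < p) := ⟨(Fact.out : p.Prime).one_lt⟩
  simp [h87kOz, ZMod.val_one, h87kO_one]

theorem h87kOz_natCast (b : L ≃ₐ[F] L) (z : L) (hbp : (b ^ p) z = z) (i : ℕ) :
    h87kOz (p := p) b z (i : ZMod p) = h87kO b z i := by
  unfold h87kOz
  rw [ZMod.val_natCast]
  exact h87kO_mod b z hbp i

theorem h87kOz_add (b : L ≃ₐ[F] L) (z : L) (hbp : (b ^ p) z = z) (i : ZMod p) (k : ℕ) :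
    h87kO b z (i.val + k) = h87kOz b z (i + (k : ZMod p)) := by
  unfold h87kOz
  rw [ZMod.val_add, ZMod.val_natCast, Nat.add_mod_mod, h87kO_mod b z hbp]

/-- the Lagrange resolvents of the orbit. -/
def h87kB (ζ : L) (b : L ≃ₐ[F] L) (z : L) (j : ZMod p) : L :=
  ∑ i : ZMod p, h87kE ζ (-(j * i)) * h87kOz b z i

/-- the action on the resolvents: an element acting on the orbit as the shift by `k` multiplies
`β_j` by `ζ ^ (j k)`. -/
theorem h87kB_map {ζ : L} (hζ : ζ ^ p = 1) (b : L ≃ₐ[F] L) (z : L) (hbp : (b ^ p) z = z)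
    (a : L ≃ₐ[F] L) (ha : a ζ = ζ) (k : ℕ)
    (hk : ∀ i : ℕ, a (h87kO b z i) = h87kO b z (i + k)) (j : ZMod p) :
    a (h87kB ζ b z j) = h87kE ζ (j * (k : ZMod p)) * h87kB ζ b z j := by
  unfold h87kB
  rw [map_sum, Finset.mul_sum]
  refine Fintype.sum_equiv (Equiv.addRight ((k : ℕ) : ZMod p)) _ _ (fun i => ?_)
  rw [map_mul, h87kE_map a ha]
  have e1 : a (h87kOz b z i) = h87kOz b z (i + (k : ZMod p)) := by
    unfold h87kOz
    rw [hk i.val]
    exact h87kOz_add b z hbp i k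
  rw [e1, ← mul_assoc, ← h87kE_add hζ]
  simp only [Equiv.coe_addRight]
  congr 2
  ring

/-- Fourier inversion at `0`. -/
theorem h87kB_sum {ζ : L} (hζ : IsPrimitiveRoot ζ p) (b : L ≃ₐ[F] L) (z : L) :
    ∑ j : ZMod p, h87kB ζ b z j = (p : L) * z := by
  unfold h87kB
  rw [Finset.sum_comm]
  have h : ∀ i : ZMod p, ∑ j : ZMod p, h87kE ζ (-(j * i)) * h87kOz b z i
      = (if i = 0 then (p : L) else 0) * h87kOz b z i := by
    intro i
    rw [← Finset.sum_mul]
    congr 1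
    have e : ∀ j : ZMod p, h87kE ζ (-(j * i)) = h87kE ζ (j * (-i)) := by
      intro j
      congr 1
      ring
    simp only [e]
    rw [h87k_orth hζ (-i)]
    simp only [neg_eq_zero]
  simp only [h]
  rw [Finset.sum_eq_single (0 : ZMod p)]
  · simp [h87kOz_zero]
  · intro i _ hi
    simp [hi]
  · intro h0
    exact absurd (Finset.mem_univ _) h0

/-- Fourier inversion at `1`. -/
theorem h87kB_sum_one {ζ : L} (hζ : IsPrimitiveRoot ζ p) (b : L ≃ₐ[F] L) (z : L) :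
    ∑ j : ZMod p, h87kE ζ j * h87kB ζ b z j = (p : L) * b z := by
  have h1 : ζ ^ p = 1 := hζ.pow_eq_one
  unfold h87kB
  simp only [Finset.mul_sum]
  rw [Finset.sum_comm]
  have h : ∀ i : ZMod p, ∑ j : ZMod p, h87kE ζ j * (h87kE ζ (-(j * i)) * h87kOz b z i)
      = (if i = 1 then (p : L) else 0) * h87kOz b z i := by
    intro i
    have e : ∀ j : ZMod p, h87kE ζ j * (h87kE ζ (-(j * i)) * h87kOz b z i)
        = h87kE ζ (j * (1 - i)) * h87kOz b z i := by
      intro j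
      rw [← mul_assoc, ← h87kE_add h1]
      congr 2
      ring
    simp only [e]
    rw [← Finset.sum_mul, h87k_orth hζ (1 - i)]
    congr 1
    by_cases hi : i = 1
    · simp [hi]
    · have : (1 : ZMod p) - i ≠ 0 := fun h => hi (sub_eq_zero.1 h).symm
      simp [hi, this]
  simp only [h]
  rw [Finset.sum_eq_single (1 : ZMod p)]
  · simp [h87kOz_one]
  · intro i _ hi
    simp [hi]
  · intro h0
    exact absurd (Finset.mem_univ _) h0

/-- `p (b z - z) = ∑ (ζ ^ j - 1) β_j`. -/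
theorem h87kB_sum_sub {ζ : L} (hζ : IsPrimitiveRoot ζ p) (b : L ≃ₐ[F] L) (z : L) :
    ∑ j : ZMod p, (h87kE ζ j - 1) * h87kB ζ b z j = (p : L) * (b z - z) := by
  simp only [sub_mul, one_mul, Finset.sum_sub_distrib]
  rw [h87kB_sum_one hζ, h87kB_sum hζ, mul_sub]

theorem h87kE_npow {ζ : L} (hζ : ζ ^ p = 1) (x : ZMod p) (m : ℕ) :
    h87kE ζ x ^ m = h87kE ζ ((m : ZMod p) * x) := by
  induction m with
  | zero => simp [h87kE_zero]
  | succ m ih =>
    rw [pow_succ, ih, ← h87kE_add hζ]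
    congr 1
    push_cast
    ring

end Res

section Val

variable {F L : Type*} [Field F] [Field L] [Algebra F L] {p : ℕ} [Fact p.Prime]

/-- the valuation of `y` is the valuation of a nonzero element fixed by `I₁`. -/
def H87kFixVal (A : ValuationSubring L) (I₁ : Subgroup (L ≃ₐ[F] L)) (y : L) : Prop :=
  ∃ c : L, c ≠ 0 ∧ (∀ a ∈ I₁, a c = c) ∧ A.valuation c = A.valuation y

/-- Bezout: if `y ^ n` (`0 < n < p`) and `y ^ p` have the valuation of fixed elements, so has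
`y`. -/
theorem h87k_fixVal_of_pow (A : ValuationSubring L) (I₁ : Subgroup (L ≃ₐ[F] L)) {y : L}
    (hy : y ≠ 0) {n : ℕ} (hn : 0 < n) (hnp : n < p) (h1 : H87kFixVal A I₁ (y ^ n))
    (h2 : H87kFixVal A I₁ (y ^ p)) : H87kFixVal A I₁ y := by
  have hp : p.Prime := Fact.out
  obtain ⟨c₁, hc₁, hf₁, hv₁⟩ := h1
  obtain ⟨c₂, hc₂, hf₂, hv₂⟩ := h2
  have hcop : Nat.Coprime n p := (Nat.coprime_of_lt_prime hn.ne' hnp hp).symm
  obtain ⟨s, -, hs⟩ := Nat.exists_mul_mod_eq_one_of_coprime hcop hp.one_lt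
  set t := n * s / p with ht
  have hst : n * s = p * t + 1 := by
    have := Nat.div_add_mod (n * s) p
    rw [hs] at this
    exact this.symm
  refine ⟨c₁ ^ s / c₂ ^ t, div_ne_zero (pow_ne_zero _ hc₁) (pow_ne_zero _ hc₂), ?_, ?_⟩
  · intro a ha
    rw [map_div₀, map_pow, map_pow, hf₁ a ha, hf₂ a ha]
  · have hvy : A.valuation y ≠ 0 := (Valuation.ne_zero_iff _).2 hy
    rw [map_div₀, map_pow, map_pow, hv₁, hv₂, map_pow, map_pow, ← pow_mul, ← pow_mul, hst,
      pow_succ]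
    rw [mul_div_assoc, mul_comm, div_mul_cancel₀]
    · exact pow_ne_zero _ hvy

end Val

section Main

variable {F L : Type*} [Field F] [Field L] [Algebra F L] {p : ℕ} [Fact p.Prime]

/-- a finite sum whose nonzero members have pairwise distinct valuations dominates each of its
members. -/
theorem h87k_le_sum {Γ₀ : Type*} [LinearOrderedCommGroupWithZero Γ₀] (v : Valuation L Γ₀)
    {ι : Type*} [Fintype ι] [DecidableEq ι] (f : ι → L)
    (hd : ∀ i j, i ≠ j → f i ≠ 0 → f j ≠ 0 → v (f i) ≠ v (f j)) (i0 : ι) :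
    v (f i0) ≤ v (∑ i, f i) := by
  by_cases h0 : f i0 = 0
  · rw [h0, map_zero]
    exact zero_le
  obtain ⟨i1, -, hmax⟩ := Finset.exists_max_image (Finset.univ : Finset ι) (fun i => v (f i))
    ⟨i0, Finset.mem_univ _⟩
  have hpos : v (f i1) ≠ 0 := by
    intro h
    have := hmax i0 (Finset.mem_univ _)
    rw [h] at this
    exact (Valuation.ne_zero_iff v).2 h0 (le_antisymm this zero_le)
  have h1 : f i1 ≠ 0 := (Valuation.ne_zero_iff v).1 hpos
  have hlt : ∀ i ∈ (Finset.univ : Finset ι).erase i1, v (f i) < v (f i1) := by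
    intro i hi
    have hne : i ≠ i1 := (Finset.mem_erase.1 hi).1
    by_cases hi0 : f i = 0
    · rw [hi0, map_zero]
      exact lt_of_le_of_ne zero_le (Ne.symm hpos)
    · exact lt_of_le_of_ne (hmax i (Finset.mem_univ _)) (hd i i1 hne hi0 h1)
  have hs : v (∑ i ∈ (Finset.univ : Finset ι).erase i1, f i) < v (f i1) :=
    Valuation.map_sum_lt v hpos hlt
  have hsum : ∑ i, f i = f i1 + ∑ i ∈ (Finset.univ : Finset ι).erase i1, f i :=
    (Finset.add_sum_erase _ _ (Finset.mem_univ i1)).symm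
  rw [hsum, Valuation.map_add_eq_of_lt_left v hs]
  exact hmax i0 (Finset.mem_univ _)

/-- `y` is an eigenvector of weight `x` for the shifts of the orbit. -/
def H87kEig (I₁ : Subgroup (L ≃ₐ[F] L)) (ζ : L) (b : L ≃ₐ[F] L) (z : L) (x : ZMod p)
    (y : L) : Prop :=
  ∀ a ∈ I₁, ∀ k : ℕ, (∀ i : ℕ, a (h87kO b z i) = h87kO b z (i + k)) →
    a y = h87kE ζ (x * (k : ZMod p)) * y

theorem h87k_eig_B (I₁ : Subgroup (L ≃ₐ[F] L)) {ζ : L} (hζ : ζ ^ p = 1)
    (hζ1 : ∀ a ∈ I₁, a ζ = ζ) (b : L ≃ₐ[F] L) (z : L) (hbp : (b ^ p) z = z) (j : ZMod p) :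
    H87kEig I₁ ζ b z j (h87kB ζ b z j) :=
  fun a ha k hk => h87kB_map hζ b z hbp a (hζ1 a ha) k hk j

theorem h87k_eig_fix (I₁ : Subgroup (L ≃ₐ[F] L)) (ζ : L) (b : L ≃ₐ[F] L) (z : L) {c : L}
    (hc : ∀ a ∈ I₁, a c = c) : H87kEig (p := p) I₁ ζ b z 0 c := by
  intro a ha k hk
  rw [zero_mul, h87kE_zero, one_mul]
  exact hc a ha

/-- **The ratio lemma**: two nonzero eigenvectors of distinct weights and equal valuation give
the unit Kummer generator. -/
theorem h87k_unit_of_ratio (A : ValuationSubring L) (I₁ : Subgroup (L ≃ₐ[F] L)) {ζ : L}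
    (hζ : IsPrimitiveRoot ζ p) (b : L ≃ₐ[F] L) (z : L) (Triv : (L ≃ₐ[F] L) → Prop)
    (hact : ∀ a ∈ I₁, ∃ k : ℕ, (∀ i : ℕ, a (h87kO b z i) = h87kO b z (i + k)) ∧
      (p ∣ k → Triv a))
    {x₁ x₂ : ZMod p} (hx : x₁ ≠ x₂) {y₁ y₂ : L} (h1 : H87kEig I₁ ζ b z x₁ y₁)
    (h2 : H87kEig I₁ ζ b z x₂ y₂) (hy₁ : y₁ ≠ 0) (hy₂ : y₂ ≠ 0)
    (hv : A.valuation y₁ = A.valuation y₂) :
    ∃ β : L, β ∈ A ∧ β⁻¹ ∈ A ∧ (∀ a ∈ I₁, a (β ^ p) = β ^ p) ∧
      ∀ a ∈ I₁, a β = β → Triv a := by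
  have hζp : ζ ^ p = 1 := hζ.pow_eq_one
  have hv2 : A.valuation y₂ ≠ 0 := (Valuation.ne_zero_iff _).2 hy₂
  have hβ0 : y₁ / y₂ ≠ 0 := div_ne_zero hy₁ hy₂
  have hvβ : A.valuation (y₁ / y₂) = 1 := by
    rw [map_div₀, hv, div_self hv2]
  have key : ∀ a ∈ I₁, ∀ k : ℕ, (∀ i : ℕ, a (h87kO b z i) = h87kO b z (i + k)) →
      a (y₁ / y₂) = h87kE ζ ((x₁ - x₂) * (k : ZMod p)) * (y₁ / y₂) := by
    intro a ha k hk
    rw [map_div₀, h1 a ha k hk, h2 a ha k hk]
    have e : h87kE ζ (x₁ * (k : ZMod p))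
        = h87kE ζ ((x₁ - x₂) * (k : ZMod p)) * h87kE ζ (x₂ * (k : ZMod p)) := by
      rw [← h87kE_add hζp]
      congr 1
      ring
    rw [e]
    have hE : h87kE ζ (x₂ * (k : ZMod p)) ≠ 0 := h87kE_ne_zero hζp _
    field_simp
  refine ⟨y₁ / y₂, ?_, ?_, ?_, ?_⟩
  · rw [← ValuationSubring.valuation_le_one_iff, hvβ]
  · rw [← ValuationSubring.valuation_le_one_iff, map_inv₀, hvβ, inv_one]
  · intro a ha
    obtain ⟨k, hk, -⟩ := hact a ha
    rw [map_pow, key a ha k hk, mul_pow, h87kE_pow hζp, one_mul]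
  · intro a ha hfix
    obtain ⟨k, hk, hT⟩ := hact a ha
    apply hT
    have e := key a ha k hk
    rw [hfix] at e
    have e1 : h87kE ζ ((x₁ - x₂) * (k : ZMod p)) = 1 := by
      have e2 : (h87kE ζ ((x₁ - x₂) * (k : ZMod p)) - 1) * (y₁ / y₂) = 0 := by
        rw [sub_mul, one_mul, ← e, sub_self]
      exact sub_eq_zero.1 ((mul_eq_zero.1 e2).resolve_right hβ0)
    have e3 : (x₁ - x₂) * (k : ZMod p) = 0 := (h87kE_eq_one_iff hζ _).1 e1
    have e4 : (k : ZMod p) = 0 := (mul_eq_zero.1 e3).resolve_left (sub_ne_zero.2 hx)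
    exact (ZMod.natCast_eq_zero_iff k p).1 e4

theorem h87k_val_zeta (A : ValuationSubring L) {ζ : L} (hζ : ζ ^ p = 1) :
    A.valuation ζ = 1 := by
  have hp : p ≠ 0 := (Fact.out : p.Prime).ne_zero
  have h : A.valuation ζ ^ p = 1 := by rw [← map_pow, hζ, map_one]
  exact (pow_eq_one_iff_left hp).mp h

theorem h87k_val_E_sub_one (A : ValuationSubring L) {ζ : L} (hζ : ζ ^ p = 1) (j : ZMod p) :
    A.valuation (h87kE ζ j - 1) ≤ A.valuation (ζ - 1) := by
  unfold h87kE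
  rw [← mul_geom_sum ζ j.val, map_mul]
  have h : A.valuation (∑ i ∈ Finset.range j.val, ζ ^ i) ≤ 1 := by
    refine Valuation.map_sum_le _ (fun i _ => ?_)
    rw [map_pow, h87k_val_zeta A hζ, one_pow]
  calc A.valuation (ζ - 1) * A.valuation (∑ i ∈ Finset.range j.val, ζ ^ i)
      ≤ A.valuation (ζ - 1) * 1 := mul_le_mul' (le_refl _) h
    _ = A.valuation (ζ - 1) := mul_one _

theorem h87k_p_ne_zero {ζ : L} (hζ : IsPrimitiveRoot ζ p) : (p : L) ≠ 0 := by
  haveI : NeZero p := ⟨(Fact.out : p.Prime).ne_zero⟩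
  exact (hζ.neZero' (R := L)).out

/-- **Unit Kummer generator from a witness, strict form** (no auxiliary constant). -/
theorem h87k_unit_of_witness (A : ValuationSubring L) (I₁ : Subgroup (L ≃ₐ[F] L)) {ζ : L}
    (hζ : IsPrimitiveRoot ζ p) (hζ1 : ∀ a ∈ I₁, a ζ = ζ) (b : L ≃ₐ[F] L) (z : L)
    (hbp : (b ^ p) z = z) (Triv : (L ≃ₐ[F] L) → Prop)
    (hact : ∀ a ∈ I₁, ∃ k : ℕ, (∀ i : ℕ, a (h87kO b z i) = h87kO b z (i + k)) ∧
      (p ∣ k → Triv a))
    (hwit : ¬ A.valuation (b z - z) ≤ A.valuation (ζ - 1) * A.valuation z) :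
    ∃ β : L, β ∈ A ∧ β⁻¹ ∈ A ∧ (∀ a ∈ I₁, a (β ^ p) = β ^ p) ∧
      ∀ a ∈ I₁, a β = β → Triv a := by
  classical
  have hζp : ζ ^ p = 1 := hζ.pow_eq_one
  by_contra hcon
  have hd : ∀ i j : ZMod p, i ≠ j → h87kB ζ b z i ≠ 0 → h87kB ζ b z j ≠ 0 →
      A.valuation (h87kB ζ b z i) ≠ A.valuation (h87kB ζ b z j) := by
    intro i j hij hi hj hv
    exact hcon (h87k_unit_of_ratio A I₁ hζ b z Triv hact hij
      (h87k_eig_B I₁ hζp hζ1 b z hbp i) (h87k_eig_B I₁ hζp hζ1 b z hbp j) hi hj hv)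
  have hle : ∀ j : ZMod p, A.valuation (h87kB ζ b z j) ≤ A.valuation ((p : L) * z) := by
    intro j
    rw [← h87kB_sum hζ b z]
    exact h87k_le_sum A.valuation _ hd j
  have hsum : A.valuation ((p : L) * (b z - z))
      ≤ A.valuation (ζ - 1) * A.valuation ((p : L) * z) := by
    rw [← h87kB_sum_sub hζ b z]
    refine Valuation.map_sum_le _ (fun j _ => ?_)
    rw [map_mul]
    exact mul_le_mul' (h87k_val_E_sub_one A hζp j) (hle j)
  apply hwit
  have hp0 : A.valuation (p : L) ≠ 0 := (Valuation.ne_zero_iff _).2 (h87k_p_ne_zero hζ)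
  rw [map_mul, map_mul, ← mul_assoc, mul_comm (A.valuation (ζ - 1)), mul_assoc] at hsum
  exact (mul_le_mul_iff_right₀ (zero_lt_iff.2 hp0)).1 hsum

/-- **Unit Kummer generator from a witness, form with a fixed constant** `c`:
`v z ≤ v c` and `v (ζ - 1) v c ≤ v (b z - z)`. -/
theorem h87k_unit_of_witness_const (A : ValuationSubring L) (I₁ : Subgroup (L ≃ₐ[F] L))
    {ζ : L} (hζ : IsPrimitiveRoot ζ p) (hζ1 : ∀ a ∈ I₁, a ζ = ζ) (b : L ≃ₐ[F] L) (z : L)
    (hbp : (b ^ p) z = z) (Triv : (L ≃ₐ[F] L) → Prop)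
    (hact : ∀ a ∈ I₁, ∃ k : ℕ, (∀ i : ℕ, a (h87kO b z i) = h87kO b z (i + k)) ∧
      (p ∣ k → Triv a))
    (c : L) (hc : c ≠ 0) (hcf : ∀ a ∈ I₁, a c = c)
    (hzc : A.valuation z ≤ A.valuation c)
    (hwit : A.valuation (ζ - 1) * A.valuation c ≤ A.valuation (b z - z)) :
    ∃ β : L, β ∈ A ∧ β⁻¹ ∈ A ∧ (∀ a ∈ I₁, a (β ^ p) = β ^ p) ∧
      ∀ a ∈ I₁, a β = β → Triv a := by
  classical
  have hζp : ζ ^ p = 1 := hζ.pow_eq_one
  have hpL : (p : L) ≠ 0 := h87k_p_ne_zero hζ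
  have hp0 : A.valuation (p : L) ≠ 0 := (Valuation.ne_zero_iff _).2 hpL
  have hpc : (p : L) * c ≠ 0 := mul_ne_zero hpL hc
  have hpcf : ∀ a ∈ I₁, a ((p : L) * c) = (p : L) * c := by
    intro a ha
    rw [map_mul, map_natCast, hcf a ha]
  by_contra hcon
  have hd : ∀ i j : ZMod p, i ≠ j → h87kB ζ b z i ≠ 0 → h87kB ζ b z j ≠ 0 →
      A.valuation (h87kB ζ b z i) ≠ A.valuation (h87kB ζ b z j) := by
    intro i j hij hi hj hv
    exact hcon (h87k_unit_of_ratio A I₁ hζ b z Triv hact hij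
      (h87k_eig_B I₁ hζp hζ1 b z hbp i) (h87k_eig_B I₁ hζp hζ1 b z hbp j) hi hj hv)
  have hle : ∀ j : ZMod p, A.valuation (h87kB ζ b z j) ≤ A.valuation ((p : L) * c) := by
    intro j
    refine le_trans (?_ : _ ≤ A.valuation ((p : L) * z)) ?_
    · rw [← h87kB_sum hζ b z]
      exact h87k_le_sum A.valuation _ hd j
    · rw [map_mul, map_mul]
      exact mul_le_mul' (le_refl _) hzc
  have hlt : ∀ j : ZMod p, j ≠ 0 →
      A.valuation (h87kB ζ b z j) < A.valuation ((p : L) * c) := by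
    intro j hj
    by_cases hB : h87kB ζ b z j = 0
    · rw [hB, map_zero]
      exact zero_lt_iff.2 ((Valuation.ne_zero_iff _).2 hpc)
    · refine lt_of_le_of_ne (hle j) (fun hv => ?_)
      exact hcon (h87k_unit_of_ratio A I₁ hζ b z Triv hact hj
        (h87k_eig_B I₁ hζp hζ1 b z hbp j) (h87k_eig_fix I₁ ζ b z hpcf) hB hpc hv)
  have hζ1ne : ζ - 1 ≠ 0 := by
    intro h
    have h1 : ζ = 1 := sub_eq_zero.1 h
    have hd1 : p ∣ 1 := (hζ.pow_eq_one_iff_dvd 1).1 (by rw [pow_one, h1])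
    exact (Fact.out : p.Prime).one_lt.ne' (Nat.dvd_one.1 hd1)
  have hv1 : A.valuation (ζ - 1) ≠ 0 := (Valuation.ne_zero_iff _).2 hζ1ne
  have hg : A.valuation (ζ - 1) * A.valuation ((p : L) * c) ≠ 0 :=
    mul_ne_zero hv1 ((Valuation.ne_zero_iff _).2 hpc)
  have hsum : A.valuation ((p : L) * (b z - z))
      < A.valuation (ζ - 1) * A.valuation ((p : L) * c) := by
    rw [← h87kB_sum_sub hζ b z]
    refine Valuation.map_sum_lt _ hg (fun j _ => ?_)
    by_cases hj : j = 0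
    · subst hj
      rw [h87kE_zero, sub_self, zero_mul, map_zero]
      exact zero_lt_iff.2 hg
    · rw [map_mul]
      calc A.valuation (h87kE ζ j - 1) * A.valuation (h87kB ζ b z j)
          ≤ A.valuation (ζ - 1) * A.valuation (h87kB ζ b z j) :=
            mul_le_mul' (h87k_val_E_sub_one A hζp j) (le_refl _)
        _ < A.valuation (ζ - 1) * A.valuation ((p : L) * c) :=
            mul_lt_mul_of_pos_left (hlt j hj) (zero_lt_iff.2 hv1)
  have hge : A.valuation (ζ - 1) * A.valuation ((p : L) * c)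
      ≤ A.valuation ((p : L) * (b z - z)) := by
    rw [map_mul, map_mul, ← mul_assoc, mul_comm (A.valuation (ζ - 1)), mul_assoc]
    exact mul_le_mul' (le_refl _) hwit
  exact absurd hsum (not_lt.2 hge)

end Main

end Fermat.Agent.P7
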