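import Fermat.Agent.P7.H64MultIface
import Fermat.Agent.P7.H64MultAlg
import Fermat.Agent.P7.H87KumUnit
import Fermat.Agent.P7.H70MultGeo
import Fermat.Agent.P7.H71MultBig
import Fermat.Agent.S13.H4AtP

/-!
# Wave 7 (S44), LOCAL-MULT, Kummer route: the CORE on a short nodal model (helper64)

`h64m_core : H64mCore` (`P7/H64MultIface.lean`).

Let `W'` be a short nodal model at the place `A` over the odd prime `p`, `b` an element of the
inertia group fixing `ζ_p`, `Q` a `p`-torsion point with `b Q ≠ Q`, `T = b Q - Q`.  Then `T` is a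
non zero `p`-torsion point of the kernel of reduction, so that `v(ζ - 1) ≤ v(z(T))` (BIG), and
`b ^ i Q = Q + i T`.  A coordinate `z` of `Q` (or of `2 Q`) is a witness for the Kummer
lemma `h87k_unit_of_witness_const`:

* `Q ∈ E₁` : `z = x / y`, `v(b z - z) = v(z(T))` (formal group law);
* `x(Q)` integral, `y(Q)` a unit : `z = x`, `v(b z - z) = v(z(T))`;
* `x(Q)` a non unit : `z = x`, `c = π ^ j` with `v(x) = v(π) ^ j`, `v(b z - z) = v(x) v(z(T))`;
* `x(Q)` a unit, `y(Q)` a non unit : `2 Q ∈ E₁`, first case for `2 Q`.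
-/

set_option autoImplicit false
set_option linter.unusedSectionVars false
set_option linter.unusedVariables false

open WeierstrassCurve WeierstrassCurve.Affine

noncomputable section

namespace Fermat.Agent.P7

open Fermat.Agent.S37 Fermat.Agent.S05

section General

variable {K : Type*} [Field K] [DecidableEq K]

/-- the shift by a point of the kernel of reduction, in the coordinate `z = x / y`. -/
theorem h64c_shift_E1 (A : ValuationSubring K) (W : WeierstrassCurve K)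
    (h1 : W.a₁ = 0) (h3 : W.a₃ = 0) (h6 : W.a₆ = 0) (h2 : W.a₂ ∈ A) (h4 : W.a₄ ∈ A)
    {R T : W.toAffine.Point} (hR : H97.InE1 A W R) (hT : H97.InE1 A W T) :
    A.valuation (H97.zOf W (R + T) - H97.zOf W R) = A.valuation (H97.zOf W T) := by
  have hval : ∀ P : W.toAffine.Point, H97.InE1 A W P → A.valuation (H97.zOf W P) < 1 := by
    rintro P (rfl | ⟨x, y, h, rfl, hx⟩)
    · rw [H97.zOf_zero, map_zero]; exact zero_lt_one
    · rw [H97.zOf_some]
      exact (H97.val_z A W h1 h3 h6 h2 h4 h.1 (H97.one_lt_val_of_not_mem A hx)).2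
  by_cases hT0 : H97.zOf W T = 0
  · have hT' : T = 0 := by
      rcases hT with rfl | ⟨x, y, h, rfl, hx⟩
      · rfl
      · exfalso
        rw [H97.zOf_some] at hT0
        have := (H97.val_z A W h1 h3 h6 h2 h4 h.1 (H97.one_lt_val_of_not_mem A hx)).1
        rw [hT0, map_zero] at this
        exact lt_irrefl _ this
    rw [hT', add_zero, sub_self, H97.zOf_zero]
  have hest := (H97.add_E1 A W h1 h3 h6 h2 h4 hR hT).2
  have hvT : 0 < A.valuation (H97.zOf W T) := by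
    rw [Valuation.pos_iff]; exact hT0
  have hsum : A.valuation (H97.zOf W R + H97.zOf W T) ≤ 1 :=
    le_trans (Valuation.map_add _ _ _) (max_le (hval R hR).le (hval T hT).le)
  have hlt : A.valuation (H97.zOf W (R + T) - H97.zOf W R - H97.zOf W T) <
      A.valuation (H97.zOf W T) := by
    refine lt_of_le_of_lt hest ?_
    calc A.valuation (H97.zOf W R + H97.zOf W T) *
          (A.valuation (H97.zOf W R) * A.valuation (H97.zOf W T))
        ≤ 1 * (A.valuation (H97.zOf W R) * A.valuation (H97.zOf W T)) := by gcongr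
      _ = A.valuation (H97.zOf W R) * A.valuation (H97.zOf W T) := one_mul _
      _ < 1 * A.valuation (H97.zOf W T) := by
          exact mul_lt_mul_of_pos_right (hval R hR) hvT
      _ = A.valuation (H97.zOf W T) := one_mul _
  have e : H97.zOf W (R + T) - H97.zOf W R =
      H97.zOf W T + (H97.zOf W (R + T) - H97.zOf W R - H97.zOf W T) := by ring
  rw [e]
  exact Valuation.map_add_eq_of_lt_left _ hlt

/-- BIG in the form used below: `v(ζ - 1) ≤ v(z(T))` for a non zero `p`-torsion point `T` of the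
kernel of reduction. -/
theorem h64c_zeta_le [CharZero K] (A : ValuationSubring K) (W : WeierstrassCurve K)
    (h1 : W.a₁ = 0) (h3 : W.a₃ = 0) (h6 : W.a₆ = 0) (h2 : W.a₂ ∈ A) (h4 : W.a₄ ∈ A)
    (hΔ : W.Δ ≠ 0) {p : ℕ} (hp : p.Prime) (hp2 : p ≠ 2) (hA : (p : K) ∈ A.nonunits)
    {ζ : K} (hζ : IsPrimitiveRoot ζ p)
    {T : W.toAffine.Point} (hT0 : T ≠ 0) (hT : p • T = 0) (hE1 : H97.InE1 A W T) :
    A.valuation (ζ - 1) ≤ A.valuation (H97.zOf W T) := by
  have hbig := h71b_big_E1 A W h1 h3 h6 h2 h4 hΔ hp hp2 hA hT0 hT hE1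
  rw [← h64m_val_one_sub_pow_card A hp hζ] at hbig
  have e : A.valuation (ζ - 1) = A.valuation (1 - ζ) := by
    rw [← neg_sub, Valuation.map_neg]
  rw [e]
  have hp1 : p - 1 ≠ 0 := by
    have := hp.two_le
    omega
  exact le_of_pow_le_pow_left₀ hp1 zero_le hbig

end General

section Galois

variable (W' : WeierstrassCurve ℚ)

theorem h64c_smul_zero (g : GQ) : g • (0 : (W'⁄Kbar).Point) = 0 :=
  smul_zero (A := (W'⁄Kbar).Point) g

theorem h64c_smul_nsmul (g : GQ) (n : ℕ) (P : (W'⁄Kbar).Point) : g • (n • P) = n • (g • P) :=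
  map_nsmul (Point.map (W' := W') g.toAlgHom) n P

/-- the `x`-coordinate of a point (`0` at the origin). -/
def h64cX : (W'⁄Kbar).Point → Kbar
  | .zero => 0
  | .some x _ _ => x

theorem h64cX_some {x y : Kbar} (h : (W'⁄Kbar).Nonsingular x y) :
    h64cX W' (Point.some x y h) = x := rfl

theorem h64cX_smul (g : GQ) (P : (W'⁄Kbar).Point) : g (h64cX W' P) = h64cX W' (g • P) := by
  rcases P with _ | ⟨x, y, h⟩
  · change g 0 = h64cX W' (g • (0 : (W'⁄Kbar).Point))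
    rw [h64c_smul_zero, map_zero]
    rfl
  · obtain ⟨h', e⟩ := Fermat.Agent.S13.h4_smul_some W' g h
    rw [e]
    rfl

theorem h64cZ_smul (g : GQ) (P : (W'⁄Kbar).Point) :
    g (H97.zOf (W'.baseChange Kbar) P) = H97.zOf (W'.baseChange Kbar) (g • P) := by
  rcases P with _ | ⟨x, y, h⟩
  · change g 0 = H97.zOf (W'.baseChange Kbar) (g • (0 : (W'⁄Kbar).Point))
    rw [h64c_smul_zero, map_zero]
    rfl
  · obtain ⟨h', e⟩ := Fermat.Agent.S13.h4_smul_some W' g h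
    rw [e]
    change g (x / y) = g x / g y
    exact map_div₀ g x y

/-- the Kummer lemma applied to an equivariant coordinate of a point. -/
theorem h64c_apply (A : ValuationSubring Kbar) {p : ℕ} [Fact p.Prime] (I₁ : Subgroup GQ)
    {ζ : Kbar} (hζ : IsPrimitiveRoot ζ p) (hζ1 : ∀ a ∈ I₁, a ζ = ζ)
    (f : (W'⁄Kbar).Point → Kbar) (hf : ∀ (g : GQ) (P : (W'⁄Kbar).Point), g (f P) = f (g • P))
    (b : GQ) (R : (W'⁄Kbar).Point) (hbp : (b ^ p) • R = R) (Triv : GQ → Prop)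
    (hact : ∀ a ∈ I₁, ∃ k : ℕ, (∀ i : ℕ, a • (b ^ i) • R = (b ^ (i + k)) • R) ∧
      (p ∣ k → Triv a))
    (c : Kbar) (hc : c ≠ 0) (hcf : ∀ a ∈ I₁, a c = c)
    (hzc : A.valuation (f R) ≤ A.valuation c)
    (hwit : A.valuation (ζ - 1) * A.valuation c ≤ A.valuation (f (b • R) - f R)) :
    ∃ β : Kbar, β ∈ A ∧ β⁻¹ ∈ A ∧ (∀ a ∈ I₁, a (β ^ p) = β ^ p) ∧
      ∀ a ∈ I₁, a β = β → Triv a := by
  have horb : ∀ i, h87kO b (f R) i = f ((b ^ i) • R) := fun i => hf (b ^ i) R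
  refine h87k_unit_of_witness_const A I₁ hζ hζ1 b (f R) ?_ Triv ?_ c hc hcf hzc ?_
  · rw [hf, hbp]
  · intro a ha
    obtain ⟨k, hk, hk'⟩ := hact a ha
    refine ⟨k, fun i => ?_, hk'⟩
    rw [horb, horb, hf, hk]
  · rw [hf]
    exact hwit

/-- points of the kernel of reduction have `v(z) < 1`. -/
theorem h64c_val_z_lt (A : ValuationSubring Kbar) (e₁ : (W'.baseChange Kbar).a₁ = 0)
    (e₃ : (W'.baseChange Kbar).a₃ = 0) (e₆ : (W'.baseChange Kbar).a₆ = 0)
    (h2 : (W'.baseChange Kbar).a₂ ∈ A) (h4 : (W'.baseChange Kbar).a₄ ∈ A)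
    {P : (W'⁄Kbar).Point} (hP : InE1 A P) :
    A.valuation (H97.zOf (W'.baseChange Kbar) P) < 1 := by
  rcases hP with rfl | ⟨x, y, h, rfl, hx⟩
  · rw [H97.zOf_zero, map_zero]
    exact zero_lt_one
  · rw [H97.zOf_some]
    exact (H97.val_z A _ e₁ e₃ e₆ h2 h4 h.1 (H97.one_lt_val_of_not_mem A hx)).2

theorem h64c_val_zcoord (A : ValuationSubring Kbar) (T : (W'⁄Kbar).Point) :
    A.valuation (K56.zcoord T) = A.valuation (H97.zOf (W'.baseChange Kbar) T) := by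
  rcases T with _ | ⟨x, y, h⟩
  · rfl
  · exact h70g_val_z A x y

/-- **CORE of LOCAL-MULT** (`H64mCore`). -/
theorem h64m_core : H64mCore := by
  intro A p hp hp2 hpA W' hW hΔ I₁ hI ζ hζ hζ1 b hb Q hQ hbQ hunip hbp Triv hact
  have : Fact p.Prime := ⟨hp⟩
  have hodd : Odd p := hp.odd_of_ne_two hp2
  have hpA' : (p : Kbar) ∈ A.nonunits := hpA
  have h2 : IsUnitOf A (2 : Kbar) := two_isUnitOf hp hpA' hp2
  have h2v : A.valuation (2 : Kbar) = 1 := h2
  have e₁ : (W'.baseChange Kbar).a₁ = 0 := by simp [WeierstrassCurve.baseChange, hW.a₁]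
  have e₂ : (W'.baseChange Kbar).a₂ = algebraMap ℚ Kbar W'.a₂ := by
    simp [WeierstrassCurve.baseChange]
  have e₃ : (W'.baseChange Kbar).a₃ = 0 := by simp [WeierstrassCurve.baseChange, hW.a₃]
  have e₄ : (W'.baseChange Kbar).a₄ = algebraMap ℚ Kbar W'.a₄ := by
    simp [WeierstrassCurve.baseChange]
  have e₆ : (W'.baseChange Kbar).a₆ = 0 := by simp [WeierstrassCurve.baseChange, hW.a₆]
  obtain ⟨π₀, u₀, h4, hπ, hπ0, hu⟩ := hW.a₄
  have ha₄ : (W'.baseChange Kbar).a₄ ∈ A.nonunits := by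
    rw [e₄, h4, map_mul, map_pow]
    exact mem_mul_nonunit A (hu.mem A) (nonunit_pow A hπ hp.ne_zero)
  have ha₄A : (W'.baseChange Kbar).a₄ ∈ A :=
    (A.valuation_le_one_iff _).mp (le_of_lt ha₄)
  have ha₂ : A.valuation (W'.baseChange Kbar).a₂ = 1 := by
    rw [e₂]
    exact hW.a₂_unit
  have ha₂A : (W'.baseChange Kbar).a₂ ∈ A := (A.valuation_le_one_iff _).mp ha₂.le
  have hΔb : (W'.baseChange Kbar).Δ ≠ 0 := by
    have : (W'.baseChange Kbar).Δ = algebraMap ℚ Kbar W'.Δ := by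
      simp [WeierstrassCurve.baseChange, WeierstrassCurve.map_Δ]
    rw [this]
    exact (map_ne_zero _).mpr hΔ
  -- the point `T = b Q - Q`
  have hTE : InE1 A (b • Q - Q) :=
    Fermat.Agent.S13.h4_inertia_sub_inE1_of_isShortNodal hodd h2 hW (hI hb) Q hQ
  generalize hTdef : b • Q - Q = T at hTE
  have hbQ' : b • Q = Q + T := by
    rw [← hTdef]
    abel
  have hT0 : T ≠ 0 := by
    rw [← hTdef]
    exact sub_ne_zero.mpr hbQ
  have hpT : p • T = 0 := by
    rw [← hTdef, nsmul_sub, ← h64c_smul_nsmul, hQ, h64c_smul_zero, sub_zero]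
  have hζT : A.valuation (ζ - 1) ≤ A.valuation (H97.zOf (W'.baseChange Kbar) T) :=
    h64c_zeta_le A (W'.baseChange Kbar) e₁ e₃ e₆ ha₂A ha₄A hΔb hp hp2 hpA' hζ hT0 hpT hTE
  -- the case of a point of the kernel of reduction
  have hE1core : ∀ (R T' : (W'⁄Kbar).Point), InE1 A R → InE1 A T' → T' ≠ 0 → p • T' = 0 →
      b • R = R + T' → (b ^ p) • R = R →
      (∀ a ∈ I₁, ∃ k : ℕ, (∀ i : ℕ, a • (b ^ i) • R = (b ^ (i + k)) • R) ∧ (p ∣ k → Triv a)) →
      ∃ β : Kbar, β ∈ A ∧ β⁻¹ ∈ A ∧ (∀ a ∈ I₁, a (β ^ p) = β ^ p) ∧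
        ∀ a ∈ I₁, a β = β → Triv a := by
    intro R T' hR hT' hT'0 hpT' hbR hbpR hactR
    have hζT' : A.valuation (ζ - 1) ≤ A.valuation (H97.zOf (W'.baseChange Kbar) T') :=
      h64c_zeta_le A (W'.baseChange Kbar) e₁ e₃ e₆ ha₂A ha₄A hΔb hp hp2 hpA' hζ hT'0 hpT' hT'
    refine h64c_apply W' A I₁ hζ hζ1 (H97.zOf (W'.baseChange Kbar)) (h64cZ_smul W') b R hbpR
      Triv hactR 1 one_ne_zero (fun a _ => map_one a) ?_ ?_
    · rw [map_one]
      exact (h64c_val_z_lt W' A e₁ e₃ e₆ ha₂A ha₄A hR).le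
    · rw [map_one, mul_one, hbR, h64c_shift_E1 A _ e₁ e₃ e₆ ha₂A ha₄A hR hT']
      exact hζT'
  rcases Q with _ | ⟨x₁, y₁, h₁⟩
  · exact absurd (h64c_smul_zero W' b) hbQ
  by_cases hx : x₁ ∈ A
  swap
  · exact hE1core _ T ((inE1_some A h₁).2 hx) hTE hT0 hpT hbQ' hbp hact
  obtain ⟨h₃, e₃'⟩ := Fermat.Agent.S13.h4_smul_some W' b h₁
  have hadd : Point.some x₁ y₁ h₁ + T = Point.some (b x₁) (b y₁) h₃ := by
    rw [← hbQ', e₃']
  have heq : y₁ ^ 2 = x₁ ^ 3 + (W'.baseChange Kbar).a₂ * x₁ ^ 2 + (W'.baseChange Kbar).a₄ * x₁ :=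
    h70g_eqn (W := (W'⁄Kbar)) e₁ e₃ e₆ h₁.1
  have hy : A.valuation y₁ ≤ 1 := by
    have hr : A.valuation (y₁ ^ 2) ≤ 1 := by
      rw [heq, A.valuation_le_one_iff]
      exact A.add_mem _ _ (A.add_mem _ _ (pow_mem hx 3) (A.mul_mem _ _ ha₂A (pow_mem hx 2)))
        (A.mul_mem _ _ ha₄A hx)
    rw [map_pow] at hr
    exact (pow_le_one_iff_of_nonneg zero_le two_ne_zero).mp hr
  by_cases hy1 : A.valuation y₁ = 1
  · -- `y` a unit
    have hsh := h70g_shift_unit_pt A e₁ e₃ e₆ ha₂A ha₄A h2v h₁ h₃ hTE hT0 hadd hx hy1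
    refine h64c_apply W' A I₁ hζ hζ1 (h64cX W') (h64cX_smul W') b _ hbp Triv hact 1 one_ne_zero
      (fun a _ => map_one a) ?_ ?_
    · rw [map_one, h64cX_some]
      exact (A.valuation_le_one_iff _).mpr hx
    · rw [map_one, mul_one, e₃', h64cX_some, h64cX_some, hsh, h64c_val_zcoord]
      exact hζT
  have hym : y₁ ∈ A.nonunits := lt_of_le_of_ne hy hy1
  by_cases hxm : x₁ ∈ A.nonunits
  · -- near the node
    have HIV : h4_IVcorStatement A := by
      intro W h3 h6 r₁ r₂ hr₁ hr₂ ha₁ ha₂ hr π u hπ hπ0 hu n hn h4 x y h hP hx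
      exact H76.torsion_node_valuation A W h3 h6 r₁ r₂ hr₁ hr₂ ha₁ ha₂ hr π u hπ hπ0 hu n hn h4
        h hP hx
    obtain ⟨hx0, hann, j, hj⟩ := h4_nodeTorsionValuation_of_IVcor hodd h2 hW HIV π₀ u₀ h4 hπ
      hπ0 hu x₁ y₁ h₁ hQ hxm
    have hsh := h70g_shift_node_pt A e₁ e₃ e₆ ha₂ h2v h₁ h₃ hTE hT0 hadd hxm hx0 hann
    have hπ0' : algebraMap ℚ Kbar π₀ ≠ 0 := (map_ne_zero _).mpr hπ0
    refine h64c_apply W' A I₁ hζ hζ1 (h64cX W') (h64cX_smul W') b _ hbp Triv hact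
      ((algebraMap ℚ Kbar π₀) ^ j) (zpow_ne_zero _ hπ0')
      (fun a _ => by rw [map_zpow₀, AlgEquiv.commutes]) ?_ ?_
    · rw [h64cX_some, map_zpow₀, hj]
    · rw [e₃', h64cX_some, h64cX_some, hsh, h64c_val_zcoord, map_zpow₀, ← hj, mul_comm]
      gcongr
  · -- `x` a unit, `y` a non unit: pass to `2 Q`
    have hx1 : A.valuation x₁ = 1 :=
      le_antisymm ((A.valuation_le_one_iff _).mpr hx) (not_lt.mp hxm)
    have h2Q : InE1 A ((2 : ℕ) • Point.some x₁ y₁ h₁) :=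
      h70g_double_nsmul A e₁ e₃ e₆ ha₂ ha₄ h2v h₁ hx1 hym
    have hz₁ : (W'.baseChange Kbar).a₁ ∈ A := by rw [e₁]; exact A.zero_mem
    have hz₃ : (W'.baseChange Kbar).a₃ ∈ A := by rw [e₃]; exact A.zero_mem
    have hz₆ : (W'.baseChange Kbar).a₆ ∈ A := by rw [e₆]; exact A.zero_mem
    have h2T : InE1 A ((2 : ℕ) • T) :=
      inE1_nsmul A (W := (W'⁄Kbar)) hz₁ ha₂A hz₃ ha₄A hz₆ hTE 2
    refine hE1core _ ((2 : ℕ) • T) h2Q h2T ?_ ?_ ?_ ?_ ?_
    · intro h0
      have hd : p ∣ 2 := (h71b_nsmul_eq_zero_iff hp hT0 hpT 2).mp h0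
      exact hp2 ((Nat.prime_dvd_prime_iff_eq hp Nat.prime_two).mp hd)
    · rw [smul_comm, hpT, nsmul_zero]
    · rw [h64c_smul_nsmul, hbQ', nsmul_add]
    · rw [h64c_smul_nsmul, hbp]
    · intro a ha
      obtain ⟨k, hk, hk'⟩ := hact a ha
      refine ⟨k, fun i => ?_, hk'⟩
      rw [h64c_smul_nsmul, h64c_smul_nsmul, hk i, h64c_smul_nsmul]

end Galois

end Fermat.Agent.P7
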