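import Fermat.Agent.P7.H77MultIface
import Fermat.Agent.S05.FreyArith

/-!
# Wave 7 (S44), LOCAL-MULT, Kummer route: the interface between CORE and WIRE (helper64)

`H64mCore` is the statement of the local core on a short nodal model `W'` over `ℚ`
(`y² = x³ + a₂ x² + a₄ x`, `a₂` a unit at `A`, `a₄ = u π ^ p`): for a place `A` over the odd
prime `p`, a subgroup `I₁` of the inertia at `A` fixing a primitive `p`-th root of unity, an
element `b` of `I₁` and a `p`-torsion point `Q` of `W'` with `b Q ≠ Q` on which `b` is unipotent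
and `b ^ p` is trivial, and such that every `a ∈ I₁` acts on the orbit of `Q` as a power `b ^ k`
(with `Triv a` as soon as `p ∣ k`), there is a unit `β` of `A` with `β ^ p` fixed by `I₁` such
that every `a ∈ I₁` fixing `β` satisfies `Triv a`.

* CORE (`P7/H64MultCore.lean`): `theorem h64m_core : H64mCore`.
* WIRE (`P7/H64MultWire.lean` or a twin): `H64mCore → H77mLocalFrey`
  (trivial case `β = 1`; otherwise LIN `h81r_lin_star`, transfer of the point along the variable
  change `W_ℚ = C • W'` by `S05.vcPointBC`, `Triv a := ∀ P : H99wTors W p, a • P = P`).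

Only definitions; nothing is assumed.
-/

set_option autoImplicit false

open WeierstrassCurve WeierstrassCurve.Affine

noncomputable section

namespace Fermat.Agent.P7

open Fermat.Agent.S37

/-- **CORE of LOCAL-MULT** on the short nodal models. -/
def H64mCore : Prop :=
  ∀ (A : ValuationSubring Kbar) (p : ℕ), p.Prime → p ≠ 2 → A.LiesOverPrime p →
    ∀ W' : WeierstrassCurve ℚ, Fermat.Agent.S05.IsShortNodal A p W' → W'.Δ ≠ 0 →
    ∀ I₁ : Subgroup GQ, I₁ ≤ A.inertiaSubgroupIn ℚ →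
    ∀ ζ : Kbar, IsPrimitiveRoot ζ p → (∀ a ∈ I₁, a ζ = ζ) →
    ∀ b ∈ I₁, ∀ Q : (W'⁄Kbar).Point, p • Q = 0 → b • Q ≠ Q →
      b • b • Q - (2 : ℤ) • b • Q + Q = 0 → (b ^ p) • Q = Q →
    ∀ Triv : GQ → Prop,
      (∀ a ∈ I₁, ∃ k : ℕ, (∀ i : ℕ, a • (b ^ i) • Q = (b ^ (i + k)) • Q) ∧ (p ∣ k → Triv a)) →
      ∃ β : Kbar, β ∈ A ∧ β⁻¹ ∈ A ∧ (∀ a ∈ I₁, a (β ^ p) = β ^ p) ∧
        ∀ a ∈ I₁, a β = β → Triv a

end Fermat.Agent.P7
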