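import Fermat.Agent.P7.H87ValNorm

/-!
# Wave 7 (S44), DLOG level design, abstract core of SYM (helper64, prefix `h64s_`)

Mathlib + `P7/H87ValNorm` only.  `Fp / F` a finite extension of fields, `V` a valuation subring
of `Fp`, `U = V ∩ F`, and a family `b` of `[Fp : F]` elements of `V` whose residues are linearly
independent over the residue field of `U` (FULL RESIDUE DEGREE, `H87vInd U V b`).

* `h64s_isIntegral` : every element of `V` is a root of a monic polynomial with coefficients
  in `U` (the characteristic polynomial of the multiplication in the basis `b`).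
* `h64s_le` : `V ≤ V'` for every valuation subring `V'` of `Fp` containing `U`.
* `h64s_unique` : **`V` is the only valuation subring of `Fp` lying over `U`**.
* `h64s_map_mem_iff` : every `F`-automorphism `σ` of `Fp` preserves `V` (`σ y ∈ V ↔ y ∈ V`), and
  `h64s_map_mem_nonunits_iff` : its maximal ideal; `h64s_val_map` : `v (σ y) = v y`.
-/

set_option autoImplicit false
set_option linter.unusedSectionVars false
set_option linter.style.haveILetI false
set_option linter.unusedVariables false

open Finset Polynomial

noncomputable section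

namespace Fermat.Agent.P7

section SymUnique

variable {F Fp : Type*} [Field F] [Field Fp] [Algebra F Fp] [FiniteDimensional F Fp]
variable {ι : Type*} [Fintype ι] [DecidableEq ι]
variable (U : ValuationSubring F) (V : ValuationSubring Fp)
  (hU : ∀ x : F, x ∈ U ↔ algebraMap F Fp x ∈ V)

include hU in
/-- every element of `V` is a root of a monic polynomial over `U`. -/
theorem h64s_isIntegral {b : ι → Fp} (hb : H87vInd U V b)
    (hcard : Fintype.card ι = Module.finrank F Fp) {y : Fp} (hy : y ∈ V) :
    ∃ q : (U : Type _)[X], q.Monic ∧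
      Polynomial.eval₂ ((algebraMap F Fp).comp U.subtype) y q = 0 := by
  set B := h87vBasis (h87v_linearIndependent U V hU hb) hcard with hB
  set M : Matrix ι ι F := Algebra.leftMulMatrix B y with hM
  have hMU : ∀ i j, M i j ∈ U := fun i j => h87v_leftMul_mem U V hU hb hcard hy i j
  set M' : Matrix ι ι U := Matrix.of (fun i j => (⟨M i j, hMU i j⟩ : U)) with hM'
  have eM : M = M'.map U.subtype := by
    ext i j
    simp [hM']
  refine ⟨M'.charpoly, Matrix.charpoly_monic M', ?_⟩
  have h1 : (M'.charpoly).map U.subtype = M.charpoly := by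
    rw [eM, Matrix.charpoly_map]
  have h2 : Polynomial.aeval M M.charpoly = 0 := Matrix.aeval_self_charpoly M
  have h3 : Polynomial.aeval y M.charpoly = 0 := by
    have h4 : Algebra.leftMulMatrix B (Polynomial.aeval y M.charpoly) = 0 := by
      rw [← Polynomial.aeval_algHom_apply, ← hM]
      exact h2
    have hinj := Algebra.leftMulMatrix_injective B
    exact hinj (by rw [h4, map_zero])
  rw [← Polynomial.eval₂_map, h1]
  exact h3

include hU in
/-- `V` is contained in every valuation subring of `Fp` containing `U`. -/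
theorem h64s_le {b : ι → Fp} (hb : H87vInd U V b)
    (hcard : Fintype.card ι = Module.finrank F Fp) (V' : ValuationSubring Fp)
    (hU' : ∀ x : F, x ∈ U → algebraMap F Fp x ∈ V') : V ≤ V' := by
  intro y hy
  obtain ⟨q, hq, hq0⟩ := h64s_isIntegral U V hU hb hcard hy
  let g : (U : Type _) →+* (V' : Type _) :=
    { toFun := fun x => ⟨algebraMap F Fp (x : F), hU' _ x.2⟩
      map_one' := by ext; simp
      map_mul' := fun x z => by ext; simp
      map_zero' := by ext; simp
      map_add' := fun x z => by ext; simp }
  have hg : (V'.subtype).comp g = (algebraMap F Fp).comp U.subtype := by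
    ext x
    rfl
  have hint : IsIntegral (V' : Type _) y := by
    refine ⟨q.map g, hq.map g, ?_⟩
    rw [Polynomial.eval₂_map]
    have : (algebraMap (V' : Type _) Fp).comp g = (algebraMap F Fp).comp U.subtype := hg
    rw [this]
    exact hq0
  obtain ⟨z, hz⟩ := IsIntegrallyClosed.isIntegral_iff.mp hint
  rw [← hz]
  exact z.2

include hU in
/-- **uniqueness of the extension**: under full residue degree, `V` is the only valuation
subring of `Fp` lying over `U`. -/
theorem h64s_unique {b : ι → Fp} (hb : H87vInd U V b)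
    (hcard : Fintype.card ι = Module.finrank F Fp) (V' : ValuationSubring Fp)
    (hU' : ∀ x : F, x ∈ U ↔ algebraMap F Fp x ∈ V') : V' = V := by
  have hle : V ≤ V' := h64s_le U V hU hb hcard V' (fun x hx => (hU' x).1 hx)
  refine le_antisymm ?_ hle
  intro y hy
  haveI : Nonempty ι := h87v_nonempty U V hU (b := b) hcard
  set B := h87vBasis (h87v_linearIndependent U V hU hb) hcard with hB
  set a : ι → F := fun i => B.repr y i with ha
  have hy_eq : ∑ i, algebraMap F Fp (a i) * b i = y :=
    h87v_sum_repr (h87v_linearIndependent U V hU hb) hcard y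
  obtain ⟨i0, hmax⟩ := h87v_exists_max U a
  by_contra hyV
  have hi0 : a i0 ∉ U := by
    intro h
    apply hyV
    rw [← hy_eq]
    refine (h87v_sum_mem_iff U V hU hb a).2 (fun i => ?_)
    rw [← ValuationSubring.valuation_le_one_iff]
    exact le_trans (hmax i) ((ValuationSubring.valuation_le_one_iff U _).2 h)
  have ha0 : a i0 ≠ 0 := fun h => hi0 (by rw [h]; exact U.zero_mem)
  have ha0' : algebraMap F Fp (a i0) ≠ 0 := fun h =>
    ha0 ((map_eq_zero_iff _ (algebraMap F Fp).injective).1 h)
  have hv := h87v_val_sum U V hU hb a i0 hmax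
  rw [hy_eq] at hv
  -- `w = y / a_{i0}` is a unit of `V`
  set w : Fp := y * (algebraMap F Fp (a i0))⁻¹ with hw
  have hw1 : V.valuation w = 1 := by
    rw [hw, map_mul, map_inv₀, hv]
    exact mul_inv_cancel₀ ((Valuation.ne_zero_iff _).2 ha0')
  have hwV : w⁻¹ ∈ V := by
    rw [← ValuationSubring.valuation_le_one_iff, map_inv₀, hw1, inv_one]
  have hwV' : w⁻¹ ∈ V' := hle hwV
  have hy0 : y ≠ 0 := by
    intro h
    rw [h, map_zero] at hv
    exact (Valuation.ne_zero_iff _).2 ha0' hv.symm
  have e : algebraMap F Fp (a i0) = y * w⁻¹ := by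
    rw [hw, mul_inv, inv_inv, ← mul_assoc, mul_inv_cancel₀ hy0, one_mul]
  have : algebraMap F Fp (a i0) ∈ V' := by
    rw [e]
    exact V'.mul_mem _ _ hy hwV'
  exact hi0 ((hU' _).2 this)

include hU in
/-- every `F`-automorphism of `Fp` preserves `V`. -/
theorem h64s_map_mem_iff {b : ι → Fp} (hb : H87vInd U V b)
    (hcard : Fintype.card ι = Module.finrank F Fp) (σ : Fp ≃ₐ[F] Fp) (y : Fp) :
    σ y ∈ V ↔ y ∈ V := by
  have h := h64s_unique U V hU hb hcard (V.comap (σ : Fp →+* Fp)) (fun x => by
    rw [ValuationSubring.mem_comap]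
    have : (σ : Fp →+* Fp) (algebraMap F Fp x) = algebraMap F Fp x := σ.commutes x
    rw [this]
    exact hU x)
  have h1 : y ∈ V.comap (σ : Fp →+* Fp) ↔ σ y ∈ V := ValuationSubring.mem_comap
  rw [← h1, h]

include hU in
/-- every `F`-automorphism of `Fp` preserves the valuation of `V`. -/
theorem h64s_val_le_iff {b : ι → Fp} (hb : H87vInd U V b)
    (hcard : Fintype.card ι = Module.finrank F Fp) (σ : Fp ≃ₐ[F] Fp) (y z : Fp) :
    V.valuation (σ y) ≤ V.valuation (σ z) ↔ V.valuation y ≤ V.valuation z := by
  by_cases hz : z = 0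
  · subst hz
    simp only [map_zero, le_zero_iff, Valuation.zero_iff]
    exact map_eq_zero_iff σ σ.injective
  · have hz' : σ z ≠ 0 := fun h => hz ((map_eq_zero_iff σ σ.injective).1 h)
    have h1 : V.valuation (σ y) ≤ V.valuation (σ z) ↔ σ (y / z) ∈ V := by
      rw [← ValuationSubring.valuation_le_one_iff, map_div₀, map_div₀,
        div_le_one₀ (zero_lt_iff.2 ((Valuation.ne_zero_iff _).2 hz'))]
    have h2 : V.valuation y ≤ V.valuation z ↔ y / z ∈ V := by
      rw [← ValuationSubring.valuation_le_one_iff, map_div₀,
        div_le_one₀ (zero_lt_iff.2 ((Valuation.ne_zero_iff _).2 hz))]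
    rw [h1, h2]
    exact h64s_map_mem_iff U V hU hb hcard σ _

include hU in
/-- every `F`-automorphism of `Fp` preserves the maximal ideal of `V`. -/
theorem h64s_map_mem_nonunits_iff {b : ι → Fp} (hb : H87vInd U V b)
    (hcard : Fintype.card ι = Module.finrank F Fp) (σ : Fp ≃ₐ[F] Fp) (y : Fp) :
    σ y ∈ V.nonunits ↔ y ∈ V.nonunits := by
  rw [ValuationSubring.mem_nonunits_iff, ValuationSubring.mem_nonunits_iff]
  have h := h64s_val_le_iff U V hU hb hcard σ 1 y
  simp only [map_one] at h
  rw [← not_le, ← not_le, h]

end SymUnique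

end Fermat.Agent.P7
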