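import Fermat.Agent.P7.H66Count
import Fermat.Agent.S21.E.Main

/-!
# Wave 7, DLOG, row DL6B GENUS-MATCH, leaf GM1 = COUNT at the level `Γ₀(M)` (helper66)

`h66g_count_level M` : there are `G ≤ dim S₂(Γ₀(M))` and `n₀` such that for every `n ≥ n₀` there
are `n * μ + 1 - G` linearly independent `Γ₀(M)`-invariant weakly holomorphic functions of
degree `≤ n` (`μ = [SL(2,ℤ) : Γ₀(M)]`): Riemann's inequality for the divisors `n (j)_∞` with the
constant `G`, on the analytic side.  (`G = t.total + 1 - μ` for a minimal tuple `t` of `S21/E`;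
the cusp forms come from the landed dual family `exists_linearIndependent_cuspForms`.)
-/

set_option autoImplicit false

open UpperHalfPlane hiding I
open Complex Filter Function Topology
open scoped Manifold MatrixGroups ModularForm Real

namespace Fermat.Agent.P7

noncomputable section

open Fermat.Agent.S21.E Fermat.Agent.S21.EPrim

/-- every tuple has total degree `≥ μ - 1`. -/
theorem h66g_total_ge {Γ : Subgroup SL(2, ℤ)} [Fintype (SL(2, ℤ) ⧸ Γ)]
    [DecidableEq (SL(2, ℤ) ⧸ Γ)] [Γ.FiniteIndex] (t : Tuple Γ) :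
    Fintype.card (SL(2, ℤ) ⧸ Γ) ≤ t.total + 1 := by
  unfold Tuple.total
  have h1 : ∑ k ∈ (Finset.univ : Finset (SL(2, ℤ) ⧸ Γ)).erase (x0 Γ), 1 ≤
      ∑ k ∈ (Finset.univ : Finset (SL(2, ℤ) ⧸ Γ)).erase (x0 Γ), t.d k :=
    Finset.sum_le_sum fun k hk => t.d_pos k (Finset.ne_of_mem_erase hk)
  have h2 : ∑ k ∈ (Finset.univ : Finset (SL(2, ℤ) ⧸ Γ)).erase (x0 Γ), t.d k ≤ ∑ k, t.d k :=
    Finset.sum_le_sum_of_subset (Finset.erase_subset _ _)
  have h3 : ∑ k ∈ (Finset.univ : Finset (SL(2, ℤ) ⧸ Γ)).erase (x0 Γ), 1 =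
      Fintype.card (SL(2, ℤ) ⧸ Γ) - 1 := by
    rw [Finset.sum_const, Finset.card_erase_of_mem (Finset.mem_univ _), Finset.card_univ,
      smul_eq_mul, mul_one]
  omega

/-- **GM1 = COUNT at the level**. -/
theorem h66g_count_level (M : ℕ) [NeZero M] :
    ∃ G n₀ : ℕ,
      G ≤ Module.finrank ℂ (CuspForm ((CongruenceSubgroup.Gamma0 M).map
        (Matrix.SpecialLinearGroup.mapGL ℝ)) 2) ∧
      ∀ n : ℕ, n₀ ≤ n →
        ∃ w : Fin (n * (CongruenceSubgroup.Gamma0 M).index + 1 - G) → (ℍ → ℂ),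
          (∀ i, IsWH (CongruenceSubgroup.Gamma0 M) n (w i)) ∧ LinearIndependent ℂ w := by
  classical
  letI : Fintype (SL(2, ℤ) ⧸ CongruenceSubgroup.Gamma0 M) :=
    Subgroup.fintypeQuotientOfFiniteIndex
  have hneg : (-1 : SL(2, ℤ)) ∈ CongruenceSubgroup.Gamma0 M := by
    rw [CongruenceSubgroup.Gamma0_mem]; simp
  obtain ⟨t, ht⟩ := exists_isMin (nonempty_tuple_Gamma0 M)
  obtain ⟨ω, hω⟩ := exists_linearIndependent_cuspForms hneg ht.saturated ht.reduced
  haveI : FiniteDimensional ℂ (CuspForm ((CongruenceSubgroup.Gamma0 M).map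
      (Matrix.SpecialLinearGroup.mapGL ℝ)) 2) :=
    Fermat.Agent.S49.finiteDimensional_cuspForm M 2
  have h2 := hω.fintype_card_le_finrank
  rw [Fintype.card_fin] at h2
  have hidx : (CongruenceSubgroup.Gamma0 M).index =
      Fintype.card (SL(2, ℤ) ⧸ CongruenceSubgroup.Gamma0 M) := by
    rw [Subgroup.index_eq_card, Nat.card_eq_fintype_card]
  have htot := h66g_total_ge t
  refine ⟨t.total + 1 - (CongruenceSubgroup.Gamma0 M).index, t.total, h2, fun n hn => ?_⟩
  have hd : ∀ k, t.d k ≤ n := fun k =>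
    le_trans (Finset.single_le_sum (f := t.d) (fun _ _ => Nat.zero_le _) (Finset.mem_univ k)) hn
  obtain ⟨w, hw1, hw2⟩ := h66g_count t n hd
  have hcard := h66g_card t n hd
  have e : (n + 1) * Fintype.card (SL(2, ℤ) ⧸ CongruenceSubgroup.Gamma0 M) - t.total =
      n * (CongruenceSubgroup.Gamma0 M).index + 1 -
        (t.total + 1 - (CongruenceSubgroup.Gamma0 M).index) := by
    rw [hidx]
    have : (n + 1) * Fintype.card (SL(2, ℤ) ⧸ CongruenceSubgroup.Gamma0 M) =
        n * Fintype.card (SL(2, ℤ) ⧸ CongruenceSubgroup.Gamma0 M) +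
          Fintype.card (SL(2, ℤ) ⧸ CongruenceSubgroup.Gamma0 M) := by ring
    omega
  refine ⟨fun i => w (Fin.cast e.symm i), fun i => hw1 _, ?_⟩
  exact hw2.comp (Fin.cast e.symm) (Fin.cast_injective _)

end

end Fermat.Agent.P7
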