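import Mathlib

/-!
# Wave 7, DLOG, row DL-LEVEL (finding 1461, step (S0)): norms and traces commute with reduction
when the residue degree is full (helper66, Mathlib only)

`F ⊆ F⁺` a finite field extension, `V ⊆ F` a valuation ring (`x ∈ V ∨ x⁻¹ ∈ V`), `V⁺ ⊆ F⁺` a
subring containing the image of `V`, reductions `ρ : V →+* κ`, `ρ⁺ : V⁺ →+* κ⁺` (fields,
`κ⁺` a `κ`-algebra) which are compatible and such that `ρ` kills the non-units of `V`.

* `h66j_core` : the reduction of a relation `∑ c_i b_i = y`, `ρ⁺ y = 0`.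
* `h66j_indep` : lifts of `κ`-independent elements of `κ⁺` are `F`-independent
  (residue inequality `[κ⁺ : κ] ≤ [F⁺ : F]`: `h66j_finrank_le`).
* `h66j_repr_mem` : if the lifts `b_i` form an `F`-basis of `F⁺`, then the coordinates of every
  element of `V⁺` lie in `V` (`V⁺ = ∑ V b_i`).
* `h66j_norm_red`, `h66j_trace_red` : for `g ∈ V⁺`: `Nm_{F⁺/F} g ∈ V`, `Tr g ∈ V` and
  `ρ (Nm g) = Nm_{κ⁺/κ} (ρ⁺ g)`, `ρ (Tr g) = Tr (ρ⁺ g)`   (bases given).
* `h66j_norm_red_of_finrank`, `h66j_trace_red_of_finrank` : the same from `ρ⁺` surjective and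
  `[F⁺ : F] ≤ [κ⁺ : κ]`.
-/

set_option autoImplicit false
set_option linter.style.haveILetI false

namespace Fermat.Agent.P7

noncomputable section

open scoped BigOperators

variable {F Fp κ κp : Type*} [Field F] [Field Fp] [Field κ] [Field κp]
  [Algebra F Fp] [Algebra κ κp]

/-- the hypotheses on the two reductions. -/
structure H66jRed (V : Subring F) (Vp : Subring Fp) (ρ : V →+* κ) (ρp : Vp →+* κp) : Prop where
  /-- `V` is a valuation ring of `F` -/
  val : ∀ x : F, x ∈ V ∨ x⁻¹ ∈ V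
  /-- `ρ` kills the non-units of `V` -/
  nonunit : ∀ x : V, (x : F)⁻¹ ∉ V → ρ x = 0
  /-- `V` maps into `V⁺` -/
  incl : ∀ x : F, x ∈ V → algebraMap F Fp x ∈ Vp
  /-- the reductions are compatible -/
  compat : ∀ x : V, ρp ⟨algebraMap F Fp x, incl x x.2⟩ = algebraMap κ κp (ρ x)

variable {V : Subring F} {Vp : Subring Fp} {ρ : V →+* κ} {ρp : Vp →+* κp}

theorem h66j_coe_sum {R : Type*} [Ring R] (S : Subring R) {ι : Type*} (s : Finset ι)
    (f : ι → S) : ((∑ i ∈ s, f i : S) : R) = ∑ i ∈ s, (f i : R) :=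
  map_sum S.subtype f s

/-- among finitely many elements of `F`, not all zero, one has the largest valuation. -/
theorem h66j_exists_max (hV : ∀ x : F, x ∈ V ∨ x⁻¹ ∈ V) {ι : Type*} (s : Finset ι) (a : ι → F)
    (h : ∃ i ∈ s, a i ≠ 0) : ∃ j ∈ s, a j ≠ 0 ∧ ∀ i ∈ s, a i / a j ∈ V := by
  classical
  let W : ValuationSubring F := { V with mem_or_inv_mem' := hV }
  have hW : ∀ x : F, x ∈ W ↔ x ∈ V := fun x => Iff.rfl
  obtain ⟨i₀, hi₀, ha₀⟩ := h
  obtain ⟨j, hj, hmax⟩ := Finset.exists_max_image s (fun i => W.valuation (a i)) ⟨i₀, hi₀⟩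
  have hj0 : a j ≠ 0 := by
    intro h0
    have h1 := hmax i₀ hi₀
    simp only [h0, map_zero] at h1
    exact ha₀ ((map_eq_zero W.valuation).1 (le_antisymm h1 zero_le'))
  refine ⟨j, hj, hj0, fun i hi => ?_⟩
  rw [← hW, ← ValuationSubring.valuation_le_one_iff, map_div₀]
  have hvj : W.valuation (a j) ≠ 0 := (map_ne_zero W.valuation).2 hj0
  exact (div_le_one₀ (zero_lt_iff.mpr hvj)).2 (hmax i hi)

/-- reduction of a relation `∑ c_i b_i = y` with `ρ⁺ y = 0`. -/
theorem h66j_core (D : H66jRed V Vp ρ ρp) {ι : Type*} (b : ι → Vp)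
    (hb : LinearIndependent κ (fun i => ρp (b i))) (s : Finset ι) (c : ι → V) (y : Vp)
    (hy : ρp y = 0)
    (h : ∑ i ∈ s, algebraMap F Fp (c i) * (b i : Fp) = (y : Fp)) :
    ∀ i ∈ s, ρ (c i) = 0 := by
  have h1 : ∑ i ∈ s, (⟨algebraMap F Fp (c i), D.incl _ (c i).2⟩ : Vp) * b i = y := by
    apply Subtype.ext
    rw [← h, h66j_coe_sum]
    rfl
  have h2 := congrArg ρp h1
  rw [map_sum, hy] at h2
  have h3 : ∑ i ∈ s, ρ (c i) • ρp (b i) = 0 := by
    rw [← h2]
    refine Finset.sum_congr rfl fun i _ => ?_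
    rw [map_mul, D.compat, Algebra.smul_def]
  exact linearIndependent_iff'.mp hb s (fun i => ρ (c i)) h3

/-- lifts of `κ`-independent elements are `F`-independent. -/
theorem h66j_indep (D : H66jRed V Vp ρ ρp) {ι : Type*} (b : ι → Vp)
    (hb : LinearIndependent κ (fun i => ρp (b i))) :
    LinearIndependent F (fun i => (b i : Fp)) := by
  classical
  rw [linearIndependent_iff']
  intro s a ha i₀ hi₀
  by_contra hne
  obtain ⟨j, hj, hj0, hmax⟩ := h66j_exists_max D.val s a ⟨i₀, hi₀, hne⟩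
  let c : ι → V := fun i => if hi : i ∈ s then ⟨a i / a j, hmax i hi⟩ else 0
  have hc : ∀ i ∈ s, (c i : F) = a i / a j := fun i hi => by simp [c, hi]
  have hrel : ∑ i ∈ s, algebraMap F Fp (c i) * (b i : Fp) = ((0 : Vp) : Fp) := by
    have h1 : ∑ i ∈ s, algebraMap F Fp (c i) * (b i : Fp) =
        algebraMap F Fp (a j)⁻¹ * ∑ i ∈ s, a i • (b i : Fp) := by
      rw [Finset.mul_sum]
      refine Finset.sum_congr rfl fun i hi => ?_
      rw [hc i hi, Algebra.smul_def, div_eq_mul_inv, map_mul]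
      ring
    rw [h1, ha, mul_zero]
    rfl
  have h2 := h66j_core D b hb s c 0 (map_zero ρp) hrel j hj
  have h3 : c j = 1 := by
    apply Subtype.ext
    rw [hc j hj, div_self hj0]
    rfl
  rw [h3, map_one] at h2
  exact one_ne_zero h2

/-- the residue inequality `[κ⁺ : κ] ≤ [F⁺ : F]`, for `ρ⁺` surjective. -/
theorem h66j_finrank_le [FiniteDimensional F Fp] (D : H66jRed V Vp ρ ρp)
    (hsurj : Function.Surjective ρp) :
    Module.Finite κ κp ∧ Module.finrank κ κp ≤ Module.finrank F Fp := by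
  classical
  have key : ∀ s : Finset κp, (LinearIndependent κ fun i : s => (i : κp)) →
      s.card ≤ Module.finrank F Fp := by
    intro s hs
    choose b hb using fun i : s => hsurj (i : κp)
    have h1 : LinearIndependent κ (fun i : s => ρp (b i)) := by
      have : (fun i : s => ρp (b i)) = fun i : s => (i : κp) := funext hb
      rw [this]
      exact hs
    have h2 := (h66j_indep D b h1).fintype_card_le_finrank
    simpa using h2
  have hrank : Module.rank κ κp ≤ (Module.finrank F Fp : Cardinal) := rank_le key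
  have hfin : Module.Finite κ κp :=
    Module.rank_lt_aleph0_iff.mp (lt_of_le_of_lt hrank (Cardinal.natCast_lt_aleph0))
  refine ⟨hfin, ?_⟩
  have h3 : (Module.finrank κ κp : Cardinal) ≤ (Module.finrank F Fp : Cardinal) := by
    rw [Module.finrank_eq_rank]
    exact hrank
  exact_mod_cast h3

/-- if the lifts form a basis, the coordinates of the elements of `V⁺` lie in `V`. -/
theorem h66j_repr_mem (D : H66jRed V Vp ρ ρp) {ι : Type*} [Fintype ι] (b : ι → Vp)
    (hb : LinearIndependent κ (fun i => ρp (b i))) (B : Module.Basis ι F Fp)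
    (hB : ∀ i, B i = (b i : Fp)) (x : Vp) (i₀ : ι) : B.repr (x : Fp) i₀ ∈ V := by
  classical
  by_contra hne
  set a : ι → F := fun i => B.repr (x : Fp) i with ha
  have hne0 : a i₀ ≠ 0 := fun h0 => hne (by
    have : B.repr (x : Fp) i₀ = 0 := h0
    rw [this]
    exact V.zero_mem)
  obtain ⟨j, -, hj0, hmax⟩ :=
    h66j_exists_max D.val Finset.univ a ⟨i₀, Finset.mem_univ _, hne0⟩
  have hjV : a j ∉ V := by
    intro hjV
    apply hne
    have h1 : a i₀ = a i₀ / a j * a j := by field_simp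
    show a i₀ ∈ V
    rw [h1]
    exact V.mul_mem (hmax i₀ (Finset.mem_univ _)) hjV
  have hjinv : (a j)⁻¹ ∈ V := (D.val (a j)).resolve_left hjV
  have hρ : ρ ⟨(a j)⁻¹, hjinv⟩ = 0 := D.nonunit _ (by simpa using hjV)
  let c : ι → V := fun i => ⟨a i / a j, hmax i (Finset.mem_univ _)⟩
  let y : Vp := ⟨algebraMap F Fp (a j)⁻¹, D.incl _ hjinv⟩ * x
  have hy : ρp y = 0 := by
    show ρp (⟨algebraMap F Fp (a j)⁻¹, D.incl _ hjinv⟩ * x) = 0
    rw [map_mul, D.compat ⟨(a j)⁻¹, hjinv⟩, hρ, map_zero, zero_mul]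
  have hrel : ∑ i ∈ Finset.univ, algebraMap F Fp (c i) * (b i : Fp) = (y : Fp) := by
    have h1 : (x : Fp) = ∑ i, a i • B i := (B.sum_repr (x : Fp)).symm
    show _ = algebraMap F Fp (a j)⁻¹ * (x : Fp)
    rw [h1, Finset.mul_sum]
    refine Finset.sum_congr rfl fun i _ => ?_
    show algebraMap F Fp (a i / a j) * (b i : Fp) = _
    rw [Algebra.smul_def, hB, div_eq_mul_inv, map_mul]
    ring
  have h2 := h66j_core D b hb Finset.univ c y hy hrel j (Finset.mem_univ _)
  have h3 : c j = 1 := by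
    apply Subtype.ext
    show a j / a j = 1
    exact div_self hj0
  rw [h3, map_one] at h2
  exact one_ne_zero h2

section Matrix

variable {ι : Type*} [Fintype ι] [DecidableEq ι]

/-- the matrix of the multiplication by `g ∈ V⁺` has entries in `V` and reduces to the matrix
of the multiplication by `ρ⁺ g`. -/
theorem h66j_matrix_red (D : H66jRed V Vp ρ ρp) (b : ι → Vp) (B : Module.Basis ι F Fp)
    (hB : ∀ i, B i = (b i : Fp)) (bbar : Module.Basis ι κ κp) (hbbar : ∀ i, bbar i = ρp (b i))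
    (g : Vp) :
    ∃ m : Matrix ι ι V, Algebra.leftMulMatrix B (g : Fp) = m.map V.subtype ∧
      Algebra.leftMulMatrix bbar (ρp g) = m.map ρ := by
  classical
  have hb : LinearIndependent κ (fun i => ρp (b i)) := by
    have : (fun i => ρp (b i)) = fun i => bbar i := funext fun i => (hbbar i).symm
    rw [this]
    exact bbar.linearIndependent
  have hmem : ∀ i j, Algebra.leftMulMatrix B (g : Fp) i j ∈ V := by
    intro i j
    rw [Algebra.leftMulMatrix_eq_repr_mul, hB]
    exact h66j_repr_mem D b hb B hB (g * b j) i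
  let m : Matrix ι ι V := fun i j => ⟨Algebra.leftMulMatrix B (g : Fp) i j, hmem i j⟩
  refine ⟨m, ?_, ?_⟩
  · ext i j
    rfl
  · ext i j
    rw [Algebra.leftMulMatrix_eq_repr_mul]
    -- `ρ⁺ g * b̄_j = ∑ ρ (m i j) • b̄_i`
    have h1 : ((g * b j : Vp) : Fp) = ∑ i, algebraMap F Fp (m i j) * (b i : Fp) := by
      have h2 := (B.sum_repr ((g : Fp) * B j)).symm
      rw [hB] at h2
      show (g : Fp) * (b j : Fp) = _
      rw [h2]
      refine Finset.sum_congr rfl fun i _ => ?_
      rw [Algebra.smul_def, hB]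
      congr 1
      show algebraMap F Fp (B.repr ((g : Fp) * (b j : Fp)) i) = algebraMap F Fp (m i j : F)
      congr 1
      show _ = Algebra.leftMulMatrix B (g : Fp) i j
      rw [Algebra.leftMulMatrix_eq_repr_mul, hB]
    have h3 : g * b j = ∑ i, (⟨algebraMap F Fp (m i j), D.incl _ (m i j).2⟩ : Vp) * b i := by
      apply Subtype.ext
      rw [h1, h66j_coe_sum]
      rfl
    have h4 : ρp g * bbar j = ∑ i, ρ (m i j) • bbar i := by
      rw [hbbar, ← map_mul, h3, map_sum]
      refine Finset.sum_congr rfl fun i _ => ?_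
      rw [map_mul, D.compat, Algebra.smul_def, hbbar]
    rw [h4, Module.Basis.repr_sum_self]
    rfl

/-- **norm reduction** (bases given). -/
theorem h66j_norm_red (D : H66jRed V Vp ρ ρp) (b : ι → Vp) (B : Module.Basis ι F Fp)
    (hB : ∀ i, B i = (b i : Fp)) (bbar : Module.Basis ι κ κp) (hbbar : ∀ i, bbar i = ρp (b i))
    (g : Vp) :
    ∃ h : Algebra.norm F (g : Fp) ∈ V, ρ ⟨_, h⟩ = Algebra.norm κ (ρp g) := by
  classical
  obtain ⟨m, hm1, hm2⟩ := h66j_matrix_red D b B hB bbar hbbar g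
  have h1 : Algebra.norm F (g : Fp) = ((m.det : V) : F) := by
    rw [Algebra.norm_eq_matrix_det B, hm1]
    exact (RingHom.map_det V.subtype m).symm
  have hmem : Algebra.norm F (g : Fp) ∈ V := by
    rw [h1]
    exact m.det.2
  refine ⟨hmem, ?_⟩
  have h2 : (⟨Algebra.norm F (g : Fp), hmem⟩ : V) = m.det := Subtype.ext h1
  rw [h2, Algebra.norm_eq_matrix_det bbar, hm2, RingHom.map_det]
  rfl

/-- **trace reduction** (bases given). -/
theorem h66j_trace_red (D : H66jRed V Vp ρ ρp) (b : ι → Vp) (B : Module.Basis ι F Fp)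
    (hB : ∀ i, B i = (b i : Fp)) (bbar : Module.Basis ι κ κp) (hbbar : ∀ i, bbar i = ρp (b i))
    (g : Vp) :
    ∃ h : Algebra.trace F Fp (g : Fp) ∈ V, ρ ⟨_, h⟩ = Algebra.trace κ κp (ρp g) := by
  classical
  obtain ⟨m, hm1, hm2⟩ := h66j_matrix_red D b B hB bbar hbbar g
  have h1 : Algebra.trace F Fp (g : Fp) = ((m.trace : V) : F) := by
    rw [Algebra.trace_eq_matrix_trace B, hm1]
    show ∑ i, ((m i i : V) : F) = ((∑ i, m i i : V) : F)
    rw [h66j_coe_sum]
  have hmem : Algebra.trace F Fp (g : Fp) ∈ V := by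
    rw [h1]
    exact m.trace.2
  refine ⟨hmem, ?_⟩
  have h2 : (⟨Algebra.trace F Fp (g : Fp), hmem⟩ : V) = m.trace := Subtype.ext h1
  rw [h2, Algebra.trace_eq_matrix_trace bbar, hm2]
  show ρ (∑ i, m i i) = ∑ i, ρ (m i i)
  rw [map_sum]

end Matrix

/-- existence of compatible bases when `ρ⁺` is onto and `[F⁺ : F] ≤ [κ⁺ : κ]`. -/
theorem h66j_exists_bases [FiniteDimensional F Fp] (D : H66jRed V Vp ρ ρp)
    (hsurj : Function.Surjective ρp)
    (hdeg : Module.finrank F Fp ≤ Module.finrank κ κp) :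
    ∃ (b : Fin (Module.finrank F Fp) → Vp) (B : Module.Basis (Fin (Module.finrank F Fp)) F Fp)
      (bbar : Module.Basis (Fin (Module.finrank F Fp)) κ κp),
      (∀ i, B i = (b i : Fp)) ∧ ∀ i, bbar i = ρp (b i) := by
  classical
  obtain ⟨hfin, hle⟩ := h66j_finrank_le D hsurj
  have heq : Module.finrank κ κp = Module.finrank F Fp := le_antisymm hle hdeg
  let bbar0 : Module.Basis (Fin (Module.finrank F Fp)) κ κp :=
    (Module.finBasis κ κp).reindex (finCongr heq)
  choose b hb using fun i => hsurj (bbar0 i)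
  have hli : LinearIndependent κ (fun i => ρp (b i)) := by
    have : (fun i => ρp (b i)) = fun i => bbar0 i := funext hb
    rw [this]
    exact bbar0.linearIndependent
  have hliF := h66j_indep D b hli
  haveI : Nonempty (Fin (Module.finrank F Fp)) := ⟨⟨0, Module.finrank_pos⟩⟩
  let B : Module.Basis (Fin (Module.finrank F Fp)) F Fp :=
    basisOfLinearIndependentOfCardEqFinrank hliF (by simp)
  refine ⟨b, B, bbar0, fun i => ?_, fun i => (hb i).symm⟩
  simp [B]

/-- **norm reduction** for full residue degree. -/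
theorem h66j_norm_red_of_finrank [FiniteDimensional F Fp] (D : H66jRed V Vp ρ ρp)
    (hsurj : Function.Surjective ρp)
    (hdeg : Module.finrank F Fp ≤ Module.finrank κ κp) (g : Vp) :
    ∃ h : Algebra.norm F (g : Fp) ∈ V, ρ ⟨_, h⟩ = Algebra.norm κ (ρp g) := by
  classical
  obtain ⟨b, B, bbar, hB, hbbar⟩ := h66j_exists_bases D hsurj hdeg
  exact h66j_norm_red D b B hB bbar hbbar g

/-- **trace reduction** for full residue degree. -/
theorem h66j_trace_red_of_finrank [FiniteDimensional F Fp] (D : H66jRed V Vp ρ ρp)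
    (hsurj : Function.Surjective ρp)
    (hdeg : Module.finrank F Fp ≤ Module.finrank κ κp) (g : Vp) :
    ∃ h : Algebra.trace F Fp (g : Fp) ∈ V, ρ ⟨_, h⟩ = Algebra.trace κ κp (ρp g) := by
  classical
  obtain ⟨b, B, bbar, hB, hbbar⟩ := h66j_exists_bases D hsurj hdeg
  exact h66j_trace_red D b B hB bbar hbbar g

end

end Fermat.Agent.P7
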