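import Fermat.Agent.P7.H87ValNorm
import Fermat.Agent.P7.H98mDeg
import Fermat.Agent.Red.GV.SoftBar

/-!
# Wave 7, DLOG at the non-good level, row H2-S0 (helper66): frozen interface

FULL RESIDUE DEGREE of the Gauss valuation of level `M⁺ = goodLevel p M` over the Gauss valuation
of level `M` (any `M` prime to `p`), and the reduction of norms.

Frozen leaves (every one a `Prop`; nothing is assumed):

* `H66sDegSF`   (A) : at a GOOD level `N` there are `ψ(N)` Gauss-integral functions whose
  reductions are linearly independent over `k(j̄) ⊆ k((q))`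
  (`[kC(N) : k(j̄)] ≥ ψ(N)`: landed `h26s_rest` (SF-ZEROS) + `h26s_push_pole` + `H13rZeros` in
  characteristic `0` + `finrank Kbar(j) (FF N) = ψ(N)`).
* `H66sResIneq` (B) : at EVERY level `M` prime to `p`, a family of Gauss-integral functions
  whose reductions are linearly independent over `k(j̄)` has at most `ψ(M)` members
  (residue inequality over `Kbar(j)`: clear denominators, scale the coefficients, `j̄`
  transcendental).
* `H66sFullDeg` (C) : a family `b` of `d = [FF M⁺ : FF M]` elements with `H87vInd` (helper87).
-/

set_option autoImplicit false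
set_option linter.unusedSectionVars false
set_option linter.style.haveILetI false

open AlgebraicCurve ModularCurve

noncomputable section

namespace Fermat.Agent.P7

open Fermat.Agent.S37 Fermat.Agent.Red.GV Fermat.Agent.Red.GV.Soft Fermat.Agent.Red.Desc
open Fermat.Agent.S21.C1

/-- the subfield `k(j̄)` of `k((q))`, `k` the residue field of `A`. -/
def h66sKj (A : ValuationSubring Kbar) :
    IntermediateField (IsLocalRing.ResidueField A) (LaurentSeries (IsLocalRing.ResidueField A)) :=
  IntermediateField.adjoin (IsLocalRing.ResidueField A) {jK (IsLocalRing.ResidueField A)}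

/-- **(A) DEG-SF**: `ψ(N)` reductions linearly independent over `k(j̄)` at a good level. -/
def H66sDegSF : Prop :=
  ∀ (p : ℕ), p.Prime → ∀ (N : ℕ) [NeZero N], ¬ p ∣ N → auxLevel p ∣ N →
    ∀ A : ValuationSubring Kbar, A.LiesOverPrime p →
      ∃ e : Fin (dedekindPsi N) → softV A N,
        LinearIndependent (h66sKj A) (fun i => softR A N (e i))

/-- **(B) RES-INEQ**: at most `ψ(M)` reductions linearly independent over `k(j̄)`. -/
def H66sResIneq : Prop :=
  ∀ (p : ℕ), p.Prime → ∀ (M : ℕ) [NeZero M], ¬ p ∣ M →
    ∀ A : ValuationSubring Kbar, A.LiesOverPrime p →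
      ∀ (n : ℕ) (c : Fin n → softV A M),
        LinearIndependent (h66sKj A) (fun i => softR A M (c i)) → n ≤ dedekindPsi M

/-- **(C) FULL-DEG**: full residue degree of the Gauss valuation of level `goodLevel p M` over
the one of level `M`, in helper87's form. -/
def H66sFullDeg : Prop :=
  ∀ (p : ℕ) (hp : p.Prime) (M : ℕ) [NeZero M], ¬ p ∣ M →
    ∀ (A : ValuationSubring Kbar) (hA : A.LiesOverPrime p),
      letI := algebraAlong (degen (dvd_goodLevel p M))
      ∃ b : Fin (finrankAlong Kbar (degen (dvd_goodLevel p M))) → FF (goodLevel p M),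
        H87vInd (softRing A M hp hA) (softRing A (goodLevel p M) hp hA) b

end Fermat.Agent.P7
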