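import Fermat.Agent.P7.H67Glob
import Fermat.Agent.P7.H85SlopeCtr
import Fermat.Agent.LGC.H4Cusp

/-!
# P7 (wave 7, S40), block (5b), leaf C4 (helper67): GLOB0 at `W∞`, final level form

`ℓ ∤ M`, `auxLevel ℓ ∣ M`, `A` over `ℓ`, `W∞ = softV A (M ℓ)`.  With the centres of the places
of the special fibre (helper85, `h85w_exists_centre`) the covering hypothesis of
`h67g_const_inf_of_local` is discharged:

* `h67g_cover_of_at` : a closed point `𝔫` of a chart of level `M ℓ` with `H85wAt Q 𝔫` covers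
  the place `Q` (any chart `B ⊆ W∞`).
* `h67g_glob_inf` : **GLOB0 at `W∞`.**  If `f ∈ W∞` lies in `O_𝔫 + 𝔪_A W∞` at every closed point
  `𝔫 ⊇ P∞` of the finite chart `jSS M ℓ` (smooth points of `C∞` and crossing points) and at
  every cusp of `C∞` (closed points `𝔫 ⊇ ker ρ` of the chart at infinity containing `1 / j`),
  then `f ∈ A + 𝔪_A W∞`.
* `h67g_glob_inf'` : the same with the cusps described by `h85cPinf ≤ 𝔫` and `h4c_V ∈ 𝔫`.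
-/

set_option autoImplicit false
set_option linter.unusedSectionVars false
set_option linter.unusedVariables false
set_option linter.style.longLine false
set_option linter.style.haveILetI false
set_option synthInstance.maxHeartbeats 400000

open AlgebraicCurve ModularCurve WithZero IsLocalRing

noncomputable section

namespace Fermat.Agent.P7

open Fermat.Agent.S37 Fermat.Agent.Red Fermat.Agent.Red.GG Fermat.Agent.Red.GV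
  Fermat.Agent.Red.GV.Soft Fermat.Agent.Red.Kron Fermat.Agent.LGC Fermat.Agent.S35
  Fermat.Agent.P5 Fermat.Agent.P6 Fermat.Agent.Red.Nz Fermat.Agent.Red.ModelO

variable {M : ℕ} [NeZero M] {A : ValuationSubring Kbar} {ℓ : ℕ} [NeZero ℓ]

/-- a closed point `𝔫` of a chart `B ⊆ W∞` at which the local ring of `Q` is the localisation
of `ρ(B)` covers `Q`. -/
theorem h67g_cover_of_at (hℓ : ℓ.Prime) (hM : ¬ ℓ ∣ M) (hA : A.LiesOverPrime ℓ)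
    {t : FF (M * ℓ)}
    (hBW : ∀ b : chart (M * ℓ) A t, (b : FF (M * ℓ)) ∈ softV A (M * ℓ))
    (𝔫 : Ideal (chart (M * ℓ) A t)) (h𝔫 : 𝔫.IsPrime)
    (Q : Place (h13sK A) (h13sFt A M)) (hQ : H85wAt hℓ hM hA hBW Q 𝔫)
    (x : FF (M * ℓ)) (hx : x ∈ (h62yO (chart (M * ℓ) A t) 𝔫 h𝔫).toSubring)
    (hxV : x ∈ softV A (M * ℓ)) :
    h60bRedInf hℓ hM hA ⟨x, hxV⟩ ∈ Q.toValuationSubring := by
  obtain ⟨s, hs, hsx⟩ := hx
  refine (hQ _).mpr ⟨⟨_, hsx⟩, s, hs, ?_⟩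
  rw [h85w_rho_apply, h85w_rho_apply, ← map_mul]
  congr 1
  exact Subtype.ext (mul_comm _ _)

/-- **GLOB0 at `W∞`** (level `M ℓ`). -/
theorem h67g_glob_inf (hℓ : ℓ.Prime) (hM : ¬ ℓ ∣ M) (haux : auxLevel ℓ ∣ M)
    (hA : A.LiesOverPrime ℓ) (f : FF (M * ℓ)) (hf : f ∈ softV A (M * ℓ))
    (hfin : ∀ (𝔫 : Ideal (chart (M * ℓ) A (jSS M ℓ))) (h𝔫 : 𝔫.IsMaximal),
      h62i_Pinf A M hℓ hM hA ≤ 𝔫 →
      ∃ o ∈ (h62yO (chart (M * ℓ) A (jSS M ℓ)) 𝔫 h𝔫.isPrime).toSubring,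
        f - o ∈ h82wM A (softV A (M * ℓ)))
    (hcusp : ∀ (𝔫 : Ideal (chart (M * ℓ) A (jSS M ℓ)⁻¹)) (h𝔫 : 𝔫.IsMaximal),
      (∀ b : chart (M * ℓ) A (jSS M ℓ)⁻¹,
        h85wRho hℓ hM hA (h85w_link_inf A M hℓ hM haux hA).hBW b = 0 → b ∈ 𝔫) →
      (⟨(jSS M ℓ)⁻¹, h85_self_mem_modelAt (M * ℓ) A (jSS M ℓ)⁻¹⟩ :
        chart (M * ℓ) A (jSS M ℓ)⁻¹) ∈ 𝔫 →
      ∃ o ∈ (h62yO (chart (M * ℓ) A (jSS M ℓ)⁻¹) 𝔫 h𝔫.isPrime).toSubring,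
        f - o ∈ h82wM A (softV A (M * ℓ))) :
    ∃ a : A, f - algebraMap A (FF (M * ℓ)) a ∈ h82wM A (softV A (M * ℓ)) := by
  refine h67g_const_inf hℓ hM haux hA f hf fun Q => ?_
  -- the reduction of `f` is the reduction of the local datum
  have key : ∀ o : FF (M * ℓ), f - o ∈ h82wM A (softV A (M * ℓ)) →
      (∀ hoV : o ∈ softV A (M * ℓ), h60bRedInf hℓ hM hA ⟨o, hoV⟩ ∈ Q.toValuationSubring) →
      h60bRedInf hℓ hM hA ⟨f, hf⟩ ∈ Q.toValuationSubring := by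
    intro o hfo ho
    have hzV : f - o ∈ softV A (M * ℓ) := h67g_M_le (fun a => h67g_cst_mem (M * ℓ) a) hfo
    have hoV : o ∈ softV A (M * ℓ) := by
      have : o = f - (f - o) := by ring
      rw [this]; exact (softV A (M * ℓ)).sub_mem hf hzV
    have e : (⟨f, hf⟩ : softV A (M * ℓ)) = ⟨o, hoV⟩ + ⟨f - o, hzV⟩ :=
      Subtype.ext (by simp)
    rw [e, map_add, h67g_red_M hℓ hM hA hfo hzV, add_zero]
    exact ho hoV
  rcases h85w_exists_centre A M hℓ hM haux hA Q with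
    ⟨𝔫, h𝔫, hPinf, -, hQc⟩ | ⟨𝔫, h𝔫, hker, hj, hQat⟩
  · obtain ⟨o, ho, hfo⟩ := hfin 𝔫 h𝔫 hPinf
    exact key o hfo fun hoV => h67g_cover_of_centred hℓ hM hA 𝔫 h𝔫 Q hPinf hQc o ho hoV
  · obtain ⟨o, ho, hfo⟩ := hcusp 𝔫 h𝔫 hker hj
    exact key o hfo fun hoV =>
      h67g_cover_of_at hℓ hM hA (h85w_link_inf A M hℓ hM haux hA).hBW 𝔫 h𝔫.isPrime Q hQat
        o ho hoV

/-- on a chart `B ⊆ W∞` of level `M ℓ`: `ker ρ ⊆ P∞`. -/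
theorem h67g_ker_le_Pinf (hℓ : ℓ.Prime) (hM : ¬ ℓ ∣ M) (hA : A.LiesOverPrime ℓ)
    {t : FF (M * ℓ)}
    (hBW : ∀ b : chart (M * ℓ) A t, (b : FF (M * ℓ)) ∈ softV A (M * ℓ))
    (b : chart (M * ℓ) A t) (hb : h85wRho hℓ hM hA hBW b = 0) :
    b ∈ h85cPinf A M ℓ hℓ hA t := by
  rw [h85w_rho_apply, h60b_redInf_eq_zero_iff] at hb
  have h1 : (b : FF (M * ℓ)) ∈ (softRing A (M * ℓ) hℓ hA).nonunits :=
    (softR_eq_zero_iff_mem_nonunits A (M * ℓ) hℓ hA ⟨_, hBW b⟩).mp hb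
  exact Ideal.subset_span h1

/-- **GLOB0 at `W∞`**, the cusps described by `P∞ ≤ 𝔫` and `h4c_V ∈ 𝔫`. -/
theorem h67g_glob_inf' (hℓ : ℓ.Prime) (hM : ¬ ℓ ∣ M) (haux : auxLevel ℓ ∣ M)
    (hA : A.LiesOverPrime ℓ) (f : FF (M * ℓ)) (hf : f ∈ softV A (M * ℓ))
    (hfin : ∀ (𝔫 : Ideal (chart (M * ℓ) A (jSS M ℓ))) (h𝔫 : 𝔫.IsMaximal),
      h62i_Pinf A M hℓ hM hA ≤ 𝔫 →
      ∃ o ∈ (h62yO (chart (M * ℓ) A (jSS M ℓ)) 𝔫 h𝔫.isPrime).toSubring,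
        f - o ∈ h82wM A (softV A (M * ℓ)))
    (hcusp : ∀ (𝔫 : Ideal (chart (M * ℓ) A (jSS M ℓ)⁻¹)) (h𝔫 : 𝔫.IsMaximal),
      h85cPinf A M ℓ hℓ hA (jSS M ℓ)⁻¹ ≤ 𝔫 → h4c_V A M ℓ ∈ 𝔫 →
      ∃ o ∈ (h62yO (chart (M * ℓ) A (jSS M ℓ)⁻¹) 𝔫 h𝔫.isPrime).toSubring,
        f - o ∈ h82wM A (softV A (M * ℓ))) :
    ∃ a : A, f - algebraMap A (FF (M * ℓ)) a ∈ h82wM A (softV A (M * ℓ)) :=
  h67g_glob_inf hℓ hM haux hA f hf hfin fun 𝔫 h𝔫 hker hj =>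
    hcusp 𝔫 h𝔫 (fun b hb => by
      rw [h85cPinf, h85cCentre] at hb
      refine Ideal.span_le.mpr ?_ hb
      intro c hc
      refine hker c ?_
      rw [h85w_rho_apply, h60b_redInf_eq_zero_iff]
      exact (softR_eq_zero_iff_mem_nonunits A (M * ℓ) hℓ hA ⟨_, _⟩).mpr hc) hj

end Fermat.Agent.P7
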