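import Fermat.Agent.P7.H44OrthLift
import Fermat.Agent.P7.H48Eval
import Fermat.Agent.P7.H56SymExact
import Fermat.Agent.P7.H83ResNormAll
import Fermat.Agent.Red.SM.UnramT

/-!
# Wave 7, DLOG at the level `M`, row H2-LIFT, NORM half (helper67, prefix `h67l_`)

`p` a prime, `M` ANY level prime to `p`, `N = goodLevel p M`, `φ = degen : FF M → FF N`,
`A` a valuation subring of `ℚ̄` over `p`, `r` a reduction map of places of level `N`
(`H13sIsRed A N r`), `vM` / `voo` the `q`-order places of `FF M` / `FF N`, with `r voo` the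
`q`-order place of the special fibre (statement (S2)).

* `h67l_disc_sum` : RED-DIV on a residue disc with one exceptional place.
* `h67l_cusp_unique` : `voo` is the only pole of `j` in its residue disc.
* `h67l_disc` (**DISC**): if `g⁺ ∈ FF N` has no zero and no pole in the residue discs of the
  places over `vM`, then `degen (Nm g⁺)` has no zero and no pole in the residue disc of `voo`.
  The exact function `h` of row H2-EXACT separates the discs over `vM` from the other discs.
* `h67l_lift` (**LIFT + DISC + SUM**): the lift `g⁺` of the reduction of `degen y`, its norm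
  `g = Nm g⁺`, the statement DISC for `g` and the residue statement
  `a₀ (f · dlog g) ∈ 𝔪_A` for every `f` regular off `vM` whose pull-back is Gauss-integral.
-/

set_option autoImplicit false
set_option linter.unusedSectionVars false
set_option linter.unusedVariables false
set_option linter.style.longLine false
set_option linter.style.haveILetI false
set_option synthInstance.maxHeartbeats 400000

open AlgebraicCurve ModularCurve

noncomputable section

namespace Fermat.Agent.P7

open Fermat.Agent.S37 Fermat.Agent.Red.GV Fermat.Agent.Red.GV.Soft Fermat.Agent.P5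
open Fermat.Agent.Red.CH0 (isIntegral_degen)

/-! ### RED-DIV on a disc with one exceptional place -/

section Good

variable {p N : ℕ} [NeZero N] (A : ValuationSubring Kbar)

/-- **RED-DIV on a residue disc with one exceptional place.**  `G` a Gauss unit, regular on
the residue disc of `voo` except possibly at `voo`, such that the order of the reduction at
`r voo` equals the order of `G` at `voo`: then `G` has no zero on the disc besides `voo`. -/
theorem h67l_disc_sum (r : Place Kbar (FF N) → Place (h13sK A) (h13sFt A N))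
    (hr : H13sIsRed A N r) (G : FF N) (hG : G ∈ gaussV A N) (hGinv : G⁻¹ ∈ gaussV A N)
    (hG0 : G ≠ 0) (voo : Place Kbar (FF N))
    (hreg : ∀ c : Place Kbar (FF N), r c = r voo → c ≠ voo → 0 ≤ c.ord G)
    (heq : (r voo).ord (h13sRed A N ⟨G, hG⟩) = voo.ord G) :
    ∀ c : Place Kbar (FF N), r c = r voo → c ≠ voo → c.ord G = 0 := by
  classical
  intro c hc hcne
  obtain ⟨D, hD, -⟩ := (h13g_gBase N).pd G hG0
  have hred := hr.2.2 G hG hGinv D hD (r voo)
  have hsum : h13sPush r D (r voo) = ∑ w ∈ D.support with r w = r voo, D w :=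
    h88r_mapDomain_apply r D (r voo)
  rw [hsum, heq, ← hD voo] at hred
  set T : Finset (Place Kbar (FF N)) := D.support.filter (fun w => r w = r voo) with hT
  -- split off the term at `voo`
  have hsplit : ∑ w ∈ T, D w = D voo + ∑ w ∈ T.erase voo, D w := by
    by_cases hv : voo ∈ T
    · exact (Finset.add_sum_erase T D hv).symm
    · have h0 : D voo = 0 := by
        by_contra h
        exact hv (Finset.mem_filter.mpr ⟨Finsupp.mem_support_iff.mpr h, rfl⟩)
      rw [Finset.erase_eq_of_notMem hv, h0, zero_add]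
  rw [hsplit] at hred
  have hzero : ∑ w ∈ T.erase voo, D w = 0 := by linarith
  have hnn : ∀ w ∈ T.erase voo, 0 ≤ D w := by
    intro w hw
    rw [hD w]
    exact hreg w (Finset.mem_filter.mp (Finset.mem_of_mem_erase hw)).2
      (Finset.ne_of_mem_erase hw)
  by_contra hne
  have hcD : c ∈ T.erase voo :=
    Finset.mem_erase.mpr ⟨hcne, Finset.mem_filter.mpr
      ⟨Finsupp.mem_support_iff.mpr (by rw [hD c]; exact hne), hc⟩⟩
  have h1 := (Finset.sum_eq_zero_iff_of_nonneg hnn).mp hzero c hcD
  exact hne (by rw [← hD c]; exact h1)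

/-- `j ≠ 0`. -/
theorem h67l_jB_ne_zero : jB N ≠ 0 := by
  intro h0
  have h1 : ((jB N : FF N) : LaurentSeries Kbar) = jK Kbar := coe_jB N
  rw [h0] at h1
  have h2 : (jK Kbar).order = -1 := Fermat.Agent.S28.Asm.order_jqModC' Kbar
  rw [← h1] at h2
  have h3 : (((0 : FF N)) : LaurentSeries Kbar) = 0 := rfl
  rw [h3, HahnSeries.order_zero] at h2
  omega

/-- `j` has a simple pole at the `q`-order place. -/
theorem h67l_ord_jB (voo : Place Kbar (FF N)) (hvoo : H52xIsQPlace N voo) :
    voo.ord (jB N) = -1 := by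
  rw [hvoo (jB N) h67l_jB_ne_zero, coe_jB]
  exact Fermat.Agent.S28.Asm.order_jqModC' Kbar

/-- the reduction of the inverse of a Gauss unit. -/
theorem h67l_red_inv (G : FF N) (hG : G ∈ gaussV A N) (hGinv : G⁻¹ ∈ gaussV A N) (hG0 : G ≠ 0) :
    h13sRed A N ⟨G⁻¹, hGinv⟩ = (h13sRed A N ⟨G, hG⟩)⁻¹ := by
  have hmul : (⟨G⁻¹, hGinv⟩ : gaussV A N) * ⟨G, hG⟩ = 1 := Subtype.ext (inv_mul_cancel₀ hG0)
  have h2 := congrArg (h50lRed A N) hmul
  rw [map_mul, map_one, h50lRed_apply, h50lRed_apply] at h2
  exact eq_inv_of_mul_eq_one_left h2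

/-- **(S1)**: the `q`-order place is the only pole of `j` in its residue disc, as soon as it
reduces to the `q`-order place of the special fibre. -/
theorem h67l_cusp_unique (hp : p.Prime) (hN : ¬ p ∣ N) (hA : A.LiesOverPrime p)
    (r : Place Kbar (FF N) → Place (h13sK A) (h13sFt A N)) (hr : H13sIsRed A N r)
    (voo : Place Kbar (FF N)) (hvoo : H52xIsQPlace N voo)
    (hQ : H52xIsQPlaceSF A N (r voo)) :
    ∀ c : Place Kbar (FF N), r c = r voo → c ≠ voo → 0 ≤ c.ord (jB N) := by
  have hj0 : jB N ≠ 0 := h67l_jB_ne_zero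
  have hjV : jB N ∈ gaussV A N := jB_mem_gaussV A N
  have hjiV : (jB N)⁻¹ ∈ gaussV A N := jB_inv_mem_gaussV A N hp hN hA
  have hji0 : (jB N)⁻¹ ≠ 0 := inv_ne_zero hj0
  have hjii : ((jB N)⁻¹)⁻¹ ∈ gaussV A N := by rw [inv_inv]; exact hjV
  have hvj : voo.ord (jB N) = -1 := h67l_ord_jB voo hvoo
  -- the order of the reduction of `j` at `r voo`
  have hredj0 : h13sRed A N ⟨jB N, hjV⟩ ≠ 0 := by
    intro h0
    have h1 := (h50l_red_eq_zero_iff hp hN hA ⟨jB N, hjV⟩).1 h0
    rcases h1 with h1 | h1
    · exact hj0 h1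
    · exact h1 hjiV
  have hQj : (r voo).ord (h13sRed A N ⟨jB N, hjV⟩) = -1 := by
    rw [hQ _ hredj0, h13sIncl_red, gaussR_jB]
    exact Fermat.Agent.S28.Asm.order_jqModC' _
  have heq : (r voo).ord (h13sRed A N ⟨(jB N)⁻¹, hjiV⟩) = voo.ord (jB N)⁻¹ := by
    rw [h67l_red_inv A (jB N) hjV hjiV hj0, Place.ord_inv, Place.ord_inv, hQj, hvj]
  -- `voo` is not finite
  have hnfin : ¬ IsFinAt A voo := by
    rintro ⟨a, -, ha⟩
    have h1 : jB N - cst N a ∈ voo.toValuationSubring :=
      ValuationSubring.nonunits_subset ha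
    have h2 : jB N ∈ voo.toValuationSubring := by
      have := add_mem h1 (voo.algebraMap_mem' a)
      rwa [sub_add_cancel] at this
    have := Fermat.Agent.S24.DiffPlace.ord_nonneg_of_mem voo h2
    omega
  have hreg : ∀ c : Place Kbar (FF N), r c = r voo → c ≠ voo → 0 ≤ c.ord (jB N)⁻¹ := by
    intro c hc _
    have hs : SameRed A c voo := (hr.2.1 c voo).1 hc
    have hcfin : ¬ IsFinAt A c := by
      rcases hs with ⟨-, h2, -⟩ | ⟨h1, -, -⟩
      · exact absurd h2 hnfin
      · exact h1
    by_contra hneg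
    rw [Place.ord_inv] at hneg
    have hpos : 0 < c.ord (jB N) := by omega
    apply hcfin
    refine ⟨0, A.zero_mem, ?_⟩
    have e0 : cst N (0 : Kbar) = 0 := map_zero _
    unfold ValueAt
    rw [e0, sub_zero]
    exact h44o_mem_nonunits c (Or.inr hpos)
  intro c hc hcne
  have h0 := h67l_disc_sum A r hr (jB N)⁻¹ hjiV hjii hji0 voo hreg heq c hc hcne
  rw [Place.ord_inv] at h0
  omega

end Good

/-! ### DISC: the norm of a lift off the discs over `vM` has no zero or pole in the disc of `voo` -/

section Level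

variable {p M : ℕ} [NeZero M] (A : ValuationSubring Kbar)

/-- **DISC.**  `h` the exact function of row H2-EXACT; `g⁺` a nonzero function of level
`N = goodLevel p M` without zero or pole in the residue discs of the places over `vM`.  Then
`degen (Nm g⁺)` has no zero and no pole in the residue disc of the `q`-order place `voo`. -/
theorem h67l_disc (hp : p.Prime) (hM : ¬ p ∣ M) (hA : A.LiesOverPrime p)
    (r : Place Kbar (FF (goodLevel p M)) → Place (h13sK A) (h13sFt A (goodLevel p M)))
    (hr : H13sIsRed A (goodLevel p M) r)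
    (vM : Place Kbar (FF M)) (hvM : H52xIsQPlace M vM)
    (voo : Place Kbar (FF (goodLevel p M))) (hvoo : H52xIsQPlace (goodLevel p M) voo)
    (hQ : H52xIsQPlaceSF A (goodLevel p M) (r voo))
    (hex : H52xExactAt p M A r vM)
    (gp : FF (goodLevel p M)) (hgp : gp ≠ 0)
    (havoid : ∀ w c : Place Kbar (FF (goodLevel p M)), w.ord gp ≠ 0 →
      c.restrictAlong (degen (dvd_goodLevel p M)) (isIntegral_degen (dvd_goodLevel p M)) = vM →
        r c ≠ r w) :
    ∀ w : Place Kbar (FF (goodLevel p M)), r w = r voo →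
      w.ord (degen (dvd_goodLevel p M)
        (Fermat.Agent.Red.KR.normAlong (degen (dvd_goodLevel p M)) gp)) = 0 := by
  classical
  obtain ⟨m, h, hh, hd, hm, hhinv, hreg, hord, hsoft, -⟩ := hex
  have hN : ¬ p ∣ goodLevel p M := not_dvd_goodLevel hp hM
  set φ := degen (dvd_goodLevel p M) with hφdef
  have hφ : φ.toRingHom.IsIntegral := isIntegral_degen (dvd_goodLevel p M)
  have hmpos : (0 : ℤ) < (m : ℤ) := by exact_mod_cast hm
  have hh0 : h ≠ 0 := by
    intro h0
    rw [h0, Place.ord_zero] at hord
    omega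
  have hφh0 : φ h ≠ 0 := (map_ne_zero φ).mpr hh0
  -- the order of `φ h` at `voo`
  have hvooh : voo.ord (φ h) = -(m : ℤ) := by
    rw [hvoo (φ h) hφh0, hφdef, coe_degen, ← hvM h hh0, hord]
  -- the order of the reduction of `φ h` at `r voo`
  have hincl : h13sIncl A (goodLevel p M) (h13sRed A (goodLevel p M) ⟨φ h, hd⟩) =
      softR A M ⟨h, hh⟩ := h56s_incl_red_degen A (dvd_goodLevel p M) h hh hd
  have hredh0 : h13sRed A (goodLevel p M) ⟨φ h, hd⟩ ≠ 0 := by
    intro h0
    have hz : softR A M ⟨h, hh⟩ = 0 := by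
      rw [← hincl, h0]
      exact map_zero _
    rw [hz, HahnSeries.order_zero] at hsoft
    omega
  have hQh : (r voo).ord (h13sRed A (goodLevel p M) ⟨φ h, hd⟩) = -(m : ℤ) := by
    rw [hQ _ hredh0, hincl]
    exact hsoft
  -- the poles of `φ h` lie over `vM`
  have hpole : ∀ c : Place Kbar (FF (goodLevel p M)), c.ord (φ h) < 0 →
      c.restrictAlong φ hφ = vM := by
    intro c hc
    by_contra hne
    have h1 := hreg _ hne
    rw [Place.ord_restrictAlong φ hφ c h] at hc
    have := mul_nonneg (Int.natCast_nonneg (Place.ramificationIndexAlong φ c)) h1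
    omega
  -- the places over `vM` are poles of `j`
  have hjpole : ∀ c : Place Kbar (FF (goodLevel p M)), c.restrictAlong φ hφ = vM →
      c.ord (jB (goodLevel p M)) < 0 := by
    intro c hc
    have e1 : φ (jB M) = jB (goodLevel p M) :=
      Fermat.Agent.Red.CH0.degen_jBar (dvd_goodLevel p M)
    rw [← e1, Place.ord_restrictAlong φ hφ c (jB M), hc, h67l_ord_jB vM hvM]
    have hepos : 0 < Place.ramificationIndexAlong φ c := by
      letI := algebraAlong φ
      haveI := isScalarTower_along φ
      haveI := isIntegral_along φ hφ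
      exact c.ramificationIndex_pos (F := FF M)
    have : (0 : ℤ) < (Place.ramificationIndexAlong φ c : ℤ) := by exact_mod_cast hepos
    linarith
  have hcusp := h67l_cusp_unique A hp hN hA r hr voo hvoo hQ
  intro w hw
  by_contra hne
  set v := w.restrictAlong φ hφ with hv
  have hvg : v.ord (Fermat.Agent.Red.KR.normAlong φ gp) ≠ 0 := by
    intro h0
    apply hne
    rw [Place.ord_restrictAlong φ hφ w, ← hv, h0, mul_zero]
  obtain ⟨w', hw'v, hw'⟩ := h83o_exists_of_ord_norm_FF (dvd_goodLevel p M) gp hgp v hvg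
  have hav := havoid w'
  by_cases hvvM : v = vM
  · exact havoid w' w' hw' (hw'v.trans hvvM) rfl
  · -- the value of `h` at `v`
    have hregv : 0 ≤ v.ord h := hreg v hvvM
    obtain ⟨a, ha⟩ := Fermat.Agent.Red.Match.exists_valueAt v
      (Fermat.Agent.S24.DiffPlace.mem_of_ord_nonneg v hregv)
    have haw : ValueAt w (φ h) a :=
      (Fermat.Agent.Red.TRK.h87_valueAt_restrict φ hφ w h a).1 ha
    have haw' : ValueAt w' (φ h) a := by
      refine (Fermat.Agent.Red.TRK.h87_valueAt_restrict φ hφ w' h a).1 ?_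
      rw [hw'v]
      exact ha
    -- the value lies in `A`: no pole of `φ h` in the disc of `w'`
    have hregw' : ∀ c : Place Kbar (FF (goodLevel p M)), r c = r w' → 0 ≤ c.ord (φ h) := by
      intro c hc
      by_contra hneg
      exact havoid w' c hw' (hpole c (not_le.1 hneg)) hc
    have haA : a ∈ A := h44o_value_mem hp hN hA r hr (φ h) hd w' hregw' a haw'
    -- `G = φ h - a` is a Gauss unit with a pole of order `m` at `voo` and at `r voo`
    have hcV : cst (goodLevel p M) a ∈ gaussV A (goodLevel p M) := h50l_cst_mem hA haA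
    have hGV : φ h - cst (goodLevel p M) a ∈ gaussV A (goodLevel p M) :=
      (gaussV A (goodLevel p M)).sub_mem hd hcV
    have hredG : h13sRed A (goodLevel p M) ⟨φ h - cst (goodLevel p M) a, hGV⟩ =
        h13sRed A (goodLevel p M) ⟨φ h, hd⟩ +
          algebraMap (h13sK A) (h13sFt A (goodLevel p M)) (-(h13sPi A ⟨a, haA⟩)) := by
      have e : (⟨φ h - cst (goodLevel p M) a, hGV⟩ : gaussV A (goodLevel p M)) =
          ⟨φ h, hd⟩ - ⟨cst (goodLevel p M) a, hcV⟩ := rfl
      rw [e, ← h50lRed_apply, map_sub, h50lRed_apply, h50lRed_apply, h50l_red_cst hA a haA,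
        map_neg, sub_eq_add_neg]
    have hQG : (r voo).ord (h13sRed A (goodLevel p M) ⟨φ h - cst (goodLevel p M) a, hGV⟩) =
        -(m : ℤ) := by
      rw [hredG, Fermat.Agent.Red.SM.h31_ord_add_const_of_neg (r voo) _ _ (by rw [hQh]; omega),
        hQh]
    have hGeq : φ h - cst (goodLevel p M) a = φ h + algebraMap Kbar (FF (goodLevel p M)) (-a) := by
      rw [map_neg, sub_eq_add_neg]
    have hvG : voo.ord (φ h - cst (goodLevel p M) a) = -(m : ℤ) := by
      rw [hGeq, Fermat.Agent.Red.SM.h31_ord_add_const_of_neg voo _ _ (by rw [hvooh]; omega),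
        hvooh]
    have hredG0 : h13sRed A (goodLevel p M) ⟨φ h - cst (goodLevel p M) a, hGV⟩ ≠ 0 := by
      intro h0
      rw [h0, Place.ord_zero] at hQG
      omega
    have hGu : ¬ ((φ h - cst (goodLevel p M) a : FF (goodLevel p M)) = 0 ∨
        (φ h - cst (goodLevel p M) a : FF (goodLevel p M))⁻¹ ∉ gaussV A (goodLevel p M)) :=
      fun h' => hredG0 ((h50l_red_eq_zero_iff hp hN hA ⟨_, hGV⟩).2 h')
    rw [not_or, not_not] at hGu
    have hregG : ∀ c : Place Kbar (FF (goodLevel p M)), r c = r voo → c ≠ voo →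
        0 ≤ c.ord (φ h - cst (goodLevel p M) a) := by
      intro c hc hcne
      have h1 : 0 ≤ c.ord (φ h) := by
        by_contra hneg
        have h2 := hjpole c (hpole c (not_le.1 hneg))
        have h3 := hcusp c hc hcne
        omega
      rw [hGeq]
      exact Fermat.Agent.Red.SM.h31_ord_add_const_nonneg c _ _ h1
    have hzero := h67l_disc_sum A r hr _ hGV hGu.2 hGu.1 voo hregG (by rw [hQG, hvG])
    have hwpos : 0 < w.ord (φ h - cst (goodLevel p M) a) := h44o_ord_pos w hGu.1 haw
    have hwne : w ≠ voo := by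
      intro h'
      rw [h', hvG] at hwpos
      omega
    have := hzero w hw hwne
    omega

end Level

end Fermat.Agent.P7
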