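import Mathlib

/-!
# Wave 7 (S44), block (A) DLOG, leaf DL5 CUSP-ORTH, analytic core (helper68, prefix `h68c_`)

`G` holomorphic on the upper half plane `{0 < im z}`, of weight `2` for the full modular group:
`G (z + 1) = G z` and `G (-1 / z) = z ^ 2 * G z`.  Then the constant term of `G` vanishes:
`∫ x in 0..1, G (τ + x) = 0` for every `τ` in the upper half plane.

Proof (no fundamental domain, no residue theorem): `G` has a primitive `Φ` on the upper half
plane (an increasing union of discs); `Φ (-1 / z) - Φ z` is constant, equal to `0` at `z = i`;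
`Φ (z + 1) - Φ z` is a constant `c`; hence `Φ (-1 / (z + 1)) = Φ z + c`, and `c = 0` at the
fixed point `ρ = (-1 + √3 i) / 2` of `z ↦ -1 / (z + 1)`.

* `h68c_exists_primitive` : primitives on the upper half plane.
* `h68c_integral_eq_zero` : the statement.

Mathlib only.
-/

set_option autoImplicit false

open Complex Set Metric

noncomputable section

namespace Fermat.Agent.P7

/-- the upper half plane as a subset of `ℂ`. -/
def h68cH : Set ℂ := {z : ℂ | 0 < z.im}

theorem h68cH_isOpen : IsOpen h68cH := isOpen_lt continuous_const Complex.continuous_im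

theorem h68cH_convex : Convex ℝ h68cH := convex_halfSpace_im_gt 0

/-- the disc of centre `i n` and radius `n` is `{|z|² < 2 n im z}`. -/
theorem h68c_mem_ball_iff (n : ℝ) (z : ℂ) :
    z ∈ ball ((n : ℂ) * I) n ↔ z.re ^ 2 + z.im ^ 2 < 2 * n * z.im ∧ 0 < n := by
  rw [mem_ball, Complex.dist_eq]
  constructor
  · intro h
    have hn : 0 < n := lt_of_le_of_lt (norm_nonneg _) h
    refine ⟨?_, hn⟩
    have h2 : ‖z - (n : ℂ) * I‖ ^ 2 < n ^ 2 := by
      exact pow_lt_pow_left₀ h (norm_nonneg _) two_ne_zero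
    rw [Complex.sq_norm, Complex.normSq_apply] at h2
    simp only [Complex.sub_re, Complex.mul_re, Complex.ofReal_re, Complex.I_re, mul_zero,
      Complex.ofReal_im, Complex.I_im, mul_one, sub_self, sub_zero, Complex.sub_im,
      Complex.mul_im, add_zero] at h2
    nlinarith
  · rintro ⟨h, hn⟩
    have h2 : ‖z - (n : ℂ) * I‖ ^ 2 < n ^ 2 := by
      rw [Complex.sq_norm, Complex.normSq_apply]
      simp only [Complex.sub_re, Complex.mul_re, Complex.ofReal_re, Complex.I_re, mul_zero,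
        Complex.ofReal_im, Complex.I_im, mul_one, sub_self, sub_zero, Complex.sub_im,
        Complex.mul_im, add_zero]
      nlinarith
    exact lt_of_pow_lt_pow_left₀ 2 (le_of_lt hn) h2

theorem h68c_ball_subset_H (n : ℝ) : ball ((n : ℂ) * I) n ⊆ h68cH := by
  intro z hz
  obtain ⟨h, hn⟩ := (h68c_mem_ball_iff n z).1 hz
  show 0 < z.im
  by_contra hcon
  have h1 : z.im ≤ 0 := not_lt.1 hcon
  have h2 : 2 * n * z.im ≤ 0 := by nlinarith
  nlinarith [sq_nonneg z.re, sq_nonneg z.im]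

theorem h68c_ball_mono {n m : ℝ} (h : n ≤ m) : ball ((n : ℂ) * I) n ⊆ ball ((m : ℂ) * I) m := by
  intro z hz
  have hz' := (h68c_mem_ball_iff n z).1 hz
  have him : 0 < z.im := h68c_ball_subset_H n hz
  rw [h68c_mem_ball_iff]
  refine ⟨?_, lt_of_lt_of_le hz'.2 h⟩
  nlinarith [hz'.1]

theorem h68c_exists_ball {z : ℂ} (hz : z ∈ h68cH) : ∃ n : ℕ, 1 ≤ n ∧ z ∈ ball (((n : ℝ) : ℂ) * I) n := by
  have him : 0 < z.im := hz
  obtain ⟨n, hn⟩ := exists_nat_gt (max 1 ((z.re ^ 2 + z.im ^ 2) / (2 * z.im)))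
  have h1 : (1 : ℝ) < n := lt_of_le_of_lt (le_max_left _ _) hn
  have h2 : (z.re ^ 2 + z.im ^ 2) / (2 * z.im) < n := lt_of_le_of_lt (le_max_right _ _) hn
  refine ⟨n, by exact_mod_cast le_of_lt h1, ?_⟩
  rw [h68c_mem_ball_iff]
  refine ⟨?_, by linarith⟩
  rw [div_lt_iff₀ (by positivity)] at h2
  linarith

theorem h68c_I_mem_ball {n : ℕ} (hn : 1 ≤ n) : I ∈ ball (((n : ℝ) : ℂ) * I) n := by
  rw [h68c_mem_ball_iff]
  have h1 : (1 : ℝ) ≤ n := by exact_mod_cast hn
  simp only [Complex.I_re, Complex.I_im]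
  constructor
  · nlinarith
  · linarith

/-- **primitives on the upper half plane.** -/
theorem h68c_exists_primitive (G : ℂ → ℂ) (hG : DifferentiableOn ℂ G h68cH) :
    ∃ Φ : ℂ → ℂ, ∀ z ∈ h68cH, HasDerivAt Φ (G z) z := by
  classical
  -- primitives on the discs, normalised at `i`
  have hex : ∀ n : ℕ, ∃ φ : ℂ → ℂ, φ I = 0 ∧
      ∀ z ∈ ball (((n : ℝ) : ℂ) * I) n, HasDerivAt φ (G z) z := fun n =>
    (DifferentiableOn.isExactOn_ball (hG.mono (h68c_ball_subset_H n))).with_val_at I 0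
  choose φ hφ0 hφ using hex
  -- compatibility
  have hcompat : ∀ n m : ℕ, 1 ≤ n → n ≤ m → ∀ z ∈ ball (((n : ℝ) : ℂ) * I) n, φ n z = φ m z := by
    intro n m hn hnm z hz
    have hsub : ball (((n : ℝ) : ℂ) * I) n ⊆ ball (((m : ℝ) : ℂ) * I) m :=
      h68c_ball_mono (by exact_mod_cast hnm)
    have hconv : Convex ℝ (ball (((n : ℝ) : ℂ) * I) (n : ℝ)) := convex_ball _ _
    have hd : ∀ w ∈ ball (((n : ℝ) : ℂ) * I) (n : ℝ),
        HasDerivWithinAt (fun w => φ n w - φ m w) 0 (ball (((n : ℝ) : ℂ) * I) (n : ℝ)) w := by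
      intro w hw
      have := ((hφ n w hw).sub (hφ m w (hsub hw))).hasDerivWithinAt
        (s := ball (((n : ℝ) : ℂ) * I) (n : ℝ))
      rwa [sub_self] at this
    have hconst := hconv.is_const_of_fderivWithin_eq_zero (𝕜 := ℂ)
      (f := fun w => φ n w - φ m w)
      (fun w hw => (hd w hw).differentiableWithinAt)
      (fun w hw => by
        have h1 := (hd w hw).hasFDerivWithinAt
        have hu : UniqueDiffWithinAt ℂ (ball (((n : ℝ) : ℂ) * I) (n : ℝ)) w :=
          isOpen_ball.uniqueDiffWithinAt hw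
        rw [h1.fderivWithin hu]
        ext
        simp)
      hz (h68c_I_mem_ball hn)
    have h2 : φ n z - φ m z = φ n I - φ m I := hconst
    rw [hφ0, hφ0, sub_self] at h2
    exact sub_eq_zero.1 h2
  -- the index of a point
  have hN : ∀ z : ℂ, z ∈ h68cH → ∃ n : ℕ, 1 ≤ n ∧ z ∈ ball (((n : ℝ) : ℂ) * I) n :=
    fun z hz => h68c_exists_ball hz
  let N : ℂ → ℕ := fun z => if hz : z ∈ h68cH then Classical.choose (hN z hz) else 1
  have hN1 : ∀ z ∈ h68cH, 1 ≤ N z ∧ z ∈ ball (((N z : ℝ)) * I) (N z) := by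
    intro z hz
    have := Classical.choose_spec (hN z hz)
    simp only [N, dif_pos hz]
    exact this
  refine ⟨fun z => φ (N z) z, fun z hz => ?_⟩
  obtain ⟨h1, h2⟩ := hN1 z hz
  refine (hφ (N z) z h2).congr_of_eventuallyEq ?_
  have hopen : (ball (((N z : ℝ) : ℂ) * I) (N z) ∩ h68cH) ∈ nhds z :=
    (isOpen_ball.inter h68cH_isOpen).mem_nhds ⟨h2, hz⟩
  filter_upwards [hopen] with w hw
  obtain ⟨hw1, hw2⟩ := hw
  obtain ⟨h3, h4⟩ := hN1 w hw2
  show φ (N w) w = φ (N z) w
  rcases le_total (N w) (N z) with hle | hle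
  · exact hcompat (N w) (N z) h3 hle w h4
  · exact (hcompat (N z) (N w) h1 hle w hw1).symm


/-- a function with zero derivative on the upper half plane is constant there. -/
theorem h68c_const_of_deriv (Ψ : ℂ → ℂ) (hΨ : ∀ z ∈ h68cH, HasDerivAt Ψ 0 z) {z w : ℂ}
    (hz : z ∈ h68cH) (hw : w ∈ h68cH) : Ψ z = Ψ w := by
  have hd : ∀ u ∈ h68cH, HasDerivWithinAt Ψ 0 h68cH u := fun u hu =>
    (hΨ u hu).hasDerivWithinAt
  exact h68cH_convex.is_const_of_fderivWithin_eq_zero (𝕜 := ℂ) (f := Ψ)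
    (fun u hu => (hd u hu).differentiableWithinAt)
    (fun u hu => by
      have h1 := (hd u hu).hasFDerivWithinAt
      have hu' : UniqueDiffWithinAt ℂ h68cH u := h68cH_isOpen.uniqueDiffWithinAt hu
      rw [h1.fderivWithin hu']
      ext
      simp)
    hz hw

theorem h68c_neg_inv_mem {z : ℂ} (hz : z ∈ h68cH) : -z⁻¹ ∈ h68cH := by
  have him : 0 < z.im := hz
  have hz0 : z ≠ 0 := by
    rintro rfl
    simp at him
  show 0 < (-z⁻¹).im
  rw [Complex.neg_im, Complex.inv_im, neg_div, neg_neg]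
  exact div_pos him (Complex.normSq_pos.2 hz0)

theorem h68c_add_one_mem {z : ℂ} (hz : z ∈ h68cH) : z + 1 ∈ h68cH := by
  show 0 < (z + 1).im
  have him : 0 < z.im := hz
  simpa using him

theorem h68c_I_mem : I ∈ h68cH := by
  show 0 < I.im
  simp

/-- the fixed point `ρ` of `z ↦ -1 / (z + 1)`. -/
def h68cRho : ℂ := ⟨-1 / 2, Real.sqrt 3 / 2⟩

theorem h68cRho_mem : h68cRho ∈ h68cH := by
  show 0 < h68cRho.im
  show 0 < Real.sqrt 3 / 2
  positivity

theorem h68cRho_mul : h68cRho * (h68cRho + 1) = -1 := by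
  have h3 : Real.sqrt 3 * Real.sqrt 3 = 3 := Real.mul_self_sqrt (by norm_num)
  apply Complex.ext
  · simp only [h68cRho, Complex.mul_re, Complex.add_re, Complex.one_re, Complex.add_im,
      Complex.one_im, add_zero, Complex.neg_re]
    nlinarith
  · simp only [h68cRho, Complex.mul_im, Complex.add_re, Complex.one_re, Complex.add_im,
      Complex.one_im, add_zero, Complex.neg_im, neg_zero]
    ring

theorem h68cRho_fixed : -(h68cRho + 1)⁻¹ = h68cRho := by
  have h1 : h68cRho + 1 ≠ 0 := by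
    intro h
    have := h68cRho_mul
    rw [h, mul_zero] at this
    norm_num at this
  calc -(h68cRho + 1)⁻¹ = -1 / (h68cRho + 1) := by ring
    _ = h68cRho := (eq_div_of_mul_eq h1 h68cRho_mul).symm

/-- **DL5, analytic core.**  A holomorphic function on the upper half plane of weight `2` for
the full modular group has vanishing constant term. -/
theorem h68c_integral_eq_zero (G : ℂ → ℂ) (hG : DifferentiableOn ℂ G h68cH)
    (hT : ∀ z ∈ h68cH, G (z + 1) = G z)
    (hS : ∀ z ∈ h68cH, G (-z⁻¹) = z ^ 2 * G z)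
    {τ : ℂ} (hτ : τ ∈ h68cH) : ∫ x in (0 : ℝ)..1, G (τ + x) = 0 := by
  obtain ⟨Φ, hΦ⟩ := h68c_exists_primitive G hG
  -- invariance under `S`
  have hSΦ : ∀ z ∈ h68cH, Φ (-z⁻¹) = Φ z := by
    have hd : ∀ z ∈ h68cH, HasDerivAt (fun z => Φ (-z⁻¹) - Φ z) 0 z := by
      intro z hz
      have hz0 : z ≠ 0 := by
        rintro rfl
        have : (0 : ℝ) < (0 : ℂ).im := hz
        simp at this
      have h1 : HasDerivAt (fun z : ℂ => -z⁻¹) ((z ^ 2)⁻¹) z := by
        have := (hasDerivAt_inv hz0).neg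
        rwa [neg_neg] at this
      have h2 := (hΦ (-z⁻¹) (h68c_neg_inv_mem hz)).scomp z h1
      have h3 : (z ^ 2)⁻¹ • G (-z⁻¹) = G z := by
        rw [hS z hz, smul_eq_mul, ← mul_assoc, inv_mul_cancel₀ (pow_ne_zero 2 hz0), one_mul]
      rw [h3] at h2
      have h4 := h2.sub (hΦ z hz)
      rw [sub_self] at h4
      exact h4
    intro z hz
    have h := h68c_const_of_deriv (fun z => Φ (-z⁻¹) - Φ z) hd hz h68c_I_mem
    have hI : -(I : ℂ)⁻¹ = I := by
      rw [Complex.inv_I, neg_neg]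
    simp only [hI, sub_self] at h
    exact sub_eq_zero.1 h
  -- the period
  have hTΦ : ∀ z ∈ h68cH, Φ (z + 1) - Φ z = Φ (h68cRho + 1) - Φ h68cRho := by
    have hd : ∀ z ∈ h68cH, HasDerivAt (fun z => Φ (z + 1) - Φ z) 0 z := by
      intro z hz
      have h1 : HasDerivAt (fun z : ℂ => Φ (z + 1)) (G (z + 1)) z :=
        (hΦ (z + 1) (h68c_add_one_mem hz)).comp_add_const z 1
      have h2 := h1.sub (hΦ z hz)
      rw [hT z hz, sub_self] at h2
      exact h2
    intro z hz
    exact h68c_const_of_deriv (fun z => Φ (z + 1) - Φ z) hd hz h68cRho_mem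
  have hc : Φ (h68cRho + 1) - Φ h68cRho = 0 := by
    have h1 := hSΦ (h68cRho + 1) (h68c_add_one_mem h68cRho_mem)
    rw [h68cRho_fixed] at h1
    rw [h1, sub_self]
  -- the fundamental theorem of calculus
  have hderiv : ∀ x ∈ Set.uIcc (0 : ℝ) 1,
      HasDerivAt (fun x : ℝ => Φ (τ + x)) (G (τ + x)) x := by
    intro x _
    have hmem : τ + (x : ℂ) ∈ h68cH := by
      show 0 < (τ + (x : ℂ)).im
      have : 0 < τ.im := hτ
      simpa using this
    have h1 : HasDerivAt (fun z : ℂ => Φ (τ + z)) (G (τ + x)) (x : ℂ) :=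
      (hΦ (τ + x) hmem).comp_const_add τ (x : ℂ)
    exact h1.comp_ofReal
  have hcont : ContinuousOn (fun x : ℝ => G (τ + x)) (Set.uIcc (0 : ℝ) 1) := by
    have h1 : ContinuousOn G h68cH := hG.continuousOn
    refine h1.comp (by fun_prop) ?_
    intro x _
    show 0 < (τ + (x : ℂ)).im
    have : 0 < τ.im := hτ
    simpa using this
  rw [intervalIntegral.integral_eq_sub_of_hasDerivAt hderiv hcont.intervalIntegrable]
  have h1 := hTΦ τ hτ
  rw [hc] at h1
  simpa using h1

section UHP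

open UpperHalfPlane ModularForm
open scoped Manifold MatrixGroups

theorem h68c_ofComplex_coe {z : ℂ} (hz : z ∈ h68cH) : ((ofComplex z : ℍ) : ℂ) = z := by
  rw [ofComplex_apply_of_im_pos hz]

/-- **DL5, analytic core, slash form.**  `G : ℍ → ℂ` holomorphic with `G ∣[2] S = G` and
`G ∣[2] T = G`: the constant term of `G` vanishes. -/
theorem h68c_integral_eq_zero_slash (G : ℍ → ℂ) (hG : MDifferentiable 𝓘(ℂ) 𝓘(ℂ) G)
    (hinvS : G ∣[(2 : ℤ)] ModularGroup.S = G) (hinvT : G ∣[(2 : ℤ)] ModularGroup.T = G)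
    (τ : ℍ) : ∫ x in (0 : ℝ)..1, G (x +ᵥ τ) = 0 := by
  have hdiff : DifferentiableOn ℂ (G ∘ ofComplex) h68cH := mdifferentiable_iff.1 hG
  have hT : ∀ z ∈ h68cH, (G ∘ ofComplex) (z + 1) = (G ∘ ofComplex) z := by
    intro z hz
    have h1 := congrFun hinvT (ofComplex z)
    rw [SL_slash_apply, modular_T_smul] at h1
    have hden : denom (ModularGroup.T : SL(2, ℤ)) (ofComplex z) = 1 := by
      rw [ModularGroup.denom_apply]
      simp [ModularGroup.T]
    rw [hden, one_zpow, mul_one] at h1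
    have h2 : ofComplex (z + 1) = (1 : ℝ) +ᵥ ofComplex z := by
      apply UpperHalfPlane.ext
      rw [h68c_ofComplex_coe (h68c_add_one_mem hz), coe_vadd, h68c_ofComplex_coe hz]
      push_cast
      ring
    show G (ofComplex (z + 1)) = G (ofComplex z)
    rw [h2, h1]
  have hS : ∀ z ∈ h68cH, (G ∘ ofComplex) (-z⁻¹) = z ^ 2 * (G ∘ ofComplex) z := by
    intro z hz
    have hz0 : z ≠ 0 := by
      rintro rfl
      have : (0 : ℝ) < (0 : ℂ).im := hz
      simp at this
    have h1 := congrFun hinvS (ofComplex z)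
    rw [SL_slash_apply, ModularGroup.denom_S, h68c_ofComplex_coe hz] at h1
    have h2 : ofComplex (-z⁻¹) = ModularGroup.S • ofComplex z := by
      apply UpperHalfPlane.ext
      rw [h68c_ofComplex_coe (h68c_neg_inv_mem hz), modular_S_smul]
      show -z⁻¹ = (-((ofComplex z : ℍ) : ℂ))⁻¹
      rw [h68c_ofComplex_coe hz, inv_neg]
    show G (ofComplex (-z⁻¹)) = z ^ 2 * G (ofComplex z)
    rw [h2, ← h1, mul_comm (z ^ 2), mul_assoc, ← zpow_natCast z 2, ← zpow_add₀ hz0]
    norm_num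
  have h := h68c_integral_eq_zero (G ∘ ofComplex) hdiff hT hS (τ := (τ : ℂ)) τ.im_pos
  rw [← h]
  apply intervalIntegral.integral_congr
  intro x _
  show G (x +ᵥ τ) = G (ofComplex ((τ : ℂ) + x))
  congr 1
  apply UpperHalfPlane.ext
  have hmem : (τ : ℂ) + x ∈ h68cH := by
    show 0 < ((τ : ℂ) + x).im
    simpa using τ.im_pos
  rw [h68c_ofComplex_coe hmem, coe_vadd]
  ring

/-- the same for a function invariant under the weight `2` action of the full modular group. -/
theorem h68c_integral_eq_zero_of_invariant (G : ℍ → ℂ) (hG : MDifferentiable 𝓘(ℂ) 𝓘(ℂ) G)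
    (hinv : ∀ γ : SL(2, ℤ), G ∣[(2 : ℤ)] γ = G) (τ : ℍ) :
    ∫ x in (0 : ℝ)..1, G (x +ᵥ τ) = 0 :=
  h68c_integral_eq_zero_slash G hG (hinv _) (hinv _) τ

end UHP

end Fermat.Agent.P7
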