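import Mathlib

/-!
# Wave 7 (S44), block (A) DLOG, leaf DL4 GAP, sequence part (helper68, prefix `h68g_`)

`K` a field, Laurent series in `q` over `K`.  For a Laurent series `f` and a power series `w`
the pairing is `a₀(f w)`, the coefficient of `q ^ 0` in the product.

* `h68g_coeff_zero_mul` : `a₀(f w) = ∑_{i ≤ N} a_{-i}(f) a_i(w)` if `f` has a pole of order
  at most `N`.
* `h68g_zero_of_gaps` : a power series `w` without constant term, orthogonal to Laurent series
  of exact pole order `n` for every `n ≥ 1` outside a finite set `G`, and whose coefficients at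
  `G` vanish, is zero.
* `h68g_finrank_le` : a `K`-subspace `Ω` of such power series has dimension at most `#G`.

Mathlib only.
-/

set_option autoImplicit false

noncomputable section

namespace Fermat.Agent.P7

variable {K : Type*} [Field K]

/-- a Laurent series with a pole of order at most `N` is `q ^ (-N)` times a power series. -/
theorem h68g_eq_single_mul (f : LaurentSeries K) (N : ℕ)
    (hf : ∀ m : ℤ, m < -(N : ℤ) → f.coeff m = 0) :
    f = HahnSeries.single (-(N : ℤ)) (1 : K) *
      ((PowerSeries.mk fun j : ℕ => f.coeff ((j : ℤ) - N) : PowerSeries K) : LaurentSeries K) := by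
  ext m
  have e : m = (m + N) + (-(N : ℤ)) := by ring
  conv_rhs => rw [e, HahnSeries.coeff_single_mul_add, one_mul]
  by_cases h : 0 ≤ m + N
  · obtain ⟨j, hj⟩ := Int.eq_ofNat_of_zero_le h
    rw [hj, LaurentSeries.coeff_coe_powerSeries, PowerSeries.coeff_mk]
    congr 1
    omega
  · have h1 : m < -(N : ℤ) := by omega
    rw [hf m h1]
    symm
    have h2 : m + (N : ℤ) < 0 := by omega
    rw [HahnSeries.ofPowerSeries_apply, HahnSeries.embDomain_of_notMem_range]
    rintro ⟨j, hj⟩
    have : ((j : ℕ) : ℤ) = m + N := hj
    omega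

/-- the pairing in coordinates. -/
theorem h68g_coeff_zero_mul (f : LaurentSeries K) (w : PowerSeries K) (N : ℕ)
    (hf : ∀ m : ℤ, m < -(N : ℤ) → f.coeff m = 0) :
    (f * (w : LaurentSeries K)).coeff 0 =
      ∑ i ∈ Finset.range (N + 1), f.coeff (-(i : ℤ)) * PowerSeries.coeff i w := by
  set Fp : PowerSeries K := PowerSeries.mk fun j : ℕ => f.coeff ((j : ℤ) - N) with hFp
  have h1 := h68g_eq_single_mul f N hf
  have h2 : f * (w : LaurentSeries K) =
      HahnSeries.single (-(N : ℤ)) (1 : K) * ((Fp * w : PowerSeries K) : LaurentSeries K) := by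
    conv_lhs => rw [h1]
    rw [mul_assoc]
    congr 1
    exact (map_mul (HahnSeries.ofPowerSeries ℤ K) Fp w).symm
  have e : (0 : ℤ) = (N : ℤ) + (-(N : ℤ)) := by ring
  rw [h2, e, HahnSeries.coeff_single_mul_add, one_mul, LaurentSeries.coeff_coe_powerSeries,
    PowerSeries.coeff_mul, Finset.Nat.sum_antidiagonal_eq_sum_range_succ_mk]
  rw [← Finset.sum_range_reflect]
  apply Finset.sum_congr rfl
  intro i hi
  have hi' : i < N + 1 := Finset.mem_range.1 hi
  have e1 : N + 1 - 1 - i = N - i := by omega
  have e2 : N - (N - i) = i := by omega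
  rw [e1, e2, hFp, PowerSeries.coeff_mk]
  congr 2
  omega

/-- **GAP, sequence form.**  A power series without constant term, orthogonal to Laurent series
of exact pole order `n` for every `n ≥ 1` outside `G`, with vanishing coefficients at `G`, is
zero. -/
theorem h68g_zero_of_gaps (w : PowerSeries K) (hw0 : PowerSeries.constantCoeff w = 0)
    (G : Set ℕ)
    (hcover : ∀ n : ℕ, 0 < n → n ∉ G → ∃ f : LaurentSeries K, f.coeff (-(n : ℤ)) ≠ 0 ∧
      (∀ m : ℤ, m < -(n : ℤ) → f.coeff m = 0) ∧ (f * (w : LaurentSeries K)).coeff 0 = 0)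
    (hG : ∀ n ∈ G, PowerSeries.coeff n w = 0) : w = 0 := by
  have key : ∀ n : ℕ, PowerSeries.coeff n w = 0 := by
    intro n
    induction n using Nat.strong_induction_on with
    | _ n ih =>
      rcases Nat.eq_zero_or_pos n with rfl | hn
      · rw [PowerSeries.coeff_zero_eq_constantCoeff]
        exact hw0
      · by_cases hnG : n ∈ G
        · exact hG n hnG
        · obtain ⟨f, hfn, hfm, hfw⟩ := hcover n hn hnG
          rw [h68g_coeff_zero_mul f w n hfm, Finset.sum_range_succ] at hfw
          have h0 : ∑ i ∈ Finset.range n, f.coeff (-(i : ℤ)) * PowerSeries.coeff i w = 0 := by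
            apply Finset.sum_eq_zero
            intro i hi
            rw [ih i (Finset.mem_range.1 hi), mul_zero]
          rw [h0, zero_add] at hfw
          exact (mul_eq_zero.1 hfw).resolve_left hfn
  ext n
  rw [key n, map_zero]

/-- **GAP, dimension form.**  A `K`-subspace of power series without constant term, orthogonal
(elementwise) to Laurent series of exact pole order `n` for every `n ≥ 1` outside the finite set
`G`, has dimension at most `#G`. -/
theorem h68g_finrank_le (Ω : Submodule K (PowerSeries K)) (G : Finset ℕ)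
    (h0 : ∀ w ∈ Ω, PowerSeries.constantCoeff w = 0)
    (hcover : ∀ w ∈ Ω, ∀ n : ℕ, 0 < n → n ∉ G → ∃ f : LaurentSeries K,
      f.coeff (-(n : ℤ)) ≠ 0 ∧ (∀ m : ℤ, m < -(n : ℤ) → f.coeff m = 0) ∧
      (f * (w : LaurentSeries K)).coeff 0 = 0) :
    Module.Finite K Ω ∧ Module.finrank K Ω ≤ G.card := by
  -- the restriction to the gaps
  let ρ : Ω →ₗ[K] (G → K) :=
    { toFun := fun w n => PowerSeries.coeff (n : ℕ) (w : PowerSeries K)
      map_add' := fun a b => by
        funext n
        simp
      map_smul' := fun c a => by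
        funext n
        simp }
  have hinj : Function.Injective ρ := by
    rw [← LinearMap.ker_eq_bot, LinearMap.ker_eq_bot']
    intro w hw
    apply Subtype.ext
    rw [Submodule.coe_zero]
    apply h68g_zero_of_gaps (w : PowerSeries K) (h0 _ w.2) (G : Set ℕ)
    · intro n hn hnG
      exact hcover _ w.2 n hn (fun h => hnG (Finset.mem_coe.2 h))
    · intro n hn
      have := congrFun hw ⟨n, Finset.mem_coe.1 hn⟩
      exact this
  have hfin : Module.Finite K Ω := Module.Finite.of_injective ρ hinj
  refine ⟨hfin, ?_⟩
  have h1 := LinearMap.finrank_le_finrank_of_injective hinj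
  rw [Module.finrank_fintype_fun_eq_card, Fintype.card_coe] at h1
  exact h1

end Fermat.Agent.P7
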