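import Fermat.Agent.P5.H68RRFin
import Fermat.Agent.P7.H68GapSeq

/-!
# Wave 7 (S44), block (A) DLOG, leaf DL4 GAP (helper68, prefix `h68g_`)

Abstract function field `F / K` in the Prelude vocabulary (`Place K F`, `Divisor K F`,
`riemannRochSpace`), with the basic facts `H13rBase K F` and a weak genus `g`
(`H13rIsGenus K F g`), `P` a place.

* `h68g_nongap_of_jump` : if `ℓ((n + 1) P) = ℓ(n P) + 1` there is a function regular outside `P`
  with a pole of exact order `n + 1` at `P`.
* `h68g_gaps` : there is a finite set `G` of at most `g` positive integers (the Weierstrass gaps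
  at `P`) such that for every `n ≥ 1` outside `G` there is `f ≠ 0`, regular outside `P`, with
  `ord_P f = -n`.
* `h68g_omega_finrank_le` : for an expansion `ι : F → K((q))` at `P` (`ι f` has exact pole order
  `n` when `ord_P f = -n`), every `K`-subspace `Ω` of power series without constant term which is
  orthogonal to the expansions of the functions regular outside `P` has dimension at most `g`.

Mathlib + Prelude + landed P5 RR leaves only.
-/

set_option autoImplicit false
set_option linter.deprecated false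

noncomputable section

namespace Fermat.Agent.P7

open AlgebraicCurve Fermat.Agent.P5

variable {K F : Type*} [Field K] [Field F] [Algebra K F]

/-- `n P` as a divisor. -/
def h68gDiv (P : Place K F) (n : ℕ) : Divisor K F := Finsupp.single P (n : ℤ)

theorem h68gDiv_zero (P : Place K F) : h68gDiv P 0 = 0 := by
  unfold h68gDiv
  rw [Nat.cast_zero, Finsupp.single_zero]

theorem h68gDiv_succ (P : Place K F) (n : ℕ) :
    h68gDiv P (n + 1) = h68gDiv P n + Finsupp.single P 1 := by
  unfold h68gDiv
  rw [Nat.cast_add, Nat.cast_one, Finsupp.single_add]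

theorem h68gDiv_le_succ (P : Place K F) (n : ℕ) : h68gDiv P n ≤ h68gDiv P (n + 1) := by
  rw [h68gDiv_succ]
  apply le_add_of_nonneg_right
  intro v
  simp only [Finsupp.coe_zero, Pi.zero_apply]
  by_cases h : P = v
  · subst h
    rw [Finsupp.single_eq_same]
    exact zero_le_one
  · rw [Finsupp.single_eq_of_ne' h]

theorem h68g_degree_div (hB : H13rBase K F) (P : Place K F) (n : ℕ) :
    Divisor.degree (h68gDiv P n) = n := by
  unfold h68gDiv
  rw [Divisor.degree_single, hB.deg_one]
  simp

/-- `ℓ(n P) ≤ ℓ((n + 1) P) ≤ ℓ(n P) + 1`. -/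
theorem h68g_ell_step (hB : H13rBase K F) (P : Place K F) (n : ℕ) :
    h13rL K F (h68gDiv P n) ≤ h13rL K F (h68gDiv P (n + 1)) ∧
      h13rL K F (h68gDiv P (n + 1)) ≤ h13rL K F (h68gDiv P n) + 1 := by
  obtain ⟨hfin, hstep, -, -⟩ := h68r_fin K F hB
  constructor
  · have := hfin (h68gDiv P (n + 1))
    exact Submodule.finrank_mono (h68r_riemannRochSpace_mono (h68gDiv_le_succ P n))
  · rw [h68gDiv_succ]
    exact hstep _ P

/-- a jump of `ℓ` produces a function with a pole of exact order `n + 1` at `P`, regular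
elsewhere. -/
theorem h68g_nongap_of_jump (hB : H13rBase K F) (P : Place K F) (n : ℕ)
    (h : h13rL K F (h68gDiv P (n + 1)) = h13rL K F (h68gDiv P n) + 1) :
    ∃ f : F, f ≠ 0 ∧ (∀ v : Place K F, v ≠ P → 0 ≤ v.ord f) ∧
      P.ord f = -((n + 1 : ℕ) : ℤ) := by
  obtain ⟨hfin, -, -, -⟩ := h68r_fin K F hB
  have hle := h68r_riemannRochSpace_mono (h68gDiv_le_succ P n)
  have hex : ∃ f : F, f ∈ riemannRochSpace (h68gDiv P (n + 1)) ∧
      f ∉ riemannRochSpace (h68gDiv P n) := by
    by_contra hcon
    push_neg at hcon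
    have heq : riemannRochSpace (h68gDiv P (n + 1)) = riemannRochSpace (h68gDiv P n) :=
      le_antisymm (fun f hf => hcon f hf) hle
    unfold h13rL at h
    rw [heq] at h
    omega
  obtain ⟨f, hf1, hf2⟩ := hex
  have hf0 : f ≠ 0 := by
    rintro rfl
    exact hf2 (Submodule.zero_mem _)
  rw [mem_riemannRochSpace_iff] at hf1 hf2
  push_neg at hf2
  obtain ⟨v, -, hv⟩ := hf2
  have hreg : ∀ v : Place K F, v ≠ P → 0 ≤ v.ord f := by
    intro v hv
    have h1 := (hf1 v).resolve_left hf0
    unfold h68gDiv at h1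
    rw [Finsupp.single_eq_of_ne' (Ne.symm hv), neg_zero] at h1
    exact h1
  have hvP : v = P := by
    by_contra hne
    have h1 := hreg v hne
    unfold h68gDiv at hv
    rw [Finsupp.single_eq_of_ne' (Ne.symm hne), neg_zero] at hv
    omega
  subst hvP
  refine ⟨f, hf0, hreg, ?_⟩
  have h1 := (hf1 v).resolve_left hf0
  unfold h68gDiv at h1 hv
  rw [Finsupp.single_eq_same] at h1 hv
  push_cast at h1 ⊢
  omega

/-- the number of jumps up to `N` is `ℓ(N P) - 1`. -/
theorem h68g_card_jumps (hB : H13rBase K F) (P : Place K F) (N : ℕ) :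
    ((Finset.range N).filter fun n =>
        h13rL K F (h68gDiv P (n + 1)) = h13rL K F (h68gDiv P n) + 1).card + 1 =
      h13rL K F (h68gDiv P N) := by
  classical
  induction N with
  | zero =>
    obtain ⟨-, -, -, h0⟩ := h68r_fin K F hB
    rw [Finset.range_zero, Finset.filter_empty, Finset.card_empty, zero_add, h68gDiv_zero, h0]
  | succ N ih =>
    rw [Finset.range_add_one, Finset.filter_insert]
    obtain ⟨h1, h2⟩ := h68g_ell_step hB P N
    by_cases hj : h13rL K F (h68gDiv P (N + 1)) = h13rL K F (h68gDiv P N) + 1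
    · rw [if_pos hj, Finset.card_insert_of_notMem, hj, ← ih]
      intro hmem
      have := (Finset.mem_filter.1 hmem).1
      simp at this
    · rw [if_neg hj, ih]
      omega

/-- **GAP.**  At most `g` positive integers are not pole orders at `P` of functions regular
outside `P`. -/
theorem h68g_gaps (hB : H13rBase K F) {g : ℕ} (hg : H13rIsGenus K F g) (P : Place K F) :
    ∃ G : Finset ℕ, G.card ≤ g ∧ ∀ n : ℕ, 0 < n → n ∉ G →
      ∃ f : F, f ≠ 0 ∧ (∀ v : Place K F, v ≠ P → 0 ≤ v.ord f) ∧ P.ord f = -(n : ℤ) := by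
  classical
  obtain ⟨⟨c, hc⟩, -⟩ := h68r_large K F hB g hg
  -- beyond `N₀` every integer is a jump
  set N₀ : ℕ := c.toNat with hN₀
  have hlarge : ∀ n : ℕ, N₀ ≤ n → (h13rL K F (h68gDiv P n) : ℤ) + g = n + 1 := by
    intro n hn
    have h1 : c ≤ Divisor.degree (h68gDiv P n) := by
      rw [h68g_degree_div hB]
      have := Int.self_le_toNat c
      omega
    rw [hc _ h1, h68g_degree_div hB]
  -- the gaps: the non-jumps below `N₀`
  refine ⟨((Finset.range N₀).filter fun n =>
      ¬ h13rL K F (h68gDiv P (n + 1)) = h13rL K F (h68gDiv P n) + 1).image (· + 1), ?_, ?_⟩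
  · refine le_trans Finset.card_image_le ?_
    have h1 := h68g_card_jumps hB P N₀
    have h2 := Finset.card_filter_add_card_filter_not (s := Finset.range N₀)
      (fun n => h13rL K F (h68gDiv P (n + 1)) = h13rL K F (h68gDiv P n) + 1)
    rw [Finset.card_range] at h2
    have h3 := hlarge N₀ le_rfl
    omega
  · intro n hn hnG
    obtain ⟨m, rfl⟩ : ∃ m, n = m + 1 := ⟨n - 1, by omega⟩
    have hjump : h13rL K F (h68gDiv P (m + 1)) = h13rL K F (h68gDiv P m) + 1 := by
      by_cases hm : m < N₀
      · by_contra hcon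
        apply hnG
        rw [Finset.mem_image]
        exact ⟨m, Finset.mem_filter.2 ⟨Finset.mem_range.2 hm, hcon⟩, rfl⟩
      · have h1 := hlarge m (by omega)
        have h2 := hlarge (m + 1) (by omega)
        push_cast at h2
        omega
    exact h68g_nongap_of_jump hB P m hjump

/-- **DL4 GAP, dimension form.**  `ι` an expansion at `P`: the expansion of a function regular
outside `P` with `ord_P f = -n` has exact pole order `n`.  A `K`-subspace `Ω` of power series
without constant term which is orthogonal to the expansions of all functions regular outside `P`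
has dimension at most `g`. -/
theorem h68g_omega_finrank_le (hB : H13rBase K F) {g : ℕ} (hg : H13rIsGenus K F g)
    (P : Place K F) (ι : F → LaurentSeries K)
    (hι : ∀ (f : F) (n : ℕ), f ≠ 0 → (∀ v : Place K F, v ≠ P → 0 ≤ v.ord f) →
      P.ord f = -(n : ℤ) → (ι f).coeff (-(n : ℤ)) ≠ 0 ∧ ∀ m : ℤ, m < -(n : ℤ) → (ι f).coeff m = 0)
    (Ω : Submodule K (PowerSeries K))
    (h0 : ∀ w ∈ Ω, PowerSeries.constantCoeff w = 0)
    (horth : ∀ w ∈ Ω, ∀ f : F, (∀ v : Place K F, v ≠ P → 0 ≤ v.ord f) →
      (ι f * (w : LaurentSeries K)).coeff 0 = 0) :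
    Module.Finite K Ω ∧ Module.finrank K Ω ≤ g := by
  obtain ⟨G, hGcard, hG⟩ := h68g_gaps hB hg P
  obtain ⟨hfin, hrank⟩ := h68g_finrank_le Ω G h0 (by
    intro w hw n hn hnG
    obtain ⟨f, hf0, hreg, hord⟩ := hG n hn hnG
    obtain ⟨h1, h2⟩ := hι f n hf0 hreg hord
    exact ⟨ι f, h1, h2, horth w hw f hreg⟩)
  exact ⟨hfin, hrank.trans hGcard⟩

end Fermat.Agent.P7
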