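import Mathlib
import Fermat.Prelude.Def_AlgebraicCurve_DivisorClassGroup

/-!
# Wave 7 (S44), block (A) DLOG, leaf DL4 GAP: the place of a Laurent expansion (helper68)

Copy of `S24/PlaceOfEmb.lean` (there over the complex numbers) for an arbitrary coefficient
field `k`, with fresh names (prefix `h68p_`): a ring homomorphism `ι : F → k((q))`, trivial on the
constants and with some `t` of positive order, induces a place `v` of `F` with
`ord ∘ ι = m * v.ord`, `m > 0`.

Main statement: `Fermat.Agent.P7.h68p_exists_place_of_emb`.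
-/

set_option autoImplicit false

open AlgebraicCurve

noncomputable section

namespace Fermat.Agent.P7

section helpers

variable {k : Type*} [Field k] {F : Type*} [Field F] (ι : F →+* LaurentSeries k)

theorem h68p_map_ne_zero {f : F} (hf : f ≠ 0) : ι f ≠ 0 :=
  (map_ne_zero ι).mpr hf

theorem h68p_order_map_mul {f g : F} (hf : f ≠ 0) (hg : g ≠ 0) :
    (ι (f * g)).order = (ι f).order + (ι g).order := by
  rw [map_mul]
  exact HahnSeries.order_mul (h68p_map_ne_zero ι hf) (h68p_map_ne_zero ι hg)

theorem h68p_order_map_inv (f : F) : (ι f⁻¹).order = -(ι f).order := by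
  rcases eq_or_ne f 0 with rfl | hf
  · simp
  · have h := h68p_order_map_mul ι hf (inv_ne_zero hf)
    rw [mul_inv_cancel₀ hf, map_one, HahnSeries.order_one] at h
    linarith

theorem h68p_order_map_add {f g : F} (hf : 0 ≤ (ι f).order) (hg : 0 ≤ (ι g).order) :
    0 ≤ (ι (f + g)).order := by
  rcases eq_or_ne (f + g) 0 with h0 | h0
  · rw [h0, map_zero, HahnSeries.order_zero]
  · have hne : ι f + ι g ≠ 0 := by
      rw [← map_add]; exact h68p_map_ne_zero ι h0
    have h := HahnSeries.min_order_le_order_add hne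
    rw [map_add]
    exact le_trans (le_min hf hg) h

theorem h68p_order_map_mul_nonneg {f g : F} (hf : 0 ≤ (ι f).order) (hg : 0 ≤ (ι g).order) :
    0 ≤ (ι (f * g)).order := by
  rcases eq_or_ne f 0 with rfl | hf0
  · simp
  rcases eq_or_ne g 0 with rfl | hg0
  · simp
  rw [h68p_order_map_mul ι hf0 hg0]
  exact add_nonneg hf hg

theorem h68p_order_map_zpow (f : F) (k : ℤ) : (ι (f ^ k)).order = k * (ι f).order := by
  rcases eq_or_ne f 0 with rfl | hf
  · rcases eq_or_ne k 0 with rfl | hk
    · simp
    · rw [zero_zpow k hk]; simp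
  induction k using Int.induction_on with
  | zero => simp
  | succ n ih =>
    rw [zpow_add_one₀ hf, h68p_order_map_mul ι (zpow_ne_zero _ hf) hf, ih]
    ring
  | pred n ih =>
    rw [zpow_sub_one₀ hf, h68p_order_map_mul ι (zpow_ne_zero _ hf) (inv_ne_zero hf), ih,
      h68p_order_map_inv]
    ring

/-- The valuation subring `{f | 0 ≤ ord (ι f)}`. -/
def h68p_valSubring : ValuationSubring F where
  carrier := {f | 0 ≤ (ι f).order}
  mul_mem' := fun {a b} ha hb => h68p_order_map_mul_nonneg ι ha hb
  one_mem' := by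
    show 0 ≤ (ι 1).order
    rw [map_one, HahnSeries.order_one]
  add_mem' := fun {a b} ha hb => h68p_order_map_add ι ha hb
  zero_mem' := by
    show 0 ≤ (ι 0).order
    rw [map_zero, HahnSeries.order_zero]
  neg_mem' := fun {a} ha => by
    show 0 ≤ (ι (-a)).order
    rw [map_neg, HahnSeries.order_neg]
    exact ha
  mem_or_inv_mem' := fun x => by
    show 0 ≤ (ι x).order ∨ 0 ≤ (ι x⁻¹).order
    rw [h68p_order_map_inv]
    rcases le_total 0 (ι x).order with h | h
    · exact Or.inl h
    · exact Or.inr (by linarith)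

theorem h68p_mem_valSubring {f : F} : f ∈ h68p_valSubring ι ↔ 0 ≤ (ι f).order :=
  Iff.rfl

theorem h68p_isPrincipalIdealRing : IsPrincipalIdealRing (h68p_valSubring ι) := by
  refine ⟨fun I => ?_⟩
  by_cases hI : I = ⊥
  · exact ⟨⟨0, by rw [hI]; simp⟩⟩
  have hex : ∃ a ∈ I, a ≠ 0 := Submodule.exists_mem_ne_zero_of_ne_bot hI
  have hne : ∃ n : ℕ, ∃ a ∈ I, a ≠ 0 ∧ (ι (a : F)).order = (n : ℤ) := by
    obtain ⟨a, haI, ha0⟩ := hex
    have ha : 0 ≤ (ι (a : F)).order := a.2
    exact ⟨(ι (a : F)).order.toNat, a, haI, ha0, (Int.toNat_of_nonneg ha).symm⟩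
  classical
  obtain ⟨a, haI, ha0, han⟩ := Nat.find_spec hne
  have hmin : ∀ b ∈ I, b ≠ 0 → (ι (a : F)).order ≤ (ι (b : F)).order := by
    intro b hbI hb0
    have hb : 0 ≤ (ι (b : F)).order := b.2
    have h := Nat.find_min' hne ⟨b, hbI, hb0, (Int.toNat_of_nonneg hb).symm⟩
    rw [han]
    calc ((Nat.find hne : ℕ) : ℤ) ≤ ((ι (b : F)).order.toNat : ℤ) := by exact_mod_cast h
      _ = (ι (b : F)).order := Int.toNat_of_nonneg hb
  have haF : (a : F) ≠ 0 := fun h => ha0 (Subtype.ext h)
  refine ⟨⟨a, ?_⟩⟩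
  apply le_antisymm
  · intro b hbI
    rw [Submodule.mem_span_singleton]
    rcases eq_or_ne b 0 with rfl | hb0
    · exact ⟨0, by simp⟩
    have hbF : (b : F) ≠ 0 := fun h => hb0 (Subtype.ext h)
    have hc : (b : F) * (a : F)⁻¹ ∈ h68p_valSubring ι := by
      rw [h68p_mem_valSubring, h68p_order_map_mul ι hbF (inv_ne_zero haF), h68p_order_map_inv]
      have := hmin b hbI hb0
      linarith
    refine ⟨⟨(b : F) * (a : F)⁻¹, hc⟩, ?_⟩
    apply Subtype.ext
    show (b : F) * (a : F)⁻¹ * (a : F) = (b : F)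
    field_simp
  · rw [Submodule.span_singleton_le_iff_mem]
    exact haI

end helpers

/-- M1b: a ring hom `ι : F → k((s))`, trivial on constants and with `ord (ι t) > 0`,
induces a place of `F` with `t` in its maximal ideal. -/
theorem h68p_exists_place_of_emb {K F : Type*} [Field K] [Field F] [Algebra K F]
    {k : Type*} [Field k] (t : F) (θ : K →+* k) (ι : F →+* LaurentSeries k)
    (hconst : ∀ a, ι (algebraMap K F a) = HahnSeries.C (θ a)) (ht : 0 < (ι t).order) :
    ∃ (v : Place K F) (m : ℕ), 0 < m ∧ ∀ f : F, f ≠ 0 → (ι f).order = m * v.ord f := by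
  have ht0 : t ≠ 0 := by
    rintro rfl
    rw [map_zero, HahnSeries.order_zero] at ht
    exact lt_irrefl _ ht
  -- the place
  obtain ⟨v, hv⟩ : ∃ v : Place K F, v.toValuationSubring = h68p_valSubring ι :=
    ⟨{ toValuationSubring := h68p_valSubring ι
       algebraMap_mem' := fun a => by
         rw [h68p_mem_valSubring, hconst, HahnSeries.order_C]
       ne_top' := by
         intro htop
         have hmem : t⁻¹ ∈ h68p_valSubring ι := by rw [htop]; exact ValuationSubring.mem_top _
         rw [h68p_mem_valSubring, h68p_order_map_inv] at hmem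
         linarith
       isPrincipalIdealRing' := h68p_isPrincipalIdealRing ι }, rfl⟩
  have hvmem : ∀ f : F, f ∈ v.toValuationSubring ↔ 0 ≤ (ι f).order := fun f => by
    rw [hv]; exact Iff.rfl
  -- units have order zero
  have hunit : ∀ u : v.toValuationSubringˣ, (ι ((u : v.toValuationSubring) : F)).order = 0 := by
    intro u
    have h1 : 0 ≤ (ι ((u : v.toValuationSubring) : F)).order :=
      (hvmem _).mp (u : v.toValuationSubring).2
    have h2 : 0 ≤ (ι (((u⁻¹ : v.toValuationSubringˣ) : v.toValuationSubring) : F)).order :=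
      (hvmem _).mp ((u⁻¹ : v.toValuationSubringˣ) : v.toValuationSubring).2
    have h3 : (((u⁻¹ : v.toValuationSubringˣ) : v.toValuationSubring) : F)
        = ((u : v.toValuationSubring) : F)⁻¹ := by
      have hmul : ((u : v.toValuationSubring) : F)
          * (((u⁻¹ : v.toValuationSubringˣ) : v.toValuationSubring) : F) = 1 := by
        have h := congrArg (fun x : v.toValuationSubring => (x : F)) u.mul_inv
        exact h
      exact eq_inv_of_mul_eq_one_right hmul
    rw [h3, h68p_order_map_inv] at h2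
    linarith
  -- a uniformizer
  obtain ⟨π, hπ⟩ := IsDiscreteValuationRing.exists_irreducible v.toValuationSubring
  have hπF : (π : F) ≠ 0 := fun h => hπ.ne_zero (Subtype.ext h)
  have hπ0 : 0 ≤ (ι (π : F)).order := (hvmem _).mp π.2
  have hπpos : 0 < (ι (π : F)).order := by
    rcases hπ0.lt_or_eq with h | h
    · exact h
    · exfalso
      apply hπ.not_isUnit
      have hinv : (π : F)⁻¹ ∈ v.toValuationSubring := by
        rw [hvmem, h68p_order_map_inv, ← h]; simp
      refine ⟨⟨π, ⟨(π : F)⁻¹, hinv⟩, ?_, ?_⟩, rfl⟩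
      · apply Subtype.ext
        show (π : F) * (π : F)⁻¹ = 1
        exact mul_inv_cancel₀ hπF
      · apply Subtype.ext
        show (π : F)⁻¹ * (π : F) = 1
        exact inv_mul_cancel₀ hπF
  refine ⟨v, (ι (π : F)).order.toNat, ?_, ?_⟩
  · exact (Int.pos_iff_toNat_pos).mp hπpos
  · intro f hf
    obtain ⟨u, hu⟩ := v.exists_unit_mul_zpow hf hπ
    have huF : ((u : v.toValuationSubring) : F) ≠ 0 := by
      intro h
      exact u.ne_zero (Subtype.ext h)
    rw [Int.toNat_of_nonneg hπ0]
    conv_lhs => rw [hu]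
    rw [h68p_order_map_mul ι huF (zpow_ne_zero _ hπF), hunit u, zero_add,
      h68p_order_map_zpow, mul_comm]

end Fermat.Agent.P7
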