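import Fermat.Agent.P7.H68Gap
import Fermat.Agent.P7.H68PlaceEmb
import Fermat.Agent.P5.H26GenusFinal

/-!
# Wave 7 (S44), block (A) DLOG, leaf DL4 GAP at the special fibre (helper68, prefix `h68g_`)

`A` a valuation subring of `ℚ̄`, `k = h13sK A` its residue field, `kC = h13sFt A M ⊆ k((q))` the
function field of the special fibre of level `M` (P5 vocabulary), `ι = h13sIncl A M`.

* `h68g_place_infty` : the place `∞̄` of `kC` given by the order in `q`:
  `ord_q (ι f) = ord_∞̄ f` for every `f ≠ 0` (any level `M`, no hypothesis).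
* `h68g_level` : at a good level (`ℓ ∤ M`, `auxLevel ℓ ∣ M`, `A` over `ℓ`), with `g` the common
  weak genus of the two fibres (`h26s_genus`): every `k`-subspace `Ω` of power series without
  constant term, orthogonal (`a₀(ι f * w) = 0`) to all `f ∈ kC` regular outside `∞̄`, is
  finite-dimensional of dimension at most `g`.
-/

set_option autoImplicit false
set_option linter.unusedSectionVars false
set_option linter.unusedVariables false
set_option linter.style.haveILetI false

open AlgebraicCurve ModularCurve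

noncomputable section

namespace Fermat.Agent.P7

open Fermat.Agent.S37 Fermat.Agent.Red.GV Fermat.Agent.P5

/-- **the place `∞̄` of the special fibre**: the order in `q`. -/
theorem h68g_place_infty (A : ValuationSubring Kbar) (M : ℕ) [NeZero M] :
    ∃ P : Place (h13sK A) (h13sFt A M), ∀ f : h13sFt A M, f ≠ 0 →
      (h13sIncl A M f).order = P.ord f := by
  have hJ : h13sIncl A M (h40fJ A M) = jK (h13sK A) := h40f_incl_J A M
  have hJ0 : h40fJ A M ≠ 0 := h40f_J_ne_zero A M
  have hc1 : (jK (h13sK A)).coeff (-1 : ℤ) = 1 := ModularCurve.coeff_jqModC_neg_one (h13sK A)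
  have hc2 : ∀ n : ℤ, n < -1 → (jK (h13sK A)).coeff n = 0 := fun n hn =>
    ModularCurve.coeff_jqModC_of_lt (h13sK A) hn
  have hjK0 : jK (h13sK A) ≠ 0 := by
    intro h
    rw [h, HahnSeries.coeff_zero] at hc1
    exact zero_ne_one hc1
  have hord : (jK (h13sK A)).order = -1 := by
    apply le_antisymm
    · exact HahnSeries.order_le_of_coeff_ne_zero (by rw [hc1]; exact one_ne_zero)
    · by_contra hlt
      have hlt' : (jK (h13sK A)).order < -1 := lt_of_not_ge hlt
      exact hjK0 (HahnSeries.coeff_order_eq_zero.1 (hc2 _ hlt'))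
  -- the place of the expansion
  have hconst : ∀ a : h13sK A, (h13sIncl A M).toRingHom (algebraMap (h13sK A) (h13sFt A M) a) =
      HahnSeries.C ((RingHom.id (h13sK A)) a) := by
    intro a
    show h13sIncl A M (algebraMap (h13sK A) (h13sFt A M) a) = _
    rw [AlgHom.commutes, ModularCurve.algebraMap_laurentSeries_eq_single]
    rfl
  have htpos : 0 < ((h13sIncl A M).toRingHom (h40fJ A M)⁻¹).order := by
    show 0 < (h13sIncl A M (h40fJ A M)⁻¹).order
    have h1 := h68p_order_map_inv (h13sIncl A M).toRingHom (h40fJ A M)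
    have h2 : ((h13sIncl A M).toRingHom (h40fJ A M)).order = -1 := by
      show (h13sIncl A M (h40fJ A M)).order = -1
      rw [hJ, hord]
    rw [h2] at h1
    show 0 < ((h13sIncl A M).toRingHom (h40fJ A M)⁻¹).order
    rw [h1]
    norm_num
  obtain ⟨v, m, hm, hv⟩ := h68p_exists_place_of_emb (K := h13sK A) (F := h13sFt A M)
    (h40fJ A M)⁻¹ (RingHom.id (h13sK A)) (h13sIncl A M).toRingHom hconst htpos
  have hvJ := hv (h40fJ A M) hJ0
  have hvJ' : (-1 : ℤ) = m * v.ord (h40fJ A M) := by
    rw [← hvJ]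
    show (-1 : ℤ) = (h13sIncl A M (h40fJ A M)).order
    rw [hJ, hord]
  have hm1 : m = 1 := by
    have h1 : (m : ℤ) ∣ 1 := by
      refine ⟨-v.ord (h40fJ A M), ?_⟩
      linarith
    have h2 : (m : ℤ) = 1 := Int.eq_one_of_dvd_one (by positivity) h1
    exact_mod_cast h2
  refine ⟨v, fun f hf => ?_⟩
  have := hv f hf
  rw [hm1, Nat.cast_one, one_mul] at this
  exact this

/-- **DL4 GAP at the special fibre.** -/
theorem h68g_level {ℓ : ℕ} (hℓ : ℓ.Prime) (M : ℕ) [NeZero M] (hM : ¬ ℓ ∣ M)
    (haux : auxLevel ℓ ∣ M) (A : ValuationSubring Kbar) (hA : A.LiesOverPrime ℓ) :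
    ∃ (P : Place (h13sK A) (h13sFt A M)) (g : ℕ),
      H13rIsGenus Kbar (FF M) g ∧ H13rIsGenus (h13sK A) (h13sFt A M) g ∧
      (∀ f : h13sFt A M, f ≠ 0 → (h13sIncl A M f).order = P.ord f) ∧
      ∀ Ω : Submodule (h13sK A) (PowerSeries (h13sK A)),
        (∀ w ∈ Ω, PowerSeries.constantCoeff w = 0) →
        (∀ w ∈ Ω, ∀ f : h13sFt A M,
          (∀ v : Place (h13sK A) (h13sFt A M), v ≠ P → 0 ≤ v.ord f) →
          (h13sIncl A M f * (w : LaurentSeries (h13sK A))).coeff 0 = 0) →
        Module.Finite (h13sK A) Ω ∧ Module.finrank (h13sK A) Ω ≤ g := by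
  obtain ⟨P, hP⟩ := h68g_place_infty A M
  obtain ⟨g, hg0, hg⟩ := h26s_genus ℓ hℓ M hM haux A hA
  have hB : H13rBase (h13sK A) (h13sFt A M) := h26s_base ℓ hℓ M hM haux A hA
  refine ⟨P, g, hg0, hg, hP, fun Ω h0 horth => ?_⟩
  refine h68g_omega_finrank_le hB hg P (fun f => h13sIncl A M f) ?_ Ω h0 horth
  intro f n hf0 _ hord
  have h1 : (h13sIncl A M f).order = -(n : ℤ) := by rw [hP f hf0, hord]
  have hne : h13sIncl A M f ≠ 0 := by
    intro h
    apply hf0
    have : h13sIncl A M f = h13sIncl A M 0 := by rw [h, map_zero]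
    exact (h13sIncl A M).toRingHom.injective this
  constructor
  · rw [← h1]
    exact fun h => hne (HahnSeries.coeff_order_eq_zero.1 h)
  · intro m hm
    exact HahnSeries.coeff_eq_zero_of_lt_order (by rw [h1]; exact hm)

end Fermat.Agent.P7
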