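import Fermat.Agent.P5.H68RRFin

/-!
# Wave 7 (S44), block (A) DLOG, kill gate GENUS-MATCH: the Riemann–Roch arithmetic
(helper68, prefix `h68k_`)

Abstract function field `F / K` (Prelude vocabulary) with `H13rBase K F` and weak genus `g`
(`H13rIsGenus K F g`).  `D` a divisor with `deg D ≤ μ`, `0 < μ`.  If for arbitrarily large `r`
there are at least `μ (r + 1) - T` linearly independent functions in `L(r D)` (for instance
`j ^ a v_k`, `a + d_k ≤ r`, for a family `v_k` of `μ` functions of degrees `d_k`, `T = ∑ d_k`),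
then `g + μ ≤ T + 1`, i.e. `g ≤ T + 1 - μ`.

* `h68k_card_le_ell` : a linearly independent family in `L(E)` has at most `ℓ(E)` members.
* `h68k_ell_le_one` : `ℓ(E) ≤ 1` if `deg E ≤ 0`.
* `h68k_genus_le` : the count, with `ℓ(r D)`.
* `h68k_genus_le_of_indep` : the count, with linearly independent families.

Mathlib + Prelude + landed P5 RR leaves only.
-/

set_option autoImplicit false
set_option linter.deprecated false

noncomputable section

namespace Fermat.Agent.P7

open AlgebraicCurve Fermat.Agent.P5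

variable {K F : Type*} [Field K] [Field F] [Algebra K F]

/-- a linearly independent family in `L(E)` has at most `ℓ(E)` members. -/
theorem h68k_card_le_ell (hB : H13rBase K F) (E : Divisor K F) {ι : Type*} [Fintype ι]
    (b : ι → F) (hb : LinearIndependent K b) (hmem : ∀ i, b i ∈ riemannRochSpace E) :
    Fintype.card ι ≤ h13rL K F E := by
  have hfin : Module.Finite K ↥(riemannRochSpace E) := h68r_finite hB E
  let b' : ι → ↥(riemannRochSpace E) := fun i => ⟨b i, hmem i⟩
  have hb' : LinearIndependent K b' := by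
    apply LinearIndependent.of_comp (riemannRochSpace E).subtype
    exact hb
  exact hb'.fintype_card_le_finrank

/-- `ℓ(E) ≤ 1` if `deg E ≤ 0`. -/
theorem h68k_ell_le_one (hB : H13rBase K F) (E : Divisor K F) (hE : Divisor.degree E ≤ 0) :
    h13rL K F E ≤ 1 := by
  obtain ⟨-, hstep, hneg, -⟩ := h68r_fin K F hB
  have hinf := hB.infinite
  obtain ⟨P⟩ : Nonempty (Place K F) := inferInstance
  have hd : Divisor.degree (E - Finsupp.single P 1) < 0 := by
    rw [map_sub, Divisor.degree_single, hB.deg_one]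
    simp only [Nat.cast_one, mul_one]
    linarith
  have h0 : h13rL K F (E - Finsupp.single P 1) = 0 := by
    unfold h13rL
    rw [hneg _ hd]
    exact finrank_bot K F
  have h1 := hstep (E - Finsupp.single P 1) P
  rw [sub_add_cancel, h0] at h1
  exact h1

/-- **GENUS-MATCH, Riemann–Roch arithmetic.** -/
theorem h68k_genus_le (hB : H13rBase K F) {g : ℕ} (hg : H13rIsGenus K F g) (D : Divisor K F)
    (μ T : ℕ) (hμ : 0 < μ) (hdeg : Divisor.degree D ≤ μ)
    (hcount : ∀ r₀ : ℕ, ∃ r : ℕ, r₀ ≤ r ∧ μ * (r + 1) ≤ h13rL K F (r • D) + T) :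
    g + μ ≤ T + 1 := by
  obtain ⟨⟨c, hc⟩, -⟩ := h68r_large K F hB g hg
  -- the degree of `D` is positive
  have hpos : 0 < Divisor.degree D := by
    by_contra hcon
    have hle : Divisor.degree D ≤ 0 := not_lt.1 hcon
    obtain ⟨r, hr, hcnt⟩ := hcount (T + 1)
    have h1 : Divisor.degree (r • D) ≤ 0 := by
      rw [map_nsmul, nsmul_eq_mul]
      have : (0 : ℤ) ≤ (r : ℤ) := Int.natCast_nonneg r
      nlinarith
    have h2 := h68k_ell_le_one hB (r • D) h1
    have h3 : r + 1 ≤ μ * (r + 1) := Nat.le_mul_of_pos_left _ hμ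
    omega
  -- a large multiple
  obtain ⟨r, hr, hcnt⟩ := hcount c.toNat
  have hdr : Divisor.degree (r • D) = r * Divisor.degree D := by
    rw [map_nsmul, nsmul_eq_mul]
  have hcr : c ≤ Divisor.degree (r • D) := by
    rw [hdr]
    have h1 : c ≤ (c.toNat : ℤ) := Int.self_le_toNat c
    have h2 : ((c.toNat : ℕ) : ℤ) ≤ (r : ℤ) := by exact_mod_cast hr
    have h3 : (r : ℤ) ≤ (r : ℤ) * Divisor.degree D := by nlinarith
    linarith
  have hrr := hc (r • D) hcr
  rw [hdr] at hrr
  have h4 : (r : ℤ) * Divisor.degree D ≤ (r : ℤ) * μ := by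
    have : (0 : ℤ) ≤ (r : ℤ) := Int.natCast_nonneg r
    nlinarith
  have h5 : ((μ * (r + 1) : ℕ) : ℤ) ≤ (h13rL K F (r • D) : ℤ) + T := by exact_mod_cast hcnt
  push_cast at h5
  have h6 : (g : ℤ) + μ ≤ T + 1 := by nlinarith
  exact_mod_cast h6

/-- **GENUS-MATCH, Riemann–Roch arithmetic, family form.** -/
theorem h68k_genus_le_of_indep (hB : H13rBase K F) {g : ℕ} (hg : H13rIsGenus K F g)
    (D : Divisor K F) (μ T : ℕ) (hμ : 0 < μ) (hdeg : Divisor.degree D ≤ μ)
    (hfam : ∀ r₀ : ℕ, ∃ r : ℕ, r₀ ≤ r ∧ ∃ (N : ℕ) (b : Fin N → F),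
      μ * (r + 1) ≤ N + T ∧ LinearIndependent K b ∧ ∀ i, b i ∈ riemannRochSpace (r • D)) :
    g + μ ≤ T + 1 := by
  refine h68k_genus_le hB hg D μ T hμ hdeg (fun r₀ => ?_)
  obtain ⟨r, hr, N, b, hN, hb, hmem⟩ := hfam r₀
  refine ⟨r, hr, ?_⟩
  have h1 := h68k_card_le_ell hB (r • D) b hb hmem
  rw [Fintype.card_fin] at h1
  omega

end Fermat.Agent.P7
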