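import Fermat.Agent.P7.H88Exact

/-!
# Wave 7, block (A), DLOG at a non-good level: CONST, abstract core (helper69)

Step (S3) of finding 1462 in the abstract vocabulary of `P7/H88Exact.lean`.

`F' / F` a finite extension of function fields over `K`, `r : Place K F' → Place k κ` the
reduction map of places, `v∞` a place of `F'`.  Assume that on the fibre `R∞ = r⁻¹ (r v∞)` the
restriction of places to `F` is injective and unramified ((S1) of finding 1462).  Then for every
`f ∈ F` regular off `v∞|_F` the sum of the orders of `f` over `R∞` is `≤ 0`; hence, by RED-DIV,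
a Gauss unit coming from `F` and regular off `v∞|_F` cannot have a reduction vanishing at `r v∞`.

* `h69y_sum_le` : `(r_* div f) (r v∞) ≤ 0`.
* `h69y_const_abs` : with RED-DIV: `(r v∞).ord f̄ ≤ 0`.
* `h69y_inj_of_value`, `h69y_unr_of_value`, `h69y_const_of_value` : the two hypotheses from
  "exactly one simple zero of `t - c` on `R∞`" (`t ∈ F`).
* `h69y_S1_abs` : that statement from RED-DIV for the Gauss unit `t - c`.
-/

set_option autoImplicit false
set_option linter.unusedSectionVars false
set_option linter.style.haveILetI false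

open AlgebraicCurve

noncomputable section

namespace Fermat.Agent.P7

section ConstAbs

variable {K F F' : Type*} [Field K] [Field F] [Field F'] [Algebra K F] [Algebra K F']
  [Algebra F F'] [IsScalarTower K F F'] [Algebra.IsIntegral F F']
variable {k κ : Type*} [Field k] [Field κ] [Algebra k κ]

open scoped Classical in
/-- the degree of a divisor on a curve all of whose places have degree one. -/
theorem h69y_degree_eq_sum (hdeg : ∀ w : Place K F, w.deg = 1) (D : Divisor K F) :
    Divisor.degree D = ∑ w ∈ D.support, D w := by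
  classical
  rw [Divisor.degree, Finsupp.liftAddHom_apply, Finsupp.sum]
  refine Finset.sum_congr rfl fun w _ => ?_
  rw [AddMonoidHom.coe_mulRight, hdeg w]
  simp

open scoped Classical in
/-- **(S3), abstract core**: the sum of the orders of `f ∈ F`, regular off `v∞|_F`, over the
fibre of the reduction map through `v∞` is `≤ 0`. -/
theorem h69y_sum_le (hdeg : ∀ w : Place K F, w.deg = 1)
    (r : Place K F' → Place k κ) (voo : Place K F')
    (hinj : ∀ v v' : Place K F', r v = r voo → r v' = r voo →
      v.restrict F = v'.restrict F → v = v')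
    (hunr : ∀ v : Place K F', r v = r voo → Place.ramificationIndex (F := F) v = 1)
    (f : F) (hreg : ∀ w : Place K F, w ≠ voo.restrict F → 0 ≤ w.ord f)
    (D : Divisor K F) (hD : ∀ w : Place K F, D w = w.ord f) (hD0 : Divisor.degree D = 0)
    (D' : Divisor K F') (hD' : ∀ v : Place K F', D' v = v.ord (algebraMap F F' f)) :
    Finsupp.mapDomain r D' (r voo) ≤ 0 := by
  classical
  rw [h88e_push_apply]
  set S := D'.support.filter (fun v => r v = r voo) with hS
  have hSr : ∀ v ∈ S, r v = r voo := fun v hv => (Finset.mem_filter.mp hv).2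
  have hval : ∀ v ∈ S, D' v = D (v.restrict F) := by
    intro v hv
    rw [hD', hD, v.ord_restrict f, hunr v (hSr v hv)]
    simp
  have hinjS : Set.InjOn (fun v : Place K F' => v.restrict F) (S : Set (Place K F')) := by
    intro v hv v' hv' h
    exact hinj v v' (hSr v hv) (hSr v' hv') h
  have h1 : ∑ v ∈ S, D' v = ∑ w ∈ S.image (fun v : Place K F' => v.restrict F), D w := by
    rw [Finset.sum_image hinjS]
    exact Finset.sum_congr rfl hval
  have hsub : S.image (fun v : Place K F' => v.restrict F) ⊆ D.support := by
    intro w hw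
    obtain ⟨v, hv, rfl⟩ := Finset.mem_image.mp hw
    rw [Finsupp.mem_support_iff, ← hval v hv]
    exact Finsupp.mem_support_iff.mp (Finset.mem_filter.mp hv).1
  have h2 : ∑ w ∈ D.support, D w = 0 := by
    rw [← h69y_degree_eq_sum hdeg D, hD0]
  have h3 : ∑ w ∈ D.support, D w =
      ∑ w ∈ S.image (fun v : Place K F' => v.restrict F), D w +
        ∑ w ∈ D.support \ S.image (fun v : Place K F' => v.restrict F), D w := by
    rw [add_comm]
    exact (Finset.sum_sdiff hsub).symm
  have h4 : 0 ≤ ∑ w ∈ D.support \ S.image (fun v : Place K F' => v.restrict F), D w := by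
    refine Finset.sum_nonneg fun w hw => ?_
    obtain ⟨hw1, hw2⟩ := Finset.mem_sdiff.mp hw
    rw [hD]
    refine hreg w fun hoo => hw2 ?_
    refine Finset.mem_image.mpr ⟨voo, Finset.mem_filter.mpr ⟨?_, rfl⟩, hoo.symm⟩
    rw [Finsupp.mem_support_iff, hD', voo.ord_restrict f, ← hoo, ← hD]
    have h5 : D w ≠ 0 := Finsupp.mem_support_iff.mp hw1
    have h6 : (Place.ramificationIndex (F := F) voo : ℤ) ≠ 0 := by
      exact_mod_cast (voo.ramificationIndex_pos (F := F)).ne'
    exact mul_ne_zero h6 h5
  rw [h1]
  linarith

open scoped Classical in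
/-- **CONST, abstract form**: a Gauss unit coming from `F` and regular off `v∞|_F` has a
reduction of order `≤ 0` at `r v∞`. -/
theorem h69y_const_abs [HasPrincipalDivisors K F] [HasPrincipalDivisors K F']
    (hdeg : ∀ w : Place K F, w.deg = 1)
    {r : Place K F' → Place k κ} {Red : F' → κ → Prop} {Fin : Place K F' → Prop}
    (hR : H88eRed (F := F) r Red Fin) (voo : Place K F')
    (hinj : ∀ v v' : Place K F', r v = r voo → r v' = r voo →
      v.restrict F = v'.restrict F → v = v')
    (hunr : ∀ v : Place K F', r v = r voo → Place.ramificationIndex (F := F) v = 1)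
    (f : F) (hf0 : f ≠ 0) (hreg : ∀ w : Place K F, w ≠ voo.restrict F → 0 ≤ w.ord f)
    (fb : κ) (hfb : Red (algebraMap F F' f) fb) :
    (r voo).ord fb ≤ 0 := by
  have hf'0 : algebraMap F F' f ≠ 0 := fun h0 => hf0 ((map_eq_zero _).mp h0)
  obtain ⟨D, hD, hD0⟩ := HasPrincipalDivisors.exists_divisor (K := K) f hf0
  obtain ⟨D', hD', -⟩ := HasPrincipalDivisors.exists_divisor (K := K) (algebraMap F F' f) hf'0
  rw [← hR.redDiv (algebraMap F F' f) fb hfb D' hD' (r voo)]
  exact h69y_sum_le hdeg r voo hinj hunr f hreg D hD hD0 D' hD'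


/-- **(S1) ⇒ injectivity**: if the fibre `R∞` contains at most one place over every value of
`t ∈ F`, the restriction of places to `F` is injective on `R∞`. -/
theorem h69y_inj_of_value (r : Place K F' → Place k κ) (voo : Place K F') (t : F)
    (hS1 : ∀ v : Place K F', r v = r voo →
      ∃ c : K, 0 < v.ord (algebraMap F F' (t - algebraMap K F c)) ∧
        ∀ v' : Place K F', r v' = r voo →
          0 < v'.ord (algebraMap F F' (t - algebraMap K F c)) → v' = v)
    (v v' : Place K F') (hv : r v = r voo) (hv' : r v' = r voo)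
    (h : v.restrict F = v'.restrict F) : v = v' := by
  obtain ⟨c, hc, huniq⟩ := hS1 v hv
  refine (huniq v' hv' ?_).symm
  rw [v.ord_restrict (t - algebraMap K F c)] at hc
  rw [v'.ord_restrict (t - algebraMap K F c), ← h]
  have he : 0 < (Place.ramificationIndex (F := F) v : ℤ) := by
    exact_mod_cast v.ramificationIndex_pos (F := F)
  have he' : 0 < (Place.ramificationIndex (F := F) v' : ℤ) := by
    exact_mod_cast v'.ramificationIndex_pos (F := F)
  have hw : 0 < (v.restrict F).ord (t - algebraMap K F c) := by
    by_contra hle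
    rw [not_lt] at hle
    have := mul_nonpos_of_nonneg_of_nonpos he.le hle
    omega
  exact mul_pos he' hw

/-- **(S1) ⇒ unramified**: a place at which some `t - c` (`t ∈ F`) has order one is unramified
over `F`. -/
theorem h69y_unr_of_value (v : Place K F') (t : F) (c : K)
    (hc : v.ord (algebraMap F F' (t - algebraMap K F c)) = 1) :
    Place.ramificationIndex (F := F) v = 1 := by
  rw [v.ord_restrict (t - algebraMap K F c)] at hc
  have he : 0 < (Place.ramificationIndex (F := F) v : ℤ) := by
    exact_mod_cast v.ramificationIndex_pos (F := F)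
  have h1 : (Place.ramificationIndex (F := F) v : ℤ) = 1 := by
    rcases Int.eq_one_or_neg_one_of_mul_eq_one hc with h | h
    · exact h
    · omega
  exact_mod_cast h1

open scoped Classical in
/-- **CONST from (S1)**, abstract form: if for every place `v` of the fibre `R∞` there is a
value `c` of `t ∈ F` at `v` such that `t - c` has order exactly one at `v` and `v` is the only
place of `R∞` over `c`, then a Gauss unit coming from `F` and regular off `v∞|_F` has a
reduction of order `≤ 0` at `r v∞`. -/
theorem h69y_const_of_value [HasPrincipalDivisors K F] [HasPrincipalDivisors K F']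
    (hdeg : ∀ w : Place K F, w.deg = 1)
    {r : Place K F' → Place k κ} {Red : F' → κ → Prop} {Fin : Place K F' → Prop}
    (hR : H88eRed (F := F) r Red Fin) (voo : Place K F') (t : F)
    (hS1 : ∀ v : Place K F', r v = r voo →
      ∃ c : K, v.ord (algebraMap F F' (t - algebraMap K F c)) = 1 ∧
        ∀ v' : Place K F', r v' = r voo →
          0 < v'.ord (algebraMap F F' (t - algebraMap K F c)) → v' = v)
    (f : F) (hf0 : f ≠ 0) (hreg : ∀ w : Place K F, w ≠ voo.restrict F → 0 ≤ w.ord f)
    (fb : κ) (hfb : Red (algebraMap F F' f) fb) :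
    (r voo).ord fb ≤ 0 := by
  refine h69y_const_abs hdeg hR voo ?_ ?_ f hf0 hreg fb hfb
  · refine h69y_inj_of_value r voo t fun v hv => ?_
    obtain ⟨c, hc, huniq⟩ := hS1 v hv
    exact ⟨c, by rw [hc]; exact one_pos, huniq⟩
  · intro v hv
    obtain ⟨c, hc, -⟩ := hS1 v hv
    exact h69y_unr_of_value v t c hc


open scoped Classical in
/-- **(S1), abstract core**: if `t - c` (`t ∈ F`) is a Gauss unit whose reduction has order one
at `r v∞`, and `t - c` has no pole on the fibre `R∞ = r⁻¹ (r v∞)`, then a zero `v ∈ R∞` of
`t - c` is simple and it is the only zero of `t - c` on `R∞`. -/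
theorem h69y_S1_abs [HasPrincipalDivisors K F']
    {r : Place K F' → Place k κ} {Red : F' → κ → Prop} {Fin : Place K F' → Prop}
    (hR : H88eRed (F := F) r Red Fin) (voo : Place K F') (t : F) (c : K)
    (tb : κ) (htb : Red (algebraMap F F' (t - algebraMap K F c)) tb)
    (h1 : (r voo).ord tb = 1)
    (hnn : ∀ v' : Place K F', r v' = r voo →
      0 ≤ v'.ord (algebraMap F F' (t - algebraMap K F c)))
    (v : Place K F') (hv : r v = r voo)
    (hc : 0 < v.ord (algebraMap F F' (t - algebraMap K F c))) :
    v.ord (algebraMap F F' (t - algebraMap K F c)) = 1 ∧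
      ∀ v' : Place K F', r v' = r voo →
        0 < v'.ord (algebraMap F F' (t - algebraMap K F c)) → v' = v := by
  classical
  set x : F' := algebraMap F F' (t - algebraMap K F c) with hx
  have hx0 : x ≠ 0 := by
    intro h0
    rw [h0, Place.ord_zero] at hc
    exact lt_irrefl _ hc
  obtain ⟨D', hD', -⟩ := HasPrincipalDivisors.exists_divisor (K := K) x hx0
  have hsum := hR.redDiv x tb htb D' hD' (r voo)
  rw [h88e_push_apply, h1] at hsum
  set S := D'.support.filter (fun v' => r v' = r voo) with hS
  have hSnn : ∀ v' ∈ S, 0 ≤ D' v' := fun v' hv' => by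
    rw [hD']
    exact hnn v' (Finset.mem_filter.mp hv').2
  have hmem : ∀ v' : Place K F', r v' = r voo → 0 < v'.ord x → v' ∈ S := by
    intro v' hv' hpos
    refine Finset.mem_filter.mpr ⟨Finsupp.mem_support_iff.mpr ?_, hv'⟩
    rw [hD']
    omega
  have hvS : v ∈ S := hmem v hv hc
  have hle : D' v ≤ 1 := by
    have := h88e_le_sum S (fun v' => D' v') hSnn hvS
    rw [hsum] at this
    exact this
  have hDv : D' v = 1 := by
    have : 0 < D' v := by rw [hD']; exact hc
    omega
  refine ⟨by rw [← hD', hDv], fun v' hv' hpos => ?_⟩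
  by_contra hne
  have hv'S : v' ∈ S.erase v := Finset.mem_erase.mpr ⟨hne, hmem v' hv' hpos⟩
  have h2 : D' v' ≤ ∑ w ∈ S.erase v, D' w :=
    h88e_le_sum (S.erase v) (fun w => D' w)
      (fun w hw => hSnn w (Finset.mem_of_mem_erase hw)) hv'S
  have h3 : ∑ w ∈ S, D' w = D' v + ∑ w ∈ S.erase v, D' w :=
    (Finset.add_sum_erase S (fun w => D' w) hvS).symm
  have h4 : 0 < D' v' := by rw [hD']; exact hpos
  rw [h3, hDv] at hsum
  omega

end ConstAbs

end Fermat.Agent.P7
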