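import Mathlib

/-!
# Wave 7 (S40), block (A) T-ABEL: the KILL lemma (helper93, prefix `h93k_`)

Abstract setting: `J` an abelian group (`J₀(M)(ℚ̄)`), `G` a group acting on it (`G_ℚ`), `J1` a
subgroup (`redKerPic M A`, the kernel of reduction at `p`), `ψ` an additive endomorphism commuting
with `G` and preserving `J1` (a Hecke polynomial `P` in the `T_ℓ`, `ℓ ∤ M p`).

What is landed for Hecke polynomials killing the cusp forms is a statement on TORSION POINTS:
`t • ψ` kills `J[p ^ k]` for all `k` (`ConvKey`, `h17g_glueDown`).  What block (A) needs is that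
`ψ` kills the `p`-power torsion of the QUOTIENT `J ⧸ J1` (the `p`-torsion of the Picard group of
the special fibre), whose elements do not obviously lift to torsion points.

* `h93k_kill_aux` : if `φ` kills `J[p ^ k]` for all `k`, `J` is `p`-divisible and the image in
  `J ⧸ J1` of the points fixed by the stabiliser of any `y` has bounded `p`-exponent (`hfin`),
  then `φ y ∈ J1` whenever `p ^ n • y ∈ J1`.
* `h93k_kill` : the same for `ψ` when only `t • ψ` (`t > 0`) kills the `p`-power torsion points.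
* `h93k_kill_quot` : quotient form.
* `h93k_fin_of_finite` : `hfin` holds as soon as the image in `J ⧸ J1` of the points fixed by the
  stabiliser of `y` is finite.

Mathlib only.
-/

set_option autoImplicit false
set_option linter.style.haveILetI false

namespace Fermat.Agent.P7

section Kill

variable {J : Type*} [AddCommGroup J] {G : Type*} [Group G] [DistribMulAction G J]

/-- `p`-divisibility gives `p ^ e`-divisibility. -/
theorem h93k_exists_pow_smul (p : ℕ) (hdiv : ∀ y : J, ∃ y' : J, p • y' = y) (e : ℕ) (y : J) :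
    ∃ y' : J, p ^ e • y' = y := by
  induction e generalizing y with
  | zero => exact ⟨y, by rw [pow_zero, one_smul]⟩
  | succ e ih =>
    obtain ⟨y₁, hy₁⟩ := hdiv y
    obtain ⟨y₂, hy₂⟩ := ih y₁
    refine ⟨y₂, ?_⟩
    rw [pow_succ, mul_comm, mul_smul, hy₂, hy₁]

/-- **KILL, first form.**  `φ` kills the `p`-power torsion points, commutes with `G`, preserves
`J1`; `J` is `p`-divisible; the image in `J ⧸ J1` of the points fixed by the stabiliser of `y` has
bounded `p`-exponent.  Then `φ` kills the `p`-power torsion of `J ⧸ J1`. -/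
theorem h93k_kill_aux (p : ℕ) (J1 : AddSubgroup J) (φ : J →+ J)
    (hdiv : ∀ y : J, ∃ y' : J, p • y' = y)
    (hcomm : ∀ (σ : G) (y : J), φ (σ • y) = σ • φ y)
    (hJ1 : ∀ y ∈ J1, φ y ∈ J1)
    (htors : ∀ (k : ℕ) (y : J), p ^ k • y = 0 → φ y = 0)
    (hfin : ∀ y : J, ∃ e : ℕ, ∀ w : J, (∀ σ : G, σ • y = y → σ • w = w) →
      ∀ n : ℕ, p ^ n • (p ^ e • w) ∈ J1 → p ^ e • w ∈ J1)
    (y : J) (n : ℕ) (hy : p ^ n • y ∈ J1) : φ y ∈ J1 := by
  obtain ⟨e, he⟩ := hfin y
  obtain ⟨y', hy'⟩ := h93k_exists_pow_smul p hdiv e y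
  have hw : ∀ σ : G, σ • y = y → σ • φ y' = φ y' := by
    intro σ hσ
    have h1 : p ^ e • (σ • y' - y') = 0 := by
      rw [smul_sub, smul_comm (p ^ e) σ y', hy', hσ, sub_self]
    have h2 := htors e _ h1
    rw [map_sub, hcomm, sub_eq_zero] at h2
    exact h2
  have h3 : p ^ n • (p ^ e • φ y') ∈ J1 := by
    rw [← map_nsmul, ← map_nsmul, hy']
    exact hJ1 _ hy
  have h4 := he (φ y') hw n h3
  rw [← map_nsmul, hy'] at h4
  exact h4

/-- **KILL.**  The same conclusion for `ψ` when only `t • ψ` (`t > 0`) kills the `p`-power torsion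
points (the constant `t` of `ConvKey` may be divisible by `p`). -/
theorem h93k_kill {p : ℕ} (hp : p.Prime) (J1 : AddSubgroup J) (ψ : J →+ J) {t : ℕ} (ht : 0 < t)
    (hdiv : ∀ y : J, ∃ y' : J, p • y' = y)
    (hcomm : ∀ (σ : G) (y : J), ψ (σ • y) = σ • ψ y)
    (hJ1 : ∀ y ∈ J1, ψ y ∈ J1)
    (htors : ∀ (k : ℕ) (y : J), p ^ k • y = 0 → t • ψ y = 0)
    (hfin : ∀ y : J, ∃ e : ℕ, ∀ w : J, (∀ σ : G, σ • y = y → σ • w = w) →
      ∀ n : ℕ, p ^ n • (p ^ e • w) ∈ J1 → p ^ e • w ∈ J1)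
    (y : J) (n : ℕ) (hy : p ^ n • y ∈ J1) : ψ y ∈ J1 := by
  -- the endomorphism `φ = t • ψ`
  have hφ : ∀ (z : J) (m : ℕ), p ^ m • z ∈ J1 → t • ψ z ∈ J1 := by
    intro z m hz
    have h := h93k_kill_aux (G := G) p J1 (t • ψ) hdiv
      (fun σ y => by
        rw [AddMonoidHom.smul_apply, AddMonoidHom.smul_apply, hcomm, smul_comm])
      (fun y hy => by
        rw [AddMonoidHom.smul_apply]
        exact J1.nsmul_mem (hJ1 y hy) t)
      (fun k y hk => by
        rw [AddMonoidHom.smul_apply]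
        exact htors k y hk)
      hfin z m hz
    rwa [AddMonoidHom.smul_apply] at h
  -- `t = p ^ a * t'`, `t'` prime to `p`
  obtain ⟨a, t', ht', rfl⟩ := Nat.exists_eq_pow_mul_and_not_dvd ht.ne' p hp.ne_one
  obtain ⟨y₁, hy₁⟩ := h93k_exists_pow_smul p hdiv a y
  have hy₁J : p ^ (n + a) • y₁ ∈ J1 := by
    rw [pow_add, mul_smul, hy₁]
    exact hy
  have hcop : IsCoprime (t' : ℤ) ((p ^ (n + a) : ℕ) : ℤ) := by
    rw [Nat.isCoprime_iff_coprime]
    exact Nat.Coprime.pow_right _ ((Nat.Prime.coprime_iff_not_dvd hp).2 ht').symm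
  obtain ⟨s, r, hsr⟩ := hcop
  -- `ψ y = s • (t • ψ y₁) + r • p ^ a • ψ (p ^ (n + a) • y₁)`
  have h1 : t' • (p ^ a • ψ y₁) ∈ J1 := by
    have h := hφ y₁ (n + a) hy₁J
    rwa [mul_smul, smul_comm] at h
  have h2 : ψ (p ^ (n + a) • y₁) ∈ J1 := hJ1 _ hy₁J
  have e2 : (p ^ (n + a) : ℕ) • (p ^ a • ψ y₁) ∈ J1 := by
    have e : (p ^ (n + a) : ℕ) • (p ^ a • ψ y₁) = p ^ a • ψ (p ^ (n + a) • y₁) := by
      rw [map_nsmul, smul_comm]
    rw [e]
    exact J1.nsmul_mem h2 _
  have h3 : ψ y = s • (t' • (p ^ a • ψ y₁)) + r • ((p ^ (n + a) : ℕ) • (p ^ a • ψ y₁)) := by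
    calc ψ y = p ^ a • ψ y₁ := by rw [← hy₁, map_nsmul]
      _ = (1 : ℤ) • (p ^ a • ψ y₁) := (one_smul _ _).symm
      _ = (s * (t' : ℤ) + r * ((p ^ (n + a) : ℕ) : ℤ)) • (p ^ a • ψ y₁) := by rw [hsr]
      _ = s • ((t' : ℤ) • (p ^ a • ψ y₁)) +
            r • (((p ^ (n + a) : ℕ) : ℤ) • (p ^ a • ψ y₁)) := by
          rw [add_smul, mul_smul, mul_smul]
      _ = _ := by rw [natCast_zsmul, natCast_zsmul]
  rw [h3]
  exact J1.add_mem (J1.zsmul_mem h1 s) (J1.zsmul_mem e2 r)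

/-- **KILL, quotient form.** -/
theorem h93k_kill_quot {p : ℕ} (hp : p.Prime) (J1 : AddSubgroup J) (ψ : J →+ J) {t : ℕ}
    (ht : 0 < t)
    (hdiv : ∀ y : J, ∃ y' : J, p • y' = y)
    (hcomm : ∀ (σ : G) (y : J), ψ (σ • y) = σ • ψ y)
    (hJ1 : ∀ y ∈ J1, ψ y ∈ J1)
    (htors : ∀ (k : ℕ) (y : J), p ^ k • y = 0 → t • ψ y = 0)
    (hfin : ∀ y : J, ∃ e : ℕ, ∀ w : J, (∀ σ : G, σ • y = y → σ • w = w) →
      ∀ n : ℕ, p ^ n • (p ^ e • w) ∈ J1 → p ^ e • w ∈ J1)
    (c : J ⧸ J1) (n : ℕ) (hc : p ^ n • c = 0) :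
    QuotientAddGroup.map J1 J1 ψ (fun y hy => hJ1 y hy) c = 0 := by
  induction c using QuotientAddGroup.induction_on with
  | H y =>
    have hy : p ^ n • y ∈ J1 := by
      rw [← QuotientAddGroup.eq_zero_iff]
      exact hc
    rw [QuotientAddGroup.map_mk, QuotientAddGroup.eq_zero_iff]
    exact h93k_kill (G := G) hp J1 ψ ht hdiv hcomm hJ1 htors hfin y n hy

/-- the hypothesis `hfin` from finiteness: if the image in `J ⧸ J1` of the points fixed by the
stabiliser of `y` is finite, its `p`-exponent is bounded. -/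
theorem h93k_fin_of_finite {p : ℕ} (hp : p.Prime) (J1 : AddSubgroup J) (y : J)
    (hfinite : Set.Finite ((fun w : J => (QuotientAddGroup.mk w : J ⧸ J1)) ''
      {w : J | ∀ σ : G, σ • y = y → σ • w = w})) :
    ∃ e : ℕ, ∀ w : J, (∀ σ : G, σ • y = y → σ • w = w) →
      ∀ n : ℕ, p ^ n • (p ^ e • w) ∈ J1 → p ^ e • w ∈ J1 := by
  classical
  -- the fixed points form a subgroup, its image `H` is a finite group
  let F : AddSubgroup J :=
    { carrier := {w : J | ∀ σ : G, σ • y = y → σ • w = w}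
      zero_mem' := fun σ _ => smul_zero σ
      add_mem' := fun {a b} ha hb σ hσ => by
        show σ • (a + b) = a + b
        rw [smul_add, ha σ hσ, hb σ hσ]
      neg_mem' := fun {a} ha σ hσ => by
        show σ • (-a) = -a
        rw [smul_neg, ha σ hσ] }
  let H : AddSubgroup (J ⧸ J1) := F.map (QuotientAddGroup.mk' J1)
  have hH : (H : Set (J ⧸ J1)).Finite := by
    have e1 : (H : Set (J ⧸ J1)) = (fun w : J => (QuotientAddGroup.mk w : J ⧸ J1)) ''
        {w : J | ∀ σ : G, σ • y = y → σ • w = w} := by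
      ext c
      constructor
      · rintro ⟨w, hw, rfl⟩
        exact ⟨w, hw, rfl⟩
      · rintro ⟨w, hw, rfl⟩
        exact ⟨w, hw, rfl⟩
    rw [e1]
    exact hfinite
  haveI : Finite H := hH.to_subtype
  -- `e` = the exponent of `p` in the order of `H`
  obtain ⟨e, m, hm, hcard⟩ := Nat.exists_eq_pow_mul_and_not_dvd (Nat.card_pos (α := H)).ne' p
    hp.ne_one
  refine ⟨e, fun w hw n hn => ?_⟩
  -- the class `c` of `p ^ e • w` in `H`
  have hwH : (QuotientAddGroup.mk w : J ⧸ J1) ∈ H := ⟨w, hw, rfl⟩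
  let c : H := ⟨QuotientAddGroup.mk w, hwH⟩
  have h1 : Nat.card H • c = 0 := card_nsmul_eq_zero'
  have h2 : (p ^ n : ℕ) • (p ^ e • c) = 0 := by
    apply Subtype.ext
    rw [AddSubgroup.coe_nsmul, AddSubgroup.coe_nsmul, AddSubgroup.coe_zero]
    show (p ^ n : ℕ) • (p ^ e • (QuotientAddGroup.mk w : J ⧸ J1)) = 0
    rw [← QuotientAddGroup.mk_nsmul, ← QuotientAddGroup.mk_nsmul, QuotientAddGroup.eq_zero_iff]
    exact hn
  have h3 : m • (p ^ e • c) = 0 := by
    rw [← mul_smul, mul_comm, ← hcard]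
    exact h1
  have hcop : IsCoprime ((p ^ n : ℕ) : ℤ) (m : ℤ) := by
    rw [Nat.isCoprime_iff_coprime]
    exact Nat.Coprime.pow_left _ ((Nat.Prime.coprime_iff_not_dvd hp).2 hm)
  obtain ⟨s, r, hsr⟩ := hcop
  have h4 : p ^ e • c = 0 := by
    have e3 : (1 : ℤ) • (p ^ e • c) = p ^ e • c := one_smul _ _
    rw [← e3, ← hsr, add_smul, mul_smul, mul_smul, natCast_zsmul, natCast_zsmul, h2, h3,
      smul_zero, smul_zero, add_zero]
  have h5 : (p ^ e • (QuotientAddGroup.mk w : J ⧸ J1)) = 0 := by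
    have := congrArg (fun z : H => (z : J ⧸ J1)) h4
    simpa using this
  rw [← QuotientAddGroup.mk_nsmul, QuotientAddGroup.eq_zero_iff] at h5
  exact h5

end Kill

end Fermat.Agent.P7
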