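import Fermat.Agent.P7.H69PullHecke
import Fermat.Agent.P7.H93Kill

/-!
# Wave 7, block (A) T-ABEL: the KILL lemma for `Φ = π^* ∘ P ∘ π_*` (helper69)

`h : N ∣ M` two levels prime to `p` (`M` the good level), `A` a valuation subring of `ℚ̄` over
`p`, `P` a Hecke polynomial in the `T_ℓ`, `ℓ ∤ N`, `t > 0` such that `t P` kills the `p`-power
torsion of `J₀(N)` (the output of `S35.ConvKey N` for a polynomial which is `0` on
`S₂(Γ₀(N))`).  Inputs which are NOT proved here (explicit hypotheses):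

* `hdiv` : `J₀(M)` is `p`-divisible (row of helper73);
* `hfin` : FIN-RED at the level `M` (rows T-A2-FINRED, output of `h89s_fin_of_rep`).

Then `Φ` maps every `y` with `p ^ n • y ∈ redKerPic M A` into `redKerPic M A`
(`h69wPhi_kill`), i.e. the induced endomorphism of `J₀(M) ⧸ redKerPic M A` kills the `p`-power
torsion (`h69wPhiQuot_kill`).  `h69wPhi_kill_one` is the hypothesis `hkill` of
`h89q_occ_plus` for `Ψ = Φ`; `h69wActTr_kill_one` the same for `Ψ = P ∘ π^* π_*`.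
-/

set_option autoImplicit false
set_option linter.style.haveILetI false
set_option linter.unusedSectionVars false

open AlgebraicCurve ModularCurve

noncomputable section

namespace Fermat.Agent.P7

open Fermat.Agent.S37 Fermat.Agent.P5

variable {p : ℕ} {N M : ℕ} [NeZero N] [NeZero M] (h : N ∣ M)

/-- `t • Φ_P` kills the `p`-power torsion of `J₀(M)` as soon as `t P` kills the `p`-power
torsion of `J₀(N)`. -/
theorem h69wPhi_tors (P : MvPolynomial Nat.Primes ℤ) (t : ℕ)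
    (htorsN : ∀ (k : ℕ) (y : JZero N), p ^ k • y = 0 →
      (letI := heckeModuleBar N; (MvPolynomial.C (t : ℤ) * P) • y) = 0)
    (k : ℕ) (x : JZero M) (hx : p ^ k • x = 0) : t • h69wPhi h P x = 0 := by
  have e1 : t • h69wPhi h P x = (t : ℤ) • h69wPhi h P x := (natCast_zsmul _ _).symm
  rw [e1, ← h69wPhi_C_mul]
  exact h69wPhi_torsion h (MvPolynomial.C (t : ℤ) * P) (p ^ k) (htorsN k) x hx

/-- **KILL for `Φ`**: `Φ` maps the classes `y` with `p ^ n • y ∈ redKerPic M A` into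
`redKerPic M A`. -/
theorem h69wPhi_kill (hp : p.Prime) (hpN : ¬ p ∣ N) (A : ValuationSubring Kbar)
    (hA : A.LiesOverPrime p) (P : MvPolynomial Nat.Primes ℤ)
    (hP : P ∈ MvPolynomial.supported ℤ {ℓ : Nat.Primes | ¬ (ℓ : ℕ) ∣ N}) {t : ℕ} (ht : 0 < t)
    (hdiv : ∀ y : JZero M, ∃ y' : JZero M, p • y' = y)
    (htorsN : ∀ (k : ℕ) (y : JZero N), p ^ k • y = 0 →
      (letI := heckeModuleBar N; (MvPolynomial.C (t : ℤ) * P) • y) = 0)
    (hfin : ∀ y : JZero M, ∃ e : ℕ, ∀ w : JZero M, (∀ σ : GQ, σ • y = y → σ • w = w) →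
      ∀ n : ℕ, p ^ n • (p ^ e • w) ∈ redKerPic M A → p ^ e • w ∈ redKerPic M A)
    (y : JZero M) (n : ℕ) (hy : p ^ n • y ∈ redKerPic M A) :
    h69wPhi h P y ∈ redKerPic M A :=
  h93k_kill (G := GQ) hp (redKerPic M A) (h69wPhi h P) ht hdiv
    (fun σ y => h69wPhi_galois h P σ y)
    (fun _ hy => h69wPhi_mem h hp hpN A hA P hP hy)
    (fun k y hy => h69wPhi_tors h P t htorsN k y hy) hfin y n hy

/-- the hypothesis `hkill` of `h89q_occ_plus` for `Ψ = Φ`. -/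
theorem h69wPhi_kill_one (hp : p.Prime) (hpN : ¬ p ∣ N) (A : ValuationSubring Kbar)
    (hA : A.LiesOverPrime p) (P : MvPolynomial Nat.Primes ℤ)
    (hP : P ∈ MvPolynomial.supported ℤ {ℓ : Nat.Primes | ¬ (ℓ : ℕ) ∣ N}) {t : ℕ} (ht : 0 < t)
    (hdiv : ∀ y : JZero M, ∃ y' : JZero M, p • y' = y)
    (htorsN : ∀ (k : ℕ) (y : JZero N), p ^ k • y = 0 →
      (letI := heckeModuleBar N; (MvPolynomial.C (t : ℤ) * P) • y) = 0)
    (hfin : ∀ y : JZero M, ∃ e : ℕ, ∀ w : JZero M, (∀ σ : GQ, σ • y = y → σ • w = w) →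
      ∀ n : ℕ, p ^ n • (p ^ e • w) ∈ redKerPic M A → p ^ e • w ∈ redKerPic M A) :
    ∀ y : JZero M, p • y ∈ redKerPic M A → h69wPhi h P y ∈ redKerPic M A := by
  intro y hy
  refine h69wPhi_kill h hp hpN A hA P hP ht hdiv htorsN hfin y 1 ?_
  rwa [pow_one]

/-- the hypothesis `hkill` of `h89q_occ_plus` for `Ψ = P ∘ π^* π_*` (`P` a polynomial in the
`T_ℓ`, `ℓ ∤ M`). -/
theorem h69wActTr_kill_one (hp : p.Prime) (hpM : ¬ p ∣ M) (A : ValuationSubring Kbar)
    (hA : A.LiesOverPrime p) (P : MvPolynomial Nat.Primes ℤ)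
    (hP : P ∈ MvPolynomial.supported ℤ {ℓ : Nat.Primes | ¬ (ℓ : ℕ) ∣ M}) {t : ℕ} (ht : 0 < t)
    (hdiv : ∀ y : JZero M, ∃ y' : JZero M, p • y' = y)
    (htorsN : ∀ (k : ℕ) (y : JZero N), p ^ k • y = 0 →
      (letI := heckeModuleBar N; (MvPolynomial.C (t : ℤ) * P) • y) = 0)
    (hfin : ∀ y : JZero M, ∃ e : ℕ, ∀ w : JZero M, (∀ σ : GQ, σ • y = y → σ • w = w) →
      ∀ n : ℕ, p ^ n • (p ^ e • w) ∈ redKerPic M A → p ^ e • w ∈ redKerPic M A) :
    ∀ y : JZero M, p • y ∈ redKerPic M A →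
      h69wAct M P (h69wTr h y) ∈ redKerPic M A := by
  intro y hy
  have hpN : ¬ p ∣ N := fun hd => hpM (hd.trans h)
  have hP' : P ∈ MvPolynomial.supported ℤ {ℓ : Nat.Primes | ¬ (ℓ : ℕ) ∣ N} := by
    refine MvPolynomial.supported_mono ?_ hP
    intro ℓ hℓ hd
    exact hℓ (hd.trans h)
  rw [← h69wPhi_eq h P hP]
  exact h69wPhi_kill_one h hp hpN A hA P hP' ht hdiv htorsN hfin y hy

/-- **KILL for `Φ`, quotient form**: the endomorphism induced by `Φ` on
`J₀(M) ⧸ redKerPic M A` kills the `p`-power torsion. -/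
theorem h69wPhiQuot_kill (hp : p.Prime) (hpN : ¬ p ∣ N) (A : ValuationSubring Kbar)
    (hA : A.LiesOverPrime p) (P : MvPolynomial Nat.Primes ℤ)
    (hP : P ∈ MvPolynomial.supported ℤ {ℓ : Nat.Primes | ¬ (ℓ : ℕ) ∣ N}) {t : ℕ} (ht : 0 < t)
    (hdiv : ∀ y : JZero M, ∃ y' : JZero M, p • y' = y)
    (htorsN : ∀ (k : ℕ) (y : JZero N), p ^ k • y = 0 →
      (letI := heckeModuleBar N; (MvPolynomial.C (t : ℤ) * P) • y) = 0)
    (hfin : ∀ y : JZero M, ∃ e : ℕ, ∀ w : JZero M, (∀ σ : GQ, σ • y = y → σ • w = w) →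
      ∀ n : ℕ, p ^ n • (p ^ e • w) ∈ redKerPic M A → p ^ e • w ∈ redKerPic M A)
    (c : JZero M ⧸ redKerPic M A) (n : ℕ) (hc : p ^ n • c = 0) :
    h69wPhiQuot h hp hpN A hA P hP c = 0 := by
  induction c using QuotientAddGroup.induction_on with
  | H y =>
    have hy : p ^ n • y ∈ redKerPic M A := by
      rw [← QuotientAddGroup.eq_zero_iff]
      exact hc
    rw [h69wPhiQuot_mk, QuotientAddGroup.eq_zero_iff]
    exact h69wPhi_kill h hp hpN A hA P hP ht hdiv htorsN hfin y n hy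

end Fermat.Agent.P7
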