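import Fermat.Agent.P7.H69Phi
import Fermat.Agent.S35.HK.H41PushComm
import Fermat.Agent.Red.HKComm.Deg

/-!
# Wave 7, block (A) T-ABEL, leaf A3 PHI-RED, part 2 (helper69): `π_*` commutes with the Hecke
operators

`N ∣ M`, `π_* = h69wPush h : J₀(M) →+ J₀(N)`, `r` a prime not dividing `M`.

* `h69w_square` : the square `F_N ⊆ F_{N q}`, `δ_r : F_{N q} → F_{N q r}` is linearly disjoint
  (equal degrees and generation), for EVERY `q ≥ 1` and every prime `r ∤ N q`;
* `h69w_push_heckeDivBar` : `π_* ∘ T_r = T_r ∘ π_*` on divisors (levels `N`, `N q`);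
* `h69wPush_hecke` : `π_* (T_r x) = T_r (π_* x)` on `J₀`, for `N ∣ M`, `r ∤ M`;
* `h69wPush_act` : `π_* (P • x) = P • π_* x` for Hecke polynomials `P` in the `T_r`, `r ∤ M`.
-/

set_option autoImplicit false
set_option linter.style.haveILetI false
set_option linter.unusedSectionVars false

open AlgebraicCurve ModularCurve IntermediateField

noncomputable section

namespace Fermat.Agent.P7

open Fermat.Agent.S37 Fermat.Agent.P5
open Fermat.Agent.Red.HKMod
open Fermat.Agent.Red.HKComm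

/-- principal divisors of `F_M` (local instance). -/
local instance h69w_instPD (M : ℕ) [NeZero M] : HasPrincipalDivisors Kbar (FF M) :=
  hasPrincipalDivisors_FF M

/-! ### The square -/

/-- the square of the degeneracy maps `F_N ⊆ F_{N q}` and `δ_r` is linearly disjoint. -/
theorem h69w_square (N q r : ℕ) [NeZero N] [NeZero q] [NeZero r] (hr : r.Prime)
    (hrNq : ¬ r ∣ N * q) (hα : N * 1 ∣ N * q) (ha : N * r * 1 ∣ N * q * r)
    (hrr : N * q * r ∣ N * q * r) :
    finrankAlong Kbar (degenE 1 ha) = finrankAlong Kbar (degenE 1 hα) ∧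
      (degenE 1 ha).fieldRange ⊔ (degenE r hrr).fieldRange = ⊤ := by
  refine ⟨?_, hksq_generation gen (N * q) (N * r) (N * q * r) r rfl ha hrr⟩
  have hrN : ¬ r ∣ N := fun hd => hrNq (Dvd.dvd.mul_right hd q)
  have h1 := h52deg_deg (N * r) (N * q * r) ha
  have h2 := h52deg_deg N (N * q) hα
  have h3 := hkdeg_psi_mul_prime (N * q) r (Nat.pos_of_ne_zero (NeZero.ne (N * q))) hr
  have h4 := hkdeg_psi_mul_prime N r (Nat.pos_of_ne_zero (NeZero.ne N)) hr
  rw [if_neg hrNq] at h3
  rw [if_neg hrN] at h4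
  have hN : dedekindPsi N ≠ 0 := hksq_dedekindPsi_ne_zero N (NeZero.ne N)
  have h5 : finrankAlong Kbar (degenE 1 ha) * (dedekindPsi N * (r + 1)) =
      finrankAlong Kbar (degenE 1 hα) * (dedekindPsi N * (r + 1)) := by
    calc finrankAlong Kbar (degenE 1 ha) * (dedekindPsi N * (r + 1))
        = dedekindPsi (N * q * r) := by rw [← h4, h1]
      _ = dedekindPsi (N * q) * (r + 1) := h3
      _ = finrankAlong Kbar (degenE 1 hα) * (dedekindPsi N * (r + 1)) := by
          rw [← h2]; ring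
  exact Nat.eq_of_mul_eq_mul_right (Nat.pos_of_ne_zero (mul_ne_zero hN (Nat.succ_ne_zero r))) h5

/-! ### Divisors -/

/-- `π_* ∘ T_r = T_r ∘ π_*` on divisors, levels `N ∣ N q`, `r ∤ N q`. -/
theorem h69w_push_heckeDivBar (N q r : ℕ) [NeZero N] [NeZero q] [NeZero r] (hr : r.Prime)
    (hrNq : ¬ r ∣ N * q) (hα : N * 1 ∣ N * q) (D : Divisor Kbar (FF (N * q))) :
    Divisor.pushforwardAlong (degenE 1 hα) (isIntegral_degenE 1 hα)
        (heckeDivBar (heckeAlphaBarIntegral (N * q) r) (heckeBetaBarIntegral (N * q) r) D)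
      = heckeDivBar (heckeAlphaBarIntegral N r) (heckeBetaBarIntegral N r)
          (Divisor.pushforwardAlong (degenE 1 hα) (isIntegral_degenE 1 hα) D) := by
  have ha : N * r * 1 ∣ N * q * r := by
    rw [mul_one]
    exact ⟨q, by ring⟩
  have h1 : N * q * 1 ∣ N * q * r := by
    rw [mul_one]
    exact dvd_mul_right _ _
  have h1' : N * 1 ∣ N * r := by
    rw [mul_one]
    exact dvd_mul_right _ _
  obtain ⟨hdeg, hgen⟩ := h69w_square N q r hr hrNq hα ha (dvd_refl _)
  rw [heckeDivBar_eq_corrE (N * q) r, heckeDivBar_eq_corrE N r]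
  exact Fermat.Agent.S35.h41h_push_corrE 1 hα ha h1 (dvd_refl _) h1' (dvd_refl _) hdeg hgen D

/-! ### Classes -/

section Cls

variable {N M : ℕ} [NeZero N] [NeZero M] (h : N ∣ M)

/-- `degen h` is the degeneracy map with exponent `1`. -/
theorem h69w_degen_eq_degenE (h1 : N * 1 ∣ M) : degen h = degenE 1 h1 :=
  AlgHom.ext fun x => Subtype.ext <| by
    rw [coe_degen, coe_degenE, qExpand_one_apply]

/-- **`π_*` commutes with `T_r`**, `r ∤ M`. -/
theorem h69wPush_hecke (r : Nat.Primes) (hr : ¬ (r : ℕ) ∣ M) (x : JZero M) :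
    h69wPush h (heckeOperatorBar M r x) = heckeOperatorBar N r (h69wPush h x) := by
  haveI : NeZero (r : ℕ) := ⟨r.2.ne_zero⟩
  obtain ⟨q, rfl⟩ := h
  haveI : NeZero q := ⟨fun h0 => NeZero.ne (N * q) (by rw [h0, mul_zero])⟩
  have hα : N * 1 ∣ N * q := by
    rw [mul_one]
    exact dvd_mul_right _ _
  obtain ⟨D, rfl⟩ := Pic0.mk_surjective x
  rw [heckeOperatorBar_mk (N * q) r D, h69wPush_mk, h69wPush_mk, heckeOperatorBar_mk N r]
  congr 1
  apply Subtype.ext
  have e := h69w_push_heckeDivBar N q r r.2 hr hα (D : Divisor Kbar (FF (N * q)))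
  rw [← hkc_pushforwardAlong_congr (h69w_degen_eq_degenE (Dvd.intro q rfl) hα)
    (Fermat.Agent.Red.CH0.isIntegral_degen (Dvd.intro q rfl)) (isIntegral_degenE 1 hα)] at e
  exact e

/-- **`π_*` commutes with the Hecke polynomials** in the `T_r`, `r ∤ M`. -/
theorem h69wPush_act (P : MvPolynomial Nat.Primes ℤ)
    (hP : P ∈ MvPolynomial.supported ℤ {ℓ : Nat.Primes | ¬ (ℓ : ℕ) ∣ M}) (x : JZero M) :
    h69wPush h (h69wAct M P x) = h69wAct N P (h69wPush h x) := by
  rw [MvPolynomial.supported_eq_adjoin_X] at hP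
  induction hP using Algebra.adjoin_induction generalizing x with
  | mem Q hQ =>
    obtain ⟨ℓ, hℓ, rfl⟩ := hQ
    rw [h69wAct_X, h69wAct_X]
    exact h69wPush_hecke h ℓ hℓ x
  | algebraMap a =>
    have e : (algebraMap ℤ (MvPolynomial Nat.Primes ℤ) a) = MvPolynomial.C a := rfl
    rw [e, h69wAct_C, h69wAct_C, map_zsmul]
  | add Q R _ _ hQ hR =>
    have e1 : ∀ (L : ℕ) [NeZero L] (y : JZero L),
        h69wAct L (Q + R) y = h69wAct L Q y + h69wAct L R y := by
      intro L _ y
      show heckeEvalBar _ (Q + R) y = heckeEvalBar _ Q y + heckeEvalBar _ R y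
      rw [map_add]
      rfl
    rw [e1, e1, map_add, hQ, hR]
  | mul Q R _ _ hQ hR =>
    rw [h69wAct_mul, h69wAct_mul, hQ, hR]

end Cls

end Fermat.Agent.P7
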