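import Mathlib

/-!
# Wave 7 (S40), leaf C1 BREAK: Mathlib-only explicit core (helper6)

`A` a valuation subring of a field `K`, `v = A.valuation`, `p` a prime with `v(p) < 1`.
`K1` a subring ("`Fix(I₁)`") whose nonzero elements `y` satisfy `v(y)^(p-1) ∈ v(p)^ℤ`,
`b` a ring endomorphism of `K` which is the identity on `K1`.

* `h6b_val_pow_sub_one` : `v((1+θ)^j - 1) = v(θ)` for `0 < j < p`, `v(θ) < 1`.
* `h6b_dominant` : a finite sum whose nonzero terms have pairwise distinct valuations has a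
  strictly dominant term.
* `h6b_break` : **BREAK, abstract form.**  `b x0 = x0 (1 + θ)`, `θ ≠ 0`, `v(θ) < 1`,
  `v(x0)^(j(p-1)) ∉ v(p)^ℤ` for `0 < j < p`.  For `γ = ∑_{j<p} c_j x0^j ≠ 0`, `c_j ∈ K1`:
  `v(b γ/γ - 1) ≤ v(θ)`, and `v(b γ/γ - 1) < v(θ) ↔ v(γ)^(p-1) ∈ v(p)^ℤ`.
* `h6b_val_zeta` : `v(ζ - 1)^(p-1) = v(p)` for a primitive `p`-th root of unity.
* `h6b_break_beta` : **BREAK for a unit `β`.**  `β` a unit, `b β = ζ β`, `β^p ∈ K1`,
  `c0 ∈ K1` with `v(β - c0) < 1`, `b` trivial on residues (`v(b y - y) < 1` for `y ∈ A`):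
  the depth `δ = (ζ - 1) β / (β - c0)` satisfies `v(ζ - 1) < v(δ) < 1` and the break statement
  for every `γ = ∑_{j<p} c_j β^j ≠ 0`, `c_j ∈ K1`.
-/

set_option autoImplicit false

namespace Fermat.Agent.P7

open Finset

section H6Break

variable {K : Type*} [Field K] (A : ValuationSubring K)

/-- natural numbers are integral. -/
theorem h6b_val_natCast_le (n : ℕ) : A.valuation (n : K) ≤ 1 := by
  rw [ValuationSubring.valuation_le_one_iff]
  exact natCast_mem A n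

/-- integers are integral. -/
theorem h6b_val_intCast_le (n : ℤ) : A.valuation (n : K) ≤ 1 := by
  rw [ValuationSubring.valuation_le_one_iff]
  exact intCast_mem A n

/-- `v(j) = 1` for `0 < j < p`, when `v(p) < 1`. -/
theorem h6b_val_natCast_eq_one {p : ℕ} (hp : p.Prime) (hpA : A.valuation (p : K) < 1)
    {j : ℕ} (hj0 : 0 < j) (hjp : j < p) : A.valuation (j : K) = 1 := by
  refine le_antisymm (h6b_val_natCast_le A j) ?_
  by_contra hlt
  rw [not_le] at hlt
  have hcop : IsCoprime (j : ℤ) (p : ℤ) := by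
    rw [Nat.isCoprime_iff_coprime]
    exact ((Nat.Prime.coprime_iff_not_dvd hp).mpr (Nat.not_dvd_of_pos_of_lt hj0 hjp)).symm
  obtain ⟨a, c, hac⟩ := hcop
  have h1 : (a : K) * (j : K) + (c : K) * (p : K) = 1 := by
    have := congrArg (Int.cast : ℤ → K) hac
    push_cast at this
    exact this
  have h2 : A.valuation ((a : K) * (j : K) + (c : K) * (p : K)) < 1 := by
    apply Valuation.map_add_lt
    · rw [map_mul]
      calc A.valuation (a : K) * A.valuation (j : K) ≤ 1 * A.valuation (j : K) :=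
            mul_le_mul' (h6b_val_intCast_le A a) le_rfl
        _ < 1 := by rwa [one_mul]
    · rw [map_mul]
      calc A.valuation (c : K) * A.valuation (p : K) ≤ 1 * A.valuation (p : K) :=
            mul_le_mul' (h6b_val_intCast_le A c) le_rfl
        _ < 1 := by rwa [one_mul]
  rw [h1, map_one] at h2
  exact lt_irrefl _ h2

/-- `v((1+θ)^j - 1) ≤ v(θ)`. -/
theorem h6b_val_pow_sub_one_le {θ : K} (hθ1 : A.valuation θ < 1) (j : ℕ) :
    A.valuation ((1 + θ) ^ j - 1) ≤ A.valuation θ := by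
  induction j with
  | zero => simp
  | succ j ih =>
    have h1 : (1 + θ) ^ (j + 1) - 1 = (1 + θ) ^ j * θ + ((1 + θ) ^ j - 1) := by ring
    rw [h1]
    apply Valuation.map_add_le
    · rw [map_mul, map_pow, Valuation.map_one_add_of_lt _ hθ1, one_pow, one_mul]
    · exact ih

/-- `v((1+θ)^j - 1) = v(θ)` for `0 < j < p`. -/
theorem h6b_val_pow_sub_one {p : ℕ} (hp : p.Prime) (hpA : A.valuation (p : K) < 1)
    {θ : K} (hθ1 : A.valuation θ < 1) {j : ℕ} (hj0 : 0 < j) (hjp : j < p) :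
    A.valuation ((1 + θ) ^ j - 1) = A.valuation θ := by
  have h1 : (1 + θ) ^ j - 1 = (∑ i ∈ range j, (1 + θ) ^ i) * θ := by
    have h := geom_sum_mul (1 + θ) j
    rw [← h]
    ring
  have hj1 : A.valuation (j : K) = 1 := h6b_val_natCast_eq_one A hp hpA hj0 hjp
  have h2 : A.valuation (∑ i ∈ range j, (1 + θ) ^ i) = 1 := by
    have h3 : ∑ i ∈ range j, (1 + θ) ^ i = (j : K) + ∑ i ∈ range j, ((1 + θ) ^ i - 1) := by
      rw [Finset.sum_sub_distrib]
      simp
    have h4 : A.valuation (∑ i ∈ range j, ((1 + θ) ^ i - 1)) < 1 :=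
      lt_of_le_of_lt (Valuation.map_sum_le _ (fun i _ => h6b_val_pow_sub_one_le A hθ1 i)) hθ1
    rw [h3, Valuation.map_add_eq_of_lt_left _ (by rw [hj1]; exact h4), hj1]
  rw [h1, map_mul, h2, one_mul]

/-- a finite sum whose nonzero terms have pairwise distinct valuations has a strictly dominant
term. -/
theorem h6b_dominant {n : ℕ} (f : ℕ → K)
    (hdist : ∀ i < n, ∀ j < n, i ≠ j → f i ≠ 0 → f j ≠ 0 →
      A.valuation (f i) ≠ A.valuation (f j))
    (hsum : ∑ i ∈ range n, f i ≠ 0) :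
    ∃ j0 < n, f j0 ≠ 0 ∧ (∀ i < n, i ≠ j0 → A.valuation (f i) < A.valuation (f j0)) ∧
      A.valuation (∑ i ∈ range n, f i) = A.valuation (f j0) := by
  have hne : (range n).Nonempty := by
    rw [Finset.nonempty_iff_ne_empty]
    intro h
    rw [h] at hsum
    simp at hsum
  obtain ⟨j0, hj0, hmax⟩ := Finset.exists_max_image (range n) (fun i => A.valuation (f i)) hne
  have hj0' : j0 < n := Finset.mem_range.mp hj0
  have hf0 : f j0 ≠ 0 := by
    intro h0
    apply hsum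
    apply Finset.sum_eq_zero
    intro i hi
    have h1 := hmax i hi
    simp only [h0, map_zero] at h1
    exact (Valuation.zero_iff _).mp (le_antisymm h1 zero_le)
  have hlt : ∀ i < n, i ≠ j0 → A.valuation (f i) < A.valuation (f j0) := by
    intro i hi hij
    rcases eq_or_ne (f i) 0 with h0 | h0
    · rw [h0, map_zero]
      exact zero_lt_iff.mpr ((Valuation.ne_zero_iff _).mpr hf0)
    · exact lt_of_le_of_ne (hmax i (Finset.mem_range.mpr hi)) (hdist i hi j0 hj0' hij h0 hf0)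
  refine ⟨j0, hj0', hf0, hlt, ?_⟩
  classical
  apply Valuation.map_sum_eq_of_lt _ hj0
  intro i hi
  rw [Finset.mem_sdiff, Finset.mem_singleton] at hi
  exact hlt i (Finset.mem_range.mp hi.1) hi.2

/-- `v(c x0^j)^(p-1)` for `c` with `v(c)^(p-1) = v(p)^n`. -/
theorem h6b_term_pow {p : ℕ} {c x0 : K} {n : ℤ} (j : ℕ)
    (hn : A.valuation c ^ (p - 1) = A.valuation (p : K) ^ n) :
    A.valuation (c * x0 ^ j) ^ (p - 1) =
      A.valuation (p : K) ^ n * A.valuation x0 ^ (j * (p - 1)) := by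
  rw [map_mul, map_pow, mul_pow, hn, ← pow_mul]

/-- the terms `c_i x0^i`, `c_j x0^j` (`i < j < p`) have distinct valuations. -/
theorem h6b_term_ne {p : ℕ} (hp0 : (p : K) ≠ 0) (K1 : Subring K)
    (hK1v : ∀ y ∈ K1, y ≠ 0 → ∃ n : ℤ, A.valuation y ^ (p - 1) = A.valuation (p : K) ^ n)
    {x0 : K} (hx0 : x0 ≠ 0)
    (hx0v : ∀ j : ℕ, 0 < j → j < p → ∀ n : ℤ,
      A.valuation x0 ^ (j * (p - 1)) ≠ A.valuation (p : K) ^ n)
    {ci cj : K} (hci : ci ∈ K1) (hcj : cj ∈ K1) (hci0 : ci ≠ 0) (hcj0 : cj ≠ 0)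
    {i j : ℕ} (hij : i < j) (hjp : j < p) :
    A.valuation (ci * x0 ^ i) ≠ A.valuation (cj * x0 ^ j) := by
  intro heq
  obtain ⟨ni, hni⟩ := hK1v ci hci hci0
  obtain ⟨nj, hnj⟩ := hK1v cj hcj hcj0
  have h1 : A.valuation (ci * x0 ^ i) ^ (p - 1) = A.valuation (cj * x0 ^ j) ^ (p - 1) := by
    rw [heq]
  rw [h6b_term_pow A i hni, h6b_term_pow A j hnj] at h1
  have hP : A.valuation (p : K) ≠ 0 := (Valuation.ne_zero_iff _).mpr hp0
  have ha : A.valuation x0 ≠ 0 := (Valuation.ne_zero_iff _).mpr hx0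
  have hji : j * (p - 1) = i * (p - 1) + (j - i) * (p - 1) := by
    rw [← add_mul]
    congr 1
    omega
  rw [hji, pow_add, ← mul_assoc] at h1
  refine hx0v (j - i) (by omega) (by omega) (ni - nj) ?_
  have hai : A.valuation x0 ^ (i * (p - 1)) ≠ 0 := pow_ne_zero _ ha
  have hPj : A.valuation (p : K) ^ nj ≠ 0 := zpow_ne_zero _ hP
  rw [zpow_sub₀ hP, eq_div_iff hPj]
  apply mul_right_cancel₀ hai
  rw [h1]
  ac_rfl

/-- **BREAK, abstract form.** -/
theorem h6b_break {p : ℕ} (hp : p.Prime) (hpA : A.valuation (p : K) < 1) (hp0 : (p : K) ≠ 0)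
    (b : K →+* K) (K1 : Subring K) (hK1b : ∀ y ∈ K1, b y = y)
    (hK1v : ∀ y ∈ K1, y ≠ 0 → ∃ n : ℤ, A.valuation y ^ (p - 1) = A.valuation (p : K) ^ n)
    {x0 θ : K} (hx0 : x0 ≠ 0) (hbx : b x0 = x0 * (1 + θ)) (hθ0 : θ ≠ 0)
    (hθ1 : A.valuation θ < 1)
    (hx0v : ∀ j : ℕ, 0 < j → j < p → ∀ n : ℤ,
      A.valuation x0 ^ (j * (p - 1)) ≠ A.valuation (p : K) ^ n)
    (c : ℕ → K) (hc : ∀ j, c j ∈ K1) {γ : K} (hγ : γ = ∑ j ∈ range p, c j * x0 ^ j)
    (hγ0 : γ ≠ 0) :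
    A.valuation (b γ / γ - 1) ≤ A.valuation θ ∧
      (A.valuation (b γ / γ - 1) < A.valuation θ ↔
        ∃ n : ℤ, A.valuation γ ^ (p - 1) = A.valuation (p : K) ^ n) := by
  have hTne : ∀ j, c j * x0 ^ j ≠ 0 → c j ≠ 0 := fun j h h0 => h (by rw [h0, zero_mul])
  have hdist : ∀ i < p, ∀ j < p, i ≠ j → c i * x0 ^ i ≠ 0 → c j * x0 ^ j ≠ 0 →
      A.valuation (c i * x0 ^ i) ≠ A.valuation (c j * x0 ^ j) := by
    intro i hi j hj hij hTi hTj
    rcases Nat.lt_or_gt_of_ne hij with h | h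
    · exact h6b_term_ne A hp0 K1 hK1v hx0 hx0v (hc i) (hc j) (hTne i hTi) (hTne j hTj) h hj
    · exact (h6b_term_ne A hp0 K1 hK1v hx0 hx0v (hc j) (hc i) (hTne j hTj) (hTne i hTi)
        h hi).symm
  have hsum : ∑ j ∈ range p, c j * x0 ^ j ≠ 0 := by rw [← hγ]; exact hγ0
  obtain ⟨j0, hj0p, hTj0, hlt, hval⟩ := h6b_dominant A (fun j => c j * x0 ^ j) hdist hsum
  have hvγ : A.valuation γ = A.valuation (c j0 * x0 ^ j0) := by rw [hγ]; exact hval
  have hbγ : b γ - γ = ∑ j ∈ range p, c j * x0 ^ j * ((1 + θ) ^ j - 1) := by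
    rw [hγ, map_sum, ← Finset.sum_sub_distrib]
    refine Finset.sum_congr rfl fun j _ => ?_
    rw [map_mul, map_pow, hK1b _ (hc j), hbx, mul_pow]
    ring
  have hθv : A.valuation θ ≠ 0 := (Valuation.ne_zero_iff _).mpr hθ0
  have hγv : A.valuation γ ≠ 0 := (Valuation.ne_zero_iff _).mpr hγ0
  have hTv : A.valuation (c j0 * x0 ^ j0) ≠ 0 := (Valuation.ne_zero_iff _).mpr hTj0
  have hUle : ∀ j, A.valuation (c j * x0 ^ j * ((1 + θ) ^ j - 1)) ≤
      A.valuation (c j * x0 ^ j) * A.valuation θ := by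
    intro j
    rw [map_mul (A.valuation) (c j * x0 ^ j)]
    exact mul_le_mul' le_rfl (h6b_val_pow_sub_one_le A hθ1 j)
  have hdiv : A.valuation (b γ / γ - 1) = A.valuation (b γ - γ) / A.valuation γ := by
    rw [← map_div₀]
    congr 1
    field_simp
  have hmono : ∀ i < p, i ≠ j0 → A.valuation (c i * x0 ^ i * ((1 + θ) ^ i - 1)) <
      A.valuation (c j0 * x0 ^ j0) * A.valuation θ := by
    intro i hi hij
    calc A.valuation (c i * x0 ^ i * ((1 + θ) ^ i - 1))
        ≤ A.valuation (c i * x0 ^ i) * A.valuation θ := hUle i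
      _ < A.valuation (c j0 * x0 ^ j0) * A.valuation θ :=
          mul_lt_mul_of_pos_right (hlt i hi hij) (zero_lt_iff.mpr hθv)
  rcases Nat.eq_zero_or_pos j0 with hj00 | hj0pos
  · -- dominant index `0`
    have hlt' : A.valuation (b γ - γ) < A.valuation (c j0 * x0 ^ j0) * A.valuation θ := by
      rw [hbγ]
      apply Valuation.map_sum_lt _ (mul_ne_zero hTv hθv)
      intro i hi
      rcases eq_or_ne i j0 with hi0 | hi0
      · rw [hi0]
        have h0 : (1 + θ) ^ j0 - 1 = 0 := by rw [hj00, pow_zero, sub_self]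
        rw [h0, mul_zero, map_zero]
        exact zero_lt_iff.mpr (mul_ne_zero hTv hθv)
      · exact hmono i (mem_range.mp hi) hi0
    have h1 : A.valuation (b γ / γ - 1) < A.valuation θ := by
      rw [hdiv, div_lt_iff₀ (zero_lt_iff.mpr hγv), hvγ, mul_comm]
      exact hlt'
    refine ⟨h1.le, fun _ => ?_, fun _ => h1⟩
    obtain ⟨n, hn⟩ := hK1v (c j0) (hc j0) (hTne j0 hTj0)
    refine ⟨n, ?_⟩
    rw [hvγ, hj00, pow_zero, mul_one, ← hj00]
    exact hn
  · -- dominant index `≥ 1`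
    have hU0 : A.valuation (c j0 * x0 ^ j0 * ((1 + θ) ^ j0 - 1)) =
        A.valuation (c j0 * x0 ^ j0) * A.valuation θ := by
      rw [map_mul (A.valuation) (c j0 * x0 ^ j0), h6b_val_pow_sub_one A hp hpA hθ1 hj0pos hj0p]
    have heq : A.valuation (b γ - γ) = A.valuation (c j0 * x0 ^ j0) * A.valuation θ := by
      rw [hbγ, ← hU0]
      classical
      apply Valuation.map_sum_eq_of_lt _ (mem_range.mpr hj0p)
      intro i hi
      rw [Finset.mem_sdiff, Finset.mem_singleton] at hi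
      rw [hU0]
      exact hmono i (mem_range.mp hi.1) hi.2
    have h1 : A.valuation (b γ / γ - 1) = A.valuation θ := by
      rw [hdiv, heq, hvγ, mul_comm, mul_div_assoc, div_self hTv, mul_one]
    refine ⟨h1.le, fun h => absurd h1 h.ne, fun ⟨n, hn⟩ => ?_⟩
    exfalso
    obtain ⟨m, hm⟩ := hK1v (c j0) (hc j0) (hTne j0 hTj0)
    rw [hvγ, h6b_term_pow A j0 hm] at hn
    have hP : A.valuation (p : K) ≠ 0 := (Valuation.ne_zero_iff _).mpr hp0
    refine hx0v j0 hj0pos hj0p (n - m) ?_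
    rw [zpow_sub₀ hP, eq_div_iff (zpow_ne_zero _ hP), mul_comm]
    exact hn

/-! ## the explicit depth for a unit `β` -/

/-- `v(μ) = 1` for a root of unity. -/
theorem h6b_val_root {n : ℕ} (hn : n ≠ 0) {μ : K} (hμ : μ ^ n = 1) : A.valuation μ = 1 := by
  have h := congrArg A.valuation hμ
  rw [map_pow, map_one] at h
  exact (pow_eq_one_iff_of_nonneg zero_le hn).mp h

/-- `v(1 - μ^m) ≤ v(1 - μ)` when `v(μ) ≤ 1`. -/
theorem h6b_val_one_sub_pow_le {μ : K} (hμ : A.valuation μ ≤ 1) (m : ℕ) :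
    A.valuation (1 - μ ^ m) ≤ A.valuation (1 - μ) := by
  rw [← mul_neg_geom_sum μ m, map_mul]
  have h1 : A.valuation (∑ i ∈ range m, μ ^ i) ≤ 1 :=
    Valuation.map_sum_le _ (fun i _ => by rw [map_pow]; exact pow_le_one' hμ i)
  calc A.valuation (1 - μ) * A.valuation (∑ i ∈ range m, μ ^ i)
      ≤ A.valuation (1 - μ) * 1 := mul_le_mul' le_rfl h1
    _ = A.valuation (1 - μ) := mul_one _

/-- `v(1 - ζ^k) = v(1 - ζ)` for `0 < k < p`, `ζ^p = 1`. -/
theorem h6b_val_one_sub_pow {p : ℕ} (hp : p.Prime) {ζ : K} (hζ : ζ ^ p = 1) {k : ℕ}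
    (hk0 : 0 < k) (hkp : k < p) : A.valuation (1 - ζ ^ k) = A.valuation (1 - ζ) := by
  have hv : A.valuation ζ = 1 := h6b_val_root A hp.ne_zero hζ
  refine le_antisymm (h6b_val_one_sub_pow_le A hv.le k) ?_
  have hcop : Nat.Coprime k p :=
    ((Nat.Prime.coprime_iff_not_dvd hp).mpr (Nat.not_dvd_of_pos_of_lt hk0 hkp)).symm
  obtain ⟨m, -, hm⟩ := Nat.exists_mul_mod_eq_one_of_coprime hcop hp.one_lt
  have h1 : (ζ ^ k) ^ m = ζ := by
    rw [← pow_mul, pow_eq_pow_mod (k * m) hζ, hm, pow_one]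
  have h2 := h6b_val_one_sub_pow_le A (μ := ζ ^ k) (by rw [map_pow, hv, one_pow]) m
  rwa [h1] at h2

/-- `v(ζ - 1)^(p-1) = v(p)` for a primitive `p`-th root of unity `ζ`. -/
theorem h6b_val_zeta {p : ℕ} (hp : p.Prime) {ζ : K} (hζ : IsPrimitiveRoot ζ p) :
    A.valuation (ζ - 1) ^ (p - 1) = A.valuation (p : K) := by
  obtain ⟨n, rfl⟩ : ∃ n, p = n + 1 := ⟨p - 1, (Nat.succ_pred_eq_of_pos hp.pos).symm⟩
  have h := IsPrimitiveRoot.prod_one_sub_pow_eq_order hζ
  have h2 := congrArg A.valuation h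
  rw [map_prod] at h2
  have h3 : ∀ k ∈ range n, A.valuation (1 - ζ ^ (k + 1)) = A.valuation (1 - ζ) := fun k hk =>
    h6b_val_one_sub_pow A hp hζ.pow_eq_one (Nat.succ_pos k)
      (by have := mem_range.mp hk; omega)
  rw [Finset.prod_congr rfl h3, Finset.prod_const, Finset.card_range] at h2
  rw [Nat.add_sub_cancel, Valuation.map_sub_swap, h2]
  push_cast
  rfl

/-- `v((1 + x)^p - 1) = v(x)^p` when `v(p) < v(x)^(p-1)`, `v(x) < 1`. -/
theorem h6b_val_one_add_pow {p : ℕ} (hp : p.Prime) {x : K} (hx0 : x ≠ 0)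
    (hx1 : A.valuation x < 1) (hpx : A.valuation (p : K) < A.valuation x ^ (p - 1)) :
    A.valuation ((x + 1) ^ p - 1) = A.valuation x ^ p := by
  have hxA : x ∈ A := (A.valuation_le_one_iff x).mp hx1.le
  obtain ⟨r, hr⟩ := exists_add_pow_prime_eq hp (⟨x, hxA⟩ : A) 1
  have hr' : (x + 1) ^ p = x ^ p + 1 + (p : K) * x * 1 * (r : K) := by
    have := congrArg (fun t : A => (t : K)) hr
    simpa using this
  have h1 : (x + 1) ^ p - 1 = x ^ p + (p : K) * x * (r : K) := by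
    rw [hr']
    ring
  have hxv : A.valuation x ≠ 0 := (Valuation.ne_zero_iff _).mpr hx0
  have hrv : A.valuation (r : K) ≤ 1 := (A.valuation_le_one_iff _).mpr r.2
  have h2 : A.valuation ((p : K) * x * (r : K)) < A.valuation (x ^ p) := by
    rw [map_mul, map_mul, map_pow]
    have h3 : A.valuation x ^ p = A.valuation x ^ (p - 1) * A.valuation x := by
      rw [← pow_succ, Nat.sub_add_cancel hp.one_le]
    rw [h3]
    calc A.valuation (p : K) * A.valuation x * A.valuation (r : K)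
        ≤ A.valuation (p : K) * A.valuation x * 1 := mul_le_mul' le_rfl hrv
      _ = A.valuation (p : K) * A.valuation x := mul_one _
      _ < A.valuation x ^ (p - 1) * A.valuation x :=
          mul_lt_mul_of_pos_right hpx (zero_lt_iff.mpr hxv)
  rw [h1, Valuation.map_add_eq_of_lt_left _ h2, map_pow]

/-- the valuation of `x0` is not in the value group of `K1`, in all powers `0 < j < p`. -/
theorem h6b_val_x0 {p : ℕ} (hp : p.Prime) (hpA : A.valuation (p : K) < 1) (hp0 : (p : K) ≠ 0)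
    {z a : A.ValueGroup} (hz : z ^ (p - 1) = A.valuation (p : K)) (hza : z < a) (ha1 : a < 1)
    {k : ℤ} (hk : a ^ (p * (p - 1)) = A.valuation (p : K) ^ k) (j : ℕ) (hj0 : 0 < j)
    (hjp : j < p) (n : ℤ) : a ^ (j * (p - 1)) ≠ A.valuation (p : K) ^ n := by
  intro hn
  have hP0 : 0 < A.valuation (p : K) := zero_lt_iff.mpr ((Valuation.ne_zero_iff _).mpr hp0)
  have hP1 : A.valuation (p : K) ≠ 1 := hpA.ne
  have hp1 : p - 1 ≠ 0 := by have := hp.two_le; omega
  -- `k * j = n * p`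
  have h1 : A.valuation (p : K) ^ (k * j) = A.valuation (p : K) ^ (n * p) := by
    rw [zpow_mul, ← hk, zpow_mul, ← hn, zpow_natCast, zpow_natCast, ← pow_mul, ← pow_mul]
    congr 1
    ring
  have h2 : k * j = n * p := (zpow_right_inj₀ hP0 hP1).mp h1
  have h3 : (p : ℤ) ∣ k := by
    have h4 : (p : ℤ) ∣ k * j := ⟨n, by rw [h2, mul_comm]⟩
    rcases (Nat.prime_iff_prime_int.mp hp).dvd_or_dvd h4 with h5 | h5
    · exact h5
    · exfalso
      have h6 : p ∣ j := Int.natCast_dvd_natCast.mp h5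
      exact Nat.not_dvd_of_pos_of_lt hj0 hjp h6
  obtain ⟨k', rfl⟩ := h3
  -- `a^(p-1) = v(p)^k'`
  have h7 : (a ^ (p - 1)) ^ p = (A.valuation (p : K) ^ k') ^ p := by
    rw [← pow_mul, mul_comm (p - 1) p, hk, ← zpow_natCast (A.valuation (p : K) ^ k') p,
      ← zpow_mul, mul_comm]
  have h8 : a ^ (p - 1) = A.valuation (p : K) ^ k' :=
    (pow_left_inj₀ zero_le zero_le hp.ne_zero).mp h7
  -- `v(p) < a^(p-1) < 1`
  have h9 : A.valuation (p : K) < a ^ (p - 1) := by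
    rw [← hz]
    exact pow_lt_pow_left₀ hza zero_le hp1
  have h10 : a ^ (p - 1) < 1 := pow_lt_one₀ zero_le ha1 hp1
  rw [h8] at h9 h10
  have h11 : k' < 1 := by
    have : A.valuation (p : K) ^ (1 : ℤ) < A.valuation (p : K) ^ k' := by rwa [zpow_one]
    exact (zpow_lt_zpow_iff_right_of_lt_one₀ hP0 hpA).mp this
  have h12 : 0 < k' := by
    have : A.valuation (p : K) ^ k' < A.valuation (p : K) ^ (0 : ℤ) := by rwa [zpow_zero]
    exact (zpow_lt_zpow_iff_right_of_lt_one₀ hP0 hpA).mp this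
  omega

/-- re-expansion of a polynomial in `β = c0 (x0 + 1)` in powers of `x0`. -/
theorem h6b_reexpand (K1 : Subring K) {p : ℕ} {c0 x0 : K} (hc0 : c0 ∈ K1) (c : ℕ → K)
    (hc : ∀ j, c j ∈ K1) :
    ∃ h : ℕ → K, (∀ i, h i ∈ K1) ∧
      ∑ j ∈ range p, c j * (c0 * (x0 + 1)) ^ j = ∑ i ∈ range p, h i * x0 ^ i := by
  refine ⟨fun i => ∑ j ∈ range p, c j * c0 ^ j * (j.choose i : K), fun i => ?_, ?_⟩
  · exact K1.sum_mem fun j _ =>
      K1.mul_mem (K1.mul_mem (hc j) (K1.pow_mem hc0 j)) (natCast_mem K1 _)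
  · have hexp : ∀ j ∈ range p, c j * (c0 * (x0 + 1)) ^ j =
        ∑ i ∈ range p, c j * c0 ^ j * (j.choose i : K) * x0 ^ i := by
      intro j hj
      have hj' : j < p := mem_range.mp hj
      have h1 : (x0 + 1) ^ j = ∑ i ∈ range p, x0 ^ i * (j.choose i : K) := by
        rw [add_pow]
        simp only [one_pow, mul_one]
        apply Finset.sum_subset (Finset.range_subset_range.mpr (by omega))
        intro i _ hi
        rw [Finset.mem_range, not_lt] at hi
        rw [Nat.choose_eq_zero_of_lt (by omega)]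
        simp
      rw [mul_pow, h1, Finset.mul_sum, Finset.mul_sum]
      refine Finset.sum_congr rfl fun i _ => ?_
      ring
    rw [Finset.sum_congr rfl hexp, Finset.sum_comm]
    refine Finset.sum_congr rfl fun i _ => ?_
    rw [Finset.sum_mul]

/-- **BREAK for a unit `β`.**  `K1` a subfield on which `b` is the identity and whose nonzero
elements have valuation in `v(p)^(ℤ/(p-1))`; `b` is trivial on residues; `β` a unit with
`β^p ∈ K1`, `b β = ζ β`, `ζ ∈ K1` a primitive `p`-th root of unity, `c0 ∈ K1` with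
`β ≡ c0` modulo the maximal ideal.  Then `δ = (ζ - 1) β / (β - c0)` is a break depth. -/
theorem h6b_break_beta {p : ℕ} (hp : p.Prime) (hpA : A.valuation (p : K) < 1)
    (hp0 : (p : K) ≠ 0) (b : K →+* K)
    (hbA : ∀ y, A.valuation y ≤ 1 → A.valuation (b y - y) < 1)
    (K1 : Subfield K) (hK1b : ∀ y ∈ K1, b y = y)
    (hK1v : ∀ y ∈ K1, y ≠ 0 → ∃ n : ℤ, A.valuation y ^ (p - 1) = A.valuation (p : K) ^ n)
    {ζ β c0 : K} (hζ : IsPrimitiveRoot ζ p) (hζK : ζ ∈ K1) (hβ : A.valuation β = 1)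
    (hβp : β ^ p ∈ K1) (hbβ : b β = ζ * β) (hc0 : c0 ∈ K1)
    (hc0β : A.valuation (β - c0) < 1) :
    (ζ - 1) * β / (β - c0) ≠ 0 ∧ A.valuation ((ζ - 1) * β / (β - c0)) < 1 ∧
      A.valuation (ζ - 1) < A.valuation ((ζ - 1) * β / (β - c0)) ∧
      ∀ c : ℕ → K, (∀ j, c j ∈ K1) → ∀ γ : K, γ = ∑ j ∈ range p, c j * β ^ j → γ ≠ 0 →
        A.valuation (b γ / γ - 1) ≤ A.valuation ((ζ - 1) * β / (β - c0)) ∧
        (A.valuation (b γ / γ - 1) < A.valuation ((ζ - 1) * β / (β - c0)) ↔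
          ∃ n : ℤ, A.valuation γ ^ (p - 1) = A.valuation (p : K) ^ n) := by
  have hβ0 : β ≠ 0 := by
    intro h
    rw [h, map_zero] at hβ
    exact zero_ne_one hβ
  have hζ1 : ζ ≠ 1 := hζ.ne_one hp.one_lt
  have hζ10 : ζ - 1 ≠ 0 := sub_ne_zero.mpr hζ1
  have hbζ : b ζ = ζ := hK1b ζ hζK
  have hbc0 : b c0 = c0 := hK1b c0 hc0
  -- `v(c0) = 1`
  have hc0v : A.valuation c0 = 1 := by
    have h1 : c0 = β - (β - c0) := by ring
    rw [h1, Valuation.map_sub_eq_of_lt_left _ (by rw [hβ]; exact hc0β), hβ]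
  have hc00 : c0 ≠ 0 := by
    intro h
    rw [h, map_zero] at hc0v
    exact zero_ne_one hc0v
  -- `β ≠ c0`
  have hβc : β - c0 ≠ 0 := by
    intro h
    have h1 : β = c0 := sub_eq_zero.mp h
    have h2 : b β = β := by rw [h1]; exact hbc0
    rw [hbβ] at h2
    have h3 : (ζ - 1) * β = 0 := by rw [sub_mul, h2, one_mul, sub_self]
    rcases mul_eq_zero.mp h3 with h4 | h4
    · exact hζ10 h4
    · exact hβ0 h4
  have hβcv : A.valuation (β - c0) ≠ 0 := (Valuation.ne_zero_iff _).mpr hβc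
  have hζv : A.valuation (ζ - 1) ≠ 0 := (Valuation.ne_zero_iff _).mpr hζ10
  -- `x0 = (β - c0)/c0`
  have hx0 : (β - c0) / c0 ≠ 0 := div_ne_zero hβc hc00
  have hx0v : A.valuation ((β - c0) / c0) = A.valuation (β - c0) := by
    rw [map_div₀, hc0v, div_one]
  -- `v(ζ - 1) < v(β - c0)`  (Lemma A)
  have hlem : A.valuation (ζ - 1) < A.valuation (β - c0) := by
    by_contra hcon
    rw [not_lt] at hcon
    have hy : A.valuation ((β - c0) / (ζ - 1)) ≤ 1 := by
      rw [map_div₀]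
      exact (div_le_one₀ (zero_lt_iff.mpr hζv)).mpr hcon
    have h1 := hbA _ hy
    have h2 : b ((β - c0) / (ζ - 1)) - (β - c0) / (ζ - 1) = β := by
      rw [map_div₀, map_sub, map_sub, map_one, hbβ, hbζ, hbc0]
      field_simp
      ring
    rw [h2, hβ] at h1
    exact lt_irrefl _ h1
  set δ : K := (ζ - 1) * β / (β - c0) with hδ
  have hδv : A.valuation δ = A.valuation (ζ - 1) / A.valuation (β - c0) := by
    rw [hδ, map_div₀, map_mul, hβ, mul_one]
  have hδ0 : δ ≠ 0 := div_ne_zero (mul_ne_zero hζ10 hβ0) hβc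
  have hδ1 : A.valuation δ < 1 := by
    rw [hδv]
    exact (div_lt_one₀ (zero_lt_iff.mpr hβcv)).mpr hlem
  have hδ2 : A.valuation (ζ - 1) < A.valuation δ := by
    rw [hδv, lt_div_iff₀ (zero_lt_iff.mpr hβcv)]
    calc A.valuation (ζ - 1) * A.valuation (β - c0) < A.valuation (ζ - 1) * 1 :=
          mul_lt_mul_of_pos_left hc0β (zero_lt_iff.mpr hζv)
      _ = A.valuation (ζ - 1) := mul_one _
  refine ⟨hδ0, hδ1, hδ2, ?_⟩
  -- `b x0 = x0 (1 + δ)`
  have hbx : b ((β - c0) / c0) = (β - c0) / c0 * (1 + δ) := by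
    rw [map_div₀, map_sub, hbβ, hbc0, hδ]
    field_simp
    ring
  -- the valuation of `x0`
  have hz := h6b_val_zeta A hp hζ
  have hp1 : p - 1 ≠ 0 := by have := hp.two_le; omega
  have hpx : A.valuation (p : K) < A.valuation ((β - c0) / c0) ^ (p - 1) := by
    rw [hx0v, ← hz]
    exact pow_lt_pow_left₀ hlem zero_le hp1
  have hs := h6b_val_one_add_pow A hp hx0 (by rw [hx0v]; exact hc0β) hpx
  have hsK : ((β - c0) / c0 + 1) ^ p - 1 ∈ K1 := by
    have h1 : (β - c0) / c0 + 1 = β / c0 := by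
      field_simp
      ring
    rw [h1, div_pow]
    exact K1.sub_mem (K1.div_mem hβp (K1.pow_mem hc0 p)) K1.one_mem
  have hs0 : ((β - c0) / c0 + 1) ^ p - 1 ≠ 0 := by
    rw [← Valuation.ne_zero_iff A.valuation, hs]
    exact pow_ne_zero _ ((Valuation.ne_zero_iff _).mpr hx0)
  obtain ⟨k, hk⟩ := hK1v _ hsK hs0
  rw [hs, ← pow_mul] at hk
  have hxv := h6b_val_x0 A hp hpA hp0 hz (by rw [hx0v]; exact hlem)
    (by rw [hx0v]; exact hc0β) hk
  intro c hc γ hγ hγ0
  obtain ⟨h, hh, hsum⟩ := h6b_reexpand (p := p) (x0 := (β - c0) / c0) K1.toSubring hc0 c hc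
  have hβeq : c0 * ((β - c0) / c0 + 1) = β := by
    field_simp
    ring
  rw [hβeq] at hsum
  exact h6b_break A hp hpA hp0 b K1.toSubring hK1b hK1v hx0 hbx hδ0 hδ1 hxv h hh
    (hγ.trans hsum) hγ0

end H6Break

end Fermat.Agent.P7
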