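import Fermat.Agent.P7.H19OrthAsm
import Fermat.Agent.P7.H44OrthLift
import Fermat.Agent.P7.H38OrthBack
import Fermat.Agent.P7.H66S0Norm
import Fermat.Agent.P7.H73FullDeg
import Fermat.Agent.P7.H58DegSF
import Fermat.Agent.P7.H42ResIneq
import Fermat.Agent.P7.H71PsInt
import Fermat.Agent.P7.H31GoingUp
import Fermat.Agent.P7.H56SymFinal
import Fermat.Agent.P7.H36S2OfInt
import Fermat.Agent.P7.H97Int
import Fermat.Agent.P7.H98mDeg
import Fermat.Agent.P7.H37ConstM
import Fermat.Agent.P7.H88ExactIface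
import Fermat.Agent.P5.H88RedDivFinal
import Fermat.Agent.Red.TransferRed
import Fermat.Agent.P7.H3DlogFinal3

/-!
# Wave 7 (S44), DLOG at the level `M`: LIFT(M) in its residue form, ORTH(M) and the frozen
statement S44 (helper6, prefix `h6o_`)

Pure assembly of landed leaves:

* exact lift at the good level (`h44o_exact_lift`, helper44) off the residue discs of the places
  over `∞_M`, where the reduction has order `0` (SYM-LITE, `h56s_symLiteUnit_final`, helper56);
* the norm to the level `M`: reduction (`h66s_fd_norm_red`, helper66, with FULL-DEG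
  `h73f_fullDeg h58d_degSF h42q_resIneq`), DISC (`h31d_degen_norm_ord_eq_zero`, helper31),
  PS-INT (`h71p_psInt_unit_sameRed`, helper71) with (S2) (`h36s_s2_of_int h97q_int`);
* the sum of the values (`h44o_sum`, helper44) and DL2 for a norm (`h38o_res_nonunit`, helper38).

Results: `h6o_resM p : H19oResM p`, `h6o_orthM p : H3gOrthM p`.

Every declaration is a proved theorem; nothing is assumed.
-/

set_option autoImplicit false
set_option linter.unusedSectionVars false
set_option linter.unusedVariables false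
set_option linter.style.haveILetI false
set_option synthInstance.maxHeartbeats 400000
set_option maxHeartbeats 1600000

open ModularCurve AlgebraicCurve IsLocalRing

noncomputable section

namespace Fermat.Agent.P7

open Fermat.Agent.S37 Fermat.Agent.Red Fermat.Agent.Red.GV Fermat.Agent.Red.GV.Soft
  Fermat.Agent.LGC Fermat.Agent.Jac.K1 Fermat.Agent.P5 Fermat.Agent.Red.CH0

/-- a natural number prime to the residue characteristic is nonzero in the residue field. -/
theorem h6o_cast_ne_zero {p : ℕ} (A : ValuationSubring Kbar) (hA : A.LiesOverPrime p)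
    (d : ℕ) (hd : Nat.Coprime d p) : ((d : ℕ) : ResidueField A) ≠ 0 := by
  intro h0
  have hp0 : ((p : ℕ) : ResidueField A) = 0 := by
    have h1 := h44o_cast_eq_zero (A := A) hA (n := (p : ℤ)) (dvd_refl _)
    rw [← residue_eq_zero_iff, map_intCast] at h1
    exact_mod_cast h1
  have hb := Nat.gcd_eq_gcd_ab d p
  rw [Nat.Coprime] at hd
  rw [hd] at hb
  have hc := congrArg (fun z : ℤ => (z : ResidueField A)) hb
  simp only [Int.cast_add, Int.cast_mul, Int.cast_natCast, h0, hp0, zero_mul, add_zero,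
    Nat.cast_one, Int.cast_one] at hc
  exact one_ne_zero hc

/-- **LIFT(M), residue form.** -/
theorem h6o_resM (p : ℕ) : H19oResM p := by
  classical
  intro hp h5 M _ hM A hA Q hQ y hy hg hy0 hyi hgi ho hQ'
  have hdvd : M ∣ goodLevel p M := dvd_goodLevel p M
  have hN : ¬ p ∣ goodLevel p M := not_dvd_goodLevel hp hM
  have haux : auxLevel p ∣ goodLevel p M := auxLevel_dvd_goodLevel p M
  obtain ⟨r, hr⟩ := h88r_redDiv p hp (goodLevel p M) hN haux A hA
  obtain ⟨oo, hoo'⟩ := h37n_place_infty (goodLevel p M)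
  have hoo : ∀ x : FF (goodLevel p M), x ≠ 0 →
      oo.ord x = ((x : FF (goodLevel p M)) : LaurentSeries Kbar).order :=
    fun x hx => (hoo' x hx).symm
  obtain ⟨Qs, hQs⟩ := h26g_place_inf (A := A) (M := goodLevel p M)
  have hS2 : H26iS2 := h36s_s2_of_int h97q_int
  have hrQ : r oo = Qs := hS2 p hp (goodLevel p M) hN haux A hA r hr Qs hQs oo hoo
  have hres : oo.restrictAlong (degen hdvd) (isIntegral_degen hdvd) = Q :=
    h37k_restrict_infty hdvd Q oo hQ hoo'
  -- the reduction at the good level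
  have hincl : h13sIncl A (goodLevel p M) (h13sRed A (goodLevel p M) ⟨degen hdvd y, hg⟩) =
      softR A M ⟨y, hy⟩ := h88e_incl_red_degen hdvd y hy hg
  have hs₀ : softR A M ⟨y, hy⟩ ≠ 0 := (softR_ne_zero_iff A M ⟨y, hy⟩).mpr ⟨hy0, hyi⟩
  have hs0 : h13sRed A (goodLevel p M) ⟨degen hdvd y, hg⟩ ≠ 0 := by
    intro h
    apply hs₀
    rw [← hincl, h]
    exact map_zero _
  -- the finite set of the residue discs of the places over `Q`
  haveI := Fermat.Agent.Red.HKMod.hasPrincipalDivisors_FF (goodLevel p M)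
  have hT₀mem : ∀ c : Place Kbar (FF (goodLevel p M)),
      c.restrictAlong (degen hdvd) (isIntegral_degen hdvd) = Q →
      c ∈ (h57pPull hdvd (Finsupp.single Q (1 : ℤ))).support := by
    intro c hc
    rw [Finsupp.mem_support_iff]
    show Divisor.pullbackAlong (degen hdvd) (isIntegral_degen hdvd) _ c ≠ 0
    rw [Divisor.pullbackAlong_apply, hc, Finsupp.single_eq_same, mul_one]
    have := Fermat.Agent.Red.NLA.h87_ramificationIndexAlong_pos (degen hdvd)
      (isIntegral_degen hdvd) c
    exact_mod_cast this.ne'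
  have hT₀res : ∀ c ∈ (h57pPull hdvd (Finsupp.single Q (1 : ℤ))).support,
      c.restrictAlong (degen hdvd) (isIntegral_degen hdvd) = Q := by
    intro c hc
    exact h31d_restrict_of_pull_ne_zero hdvd Q c (Finsupp.mem_support_iff.mp hc)
  have hSord : ∀ Q'' ∈ ((h57pPull hdvd (Finsupp.single Q (1 : ℤ))).support).image r,
      Q''.ord (h13sRed A (goodLevel p M) ⟨degen hdvd y, hg⟩) = 0 := by
    intro Q'' hQ''S
    obtain ⟨c, hc, rfl⟩ := Finset.mem_image.mp hQ''S
    have hyip : degen hdvd y⁻¹ ∈ gaussV A (goodLevel p M) := by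
      rw [map_inv₀]
      exact hgi
    exact h56s_symLiteUnit_final p hp M hM A hA r hr Q (fun f hf => (hQ f hf).symm) c
      (hT₀res c hc) y hy hyi hg hyip ho
  -- the exact lift
  obtain ⟨g', hg'V, hg'i, hg'red, hg'off⟩ := h44o_exact_lift hp hN haux hA r hr
    (h13sRed A (goodLevel p M) ⟨degen hdvd y, hg⟩) hs0 _ hSord
  have hg'S : g' ∈ softV A (goodLevel p M) := gaussV_le_softV A _ hg'V
  have hg'iS : g'⁻¹ ∈ softV A (goodLevel p M) := gaussV_le_softV A _ hg'i
  have hxy : softR A (goodLevel p M) ⟨g', hg'S⟩ = softR A M ⟨y, hy⟩ := by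
    rw [softR_eq_gaussR A _ g' hg'S hg'V, ← hincl, ← hg'red, h13sIncl_red]
  have hg'0 : g' ≠ 0 := by
    rintro rfl
    apply hs₀
    rw [← hxy]
    exact map_zero _
  have hoffQ : ∀ v : Place Kbar (FF (goodLevel p M)), v.ord g' ≠ 0 →
      v.restrictAlong (degen hdvd) (isIntegral_degen hdvd) ≠ Q := by
    intro v hv hvQ
    exact hg'off v hv (Finset.mem_image_of_mem r (hT₀mem v hvQ))
  have hoff : ∀ c v : Place Kbar (FF (goodLevel p M)),
      c.restrictAlong (degen hdvd) (isIntegral_degen hdvd) = Q → r v = r c → v.ord g' = 0 := by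
    intro c v hc hrv
    by_contra hne
    apply hg'off v hne
    rw [hrv]
    exact Finset.mem_image_of_mem r (hT₀mem c hc)
  -- the norm
  have hFD : H66sFullDeg := h73f_fullDeg h58d_degSF h42q_resIneq
  obtain ⟨hnS, hnred⟩ := h66s_fd_norm_red hFD hp M hM A hA g' hg'S ⟨y, hy⟩ hxy
  obtain ⟨-, hniS⟩ := h66s_fd_norm_unit hFD hp M hM A hA g' hg'S hg'iS
  have hg0 : Fermat.Agent.Red.KR.normAlong (degen hdvd) g' ≠ 0 := by
    intro h0
    have h1 : softR A M ⟨_, hnS⟩ ≠ 0 := by
      rw [hnred]
      exact pow_ne_zero _ hs₀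
    exact ((softR_ne_zero_iff A M ⟨_, hnS⟩).mp h1).1 h0
  -- PS-INT for the norm, at the good level
  have hdgS : degen hdvd (Fermat.Agent.Red.KR.normAlong (degen hdvd) g') ∈
      softV A (goodLevel p M) := (degen_mem_softV_iff A hdvd _).2 hnS
  have hdgV : degen hdvd (Fermat.Agent.Red.KR.normAlong (degen hdvd) g') ∈
      gaussV A (goodLevel p M) := softV_le_gaussV A _ hp hN hA hdgS
  have hdgiV : (degen hdvd (Fermat.Agent.Red.KR.normAlong (degen hdvd) g'))⁻¹ ∈
      gaussV A (goodLevel p M) := by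
    rw [← map_inv₀]
    exact softV_le_gaussV A _ hp hN hA ((degen_mem_softV_iff A hdvd _).2 hniS)
  have hdg0 : degen hdvd (Fermat.Agent.Red.KR.normAlong (degen hdvd) g') ≠ 0 :=
    (map_ne_zero _).mpr hg0
  have hzp : ∀ v, SameRed A v oo →
      v.ord (degen hdvd (Fermat.Agent.Red.KR.normAlong (degen hdvd) g')) = 0 := by
    intro v hv
    refine h31d_degen_norm_ord_eq_zero hdvd hr g' hg'0 oo ?_ v ((hr.2.1 v oo).2 hv)
    intro c w hc hrw
    exact hoff c w (hc.trans hres) hrw
  obtain ⟨b, hb, hbneg, hbunit⟩ := h71p_psInt_unit_sameRed hp hN hA hr oo hoo Qs hQs hrQ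
    (degen hdvd (Fermat.Agent.Red.KR.normAlong (degen hdvd) g')) hdg0 hdgV hdgiV hzp
  rw [coe_degen] at hb
  obtain ⟨c, hbc⟩ := h46d_exists_inv b hbneg hbunit
  have hd : ((finrankAlong Kbar (degen hdvd) : ℕ) : ResidueField A) ≠ 0 :=
    h6o_cast_ne_zero A hA _ (h98m_deg_coprime hp h5 M)
  refine ⟨Fermat.Agent.Red.KR.normAlong (degen hdvd) g', b, c, 1,
    finrankAlong Kbar (degen hdvd), hg0, one_ne_zero, hd, hb, hbc, ?_, ?_⟩
  · rw [map_one, one_mul, ← hnred]
    exact (softR_of_embA A M ⟨_, hnS⟩ b hb).symm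
  · intro f hfV hreg
    have hval : ∀ v : Place Kbar (FF M), v ≠ Q → ∃ a : Kbar, ValueAt v f a := fun v hv =>
      Fermat.Agent.Red.Match.exists_valueAt v
        (Fermat.Agent.S24.DiffPlace.mem_of_ord_nonneg v (hreg v hv))
    have hfvex : ∃ fv : Place Kbar (FF M) → Kbar, ∀ v, v ≠ Q → ValueAt v f (fv v) := by
      refine ⟨fun v => if h : v ≠ Q then (hval v h).choose else 0, fun v hv => ?_⟩
      show ValueAt v f (if h : v ≠ Q then (hval v h).choose else 0)
      rw [dif_pos hv]
      exact (hval v hv).choose_spec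
    obtain ⟨fv, hfv⟩ := hfvex
    obtain ⟨D', hD', -⟩ := (h13g_gBase (goodLevel p M)).pd g' hg'0
    have hS1 : ∀ w ∈ D'.support,
        w.restrictAlong (degen hdvd) (isIntegral_degen hdvd) ≠ Q := by
      intro w hw
      apply hoffQ w
      rw [← hD' w]
      exact Finsupp.mem_support_iff.mp hw
    have hT : ∀ w : Place Kbar (FF (goodLevel p M)), w.ord g' ≠ 0 → w ∈ D'.support := by
      intro w hw
      rw [Finsupp.mem_support_iff, hD' w]
      exact hw
    have hFS : degen hdvd f ∈ gaussV A (goodLevel p M) :=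
      softV_le_gaussV A _ hp hN hA ((degen_mem_softV_iff A hdvd f).2 (gaussV_le_softV A M hfV))
    have hord : ∀ Q'' : Place (h13sK A) (h13sFt A (goodLevel p M)),
        (p : ℤ) ∣ Q''.ord (h13sRed A (goodLevel p M) ⟨g', hg'V⟩) := by
      intro Q''
      rw [hg'red]
      exact hQ' Q''
    have hsep : ∀ v c : Place Kbar (FF (goodLevel p M)), v.ord g' ≠ 0 → r c = r v →
        0 ≤ c.ord (degen hdvd f) := by
      intro v c hv hrc
      rw [Place.ord_restrictAlong (degen hdvd) (isIntegral_degen hdvd) c f]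
      have hcQ : c.restrictAlong (degen hdvd) (isIntegral_degen hdvd) ≠ Q := by
        intro hcQ
        apply hg'off v hv
        rw [← hrc]
        exact Finset.mem_image_of_mem r (hT₀mem c hcQ)
      exact mul_nonneg (Int.natCast_nonneg _) (hreg _ hcQ)
    have hsum := h44o_sum hp hN hA r hr g' hg'V hg'i hord (degen hdvd f) hFS hsep D'.support hT
      (fun w => fv (w.restrictAlong (degen hdvd) (isIntegral_degen hdvd)))
      (fun v _ hv => (Fermat.Agent.Red.TRK.h87_valueAt_restrict (degen hdvd)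
        (isIntegral_degen hdvd) v f _).1 (hfv _ (hoffQ v hv)))
    exact h38o_res_nonunit A hdvd Q hQ f hreg fv hfv g' hg'0 D'.support hS1
      (fun w _ hw => hT w hw) hsum

/-- **ORTH(M)** (helper3's frozen leaf), unconditional. -/
theorem h6o_orthM (p : ℕ) : H3gOrthM p :=
  h19o_orthM_of_res h97q_int (h6o_resM p)

end Fermat.Agent.P7
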