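import Mathlib

/-!
# Wave 7 (target S44), block (A), GENUS-MATCH leaf DESC, abstract half (helper70)

Mathlib only.  `k` a field, `U` a `k`-subspace of `LaurentSeries k` whose nonzero elements have
their orders in a FINITE set `O`.

* `h70e_eq_zero` (a) : `u ∈ U` with `coeff o u = 0` for all `o ∈ O` is `0`.
* `h70e_finite`, `h70e_finrank_le`, `h70e_card_le` (a) : `U` is finite-dimensional of dimension
  `≤ #O`; `r` linearly independent elements of `U` give `r ≤ #O`.
* `h70eOrd U O` : the orders of `O` which are attained by a nonzero element of `U`.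
* `h70e_exists_reduced` (b) : for every attained order `o` there is `u ∈ U` with `coeff o u = 1`
  and `coeff o' u = 0` for the other attained orders `o'`; `h70e_reduced_order` : its order is
  `o`; `h70e_reduced_unique` : it is unique.
* `h70e_reduced_fixed` (c) : if `Φ` acts on the coefficients through an INJECTIVE map `σ` with
  `σ 0 = 0`, `σ 1 = 1` and `Φ U ⊆ U`, then `Φ u_o = u_o`.
* `h70e_reduced_indep`, `h70e_reduced_span` (d) : the reduced elements form a basis of `U`.
* `h70e_exists_fixed_basis` : the packaged statement: a basis `b : Fin r → LaurentSeries k` of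
  `U`, `r = finrank U`, fixed by every such `Φ`.
-/

set_option autoImplicit false

noncomputable section

namespace Fermat.Agent.P7

variable {k : Type*} [Field k]

/-- the coefficients at a finite set of exponents, as a linear map on `U`. -/
def h70eEv (U : Submodule k (LaurentSeries k)) (S : Finset ℤ) : U →ₗ[k] (S → k) :=
  LinearMap.pi fun o => (HahnSeries.coeff.linearMap (o : ℤ)).comp U.subtype

theorem h70eEv_apply (U : Submodule k (LaurentSeries k)) (S : Finset ℤ) (u : U) (o : S) :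
    h70eEv U S u o = (u : LaurentSeries k).coeff (o : ℤ) := rfl

/-- **(a)** an element of `U` whose coefficients at `O` vanish is zero. -/
theorem h70e_eq_zero {U : Submodule k (LaurentSeries k)} {O : Finset ℤ}
    (hO : ∀ u ∈ U, u ≠ 0 → u.order ∈ O) {u : LaurentSeries k} (hu : u ∈ U)
    (h0 : ∀ o ∈ O, u.coeff o = 0) : u = 0 := by
  by_contra hne
  exact hne (HahnSeries.coeff_order_eq_zero.1 (h0 _ (hO u hu hne)))

theorem h70e_ev_injective {U : Submodule k (LaurentSeries k)} {O : Finset ℤ}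
    (hO : ∀ u ∈ U, u ≠ 0 → u.order ∈ O) : Function.Injective (h70eEv U O) := by
  rw [← LinearMap.ker_eq_bot, LinearMap.ker_eq_bot']
  intro u hu
  have : (u : LaurentSeries k) = 0 := by
    apply h70e_eq_zero hO u.2
    intro o ho
    have := congrFun hu ⟨o, ho⟩
    simpa [h70eEv_apply] using this
  exact Subtype.ext this

/-- **(a)** `U` is finite-dimensional. -/
theorem h70e_finite {U : Submodule k (LaurentSeries k)} {O : Finset ℤ}
    (hO : ∀ u ∈ U, u ≠ 0 → u.order ∈ O) : Module.Finite k U :=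
  Module.Finite.of_injective (h70eEv U O) (h70e_ev_injective hO)

/-- **(a)** `dim U ≤ #O`. -/
theorem h70e_finrank_le {U : Submodule k (LaurentSeries k)} {O : Finset ℤ}
    (hO : ∀ u ∈ U, u ≠ 0 → u.order ∈ O) : Module.finrank k U ≤ O.card := by
  have := LinearMap.finrank_le_finrank_of_injective (h70e_ev_injective hO)
  simpa using this

/-- **(a)** `r` linearly independent elements of `U` give `r ≤ #O`. -/
theorem h70e_card_le {U : Submodule k (LaurentSeries k)} {O : Finset ℤ}
    (hO : ∀ u ∈ U, u ≠ 0 → u.order ∈ O) {r : ℕ} (F : Fin r → LaurentSeries k)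
    (hF : ∀ i, F i ∈ U) (hind : LinearIndependent k F) : r ≤ O.card := by
  have := h70e_finite hO
  have hind' : LinearIndependent k (fun i => (⟨F i, hF i⟩ : U)) := by
    apply LinearIndependent.of_comp U.subtype
    exact hind
  have := hind'.fintype_card_le_finrank
  rw [Fintype.card_fin] at this
  exact this.trans (h70e_finrank_le hO)

open Classical in
/-- the attained orders. -/
def h70eOrd (U : Submodule k (LaurentSeries k)) (O : Finset ℤ) : Finset ℤ :=
  O.filter fun o => ∃ u ∈ U, u ≠ 0 ∧ u.order = o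

theorem h70e_mem_ord {U : Submodule k (LaurentSeries k)} {O : Finset ℤ} {o : ℤ} :
    o ∈ h70eOrd U O ↔ o ∈ O ∧ ∃ u ∈ U, u ≠ 0 ∧ u.order = o := by
  classical
  rw [h70eOrd, Finset.mem_filter]

theorem h70e_ord_subset (U : Submodule k (LaurentSeries k)) (O : Finset ℤ) :
    h70eOrd U O ⊆ O := fun _ h => (h70e_mem_ord.1 h).1

theorem h70e_order_mem_ord {U : Submodule k (LaurentSeries k)} {O : Finset ℤ}
    (hO : ∀ u ∈ U, u ≠ 0 → u.order ∈ O) : ∀ u ∈ U, u ≠ 0 → u.order ∈ h70eOrd U O :=
  fun u hu hne => h70e_mem_ord.2 ⟨hO u hu hne, u, hu, hne, rfl⟩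

/-- the coefficients at the attained orders determine the element, and every system of
coefficients occurs. -/
theorem h70e_ev_surjective {U : Submodule k (LaurentSeries k)} {O : Finset ℤ} :
    Function.Surjective (h70eEv U (h70eOrd U O)) := by
  classical
  rw [← LinearMap.range_eq_top]
  by_contra hne
  obtain ⟨f, hf0, hf⟩ := (LinearMap.range (h70eEv U (h70eOrd U O))).exists_le_ker_of_lt_top
    (lt_top_iff_ne_top.2 hne)
  -- the coefficients of the functional
  set c : (h70eOrd U O) → k := fun o => f (Pi.single o 1) with hc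
  have hfc : ∀ x : (h70eOrd U O) → k, f x = ∑ o, x o * c o := by
    intro x
    rw [LinearMap.pi_apply_eq_sum_univ f x]
    refine Finset.sum_congr rfl fun o _ => ?_
    rw [smul_eq_mul, hc]
    congr 2
    ext o'
    simp [Pi.single_apply, eq_comm]
  have hex : ∃ o, c o ≠ 0 := by
    by_contra h
    have h' : ∀ o, c o = 0 := fun o => by
      by_contra hco
      exact h ⟨o, hco⟩
    apply hf0
    refine LinearMap.ext fun x => ?_
    rw [hfc]
    simp [h']
  -- the largest index with a nonzero coefficient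
  obtain ⟨o₁, ho₁, hmax⟩ := Finset.exists_max_image
    (Finset.univ.filter fun o : (h70eOrd U O) => c o ≠ 0) (fun o => (o : ℤ))
    (by obtain ⟨o, ho⟩ := hex; exact ⟨o, by simp [ho]⟩)
  have hc₁ : c o₁ ≠ 0 := by simpa using ho₁
  obtain ⟨-, w, hwU, hw0, hwo⟩ := h70e_mem_ord.1 o₁.2
  have hker : f (h70eEv U (h70eOrd U O) ⟨w, hwU⟩) = 0 :=
    hf (LinearMap.mem_range_self _ _)
  rw [hfc, Finset.sum_eq_single o₁] at hker
  · rw [h70eEv_apply] at hker
    rcases mul_eq_zero.1 hker with h | h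
    · rw [← hwo] at h
      exact hw0 (HahnSeries.coeff_order_eq_zero.1 h)
    · exact hc₁ h
  · intro o _ hne'
    rw [h70eEv_apply]
    rcases lt_or_gt_of_ne (fun h => hne' (Subtype.ext h) : (o : ℤ) ≠ o₁) with hlt | hgt
    · rw [show (⟨w, hwU⟩ : U).1 = w from rfl, HahnSeries.coeff_eq_zero_of_lt_order (hwo ▸ hlt),
        zero_mul]
    · have : c o = 0 := by
        by_contra hco
        have := hmax o (by simp [hco])
        exact absurd this (not_le.2 hgt)
      rw [this, mul_zero]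
  · intro h
    exact absurd (Finset.mem_univ _) h

/-- **(b)** the reduced element at an attained order. -/
theorem h70e_exists_reduced {U : Submodule k (LaurentSeries k)} {O : Finset ℤ} {o : ℤ}
    (ho : o ∈ h70eOrd U O) :
    ∃ u ∈ U, u.coeff o = 1 ∧ ∀ o' ∈ h70eOrd U O, o' ≠ o → u.coeff o' = 0 := by
  classical
  obtain ⟨u, hu⟩ := h70e_ev_surjective (U := U) (O := O) (Pi.single ⟨o, ho⟩ 1)
  refine ⟨u, u.2, ?_, ?_⟩
  · have := congrFun hu ⟨o, ho⟩
    simpa [h70eEv_apply] using this
  · intro o' ho' hne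
    have := congrFun hu ⟨o', ho'⟩
    rw [h70eEv_apply, Pi.single_apply, if_neg (fun h => hne (congrArg Subtype.val h))] at this
    exact this

/-- **(b)** the order of a reduced element. -/
theorem h70e_reduced_order {U : Submodule k (LaurentSeries k)} {O : Finset ℤ}
    (hO : ∀ u ∈ U, u ≠ 0 → u.order ∈ O) {o : ℤ} {u : LaurentSeries k} (hu : u ∈ U)
    (h1 : u.coeff o = 1) (h0 : ∀ o' ∈ h70eOrd U O, o' ≠ o → u.coeff o' = 0) :
    u ≠ 0 ∧ u.order = o := by
  have hne : u ≠ 0 := by
    rintro rfl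
    rw [HahnSeries.coeff_zero] at h1
    exact zero_ne_one h1
  refine ⟨hne, ?_⟩
  by_contra hoo
  exact hne (HahnSeries.coeff_order_eq_zero.1 (h0 _ (h70e_order_mem_ord hO u hu hne) hoo))

/-- **(b)** uniqueness of the reduced element. -/
theorem h70e_reduced_unique {U : Submodule k (LaurentSeries k)} {O : Finset ℤ}
    (hO : ∀ u ∈ U, u ≠ 0 → u.order ∈ O) {o : ℤ} (_ho : o ∈ h70eOrd U O)
    {u u' : LaurentSeries k} (hu : u ∈ U) (hu' : u' ∈ U)
    (h1 : u.coeff o = 1) (h0 : ∀ o' ∈ h70eOrd U O, o' ≠ o → u.coeff o' = 0)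
    (h1' : u'.coeff o = 1) (h0' : ∀ o' ∈ h70eOrd U O, o' ≠ o → u'.coeff o' = 0) :
    u = u' := by
  rw [← sub_eq_zero]
  apply h70e_eq_zero (h70e_order_mem_ord hO) (U.sub_mem hu hu')
  intro o' ho'
  rw [HahnSeries.coeff_sub]
  by_cases h : o' = o
  · rw [h, h1, h1', sub_self]
  · rw [h0 o' ho' h, h0' o' ho' h, sub_self]

/-- an injective coefficientwise map preserves the order. -/
theorem h70e_order_map {σ : k → k} (hσ : Function.Injective σ) (hσ0 : σ 0 = 0)
    {Φ : LaurentSeries k → LaurentSeries k} (hΦ : ∀ u n, (Φ u).coeff n = σ (u.coeff n))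
    {u : LaurentSeries k} (hu : u ≠ 0) : Φ u ≠ 0 ∧ (Φ u).order = u.order := by
  have hne : (Φ u).coeff u.order ≠ 0 := by
    rw [hΦ]
    intro h
    rw [← hσ0] at h
    exact hu (HahnSeries.coeff_order_eq_zero.1 (hσ h))
  have hΦ0 : Φ u ≠ 0 := HahnSeries.ne_zero_of_coeff_ne_zero hne
  refine ⟨hΦ0, le_antisymm (HahnSeries.order_le_of_coeff_ne_zero hne) ?_⟩
  apply HahnSeries.order_le_of_coeff_ne_zero
  intro h
  have h2 := HahnSeries.coeff_order_eq_zero.not.2 hΦ0
  rw [hΦ, h, hσ0] at h2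
  exact h2 rfl

/-- **(c)** a reduced element is fixed by every coefficientwise map `Φ` (through an injective
`σ` with `σ 0 = 0`, `σ 1 = 1`) preserving `U`. -/
theorem h70e_reduced_fixed {U : Submodule k (LaurentSeries k)} {O : Finset ℤ}
    (hO : ∀ u ∈ U, u ≠ 0 → u.order ∈ O) {o : ℤ} (ho : o ∈ h70eOrd U O)
    {u : LaurentSeries k} (hu : u ∈ U)
    (h1 : u.coeff o = 1) (h0 : ∀ o' ∈ h70eOrd U O, o' ≠ o → u.coeff o' = 0)
    {σ : k → k} (hσ0 : σ 0 = 0) (hσ1 : σ 1 = 1)
    {Φ : LaurentSeries k → LaurentSeries k} (hΦ : ∀ u n, (Φ u).coeff n = σ (u.coeff n))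
    (hΦU : ∀ u ∈ U, Φ u ∈ U) : Φ u = u := by
  apply h70e_reduced_unique hO ho (hΦU u hu) hu _ _ h1 h0
  · rw [hΦ, h1, hσ1]
  · intro o' ho' hne
    rw [hΦ, h0 o' ho' hne, hσ0]

/-- **(c)**, coefficient form. -/
theorem h70e_reduced_coeff_fixed {U : Submodule k (LaurentSeries k)} {O : Finset ℤ}
    (hO : ∀ u ∈ U, u ≠ 0 → u.order ∈ O) {o : ℤ} (ho : o ∈ h70eOrd U O)
    {u : LaurentSeries k} (hu : u ∈ U)
    (h1 : u.coeff o = 1) (h0 : ∀ o' ∈ h70eOrd U O, o' ≠ o → u.coeff o' = 0)
    {σ : k → k} (hσ0 : σ 0 = 0) (hσ1 : σ 1 = 1)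
    {Φ : LaurentSeries k → LaurentSeries k} (hΦ : ∀ u n, (Φ u).coeff n = σ (u.coeff n))
    (hΦU : ∀ u ∈ U, Φ u ∈ U) (n : ℤ) : σ (u.coeff n) = u.coeff n := by
  rw [← hΦ, h70e_reduced_fixed hO ho hu h1 h0 hσ0 hσ1 hΦ hΦU]

/-- the linear equivalence `U ≃ k ^ (attained orders)`. -/
def h70eEquiv {U : Submodule k (LaurentSeries k)} {O : Finset ℤ}
    (hO : ∀ u ∈ U, u ≠ 0 → u.order ∈ O) : U ≃ₗ[k] ((h70eOrd U O) → k) :=
  LinearEquiv.ofBijective (h70eEv U (h70eOrd U O))
    ⟨h70e_ev_injective (h70e_order_mem_ord hO), h70e_ev_surjective⟩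

/-- **(d)** `dim U` is the number of attained orders. -/
theorem h70e_finrank_eq {U : Submodule k (LaurentSeries k)} {O : Finset ℤ}
    (hO : ∀ u ∈ U, u ≠ 0 → u.order ∈ O) : Module.finrank k U = (h70eOrd U O).card := by
  rw [(h70eEquiv hO).finrank_eq]
  simp

/-- **(d)** the reduced basis of `U`, indexed by the attained orders. -/
def h70eBasis {U : Submodule k (LaurentSeries k)} {O : Finset ℤ}
    (hO : ∀ u ∈ U, u ≠ 0 → u.order ∈ O) : Module.Basis (h70eOrd U O) k U :=
  Module.Basis.ofEquivFun (h70eEquiv hO)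

theorem h70eBasis_coeff {U : Submodule k (LaurentSeries k)} {O : Finset ℤ}
    (hO : ∀ u ∈ U, u ≠ 0 → u.order ∈ O) (o o' : h70eOrd U O) :
    ((h70eBasis hO o : U) : LaurentSeries k).coeff (o' : ℤ) = if o' = o then 1 else 0 := by
  classical
  have h : h70eEquiv hO (h70eBasis hO o) = Pi.single o 1 := by
    rw [h70eBasis, Module.Basis.coe_ofEquivFun, LinearEquiv.apply_symm_apply]
  have := congrFun h o'
  rw [Pi.single_apply] at this
  exact this

/-- **the packaged statement**: `U` has a basis `b : Fin r → LaurentSeries k`, `r = dim U`, all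
of whose elements are fixed by every coefficientwise map `Φ` (through an injective `σ` with
`σ 0 = 0`, `σ 1 = 1`) preserving `U`. -/
theorem h70e_exists_fixed_basis {U : Submodule k (LaurentSeries k)} {O : Finset ℤ}
    (hO : ∀ u ∈ U, u ≠ 0 → u.order ∈ O) :
    ∃ (r : ℕ) (b : Fin r → LaurentSeries k), r = Module.finrank k U ∧ (∀ i, b i ∈ U) ∧
      LinearIndependent k b ∧ Submodule.span k (Set.range b) = U ∧
      ∀ (σ : k → k) (Φ : LaurentSeries k → LaurentSeries k), σ 0 = 0 → σ 1 = 1 →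
        (∀ u n, (Φ u).coeff n = σ (u.coeff n)) → (∀ u ∈ U, Φ u ∈ U) →
          ∀ i, Φ (b i) = b i ∧ ∀ n, σ ((b i).coeff n) = (b i).coeff n := by
  classical
  set B := (h70eBasis hO).reindex (h70eOrd U O).equivFin with hB
  refine ⟨(h70eOrd U O).card, fun i => (B i : LaurentSeries k), (h70e_finrank_eq hO).symm,
    fun i => (B i).2, ?_, ?_, ?_⟩
  · have := B.linearIndependent
    exact this.map' U.subtype (Submodule.ker_subtype U)
  · have h1 : Set.range (fun i => (B i : LaurentSeries k)) = U.subtype '' Set.range B := by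
      ext x
      simp only [Set.mem_range, Set.mem_image, Submodule.subtype_apply]
      constructor
      · rintro ⟨i, rfl⟩
        exact ⟨B i, ⟨i, rfl⟩, rfl⟩
      · rintro ⟨_, ⟨i, rfl⟩, rfl⟩
        exact ⟨i, rfl⟩
    rw [h1, Submodule.span_image, B.span_eq, Submodule.map_top, Submodule.range_subtype]
  · intro σ Φ hσ0 hσ1 hΦ hΦU i
    obtain ⟨o, rfl⟩ := (h70eOrd U O).equivFin.surjective i
    have hBi : B ((h70eOrd U O).equivFin o) = h70eBasis hO o := by
      rw [hB, Module.Basis.reindex_apply, Equiv.symm_apply_apply]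
    show Φ (B ((h70eOrd U O).equivFin o) : LaurentSeries k) =
        (B ((h70eOrd U O).equivFin o) : LaurentSeries k) ∧
      ∀ n, σ ((B ((h70eOrd U O).equivFin o) : LaurentSeries k).coeff n) =
        (B ((h70eOrd U O).equivFin o) : LaurentSeries k).coeff n
    rw [hBi]
    have h1 : ((h70eBasis hO o : U) : LaurentSeries k).coeff (o : ℤ) = 1 := by
      rw [h70eBasis_coeff, if_pos rfl]
    have h0 : ∀ o' ∈ h70eOrd U O, o' ≠ (o : ℤ) →
        ((h70eBasis hO o : U) : LaurentSeries k).coeff o' = 0 := by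
      intro o' ho' hne
      have := h70eBasis_coeff hO o ⟨o', ho'⟩
      rw [if_neg (fun h => hne (congrArg Subtype.val h))] at this
      exact this
    exact ⟨h70e_reduced_fixed hO o.2 (h70eBasis hO o).2 h1 h0 hσ0 hσ1 hΦ hΦU,
      h70e_reduced_coeff_fixed hO o.2 (h70eBasis hO o).2 h1 h0 hσ0 hσ1 hΦ hΦU⟩

end Fermat.Agent.P7
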