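import Fermat.Agent.P7.H58Law
import Fermat.Agent.P7.H70MultGeo

/-!
# Wave 7 (target S44), LOCAL-MULT, leaf GEO part (d): the `E¹`-shift (helper70)

On a short Weierstrass model `y² = x³ + a₂ x² + a₄ x` with `a₂, a₄ ∈ A`, for ALL `Q, T ∈ E¹`:
`z(Q + T) - z(Q) = z(T) (1 + ε)` with `ε ∈ 𝔪_A`, hence `v(z(Q + T) - z(Q)) = v(z(T))`
(no comparison between `v(z(Q))` and `v(z(T))` is needed).

Proof: exact law of helper58 (`h58w_law`); on a short model the sum has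
`z = z₁ + z₂ + c₂ / c₃`, `c₂ = ν (a₂ + 2 a₄ Λ)`, and the intercept of the chord is
`ν = w₂ - Λ z₂ = z₂ (κ - Λ)` with `κ = z₂² + a₂ z₂ w₂ + a₄ w₂² ∈ 𝔪_A`.
-/

set_option autoImplicit false
set_option linter.unusedSectionVars false

namespace Fermat.Agent.P7

open WeierstrassCurve WeierstrassCurve.Affine Fermat.Agent.S05 Fermat.Agent.S05.K56

variable {K : Type*} [Field K] [DecidableEq K]

variable (A : ValuationSubring K) {W : Affine K}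

/-- the algebraic core: the law `h58wZ` of a short model is `z₁ + z₂ (1 + ε)`. -/
theorem h70g_law_core (h1 : W.a₁ = 0) (h3 : W.a₃ = 0) (h6 : W.a₆ = 0)
    (ha2 : W.a₂ ∈ A) (ha4 : W.a₄ ∈ A) {z₁ w₁ z₂ w₂ : K}
    (hz₁ : z₁ ∈ A.nonunits) (hw₁ : w₁ ∈ A.nonunits) (hz₂ : z₂ ∈ A.nonunits)
    (hw₂ : w₂ ∈ A.nonunits) (E₁ : w₁ = fzw W z₁ w₁) (E₂ : w₂ = fzw W z₂ w₂) :
    ∃ ε ∈ A.nonunits, h58wZ W z₁ w₁ z₂ w₂ - z₁ = z₂ * (1 + ε) := by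
  have ha₁ : W.a₁ ∈ A := h1 ▸ A.zero_mem
  have ha₃ : W.a₃ ∈ A := h3 ▸ A.zero_mem
  have ha₆ : W.a₆ ∈ A := h6 ▸ A.zero_mem
  have hg2 := h58w_zg2_mem A W ha₁ ha2 ha₃ ha4 ha₆ hz₁ hw₁ hw₂
  have hg := one_sub_ne_zero A hg2
  have hΛm := h58w_lam_mem A W ha₁ ha2 ha₃ ha4 ha₆ hz₁ hw₁ hz₂ hw₂
  have hc3 := h58w_zc3_ne_zero A W ha2 ha4 ha₆ hΛm
  have hc3i := h58w_zc3_inv_mem A W ha2 ha4 ha₆ hΛm
  obtain ⟨Λ, hΛdef⟩ : ∃ Λ, Λ = h58wLam W z₁ w₁ z₂ w₂ := ⟨_, rfl⟩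
  have hΛ : Λ * (1 - zg2 W z₁ w₁ w₂) = zg1 W z₁ z₂ w₂ := by
    rw [hΛdef, h58wLam, mul_assoc, inv_mul_cancel₀ hg, mul_one]
  have hch := chord_eq W E₁ E₂
  -- the chord passes through both points
  have hline : w₂ - w₁ = Λ * (z₂ - z₁) := by
    apply mul_right_cancel₀ hg
    rw [hch, ← hΛ]; ring
  -- `w₂ = z₂ κ`
  obtain ⟨κ, hκdef⟩ : ∃ κ, κ = z₂ ^ 2 + W.a₂ * z₂ * w₂ + W.a₄ * w₂ ^ 2 := ⟨_, rfl⟩
  have hκ : w₂ = z₂ * κ := by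
    have := E₂
    rw [fzw, h1, h3, h6] at this
    rw [hκdef]; linear_combination this
  have hz₂A := mem_of_mem_nonunits A hz₂
  have hw₂A := mem_of_mem_nonunits A hw₂
  rw [← hΛdef] at hΛm hc3 hc3i
  have hΛA : Λ ∈ A := mem_of_mem_nonunits A hΛm
  have hκm : κ ∈ A.nonunits := by
    have e : κ = z₂ * (z₂ + W.a₂ * w₂) - w₂ * (-(W.a₄ * w₂)) := by rw [hκdef]; ring
    rw [e]
    exact h58w_nonunits_sub_mem A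
      (nonunits_mul_mem A hz₂ (add_mem hz₂A (mul_mem ha2 hw₂A)))
      (nonunits_mul_mem A hw₂ (neg_mem (mul_mem ha4 hw₂A)))
  have h2A : (2 : K) ∈ A := ofNat_mem A 2
  have hκΛ : κ - Λ ∈ A.nonunits := h58w_nonunits_sub_mem A hκm hΛm
  refine ⟨(κ - Λ) * ((W.a₂ + 2 * W.a₄ * Λ) * (zc3 W Λ)⁻¹),
    nonunits_mul_mem A hκΛ (mul_mem (add_mem ha2 (mul_mem (mul_mem h2A ha4) hΛA)) hc3i), ?_⟩
  rw [h58wZ, h58wDen, h1, h3, h58wZ3, h58wNu, ← hΛdef]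
  have hν : w₁ - Λ * z₁ = z₂ * (κ - Λ) := by
    linear_combination hκ - hline
  rw [hν]
  have hc2 : zc2 W Λ (z₂ * (κ - Λ)) = z₂ * (κ - Λ) * (W.a₂ + 2 * W.a₄ * Λ) := by
    rw [zc2, h1, h3, h6]; ring
  rw [hc2]
  simp only [zero_mul, sub_zero, inv_one, mul_one]
  ring

/-- **(d) the `E¹`-shift, exact form.** -/
theorem h70g_shift_E1_exact (h1 : W.a₁ = 0) (h3 : W.a₃ = 0) (h6 : W.a₆ = 0)
    (ha2 : W.a₂ ∈ A) (ha4 : W.a₄ ∈ A) {Q T : W.Point} (hQ : InE1 A Q) (hT : InE1 A T) :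
    ∃ ε ∈ A.nonunits, zcoord (Q + T) - zcoord Q = zcoord T * (1 + ε) := by
  have ha₁ : W.a₁ ∈ A := h1 ▸ A.zero_mem
  have ha₃ : W.a₃ ∈ A := h3 ▸ A.zero_mem
  have ha₆ : W.a₆ ∈ A := h6 ▸ A.zero_mem
  have hz₁ := zcoord_mem_nonunits A W ha₁ ha2 ha₃ ha4 ha₆ hQ
  have hz₂ := zcoord_mem_nonunits A W ha₁ ha2 ha₃ ha4 ha₆ hT
  have hw₁ := h58w_wc_mem A W ha₁ ha2 ha₃ ha4 ha₆ hQ
  have hw₂ := h58w_wc_mem A W ha₁ ha2 ha₃ ha4 ha₆ hT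
  have E₁ := h58w_wc_eq A W ha₁ ha2 ha₃ ha4 ha₆ hQ
  have E₂ := h58w_wc_eq A W ha₁ ha2 ha₃ ha4 ha₆ hT
  rw [(h58w_law A W ha₁ ha2 ha₃ ha4 ha₆ hQ hT).1]
  exact h70g_law_core A h1 h3 h6 ha2 ha4 hz₁ hw₁ hz₂ hw₂ E₁ E₂

/-- **(d) the `E¹`-shift, valuation form.** -/
theorem h70g_shift_E1 (h1 : W.a₁ = 0) (h3 : W.a₃ = 0) (h6 : W.a₆ = 0)
    (ha2 : W.a₂ ∈ A) (ha4 : W.a₄ ∈ A) {Q T : W.Point} (hQ : InE1 A Q) (hT : InE1 A T) :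
    A.valuation (zcoord (Q + T) - zcoord Q) = A.valuation (zcoord T) := by
  obtain ⟨ε, hε, h⟩ := h70g_shift_E1_exact A h1 h3 h6 ha2 ha4 hQ hT
  have h1ε : A.valuation (1 + ε) = 1 := by
    have : A.valuation ε < A.valuation (1 : K) := by
      rw [map_one]; exact A.mem_nonunits_iff.1 hε
    rw [Valuation.map_add_eq_of_lt_left _ this, map_one]
  rw [h, map_mul, h1ε, mul_one]

end Fermat.Agent.P7
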