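import Fermat.Agent.P5.H13SFIface
import Fermat.Agent.P5.H40RRInst
import Fermat.Agent.Red.MatchLoc
import Fermat.Agent.Red.GGSection
import Fermat.Agent.Red.GV.BarGalois

/-!
# Wave 7 (S44), route DLOG, hole (H2) = ORTH(M): values and the class sum (helper70, `h70s_`)

Sub-leaf `H2-LIFT-L23` of the board (steps (L2) + (L3) of the good-level half of `H2-LIFT`).
Level `N` prime to `p`, `A` a valuation subring of `ℚ̄` over `p`, `V = gaussV A N` the Gauss ring,
`r` ANY map of places with `hr : H13sIsRed A N r` (the landed `h88r_redDiv` provides one at every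
good level).  No norm, no semicontinuity, no Riemann–Roch.

* `h70s_red_mem_nu` : `h ∈ V` vanishing at a place `v`, without pole in the class `r⁻¹ (r v)`
  ⟹ the reduction of `h` vanishes at `r v`.
* `h70s_value` (L2) : `F ∈ V` regular at `v`, without pole in the class of `v` ⟹ `F (v) ∈ A`.
* `h70s_cong` (L2) : two such places `v`, `w` in the same class: `F (v) ≡ F (w) mod 𝔪_A`.
* `h70s_sum` (L3) : `g` a Gauss unit whose reduction has all its orders divisible by `p`, `F ∈ V`
  without pole in the classes of the zeros and poles of `g`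
  ⟹ `∑_v ord_v (g) · F (v) ∈ 𝔪_A`.
* `h70s_sum'` : the same with the value function only required on the support of `div g`, the
  sum over any finite set `T` containing the support.
-/

set_option autoImplicit false
set_option linter.unusedSectionVars false
set_option linter.unusedVariables false
set_option linter.style.haveILetI false

open AlgebraicCurve ModularCurve

noncomputable section

namespace Fermat.Agent.P7

open Fermat.Agent.S37 Fermat.Agent.Red.GV Fermat.Agent.P5

/-! ### Nonunits of a valuation subring -/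

section Abs

variable {L : Type*} [Field L] (S : ValuationSubring L)

theorem h70s_nu_zero : (0 : L) ∈ S.nonunits := by
  rw [S.mem_nonunits_iff, map_zero]
  exact zero_lt_one

theorem h70s_nu_add {x y : L} (hx : x ∈ S.nonunits) (hy : y ∈ S.nonunits) :
    x + y ∈ S.nonunits := by
  rw [S.mem_nonunits_iff] at hx hy ⊢
  exact lt_of_le_of_lt (S.valuation.map_add x y) (max_lt hx hy)

theorem h70s_nu_neg {x : L} (hx : x ∈ S.nonunits) : -x ∈ S.nonunits := by
  rw [S.mem_nonunits_iff] at hx ⊢
  rwa [Valuation.map_neg]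

theorem h70s_nu_mul {a x : L} (ha : a ∈ S) (hx : x ∈ S.nonunits) : a * x ∈ S.nonunits := by
  rw [S.mem_nonunits_iff] at hx ⊢
  rw [map_mul]
  have h1 : S.valuation a ≤ 1 := (S.valuation_le_one_iff a).2 ha
  calc S.valuation a * S.valuation x ≤ 1 * S.valuation x := mul_le_mul' h1 le_rfl
    _ = S.valuation x := one_mul _
    _ < 1 := hx

theorem h70s_nu_sum {ι : Type*} (s : Finset ι) (f : ι → L) (h : ∀ i ∈ s, f i ∈ S.nonunits) :
    ∑ i ∈ s, f i ∈ S.nonunits := by
  classical
  induction s using Finset.induction_on with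
  | empty =>
    rw [Finset.sum_empty]
    exact h70s_nu_zero S
  | insert a s ha ih =>
    rw [Finset.sum_insert ha]
    exact h70s_nu_add S (h a (Finset.mem_insert_self a s))
      (ih fun i hi => h i (Finset.mem_insert_of_mem hi))

theorem h70s_one_not_nu : (1 : L) ∉ S.nonunits := by
  rw [S.mem_nonunits_iff, map_one]
  exact lt_irrefl 1

theorem h70s_nu_mem {x : L} (hx : x ∈ S.nonunits) : x ∈ S := by
  rw [S.mem_nonunits_iff] at hx
  exact (S.valuation_le_one_iff x).1 hx.le

theorem h70s_intCast_mem (n : ℤ) : (n : L) ∈ S := intCast_mem S.toSubring n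

theorem h70s_inv_mem_nu_of_not_mem {a : L} (ha : a ∉ S) : a⁻¹ ∈ S.nonunits := by
  rw [S.mem_nonunits_iff, map_inv₀]
  have h1 : ¬ S.valuation a ≤ 1 := fun h => ha ((S.valuation_le_one_iff a).1 h)
  have h2 : 1 < S.valuation a := not_le.1 h1
  exact inv_lt_one_of_one_lt₀ h2

theorem h70s_inv_mem_of_not_nu {a : L} (ha : a ∈ S) (hnu : a ∉ S.nonunits) : a⁻¹ ∈ S := by
  rw [S.mem_nonunits_iff, not_lt] at hnu
  have h1 : S.valuation a ≤ 1 := (S.valuation_le_one_iff a).2 ha
  have h2 : S.valuation a = 1 := le_antisymm h1 hnu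
  rw [← S.valuation_le_one_iff, map_inv₀, h2, inv_one]

theorem h70s_ne_zero_of_not_nu {a : L} (hnu : a ∉ S.nonunits) : a ≠ 0 := by
  rintro rfl
  exact hnu (h70s_nu_zero S)

end Abs

/-! ### Orders and membership at a place -/

section PlaceGen

variable {K F : Type*} [Field K] [Field F] [Algebra K F] (v : Place K F)

theorem h70s_mem_nu_of_ord_pos {x : F} (h : 0 < v.ord x) :
    x ∈ v.toValuationSubring.nonunits := by
  rw [← Fermat.Agent.Red.GG.h71_adicValuation_lt_one_iff]
  have hx : x ≠ 0 := by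
    rintro rfl
    rw [Place.ord_zero] at h
    exact lt_irrefl 0 h
  rw [v.adicValuation_eq_exp_neg_ord hx]
  have h1 : WithZero.exp (-v.ord x) < WithZero.exp (0 : ℤ) := WithZero.exp_lt_exp.2 (by omega)
  simpa using h1

theorem h70s_ord_pos_of_mem_nu {x : F} (hx : x ≠ 0) (h : x ∈ v.toValuationSubring.nonunits) :
    0 < v.ord x := by
  rw [← Fermat.Agent.Red.GG.h71_adicValuation_lt_one_iff, v.adicValuation_eq_exp_neg_ord hx] at h
  have h1 : WithZero.exp (-v.ord x) < WithZero.exp (0 : ℤ) := by simpa using h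
  rw [WithZero.exp_lt_exp] at h1
  omega

theorem h70s_ord_nonneg_of_mem {x : F} (h : x ∈ v.toValuationSubring) : 0 ≤ v.ord x := by
  rcases (v.adicValuation_le_one_iff).1 (v.adicValuation_le_one_of_mem h) with h0 | h0
  · rw [h0, Place.ord_zero]
  · exact h0

theorem h70s_mem_of_ord_nonneg {x : F} (h : 0 ≤ v.ord x) : x ∈ v.toValuationSubring :=
  Fermat.Agent.S24.DiffPlace.mem_of_ord_nonneg v h

theorem h70s_ord_neg_of_not_mem {x : F} (h : x ∉ v.toValuationSubring) : v.ord x < 0 := by
  by_contra hcon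
  exact h (h70s_mem_of_ord_nonneg v (not_lt.1 hcon))

end PlaceGen

/-! ### The reduction of Gauss-integral functions -/

section Level

variable {p N : ℕ} [NeZero N] (A : ValuationSubring Kbar)

theorem h70s_red_add (x y : gaussV A N) :
    h13sRed A N (x + y) = h13sRed A N x + h13sRed A N y :=
  Subtype.ext (map_add (gaussR A N) x y)

theorem h70s_red_one : h13sRed A N (1 : gaussV A N) = 1 :=
  Subtype.ext (map_one (gaussR A N))

theorem h70s_red_eq_zero {x : gaussV A N} (h : gaussR A N x = 0) : h13sRed A N x = 0 :=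
  Subtype.ext h

theorem h70s_valueAt_mem {v : Place Kbar (FF N)} {F : FF N} {a : Kbar} (h : ValueAt v F a) :
    F ∈ v.toValuationSubring := by
  have h1 : F - cst N a ∈ v.toValuationSubring := h70s_nu_mem _ h
  have h2 : F = (F - cst N a) + cst N a := by ring
  rw [h2]
  exact add_mem h1 (v.algebraMap_mem' a)

variable (r : Place Kbar (FF N) → Place (h13sK A) (h13sFt A N))

/-- **RED-DIV, local form.**  A Gauss-integral function vanishing at `v`, without pole in the
class of `v`, has a reduction vanishing at `r v`. -/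
theorem h70s_red_mem_nu (hp : p.Prime) (hN : ¬ p ∣ N) (hA : A.LiesOverPrime p)
    (hr : H13sIsRed A N r) (h : FF N) (hh : h ∈ gaussV A N) (v : Place Kbar (FF N))
    (hv : h ∈ v.toValuationSubring.nonunits)
    (hreg : ∀ c : Place Kbar (FF N), c.ord h < 0 → r c ≠ r v) :
    h13sRed A N ⟨h, hh⟩ ∈ (r v).toValuationSubring.nonunits := by
  classical
  by_cases h0 : gaussR A N ⟨h, hh⟩ = 0
  · rw [h70s_red_eq_zero A h0]
    exact h70s_nu_zero _
  · have h1 := (not_congr (gaussR_eq_zero_iff A N hp hN hA ⟨h, hh⟩)).1 h0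
    rw [not_or, not_not] at h1
    obtain ⟨hne, hinv⟩ := h1
    have hne' : h ≠ 0 := hne
    have hinv' : h⁻¹ ∈ gaussV A N := hinv
    obtain ⟨D, hD, -⟩ := (h40r_base_FF N).pd h hne'
    have hpush := hr.2.2 h hh hinv' D hD (r v)
    have hsum : h13sPush r D (r v) = ∑ x ∈ D.support, if r x = r v then D x else 0 := by
      unfold h13sPush
      rw [Finsupp.mapDomain, Finsupp.sum_apply, Finsupp.sum]
      refine Finset.sum_congr rfl fun x _ => ?_
      rw [Finsupp.single_apply]
    have hvpos : 0 < v.ord h := h70s_ord_pos_of_mem_nu v hne' hv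
    have hvs : v ∈ D.support := by
      rw [Finsupp.mem_support_iff, hD v]
      exact ne_of_gt hvpos
    have hnn : ∀ x ∈ D.support, (0 : ℤ) ≤ if r x = r v then D x else 0 := by
      intro x _
      split_ifs with hx
      · rw [hD x]
        by_contra hcon
        exact hreg x (not_le.1 hcon) hx
      · exact le_rfl
    have hle : (if r v = r v then D v else 0) ≤ ∑ x ∈ D.support, if r x = r v then D x else 0 :=
      Finset.single_le_sum hnn hvs
    rw [if_pos rfl, hD v] at hle
    have hpos : 0 < (r v).ord (h13sRed A N ⟨h, hh⟩) := by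
      rw [← hpush, hsum]
      exact lt_of_lt_of_le hvpos hle
    exact h70s_mem_nu_of_ord_pos _ hpos

/-- **(L2), values.**  A Gauss-integral function `F`, regular at `v` and without pole in the
class of `v`, takes a value in `A` at `v`. -/
theorem h70s_value (hp : p.Prime) (hN : ¬ p ∣ N) (hA : A.LiesOverPrime p)
    (hr : H13sIsRed A N r) (F : FF N) (hF : F ∈ gaussV A N) (v : Place Kbar (FF N))
    (hv : 0 ≤ v.ord F) (hreg : ∀ c : Place Kbar (FF N), c.ord F < 0 → r c ≠ r v) :
    ∃ a : Kbar, a ∈ A ∧ ValueAt v F a := by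
  obtain ⟨a, ha⟩ := Fermat.Agent.Red.Match.exists_valueAt v (h70s_mem_of_ord_nonneg v hv)
  refine ⟨a, ?_, ha⟩
  by_contra haA
  have ha0 : a ≠ 0 := by
    rintro rfl
    exact haA A.zero_mem
  have hinu : a⁻¹ ∈ A.nonunits := h70s_inv_mem_nu_of_not_mem A haA
  have hcV : cst N a⁻¹ ∈ gaussV A N := (cst_mem_gaussV_iff A N hA a⁻¹).2 (h70s_nu_mem A hinu)
  have hc0 : gaussR A N ⟨cst N a⁻¹, hcV⟩ = 0 := gaussR_cst_of_nonunit A N hA a⁻¹ hinu hcV
  set h : FF N := 1 - cst N a⁻¹ * F with hdef
  have hh : h ∈ gaussV A N := sub_mem (one_mem _) (mul_mem hcV hF)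
  have hred : gaussR A N ⟨h, hh⟩ = 1 := by
    have e : (⟨h, hh⟩ : gaussV A N) = 1 - ⟨cst N a⁻¹, hcV⟩ * ⟨F, hF⟩ := Subtype.ext rfl
    rw [e, map_sub, map_one, map_mul, hc0, zero_mul, sub_zero]
  have hcc : cst N a⁻¹ * cst N a = 1 := by
    rw [← map_mul, inv_mul_cancel₀ ha0, map_one]
  have hhv : h ∈ v.toValuationSubring.nonunits := by
    have e : h = -(cst N a⁻¹ * (F - cst N a)) := by
      rw [hdef, mul_sub, hcc]
      ring
    rw [e]
    exact h70s_nu_neg _ (h70s_nu_mul _ (v.algebraMap_mem' _) ha)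
  have hregh : ∀ c : Place Kbar (FF N), c.ord h < 0 → r c ≠ r v := by
    intro c hc
    refine hreg c ?_
    by_contra hcon
    have hFc : F ∈ c.toValuationSubring := h70s_mem_of_ord_nonneg c (not_lt.1 hcon)
    have hhc : h ∈ c.toValuationSubring :=
      sub_mem (one_mem _) (mul_mem (c.algebraMap_mem' _) hFc)
    exact absurd (h70s_ord_nonneg_of_mem c hhc) (not_le.2 hc)
  have hB := h70s_red_mem_nu A r hp hN hA hr h hh v hhv hregh
  have e1 : h13sRed A N ⟨h, hh⟩ = 1 := Subtype.ext hred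
  rw [e1] at hB
  exact h70s_one_not_nu _ hB

/-- **(L2), congruence.**  Two places of the same class at which `F` takes values, `F` without
pole in the class: the values are congruent modulo `𝔪_A`. -/
theorem h70s_cong (hp : p.Prime) (hN : ¬ p ∣ N) (hA : A.LiesOverPrime p)
    (hr : H13sIsRed A N r) (F : FF N) (hF : F ∈ gaussV A N) (v w : Place Kbar (FF N))
    (hvw : r v = r w) (hreg : ∀ c : Place Kbar (FF N), c.ord F < 0 → r c ≠ r v)
    {a b : Kbar} (ha : ValueAt v F a) (hb : ValueAt w F b) : a - b ∈ A.nonunits := by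
  have hregw : ∀ c : Place Kbar (FF N), c.ord F < 0 → r c ≠ r w := fun c hc =>
    hvw ▸ hreg c hc
  obtain ⟨a', ha'A, ha'⟩ := h70s_value A r hp hN hA hr F hF v
    (h70s_ord_nonneg_of_mem v (h70s_valueAt_mem ha)) hreg
  obtain ⟨b', hb'A, hb'⟩ := h70s_value A r hp hN hA hr F hF w
    (h70s_ord_nonneg_of_mem w (h70s_valueAt_mem hb)) hregw
  have haA : a ∈ A := (Fermat.Agent.Red.Match.valueAt_unique ha' ha) ▸ ha'A
  have hbA : b ∈ A := (Fermat.Agent.Red.Match.valueAt_unique hb' hb) ▸ hb'A
  by_contra hnu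
  have hdA : a - b ∈ A := sub_mem haA hbA
  have hd0 : a - b ≠ 0 := h70s_ne_zero_of_not_nu A hnu
  have hdi : (a - b)⁻¹ ∈ A := h70s_inv_mem_of_not_nu A hdA hnu
  have hcV : cst N (a - b)⁻¹ ∈ gaussV A N := (cst_mem_gaussV_iff A N hA _).2 hdi
  have hbV : cst N b ∈ gaussV A N := (cst_mem_gaussV_iff A N hA _).2 hbA
  set G : FF N := cst N (a - b)⁻¹ * (F - cst N b) with hG
  have hGV : G ∈ gaussV A N := mul_mem hcV (sub_mem hF hbV)
  have h1V : 1 - G ∈ gaussV A N := sub_mem (one_mem _) hGV
  -- `G` vanishes at `w`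
  have hGw : G ∈ w.toValuationSubring.nonunits := h70s_nu_mul _ (w.algebraMap_mem' _) hb
  -- `1 - G` vanishes at `v`
  have hcc : cst N (a - b)⁻¹ * cst N (a - b) = 1 := by
    rw [← map_mul, inv_mul_cancel₀ hd0, map_one]
  have h1v : 1 - G ∈ v.toValuationSubring.nonunits := by
    have e : 1 - G = -(cst N (a - b)⁻¹ * (F - cst N a)) := by
      have e2 : cst N (a - b) = cst N a - cst N b := map_sub (algebraMap Kbar (FF N)) a b
      have e3 : F - cst N b = (F - cst N a) + cst N (a - b) := by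
        rw [e2]
        ring
      rw [hG, e3, mul_add, hcc]
      ring
    rw [e]
    exact h70s_nu_neg _ (h70s_nu_mul _ (v.algebraMap_mem' _) ha)
  -- poles
  have hpoleG : ∀ c : Place Kbar (FF N), c.ord G < 0 → c.ord F < 0 := by
    intro c hc
    by_contra hcon
    have hFc : F ∈ c.toValuationSubring := h70s_mem_of_ord_nonneg c (not_lt.1 hcon)
    have hGc : G ∈ c.toValuationSubring :=
      mul_mem (c.algebraMap_mem' _) (sub_mem hFc (c.algebraMap_mem' _))
    exact absurd (h70s_ord_nonneg_of_mem c hGc) (not_le.2 hc)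
  have hpole1 : ∀ c : Place Kbar (FF N), c.ord (1 - G) < 0 → c.ord F < 0 := by
    intro c hc
    by_contra hcon
    have hFc : F ∈ c.toValuationSubring := h70s_mem_of_ord_nonneg c (not_lt.1 hcon)
    have hGc : G ∈ c.toValuationSubring :=
      mul_mem (c.algebraMap_mem' _) (sub_mem hFc (c.algebraMap_mem' _))
    have h1c : 1 - G ∈ c.toValuationSubring := sub_mem (one_mem _) hGc
    exact absurd (h70s_ord_nonneg_of_mem c h1c) (not_le.2 hc)
  have hB1 := h70s_red_mem_nu A r hp hN hA hr G hGV w hGw (fun c hc => hregw c (hpoleG c hc))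
  have hB2 := h70s_red_mem_nu A r hp hN hA hr (1 - G) h1V v h1v
    (fun c hc => hreg c (hpole1 c hc))
  rw [← hvw] at hB1
  have hsum : h13sRed A N ⟨G, hGV⟩ + h13sRed A N ⟨1 - G, h1V⟩ = 1 := by
    rw [← h70s_red_add]
    have e : (⟨G, hGV⟩ : gaussV A N) + ⟨1 - G, h1V⟩ = 1 := Subtype.ext (by
      show G + (1 - G) = 1
      ring)
    rw [e, h70s_red_one]
  have h1 := h70s_nu_add _ hB1 hB2
  rw [hsum] at h1
  exact h70s_one_not_nu _ h1

/-- **(L3), the class sum**, value function on the support of `div g` only, sum over any finite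
set containing the support. -/
theorem h70s_sum' (hp : p.Prime) (hN : ¬ p ∣ N) (hA : A.LiesOverPrime p)
    (hr : H13sIsRed A N r) (g : FF N) (hg : g ∈ gaussV A N) (hgi : g⁻¹ ∈ gaussV A N)
    (hdiv : ∀ Q : Place (h13sK A) (h13sFt A N), (p : ℤ) ∣ Q.ord (h13sRed A N ⟨g, hg⟩))
    (F : FF N) (hF : F ∈ gaussV A N)
    (hpole : ∀ v c : Place Kbar (FF N), v.ord g ≠ 0 → c.ord F < 0 → r c ≠ r v)
    (T : Finset (Place Kbar (FF N))) (hT : ∀ v : Place Kbar (FF N), v.ord g ≠ 0 → v ∈ T)
    (fv : Place Kbar (FF N) → Kbar)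
    (hfv : ∀ v : Place Kbar (FF N), v.ord g ≠ 0 → ValueAt v F (fv v)) :
    (∑ v ∈ T, ((v.ord g : ℤ) : Kbar) * fv v) ∈ A.nonunits := by
  classical
  by_cases hg0 : g = 0
  · refine h70s_nu_sum A T _ fun v _ => ?_
    rw [hg0, Place.ord_zero, Int.cast_zero, zero_mul]
    exact h70s_nu_zero A
  obtain ⟨D, hD, -⟩ := (h40r_base_FF N).pd g hg0
  have hpush : ∀ Q : Place (h13sK A) (h13sFt A N),
      Finsupp.mapDomain r D Q = Q.ord (h13sRed A N ⟨g, hg⟩) :=
    fun Q => hr.2.2 g hg hgi D hD Q
  -- the representative value of a class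
  let ψ : Place (h13sK A) (h13sFt A N) → Kbar := fun Q =>
    if h : ∃ v : Place Kbar (FF N), v.ord g ≠ 0 ∧ r v = Q then fv (Classical.choose h) else 0
  have hψA : ∀ Q, ψ Q ∈ A := by
    intro Q
    by_cases h : ∃ v : Place Kbar (FF N), v.ord g ≠ 0 ∧ r v = Q
    · have e : ψ Q = fv (Classical.choose h) := dif_pos h
      rw [e]
      obtain ⟨h1, h2⟩ := Classical.choose_spec h
      have hval := hfv _ h1
      obtain ⟨a, haA, ha⟩ := h70s_value A r hp hN hA hr F hF (Classical.choose h)
        (h70s_ord_nonneg_of_mem _ (h70s_valueAt_mem hval)) (fun c hc => hpole _ c h1 hc)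
      exact (Fermat.Agent.Red.Match.valueAt_unique ha hval) ▸ haA
    · have e : ψ Q = 0 := dif_neg h
      rw [e]
      exact A.zero_mem
  have hψc : ∀ v : Place Kbar (FF N), v.ord g ≠ 0 → fv v - ψ (r v) ∈ A.nonunits := by
    intro v hv
    have h : ∃ w : Place Kbar (FF N), w.ord g ≠ 0 ∧ r w = r v := ⟨v, hv, rfl⟩
    have e : ψ (r v) = fv (Classical.choose h) := dif_pos h
    rw [e]
    obtain ⟨h1, h2⟩ := Classical.choose_spec h
    exact h70s_cong A r hp hN hA hr F hF v (Classical.choose h) h2.symm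
      (fun c hc => hpole v c hv hc) (hfv v hv) (hfv _ h1)
  -- split the sum
  have hsplit : (∑ v ∈ T, ((v.ord g : ℤ) : Kbar) * fv v) =
      (∑ v ∈ T, ((v.ord g : ℤ) : Kbar) * (fv v - ψ (r v))) +
        ∑ v ∈ T, ((v.ord g : ℤ) : Kbar) * ψ (r v) := by
    rw [← Finset.sum_add_distrib]
    refine Finset.sum_congr rfl fun v _ => ?_
    ring
  rw [hsplit]
  refine h70s_nu_add A ?_ ?_
  · refine h70s_nu_sum A T _ fun v _ => ?_
    by_cases hv : v.ord g = 0
    · rw [hv, Int.cast_zero, zero_mul]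
      exact h70s_nu_zero A
    · exact h70s_nu_mul A (h70s_intCast_mem A _) (hψc v hv)
  · -- the sum over the classes
    have hsub : D.support ⊆ T := by
      intro v hv
      rw [Finsupp.mem_support_iff, hD v] at hv
      exact hT v hv
    have h1 : (∑ v ∈ T, ((v.ord g : ℤ) : Kbar) * ψ (r v)) =
        ∑ v ∈ D.support, ((D v : ℤ) : Kbar) * ψ (r v) := by
      symm
      rw [Finset.sum_subset hsub]
      · refine Finset.sum_congr rfl fun v _ => ?_
        rw [hD v]
      · intro v _ hv
        rw [Finsupp.notMem_support_iff] at hv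
        rw [hv, Int.cast_zero, zero_mul]
    have h2 : (∑ v ∈ D.support, ((D v : ℤ) : Kbar) * ψ (r v)) =
        (Finsupp.mapDomain r D).sum fun Q n => ((n : ℤ) : Kbar) * ψ Q := by
      rw [Finsupp.sum_mapDomain_index]
      · rfl
      · intro Q
        rw [Int.cast_zero, zero_mul]
      · intro Q m₁ m₂
        rw [Int.cast_add, add_mul]
    rw [h1, h2, Finsupp.sum]
    refine h70s_nu_sum A _ _ fun Q _ => ?_
    obtain ⟨m, hm⟩ := hdiv Q
    rw [hpush Q, hm, Int.cast_mul, Int.cast_natCast, mul_assoc, mul_comm]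
    exact h70s_nu_mul A (mul_mem (h70s_intCast_mem A m) (hψA Q)) hA

/-- **(L3), the class sum.**  `g` a Gauss unit whose reduction has all its orders divisible by
`p`; `F` Gauss-integral without pole in the classes of the zeros and poles of `g`; `T` a finite
set containing the support of `div g`; `fv` a value function of `F` on `T`.  Then
`∑_{v ∈ T} ord_v (g) · F (v) ∈ 𝔪_A`. -/
theorem h70s_sum (hp : p.Prime) (hN : ¬ p ∣ N) (hA : A.LiesOverPrime p)
    (hr : H13sIsRed A N r) (g : FF N) (hg : g ∈ gaussV A N) (hgi : g⁻¹ ∈ gaussV A N)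
    (hdiv : ∀ Q : Place (h13sK A) (h13sFt A N), (p : ℤ) ∣ Q.ord (h13sRed A N ⟨g, hg⟩))
    (F : FF N) (hF : F ∈ gaussV A N)
    (hpole : ∀ v c : Place Kbar (FF N), v.ord g ≠ 0 → c.ord F < 0 → r c ≠ r v)
    (T : Finset (Place Kbar (FF N))) (hT : ∀ v : Place Kbar (FF N), v.ord g ≠ 0 → v ∈ T)
    (fv : Place Kbar (FF N) → Kbar)
    (hfv : ∀ v ∈ T, v.ord g ≠ 0 → ValueAt v F (fv v)) :
    (∑ v ∈ T, ((v.ord g : ℤ) : Kbar) * fv v) ∈ A.nonunits :=
  h70s_sum' A r hp hN hA hr g hg hgi hdiv F hF hpole T hT fv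
    (fun v hv => hfv v (hT v hv) hv)

/-- the values exist: a value function as in `h70s_sum` can always be chosen, with values in
`A`. -/
theorem h70s_exists_fv (hp : p.Prime) (hN : ¬ p ∣ N) (hA : A.LiesOverPrime p)
    (hr : H13sIsRed A N r) (g : FF N) (F : FF N) (hF : F ∈ gaussV A N)
    (hpole : ∀ v c : Place Kbar (FF N), v.ord g ≠ 0 → c.ord F < 0 → r c ≠ r v) :
    ∃ fv : Place Kbar (FF N) → Kbar, (∀ v, fv v ∈ A) ∧
      ∀ v : Place Kbar (FF N), v.ord g ≠ 0 → ValueAt v F (fv v) := by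
  classical
  have hex : ∀ v : Place Kbar (FF N), v.ord g ≠ 0 → ∃ a : Kbar, a ∈ A ∧ ValueAt v F a := by
    intro v hv
    refine h70s_value A r hp hN hA hr F hF v ?_ (fun c hc => hpole v c hv hc)
    by_contra hcon
    exact hpole v v hv (not_le.1 hcon) rfl
  refine ⟨fun v => if h : v.ord g ≠ 0 then Classical.choose (hex v h) else 0, ?_, ?_⟩
  · intro v
    by_cases h : v.ord g ≠ 0
    · simp only [dif_pos h]
      exact (Classical.choose_spec (hex v h)).1
    · simp only [dif_neg h]
      exact A.zero_mem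
  · intro v h
    simp only [dif_pos h]
    exact (Classical.choose_spec (hex v h)).2

end Level

end Fermat.Agent.P7
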