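import Fermat.Agent.P7.H96Dlog
import Fermat.Agent.Red.GV.Defs

/-!
# P7 (wave 7, row 38), DLOG at the level `M`, leaf H2-RED (twin, helper71)

Abstract reduction of the residue `a₀(f · dlog g)`: for `a, b ∈ A((q))`, `b` a power series with
unit constant term, the constant coefficient of `embA a * dlog (embA b)` is (the image of) an
element `r` of `A`, and the constant coefficient of `redA a * dlog (redA b)` is `π r`.

* `h71dTheta`           : `θ = q d/dq` on `R((q))`, `R` any commutative ring;
* `h71d_coeffMap_theta` : `θ` commutes with coefficientwise ring homomorphisms to a field;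
* `h71d_exists_inv`     : a power series with unit constant term is invertible in `R((q))`;
* `h71d_red_gen`        : generic form (any ring homomorphism `φ : R → L`, `L` a field);
* `h71d_red`            : the form of the row (`embA A` and `redA π`);
* `h71d_red_unique`     : the same with the explicit witness `h71dRes a b c`.
-/

set_option autoImplicit false

open ModularCurve

noncomputable section

namespace Fermat.Agent.P7

open Fermat.Agent.Red.GV

section Ring

variable {R : Type*} [CommRing R]

/-- `θ x = q dx/dq` over a commutative ring. -/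
def h71dTheta (s : LaurentSeries R) : LaurentSeries R where
  coeff n := n • s.coeff n
  isPWO_support' := s.isPWO_support.mono (fun n hn => by
    simp only [Function.mem_support, ne_eq] at hn ⊢
    exact fun h0 => hn (by rw [h0, smul_zero]))

@[simp] theorem h71d_coeff_theta (s : LaurentSeries R) (n : ℤ) :
    (h71dTheta s).coeff n = n • s.coeff n := rfl

/-- `θ` commutes with coefficientwise ring homomorphisms to a field. -/
theorem h71d_coeffMap_theta {L : Type*} [Field L] (φ : R →+* L) (s : LaurentSeries R) :
    coeffMap φ (h71dTheta s) = h96dTheta (coeffMap φ s) := by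
  ext n
  rw [coeffMap_coeff, h71d_coeff_theta, h96d_coeff_theta, coeffMap_coeff, map_zsmul,
    zsmul_eq_mul]

/-- a power series with unit constant term is invertible in `R((q))`. -/
theorem h71d_exists_inv (b : LaurentSeries R) (hb : ∀ i : ℤ, i < 0 → b.coeff i = 0)
    (hb0 : IsUnit (b.coeff 0)) : ∃ c : LaurentSeries R, b * c = 1 := by
  set p : PowerSeries R := PowerSeries.mk (fun n => b.coeff (n : ℤ)) with hp
  have hbp : HahnSeries.ofPowerSeries ℤ R p = b := by
    ext i
    rcases lt_or_ge i 0 with hi | hi
    · rw [hb i hi]
      have := PowerSeries.coeff_coe (R := R) p i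
      rw [if_pos hi] at this
      exact this
    · lift i to ℕ using hi
      rw [HahnSeries.ofPowerSeries_apply_coeff, hp, PowerSeries.coeff_mk]
  have hunit : IsUnit p := by
    rw [PowerSeries.isUnit_iff_constantCoeff]
    have : PowerSeries.constantCoeff p = b.coeff 0 := by
      rw [← PowerSeries.coeff_zero_eq_constantCoeff_apply, hp, PowerSeries.coeff_mk]
      rfl
    rw [this]
    exact hb0
  obtain ⟨u, hu⟩ := hunit
  refine ⟨HahnSeries.ofPowerSeries ℤ R ((u⁻¹ : (PowerSeries R)ˣ) : PowerSeries R), ?_⟩
  rw [← hbp, ← map_mul, ← hu, Units.mul_inv, map_one]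

/-- generic form of RED. -/
theorem h71d_red_gen {L : Type*} [Field L] (φ : R →+* L) (a b c : LaurentSeries R)
    (hbc : b * c = 1) :
    (coeffMap φ a * h96dLog (coeffMap φ b)).coeff 0 = φ ((a * (h71dTheta b * c)).coeff 0) := by
  have h1 : coeffMap φ b * coeffMap φ c = 1 := by
    rw [← map_mul, hbc, map_one]
  have h2 : (coeffMap φ b)⁻¹ = coeffMap φ c := inv_eq_of_mul_eq_one_right h1
  rw [h96dLog, h2, ← h71d_coeffMap_theta, ← map_mul, ← map_mul, coeffMap_coeff]

end Ring

/-- **H2-RED**: for `a, b ∈ A((q))`, `b` a power series with unit constant term, the residue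
`a₀(embA a · dlog (embA b))` is an element `r` of `A`, whose reduction is
`a₀(redA a · dlog (redA b))`. -/
theorem h71d_red {K : Type} [Field K] (A : ValuationSubring K) {k : Type} [Field k]
    (π : A →+* k) (a b : LaurentSeries A) (hb : ∀ i : ℤ, i < 0 → b.coeff i = 0)
    (hb0 : IsUnit (b.coeff 0)) :
    ∃ r : A, (embA A a * h96dLog (embA A b)).coeff 0 = (r : K) ∧
      (redA π a * h96dLog (redA π b)).coeff 0 = π r := by
  obtain ⟨c, hc⟩ := h71d_exists_inv b hb hb0
  refine ⟨(a * (h71dTheta b * c)).coeff 0, ?_, ?_⟩
  · exact h71d_red_gen A.subtype a b c hc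
  · exact h71d_red_gen π a b c hc

/-- the same for a family of numerators `a` with one denominator: the witness is linear in `a`
(`r a = a₀(a · θ b · c)` for a fixed inverse `c` of `b`). -/
theorem h71d_red_family {K : Type} [Field K] (A : ValuationSubring K) {k : Type} [Field k]
    (π : A →+* k) (b : LaurentSeries A) (hb : ∀ i : ℤ, i < 0 → b.coeff i = 0)
    (hb0 : IsUnit (b.coeff 0)) :
    ∃ r : LaurentSeries A →+ A, ∀ a : LaurentSeries A,
      (embA A a * h96dLog (embA A b)).coeff 0 = (r a : K) ∧
        (redA π a * h96dLog (redA π b)).coeff 0 = π (r a) := by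
  obtain ⟨c, hc⟩ := h71d_exists_inv b hb hb0
  refine ⟨{ toFun := fun a => (a * (h71dTheta b * c)).coeff 0
            map_zero' := by rw [zero_mul]; rfl
            map_add' := fun x y => by rw [add_mul]; rfl }, fun a => ⟨?_, ?_⟩⟩
  · exact h71d_red_gen A.subtype a b c hc
  · exact h71d_red_gen π a b c hc

/-- consequence used by ORTH: if the characteristic-zero residue lies in the kernel of `π`
(e.g. is a non-unit of `A`), the residue of the reductions vanishes. -/
theorem h71d_red_zero {K : Type} [Field K] (A : ValuationSubring K) {k : Type} [Field k]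
    (π : A →+* k) (a b : LaurentSeries A) (hb : ∀ i : ℤ, i < 0 → b.coeff i = 0)
    (hb0 : IsUnit (b.coeff 0))
    (h : ∀ r : A, (embA A a * h96dLog (embA A b)).coeff 0 = (r : K) → π r = 0) :
    (redA π a * h96dLog (redA π b)).coeff 0 = 0 := by
  obtain ⟨r, hr1, hr2⟩ := h71d_red A π a b hb hb0
  rw [hr2]
  exact h r hr1

end Fermat.Agent.P7
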