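import Fermat.Agent.P7.H71MultBig
import Fermat.Agent.P7.H23Break

/-!
# Wave 7 (S44), LOCAL-MULT: `v(ζ - 1) ≤ v(z_T)` for a `p`-torsion point of `E₁` (helper71)

GLOBAL frame: `A` a valuation subring of `ℚ̄` over the odd prime `p`, `ζ` a primitive `p`-th root
of unity.  For the short model `y² = x³ + a₂ x² + a₄ x` with `a₂, a₄ ∈ A` and a nonzero
`p`-torsion point `T` in the kernel of reduction: `v(ζ - 1) ≤ v(z_T)`, `z = x / y`
(multiplicative notation: the point is at most as deep as `ζ - 1`).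

This is `h71b_big_E1` (`v(p) ≤ v(z_T) ^ (p - 1)`) combined with `h23w_val_zeta`
(`v(ζ - 1) ^ (p - 1) = v(p)`).
-/

set_option autoImplicit false
set_option linter.style.haveILetI false
set_option linter.unusedSectionVars false

open Fermat.Agent.PT.Loc Fermat.Agent.S56F Fermat.Agent.PT.Bridge

noncomputable section

namespace Fermat.Agent.P7

open WeierstrassCurve WeierstrassCurve.Affine

variable {p : ℕ} [Fact p.Prime]

/-- **`v(ζ - 1) ≤ v(z_T)`**, coordinate form. -/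
theorem h71z_zeta_le (A : ValuationSubring Qb) (hA : A.LiesOverPrime p) (hp2 : p ≠ 2)
    {ζ : Qb} (hζ : IsPrimitiveRoot ζ p) (W : WeierstrassCurve Qb)
    (h1 : W.a₁ = 0) (h3 : W.a₃ = 0) (h6 : W.a₆ = 0) (h2 : W.a₂ ∈ A) (h4 : W.a₄ ∈ A)
    (hΔ : W.Δ ≠ 0) {x y : Qb} (h : W.toAffine.Nonsingular x y) (hx : x ∉ A)
    (hT : p • Affine.Point.some x y h = 0) :
    A.valuation (ζ - 1) ≤ A.valuation (x / y) := by
  classical
  have hp : p.Prime := Fact.out
  have hb := h71b_big_z A W h1 h3 h6 h2 h4 hΔ hp hp2 hA h hx hT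
  rw [← h23w_val_zeta A hA hζ] at hb
  have hp1 : p - 1 ≠ 0 := by have := hp.two_le; omega
  exact (pow_le_pow_iff_left₀ zero_le zero_le hp1).mp hb

/-- **`v(ζ - 1) ≤ v(z_T)`**, point form (`S05.H97.InE1`, `S05.H97.zOf`). -/
theorem h71z_zeta_le_E1 (A : ValuationSubring Qb) (hA : A.LiesOverPrime p) (hp2 : p ≠ 2)
    {ζ : Qb} (hζ : IsPrimitiveRoot ζ p) (W : WeierstrassCurve Qb)
    (h1 : W.a₁ = 0) (h3 : W.a₃ = 0) (h6 : W.a₆ = 0) (h2 : W.a₂ ∈ A) (h4 : W.a₄ ∈ A)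
    (hΔ : W.Δ ≠ 0) {P : W.toAffine.Point} (hP0 : P ≠ 0) (hP : p • P = 0)
    (hE1 : Fermat.Agent.S05.H97.InE1 A W P) :
    A.valuation (ζ - 1) ≤ A.valuation (Fermat.Agent.S05.H97.zOf W P) := by
  rcases hE1 with h0 | ⟨x, y, h, rfl, hx⟩
  · exact absurd h0 hP0
  · rw [Fermat.Agent.S05.H97.zOf_some]
    exact h71z_zeta_le A hA hp2 hζ W h1 h3 h6 h2 h4 hΔ h hx hP

end Fermat.Agent.P7
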