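import Fermat.Agent.P7.H72Orth
import Fermat.Agent.P7.H39CuspOrthBar

/-!
# Wave 7 (S44), block (A) by DLOG: CUSP-ORTH-RED from INT-Q (helper72, prefix `h72w_`)

`h72w_cusp_of_intQ : H72wIntQ p → H72wCusp p` : the reductions of the integral cusp forms of
weight 2 and level `M` lie in `Ω(M) = h26gOmega (h37nLL M A Q)`.

Proof.  `f` Gauss-integral of level `M`, regular off `Q`: its `q`-expansion is `embA a`
(INT-Q); `h` a cusp form with integral coefficients `c`.  Put `P = a · ∑ c_n q^n ∈ A((q))`.
Its image in `ℂ((q))` is `f · h`, whose constant term vanishes (CUSP-ORTH over `ℚ̄`,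
helper7 / helper39 `h39b_cuspOrth_bar'`), so the constant term of `P` vanishes, hence the
constant term of its reduction `softR f · ∑ c̄_n q^n` vanishes.

With `h72w_s44_of_three` and `h72w_orth_of_lift` the frozen statement S44 follows from THREE
inputs: `H72wConst`, `H72wIntQ`, `H72wLift` (`h72w_s44_of_CIL`).

Every declaration is a proved theorem; nothing is assumed.
-/

set_option autoImplicit false
set_option linter.unusedSectionVars false
set_option linter.unusedVariables false
set_option linter.style.haveILetI false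
set_option synthInstance.maxHeartbeats 400000

open ModularCurve AlgebraicCurve IsLocalRing ModularFormClass CongruenceSubgroup UpperHalfPlane
open scoped MatrixGroups Manifold

noncomputable section

namespace Fermat.Agent.P7

open Fermat.Agent.S37 Fermat.Agent.S35 Fermat.Agent.P6
open Fermat.Agent.Red Fermat.Agent.Red.GV Fermat.Agent.Red.GV.Soft
open Fermat.Agent.S24 (embC)

/-- the series of a sequence of integers over a commutative ring. -/
theorem h72w_coeffMap_intSer {R S : Type*} [CommRing R] [CommRing S] (φ : R →+* S)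
    (c : ℕ → ℤ) :
    coeffMap φ (HahnSeries.ofPowerSeries ℤ R (PowerSeries.mk fun n => ((c n : ℤ) : R))) =
      HahnSeries.ofPowerSeries ℤ S (PowerSeries.mk fun n => ((c n : ℤ) : S)) := by
  rw [coeffMap_ofPowerSeries]
  congr 1
  ext n
  rw [PowerSeries.coeff_map, PowerSeries.coeff_mk, PowerSeries.coeff_mk, map_intCast]

/-- **CUSP-ORTH-RED** from INT-Q. -/
theorem h72w_cusp_of_intQ {p : ℕ} (hI : H72wIntQ p) : H72wCusp p := by
  intro hp h5 M _ hpM A hA Q hQ w hw
  obtain ⟨h, c, hc, rfl⟩ := hw
  rw [h59a_mem_omega_iff_soft M A Q hp hpM hA]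
  refine ⟨fun m hm => ?_, fun f hf hreg => ?_⟩
  · rcases lt_or_eq_of_le hm with hm | rfl
    · exact h72w_ser_coeff_neg _ hm
    · have h0 : ((c 0 : ℤ) : ℂ) = 0 := by
        rw [← hc 0]
        exact Fermat.Agent.S49.qCoeff_zero_index h
      have h1 : c 0 = 0 := by exact_mod_cast h0
      have h2 := h72w_ser_coeff_nat (fun n => ((c n : ℤ) : ResidueField A)) 0
      rw [Nat.cast_zero] at h2
      rw [h2, h1, Int.cast_zero]
  · obtain ⟨a, ha⟩ := hI hp h5 M hpM A hA Q hQ f hf hreg
    -- the product over `A`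
    set sA : LaurentSeries A :=
      HahnSeries.ofPowerSeries ℤ A (PowerSeries.mk fun n => ((c n : ℤ) : A)) with hsA
    -- its image in `ℂ((q))`
    have hq : qExpansion 1 (⇑h) = PowerSeries.mk fun n => ((c n : ℤ) : ℂ) := by
      ext n
      rw [PowerSeries.coeff_mk, ← hc n]
      rfl
    have h1 := h39b_cuspOrth_bar' M h f Q (fun z hz => (hQ z hz).symm) hreg
    rw [hq, ← h72w_coeffMap_intSer (embC.comp A.subtype) c, ← coeffMap_coeffMap, ← ha] at h1
    have e1 : coeffMap embC (embA A a) *
        coeffMap embC (coeffMap A.subtype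
          (HahnSeries.ofPowerSeries ℤ A (PowerSeries.mk fun n => ((c n : ℤ) : A)))) =
        coeffMap embC (embA A (a * sA)) := by
      rw [map_mul, map_mul]
      rfl
    rw [e1, coeffMap_coeff] at h1
    have h2 : (embA A (a * sA)).coeff 0 = 0 := by
      have := embC.injective
      exact this (by rw [h1, map_zero])
    have h3 : (a * sA).coeff 0 = 0 := by
      have h4 : ((a * sA).coeff 0 : Kbar) = 0 := h2
      exact_mod_cast h4
    -- reduce
    have e2 : softR A M ⟨f, hf⟩ = redA (IsLocalRing.residue A) a :=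
      softR_of_embA A M ⟨f, hf⟩ a ha
    have e3 : h72wSer (fun n => ((c n : ℤ) : ResidueField A)) =
        redA (IsLocalRing.residue A) sA := by
      rw [hsA]
      exact (h72w_coeffMap_intSer (IsLocalRing.residue A) c).symm
    rw [e2, e3, ← map_mul]
    show (coeffMap (IsLocalRing.residue A) (a * sA)).coeff 0 = 0
    rw [coeffMap_coeff, h3, map_zero]

/-- **the frozen statement S44** from the three inputs CONST(M), INT-Q, LIFT + SUM
for all `p ≥ 5`. -/
theorem h72w_s44_of_CIL (hC : ∀ p : ℕ, 5 ≤ p → H72wConst p)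
    (hI : ∀ p : ℕ, 5 ≤ p → H72wIntQ p) (hL : ∀ p : ℕ, 5 ≤ p → H72wLift p)
    (P : FreyPackage) {N : ℕ} (hcond : P.IsConductorLevel N) (hpN : P.p ∣ N)
    (hirr : WeierstrassCurve.Affine.Point.GaloisRepIsIrreducible (K := AlgebraicClosure ℚ) ℚ
      P.freyCurve P.p)
    (hmod : P.ModularRepOfLevel N) :
    ∃ M : ℕ, M ∣ N ∧ ¬ P.p ∣ M ∧ P.ModularRepOfLevel M :=
  h72w_s44_of_three hC (fun p h5 => h72w_cusp_of_intQ (hI p h5))
    (fun p h5 => h72w_orth_of_lift (hI p h5) (hL p h5)) P hcond hpN hirr hmod

end Fermat.Agent.P7
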