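import Fermat.Agent.P7.H72DlogIn
import Fermat.Agent.P7.H19OrthNorm
import Fermat.Agent.P7.H38ResFFAll
import Fermat.Agent.P7.H46DlogRed
import Fermat.Agent.P7.H59RegOff

/-!
# Wave 7 (S44), block (A) by DLOG: ORTH(M) from LIFT + INT-Q (helper72, prefix `h72w_`)

`p ≥ 5` prime, `M` ANY level prime to `p`, `A` over `p`, `k = ResidueField A`, `Q` the `q`-order
place of `FF M`.

Two frozen inputs:

* `H72wIntQ p` — **INT-Q**: a Gauss-integral function of level `M`, regular off `Q`, has its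
  `q`-expansion in `A((q))`;
* `H72wLift p` — **LIFT + SUM** (steps (3)+(4) of finding 1473): for a Gauss unit `y` of level
  `M` whose reduction `s = softR y` has `q`-order `0` and is the expansion of a function `f₀` of
  the special fibre of the good level with `p ∣ ord_{Q'} f₀` for all `Q'`, there is `g ∈ FF M`,
  `g ≠ 0`, with `q`-expansion `embA b`, `b` a power series over `A` with unit constant term,
  `redA b = c · s ^ d` (`c ≠ 0`, `d` prime to `p`), such that for every Gauss-integral `f`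
  regular off `Q`: `∑_{v ≠ Q} ord_v(g) f(v) ∈ 𝔪_A`.

Result: `h72w_orth_of_lift : H72wIntQ p → H72wLift p → H72wOrth p` (the third input of
`h72w_s44_of_three`), by the normalisation `h19o_norm` (helper19), DL2 at level `M`
`h38g_resid_FF_all` (helper38), RED `h46d_dlog_red_zero` (helper46) and the adapter
`h59a_mem_omega_iff_soft` (helper59).

Every declaration is a `Prop`-valued definition or a proved theorem; nothing is assumed.
-/

set_option autoImplicit false
set_option linter.unusedSectionVars false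
set_option linter.unusedVariables false
set_option linter.style.haveILetI false
set_option synthInstance.maxHeartbeats 400000

open ModularCurve AlgebraicCurve IsLocalRing

noncomputable section

namespace Fermat.Agent.P7

open Fermat.Agent.S37 Fermat.Agent.S35 Fermat.Agent.P6
open Fermat.Agent.Red Fermat.Agent.Red.GV Fermat.Agent.Red.GV.Soft
open Fermat.Agent.Jac.K1 (IsKummerPair)
open Fermat.Agent.P5 (h13sK h13sFt h13sIncl)

/-- **INT-Q**: a Gauss-integral function of level `M` which is regular off the `q`-order place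
has its `q`-expansion in `A((q))`. -/
def H72wIntQ (p : ℕ) : Prop :=
  ∀ (hp : p.Prime), 5 ≤ p → ∀ (M : ℕ) [NeZero M], ¬ p ∣ M →
    ∀ A : ValuationSubring Kbar, A.LiesOverPrime p →
    ∀ Q : Place Kbar (FF M),
      (∀ f : FF M, f ≠ 0 → ((f : FF M) : LaurentSeries Kbar).order = Q.ord f) →
    ∀ f : FF M, f ∈ softV A M → (∀ v : Place Kbar (FF M), v ≠ Q → 0 ≤ v.ord f) →
      ∃ a : LaurentSeries A, embA A a = ((f : FF M) : LaurentSeries Kbar)

/-- **LIFT + SUM** (steps (3)+(4) of the plan of ORTH(M)). -/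
def H72wLift (p : ℕ) : Prop :=
  ∀ (hp : p.Prime), 5 ≤ p → ∀ (M : ℕ) [NeZero M], ¬ p ∣ M →
    ∀ A : ValuationSubring Kbar, A.LiesOverPrime p →
    ∀ Q : Place Kbar (FF M),
      (∀ f : FF M, f ≠ 0 → ((f : FF M) : LaurentSeries Kbar).order = Q.ord f) →
    ∀ (y : FF M) (hy : y ∈ softV A M), y ≠ 0 → y⁻¹ ∈ softV A M →
      (softR A M ⟨y, hy⟩).order = 0 →
      (∃ f₀ : h13sFt A (goodLevel p M),
        h13sIncl A (goodLevel p M) f₀ = softR A M ⟨y, hy⟩ ∧
        ∀ Q' : Place (h13sK A) (h13sFt A (goodLevel p M)), (p : ℤ) ∣ Q'.ord f₀) →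
      ∃ (g : FF M) (b : LaurentSeries A) (d : ℕ) (c : ResidueField A),
        g ≠ 0 ∧ embA A b = ((g : FF M) : LaurentSeries Kbar) ∧
        (∀ n : ℤ, n < 0 → b.coeff n = 0) ∧ IsUnit (b.coeff 0) ∧
        c ≠ 0 ∧ ¬ p ∣ d ∧
        redA (IsLocalRing.residue A) b = HahnSeries.C c * (softR A M ⟨y, hy⟩) ^ d ∧
        ∀ f : FF M, f ∈ softV A M → (∀ v : Place Kbar (FF M), v ≠ Q → 0 ≤ v.ord f) →
          ∀ fv : Place Kbar (FF M) → Kbar,
            (∀ v : Place Kbar (FF M), v ≠ Q → ValueAt v f (fv v)) →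
          ∀ S : Finset (Place Kbar (FF M)), Q ∉ S →
            (∀ v : Place Kbar (FF M), v ≠ Q → v.ord g ≠ 0 → v ∈ S) →
            ∑ v ∈ S, (v.ord g : Kbar) * fv v ∈ A.nonunits

/-- `dlog (c · t ^ d) = d · dlog t`. -/
theorem h72w_log_C_mul_pow {K : Type*} [Field K] {t : LaurentSeries K} (ht : t ≠ 0) {c : K}
    (hc : c ≠ 0) (d : ℕ) :
    h96dLog (HahnSeries.C c * t ^ d) = d • h96dLog t := by
  have hC : (HahnSeries.C c : LaurentSeries K) ≠ 0 := by
    intro h
    apply hc
    have h2 : (HahnSeries.C c : LaurentSeries K) = HahnSeries.C 0 := by rw [h, map_zero]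
    exact HahnSeries.C_injective h2
  rw [h96d_log_mul hC (pow_ne_zero d ht), h96d_log_C, zero_add, h96d_log_pow ht]

/-- **ORTH(M)** from INT-Q and LIFT + SUM. -/
theorem h72w_orth_of_lift {p : ℕ} (hI : H72wIntQ p) (hL : H72wLift p) : H72wOrth p := by
  intro hp h5 M _ hpM
  haveI : NeZero p := ⟨hp.ne_zero⟩
  intro A hA Q hQ x u hu hpure
  haveI : CharP (ResidueField A) p := h3g_charP A hp hA
  obtain ⟨s, hs⟩ := h3g_exists_red (A := A) (N := M * p) hp hA hu.ne_zero
  refine ⟨s, hs, ?_⟩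
  have hs0 : s ≠ 0 := h3g_red_ne_zero hs
  -- normalisation
  obtain ⟨y, hy, hy0, hyi, hord0, hlog, -, f₀, hf₀, hdiv⟩ := h19o_norm A hp hA M hpM hs hpure
  obtain ⟨g, b, d, c, hg0, hb, hneg, hunit, hc, hd, hred, hsum⟩ :=
    hL hp h5 M hpM A hA Q hQ y hy hy0 hyi hord0 ⟨f₀, hf₀, hdiv⟩
  have ht0 : softR A M ⟨y, hy⟩ ≠ 0 := by
    rw [softR_ne_zero_iff]
    exact ⟨hy0, hyi⟩
  rw [h59a_mem_omega_iff_soft M A Q hp hpM hA]
  refine ⟨fun m hm => ?_, fun f hf hreg => ?_⟩
  · rcases lt_or_eq_of_le hm with hm | rfl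
    · exact h3g_log_coeff_neg hs0 hm
    · exact h19o_coeff_zero A hp hA M hpM hs hpure
  · obtain ⟨a, ha⟩ := hI hp h5 M hpM A hA Q hQ f hf hreg
    classical
    -- the values of `f`
    have hval : ∀ v : Place Kbar (FF M), ∃ cv : Kbar, v ≠ Q → ValueAt v f cv := by
      intro v
      by_cases hv : v = Q
      · exact ⟨0, fun h => absurd hv h⟩
      · obtain ⟨cv, hcv⟩ := Fermat.Agent.Red.Match.exists_valueAt v
          (Fermat.Agent.S24.DiffPlace.mem_of_ord_nonneg v (hreg v hv))
        exact ⟨cv, fun _ => hcv⟩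
    choose fv hfv using hval
    -- the zeros and poles of `g`
    haveI := Fermat.Agent.Red.HKMod.hasPrincipalDivisors_FF M
    obtain ⟨D, hD, -⟩ := HasPrincipalDivisors.exists_divisor (K := Kbar) (F := FF M) g hg0
    set S : Finset (Place Kbar (FF M)) := D.support.erase Q with hS
    have hS1 : Q ∉ S := Finset.notMem_erase Q _
    have hS2 : ∀ v : Place Kbar (FF M), v ≠ Q → v.ord g ≠ 0 → v ∈ S := by
      intro v hv hne
      rw [hS, Finset.mem_erase]
      refine ⟨hv, ?_⟩
      rw [Finsupp.mem_support_iff, hD v]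
      exact hne
    -- DL2 at level `M`
    have h1 := h38g_resid_FF_all M Q (fun z hz => (hQ z hz).symm) f hreg fv hfv g hg0 S hS1 hS2
    have h2 : (embA A a * h96dLog (embA A b)).coeff 0 ∈ A.nonunits := by
      rw [ha, hb, h1]
      have h3 := hsum f hf hreg fv hfv S hS1 hS2
      rw [A.mem_nonunits_iff] at h3 ⊢
      rwa [Valuation.map_neg]
    -- RED
    have h3 := h46d_dlog_red_zero A (IsLocalRing.residue A) a b hneg hunit
      (fun z hz => residue_eq_zero_of_nonunit A z hz) h2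
    have e1 : softR A M ⟨f, hf⟩ = redA (IsLocalRing.residue A) a :=
      softR_of_embA A M ⟨f, hf⟩ a ha
    rw [hred, h72w_log_C_mul_pow ht0 hc, hlog, ← e1] at h3
    -- divide by `d`
    have h4 : (softR A M ⟨f, hf⟩ * (d • h96dLog s)).coeff 0 =
        (d : ResidueField A) * (softR A M ⟨f, hf⟩ * h96dLog s).coeff 0 := by
      have e : (d • h96dLog s : LaurentSeries (ResidueField A)) =
          HahnSeries.C (d : ResidueField A) * h96dLog s := by
        rw [nsmul_eq_mul, map_natCast]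
      rw [e, mul_left_comm, HahnSeries.C_mul_eq_smul, HahnSeries.coeff_smul, smul_eq_mul]
    rw [h4] at h3
    have hd0 : (d : ResidueField A) ≠ 0 := by
      intro h
      exact hd ((CharP.cast_eq_zero_iff (ResidueField A) p d).mp h)
    exact (mul_eq_zero.mp h3).resolve_left hd0

end Fermat.Agent.P7
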