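import Mathlib

/-!
# Wave 7, block (A): `p`-divisibility of `J₀(M)(ℚ̄)` through an AUXILIARY prime (helper73)

The KILL lemma of block (A) (`P7/H93Kill.lean`) needs `hdiv : ∀ y : J, ∃ y', p • y' = y` for
`J = JZero M`.  Abstract reduction (Mathlib only):

* `J1` a subgroup of `J` (`redKerPic M A'`, the kernel of reduction at an AUXILIARY prime
  `ℓ ≠ p`, `A'` over `ℓ`; there `p` is a unit and the Newton step has a unit linear term);
* `htors` : `J ⧸ J1` is a torsion group (FIN-RED at `ℓ`: the reduction of a class has finite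
  order);
* `hdiv1` : `J1` is `p`-divisible;
* `hdivT` : every `p`-power torsion point of `J` is divisible by `p` in `J`.

Then `J` is `p`-divisible (`h73v_divisible`), hence `p ^ e`-divisible (`h73v_divisible_pow`).
-/

set_option autoImplicit false
set_option linter.style.haveILetI false
set_option linter.unusedVariables false

namespace Fermat.Agent.P7

variable {J : Type*} [AddCommGroup J]

/-- `p`-divisibility of a subgroup inside itself gives `p ^ a`-divisibility inside itself. -/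
theorem h73v_sub_pow (J1 : AddSubgroup J) (p : ℕ)
    (hdiv1 : ∀ r ∈ J1, ∃ z ∈ J1, p • z = r) (a : ℕ) :
    ∀ r ∈ J1, ∃ z ∈ J1, p ^ a • z = r := by
  induction a with
  | zero => exact fun r hr => ⟨r, hr, by rw [pow_zero, one_smul]⟩
  | succ a ih =>
    intro r hr
    obtain ⟨z₁, hz₁, h1⟩ := hdiv1 r hr
    obtain ⟨z₂, hz₂, h2⟩ := ih z₁ hz₁
    refine ⟨z₂, hz₂, ?_⟩
    rw [pow_succ, mul_comm, mul_smul, h2, h1]

/-- **divisibility through an auxiliary kernel of reduction.** -/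
theorem h73v_divisible (J1 : AddSubgroup J) {p : ℕ} (hp : p.Prime)
    (htors : ∀ y : J, ∃ n : ℕ, 0 < n ∧ n • y ∈ J1)
    (hdiv1 : ∀ r ∈ J1, ∃ z ∈ J1, p • z = r)
    (hdivT : ∀ (k : ℕ) (τ : J), p ^ k • τ = 0 → ∃ τ' : J, p • τ' = τ) :
    ∀ y : J, ∃ y' : J, p • y' = y := by
  intro y
  obtain ⟨n, hn, hny⟩ := htors y
  obtain ⟨a, m, hm, hnm⟩ := Nat.exists_eq_pow_mul_and_not_dvd hn.ne' p hp.ne_one
  -- `y₁ = m • y` has `p ^ a • y₁ ∈ J1`
  have h1 : p ^ a • (m • y) ∈ J1 := by
    rw [← mul_smul, ← hnm]; exact hny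
  obtain ⟨z, hz, hz1⟩ := h73v_sub_pow J1 p hdiv1 a _ h1
  have hτ : p ^ a • (m • y - z) = 0 := by
    rw [smul_sub, hz1, sub_self]
  obtain ⟨τ', hτ'⟩ := hdivT a _ hτ
  obtain ⟨z', -, hz'⟩ := hdiv1 z hz
  have hy1 : m • y = p • (τ' + z') := by
    rw [smul_add, hτ', hz', sub_add_cancel]
  -- Bezout
  have hcop : Nat.Coprime p m := (Nat.Prime.coprime_iff_not_dvd hp).2 hm
  have hb : (Nat.gcd p m : ℤ) = (p : ℤ) * Nat.gcdA p m + (m : ℤ) * Nat.gcdB p m :=
    Nat.gcd_eq_gcd_ab p m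
  rw [hcop.gcd_eq_one] at hb
  refine ⟨Nat.gcdA p m • y + Nat.gcdB p m • (τ' + z'), ?_⟩
  have hy1' : (m : ℤ) • y = (p : ℤ) • (τ' + z') := by
    rw [natCast_zsmul, natCast_zsmul, hy1]
  calc p • (Nat.gcdA p m • y + Nat.gcdB p m • (τ' + z'))
      = ((p : ℤ) * Nat.gcdA p m) • y + Nat.gcdB p m • ((p : ℤ) • (τ' + z')) := by
        rw [← natCast_zsmul, smul_add, ← mul_smul, smul_comm (p : ℤ) (Nat.gcdB p m)]
    _ = ((p : ℤ) * Nat.gcdA p m) • y + Nat.gcdB p m • ((m : ℤ) • y) := by rw [hy1']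
    _ = ((p : ℤ) * Nat.gcdA p m + (m : ℤ) * Nat.gcdB p m) • y := by
        rw [add_smul, ← mul_smul, mul_comm (Nat.gcdB p m) (m : ℤ)]
    _ = y := by rw [← hb]; simp

/-- `p ^ e`-divisibility. -/
theorem h73v_divisible_pow (J1 : AddSubgroup J) {p : ℕ} (hp : p.Prime)
    (htors : ∀ y : J, ∃ n : ℕ, 0 < n ∧ n • y ∈ J1)
    (hdiv1 : ∀ r ∈ J1, ∃ z ∈ J1, p • z = r)
    (hdivT : ∀ (k : ℕ) (τ : J), p ^ k • τ = 0 → ∃ τ' : J, p • τ' = τ) (e : ℕ) :
    ∀ y : J, ∃ y' : J, p ^ e • y' = y := by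
  have h := h73v_divisible J1 hp htors hdiv1 hdivT
  induction e with
  | zero => exact fun y => ⟨y, by rw [pow_zero, one_smul]⟩
  | succ e ih =>
    intro y
    obtain ⟨y₁, hy₁⟩ := h y
    obtain ⟨y₂, hy₂⟩ := ih y₁
    refine ⟨y₂, ?_⟩
    rw [pow_succ, mul_comm, mul_smul, hy₂, hy₁]

/-- `hdivT` from a count: if for every `k` the `p ^ k`-torsion is finite of order
`c ^ k` (`c = p ^ (2 g)`), then every `p`-power torsion point is divisible by `p`. -/
theorem h73v_divT_of_card {p : ℕ} (hp : p.Prime) (c : ℕ)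
    (hfin : ∀ k : ℕ, Finite {τ : J // p ^ k • τ = 0})
    (hcard : ∀ k : ℕ, Nat.card {τ : J // p ^ k • τ = 0} = c ^ k) :
    ∀ (k : ℕ) (τ : J), p ^ k • τ = 0 → ∃ τ' : J, p • τ' = τ := by
  classical
  have hc1 : Nat.card {τ : J // p ^ 1 • τ = 0} = c := (hcard 1).trans (pow_one c)
  have hc0 : 0 < c := by
    have h0 : (0 : ℕ) < Nat.card {τ : J // p ^ 1 • τ = 0} :=
      Nat.card_pos_iff.2 ⟨⟨⟨0, smul_zero _⟩⟩, hfin 1⟩
    omega
  intro k τ hτ
  -- the map `p • · : J[p^(k+1)] → J[p^k]`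
  let f : {τ : J // p ^ (k + 1) • τ = 0} → {τ : J // p ^ k • τ = 0} :=
    fun x => ⟨p • x.1, by
      rw [← mul_smul, ← pow_succ]
      exact x.2⟩
  have hfk := hfin k
  have hfk1 := hfin (k + 1)
  have hf1 := hfin 1
  -- fibres of `f` have at most `c` elements
  by_contra hne
  push Not at hne
  have hnot : ∀ x, f x ≠ ⟨τ, hτ⟩ := fun x hx => hne x.1 (congrArg Subtype.val hx)
  -- count: `c ^ (k+1) = |J[p^(k+1)]| ≤ c * |image f| ≤ c * (c ^ k - 1)`
  letI := Fintype.ofFinite {τ : J // p ^ (k + 1) • τ = 0}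
  letI := Fintype.ofFinite {τ : J // p ^ k • τ = 0}
  letI := Fintype.ofFinite {τ : J // p ^ 1 • τ = 0}
  have hfib : ∀ b : {τ : J // p ^ k • τ = 0},
      (Finset.univ.filter (fun x => f x = b)).card ≤ c := by
    intro b
    rcases (Finset.univ.filter (fun x => f x = b)).eq_empty_or_nonempty with h | ⟨x₀, hx₀⟩
    · rw [h]; simp
    · rw [Finset.mem_filter] at hx₀
      have hx₀' := hx₀.2
      -- inject the fibre into `J[p]` by `x ↦ x - x₀`
      let g : {x // x ∈ Finset.univ.filter (fun x => f x = b)} → {τ : J // p ^ 1 • τ = 0} :=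
        fun x => ⟨x.1.1 - x₀.1, by
          have hx := (Finset.mem_filter.1 x.2).2
          have h1 : p • x.1.1 = p • x₀.1 := by
            have := congrArg Subtype.val (hx.trans hx₀'.symm)
            exact this
          rw [pow_one, smul_sub, h1, sub_self]⟩
      have hg : Function.Injective g := by
        intro x y hxy
        have := congrArg Subtype.val hxy
        simp only [g, sub_left_inj] at this
        exact Subtype.ext (Subtype.ext this)
      have h2 := Fintype.card_le_of_injective g hg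
      rw [Fintype.card_coe] at h2
      have h3 : Fintype.card {τ : J // p ^ 1 • τ = 0} = c := by
        rw [← Nat.card_eq_fintype_card]; exact hc1
      omega
  have hsum : Fintype.card {τ : J // p ^ (k + 1) • τ = 0}
      = ∑ b : {τ : J // p ^ k • τ = 0}, (Finset.univ.filter (fun x => f x = b)).card := by
    rw [← Finset.card_univ]
    exact Finset.card_eq_sum_card_fiberwise (fun x _ => Finset.mem_univ (f x))
  have hτfib : (Finset.univ.filter (fun x => f x = ⟨τ, hτ⟩)).card = 0 := by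
    rw [Finset.card_eq_zero, Finset.filter_eq_empty_iff]
    exact fun x _ => hnot x
  have hle : ∑ b : {τ : J // p ^ k • τ = 0}, (Finset.univ.filter (fun x => f x = b)).card
      ≤ c * (Fintype.card {τ : J // p ^ k • τ = 0} - 1) := by
    rw [← Finset.add_sum_erase Finset.univ _ (Finset.mem_univ (⟨τ, hτ⟩ : {τ : J // p ^ k • τ = 0})),
      hτfib, zero_add]
    calc ∑ b ∈ Finset.univ.erase (⟨τ, hτ⟩ : {τ : J // p ^ k • τ = 0}),
          (Finset.univ.filter (fun x => f x = b)).card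
        ≤ ∑ _b ∈ Finset.univ.erase (⟨τ, hτ⟩ : {τ : J // p ^ k • τ = 0}), c :=
          Finset.sum_le_sum (fun b _ => hfib b)
      _ = c * (Fintype.card {τ : J // p ^ k • τ = 0} - 1) := by
          rw [Finset.sum_const, Finset.card_erase_of_mem (Finset.mem_univ _), Finset.card_univ,
            smul_eq_mul, mul_comm]
  have hk : Fintype.card {τ : J // p ^ k • τ = 0} = c ^ k := by
    rw [← Nat.card_eq_fintype_card, hcard k]
  have hk1 : Fintype.card {τ : J // p ^ (k + 1) • τ = 0} = c ^ (k + 1) := by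
    rw [← Nat.card_eq_fintype_card, hcard (k + 1)]
  rw [hsum] at hk1
  rw [hk] at hle
  rw [hk1] at hle
  have hpos : 0 < c ^ k := pow_pos hc0 k
  have : c * (c ^ k - 1) < c ^ (k + 1) := by
    rw [pow_succ, mul_comm (c ^ k) c]
    exact Nat.mul_lt_mul_of_pos_left (by omega) hc0
  omega

end Fermat.Agent.P7
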