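import Fermat.Agent.Red.GV.Defs
import Fermat.Agent.P7.H96Dlog

/-!
# Wave 7 (S44), DLOG at a non-good level, leaf (6) RED of ORTH(M) (helper73, prefix `h73e_`)

Twin of row `H2-RED` (plan = finding 1473, step (6)); abstract, `Red/GV` + `P7/H96Dlog` only.

`A` a valuation subring of `K`, `π : A →+* k` a ring homomorphism to a field.  For
`a, b ∈ A((q))` with `b` a unit of `A((q))` (e.g. a power series with unit constant term) the
series `a · dlog b` has coefficients in `A`, and its reduction is `ā · dlog b̄`:

* `h73eTheta` : `θ = q d/dq` on `R((q))`, `R` any commutative ring; `h73e_coeffMap_theta`.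
* `h73e_log_coeffMap` : `dlog (f b) = f (θ b · b')` for `b b' = 1`, `f` a coefficient map to a field.
* `h73e_red_series` : there is `w ∈ A((q))` with `embA w = embA a · dlog (embA b)` and
  `redA w = redA a · dlog (redA b)`.
* `h73e_red` : **RED.**  `(embA a · dlog (embA b)).coeff 0 = c ∈ A` and
  `π c = (redA a · dlog (redA b)).coeff 0`.
* `h73e_red_powerSeries`, `h73e_red_of_coeff` : the same for `b` a power series with unit constant
  term (given as a power series, resp. by its coefficients).
* `h73e_red_zero` : if moreover the char-0 coefficient `c` is a non-unit of `A` and `π` kills the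
  non-units, then `(redA a · dlog (redA b)).coeff 0 = 0`.
-/

set_option autoImplicit false
set_option linter.unusedSectionVars false
set_option linter.style.haveILetI false

open HahnSeries ModularCurve

noncomputable section

namespace Fermat.Agent.P7

open Fermat.Agent.Red.GV

section Ring

variable {R : Type*} [CommRing R]

/-- `θ x = q dx/dq` on Laurent series over a commutative ring. -/
def h73eTheta (s : LaurentSeries R) : LaurentSeries R where
  coeff n := (n : R) * s.coeff n
  isPWO_support' := s.isPWO_support.mono (fun n hn => by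
    simp only [Function.mem_support, ne_eq] at hn ⊢
    exact fun h0 => hn (by rw [h0, mul_zero]))

@[simp] theorem h73e_coeff_theta (s : LaurentSeries R) (n : ℤ) :
    (h73eTheta s).coeff n = (n : R) * s.coeff n := rfl

/-- `θ` commutes with coefficient maps to a field. -/
theorem h73e_coeffMap_theta {K : Type*} [Field K] (f : R →+* K) (s : LaurentSeries R) :
    coeffMap f (h73eTheta s) = h96dTheta (coeffMap f s) := by
  ext n
  rw [coeffMap_coeff, h73e_coeff_theta, h96d_coeff_theta, coeffMap_coeff, map_mul, map_intCast]

/-- over a field the two `θ` agree. -/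
theorem h73e_theta_eq {K : Type*} [Field K] (s : LaurentSeries K) :
    h73eTheta s = h96dTheta s := by
  ext n
  rfl

/-- **dlog of the image of a unit**: if `b b' = 1` in `R((q))` then
`dlog (f b) = f (θ b · b')`. -/
theorem h73e_log_coeffMap {K : Type*} [Field K] (f : R →+* K) {b b' : LaurentSeries R}
    (h : b * b' = 1) :
    h96dLog (coeffMap f b) = coeffMap f (h73eTheta b * b') := by
  have h1 : coeffMap f b * coeffMap f b' = 1 := by
    rw [← map_mul, h, map_one]
  have h2 : (coeffMap f b)⁻¹ = coeffMap f b' := inv_eq_of_mul_eq_one_right h1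
  unfold h96dLog
  rw [h2, map_mul, h73e_coeffMap_theta]

/-- a power series with unit constant term is a unit of `R((q))`. -/
theorem h73e_isUnit_ofPowerSeries (β : PowerSeries R)
    (hβ : IsUnit (PowerSeries.constantCoeff (R := R) β)) :
    IsUnit (HahnSeries.ofPowerSeries ℤ R β) :=
  (PowerSeries.isUnit_iff_constantCoeff.mpr hβ).map (HahnSeries.ofPowerSeries ℤ R)

/-- a Laurent series without negative terms is a power series. -/
theorem h73e_eq_ofPowerSeries (b : LaurentSeries R) (hneg : ∀ n : ℤ, n < 0 → b.coeff n = 0) :
    b = HahnSeries.ofPowerSeries ℤ R (PowerSeries.mk fun n : ℕ => b.coeff (n : ℤ)) := by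
  ext n
  have h := PowerSeries.coeff_coe (R := R) (PowerSeries.mk fun n : ℕ => b.coeff (n : ℤ)) n
  rw [h]
  split_ifs with hn
  · exact hneg n hn
  · rw [PowerSeries.coeff_mk]
    congr 1
    omega

/-- a Laurent series without negative terms and with unit constant term is a unit. -/
theorem h73e_isUnit_of_coeff (b : LaurentSeries R) (hneg : ∀ n : ℤ, n < 0 → b.coeff n = 0)
    (h0 : IsUnit (b.coeff 0)) : IsUnit b := by
  rw [h73e_eq_ofPowerSeries b hneg]
  refine h73e_isUnit_ofPowerSeries _ ?_
  rw [← PowerSeries.coeff_zero_eq_constantCoeff_apply, PowerSeries.coeff_mk]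
  exact_mod_cast h0

end Ring

section Red

variable {K : Type} [Field K] (A : ValuationSubring K) {k : Type} [Field k] (π : A →+* k)

/-- **RED, series form.** -/
theorem h73e_red_series (a b : LaurentSeries A) (hb : IsUnit b) :
    ∃ w : LaurentSeries A, embA A w = embA A a * h96dLog (embA A b) ∧
      redA π w = redA π a * h96dLog (redA π b) := by
  obtain ⟨b', hbb'⟩ := hb.exists_right_inv
  refine ⟨a * (h73eTheta b * b'), ?_, ?_⟩
  · show coeffMap A.subtype (a * (h73eTheta b * b')) = _
    rw [map_mul]
    congr 1
    exact (h73e_log_coeffMap A.subtype hbb').symm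
  · show coeffMap π (a * (h73eTheta b * b')) = _
    rw [map_mul]
    congr 1
    exact (h73e_log_coeffMap π hbb').symm

/-- **RED** (leaf (6) of ORTH(M)): the constant coefficient of `a · dlog b` lies in `A` and
reduces to the constant coefficient of `ā · dlog b̄`. -/
theorem h73e_red (a b : LaurentSeries A) (hb : IsUnit b) :
    ∃ c : A, (embA A a * h96dLog (embA A b)).coeff 0 = (c : K) ∧
      π c = (redA π a * h96dLog (redA π b)).coeff 0 := by
  obtain ⟨w, hw1, hw2⟩ := h73e_red_series A π a b hb
  refine ⟨w.coeff 0, ?_, ?_⟩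
  · rw [← hw1]
    rfl
  · rw [← hw2]
    rfl

/-- every coefficient, not only the constant one. -/
theorem h73e_red_coeff (a b : LaurentSeries A) (hb : IsUnit b) (n : ℤ) :
    ∃ c : A, (embA A a * h96dLog (embA A b)).coeff n = (c : K) ∧
      π c = (redA π a * h96dLog (redA π b)).coeff n := by
  obtain ⟨w, hw1, hw2⟩ := h73e_red_series A π a b hb
  refine ⟨w.coeff n, ?_, ?_⟩
  · rw [← hw1]
    rfl
  · rw [← hw2]
    rfl

/-- **RED** for `b` a power series with unit constant term. -/
theorem h73e_red_powerSeries (a : LaurentSeries A) (β : PowerSeries A)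
    (hβ : IsUnit (PowerSeries.constantCoeff (R := A) β)) :
    ∃ c : A, (embA A a * h96dLog (embA A (HahnSeries.ofPowerSeries ℤ A β))).coeff 0 = (c : K) ∧
      π c = (redA π a * h96dLog (redA π (HahnSeries.ofPowerSeries ℤ A β))).coeff 0 :=
  h73e_red A π a _ (h73e_isUnit_ofPowerSeries β hβ)

/-- **RED** for `b` given by its coefficients. -/
theorem h73e_red_of_coeff (a b : LaurentSeries A) (hneg : ∀ n : ℤ, n < 0 → b.coeff n = 0)
    (h0 : IsUnit (b.coeff 0)) :
    ∃ c : A, (embA A a * h96dLog (embA A b)).coeff 0 = (c : K) ∧
      π c = (redA π a * h96dLog (redA π b)).coeff 0 :=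
  h73e_red A π a b (h73e_isUnit_of_coeff b hneg h0)

/-- if the constant coefficient in characteristic `0` is a non-unit of `A` (and `π` kills the
non-units), the constant coefficient of `ā · dlog b̄` vanishes. -/
theorem h73e_red_zero (hπ : ∀ c : A, (c : K) ∈ A.nonunits → π c = 0)
    (a b : LaurentSeries A) (hb : IsUnit b)
    (h : (embA A a * h96dLog (embA A b)).coeff 0 ∈ A.nonunits) :
    (redA π a * h96dLog (redA π b)).coeff 0 = 0 := by
  obtain ⟨c, hc1, hc2⟩ := h73e_red A π a b hb
  rw [← hc2]
  exact hπ c (hc1 ▸ h)

end Red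

end Fermat.Agent.P7
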