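import Fermat.Agent.P7.H17GlueDown
import Fermat.Agent.P7.H3EigAbs
import Fermat.Agent.Jac.FinalAll
import Fermat.Agent.S30.Inputs
import Fermat.Agent.S31.TatePackage

/-!
# Wave 7 (row 38, target S40), block (G1) DOWN (helper73, prefix `h73d_`)

`W` an integral Weierstrass curve with `Δ ≠ 0`, `p` a prime, `N > 0` a level,
`S = h17gS W p N` the excluded primes (`p`, the primes of `N`, the bad primes of `W`).

* `h73d_idem_pow` : on a finite set of points every operator of a commutative family has a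
  power which is idempotent there.
* `h73d_unit` : **abstract key lemma.**  `R` a commutative ring acting on `X`, `Y ≤ X` a finite
  stable subgroup, `I` an ideal of `R`.  If no nonzero `y ∈ Y` is killed by `I`, then some
  `r ∈ I` acts as the identity on `Y`.
* `h73d_down` : **DOWN.**  If `W` is residually modular of level `N` at `p`, then the
  eigensystem `a_ℓ(W)` occurs in `J₀(N)[p]`: there is `x₀ ≠ 0` with `p x₀ = 0` and
  `T_ℓ x₀ = a_ℓ(W) x₀` for every prime `ℓ ∉ S`.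
  (Otherwise a Hecke polynomial `P ∈ 1 + 𝔫`, `𝔫 = (p, T_ℓ - a_ℓ(W))`, in the variables outside `S`
  kills `J₀(N)[p]`; the landed key lemma `Jac.heckeKeyModPFinal` gives `P(a_ℓ(f)) ∈ p ℤ̄`, while
  `P(a_ℓ(f)) ≡ 1` modulo `𝔪`.)
-/

set_option autoImplicit false
set_option linter.style.haveILetI false
set_option linter.unusedSectionVars false

open AlgebraicCurve ModularCurve

noncomputable section

namespace Fermat.Agent.P7

open Fermat.Agent.S31 (TI_Sc tpjHecke tpjHecke_apply tpjHecke_X)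
open Fermat.Agent.S35 (hkCut hkCut_mem_supported)

/-! ## The abstract key lemma -/

section Abs

variable {R : Type*} [CommRing R] {X : Type*} [AddCommGroup X]

theorem h73d_mul_apply (Θ : R →+* AddMonoid.End X) (a b : R) (y : X) :
    Θ (a * b) y = Θ a (Θ b y) := by
  rw [map_mul]; rfl

theorem h73d_sub_apply (Θ : R →+* AddMonoid.End X) (a b : R) (y : X) :
    Θ (a - b) y = Θ a y - Θ b y := by
  rw [map_sub]; rfl

theorem h73d_add_apply (Θ : R →+* AddMonoid.End X) (a b : R) (y : X) :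
    Θ (a + b) y = Θ a y + Θ b y := by
  rw [map_add]; rfl

theorem h73d_one_apply (Θ : R →+* AddMonoid.End X) (y : X) : Θ 1 y = y := by
  rw [map_one]; rfl

theorem h73d_pow_apply (Θ : R →+* AddMonoid.End X) (a : R) (k : ℕ) (y : X) :
    Θ (a ^ k) y = (Θ a ^ k) y := by
  rw [map_pow]

/-- a multiple of an element which kills `y` kills `y`. -/
theorem h73d_kill_mul (Θ : R →+* AddMonoid.End X) (c a : R) (y : X) (h : Θ a y = 0) :
    Θ (c * a) y = 0 := by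
  rw [h73d_mul_apply, h, map_zero]

/-- **idempotent powers**: on a finite stable subgroup some positive power of `s` is
idempotent. -/
theorem h73d_idem_pow (Θ : R →+* AddMonoid.End X) (Y : AddSubgroup X)
    (hfin : (Y : Set X).Finite) (hst : ∀ r : R, ∀ y ∈ Y, Θ r y ∈ Y) (s : R) :
    ∃ m : ℕ, 0 < m ∧ ∀ y ∈ Y, Θ (s ^ m * s ^ m) y = Θ (s ^ m) y := by
  classical
  haveI : Finite ↥Y := hfin.to_subtype
  let g : ℕ → (↥Y → ↥Y) := fun k y => ⟨Θ (s ^ k) (y : X), hst _ _ y.2⟩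
  obtain ⟨i₀, j₀, hne, hij⟩ := Finite.exists_ne_map_eq_of_infinite g
  -- `i < j` with `s ^ i = s ^ j` on `Y`
  obtain ⟨i, j, hlt, hgij⟩ : ∃ i j : ℕ, i < j ∧ g i = g j := by
    rcases Nat.lt_or_gt_of_ne hne with h | h
    · exact ⟨i₀, j₀, h, hij⟩
    · exact ⟨j₀, i₀, h, hij.symm⟩
  have hY : ∀ y ∈ Y, Θ (s ^ j) y = Θ (s ^ i) y := by
    intro y hy
    have := congrFun hgij ⟨y, hy⟩
    exact (congrArg Subtype.val this).symm
  obtain ⟨d, hd⟩ : ∃ d : ℕ, j = i + d := ⟨j - i, by omega⟩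
  have hd0 : 0 < d := by omega
  -- one period
  have hP : ∀ n : ℕ, i ≤ n → ∀ y ∈ Y, Θ (s ^ (n + d)) y = Θ (s ^ n) y := by
    intro n hn y hy
    obtain ⟨k, rfl⟩ : ∃ k : ℕ, n = i + k := ⟨n - i, by omega⟩
    have e1 : s ^ (i + k + d) = s ^ k * s ^ j := by rw [hd, ← pow_add]; congr 1; omega
    have e2 : s ^ (i + k) = s ^ k * s ^ i := by rw [← pow_add]; congr 1; omega
    rw [e1, e2, h73d_mul_apply, h73d_mul_apply, hY y hy]
  -- several periods
  have hQ : ∀ t n : ℕ, i ≤ n → ∀ y ∈ Y, Θ (s ^ (n + t * d)) y = Θ (s ^ n) y := by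
    intro t
    induction t with
    | zero => intro n _ y _; rw [Nat.zero_mul, Nat.add_zero]
    | succ t ih =>
      intro n hn y hy
      have e : n + (t + 1) * d = (n + t * d) + d := by ring
      rw [e, hP (n + t * d) (by omega) y hy, ih n hn y hy]
  refine ⟨(i + 1) * d, Nat.mul_pos (Nat.succ_pos i) hd0, fun y hy => ?_⟩
  have hm : i ≤ (i + 1) * d := by
    calc i ≤ i + 1 := Nat.le_succ i
      _ = (i + 1) * 1 := (Nat.mul_one _).symm
      _ ≤ (i + 1) * d := Nat.mul_le_mul_left _ hd0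
  rw [← pow_add]
  exact hQ (i + 1) ((i + 1) * d) hm y hy

/-- **the abstract key lemma**: if no nonzero element of the finite stable subgroup `Y` is
killed by the ideal `I`, then some `r ∈ I` acts as the identity on `Y`. -/
theorem h73d_unit (Θ : R →+* AddMonoid.End X) (Y : AddSubgroup X)
    (hfin : (Y : Set X).Finite) (hst : ∀ r : R, ∀ y ∈ Y, Θ r y ∈ Y) (I : Ideal R)
    (hker : ∀ y ∈ Y, (∀ r ∈ I, Θ r y = 0) → y = 0) :
    ∃ r ∈ I, ∀ y ∈ Y, Θ r y = y := by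
  classical
  -- the kernel of `e` on `Y` and its size
  let K : R → Set X := fun e => {y : X | y ∈ Y ∧ Θ e y = 0}
  have hKfin : ∀ e, (K e).Finite := fun e => hfin.subset fun y hy => hy.1
  let f : R → ℕ := fun e => (K e).ncard
  let s : Set R := {e | e ∈ I ∧ ∀ y ∈ Y, Θ (e * e) y = Θ e y}
  have hs : s.Nonempty := ⟨0, I.zero_mem, fun y _ => by rw [mul_zero]⟩
  obtain ⟨e, ⟨heI, hidem⟩, hmin⟩ := (measure f).wf.has_min s hs
  -- the kernel of `e` on `Y` is trivial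
  have hK : ∀ x ∈ Y, Θ e x = 0 → x = 0 := by
    intro x hxY hx
    by_contra hx0
    -- an element of `I` which is not nilpotent at some point of the kernel
    have hex : ∃ s₀ ∈ I, ∃ y₀ ∈ K e, ∀ k : ℕ, (Θ s₀ ^ k) y₀ ≠ 0 := by
      by_contra hcon
      push Not at hcon
      let Ke : AddSubgroup X :=
        { carrier := K e
          zero_mem' := ⟨Y.zero_mem, map_zero _⟩
          add_mem' := fun {a b} ha hb => ⟨Y.add_mem ha.1 hb.1, by rw [map_add, ha.2, hb.2, add_zero]⟩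
          neg_mem' := fun {a} ha => ⟨Y.neg_mem ha.1, by rw [map_neg, ha.2, neg_zero]⟩ }
      have hcomm : ∀ i j : ↥I, Commute (Θ (i : R)) (Θ (j : R)) := fun i j =>
        (Commute.all (i : R) (j : R)).map Θ
      obtain ⟨x', hx'K, hx'0, hx'⟩ := h3e_common_ker (fun i : ↥I => Θ (i : R)) hcomm
        (Ke : Set X).ncard Ke (hKfin e) le_rfl
        (fun i y hy => ⟨hst _ _ hy.1, by
          show Θ e (Θ (i : R) y) = 0
          rw [← h73d_mul_apply, mul_comm, h73d_mul_apply, hy.2, map_zero]⟩)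
        (fun i y hy => hcon (i : R) i.2 y hy)
        ⟨x, ⟨hxY, hx⟩, hx0⟩
      exact hx'0 (hker x' hx'K.1 fun r hr => hx' ⟨r, hr⟩)
    obtain ⟨s₀, hs₀, y₀, hy₀, hnil⟩ := hex
    obtain ⟨m, hm, hidem₀⟩ := h73d_idem_pow Θ Y hfin hst s₀
    set b : R := s₀ ^ m with hb
    have hbI : b ∈ I := I.pow_mem_of_mem hs₀ m hm
    have hby₀ : Θ b y₀ ≠ 0 := by
      rw [hb, h73d_pow_apply]
      exact hnil m
    -- the new idempotent
    set e' : R := e + b - e * b with he'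
    have he'I : e' ∈ I := I.sub_mem (I.add_mem heI hbI) (I.mul_mem_left e hbI)
    have hA : ∀ y ∈ Y, Θ (e * e - e) y = 0 := fun y hy => by
      rw [h73d_sub_apply, hidem y hy, sub_self]
    have hB : ∀ y ∈ Y, Θ (b * b - b) y = 0 := fun y hy => by
      rw [h73d_sub_apply, hidem₀ y hy, sub_self]
    have he'idem : ∀ y ∈ Y, Θ (e' * e') y = Θ e' y := by
      intro y hy
      have e1 : e' * e' = e' + ((1 - 2 * b + b ^ 2) * (e * e - e) + (1 - e) * (b * b - b)) := by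
        rw [he']; ring
      rw [e1, h73d_add_apply, h73d_add_apply, h73d_kill_mul Θ _ _ y (hA y hy),
        h73d_kill_mul Θ _ _ y (hB y hy), add_zero, add_zero]
    have he'e : ∀ y ∈ Y, Θ e' y = 0 → Θ e y = 0 := by
      intro y hy h0
      have e1 : e = e * e' - (1 - b) * (e * e - e) := by rw [he']; ring
      rw [e1, h73d_sub_apply, h73d_mul_apply, h0, map_zero,
        h73d_kill_mul Θ _ _ y (hA y hy), sub_zero]
    have he'b : ∀ y ∈ Y, Θ e' y = 0 → Θ b y = 0 := by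
      intro y hy h0
      have e1 : b = b * e' - (1 - e) * (b * b - b) := by rw [he']; ring
      rw [e1, h73d_sub_apply, h73d_mul_apply, h0, map_zero,
        h73d_kill_mul Θ _ _ y (hB y hy), sub_zero]
    have hsub : K e' ⊂ K e := by
      refine ⟨fun y hy => ⟨hy.1, he'e y hy.1 hy.2⟩, fun hle => ?_⟩
      exact hby₀ (he'b y₀ hy₀.1 (hle hy₀).2)
    exact hmin e' ⟨he'I, he'idem⟩ (Set.ncard_lt_ncard hsub (hKfin e))
  refine ⟨e, heI, fun y hy => ?_⟩
  have h1 : Θ e (Θ e y - y) = 0 := by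
    rw [map_sub, ← h73d_mul_apply, hidem y hy, sub_self]
  have h2 := hK _ (Y.sub_mem (hst e y hy) hy) h1
  exact sub_eq_zero.mp h2

end Abs

/-! ## DOWN -/

section Down

/-- the points of `J₀(N)` killed by `p`. -/
def h73dTors (N p : ℕ) [NeZero N] : AddSubgroup (JZero N) :=
  (nsmulAddMonoidHom p : JZero N →+ JZero N).ker

theorem h73d_mem_tors (N p : ℕ) [NeZero N] (x : JZero N) : x ∈ h73dTors N p ↔ p • x = 0 :=
  Iff.rfl

theorem h73d_tors_finite (N p : ℕ) [NeZero N] (hp : 0 < p) :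
    ((h73dTors N p : AddSubgroup (JZero N)) : Set (JZero N)).Finite :=
  (Fermat.Agent.S30.geometricInputsFull.2.2.1 N p hp).1

/-- the Hecke action through the variables outside `S`. -/
def h73dTheta (N : ℕ) [NeZero N] (S : Finset ℕ) (hc : HeckeOperatorsCommuteBar N) :
    MvPolynomial Nat.Primes ℤ →+* AddMonoid.End (JZero N) :=
  (tpjHecke N hc).comp ((hkCut S : MvPolynomial Nat.Primes ℤ →ₐ[ℤ] MvPolynomial Nat.Primes ℤ) :
    MvPolynomial Nat.Primes ℤ →+* MvPolynomial Nat.Primes ℤ)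

theorem h73dTheta_apply (N : ℕ) [NeZero N] (S : Finset ℕ) (hc : HeckeOperatorsCommuteBar N)
    (Q : MvPolynomial Nat.Primes ℤ) (x : JZero N) :
    h73dTheta N S hc Q x = tpjHecke N hc (hkCut S Q) x := rfl

theorem h73d_cut_X (S : Finset ℕ) (ℓ : Nat.Primes) (hℓ : (ℓ : ℕ) ∉ S) :
    hkCut S (MvPolynomial.X ℓ) = MvPolynomial.X ℓ := by
  rw [hkCut, MvPolynomial.aeval_X, if_neg hℓ]

theorem h73d_cut_X_mem (S : Finset ℕ) (ℓ : Nat.Primes) (hℓ : (ℓ : ℕ) ∈ S) :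
    hkCut S (MvPolynomial.X ℓ) = 0 := by
  rw [hkCut, MvPolynomial.aeval_X, if_pos hℓ]

theorem h73d_cut_C (S : Finset ℕ) (a : ℤ) :
    hkCut S (MvPolynomial.C a) = MvPolynomial.C a := by
  rw [hkCut, MvPolynomial.aeval_C]
  rfl

theorem h73d_tpj_C (N : ℕ) [NeZero N] (hc : HeckeOperatorsCommuteBar N) (a : ℤ) (x : JZero N) :
    tpjHecke N hc (MvPolynomial.C a) x = a • x := by
  rw [tpjHecke_apply, ← heckeModuleBar_smul_def hc]
  exact heckeModuleBar_C_smul a x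

/-- **DOWN.**  If `W` is residually modular of level `N` at `p`, the eigensystem `a_ℓ(W)`
occurs in `J₀(N)[p]`. -/
theorem h73d_down (W : WeierstrassCurve ℤ) (hΔ : W.Δ ≠ 0) {p : ℕ} (hp : p.Prime) (N : ℕ)
    [NeZero N] (hmod : W.IsResiduallyModularOfLevel p N) :
    ∃ x₀ : JZero N, x₀ ≠ 0 ∧ p • x₀ = 0 ∧
      ∀ ℓ : Nat.Primes, (ℓ : ℕ) ∉ h17gS W p N →
        heckeOperatorBar N ℓ x₀ = W.apOfModel (ℓ : ℕ) • x₀ := by
  classical
  by_contra hcon
  push Not at hcon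
  obtain ⟨f, 𝔪, hf, hmax, hpm, hcong⟩ := hmod
  set S : Finset ℕ := h17gS W p N with hS
  have hc : HeckeOperatorsCommuteBar N := Fermat.Agent.Red.HKComm.heckeOperatorsCommuteBar N
  set Θ := h73dTheta N S hc with hΘ
  set Y := h73dTors N p with hY
  have hst : ∀ r : MvPolynomial Nat.Primes ℤ, ∀ y ∈ Y, Θ r y ∈ Y := by
    intro r y hy
    show p • Θ r y = 0
    rw [← map_nsmul, show p • y = 0 from hy, map_zero]
  -- no common kernel vector
  have hker : ∀ y ∈ Y, (∀ r ∈ h17gIdeal W p N, Θ r y = 0) → y = 0 := by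
    intro y hy hr
    by_contra hy0
    obtain ⟨ℓ, hℓS, hne⟩ := hcon y hy0 hy
    apply hne
    have h1 := hr _ (h17g_X_sub_mem W p N ℓ hℓS)
    rw [hΘ, h73dTheta_apply, map_sub, h73d_cut_X S ℓ hℓS, h73d_cut_C, map_sub] at h1
    have h2 : tpjHecke N hc (MvPolynomial.X ℓ) y - tpjHecke N hc (MvPolynomial.C (W.apOfModel ℓ)) y
        = 0 := h1
    rw [tpjHecke_X, h73d_tpj_C] at h2
    exact sub_eq_zero.mp h2
  obtain ⟨r, hrI, hr1⟩ := h73d_unit Θ Y (h73d_tors_finite N p hp.pos) hst (h17gIdeal W p N) hker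
  -- the polynomial `P = cut (1 - r)` kills `J₀(N)[p]`
  set P : MvPolynomial Nat.Primes ℤ := hkCut S (1 - r) with hP
  have hPkill : (letI := ModularCurve.heckeModuleBar N
      ∀ x : ModularCurve.JZero N, p • x = 0 → P • x = 0) := by
    intro x hx
    rw [heckeModuleBar_smul_def hc]
    have h1 : Θ (1 - r) x = 0 := by
      rw [h73d_sub_apply, h73d_one_apply, hr1 x hx, sub_self]
    exact h1
  have hPvars : ∀ ℓ ∈ P.vars, ¬ (ℓ : ℕ) ∣ N * p := by
    intro ℓ hℓ hdvd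
    have hsupp : P ∈ MvPolynomial.supported ℤ (TI_Sc S) := hkCut_mem_supported S (1 - r)
    have hℓS : (ℓ : ℕ) ∉ S := (MvPolynomial.mem_supported.mp hsupp) (Finset.mem_coe.mpr hℓ)
    rcases (Nat.Prime.dvd_mul ℓ.2).mp hdvd with h | h
    · exact hℓS (h17g_mem_S_of_dvd W p (NeZero.ne N) ℓ ℓ.2 h)
    · have h4 : (ℓ : ℕ) = p := (Nat.prime_dvd_prime_iff_eq ℓ.2 hp).mp h
      exact hℓS (h4 ▸ h17g_p_mem_S W p N)
  obtain ⟨b, hb⟩ := Fermat.Agent.Jac.heckeKeyModPFinal N p hp P hPvars hPkill f hf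
  -- the eigenvalues of `f` as algebraic integers
  have hα : ∀ ℓ : Nat.Primes, (ℓ : ℕ) ∉ S → ∃ a : integralClosure ℤ ℂ,
      (a : ℂ) = ModularFormClass.qCoeff f ℓ ∧
        a - ((W.apOfModel (ℓ : ℕ) : ℤ) : integralClosure ℤ ℂ) ∈ 𝔪 := by
    intro ℓ hℓ
    obtain ⟨h1, h2, h3⟩ := (h17g_not_mem_S_iff W hΔ (NeZero.ne N) ℓ.2).mp hℓ
    exact hcong ℓ ℓ.2 h3 h2 h1
  let α : Nat.Primes → integralClosure ℤ ℂ := fun ℓ =>
    if h : (ℓ : ℕ) ∉ S then Classical.choose (hα ℓ h) else 0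
  have hα1 : ∀ ℓ : Nat.Primes, (ℓ : ℕ) ∉ S → ((α ℓ : integralClosure ℤ ℂ) : ℂ) =
      ModularFormClass.qCoeff f ℓ := by
    intro ℓ h
    show (((if h : (ℓ : ℕ) ∉ S then Classical.choose (hα ℓ h) else 0 : integralClosure ℤ ℂ)) : ℂ)
      = _
    rw [dif_pos h]
    exact (Classical.choose_spec (hα ℓ h)).1
  have hα2 : ∀ ℓ : Nat.Primes, (ℓ : ℕ) ∉ S →
      α ℓ - ((W.apOfModel (ℓ : ℕ) : ℤ) : integralClosure ℤ ℂ) ∈ 𝔪 := by
    intro ℓ h
    show (if h : (ℓ : ℕ) ∉ S then Classical.choose (hα ℓ h) else 0 : integralClosure ℤ ℂ) - _ ∈ 𝔪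
    rw [dif_pos h]
    exact (Classical.choose_spec (hα ℓ h)).2
  have hα0 : ∀ ℓ : Nat.Primes, (ℓ : ℕ) ∈ S → α ℓ = 0 := by
    intro ℓ h
    show (if h : (ℓ : ℕ) ∉ S then Classical.choose (hα ℓ h) else 0 : integralClosure ℤ ℂ) = 0
    rw [dif_neg (not_not.mpr h)]
  let ψ : MvPolynomial Nat.Primes ℤ →ₐ[ℤ] integralClosure ℤ ℂ := MvPolynomial.aeval α
  -- `ψ` maps the ideal of the eigensystem into `𝔪`
  have hψI : h17gIdeal W p N ≤ 𝔪.comap (ψ : MvPolynomial Nat.Primes ℤ →+* integralClosure ℤ ℂ) := by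
    rw [h17gIdeal, Ideal.span_le]
    rintro Q (hQ | ⟨ℓ, hℓ, rfl⟩)
    · rw [Set.mem_singleton_iff] at hQ
      rw [hQ, SetLike.mem_coe, Ideal.mem_comap]
      show ψ (MvPolynomial.C (p : ℤ)) ∈ 𝔪
      rw [MvPolynomial.aeval_C]
      have e : (algebraMap ℤ (integralClosure ℤ ℂ)) (p : ℤ) = (p : integralClosure ℤ ℂ) := by
        rw [eq_intCast, Int.cast_natCast]
      rw [e]
      exact hpm
    · rw [SetLike.mem_coe, Ideal.mem_comap]
      show ψ (MvPolynomial.X ℓ - MvPolynomial.C (W.apOfModel ℓ)) ∈ 𝔪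
      rw [map_sub, MvPolynomial.aeval_X, MvPolynomial.aeval_C, eq_intCast]
      exact hα2 ℓ hℓ
  -- `ψ` computes the values at the eigenform `f` after cutting
  have hψf : ∀ Q : MvPolynomial Nat.Primes ℤ, ((ψ Q : integralClosure ℤ ℂ) : ℂ) =
      MvPolynomial.aeval (R := ℤ) (fun ℓ : Nat.Primes => ModularFormClass.qCoeff f ℓ)
        (hkCut S Q) := by
    have h : ((integralClosure ℤ ℂ).val.comp ψ : MvPolynomial Nat.Primes ℤ →ₐ[ℤ] ℂ) =
        (MvPolynomial.aeval (R := ℤ)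
          (fun ℓ : Nat.Primes => ModularFormClass.qCoeff f ℓ)).comp (hkCut S) := by
      refine MvPolynomial.algHom_ext fun ℓ => ?_
      rw [AlgHom.comp_apply, AlgHom.comp_apply]
      show ((ψ (MvPolynomial.X ℓ) : integralClosure ℤ ℂ) : ℂ) = _
      rw [MvPolynomial.aeval_X]
      by_cases hℓ : (ℓ : ℕ) ∈ S
      · rw [h73d_cut_X_mem S ℓ hℓ, map_zero, hα0 ℓ hℓ]
        rfl
      · rw [h73d_cut_X S ℓ hℓ, MvPolynomial.aeval_X]
        exact hα1 ℓ hℓ
    intro Q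
    exact congrArg (fun φ : MvPolynomial Nat.Primes ℤ →ₐ[ℤ] ℂ => φ Q) h
  -- the contradiction
  have h1 : ((ψ (1 - r) : integralClosure ℤ ℂ) : ℂ) =
      (((p : integralClosure ℤ ℂ) * b : integralClosure ℤ ℂ) : ℂ) := by
    rw [hψf, ← hP, hb]
    push_cast
    rfl
  have h2 : ψ (1 - r) = (p : integralClosure ℤ ℂ) * b := Subtype.ext h1
  have h3 : ψ r ∈ 𝔪 := hψI hrI
  have h4 : (1 : integralClosure ℤ ℂ) ∈ 𝔪 := by
    have e : (1 : integralClosure ℤ ℂ) = ψ r + (p : integralClosure ℤ ℂ) * b := by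
      rw [← h2, map_sub, map_one]; ring
    rw [e]
    exact 𝔪.add_mem h3 (𝔪.mul_mem_right _ hpm)
  exact hmax.ne_top ((Ideal.eq_top_iff_one 𝔪).mpr h4)

/-- **DOWN**, with the excluded primes spelled out: the eigenvector equation holds at every
prime `ℓ ≠ p` of good reduction for `W` which does not divide `N`. -/
theorem h73d_down_good (W : WeierstrassCurve ℤ) (hΔ : W.Δ ≠ 0) {p : ℕ} (hp : p.Prime) (N : ℕ)
    [NeZero N] (hmod : W.IsResiduallyModularOfLevel p N) :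
    ∃ x₀ : JZero N, x₀ ≠ 0 ∧ p • x₀ = 0 ∧
      ∀ ℓ : Nat.Primes, (ℓ : ℕ) ≠ p → ¬ (ℓ : ℕ) ∣ N → W.IsGoodPrimeFor (ℓ : ℕ) →
        heckeOperatorBar N ℓ x₀ = W.apOfModel (ℓ : ℕ) • x₀ := by
  obtain ⟨x₀, h0, hp0, hx⟩ := h73d_down W hΔ hp N hmod
  exact ⟨x₀, h0, hp0, fun ℓ h1 h2 h3 =>
    hx ℓ ((h17g_not_mem_S_iff W hΔ (NeZero.ne N) ℓ.2).mpr ⟨h1, h2, h3⟩)⟩

/-- **DOWN**, for an arbitrary finite set `S₀` of excluded primes containing `p`, the primes of
`N` and the bad primes of `W`. -/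
theorem h73d_down_of (W : WeierstrassCurve ℤ) (hΔ : W.Δ ≠ 0) {p : ℕ} (hp : p.Prime) (N : ℕ)
    [NeZero N] (hmod : W.IsResiduallyModularOfLevel p N) (S₀ : Set ℕ)
    (hS₀ : ∀ ℓ : ℕ, ℓ.Prime → ℓ ∉ S₀ → ℓ ≠ p ∧ ¬ ℓ ∣ N ∧ W.IsGoodPrimeFor ℓ) :
    ∃ x₀ : JZero N, x₀ ≠ 0 ∧ p • x₀ = 0 ∧
      ∀ ℓ : Nat.Primes, (ℓ : ℕ) ∉ S₀ →
        heckeOperatorBar N ℓ x₀ = W.apOfModel (ℓ : ℕ) • x₀ := by
  obtain ⟨x₀, h0, hp0, hx⟩ := h73d_down_good W hΔ hp N hmod
  exact ⟨x₀, h0, hp0, fun ℓ hℓ =>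
    hx ℓ (hS₀ ℓ ℓ.2 hℓ).1 (hS₀ ℓ ℓ.2 hℓ).2.1 (hS₀ ℓ ℓ.2 hℓ).2.2⟩

end Down

end Fermat.Agent.P7
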