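import Fermat.Agent.P7.H66S0Iface
import Fermat.Agent.P7.H87ResDegAbs
import Fermat.Agent.Red.Desc.Degree
import Fermat.Agent.Red.GV.SoftGal

/-!
# Wave 7, DLOG at the non-good level, row H2-S0 leaf (B) RES-INEQ (helper73, prefix `h73b_`)

`h73b_resIneq : H66sResIneq` (exact frozen Prop of `P7/H66S0Iface.lean`): at every level `M`
prime to `p`, a family of Gauss-integral functions whose reductions are linearly independent
over `k(j̄)` has at most `ψ(M)` members.

Route: the landed abstract Gauss lemma `h87r_ind_of_polyInd` (helper87, `P7/H87ResDegAbs`).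
* `h73b_softR_aeval` : `softR (P(j)) = P̄(j̄)` for `P ∈ A[X]`;
* `h73b_polyInd` : independence over `k(j̄)` ⟹ polynomial independence `H87rPolyInd`
  (`j̄` is transcendental over `k`);
* `h87r_ind_of_polyInd` ⟹ `H87vInd (V ∩ Kbar(j)) V c`, and `h87v_card_le` ⟹
  `n ≤ [FF M : Kbar(j)] = ψ(M)` (`h31_ifaceFin`).
-/

set_option autoImplicit false
set_option linter.unusedSectionVars false
set_option linter.style.haveILetI false
set_option linter.unusedVariables false

open AlgebraicCurve ModularCurve IntermediateField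

noncomputable section

namespace Fermat.Agent.P7

open Fermat.Agent.S28 Fermat.Agent.S37 Fermat.Agent.Red.GV Fermat.Agent.Red.GV.Soft
open Fermat.Agent.Red.Desc Fermat.Agent.S21.C1

variable (A : ValuationSubring Kbar)

/-- the `q`-expansion of `P(j)`, `P ∈ A[X]`. -/
theorem h73b_coe_aeval (M : ℕ) [NeZero M] (Q : Polynomial A) :
    ((Polynomial.aeval (jB M) (Q.map A.subtype) : FF M) : LaurentSeries Kbar) =
      embA A (OTA_jA A Q) := by
  rw [OTA_embA_jA, evalA_eq_evalC_map, h8_evalC_eq_aeval]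
  have h := Polynomial.aeval_algHom_apply (modularFunctionFieldBar M).val (jB M)
    (Q.map A.subtype)
  rw [← coe_jB M]
  exact h.symm

theorem h73b_aeval_mem (M : ℕ) [NeZero M] (Q : Polynomial A) :
    Polynomial.aeval (jB M) (Q.map A.subtype) ∈ softV A M :=
  mem_softV_of_embA A M _ (OTA_jA A Q) (h73b_coe_aeval A M Q).symm

/-- `softR (P(j)) = P̄(j̄)`. -/
theorem h73b_softR_aeval (M : ℕ) [NeZero M] (Q : Polynomial A) :
    softR A M ⟨Polynomial.aeval (jB M) (Q.map A.subtype), h73b_aeval_mem A M Q⟩ =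
      Polynomial.aeval (jK (IsLocalRing.ResidueField A)) (Q.map (IsLocalRing.residue A)) := by
  rw [softR_of_embA A M _ (OTA_jA A Q) (h73b_coe_aeval A M Q).symm, OTA_redA_jA,
    h8_evalC_eq_aeval]
  rfl

/-- `P̄(j̄) ∈ k(j̄)`. -/
theorem h73b_aeval_mem_Kj (Q : Polynomial (IsLocalRing.ResidueField A)) :
    Polynomial.aeval (jK (IsLocalRing.ResidueField A)) Q ∈ h66sKj A := by
  have h1 : Polynomial.aeval (jK (IsLocalRing.ResidueField A)) Q ∈
      Algebra.adjoin (IsLocalRing.ResidueField A) {jK (IsLocalRing.ResidueField A)} :=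
    Polynomial.aeval_mem_adjoin_singleton _ _
  exact IntermediateField.algebra_adjoin_le_adjoin _ _ h1

/-- independence over `k(j̄)` gives the polynomial independence of helper87. -/
theorem h73b_polyInd {p : ℕ} (hp : p.Prime) (M : ℕ) [NeZero M] (hAp : A.LiesOverPrime p)
    {n : ℕ} (c : Fin n → softV A M)
    (hlin : LinearIndependent (h66sKj A) (fun i => softR A M (c i))) :
    H87rPolyInd A (softRing A M hp hAp) (jB M) (fun i => (c i : FF M)) := by
  classical
  refine ⟨fun i => (c i).2, fun P hP hsum i m => ?_⟩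
  have hl : ∀ i, ∃ Q : Polynomial A, Q.map A.subtype = P i := by
    intro i
    have h1 : P i ∈ Polynomial.lifts A.subtype :=
      (Polynomial.lifts_iff_coeff_lifts _).2 (fun m => ⟨⟨_, hP i m⟩, rfl⟩)
    exact (Polynomial.mem_lifts _).1 h1
  choose Q hQ using hl
  have hsum' : (∑ i, Polynomial.aeval (jB M) ((Q i).map A.subtype) * (c i : FF M)) ∈
      (softRing A M hp hAp).nonunits := by
    have e : (fun i => Polynomial.aeval (jB M) ((Q i).map A.subtype) * (c i : FF M)) =
        fun i => Polynomial.aeval (jB M) (P i) * (c i : FF M) := by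
      funext i
      rw [hQ i]
    rw [e]
    exact hsum
  have hzV : (∑ i, Polynomial.aeval (jB M) ((Q i).map A.subtype) * (c i : FF M)) ∈
      softV A M := h87r_nu_mem (softRing A M hp hAp) hsum'
  have h0 := (softR_eq_zero_iff_mem_nonunits A M hp hAp ⟨_, hzV⟩).2 hsum'
  have e1 : (⟨_, hzV⟩ : softV A M) =
      ∑ i, (⟨Polynomial.aeval (jB M) ((Q i).map A.subtype), h73b_aeval_mem A M (Q i)⟩ :
        softV A M) * c i := by
    apply Subtype.ext
    rw [AddSubmonoidClass.coe_finsetSum]
    rfl
  rw [e1, map_sum] at h0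
  let κ : Fin n → h66sKj A := fun i =>
    ⟨Polynomial.aeval (jK (IsLocalRing.ResidueField A)) ((Q i).map (IsLocalRing.residue A)),
      h73b_aeval_mem_Kj A _⟩
  have h2 : ∑ i, κ i • softR A M (c i) = 0 := by
    rw [← h0]
    refine Finset.sum_congr rfl (fun i _ => ?_)
    rw [map_mul, h73b_softR_aeval]
    rfl
  have h3 := Fintype.linearIndependent_iff.1 hlin κ h2 i
  have h4 : Polynomial.aeval (jK (IsLocalRing.ResidueField A))
      ((Q i).map (IsLocalRing.residue A)) = 0 := congrArg Subtype.val h3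
  have h5 : (Q i).map (IsLocalRing.residue A) = 0 := by
    have hinj := transcendental_iff_injective.mp
      (h36_transcendental_jK (IsLocalRing.ResidueField A))
    apply hinj
    rw [h4, map_zero]
  have h6 : IsLocalRing.residue A ((Q i).coeff m) = 0 := by
    rw [← Polynomial.coeff_map, h5, Polynomial.coeff_zero]
  have h7 : (P i).coeff m = (((Q i).coeff m : A) : Kbar) := by
    rw [← hQ i, Polynomial.coeff_map]
    rfl
  rw [h7, ValuationSubring.coe_mem_nonunits_iff]
  exact (IsLocalRing.residue_eq_zero_iff _).1 h6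

/-- **(B) RES-INEQ**, unconditional. -/
theorem h73b_resIneq : H66sResIneq := by
  classical
  intro p hp M _ hM A hAp n c hlin
  have hI := Fermat.Agent.Red.SM.h31_ifaceFin M
  haveI : FiniteDimensional Kbar⟮Fermat.Agent.S24.jBar M⟯ (FF M) := hI.2.1
  have hA' : ∀ a : Kbar, a ∈ A ↔ algebraMap Kbar (FF M) a ∈ softRing A M hp hAp :=
    fun a => (cst_mem_softV_iff A M a).symm
  have hU0 : ∀ a : Kbar⟮Fermat.Agent.S24.jBar M⟯,
      a ∈ (softRing A M hp hAp).comap (algebraMap Kbar⟮Fermat.Agent.S24.jBar M⟯ (FF M)) ↔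
        algebraMap Kbar⟮Fermat.Agent.S24.jBar M⟯ (FF M) a ∈ softRing A M hp hAp :=
    fun a => Iff.rfl
  have hx : jB M ∈ softRing A M hp hAp := gaussV_le_softV A M (jB_mem_gaussV A M)
  have hfrac : ∀ a : Kbar⟮Fermat.Agent.S24.jBar M⟯, ∃ r s : Polynomial Kbar,
      Polynomial.aeval (jB M) s ≠ 0 ∧
        algebraMap Kbar⟮Fermat.Agent.S24.jBar M⟯ (FF M) a * Polynomial.aeval (jB M) s =
          Polynomial.aeval (jB M) r := by
    intro a
    obtain ⟨r, s, hrs⟩ := (IntermediateField.mem_adjoin_simple_iff Kbar (a : FF M)).1 a.2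
    by_cases hs : Polynomial.aeval (jB M) s = 0
    · refine ⟨0, 1, by simp, ?_⟩
      have ha0 : (a : FF M) = 0 := by
        rw [hrs]
        show Polynomial.aeval (jB M) r / Polynomial.aeval (jB M) s = 0
        rw [hs, div_zero]
      show (a : FF M) * _ = _
      rw [ha0, zero_mul, map_zero]
    · refine ⟨r, s, hs, ?_⟩
      show (a : FF M) * _ = _
      rw [hrs]
      exact div_mul_cancel₀ _ hs
  have hind := h87r_ind_of_polyInd A
    ((softRing A M hp hAp).comap (algebraMap Kbar⟮Fermat.Agent.S24.jBar M⟯ (FF M)))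
    (softRing A M hp hAp) hA' hU0 hx hfrac (h73b_polyInd A hp M hAp c hlin)
  have hcard := h87v_card_le
    ((softRing A M hp hAp).comap (algebraMap Kbar⟮Fermat.Agent.S24.jBar M⟯ (FF M)))
    (softRing A M hp hAp) hU0 hind
  rw [Fintype.card_fin, hI.2.2] at hcard
  exact hcard

end Fermat.Agent.P7
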