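import Fermat.Agent.P7.H73FullDeg
import Fermat.Agent.P7.H73ResIneq
import Fermat.Agent.P7.H96DegSF

/-!
# Wave 7, DLOG at the non-good level, row H2-S0: (C) FULL-DEG, UNCONDITIONAL (helper73)

`h73f_fullDeg_final : H66sFullDeg` = `h73f_fullDeg` (C) applied to the landed (A)
`h96a_degSF` (helper96) and (B) `h73b_resIneq`.
-/

set_option autoImplicit false

namespace Fermat.Agent.P7

/-- **FULL RESIDUE DEGREE** of the Gauss valuation of level `goodLevel p M` over the one of
level `M`, unconditional. -/
theorem h73f_fullDeg_final : H66sFullDeg :=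
  h73f_fullDeg h96a_degSF h73b_resIneq

end Fermat.Agent.P7
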