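import Mathlib
import Fermat.Prelude.Def_FLTPrelim_FreyPackage
import Fermat.Prelude.Def_FLTPrelim_Modularity

/-!
# P7 (S44), leaf FREY-BAD (helper74): the bad primes of an integral model of a Frey curve

For a Frey package `P` (`A = a ^ p`, `B = b ^ p`, `A + B = c ^ p`) and ANY integral model `W` of
the Frey curve `E = P.freyCurve` (`W.IsIntegralModelOf E`: `W` is `ℚ`-isomorphic to `E`, no
minimality), the invariants satisfy

  `c₄(W) ^ 3 · (A B (A + B)) ^ 2 = 256 · (A ^ 2 + A B + B ^ 2) ^ 3 · Δ(W)`   (`h74f_key`)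

(both sides are `256 u⁻¹² c₄(E)³ Δ(E)`), and `A ^ 2 + A B + B ^ 2` is prime to `a b c`.  Hence:

* `h74f_dvd_disc` : every prime `q ∣ a b c` divides `Δ(W)`;
* `h74f_two_dvd_disc` : `2 ∣ Δ(W)`;
* `h74f_not_good`, `h74f_not_good_two` : such `q` (and `2`) are not good primes for `W`.

Consequence for GLUE (S44): `2` is always among the excluded primes of `W`, so the Hecke
polynomials in the variables `ℓ` good for `W`, `ℓ ∤ M p`, are automatically prime to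
`lcm (4, M) · p`.
-/

set_option autoImplicit false

namespace Fermat.Agent.P7

open WeierstrassCurve

/-- `c₄` of the Frey curve. -/
theorem h74f_c4 (P : FreyPackage) :
    P.freyCurve.c₄ = ((P.a : ℚ) ^ P.p) ^ 2 + (P.a : ℚ) ^ P.p * (P.b : ℚ) ^ P.p +
      ((P.b : ℚ) ^ P.p) ^ 2 := by
  simp only [WeierstrassCurve.c₄, WeierstrassCurve.b₂, WeierstrassCurve.b₄,
    FreyPackage.freyCurve]
  ring

/-- the discriminant of the Frey curve. -/
theorem h74f_disc (P : FreyPackage) :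
    P.freyCurve.Δ = (((P.a : ℚ) ^ P.p) * (P.b : ℚ) ^ P.p *
      ((P.a : ℚ) ^ P.p + (P.b : ℚ) ^ P.p)) ^ 2 / 256 := by
  simp only [WeierstrassCurve.Δ, WeierstrassCurve.b₂, WeierstrassCurve.b₄, WeierstrassCurve.b₆,
    WeierstrassCurve.b₈, FreyPackage.freyCurve]
  ring

/-- **the key identity** between the invariants of an integral model and of the Frey curve. -/
theorem h74f_key (P : FreyPackage) (W : WeierstrassCurve ℤ)
    (hW : W.IsIntegralModelOf P.freyCurve) :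
    W.c₄ ^ 3 * (P.a ^ P.p * P.b ^ P.p * (P.a ^ P.p + P.b ^ P.p)) ^ 2 =
      256 * ((P.a ^ P.p) ^ 2 + P.a ^ P.p * P.b ^ P.p + (P.b ^ P.p) ^ 2) ^ 3 * W.Δ := by
  obtain ⟨C, hC⟩ := hW
  have h1 : ((W.c₄ : ℤ) : ℚ) = (C.u⁻¹ : ℚˣ) ^ 4 * P.freyCurve.c₄ := by
    have := congrArg WeierstrassCurve.c₄ hC
    rw [variableChange_c₄, map_c₄] at this
    rw [this]
    rfl
  have h2 : ((W.Δ : ℤ) : ℚ) = (C.u⁻¹ : ℚˣ) ^ 12 * P.freyCurve.Δ := by
    have := congrArg WeierstrassCurve.Δ hC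
    rw [variableChange_Δ, map_Δ] at this
    rw [this]
    rfl
  have h3 : ((W.c₄ : ℤ) : ℚ) ^ 3 * P.freyCurve.Δ = P.freyCurve.c₄ ^ 3 * ((W.Δ : ℤ) : ℚ) := by
    rw [h1, h2]
    ring
  rw [h74f_c4, h74f_disc] at h3
  have h4 : ((W.c₄ : ℤ) : ℚ) ^ 3 * (((P.a : ℚ) ^ P.p) * (P.b : ℚ) ^ P.p *
      ((P.a : ℚ) ^ P.p + (P.b : ℚ) ^ P.p)) ^ 2 =
      256 * (((P.a : ℚ) ^ P.p) ^ 2 + (P.a : ℚ) ^ P.p * (P.b : ℚ) ^ P.p +
        ((P.b : ℚ) ^ P.p) ^ 2) ^ 3 * ((W.Δ : ℤ) : ℚ) := by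
    linear_combination 256 * h3
  exact_mod_cast h4

/-- `A ^ 2 + A B + B ^ 2` is prime to `a b c`. -/
theorem h74f_not_dvd_K (P : FreyPackage) {q : ℤ} (hq : Prime q)
    (hqabc : q ∣ P.a * P.b * P.c) :
    ¬ q ∣ (P.a ^ P.p) ^ 2 + P.a ^ P.p * P.b ^ P.p + (P.b ^ P.p) ^ 2 := by
  intro hK
  have hnu : ¬ IsUnit q := hq.not_isUnit
  have hab : ¬ (q ∣ P.a ∧ q ∣ P.b) := fun h => hnu (by
    have := dvd_gcd h.1 h.2
    rw [P.hgcdab] at this
    exact isUnit_of_dvd_one this)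
  have hac : ¬ (q ∣ P.a ∧ q ∣ P.c) := fun h => hnu (by
    have := dvd_gcd h.1 h.2
    rw [P.hgcdac] at this
    exact isUnit_of_dvd_one this)
  have hbc : ¬ (q ∣ P.b ∧ q ∣ P.c) := fun h => hnu (by
    have := dvd_gcd h.1 h.2
    rw [P.hgcdbc] at this
    exact isUnit_of_dvd_one this)
  have hp0 : P.p ≠ 0 := P.hp0
  rcases hq.dvd_or_dvd hqabc with h | hc
  · rcases hq.dvd_or_dvd h with ha | hb
    · -- `q ∣ a`
      have hA : q ∣ P.a ^ P.p := dvd_pow ha hp0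
      have h1 : q ∣ (P.b ^ P.p) ^ 2 := by
        have h2 : (P.b ^ P.p) ^ 2 = ((P.a ^ P.p) ^ 2 + P.a ^ P.p * P.b ^ P.p + (P.b ^ P.p) ^ 2)
            - P.a ^ P.p * (P.a ^ P.p + P.b ^ P.p) := by ring
        rw [h2]
        exact dvd_sub hK (dvd_mul_of_dvd_left hA _)
      exact hab ⟨ha, hq.dvd_of_dvd_pow (hq.dvd_of_dvd_pow h1)⟩
    · -- `q ∣ b`
      have hB : q ∣ P.b ^ P.p := dvd_pow hb hp0
      have h1 : q ∣ (P.a ^ P.p) ^ 2 := by
        have h2 : (P.a ^ P.p) ^ 2 = ((P.a ^ P.p) ^ 2 + P.a ^ P.p * P.b ^ P.p + (P.b ^ P.p) ^ 2)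
            - P.b ^ P.p * (P.a ^ P.p + P.b ^ P.p) := by ring
        rw [h2]
        exact dvd_sub hK (dvd_mul_of_dvd_left hB _)
      exact hab ⟨hq.dvd_of_dvd_pow (hq.dvd_of_dvd_pow h1), hb⟩
  · -- `q ∣ c`
    have hC : q ∣ P.a ^ P.p + P.b ^ P.p := by
      rw [P.hFLT]
      exact dvd_pow hc hp0
    have h1 : q ∣ P.a ^ P.p * P.b ^ P.p := by
      have h2 : P.a ^ P.p * P.b ^ P.p = (P.a ^ P.p + P.b ^ P.p) * (P.a ^ P.p + P.b ^ P.p)
          - ((P.a ^ P.p) ^ 2 + P.a ^ P.p * P.b ^ P.p + (P.b ^ P.p) ^ 2) := by ring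
      rw [h2]
      exact dvd_sub (dvd_mul_of_dvd_left hC _) hK
    rcases hq.dvd_or_dvd h1 with h | h
    · exact hac ⟨hq.dvd_of_dvd_pow h, hc⟩
    · exact hbc ⟨hq.dvd_of_dvd_pow h, hc⟩

/-- **`2` divides the discriminant of every integral model of a Frey curve.** -/
theorem h74f_two_dvd_disc (P : FreyPackage) (W : WeierstrassCurve ℤ)
    (hW : W.IsIntegralModelOf P.freyCurve) : (2 : ℤ) ∣ W.Δ := by
  have hkey := h74f_key P W hW
  have h2 : Prime (2 : ℤ) := Int.prime_two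
  have hb : (2 : ℤ) ∣ P.b := (ZMod.intCast_zmod_eq_zero_iff_dvd P.b 2).1 P.hb2
  have hK := h74f_not_dvd_K P h2 P.two_dvd_abc
  -- `2 ^ 5 ∣ B`
  have hB : (2 : ℤ) ^ 5 ∣ P.b ^ P.p := by
    obtain ⟨k, hk⟩ := hb
    rw [hk, mul_pow]
    exact dvd_mul_of_dvd_left (pow_dvd_pow 2 P.hp5) _
  obtain ⟨m, hm⟩ := hB
  -- `2 ^ 10 ∣ LHS`
  have h3 : (2 : ℤ) ^ 9 ∣ 256 * (((P.a ^ P.p) ^ 2 + P.a ^ P.p * P.b ^ P.p + (P.b ^ P.p) ^ 2) ^ 3
      * W.Δ) := by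
    rw [← mul_assoc, ← hkey, hm]
    exact ⟨W.c₄ ^ 3 * (P.a ^ P.p * m * (P.a ^ P.p + 2 ^ 5 * m)) ^ 2 * 2, by ring⟩
  have h4 : (2 : ℤ) ∣ ((P.a ^ P.p) ^ 2 + P.a ^ P.p * P.b ^ P.p + (P.b ^ P.p) ^ 2) ^ 3 * W.Δ := by
    have h5 : (2 : ℤ) ^ 9 = 256 * 2 := by norm_num
    rw [h5] at h3
    exact (mul_dvd_mul_iff_left (by norm_num : (256 : ℤ) ≠ 0)).mp h3
  rcases h2.dvd_or_dvd h4 with h | h
  · exact absurd (h2.dvd_of_dvd_pow h) hK
  · exact h

/-- **every prime dividing `a b c` divides the discriminant of every integral model of the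
Frey curve.** -/
theorem h74f_dvd_disc (P : FreyPackage) (W : WeierstrassCurve ℤ)
    (hW : W.IsIntegralModelOf P.freyCurve) {q : ℕ} (hq : q.Prime)
    (hqabc : (q : ℤ) ∣ P.a * P.b * P.c) : (q : ℤ) ∣ W.Δ := by
  rcases eq_or_ne q 2 with rfl | hq2
  · exact_mod_cast h74f_two_dvd_disc P W hW
  have hqZ : Prime (q : ℤ) := Nat.prime_iff_prime_int.mp hq
  have hkey := h74f_key P W hW
  have hK := h74f_not_dvd_K P hqZ hqabc
  have hp0 : P.p ≠ 0 := P.hp0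
  -- `q ∣ A B (A + B)`
  have hABC : (q : ℤ) ∣ P.a ^ P.p * P.b ^ P.p * (P.a ^ P.p + P.b ^ P.p) := by
    rcases hqZ.dvd_or_dvd hqabc with h | hc
    · rcases hqZ.dvd_or_dvd h with ha | hb
      · exact dvd_mul_of_dvd_left (dvd_mul_of_dvd_left (dvd_pow ha hp0) _) _
      · exact dvd_mul_of_dvd_left (dvd_mul_of_dvd_right (dvd_pow hb hp0) _) _
    · rw [P.hFLT]
      exact dvd_mul_of_dvd_right (dvd_pow hc hp0) _
  have h3 : (q : ℤ) ∣ 256 * ((P.a ^ P.p) ^ 2 + P.a ^ P.p * P.b ^ P.p + (P.b ^ P.p) ^ 2) ^ 3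
      * W.Δ := by
    rw [← hkey]
    exact dvd_mul_of_dvd_right (dvd_pow hABC two_ne_zero) _
  rcases hqZ.dvd_or_dvd h3 with h | h
  · rcases hqZ.dvd_or_dvd h with h256 | hK3
    · exfalso
      have h5 : (256 : ℤ) = 2 ^ 8 := by norm_num
      rw [h5] at h256
      have h6 : (q : ℤ) ∣ 2 := hqZ.dvd_of_dvd_pow h256
      have h7 : q ∣ 2 := by exact_mod_cast h6
      exact hq2 ((Nat.prime_dvd_prime_iff_eq hq Nat.prime_two).mp h7)
    · exact absurd (hqZ.dvd_of_dvd_pow hK3) hK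
  · exact h

/-- the primes dividing `a b c` are not good primes of any integral model. -/
theorem h74f_not_good (P : FreyPackage) (W : WeierstrassCurve ℤ)
    (hW : W.IsIntegralModelOf P.freyCurve) {q : ℕ} (hq : q.Prime)
    (hqabc : (q : ℤ) ∣ P.a * P.b * P.c) : ¬ W.IsGoodPrimeFor q :=
  fun h => h (h74f_dvd_disc P W hW hq hqabc)

/-- `2` is not a good prime of any integral model of a Frey curve. -/
theorem h74f_not_good_two (P : FreyPackage) (W : WeierstrassCurve ℤ)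
    (hW : W.IsIntegralModelOf P.freyCurve) : ¬ W.IsGoodPrimeFor 2 :=
  fun h => h (by exact_mod_cast h74f_two_dvd_disc P W hW)

/-- a good prime of an integral model of a Frey curve is odd and prime to `a b c`. -/
theorem h74f_good_props (P : FreyPackage) (W : WeierstrassCurve ℤ)
    (hW : W.IsIntegralModelOf P.freyCurve) {ℓ : ℕ} (hℓ : ℓ.Prime) (hgood : W.IsGoodPrimeFor ℓ) :
    ℓ ≠ 2 ∧ ¬ (ℓ : ℤ) ∣ P.a * P.b * P.c :=
  ⟨fun h => h74f_not_good_two P W hW (h ▸ hgood),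
    fun h => h74f_not_good P W hW hℓ h hgood⟩

end Fermat.Agent.P7
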