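import Fermat.Agent.P7.H15GenusIface
import Fermat.Agent.Jac.Rig
import Fermat.Agent.Jac.Orbit
import Fermat.Agent.Jac.Desc0
import Fermat.Agent.Jac.BaseChangeOrd
import Fermat.Agent.Jac.DegC
import Fermat.Agent.P5.H40RRInst
import Fermat.Agent.P5.H68RRFin

/-!
# Wave 7, block (A), route DLOG, leaf GM-DESC-JAC (helper74, prefix `h74d_`)

Galois descent `ℂ → ℚ̄` of the Riemann–Roch spaces `L(n (j)_∞)` of the modular function field:
`r` `ℂ`-linearly independent elements of `L_ℂ(n (j)_∞) ⊆ F_ℂ` give `r` `ℚ̄`-linearly independent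
elements of `L(n (j)_∞) ⊆ FF M` (`h74d_descent : H15gDescent`, frozen in `P7/H15GenusIface`).

* `h74d_dual_basis` (Mathlib only): a finite-dimensional subspace `V` on which a family of
  functionals is separating has `dim V` indices and a basis of `V` dual to them.
* `L_ℂ(n (j)_∞)` is finite-dimensional (P5 weak Riemann–Roch over `ℂ`: `h40r_base`, `h68r_finite`)
  and stable under the arithmetic action of `Aut(ℂ/ℚ)` (`SemilinearAut.ord_smul`, `σ j = j`).
* the dual basis is fixed by `Aut(ℂ/ℚ)`, so its coefficients are algebraic (`Jac.orbit`), it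
  comes from `FF M` (`Jac.desc`) and lies in `L(n (j)_∞)` (`Jac.baseChangeOrd`).
-/

set_option autoImplicit false
set_option linter.unusedSectionVars false
set_option linter.style.haveILetI false

open AlgebraicCurve ModularCurve CongruenceSubgroup IntermediateField

noncomputable section

namespace Fermat.Agent.P7

open Fermat.Agent.S24 (Kbar FF jBar embC)
open Fermat.Agent.Jac (FC jC)
open Fermat.Agent.P5

/-- **Abstract descent, linear algebra core.**  A finite-dimensional subspace `V` on which a
family of functionals `c i` is separating has `d = dim V` indices and a basis of `V` dual to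
them. -/
theorem h74d_dual_basis {k E I : Type*} [Field k] [AddCommGroup E] [Module k E]
    (c : I → E →ₗ[k] k) (V : Submodule k E) [FiniteDimensional k V]
    (hsep : ∀ x ∈ V, (∀ i, c i x = 0) → x = 0) :
    ∃ (idx : Fin (Module.finrank k V) → I) (b : Fin (Module.finrank k V) → V),
      LinearIndependent k b ∧
      (∀ i j, c (idx i) (b j : E) = if i = j then 1 else 0) ∧
      (∀ x ∈ V, (∀ i, c (idx i) x = 0) → x = 0) := by
  classical
  -- restricted functionals
  let φ : I → Module.Dual k V := fun i => (c i).comp V.subtype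
  have hspan : Submodule.span k (Set.range φ) = ⊤ := by
    have h1 := Subspace.dualCoannihilator_dualAnnihilator_eq
      (W := Submodule.span k (Set.range φ))
    have h2 : (Submodule.span k (Set.range φ)).dualCoannihilator = ⊥ := by
      rw [eq_bot_iff]
      intro x hx
      rw [Submodule.mem_dualCoannihilator] at hx
      have : (x : E) = 0 := hsep x x.2 (fun i => hx (φ i) (Submodule.subset_span ⟨i, rfl⟩))
      exact (Submodule.mem_bot k).2 (Subtype.ext this)
    rw [h2, Submodule.dualAnnihilator_bot] at h1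
    exact h1.symm
  obtain ⟨s, -, -, hsub, hli⟩ := exists_linearIndepOn_extension (K := k) (v := φ)
    (s := ∅) (t := Set.univ) (linearIndepOn_empty _ _) (Set.empty_subset _)
  have hspan' : ⊤ ≤ Submodule.span k (Set.range (fun i : s => φ i)) := by
    rw [← hspan]
    apply Submodule.span_le.2
    rintro _ ⟨i, rfl⟩
    have : φ i ∈ Submodule.span k (φ '' s) := hsub ⟨i, Set.mem_univ i, rfl⟩
    have h3 : Set.range (fun i : s => φ i) = φ '' s := by
      ext y
      constructor
      · rintro ⟨⟨i, hi⟩, rfl⟩
        exact ⟨i, hi, rfl⟩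
      · rintro ⟨i, hi, rfl⟩
        exact ⟨⟨i, hi⟩, rfl⟩
    rw [h3]
    exact this
  let B : Module.Basis s k (Module.Dual k V) := Module.Basis.mk hli hspan'
  have : Finite s := Module.Finite.finite_basis B
  have hcard : Nat.card s = Module.finrank k V := by
    rw [← Subspace.dual_finrank_eq, Module.finrank_eq_nat_card_basis B]
  let e : Fin (Module.finrank k V) ≃ s := (Finite.equivFinOfCardEq hcard).symm
  -- the evaluation map
  let Φ : V →ₗ[k] (Fin (Module.finrank k V) → k) :=
    LinearMap.pi (fun i => φ (e i))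
  have hΦ : Function.Injective Φ := by
    rw [← LinearMap.ker_eq_bot, eq_bot_iff]
    intro x hx
    rw [LinearMap.mem_ker] at hx
    have h4 : ∀ i : s, φ i x = 0 := by
      intro i
      have := congrFun hx (e.symm i)
      simpa [Φ] using this
    have h5 : ∀ f : Module.Dual k V, f x = 0 := by
      intro f
      have hf : f ∈ Submodule.span k (Set.range (fun i : s => φ i)) := hspan' trivial
      induction hf using Submodule.span_induction with
      | mem y hy =>
        obtain ⟨i, rfl⟩ := hy
        exact h4 i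
      | zero => rfl
      | add a b _ _ ha hb => rw [LinearMap.add_apply, ha, hb, add_zero]
      | smul a y _ hy => rw [LinearMap.smul_apply, hy, smul_zero]
    exact (Submodule.mem_bot k).2 ((Module.forall_dual_apply_eq_zero_iff k x).1 h5)
  have hdim : Module.finrank k V = Module.finrank k (Fin (Module.finrank k V) → k) := by
    rw [Module.finrank_fin_fun]
  let Ψ : V ≃ₗ[k] (Fin (Module.finrank k V) → k) := LinearMap.linearEquivOfInjective Φ hΦ hdim
  have hΨ : ∀ x, Ψ x = Φ x := fun x => rfl
  refine ⟨fun i => (e i : I), fun j => Ψ.symm (Pi.single j 1), ?_, ?_, ?_⟩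
  · have := ((Pi.basisFun k (Fin (Module.finrank k V))).map Ψ.symm).linearIndependent
    convert this using 1
    ext j
    simp
  · intro i j
    have h6 : Ψ (Ψ.symm (Pi.single j 1)) i = (Pi.single j (1 : k) : Fin _ → k) i := by
      rw [LinearEquiv.apply_symm_apply]
    rw [hΨ] at h6
    have h7 : Φ (Ψ.symm (Pi.single j 1)) i = c (e i) ((Ψ.symm (Pi.single j 1) : V) : E) := rfl
    rw [← h7, h6, Pi.single_apply]
  · intro x hx h
    have h8 : Φ ⟨x, hx⟩ = 0 := by
      ext i
      exact h i
    have := hΦ (h8.trans (map_zero Φ).symm)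
    exact congrArg Subtype.val this

/-! ### The coefficient functionals -/

/-- the `i`-th coefficient as a `K`-linear functional on a field of Laurent series. -/
def h74dCoeff {K : Type} [Field K] (L : IntermediateField K (LaurentSeries K)) (i : ℤ) :
    L →ₗ[K] K where
  toFun F := (F : LaurentSeries K).coeff i
  map_add' F G := by
    show ((F + G : L) : LaurentSeries K).coeff i = _
    rw [AddMemClass.coe_add, HahnSeries.coeff_add]
  map_smul' a F := by
    show ((a • F : L) : LaurentSeries K).coeff i = a * (F : LaurentSeries K).coeff i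
    rw [IntermediateField.coe_smul, Algebra.smul_def, algebraMap_laurentSeries_eq_single,
      Fermat.Agent.Jac.h56_coeff_single_mul]

theorem h74dCoeff_apply {K : Type} [Field K] (L : IntermediateField K (LaurentSeries K))
    (i : ℤ) (F : L) : h74dCoeff L i F = (F : LaurentSeries K).coeff i := rfl

theorem h74d_coeff_sep {K : Type} [Field K] (L : IntermediateField K (LaurentSeries K))
    (F : L) (h : ∀ i, h74dCoeff L i F = 0) : F = 0 := by
  apply Subtype.ext
  ext i
  exact h i

/-! ### Galois stability -/

/-- the arithmetic action fixes `j`. -/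
theorem h74d_act_jC (M : ℕ) [NeZero M] (σ : ℂ ≃ₐ[ℚ] ℂ) :
    Fermat.Agent.Jac.H15Rig.act M σ • jC M = jC M := by
  apply Subtype.ext
  rw [coe_arithmeticGalois_smul, Fermat.Agent.Jac.coe_jC, coeffEmb, coeffMap_coeffMap]
  exact coeffMap_congr (Subsingleton.elim _ _) _

/-- the order at `v` of `g • x` is the order of `x` at `g⁻¹ • v`. -/
theorem h74d_ord_act {M : ℕ} (g : SemilinearAut ℂ (FC M)) (v : Place ℂ (FC M)) (x : FC M) :
    v.ord (g • x) = (g⁻¹ • v).ord x := by
  have h := SemilinearAut.ord_smul g (g⁻¹ • v) x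
  rwa [smul_inv_smul] at h

/-- `L_ℂ(n (j)_∞)` is stable under the arithmetic action of `Aut(ℂ/ℚ)`. -/
theorem h74d_inLC_act (M : ℕ) [NeZero M] (n : ℕ) (σ : ℂ ≃ₐ[ℚ] ℂ) {F : FC M}
    (hF : H15gInLC M n F) : H15gInLC M n (Fermat.Agent.Jac.H15Rig.act M σ • F) := by
  intro v
  rcases hF ((Fermat.Agent.Jac.H15Rig.act M σ)⁻¹ • v) with h | h
  · left
    rw [h, smul_zero]
  · right
    rw [h74d_ord_act, ← h74d_act_jC M σ, h74d_ord_act]
    exact h

/-! ### The descent -/

/-- `L_ℂ(n (j)_∞)` as a Riemann–Roch space: there is a divisor `D` with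
`F ∈ L(D) ↔ H15gInLC M n F`. -/
theorem h74d_exists_div (M : ℕ) [NeZero M] (n : ℕ) :
    ∃ D : Divisor ℂ (FC M), Module.Finite ℂ ↥(riemannRochSpace D) ∧
      ∀ F : FC M, F ∈ riemannRochSpace D ↔ H15gInLC M n F := by
  classical
  obtain ⟨htr, hfd, -⟩ := Fermat.Agent.Jac.degC M
  haveI := hfd
  have hB : H13rBase ℂ (FC M) := h40r_base (jC M) htr
  obtain ⟨s, hs, -⟩ := h40r_zeros (jC M) htr (jC M)⁻¹ (Or.inr rfl)
  let P : Divisor ℂ (FC M) := ∑ v ∈ s, Finsupp.single v (v.ord (jC M)⁻¹)
  have hPv : ∀ v : Place ℂ (FC M), P v = max 0 (v.ord (jC M)⁻¹) := by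
    intro v
    show (∑ w ∈ s, Finsupp.single w (w.ord (jC M)⁻¹)) v = _
    rw [Finsupp.finsetSum_apply]
    by_cases hv : v ∈ s
    · rw [Finset.sum_eq_single_of_mem v hv (fun w _ hw => Finsupp.single_eq_of_ne' hw),
        Finsupp.single_eq_same, max_eq_right ((hs v).1 hv).le]
    · rw [Finset.sum_eq_zero (fun w hw => Finsupp.single_eq_of_ne'
        (fun h : w = v => hv (by rw [← h]; exact hw)))]
      have : ¬ 0 < v.ord (jC M)⁻¹ := fun h => hv ((hs v).2 h)
      rw [max_eq_left (not_lt.mp this)]
  refine ⟨n • P, h68r_finite hB _, fun F => ?_⟩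
  rw [mem_riemannRochSpace_iff]
  have key : ∀ v : Place ℂ (FC M), -(n • P) v = (n : ℤ) * min 0 (v.ord (jC M)) := by
    intro v
    rw [Finsupp.smul_apply, hPv, nsmul_eq_mul, v.ord_inv]
    rcases le_total 0 (v.ord (jC M)) with h | h
    · rw [min_eq_left h, max_eq_left (by linarith)]
      ring
    · rw [min_eq_right h, max_eq_right (by linarith)]
      ring
  constructor
  · intro h v
    rcases h v with h0 | h1
    · exact Or.inl h0
    · right
      rw [← key v]
      exact h1
  · intro h v
    rcases h v with h0 | h1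
    · exact Or.inl h0
    · right
      rw [key v]
      exact h1

/-- **GM-2 / GM-DESC: Galois descent of `L(n (j)_∞)` from `ℂ` to `ℚ̄`.** -/
theorem h74d_descent : H15gDescent := by
  intro M _ n r F hF hFin
  classical
  obtain ⟨D, hfin, hD⟩ := h74d_exists_div M n
  haveI := hfin
  set V : Submodule ℂ (FC M) := riemannRochSpace D with hV
  let LC : IntermediateField ℂ (LaurentSeries ℂ) := laurentBaseChange ℂ (modularFunctionFieldFull M)
  let LK : IntermediateField Kbar (LaurentSeries Kbar) := modularFunctionFieldBar M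
  -- the dual basis
  obtain ⟨idx, b, -, hbdual, hbsep⟩ := h74d_dual_basis (h74dCoeff LC) V
    (fun x _ h => h74d_coeff_sep LC x h)
  -- `r ≤ dim V`
  have hr : r ≤ Module.finrank ℂ V := by
    let F' : Fin r → V := fun i => ⟨F i, (hD _).2 (hFin i)⟩
    have hli' : LinearIndependent ℂ F' := LinearIndependent.of_comp V.subtype hF
    have := hli'.fintype_card_le_finrank
    rwa [Fintype.card_fin] at this
  -- the dual basis is fixed by `Aut(ℂ/ℚ)`
  have hfix : ∀ (σ : ℂ ≃ₐ[ℚ] ℂ) (j : Fin (Module.finrank ℂ V)),
      Fermat.Agent.Jac.H15Rig.act M σ • (b j : FC M) = (b j : FC M) := by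
    intro σ j
    have hmem : Fermat.Agent.Jac.H15Rig.act M σ • (b j : FC M) ∈ V :=
      (hD _).2 (h74d_inLC_act M n σ ((hD _).1 (b j).2))
    have hsub : Fermat.Agent.Jac.H15Rig.act M σ • (b j : FC M) - (b j : FC M) ∈ V :=
      V.sub_mem hmem (b j).2
    have h0 := hbsep _ hsub (fun i => by
      rw [map_sub, hbdual, h74dCoeff_apply, coe_arithmeticGalois_smul, coeffMap_coeff,
        ← h74dCoeff_apply LC, hbdual]
      split_ifs <;> simp)
    exact sub_eq_zero.1 h0
  -- hence its coefficients are algebraic
  have hcoeff : ∀ (j : Fin (Module.finrank ℂ V)) (m : ℤ),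
      ((b j : FC M) : LaurentSeries ℂ).coeff m ∈ Set.range embC := by
    intro j m
    refine Fermat.Agent.Jac.orbit ⊤ inferInstance _ (fun σ _ => ?_)
    have h1 : ((Fermat.Agent.Jac.H15Rig.act M σ • (b j : FC M) : FC M) :
        LaurentSeries ℂ).coeff m = ((b j : FC M) : LaurentSeries ℂ).coeff m := by
      rw [hfix σ j]
    rw [coe_arithmeticGalois_smul, coeffMap_coeff] at h1
    exact h1
  choose y hy using fun j => Fermat.Agent.Jac.H15Rig.exists_coeffMap_eq _ (hcoeff j)
  have hyF : ∀ j, y j ∈ modularFunctionFieldBar M := by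
    intro j
    refine Fermat.Agent.Jac.desc M (y j) ?_
    rw [hy j]
    exact (b j : FC M).2
  let Y : Fin (Module.finrank ℂ V) → FF M := fun j => ⟨y j, hyF j⟩
  have hinj : Function.Injective embC := embC.injective
  -- the coefficients of `Y j` at the dual indices
  have hYdual : ∀ i j, h74dCoeff LK (idx i) (Y j) = if i = j then 1 else 0 := by
    intro i j
    apply hinj
    have h1 : embC ((y j).coeff (idx i)) = ((b j : FC M) : LaurentSeries ℂ).coeff (idx i) := by
      rw [← hy j, coeffMap_coeff]
    have h2 := hbdual i j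
    rw [h74dCoeff_apply] at h2
    rw [h74dCoeff_apply]
    show embC ((y j).coeff (idx i)) = _
    rw [h1, h2]
    split_ifs <;> simp
  -- membership in `L(n (j)_∞)`
  have hYin : ∀ j, H15gInL M n (Y j) := by
    intro j v₀
    obtain ⟨v, hv⟩ := Fermat.Agent.Jac.baseChangeOrd M v₀
    have h1 : v.ord (b j : FC M) = v₀.ord (Y j) := hv (Y j) (b j : FC M) (hy j).symm
    have h2 : v.ord (jC M) = v₀.ord (jBar M) := hv (jBar M) (jC M) (by
      rw [Fermat.Agent.Jac.coe_jC, Fermat.Agent.S24.coe_jBar]
      exact Fermat.Agent.Jac.h49_coeffEmb_eq jq)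
    rcases (hD _).1 (b j).2 v with h0 | h3
    · left
      apply Subtype.ext
      have h4 : coeffMap embC (y j) = coeffMap embC 0 := by
        rw [hy j, h0, map_zero]
        rfl
      exact Fermat.Agent.Jac.h56_coeffMap_injective embC h4
    · right
      rw [← h1, ← h2]
      exact h3
  -- linear independence
  have hYli : LinearIndependent Kbar Y := by
    rw [Fintype.linearIndependent_iff]
    intro a ha i
    have h1 := congrArg (h74dCoeff LK (idx i)) ha
    rw [map_sum, map_zero] at h1
    simp only [map_smul, hYdual, smul_eq_mul, mul_ite, mul_one, mul_zero] at h1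
    rw [Finset.sum_ite_eq] at h1
    simpa using h1
  exact ⟨fun i => Y (Fin.castLE hr i), hYli.comp _ (Fin.castLE_injective hr), fun i => hYin _⟩

end Fermat.Agent.P7
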