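import Fermat.Agent.P7.H74NodeUnit

/-!
# P7 (S40), block (5b), leaf C3 (helper74): rationality of the node normal form, abstract form

Continuation of `P7/H74NodeUnit.lean`.  The explicit data `(T, a_i, n_i)` of the node normal
form `u = e · x ^ m · (∏ (x - a_i) ^ n_i) ^ r` are packaged as two monic polynomials

* `h74rPoly T a k = ∏ i ∈ T, (X - C (a i)) ^ k i`, with `P⁺ = h74rPoly T a n⁺`,
  `P⁻ = h74rPoly T a n⁻` (`n⁺ = n.toNat`, `n⁻ = (-n).toNat`),

in the shape of the input of `h91y_smooth` / `h91y_node` (`P7/H91Poly.lean`):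

* `h74r_monic`, `h74r_coeff_mem` : monic, lower coefficients in `𝔪_A`;
* `h74r_coeff_zero`, `h74r_aeval` : `P(0) = ∏ (- a_i) ^ k_i`, `P(x) = ∏ (x - a_i) ^ k_i`;
* `h74r_scaled` : if `a_i b_i = ϖ g_i` with `b_i ∈ 𝔪_A`, `g_i ∈ A^×` (roots strictly inside the
  annulus) then `P.coeff j * ϖ ^ j = r_j * P.coeff 0` with `r_j ∈ 𝔪_A` for `j ≥ 1`;
* `h74r_invariant` : **rationality**: an endomorphism `τ` of `F`, semilinear over `θ : A →+* A`,
  which fixes `x` and `u` and permutes the places centered at the node, fixes the polynomials: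
  `P.map θ = P`.  (So the coefficients of `P⁺`, `P⁻` lie in the fixed ring of every group of
  such automorphisms fixing `u`.)
* `h74r_node_rat` : the node normal form with the polynomials and their rationality.
-/

set_option autoImplicit false
set_option linter.unusedSectionVars false
set_option linter.style.haveILetI false

open WithZero IsLocalRing Polynomial

namespace Fermat.Agent.P7

open Fermat.Agent.Red Fermat.Agent.LGC Fermat.Agent.S35

section Poly

variable {A : Type*} [CommRing A] [IsDomain A] [ValuationRing A] {ι : Type*}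

/-- the polynomial `∏ i ∈ T, (X - a_i) ^ k_i`. -/
noncomputable def h74rPoly (T : Finset ι) (a : ι → A) (k : ι → ℕ) : A[X] :=
  ∏ i ∈ T, (X - C (a i)) ^ k i

theorem h74r_monic (T : Finset ι) (a : ι → A) (k : ι → ℕ) : (h74rPoly T a k).Monic :=
  monic_prod_of_monic _ _ fun i _ => (monic_X_sub_C (a i)).pow (k i)

theorem h74r_map (T : Finset ι) (a : ι → A) (k : ι → ℕ) {R : Type*} [CommRing R]
    (f : A →+* R) :
    (h74rPoly T a k).map f = ∏ i ∈ T, (X - C (f (a i))) ^ k i := by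
  unfold h74rPoly
  rw [Polynomial.map_prod]
  refine Finset.prod_congr rfl fun i _ => ?_
  rw [Polynomial.map_pow, Polynomial.map_sub, map_X, map_C]

theorem h74r_map_residue (T : Finset ι) (a : ι → A) (k : ι → ℕ)
    (ha : ∀ i ∈ T, a i ∈ maximalIdeal A) :
    (h74rPoly T a k).map (residue A) = X ^ (∑ i ∈ T, k i) := by
  rw [h74r_map, ← Finset.prod_pow_eq_pow_sum]
  refine Finset.prod_congr rfl fun i hi => ?_
  rw [(residue_eq_zero_iff (a i)).mpr (ha i hi), map_zero, sub_zero]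

theorem h74r_natDegree (T : Finset ι) (a : ι → A) (k : ι → ℕ)
    (ha : ∀ i ∈ T, a i ∈ maximalIdeal A) :
    (h74rPoly T a k).natDegree = ∑ i ∈ T, k i := by
  rw [← (h74r_monic T a k).natDegree_map (residue A), h74r_map_residue T a k ha,
    natDegree_X_pow]

/-- the lower coefficients lie in the maximal ideal. -/
theorem h74r_coeff_mem (T : Finset ι) (a : ι → A) (k : ι → ℕ)
    (ha : ∀ i ∈ T, a i ∈ maximalIdeal A) (j : ℕ) (hj : j < (h74rPoly T a k).natDegree) :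
    (h74rPoly T a k).coeff j ∈ maximalIdeal A := by
  rw [← residue_eq_zero_iff, ← coeff_map, h74r_map_residue T a k ha, coeff_X_pow,
    if_neg]
  rw [h74r_natDegree T a k ha] at hj
  exact hj.ne

theorem h74r_coeff_zero (T : Finset ι) (a : ι → A) (k : ι → ℕ) :
    (h74rPoly T a k).coeff 0 = ∏ i ∈ T, (-(a i)) ^ k i := by
  rw [coeff_zero_eq_eval_zero]
  unfold h74rPoly
  rw [eval_prod]
  refine Finset.prod_congr rfl fun i _ => ?_
  rw [eval_pow, eval_sub, eval_X, eval_C, zero_sub]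

theorem h74r_aeval {F : Type*} [Field F] [Algebra A F] (T : Finset ι) (a : ι → A) (k : ι → ℕ)
    (x : F) :
    aeval x (h74rPoly T a k) = ∏ i ∈ T, (x - algebraMap A F (a i)) ^ k i := by
  unfold h74rPoly
  rw [map_prod]
  refine Finset.prod_congr rfl fun i _ => ?_
  rw [map_pow, map_sub, aeval_X, aeval_C]

/-- `P (ϖ X) = P(0) · Q` with `Q ≡ 1` modulo `𝔪_A`. -/
def H74rIn (ϖ : A) (P : A[X]) : Prop :=
  ∃ Q : A[X], Q.map (residue A) = 1 ∧ P.comp (C ϖ * X) = C (P.coeff 0) * Q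

theorem h74r_in_one (ϖ : A) : H74rIn ϖ (1 : A[X]) :=
  ⟨1, Polynomial.map_one _, by rw [one_comp, coeff_one_zero, C_1, one_mul]⟩

theorem h74r_in_mul {ϖ : A} {P₁ P₂ : A[X]} (h₁ : H74rIn ϖ P₁) (h₂ : H74rIn ϖ P₂) :
    H74rIn ϖ (P₁ * P₂) := by
  obtain ⟨Q₁, hQ₁, e₁⟩ := h₁
  obtain ⟨Q₂, hQ₂, e₂⟩ := h₂
  refine ⟨Q₁ * Q₂, by rw [Polynomial.map_mul, hQ₁, hQ₂, one_mul], ?_⟩
  rw [mul_comp, e₁, e₂, mul_coeff_zero, C_mul]
  ring

theorem h74r_in_pow {ϖ : A} {P : A[X]} (h : H74rIn ϖ P) (k : ℕ) : H74rIn ϖ (P ^ k) := by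
  induction k with
  | zero => rw [pow_zero]; exact h74r_in_one ϖ
  | succ k ih => rw [pow_succ]; exact h74r_in_mul ih h

theorem h74r_in_prod {ϖ : A} {α : Type*} (T : Finset α) (P : α → A[X])
    (h : ∀ i ∈ T, H74rIn ϖ (P i)) : H74rIn ϖ (∏ i ∈ T, P i) := by
  classical
  induction T using Finset.induction_on with
  | empty => rw [Finset.prod_empty]; exact h74r_in_one ϖ
  | insert i T hi ih =>
    rw [Finset.prod_insert hi]
    exact h74r_in_mul (h i (Finset.mem_insert_self i T))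
      (ih fun j hj => h j (Finset.mem_insert_of_mem hj))

theorem h74r_in_linear {ϖ a b g : A} (hb : b ∈ maximalIdeal A) (hg : IsUnit g)
    (hab : a * b = ϖ * g) : H74rIn ϖ (X - C a) := by
  obtain ⟨g', hg'⟩ := hg.exists_right_inv
  refine ⟨1 - C (b * g') * X, ?_, ?_⟩
  · rw [Polynomial.map_sub, Polynomial.map_one, Polynomial.map_mul, map_C, map_X,
      (residue_eq_zero_iff (b * g')).mpr (Ideal.mul_mem_right _ _ hb), map_zero, zero_mul,
      sub_zero]
  · have h0 : (X - C a : A[X]).coeff 0 = -a := by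
      rw [coeff_sub, coeff_X_zero, coeff_C_zero, zero_sub]
    rw [h0, sub_comp, X_comp, C_comp]
    have h1 : ϖ = a * (b * g') := by
      rw [← mul_assoc, hab, mul_assoc, hg', mul_one]
    nth_rewrite 1 [h1]
    rw [C_neg, C_mul (a := a)]
    ring

/-- roots strictly inside the annulus: the scaled coefficients are small. -/
theorem h74r_scaled (T : Finset ι) (a b g : ι → A) (k : ι → ℕ) (ϖ : A)
    (h : ∀ i ∈ T, b i ∈ maximalIdeal A ∧ IsUnit (g i) ∧ a i * b i = ϖ * g i)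
    (j : ℕ) (hj : 1 ≤ j) :
    ∃ r ∈ maximalIdeal A,
      (h74rPoly T a k).coeff j * ϖ ^ j = r * (h74rPoly T a k).coeff 0 := by
  obtain ⟨Q, hQ, e⟩ : H74rIn ϖ (h74rPoly T a k) :=
    h74r_in_prod T _ fun i hi => h74r_in_pow (h74r_in_linear (h i hi).1 (h i hi).2.1
      (h i hi).2.2) (k i)
  refine ⟨Q.coeff j, ?_, ?_⟩
  · rw [← residue_eq_zero_iff, ← coeff_map, hQ, coeff_one, if_neg]
    omega
  · rw [← comp_C_mul_X_coeff, e, coeff_C_mul, mul_comm]

end Poly

section Rat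

variable {A : Type*} [CommRing A] [IsDomain A] [ValuationRing A]
  {F : Type*} [Field F] [Algebra A F]
  {B : Subalgebra A F} {V : Subring F} {ι : Type*} {v : ι → Valuation F ℤᵐ⁰}

/-- **Rationality of the divisor polynomial.**  An endomorphism `τ` of `F`, `θ`-semilinear
on the constants, which fixes `x` and `u` and moves the places centered at `𝔫` among themselves
(`π`), fixes the polynomial `∏ (X - a_i) ^ k (n_i)` of the zeros and poles of `u` centered at
`𝔫`. -/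
theorem h74r_invariant
    (hinj : ∀ i k, (∀ b : B, v i (b : F) < 1 → v k (b : F) < 1) → i = k)
    (𝔫 : Ideal B) (x u : F) (r : ℕ) (hr : 0 < r)
    (T : Finset ι) (a : ι → A) (n : ι → ℤ)
    (hTc : ∀ i ∈ T, h26Centered B v 𝔫 i)
    (hroot : ∀ i ∈ T, v i (x - algebraMap A F (a i)) < 1)
    (hord : ∀ i ∈ T, v i u = exp (-((r : ℤ) * n i)))
    (hne : ∀ i ∈ T, n i ≠ 0)
    (hoff : ∀ k, h26Centered B v 𝔫 k → k ∉ T → v k u = 1)
    (hconst : ∀ k, h26Centered B v 𝔫 k → ∀ c : A, c ≠ 0 → v k (algebraMap A F c) = 1)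
    (τ : F →+* F) (θ : A →+* A) (hτθ : ∀ c, τ (algebraMap A F c) = algebraMap A F (θ c))
    (π : ι → ι) (hπ : ∀ i f, v (π i) (τ f) = v i f)
    (hπc : ∀ i, h26Centered B v 𝔫 i → h26Centered B v 𝔫 (π i))
    (hτx : τ x = x) (hτu : τ u = u) (k : ℤ → ℕ) :
    (h74rPoly T a (fun i => k (n i))).map θ = h74rPoly T a (fun i => k (n i)) := by
  classical
  have hvu : ∀ i, v (π i) u = v i u := by
    intro i
    have := hπ i u
    rwa [hτu] at this
  have hr0 : (r : ℤ) ≠ 0 := by exact_mod_cast hr.ne'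
  have hπT : ∀ i ∈ T, π i ∈ T := by
    intro i hi
    by_contra hn
    have h1 := hoff (π i) (hπc i (hTc i hi)) hn
    rw [hvu i, hord i hi, exp_eq_one, neg_eq_zero] at h1
    rcases mul_eq_zero.mp h1 with h | h
    · exact hr0 h
    · exact hne i hi h
  have hπn : ∀ i ∈ T, n (π i) = n i := by
    intro i hi
    have h1 := hvu i
    rw [hord i hi, hord (π i) (hπT i hi), exp_inj, neg_inj] at h1
    exact mul_left_cancel₀ hr0 h1
  have hπa : ∀ i ∈ T, a (π i) = θ (a i) := by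
    intro i hi
    have h1 : v (π i) (x - algebraMap A F (θ (a i))) < 1 := by
      have := hπ i (x - algebraMap A F (a i))
      rw [map_sub, hτx, hτθ] at this
      rw [this]
      exact hroot i hi
    have h2 := hroot (π i) (hπT i hi)
    by_contra hne'
    have h3 : θ (a i) - a (π i) ≠ 0 := fun h => hne' (sub_eq_zero.mp h).symm
    have h4 := hconst (π i) (hπc i (hTc i hi)) _ h3
    have h5 : algebraMap A F (θ (a i) - a (π i)) =
        (x - algebraMap A F (a (π i))) - (x - algebraMap A F (θ (a i))) := by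
      rw [map_sub]; ring
    rw [h5] at h4
    have h6 := Valuation.map_sub (v (π i)) (x - algebraMap A F (a (π i)))
      (x - algebraMap A F (θ (a i)))
    rw [h4] at h6
    exact absurd h6 (not_le.mpr (max_lt h2 h1))
  have hπinj : Set.InjOn π (T : Set ι) := by
    intro i _ j _ hij
    refine hinj i j fun b hb => ?_
    have h1 := hπ i (b : F)
    have h2 := hπ j (b : F)
    rw [← h2, ← hij, h1]
    exact hb
  have himg : T.image π = T :=
    Finset.eq_of_subset_of_card_le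
      (fun j hj => by
        obtain ⟨i, hi, rfl⟩ := Finset.mem_image.mp hj
        exact hπT i hi)
      (by rw [Finset.card_image_of_injOn hπinj])
  rw [h74r_map]
  unfold h74rPoly
  calc ∏ i ∈ T, (X - C (θ (a i))) ^ k (n i)
      = ∏ i ∈ T, (X - C (a (π i))) ^ k (n (π i)) :=
        Finset.prod_congr rfl fun i hi => by rw [hπa i hi, hπn i hi]
    _ = ∏ j ∈ T.image π, (X - C (a j)) ^ k (n j) :=
        (Finset.prod_image (f := fun j => (X - C (a j)) ^ k (n j)) hπinj).symm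
    _ = ∏ j ∈ T, (X - C (a j)) ^ k (n j) := by rw [himg]

/-- the quotient of the two evaluations is the product of the integral powers. -/
theorem h74r_quot (T : Finset ι) (a : ι → A) (n : ι → ℤ) (x : F)
    (hx : ∀ i ∈ T, x - algebraMap A F (a i) ≠ 0) :
    aeval x (h74rPoly T a (fun i => (n i).toNat)) *
      (aeval x (h74rPoly T a (fun i => (-(n i)).toNat)))⁻¹ =
      ∏ i ∈ T, (x - algebraMap A F (a i)) ^ n i := by
  rw [h74r_aeval, h74r_aeval, ← Finset.prod_inv_distrib, ← Finset.prod_mul_distrib]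
  refine Finset.prod_congr rfl fun i hi => ?_
  have h0 := hx i hi
  rcases le_total 0 (n i) with h | h
  · have h1 : (-(n i)).toNat = 0 := Int.toNat_eq_zero.mpr (by omega)
    rw [h1, pow_zero, inv_one, mul_one]
    conv_rhs => rw [← Int.toNat_of_nonneg h]
    rw [zpow_natCast]
  · have h1 : (n i).toNat = 0 := Int.toNat_eq_zero.mpr h
    rw [h1, pow_zero, one_mul]
    have h2 : n i = -(((-(n i)).toNat : ℕ) : ℤ) := by
      rw [Int.toNat_of_nonneg (by omega)]; ring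
    conv_rhs => rw [h2]
    rw [zpow_neg, zpow_natCast]

/-- the same for the constant coefficients. -/
theorem h74r_quot_zero (T : Finset ι) (a : ι → A) (n : ι → ℤ)
    (ha : ∀ i ∈ T, algebraMap A F (a i) ≠ 0) :
    algebraMap A F ((h74rPoly T a (fun i => (n i).toNat)).coeff 0) *
      (algebraMap A F ((h74rPoly T a (fun i => (-(n i)).toNat)).coeff 0))⁻¹ =
      ∏ i ∈ T, (-algebraMap A F (a i)) ^ n i := by
  rw [h74r_coeff_zero, h74r_coeff_zero, map_prod, map_prod, ← Finset.prod_inv_distrib,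
    ← Finset.prod_mul_distrib]
  refine Finset.prod_congr rfl fun i hi => ?_
  have h0 : -algebraMap A F (a i) ≠ 0 := neg_ne_zero.mpr (ha i hi)
  rw [map_pow, map_pow, map_neg]
  rcases le_total 0 (n i) with h | h
  · have h1 : (-(n i)).toNat = 0 := Int.toNat_eq_zero.mpr (by omega)
    rw [h1, pow_zero, inv_one, mul_one]
    conv_rhs => rw [← Int.toNat_of_nonneg h]
    rw [zpow_natCast]
  · have h1 : (n i).toNat = 0 := Int.toNat_eq_zero.mpr h
    rw [h1, pow_zero, one_mul]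
    have h2 : n i = -(((-(n i)).toNat : ℕ) : ℤ) := by
      rw [Int.toNat_of_nonneg (by omega)]; ring
    conv_rhs => rw [h2]
    rw [zpow_neg, zpow_natCast]

/-- **The node normal form with rational polynomials.**  Hypotheses of `h74u_node_slope` and
`0 < r`.  The function `u` is `e · x ^ m · (P⁺(x) / P⁻(x)) ^ r` with `e` a unit of `B_𝔫`,
`P⁺, P⁻ ∈ A[X]` monic with all roots strictly inside the annulus of the node, the jump is
`θ⁻¹ = t · a ^ m · (P⁺(0) / P⁻(0)) ^ r`, and `P⁺`, `P⁻` are fixed by every semilinear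
endomorphism of `F` which fixes `x` and `u` and permutes the places centered at `𝔫`. -/
theorem h74r_node_rat
    (hC : H26Chart B V v) (hAF : Function.Injective (algebraMap A F))
    (Winf W0 : Subring F)
    (hVWinf : ∀ x ∈ V, x ∈ Winf) (hVW0 : ∀ x ∈ V, x ∈ W0)
    (hWV : ∀ x : F, x ∈ Winf → x ∈ W0 → x ∈ V)
    (hinvinf : ∀ π ∈ maximalIdeal A, ∀ x ∈ Winf, (1 + algebraMap A F π * x)⁻¹ ∈ Winf)
    (hinv0 : ∀ π ∈ maximalIdeal A, ∀ x ∈ W0, (1 + algebraMap A F π * x)⁻¹ ∈ W0)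
    (hntinf : ∀ π ∈ maximalIdeal A, ∀ x ∈ Winf, algebraMap A F π * x ≠ 1)
    (hnt0 : ∀ π ∈ maximalIdeal A, ∀ x ∈ W0, algebraMap A F π * x ≠ 1)
    (𝔫 : Ideal B) [h𝔫 : 𝔫.IsPrime] (h𝔪𝔫 : (maximalIdeal A).map (algebraMap A B) ≤ 𝔫)
    (hninf : ∀ b : B, b ∉ 𝔫 → ((b : F))⁻¹ ∈ Winf)
    (hn0 : ∀ b : B, b ∉ 𝔫 → ((b : F))⁻¹ ∈ W0)
    (x y c : B) (hx : x ∈ 𝔫) (hy : y ∈ 𝔫) (hc : c ∉ 𝔫) (a : A) (ha : a ≠ 0)
    (ham : a ∈ maximalIdeal A) (harch : ∀ t : A, t ≠ 0 → ∃ k : ℕ, ¬ a ^ k ∣ t)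
    (hxy : x * y = algebraMap A B a * c)
    (hxinf : ((x : F))⁻¹ ∈ Winf) (hy0 : ((y : F))⁻¹ ∈ W0)
    (hprin : ∀ z ∈ 𝔫, ∃ s, s ∉ 𝔫 ∧
      s * z ∈ Ideal.span {x, y} ⊔ (maximalIdeal A).map (algebraMap A B))
    (hsec : ∀ i, h26Centered B v 𝔫 i → ∃ φ : B →ₐ[A] A,
      (∀ b : B, φ b = 0 ↔ v i (b : F) < 1) ∧ (RingHom.ker (φ : B →+* A)).FG)
    (u : F) (hu : u ≠ 0) (r : ℕ) (hr : 0 < r)
    (hru : ∀ i, h26Centered B v 𝔫 i → ∃ n : ℤ, v i u = exp (-((r : ℤ) * n)))
    (huinf : u ∈ Winf) (huinf' : u⁻¹ ∈ Winf)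
    (θ : F) (hθ : h13x_IsConst A θ) (hθ0 : θ ≠ 0)
    (hu0 : θ * u ∈ W0) (hu0' : (θ * u)⁻¹ ∈ W0) :
    ∃ (Pp Pm : A[X]) (m : ℤ) (e : F) (t : A),
      Pp.Monic ∧ Pm.Monic ∧
      (∀ j, j < Pp.natDegree → Pp.coeff j ∈ maximalIdeal A) ∧
      (∀ j, j < Pm.natDegree → Pm.coeff j ∈ maximalIdeal A) ∧
      (∀ j, 1 ≤ j → ∃ ρ ∈ maximalIdeal A, Pp.coeff j * a ^ j = ρ * Pp.coeff 0) ∧
      (∀ j, 1 ≤ j → ∃ ρ ∈ maximalIdeal A, Pm.coeff j * a ^ j = ρ * Pm.coeff 0) ∧
      Pp.coeff 0 ≠ 0 ∧ Pm.coeff 0 ≠ 0 ∧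
      aeval (x : F) Pp ≠ 0 ∧ aeval (x : F) Pm ≠ 0 ∧
      u = e * (x : F) ^ m * (aeval (x : F) Pp * (aeval (x : F) Pm)⁻¹) ^ r ∧
      h74uUnitAt B 𝔫 e ∧ IsUnit t ∧
      θ⁻¹ = algebraMap A F t * (algebraMap A F a) ^ m *
        (algebraMap A F (Pp.coeff 0) * (algebraMap A F (Pm.coeff 0))⁻¹) ^ r ∧
      ∀ (τ : F →+* F) (θ' : A →+* A) (π : ι → ι),
        (∀ c, τ (algebraMap A F c) = algebraMap A F (θ' c)) →
        (∀ i f, v (π i) (τ f) = v i f) →
        (∀ i, h26Centered B v 𝔫 i → h26Centered B v 𝔫 (π i)) →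
        τ (x : F) = x → τ u = u → Pp.map θ' = Pp ∧ Pm.map θ' = Pm := by
  classical
  obtain ⟨T, ai, bi, gi, n, m, e, t, hT, hoff, hue, hun, ht, hθt⟩ :=
    h74u_node_slope hC hAF Winf W0 hVWinf hVW0 hWV hinvinf hinv0 hntinf hnt0 𝔫 h𝔪𝔫 hninf hn0
      x y c hx hy hc a ha ham harch hxy hxinf hy0 hprin hsec u hu r hru huinf huinf' θ hθ hθ0
      hu0 hu0'
  set T' : Finset ι := T.filter (fun i => n i ≠ 0) with hT'
  have hT'T : ∀ i ∈ T', i ∈ T := fun i hi => (Finset.mem_filter.mp hi).1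
  have hne : ∀ i ∈ T', n i ≠ 0 := fun i hi => (Finset.mem_filter.mp hi).2
  have hoff' : ∀ k, h26Centered B v 𝔫 k → k ∉ T' → v k u = 1 := by
    intro k hk hkT'
    by_cases hkT : k ∈ T
    · have h0 : n k = 0 := by
        by_contra h
        exact hkT' (Finset.mem_filter.mpr ⟨hkT, h⟩)
      rw [(hT k hkT).2.2.2.2.2.2, h0, mul_zero, neg_zero, exp_zero]
    · exact hoff k hk hkT
  have hai0 : ∀ i ∈ T, algebraMap A F (ai i) ≠ 0 := by
    intro i hi h0
    have h1 : ai i = 0 := hAF (by rw [h0, map_zero])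
    have h2 := (hT i hi).2.2.2.2.1
    rw [h1, zero_mul] at h2
    exact mul_ne_zero ha (hT i hi).2.2.2.1.ne_zero h2.symm
  have hG0 : ∀ i ∈ T, (x : F) - algebraMap A F (ai i) ≠ 0 := by
    intro i hi h0
    have h1 := (hT i hi).2.2.2.2.2.1
    rw [h0, map_zero] at h1
    exact exp_ne_zero h1.symm
  have hprodG : ∏ i ∈ T', ((x : F) - algebraMap A F (ai i)) ^ n i =
      ∏ i ∈ T, ((x : F) - algebraMap A F (ai i)) ^ n i := by
    rw [hT']
    refine Finset.prod_filter_of_ne fun i _ hi h0 => hi ?_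
    rw [h0, zpow_zero]
  have hprodA : ∏ i ∈ T', (-algebraMap A F (ai i)) ^ n i =
      ∏ i ∈ T, (-algebraMap A F (ai i)) ^ n i := by
    rw [hT']
    refine Finset.prod_filter_of_ne fun i _ hi h0 => hi ?_
    rw [h0, zpow_zero]
  set Pp : A[X] := h74rPoly T' ai (fun i => (n i).toNat) with hPp
  set Pm : A[X] := h74rPoly T' ai (fun i => (-(n i)).toNat) with hPm
  have haim : ∀ i ∈ T', ai i ∈ maximalIdeal A := fun i hi => (hT i (hT'T i hi)).2.1
  have hscal : ∀ i ∈ T', bi i ∈ maximalIdeal A ∧ IsUnit (gi i) ∧ ai i * bi i = a * gi i :=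
    fun i hi => ⟨(hT i (hT'T i hi)).2.2.1, (hT i (hT'T i hi)).2.2.2.1,
      (hT i (hT'T i hi)).2.2.2.2.1⟩
  have hconst : ∀ k, h26Centered B v 𝔫 k → ∀ c : A, c ≠ 0 → v k (algebraMap A F c) = 1 := by
    intro k hk c' hc'
    obtain ⟨ψ, hψker, -⟩ := hsec k hk
    exact h75p_const_of_section hC.hB k ψ hψker c' hc'
  have hcoeff0 : ∀ k : ι → ℕ, (h74rPoly T' ai k).coeff 0 ≠ 0 := by
    intro k
    rw [h74r_coeff_zero]
    refine Finset.prod_ne_zero_iff.mpr fun i hi => pow_ne_zero _ (neg_ne_zero.mpr ?_)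
    intro h0
    exact hai0 i (hT'T i hi) (by rw [h0, map_zero])
  have haeval0 : ∀ k : ι → ℕ, aeval (x : F) (h74rPoly T' ai k) ≠ 0 := by
    intro k
    rw [h74r_aeval]
    exact Finset.prod_ne_zero_iff.mpr fun i hi => pow_ne_zero _ (hG0 i (hT'T i hi))
  refine ⟨Pp, Pm, m, e, t, h74r_monic _ _ _, h74r_monic _ _ _,
    fun j hj => h74r_coeff_mem T' ai _ haim j hj,
    fun j hj => h74r_coeff_mem T' ai _ haim j hj,
    fun j hj => h74r_scaled T' ai bi gi _ a hscal j hj,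
    fun j hj => h74r_scaled T' ai bi gi _ a hscal j hj,
    hcoeff0 _, hcoeff0 _, haeval0 _, haeval0 _, ?_, hun, ht, ?_, ?_⟩
  · rw [hPp, hPm, h74r_quot T' ai n (x : F) (fun i hi => hG0 i (hT'T i hi)), hprodG]
    exact hue
  · rw [hPp, hPm, h74r_quot_zero T' ai n (fun i hi => hai0 i (hT'T i hi)), hprodA]
    exact hθt
  · intro τ θ' π hτθ hπ hπc hτx hτu
    have hinv := h74r_invariant hC.hinj 𝔫 (x : F) u r hr T' ai n
      (fun i hi => (hT i (hT'T i hi)).1)
      (fun i hi => by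
        rw [(hT i (hT'T i hi)).2.2.2.2.2.1]
        exact exp_lt_exp.mpr (by norm_num) |>.trans_eq exp_zero)
      (fun i hi => (hT i (hT'T i hi)).2.2.2.2.2.2) hne hoff' hconst τ θ' hτθ π hπ hπc hτx hτu
    exact ⟨hinv (fun z => z.toNat), hinv (fun z => (-z).toNat)⟩

end Rat

end Fermat.Agent.P7
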