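import Fermat.Agent.P7.H8LocWAbs
import Fermat.Agent.P7.H47LocTop
import Fermat.Agent.S05.Kernel
import Fermat.Agent.S13.AsmGroups
import Fermat.Agent.Tors.Qbar
import Fermat.Agent.P5.H98DescFin
import Fermat.Agent.P5.H87Adapter

/-!
# Wave 7 (row 38 via S44), LOCAL-MULT, leaf LM4 FLAT (helper75, prefix `h75f`)

`Ws : WeierstrassCurve ℚ` any model over `ℚ` with `Ws.Δ ≠ 0` (for S44: the short nodal model of
the Frey curve at `p ∣ abc`), `𝔾 = (Ws ⁄ ℚ̄).Point`, `A` a valuation subring of `ℚ̄` over `p`.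
This file is the `ℚ`-model copy of `P7/H8LocWInst.lean` (`h8w_flat_of`) and of
`P7/H47LocTop.lean` (`h47w_locFlat_rho_of_order`), with the inertia package required ONLY on the
torsion points (in multiplicative reduction the inertia is not trivial modulo `E¹` on all points).

* (FIN) `h75f_finite`, `h75f_isGalAct`, `h75f_isAct`;
* (WIRE) `h75f_flat_of_order` : a local order `H96LocOrder` on `Ws[n]` at ONE `A` over `p` gives
  the Prelude's flatness `h97c_Flat p Ws[n]`; `h75f_locFlat_of_order`, `h75f_locFlat_rho_of_order`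
  (`LocFlat` for the local representation `h75fRho Ws p`, the input shape of the L-PEU core);
* (KER) `h75fE1`, `h75fZ` : kernel of reduction and the coordinate `z = -x/y` for the `ℚ`-model;
  `H75fKerT` : the TORSION-RESTRICTED inputs of the abstract order step (leaf LM1);
  `H75fTorsW` : the inputs at the instance (leaves LM2 NODE-LIFT + LM3 INST-Q);
  `h75f_kerT_of : H75fTorsW Ws A m → H75fKerT A (h75fE1 Ws A _) (h75fZ Ws A) m`;
* (FLAT) `h75f_flat_of` / `h75f_locFlat_rho_of` : LM1 (as a hypothesis in the shape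
  `H75fKerT → H96LocOrder`) + LM2 + LM3 ⟹ `h97c_Flat p Ws[n]` and `LocFlat p Ws[p] ρ`.
-/

set_option autoImplicit false
set_option linter.style.haveILetI false
set_option linter.unusedSectionVars false

noncomputable section

namespace Fermat.Agent.P7

open WeierstrassCurve WeierstrassCurve.Affine WeierstrassCurve.Affine.Point
  Fermat.Agent.S05 Fermat.Agent.S37 Fermat.Agent.P5
open scoped WeierstrassCurve.Affine

/-- the group of `ℚ̄`-points of a model over `ℚ`. -/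
abbrev h75fPt (Ws : WeierstrassCurve ℚ) : Type := (Ws⁄Kbar).Point

/-! ### FIN -/

section Fin

variable (Ws : WeierstrassCurve ℚ)

theorem h75f_finite (hΔ : Ws.Δ ≠ 0) (n : ℕ) (hn : n ≠ 0) :
    Finite (h8wT (h75fPt Ws) (n : ℤ)) :=
  Fermat.Agent.Tors.finite_torsionBy_qbar Ws hΔ n hn

/-- (FIN) the Galois action on `Ws[n]` is a continuous action by automorphisms. -/
theorem h75f_isGalAct (hΔ : Ws.Δ ≠ 0) (n : ℕ) (hn : n ≠ 0) :
    H98pIsGalAct (h8wAct (𝔾 := h75fPt Ws) (n : ℤ)) where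
  one := fun x => Subtype.ext (one_smul GQ (x : h75fPt Ws))
  mul := fun σ τ x => Subtype.ext (mul_smul σ τ (x : h75fPt Ws))
  add := fun σ x y => Subtype.ext (smul_add σ (x : h75fPt Ws) (y : h75fPt Ws))
  cont := by
    haveI : Finite (Fermat.Agent.S13.Tors Ws n) := h75f_finite Ws hΔ n hn
    haveI : Algebra.IsAlgebraic ℚ Kbar := AlgebraicClosure.isAlgebraic ℚ
    obtain ⟨S₁, hS₁⟩ := Fermat.Agent.S13.Asm.exists_finset_fix (W := Ws) (p := n)
    refine ⟨IntermediateField.adjoin ℚ (S₁ : Set Kbar),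
      IntermediateField.finiteDimensional_adjoin
        (fun x _ => (Algebra.IsIntegral.isIntegral x)), ?_⟩
    intro σ hσ x
    have h1 := hS₁ σ (fun s hs => hσ s (IntermediateField.subset_adjoin ℚ _ hs)) x
    exact h1

/-- (FIN) the action is an action. -/
theorem h75f_isAct (n : ℕ) : S56F.IsAct (h8wAct (𝔾 := h75fPt Ws) (n : ℤ)) :=
  ⟨fun x => Subtype.ext (one_smul GQ (x : h75fPt Ws)),
    fun σ τ x => Subtype.ext (mul_smul σ τ (x : h75fPt Ws)),
    fun σ x y => Subtype.ext (smul_add σ (x : h75fPt Ws) (y : h75fPt Ws))⟩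

/-- the action `h8wAct` is the Prelude's action on the torsion module. -/
theorem h75fAct_eq (n : ℕ) (σ : GQ) (x : Submodule.torsionBy ℤ (Ws⁄Kbar).Point n) :
    h8wAct (𝔾 := h75fPt Ws) (n : ℤ) σ x = σ • x := rfl

end Fin

/-! ### WIRE: a local order gives flatness and `LocFlat` -/

section Wire

variable (Ws : WeierstrassCurve ℚ)

/-- (WIRE) a local order at ONE valuation subring over `p` gives the Prelude's flatness of
`Ws[n](ℚ̄)` at `p`. -/
theorem h75f_flat_of_order (hΔ : Ws.Δ ≠ 0) (p : ℕ) [Fact p.Prime] (n : ℕ) (hn : n ≠ 0)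
    (A : ValuationSubring Kbar) (hA : A.LiesOverPrime p)
    (G : Set (h8wT (h75fPt Ws) (n : ℤ) → Kbar))
    (hG : H96LocOrder A (h8wAct (𝔾 := h75fPt Ws) (n : ℤ)) G) :
    h97c_Flat p (h8wT (h75fPt Ws) (n : ℤ)) (h8wAct (𝔾 := h75fPt Ws) (n : ℤ)) := by
  haveI : Finite (h8wT (h75fPt Ws) (n : ℤ)) := h75f_finite Ws hΔ n hn
  exact h87x_adapter p _ _ (h98f_descent p _ _ (h75f_isGalAct Ws hΔ n hn) A hA G hG)

/-- (LOCAL) the Prelude's flatness gives `LocFlat` for `Ws[n](ℚ̄)`. -/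
theorem h75f_locFlat_of_flat (hΔ : Ws.Δ ≠ 0) (p : ℕ) [Fact p.Prime] (n : ℕ) (hn : n ≠ 0)
    (hfl : h97c_Flat p (h8wT (h75fPt Ws) (n : ℤ)) (h8wAct (𝔾 := h75fPt Ws) (n : ℤ))) :
    S56F.LocFlat p (h8wT (h75fPt Ws) (n : ℤ))
      (fun τ => h8wAct (𝔾 := h75fPt Ws) (n : ℤ) (S56F.ιp p τ)) := by
  haveI : Finite (h8wT (h75fPt Ws) (n : ℤ)) := h75f_finite Ws hΔ n hn
  exact h47w_locFlat_of_flat p _ _ (h75f_isAct Ws n) hfl

/-- (LOCAL) a local order at one valuation subring over `p` gives `LocFlat` for `Ws[n](ℚ̄)`. -/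
theorem h75f_locFlat_of_order (hΔ : Ws.Δ ≠ 0) (p : ℕ) [Fact p.Prime] (n : ℕ) (hn : n ≠ 0)
    (A : ValuationSubring Kbar) (hA : A.LiesOverPrime p)
    (G : Set (h8wT (h75fPt Ws) (n : ℤ) → Kbar))
    (hG : H96LocOrder A (h8wAct (𝔾 := h75fPt Ws) (n : ℤ)) G) :
    S56F.LocFlat p (h8wT (h75fPt Ws) (n : ℤ))
      (fun τ => h8wAct (𝔾 := h75fPt Ws) (n : ℤ) (S56F.ιp p τ)) :=
  h75f_locFlat_of_flat Ws hΔ p n hn (h75f_flat_of_order Ws hΔ p n hn A hA G hG)

/-- The local mod-`p` representation of the `ℚ`-model `Ws` at `p`. -/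
def h75fRho (p : ℕ) [Fact p.Prime] :
    PT.Loc.Gq p →* Module.End (ZMod p) (Submodule.torsionBy ℤ (Ws⁄Kbar).Point p) :=
  (galoisRepModuleEnd ℚ Ws p).comp (S56F.ιp p)

@[simp]
theorem h75fRho_apply (p : ℕ) [Fact p.Prime] (τ : PT.Loc.Gq p)
    (x : Submodule.torsionBy ℤ (Ws⁄Kbar).Point p) :
    h75fRho Ws p τ x = S56F.ιp p τ • x := rfl

/-- (LOCAL) flatness of `Ws[p]` gives `LocFlat` for the local representation (the input shape
of the L-PEU core `h24p_core`). -/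
theorem h75f_locFlat_rho_of_flat (hΔ : Ws.Δ ≠ 0) (p : ℕ) [Fact p.Prime]
    (hfl : h97c_Flat p (h8wT (h75fPt Ws) ((p : ℕ) : ℤ))
      (h8wAct (𝔾 := h75fPt Ws) ((p : ℕ) : ℤ))) :
    S56F.LocFlat p (Submodule.torsionBy ℤ (Ws⁄Kbar).Point p)
      (fun σ v => h75fRho Ws p σ v) :=
  h75f_locFlat_of_flat Ws hΔ p p (Fact.out : p.Prime).ne_zero hfl

/-- (LOCAL) a local order on `Ws[p]` gives `LocFlat` for the local representation. -/
theorem h75f_locFlat_rho_of_order (hΔ : Ws.Δ ≠ 0) (p : ℕ) [Fact p.Prime]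
    (A : ValuationSubring Kbar) (hA : A.LiesOverPrime p)
    (G : Set (h8wT (h75fPt Ws) ((p : ℕ) : ℤ) → Kbar))
    (hG : H96LocOrder A (h8wAct (𝔾 := h75fPt Ws) ((p : ℕ) : ℤ)) G) :
    S56F.LocFlat p (Submodule.torsionBy ℤ (Ws⁄Kbar).Point p)
      (fun σ v => h75fRho Ws p σ v) :=
  h75f_locFlat_of_order Ws hΔ p p (Fact.out : p.Prime).ne_zero A hA G hG

end Wire

/-! ### KER: the kernel of reduction and the coordinate for a `ℚ`-model -/

section Ker

variable (Ws : WeierstrassCurve ℚ) (A : ValuationSubring Kbar)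

/-- the coefficients of the model are integral at `A`. -/
structure H75fInt : Prop where
  a₁ : (Ws⁄Kbar).a₁ ∈ A
  a₂ : (Ws⁄Kbar).a₂ ∈ A
  a₃ : (Ws⁄Kbar).a₃ ∈ A
  a₄ : (Ws⁄Kbar).a₄ ∈ A
  a₆ : (Ws⁄Kbar).a₆ ∈ A

/-- the kernel of reduction at `A`. -/
def h75fE1 (hI : H75fInt Ws A) : AddSubgroup (h75fPt Ws) :=
  kernelOfReduction A hI.a₁ hI.a₂ hI.a₃ hI.a₄ hI.a₆

theorem h75f_mem_E1 (hI : H75fInt Ws A) {P : h75fPt Ws} :
    P ∈ h75fE1 Ws A hI ↔ InE1 A P := Iff.rfl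

open Classical in
/-- the coordinate `z = -x/y` on the kernel of reduction, zero outside. -/
def h75fZ : h75fPt Ws → Kbar := fun P => if InE1 A P then K56.zcoord P else 0

theorem h75fZ_pos {P : h75fPt Ws} (h : InE1 A P) : h75fZ Ws A P = K56.zcoord P := by
  unfold h75fZ
  rw [if_pos h]

theorem h75fZ_neg {P : h75fPt Ws} (h : ¬ InE1 A P) : h75fZ Ws A P = 0 := by
  unfold h75fZ
  rw [if_neg h]

theorem h75f_dec_mem {τ : GQ} (hτ : τ ∈ A.decompositionSubgroup ℚ) {a : Kbar} (ha : a ∈ A) :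
    τ a ∈ A :=
  (((⟨τ, hτ⟩ : A.decompositionSubgroup ℚ) • (⟨a, ha⟩ : A) : A)).2

theorem h75f_dec_mem_iff {τ : GQ} (hτ : τ ∈ A.decompositionSubgroup ℚ) (a : Kbar) :
    τ a ∈ A ↔ a ∈ A := by
  constructor
  · intro h
    have h1 := h75f_dec_mem A (inv_mem hτ) h
    have h2 : τ⁻¹ (τ a) = a := by
      rw [← AlgEquiv.mul_apply, inv_mul_cancel, AlgEquiv.one_apply]
    rwa [h2] at h1
  · exact h75f_dec_mem A hτ

theorem h75f_smul_some (τ : GQ) {x y : Kbar} (h : (Ws⁄Kbar).Nonsingular x y) :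
    ∃ h' : (Ws⁄Kbar).Nonsingular (τ x) (τ y),
      τ • (Affine.Point.some x y h : h75fPt Ws) = Affine.Point.some (τ x) (τ y) h' := by
  have h1 : τ • (Affine.Point.some x y h : h75fPt Ws) =
      Affine.Point.map (W' := Ws) τ.toAlgHom (Affine.Point.some x y h) := rfl
  rw [h1, Affine.Point.map_some]
  exact ⟨_, rfl⟩

theorem h75f_smul_zero' (τ : GQ) : τ • (0 : h75fPt Ws) = 0 := smul_zero (A := h75fPt Ws) τ

theorem h75f_inE1_smul {τ : GQ} (hτ : τ ∈ A.decompositionSubgroup ℚ) {P : h75fPt Ws}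
    (hP : InE1 A P) : InE1 A (τ • P) := by
  rcases hP with rfl | ⟨x, y, h, rfl, hx⟩
  · rw [h75f_smul_zero']
    exact inE1_zero A
  · obtain ⟨h', he⟩ := h75f_smul_some Ws τ h
    rw [he]
    exact (inE1_some A h').2 fun hmem => hx ((h75f_dec_mem_iff A hτ x).1 hmem)

theorem h75f_inE1_smul_iff {τ : GQ} (hτ : τ ∈ A.decompositionSubgroup ℚ) (P : h75fPt Ws) :
    InE1 A (τ • P) ↔ InE1 A P := by
  constructor
  · intro h
    have := h75f_inE1_smul Ws A (inv_mem hτ) h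
    rwa [inv_smul_smul] at this
  · exact h75f_inE1_smul Ws A hτ

theorem h75f_zcoord_smul (τ : GQ) (P : h75fPt Ws) :
    K56.zcoord (τ • P) = τ (K56.zcoord P) := by
  rcases P with _ | ⟨x, y, h⟩
  · show K56.zcoord (τ • (0 : h75fPt Ws)) = τ (K56.zcoord (0 : h75fPt Ws))
    rw [h75f_smul_zero', K56.zcoord_zero, _root_.map_zero]
  · obtain ⟨h', he⟩ := h75f_smul_some Ws τ h
    rw [he, K56.zcoord_some, K56.zcoord_some, map_div₀, map_neg]

theorem h75fZ_smul {τ : GQ} (hτ : τ ∈ A.decompositionSubgroup ℚ) (P : h75fPt Ws) :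
    h75fZ Ws A (τ • P) = τ (h75fZ Ws A P) := by
  by_cases hP : InE1 A P
  · rw [h75fZ_pos Ws A hP, h75fZ_pos Ws A (h75f_inE1_smul Ws A hτ hP), h75f_zcoord_smul]
  · rw [h75fZ_neg Ws A hP, h75fZ_neg Ws A (fun h => hP ((h75f_inE1_smul_iff Ws A hτ P).1 h)),
      _root_.map_zero]

/-- the restriction of `h75fZ` to a subset of `E¹` is the restriction of `zcoord`. -/
theorem h75fR_eq {S : Set (h75fPt Ws)} (hS : ∀ P ∈ S, InE1 A P) :
    h8wR A (h75fZ Ws A) S = Algebra.adjoin A {fun x : ↥S => K56.zcoord (x : h75fPt Ws)} := by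
  unfold h8wR
  congr 2
  funext x
  exact h75fZ_pos Ws A (hS _ x.2)

end Ker

/-! ### the torsion-restricted inputs -/

section KerT

variable {𝔾 : Type} [AddCommGroup 𝔾] [DistribMulAction GQ 𝔾]

/-- **The inputs of the abstract order step, TORSION-RESTRICTED** (leaf LM1): the same fields as
`H8wKer`, with `inert` and `lift` required only at the points killed by `m`. -/
structure H75fKerT (A : ValuationSubring Kbar) (E : AddSubgroup 𝔾) (z : 𝔾 → Kbar) (m : ℤ) :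
    Prop where
  z_out : ∀ x, x ∉ E → z x = 0
  z_int : ∀ x, z x ∈ A
  z_inj : ∀ x ∈ E, ∀ y ∈ E, z x = z y → x = y
  z_decomp : ∀ τ ∈ A.decompositionSubgroup ℚ, ∀ x : 𝔾, z (τ • x) = τ (z x)
  E_decomp : ∀ τ ∈ A.decompositionSubgroup ℚ, ∀ x ∈ E, τ • x ∈ E
  inert : ∀ σ ∈ A.inertiaSubgroupIn ℚ, ∀ x : 𝔾, m • x = 0 → σ • x - x ∈ E
  lift : ∀ y : 𝔾, m • y = 0 →
    ∃ c₀ : 𝔾, (∀ σ ∈ A.inertiaSubgroupIn ℚ, σ • c₀ = c₀) ∧ y - c₀ ∈ E
  add : ∀ S S' : Set 𝔾, S.Finite → S'.Finite → S ⊆ (E : Set 𝔾) → S' ⊆ (E : Set 𝔾) →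
    (fun p : ↥S × ↥S' => z ((p.1 : 𝔾) + (p.2 : 𝔾))) ∈ h96c_prod A (h8wR A z S) (h8wR A z S')

/-- the unrestricted inputs give the restricted ones. -/
theorem h75f_kerT_of_ker {A : ValuationSubring Kbar} {E : AddSubgroup 𝔾} {z : 𝔾 → Kbar}
    (hK : H8wKer A E z) (m : ℤ) : H75fKerT A E z m where
  z_out := hK.z_out
  z_int := hK.z_int
  z_inj := hK.z_inj
  z_decomp := hK.z_decomp
  E_decomp := hK.E_decomp
  inert := fun σ hσ x _ => hK.inert σ hσ x
  lift := fun y _ => hK.lift y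
  add := hK.add

end KerT

section Inst

variable (Ws : WeierstrassCurve ℚ) (A : ValuationSubring Kbar)

/-- **The inputs at the instance** (leaves LM2 NODE-LIFT and LM3 INST-Q): injectivity of `z` on
`E¹`, the inertia package on the `m`-torsion points, and the pointwise group law in the product
algebra. -/
structure H75fTorsW (m : ℤ) : Prop where
  int : H75fInt Ws A
  z_inj : ∀ P Q : h75fPt Ws, InE1 A P → InE1 A Q → K56.zcoord P = K56.zcoord Q → P = Q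
  inert : ∀ σ ∈ A.inertiaSubgroupIn ℚ, ∀ P : h75fPt Ws, m • P = 0 → InE1 A (σ • P - P)
  lift : ∀ P : h75fPt Ws, m • P = 0 → ∃ c₀ : h75fPt Ws,
    (∀ σ ∈ A.inertiaSubgroupIn ℚ, σ • c₀ = c₀) ∧ InE1 A (P - c₀)
  add : ∀ S S' : Set (h75fPt Ws), S.Finite → S'.Finite → (∀ P ∈ S, InE1 A P) →
    (∀ P ∈ S', InE1 A P) →
    (fun p : ↥S × ↥S' => K56.zcoord ((p.1 : h75fPt Ws) + (p.2 : h75fPt Ws))) ∈
      h96c_prod A (Algebra.adjoin A {fun x : ↥S => K56.zcoord (x : h75fPt Ws)})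
        (Algebra.adjoin A {fun x : ↥S' => K56.zcoord (x : h75fPt Ws)})

/-- the inertia-fixed lifts give `inert` (leaf LM2, corollary): if every `m`-torsion point is
`c₀ + e` with `c₀` inertia-fixed and `e ∈ E¹`, then the inertia is trivial modulo `E¹` on the
`m`-torsion. -/
theorem h75f_inert_of_lift (hI : H75fInt Ws A) (m : ℤ)
    (hlift : ∀ P : h75fPt Ws, m • P = 0 → ∃ c₀ : h75fPt Ws,
      (∀ σ ∈ A.inertiaSubgroupIn ℚ, σ • c₀ = c₀) ∧ InE1 A (P - c₀)) :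
    ∀ σ ∈ A.inertiaSubgroupIn ℚ, ∀ P : h75fPt Ws, m • P = 0 → InE1 A (σ • P - P) := by
  intro σ hσ P hP
  obtain ⟨c₀, hc₀, he⟩ := hlift P hP
  have hσd : σ ∈ A.decompositionSubgroup ℚ := h8w_inert_le hσ
  have h1 : InE1 A (σ • (P - c₀)) := h75f_inE1_smul Ws A hσd he
  have h2 : σ • P - P = σ • (P - c₀) - (P - c₀) := by
    rw [h8w_smul_sub, hc₀ σ hσ]
    abel
  rw [h2]
  exact (h75fE1 Ws A hI).sub_mem h1 he

/-- **the torsion-restricted inputs of the abstract order step, for the `ℚ`-model `Ws`.** -/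
theorem h75f_kerT_of (m : ℤ) (hT : H75fTorsW Ws A m) :
    H75fKerT A (h75fE1 Ws A hT.int) (h75fZ Ws A) m where
  z_out := fun _ hx => h75fZ_neg Ws A hx
  z_int := fun x => by
    by_cases hx : InE1 A x
    · rw [h75fZ_pos Ws A hx]
      exact K56.mem_of_mem_nonunits A (K56.zcoord_mem_nonunits A _ hT.int.a₁ hT.int.a₂
        hT.int.a₃ hT.int.a₄ hT.int.a₆ hx)
    · rw [h75fZ_neg Ws A hx]
      exact zero_mem A
  z_inj := fun x hx y hy h => by
    rw [h75fZ_pos Ws A hx, h75fZ_pos Ws A hy] at h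
    exact hT.z_inj x y hx hy h
  z_decomp := fun τ hτ x => h75fZ_smul Ws A hτ x
  E_decomp := fun τ hτ x hx => h75f_inE1_smul Ws A hτ hx
  inert := hT.inert
  lift := hT.lift
  add := fun S S' hS hS' hSE hS'E => by
    have hSE' : ∀ P ∈ S, InE1 A P := fun P hP => hSE hP
    have hS'E' : ∀ P ∈ S', InE1 A P := fun P hP => hS'E hP
    have h1 := hT.add S S' hS hS' hSE' hS'E'
    rw [h75fR_eq Ws A hSE', h75fR_eq Ws A hS'E']
    have h2 : (fun p : ↥S × ↥S' => h75fZ Ws A ((p.1 : h75fPt Ws) + (p.2 : h75fPt Ws))) =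
        fun p : ↥S × ↥S' => K56.zcoord ((p.1 : h75fPt Ws) + (p.2 : h75fPt Ws)) := by
      funext p
      exact h75fZ_pos Ws A ((h75fE1 Ws A hT.int).add_mem (hSE p.1.2) (hS'E p.2.2))
    rw [h2]
    exact h1

/-- **LM4 FLAT, conditional form**: LM1 (the torsion-restricted abstract order step, as a
hypothesis for this instance) + LM2 + LM3 (`H75fTorsW`) ⟹ `Ws[n]` is flat at `p`. -/
theorem h75f_flat_of (hΔ : Ws.Δ ≠ 0) (p : ℕ) [Fact p.Prime] (n : ℕ) (hn : n ≠ 0)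
    (hA : A.LiesOverPrime p) (hT : H75fTorsW Ws A (n : ℤ))
    (hLM1 : H75fKerT A (h75fE1 Ws A hT.int) (h75fZ Ws A) (n : ℤ) →
      H96LocOrder A (h8wAct (𝔾 := h75fPt Ws) (n : ℤ))
        (h8wG A (h75fE1 Ws A hT.int) (h75fZ Ws A) (n : ℤ))) :
    h97c_Flat p (h8wT (h75fPt Ws) (n : ℤ)) (h8wAct (𝔾 := h75fPt Ws) (n : ℤ)) :=
  h75f_flat_of_order Ws hΔ p n hn A hA _ (hLM1 (h75f_kerT_of Ws A (n : ℤ) hT))

/-- **LM4 FLAT, conditional form, `LocFlat` for the local representation of `Ws[p]`.** -/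
theorem h75f_locFlat_rho_of (hΔ : Ws.Δ ≠ 0) (p : ℕ) [Fact p.Prime]
    (hA : A.LiesOverPrime p) (hT : H75fTorsW Ws A ((p : ℕ) : ℤ))
    (hLM1 : H75fKerT A (h75fE1 Ws A hT.int) (h75fZ Ws A) ((p : ℕ) : ℤ) →
      H96LocOrder A (h8wAct (𝔾 := h75fPt Ws) ((p : ℕ) : ℤ))
        (h8wG A (h75fE1 Ws A hT.int) (h75fZ Ws A) ((p : ℕ) : ℤ))) :
    S56F.LocFlat p (Submodule.torsionBy ℤ (Ws⁄Kbar).Point p)
      (fun σ v => h75fRho Ws p σ v) :=
  h75f_locFlat_rho_of_flat Ws hΔ p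
    (h75f_flat_of Ws A hΔ p p (Fact.out : p.Prime).ne_zero hA hT hLM1)

end Inst

end Fermat.Agent.P7
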