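import Fermat.Agent.S35.H76NormGen
import Fermat.Agent.LGC.Res44
import Fermat.Agent.Red.KR.Basic

/-!
# P7 (wave 7, S40), block (5c) (helper76): Gauss valuations and the Hecke operators on functions

`A` a valuation subring of `ℚ̄` over a prime `p`, `N` a level, `d` a prime with `d ∤ N`
(`d = p` is allowed), `α, β : FF N → FF (N * d)` the degeneracy maps.  The Hecke operator on
functions is `T_d u = Nm_α (β u)` (`h76wT`); it is multiplicative and
`div (T_d u) = T_d (div u)`.

* `h76w_T_series` : `(T_d u)(q ^ d) = u(q ^ (d ^ 2)) · ∏_{b < d} u(ζ ^ b q)`.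
* `h76w_T_mem` : `u ∈ W_∞ ⟹ T_d u ∈ W_∞` (`W_∞ = softV A N` the Gauss valuation ring).
* `h76w_T_unit` : `u` a unit of `W_∞` `⟹` `T_d u` is a unit of `W_∞`.
* `h76w_T_cst` : `T_d (cst c) = cst (c ^ (d + 1))`.
* `h76w_T_val` : **`v_∞ (T_d u) = (d + 1) v_∞ (u)`**, multiplicative form: if `c u` is a unit of
  `W_∞` then `c ^ (d + 1) · T_d u` is a unit of `W_∞`.
* `h76w_T_fricke` : at a level `M p` (`p ∤ M`, `d ≠ p`): `w (T_d u) = T_d (w u)`, `w` the Fricke
  involution at `p`.
* `h76w_T_val_zero` : **`v_0 (T_d u) = (d + 1) v_0 (u)`** for the second Gauss valuation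
  `W_0 = w (W_∞)`.
-/

set_option autoImplicit false
set_option linter.style.haveILetI false
set_option linter.unusedSectionVars false
set_option synthInstance.maxHeartbeats 400000

open HahnSeries ModularCurve AlgebraicCurve

noncomputable section

namespace Fermat.Agent.P7

open Fermat.Agent.Red.Kron Fermat.Agent.S37 Fermat.Agent.Red.GV Fermat.Agent.Red.GV.Soft
  Fermat.Agent.LGC Fermat.Agent.Red.KR

section T

variable (N d : ℕ) [NeZero N] [NeZero d]

/-- the Hecke operator `T_d` on functions: `T_d u = Nm_α (β u)`. -/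
def h76wT (u : FF N) : FF N :=
  normAlong (heckeAlphaBar Kbar N d) (heckeBetaBar Kbar N d u)

theorem h76wT_mul (u v : FF N) : h76wT N d (u * v) = h76wT N d u * h76wT N d v := by
  unfold h76wT
  rw [map_mul, normAlong_mul]

theorem h76wT_one : h76wT N d (1 : FF N) = 1 := by
  unfold h76wT
  rw [map_one]
  letI := algebraAlong (heckeAlphaBar Kbar N d)
  exact map_one (Algebra.norm (FF N))

theorem h76wT_ne_zero {u : FF N} (hu : u ≠ 0) : h76wT N d u ≠ 0 := by
  unfold h76wT normAlong
  letI := algebraAlong (heckeAlphaBar Kbar N d)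
  haveI : Module.Finite (FF N) (FF (N * d)) :=
    Fermat.Agent.Red.HKMod.finiteAlong_heckeAlphaBar N d
  rw [Ne, Algebra.norm_eq_zero_iff]
  intro h
  exact hu ((map_eq_zero_iff _ (heckeBetaBar Kbar N d).toRingHom.injective).mp h)

theorem h76wT_inv (u : FF N) : h76wT N d u⁻¹ = (h76wT N d u)⁻¹ := by
  by_cases hu : u = 0
  · subst hu
    have h0 : h76wT N d (0 : FF N) = 0 := by
      unfold h76wT normAlong
      letI := algebraAlong (heckeAlphaBar Kbar N d)
      haveI : Module.Finite (FF N) (FF (N * d)) :=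
        Fermat.Agent.Red.HKMod.finiteAlong_heckeAlphaBar N d
      rw [map_zero]
      exact Algebra.norm_eq_zero_iff.mpr rfl
    rw [inv_zero, h0, inv_zero]
  · have h1 : h76wT N d u⁻¹ * h76wT N d u = 1 := by
      rw [← h76wT_mul, inv_mul_cancel₀ hu, h76wT_one]
    exact eq_inv_of_mul_eq_one_left h1

/-- **the series of `T_d u`.** -/
theorem h76w_T_series (hd : d.Prime) (hN : ¬ d ∣ N) (ζ : Kbar) (hζ : IsPrimitiveRoot ζ d)
    (u : FF N) :
    qExpand Kbar d ((h76wT N d u : FF N) : LaurentSeries Kbar) =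
      qExpand Kbar d (qExpand Kbar d ((u : FF N) : LaurentSeries Kbar)) *
        ∏ b ∈ Finset.range d, twistK (ζ ^ b) ((u : FF N) : LaurentSeries Kbar) := by
  have h := Fermat.Agent.S35.h76n_norm_eq N d hd hN ζ hζ (heckeBetaBar Kbar N d u)
  rw [kFricke_beta, coe_heckeBetaBar, coe_heckeAlphaBar] at h
  exact h

end T

section Gauss

variable (A : ValuationSubring Kbar) (N d : ℕ) [NeZero N] [NeZero d]

/-- `T_d` preserves the Gauss valuation ring `W_∞`. -/
theorem h76w_T_mem {p : ℕ} (hp : p.Prime) (hA : A.LiesOverPrime p) (hd : d.Prime)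
    (hN : ¬ d ∣ N) {u : FF N} (hu : u ∈ softV A N) : h76wT N d u ∈ softV A N := by
  obtain ⟨ζ, hζ⟩ : ∃ ζ : Kbar, IsPrimitiveRoot ζ d :=
    HasEnoughRootsOfUnity.exists_primitiveRoot Kbar d
  obtain ⟨w, hw⟩ := h44g_exists_unit_of_pow_eq_one A (NeZero.ne d) hζ.pow_eq_one
  have hus : ((u : FF N) : LaurentSeries Kbar) ∈ softOT A (IsLocalRing.residue A) := hu
  have h1 : qExpand Kbar d ((h76wT N d u : FF N) : LaurentSeries Kbar) ∈
      softOT A (IsLocalRing.residue A) := by
    rw [h76w_T_series N d hd hN ζ hζ u]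
    refine mul_mem (mem_softOT_qExpand A _ d (mem_softOT_qExpand A _ d hus))
      (prod_mem fun b _ => ?_)
    have e : ζ ^ b = ((((w ^ b : Aˣ) : A)) : Kbar) := by
      rw [Units.val_pow_eq_pow_val, ← hw]
      rfl
    rw [e]
    exact h44r_twistK_mem_softOT (w ^ b) hus
  have h2 : heckeBetaBar Kbar N d (h76wT N d u) ∈ softV A (N * d) := by
    rw [mem_softV_iff, coe_heckeBetaBar]
    exact h1
  exact (beta_mem_softV_iff A hp hA d (h76wT N d u)).mp h2

/-- `T_d` preserves the units of `W_∞`. -/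
theorem h76w_T_unit {p : ℕ} (hp : p.Prime) (hA : A.LiesOverPrime p) (hd : d.Prime)
    (hN : ¬ d ∣ N) {u : FF N} (hu : u ∈ softV A N) (hu' : u⁻¹ ∈ softV A N) :
    h76wT N d u ∈ softV A N ∧ (h76wT N d u)⁻¹ ∈ softV A N := by
  refine ⟨h76w_T_mem A N d hp hA hd hN hu, ?_⟩
  rw [← h76wT_inv N d]
  exact h76w_T_mem A N d hp hA hd hN hu'

/-- `T_d` on the constants. -/
theorem h76w_T_cst (hd : d.Prime) (hN : ¬ d ∣ N) (c : Kbar) :
    h76wT N d (cst N c) = cst N (c ^ (d + 1)) := by
  unfold h76wT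
  have h1 : heckeBetaBar Kbar N d (cst N c) = heckeAlphaBar Kbar N d (cst N c) := by
    rw [show cst N c = algebraMap Kbar (FF N) c from rfl, AlgHom.commutes, AlgHom.commutes]
  rw [h1, normAlong_map]
  have h2 : finrankAlong Kbar (heckeAlphaBar Kbar N d) = d + 1 := finrank_heckeAlphaBar N d hd hN
  rw [h2]
  exact (map_pow (algebraMap Kbar (FF N)) c (d + 1)).symm

/-- **`v_∞ (T_d u) = (d + 1) v_∞ (u)`**, multiplicative form. -/
theorem h76w_T_val {p : ℕ} (hp : p.Prime) (hA : A.LiesOverPrime p) (hd : d.Prime)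
    (hN : ¬ d ∣ N) {u : FF N} {c : Kbar} (hu : cst N c * u ∈ softV A N)
    (hu' : (cst N c * u)⁻¹ ∈ softV A N) :
    cst N (c ^ (d + 1)) * h76wT N d u ∈ softV A N ∧
      (cst N (c ^ (d + 1)) * h76wT N d u)⁻¹ ∈ softV A N := by
  have h := h76w_T_unit A N d hp hA hd hN hu hu'
  rw [h76wT_mul, h76w_T_cst N d hd hN] at h
  exact h

end Gauss

/-! ### The second Gauss valuation `W_0 = w (W_∞)` at a level `M p` -/

section Fricke

variable (M p d : ℕ) [NeZero M] [NeZero p] [NeZero d]

/-- the identification `FF ((M d) p) = FF ((M p) d)`. -/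
def h76wC : FF (M * d * p) →ₐ[Kbar] FF (M * p * d) :=
  degen (dvd_of_eq (Nat.mul_right_comm M d p))

/-- the identification `FF ((M p) d) = FF ((M d) p)`. -/
def h76wC' : FF (M * p * d) →ₐ[Kbar] FF (M * d * p) :=
  degen (dvd_of_eq (Nat.mul_right_comm M p d))

theorem h76w_coe_C (x : FF (M * d * p)) :
    ((h76wC M p d x : FF (M * p * d)) : LaurentSeries Kbar) = (x : LaurentSeries Kbar) :=
  coe_degen _ x

theorem h76w_coe_C' (x : FF (M * p * d)) :
    ((h76wC' M p d x : FF (M * d * p)) : LaurentSeries Kbar) = (x : LaurentSeries Kbar) :=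
  coe_degen _ x

theorem h76w_C_C' (x : FF (M * p * d)) : h76wC M p d (h76wC' M p d x) = x :=
  Subtype.ext (by rw [h76w_coe_C, h76w_coe_C'])

theorem h76w_C'_C (x : FF (M * d * p)) : h76wC' M p d (h76wC M p d x) = x :=
  Subtype.ext (by rw [h76w_coe_C', h76w_coe_C])

/-- the Fricke involution at `p` of the level `(M p) d`. -/
def h76wW (hp : p.Prime) (hM : ¬ p ∣ M * d) : FF (M * p * d) ≃+* FF (M * p * d) where
  toFun x := h76wC M p d (kFricke (M * d) p hp hM (h76wC' M p d x))
  invFun x := h76wC M p d (kFricke (M * d) p hp hM (h76wC' M p d x))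
  left_inv x := by
    show h76wC M p d (kFricke (M * d) p hp hM (h76wC' M p d
      (h76wC M p d (kFricke (M * d) p hp hM (h76wC' M p d x))))) = x
    rw [h76w_C'_C, kFricke_kFricke, h76w_C_C']
  right_inv x := by
    show h76wC M p d (kFricke (M * d) p hp hM (h76wC' M p d
      (h76wC M p d (kFricke (M * d) p hp hM (h76wC' M p d x))))) = x
    rw [h76w_C'_C, kFricke_kFricke, h76w_C_C']
  map_mul' x y := by
    simp only [map_mul]
  map_add' x y := by
    simp only [map_add]

theorem h76wW_apply (hp : p.Prime) (hM : ¬ p ∣ M * d) (x : FF (M * p * d)) :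
    h76wW M p d hp hM x = h76wC M p d (kFricke (M * d) p hp hM (h76wC' M p d x)) := rfl

/-- `w' ∘ α_d = α_d ∘ w`. -/
theorem h76wW_alpha (hp : p.Prime) (hMp : ¬ p ∣ M) (hM : ¬ p ∣ M * d) (f : FF (M * p)) :
    h76wW M p d hp hM (heckeAlphaBar Kbar (M * p) d f) =
      heckeAlphaBar Kbar (M * p) d (kFricke M p hp hMp f) := by
  induction f using kFF_induction_ab M p hp with
  | hc a =>
    show h76wW M p d hp hM (heckeAlphaBar Kbar (M * p) d (algebraMap Kbar (FF (M * p)) a)) =
      heckeAlphaBar Kbar (M * p) d (kFricke M p hp hMp (algebraMap Kbar (FF (M * p)) a))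
    rw [AlgEquiv.commutes, AlgHom.commutes, h76wW_apply, AlgHom.commutes, AlgEquiv.commutes,
      AlgHom.commutes]
  | ha x =>
    rw [kFricke_alpha, h76wW_apply]
    have e : h76wC' M p d (heckeAlphaBar Kbar (M * p) d (heckeAlphaBar Kbar M p x)) =
        heckeAlphaBar Kbar (M * d) p (heckeAlphaBar Kbar M d x) :=
      Subtype.ext (by
        rw [h76w_coe_C', coe_heckeAlphaBar, coe_heckeAlphaBar, coe_heckeAlphaBar,
          coe_heckeAlphaBar])
    rw [e, kFricke_alpha]
    exact Subtype.ext (by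
      rw [h76w_coe_C, coe_heckeBetaBar, coe_heckeAlphaBar, coe_heckeAlphaBar, coe_heckeBetaBar])
  | hb x =>
    rw [kFricke_beta, h76wW_apply]
    have e : h76wC' M p d (heckeAlphaBar Kbar (M * p) d (heckeBetaBar Kbar M p x)) =
        heckeBetaBar Kbar (M * d) p (heckeAlphaBar Kbar M d x) :=
      Subtype.ext (by
        rw [h76w_coe_C', coe_heckeAlphaBar, coe_heckeBetaBar, coe_heckeBetaBar,
          coe_heckeAlphaBar])
    rw [e, kFricke_beta]
    exact Subtype.ext (by
      rw [h76w_coe_C, coe_heckeAlphaBar, coe_heckeAlphaBar, coe_heckeAlphaBar,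
        coe_heckeAlphaBar])
  | hadd x y hx hy => rw [map_add, map_add, map_add, map_add, hx, hy]
  | hinv x hx => rw [map_inv₀, map_inv₀, map_inv₀, map_inv₀, hx]
  | hmul x y hx hy => rw [map_mul, map_mul, map_mul, map_mul, hx, hy]

/-- `w' ∘ β_d = β_d ∘ w`. -/
theorem h76wW_beta (hp : p.Prime) (hMp : ¬ p ∣ M) (hM : ¬ p ∣ M * d) (f : FF (M * p)) :
    h76wW M p d hp hM (heckeBetaBar Kbar (M * p) d f) =
      heckeBetaBar Kbar (M * p) d (kFricke M p hp hMp f) := by
  induction f using kFF_induction_ab M p hp with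
  | hc a =>
    show h76wW M p d hp hM (heckeBetaBar Kbar (M * p) d (algebraMap Kbar (FF (M * p)) a)) =
      heckeBetaBar Kbar (M * p) d (kFricke M p hp hMp (algebraMap Kbar (FF (M * p)) a))
    rw [AlgEquiv.commutes, AlgHom.commutes, h76wW_apply, AlgHom.commutes, AlgEquiv.commutes,
      AlgHom.commutes]
  | ha x =>
    rw [kFricke_alpha, h76wW_apply]
    have e : h76wC' M p d (heckeBetaBar Kbar (M * p) d (heckeAlphaBar Kbar M p x)) =
        heckeAlphaBar Kbar (M * d) p (heckeBetaBar Kbar M d x) :=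
      Subtype.ext (by
        rw [h76w_coe_C', coe_heckeBetaBar, coe_heckeAlphaBar, coe_heckeAlphaBar,
          coe_heckeBetaBar])
    rw [e, kFricke_alpha]
    exact Subtype.ext (by
      rw [h76w_coe_C, coe_heckeBetaBar, coe_heckeBetaBar, coe_heckeBetaBar, coe_heckeBetaBar,
        qExpand_qExpand, qExpand_qExpand]
      exact qExpand_congr (mul_comm _ _) _)
  | hb x =>
    rw [kFricke_beta, h76wW_apply]
    have e : h76wC' M p d (heckeBetaBar Kbar (M * p) d (heckeBetaBar Kbar M p x)) =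
        heckeBetaBar Kbar (M * d) p (heckeBetaBar Kbar M d x) :=
      Subtype.ext (by
        rw [h76w_coe_C', coe_heckeBetaBar, coe_heckeBetaBar, coe_heckeBetaBar,
          coe_heckeBetaBar, qExpand_qExpand, qExpand_qExpand]
        exact qExpand_congr (mul_comm _ _) _)
    rw [e, kFricke_beta]
    exact Subtype.ext (by
      rw [h76w_coe_C, coe_heckeAlphaBar, coe_heckeBetaBar, coe_heckeBetaBar,
        coe_heckeAlphaBar])
  | hadd x y hx hy => rw [map_add, map_add, map_add, map_add, hx, hy]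
  | hinv x hx => rw [map_inv₀, map_inv₀, map_inv₀, map_inv₀, hx]
  | hmul x y hx hy => rw [map_mul, map_mul, map_mul, map_mul, hx, hy]

/-- the norm along `α_d` commutes with the Fricke involutions at `p`. -/
theorem h76w_norm_fricke (hp : p.Prime) (hMp : ¬ p ∣ M) (hM : ¬ p ∣ M * d)
    (y : FF (M * p * d)) :
    kFricke M p hp hMp (normAlong (heckeAlphaBar Kbar (M * p) d) y) =
      normAlong (heckeAlphaBar Kbar (M * p) d) (h76wW M p d hp hM y) := by
  letI := algebraAlong (heckeAlphaBar Kbar (M * p) d)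
  have he : RingHom.comp (algebraMap (FF (M * p)) (FF (M * p * d)))
      ((kFricke M p hp hMp).toRingEquiv : FF (M * p) →+* FF (M * p)) =
      RingHom.comp ((h76wW M p d hp hM : FF (M * p * d) ≃+* FF (M * p * d)) :
        FF (M * p * d) →+* FF (M * p * d)) (algebraMap (FF (M * p)) (FF (M * p * d))) := by
    refine RingHom.ext fun x => ?_
    exact (h76wW_alpha M p d hp hMp hM x).symm
  have h := Algebra.norm_eq_of_equiv_equiv (kFricke M p hp hMp).toRingEquiv
    (h76wW M p d hp hM) he y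
  have h2 := congrArg (kFricke M p hp hMp).toRingEquiv h
  rw [RingEquiv.apply_symm_apply] at h2
  exact h2

/-- **`T_d` commutes with the Fricke involution at `p`** (`d ≠ p`). -/
theorem h76w_T_fricke (hp : p.Prime) (hMp : ¬ p ∣ M) (hM : ¬ p ∣ M * d) (u : FF (M * p)) :
    kFricke M p hp hMp (h76wT (M * p) d u) = h76wT (M * p) d (kFricke M p hp hMp u) := by
  unfold h76wT
  rw [h76w_norm_fricke M p d hp hMp hM, h76wW_beta M p d hp hMp hM]

end Fricke

section Both

variable (A : ValuationSubring Kbar) (M p d : ℕ) [NeZero M] [NeZero p] [NeZero d]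

/-- **`v_0 (T_d u) = (d + 1) v_0 (u)`**, multiplicative form (`W_0 = w (W_∞)`). -/
theorem h76w_T_val_zero (hp : p.Prime) (hA : A.LiesOverPrime p) (hMp : ¬ p ∣ M)
    (hd : d.Prime) (hdp : d ≠ p) (hN : ¬ d ∣ M * p) {u : FF (M * p)} {c : Kbar}
    (hu : cst (M * p) c * kFricke M p hp hMp u ∈ softV A (M * p))
    (hu' : (cst (M * p) c * kFricke M p hp hMp u)⁻¹ ∈ softV A (M * p)) :
    cst (M * p) (c ^ (d + 1)) * kFricke M p hp hMp (h76wT (M * p) d u) ∈ softV A (M * p) ∧
      (cst (M * p) (c ^ (d + 1)) * kFricke M p hp hMp (h76wT (M * p) d u))⁻¹ ∈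
        softV A (M * p) := by
  have hM : ¬ p ∣ M * d := by
    intro h
    rcases (Nat.Prime.dvd_mul hp).mp h with h1 | h1
    · exact hMp h1
    · exact hdp ((Nat.prime_dvd_prime_iff_eq hp hd).mp h1).symm
  rw [h76w_T_fricke M p d hp hMp hM]
  exact h76w_T_val A (M * p) d hp hA hd hN hu hu'

end Both

end Fermat.Agent.P7
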