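import Fermat.Agent.P7.H76Start

/-!
# Wave 7 (S44 / S40), block (T) TORIC, leaf (S) T-START: consumer of START at the good level
(helper76)

* `h76w_toric_of_start_good` : `x ∈ J₀(M p)` (`p` odd, `p ∤ M`, ANY level `M`) with
  `α_* x = β_* x = 0`, Kummer representative `w` at the level `M p`; if `degen w` has the START
  congruence at the good level `goodLevel p M * p`
  (`∃ c ∈ 𝔪_A, h94iDeep A (goodLevel p M) p (p ^ k) (degen w) c`, the conclusion of
  `h60b_start`), then `τ x = a x` for `τ` in the inertia group.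
* `h76w_deep_cst_mul`, `h76w_deep_mul_pow` : the START congruence is insensitive to nonzero
  constants and to `r`-th powers (so any scaled Kummer function of the pulled-back class may
  be used).
* `h76w_toric_of_start_good'` : the same with the START congruence for `cst c₀ * degen w * y ^ r`.

Nothing is assumed.
-/

set_option autoImplicit false
set_option linter.unusedSectionVars false
set_option linter.unusedVariables false
set_option linter.style.haveILetI false
set_option synthInstance.maxHeartbeats 400000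

open AlgebraicCurve ModularCurve

noncomputable section

namespace Fermat.Agent.P7

open Fermat.Agent.S37 Fermat.Agent.Red.KR Fermat.Agent.Red.Kron Fermat.Agent.LGC
  Fermat.Agent.S35 Fermat.Agent.P6
open Fermat.Agent.Red.GV Fermat.Agent.Red.GV.Soft
open Fermat.Agent.Jac.K1 (IsKummerPair)

/-- the START congruence is insensitive to nonzero constants. -/
theorem h76w_deep_cst_mul (A : ValuationSubring Kbar) (M ℓ : ℕ) {r : ℕ} (hr : r ≠ 0)
    {x : FF (M * ℓ)} {d c₀ : Kbar} (hc₀ : c₀ ≠ 0) (h : h94iDeep A M ℓ r x d) :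
    h94iDeep A M ℓ r (cst (M * ℓ) c₀ * x) d := by
  obtain ⟨g, hg, s, hs, e⟩ := h
  obtain ⟨b, hb⟩ := IsAlgClosed.exists_pow_nat_eq c₀ (Nat.pos_of_ne_zero hr)
  have hb0 : b ≠ 0 := by
    rintro rfl
    rw [zero_pow hr] at hb
    exact hc₀ hb.symm
  have hcb : cst (M * ℓ) b ≠ 0 :=
    (map_ne_zero_iff _ (algebraMap Kbar (FF (M * ℓ))).injective).mpr hb0
  refine ⟨cst (M * ℓ) b * g, mul_ne_zero hcb hg, s, hs, ?_⟩
  have hbr : cst (M * ℓ) b ^ r = cst (M * ℓ) c₀ := by
    rw [← hb]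
    exact (map_pow _ _ _).symm
  rw [e, mul_pow, hbr, mul_assoc]

/-- the START congruence is insensitive to `r`-th powers. -/
theorem h76w_deep_mul_pow (A : ValuationSubring Kbar) (M ℓ : ℕ) {r : ℕ}
    {x : FF (M * ℓ)} {d : Kbar} {y : FF (M * ℓ)} (hy : y ≠ 0) (h : h94iDeep A M ℓ r x d) :
    h94iDeep A M ℓ r (x * y ^ r) d := by
  obtain ⟨g, hg, s, hs, e⟩ := h
  refine ⟨g * y, mul_ne_zero hg hy, s, hs, ?_⟩
  rw [e, mul_pow]
  ring

/-- the converse direction for constants. -/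
theorem h76w_deep_of_cst_mul (A : ValuationSubring Kbar) (M ℓ : ℕ) {r : ℕ} (hr : r ≠ 0)
    {x : FF (M * ℓ)} {d c₀ : Kbar} (hc₀ : c₀ ≠ 0)
    (h : h94iDeep A M ℓ r (cst (M * ℓ) c₀ * x) d) : h94iDeep A M ℓ r x d := by
  have h1 := h76w_deep_cst_mul A M ℓ hr (inv_ne_zero hc₀) h
  have e : cst (M * ℓ) c₀⁻¹ * (cst (M * ℓ) c₀ * x) = x := by
    rw [← mul_assoc, show cst (M * ℓ) c₀⁻¹ * cst (M * ℓ) c₀ = cst (M * ℓ) (c₀⁻¹ * c₀) from
      (map_mul _ _ _).symm, inv_mul_cancel₀ hc₀]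
    show algebraMap Kbar (FF (M * ℓ)) 1 * x = x
    rw [map_one, one_mul]
  rwa [e] at h1

/-- the converse direction for `r`-th powers. -/
theorem h76w_deep_of_mul_pow (A : ValuationSubring Kbar) (M ℓ : ℕ) {r : ℕ}
    {x : FF (M * ℓ)} {d : Kbar} {y : FF (M * ℓ)} (hy : y ≠ 0)
    (h : h94iDeep A M ℓ r (x * y ^ r) d) : h94iDeep A M ℓ r x d := by
  have h1 := h76w_deep_mul_pow A M ℓ (inv_ne_zero hy) h
  have e : x * y ^ r * y⁻¹ ^ r = x := by
    rw [mul_assoc, ← mul_pow, mul_inv_cancel₀ hy, one_pow, mul_one]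
  rwa [e] at h1

/-- **T-START, consumer of START at the GOOD level** (`p` odd, `p ∤ M`, every level `M`). -/
theorem h76w_toric_of_start_good {p : ℕ} (hp : p.Prime) (hp2 : p ≠ 2) (M : ℕ) [NeZero M]
    (hpM : ¬ p ∣ M) (A : ValuationSubring Kbar) (hA : A.LiesOverPrime p) :
    haveI : NeZero p := ⟨hp.ne_zero⟩
    ∀ τ ∈ A.inertiaSubgroupIn ℚ, ∀ (k a : ℕ), H11Cyc p k τ a →
    ∀ (x : JZero (M * p)) (w : FF (M * p)), IsKummerPair (p ^ k) x w →
      pushAlpha M p x = 0 → pushBeta M p x = 0 →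
      (∃ c ∈ A.nonunits, h94iDeep A (goodLevel p M) p (p ^ k)
        (degen (Nat.mul_dvd_mul_right (dvd_goodLevel p M) p) w) c) →
      τ • x = a • x := by
  haveI : NeZero p := ⟨hp.ne_zero⟩
  intro τ hτ k a ha x w hw hα hβ hstart
  have hn : p ^ k ≠ 0 := pow_ne_zero _ hp.ne_zero
  have hd : M ∣ goodLevel p M := dvd_goodLevel p M
  have hdq : M * p ∣ goodLevel p M * p := Nat.mul_dvd_mul_right hd p
  have hpM' : ¬ p ∣ goodLevel p M := not_dvd_goodLevel hp hpM
  have hw0 : w ≠ 0 := hw.ne_zero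
  obtain ⟨g₁, -, hg₁⟩ := h33s_norm_eq_pow_of_pushAlpha M p hn hw hα
  obtain ⟨g₂, -, hg₂⟩ := h33s_norm_eq_pow_of_pushBeta M p hn hw hβ
  obtain ⟨h', hh'⟩ := h94w_twGateAt hp hp2 (goodLevel p M) hpM' A hA hτ k a ha (degen hdq w)
    (h31s_degen_ne_zero hdq hw0)
    (by
      intro v
      rw [Place.ord_restrictAlong (degen hdq) (Fermat.Agent.Red.GateAll.h99_isIntegral_degen _)
        v w]
      exact Dvd.dvd.mul_left (hw.dvd_ord _) _)
    ⟨⟨degen hd g₁, by
        have e := h31s_norm_alpha_degen p hp hpM hpM' hd w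
        have e' : normAlong (heckeAlphaBar Kbar M p) w = g₁ ^ p ^ k := hg₁
        rw [e'] at e
        rw [← map_pow]
        exact e⟩,
      ⟨degen hd g₂, by
        have e := h31s_norm_beta_degen p hp hpM hpM' hd w
        have e' : normAlong (heckeBetaBar Kbar M p) w = g₂ ^ p ^ k := hg₂
        rw [e'] at e
        rw [← map_pow]
        exact e⟩⟩
    hstart
  rw [← h25p_theta_degen hdq] at hh'
  have hgl := h31s_goodLevel_mul_dvd hp hpM
  obtain ⟨H, hH⟩ := h63_descent_pow p (M * p) (p ^ k) hn (h11Theta (M * p) τ a w)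
    (h25p_theta_ne_zero _ τ a hw0) (h25p_dvd_ord_theta τ a hw0 (fun v => hw.dvd_ord v))
    ⟨degen hgl h', by rw [← map_pow, hh', h31s_degen_degen]⟩
  exact h25p_class_of_pow (M * p) τ a hn hw H hH

/-- the same with the START congruence for ANY function of the form `cst c₀ * degen w * y ^ r`
(e.g. any Kummer function of the pulled-back class, scaled to a unit of `W_∞`). -/
theorem h76w_toric_of_start_good' {p : ℕ} (hp : p.Prime) (hp2 : p ≠ 2) (M : ℕ) [NeZero M]
    (hpM : ¬ p ∣ M) (A : ValuationSubring Kbar) (hA : A.LiesOverPrime p) :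
    haveI : NeZero p := ⟨hp.ne_zero⟩
    ∀ τ ∈ A.inertiaSubgroupIn ℚ, ∀ (k a : ℕ), H11Cyc p k τ a →
    ∀ (x : JZero (M * p)) (w : FF (M * p)), IsKummerPair (p ^ k) x w →
      pushAlpha M p x = 0 → pushBeta M p x = 0 →
      ∀ (c₀ : Kbar) (y : FF (goodLevel p M * p)), c₀ ≠ 0 → y ≠ 0 →
      (∃ c ∈ A.nonunits, h94iDeep A (goodLevel p M) p (p ^ k)
        (cst (goodLevel p M * p) c₀ *
          degen (Nat.mul_dvd_mul_right (dvd_goodLevel p M) p) w * y ^ (p ^ k)) c) →
      τ • x = a • x := by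
  haveI : NeZero p := ⟨hp.ne_zero⟩
  intro τ hτ k a ha x w hw hα hβ c₀ y hc₀ hy hstart
  have hn : p ^ k ≠ 0 := pow_ne_zero _ hp.ne_zero
  obtain ⟨c, hc, hdeep⟩ := hstart
  have h1 := h76w_deep_of_mul_pow A (goodLevel p M) p hy hdeep
  have h2 := h76w_deep_of_cst_mul A (goodLevel p M) p hn hc₀ h1
  exact h76w_toric_of_start_good hp hp2 M hpM A hA τ hτ k a ha x w hw hα hβ ⟨c, hc, h2⟩

end Fermat.Agent.P7
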