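import Fermat.Agent.P7.H76Start
import Fermat.Agent.P7.H99W7Iface

/-!
# Wave 7 (S40), block (T) TORIC: the last wire (helper76)

`H99wToric` (frozen in `P7/H99W7Iface.lean`) from the START side:

* `H76wToricRed` : what the blocks (R) + (C) + (E) + (A) have to deliver, in the vocabulary of
  the frozen `H99wToric`: under EXACTLY the hypotheses of `H99wToric` on `(p, M, A, β, x)`, the
  class `x` has a Kummer representative `w` (`IsKummerPair p x w`) whose reduction at the Gauss
  valuation, read at the good level `goodLevel p M * p`, is a constant times a `p`-th power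
  (`H76wResPow`, `P7/H76Start.lean`).
* `h76w_toric_of_red : H76wToricRed → H99wToric` (unconditional wire: landed gate, ladder and
  descent, through `h76w_toric_of_resPow_good`).
* `h76w_toricRed_of_level` : it is enough to produce the reduction form at the level `M * p`.
* `h76w_resPow_of_kummer` : any Kummer representative may be used.

Nothing is assumed.
-/

set_option autoImplicit false
set_option linter.unusedSectionVars false
set_option linter.unusedVariables false
set_option linter.style.haveILetI false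
set_option synthInstance.maxHeartbeats 400000

open AlgebraicCurve ModularCurve

noncomputable section

namespace Fermat.Agent.P7

open Fermat.Agent.S37 Fermat.Agent.Red.KR Fermat.Agent.Red.Kron Fermat.Agent.LGC
  Fermat.Agent.S35 Fermat.Agent.P6
open Fermat.Agent.Red.GV Fermat.Agent.Red.GV.Soft
open Fermat.Agent.Jac.K1 (IsKummerPair)

/-- the hypotheses of the frozen `H99wToric` on `(p, M, A, β, x)`, packaged. -/
def H76wToricHyp (p : ℕ) (M : ℕ) [NeZero M] [NeZero p] (A : ValuationSubring Kbar) (β : Kbar)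
    (x : JZero (M * p)) : Prop :=
  β ∈ A ∧ β⁻¹ ∈ A ∧
    (∀ a ∈ A.inertiaSubgroupIn ℚ, H99wFixMu p a → a (β ^ p) = β ^ p) ∧
    p • x = 0 ∧ pushAlpha M p x = 0 ∧ pushBeta M p x = 0 ∧
    (∀ a ∈ A.inertiaSubgroupIn ℚ, H99wFixMu p a → a β = β → a • x = x) ∧
    (∃ ℓ : Nat.Primes, ¬ (ℓ : ℕ) ∣ M * p ∧ ∃ c : ℤ,
      heckeOperatorBar (M * p) ℓ x = c • x ∧ ¬ (p : ℤ) ∣ ((ℓ : ℕ) : ℤ) + 1 - c) ∧
    (∃ e : MvPolynomial Nat.Primes ℤ, (∀ ℓ ∈ e.vars, ¬ (ℓ : ℕ) ∣ M * p) ∧
      H99wKillsCusp M e ∧ (letI := heckeModuleBar (M * p); e • x = x))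

/-- **what (R) + (C) + (E) + (A) have to deliver**: a Kummer representative whose reduction,
read at the good level, is a constant times a `p`-th power. -/
def H76wToricRed : Prop :=
  ∀ (p : ℕ) (hp : p.Prime), p ≠ 2 → ∀ (M : ℕ) [NeZero M], ¬ p ∣ M →
    haveI : NeZero p := ⟨hp.ne_zero⟩
    ∀ A : ValuationSubring Kbar, A.LiesOverPrime p →
    ∀ (β : Kbar) (x : JZero (M * p)), H76wToricHyp p M A β x →
      ∃ w : FF (M * p), IsKummerPair p x w ∧
        H76wResPow A (goodLevel p M * p) p
          (degen (Nat.mul_dvd_mul_right (dvd_goodLevel p M) p) w)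

/-- the same at the level `M * p` itself (stronger requirement). -/
def H76wToricRedLevel : Prop :=
  ∀ (p : ℕ) (hp : p.Prime), p ≠ 2 → ∀ (M : ℕ) [NeZero M], ¬ p ∣ M →
    haveI : NeZero p := ⟨hp.ne_zero⟩
    ∀ A : ValuationSubring Kbar, A.LiesOverPrime p →
    ∀ (β : Kbar) (x : JZero (M * p)), H76wToricHyp p M A β x →
      ∃ w : FF (M * p), IsKummerPair p x w ∧ H76wResPow A (M * p) p w

theorem h76w_toricRed_of_level (H : H76wToricRedLevel) : H76wToricRed := by
  intro p hp hp2 M _ hpM
  haveI : NeZero p := ⟨hp.ne_zero⟩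
  intro A hA β x hx
  obtain ⟨w, hw, hres⟩ := H p hp hp2 M hpM A hA β x hx
  exact ⟨w, hw, h76w_resPow_degen A _ p hres⟩

/-- **any Kummer representative may be used**: the reduction form (at any level above) does not
depend on the Kummer representative of the class. -/
theorem h76w_resPow_of_kummer {p : ℕ} (hp : p.Prime) (A : ValuationSubring Kbar)
    (hA : A.LiesOverPrime p) {N N' : ℕ} [NeZero N] [NeZero N'] (h : N ∣ N') {r : ℕ}
    {x : JZero N} {w w' : FF N} (hw : IsKummerPair r x w) (hw' : IsKummerPair r x w')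
    (hres : H76wResPow A N' r (degen h w)) : H76wResPow A N' r (degen h w') := by
  haveI := Fermat.Agent.Jac.K1.hasPrincipalDivisors_FF N
  obtain ⟨c, hc, g, hg, e⟩ := hw.unique (Fermat.Agent.Jac.K1.constantsOnly_FF N) hw'
  have hcc : degen h (cst N c) = cst N' c := (degen h).commutes c
  have e' : degen h w' = cst N' c * (degen h w * degen h g ^ r) := by
    rw [e]
    show degen h (cst N c * g ^ r * w) = _
    rw [map_mul, map_mul, map_pow, hcc]
    ring
  rw [e']
  exact h76w_resPow_cst_mul A N' r hc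
    (h76w_resPow_mul_pow A N' hp hA r hres (h31s_degen_ne_zero h hg))

/-- **the last wire**: the frozen `H99wToric` from the reduction form. -/
theorem h76w_toric_of_red (H : H76wToricRed) : H99wToric := by
  intro p hp hp2 M _ hpM
  haveI : NeZero p := ⟨hp.ne_zero⟩
  intro A hA β hβ hβi hβp x hpx hα hβx hfix hEis hOld a ha e hae
  obtain ⟨w, hw, hres⟩ := H p hp hp2 M hpM A hA β x
    ⟨hβ, hβi, hβp, hpx, hα, hβx, hfix, hEis, hOld⟩
  have hcyc : H11Cyc p 1 a e := by
    intro ζ hζ
    rw [pow_one] at hζ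
    exact hae ζ hζ
  have hw' : IsKummerPair (p ^ 1) x w := by
    rw [pow_one]
    exact hw
  have hres' : H76wResPow A (goodLevel p M * p) (p ^ 1)
      (degen (Nat.mul_dvd_mul_right (dvd_goodLevel p M) p) w) := by
    rw [pow_one]
    exact hres
  exact h76w_toric_of_resPow_good hp hp2 M hpM A hA a ha 1 e hcyc x w hw' hα hβx hres'

end Fermat.Agent.P7
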