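import Fermat.Agent.P7.H77MultIface
import Fermat.Agent.EFrob.CongrVC
import Fermat.Agent.S05.FreyArith

/-!
# Wave 7, target S44: transport of the LOCAL leaf along variable changes over `ℚ`
(owner helper77, prefix `h77m` / `H77m`)

* `H77mPeuQ E p` : the body of (L) for a Weierstrass curve `E` over `ℚ` (any model, no
  integrality): at every place `A` over `p`, elementwise ordinary inertia on `E[p]` ⟹ `E[p]` peu
  ramifié at `A`.  `H77mLocalAt W p` is `H77mPeuQ (W.map (Int.castRingHom ℚ)) p` by definition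
  (`h77m_localAt_iff`).
* `h77m_peuQ_of_vc` : `H77mPeuQ` is invariant under variable changes over `ℚ`
  (`C • E₁ = E₂`); proved from the landed injective Galois-equivariant maps of
  `EFrob.CG_transport` / `EFrob.CG_transport'`.
* `h77m_localFrey_of_frey`, `h77m_localFrey_of_short` : the frozen Prop `H77mLocalFrey` follows
  from `H77mPeuQ` for the Frey curve itself, resp. for the short models `S05.freyShort P`
  (`p ∣ a` or `p ∣ b`) and `S05.freyShortC P` (`p ∣ c`).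
* `h77m_localMult_iff` : `H77mLocalFrey` is (definitionally) the Prop consumed by the conditional
  top `h41w_s44_of` (stated here without importing that file: same body).
-/

set_option autoImplicit false

open WeierstrassCurve

noncomputable section

namespace Fermat.Agent.P7

open Fermat.Agent.S37 Fermat.Agent.S35

/-- **the body of (L) for a curve over `ℚ`**: elementwise ordinary on the inertia group at `A`
⟹ peu ramifié at `A`. -/
def H77mPeuQ (E : WeierstrassCurve ℚ) (p : ℕ) : Prop :=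
  ∀ A : ValuationSubring Kbar, A.LiesOverPrime p →
    (∀ a ∈ A.inertiaSubgroupIn ℚ, ∀ e : ℕ, (∀ μ : Kbar, μ ^ p = 1 → a μ = μ ^ e) →
      ∀ P : Submodule.torsionBy ℤ (E⁄Kbar).toAffine.Point p,
        a • a • P - ((1 : ℤ) + e) • a • P + e • P = 0) →
    ∃ β : Kbar, β ∈ A ∧ β⁻¹ ∈ A ∧
      (∀ a ∈ A.inertiaSubgroupIn ℚ, H99wFixMu p a → a (β ^ p) = β ^ p) ∧
      ∀ a ∈ A.inertiaSubgroupIn ℚ, H99wFixMu p a → a β = β →
        ∀ P : Submodule.torsionBy ℤ (E⁄Kbar).toAffine.Point p, a • P = P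

/-- `H77mLocalAt W p` is `H77mPeuQ` of the generic fibre. -/
theorem h77m_localAt_iff (W : WeierstrassCurve ℤ) (p : ℕ) :
    H77mLocalAt W p ↔ H77mPeuQ (W.map (Int.castRingHom ℚ)) p := Iff.rfl

/-- **transport along a variable change over `ℚ`.** -/
theorem h77m_peuQ_of_vc (E₁ E₂ : WeierstrassCurve ℚ) (C : VariableChange ℚ)
    (h : C • E₁ = E₂) (p : ℕ) (h1 : H77mPeuQ E₁ p) : H77mPeuQ E₂ p := by
  obtain ⟨r, hr, hre⟩ := Fermat.Agent.EFrob.CG_transport E₁ E₂ C h p
  obtain ⟨r', hr', hre'⟩ := Fermat.Agent.EFrob.CG_transport' E₁ E₂ C h p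
  intro A hA hord
  have hord1 : ∀ a ∈ A.inertiaSubgroupIn ℚ, ∀ e : ℕ, (∀ μ : Kbar, μ ^ p = 1 → a μ = μ ^ e) →
      ∀ P : Submodule.torsionBy ℤ (E₁⁄Kbar).toAffine.Point p,
        a • a • P - ((1 : ℤ) + e) • a • P + e • P = 0 := by
    intro a ha e he P
    apply hr'
    have h2 := hord a ha e he (r' P)
    rw [_root_.map_zero, map_add, map_sub, map_zsmul, map_nsmul, hre', hre']
    exact h2
  obtain ⟨β, hβ, hβi, hβp, hstab⟩ := h1 A hA hord1
  refine ⟨β, hβ, hβi, hβp, ?_⟩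
  intro a ha hmu hfix P
  apply hr
  rw [hre]
  exact hstab a ha hmu hfix (r P)

/-- the other direction. -/
theorem h77m_peuQ_of_vc' (E₁ E₂ : WeierstrassCurve ℚ) (C : VariableChange ℚ)
    (h : C • E₁ = E₂) (p : ℕ) (h2 : H77mPeuQ E₂ p) : H77mPeuQ E₁ p :=
  h77m_peuQ_of_vc E₂ E₁ C⁻¹ (by rw [← h, inv_smul_smul]) p h2

/-- `H77mPeuQ` of a curve over `ℚ` gives `H77mLocalAt` of each of its integral models. -/
theorem h77m_localAt_of_model (E : WeierstrassCurve ℚ) {W : WeierstrassCurve ℤ}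
    (hW : W.IsIntegralModelOf E) (p : ℕ) (h : H77mPeuQ E p) : H77mLocalAt W p := by
  obtain ⟨C, hC⟩ := hW
  exact h77m_peuQ_of_vc E (W.map (Int.castRingHom ℚ)) C hC p h

/-- **(L-MULT) from the Frey curve itself.** -/
theorem h77m_localFrey_of_frey
    (h : ∀ P : FreyPackage, (P.p : ℤ) ∣ P.a * P.b * P.c → H77mPeuQ P.freyCurve P.p) :
    H77mLocalFrey :=
  fun P _ hW hdvd => h77m_localAt_of_model P.freyCurve hW P.p (h P hdvd)

/-- **(L-MULT) from the short nodal models** `Y² = X³ + (bᵖ - aᵖ) X² - aᵖ bᵖ X` (`p ∣ a` or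
`p ∣ b`) and `Y² = X³ + (aᵖ + cᵖ) X² + aᵖ cᵖ X` (`p ∣ c`) of `S05`. -/
theorem h77m_localFrey_of_short
    (hab : ∀ P : FreyPackage, ((P.p : ℤ) ∣ P.a ∨ (P.p : ℤ) ∣ P.b) →
      H77mPeuQ (Fermat.Agent.S05.freyShort P) P.p)
    (hc : ∀ P : FreyPackage, (P.p : ℤ) ∣ P.c → H77mPeuQ (Fermat.Agent.S05.freyShortC P) P.p) :
    H77mLocalFrey := by
  apply h77m_localFrey_of_frey
  intro P hdvd
  have hpp : Prime (P.p : ℤ) := Nat.prime_iff_prime_int.1 P.pp
  rcases hpp.dvd_mul.1 hdvd with h1 | h1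
  · exact h77m_peuQ_of_vc _ _ Fermat.Agent.S05.freyVC
      (Fermat.Agent.S05.freyCurve_eq_smul_short P).symm P.p (hab P (hpp.dvd_mul.1 h1))
  · exact h77m_peuQ_of_vc _ _ (Fermat.Agent.S05.freyVCC P)
      (Fermat.Agent.S05.freyCurve_eq_smul_shortC P).symm P.p (hc P h1)

end Fermat.Agent.P7
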