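import Fermat.Agent.P7.H99S44Final
import Fermat.Agent.P7.H34MultFrey

/-!
# Wave 7 (S44): the frozen statement from the toric block ALONE (helper77, prefix `h77m_`)

The local leaf (L) `H77mLocalFrey` is closed (`h34n_localFrey`, helper34 + helper12), so the top
`h99w_s44_final` (helper99) leaves exactly one open atom: the toric block
`(T)  ∀ p, 5 ≤ p → H99wToricGoodAt p`.

* `h77m_s44_of_toricGood` : `(T)` ⟹ the frozen statement S44, verbatim binders.
* `h77m_s44_of_toricGood_at` : the same with `(T)` only at the prime `P.p` of the Frey package.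

Both are one-line compositions of landed theorems; this file also certifies that the closures of
the top and of the local leaf are co-importable.
-/

set_option autoImplicit false

open WeierstrassCurve WeierstrassCurve.Affine WeierstrassCurve.Affine.Point
open FreyPackage

namespace Fermat.Agent.P7

/-- **S44 from the toric block alone.** -/
theorem h77m_s44_of_toricGood (hT : ∀ p : ℕ, 5 ≤ p → H99wToricGoodAt p)
    (P : FreyPackage) {N : ℕ} (hcond : P.IsConductorLevel N) (hpN : P.p ∣ N)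
    (hirr : GaloisRepIsIrreducible (K := AlgebraicClosure ℚ) ℚ P.freyCurve P.p)
    (hmod : P.ModularRepOfLevel N) :
    ∃ M : ℕ, M ∣ N ∧ ¬ P.p ∣ M ∧ P.ModularRepOfLevel M :=
  h99w_s44_final hT h34n_localFrey P hcond hpN hirr hmod

/-- **S44 from the toric block at the prime of the Frey package.** -/
theorem h77m_s44_of_toricGood_at (P : FreyPackage) (hT : H99wToricGoodAt P.p)
    {N : ℕ} (hcond : P.IsConductorLevel N) (hpN : P.p ∣ N)
    (hirr : GaloisRepIsIrreducible (K := AlgebraicClosure ℚ) ℚ P.freyCurve P.p)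
    (hmod : P.ModularRepOfLevel N) :
    ∃ M : ℕ, M ∣ N ∧ ¬ P.p ∣ M ∧ P.ModularRepOfLevel M := by
  obtain ⟨f, W, 𝔪, hf, hW, hmax, hp𝔪, hcong⟩ := hmod
  have hΔ : W.Δ ≠ 0 :=
    h41w_disc_of_model P.freyCurve hW (Fermat.Agent.S13.freyCurve_Δ_ne_zero P)
  have hirrW : W.ModRepIsIrreducible P.p := h41w_irr_of_model P.freyCurve hW P.p hirr
  have hp2 : P.p ≠ 2 := by
    have := P.hp5
    omega
  have hsq : ¬ P.p ^ 2 ∣ N := hcond.sq_not_dvd P.pp
  have hres : W.IsResiduallyModularOfLevel P.p N := ⟨f, 𝔪, hf, hmax, hp𝔪, hcong⟩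
  obtain ⟨g, 𝔫, hg, hmax', hpn, hcong'⟩ :=
    h99w_topGood W hΔ P.pp hp2 hT
      (h34n_localAt_frey P W hW (hcond.p_dvd_abc hpN)) hirrW hcond.pos hpN hsq
      (Or.inl (h9w_frey_not_good_two P W hW)) hres
  refine ⟨N / P.p, Nat.div_dvd_of_dvd hpN, ?_, ⟨g, W, 𝔫, hg, hW, hmax', hpn, hcong'⟩⟩
  intro h
  apply hsq
  rw [pow_two]
  exact Nat.mul_dvd_of_dvd_div hpN h

end Fermat.Agent.P7
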