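import Fermat.Agent.P7.H78ChartLevel
import Fermat.Agent.P7.H63Glob0Zero

/-!
# Wave 7 (row 38), block (5b), leaf T-C4-CHART: the level instance of `H78hChart`,
UNCONDITIONAL (helper78)

`ℓ ∤ M` prime, `auxLevel ℓ ∣ M`, `A` over `ℓ`.

* `h78l_mem_M_of_Pinf`, `h78l_mem_M_of_P0` : the elements of the component `P∞` (resp. `P₀`) of
  a chart are in `𝔪_A W∞` (resp. `𝔪_A W₀`);
* `h78l_globInf`, `h78l_globZero` : the two frozen GLOB0 statements of `P7/H78ChartIface.lean`,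
  from helper63's landed `h63g_glob0_inf`, `h63g_glob0_zero` (`P7/H63Glob0Zero.lean`);
* `h78l_chart_level` : `H78hChart A W∞ W₀ h78lOinf h78lOzero h78lOe`, no hypothesis left;
* `h78l_export_level`, `h78l_psi_const_level` : the conclusions of the global `H⁰` argument
  (`h78h_export`, `h78h_psi_const`) at the level, from the local forms (L1), (L2) and the exact
  depth dichotomy.
-/

set_option autoImplicit false
set_option linter.unusedSectionVars false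
set_option linter.unusedVariables false
set_option linter.style.longLine false

open AlgebraicCurve ModularCurve WithZero IsLocalRing

noncomputable section

namespace Fermat.Agent.P7

open Fermat.Agent.S37 Fermat.Agent.Red Fermat.Agent.Red.GG Fermat.Agent.Red.GV
  Fermat.Agent.Red.GV.Soft Fermat.Agent.Red.Kron Fermat.Agent.Red.KR Fermat.Agent.Red.ModelO
  Fermat.Agent.LGC Fermat.Agent.S35 Fermat.Agent.P6

variable (A : ValuationSubring Kbar) (M : ℕ) {ℓ : ℕ} [NeZero M] [NeZero ℓ]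
  (hℓ : ℓ.Prime) (hM : ¬ ℓ ∣ M) (hA : A.LiesOverPrime ℓ)

section Chart

variable {t : FF (M * ℓ)} (hC : IfaceSSChart A M ℓ t)

include hC in
/-- the elements of `P∞` are in `𝔪_A W∞`. -/
theorem h78l_mem_M_of_Pinf (b : chart (M * ℓ) A t) (hb : b ∈ h85cPinf A M ℓ hℓ hA t) :
    (b : FF (M * ℓ)) ∈ h88nM A (softV A (M * ℓ)) := by
  by_cases hb0 : (b : FF (M * ℓ)) = 0
  · exact ⟨0, zero_mem _, 0, zero_mem _, by rw [hb0, mul_zero]⟩
  have hnu := (h85c_mem_Pinf_iff A M ℓ hℓ hA hC).mp hb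
  obtain ⟨p, hp0, hp, u, hu, hxu⟩ := h63r_nonunit_scale hℓ hA (M * ℓ) hb0 hnu
  exact ⟨⟨p, A.nonunits_le hp⟩, ValuationSubring.coe_mem_nonunits_iff.mp hp, u, hu, hxu⟩

include hC in
/-- the elements of `P₀` are in `𝔪_A W₀`. -/
theorem h78l_mem_M_of_P0 (b : chart (M * ℓ) A t) (hb : b ∈ h85cP0 A M ℓ hℓ hM hA t) :
    (b : FF (M * ℓ)) ∈ h88nM A (h85cW0 A M ℓ hℓ hM hA).toSubring := by
  by_cases hb0 : (b : FF (M * ℓ)) = 0
  · exact ⟨0, zero_mem _, 0, zero_mem _, by rw [hb0, mul_zero]⟩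
  have hnu := (h85c_mem_P0_iff A M ℓ hℓ hM hA hC).mp hb
  have hk0 : kFricke M ℓ hℓ hM (b : FF (M * ℓ)) ≠ 0 := (map_ne_zero _).mpr hb0
  obtain ⟨p, hp0, hp, u, hu, hxu⟩ := h63r_nonunit_scale hℓ hA (M * ℓ) hk0 hnu
  refine ⟨⟨p, A.nonunits_le hp⟩, ValuationSubring.coe_mem_nonunits_iff.mp hp,
    kFricke M ℓ hℓ hM u, ?_, ?_⟩
  · show kFricke M ℓ hℓ hM (kFricke M ℓ hℓ hM u) ∈ softV A (M * ℓ)
    rw [kFricke_kFricke]
    exact hu
  · have h1 := congrArg (kFricke M ℓ hℓ hM) hxu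
    rw [kFricke_kFricke, map_mul] at h1
    rw [h1]
    congr 1
    exact kFricke_cst M ℓ hℓ hM p

end Chart

/-- **GLOB0 on `C∞`** (frozen Prop of the interface), from helper63's chart form. -/
theorem h78l_globInf (haux : auxLevel ℓ ∣ M) : H78lGlobInf A M hℓ hM hA := by
  have hC₀ : IfaceSSChart A M ℓ (jSS M ℓ) := h85s_ifaceSSChart_fin A M ℓ hℓ hM hA
  have hC₁ : IfaceSSChart A M ℓ (jSS M ℓ)⁻¹ := h85s_ifaceSSChart_inf A M ℓ hℓ hM hA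
  have ePinf := h85c_Pinf_eq A M hℓ hM hA
  intro f hf h₀ h₁
  refine h63g_glob0_inf hℓ hM haux hA f hf ?_ ?_
  · intro 𝔫 h𝔫 hker
    have hP : h62i_Pinf A M hℓ hM hA ≤ 𝔫 := fun b hb =>
      hker b (h78l_mem_M_of_Pinf A M hℓ hA hC₀ b (ePinf ▸ hb))
    obtain ⟨o, ho, hfo⟩ := h₀ 𝔫 h𝔫 hP
    exact ⟨o, ho, hfo⟩
  · intro 𝔫 h𝔫 hker hV
    have hP : h85cPinf A M ℓ hℓ hA (jSS M ℓ)⁻¹ ≤ 𝔫 := fun b hb =>
      hker b (h78l_mem_M_of_Pinf A M hℓ hA hC₁ b hb)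
    obtain ⟨o, ho, hfo⟩ := h₁ 𝔫 h𝔫 hP hV
    exact ⟨o, ho, hfo⟩

/-- **GLOB0 on `C₀`** (frozen Prop of the interface), from helper63's chart form. -/
theorem h78l_globZero (haux : auxLevel ℓ ∣ M) : H78lGlobZero A M hℓ hM hA := by
  have hC₀ : IfaceSSChart A M ℓ (jSS M ℓ) := h85s_ifaceSSChart_fin A M ℓ hℓ hM hA
  have hC₁ : IfaceSSChart A M ℓ (jSS M ℓ)⁻¹ := h85s_ifaceSSChart_inf A M ℓ hℓ hM hA
  have eP0 := h85c_P0_eq A M hℓ hM hA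
  intro f hf h₀ h₁
  refine h63g_glob0_zero hℓ hM haux hA f hf ?_ ?_
  · intro 𝔫 h𝔫 hker
    have hP : h62i_P0 A M hℓ hM hA ≤ 𝔫 := fun b hb =>
      hker b (h78l_mem_M_of_P0 A M hℓ hM hA hC₀ b (eP0 ▸ hb))
    obtain ⟨o, ho, hfo⟩ := h₀ 𝔫 h𝔫 hP
    exact ⟨o, ho, hfo⟩
  · intro 𝔫 h𝔫 hker hV
    have hP : h85cP0 A M ℓ hℓ hM hA (jSS M ℓ)⁻¹ ≤ 𝔫 := fun b hb =>
      hker b (h78l_mem_M_of_P0 A M hℓ hM hA hC₁ b hb)
    obtain ⟨o, ho, hfo⟩ := h₁ 𝔫 h𝔫 hP hV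
    exact ⟨o, ho, hfo⟩

/-- **the level instance of `H78hChart`, unconditional.** -/
theorem h78l_chart_level (haux : auxLevel ℓ ∣ M) :
    H78hChart A (softV A (M * ℓ)) (h85cW0 A M ℓ hℓ hM hA).toSubring
      (h78lOinf A M hℓ hM hA) (h78lOzero A M hℓ hM hA) (h78lOe A M hℓ hM hA) :=
  h78l_chart A M hℓ hM hA haux (h78l_globInf A M hℓ hM hA haux)
    (h78l_globZero A M hℓ hM hA haux)

/-- **`H78hDisc` at the level from the local form (L2) at ONE node** (helper63's evaluation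
at a node, `h63w_depth_level_node`; no discreteness, no smooth point needed). -/
theorem h78l_disc_node (haux : auxLevel ℓ ∣ M) (e : H78lNode A M hℓ hM hA)
    (D₀ ψ : A) (hD₀ : D₀ ≠ 0) (w : FF (M * ℓ))
    (hL2 : H78hL2 A (softV A (M * ℓ)) (h85cW0 A M ℓ hℓ hM hA).toSubring
      (h78lOe A M hℓ hM hA e) D₀ ψ w) :
    H78hDisc A (softV A (M * ℓ)) (h85cW0 A M ℓ hℓ hM hA).toSubring D₀ w := by
  obtain ⟨o, ho, μ₁, hμ₁, μ₂, hμ₂, h1, h2⟩ := hL2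
  by_cases ho0 : o = 0
  · right
    refine ⟨0, 0, zero_mem _, zero_mem _, ?_⟩
    rw [h1, ho0]
    simp
  have hinj := algebraMap_injective_FF (M * ℓ) A
  have hDF : algebraMap A (FF (M * ℓ)) D₀ ≠ 0 := (map_ne_zero_iff _ hinj).mpr hD₀
  have hμ : μ₁ = algebraMap A (FF (M * ℓ)) ψ + μ₂ := by
    have h3 : o * (1 + algebraMap A (FF (M * ℓ)) D₀ * μ₁) =
        o * (1 + algebraMap A (FF (M * ℓ)) D₀ * (algebraMap A (FF (M * ℓ)) ψ + μ₂)) :=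
      h1.symm.trans h2
    have h4 := mul_left_cancel₀ ho0 h3
    have h5 : algebraMap A (FF (M * ℓ)) D₀ * μ₁ =
        algebraMap A (FF (M * ℓ)) D₀ * (algebraMap A (FF (M * ℓ)) ψ + μ₂) :=
      add_left_cancel h4
    exact mul_left_cancel₀ hDF h5
  have hμW1 : μ₁ ∈ softV A (M * ℓ) := h88nM_mem (h78l_AWinf A (M * ℓ)) hμ₁
  have hμW2 : μ₁ ∈ (h85cW0 A M ℓ hℓ hM hA).toSubring := by
    rw [hμ]
    exact (h85cW0 A M ℓ hℓ hM hA).toSubring.add_mem (h78l_AW0 A M hℓ hM hA ψ)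
      (h88nM_mem (h78l_AW0 A M hℓ hM hA) hμ₂)
  have hC₀ : IfaceSSChart A M ℓ (jSS M ℓ) := h85s_ifaceSSChart_fin A M ℓ hℓ hM hA
  have ho1 : o ∈ softV A (M * ℓ) :=
    h78l_O_le_Winf A M hℓ hA hC₀ e.1 e.2.1.isPrime
      ((le_of_eq (h85c_Pinf_eq A M hℓ hM hA).symm).trans e.2.2.1) o ho
  have ho2 : o ∈ (h85cW0 A M ℓ hℓ hM hA).toSubring :=
    h78l_O_le_W0 A M hℓ hM hA hC₀ e.1 e.2.1.isPrime
      ((le_of_eq (h85c_P0_eq A M hℓ hM hA).symm).trans e.2.2.2) o ho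
  have hw : w ∈ softV A (M * ℓ) ⊓ (h85cW0 A M ℓ hℓ hM hA).toSubring := by
    rw [h1]
    exact ⟨(softV A (M * ℓ)).mul_mem ho1 ((softV A (M * ℓ)).add_mem (one_mem _)
        ((softV A (M * ℓ)).mul_mem (h78l_AWinf A (M * ℓ) D₀) hμW1)),
      (h85cW0 A M ℓ hℓ hM hA).toSubring.mul_mem ho2
        ((h85cW0 A M ℓ hℓ hM hA).toSubring.add_mem (one_mem _)
          ((h85cW0 A M ℓ hℓ hM hA).toSubring.mul_mem (h78l_AW0 A M hℓ hM hA D₀) hμW2))⟩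
  have hnode : TorNodeAt A M ℓ hℓ hM hA (jSS M ℓ) e.1 :=
    h20n_torNodeAt_of A M hℓ hM hA e.1
      (h20n_torNodeP A M hℓ hM haux hA e.1 e.2.1 e.2.2.1 e.2.2.2)
  have hm : mExt A M ℓ (jSS M ℓ) ≤ e.1 := (h62i_m_le_Pinf A M hℓ hM hA).trans e.2.2.1
  exact h78l_disc_of_depth hinj (h78l_AWinf A (M * ℓ)) (h78l_AW0 A M hℓ hM hA) hD₀
    (h63w_depth_level_node A M hℓ hM hA e.1 e.2.1 hm hnode D₀ w hw
      ⟨o, ho, μ₁, ⟨hμW1, hμW2⟩, h1⟩)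

end Fermat.Agent.P7
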