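import Fermat.Agent.P7.H78ChartIface
import Fermat.Agent.P7.H67NodeRing
import Fermat.Agent.P7.H63DepthLevel

/-!
# Wave 7 (row 38), block (5b), leaf T-C4-CHART: the level instance of `H78hChart` (helper78)

`ℓ ∤ M` prime, `auxLevel ℓ ∣ M`, `A` over `ℓ`; `W∞ = softV A (M ℓ)`,
`W₀ = (h85cW0 ..).toSubring`, index types and local rings of `P7/H78ChartIface.lean`.

* `h78l_sat_abs` : saturation of the local ring of a chart at a prime through which only one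
  component passes (abstract form; no local parameter, no section needed);
* `h78l_O_le_Winf`, `h78l_O_le_W0`, `h78l_sat_inf`, `h78l_sat_zero` : the level forms, for ANY
  chart `t` with `IfaceSSChart A M ℓ t` (finite chart and chart at infinity);
* `h78l_node` : the node datum `H88nNode` (`a = ℓ`) at every crossing point;
* `h78l_chart` : `H78lGlobInf → H78lGlobZero → H78hChart A W∞ W₀ h78lOinf h78lOzero h78lOe`;
* `h78l_disc_of_depth` : `H82wDepth (W₁ ⊓ W₂) D₀ w → H78hDisc A W₁ W₂ D₀ w` (`D₀ ≠ 0`);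
* `h78l_disc_inf`, `h78l_disc_zero` : `H78hDisc` at the level from the local form (L1) at ONE
  closed point of the finite chart (helper63's `h63w_depth_level_inf/_zero`).
-/

set_option autoImplicit false
set_option linter.unusedSectionVars false
set_option linter.unusedVariables false
set_option linter.style.longLine false

open AlgebraicCurve ModularCurve WithZero IsLocalRing

noncomputable section

namespace Fermat.Agent.P7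

open Fermat.Agent.S37 Fermat.Agent.Red Fermat.Agent.Red.GG Fermat.Agent.Red.GV
  Fermat.Agent.Red.GV.Soft Fermat.Agent.Red.Kron Fermat.Agent.Red.KR Fermat.Agent.Red.ModelO
  Fermat.Agent.LGC Fermat.Agent.S35 Fermat.Agent.P6

section Abstract

variable {A : Type*} [CommRing A] [IsDomain A] [ValuationRing A]
  {F : Type*} [Field F] [Algebra A F]

/-- the local ring of a chart at a prime `𝔫` is contained in a ring `W ⊇ B` in which the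
elements of `B` outside `𝔫` are invertible. -/
theorem h78l_O_le_abs (B : Subalgebra A F) (W : Subring F) (𝔫 : Ideal B) (h𝔫 : 𝔫.IsPrime)
    (hBW : ∀ b ∈ B, b ∈ W) (hinv : ∀ s : B, s ∉ 𝔫 → ((s : F))⁻¹ ∈ W) :
    ∀ f ∈ h62yO B 𝔫 h𝔫, f ∈ W := by
  rintro f ⟨s, hs, hsf⟩
  have hs0 : (s : F) ≠ 0 := by
    intro h0
    apply hs
    have : s = 0 := Subtype.ext h0
    rw [this]; exact 𝔫.zero_mem
  have e : f = ((s : F))⁻¹ * ((s : F) * f) := by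
    rw [← mul_assoc, inv_mul_cancel₀ hs0, one_mul]
  rw [e]
  exact W.mul_mem (hinv s hs) (hBW _ hsf)

/-- **saturation at a point lying on one component only** (abstract form of `h62y_sat`): `B` a
chart with the `q`-expansion principle for `V₀ ⊇ W ∩ W'`, `𝔫` a prime of `B` and `e ∈ B`,
`e ∉ 𝔫`, vanishing on the other component (`e ∈ 𝔪_A W'`). -/
theorem h78l_sat_abs (B : Subalgebra A F) (V₀ W W' : Subring F) (𝔫 : Ideal B)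
    (h𝔫 : 𝔫.IsPrime)
    (hQEP : ∀ a : A, algebraMap A F a ≠ 0 → ∀ x ∈ V₀, a • x ∈ B → x ∈ B)
    (hinj : Function.Injective (algebraMap A F))
    (harch : ∀ c ∈ maximalIdeal A, c ≠ 0 → ∀ a : A, a ≠ 0 → ∃ k : ℕ, a ∣ c ^ k)
    (hWW : ∀ x, x ∈ W → x ∈ W' → x ∈ V₀)
    (hBW : ∀ b ∈ B, b ∈ W) (hBW' : ∀ b ∈ B, b ∈ W')
    (he : ∃ e : B, e ∉ 𝔫 ∧ ∃ c ∈ maximalIdeal A, c ≠ 0 ∧ ∃ y ∈ W',
      (e : F) = algebraMap A F c * y)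
    {a : A} (ha : a ≠ 0) {x : F} (hx : x ∈ W)
    (hax : algebraMap A F a * x ∈ h62yO B 𝔫 h𝔫) : x ∈ h62yO B 𝔫 h𝔫 := by
  obtain ⟨s, hs, hsf⟩ := hax
  obtain ⟨e, he𝔫, c, hc, hc0, y, hy, hey⟩ := he
  obtain ⟨k, d, hd⟩ := harch c hc hc0 a ha
  refine ⟨e ^ k * s, fun hmem => (h𝔫.mem_or_mem hmem).elim
    (fun h => he𝔫 (h𝔫.mem_of_pow_mem k h)) hs, ?_⟩
  have hcoe : ((e ^ k * s : B) : F) * x = (e : F) ^ k * ((s : F) * x) := by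
    push_cast; ring
  rw [hcoe]
  have h1 : (e : F) ^ k * ((s : F) * x) ∈ W :=
    W.mul_mem (W.pow_mem (hBW _ e.2) k) (W.mul_mem (hBW _ s.2) hx)
  have h2 : (e : F) ^ k * ((s : F) * x) ∈ W' := by
    have e1 : (e : F) ^ k * ((s : F) * x) =
        algebraMap A F d * y ^ k * ((s : F) * (algebraMap A F a * x)) := by
      rw [hey, mul_pow, ← map_pow, hd, map_mul]
      ring
    rw [e1]
    exact W'.mul_mem (W'.mul_mem (hBW' _ (B.algebraMap_mem d)) (W'.pow_mem hy k))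
      (hBW' _ hsf)
  have h3 := hWW _ h1 h2
  have h4 : a • ((e : F) ^ k * ((s : F) * x)) ∈ B := by
    have e2 : a • ((e : F) ^ k * ((s : F) * x)) =
        (e : F) ^ k * ((s : F) * (algebraMap A F a * x)) := by
      rw [Algebra.smul_def]; ring
    rw [e2]
    exact B.mul_mem (B.pow_mem e.2 k) hsf
  exact hQEP a ((map_ne_zero_iff _ hinj).mpr ha) _ h3 h4

/-- `𝔪_A W₁ ∩ 𝔪_A W₂ ⊆ 𝔪_A (W₁ ⊓ W₂)`. -/
theorem h78l_M_inf {W₁ W₂ : Subring F} (hinj : Function.Injective (algebraMap A F))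
    (hA₁ : ∀ c : A, algebraMap A F c ∈ W₁) (hA₂ : ∀ c : A, algebraMap A F c ∈ W₂)
    {x : F} (h₁ : x ∈ h88nM A W₁) (h₂ : x ∈ h88nM A W₂) : x ∈ h82wM A (W₁ ⊓ W₂) := by
  obtain ⟨m₁, hm₁, y₁, hy₁, e₁⟩ := h₁
  obtain ⟨m₂, hm₂, y₂, hy₂, e₂⟩ := h₂
  by_cases h0 : m₁ = 0
  · refine ⟨0, zero_mem _, 0, zero_mem _, ?_⟩
    rw [e₁, h0, map_zero, zero_mul, zero_mul]
  by_cases h0' : m₂ = 0
  · refine ⟨0, zero_mem _, 0, zero_mem _, ?_⟩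
    rw [e₂, h0', map_zero, zero_mul, zero_mul]
  have hm₁F : algebraMap A F m₁ ≠ 0 := (map_ne_zero_iff _ hinj).mpr h0
  have hm₂F : algebraMap A F m₂ ≠ 0 := (map_ne_zero_iff _ hinj).mpr h0'
  rcases ValuationRing.dvd_total m₁ m₂ with ⟨d, hd⟩ | ⟨d, hd⟩
  · -- `m₂ = m₁ d`, so `y₁ = d y₂ ∈ W₂`
    have hy : y₁ = algebraMap A F d * y₂ := by
      apply mul_left_cancel₀ hm₁F
      rw [← e₁, e₂, hd, map_mul]; ring
    refine ⟨m₁, hm₁, y₁, ⟨hy₁, ?_⟩, e₁⟩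
    rw [hy]; exact W₂.mul_mem (hA₂ d) hy₂
  · -- `m₁ = m₂ d`, so `y₂ = d y₁ ∈ W₁`
    have hy : y₂ = algebraMap A F d * y₁ := by
      apply mul_left_cancel₀ hm₂F
      rw [← e₂, e₁, hd, map_mul]; ring
    refine ⟨m₂, hm₂, y₂, ⟨?_, hy₂⟩, e₂⟩
    rw [hy]; exact W₁.mul_mem (hA₁ d) hy₁

/-- **from the depth dichotomy of `H82H0Abs` to `H78hDisc`.** -/
theorem h78l_disc_of_depth {W₁ W₂ : Subring F} (hinj : Function.Injective (algebraMap A F))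
    (hA₁ : ∀ c : A, algebraMap A F c ∈ W₁) (hA₂ : ∀ c : A, algebraMap A F c ∈ W₂)
    {D₀ : A} (hD₀ : D₀ ≠ 0) {w : F} (h : H82wDepth (W₁ ⊓ W₂) D₀ w) :
    H78hDisc A W₁ W₂ D₀ w := by
  rcases h with ⟨a₀, d₁, c, G, hG, hc, hD, hw, hno⟩ | ⟨a₀, G, hG, hw⟩
  · left
    refine ⟨a₀, d₁, c, G, ?_, hc, hD, hG.1, hG.2, hw, ?_⟩
    · rintro rfl
      exact hD₀ (by rw [hD, zero_mul])
    · rintro ⟨a, h₁, h₂⟩
      exact hno ⟨a, h78l_M_inf hinj hA₁ hA₂ h₁ h₂⟩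
  · right
    exact ⟨a₀, G, hG.1, hG.2, hw⟩

end Abstract

section Level

variable (A : ValuationSubring Kbar) (M : ℕ) {ℓ : ℕ} [NeZero M] [NeZero ℓ]
  (hℓ : ℓ.Prime) (hM : ¬ ℓ ∣ M) (hA : A.LiesOverPrime ℓ)

/-- the constants of `A` are in `W∞`. -/
theorem h78l_AWinf (N : ℕ) (a : A) : algebraMap A (FF N) a ∈ softV A N :=
  (cst_mem_softV_iff A N _).mpr a.2

/-- the constants of `A` are in `W₀`. -/
theorem h78l_AW0 (a : A) :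
    algebraMap A (FF (M * ℓ)) a ∈ (h85cW0 A M ℓ hℓ hM hA).toSubring := by
  show kFricke M ℓ hℓ hM (algebraMap A (FF (M * ℓ)) a) ∈ softV A (M * ℓ)
  rw [h62y_kFricke_algebraMap]
  exact h78l_AWinf A (M * ℓ) a

section Chart

variable {t : FF (M * ℓ)} (hC : IfaceSSChart A M ℓ t)
  (𝔫 : Ideal (chart (M * ℓ) A t)) (h𝔫 : 𝔫.IsPrime)

include hC in
/-- the local ring at a point of `C∞` is contained in `W∞`. -/
theorem h78l_O_le_Winf (hP : h85cPinf A M ℓ hℓ hA t ≤ 𝔫) :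
    ∀ f ∈ h62yO (chart (M * ℓ) A t) 𝔫 h𝔫, f ∈ softV A (M * ℓ) :=
  h78l_O_le_abs _ (softV A (M * ℓ)) 𝔫 h𝔫
    (fun b hb => h85c_hBWinf A M ℓ hℓ hA hC ⟨b, hb⟩)
    (fun s hs => h85c_hWinf A M ℓ hℓ hA hC s (fun h => hs (hP h)))

include hC in
/-- the local ring at a point of `C₀` is contained in `W₀`. -/
theorem h78l_O_le_W0 (hP : h85cP0 A M ℓ hℓ hM hA t ≤ 𝔫) :
    ∀ f ∈ h62yO (chart (M * ℓ) A t) 𝔫 h𝔫, f ∈ (h85cW0 A M ℓ hℓ hM hA).toSubring :=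
  h78l_O_le_abs _ (h85cW0 A M ℓ hℓ hM hA).toSubring 𝔫 h𝔫
    (fun b hb => h85c_hBW0 A M ℓ hℓ hM hA hC ⟨b, hb⟩)
    (fun s hs => h85c_hW0 A M ℓ hℓ hM hA hC s (fun h => hs (hP h)))

include hC in
/-- an element of the chart outside `𝔫` vanishing on `C₀` (the point is not on `C₀`). -/
theorem h78l_exists_e_zero (hP0 : ¬ h85cP0 A M ℓ hℓ hM hA t ≤ 𝔫) :
    ∃ e : chart (M * ℓ) A t, e ∉ 𝔫 ∧ ∃ c ∈ maximalIdeal A, c ≠ 0 ∧
      ∃ y ∈ (h85cW0 A M ℓ hℓ hM hA).toSubring,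
        (e : FF (M * ℓ)) = algebraMap A (FF (M * ℓ)) c * y := by
  obtain ⟨e, heP, he𝔫⟩ := SetLike.not_le_iff_exists.mp hP0
  have he0 : (e : FF (M * ℓ)) ≠ 0 := by
    intro h0
    apply he𝔫
    have : e = 0 := Subtype.ext h0
    rw [this]; exact 𝔫.zero_mem
  have hnu := (h85c_mem_P0_iff A M ℓ hℓ hM hA hC).mp heP
  have hk0 : kFricke M ℓ hℓ hM (e : FF (M * ℓ)) ≠ 0 := (map_ne_zero _).mpr he0
  obtain ⟨p, hp0, hp, u, hu, hxu⟩ := h63r_nonunit_scale hℓ hA (M * ℓ) hk0 hnu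
  refine ⟨e, he𝔫, ⟨p, A.nonunits_le hp⟩, ValuationSubring.coe_mem_nonunits_iff.mp hp, ?_,
    kFricke M ℓ hℓ hM u, ?_, ?_⟩
  · intro h0
    exact hp0 (congrArg Subtype.val h0)
  · show kFricke M ℓ hℓ hM (kFricke M ℓ hℓ hM u) ∈ softV A (M * ℓ)
    rw [kFricke_kFricke]
    exact hu
  · have h1 := congrArg (kFricke M ℓ hℓ hM) hxu
    rw [kFricke_kFricke, map_mul] at h1
    rw [h1]
    congr 1
    exact kFricke_cst M ℓ hℓ hM p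

include hC in
/-- an element of the chart outside `𝔫` vanishing on `C∞` (the point is not on `C∞`). -/
theorem h78l_exists_e_inf (hPinf : ¬ h85cPinf A M ℓ hℓ hA t ≤ 𝔫) :
    ∃ e : chart (M * ℓ) A t, e ∉ 𝔫 ∧ ∃ c ∈ maximalIdeal A, c ≠ 0 ∧
      ∃ y ∈ softV A (M * ℓ), (e : FF (M * ℓ)) = algebraMap A (FF (M * ℓ)) c * y := by
  obtain ⟨e, heP, he𝔫⟩ := SetLike.not_le_iff_exists.mp hPinf
  have he0 : (e : FF (M * ℓ)) ≠ 0 := by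
    intro h0
    apply he𝔫
    have : e = 0 := Subtype.ext h0
    rw [this]; exact 𝔫.zero_mem
  have hnu := (h85c_mem_Pinf_iff A M ℓ hℓ hA hC).mp heP
  obtain ⟨p, hp0, hp, u, hu, hxu⟩ := h63r_nonunit_scale hℓ hA (M * ℓ) he0 hnu
  refine ⟨e, he𝔫, ⟨p, A.nonunits_le hp⟩, ValuationSubring.coe_mem_nonunits_iff.mp hp, ?_,
    u, hu, hxu⟩
  intro h0
  exact hp0 (congrArg Subtype.val h0)

include hC in
/-- **SAT at a point of `C∞` which is not on `C₀`** (any chart). -/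
theorem h78l_sat_inf (hP0 : ¬ h85cP0 A M ℓ hℓ hM hA t ≤ 𝔫) (δ : A) (hδ : δ ≠ 0)
    (f : FF (M * ℓ)) (hf : f ∈ softV A (M * ℓ))
    (h : algebraMap A (FF (M * ℓ)) δ * f ∈ h62yO (chart (M * ℓ) A t) 𝔫 h𝔫) :
    f ∈ h62yO (chart (M * ℓ) A t) 𝔫 h𝔫 :=
  h78l_sat_abs (chart (M * ℓ) A t) (ssV A M ℓ) (softV A (M * ℓ))
    (h85cW0 A M ℓ hℓ hM hA).toSubring 𝔫 h𝔫 hC.hQEP (algebraMap_injective_FF (M * ℓ) A)
    (harch_of_liesOver A hℓ hA)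
    (fun x hx hx' => h63r_mem_ssV_of_soft hℓ hM hA hx hx')
    (fun b hb => h85c_hBWinf A M ℓ hℓ hA hC ⟨b, hb⟩)
    (fun b hb => h85c_hBW0 A M ℓ hℓ hM hA hC ⟨b, hb⟩)
    (h78l_exists_e_zero A M hℓ hM hA hC 𝔫 hP0) hδ hf h

include hC in
/-- **SAT at a point of `C₀` which is not on `C∞`** (any chart). -/
theorem h78l_sat_zero (hPinf : ¬ h85cPinf A M ℓ hℓ hA t ≤ 𝔫) (δ : A) (hδ : δ ≠ 0)
    (f : FF (M * ℓ)) (hf : f ∈ (h85cW0 A M ℓ hℓ hM hA).toSubring)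
    (h : algebraMap A (FF (M * ℓ)) δ * f ∈ h62yO (chart (M * ℓ) A t) 𝔫 h𝔫) :
    f ∈ h62yO (chart (M * ℓ) A t) 𝔫 h𝔫 :=
  h78l_sat_abs (chart (M * ℓ) A t) (ssV A M ℓ) (h85cW0 A M ℓ hℓ hM hA).toSubring
    (softV A (M * ℓ)) 𝔫 h𝔫 hC.hQEP (algebraMap_injective_FF (M * ℓ) A)
    (harch_of_liesOver A hℓ hA)
    (fun x hx hx' => h63r_mem_ssV_of_soft hℓ hM hA hx' hx)
    (fun b hb => h85c_hBW0 A M ℓ hℓ hM hA hC ⟨b, hb⟩)
    (fun b hb => h85c_hBWinf A M ℓ hℓ hA hC ⟨b, hb⟩)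
    (h78l_exists_e_inf A M hℓ hA hC 𝔫 hPinf) hδ hf h

end Chart

/-- **the node datum (`a = ℓ`) at every crossing point.** -/
theorem h78l_node (haux : auxLevel ℓ ∣ M) (e : H78lNode A M hℓ hM hA) :
    ∃ x y : FF (M * ℓ),
      H88nNode (h78lOe A M hℓ hM hA e) (softV A (M * ℓ))
        (h85cW0 A M ℓ hℓ hM hA).toSubring x y ((ℓ : ℕ) : A) :=
  h67r_node_of_thick A M hℓ hM hA e.1 e.2.1.isPrime
    (h20n_torNodeP A M hℓ hM haux hA e.1 e.2.1 e.2.2.1 e.2.2.2)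

/-- a cusp on `C∞` is not on `C₀`. -/
theorem h78l_cuspInf_not (𝔫 : H78lCuspInf A M hℓ hA) :
    ¬ h85cP0 A M ℓ hℓ hM hA (jSS M ℓ)⁻¹ ≤ 𝔫.1 := fun h =>
  h4c_cusp_not_node A M hℓ hM hA 𝔫.1 𝔫.2.1.ne_top 𝔫.2.2.2 ⟨𝔫.2.2.1, h⟩

/-- a cusp on `C₀` is not on `C∞`. -/
theorem h78l_cuspZero_not (𝔫 : H78lCuspZero A M hℓ hM hA) :
    ¬ h85cPinf A M ℓ hℓ hA (jSS M ℓ)⁻¹ ≤ 𝔫.1 := fun h =>
  h4c_cusp_not_node A M hℓ hM hA 𝔫.1 𝔫.2.1.ne_top 𝔫.2.2.2 ⟨h, 𝔫.2.2.1⟩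

/-- **the level instance of `H78hChart`**, from the two GLOB0 statements. -/
theorem h78l_chart (haux : auxLevel ℓ ∣ M) (hGinf : H78lGlobInf A M hℓ hM hA)
    (hGzero : H78lGlobZero A M hℓ hM hA) :
    H78hChart A (softV A (M * ℓ)) (h85cW0 A M ℓ hℓ hM hA).toSubring
      (h78lOinf A M hℓ hM hA) (h78lOzero A M hℓ hM hA) (h78lOe A M hℓ hM hA) := by
  have hC₀ : IfaceSSChart A M ℓ (jSS M ℓ) := h85s_ifaceSSChart_fin A M ℓ hℓ hM hA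
  have hC₁ : IfaceSSChart A M ℓ (jSS M ℓ)⁻¹ := h85s_ifaceSSChart_inf A M ℓ hℓ hM hA
  have ePinf := h85c_Pinf_eq A M hℓ hM hA
  have eP0 := h85c_P0_eq A M hℓ hM hA
  refine
    { hAF := algebraMap_injective_FF (M * ℓ) A
      hAinf := h78l_AWinf A (M * ℓ)
      hA0 := h78l_AW0 A M hℓ hM hA
      hOinf := ?_
      hOzero := ?_
      hOe₁ := ?_
      hOe₂ := ?_
      hAOinf := ?_
      hAOzero := ?_
      hAOe := ?_
      hsatInf := ?_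
      hsatZero := ?_
      hsatE := ?_
      hnode := ?_
      hglobInf := ?_
      hglobZero := ?_ }
  · rintro (𝔫 | 𝔫) f hf
    · exact h78l_O_le_Winf A M hℓ hA hC₀ 𝔫.1 𝔫.2.1.isPrime ((le_of_eq ePinf.symm).trans 𝔫.2.2.1) f hf
    · exact h78l_O_le_Winf A M hℓ hA hC₁ 𝔫.1 𝔫.2.1.isPrime 𝔫.2.2.1 f hf
  · rintro (𝔫 | 𝔫) f hf
    · exact h78l_O_le_W0 A M hℓ hM hA hC₀ 𝔫.1 𝔫.2.1.isPrime ((le_of_eq eP0.symm).trans 𝔫.2.2.1) f hf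
    · exact h78l_O_le_W0 A M hℓ hM hA hC₁ 𝔫.1 𝔫.2.1.isPrime 𝔫.2.2.1 f hf
  · intro e f hf
    exact h78l_O_le_Winf A M hℓ hA hC₀ e.1 e.2.1.isPrime ((le_of_eq ePinf.symm).trans e.2.2.1) f hf
  · intro e f hf
    exact h78l_O_le_W0 A M hℓ hM hA hC₀ e.1 e.2.1.isPrime ((le_of_eq eP0.symm).trans e.2.2.2) f hf
  · rintro (𝔫 | 𝔫) c
    · exact (h62yO (chart (M * ℓ) A (jSS M ℓ)) 𝔫.1 𝔫.2.1.isPrime).algebraMap_mem c
    · exact (h62yO (chart (M * ℓ) A (jSS M ℓ)⁻¹) 𝔫.1 𝔫.2.1.isPrime).algebraMap_mem c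
  · rintro (𝔫 | 𝔫) c
    · exact (h62yO (chart (M * ℓ) A (jSS M ℓ)) 𝔫.1 𝔫.2.1.isPrime).algebraMap_mem c
    · exact (h62yO (chart (M * ℓ) A (jSS M ℓ)⁻¹) 𝔫.1 𝔫.2.1.isPrime).algebraMap_mem c
  · intro e c
    exact (h62yO (chart (M * ℓ) A (jSS M ℓ)) e.1 e.2.1.isPrime).algebraMap_mem c
  · rintro (𝔫 | 𝔫) δ hδ f hf h
    · exact h78l_sat_inf A M hℓ hM hA hC₀ 𝔫.1 𝔫.2.1.isPrime
        (fun h' => 𝔫.2.2.2 ((le_of_eq eP0).trans h')) δ hδ f hf h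
    · exact h78l_sat_inf A M hℓ hM hA hC₁ 𝔫.1 𝔫.2.1.isPrime
        (h78l_cuspInf_not A M hℓ hM hA 𝔫) δ hδ f hf h
  · rintro (𝔫 | 𝔫) δ hδ f hf h
    · exact h78l_sat_zero A M hℓ hM hA hC₀ 𝔫.1 𝔫.2.1.isPrime
        (fun h' => 𝔫.2.2.2 ((le_of_eq ePinf).trans h')) δ hδ f hf h
    · exact h78l_sat_zero A M hℓ hM hA hC₁ 𝔫.1 𝔫.2.1.isPrime
        (h78l_cuspZero_not A M hℓ hM hA 𝔫) δ hδ f hf h
  · intro e δ hδ f hf₁ hf₂ h
    obtain ⟨x, y, hN⟩ := h78l_node A M hℓ hM hA haux e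
    exact hN.hsat δ hδ f hf₁ hf₂ h
  · intro e o ho c₁ c₂ h₁ h₂
    obtain ⟨x, y, hN⟩ := h78l_node A M hℓ hM hA haux e
    exact h78h_node_of_loc hN.hAO hN.hO₁ hN.hO₂ hN.hloc ho c₁ c₂ h₁ h₂
  · intro f hf hS hE
    refine hGinf f hf ?_ ?_
    · intro 𝔫 h𝔫 hP
      by_cases hP0 : h62i_P0 A M hℓ hM hA ≤ 𝔫
      · exact hE ⟨𝔫, h𝔫, hP, hP0⟩
      · exact hS (Sum.inl ⟨𝔫, h𝔫, hP, hP0⟩)
    · intro 𝔫 h𝔫 hP hV
      exact hS (Sum.inr ⟨𝔫, h𝔫, hP, hV⟩)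
  · intro f hf hS hE
    refine hGzero f hf ?_ ?_
    · intro 𝔫 h𝔫 hP
      by_cases hPinf : h62i_Pinf A M hℓ hM hA ≤ 𝔫
      · exact hE ⟨𝔫, h𝔫, hPinf, hP⟩
      · exact hS (Sum.inl ⟨𝔫, h𝔫, hP, hPinf⟩)
    · intro 𝔫 h𝔫 hP hV
      exact hS (Sum.inr ⟨𝔫, h𝔫, hP, hV⟩)

/-- **`H78hDisc` at the level from (L1) at ONE closed point of the finite chart on `C∞`
only** (helper63's evaluation argument; no discreteness). -/
theorem h78l_disc_inf (haux : auxLevel ℓ ∣ M) (𝔫 : H78lFinInf A M hℓ hM hA)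
    (D₀ : A) (hD₀ : D₀ ≠ 0) (w : FF (M * ℓ)) (hw₁ : w ∈ softV A (M * ℓ))
    (hw₂ : w ∈ (h85cW0 A M ℓ hℓ hM hA).toSubring)
    (hL1 : ∃ o ∈ h78lOinf A M hℓ hM hA (Sum.inl 𝔫), ∃ z ∈ softV A (M * ℓ),
      w = o * (1 + algebraMap A (FF (M * ℓ)) D₀ * z)) :
    H78hDisc A (softV A (M * ℓ)) (h85cW0 A M ℓ hℓ hM hA).toSubring D₀ w :=
  h78l_disc_of_depth (algebraMap_injective_FF (M * ℓ) A) (h78l_AWinf A (M * ℓ))
    (h78l_AW0 A M hℓ hM hA) hD₀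
    (h63w_depth_level_inf A M hℓ hM haux hA 𝔫.1 𝔫.2.1 𝔫.2.2.1 𝔫.2.2.2 D₀ w ⟨hw₁, hw₂⟩ hL1)

/-- **`H78hDisc` at the level from (L1) at ONE closed point of the finite chart on `C₀`
only.** -/
theorem h78l_disc_zero (haux : auxLevel ℓ ∣ M) (𝔫 : H78lFinZero A M hℓ hM hA)
    (D₀ : A) (hD₀ : D₀ ≠ 0) (w : FF (M * ℓ)) (hw₁ : w ∈ softV A (M * ℓ))
    (hw₂ : w ∈ (h85cW0 A M ℓ hℓ hM hA).toSubring)
    (hL1 : ∃ o ∈ h78lOzero A M hℓ hM hA (Sum.inl 𝔫),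
      ∃ z ∈ (h85cW0 A M ℓ hℓ hM hA).toSubring,
      w = o * (1 + algebraMap A (FF (M * ℓ)) D₀ * z)) :
    H78hDisc A (softV A (M * ℓ)) (h85cW0 A M ℓ hℓ hM hA).toSubring D₀ w :=
  h78l_disc_of_depth (algebraMap_injective_FF (M * ℓ) A) (h78l_AWinf A (M * ℓ))
    (h78l_AW0 A M hℓ hM hA) hD₀
    (h63w_depth_level_zero A M hℓ hM haux hA 𝔫.1 𝔫.2.1 𝔫.2.2.1 𝔫.2.2.2 D₀ w ⟨hw₁, hw₂⟩ hL1)

end Level

end Fermat.Agent.P7
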