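import Fermat.Agent.P7.H78PhaseWire
import Fermat.Agent.P7.H27EisWire

/-!
# Wave 7 (row 38), blocks (5b)/(E): the EXPORT of block (C) at the level `M p` (helper78)

`h78l_export` : helper27's packaged export `H27hExport A M hp hM hA hb δ u γP γQ`
(`P7/H27EisWire.lean`), read at a crossing point `e` with a rational node normal form
`H84wNodeNF … u m γP γQ`, from BREAK, `p ∣ div u`, `u` fixed by `I_β`, and the smooth normal
forms of `u` at the cusps.  All the chart-side hypotheses of `h27h_export_abs` are discharged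
(`h78l_chart_level`, `h78l_disc_node`, helper90's normal forms at the finite closed points).

Applied to `u` and to `T_ℓ u` it gives the two exports consumed by `h27h_eis_of_export`.
-/

set_option autoImplicit false
set_option linter.unusedSectionVars false
set_option linter.unusedVariables false
set_option linter.style.longLine false
set_option linter.style.haveILetI false
set_option synthInstance.maxHeartbeats 400000
set_option maxHeartbeats 1600000

open AlgebraicCurve ModularCurve WithZero IsLocalRing Polynomial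

noncomputable section

namespace Fermat.Agent.P7

open Fermat.Agent.S37 Fermat.Agent.S37.GalI Fermat.Agent.Red Fermat.Agent.Red.GG
  Fermat.Agent.Red.GV Fermat.Agent.Red.GV.Soft Fermat.Agent.Red.ModelO Fermat.Agent.Red.Kron
  Fermat.Agent.LGC Fermat.Agent.S35 Fermat.Agent.P6

variable (A : ValuationSubring Kbar) (M : ℕ) {p : ℕ} [NeZero M] [NeZero p]

/-- **the EXPORT of block (C) at the level `M p`, read at the node `e`.** -/
theorem h78l_export (hp : p.Prime) (hM : ¬ p ∣ M) (haux : auxLevel p ∣ M)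
    (hA : A.LiesOverPrime p)
    {ζ β : Kbar} (hζ : IsPrimitiveRoot ζ p) {b : GQ} {δ : Kbar}
    (hbreak : H23wBreak p A ζ β b δ) (hb : b ∈ A.inertiaSubgroupIn ℚ)
    (u : FF (M * p)) (hu0 : u ≠ 0)
    (hord : ∀ v : Place Kbar (FF (M * p)), (p : ℤ) ∣ v.ord u)
    (hfix : ∀ a ∈ h23vI1 p A, a β = β → gal (M * p) a • u = u)
    (hcuspInf : ∀ n : H78lCuspInf A M hp hA,
      H84aNFSmooth (h84wB (M * p) b) (h56pTheta A hb)
        (⟨δ, A.nonunits_le hbreak.2.1⟩ : A) p (softV A (M * p))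
        (h62yO (chart (M * p) A (jSS M p)⁻¹) n.1 n.2.1.isPrime).toSubring u)
    (hcuspZero : ∀ n : H78lCuspZero A M hp hM hA,
      H84aNFSmooth (h84wB (M * p) b) (h56pTheta A hb)
        (⟨δ, A.nonunits_le hbreak.2.1⟩ : A) p (h85cW0 A M p hp hM hA).toSubring
        (h62yO (chart (M * p) A (jSS M p)⁻¹) n.1 n.2.1.isPrime).toSubring u)
    (e : H78lNode A M hp hM hA) (m : ℤ) (γP γQ : A)
    (h : H84wNodeNF A M hp hM hA e.1 e.2.1 hb (⟨δ, A.nonunits_le hbreak.2.1⟩ : A) u
      m γP γQ) :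
    H27hExport A M hp hM hA hb (⟨δ, A.nonunits_le hbreak.2.1⟩ : A) u γP γQ := by
  classical
  set δA : A := ⟨δ, A.nonunits_le hbreak.2.1⟩ with hδA
  have hδ0 : δ ≠ 0 := hbreak.1
  have hδA0 : δA ≠ 0 := fun h => hδ0 (congrArg (fun t : A => (t : Kbar)) h)
  have hδAm : δA ∈ maximalIdeal A := (GG.mem_maximalIdeal_iff A δA).mpr hbreak.2.1
  have hpδ : ∃ m₀ ∈ maximalIdeal A, ((p : ℕ) : A) * δA = δA ^ p * m₀ := by
    obtain ⟨μ₀, hμ₀, h⟩ := h20b_p_delta A hp hζ hδ0 hbreak.2.2.1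
    refine ⟨⟨μ₀, A.nonunits_le hμ₀⟩, (GG.mem_maximalIdeal_iff A _).mpr hμ₀, ?_⟩
    apply Subtype.ext
    push_cast
    exact h
  have hvar := h84w_hvar A M hbreak hb u hfix
  have hC := h78l_chart_level A M hp hM hA haux
  have hθϖ : h56pTheta A hb ((p : ℕ) : A) = ((p : ℕ) : A) := map_natCast _ p
  have hinvinf : ∀ π ∈ maximalIdeal A, ∀ x ∈ softV A (M * p),
      (1 + algebraMap A (FF (M * p)) π * x)⁻¹ ∈ softV A (M * p) :=
    fun π hπ x hx => h86t_Winf_unit A M p hp hA π hπ x hx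
  have hntinf : ∀ π ∈ maximalIdeal A, ∀ x ∈ softV A (M * p),
      algebraMap A (FF (M * p)) π * x ≠ 1 :=
    fun π hπ x hx => h86t_Winf_nt A M p hp hA π hπ x hx
  have hinv0 : ∀ π ∈ maximalIdeal A, ∀ x ∈ (h85cW0 A M p hp hM hA).toSubring,
      (1 + algebraMap A (FF (M * p)) π * x)⁻¹ ∈ (h85cW0 A M p hp hM hA).toSubring :=
    fun π hπ x hx => h86t_W0_unit A M p hp hM hA π hπ x hx
  have hnt0 : ∀ π ∈ maximalIdeal A, ∀ x ∈ (h85cW0 A M p hp hM hA).toSubring,
      algebraMap A (FF (M * p)) π * x ≠ 1 :=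
    fun π hπ x hx => h86t_W0_nt A M p hp hM hA π hπ x hx
  have hbθ : ∀ a : A, h84wB (M * p) b (algebraMap A (FF (M * p)) a) =
      algebraMap A (FF (M * p)) (h56pTheta A hb a) :=
    fun a => h56p_tau_algebraMap A (M * p) hb a
  -- (b) the depth dichotomy, from the node `e`
  obtain ⟨ψ₀, hL2, -⟩ := h84a_L2 hC.hAF hC.hAinf hinvinf hntinf hC.hA0 hinv0 hnt0
    (h84wB (M * p) b) (h56pTheta A hb) hbθ hp hδAm hpδ (h20n_natCast_ne_zero A p) hθϖ h.1
  have hdisc : H78hDisc A (softV A (M * p)) (h85cW0 A M p hp hM hA).toSubring (δA ^ p)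
      (h84wB (M * p) b u * u⁻¹) :=
    h78l_disc_node A M hp hM hA haux e (δA ^ p) (ψ₀ ^ p) (pow_ne_zero _ hδA0) _ hL2
  -- (c) the smooth normal forms
  have hNFinf : ∀ n : H78lFinInf A M hp hM hA ⊕ H78lCuspInf A M hp hA,
      H84aNFSmooth (h84wB (M * p) b) (h56pTheta A hb) δA p (softV A (M * p))
        (h78lOinf A M hp hM hA n) u := by
    rintro (n | n)
    · exact h90g_nfSmooth_inf A M hp hM haux hA n.1 n.2.1 n.2.2.1 n.2.2.2 hb δA u hu0
        (fun i _ => exists_val_eq (M * p) (jSS M p) u hu0 p hord i) hvar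
    · exact hcuspInf n
  have hNFzero : ∀ n : H78lFinZero A M hp hM hA ⊕ H78lCuspZero A M hp hM hA,
      H84aNFSmooth (h84wB (M * p) b) (h56pTheta A hb) δA p (h85cW0 A M p hp hM hA).toSubring
        (h78lOzero A M hp hM hA n) u := by
    rintro (n | n)
    · exact h90g_nfSmooth_zero A M hp hM haux hA n.1 n.2.1 n.2.2.1 n.2.2.2 hb δA u hu0
        (fun i _ => exists_val_eq (M * p) (jSS M p) u hu0 p hord i) hvar
    · exact hcuspZero n
  -- the node normal forms: the given one at `e`, the default ones elsewhere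
  have hdef : ∀ e' : H78lNode A M hp hM hA, ∃ (m' : ℤ) (γP' γQ' : A),
      H84wNodeNF A M hp hM hA e'.1 e'.2.1 hb δA u m' γP' γQ' := fun e' =>
    h84w_node_nf A M hp hM haux hA e'.1 e'.2.1
      (h62x_torOnBoth A M hp hM hA e'.1 e'.2.2.1 e'.2.2.2) hb δA u hu0 hord hvar
  choose m₀ γP₀ γQ₀ hNF₀ using hdef
  let mm : H78lNode A M hp hM hA → ℤ := fun x => if x = e then m else m₀ x
  let gP : H78lNode A M hp hM hA → A := fun x => if x = e then γP else γP₀ x
  let gQ : H78lNode A M hp hM hA → A := fun x => if x = e then γQ else γQ₀ x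
  have hNF : ∀ x : H78lNode A M hp hM hA, H84aNFNode (h84wB (M * p) b) (h56pTheta A hb) δA p
      (softV A (M * p)) (h85cW0 A M p hp hM hA).toSubring (h78lOe A M hp hM hA x)
      ((p : ℕ) : A) u (mm x) (gP x) (gQ x) := by
    intro x
    by_cases h1 : x = e
    · subst h1
      simp only [mm, gP, gQ, if_true]
      exact h.1
    · simp only [mm, gP, gQ, if_neg h1]
      exact (hNF₀ x).1
  obtain ⟨a₀, f₁, f₂, F₃, -, -, -, hw, hf₁, hf₂, hall⟩ :=
    h27h_export_abs hC hinvinf hntinf hinv0 hnt0 (h84wB (M * p) b) (h56pTheta A hb) hbθ hp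
      hδA0 hδAm hpδ (h20n_natCast_ne_zero A p) hθϖ hNFinf hNFzero mm gP gQ hNF hdisc e
  obtain ⟨ψ, hψ, hΨ⟩ := hall e
  have e1 : gP e = γP := by simp only [gP, if_true]
  have e2 : gQ e = γQ := by simp only [gQ, if_true]
  rw [e1, e2] at hψ
  exact ⟨a₀, f₁, f₂, F₃, hw, hf₁, hf₂, ψ, hψ, hΨ⟩

end Fermat.Agent.P7
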