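import Mathlib
import Fermat.Agent.P6.H88NodeRigid

/-!
# Wave 7 (S40), block (5b), leaf T-C4-H0: the global `H⁰` argument, abstract form (helper78)

Paper proof: finding 1353 (helper98), step (3).  Mathlib + the vocabulary `h88nM A W = 𝔪_A W`
of `P6/H88NodeRigid.lean` (helper88).

`A` a valuation ring, `F` a field over `A`, `Winf, W0 ⊆ F` two subrings (the two Gauss valuation
rings of the two components of the special fibre), families of subrings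

* `Oinf n` (`n : Sinf`): the local rings of the model at the smooth closed points of `C_∞`,
* `Ozero n` (`n : Szero`): the same for `C_0`,
* `Oe e` (`e : E`): the local rings at the nodes (contained in `Winf ∩ W0`).

The chart hypotheses (structure `H78hChart`):

* `hsatInf`, `hsatZero`, `hsatE` : saturation (`δ f ∈ O`, `f` integral ⟹ `f ∈ O`);
* `hnode` : the two branch values of an element of a node ring agree modulo `𝔪_A`
  (`h78h_node_of_loc` deduces it from the locality `hloc` of `H88nNode`);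
* `hglobInf`, `hglobZero` : a function which is regular (modulo `𝔪_A W`) at every closed point
  of a component is constant modulo `𝔪_A W`.

For `w : F` with the local forms

* (L1) `w = o (1 + D₀ μ)`, `o ∈ O_n`, `μ ∈ 𝔪_A W` at the smooth points of both components,
* (L2) `w = o (1 + D₀ μ₁) = o (1 + D₀ (ψ_e + μ₂))`, `o ∈ O_e`, `μ₁ ∈ 𝔪_A Winf`, `μ₂ ∈ 𝔪_A W0`
  at the nodes,

and the exact depth dichotomy `H78hDisc` (discreteness), the theorems give: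

* `h78h_export` : `w = a₀ + D₀ F₃`, `F₃ ≡ f_∞` on `Winf`, `F₃ ≡ f_0` on `W0` and
  `a₀ ψ_e ≡ f_0 - f_∞` modulo `𝔪_A` at EVERY node (a node exists);
* `h78h_psi_const` : `ψ_e ≡ ψ_e'` modulo `𝔪_A` for all nodes `e, e'` (for `w ≡ 1`);
* `h78h_psi_int` : for integer twists and `p ∈ 𝔪_A`: `p ∣ k_e - k_e'`.
-/

set_option autoImplicit false
set_option linter.unusedSectionVars false
set_option linter.unusedVariables false

open IsLocalRing

namespace Fermat.Agent.P7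

open Fermat.Agent.P6 (h88nM h88nM_add h88nM_neg h88nM_sub h88nM_of h88nM_mem h88nM_zero)

section Basic

variable {A : Type*} [CommRing A] [IsDomain A] [ValuationRing A]
  {F : Type*} [Field F] [Algebra A F]

/-- `𝔪_A W` is stable under multiplication by `W`. -/
theorem h78h_M_mul {W : Subring F} {f z : F} (hf : f ∈ h88nM A W) (hz : z ∈ W) :
    f * z ∈ h88nM A W := by
  obtain ⟨d, hd, y, hy, rfl⟩ := hf
  exact ⟨d, hd, y * z, W.mul_mem hy hz, by ring⟩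

/-- `𝔪_A W` is stable under multiplication by `W` (left form). -/
theorem h78h_M_mul_left {W : Subring F} {f z : F} (hf : f ∈ h88nM A W) (hz : z ∈ W) :
    z * f ∈ h88nM A W := by
  rw [mul_comm]; exact h78h_M_mul hf hz

/-- a constant of `𝔪_A` lies in `𝔪_A W`. -/
theorem h78h_M_const {W : Subring F} {c : A} (hc : c ∈ maximalIdeal A) :
    algebraMap A F c ∈ h88nM A W :=
  ⟨c, hc, 1, W.one_mem, by ring⟩

/-- **branch values at a node agree**, from the locality of the node ring. -/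
theorem h78h_node_of_loc {O W₁ W₂ : Subring F} (hAO : ∀ c : A, algebraMap A F c ∈ O)
    (hO₁ : ∀ f ∈ O, f ∈ W₁) (hO₂ : ∀ f ∈ O, f ∈ W₂)
    (hloc : ∀ e₁ ∈ O, ∀ e₂ ∈ O, e₁ ∈ h88nM A W₁ → e₂ ∈ h88nM A W₂ → e₁ + e₂ ≠ 1)
    {o : F} (ho : o ∈ O) (c₁ c₂ : A) (h₁ : o - algebraMap A F c₁ ∈ h88nM A W₁)
    (h₂ : o - algebraMap A F c₂ ∈ h88nM A W₂) : c₁ - c₂ ∈ maximalIdeal A := by
  by_contra hc
  have hu : IsUnit (c₁ - c₂) := by
    by_contra hn
    exact hc ((mem_maximalIdeal _).mpr hn)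
  obtain ⟨v, hv⟩ := hu.exists_right_inv
  have hAW₁ : ∀ c : A, algebraMap A F c ∈ W₁ := fun c => hO₁ _ (hAO c)
  have hAW₂ : ∀ c : A, algebraMap A F c ∈ W₂ := fun c => hO₂ _ (hAO c)
  set e₁ : F := algebraMap A F (-v) * (o - algebraMap A F c₁) with he₁
  set e₂ : F := algebraMap A F v * (o - algebraMap A F c₂) with he₂
  have he₁O : e₁ ∈ O := O.mul_mem (hAO _) (O.sub_mem ho (hAO _))
  have he₂O : e₂ ∈ O := O.mul_mem (hAO _) (O.sub_mem ho (hAO _))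
  have he₁M : e₁ ∈ h88nM A W₁ := h78h_M_mul_left h₁ (hAW₁ _)
  have he₂M : e₂ ∈ h88nM A W₂ := h78h_M_mul_left h₂ (hAW₂ _)
  apply hloc e₁ he₁O e₂ he₂O he₁M he₂M
  have h1 : e₁ + e₂ = algebraMap A F ((c₁ - c₂) * v) := by
    rw [he₁, he₂, map_mul, map_sub, map_neg]; ring
  rw [h1, hv, map_one]

end Basic

section Chart

variable {A : Type*} [CommRing A] [IsDomain A] [ValuationRing A]
  {F : Type*} [Field F] [Algebra A F]

/-- **the chart hypotheses of the `H⁰` argument**: two components with their Gauss rings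
`Winf`, `W0`, the local rings at the smooth closed points of each component and at the nodes,
saturation, agreement of branch values at the nodes, and `regular everywhere ⟹ constant` on
each component. -/
structure H78hChart (A : Type*) [CommRing A] [IsDomain A] [ValuationRing A]
    {F : Type*} [Field F] [Algebra A F] (Winf W0 : Subring F) {Sinf Szero E : Type*}
    (Oinf : Sinf → Subring F) (Ozero : Szero → Subring F) (Oe : E → Subring F) : Prop where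
  hAF : Function.Injective (algebraMap A F)
  hAinf : ∀ c : A, algebraMap A F c ∈ Winf
  hA0 : ∀ c : A, algebraMap A F c ∈ W0
  hOinf : ∀ n, ∀ f ∈ Oinf n, f ∈ Winf
  hOzero : ∀ n, ∀ f ∈ Ozero n, f ∈ W0
  hOe₁ : ∀ e, ∀ f ∈ Oe e, f ∈ Winf
  hOe₂ : ∀ e, ∀ f ∈ Oe e, f ∈ W0
  hAOinf : ∀ n (c : A), algebraMap A F c ∈ Oinf n
  hAOzero : ∀ n (c : A), algebraMap A F c ∈ Ozero n
  hAOe : ∀ e (c : A), algebraMap A F c ∈ Oe e
  hsatInf : ∀ n (δ : A), δ ≠ 0 → ∀ f : F, f ∈ Winf → algebraMap A F δ * f ∈ Oinf n → f ∈ Oinf n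
  hsatZero : ∀ n (δ : A), δ ≠ 0 → ∀ f : F, f ∈ W0 → algebraMap A F δ * f ∈ Ozero n →
    f ∈ Ozero n
  hsatE : ∀ e (δ : A), δ ≠ 0 → ∀ f : F, f ∈ Winf → f ∈ W0 → algebraMap A F δ * f ∈ Oe e →
    f ∈ Oe e
  hnode : ∀ e, ∀ o ∈ Oe e, ∀ c₁ c₂ : A, o - algebraMap A F c₁ ∈ h88nM A Winf →
    o - algebraMap A F c₂ ∈ h88nM A W0 → c₁ - c₂ ∈ maximalIdeal A
  hglobInf : ∀ f ∈ Winf, (∀ n, ∃ o ∈ Oinf n, f - o ∈ h88nM A Winf) →
    (∀ e, ∃ o ∈ Oe e, f - o ∈ h88nM A Winf) → ∃ c : A, f - algebraMap A F c ∈ h88nM A Winf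
  hglobZero : ∀ f ∈ W0, (∀ n, ∃ o ∈ Ozero n, f - o ∈ h88nM A W0) →
    (∀ e, ∃ o ∈ Oe e, f - o ∈ h88nM A W0) → ∃ c : A, f - algebraMap A F c ∈ h88nM A W0

/-- **exact depth dichotomy** of `w` relative to the constants (discreteness): either the
non-constant part of `w` appears at a depth `d₁` strictly shallower than `D₀`, or
`w ∈ A + D₀ (Winf ∩ W0)`. -/
def H78hDisc (A : Type*) [CommRing A] [IsDomain A] [ValuationRing A]
    {F : Type*} [Field F] [Algebra A F] (Winf W0 : Subring F) (D₀ : A) (w : F) : Prop :=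
  (∃ (a₀ d₁ ε : A) (G : F), d₁ ≠ 0 ∧ ε ∈ maximalIdeal A ∧ D₀ = d₁ * ε ∧ G ∈ Winf ∧ G ∈ W0 ∧
      w = algebraMap A F a₀ + algebraMap A F d₁ * G ∧
      ¬ ∃ c : A, G - algebraMap A F c ∈ h88nM A Winf ∧ G - algebraMap A F c ∈ h88nM A W0) ∨
  (∃ (a₀ : A) (F₃ : F), F₃ ∈ Winf ∧ F₃ ∈ W0 ∧
      w = algebraMap A F a₀ + algebraMap A F D₀ * F₃)

variable {Winf W0 : Subring F} {Sinf Szero E : Type*}
  {Oinf : Sinf → Subring F} {Ozero : Szero → Subring F} {Oe : E → Subring F}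

/-- the local form (L1) at a smooth point. -/
def H78hL1 (A : Type*) [CommRing A] [IsDomain A] [ValuationRing A]
    {F : Type*} [Field F] [Algebra A F] (W O : Subring F) (D₀ : A) (w : F) : Prop :=
  ∃ o ∈ O, ∃ μ ∈ h88nM A W, w = o * (1 + algebraMap A F D₀ * μ)

/-- the local form (L2) at a node, additive twist `ψ`. -/
def H78hL2 (A : Type*) [CommRing A] [IsDomain A] [ValuationRing A]
    {F : Type*} [Field F] [Algebra A F] (Winf W0 O : Subring F) (D₀ ψ : A) (w : F) : Prop :=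
  ∃ o ∈ O, ∃ μ₁ ∈ h88nM A Winf, ∃ μ₂ ∈ h88nM A W0,
    w = o * (1 + algebraMap A F D₀ * μ₁) ∧
    w = o * (1 + algebraMap A F D₀ * (algebraMap A F ψ + μ₂))

/-- the multiplicative form of (L2) (as in finding 1353) gives the additive one. -/
theorem h78h_L2_of_mul (hA0 : ∀ c : A, algebraMap A F c ∈ W0) {O : Subring F} {D₀ ψ : A}
    {w : F} (h : ∃ o ∈ O, ∃ μ₁ ∈ h88nM A Winf, ∃ μ₂ ∈ h88nM A W0,
      w = o * (1 + algebraMap A F D₀ * μ₁) ∧
      w = o * ((1 + algebraMap A F D₀ * algebraMap A F ψ) * (1 + algebraMap A F D₀ * μ₂))) :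
    H78hL2 A Winf W0 O D₀ ψ w := by
  obtain ⟨o, ho, μ₁, hμ₁, μ₂, hμ₂, h1, h2⟩ := h
  refine ⟨o, ho, μ₁, hμ₁, μ₂ * (1 + algebraMap A F D₀ * algebraMap A F ψ), ?_, h1, ?_⟩
  · exact h78h_M_mul hμ₂ (W0.add_mem W0.one_mem (W0.mul_mem (hA0 _) (hA0 _)))
  · rw [h2]; ring

/-- the regularity step at a smooth point: from the local form and `w = a₀ + d G`, `D₀ = d ε`,
the function `G` is congruent modulo `𝔪_A W` to an element of the local ring. -/
theorem h78h_reg_smooth {W O : Subring F} (hAF : Function.Injective (algebraMap A F))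
    (hAW : ∀ c : A, algebraMap A F c ∈ W) (hOW : ∀ f ∈ O, f ∈ W)
    (hAO : ∀ c : A, algebraMap A F c ∈ O)
    (hsat : ∀ δ : A, δ ≠ 0 → ∀ f : F, f ∈ W → algebraMap A F δ * f ∈ O → f ∈ O)
    {D₀ d ε a₀ : A} (hd : d ≠ 0) (hD : D₀ = d * ε) {w G : F} (hG : G ∈ W)
    (hw : w = algebraMap A F a₀ + algebraMap A F d * G)
    {o μ : F} (ho : o ∈ O) (hμ : μ ∈ W) (hL : w = o * (1 + algebraMap A F D₀ * μ)) :
    G - o * algebraMap A F ε * μ ∈ O := by
  apply hsat d hd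
  · exact W.sub_mem hG (W.mul_mem (W.mul_mem (hOW _ ho) (hAW _)) hμ)
  · have h1 : algebraMap A F d * (G - o * algebraMap A F ε * μ) = o - algebraMap A F a₀ := by
      have h2 : algebraMap A F d * G = w - algebraMap A F a₀ := by rw [hw]; ring
      rw [mul_sub, h2, hL, hD, map_mul]; ring
    rw [h1]
    exact O.sub_mem ho (hAO _)

/-- the regularity step at a node: ONE element `o₁` of the node ring with `d o₁ = o - a₀`,
`G ≡ o₁` modulo `𝔪_A Winf` and `G ≡ o₁ + o ε ψ` modulo `𝔪_A W0`. -/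
theorem h78h_reg_node {O : Subring F} (hAF : Function.Injective (algebraMap A F))
    (hAinf : ∀ c : A, algebraMap A F c ∈ Winf) (hA0 : ∀ c : A, algebraMap A F c ∈ W0)
    (hO₁ : ∀ f ∈ O, f ∈ Winf) (hO₂ : ∀ f ∈ O, f ∈ W0)
    (hAO : ∀ c : A, algebraMap A F c ∈ O)
    (hsat : ∀ δ : A, δ ≠ 0 → ∀ f : F, f ∈ Winf → f ∈ W0 → algebraMap A F δ * f ∈ O → f ∈ O)
    {D₀ d ε a₀ ψ : A} (hd : d ≠ 0) (hD : D₀ = d * ε) {w G : F} (hG₁ : G ∈ Winf)
    (hG₂ : G ∈ W0) (hw : w = algebraMap A F a₀ + algebraMap A F d * G)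
    (hL : H78hL2 A Winf W0 O D₀ ψ w) :
    ∃ o ∈ O, ∃ o₁ ∈ O, algebraMap A F d * o₁ = o - algebraMap A F a₀ ∧
      G - o₁ ∈ h88nM A Winf ∧
      G - (o₁ + o * algebraMap A F ε * algebraMap A F ψ) ∈ h88nM A W0 := by
  obtain ⟨o, ho, μ₁, hμ₁, μ₂, hμ₂, h1, h2⟩ := hL
  have hdF : algebraMap A F d ≠ 0 := fun h => hd (hAF (by rw [h, map_zero]))
  have hμ₁W : μ₁ ∈ Winf := h88nM_mem hAinf hμ₁
  have hμ₂W : μ₂ ∈ W0 := h88nM_mem hA0 hμ₂
  -- the two expressions of the correction agree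
  have heq : o * algebraMap A F ε * μ₁ = o * algebraMap A F ε * (algebraMap A F ψ + μ₂) := by
    have h3 : algebraMap A F d * (o * algebraMap A F ε * μ₁) =
        algebraMap A F d * (o * algebraMap A F ε * (algebraMap A F ψ + μ₂)) := by
      have h4 : o * (1 + algebraMap A F D₀ * μ₁) =
          o * (1 + algebraMap A F D₀ * (algebraMap A F ψ + μ₂)) := by rw [← h1, ← h2]
      rw [hD, map_mul] at h4
      linear_combination h4
    exact mul_left_cancel₀ hdF h3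
  have hrel : algebraMap A F d * (G - o * algebraMap A F ε * μ₁) = o - algebraMap A F a₀ := by
    have h5 : algebraMap A F d * G = w - algebraMap A F a₀ := by rw [hw]; ring
    rw [mul_sub, h5, h1, hD, map_mul]; ring
  have ho₁inf : G - o * algebraMap A F ε * μ₁ ∈ Winf :=
    Winf.sub_mem hG₁ (Winf.mul_mem (Winf.mul_mem (hO₁ _ ho) (hAinf _)) hμ₁W)
  have ho₁zero : G - o * algebraMap A F ε * μ₁ ∈ W0 := by
    rw [heq]
    exact W0.sub_mem hG₂ (W0.mul_mem (W0.mul_mem (hO₂ _ ho) (hA0 _))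
      (W0.add_mem (hA0 _) hμ₂W))
  have ho₁O : G - o * algebraMap A F ε * μ₁ ∈ O := by
    apply hsat d hd _ ho₁inf ho₁zero
    rw [hrel]
    exact O.sub_mem ho (hAO _)
  refine ⟨o, ho, G - o * algebraMap A F ε * μ₁, ho₁O, hrel, ?_, ?_⟩
  · have h6 : G - (G - o * algebraMap A F ε * μ₁) = μ₁ * (o * algebraMap A F ε) := by ring
    rw [h6]
    exact h78h_M_mul hμ₁ (Winf.mul_mem (hO₁ _ ho) (hAinf _))
  · have h7 : G - (G - o * algebraMap A F ε * μ₁ + o * algebraMap A F ε * algebraMap A F ψ) =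
        μ₂ * (o * algebraMap A F ε) := by
      rw [heq]; ring
    rw [h7]
    exact h78h_M_mul hμ₂ (W0.mul_mem (hO₂ _ ho) (hA0 _))

/-- **the core of the `H⁰` argument** (both cases of the dichotomy at once): if
`w = a₀ + d G`, `D₀ = d ε`, then `G` is constant modulo `𝔪_A` on each component,
`G ≡ f₁` on `Winf`, `G ≡ f₂` on `W0`, and `a₀ ε ψ_e ≡ f₂ - f₁` at every node. -/
theorem h78h_core (hC : H78hChart A Winf W0 Oinf Ozero Oe) {D₀ d ε a₀ : A} (hd : d ≠ 0)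
    (hD : D₀ = d * ε) (hD₀ : D₀ ∈ maximalIdeal A) {w G : F} (hG₁ : G ∈ Winf) (hG₂ : G ∈ W0)
    (hw : w = algebraMap A F a₀ + algebraMap A F d * G) (ψ : E → A)
    (hL1inf : ∀ n, H78hL1 A Winf (Oinf n) D₀ w)
    (hL1zero : ∀ n, H78hL1 A W0 (Ozero n) D₀ w)
    (hL2 : ∀ e, H78hL2 A Winf W0 (Oe e) D₀ (ψ e) w) :
    ∃ f₁ f₂ : A, G - algebraMap A F f₁ ∈ h88nM A Winf ∧
      G - algebraMap A F f₂ ∈ h88nM A W0 ∧
      ∀ e, a₀ * ε * ψ e - (f₂ - f₁) ∈ maximalIdeal A := by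
  have hnodeData := fun e => h78h_reg_node hC.hAF hC.hAinf hC.hA0 (hC.hOe₁ e) (hC.hOe₂ e)
    (hC.hAOe e) (hC.hsatE e) hd hD hG₁ hG₂ hw (hL2 e)
  -- regular everywhere on `C_∞`
  obtain ⟨f₁, hf₁⟩ := hC.hglobInf G hG₁
    (fun n => by
      obtain ⟨o, ho, μ, hμ, hL⟩ := hL1inf n
      refine ⟨_, h78h_reg_smooth hC.hAF hC.hAinf (hC.hOinf n) (hC.hAOinf n) (hC.hsatInf n) hd hD
        hG₁ hw ho (h88nM_mem hC.hAinf hμ) hL, ?_⟩
      have h1 : G - (G - o * algebraMap A F ε * μ) = μ * (o * algebraMap A F ε) := by ring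
      rw [h1]
      exact h78h_M_mul hμ (Winf.mul_mem (hC.hOinf n _ ho) (hC.hAinf _)))
    (fun e => by
      obtain ⟨o, ho, o₁, ho₁, -, h1, -⟩ := hnodeData e
      exact ⟨o₁, ho₁, h1⟩)
  -- regular everywhere on `C_0`
  obtain ⟨f₂, hf₂⟩ := hC.hglobZero G hG₂
    (fun n => by
      obtain ⟨o, ho, μ, hμ, hL⟩ := hL1zero n
      refine ⟨_, h78h_reg_smooth hC.hAF hC.hA0 (hC.hOzero n) (hC.hAOzero n) (hC.hsatZero n) hd hD
        hG₂ hw ho (h88nM_mem hC.hA0 hμ) hL, ?_⟩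
      have h1 : G - (G - o * algebraMap A F ε * μ) = μ * (o * algebraMap A F ε) := by ring
      rw [h1]
      exact h78h_M_mul hμ (W0.mul_mem (hC.hOzero n _ ho) (hC.hA0 _)))
    (fun e => by
      obtain ⟨o, ho, o₁, ho₁, -, -, h2⟩ := hnodeData e
      exact ⟨_, (Oe e).add_mem ho₁
        ((Oe e).mul_mem ((Oe e).mul_mem ho (hC.hAOe e _)) (hC.hAOe e _)), h2⟩)
  refine ⟨f₁, f₂, hf₁, hf₂, fun e => ?_⟩
  obtain ⟨o, ho, o₁, ho₁, hrel, h1, h2⟩ := hnodeData e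
  -- `o₁ ≡ f₁` on `Winf`
  have hA : o₁ - algebraMap A F f₁ ∈ h88nM A Winf := by
    have : o₁ - algebraMap A F f₁ = (G - algebraMap A F f₁) - (G - o₁) := by ring
    rw [this]
    exact h88nM_sub hC.hAinf hf₁ h1
  -- `o₁ ≡ f₂ - a₀ ε ψ` on `W0`
  have hB : o₁ - algebraMap A F (f₂ - a₀ * ε * ψ e) ∈ h88nM A W0 := by
    have ho_eq : o = algebraMap A F a₀ + algebraMap A F d * o₁ := by rw [hrel]; ring
    have h3 : o₁ - algebraMap A F (f₂ - a₀ * ε * ψ e) =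
        (G - algebraMap A F f₂) - (G - (o₁ + o * algebraMap A F ε * algebraMap A F (ψ e)))
          - algebraMap A F D₀ * (o₁ * algebraMap A F (ψ e)) := by
      rw [hD]
      simp only [map_sub, map_mul]
      rw [ho_eq]
      ring
    rw [h3]
    refine h88nM_sub hC.hA0 (h88nM_sub hC.hA0 hf₂ h2) ?_
    exact h88nM_of hD₀ (W0.mul_mem (hC.hOe₂ e _ ho₁) (hC.hA0 _))
  have hcmp := hC.hnode e o₁ ho₁ f₁ (f₂ - a₀ * ε * ψ e) hA hB
  have h4 : a₀ * ε * ψ e - (f₂ - f₁) = f₁ - (f₂ - a₀ * ε * ψ e) := by ring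
  rw [h4]
  exact hcmp

/-- **T-C4-H0, EXPORT form.**  If a node exists, the shallow case of the dichotomy is
impossible, `w = a₀ + D₀ F₃` with `F₃` constant modulo `𝔪_A` on each component, and the twist
at EVERY node is `a₀ ψ_e ≡ f_0 - f_∞`. -/
theorem h78h_export (hC : H78hChart A Winf W0 Oinf Ozero Oe) [Nonempty E] {D₀ : A}
    (hD₀0 : D₀ ≠ 0) (hD₀ : D₀ ∈ maximalIdeal A) {w : F} (ψ : E → A)
    (hL1inf : ∀ n, H78hL1 A Winf (Oinf n) D₀ w)
    (hL1zero : ∀ n, H78hL1 A W0 (Ozero n) D₀ w)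
    (hL2 : ∀ e, H78hL2 A Winf W0 (Oe e) D₀ (ψ e) w)
    (hdisc : H78hDisc A Winf W0 D₀ w) :
    ∃ (a₀ f₁ f₂ : A) (F₃ : F), F₃ ∈ Winf ∧ F₃ ∈ W0 ∧
      w = algebraMap A F a₀ + algebraMap A F D₀ * F₃ ∧
      F₃ - algebraMap A F f₁ ∈ h88nM A Winf ∧ F₃ - algebraMap A F f₂ ∈ h88nM A W0 ∧
      ∀ e, a₀ * ψ e - (f₂ - f₁) ∈ maximalIdeal A := by
  rcases hdisc with ⟨a₀, d₁, ε, G, hd₁, hε, hD, hG₁, hG₂, hw, hnot⟩ | ⟨a₀, F₃, hF₁, hF₂, hw⟩
  · exfalso
    obtain ⟨f₁, f₂, hf₁, hf₂, hψ⟩ := h78h_core hC hd₁ hD hD₀ hG₁ hG₂ hw ψ hL1inf hL1zero hL2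
    obtain ⟨e⟩ := (inferInstance : Nonempty E)
    have h1 : f₂ - f₁ ∈ maximalIdeal A := by
      have h2 : f₂ - f₁ = a₀ * ψ e * ε - (a₀ * ε * ψ e - (f₂ - f₁)) := by ring
      rw [h2]
      exact (maximalIdeal A).sub_mem ((maximalIdeal A).mul_mem_left _ hε) (hψ e)
    apply hnot
    refine ⟨f₁, hf₁, ?_⟩
    have h3 : G - algebraMap A F f₁ = (G - algebraMap A F f₂) + algebraMap A F (f₂ - f₁) := by
      rw [map_sub]; ring
    rw [h3]
    exact h88nM_add hC.hA0 hf₂ (h78h_M_const h1)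
  · obtain ⟨f₁, f₂, hf₁, hf₂, hψ⟩ :=
      h78h_core hC hD₀0 (mul_one D₀).symm hD₀ hF₁ hF₂ hw ψ hL1inf hL1zero hL2
    refine ⟨a₀, f₁, f₂, F₃, hF₁, hF₂, hw, hf₁, hf₂, fun e => ?_⟩
    have := hψ e
    rwa [mul_one] at this

/-- **T-C4-H0.**  For `w ≡ 1` modulo `𝔪_A Winf`: the twists at the nodes are all congruent
modulo `𝔪_A`. -/
theorem h78h_psi_const (hC : H78hChart A Winf W0 Oinf Ozero Oe) {D₀ : A}
    (hD₀0 : D₀ ≠ 0) (hD₀ : D₀ ∈ maximalIdeal A) {w : F} (ψ : E → A)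
    (hconst : ∀ c : A, algebraMap A F c ∈ h88nM A Winf → c ∈ maximalIdeal A)
    (hw1 : w - 1 ∈ h88nM A Winf)
    (hL1inf : ∀ n, H78hL1 A Winf (Oinf n) D₀ w)
    (hL1zero : ∀ n, H78hL1 A W0 (Ozero n) D₀ w)
    (hL2 : ∀ e, H78hL2 A Winf W0 (Oe e) D₀ (ψ e) w)
    (hdisc : H78hDisc A Winf W0 D₀ w) (e e' : E) : ψ e - ψ e' ∈ maximalIdeal A := by
  have : Nonempty E := ⟨e⟩
  obtain ⟨a₀, f₁, f₂, F₃, hF₁, hF₂, hw, hf₁, hf₂, hψ⟩ :=
    h78h_export hC hD₀0 hD₀ ψ hL1inf hL1zero hL2 hdisc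
  -- `a₀ ≡ 1`
  have ha₀ : a₀ - 1 ∈ maximalIdeal A := by
    apply hconst
    have h1 : algebraMap A F (a₀ - 1) = (w - 1) - algebraMap A F D₀ * F₃ := by
      rw [hw, map_sub, map_one]; ring
    rw [h1]
    exact h88nM_sub hC.hAinf hw1 (h88nM_of hD₀ hF₁)
  have ha₀' : a₀ ∉ maximalIdeal A := by
    intro h
    have h2 : (1 : A) ∈ maximalIdeal A := by
      have : (1 : A) = a₀ - (a₀ - 1) := by ring
      rw [this]
      exact (maximalIdeal A).sub_mem h ha₀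
    exact (maximalIdeal A).ne_top_iff_one.mp (IsLocalRing.maximalIdeal.isMaximal A).ne_top h2
  have h3 : a₀ * (ψ e - ψ e') ∈ maximalIdeal A := by
    have : a₀ * (ψ e - ψ e') = (a₀ * ψ e - (f₂ - f₁)) - (a₀ * ψ e' - (f₂ - f₁)) := by ring
    rw [this]
    exact (maximalIdeal A).sub_mem (hψ e) (hψ e')
  exact ((IsLocalRing.maximalIdeal.isMaximal A).isPrime.mem_or_mem h3).resolve_left ha₀'

/-- **T-C4-H0, integer form.**  Integer twists `ψ_e = k_e`, `p ∈ 𝔪_A` a prime number: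
`p ∣ k_e - k_e'` for all nodes `e, e'`. -/
theorem h78h_psi_int (hC : H78hChart A Winf W0 Oinf Ozero Oe) {D₀ : A}
    (hD₀0 : D₀ ≠ 0) (hD₀ : D₀ ∈ maximalIdeal A) {w : F} (k : E → ℤ) {p : ℕ} (hp : p.Prime)
    (hpm : (p : A) ∈ maximalIdeal A)
    (hconst : ∀ c : A, algebraMap A F c ∈ h88nM A Winf → c ∈ maximalIdeal A)
    (hw1 : w - 1 ∈ h88nM A Winf)
    (hL1inf : ∀ n, H78hL1 A Winf (Oinf n) D₀ w)
    (hL1zero : ∀ n, H78hL1 A W0 (Ozero n) D₀ w)
    (hL2 : ∀ e, H78hL2 A Winf W0 (Oe e) D₀ ((k e : ℤ) : A) w)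
    (hdisc : H78hDisc A Winf W0 D₀ w) (e e' : E) : (p : ℤ) ∣ k e - k e' := by
  have h1 := h78h_psi_const hC hD₀0 hD₀ (fun e => ((k e : ℤ) : A)) hconst hw1 hL1inf hL1zero
    hL2 hdisc e e'
  by_contra hnd
  have hcop : IsCoprime (k e - k e') (p : ℤ) := by
    have hpZ : Prime (p : ℤ) := Nat.prime_iff_prime_int.mp hp
    exact (hpZ.coprime_iff_not_dvd.mpr hnd).symm
  obtain ⟨a, b, hab⟩ := hcop
  have h2 : (1 : A) ∈ maximalIdeal A := by
    have h3 : (1 : A) = (a : A) * (((k e : ℤ) : A) - ((k e' : ℤ) : A)) + (b : A) * (p : A) := by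
      have := congrArg (fun z : ℤ => (z : A)) hab
      simp only [Int.cast_add, Int.cast_mul, Int.cast_sub, Int.cast_natCast, Int.cast_one] at this
      rw [this]
    rw [h3]
    exact (maximalIdeal A).add_mem ((maximalIdeal A).mul_mem_left _ h1)
      ((maximalIdeal A).mul_mem_left _ hpm)
  exact (maximalIdeal A).ne_top_iff_one.mp (IsLocalRing.maximalIdeal.isMaximal A).ne_top h2

end Chart

end Fermat.Agent.P7
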