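import Mathlib
import Fermat.Agent.P7.H78HZero
import Fermat.Agent.P7.H91Poly

/-!
# Wave 7 (S40), block (5b), leaf T-C4-H0: adapters for the assembly C5 (helper78)

The assembly C5 (helper84) produces the local forms of `w = b(u)/u` in the vocabulary
`h91yU D₀ W = 1 + D₀ 𝔪_A W` of `P7/H91Poly.lean`:

* (L1) smooth point `n` on the component `W`: `w = o X`, `o ∈ O_n`, `X ∈ h91yU D₀ W`;
* (L2) node `e`, two-sided form: `w = o X`, `o ∈ O_e`, `X ∈ h91yU D₀ Winf`,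
  `X (1 + D₀ ψ_e)⁻¹ ∈ h91yU D₀ W0`.

This file converts them to the forms `H78hL1`, `H78hL2` of `P7/H78HZero.lean` and states the
conclusions in this vocabulary:

* `h78h_psi_const_U` : `ψ_e - ψ_e' ∈ 𝔪_A` for all nodes;
* `h78h_export_U` : MULTIPLICATIVE EXPORT `w = a₀ (1 + D₀ F₃)`, `a₀` a unit constant,
  `F₃ ≡ f_∞` on `Winf`, `F₃ ≡ f_0` on `W0`, `ψ_e ≡ f_0 - f_∞` modulo `𝔪_A` at every node
  (the input of T-EIS).
-/

set_option autoImplicit false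
set_option linter.unusedSectionVars false
set_option linter.unusedVariables false

open IsLocalRing

namespace Fermat.Agent.P7

open Fermat.Agent.P6 (h88nM h88nM_add h88nM_neg h88nM_sub h88nM_of h88nM_mem h88nM_zero)
open Fermat.Agent.Red (h26U)

section Adapt

variable {A : Type*} [CommRing A] [IsDomain A] [ValuationRing A]
  {F : Type*} [Field F] [Algebra A F]

/-- an element of `1 + D₀ 𝔪_A W` is `1 + D₀ μ` with `μ ∈ 𝔪_A W`. -/
theorem h78h_U_exists {D₀ : A} {W : Subring F} {X : F} (hX : X ∈ h91yU D₀ W) :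
    ∃ μ ∈ h88nM A W, X = 1 + algebraMap A F D₀ * μ := by
  obtain ⟨m, hm, v, hv, rfl⟩ := hX
  exact ⟨algebraMap A F m * v, ⟨m, hm, v, hv, rfl⟩, by rw [map_mul]; ring⟩

/-- conversely. -/
theorem h78h_U_of {D₀ : A} {W : Subring F} {μ : F} (hμ : μ ∈ h88nM A W) :
    1 + algebraMap A F D₀ * μ ∈ h91yU D₀ W := by
  obtain ⟨m, hm, v, hv, rfl⟩ := hμ
  exact ⟨m, hm, v, hv, by rw [map_mul]; ring⟩

/-- (L1) in the `h91yU` vocabulary. -/
theorem h78h_L1_of_U {W O : Subring F} {D₀ : A} {w o X : F} (ho : o ∈ O)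
    (hX : X ∈ h91yU D₀ W) (hw : w = o * X) : H78hL1 A W O D₀ w := by
  obtain ⟨μ, hμ, rfl⟩ := h78h_U_exists hX
  exact ⟨o, ho, μ, hμ, hw⟩

/-- `1 + D₀ ψ` is nonzero in `F` for `D₀ ∈ 𝔪_A`. -/
theorem h78h_one_add_ne_zero (hAF : Function.Injective (algebraMap A F)) {D₀ : A}
    (hD₀ : D₀ ∈ maximalIdeal A) (ψ : A) :
    (1 + algebraMap A F D₀ * algebraMap A F ψ : F) ≠ 0 := by
  intro h
  have h1 : algebraMap A F (1 + D₀ * ψ) = 0 := by rw [map_add, map_one, map_mul]; exact h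
  have h2 : 1 + D₀ * ψ = 0 := hAF (by rw [h1, map_zero])
  have h3 : (1 : A) ∈ maximalIdeal A := by
    have : (1 : A) = -(D₀ * ψ) := by linear_combination h2
    rw [this]
    exact (maximalIdeal A).neg_mem ((maximalIdeal A).mul_mem_right _ hD₀)
  exact (maximalIdeal A).ne_top_iff_one.mp (IsLocalRing.maximalIdeal.isMaximal A).ne_top h3

/-- (L2), two-sided form in the `h91yU` vocabulary. -/
theorem h78h_L2_of_U (hAF : Function.Injective (algebraMap A F)) {Winf W0 O : Subring F}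
    (hA0 : ∀ c : A, algebraMap A F c ∈ W0) {D₀ ψ : A} (hD₀ : D₀ ∈ maximalIdeal A)
    {w o X : F} (ho : o ∈ O) (hX₁ : X ∈ h91yU D₀ Winf)
    (hX₂ : X * (1 + algebraMap A F D₀ * algebraMap A F ψ)⁻¹ ∈ h91yU D₀ W0)
    (hw : w = o * X) : H78hL2 A Winf W0 O D₀ ψ w := by
  obtain ⟨μ₁, hμ₁, h1⟩ := h78h_U_exists hX₁
  obtain ⟨μ₂, hμ₂, h2⟩ := h78h_U_exists hX₂
  have hne := h78h_one_add_ne_zero hAF hD₀ ψ
  apply h78h_L2_of_mul hA0
  refine ⟨o, ho, μ₁, hμ₁, μ₂, hμ₂, by rw [hw, h1], ?_⟩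
  have h3 : X = (1 + algebraMap A F D₀ * algebraMap A F ψ) * (1 + algebraMap A F D₀ * μ₂) := by
    rw [← h2]
    field_simp
  rw [hw]
  rw [h3]

variable {Winf W0 : Subring F} {Sinf Szero E : Type*}
  {Oinf : Sinf → Subring F} {Ozero : Szero → Subring F} {Oe : E → Subring F}

/-- **T-C4-H0 in the vocabulary of C5**: the twists at the nodes are all congruent modulo
`𝔪_A`. -/
theorem h78h_psi_const_U (hC : H78hChart A Winf W0 Oinf Ozero Oe) {D₀ : A}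
    (hD₀0 : D₀ ≠ 0) (hD₀ : D₀ ∈ maximalIdeal A) {w : F} (ψ : E → A)
    (hconst : ∀ c : A, algebraMap A F c ∈ h88nM A Winf → c ∈ maximalIdeal A)
    (hw1 : w - 1 ∈ h88nM A Winf)
    (hL1inf : ∀ n, ∃ o X : F, o ∈ Oinf n ∧ X ∈ h91yU D₀ Winf ∧ w = o * X)
    (hL1zero : ∀ n, ∃ o X : F, o ∈ Ozero n ∧ X ∈ h91yU D₀ W0 ∧ w = o * X)
    (hL2 : ∀ e, ∃ o X : F, o ∈ Oe e ∧ X ∈ h91yU D₀ Winf ∧
      X * (1 + algebraMap A F D₀ * algebraMap A F (ψ e))⁻¹ ∈ h91yU D₀ W0 ∧ w = o * X)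
    (hdisc : H78hDisc A Winf W0 D₀ w) (e e' : E) : ψ e - ψ e' ∈ maximalIdeal A :=
  h78h_psi_const hC hD₀0 hD₀ ψ hconst hw1
    (fun n => by
      obtain ⟨o, X, ho, hX, hw⟩ := hL1inf n
      exact h78h_L1_of_U ho hX hw)
    (fun n => by
      obtain ⟨o, X, ho, hX, hw⟩ := hL1zero n
      exact h78h_L1_of_U ho hX hw)
    (fun e => by
      obtain ⟨o, X, ho, hX₁, hX₂, hw⟩ := hL2 e
      exact h78h_L2_of_U hC.hAF hC.hA0 hD₀ ho hX₁ hX₂ hw)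
    hdisc e e'

/-- **T-C4-H0, MULTIPLICATIVE EXPORT** (input of T-EIS): `w = a₀ (1 + D₀ F₃)` with `a₀` a unit
constant, `F₃ ≡ f_∞` modulo `𝔪_A Winf`, `F₃ ≡ f_0` modulo `𝔪_A W0`, and
`ψ_e ≡ f_0 - f_∞` modulo `𝔪_A` at EVERY node. -/
theorem h78h_export_U (hC : H78hChart A Winf W0 Oinf Ozero Oe) [Nonempty E] {D₀ : A}
    (hD₀0 : D₀ ≠ 0) (hD₀ : D₀ ∈ maximalIdeal A) {w : F} (ψ : E → A)
    (hconst : ∀ c : A, algebraMap A F c ∈ h88nM A Winf → c ∈ maximalIdeal A)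
    (hw1 : w - 1 ∈ h88nM A Winf)
    (hL1inf : ∀ n, ∃ o X : F, o ∈ Oinf n ∧ X ∈ h91yU D₀ Winf ∧ w = o * X)
    (hL1zero : ∀ n, ∃ o X : F, o ∈ Ozero n ∧ X ∈ h91yU D₀ W0 ∧ w = o * X)
    (hL2 : ∀ e, ∃ o X : F, o ∈ Oe e ∧ X ∈ h91yU D₀ Winf ∧
      X * (1 + algebraMap A F D₀ * algebraMap A F (ψ e))⁻¹ ∈ h91yU D₀ W0 ∧ w = o * X)
    (hdisc : H78hDisc A Winf W0 D₀ w) :
    ∃ (a₀ f₁ f₂ : A) (F₃ : F), IsUnit a₀ ∧ a₀ - 1 ∈ maximalIdeal A ∧ F₃ ∈ Winf ∧ F₃ ∈ W0 ∧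
      w = algebraMap A F a₀ * (1 + algebraMap A F D₀ * F₃) ∧
      F₃ - algebraMap A F f₁ ∈ h88nM A Winf ∧ F₃ - algebraMap A F f₂ ∈ h88nM A W0 ∧
      ∀ e, ψ e - (f₂ - f₁) ∈ maximalIdeal A := by
  obtain ⟨a₀, f₁, f₂, F₃, hF₁, hF₂, hw, hf₁, hf₂, hψ⟩ :=
    h78h_export hC hD₀0 hD₀ ψ
      (fun n => by
        obtain ⟨o, X, ho, hX, hw⟩ := hL1inf n
        exact h78h_L1_of_U ho hX hw)
      (fun n => by
        obtain ⟨o, X, ho, hX, hw⟩ := hL1zero n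
        exact h78h_L1_of_U ho hX hw)
      (fun e => by
        obtain ⟨o, X, ho, hX₁, hX₂, hw⟩ := hL2 e
        exact h78h_L2_of_U hC.hAF hC.hA0 hD₀ ho hX₁ hX₂ hw)
      hdisc
  -- `a₀ ≡ 1`, hence a unit
  have ha₀ : a₀ - 1 ∈ maximalIdeal A := by
    apply hconst
    have h1 : algebraMap A F (a₀ - 1) = (w - 1) - algebraMap A F D₀ * F₃ := by
      rw [hw, map_sub, map_one]; ring
    rw [h1]
    exact h88nM_sub hC.hAinf hw1 (h88nM_of hD₀ hF₁)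
  have ha₀' : a₀ ∉ maximalIdeal A := by
    intro h
    have h2 : (1 : A) ∈ maximalIdeal A := by
      have : (1 : A) = a₀ - (a₀ - 1) := by ring
      rw [this]
      exact (maximalIdeal A).sub_mem h ha₀
    exact (maximalIdeal A).ne_top_iff_one.mp (IsLocalRing.maximalIdeal.isMaximal A).ne_top h2
  have hu : IsUnit a₀ := by
    by_contra hn
    exact ha₀' ((mem_maximalIdeal _).mpr hn)
  obtain ⟨b₀, hb₀⟩ := hu.exists_right_inv
  have hb₀' : algebraMap A F a₀ * algebraMap A F b₀ = 1 := by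
    rw [← map_mul, hb₀, map_one]
  have hb₀m : b₀ - 1 ∈ maximalIdeal A := by
    have : b₀ - 1 = -(b₀ * (a₀ - 1)) := by linear_combination hb₀
    rw [this]
    exact (maximalIdeal A).neg_mem ((maximalIdeal A).mul_mem_left _ ha₀)
  refine ⟨a₀, b₀ * f₁, b₀ * f₂, algebraMap A F b₀ * F₃, hu, ha₀,
    Winf.mul_mem (hC.hAinf _) hF₁, W0.mul_mem (hC.hA0 _) hF₂, ?_, ?_, ?_, fun e => ?_⟩
  · rw [hw]
    linear_combination (-(algebraMap A F D₀ * F₃)) * hb₀'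
  · have h3 : algebraMap A F b₀ * F₃ - algebraMap A F (b₀ * f₁) =
        algebraMap A F b₀ * (F₃ - algebraMap A F f₁) := by rw [map_mul]; ring
    rw [h3]
    exact h78h_M_mul_left hf₁ (hC.hAinf _)
  · have h3 : algebraMap A F b₀ * F₃ - algebraMap A F (b₀ * f₂) =
        algebraMap A F b₀ * (F₃ - algebraMap A F f₂) := by rw [map_mul]; ring
    rw [h3]
    exact h78h_M_mul_left hf₂ (hC.hA0 _)
  · have h4 : ψ e - (b₀ * f₂ - b₀ * f₁) = b₀ * (a₀ * ψ e - (f₂ - f₁)) - (a₀ * b₀ - 1) * ψ e := by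
      ring
    rw [h4, hb₀, sub_self, zero_mul, sub_zero]
    exact (maximalIdeal A).mul_mem_left _ (hψ e)

end Adapt

end Fermat.Agent.P7
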