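import Mathlib
import Fermat.Agent.P7.H78HZero

/-!
# Wave 7 (S40), block (5b), leaf T-C4-H0: the exact depth dichotomy WITHOUT discreteness
(helper78)

The dichotomy `H78hDisc A Winf W0 D₀ w` (input of `h78h_export`, `h78h_psi_const`) does not
need the descent of `w` to a discretely valued field: it follows from

* a BASE POINT: a subring `O₀ ⊆ Winf` (the local ring of the model at ONE smooth closed point
  `n₀` of `C_∞`), saturated in `Winf`, with a retraction `ev : O₀ →+* A` of the constants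
  (the evaluation at an `A`-valued point of the residue disc of `n₀`, i.e. at a place of `F`
  centred at `n₀`);
* the local form (L1) of `w` at `n₀`: `w = o (1 + D₀ μ)`, `o ∈ O₀`, `μ ∈ 𝔪_A Winf`;
* GAUSS SCALING for `Winf ∩ W0`: every nonzero `g ∈ Winf ∩ W0` is `π g₁` with `π ∈ A`,
  `g₁ ∈ Winf ∩ W0` and `g₁ ∉ 𝔪_A Winf ∩ 𝔪_A W0`.

Proof: `a₀ := ev o`; write `w - a₀ = π g₁`; if `D₀ ∣ π` we are in the deep case; otherwise
`D₀ = π ε`, `ε ∈ 𝔪_A`, and `g₁` cannot be constant modulo `𝔪_A` on both components: the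
element `G' = g₁ - o ε μ` lies in `O₀` (saturation), `ev G' = 0`, so a constant value `c` of
`g₁` is in `𝔪_A` and `g₁ ∈ 𝔪_A Winf ∩ 𝔪_A W0`, a contradiction.

* `h78h_disc_of_base` : the dichotomy;
* `h78h_psi_const_base`, `h78h_export_base` : the conclusions of T-C4-H0 with the dichotomy
  discharged (base point = one of the smooth points of `C_∞`).
-/

set_option autoImplicit false
set_option linter.unusedSectionVars false
set_option linter.unusedVariables false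

open IsLocalRing

namespace Fermat.Agent.P7

open Fermat.Agent.P6 (h88nM h88nM_add h88nM_neg h88nM_sub h88nM_of h88nM_mem h88nM_zero)

section Disc

variable {A : Type*} [CommRing A] [IsDomain A] [ValuationRing A]
  {F : Type*} [Field F] [Algebra A F]

/-- **the exact depth dichotomy from a base point and Gauss scaling** (no discreteness). -/
theorem h78h_disc_of_base (hAF : Function.Injective (algebraMap A F)) {Winf W0 O₀ : Subring F}
    (hAinf : ∀ c : A, algebraMap A F c ∈ Winf) (hA0 : ∀ c : A, algebraMap A F c ∈ W0)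
    (hO₀W : ∀ f ∈ O₀, f ∈ Winf) (hAO₀ : ∀ c : A, algebraMap A F c ∈ O₀)
    (hsat₀ : ∀ δ : A, δ ≠ 0 → ∀ f : F, f ∈ Winf → algebraMap A F δ * f ∈ O₀ → f ∈ O₀)
    (ev : O₀ →+* A) (hev : ∀ c : A, ev ⟨algebraMap A F c, hAO₀ c⟩ = c)
    (hscale : ∀ g : F, g ∈ Winf → g ∈ W0 → g ≠ 0 → ∃ (π : A) (g₁ : F), g₁ ∈ Winf ∧ g₁ ∈ W0 ∧
      g = algebraMap A F π * g₁ ∧ ¬ (g₁ ∈ h88nM A Winf ∧ g₁ ∈ h88nM A W0))
    {D₀ : A} {w : F} (hw₁ : w ∈ Winf) (hw₂ : w ∈ W0) (hL : H78hL1 A Winf O₀ D₀ w) :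
    H78hDisc A Winf W0 D₀ w := by
  obtain ⟨o, ho, μ, hμ, hwo⟩ := hL
  have hμW : μ ∈ Winf := h88nM_mem hAinf hμ
  set a₀ : A := ev ⟨o, ho⟩ with ha₀
  by_cases hg : w - algebraMap A F a₀ = 0
  · right
    refine ⟨a₀, 0, Winf.zero_mem, W0.zero_mem, ?_⟩
    rw [mul_zero, add_zero]
    exact sub_eq_zero.mp hg
  obtain ⟨π, g₁, hg₁inf, hg₁0, hgπ, hnot⟩ := hscale _ (Winf.sub_mem hw₁ (hAinf _))
    (W0.sub_mem hw₂ (hA0 _)) hg
  have hπ0 : π ≠ 0 := by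
    rintro rfl
    rw [map_zero, zero_mul] at hgπ
    exact hg hgπ
  have hwπ : w = algebraMap A F a₀ + algebraMap A F π * g₁ := by rw [← hgπ]; ring
  -- the deep case
  have hdeep : D₀ ∣ π → H78hDisc A Winf W0 D₀ w := by
    rintro ⟨c, rfl⟩
    right
    refine ⟨a₀, algebraMap A F c * g₁, Winf.mul_mem (hAinf _) hg₁inf,
      W0.mul_mem (hA0 _) hg₁0, ?_⟩
    rw [hwπ, map_mul]; ring
  rcases ValuationRing.dvd_total D₀ π with h | ⟨ε, hε⟩
  · exact hdeep h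
  by_cases hεm : ε ∈ maximalIdeal A
  swap
  · -- `ε` is a unit: again the deep case
    have hu : IsUnit ε := by
      by_contra hn
      exact hεm ((mem_maximalIdeal _).mpr hn)
    obtain ⟨ε', hε'⟩ := hu.exists_right_inv
    exact hdeep ⟨ε', by rw [hε, mul_assoc, hε', mul_one]⟩
  -- the shallow case
  left
  refine ⟨a₀, π, ε, g₁, hπ0, hεm, hε, hg₁inf, hg₁0, hwπ, ?_⟩
  rintro ⟨c, hc₁, hc₂⟩
  -- the auxiliary element of the local ring
  have hG'W : g₁ - o * algebraMap A F ε * μ ∈ Winf :=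
    Winf.sub_mem hg₁inf (Winf.mul_mem (Winf.mul_mem (hO₀W _ ho) (hAinf _)) hμW)
  have hrel : algebraMap A F π * (g₁ - o * algebraMap A F ε * μ) = o - algebraMap A F a₀ := by
    have h1 : algebraMap A F π * g₁ = w - algebraMap A F a₀ := by rw [hwπ]; ring
    rw [mul_sub, h1, hwo, hε, map_mul]; ring
  have hG'O : g₁ - o * algebraMap A F ε * μ ∈ O₀ := by
    apply hsat₀ π hπ0 _ hG'W
    rw [hrel]
    exact O₀.sub_mem ho (hAO₀ _)
  have hevG' : ev ⟨_, hG'O⟩ = 0 := by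
    have h2 : (⟨algebraMap A F π, hAO₀ π⟩ : O₀) * ⟨_, hG'O⟩ =
        ⟨o, ho⟩ - ⟨algebraMap A F a₀, hAO₀ a₀⟩ := Subtype.ext hrel
    have h3 := congrArg ev h2
    rw [map_mul, map_sub, hev, hev, ← ha₀, sub_self] at h3
    exact (mul_eq_zero.mp h3).resolve_left hπ0
  -- `G' ≡ c` modulo `𝔪_A Winf`
  have hG'c : (g₁ - o * algebraMap A F ε * μ) - algebraMap A F c ∈ h88nM A Winf := by
    have h4 : (g₁ - o * algebraMap A F ε * μ) - algebraMap A F c =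
        (g₁ - algebraMap A F c) - μ * (o * algebraMap A F ε) := by ring
    rw [h4]
    exact h88nM_sub hAinf hc₁ (h78h_M_mul hμ (Winf.mul_mem (hO₀W _ ho) (hAinf _)))
  -- hence `c ∈ 𝔪_A`
  have hcm : c ∈ maximalIdeal A := by
    obtain ⟨d, hd, z, hz, hdz⟩ := hG'c
    by_cases hd0 : d = 0
    · have h5 : g₁ - o * algebraMap A F ε * μ = algebraMap A F c := by
        rw [hd0, map_zero, zero_mul] at hdz
        exact sub_eq_zero.mp hdz
      have h6 : (⟨_, hG'O⟩ : O₀) = ⟨algebraMap A F c, hAO₀ c⟩ := Subtype.ext h5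
      rw [h6, hev] at hevG'
      rw [hevG']
      exact (maximalIdeal A).zero_mem
    · have hzO : z ∈ O₀ := by
        apply hsat₀ d hd0 z hz
        rw [← hdz]
        exact O₀.sub_mem hG'O (hAO₀ _)
      have h7 : (⟨_, hG'O⟩ : O₀) - ⟨algebraMap A F c, hAO₀ c⟩ =
          ⟨algebraMap A F d, hAO₀ d⟩ * ⟨z, hzO⟩ := Subtype.ext hdz
      have h8 := congrArg ev h7
      rw [map_sub, map_mul, hev, hev, hevG', zero_sub] at h8
      have h9 : c = -(d * ev ⟨z, hzO⟩) := by rw [← h8, neg_neg]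
      rw [h9]
      exact (maximalIdeal A).neg_mem ((maximalIdeal A).mul_mem_right _ hd)
  apply hnot
  constructor
  · have h10 : g₁ = (g₁ - algebraMap A F c) + algebraMap A F c := by ring
    rw [h10]
    exact h88nM_add hAinf hc₁ (h78h_M_const hcm)
  · have h10 : g₁ = (g₁ - algebraMap A F c) + algebraMap A F c := by ring
    rw [h10]
    exact h88nM_add hA0 hc₂ (h78h_M_const hcm)

variable {Winf W0 : Subring F} {Sinf Szero E : Type*}
  {Oinf : Sinf → Subring F} {Ozero : Szero → Subring F} {Oe : E → Subring F}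

/-- **T-C4-H0 with the dichotomy discharged**: base point `n₀ : Sinf` with an evaluation
`ev`, Gauss scaling for `Winf ∩ W0`. -/
theorem h78h_psi_const_base (hC : H78hChart A Winf W0 Oinf Ozero Oe) {D₀ : A}
    (hD₀0 : D₀ ≠ 0) (hD₀ : D₀ ∈ maximalIdeal A) {w : F} (ψ : E → A)
    (hconst : ∀ c : A, algebraMap A F c ∈ h88nM A Winf → c ∈ maximalIdeal A)
    (hw1 : w - 1 ∈ h88nM A Winf) (hw₂ : w ∈ W0)
    (n₀ : Sinf) (ev : Oinf n₀ →+* A)
    (hev : ∀ c : A, ev ⟨algebraMap A F c, hC.hAOinf n₀ c⟩ = c)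
    (hscale : ∀ g : F, g ∈ Winf → g ∈ W0 → g ≠ 0 → ∃ (π : A) (g₁ : F), g₁ ∈ Winf ∧ g₁ ∈ W0 ∧
      g = algebraMap A F π * g₁ ∧ ¬ (g₁ ∈ h88nM A Winf ∧ g₁ ∈ h88nM A W0))
    (hL1inf : ∀ n, H78hL1 A Winf (Oinf n) D₀ w)
    (hL1zero : ∀ n, H78hL1 A W0 (Ozero n) D₀ w)
    (hL2 : ∀ e, H78hL2 A Winf W0 (Oe e) D₀ (ψ e) w) (e e' : E) :
    ψ e - ψ e' ∈ maximalIdeal A := by
  have hw₁ : w ∈ Winf := by
    have : w = (w - 1) + 1 := by ring
    rw [this]
    exact Winf.add_mem (h88nM_mem hC.hAinf hw1) Winf.one_mem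
  exact h78h_psi_const hC hD₀0 hD₀ ψ hconst hw1 hL1inf hL1zero hL2
    (h78h_disc_of_base hC.hAF hC.hAinf hC.hA0 (hC.hOinf n₀) (hC.hAOinf n₀) (hC.hsatInf n₀) ev hev
      hscale hw₁ hw₂ (hL1inf n₀)) e e'

/-- **T-C4-H0, EXPORT form, with the dichotomy discharged.** -/
theorem h78h_export_base (hC : H78hChart A Winf W0 Oinf Ozero Oe) [Nonempty E] {D₀ : A}
    (hD₀0 : D₀ ≠ 0) (hD₀ : D₀ ∈ maximalIdeal A) {w : F} (ψ : E → A)
    (hw₁ : w ∈ Winf) (hw₂ : w ∈ W0)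
    (n₀ : Sinf) (ev : Oinf n₀ →+* A)
    (hev : ∀ c : A, ev ⟨algebraMap A F c, hC.hAOinf n₀ c⟩ = c)
    (hscale : ∀ g : F, g ∈ Winf → g ∈ W0 → g ≠ 0 → ∃ (π : A) (g₁ : F), g₁ ∈ Winf ∧ g₁ ∈ W0 ∧
      g = algebraMap A F π * g₁ ∧ ¬ (g₁ ∈ h88nM A Winf ∧ g₁ ∈ h88nM A W0))
    (hL1inf : ∀ n, H78hL1 A Winf (Oinf n) D₀ w)
    (hL1zero : ∀ n, H78hL1 A W0 (Ozero n) D₀ w)
    (hL2 : ∀ e, H78hL2 A Winf W0 (Oe e) D₀ (ψ e) w) :
    ∃ (a₀ f₁ f₂ : A) (F₃ : F), F₃ ∈ Winf ∧ F₃ ∈ W0 ∧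
      w = algebraMap A F a₀ + algebraMap A F D₀ * F₃ ∧
      F₃ - algebraMap A F f₁ ∈ h88nM A Winf ∧ F₃ - algebraMap A F f₂ ∈ h88nM A W0 ∧
      ∀ e, a₀ * ψ e - (f₂ - f₁) ∈ maximalIdeal A :=
  h78h_export hC hD₀0 hD₀ ψ hL1inf hL1zero hL2
    (h78h_disc_of_base hC.hAF hC.hAinf hC.hA0 (hC.hOinf n₀) (hC.hAOinf n₀) (hC.hsatInf n₀) ev hev
      hscale hw₁ hw₂ (hL1inf n₀))

end Disc

end Fermat.Agent.P7
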