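import Fermat.Agent.P7.H91Poly
import Fermat.Agent.P7.H78HZero

/-!
# Wave 7 (S40), block (5b), row T-C5-ASM (helper84): the local forms (L1), (L2) of `w = b u / u`

Abstract middle step of the proof of (C) (finding 1353): `A` a valuation ring, `F` a field over
`A`, `b : F →+* F` acting on the constants through `θ : A →+* A`, `δ ∈ 𝔪_A` a depth with
`p δ ∈ δ ^ p 𝔪_A` (BREAK (c)), `O ⊆ F` the local ring of a closed point of the special fibre.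

* `h84a_smooth` : **(L1)**.  At a closed point on one component `W` (local parameter `t`, a unit
  of `W` fixed by `b`): if `u = E · (P(t) / Q(t)) ^ p` with `b E / E` a unit of `O` and `P`, `Q`
  monic with the lower coefficients in `𝔪_A` and all coefficients varying by `1 + δ A`, then
  `b u / u = o · X` with `o` a unit of `O` and `X ∈ 1 + δ ^ p 𝔪_A W`.
* `h84a_node` : **(L2)**, two-sided form.  At a node `x y = ϖ c` (`x` a unit of `W∞`,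
  `x / ϖ ∈ W₀`): if `u = E · x ^ m · (P(x) / Q(x)) ^ p` with all the roots of `P`, `Q` strictly
  inside the annulus, then `b u / u = o · X` with `o` a unit of `O`, `X ∈ 1 + δ ^ p 𝔪_A W∞` and
  `X / (1 + δ ^ p ψ ^ p) ∈ 1 + δ ^ p 𝔪_A W₀`, where `θ γ / γ = 1 + δ ψ`, `γ = P(0) / Q(0)`.
* `h84a_psi_sub` : `ψ ^ p - ψ' ^ p ∈ 𝔪_A` implies `ψ - ψ' ∈ 𝔪_A` (residue characteristic `p`).
* `h84a_phase` : then `θ (γ / γ') / (γ / γ') ∈ 1 + δ 𝔪_A` (NODE-PHASE).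

Nothing is assumed.
-/

set_option autoImplicit false
set_option linter.unusedSectionVars false
set_option linter.unusedVariables false

open IsLocalRing Polynomial

namespace Fermat.Agent.P7

open Fermat.Agent.Red
open Fermat.Agent.P6 (h88nM)

section Abs

variable {A : Type*} [CommRing A] [IsDomain A] [ValuationRing A]
  {F : Type*} [Field F] [Algebra A F]

/-- `1 + δ c` is a unit of `A` for `δ ∈ 𝔪_A`. -/
theorem h84a_isUnit_one_add {δ : A} (hδ : δ ∈ maximalIdeal A) (c : A) : IsUnit (1 + δ * c) := by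
  rw [← IsLocalRing.notMem_maximalIdeal]
  intro hmem
  have h1 : (1 : A) ∈ maximalIdeal A := by
    have h2 : (1 : A) = (1 + δ * c) - δ * c := by ring
    rw [h2]
    exact Ideal.sub_mem _ hmem (Ideal.mul_mem_right _ _ hδ)
  exact (Ideal.ne_top_iff_one _).mp (IsLocalRing.maximalIdeal.isMaximal A).ne_top h1

/-- **(L1), abstract form**: the local form of `b u / u` at a closed point on one component. -/
theorem h84a_smooth {W : Subring F} {δ : A}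
    (hAW : ∀ a : A, algebraMap A F a ∈ W)
    (hinv : ∀ m ∈ maximalIdeal A, ∀ x ∈ W, (1 + algebraMap A F m * x)⁻¹ ∈ W)
    (hnt : ∀ m ∈ maximalIdeal A, ∀ x ∈ W, algebraMap A F m * x ≠ 1)
    (b : F →+* F) (θ : A →+* A)
    (hbθ : ∀ a : A, b (algebraMap A F a) = algebraMap A F (θ a))
    {p : ℕ} (hp : p.Prime) (hpδ : ∃ m₀ ∈ maximalIdeal A, (p : A) * δ = δ ^ p * m₀)
    (O : Subring F)
    (t : F) (htW : t ∈ W) (htW' : t⁻¹ ∈ W) (ht0 : t ≠ 0) (hbt : b t = t)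
    (P Q : A[X]) (hP : P.Monic) (hPm : ∀ k < P.natDegree, P.coeff k ∈ maximalIdeal A)
    (hvarP : ∀ k, ∃ c : A, θ (P.coeff k) = P.coeff k * (1 + δ * c))
    (hQ : Q.Monic) (hQm : ∀ k < Q.natDegree, Q.coeff k ∈ maximalIdeal A)
    (hvarQ : ∀ k, ∃ c : A, θ (Q.coeff k) = Q.coeff k * (1 + δ * c))
    (E u : F) (hE0 : E ≠ 0) (hE : b E * E⁻¹ ∈ O) (hE' : E * (b E)⁻¹ ∈ O)
    (hu : u = E * (aeval t P * (aeval t Q)⁻¹) ^ p) :
    ∃ o X : F, o ∈ O ∧ o⁻¹ ∈ O ∧ X ∈ h91yU (δ ^ p) W ∧ b u * u⁻¹ = o * X := by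
  obtain ⟨hP0, -, -⟩ := h91y_unit hAW hinv hnt t htW htW' ht0 P hP hPm
  obtain ⟨hQ0, -, -⟩ := h91y_unit hAW hinv hnt t htW htW' ht0 Q hQ hQm
  have h1 := h91y_smooth (δ := δ) hAW hinv hnt b θ hbθ t htW htW' ht0 hbt P hP hPm hvarP
  have h2 := h91y_smooth (δ := δ) hAW hinv hnt b θ hbθ t htW htW' ht0 hbt Q hQ hQm hvarQ
  have h3 : (b (aeval t P) * (aeval t P)⁻¹) / (b (aeval t Q) * (aeval t Q)⁻¹) ∈ h91yU δ W :=
    h91yU_div hAW hinv hnt h1 h2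
  have h4 := h91y_pow_prime hAW hp hpδ h3
  have hbE0 : b E ≠ 0 := (map_ne_zero b).mpr hE0
  have hbP0 : b (aeval t P) ≠ 0 := (map_ne_zero b).mpr hP0
  have hbQ0 : b (aeval t Q) ≠ 0 := (map_ne_zero b).mpr hQ0
  refine ⟨b E * E⁻¹, _, hE, ?_, h4, ?_⟩
  · rw [mul_inv, inv_inv, mul_comm]
    exact hE'
  · rw [hu, map_mul, map_pow, map_mul, map_inv₀]
    simp only [mul_pow, div_pow, inv_pow, mul_inv, inv_inv]
    field_simp

/-- a field identity used at the `0`-side of a node. -/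
theorem h84a_field_id {F : Type*} [Field F] (s t x1 x2 x3 x4 x5 : F) (p : ℕ)
    (ht : t ≠ 0) (h2 : x2 ≠ 0) (h3 : x3 ≠ 0) (h4 : x4 ≠ 0) (h5 : x5 ≠ 0)
    (h13 : x1 = x2 * x3) (hp : x3 ^ p = x4 * x5) :
    (s / t) ^ p * x4⁻¹ = ((s * x1⁻¹) / (t * x2⁻¹)) ^ p * x5 := by
  subst h13
  have e : (s * (x2 * x3)⁻¹) / (t * x2⁻¹) = (s / t) * x3⁻¹ := by field_simp
  rw [e, mul_pow, inv_pow, hp]
  field_simp

/-- **(L2), abstract two-sided form**: the local form of `b u / u` at a node. -/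
theorem h84a_node {Winf W0 : Subring F} {δ : A}
    (hAF : Function.Injective (algebraMap A F))
    (hAWinf : ∀ a : A, algebraMap A F a ∈ Winf)
    (hinvinf : ∀ m ∈ maximalIdeal A, ∀ x ∈ Winf, (1 + algebraMap A F m * x)⁻¹ ∈ Winf)
    (hntinf : ∀ m ∈ maximalIdeal A, ∀ x ∈ Winf, algebraMap A F m * x ≠ 1)
    (hAW0 : ∀ a : A, algebraMap A F a ∈ W0)
    (hinv0 : ∀ m ∈ maximalIdeal A, ∀ x ∈ W0, (1 + algebraMap A F m * x)⁻¹ ∈ W0)
    (hnt0 : ∀ m ∈ maximalIdeal A, ∀ x ∈ W0, algebraMap A F m * x ≠ 1)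
    (b : F →+* F) (θ : A →+* A)
    (hbθ : ∀ a : A, b (algebraMap A F a) = algebraMap A F (θ a))
    {p : ℕ} (hp : p.Prime) (hδ : δ ∈ maximalIdeal A)
    (hpδ : ∃ m₀ ∈ maximalIdeal A, (p : A) * δ = δ ^ p * m₀)
    (O : Subring F)
    (x : F) (hx0 : x ≠ 0) (hxinf : x ∈ Winf) (hxinf' : x⁻¹ ∈ Winf) (hbx : b x = x)
    (ϖ : A) (hϖ0 : ϖ ≠ 0) (hθϖ : θ ϖ = ϖ) (hxW0 : x * (algebraMap A F ϖ)⁻¹ ∈ W0)
    (P Q : A[X]) (hP : P.Monic) (hPm : ∀ k < P.natDegree, P.coeff k ∈ maximalIdeal A)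
    (hP0 : P.coeff 0 ≠ 0)
    (hPin : ∀ j, 1 ≤ j → ∃ r ∈ maximalIdeal A, P.coeff j * ϖ ^ j = r * P.coeff 0)
    (hvarP : ∀ k, ∃ c : A, θ (P.coeff k) = P.coeff k * (1 + δ * c))
    (hQ : Q.Monic) (hQm : ∀ k < Q.natDegree, Q.coeff k ∈ maximalIdeal A)
    (hQ0 : Q.coeff 0 ≠ 0)
    (hQin : ∀ j, 1 ≤ j → ∃ r ∈ maximalIdeal A, Q.coeff j * ϖ ^ j = r * Q.coeff 0)
    (hvarQ : ∀ k, ∃ c : A, θ (Q.coeff k) = Q.coeff k * (1 + δ * c))
    (m : ℤ) (E u : F) (hE0 : E ≠ 0) (hE : b E * E⁻¹ ∈ O) (hE' : E * (b E)⁻¹ ∈ O)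
    (hu : u = E * x ^ m * (aeval x P * (aeval x Q)⁻¹) ^ p) :
    ∃ (o X : F) (ψ : A), o ∈ O ∧ o⁻¹ ∈ O ∧ X ∈ h91yU (δ ^ p) Winf ∧
      X * (algebraMap A F (1 + δ ^ p * ψ ^ p))⁻¹ ∈ h91yU (δ ^ p) W0 ∧
      b u * u⁻¹ = o * X ∧
      θ (P.coeff 0) * Q.coeff 0 = P.coeff 0 * θ (Q.coeff 0) * (1 + δ * ψ) := by
  classical
  -- the `∞`-side
  obtain ⟨hPx0, -, -⟩ := h91y_unit hAWinf hinvinf hntinf x hxinf hxinf' hx0 P hP hPm
  obtain ⟨hQx0, -, -⟩ := h91y_unit hAWinf hinvinf hntinf x hxinf hxinf' hx0 Q hQ hQm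
  have h1 := h91y_smooth (δ := δ) hAWinf hinvinf hntinf b θ hbθ x hxinf hxinf' hx0 hbx
    P hP hPm hvarP
  have h2 := h91y_smooth (δ := δ) hAWinf hinvinf hntinf b θ hbθ x hxinf hxinf' hx0 hbx
    Q hQ hQm hvarQ
  have h3 : (b (aeval x P) * (aeval x P)⁻¹) / (b (aeval x Q) * (aeval x Q)⁻¹) ∈ h91yU δ Winf :=
    h91yU_div hAWinf hinvinf hntinf h1 h2
  have h4 := h91y_pow_prime hAWinf hp hpδ h3
  -- the `0`-side
  obtain ⟨-, -, k1⟩ := h91y_node hAF hAW0 hinv0 hnt0 b θ hbθ hδ x hbx ϖ hϖ0 hθϖ hxW0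
    P hP0 hPin hvarP
  obtain ⟨-, -, k2⟩ := h91y_node hAF hAW0 hinv0 hnt0 b θ hbθ hδ x hbx ϖ hϖ0 hθϖ hxW0
    Q hQ0 hQin hvarQ
  have k3 := h91y_pow_prime hAW0 hp hpδ (h91yU_div hAW0 hinv0 hnt0 k1 k2)
  -- the constants
  obtain ⟨cP, hcP⟩ := hvarP 0
  obtain ⟨cQ, hcQ⟩ := hvarQ 0
  have huQ : IsUnit (1 + δ * cQ) := h84a_isUnit_one_add hδ cQ
  obtain ⟨ι, hι⟩ := huQ.exists_right_inv
  set ψ : A := (cP - cQ) * ι with hψ
  have hψ1 : (1 + δ * cP) = (1 + δ * cQ) * (1 + δ * ψ) := by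
    rw [hψ]
    linear_combination (-(δ * (cP - cQ))) * hι
  obtain ⟨m', hm', hpow⟩ := h91y_pow_prime_const hp hpδ ψ 0 (maximalIdeal A).zero_mem
  have hδp : δ ^ p ∈ maximalIdeal A :=
    Ideal.pow_mem_of_mem _ hδ _ hp.pos
  have huψ : IsUnit (1 + δ ^ p * ψ ^ p) := h84a_isUnit_one_add hδp _
  obtain ⟨κ, hκ⟩ := huψ.exists_right_inv
  have hpow' : (1 + δ * ψ) ^ p = (1 + δ ^ p * ψ ^ p) * (1 + δ ^ p * (m' * κ)) := by
    have e1 : (1 + ψ * δ + δ * 0) = 1 + δ * ψ := by ring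
    rw [e1] at hpow
    rw [hpow]
    linear_combination (-(δ ^ p * m')) * hκ
  have hs0P : algebraMap A F (P.coeff 0) ≠ 0 := fun h => hP0 (hAF (by rw [h, map_zero]))
  have hs0Q : algebraMap A F (Q.coeff 0) ≠ 0 := fun h => hQ0 (hAF (by rw [h, map_zero]))
  have hψF : algebraMap A F (1 + δ ^ p * ψ ^ p) ≠ 0 :=
    fun h => huψ.ne_zero (hAF (by rw [h, map_zero]))
  have hQF : algebraMap A F (1 + δ * cQ) ≠ 0 :=
    fun h => huQ.ne_zero (hAF (by rw [h, map_zero]))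
  have hbE0 : b E ≠ 0 := (map_ne_zero b).mpr hE0
  have hbP0 : b (aeval x P) ≠ 0 := (map_ne_zero b).mpr hPx0
  have hbQ0 : b (aeval x Q) ≠ 0 := (map_ne_zero b).mpr hQx0
  refine ⟨b E * E⁻¹, _, ψ, hE, ?_, h4, ?_, ?_, ?_⟩
  · rw [mul_inv, inv_inv, mul_comm]
    exact hE'
  · -- the `0`-side congruence
    have hc : (1 : F) + algebraMap A F (δ ^ p * (m' * κ)) * 1 ∈ h91yU (δ ^ p) W0 :=
      ⟨m' * κ, Ideal.mul_mem_right _ _ hm', 1, W0.one_mem, rfl⟩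
    have hmul := h91yU_mul hAW0 k3 hc
    have hcstP : algebraMap A F (θ (P.coeff 0)) * (algebraMap A F (P.coeff 0))⁻¹
        = algebraMap A F (1 + δ * cP) := by
      rw [hcP, map_mul]
      field_simp
    have hcstQ : algebraMap A F (θ (Q.coeff 0)) * (algebraMap A F (Q.coeff 0))⁻¹
        = algebraMap A F (1 + δ * cQ) := by
      rw [hcQ, map_mul]
      field_simp
    have hα1 : algebraMap A F (1 + δ * cP)
        = algebraMap A F (1 + δ * cQ) * algebraMap A F (1 + δ * ψ) := by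
      rw [← map_mul, hψ1]
    have hα2 : algebraMap A F (1 + δ * ψ) ^ p
        = algebraMap A F (1 + δ ^ p * ψ ^ p) *
          (1 + algebraMap A F (δ ^ p * (m' * κ)) * 1) := by
      rw [← map_pow, hpow', map_mul, mul_one]
      congr 1
      rw [map_add, map_one]
    have h5 : (1 : F) + algebraMap A F (δ ^ p * (m' * κ)) * 1 ≠ 0 := h91yU_ne_zero hnt0 hc
    have h3' : algebraMap A F (1 + δ * ψ) ≠ 0 := by
      intro h0
      rw [h0, zero_pow hp.ne_zero] at hα2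
      exact mul_ne_zero hψF h5 hα2.symm
    have hQt : b (aeval x Q) * (aeval x Q)⁻¹ ≠ 0 := mul_ne_zero hbQ0 (inv_ne_zero hQx0)
    rw [hcstP, hcstQ] at hmul
    rw [h84a_field_id (b (aeval x P) * (aeval x P)⁻¹) (b (aeval x Q) * (aeval x Q)⁻¹)
        _ _ _ _ _ p hQt hQF h3' hψF h5 hα1 hα2]
    exact hmul
  · have hxm : x ^ m ≠ 0 := zpow_ne_zero _ hx0
    rw [hu, map_mul, map_mul, map_zpow₀, hbx, map_pow, map_mul, map_inv₀]
    simp only [mul_pow, div_pow, inv_pow, mul_inv, inv_inv]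
    field_simp
  · rw [hcP, hcQ, hψ1]
    ring


/-- an element of `1 + D₀ 𝔪_A W` in the additive form of `P7/H78HZero.lean`. -/
theorem h84a_U_to_M {W : Subring F} {D₀ : A} {X : F} (hX : X ∈ h91yU D₀ W) :
    ∃ μ ∈ h88nM A W, X = 1 + algebraMap A F D₀ * μ := by
  obtain ⟨m, hm, v, hv, rfl⟩ := hX
  exact ⟨algebraMap A F m * v, ⟨m, hm, v, hv, rfl⟩, by rw [map_mul]; ring⟩

/-! ## The interface with the normal forms (row T-C3-NF) -/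

/-- **normal form at a closed point on ONE component** (`W` its Gauss ring, `O` the local ring):
`u = E · (P(t) / Q(t)) ^ p`, `t` a unit of `W` fixed by `b`, `b E / E` a unit of `O`, `P`, `Q`
monic with the lower coefficients in `𝔪_A`, all coefficients varying by `1 + δ A` under `θ`. -/
def H84aNFSmooth (b : F →+* F) (θ : A →+* A) (δ : A) (p : ℕ) (W O : Subring F) (u : F) : Prop :=
  ∃ (t : F) (P Q : A[X]) (E : F),
    t ∈ W ∧ t⁻¹ ∈ W ∧ t ≠ 0 ∧ b t = t ∧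
    P.Monic ∧ (∀ k < P.natDegree, P.coeff k ∈ maximalIdeal A) ∧
    (∀ k, ∃ c : A, θ (P.coeff k) = P.coeff k * (1 + δ * c)) ∧
    Q.Monic ∧ (∀ k < Q.natDegree, Q.coeff k ∈ maximalIdeal A) ∧
    (∀ k, ∃ c : A, θ (Q.coeff k) = Q.coeff k * (1 + δ * c)) ∧
    E ≠ 0 ∧ b E * E⁻¹ ∈ O ∧ E * (b E)⁻¹ ∈ O ∧
    u = E * (aeval t P * (aeval t Q)⁻¹) ^ p

/-- **normal form at a node** `x y = ϖ c` (`O` the local ring, `x` a unit of `W∞`,
`x / ϖ ∈ W₀`): `u = E · x ^ m · (P(x) / Q(x)) ^ p` with slope `m`, all the roots of `P`, `Q`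
strictly inside the annulus, `γP = P(0)`, `γQ = Q(0)` (the node constant is `γP / γQ`). -/
def H84aNFNode (b : F →+* F) (θ : A →+* A) (δ : A) (p : ℕ) (Winf W0 O : Subring F) (ϖ : A)
    (u : F) (m : ℤ) (γP γQ : A) : Prop :=
  ∃ (x : F) (P Q : A[X]) (E : F),
    x ≠ 0 ∧ x ∈ Winf ∧ x⁻¹ ∈ Winf ∧ b x = x ∧ x * (algebraMap A F ϖ)⁻¹ ∈ W0 ∧
    P.Monic ∧ (∀ k < P.natDegree, P.coeff k ∈ maximalIdeal A) ∧ P.coeff 0 ≠ 0 ∧
    (∀ j, 1 ≤ j → ∃ r ∈ maximalIdeal A, P.coeff j * ϖ ^ j = r * P.coeff 0) ∧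
    (∀ k, ∃ c : A, θ (P.coeff k) = P.coeff k * (1 + δ * c)) ∧
    Q.Monic ∧ (∀ k < Q.natDegree, Q.coeff k ∈ maximalIdeal A) ∧ Q.coeff 0 ≠ 0 ∧
    (∀ j, 1 ≤ j → ∃ r ∈ maximalIdeal A, Q.coeff j * ϖ ^ j = r * Q.coeff 0) ∧
    (∀ k, ∃ c : A, θ (Q.coeff k) = Q.coeff k * (1 + δ * c)) ∧
    E ≠ 0 ∧ b E * E⁻¹ ∈ O ∧ E * (b E)⁻¹ ∈ O ∧
    P.coeff 0 = γP ∧ Q.coeff 0 = γQ ∧
    u = E * x ^ m * (aeval x P * (aeval x Q)⁻¹) ^ p

/-- **(L1)** in the form of `P7/H78HZero.lean`, with the unit property of the local factor. -/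
theorem h84a_L1 {W O : Subring F} {δ : A}
    (hAW : ∀ a : A, algebraMap A F a ∈ W)
    (hinv : ∀ m ∈ maximalIdeal A, ∀ x ∈ W, (1 + algebraMap A F m * x)⁻¹ ∈ W)
    (hnt : ∀ m ∈ maximalIdeal A, ∀ x ∈ W, algebraMap A F m * x ≠ 1)
    (b : F →+* F) (θ : A →+* A)
    (hbθ : ∀ a : A, b (algebraMap A F a) = algebraMap A F (θ a))
    {p : ℕ} (hp : p.Prime) (hpδ : ∃ m₀ ∈ maximalIdeal A, (p : A) * δ = δ ^ p * m₀)
    {u : F} (h : H84aNFSmooth b θ δ p W O u) :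
    H78hL1 A W O (δ ^ p) (b u * u⁻¹) := by
  obtain ⟨t, P, Q, E, htW, htW', ht0, hbt, hP, hPm, hvarP, hQ, hQm, hvarQ, hE0, hE, hE', hu⟩ := h
  obtain ⟨o, X, ho, -, hX, hw⟩ := h84a_smooth hAW hinv hnt b θ hbθ hp hpδ O t htW htW' ht0 hbt
    P Q hP hPm hvarP hQ hQm hvarQ E u hE0 hE hE' hu
  obtain ⟨μ, hμ, rfl⟩ := h84a_U_to_M hX
  exact ⟨o, ho, μ, hμ, hw⟩

/-- **(L2)** in the form of `P7/H78HZero.lean`: the twist at the node is `ψ ^ p`, where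
`θ γ / γ = 1 + δ ψ` for the node constant `γ = γP / γQ`. -/
theorem h84a_L2 {Winf W0 O : Subring F} {δ : A}
    (hAF : Function.Injective (algebraMap A F))
    (hAWinf : ∀ a : A, algebraMap A F a ∈ Winf)
    (hinvinf : ∀ m ∈ maximalIdeal A, ∀ x ∈ Winf, (1 + algebraMap A F m * x)⁻¹ ∈ Winf)
    (hntinf : ∀ m ∈ maximalIdeal A, ∀ x ∈ Winf, algebraMap A F m * x ≠ 1)
    (hAW0 : ∀ a : A, algebraMap A F a ∈ W0)
    (hinv0 : ∀ m ∈ maximalIdeal A, ∀ x ∈ W0, (1 + algebraMap A F m * x)⁻¹ ∈ W0)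
    (hnt0 : ∀ m ∈ maximalIdeal A, ∀ x ∈ W0, algebraMap A F m * x ≠ 1)
    (b : F →+* F) (θ : A →+* A)
    (hbθ : ∀ a : A, b (algebraMap A F a) = algebraMap A F (θ a))
    {p : ℕ} (hp : p.Prime) (hδ : δ ∈ maximalIdeal A)
    (hpδ : ∃ m₀ ∈ maximalIdeal A, (p : A) * δ = δ ^ p * m₀)
    {ϖ : A} (hϖ0 : ϖ ≠ 0) (hθϖ : θ ϖ = ϖ) {u : F} {m : ℤ} {γP γQ : A}
    (h : H84aNFNode b θ δ p Winf W0 O ϖ u m γP γQ) :
    ∃ ψ : A, H78hL2 A Winf W0 O (δ ^ p) (ψ ^ p) (b u * u⁻¹) ∧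
      θ γP * γQ = γP * θ γQ * (1 + δ * ψ) := by
  obtain ⟨x, P, Q, E, hx0, hxinf, hxinf', hbx, hxW0, hP, hPm, hP0, hPin, hvarP, hQ, hQm, hQ0,
    hQin, hvarQ, hE0, hE, hE', rfl, rfl, hu⟩ := h
  obtain ⟨o, X, ψ, ho, -, hX1, hX2, hw, hψ⟩ := h84a_node hAF hAWinf hinvinf hntinf hAW0 hinv0
    hnt0 b θ hbθ hp hδ hpδ O x hx0 hxinf hxinf' hbx ϖ hϖ0 hθϖ hxW0 P Q hP hPm hP0 hPin hvarP
    hQ hQm hQ0 hQin hvarQ m E u hE0 hE hE' hu
  refine ⟨ψ, ?_, hψ⟩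
  obtain ⟨μ₁, hμ₁, hX1'⟩ := h84a_U_to_M hX1
  obtain ⟨μ₂, hμ₂, hX2'⟩ := h84a_U_to_M hX2
  have hδp : δ ^ p ∈ maximalIdeal A := Ideal.pow_mem_of_mem _ hδ _ hp.pos
  have huψ : IsUnit (1 + δ ^ p * ψ ^ p) := h84a_isUnit_one_add hδp _
  have hψF : algebraMap A F (1 + δ ^ p * ψ ^ p) ≠ 0 :=
    fun h => huψ.ne_zero (hAF (by rw [h, map_zero]))
  apply h78h_L2_of_mul hAW0
  refine ⟨o, ho, μ₁, hμ₁, μ₂, hμ₂, ?_, ?_⟩
  · rw [hw, hX1']
  · rw [hw]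
    congr 1
    have e : X = algebraMap A F (1 + δ ^ p * ψ ^ p) * (X * (algebraMap A F (1 + δ ^ p * ψ ^ p))⁻¹) := by
      field_simp
    rw [e, hX2', map_add, map_one, map_mul]

/-- in residue characteristic `p`: `ψ ^ p - ψ' ^ p ∈ 𝔪_A` implies `ψ - ψ' ∈ 𝔪_A`. -/
theorem h84a_psi_sub {p : ℕ} (hp : p.Prime) (hpm : (p : A) ∈ maximalIdeal A) {ψ ψ' : A}
    (h : ψ ^ p - ψ' ^ p ∈ maximalIdeal A) : ψ - ψ' ∈ maximalIdeal A := by
  obtain ⟨r, hr⟩ := exists_add_pow_prime_eq hp (ψ - ψ') ψ'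
  have h1 : (ψ - ψ') ^ p ∈ maximalIdeal A := by
    have e : (ψ - ψ') ^ p = (ψ ^ p - ψ' ^ p) - (p : A) * ((ψ - ψ') * ψ' * r) := by
      have : (ψ - ψ' + ψ') ^ p = ψ ^ p := by rw [sub_add_cancel]
      rw [this] at hr
      rw [hr]
      ring
    rw [e]
    exact Ideal.sub_mem _ h (Ideal.mul_mem_right _ _ hpm)
  exact (IsLocalRing.maximalIdeal.isMaximal A).isPrime.mem_of_pow_mem _ h1

/-- **T-C5-ASM, abstract form: NODE-PHASE.**  From the chart hypotheses of the `H⁰` argument,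
the exact depth dichotomy of `w = b u / u` at the depth `δ ^ p` and the normal forms of `u` at
all the closed points of the special fibre: for any two nodes `e, e'` the ratio
`Γ = γ_e / γ_e'` of the node constants satisfies `θ Γ / Γ ∈ 1 + δ 𝔪_A`. -/
theorem h84a_phase {Winf W0 : Subring F} {Sinf Szero E : Type*}
    {Oinf : Sinf → Subring F} {Ozero : Szero → Subring F} {Oe : E → Subring F}
    (hC : H78hChart A Winf W0 Oinf Ozero Oe)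
    (hinvinf : ∀ m ∈ maximalIdeal A, ∀ x ∈ Winf, (1 + algebraMap A F m * x)⁻¹ ∈ Winf)
    (hntinf : ∀ m ∈ maximalIdeal A, ∀ x ∈ Winf, algebraMap A F m * x ≠ 1)
    (hinv0 : ∀ m ∈ maximalIdeal A, ∀ x ∈ W0, (1 + algebraMap A F m * x)⁻¹ ∈ W0)
    (hnt0 : ∀ m ∈ maximalIdeal A, ∀ x ∈ W0, algebraMap A F m * x ≠ 1)
    (b : F →+* F) (θ : A →+* A)
    (hbθ : ∀ a : A, b (algebraMap A F a) = algebraMap A F (θ a))
    {p : ℕ} (hp : p.Prime) (hpm : (p : A) ∈ maximalIdeal A)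
    {δ : A} (hδ0 : δ ≠ 0) (hδ : δ ∈ maximalIdeal A)
    (hpδ : ∃ m₀ ∈ maximalIdeal A, (p : A) * δ = δ ^ p * m₀)
    {ϖ : A} (hϖ0 : ϖ ≠ 0) (hθϖ : θ ϖ = ϖ) {u : F}
    (hNFinf : ∀ n, H84aNFSmooth b θ δ p Winf (Oinf n) u)
    (hNFzero : ∀ n, H84aNFSmooth b θ δ p W0 (Ozero n) u)
    (m : E → ℤ) (γP γQ : E → A)
    (hNFe : ∀ e, H84aNFNode b θ δ p Winf W0 (Oe e) ϖ u (m e) (γP e) (γQ e))
    (hdisc : H78hDisc A Winf W0 (δ ^ p) (b u * u⁻¹)) (e e' : E) :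
    ∃ μ ∈ maximalIdeal A,
      θ (γP e * γQ e') * (γQ e * γP e') = (γP e * γQ e') * θ (γQ e * γP e') * (1 + δ * μ) := by
  classical
  have : Nonempty E := ⟨e⟩
  have hL1inf : ∀ n, H78hL1 A Winf (Oinf n) (δ ^ p) (b u * u⁻¹) := fun n =>
    h84a_L1 hC.hAinf hinvinf hntinf b θ hbθ hp hpδ (hNFinf n)
  have hL1zero : ∀ n, H78hL1 A W0 (Ozero n) (δ ^ p) (b u * u⁻¹) := fun n =>
    h84a_L1 hC.hA0 hinv0 hnt0 b θ hbθ hp hpδ (hNFzero n)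
  have hL2 := fun e => h84a_L2 hC.hAF hC.hAinf hinvinf hntinf hC.hA0 hinv0 hnt0 b θ hbθ hp hδ
    hpδ hϖ0 hθϖ (hNFe e)
  choose ψ hψL hψ using hL2
  have hD0 : δ ^ p ≠ 0 := pow_ne_zero _ hδ0
  have hDm : δ ^ p ∈ maximalIdeal A := Ideal.pow_mem_of_mem _ hδ _ hp.pos
  obtain ⟨a₀, f₁, f₂, F₃, hF₁, hF₂, hw, hf₁, hf₂, hexp⟩ :=
    h78h_export hC hD0 hDm (fun e => ψ e ^ p) hL1inf hL1zero hψL hdisc
  -- `w` is a unit of `W∞`
  have hwinv : (b u * u⁻¹)⁻¹ ∈ Winf := by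
    obtain ⟨x, P, Q, E', hx0, hxinf, hxinf', hbx, hxW0, hP, hPm, hP0, hPin, hvarP, hQ, hQm, hQ0,
      hQin, hvarQ, hE0, hE, hE', -, -, hu⟩ := hNFe e
    obtain ⟨o, X, -, ho, ho', hX1, -, hw', -⟩ := h84a_node hC.hAF hC.hAinf hinvinf hntinf
      hC.hA0 hinv0 hnt0 b θ hbθ hp hδ hpδ (Oe e) x hx0 hxinf hxinf' hbx ϖ hϖ0 hθϖ hxW0 P Q hP
      hPm hP0 hPin hvarP hQ hQm hQ0 hQin hvarQ (m e) E' u hE0 hE hE' hu
    rw [hw', mul_inv]
    exact Winf.mul_mem (hC.hOe₁ e _ ho') (h91yU_mem hC.hAinf (h91yU_inv hinvinf hntinf hX1))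
  have hw0 : b u * u⁻¹ ≠ 0 := by
    intro h0
    obtain ⟨x, P, Q, E', hx0, hxinf, hxinf', hbx, hxW0, hP, hPm, hP0, hPin, hvarP, hQ, hQm, hQ0,
      hQin, hvarQ, hE0, hE, hE', -, -, hu⟩ := hNFe e
    obtain ⟨hPx0, -, -⟩ := h91y_unit hC.hAinf hinvinf hntinf x hxinf hxinf' hx0 P hP hPm
    obtain ⟨hQx0, -, -⟩ := h91y_unit hC.hAinf hinvinf hntinf x hxinf hxinf' hx0 Q hQ hQm
    have hu0 : u ≠ 0 := by
      rw [hu]
      exact mul_ne_zero (mul_ne_zero hE0 (zpow_ne_zero _ hx0))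
        (pow_ne_zero _ (mul_ne_zero hPx0 (inv_ne_zero hQx0)))
    exact mul_ne_zero ((map_ne_zero b).mpr hu0) (inv_ne_zero hu0) h0
  have ha₀ : a₀ ∉ maximalIdeal A := by
    intro ha
    have h1 : b u * u⁻¹ = algebraMap A F (δ ^ p) * (algebraMap A F a₀ * 0 + F₃) +
        algebraMap A F a₀ * 1 := by rw [hw]; ring
    rcases ValuationRing.dvd_total a₀ (δ ^ p) with ⟨c, hc⟩ | ⟨c, hc⟩
    · have h2 : b u * u⁻¹ = algebraMap A F a₀ * (1 + algebraMap A F c * F₃) := by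
        rw [hw, hc, map_mul]; ring
      apply hntinf a₀ ha ((1 + algebraMap A F c * F₃) * (b u * u⁻¹)⁻¹)
        (Winf.mul_mem (Winf.add_mem Winf.one_mem (Winf.mul_mem (hC.hAinf _) hF₁)) hwinv)
      rw [← mul_assoc, ← h2]
      exact mul_inv_cancel₀ hw0
    · have h2 : b u * u⁻¹ = algebraMap A F (δ ^ p) * (algebraMap A F c + F₃) := by
        rw [hw, hc, map_mul]; ring
      apply hntinf (δ ^ p) hDm ((algebraMap A F c + F₃) * (b u * u⁻¹)⁻¹)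
        (Winf.mul_mem (Winf.add_mem (hC.hAinf _) hF₁) hwinv)
      rw [← mul_assoc, ← h2]
      exact mul_inv_cancel₀ hw0
  have hψsub : ψ e - ψ e' ∈ maximalIdeal A := by
    apply h84a_psi_sub hp hpm
    have h3 : a₀ * (ψ e ^ p - ψ e' ^ p) ∈ maximalIdeal A := by
      have : a₀ * (ψ e ^ p - ψ e' ^ p) =
          (a₀ * ψ e ^ p - (f₂ - f₁)) - (a₀ * ψ e' ^ p - (f₂ - f₁)) := by ring
      rw [this]
      exact (maximalIdeal A).sub_mem (hexp e) (hexp e')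
    exact ((IsLocalRing.maximalIdeal.isMaximal A).isPrime.mem_or_mem h3).resolve_left ha₀
  have hu' : IsUnit (1 + δ * ψ e') := h84a_isUnit_one_add hδ _
  obtain ⟨ι, hι⟩ := hu'.exists_right_inv
  refine ⟨(ψ e - ψ e') * ι, Ideal.mul_mem_right _ _ hψsub, ?_⟩
  have h1 := hψ e
  have h2 := hψ e'
  have h3 : (1 + δ * ψ e) = (1 + δ * ψ e') * (1 + δ * ((ψ e - ψ e') * ι)) := by
    linear_combination (-(δ * (ψ e - ψ e'))) * hι
  rw [map_mul, map_mul]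
  linear_combination (θ (γQ e') * γP e') * h1
    - (γP e * θ (γQ e) * (1 + δ * ((ψ e - ψ e') * ι))) * h2
    + (γP e * θ (γQ e) * θ (γQ e') * γP e') * h3

end Abs

end Fermat.Agent.P7
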