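import Fermat.Agent.P7.H78ChartFinal
import Fermat.Agent.P7.H84Asm

/-!
# Wave 7 (row 38), block (5b): NODE-PHASE at the level `M ℓ` from the normal forms (helper78)

`h78l_phase` : helper84's abstract assembly `h84a_phase` (`P7/H84Asm.lean`) at the level `M ℓ`
(`ℓ ∤ M` prime, `auxLevel ℓ ∣ M`, `A` over `ℓ`), with ALL the chart-side hypotheses discharged:

* the chart hypotheses `H78hChart` : `h78l_chart_level` (`P7/H78ChartFinal.lean`);
* `1 + 𝔪_A W ⊆ W^×`, `1 ∉ 𝔪_A W` for `W = W∞, W₀` : landed `h86t_*`;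
* the exact depth dichotomy `H78hDisc` of `w = b u / u` at the depth `δ ^ p` : from the normal
  form at the node `e` itself (`h84a_L2` + `h78l_disc_node`).

The remaining hypotheses are the automorphism `b` (with `θ` on the constants), the break
constant `δ` (`p δ ∈ δ ^ p 𝔪_A`), and the normal forms of `u` at the closed points of the two
charts, indexed by the types of `P7/H78ChartIface.lean`.
-/

set_option autoImplicit false
set_option linter.unusedSectionVars false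
set_option linter.unusedVariables false
set_option linter.style.longLine false

open AlgebraicCurve ModularCurve WithZero IsLocalRing

noncomputable section

namespace Fermat.Agent.P7

open Fermat.Agent.S37 Fermat.Agent.Red Fermat.Agent.Red.GG Fermat.Agent.Red.GV
  Fermat.Agent.Red.GV.Soft Fermat.Agent.Red.Kron Fermat.Agent.Red.KR Fermat.Agent.Red.ModelO
  Fermat.Agent.LGC Fermat.Agent.S35 Fermat.Agent.P6

variable (A : ValuationSubring Kbar) (M : ℕ) {ℓ : ℕ} [NeZero M] [NeZero ℓ]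
  (hℓ : ℓ.Prime) (hM : ¬ ℓ ∣ M) (hA : A.LiesOverPrime ℓ)

/-- **NODE-PHASE at the level `M ℓ`**: for `u` with normal forms at every closed point of the
special fibre of the two charts, the ratio `Γ = γ_e / γ_e'` of the node constants at two
crossing points satisfies `θ Γ / Γ ∈ 1 + δ 𝔪_A`. -/
theorem h78l_phase (haux : auxLevel ℓ ∣ M)
    (b : FF (M * ℓ) →+* FF (M * ℓ)) (θ : A →+* A)
    (hbθ : ∀ a : A, b (algebraMap A (FF (M * ℓ)) a) = algebraMap A (FF (M * ℓ)) (θ a))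
    {p : ℕ} (hp : p.Prime) (hpm : (p : A) ∈ maximalIdeal A)
    {δ : A} (hδ0 : δ ≠ 0) (hδ : δ ∈ maximalIdeal A)
    (hpδ : ∃ m₀ ∈ maximalIdeal A, (p : A) * δ = δ ^ p * m₀)
    {ϖ : A} (hϖ0 : ϖ ≠ 0) (hθϖ : θ ϖ = ϖ) {u : FF (M * ℓ)}
    (hNFinf : ∀ n, H84aNFSmooth b θ δ p (softV A (M * ℓ)) (h78lOinf A M hℓ hM hA n) u)
    (hNFzero : ∀ n, H84aNFSmooth b θ δ p (h85cW0 A M ℓ hℓ hM hA).toSubring
      (h78lOzero A M hℓ hM hA n) u)
    (m : H78lNode A M hℓ hM hA → ℤ) (γP γQ : H78lNode A M hℓ hM hA → A)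
    (hNFe : ∀ e, H84aNFNode b θ δ p (softV A (M * ℓ)) (h85cW0 A M ℓ hℓ hM hA).toSubring
      (h78lOe A M hℓ hM hA e) ϖ u (m e) (γP e) (γQ e))
    (e e' : H78lNode A M hℓ hM hA) :
    ∃ μ ∈ maximalIdeal A,
      θ (γP e * γQ e') * (γQ e * γP e') =
        (γP e * γQ e') * θ (γQ e * γP e') * (1 + δ * μ) := by
  have hC := h78l_chart_level A M hℓ hM hA haux
  have hinvinf : ∀ m ∈ maximalIdeal A, ∀ x ∈ softV A (M * ℓ),
      (1 + algebraMap A (FF (M * ℓ)) m * x)⁻¹ ∈ softV A (M * ℓ) :=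
    fun m hm x hx => h86t_Winf_unit A M ℓ hℓ hA m hm x hx
  have hntinf : ∀ m ∈ maximalIdeal A, ∀ x ∈ softV A (M * ℓ),
      algebraMap A (FF (M * ℓ)) m * x ≠ 1 :=
    fun m hm x hx => h86t_Winf_nt A M ℓ hℓ hA m hm x hx
  have hinv0 : ∀ m ∈ maximalIdeal A, ∀ x ∈ (h85cW0 A M ℓ hℓ hM hA).toSubring,
      (1 + algebraMap A (FF (M * ℓ)) m * x)⁻¹ ∈ (h85cW0 A M ℓ hℓ hM hA).toSubring :=
    fun m hm x hx => h86t_W0_unit A M ℓ hℓ hM hA m hm x hx
  have hnt0 : ∀ m ∈ maximalIdeal A, ∀ x ∈ (h85cW0 A M ℓ hℓ hM hA).toSubring,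
      algebraMap A (FF (M * ℓ)) m * x ≠ 1 :=
    fun m hm x hx => h86t_W0_nt A M ℓ hℓ hM hA m hm x hx
  obtain ⟨ψ, hL2, -⟩ := h84a_L2 hC.hAF hC.hAinf hinvinf hntinf hC.hA0 hinv0 hnt0 b θ hbθ hp
    hδ hpδ hϖ0 hθϖ (hNFe e)
  have hdisc : H78hDisc A (softV A (M * ℓ)) (h85cW0 A M ℓ hℓ hM hA).toSubring (δ ^ p)
      (b u * u⁻¹) :=
    h78l_disc_node A M hℓ hM hA haux e (δ ^ p) (ψ ^ p) (pow_ne_zero _ hδ0) _ hL2
  exact h84a_phase hC hinvinf hntinf hinv0 hnt0 b θ hbθ hp hpm hδ0 hδ hpδ hϖ0 hθϖ hNFinf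
    hNFzero m γP γQ hNFe hdisc e e'

end Fermat.Agent.P7
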