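import Fermat.Agent.P7.H26IntIface
import Fermat.Agent.P5.H26PushPole
import Fermat.Agent.Red.MatchLoc

/-!
# P7 (wave 7), block (A) DLOG at the level `M`, leaf DL4-M-CONST, piece (d) (helper78)

`h78s_S2 : H26iInt → H26iS2` : if the elements of the chart at infinity have `A`-integral
`q`-expansions (INT), the reduction map of places `r` sends the `q`-order place `∞` of the
generic fibre to the `q`-order place `Q` of the special fibre.

Proof (finding 1462 (S2), with INT): take `v₀` with `r v₀ = Q`.  The reduction of `j` has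
`q`-order `-1`, so by RED-DIV for the Gauss unit `j` the fibre of `Q` cannot consist of finite
places: `v₀` is not finite.  For `f` in the chart at infinity with value `a` at `v₀`, the
function `f - a` is regular on the fibre of `Q` and vanishes at `v₀`; RED-DIV (or the vanishing
of the reduction) shows that the reduction of `f - a` has no constant term.  By INT the reduction
is coefficientwise, so the constant term of the `q`-expansion of `f`, which is the value of `f`
at `∞`, is congruent to `a`.  Hence `v₀` and `∞` have the same reduction.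

Every declaration is a proved theorem; nothing is assumed.
-/

set_option autoImplicit false
set_option linter.unusedSectionVars false
set_option linter.unusedVariables false
set_option linter.style.haveILetI false

open AlgebraicCurve ModularCurve

noncomputable section

namespace Fermat.Agent.P7

open Fermat.Agent.S37 Fermat.Agent.Red Fermat.Agent.Red.GV Fermat.Agent.P5
  Fermat.Agent.S24.DiffPlace Fermat.Agent.Red.ModelO Fermat.Agent.S28 Fermat.Agent.Red.Match

section Generic

variable {K F : Type*} [Field K] [Field F] [Algebra K F]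

/-- a nonzero element of the maximal ideal of a place has positive order. -/
theorem h78s_ord_pos_of_mem_nonunits (v : Place K F) {g : F}
    (hg : g ∈ v.toValuationSubring.nonunits) (hg0 : g ≠ 0) : 0 < v.ord g := by
  obtain ⟨hmem, hmax⟩ := (ValuationSubring.mem_nonunits_iff_exists_mem_maximalIdeal).1 hg
  have hz0 : (⟨g, hmem⟩ : v.toValuationSubring) ≠ 0 := fun h => hg0 (congrArg Subtype.val h)
  exact ord_pos_of_mem_maximalIdeal v (z := ⟨g, hmem⟩) hmax hz0

/-- a function with a value at a place is regular there. -/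
theorem h78s_ord_nonneg_of_sub_mem (v : Place K F) {g : F} (c : K)
    (hg : g - algebraMap K F c ∈ v.toValuationSubring.nonunits) : 0 ≤ v.ord g := by
  have hmem : g - algebraMap K F c ∈ v.toValuationSubring := ValuationSubring.nonunits_subset hg
  have hcm : algebraMap K F c ∈ v.toValuationSubring := v.algebraMap_mem' _
  have h5 : g = (g - algebraMap K F c) + algebraMap K F c := by ring
  rw [h5]
  exact ord_nonneg_of_mem v (v.toValuationSubring.add_mem _ _ hmem hcm)

/-- the push-forward of a divisor which is nonnegative on a fibre and positive at one of its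
points is positive at the image point. -/
theorem h78s_push_pos {α β : Type*} [DecidableEq β] (r : α → β) (D : α →₀ ℤ) (Q : β)
    (v₀ : α) (hv₀ : r v₀ = Q) (hnn : ∀ v, r v = Q → 0 ≤ D v) (hpos : 0 < D v₀) :
    0 < Finsupp.mapDomain r D Q := by
  rw [h26s_mapDomain_apply_of_subset r D Q _ (le_refl _)]
  have hnn' : ∀ v ∈ D.support, 0 ≤ (if r v = Q then D v else 0) := by
    intro v _
    split_ifs with h
    · exact hnn v h
    · exact le_refl _
  have hsupp : v₀ ∈ D.support := by
    rw [Finsupp.mem_support_iff]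
    omega
  have hle := Finset.single_le_sum hnn' hsupp
  rw [if_pos hv₀] at hle
  omega

/-- the push-forward of a divisor which is nonnegative on a fibre is nonnegative at the image
point. -/
theorem h78s_push_nonneg {α β : Type*} [DecidableEq β] (r : α → β) (D : α →₀ ℤ) (Q : β)
    (hnn : ∀ v, r v = Q → 0 ≤ D v) : 0 ≤ Finsupp.mapDomain r D Q := by
  rw [h26s_mapDomain_apply_of_subset r D Q _ (le_refl _)]
  refine Finset.sum_nonneg fun v _ => ?_
  split_ifs with h
  · exact hnn v h
  · exact le_refl _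

end Generic

section Level

variable {M : ℕ} [NeZero M] {A : ValuationSubring Kbar}

/-- the `q`-expansion of `f - c`. -/
theorem h78s_coe_sub_cst (f : FF M) (c : Kbar) :
    ((f - cst M c : FF M) : LaurentSeries Kbar) =
      ((f : FF M) : LaurentSeries Kbar) - HahnSeries.C c := by
  have h1 : ((f - cst M c : FF M) : LaurentSeries Kbar) =
      ((f : FF M) : LaurentSeries Kbar) - ((cst M c : FF M) : LaurentSeries Kbar) := rfl
  rw [h1, coe_cst]

/-- the constant term of `s - C c`. -/
theorem h78s_coeff_sub_C {R : Type*} [Ring R] (s : LaurentSeries R) (c : R) :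
    (s - HahnSeries.C c).coeff 0 = s.coeff 0 - c := by
  rw [HahnSeries.coeff_sub, HahnSeries.C_apply, HahnSeries.coeff_single_same]

/-- the value of a function at the `q`-order place is the constant term of its (integral)
`q`-expansion. -/
theorem h78s_coeff_zero_of_valueAt (oo : Place Kbar (FF M))
    (hoo : ∀ f : FF M, f ≠ 0 → oo.ord f = ((f : FF M) : LaurentSeries Kbar).order)
    (f : FF M) (y : LaurentSeries A) (hy : embA A y = ((f : FF M) : LaurentSeries Kbar))
    (b : Kbar) (hb : ValueAt oo f b) : ((y.coeff 0 : A) : Kbar) = b := by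
  have hc0 : (((f : FF M) : LaurentSeries Kbar) - HahnSeries.C b).coeff 0 =
      ((y.coeff 0 : A) : Kbar) - b := by
    rw [h78s_coeff_sub_C, ← hy]
    rfl
  rcases eq_or_ne (f - cst M b) 0 with h0 | h0
  · have h3 : ((f - cst M b : FF M) : LaurentSeries Kbar) = 0 := by
      rw [h0]
      rfl
    rw [h78s_coe_sub_cst] at h3
    rw [h3] at hc0
    exact sub_eq_zero.mp hc0.symm
  · have hpos : 0 < oo.ord (f - cst M b) := h78s_ord_pos_of_mem_nonunits oo hb h0
    rw [hoo _ h0, h78s_coe_sub_cst] at hpos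
    have h5 := HahnSeries.coeff_eq_zero_of_lt_order hpos
    rw [hc0] at h5
    exact sub_eq_zero.mp h5

/-- the `q`-order place is not finite. -/
theorem h78s_not_isFinAt_infty (oo : Place Kbar (FF M))
    (hoo : ∀ f : FF M, f ≠ 0 → oo.ord f = ((f : FF M) : LaurentSeries Kbar).order) :
    ¬ IsFinAt A oo := by
  intro h
  have h1 := h26s_ord_nonneg_of_isFinAt h
  rw [hoo (jB M) (h85_jB_ne_zero M), coe_jB] at h1
  have h3 : (jK Kbar).order = -1 := Fermat.Agent.S28.Asm.order_jqModC' Kbar
  omega

/-- the reduction of `j` has order `-1` at the `q`-order place of the special fibre. -/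
theorem h78s_ord_J (Q : Place (h13sK A) (h13sFt A M))
    (hQ : ∀ f : h13sFt A M, f ≠ 0 → Q.ord f = (h13sIncl A M f).order) :
    Q.ord (h26sJ A M) = -1 := by
  have hJ : h13sIncl A M (h26sJ A M) = jqModC (IsLocalRing.ResidueField A) := by
    show gaussR A M ⟨jB M, jB_mem_gaussV A M⟩ = _
    exact gaussR_jB A M
  have hJ0 : h26sJ A M ≠ 0 := by
    intro h0
    rw [h0, map_zero] at hJ
    exact jqModC_ne_zero_of_nontrivial _ hJ.symm
  rw [hQ _ hJ0, hJ]
  exact Fermat.Agent.S28.Asm.order_jqModC' _

/-- a place in the fibre of the `q`-order place of the special fibre is not finite. -/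
theorem h78s_not_isFinAt_fibre {ℓ : ℕ} (hℓ : ℓ.Prime) (hM : ¬ ℓ ∣ M)
    (hA : A.LiesOverPrime ℓ)
    (r : Place Kbar (FF M) → Place (h13sK A) (h13sFt A M)) (hr : H13sIsRed A M r)
    (Q : Place (h13sK A) (h13sFt A M))
    (hQ : ∀ f : h13sFt A M, f ≠ 0 → Q.ord f = (h13sIncl A M f).order)
    (v₀ : Place Kbar (FF M)) (hv₀ : r v₀ = Q) : ¬ IsFinAt A v₀ := by
  classical
  intro hfin
  obtain ⟨Dj, hDj, -⟩ := (h40r_base_FF M).pd (jB M) (h85_jB_ne_zero M)
  have h3 : h13sPush r Dj Q = Q.ord (h26sJ A M) :=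
    hr.2.2 (jB M) (jB_mem_gaussV A M) (jB_inv_mem_gaussV A M hℓ hM hA) Dj hDj Q
  have s2 : 0 ≤ h13sPush r Dj Q := by
    refine h78s_push_nonneg r Dj Q fun v h => ?_
    rw [hDj v]
    have hs : SameRed A v v₀ := (hr.2.1 v v₀).1 (h.trans hv₀.symm)
    rcases hs with ⟨h1, -, -⟩ | ⟨-, h2, -⟩
    · exact h26s_ord_nonneg_of_isFinAt h1
    · exact absurd hfin h2
  rw [h3, h78s_ord_J Q hQ] at s2
  omega

set_option maxHeartbeats 800000 in
/-- the reduction of a function of the chart at infinity which vanishes at a point of the fibre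
of the `q`-order place has no constant term. -/
theorem h78s_coeff_zero_red {ℓ : ℕ} (hℓ : ℓ.Prime) (hM : ¬ ℓ ∣ M)
    (hA : A.LiesOverPrime ℓ)
    (r : Place Kbar (FF M) → Place (h13sK A) (h13sFt A M)) (hr : H13sIsRed A M r)
    (Q : Place (h13sK A) (h13sFt A M))
    (hQ : ∀ f : h13sFt A M, f ≠ 0 → Q.ord f = (h13sIncl A M f).order)
    (v₀ : Place Kbar (FF M)) (hv₀ : r v₀ = Q) (hv₀fin : ¬ IsFinAt A v₀)
    (g : FF M) (hgInf : g ∈ modelInf M A) (hgV : g ∈ gaussV A M)
    (hgv : g ∈ v₀.toValuationSubring.nonunits) :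
    (gaussR A M ⟨g, hgV⟩).coeff 0 = 0 := by
  classical
  by_cases hz : gaussR A M ⟨g, hgV⟩ = 0
  · rw [hz]
    rfl
  · have hunit := (gaussR_eq_zero_iff A M hℓ hM hA ⟨g, hgV⟩).not.mp hz
    rw [not_or, not_not] at hunit
    obtain ⟨hg0, hginv⟩ := hunit
    have hg0' : g ≠ 0 := hg0
    obtain ⟨Dg, hDg, -⟩ := (h40r_base_FF M).pd g hg0'
    have h3 : h13sPush r Dg Q = Q.ord (h13sRed A M ⟨g, hgV⟩) :=
      hr.2.2 g hgV hginv Dg hDg Q
    have hR0 : h13sRed A M ⟨g, hgV⟩ ≠ 0 := by
      intro h0
      apply hz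
      have h4 := congrArg (h13sIncl A M) h0
      rw [h13sIncl_red, map_zero] at h4
      exact h4
    rw [hQ _ hR0, h13sIncl_red] at h3
    have hpos : 0 < h13sPush r Dg Q := by
      refine h78s_push_pos r Dg Q v₀ hv₀ (fun v h => ?_) ?_
      · rw [hDg v]
        have hs : SameRed A v v₀ := (hr.2.1 v v₀).1 (h.trans hv₀.symm)
        rcases hs with ⟨-, h2, -⟩ | ⟨h1, -, -⟩
        · exact absurd h2 hv₀fin
        · obtain ⟨c, hc⟩ := exists_valueAt_modelInf h1 ⟨g, hgInf⟩
          exact h78s_ord_nonneg_of_sub_mem v (c : Kbar) hc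
      · rw [hDg v₀]
        exact h78s_ord_pos_of_mem_nonunits v₀ hgv hg0'
    rw [h3] at hpos
    exact HahnSeries.coeff_eq_zero_of_lt_order hpos

end Level

set_option maxHeartbeats 800000 in
/-- **piece (d)**: INT gives (S2). -/
theorem h78s_S2 (hInt : H26iInt) : H26iS2 := by
  intro ℓ hℓ M _ hM haux A hA r hr Q hQ oo hoo
  obtain ⟨v₀, hv₀⟩ := hr.1 Q
  have hv₀fin : ¬ IsFinAt A v₀ := h78s_not_isFinAt_fibre hℓ hM hA r hr Q hQ v₀ hv₀
  have hoofin : ¬ IsFinAt A oo := h78s_not_isFinAt_infty oo hoo
  have hcong : ∀ f ∈ modelInf M A, CongAt A v₀ oo f := by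
    intro f hf
    obtain ⟨y, hy⟩ := hInt ℓ hℓ M hM A hA f hf
    obtain ⟨a, ha⟩ := exists_valueAt_modelInf hv₀fin ⟨f, hf⟩
    obtain ⟨b, hb⟩ := exists_valueAt_modelInf hoofin ⟨f, hf⟩
    refine ⟨a, b, a.2, b.2, ha, hb, ?_⟩
    have hyb : ((y.coeff 0 : A) : Kbar) = (b : Kbar) :=
      h78s_coeff_zero_of_valueAt oo hoo f y hy b hb
    have hcstInf : cst M (a : Kbar) ∈ modelInf M A := cst_mem_modelAt M A _ a.2
    have hgInf : f - cst M (a : Kbar) ∈ modelInf M A := sub_mem hf hcstInf
    have hgV : f - cst M (a : Kbar) ∈ gaussV A M := modelInf_le_gaussV A M hℓ hM hA hgInf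
    have hgy : embA A (y - HahnSeries.C a) =
        ((f - cst M (a : Kbar) : FF M) : LaurentSeries Kbar) := by
      rw [h78s_coe_sub_cst, map_sub, hy, Asm.embA_C]
    have hred : gaussR A M ⟨f - cst M (a : Kbar), hgV⟩ =
        redA (IsLocalRing.residue A) (y - HahnSeries.C a) :=
      gaussRed_of_embA A (IsLocalRing.residue A) M ⟨f - cst M (a : Kbar), hgV⟩ _ hgy
    have hc0 := h78s_coeff_zero_red hℓ hM hA r hr Q hQ v₀ hv₀ hv₀fin
      (f - cst M (a : Kbar)) hgInf hgV ha
    rw [hred] at hc0
    have h6 : (redA (IsLocalRing.residue A) (y - HahnSeries.C a)).coeff 0 =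
        IsLocalRing.residue A ((y - HahnSeries.C a).coeff 0) := rfl
    rw [h6, h78s_coeff_sub_C, IsLocalRing.residue_eq_zero_iff,
      ← ValuationSubring.coe_mem_nonunits_iff] at hc0
    have h7 : ((y.coeff 0 - a : A) : Kbar) = (b : Kbar) - (a : Kbar) := by
      rw [← hyb]
      rfl
    rw [h7] at hc0
    have h8 : (a : Kbar) - (b : Kbar) = -((b : Kbar) - (a : Kbar)) := by ring
    rw [h8]
    rw [ValuationSubring.mem_nonunits_iff] at hc0 ⊢
    rw [Valuation.map_neg]
    exact hc0
  have hSR : SameRed A v₀ oo := Or.inr ⟨hv₀fin, hoofin, hcong⟩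
  rw [← hv₀]
  exact ((hr.2.1 v₀ oo).2 hSR).symm

end Fermat.Agent.P7
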