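import Mathlib

/-!
# Wave 7 (S40), block (E) END-BOREL, abstract core (helper79, prefix `h79w_`)

Mathlib only.  `V` a vector space of dimension `2` over a field `k`, `ρ : G →* End_k V` a
representation, `a ∈ G` with `(ρ a - 1)(ρ a - ε) = 0`, `ε ≠ 1`, `ρ a` not a scalar.  If every
commutator `c = a g a⁻¹ g⁻¹` satisfies `(ρ c - 1)² = 0`, then `V` has a `G`-stable line
(`h79w_borel_core`): in an eigenbasis `e₁, e₂` of `ρ a` every `ρ g` fixes the line `k e₁` or the
line `k e₂` (`[ρ a, ρ g]` is not injective), and a group is not the union of two proper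
subgroups (`h79w_union_two`).
-/

set_option autoImplicit false

namespace Fermat.Agent.P7

/-- a group is not the union of two proper subgroups. -/
theorem h79w_union_two {G : Type*} [Group G] (H K : Subgroup G)
    (h : ∀ g : G, g ∈ H ∨ g ∈ K) : (∀ g : G, g ∈ H) ∨ ∀ g : G, g ∈ K := by
  by_contra hcon
  rw [not_or] at hcon
  obtain ⟨hH, hK⟩ := hcon
  rw [not_forall] at hH hK
  obtain ⟨x, hx⟩ := hH
  obtain ⟨y, hy⟩ := hK
  have hxK : x ∈ K := (h x).resolve_left hx
  have hyH : y ∈ H := (h y).resolve_right hy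
  rcases h (x * y) with h1 | h1
  · apply hx
    have := H.mul_mem h1 (H.inv_mem hyH)
    rwa [mul_inv_cancel_right] at this
  · apply hy
    have := K.mul_mem (K.inv_mem hxK) h1
    rwa [inv_mul_cancel_left] at this

variable {k : Type*} [Field k] {V : Type*} [AddCommGroup V] [Module k V]

/-- the stabiliser of the line spanned by `e`, as a subgroup. -/
def h79wStab {G : Type*} [Group G] (ρ : G →* Module.End k V) (e : V) : Subgroup G where
  carrier := {g | (∃ x : k, ρ g e = x • e) ∧ ∃ x : k, ρ g⁻¹ e = x • e}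
  one_mem' := ⟨⟨1, by simp⟩, ⟨1, by simp⟩⟩
  mul_mem' := by
    rintro g h ⟨⟨x, hx⟩, ⟨x', hx'⟩⟩ ⟨⟨y, hy⟩, ⟨y', hy'⟩⟩
    refine ⟨⟨y * x, ?_⟩, ⟨x' * y', ?_⟩⟩
    · rw [map_mul, Module.End.mul_apply, hy, map_smul, hx, smul_smul]
    · rw [mul_inv_rev, map_mul, Module.End.mul_apply, hx', map_smul, hy', smul_smul]
  inv_mem' := by
    rintro g ⟨hx, hx'⟩
    exact ⟨hx', by rwa [inv_inv]⟩

theorem h79w_stab_apply {G : Type*} [Group G] (ρ : G →* Module.End k V) (e : V)
    (h : ∀ g : G, g ∈ h79wStab ρ e) (g : G) (v : V) (hv : v ∈ Submodule.span k {e}) :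
    ρ g v ∈ Submodule.span k {e} := by
  obtain ⟨c, rfl⟩ := Submodule.mem_span_singleton.mp hv
  obtain ⟨⟨x, hx⟩, -⟩ := h g
  rw [map_smul, hx, smul_smul]
  exact Submodule.mem_span_singleton.mpr ⟨c * x, rfl⟩

theorem h79w_rho_inv_apply {G : Type*} [Group G] (ρ : G →* Module.End k V) (g : G) (v : V) :
    ρ g⁻¹ (ρ g v) = v := by
  rw [← Module.End.mul_apply, ← map_mul, inv_mul_cancel, map_one, Module.End.one_apply]

theorem h79w_rho_apply_inv {G : Type*} [Group G] (ρ : G →* Module.End k V) (g : G) (v : V) :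
    ρ g (ρ g⁻¹ v) = v := by
  rw [← Module.End.mul_apply, ← map_mul, mul_inv_cancel, map_one, Module.End.one_apply]

theorem h79w_rho_injective {G : Type*} [Group G] (ρ : G →* Module.End k V) (g : G) :
    Function.Injective (ρ g) := fun v w h => by
  rw [← h79w_rho_inv_apply ρ g v, h, h79w_rho_inv_apply]

/-- a line of a plane is a proper nonzero subspace. -/
theorem h79w_line_proper (hV : Module.finrank k V = 2) {e : V} (he : e ≠ 0) :
    Submodule.span k {e} ≠ ⊥ ∧ Submodule.span k {e} ≠ ⊤ := by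
  constructor
  · intro h
    apply he
    have : e ∈ Submodule.span k {e} := Submodule.mem_span_singleton_self e
    rw [h] at this
    exact (Submodule.mem_bot k).mp this
  · intro h
    have h1 : Module.finrank k (Submodule.span k {e}) = 1 := finrank_span_singleton he
    rw [h, finrank_top, hV] at h1
    omega

/-- **END-BOREL, abstract core.** -/
theorem h79w_borel_core (hV : Module.finrank k V = 2) {G : Type*} [Group G]
    (ρ : G →* Module.End k V) (a : G) (ε : k) (hε : ε ≠ 1)
    (ha : ∀ v : V, ρ a (ρ a v) - (1 + ε) • ρ a v + ε • v = 0)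
    (h1 : ∃ v : V, ρ a v ≠ v) (h2 : ∃ v : V, ρ a v ≠ ε • v)
    (hc : ∀ (g : G) (v : V), ρ (a * g * a⁻¹ * g⁻¹) (ρ (a * g * a⁻¹ * g⁻¹) v) + v =
      (2 : k) • ρ (a * g * a⁻¹ * g⁻¹) v) :
    ∃ L : Submodule k V, L ≠ ⊥ ∧ L ≠ ⊤ ∧ ∀ g : G, ∀ v ∈ L, ρ g v ∈ L := by
  have : FiniteDimensional k V := Module.finite_of_finrank_pos (by rw [hV]; norm_num)
  -- eigenvectors
  obtain ⟨v₁, hv₁⟩ := h2
  obtain ⟨v₂, hv₂⟩ := h1
  set e₁ : V := ρ a v₁ - ε • v₁ with he₁
  set e₂ : V := ρ a v₂ - v₂ with he₂
  have he₁0 : e₁ ≠ 0 := sub_ne_zero.mpr hv₁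
  have he₂0 : e₂ ≠ 0 := sub_ne_zero.mpr hv₂
  have hae₁ : ρ a e₁ = e₁ := by
    have := ha v₁
    rw [he₁, map_sub, map_smul]
    rw [add_smul, one_smul] at this
    rw [← sub_eq_zero]
    rw [← this]
    abel
  have hae₂ : ρ a e₂ = ε • e₂ := by
    have := ha v₂
    rw [he₂, map_sub, smul_sub]
    rw [add_smul, one_smul] at this
    rw [← sub_eq_zero]
    rw [← this]
    abel
  -- independence
  have hind : ∀ α β : k, α • e₁ + β • e₂ = 0 → α = 0 ∧ β = 0 := by
    intro α β h
    have h' : ρ a (α • e₁ + β • e₂) = 0 := by rw [h, map_zero]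
    rw [map_add, map_smul, map_smul, hae₁, hae₂] at h'
    -- α e₁ + β ε e₂ = 0 and α e₁ + β e₂ = 0
    have h3 : (β * (ε - 1)) • e₂ = 0 := by
      have : (β * (ε - 1)) • e₂ = (α • e₁ + β • ε • e₂) - (α • e₁ + β • e₂) := by
        rw [mul_sub, sub_smul, mul_one, mul_smul]
        abel
      rw [this, h', h, sub_zero]
    have hβ : β = 0 := by
      rcases smul_eq_zero.mp h3 with h4 | h4
      · rcases mul_eq_zero.mp h4 with h5 | h5
        · exact h5
        · exact absurd (sub_eq_zero.mp h5) hε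
      · exact absurd h4 he₂0
    rw [hβ, zero_smul, add_zero] at h
    rcases smul_eq_zero.mp h with h4 | h4
    · exact ⟨h4, hβ⟩
    · exact absurd h4 he₁0
  have hli : LinearIndependent k ![e₁, e₂] := by
    rw [LinearIndependent.pair_iff]
    intro s t hst
    exact hind s t hst
  -- spanning
  have hspan : ∀ v : V, ∃ α β : k, v = α • e₁ + β • e₂ := by
    intro v
    have hcard : Fintype.card (Fin 2) = Module.finrank k V := by rw [hV]; rfl
    let b := basisOfLinearIndependentOfCardEqFinrank hli hcard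
    refine ⟨b.repr v 0, b.repr v 1, ?_⟩
    have := b.sum_repr v
    rw [Fin.sum_univ_two] at this
    have hb0 : b 0 = e₁ := by
      simp [b, coe_basisOfLinearIndependentOfCardEqFinrank]
    have hb1 : b 1 = e₂ := by
      simp [b, coe_basisOfLinearIndependentOfCardEqFinrank]
    rw [hb0, hb1] at this
    exact this.symm
  -- every `g` fixes one of the two lines
  have hkey : ∀ g : G, g ∈ h79wStab ρ e₁ ∨ g ∈ h79wStab ρ e₂ := by
    have hzy : ∀ g : G, (∃ x : k, ρ g e₁ = x • e₁) ∨ ∃ w : k, ρ g e₂ = w • e₂ := by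
      intro g
      obtain ⟨x, z, hx⟩ := hspan (ρ g e₁)
      obtain ⟨y, w, hy⟩ := hspan (ρ g e₂)
      set c := ρ (a * g * a⁻¹ * g⁻¹) with hcdef
      -- `c - 1` is not injective
      have hex : ∃ v' : V, v' ≠ 0 ∧ c v' = v' := by
        by_contra hno
        replace hno : ∀ v' : V, v' ≠ 0 → c v' ≠ v' := fun v' h0 h1 => hno ⟨v', h0, h1⟩
        have h3 := hc g e₁
        have h4 : c (c e₁ - e₁) = c e₁ - e₁ := by
          rw [map_sub]
          rw [two_smul] at h3
          rw [sub_eq_sub_iff_add_eq_add, h3]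
        have h5 : c e₁ - e₁ = 0 := by
          by_contra h6
          exact hno _ h6 h4
        exact hno e₁ he₁0 (sub_eq_zero.mp h5)
      obtain ⟨v', hv'0, hcv'⟩ := hex
      -- `t = (γ f)⁻¹ v'` is killed by `f γ - γ f`
      set t : V := ρ a⁻¹ (ρ g⁻¹ v') with ht
      have ht0 : t ≠ 0 := by
        intro h0
        apply hv'0
        have : ρ g (ρ a t) = v' := by
          rw [ht, h79w_rho_apply_inv, h79w_rho_apply_inv]
        rw [← this, h0, map_zero, map_zero]
      have hcomm : ρ a (ρ g t) = ρ g (ρ a t) := by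
        have e1 : ρ g (ρ a t) = v' := by
          rw [ht, h79w_rho_apply_inv, h79w_rho_apply_inv]
        have e2 : c v' = ρ a (ρ g t) := by
          rw [hcdef, map_mul, map_mul, map_mul]
          rfl
        rw [e1, ← e2, hcv']
      obtain ⟨α, β, hαβ⟩ := hspan t
      have hL : ρ a (ρ g t) = (α * x + β * y) • e₁ + ((α * z + β * w) * ε) • e₂ := by
        rw [hαβ, map_add, map_smul, map_smul, hx, hy, map_add, map_smul, map_smul, map_add,
          map_smul, map_smul, map_add, map_smul, map_smul, hae₁, hae₂]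
        module
      have hR : ρ g (ρ a t) = (α * x + β * ε * y) • e₁ + (α * z + β * ε * w) • e₂ := by
        rw [hαβ, map_add, map_smul, map_smul, hae₁, hae₂, map_add, map_smul, map_smul,
          map_smul, hx, hy]
        module
      rw [hL, hR] at hcomm
      have hdiff : (β * y * (1 - ε)) • e₁ + (α * z * (ε - 1)) • e₂ = 0 := by
        have : (β * y * (1 - ε)) • e₁ + (α * z * (ε - 1)) • e₂ =
            ((α * x + β * y) • e₁ + ((α * z + β * w) * ε) • e₂) -
              ((α * x + β * ε * y) • e₁ + (α * z + β * ε * w) • e₂) := by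
          have e1 : β * y * (1 - ε) = (α * x + β * y) - (α * x + β * ε * y) := by ring
          have e2 : α * z * (ε - 1) = (α * z + β * w) * ε - (α * z + β * ε * w) := by ring
          rw [e1, e2, sub_smul, sub_smul]
          abel
        rw [this, hcomm, sub_self]
      obtain ⟨hβy, hαz⟩ := hind _ _ hdiff
      have hε1 : (1 : k) - ε ≠ 0 := sub_ne_zero.mpr (Ne.symm hε)
      have hε2 : ε - 1 ≠ 0 := sub_ne_zero.mpr hε
      have hβy' : β * y = 0 := (mul_eq_zero.mp hβy).resolve_right hε1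
      have hαz' : α * z = 0 := (mul_eq_zero.mp hαz).resolve_right hε2
      by_cases hz : z = 0
      · left
        exact ⟨x, by rw [hx, hz, zero_smul, add_zero]⟩
      · by_cases hy0 : y = 0
        · right
          exact ⟨w, by rw [hy, hy0, zero_smul, zero_add]⟩
        · exfalso
          have hα : α = 0 := (mul_eq_zero.mp hαz').resolve_right hz
          have hβ : β = 0 := (mul_eq_zero.mp hβy').resolve_right hy0
          apply ht0
          rw [hαβ, hα, hβ, zero_smul, zero_smul, add_zero]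
    -- upgrade to the subgroups (the scalar is nonzero)
    have hup : ∀ (e : V), e ≠ 0 → ∀ g : G, (∃ x : k, ρ g e = x • e) → g ∈ h79wStab ρ e := by
      intro e he g ⟨x, hx⟩
      refine ⟨⟨x, hx⟩, ⟨x⁻¹, ?_⟩⟩
      have hx0 : x ≠ 0 := by
        intro h0
        rw [h0, zero_smul] at hx
        exact he (h79w_rho_injective ρ g (by rw [hx, map_zero]))
      apply h79w_rho_injective ρ g
      rw [h79w_rho_apply_inv, map_smul, hx, smul_smul, inv_mul_cancel₀ hx0, one_smul]
    intro g
    rcases hzy g with h | h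
    · exact Or.inl (hup e₁ he₁0 g h)
    · exact Or.inr (hup e₂ he₂0 g h)
  rcases h79w_union_two _ _ hkey with h | h
  · exact ⟨Submodule.span k {e₁}, (h79w_line_proper hV he₁0).1, (h79w_line_proper hV he₁0).2,
      h79w_stab_apply ρ e₁ h⟩
  · exact ⟨Submodule.span k {e₂}, (h79w_line_proper hV he₂0).1, (h79w_line_proper hV he₂0).2,
      h79w_stab_apply ρ e₂ h⟩

end Fermat.Agent.P7
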