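import Fermat.Agent.P7.H79Borel
import Fermat.Agent.Tors.Qbar
import Fermat.Prelude.Def_FLTPrelim_ModularRep

/-!
# Wave 7 (S40), block (E) END-BOREL in the vocabulary of the Prelude (helper79, prefix `h79w_`)

`W` an integral Weierstrass curve with `Δ ≠ 0`, `p` a prime, `W[p]` irreducible
(`W.ModRepIsIrreducible p`).  There is no `a ∈ G_ℚ` with

* `(a - 1)(a - ε) = 0` on `W[p]` for an integer `ε ≢ 1` modulo `p`,
* `a` not a scalar (`a ≠ 1`, `a ≠ ε` on `W[p]`),
* every commutator `c = a g a⁻¹ g⁻¹` unipotent on `W[p]` (`(c - 1)² = 0`).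

`h79w_borel` : the statement; `h79wRho` : the representation `G_ℚ → End_{𝔽_p} W[p]`.
-/

set_option autoImplicit false

open WeierstrassCurve WeierstrassCurve.Affine WeierstrassCurve.Affine.Point

noncomputable section

namespace Fermat.Agent.P7

/-- `G_ℚ`. -/
local notation "h79wGQ" => (AlgebraicClosure ℚ ≃ₐ[ℚ] AlgebraicClosure ℚ)

/-- `W[p](ℚ̄)`, the type of the Prelude. -/
abbrev h79wTors (W : WeierstrassCurve ℤ) (p : ℕ) : Type :=
  ↥(Submodule.torsionBy ℤ ((W.map (Int.castRingHom ℚ))⁄(AlgebraicClosure ℚ)).Point p)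

/-- the representation of `G_ℚ` on the `𝔽_p`-vector space `W[p]`. -/
def h79wRho (W : WeierstrassCurve ℤ) (p : ℕ) :
    h79wGQ →* Module.End (ZMod p) (h79wTors W p) where
  toFun g := (DistribSMul.toAddMonoidHom (h79wTors W p) g).toZModLinearMap p
  map_one' := by
    ext P
    simp
  map_mul' g h := by
    ext P
    simp [mul_smul]

@[simp]
theorem h79wRho_apply (W : WeierstrassCurve ℤ) (p : ℕ) (g : h79wGQ) (P : h79wTors W p) :
    h79wRho W p g P = g • P := rfl

/-- **END-BOREL.** -/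
theorem h79w_borel (W : WeierstrassCurve ℤ) (hΔ : W.Δ ≠ 0) {p : ℕ} (hp : p.Prime)
    (hirr : W.ModRepIsIrreducible p) (a : h79wGQ) (ε : ℤ) (hε : ¬ (p : ℤ) ∣ ε - 1)
    (ha : ∀ P : h79wTors W p, a • a • P - (1 + ε) • a • P + ε • P = 0)
    (h1 : ∃ P : h79wTors W p, a • P ≠ P) (h2 : ∃ P : h79wTors W p, a • P ≠ ε • P)
    (hc : ∀ (g : h79wGQ) (P : h79wTors W p),
      (a * g * a⁻¹ * g⁻¹) • (a * g * a⁻¹ * g⁻¹) • P + P = (2 : ℤ) • (a * g * a⁻¹ * g⁻¹) • P) :
    False := by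
  have : Fact p.Prime := ⟨hp⟩
  have hΔ' : (W.map (Int.castRingHom ℚ)).Δ ≠ 0 := by
    rw [WeierstrassCurve.map_Δ]
    intro h
    apply hΔ
    have h0 : ((W.Δ : ℤ) : ℚ) = 0 := h
    exact_mod_cast h0
  have hV : Module.finrank (ZMod p) (h79wTors W p) = 2 :=
    Fermat.Agent.Tors.finrank_torsionBy_qbar (W.map (Int.castRingHom ℚ)) hΔ' p
  have hε' : ((ε : ℤ) : ZMod p) ≠ 1 := by
    intro h
    apply hε
    have h3 : ((ε - 1 : ℤ) : ZMod p) = 0 := by
      push_cast
      rw [h, sub_self]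
    exact (ZMod.intCast_zmod_eq_zero_iff_dvd _ p).mp h3
  have hsm : ∀ (n : ℤ) (P : h79wTors W p), ((n : ℤ) : ZMod p) • P = n • P := fun n P =>
    Int.cast_smul_eq_zsmul (ZMod p) n P
  obtain ⟨L, hL0, hL1, hLs⟩ := h79w_borel_core hV (h79wRho W p) a ((ε : ℤ) : ZMod p) hε'
    (fun P => by
      have := ha P
      simp only [h79wRho_apply]
      have e : (1 + ((ε : ℤ) : ZMod p)) = (((1 + ε : ℤ)) : ZMod p) := by push_cast; rfl
      rw [e, hsm, hsm]
      exact this)
    (by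
      obtain ⟨P, hP⟩ := h1
      exact ⟨P, by simpa using hP⟩)
    (by
      obtain ⟨P, hP⟩ := h2
      refine ⟨P, ?_⟩
      simp only [h79wRho_apply]
      rw [hsm]
      exact hP)
    (fun g P => by
      have := hc g P
      simp only [h79wRho_apply]
      have e : (2 : ZMod p) = (((2 : ℤ)) : ZMod p) := by push_cast; rfl
      rw [e, hsm]
      exact this)
  rcases hirr.2 L (fun σ x hx => hLs σ x hx) with h | h
  · exact hL0 h
  · exact hL1 h

end Fermat.Agent.P7
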