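import Fermat.Agent.P7.H34LocInert
import Fermat.Agent.S05.H4Nodal
import Fermat.Agent.S05.H76Comp

/-!
# P7 (wave 7, S44), block LOCAL-MULT, leaf LM2 NODE-LIFT (helper79, twin of helper32)

`Ws` a short nodal model at `A` (`S05.IsShortNodal A p Ws`: `y² = x³ + a₂ x² + a₄ x`, `a₂` a unit
of `A`, `a₄ = u π ^ p`, `π` a rational nonunit), `A` a valuation subring of `ℚ̄` over the odd
prime `p`, `I` the inertia group of `A`.

* `h79t_unram_lift_ns` : a point with integral `x` and NONSINGULAR reduction is congruent modulo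
  the kernel of reduction `E¹` to an `I`-fixed point (helper34's Hensel argument, with the
  nonsingularity of the reduction as a hypothesis instead of good reduction);
* `h79t_node_lift_of_val` : a point reducing to the node strictly inside the annulus
  (`x`, `a₄ / x` nonunits) whose `x` has the valuation of an `I`-fixed constant is congruent
  modulo `E¹` to an `I`-fixed point (Hensel on the branch `s = y / x`,
  `s² = a₂ + x + a₄ / x`, and the landed refined reduction `h4_refined_reduction_nodal`);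
* `h79t_node_lift` : **LM2**: every point of `Ws(ℚ̄)` killed by `p` is congruent modulo `E¹` to
  an `I`-fixed point (landed `torsion_node_valuation`, which has no hypothesis `p ∈ Aˣ`);
* `h79t_node_inert` : corollary: `σ P - P ∈ E¹` for `σ ∈ I` and `p P = 0`.
-/

set_option autoImplicit false
set_option linter.style.haveILetI false
set_option linter.unusedSectionVars false
set_option linter.unusedVariables false

namespace Fermat.Agent.P7

open WeierstrassCurve Fermat.Agent.S05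
open scoped WeierstrassCurve.Affine

section Lift

open Polynomial

variable {R : Type*} {S : Type*} {K : Type*} [CommRing R] [Field S] [Field K]
  [DecidableEq K] [Algebra R S] [Algebra R K] [Algebra S K] [IsScalarTower R S K]

/-- a point of `E¹` or equal points: the two shapes produced by the S05 lemmas. -/
theorem h79t_inE1_of_alt (W' : Affine R) (A : ValuationSubring K) {P Q : (W'⁄K).Point}
    (H : P = Q ∨ ∃ (x₃ y₃ : K) (h₃' : (W'⁄K).Nonsingular x₃ y₃),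
      P - Q = Affine.Point.some x₃ y₃ h₃' ∧ x₃ ∉ A) : InE1 A (P - Q) := by
  rcases H with H | ⟨x₃, y₃, h₃', he, hx₃⟩
  · rw [H, sub_self]
    exact inE1_zero A
  · exact Or.inr ⟨x₃, y₃, h₃', he, hx₃⟩

/-- **unramified lift at a point with nonsingular reduction** (no good reduction needed). -/
theorem h79t_unram_lift_ns [IsAlgClosed K] (W' : Affine R) (A : ValuationSubring K)
    (ha₁ : (W'⁄K).a₁ ∈ A) (ha₂ : (W'⁄K).a₂ ∈ A) (ha₃ : (W'⁄K).a₃ ∈ A) (ha₄ : (W'⁄K).a₄ ∈ A)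
    (ha₆ : (W'⁄K).a₆ ∈ A) (hΔ0 : (W'⁄K).Δ ≠ 0)
    (hres : ∀ a ∈ A, ∃ a' ∈ A, (∀ σ ∈ A.inertiaSubgroupIn S, σ a' = a') ∧ a - a' ∈ A.nonunits)
    {x y : K} (h : (W'⁄K).Nonsingular x y) (hx : x ∈ A)
    (hns : (W'⁄K).a₁ * y - (3 * x ^ 2 + 2 * (W'⁄K).a₂ * x + (W'⁄K).a₄) ∉ A.nonunits ∨
      2 * y + (W'⁄K).a₁ * x + (W'⁄K).a₃ ∉ A.nonunits) :
    ∃ c₀ : (W'⁄K).Point, (∀ σ ∈ A.inertiaSubgroupIn S, σ • c₀ = c₀) ∧
      InE1 A ((Affine.Point.some x y h : (W'⁄K).Point) - c₀) := by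
  have hy : y ∈ A := H86.y_mem_of_x_mem ha₁ ha₂ ha₃ ha₄ ha₆ h.1 hx
  have heq := (Affine.equation_iff x y).1 h.1
  have h2A : (2 : K) ∈ A := H86.two_mem A
  have h3A : (3 : K) ∈ A := by
    have : (3 : K) = 2 + 1 := by norm_num
    rw [this]; exact add_mem h2A (one_mem A)
  -- the coefficients are Galois fixed
  have hf₁ : ∀ σ : K ≃ₐ[S] K, σ (W'⁄K).a₁ = (W'⁄K).a₁ := fun σ => by
    simp only [WeierstrassCurve.baseChange, WeierstrassCurve.map_a₁]
    exact h34i_algebraMap_fixed σ _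
  have hf₂ : ∀ σ : K ≃ₐ[S] K, σ (W'⁄K).a₂ = (W'⁄K).a₂ := fun σ => by
    simp only [WeierstrassCurve.baseChange, WeierstrassCurve.map_a₂]
    exact h34i_algebraMap_fixed σ _
  have hf₃ : ∀ σ : K ≃ₐ[S] K, σ (W'⁄K).a₃ = (W'⁄K).a₃ := fun σ => by
    simp only [WeierstrassCurve.baseChange, WeierstrassCurve.map_a₃]
    exact h34i_algebraMap_fixed σ _
  have hf₄ : ∀ σ : K ≃ₐ[S] K, σ (W'⁄K).a₄ = (W'⁄K).a₄ := fun σ => by
    simp only [WeierstrassCurve.baseChange, WeierstrassCurve.map_a₄]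
    exact h34i_algebraMap_fixed σ _
  have hf₆ : ∀ σ : K ≃ₐ[S] K, σ (W'⁄K).a₆ = (W'⁄K).a₆ := fun σ => by
    simp only [WeierstrassCurve.baseChange, WeierstrassCurve.map_a₆]
    exact h34i_algebraMap_fixed σ _
  -- the conclusion from an `I`-fixed integral point with the same reduction
  have key : ∀ x₀ y₀ : K, x₀ ∈ A → y₀ ∈ A → (W'⁄K).Equation x₀ y₀ →
      (∀ σ ∈ A.inertiaSubgroupIn S, σ x₀ = x₀) → (∀ σ ∈ A.inertiaSubgroupIn S, σ y₀ = y₀) →
      x - x₀ ∈ A.nonunits → y - y₀ ∈ A.nonunits →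
      ∃ c₀ : (W'⁄K).Point, (∀ σ ∈ A.inertiaSubgroupIn S, σ • c₀ = c₀) ∧
        InE1 A ((Affine.Point.some x y h : (W'⁄K).Point) - c₀) := by
    intro x₀ y₀ hx₀ hy₀ he hσx hσy hxm hym
    have h₀ : (W'⁄K).Nonsingular x₀ y₀ :=
      ((W'⁄K).equation_iff_nonsingular_of_Δ_ne_zero hΔ0).1 he
    refine ⟨Affine.Point.some x₀ y₀ h₀, fun σ hσ =>
      h34i_smul_some_of_fixed W' σ h₀ (hσx σ hσ) (hσy σ hσ), ?_⟩
    exact H86.sub_inE1_of_same_reduction (A := A) (W := W'⁄K) ha₁ ha₂ ha₃ ha₄ h h₀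
      hx hy hx₀ hy₀ hxm hym hns
  by_cases hdY : 2 * y + (W'⁄K).a₁ * x + (W'⁄K).a₃ ∈ A.nonunits
  · -- the `X`-partial is a unit: lift `y`, solve the cubic in `X`
    have hdX : (W'⁄K).a₁ * y - (3 * x ^ 2 + 2 * (W'⁄K).a₂ * x + (W'⁄K).a₄) ∉ A.nonunits := by
      rcases hns with h' | h'
      · exact h'
      · exact absurd hdY h'
    obtain ⟨y₀, hy₀, hσy₀, hym⟩ := hres y hy
    set b : K := (W'⁄K).a₄ - (W'⁄K).a₁ * y₀ with hb
    set c : K := (W'⁄K).a₆ - y₀ ^ 2 - (W'⁄K).a₃ * y₀ with hc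
    have hbA : b ∈ A := sub_mem ha₄ (mul_mem ha₁ hy₀)
    have hcA : c ∈ A := sub_mem (sub_mem ha₆ (pow_mem hy₀ 2)) (mul_mem ha₃ hy₀)
    set q : K[X] := X ^ 3 + C (W'⁄K).a₂ * X ^ 2 + C b * X + C c with hq
    have hqA : q ∈ lifts (algebraMap A K) :=
      add_mem (add_mem (add_mem (X_pow_mem_lifts _ 3)
        (mul_mem (h34i_C_mem_lifts A ha₂) (X_pow_mem_lifts _ 2)))
        (mul_mem (h34i_C_mem_lifts A hbA) (X_mem_lifts _))) (h34i_C_mem_lifts A hcA)
    have hqσ : ∀ σ ∈ A.inertiaSubgroupIn S, q.map ((σ : K ≃ₐ[S] K) : K →+* K) = q := by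
      intro σ hσ
      have e1 : σ b = b := by
        rw [hb, map_sub, map_mul, hf₄, hf₁, hσy₀ σ hσ]
      have e2 : σ c = c := by
        rw [hc, map_sub, map_sub, map_mul, map_pow, hf₆, hf₃, hσy₀ σ hσ]
      simp only [hq, Polynomial.map_add, Polynomial.map_mul, Polynomial.map_pow, map_X, map_C,
        RingHom.coe_coe, e1, e2, hf₂]
    have hev : ∀ t : K, q.eval t = t ^ 3 + (W'⁄K).a₂ * t ^ 2 + b * t + c := fun t => by
      simp only [hq, eval_add, eval_mul, eval_pow, eval_X, eval_C]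
    have hdev : ∀ t : K, q.derivative.eval t = 3 * t ^ 2 + 2 * (W'⁄K).a₂ * t + b := fun t => by
      simp only [hq, derivative_add, derivative_mul, derivative_X_pow, derivative_C, derivative_X,
        eval_add, eval_mul, eval_pow, eval_X, eval_C, zero_mul, zero_add, mul_one, add_zero,
        Nat.cast_ofNat]
      norm_num
      ring
    have h0 : q.eval x ∈ A.nonunits := by
      have e : q.eval x = (y - y₀) * (y + y₀ + (W'⁄K).a₁ * x + (W'⁄K).a₃) := by
        rw [hev, hb, hc]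
        linear_combination -heq
      rw [e]
      exact K56.nonunits_mul_mem A hym (add_mem (add_mem (add_mem hy hy₀) (mul_mem ha₁ hx)) ha₃)
    have h1 : q.derivative.eval x ∉ A.nonunits := by
      have e : q.derivative.eval x =
          -((W'⁄K).a₁ * y - (3 * x ^ 2 + 2 * (W'⁄K).a₂ * x + (W'⁄K).a₄)) +
            (W'⁄K).a₁ * (y - y₀) := by
        rw [hdev, hb]; ring
      rw [e]
      refine H86.add_not_mem_nonunits A (neg_mem (sub_mem (mul_mem ha₁ hy) (add_mem (add_mem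
        (mul_mem h3A (pow_mem hx 2)) (mul_mem (mul_mem h2A ha₂) hx)) ha₄))) ?_
        (K56.mem_mul_nonunits A ha₁ hym)
      intro hh
      apply hdX
      have := K56.nonunits_neg_mem A hh
      rwa [neg_neg] at this
    obtain ⟨x₀, hx₀, hx₀0, hx₀m, hσx₀⟩ := h34i_hensel_fixed (S := S) A q hqA hqσ x hx h0 h1
    refine key x₀ y₀ hx₀ hy₀ ?_ hσx₀ hσy₀ ?_ hym
    · rw [Affine.equation_iff]
      rw [hev, hb, hc] at hx₀0
      linear_combination -hx₀0
    · have := K56.nonunits_neg_mem A hx₀m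
      rwa [neg_sub] at this
  · -- the `Y`-partial is a unit: lift `x`, solve the quadratic in `Y`
    obtain ⟨x₀, hx₀, hσx₀, hxm⟩ := hres x hx
    set b : K := (W'⁄K).a₁ * x₀ + (W'⁄K).a₃ with hb
    set c : K := -(x₀ ^ 3 + (W'⁄K).a₂ * x₀ ^ 2 + (W'⁄K).a₄ * x₀ + (W'⁄K).a₆) with hc
    have hbA : b ∈ A := add_mem (mul_mem ha₁ hx₀) ha₃
    have hcA : c ∈ A := neg_mem (add_mem (add_mem (add_mem (pow_mem hx₀ 3)
      (mul_mem ha₂ (pow_mem hx₀ 2))) (mul_mem ha₄ hx₀)) ha₆)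
    set q : K[X] := X ^ 2 + C b * X + C c with hq
    have hqA : q ∈ lifts (algebraMap A K) :=
      add_mem (add_mem (X_pow_mem_lifts _ 2)
        (mul_mem (h34i_C_mem_lifts A hbA) (X_mem_lifts _))) (h34i_C_mem_lifts A hcA)
    have hqσ : ∀ σ ∈ A.inertiaSubgroupIn S, q.map ((σ : K ≃ₐ[S] K) : K →+* K) = q := by
      intro σ hσ
      have e1 : σ b = b := by
        rw [hb, map_add, map_mul, hf₁, hf₃, hσx₀ σ hσ]
      have e2 : σ c = c := by
        rw [hc, map_neg, map_add, map_add, map_add, map_mul, map_mul, map_pow, map_pow, hf₂,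
          hf₄, hf₆, hσx₀ σ hσ]
      simp only [hq, Polynomial.map_add, Polynomial.map_mul, Polynomial.map_pow, map_X, map_C,
        RingHom.coe_coe, e1, e2]
    have hev : ∀ t : K, q.eval t = t ^ 2 + b * t + c := fun t => by
      simp only [hq, eval_add, eval_mul, eval_pow, eval_X, eval_C]
    have hdev : ∀ t : K, q.derivative.eval t = 2 * t + b := fun t => by
      simp only [hq, derivative_add, derivative_mul, derivative_X_pow, derivative_C, derivative_X,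
        eval_add, eval_mul, eval_pow, eval_X, eval_C, zero_mul, zero_add, mul_one, add_zero,
        Nat.cast_ofNat]
      norm_num
    have h0 : q.eval y ∈ A.nonunits := by
      have e : q.eval y = (x - x₀) * (x ^ 2 + x * x₀ + x₀ ^ 2 + (W'⁄K).a₂ * (x + x₀) +
          (W'⁄K).a₄ - (W'⁄K).a₁ * y) := by
        rw [hev, hb, hc]
        linear_combination heq
      rw [e]
      exact K56.nonunits_mul_mem A hxm (sub_mem (add_mem (add_mem (add_mem (add_mem
        (pow_mem hx 2) (mul_mem hx hx₀)) (pow_mem hx₀ 2)) (mul_mem ha₂ (add_mem hx hx₀))) ha₄)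
        (mul_mem ha₁ hy))
    have h1 : q.derivative.eval y ∉ A.nonunits := by
      have e : q.derivative.eval y = (2 * y + (W'⁄K).a₁ * x + (W'⁄K).a₃) +
          -((W'⁄K).a₁ * (x - x₀)) := by
        rw [hdev, hb]; ring
      rw [e]
      exact H86.add_not_mem_nonunits A (add_mem (add_mem (mul_mem h2A hy) (mul_mem ha₁ hx)) ha₃)
        hdY (K56.nonunits_neg_mem A (K56.mem_mul_nonunits A ha₁ hxm))
    obtain ⟨y₀, hy₀, hy₀0, hy₀m, hσy₀⟩ := h34i_hensel_fixed (S := S) A q hqA hqσ y hy h0 h1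
    refine key x₀ y₀ hx₀ hy₀ ?_ hσx₀ hσy₀ hxm ?_
    · rw [Affine.equation_iff]
      rw [hev, hb, hc] at hy₀0
      linear_combination hy₀0
    · have := K56.nonunits_neg_mem A hy₀m
      rwa [neg_sub] at this

end Lift

/-! ## The lift at the node -/

section Node

open Polynomial

variable {R : Type*} {S : Type*} {K : Type*} [CommRing R] [Field S] [Field K]
  [DecidableEq K] [Algebra R S] [Algebra R K] [Algebra S K] [IsScalarTower R S K]

/-- **unramified lift at the node**: on the short nodal model `y² = x³ + a₂ x² + a₄ x`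
(`a₂`, `2` units of `A`), a point `P = (x, y)` with `x` and `a₄ / x` nonunits, `x ≠ 0`, whose
`x`-coordinate has the valuation of an inertia-fixed constant `c`, is congruent modulo the
kernel of reduction to an inertia-fixed point. -/
theorem h79t_node_lift_of_val [IsAlgClosed K] (W' : Affine R) (A : ValuationSubring K)
    (h₁ : (W'⁄K).a₁ = 0) (h₃ : (W'⁄K).a₃ = 0) (h₆ : (W'⁄K).a₆ = 0)
    (ha₂ : A.valuation (W'⁄K).a₂ = 1) (h2 : A.valuation (2 : K) = 1)
    (hres : ∀ a ∈ A, ∃ a' ∈ A, (∀ σ ∈ A.inertiaSubgroupIn S, σ a' = a') ∧ a - a' ∈ A.nonunits)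
    {x y : K} (h : (W'⁄K).Nonsingular x y) (hx0 : x ≠ 0) (hxm : x ∈ A.nonunits)
    (hwx : (W'⁄K).a₄ / x ∈ A.nonunits)
    {c : K} (hc : ∀ σ ∈ A.inertiaSubgroupIn S, σ c = c)
    (hcv : A.valuation x = A.valuation c) :
    ∃ c₀ : (W'⁄K).Point, (∀ σ ∈ A.inertiaSubgroupIn S, σ • c₀ = c₀) ∧
      InE1 A ((Affine.Point.some x y h : (W'⁄K).Point) - c₀) := by
  have hf₂ : ∀ σ : K ≃ₐ[S] K, σ (W'⁄K).a₂ = (W'⁄K).a₂ := fun σ => by
    simp only [WeierstrassCurve.baseChange, WeierstrassCurve.map_a₂]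
    exact h34i_algebraMap_fixed σ _
  have hf₄ : ∀ σ : K ≃ₐ[S] K, σ (W'⁄K).a₄ = (W'⁄K).a₄ := fun σ => by
    simp only [WeierstrassCurve.baseChange, WeierstrassCurve.map_a₄]
    exact h34i_algebraMap_fixed σ _
  have h20 : (2 : K) ≠ 0 := by
    intro h0
    rw [h0, map_zero] at h2
    exact zero_ne_one h2
  have ha₂A : (W'⁄K).a₂ ∈ A := (A.valuation_le_one_iff _).mp ha₂.le
  have hxv : A.valuation x < 1 := A.mem_nonunits_iff.mp hxm
  have hxv0 : A.valuation x ≠ 0 := (Valuation.ne_zero_iff _).mpr hx0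
  have hc0 : c ≠ 0 := by
    intro h0
    rw [h0, map_zero] at hcv
    exact hxv0 hcv
  -- the unit part of `x` and its inertia-fixed representative
  have hεv : A.valuation (x / c) = 1 := by
    rw [map_div₀, hcv]
    exact div_self ((Valuation.ne_zero_iff _).mpr hc0)
  have hεA : x / c ∈ A := (A.valuation_le_one_iff _).mp hεv.le
  obtain ⟨ω, hωA, hσω, hεω⟩ := hres (x / c) hεA
  have hωv : A.valuation ω = 1 := by
    have e : ω = x / c + -(x / c - ω) := by ring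
    rw [e, Valuation.map_add_eq_of_lt_left]
    · exact hεv
    · rw [Valuation.map_neg, hεv]
      exact A.mem_nonunits_iff.mp hεω
  have hω0 : ω ≠ 0 := by
    intro h0
    rw [h0, map_zero] at hωv
    exact zero_ne_one hωv
  -- the inertia-fixed abscissa
  set x₀ : K := c * ω with hx₀
  have hx₀0 : x₀ ≠ 0 := mul_ne_zero hc0 hω0
  have hx₀v : A.valuation x₀ = A.valuation x := by
    rw [hx₀, map_mul, hωv, mul_one, hcv]
  have hx₀m : x₀ ∈ A.nonunits := by
    rw [A.mem_nonunits_iff, hx₀v]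
    exact hxv
  have hwx₀ : (W'⁄K).a₄ / x₀ ∈ A.nonunits := by
    rw [A.mem_nonunits_iff, map_div₀, hx₀v, ← map_div₀]
    exact A.mem_nonunits_iff.mp hwx
  have hσx₀ : ∀ σ ∈ A.inertiaSubgroupIn S, σ x₀ = x₀ := fun σ hσ => by
    rw [hx₀, map_mul, hc σ hσ, hσω σ hσ]
  have ht : (x₀ - x) / x ∈ A.nonunits := by
    have e : (x₀ - x) / x = -(x / c - ω) * (x / c)⁻¹ := by
      rw [hx₀]
      field_simp
      ring
    rw [e]
    refine K56.nonunits_mul_mem A (K56.nonunits_neg_mem A hεω) ?_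
    rw [← A.valuation_le_one_iff, map_inv₀, hεv, inv_one]
  -- the slope `s = y / x`
  have heq := (Affine.equation_iff x y).1 h.1
  rw [h₁, h₃, h₆] at heq
  have hs2 : (y / x) ^ 2 = (W'⁄K).a₂ + x + (W'⁄K).a₄ / x := by
    field_simp
    linear_combination heq
  have hb₂ : A.valuation (W'.baseChange K).b₂ = 1 := by
    have e : (W'.baseChange K).b₂ = 2 ^ 2 * (W'⁄K).a₂ := by
      simp only [WeierstrassCurve.b₂, h₁]
      ring
    rw [e, map_mul, map_pow, h2, ha₂, one_pow, one_mul]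
  have hv := h4_valuation_two_s_add A (W'.baseChange K) h₃ h₆ hb₂ h.1 hx0 hxm hwx
  have hsv : A.valuation (y / x) = 1 := by
    rw [h₁, add_zero, map_mul, h2, one_mul] at hv
    exact hv
  have hsA : y / x ∈ A := (A.valuation_le_one_iff _).mp hsv.le
  -- Hensel on the branch
  set d : K := -((W'⁄K).a₂ + x₀ + (W'⁄K).a₄ / x₀) with hd
  have hdA : d ∈ A :=
    neg_mem (add_mem (add_mem ha₂A (K56.mem_of_mem_nonunits A hx₀m))
      (K56.mem_of_mem_nonunits A hwx₀))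
  set q : K[X] := X ^ 2 + C d with hq
  have hqA : q ∈ lifts (algebraMap A K) :=
    add_mem (X_pow_mem_lifts _ 2) (h34i_C_mem_lifts A hdA)
  have hqσ : ∀ σ ∈ A.inertiaSubgroupIn S, q.map ((σ : K ≃ₐ[S] K) : K →+* K) = q := by
    intro σ hσ
    have e1 : σ d = d := by
      rw [hd, map_neg, map_add, map_add, map_div₀, hf₂, hf₄, hσx₀ σ hσ]
    simp only [hq, Polynomial.map_add, Polynomial.map_pow, map_X, map_C, RingHom.coe_coe, e1]
  have hev : ∀ t : K, q.eval t = t ^ 2 + d := fun t => by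
    simp only [hq, eval_add, eval_pow, eval_X, eval_C]
  have hdev : ∀ t : K, q.derivative.eval t = 2 * t := fun t => by
    simp only [hq, derivative_add, derivative_X_pow, derivative_C, eval_mul, eval_pow,
      eval_X, eval_C, add_zero, Nat.cast_ofNat]
    norm_num
  have h0 : q.eval (y / x) ∈ A.nonunits := by
    have e : q.eval (y / x) = (x + -x₀) + ((W'⁄K).a₄ / x + -((W'⁄K).a₄ / x₀)) := by
      rw [hev, hs2, hd]
      ring
    rw [e]
    exact K56.nonunits_add_mem A (K56.nonunits_add_mem A hxm (K56.nonunits_neg_mem A hx₀m))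
      (K56.nonunits_add_mem A hwx (K56.nonunits_neg_mem A hwx₀))
  have h1 : q.derivative.eval (y / x) ∉ A.nonunits := by
    rw [hdev, A.mem_nonunits_iff, map_mul, h2, one_mul, hsv]
    exact lt_irrefl _
  obtain ⟨s₀, hs₀A, hs₀0, hs₀m, hσs₀⟩ :=
    h34i_hensel_fixed (S := S) A q hqA hqσ (y / x) hsA h0 h1
  have hs₀2 : s₀ ^ 2 = (W'⁄K).a₂ + x₀ + (W'⁄K).a₄ / x₀ := by
    rw [hev, hd] at hs₀0
    linear_combination hs₀0
  have hs₀v : A.valuation s₀ = 1 := by
    have e : s₀ = y / x + (s₀ - y / x) := by ring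
    rw [e, Valuation.map_add_eq_of_lt_left]
    · exact hsv
    · rw [hsv]
      exact A.mem_nonunits_iff.mp hs₀m
  have hs₀ne : s₀ ≠ 0 := by
    intro h0'
    rw [h0', map_zero] at hs₀v
    exact zero_ne_one hs₀v
  -- the inertia-fixed point
  have he₀ : (W'⁄K).Equation x₀ (x₀ * s₀) := by
    rw [Affine.equation_iff, h₁, h₃, h₆]
    have e : (x₀ * s₀) ^ 2 = x₀ ^ 2 * s₀ ^ 2 := by ring
    rw [zero_mul, zero_mul, add_zero, add_zero, add_zero, e, hs₀2]
    field_simp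
    ring
  have hn₀ : (W'⁄K).Nonsingular x₀ (x₀ * s₀) := by
    rw [Affine.nonsingular_iff]
    refine ⟨he₀, Or.inr ?_⟩
    rw [h₁, h₃]
    intro hh
    have e2 : 2 * (x₀ * s₀) = 0 := by linear_combination hh
    rcases mul_eq_zero.1 e2 with h' | h'
    · exact h20 h'
    · exact (mul_ne_zero hx₀0 hs₀ne) h'
  refine ⟨Affine.Point.some x₀ (x₀ * s₀) hn₀, fun σ hσ =>
    h34i_smul_some_of_fixed W' σ hn₀ (hσx₀ σ hσ) (by rw [map_mul, hσx₀ σ hσ, hσs₀ σ hσ]), ?_⟩
  have hs : x₀ * s₀ / x₀ - y / x ∈ A.nonunits := by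
    rw [mul_div_cancel_left₀ _ hx₀0]
    exact hs₀m
  exact h79t_inE1_of_alt W' A
    (h4_refined_reduction_nodal A (W'.baseChange K) h₃ h₆ hb₂ h hn₀ hx0 hx₀0 hxm hwx ht hs)

end Node

/-! ## The short nodal model over `ℚ̄` -/

section QbarCase

local notation "Qbar" => AlgebraicClosure ℚ

/-- (IV-cor) holds at every valuation subring: the landed `torsion_node_valuation` has no
hypothesis on the residue characteristic. -/
theorem h79t_IVcor {K : Type*} [Field K] [DecidableEq K] (A : ValuationSubring K) :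
    h4_IVcorStatement A :=
  fun W h3 h6 r₁ r₂ hr₁ hr₂ ha₁ ha₂ hr π u hπ hπ0 hu n hn h4 _ _ h hP hx =>
    H76.torsion_node_valuation A W h3 h6 r₁ r₂ hr₁ hr₂ ha₁ ha₂ hr π u hπ hπ0 hu n hn h4 h hP hx

/-- the discriminant of a short nodal model is nonzero. -/
theorem h79t_Δ_ne_zero {A : ValuationSubring Qbar} {p : ℕ} (hp : p ≠ 0)
    {W : WeierstrassCurve ℚ} (hW : IsShortNodal A p W) : (W⁄Qbar).Δ ≠ 0 := by
  obtain ⟨π₀, u₀, h4, hπ, hπ0, hu⟩ := hW.a₄
  have hu0 : u₀ ≠ 0 := by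
    rintro rfl
    have h1 : A.valuation (algebraMap ℚ Qbar 0) = 1 := hu
    rw [map_zero, map_zero] at h1
    exact zero_ne_one h1
  have ha₄0 : W.a₄ ≠ 0 := by
    rw [h4]
    exact mul_ne_zero hu0 (pow_ne_zero p hπ0)
  have ha₄m : algebraMap ℚ Qbar W.a₄ ∈ A.nonunits := by
    rw [h4, map_mul, map_pow]
    exact mem_mul_nonunit A (hu.mem A) (nonunit_pow A hπ hp)
  have ha₂ : A.valuation (algebraMap ℚ Qbar W.a₂) = 1 := hW.a₂_unit
  have hne : W.a₂ ^ 2 - 4 * W.a₄ ≠ 0 := by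
    intro h0
    have h1 : algebraMap ℚ Qbar W.a₂ ^ 2 = 4 * algebraMap ℚ Qbar W.a₄ := by
      have := congrArg (algebraMap ℚ Qbar) (sub_eq_zero.1 h0)
      simpa using this
    have h2 : A.valuation (algebraMap ℚ Qbar W.a₂ ^ 2) = 1 := by
      rw [map_pow, ha₂, one_pow]
    have h4A : (4 : Qbar) ∈ A := by
      have : (4 : Qbar) = ((4 : ℕ) : Qbar) := by norm_num
      rw [this]
      exact H86.natCast_mem A 4
    have h3 : 4 * algebraMap ℚ Qbar W.a₄ ∈ A.nonunits := K56.mem_mul_nonunits A h4A ha₄m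
    rw [← h1, A.mem_nonunits_iff, h2] at h3
    exact lt_irrefl _ h3
  have hΔ : W.Δ = 16 * W.a₄ ^ 2 * (W.a₂ ^ 2 - 4 * W.a₄) := by
    simp only [WeierstrassCurve.Δ, WeierstrassCurve.b₂, WeierstrassCurve.b₄, WeierstrassCurve.b₆,
      WeierstrassCurve.b₈, hW.a₁, hW.a₃, hW.a₆]
    ring
  have hΔ0 : W.Δ ≠ 0 := by
    rw [hΔ]
    exact mul_ne_zero (mul_ne_zero (by norm_num) (pow_ne_zero 2 ha₄0)) hne
  have e : (W⁄Qbar).Δ = algebraMap ℚ Qbar W.Δ := by
    simp [WeierstrassCurve.baseChange]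
  rw [e]
  exact (map_ne_zero (algebraMap ℚ Qbar)).2 hΔ0

/-- **LM2 NODE-LIFT.**  On a short nodal model at `A` over the odd prime `p`, every point killed
by `p` is congruent modulo the kernel of reduction to an inertia-fixed point. -/
theorem h79t_node_lift {A : ValuationSubring Qbar} {p : ℕ} (hp : p.Prime) (hp2 : p ≠ 2)
    (hA : A.LiesOverPrime p) {W : WeierstrassCurve ℚ} (hW : IsShortNodal A p W)
    (P : (W⁄Qbar).Point) (hP : p • P = 0) :
    ∃ c₀ : (W⁄Qbar).Point, (∀ σ ∈ A.inertiaSubgroupIn ℚ, σ • c₀ = c₀) ∧ InE1 A (P - c₀) := by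
  have h2 : IsUnitOf A (2 : Qbar) := two_isUnitOf hp hA hp2
  have hodd : Odd p := hp.odd_of_ne_two hp2
  obtain ⟨π₀, u₀, h4, hπ, hπ0, hu⟩ := hW.a₄
  have hIV := h4_nodeTorsionValuation_of_IVcor hodd h2 hW (h79t_IVcor A) π₀ u₀ h4 hπ hπ0 hu
  have e₁ : (W⁄Qbar).a₁ = 0 := by simp [WeierstrassCurve.baseChange, hW.a₁]
  have e₂ : (W⁄Qbar).a₂ = algebraMap ℚ Qbar W.a₂ := by simp [WeierstrassCurve.baseChange]
  have e₃ : (W⁄Qbar).a₃ = 0 := by simp [WeierstrassCurve.baseChange, hW.a₃]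
  have e₄ : (W⁄Qbar).a₄ = algebraMap ℚ Qbar W.a₄ := by simp [WeierstrassCurve.baseChange]
  have e₆ : (W⁄Qbar).a₆ = 0 := by simp [WeierstrassCurve.baseChange, hW.a₆]
  have ha₂ : A.valuation (W⁄Qbar).a₂ = 1 := by
    rw [e₂]
    exact hW.a₂_unit
  have ha₄m : (W⁄Qbar).a₄ ∈ A.nonunits := by
    rw [e₄, h4, map_mul, map_pow]
    exact mem_mul_nonunit A (hu.mem A) (nonunit_pow A hπ hp.ne_zero)
  have hA₁ : (W⁄Qbar).a₁ ∈ A := by rw [e₁]; exact A.zero_mem
  have hA₂ : (W⁄Qbar).a₂ ∈ A := (A.valuation_le_one_iff _).mp ha₂.le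
  have hA₃ : (W⁄Qbar).a₃ ∈ A := by rw [e₃]; exact A.zero_mem
  have hA₄ : (W⁄Qbar).a₄ ∈ A := K56.mem_of_mem_nonunits A ha₄m
  have hA₆ : (W⁄Qbar).a₆ ∈ A := by rw [e₆]; exact A.zero_mem
  have hres : ∀ a ∈ A, ∃ a' ∈ A, (∀ σ ∈ A.inertiaSubgroupIn ℚ, σ a' = a') ∧
      a - a' ∈ A.nonunits := fun _ ha =>
    Fermat.Agent.LGC.h57_exists_inertia_fixed Fermat.Agent.LGC.h57_isAlgebraic_int A hp hA ha
  rcases P with _ | ⟨x, y, h⟩
  · refine ⟨0, fun σ _ => h34i_smul_zero W σ, ?_⟩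
    rw [sub_zero]
    exact inE1_zero A
  by_cases hx : x ∈ A
  swap
  · refine ⟨0, fun σ _ => h34i_smul_zero W σ, ?_⟩
    rw [sub_zero]
    exact (inE1_some A h).2 hx
  by_cases hxm : x ∈ A.nonunits
  · -- the node
    obtain ⟨hx0, hwx, j, hj⟩ := hIV x y h hP hxm
    have hc : ∀ σ ∈ A.inertiaSubgroupIn ℚ,
        σ ((algebraMap ℚ Qbar π₀) ^ j) = (algebraMap ℚ Qbar π₀) ^ j := fun σ _ => by
      rw [map_zpow₀, AlgEquiv.commutes]
    have hcv : A.valuation x = A.valuation ((algebraMap ℚ Qbar π₀) ^ j) := by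
      rw [map_zpow₀]
      exact hj
    exact h79t_node_lift_of_val (R := ℚ) (S := ℚ) W A e₁ e₃ e₆ ha₂ h2 hres h hx0 hxm hwx hc hcv
  · -- nonsingular reduction
    have hxu : A.valuation x = 1 :=
      H86.valuation_eq_one_of_mem_of_not_mem_nonunits A hx hxm
    have hy : y ∈ A := H86.y_mem_of_x_mem hA₁ hA₂ hA₃ hA₄ hA₆ h.1 hx
    have hns := h4_partials_of_unit_x A (W.baseChange Qbar) e₁ e₃ e₆ ha₂ ha₄m h2 h.1 hxu hy
    exact h79t_unram_lift_ns (R := ℚ) (S := ℚ) W A hA₁ hA₂ hA₃ hA₄ hA₆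
      (h79t_Δ_ne_zero hp.ne_zero hW) hres h hx hns

/-- **LM2, corollary INERT.**  On a short nodal model at `A` over the odd prime `p`, the
inertia group of `A` acts trivially modulo the kernel of reduction on the points killed by
`p`. -/
theorem h79t_node_inert {A : ValuationSubring Qbar} {p : ℕ} (hp : p.Prime) (hp2 : p ≠ 2)
    (hA : A.LiesOverPrime p) {W : WeierstrassCurve ℚ} (hW : IsShortNodal A p W)
    {σ : Qbar ≃ₐ[ℚ] Qbar} (hσ : σ ∈ A.inertiaSubgroupIn ℚ)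
    (P : (W⁄Qbar).Point) (hP : p • P = 0) : InE1 A (σ • P - P) := by
  obtain ⟨c₀, hc₀, hPc⟩ := h79t_node_lift hp hp2 hA hW P hP
  obtain ⟨π₀, u₀, h4, hπ, hπ0, hu⟩ := hW.a₄
  have e₁ : (W⁄Qbar).a₁ = 0 := by simp [WeierstrassCurve.baseChange, hW.a₁]
  have e₂ : (W⁄Qbar).a₂ = algebraMap ℚ Qbar W.a₂ := by simp [WeierstrassCurve.baseChange]
  have e₃ : (W⁄Qbar).a₃ = 0 := by simp [WeierstrassCurve.baseChange, hW.a₃]
  have e₄ : (W⁄Qbar).a₄ = algebraMap ℚ Qbar W.a₄ := by simp [WeierstrassCurve.baseChange]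
  have e₆ : (W⁄Qbar).a₆ = 0 := by simp [WeierstrassCurve.baseChange, hW.a₆]
  have hA₁ : (W⁄Qbar).a₁ ∈ A := by rw [e₁]; exact A.zero_mem
  have hA₂ : (W⁄Qbar).a₂ ∈ A := by
    rw [e₂]
    exact (A.valuation_le_one_iff _).mp (le_of_eq hW.a₂_unit)
  have hA₃ : (W⁄Qbar).a₃ ∈ A := by rw [e₃]; exact A.zero_mem
  have hA₄ : (W⁄Qbar).a₄ ∈ A := by
    rw [e₄, h4, map_mul, map_pow]
    exact mul_mem (hu.mem A) (pow_mem (K56.mem_of_mem_nonunits A hπ) p)
  have hA₆ : (W⁄Qbar).a₆ ∈ A := by rw [e₆]; exact A.zero_mem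
  have hσD := h34i_inertia_le_decomp A hσ
  have h1 : InE1 A (σ • (P - c₀)) := h34i_inE1_smul W A hσD hPc
  have h2 : σ • P - P = σ • (P - c₀) - (P - c₀) := by
    rw [smul_sub, hc₀ σ hσ]
    abel
  rw [h2]
  exact inE1_sub A hA₁ hA₂ hA₃ hA₄ hA₆ h1 hPc

end QbarCase

end Fermat.Agent.P7
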