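import Fermat.Agent.P7.H19OrthAsm
import Fermat.Agent.P7.H44OrthLift
import Fermat.Agent.P7.H31GoingUp
import Fermat.Agent.P7.H93QInt
import Fermat.Agent.P7.H48Eval
import Fermat.Agent.P7.H56SymFinal
import Fermat.Agent.P7.H66S0Norm
import Fermat.Agent.P7.H96FullDeg
import Fermat.Agent.P7.H38OrthBack
import Fermat.Agent.P7.H98mDeg
import Fermat.Agent.P7.H37GapMS2
import Fermat.Agent.P7.H1S2
import Fermat.Agent.P7.H1IntModel

/-!
# Wave 7 (row 38), DLOG at the level `M`: the LIFT datum, hence ORTH(M) (helper79, prefix `h79g_`)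

`p ≥ 5` prime, `M` ANY level prime to `p`, `M⁺ = goodLevel p M`, `A` a valuation subring of `ℚ̄`
over `p`, `Q` the `q`-order place of `FF M`, `y` a normalised Gauss unit of level `M`
(`ord_q (softR y) = 0`, all orders of the reduction of `degen y` at the level `M⁺` divisible by
`p`).

`h79g_resM p : H19oResM p` (helper19's frozen Prop, residue form of the LIFT datum), assembled
from landed leaves only:

* SYM-LITE (unit form, `h56s_symLiteUnit_final`): the reduction `s` of `degen y` has order `0`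
  at `r c` for every place `c` of `FF M⁺` over `Q`;
* LIFT (`h44o_exact_lift`): an exact lift `g'` of `s` without zero or pole in the residue discs
  of the places over `Q`;
* DISC (`h31d_degen_norm_ord_eq_zero`) + INT (`h93q_int_unit`) + (S2) (`h1i_s2`): the
  `q`-expansion of `g = Nm g'` is a unit of `A[[q]]`;
* S0 (`h66s_fd_norm_unit`, `h66s_fd_norm_red`, `h96h_fullDeg`): `g` is a Gauss unit of level `M`
  and `softR g = (softR y) ^ d`, `d = [FF M⁺ : FF M]` prime to `p` (`h98m_deg_coprime`);
* EVAL (`h48e_eval_along`) + DL2 for a norm (`h38o_res_nonunit`): the characteristic zero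
  residue `a₀(f · dlog g)` is a nonunit of `A`.

Consequences: `h79g_orthNormM p : H19oOrthNormM p`, `h79g_orthM p : H3gOrthM p` (helper3's frozen
leaf ORTH(M)), both unconditional.

Every declaration is a proved theorem; nothing is assumed.
-/

set_option autoImplicit false
set_option linter.unusedSectionVars false
set_option linter.unusedVariables false
set_option linter.style.haveILetI false
set_option linter.style.longLine false
set_option synthInstance.maxHeartbeats 400000
set_option maxHeartbeats 1600000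

open ModularCurve AlgebraicCurve IsLocalRing

noncomputable section

namespace Fermat.Agent.P7

open Fermat.Agent.S37 Fermat.Agent.Red Fermat.Agent.Red.GV Fermat.Agent.Red.GV.Soft
  Fermat.Agent.P5
open Fermat.Agent.Red.CH0 (isIntegral_degen)

/-- the fibre of the restriction of places along a degeneracy map is finite. -/
theorem h79g_fiber_finite {N M : ℕ} [NeZero N] [NeZero M] (h : N ∣ M) (Q : Place Kbar (FF N)) :
    {c : Place Kbar (FF M) | c.restrictAlong (degen h) (isIntegral_degen h) = Q}.Finite := by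
  letI := algebraAlong (degen h)
  haveI := isScalarTower_along (degen h)
  haveI := isIntegral_along (degen h) (isIntegral_degen h)
  haveI := Fermat.Agent.Red.HKMod.hasPrincipalDivisors_FF M
  exact Place.restrict_fiber_finite (K := Kbar) (F := FF N) (F' := FF M) Q

/-- **the LIFT datum, residue form** (helper19's frozen Prop `H19oResM`), unconditional. -/
theorem h79g_resM (p : ℕ) : H19oResM p := by
  intro hp h5 M _ hM A hA Q hQ y hy hg hy0 hyi hgi ho hQ'
  classical
  -- the good level
  have hN : ¬ p ∣ goodLevel p M := not_dvd_goodLevel hp hM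
  have haux : auxLevel p ∣ goodLevel p M := auxLevel_dvd_goodLevel p M
  obtain ⟨r, hr⟩ := h88r_redDiv p hp (goodLevel p M) hN haux A hA
  obtain ⟨cinf, hcinf⟩ := h37n_place_infty (goodLevel p M)
  obtain ⟨Qb, hQb⟩ := h37g_place_infty A (goodLevel p M)
  have hS2 : r cinf = Qb :=
    h1i_s2 p hp (goodLevel p M) hN haux A hA r hr Qb (fun f hf => (hQb f hf).symm) cinf
      (fun f hf => (hcinf f hf).symm)
  have hcQ : cinf.restrictAlong (degen (dvd_goodLevel p M))
      (isIntegral_degen (dvd_goodLevel p M)) = Q :=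
    h37k_restrict_infty (dvd_goodLevel p M) Q cinf hQ hcinf
  -- memberships
  have hyG : y ∈ gaussV A M := by
    rw [← softV_eq_gaussV A M hp hM hA]
    exact hy
  have hgi' : degen (dvd_goodLevel p M) y⁻¹ ∈ gaussV A (goodLevel p M) := by
    rw [map_inv₀]
    exact hgi
  -- the reduction `s` of `degen y`
  set s : h13sFt A (goodLevel p M) :=
    h13sRed A (goodLevel p M) ⟨degen (dvd_goodLevel p M) y, hg⟩ with hs
  have hincl : h13sIncl A (goodLevel p M) s = softR A M ⟨y, hy⟩ := by
    rw [hs, h13sIncl_red, h37l_gaussR_degen M A (dvd_goodLevel p M) y hyG hg,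
      softR_eq_gaussR A M y hy hyG]
  have hs₀ : softR A M ⟨y, hy⟩ ≠ 0 := (softR_ne_zero_iff A M ⟨y, hy⟩).mpr ⟨hy0, hyi⟩
  have hs0 : s ≠ 0 := by
    intro h0
    apply hs₀
    rw [← hincl, h0]
    exact map_zero _
  -- the finite set of the reductions of the places over `Q`
  have hfin := h79g_fiber_finite (dvd_goodLevel p M) Q
  set S : Finset (Place (h13sK A) (h13sFt A (goodLevel p M))) := hfin.toFinset.image r
    with hSdef
  have hmemS : ∀ c : Place Kbar (FF (goodLevel p M)),
      c.restrictAlong (degen (dvd_goodLevel p M)) (isIntegral_degen (dvd_goodLevel p M)) = Q →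
        r c ∈ S := by
    intro c hc
    rw [hSdef, Finset.mem_image]
    exact ⟨c, hfin.mem_toFinset.mpr hc, rfl⟩
  -- SYM-LITE
  have hSord : ∀ Q₁ ∈ S, Q₁.ord s = 0 := by
    intro Q₁ hQ₁
    rw [hSdef, Finset.mem_image] at hQ₁
    obtain ⟨c, hc, rfl⟩ := hQ₁
    have hc' := hfin.mem_toFinset.mp hc
    exact h56s_symLiteUnit_final p hp M hM A hA r hr Q (fun f hf => (hQ f hf).symm) c hc'
      y hy hyi hg hgi' ho
  -- LIFT
  obtain ⟨g', hg'V, hg'i, hred, hoff⟩ :=
    h44o_exact_lift hp hN haux hA r hr s hs0 S hSord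
  have hg'S : g' ∈ softV A (goodLevel p M) := by
    rw [softV_eq_gaussV A (goodLevel p M) hp hN hA]
    exact hg'V
  have hg'iS : g'⁻¹ ∈ softV A (goodLevel p M) := by
    rw [softV_eq_gaussV A (goodLevel p M) hp hN hA]
    exact hg'i
  -- S0: the norm
  have hxy : softR A (goodLevel p M) ⟨g', hg'S⟩ = softR A M ⟨y, hy⟩ := by
    rw [softR_eq_gaussR A (goodLevel p M) g' hg'S hg'V, ← h13sIncl_red, hred, hincl]
  have hg'0 : g' ≠ 0 := by
    have h1 : softR A (goodLevel p M) ⟨g', hg'S⟩ ≠ 0 := by
      rw [hxy]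
      exact hs₀
    exact ((softR_ne_zero_iff A (goodLevel p M) ⟨g', hg'S⟩).mp h1).1
  obtain ⟨hn, hnred⟩ := h66s_fd_norm_red h96h_fullDeg hp M hM A hA g' hg'S ⟨y, hy⟩ hxy
  obtain ⟨-, hni⟩ := h66s_fd_norm_unit h96h_fullDeg hp M hM A hA g' hg'S hg'iS
  set g : FF M := Fermat.Agent.Red.KR.normAlong (degen (dvd_goodLevel p M)) g' with hgdef
  have hg0 : g ≠ 0 := by
    have h1 : softR A M ⟨g, hn⟩ ≠ 0 := by
      rw [hnred]
      exact pow_ne_zero _ hs₀
    exact ((softR_ne_zero_iff A M ⟨g, hn⟩).mp h1).1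
  have hgG : g ∈ gaussV A M := by
    rw [← softV_eq_gaussV A M hp hM hA]
    exact hn
  have hgiG : g⁻¹ ∈ gaussV A M := by
    rw [← softV_eq_gaussV A M hp hM hA]
    exact hni
  -- DISC + INT: the `q`-expansion of `g` is a unit of `A[[q]]`
  have hdg0 : degen (dvd_goodLevel p M) g ≠ 0 :=
    fun h0 => hg0 ((map_eq_zero_iff _ (degen (dvd_goodLevel p M)).toRingHom.injective).mp h0)
  have hdgV : degen (dvd_goodLevel p M) g ∈ gaussV A (goodLevel p M) :=
    (h37l_degen_mem_gaussV M A hp hM hN hA (dvd_goodLevel p M) g).mpr hgG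
  have hdgi : (degen (dvd_goodLevel p M) g)⁻¹ ∈ gaussV A (goodLevel p M) := by
    rw [← map_inv₀]
    exact (h37l_degen_mem_gaussV M A hp hM hN hA (dvd_goodLevel p M) g⁻¹).mpr hgiG
  have hoff' : ∀ c v : Place Kbar (FF (goodLevel p M)),
      c.restrictAlong (degen (dvd_goodLevel p M)) (isIntegral_degen (dvd_goodLevel p M)) =
        cinf.restrictAlong (degen (dvd_goodLevel p M))
          (isIntegral_degen (dvd_goodLevel p M)) → r v = r c → v.ord g' = 0 := by
    intro c v hc hv
    by_contra hne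
    apply hoff v hne
    rw [hv]
    exact hmemS c (hc.trans hcQ)
  have hord : ∀ v : Place Kbar (FF (goodLevel p M)), r v = r cinf →
      v.ord (degen (dvd_goodLevel p M) g) = 0 := fun v hv =>
    h31d_degen_norm_ord_eq_zero (dvd_goodLevel p M) hr g' hg'0 cinf hoff' v hv
  obtain ⟨Y, hY, hYneg, hYunit⟩ :=
    h93q_int_unit hp hN hA r hr cinf (fun f hf => (hcinf f hf).symm)
      (fun f hf => by rw [hS2]; exact (hQb f hf).symm)
      (degen (dvd_goodLevel p M) g) hdg0 hdgV hdgi hord
  have hY' : embA A Y = ((g : FF M) : LaurentSeries Kbar) := by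
    rw [hY, coe_degen]
  obtain ⟨c, hbc⟩ := h46d_exists_inv Y hYneg hYunit
  -- the degree is prime to `p`
  haveI : CharP (ResidueField A) p := h3g_charP A hp hA
  have hd0 : ((finrankAlong Kbar (degen (dvd_goodLevel p M)) : ℕ) : ResidueField A) ≠ 0 := by
    rw [Ne, CharP.cast_eq_zero_iff (ResidueField A) p]
    intro hdvd
    have hcop := h98m_deg_coprime hp h5 M
    have h1 : p ∣ Nat.gcd (finrankAlong Kbar (degen (dvd_goodLevel p M))) p :=
      Nat.dvd_gcd hdvd dvd_rfl
    rw [hcop] at h1
    exact hp.one_lt.ne' (Nat.dvd_one.mp h1)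
  -- the reduction of the `q`-expansion of `g`
  have hredY : redA (IsLocalRing.residue A) Y =
      HahnSeries.C (1 : ResidueField A) *
        softR A M ⟨y, hy⟩ ^ finrankAlong Kbar (degen (dvd_goodLevel p M)) := by
    rw [← softR_of_embA A M ⟨g, hn⟩ Y hY', hnred, map_one, one_mul]
  refine ⟨g, Y, c, 1, finrankAlong Kbar (degen (dvd_goodLevel p M)), hg0, one_ne_zero, hd0,
    hY', hbc, hredY, fun f hfV hreg => ?_⟩
  -- the values of `f`
  have hex : ∀ v : Place Kbar (FF M), ∃ a : Kbar, v ≠ Q → ValueAt v f a := by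
    intro v
    by_cases hv : v = Q
    · exact ⟨0, fun h => absurd hv h⟩
    · obtain ⟨a, ha⟩ := GalI.exists_valueAt v
        (Fermat.Agent.S24.DiffPlace.mem_of_ord_nonneg v (hreg v hv))
      exact ⟨a, fun _ => ha⟩
  choose fv hfv using hex
  -- the support of the divisor of `g'`
  haveI := Fermat.Agent.Red.HKMod.hasPrincipalDivisors_FF (goodLevel p M)
  obtain ⟨D, hD, -⟩ := HasPrincipalDivisors.exists_divisor (K := Kbar) g' hg'0
  have hS1 : ∀ w ∈ D.support,
      w.restrictAlong (degen (dvd_goodLevel p M)) (isIntegral_degen (dvd_goodLevel p M)) ≠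
        Q := by
    intro w hw hwQ
    have hw0 : w.ord g' ≠ 0 := by
      rw [← hD w]
      exact Finsupp.mem_support_iff.mp hw
    exact hoff w hw0 (hmemS w hwQ)
  have hS2' : ∀ w : Place Kbar (FF (goodLevel p M)),
      w.restrictAlong (degen (dvd_goodLevel p M)) (isIntegral_degen (dvd_goodLevel p M)) ≠
        Q → w.ord g' ≠ 0 → w ∈ D.support := by
    intro w _ hw0
    rw [Finsupp.mem_support_iff, hD w]
    exact hw0
  -- EVAL
  have hF : degen (dvd_goodLevel p M) f ∈ gaussV A (goodLevel p M) :=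
    (h37l_degen_mem_gaussV M A hp hM hN hA (dvd_goodLevel p M) f).mpr hfV
  have hdiv : ∀ Q₁ : Place (h13sK A) (h13sFt A (goodLevel p M)),
      (p : ℤ) ∣ Q₁.ord (h13sRed A (goodLevel p M) ⟨g', hg'V⟩) := by
    intro Q₁
    rw [hred]
    exact hQ' Q₁
  have hoff'' : ∀ w c : Place Kbar (FF (goodLevel p M)), w.ord g' ≠ 0 →
      c.restrictAlong (degen (dvd_goodLevel p M)) (isIntegral_degen (dvd_goodLevel p M)) =
        Q → r c ≠ r w := by
    intro w c hw hc e
    apply hoff w hw
    rw [← e]
    exact hmemS c hc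
  have hsum := h48e_eval_along A hp hN hA r hr (degen (dvd_goodLevel p M))
    (isIntegral_degen (dvd_goodLevel p M)) Q f hreg fv (fun v hv => hfv v hv) hF g' hg'0 hg'V
    hg'i hdiv hoff'' D.support hS2'
  exact h38o_res_nonunit A (dvd_goodLevel p M) Q hQ f hreg fv (fun v hv => hfv v hv) g' hg'0
    D.support hS1 hS2' hsum

/-- **normalised ORTH(M)**, unconditional. -/
theorem h79g_orthNormM (p : ℕ) : H19oOrthNormM p :=
  h19o_orthNorm_of_res h1i_int (h79g_resM p)

/-- **ORTH(M)** (helper3's frozen leaf), unconditional. -/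
theorem h79g_orthM (p : ℕ) : H3gOrthM p :=
  h19o_orthM_of_res h1i_int (h79g_resM p)

end Fermat.Agent.P7
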