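import Mathlib

/-!
# Wave 7, DLOG leaf DL5 (CUSP-ORTH), part (a): the level one core (helper7, prefix `h7co_`)

Mathlib only.

* `h7co_exists_primitive` : a holomorphic function on the upper half plane has a primitive
  (nested discs `ball ((n+1) i) (n+1)` and Morera on discs).
* `h7co_levelOne_period` : if `G` is holomorphic on the upper half plane and
  `G (-1/z) = z ^ 2 * G z`, `G (-1/(z+1)) = (z+1) ^ 2 * G z`, then
  `∫ t in 0..1, G (τ + t) = 0` for every `τ` in the upper half plane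
  (the primitive `Φ` satisfies `Φ (-1/z) = Φ z` and `Φ (-1/(z+1)) = Φ z` because the two maps
  have the fixed points `i` and `ρ`; hence `Φ (z + 1) = Φ z`).
-/

set_option autoImplicit false

namespace Fermat.Agent.P7

open Complex Metric Set

/-- centre of the `n`-th disc. -/
noncomputable def h7coC (n : ℕ) : ℂ := (((n : ℝ) + 1 : ℝ) : ℂ) * I

/-- the `n`-th disc. -/
def h7coD (n : ℕ) : Set ℂ := ball (h7coC n) ((n : ℝ) + 1)

theorem h7co_C_re (n : ℕ) : (h7coC n).re = 0 := by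
  simp [h7coC]

theorem h7co_C_im (n : ℕ) : (h7coC n).im = (n : ℝ) + 1 := by
  simp [h7coC]

theorem h7co_D_sub (n : ℕ) : h7coD n ⊆ {z : ℂ | 0 < z.im} := by
  intro z hz
  have h1 : dist z (h7coC n) < (n : ℝ) + 1 := hz
  rw [Complex.dist_eq] at h1
  have h2 := Complex.abs_im_le_norm (z - h7coC n)
  rw [Complex.sub_im, h7co_C_im] at h2
  have h3 := (abs_lt.mp (lt_of_le_of_lt h2 h1)).1
  show 0 < z.im
  linarith

theorem h7co_D_mono {m n : ℕ} (h : m ≤ n) : h7coD m ⊆ h7coD n := by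
  apply Metric.ball_subset_ball'
  have h1 : dist (h7coC m) (h7coC n) = (n : ℝ) - m := by
    rw [Complex.dist_eq, h7coC, h7coC, ← sub_mul, norm_mul, Complex.norm_I, mul_one,
      ← Complex.ofReal_sub, Complex.norm_real, Real.norm_eq_abs]
    have h2 : ((m : ℝ) + 1 - ((n : ℝ) + 1)) = -((n : ℝ) - m) := by ring
    rw [h2, abs_neg, abs_of_nonneg]
    have : (m : ℝ) ≤ n := by exact_mod_cast h
    linarith
  rw [h1]
  linarith

theorem h7co_I_mem (n : ℕ) : I ∈ h7coD n := by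
  show dist I (h7coC n) < (n : ℝ) + 1
  rw [Complex.dist_eq]
  have h1 : I - h7coC n = ((-(n : ℝ) : ℝ) : ℂ) * I := by
    rw [h7coC]
    push_cast
    ring
  rw [h1, norm_mul, Complex.norm_I, mul_one, Complex.norm_real, Real.norm_eq_abs, abs_neg,
    abs_of_nonneg (Nat.cast_nonneg n)]
  linarith

theorem h7co_exists_D {z : ℂ} (hz : 0 < z.im) : ∃ n : ℕ, z ∈ h7coD n := by
  obtain ⟨n, hn⟩ := exists_nat_gt ((z.re ^ 2 + z.im ^ 2) / (2 * z.im))
  refine ⟨n, ?_⟩
  show dist z (h7coC n) < (n : ℝ) + 1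
  have hr : (0 : ℝ) < (n : ℝ) + 1 := by positivity
  rw [Complex.dist_eq_re_im, h7co_C_re, h7co_C_im, Real.sqrt_lt' hr]
  have h2 : z.re ^ 2 + z.im ^ 2 < (n : ℝ) * (2 * z.im) := by
    rwa [div_lt_iff₀ (by positivity)] at hn
  nlinarith

theorem h7co_isOpen_D (n : ℕ) : IsOpen (h7coD n) := isOpen_ball

theorem h7co_isPreconnected_D (n : ℕ) : IsPreconnected (h7coD n) :=
  (convex_ball _ _).isPreconnected

/-- **primitive on the upper half plane.** -/
theorem h7co_exists_primitive {G : ℂ → ℂ} (hG : DifferentiableOn ℂ G {z : ℂ | 0 < z.im}) :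
    ∃ Φ : ℂ → ℂ, ∀ z : ℂ, 0 < z.im → HasDerivAt Φ (G z) z := by
  classical
  have h1 : ∀ n : ℕ, ∃ g : ℂ → ℂ, g I = 0 ∧ ∀ x ∈ h7coD n, HasDerivAt g (G x) x := fun n =>
    ((hG.mono (h7co_D_sub n)).isExactOn_ball).with_val_at I 0
  choose g hg0 hg using h1
  -- compatibility
  have hcompat : ∀ m n : ℕ, m ≤ n → ∀ z ∈ h7coD m, g m z = g n z := by
    intro m n hmn z hz
    have hd : ∀ x ∈ h7coD m, HasDerivAt (fun x => g n x - g m x) 0 x := by
      intro x hx
      have := (hg n x (h7co_D_mono hmn hx)).sub (hg m x hx)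
      rwa [sub_self] at this
    have hdiff : DifferentiableOn ℂ (fun x => g n x - g m x) (h7coD m) := fun x hx =>
      (hd x hx).differentiableAt.differentiableWithinAt
    have hconst := (h7co_isOpen_D m).is_const_of_deriv_eq_zero (h7co_isPreconnected_D m) hdiff
      (fun x hx => (hd x hx).deriv) hz (h7co_I_mem m)
    simp only [hg0, sub_self] at hconst
    exact (sub_eq_zero.mp hconst).symm
  refine ⟨fun z => if h : ∃ n, z ∈ h7coD n then g (Nat.find h) z else 0, fun z₀ hz₀ => ?_⟩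
  have h₀ : ∃ n, z₀ ∈ h7coD n := h7co_exists_D hz₀
  have hmem : z₀ ∈ h7coD (Nat.find h₀) := Nat.find_spec h₀
  refine (hg (Nat.find h₀) z₀ hmem).congr_of_eventuallyEq ?_
  filter_upwards [(h7co_isOpen_D (Nat.find h₀)).mem_nhds hmem] with w hw
  have hw' : ∃ n, w ∈ h7coD n := ⟨_, hw⟩
  rw [dif_pos hw']
  exact hcompat _ _ (Nat.find_min' hw' hw) w (Nat.find_spec hw')

theorem h7co_isOpen_H : IsOpen {z : ℂ | 0 < z.im} :=
  isOpen_lt continuous_const Complex.continuous_im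

theorem h7co_isPreconnected_H : IsPreconnected {z : ℂ | 0 < z.im} :=
  (convex_halfSpace_im_gt 0).isPreconnected

theorem h7co_neg_inv_im {z : ℂ} (hz : 0 < z.im) : 0 < (-z⁻¹).im := by
  rw [Complex.neg_im, Complex.inv_im, neg_div, neg_neg]
  have hz0 : z ≠ 0 := fun h => by simp [h] at hz
  exact div_pos hz (Complex.normSq_pos.mpr hz0)

theorem h7co_ne_zero {z : ℂ} (hz : 0 < z.im) : z ≠ 0 := fun h => by simp [h] at hz

/-- the fixed point `ρ` of `z ↦ -1/(z+1)`. -/
noncomputable def h7coRho : ℂ := ⟨-1 / 2, Real.sqrt 3 / 2⟩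

theorem h7co_rho_im : 0 < h7coRho.im := by
  show 0 < Real.sqrt 3 / 2
  positivity

theorem h7co_rho_eq : h7coRho * (h7coRho + 1) = -1 := by
  have h3 : Real.sqrt 3 * Real.sqrt 3 = 3 := Real.mul_self_sqrt (by norm_num)
  apply Complex.ext
  · simp only [h7coRho, Complex.mul_re, Complex.add_re, Complex.add_im, Complex.one_re,
      Complex.one_im, Complex.neg_re]
    nlinarith
  · simp only [h7coRho, Complex.mul_im, Complex.add_re, Complex.add_im, Complex.one_re,
      Complex.one_im, Complex.neg_im]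
    ring

theorem h7co_rho_fix : -(h7coRho + 1)⁻¹ = h7coRho := by
  have h1 : h7coRho + 1 ≠ 0 := by
    intro h
    have := h7co_rho_eq
    rw [h, mul_zero] at this
    norm_num at this
  have h2 := h7co_rho_eq
  field_simp
  linear_combination -h2

/-- **the level one core.** -/
theorem h7co_levelOne_period {G : ℂ → ℂ} (hG : DifferentiableOn ℂ G {z : ℂ | 0 < z.im})
    (hS : ∀ z : ℂ, 0 < z.im → G (-z⁻¹) = z ^ 2 * G z)
    (hST : ∀ z : ℂ, 0 < z.im → G (-(z + 1)⁻¹) = (z + 1) ^ 2 * G z)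
    (τ : ℂ) (hτ : 0 < τ.im) :
    ∫ t in (0 : ℝ)..1, G (τ + t) = 0 := by
  obtain ⟨Φ, hΦ⟩ := h7co_exists_primitive hG
  -- invariance under `S`
  have hΦS : ∀ z : ℂ, 0 < z.im → Φ (-z⁻¹) = Φ z := by
    have hd : ∀ z ∈ {z : ℂ | 0 < z.im}, HasDerivAt (fun z => Φ (-z⁻¹) - Φ z) 0 z := by
      intro z hz
      have hz0 : z ≠ 0 := h7co_ne_zero hz
      have h1 : HasDerivAt (fun z : ℂ => -z⁻¹) (-(-(z ^ 2)⁻¹)) z := (hasDerivAt_inv hz0).neg
      have h2 : HasDerivAt (fun z : ℂ => Φ (-z⁻¹)) (G (-z⁻¹) * (-(-(z ^ 2)⁻¹))) z :=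
        (hΦ (-z⁻¹) (h7co_neg_inv_im hz)).comp z h1
      have h3 := h2.sub (hΦ z hz)
      have e : G (-z⁻¹) * (-(-(z ^ 2)⁻¹)) - G z = 0 := by
        rw [hS z hz]
        field_simp
        ring
      rwa [e] at h3
    have hdiff : DifferentiableOn ℂ (fun z => Φ (-z⁻¹) - Φ z) {z : ℂ | 0 < z.im} := fun x hx =>
      (hd x hx).differentiableAt.differentiableWithinAt
    intro z hz
    have hI : (I : ℂ) ∈ {z : ℂ | 0 < z.im} := by simp
    have hconst := h7co_isOpen_H.is_const_of_deriv_eq_zero h7co_isPreconnected_H hdiff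
      (fun x hx => (hd x hx).deriv) hz hI
    have hII : -(I : ℂ)⁻¹ = I := by simp
    simp only [hII, sub_self] at hconst
    exact sub_eq_zero.mp hconst
  -- invariance under `S T`
  have hΦST : ∀ z : ℂ, 0 < z.im → Φ (-(z + 1)⁻¹) = Φ z := by
    have him : ∀ z : ℂ, 0 < z.im → 0 < (z + 1).im := fun z hz => by simpa using hz
    have hd : ∀ z ∈ {z : ℂ | 0 < z.im}, HasDerivAt (fun z => Φ (-(z + 1)⁻¹) - Φ z) 0 z := by
      intro z hz
      have hz1 : 0 < (z + 1).im := him z hz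
      have hz0 : z + 1 ≠ 0 := h7co_ne_zero hz1
      have h0 : HasDerivAt (fun z : ℂ => z + 1) 1 z := (hasDerivAt_id z).add_const 1
      have h1 : HasDerivAt (fun w : ℂ => -w⁻¹) (-(-((z + 1) ^ 2)⁻¹)) (z + 1) :=
        (hasDerivAt_inv hz0).neg
      have h1' : HasDerivAt (fun z : ℂ => -(z + 1)⁻¹) (-(-((z + 1) ^ 2)⁻¹) * 1) z := by
        have := HasDerivAt.comp (h₂ := fun w : ℂ => -w⁻¹) (h := fun z : ℂ => z + 1) z h1 h0
        exact this
      have h2 : HasDerivAt (fun z : ℂ => Φ (-(z + 1)⁻¹))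
          (G (-(z + 1)⁻¹) * (-(-((z + 1) ^ 2)⁻¹) * 1)) z :=
        (hΦ (-(z + 1)⁻¹) (h7co_neg_inv_im hz1)).comp z h1'
      have h3 := h2.sub (hΦ z hz)
      have e : G (-(z + 1)⁻¹) * (-(-((z + 1) ^ 2)⁻¹) * 1) - G z = 0 := by
        rw [hST z hz]
        field_simp
        ring
      rwa [e] at h3
    have hdiff : DifferentiableOn ℂ (fun z => Φ (-(z + 1)⁻¹) - Φ z) {z : ℂ | 0 < z.im} :=
      fun x hx => (hd x hx).differentiableAt.differentiableWithinAt
    intro z hz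
    have hρ : h7coRho ∈ {z : ℂ | 0 < z.im} := h7co_rho_im
    have hconst := h7co_isOpen_H.is_const_of_deriv_eq_zero h7co_isPreconnected_H hdiff
      (fun x hx => (hd x hx).deriv) hz hρ
    simp only [h7co_rho_fix, sub_self] at hconst
    exact sub_eq_zero.mp hconst
  -- invariance under `T`
  have hΦT : ∀ z : ℂ, 0 < z.im → Φ (z + 1) = Φ z := by
    intro z hz
    have hz1 : 0 < (z + 1).im := by simpa using hz
    have hw : 0 < (-(z + 1)⁻¹).im := h7co_neg_inv_im hz1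
    have h1 := hΦS _ hw
    have e : -(-(z + 1)⁻¹)⁻¹ = z + 1 := by
      rw [inv_neg, neg_neg, inv_inv]
    rw [e] at h1
    rw [h1, hΦST z hz]
  -- fundamental theorem of calculus
  have him : ∀ t : ℝ, 0 < (τ + (t : ℂ)).im := fun t => by simpa using hτ
  have hderiv : ∀ t ∈ uIcc (0 : ℝ) 1, HasDerivAt (fun t : ℝ => Φ (τ + (t : ℂ)))
      (G (τ + (t : ℂ))) t := by
    intro t _
    have h1 : HasDerivAt (fun w : ℂ => Φ (τ + w)) (G (τ + (t : ℂ))) (t : ℂ) :=
      (hΦ (τ + (t : ℂ)) (him t)).comp_const_add τ (t : ℂ)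
    exact h1.comp_ofReal
  have hcont : Continuous (fun t : ℝ => G (τ + (t : ℂ))) := by
    have h1 : ContinuousOn G {z : ℂ | 0 < z.im} := hG.continuousOn
    have h2 : Continuous (fun t : ℝ => τ + (t : ℂ)) := by fun_prop
    exact h1.comp_continuous h2 him
  rw [intervalIntegral.integral_eq_sub_of_hasDerivAt hderiv (hcont.intervalIntegrable _ _)]
  have := hΦT τ hτ
  simp only [Complex.ofReal_one, Complex.ofReal_zero, add_zero]
  rw [this, sub_self]

end Fermat.Agent.P7
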