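import Fermat.Agent.P7.H7CuspOrthTr

/-!
# Wave 7, DLOG leaf DL5 (CUSP-ORTH), part (d): the constant term (helper7, prefix `h7co_`)

Mathlib only.

`h7co_core` : `h` a weight two cusp form on `Γ₀(N)`, `A : ℍ → ℂ` holomorphic, `Γ₀(N)`-invariant,
with a Laurent expansion `A τ * q ^ M = ∑ pₙ qⁿ` (`q = exp (2πiτ)`), and `A ∘ g` bounded at `i∞`
for every `g ∈ SL(2, ℤ)` outside `Γ₀(N)`.  Then the coefficient of `q ^ M` in
`p * qExpansion 1 h` (= the constant term of `A h`) vanishes.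
-/

set_option autoImplicit false

open UpperHalfPlane ModularForm CongruenceSubgroup Matrix.SpecialLinearGroup Filter Topology
open Function
open scoped MatrixGroups Manifold

noncomputable section

namespace Fermat.Agent.P7

/-- every `SL(2, ℤ)`-translate of a cusp form is zero at `i∞`. -/
theorem h7co_cusp_slash_zero (N : ℕ) [NeZero N] (h : CuspForm ((Gamma0 N).map (mapGL ℝ)) 2)
    (g : SL(2, ℤ)) : IsZeroAtImInfty ((h : ℍ → ℂ) ∣[(2 : ℤ)] g) := by
  have hc : IsCusp (mapGL ℝ g • (OnePoint.infty : OnePoint ℝ)) ((Gamma0 N).map (mapGL ℝ)) := by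
    rw [Subgroup.IsArithmetic.isCusp_iff_isCusp_SL2Z, isCusp_SL2Z_iff']
    exact ⟨g, rfl⟩
  exact (OnePoint.isZeroAt_iff rfl).mp (h.zero_at_cusps' hc)

theorem h7co_slash_mul (A B : ℍ → ℂ) (g : SL(2, ℤ)) (τ : ℍ) :
    ((fun τ => A τ * B τ) ∣[(2 : ℤ)] g) τ = A (g • τ) * (B ∣[(2 : ℤ)] g) τ := by
  rw [SL_slash_apply, SL_slash_apply, mul_assoc]

/-- the product `A * h` as a slash invariant form of weight two. -/
def h7coProd (N : ℕ) (h : CuspForm ((Gamma0 N).map (mapGL ℝ)) 2) (A : ℍ → ℂ)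
    (hinv : ∀ γ ∈ Gamma0 N, ∀ τ : ℍ, A (γ • τ) = A τ) :
    SlashInvariantForm ((Gamma0 N).map (mapGL ℝ)) 2 where
  toFun := fun τ => A τ * h τ
  slash_action_eq' := by
    rintro γ ⟨g, hg, rfl⟩
    funext τ
    have h1 : ((h : ℍ → ℂ) ∣[(2 : ℤ)] g) τ = h τ :=
      congrFun (SlashInvariantFormClass.slash_action_eq h (mapGL ℝ g)
        (Subgroup.mem_map_of_mem _ hg)) τ
    have h2 := h7co_slash_mul A h g τ
    rw [h1, hinv g hg τ] at h2
    exact h2

@[simp]
theorem h7coProd_apply (N : ℕ) (h : CuspForm ((Gamma0 N).map (mapGL ℝ)) 2) (A : ℍ → ℂ)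
    (hinv : ∀ γ ∈ Gamma0 N, ∀ τ : ℍ, A (γ • τ) = A τ) (τ : ℍ) :
    h7coProd N h A hinv τ = A τ * h τ := rfl

theorem h7co_qParam_mdiff (M : ℕ) :
    MDiff (fun τ : ℍ => Function.Periodic.qParam 1 (τ : ℂ) ^ M) := by
  rw [UpperHalfPlane.mdifferentiable_iff]
  have h1 : DifferentiableOn ℂ (fun z : ℂ => Function.Periodic.qParam 1 z ^ M)
      {z : ℂ | 0 < z.im} := by
    apply Differentiable.differentiableOn
    unfold Function.Periodic.qParam
    fun_prop
  refine h1.congr fun z hz => ?_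
  simp only [Function.comp_apply, ofComplex_apply_of_im_pos hz]

theorem h7co_periodic_of_hasSum {B : ℍ → ℂ} {c : ℕ → ℂ}
    (hB : ∀ τ : ℍ, HasSum (fun n : ℕ => c n * Function.Periodic.qParam 1 (τ : ℂ) ^ n) (B τ)) :
    Periodic (B ∘ ofComplex) (1 : ℝ) := by
  intro w
  by_cases hw : 0 < w.im
  · have hw1 : 0 < (w + ((1 : ℝ) : ℂ)).im := by simpa using hw
    simp only [comp_apply, ofComplex_apply_of_im_pos hw1, ofComplex_apply_of_im_pos hw]
    have h1 := hB ⟨w + ((1 : ℝ) : ℂ), hw1⟩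
    have h2 := hB ⟨w, hw⟩
    have e : Function.Periodic.qParam 1 (w + ((1 : ℝ) : ℂ)) = Function.Periodic.qParam 1 w := by
      unfold Function.Periodic.qParam
      have e1 : 2 * (Real.pi : ℂ) * Complex.I * (w + ((1 : ℝ) : ℂ)) / ((1 : ℝ) : ℂ) =
          2 * (Real.pi : ℂ) * Complex.I * w / ((1 : ℝ) : ℂ) + 2 * (Real.pi : ℂ) * Complex.I := by
        push_cast
        ring
      rw [e1, Complex.exp_add, Complex.exp_two_pi_mul_I, mul_one]
    change HasSum (fun n : ℕ => c n * Function.Periodic.qParam 1 (w + ((1 : ℝ) : ℂ)) ^ n) _ at h1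
    change HasSum (fun n : ℕ => c n * Function.Periodic.qParam 1 w ^ n) _ at h2
    rw [e] at h1
    exact h1.unique h2
  · have hw' : w.im ≤ 0 := not_lt.mp hw
    have hw1 : (w + ((1 : ℝ) : ℂ)).im ≤ 0 := by simpa using hw'
    simp only [comp_apply, ofComplex_apply_eq_of_im_nonpos hw1 hw']

theorem h7co_isZero_of_bdd_mul {a b : ℍ → ℂ} (ha : IsBoundedAtImInfty a)
    (hb : IsZeroAtImInfty b) : IsZeroAtImInfty (fun τ => a τ * b τ) := by
  have h1 : a =O[atImInfty] (fun _ => (1 : ℂ)) := by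
    have := ha
    unfold IsBoundedAtImInfty Filter.BoundedAtFilter at this
    exact this.trans (Asymptotics.isBigO_of_le _ fun x => by simp)
  have h2 : b =o[atImInfty] (fun _ => (1 : ℂ)) := (Asymptotics.isLittleO_one_iff ℂ).mpr hb
  have h3 := h1.mul_isLittleO h2
  simp only [mul_one] at h3
  exact (Asymptotics.isLittleO_one_iff ℂ).mp h3

/-- **DL5, analytic core with the constant term.** -/
theorem h7co_core (N : ℕ) [NeZero N] (h : CuspForm ((Gamma0 N).map (mapGL ℝ)) 2) (A : ℍ → ℂ)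
    (hA : MDiff A) (hinv : ∀ γ ∈ Gamma0 N, ∀ τ : ℍ, A (γ • τ) = A τ)
    (M : ℕ) (p : PowerSeries ℂ)
    (hexp : ∀ τ : ℍ, HasSum
      (fun n : ℕ => PowerSeries.coeff n p * Function.Periodic.qParam 1 (τ : ℂ) ^ n)
      (A τ * Function.Periodic.qParam 1 (τ : ℂ) ^ M))
    (hbdd : ∀ g : SL(2, ℤ), g ∉ Gamma0 N → IsBoundedAtImInfty (fun τ : ℍ => A (g • τ))) :
    PowerSeries.coeff M (p * qExpansion 1 h) = 0 := by
  have hhmd : MDiff (h : ℍ → ℂ) := ModularFormClass.holo h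
  have hhbdd : IsBoundedAtImInfty (h : ℍ → ℂ) := ModularFormClass.bdd_at_infty h
  -- the slash invariant form `G = A h`
  have hGmd : MDiff (h7coProd N h A hinv : ℍ → ℂ) := hA.mul hhmd
  have hGz : ∀ g : SL(2, ℤ), g ∉ Gamma0 N →
      IsZeroAtImInfty ((h7coProd N h A hinv : ℍ → ℂ) ∣[(2 : ℤ)] g) := by
    intro g hg
    have h1 := h7co_isZero_of_bdd_mul (hbdd g hg) (h7co_cusp_slash_zero N h g)
    have e : ((h7coProd N h A hinv : ℍ → ℂ) ∣[(2 : ℤ)] g) =
        fun τ => A (g • τ) * ((h : ℍ → ℂ) ∣[(2 : ℤ)] g) τ := by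
      funext τ
      exact h7co_slash_mul A h g τ
    rw [e]
    exact h1
  have hT := h7co_trace_period N (h7coProd N h A hinv) hGmd hGz
  -- `B = A q ^ M`
  have hBper := h7co_periodic_of_hasSum hexp
  have hBmd : MDiff (fun τ : ℍ => A τ * Function.Periodic.qParam 1 (τ : ℂ) ^ M) :=
    hA.mul (h7co_qParam_mdiff M)
  have hexp' : ∀ τ : ℍ, HasSum
      (fun n : ℕ => PowerSeries.coeff n p • Function.Periodic.qParam 1 (τ : ℂ) ^ n)
      (A τ * Function.Periodic.qParam 1 (τ : ℂ) ^ M) := by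
    intro τ
    simpa [smul_eq_mul] using hexp τ
  have hBbdd : IsBoundedAtImInfty (fun τ : ℍ => A τ * Function.Periodic.qParam 1 (τ : ℂ) ^ M) :=
    isBoundedAtImInfty_of_hasSum_qExpansion one_pos hexp'
  have hBan := analyticAt_cuspFunction_zero one_pos hBper hBmd hBbdd
  have hBq : qExpansion 1 (fun τ : ℍ => A τ * Function.Periodic.qParam 1 (τ : ℂ) ^ M) = p := by
    ext m
    let _ : FunLike (ℍ → ℂ) ℍ ℂ := ⟨fun f => f, fun _ _ h => h⟩
    exact (UpperHalfPlane.qExpansion_coeff_unique (F := ℍ → ℂ)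
      (fun τ : ℍ => A τ * Function.Periodic.qParam 1 (τ : ℂ) ^ M) one_pos hBan hexp' m).symm
  -- the cusp form
  have hΓ : (1 : ℝ) ∈ ((Gamma0 N).map (mapGL ℝ)).strictPeriods := by simp
  have hhper := SlashInvariantFormClass.periodic_comp_ofComplex h hΓ
  have hhan := ModularFormClass.analyticAt_cuspFunction_zero h one_pos hΓ
  -- the product
  have hFq : qExpansion 1 ((fun τ : ℍ => A τ * Function.Periodic.qParam 1 (τ : ℂ) ^ M) * h) =
      p * qExpansion 1 h := by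
    rw [qExpansion_mul hBan hhan, hBq]
  have hFper : Periodic
      (((fun τ : ℍ => A τ * Function.Periodic.qParam 1 (τ : ℂ) ^ M) * (h : ℍ → ℂ)) ∘ ofComplex)
      (1 : ℝ) := by
    intro w
    have h1 := hBper w
    have h2 := hhper w
    simp only [comp_apply, Pi.mul_apply] at h1 h2 ⊢
    rw [h1, h2]
  have hFmd : MDiff ((fun τ : ℍ => A τ * Function.Periodic.qParam 1 (τ : ℂ) ^ M) * (h : ℍ → ℂ)) :=
    hBmd.mul hhmd
  have hFbdd : IsBoundedAtImInfty
      ((fun τ : ℍ => A τ * Function.Periodic.qParam 1 (τ : ℂ) ^ M) * (h : ℍ → ℂ)) :=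
    hBbdd.mul hhbdd
  -- the coefficient as a period integral
  have hcoef : ∀ (t : ℝ) (ht : 0 < t), PowerSeries.coeff M (p * qExpansion 1 h) =
      h7coPer (h7coProd N h A hinv : ℍ → ℂ) ⟨(t : ℂ) * Complex.I, by simpa using ht⟩ := by
    intro t ht
    rw [← hFq, qExpansion_coeff_eq_intervalIntegral one_pos hFper hFmd hFbdd M ht]
    unfold h7coPer
    rw [Complex.ofReal_one, div_one, one_mul]
    refine intervalIntegral.integral_congr fun u _ => ?_
    have him : 0 < ((u : ℂ) + (t : ℂ) * Complex.I).im := by simpa using ht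
    have e1 : (((⟨(t : ℂ) * Complex.I, by simpa using ht⟩ : ℍ) : ℂ) + (u : ℂ)) =
        (u : ℂ) + (t : ℂ) * Complex.I := by
      show (t : ℂ) * Complex.I + (u : ℂ) = _
      ring
    simp only [comp_apply, e1, ofComplex_apply_of_im_pos him, Pi.mul_apply, h7coProd_apply]
    have hq : Function.Periodic.qParam 1 ((u : ℂ) + (t : ℂ) * Complex.I) ^ M ≠ 0 :=
      pow_ne_zero _ (Function.Periodic.qParam_ne_zero _)
    show 1 / Function.Periodic.qParam 1 ((u : ℂ) + (t : ℂ) * Complex.I) ^ M *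
      (A ⟨(u : ℂ) + (t : ℂ) * Complex.I, him⟩ *
        Function.Periodic.qParam 1 ((u : ℂ) + (t : ℂ) * Complex.I) ^ M *
        h ⟨(u : ℂ) + (t : ℂ) * Complex.I, him⟩) = _
    field_simp
  -- conclusion
  by_contra hne
  have hpos : 0 < ‖PowerSeries.coeff M (p * qExpansion 1 h)‖ := norm_pos_iff.mpr hne
  have h1 := (Metric.tendsto_nhds.mp hT) _ hpos
  rw [Filter.Eventually, atImInfty_mem] at h1
  obtain ⟨Y, hY⟩ := h1
  have ht : (0 : ℝ) < max Y 1 := lt_of_lt_of_le one_pos (le_max_right _ _)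
  have h2 := hY ⟨((max Y 1 : ℝ) : ℂ) * Complex.I, by simpa using ht⟩ (by
    show Y ≤ (((max Y 1 : ℝ) : ℂ) * Complex.I).im
    simp)
  have h3 : dist (h7coPer (h7coProd N h A hinv : ℍ → ℂ)
      ⟨((max Y 1 : ℝ) : ℂ) * Complex.I, by simpa using ht⟩) 0 <
      ‖PowerSeries.coeff M (p * qExpansion 1 h)‖ := h2
  rw [dist_eq_norm, sub_zero, ← hcoef (max Y 1) ht] at h3
  exact lt_irrefl _ h3

end Fermat.Agent.P7
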