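import Fermat.Agent.P7.H7CuspOrthL1

/-!
# Wave 7, DLOG leaf DL5 (CUSP-ORTH), parts (a')+(b): level one in slash form, and the trace
(helper7, prefix `h7co_`)

Mathlib only.

* `h7coPer f τ` : the period integral `∫ t in 0..1, f (τ + t)` of a function on `ℍ`.
* `h7co_levelOne_period_slash` : `G` holomorphic with `G ∣[2] γ = G` for all `γ ∈ SL(2, ℤ)`
  has `h7coPer G τ = 0`.
* `h7co_per_tendsto_zero` : `f` zero at `i∞` ⟹ `h7coPer f → 0` at `i∞`.
* `h7co_trace_period` : `G` slash invariant of weight `2` for `Γ₀(N)`, holomorphic, such that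
  `G ∣[2] g` is zero at `i∞` for every `g ∈ SL(2, ℤ)`, `g ∉ Γ₀(N)`; then `h7coPer G → 0` at `i∞`.
-/

set_option autoImplicit false

open UpperHalfPlane ModularForm CongruenceSubgroup Matrix.SpecialLinearGroup Filter Topology
open scoped MatrixGroups Manifold

noncomputable section

namespace Fermat.Agent.P7

/-- the period integral along the horizontal segment from `τ` to `τ + 1`. -/
def h7coPer (f : ℍ → ℂ) (τ : ℍ) : ℂ :=
  ∫ t in (0 : ℝ)..1, (f ∘ ofComplex) ((τ : ℂ) + (t : ℂ))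

theorem h7co_im_add (τ : ℍ) (t : ℝ) : 0 < ((τ : ℂ) + (t : ℂ)).im := by
  simpa using τ.im_pos

theorem h7co_continuous_seg {f : ℍ → ℂ} (hf : Continuous f) (τ : ℍ) :
    Continuous (fun t : ℝ => (f ∘ ofComplex) ((τ : ℂ) + (t : ℂ))) := by
  have h1 : ContinuousOn (f ∘ ofComplex) {z : ℂ | 0 < z.im} := by
    intro z hz
    have h2 : ContinuousAt ofComplex z :=
      (UpperHalfPlane.contMDiffAt_ofComplex (n := 0) hz).continuousAt
    exact (hf.continuousAt.comp h2).continuousWithinAt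
  have h2 : Continuous (fun t : ℝ => (τ : ℂ) + (t : ℂ)) := by fun_prop
  exact h1.comp_continuous h2 (h7co_im_add τ)

theorem h7co_continuous_of_mdiff {f : ℍ → ℂ} (hf : MDiff f) : Continuous f :=
  hf.continuous

theorem h7co_per_add {f g : ℍ → ℂ} (hf : Continuous f) (hg : Continuous g) (τ : ℍ) :
    h7coPer (f + g) τ = h7coPer f τ + h7coPer g τ := by
  unfold h7coPer
  rw [← intervalIntegral.integral_add ((h7co_continuous_seg hf τ).intervalIntegrable _ _)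
    ((h7co_continuous_seg hg τ).intervalIntegrable _ _)]
  rfl

theorem h7co_per_zero (τ : ℍ) : h7coPer 0 τ = 0 := by
  unfold h7coPer
  simp

theorem h7co_per_sum {ι : Type*} (s : Finset ι) (f : ι → ℍ → ℂ) (hf : ∀ i, Continuous (f i))
    (τ : ℍ) : h7coPer (∑ i ∈ s, f i) τ = ∑ i ∈ s, h7coPer (f i) τ := by
  classical
  induction s using Finset.induction_on with
  | empty => simp [h7co_per_zero]
  | insert a s ha ih =>
    have hc : Continuous (∑ i ∈ s, f i) := by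
      have h := continuous_finsetSum s (fun i _ => hf i)
      have e : (∑ i ∈ s, f i) = fun a => ∑ i ∈ s, f i a := by
        funext a
        rw [Finset.sum_apply]
      rw [e]
      exact h
    rw [Finset.sum_insert ha, Finset.sum_insert ha, h7co_per_add (hf a) hc, ih]

/-- `f` zero at `i∞` ⟹ the period integral tends to `0` at `i∞`. -/
theorem h7co_per_tendsto_zero {f : ℍ → ℂ} (hz : IsZeroAtImInfty f) :
    Tendsto (h7coPer f) atImInfty (𝓝 0) := by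
  rw [Metric.tendsto_nhds]
  intro ε hε
  have h1 : ∀ᶠ z in atImInfty, ‖f z‖ < ε / 2 := by
    have := (Metric.tendsto_nhds.mp hz) (ε / 2) (by positivity)
    simpa [dist_eq_norm] using this
  rw [Filter.Eventually, atImInfty_mem] at h1
  obtain ⟨Y, hY⟩ := h1
  rw [Filter.Eventually, atImInfty_mem]
  refine ⟨Y, fun τ hτ => ?_⟩
  show dist (h7coPer f τ) 0 < ε
  rw [dist_eq_norm, sub_zero]
  have hb : ∀ t ∈ Set.uIoc (0 : ℝ) 1, ‖(f ∘ ofComplex) ((τ : ℂ) + (t : ℂ))‖ ≤ ε / 2 := by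
    intro t _
    have him := h7co_im_add τ t
    rw [Function.comp_apply, ofComplex_apply_of_im_pos him]
    refine (hY ⟨(τ : ℂ) + (t : ℂ), him⟩ ?_).le
    show Y ≤ ((τ : ℂ) + (t : ℂ)).im
    simpa using hτ
  have h2 := intervalIntegral.norm_integral_le_of_norm_le_const hb
  have h3 : ε / 2 * |(1 : ℝ) - 0| = ε / 2 := by simp
  rw [h3] at h2
  exact lt_of_le_of_lt h2 (by linarith)

/-- **level one, slash form.** -/
theorem h7co_levelOne_period_slash {G : ℍ → ℂ} (hG : MDiff G)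
    (hinv : ∀ γ : SL(2, ℤ), G ∣[(2 : ℤ)] γ = G) (τ : ℍ) : h7coPer G τ = 0 := by
  have hrel : ∀ (γ : SL(2, ℤ)) (z : ℍ),
      G (γ • z) = ((γ 1 0 : ℂ) * z + (γ 1 1 : ℂ)) ^ (2 : ℤ) * G z := fun γ z =>
    (slash_action_eq'_iff 2 G γ z).mp (congrFun (hinv γ) z)
  refine h7co_levelOne_period (G := G ∘ ofComplex) (UpperHalfPlane.mdifferentiable_iff.mp hG)
    ?_ ?_ (τ : ℂ) τ.im_pos
  · intro z hz
    have h1 := hrel ModularGroup.S ⟨z, hz⟩
    have h2 : ModularGroup.S • (⟨z, hz⟩ : ℍ) = ofComplex (-z⁻¹) := by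
      rw [modular_S_smul, ofComplex_apply_of_im_pos (h7co_neg_inv_im hz)]
      ext
      simp [inv_neg]
    rw [Function.comp_apply, Function.comp_apply, ← h2, h1, ofComplex_apply_of_im_pos hz]
    simp [ModularGroup.S]
  · intro z hz
    have hz1 : 0 < (z + 1).im := by simpa using hz
    have h1 := hrel (ModularGroup.S * ModularGroup.T) ⟨z, hz⟩
    have h2 : (ModularGroup.S * ModularGroup.T) • (⟨z, hz⟩ : ℍ) = ofComplex (-(z + 1)⁻¹) := by
      rw [mul_smul, modular_T_smul, modular_S_smul,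
        ofComplex_apply_of_im_pos (h7co_neg_inv_im hz1)]
      ext
      simp only [UpperHalfPlane.coe_vadd]
      rw [inv_neg, Complex.ofReal_one, add_comm]
    have e10 : ((ModularGroup.S * ModularGroup.T : SL(2, ℤ)) 1 0 : ℤ) = 1 := by
      rw [Matrix.SpecialLinearGroup.coe_mul, Matrix.mul_apply, Fin.sum_univ_two]
      simp [ModularGroup.S, ModularGroup.T]
    have e11 : ((ModularGroup.S * ModularGroup.T : SL(2, ℤ)) 1 1 : ℤ) = 1 := by
      rw [Matrix.SpecialLinearGroup.coe_mul, Matrix.mul_apply, Fin.sum_univ_two]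
      simp [ModularGroup.S, ModularGroup.T]
    rw [Function.comp_apply, Function.comp_apply, ← h2, h1, ofComplex_apply_of_im_pos hz, e10, e11]
    simp

/-- **the trace argument.**  `G` slash invariant of weight `2` for `𝒢` (of finite index in
`SL(2, ℤ)`), holomorphic, and `G ∣[2] g` zero at `i∞` for every `g ∈ SL(2, ℤ)` outside `𝒢`: the
period integral of `G` tends to `0` at `i∞`. -/
theorem h7co_trace_period_gen {𝒢 : Subgroup (GL (Fin 2) ℝ)} [𝒢.IsFiniteRelIndex 𝒮ℒ]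
    (G : SlashInvariantForm 𝒢 2) (hG : MDiff (G : ℍ → ℂ))
    (hzero : ∀ g : SL(2, ℤ), mapGL ℝ g ∉ 𝒢 → IsZeroAtImInfty ((G : ℍ → ℂ) ∣[(2 : ℤ)] g)) :
    Tendsto (h7coPer (G : ℍ → ℂ)) atImInfty (𝓝 0) := by
  classical
  let _ : Fintype (𝒮ℒ ⧸ (𝒢.subgroupOf 𝒮ℒ)) := Fintype.ofFinite _
  have hTr : ((SlashInvariantForm.trace 𝒮ℒ G : SlashInvariantForm 𝒮ℒ 2) : ℍ → ℂ) =
      ∑ q : 𝒮ℒ ⧸ (𝒢.subgroupOf 𝒮ℒ), SlashInvariantForm.quotientFunc G q := by
    rw [SlashInvariantForm.coe_trace]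
  have hqmd : ∀ q : 𝒮ℒ ⧸ (𝒢.subgroupOf 𝒮ℒ), MDiff (SlashInvariantForm.quotientFunc G q) := by
    intro q
    induction q using Quotient.inductionOn with
    | h r =>
      rw [SlashInvariantForm.quotientFunc_mk]
      exact hG.slash 2 _
  have hqc : ∀ q : 𝒮ℒ ⧸ (𝒢.subgroupOf 𝒮ℒ), Continuous (SlashInvariantForm.quotientFunc G q) :=
    fun q => (hqmd q).continuous
  have hTrmd : MDiff ((SlashInvariantForm.trace 𝒮ℒ G : SlashInvariantForm 𝒮ℒ 2) : ℍ → ℂ) := by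
    rw [hTr]
    exact MDifferentiable.sum fun q _ => hqmd q
  have hinv : ∀ γ : SL(2, ℤ),
      ((SlashInvariantForm.trace 𝒮ℒ G : SlashInvariantForm 𝒮ℒ 2) : ℍ → ℂ) ∣[(2 : ℤ)] γ =
        (SlashInvariantForm.trace 𝒮ℒ G : SlashInvariantForm 𝒮ℒ 2) := fun γ =>
    SlashInvariantFormClass.slash_action_eq (SlashInvariantForm.trace 𝒮ℒ G) (mapGL ℝ γ) ⟨γ, rfl⟩
  have hper : ∀ τ : ℍ,
      h7coPer ((SlashInvariantForm.trace 𝒮ℒ G : SlashInvariantForm 𝒮ℒ 2) : ℍ → ℂ) τ = 0 :=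
    fun τ => h7co_levelOne_period_slash hTrmd hinv τ
  -- the identity coset
  have hq₀G : SlashInvariantForm.quotientFunc G
      (⟦(1 : 𝒮ℒ)⟧ : 𝒮ℒ ⧸ (𝒢.subgroupOf 𝒮ℒ)) = G := by
    rw [SlashInvariantForm.quotientFunc_mk]
    simp
  have hsplit : ∀ τ : ℍ, h7coPer (G : ℍ → ℂ) τ =
      -∑ q ∈ Finset.univ.erase (⟦(1 : 𝒮ℒ)⟧ : 𝒮ℒ ⧸ (𝒢.subgroupOf 𝒮ℒ)),
        h7coPer (SlashInvariantForm.quotientFunc G q) τ := by
    intro τ
    have h1 := hper τ
    rw [hTr, h7co_per_sum _ _ hqc] at h1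
    have h2 := Finset.add_sum_erase Finset.univ
      (fun q => h7coPer (SlashInvariantForm.quotientFunc G q) τ)
      (Finset.mem_univ (⟦(1 : 𝒮ℒ)⟧ : 𝒮ℒ ⧸ (𝒢.subgroupOf 𝒮ℒ)))
    have h3 := h2.trans h1
    rw [hq₀G] at h3
    exact eq_neg_of_add_eq_zero_left h3
  have hz : ∀ q ∈ Finset.univ.erase (⟦(1 : 𝒮ℒ)⟧ : 𝒮ℒ ⧸ (𝒢.subgroupOf 𝒮ℒ)),
      Tendsto (h7coPer (SlashInvariantForm.quotientFunc G q)) atImInfty (𝓝 0) := by
    intro q hq
    have hne : q ≠ (⟦(1 : 𝒮ℒ)⟧ : 𝒮ℒ ⧸ (𝒢.subgroupOf 𝒮ℒ)) := Finset.ne_of_mem_erase hq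
    apply h7co_per_tendsto_zero
    induction q using Quotient.inductionOn with
    | h r =>
      rw [SlashInvariantForm.quotientFunc_mk]
      obtain ⟨g, hg⟩ := r.2
      have hgN : mapGL ℝ g⁻¹ ∉ 𝒢 := by
        intro hmem
        apply hne
        have hr : (r : GL (Fin 2) ℝ) ∈ 𝒢 := by
          rw [← hg]
          have := 𝒢.inv_mem hmem
          rwa [map_inv, inv_inv] at this
        refine (QuotientGroup.eq (s := 𝒢.subgroupOf 𝒮ℒ)).mpr ?_
        rw [mul_one]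
        exact (𝒢.subgroupOf 𝒮ℒ).inv_mem (Subgroup.mem_subgroupOf.mpr hr)
      have e : (G : ℍ → ℂ) ∣[(2 : ℤ)] (r : GL (Fin 2) ℝ)⁻¹ = (G : ℍ → ℂ) ∣[(2 : ℤ)] g⁻¹ := by
        rw [← hg, ← map_inv]
        rfl
      rw [e]
      exact hzero g⁻¹ hgN
  have hsum : Tendsto (fun τ => -∑ q ∈ Finset.univ.erase (⟦(1 : 𝒮ℒ)⟧ : 𝒮ℒ ⧸ (𝒢.subgroupOf 𝒮ℒ)),
      h7coPer (SlashInvariantForm.quotientFunc G q) τ) atImInfty (𝓝 0) := by
    have h1 := (tendsto_finsetSum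
      (Finset.univ.erase (⟦(1 : 𝒮ℒ)⟧ : 𝒮ℒ ⧸ (𝒢.subgroupOf 𝒮ℒ))) hz).neg
    rw [Finset.sum_const_zero, neg_zero] at h1
    exact h1
  exact hsum.congr fun τ => (hsplit τ).symm

/-- the case of `Γ₀(N)`. -/
theorem h7co_trace_period (N : ℕ) [NeZero N]
    (G : SlashInvariantForm ((Gamma0 N).map (mapGL ℝ)) 2) (hG : MDiff (G : ℍ → ℂ))
    (hzero : ∀ g : SL(2, ℤ), g ∉ Gamma0 N → IsZeroAtImInfty ((G : ℍ → ℂ) ∣[(2 : ℤ)] g)) :
    Tendsto (h7coPer (G : ℍ → ℂ)) atImInfty (𝓝 0) := by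
  refine h7co_trace_period_gen G hG fun g hg => hzero g fun hmem => hg ?_
  exact Subgroup.mem_map_of_mem _ hmem

end Fermat.Agent.P7
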