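import Fermat.Agent.S31.TraceInvariance

/-!
# Wave 7 (S40), block (G2) CHAR: the algebra (helper80, prefix `h80c_`)

* `h80c_quad_pow` : in a ring, `φ² - a φ + c = 0` (`a, c` integers) implies
  `(φ ^ j)² - s_j (φ ^ j) + c ^ j = 0` with `s_j = acTrace a c j` the `j`-th power sum of the
  roots of `X² - a X + c`.
* `h80c_quad_pow_on` : the same for an additive endomorphism `F` of a group `M` on a stable
  subgroup `V`.
-/

set_option autoImplicit false
set_option linter.unusedSectionVars false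
set_option linter.unusedVariables false
set_option linter.style.longLine false

noncomputable section

namespace Fermat.Agent.P7

open Fermat.Agent.S30 (acTrace)

/-- `φ² - a φ + c = 0` implies `(φ ^ j)² - s_j (φ ^ j) + c ^ j = 0`. -/
theorem h80c_quad_pow {E : Type*} [Ring E] (φ : E) (a c : ℤ)
    (h : φ * φ - (a : E) * φ + (c : E) = 0) (j : ℕ) :
    φ ^ j * φ ^ j - ((acTrace a c j : ℤ) : E) * φ ^ j + ((c ^ j : ℤ) : E) = 0 := by
  have hca : Commute φ (a : E) := (Int.cast_commute a φ).symm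
  have hc : Commute φ ((a : E) - φ) := hca.sub_right (Commute.refl φ)
  have hsum : φ + ((a : E) - φ) = (a : E) := by abel
  have hprod : φ * ((a : E) - φ) = (c : E) := by
    have h1 : φ * ((a : E) - φ) = -(φ * φ - (a : E) * φ) := by
      rw [mul_sub, hca.eq]
      abel
    rw [h1, eq_neg_of_add_eq_zero_left h, neg_neg]
  have hs := Fermat.Agent.S31.TI_pow_add_pow hc (fun k => ((acTrace a c k : ℤ) : E))
    (by
      show ((acTrace a c 0 : ℤ) : E) = 2
      rw [Fermat.Agent.S30.acTrace_zero, Int.cast_ofNat])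
    (by
      show ((acTrace a c 1 : ℤ) : E) = φ + ((a : E) - φ)
      rw [Fermat.Agent.S30.acTrace_one, hsum])
    (fun k => by
      show ((acTrace a c (k + 2) : ℤ) : E) =
        (φ + ((a : E) - φ)) * ((acTrace a c (k + 1) : ℤ) : E)
          - (φ * ((a : E) - φ)) * ((acTrace a c k : ℤ) : E)
      rw [Fermat.Agent.S30.acTrace_add_two, hsum, hprod]
      push_cast
      rfl) j
  have hs' : ((acTrace a c j : ℤ) : E) = φ ^ j + ((a : E) - φ) ^ j := hs.symm
  have hcj : Commute (φ ^ j) (((a : E) - φ) ^ j) := hc.pow_pow j j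
  rw [hs', Int.cast_pow, ← hprod, hc.mul_pow, add_mul, hcj.eq]
  abel

section On

variable {M : Type*} [AddCommGroup M]

/-- restriction of an additive endomorphism to a stable subgroup. -/
def h80cRes (F : AddMonoid.End M) (V : AddSubgroup M) (hV : ∀ x ∈ V, F x ∈ V) :
    AddMonoid.End V :=
  AddMonoidHom.codRestrict (AddMonoidHom.comp F V.subtype) V (fun w => hV w w.2)

theorem h80cRes_apply (F : AddMonoid.End M) (V : AddSubgroup M) (hV : ∀ x ∈ V, F x ∈ V)
    (x : V) : ((h80cRes F V hV x : V) : M) = F (x : M) := rfl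

theorem h80cRes_pow_apply (F : AddMonoid.End M) (V : AddSubgroup M) (hV : ∀ x ∈ V, F x ∈ V)
    (j : ℕ) (x : V) : (((h80cRes F V hV ^ j) x : V) : M) = (F ^ j) (x : M) := by
  induction j generalizing x with
  | zero => rfl
  | succ j ih =>
    have e1 : (h80cRes F V hV ^ (j + 1)) x = (h80cRes F V hV ^ j) (h80cRes F V hV x) := by
      rw [pow_succ]
      rfl
    have e2 : (F ^ (j + 1)) (x : M) = (F ^ j) (F (x : M)) := by
      rw [pow_succ]
      rfl
    rw [e1, e2, ih]
    rfl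

/-- the quadratic relation for the powers, on a stable subgroup. -/
theorem h80c_quad_pow_on (F : AddMonoid.End M) (V : AddSubgroup M) (hV : ∀ x ∈ V, F x ∈ V)
    (a c : ℤ) (h : ∀ x ∈ V, F (F x) - a • F x + c • x = 0) (j : ℕ) :
    ∀ x ∈ V, (F ^ j) ((F ^ j) x) - acTrace a c j • (F ^ j) x + c ^ j • x = 0 := by
  intro x hx
  have hφ : h80cRes F V hV * h80cRes F V hV - ((a : ℤ) : AddMonoid.End V) * h80cRes F V hV
      + ((c : ℤ) : AddMonoid.End V) = 0 := by
    refine AddMonoidHom.ext fun y => Subtype.ext ?_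
    have e1 : ((((a : ℤ) : AddMonoid.End V) * h80cRes F V hV) y) = a • (h80cRes F V hV y) :=
      AddMonoid.End.intCast_apply a _
    have e2 : (((c : ℤ) : AddMonoid.End V) y) = c • y := AddMonoid.End.intCast_apply c _
    show (((h80cRes F V hV * h80cRes F V hV) y
      - (((a : ℤ) : AddMonoid.End V) * h80cRes F V hV) y
      + ((c : ℤ) : AddMonoid.End V) y : V) : M) = 0
    rw [e1, e2]
    exact h y y.2
  have key := h80c_quad_pow (h80cRes F V hV) a c hφ j
  have k1 := congrArg (fun ψ : AddMonoid.End V => ((ψ ⟨x, hx⟩ : V) : M)) key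
  have e3 : ((((acTrace a c j : ℤ) : AddMonoid.End V) * h80cRes F V hV ^ j) ⟨x, hx⟩) =
      acTrace a c j • ((h80cRes F V hV ^ j) ⟨x, hx⟩) := AddMonoid.End.intCast_apply _ _
  have e4 : ((((c ^ j : ℤ)) : AddMonoid.End V) ⟨x, hx⟩) = c ^ j • (⟨x, hx⟩ : V) :=
    AddMonoid.End.intCast_apply _ _
  have k2 : ((((h80cRes F V hV ^ j * h80cRes F V hV ^ j) ⟨x, hx⟩
      - (((acTrace a c j : ℤ) : AddMonoid.End V) * h80cRes F V hV ^ j) ⟨x, hx⟩
      + (((c ^ j : ℤ)) : AddMonoid.End V) ⟨x, hx⟩ : V)) : M) = 0 := k1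
  rw [e3, e4] at k2
  have e5 : (((h80cRes F V hV ^ j * h80cRes F V hV ^ j) ⟨x, hx⟩ : V) : M) =
      (F ^ j) ((F ^ j) x) := by
    have : (h80cRes F V hV ^ j * h80cRes F V hV ^ j) ⟨x, hx⟩ =
        (h80cRes F V hV ^ j) ((h80cRes F V hV ^ j) ⟨x, hx⟩) := rfl
    rw [this, h80cRes_pow_apply, h80cRes_pow_apply]
  have e6 : (((h80cRes F V hV ^ j) ⟨x, hx⟩ : V) : M) = (F ^ j) x :=
    h80cRes_pow_apply F V hV j ⟨x, hx⟩
  have k3 : (((h80cRes F V hV ^ j * h80cRes F V hV ^ j) ⟨x, hx⟩ : V) : M)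
      - acTrace a c j • (((h80cRes F V hV ^ j) ⟨x, hx⟩ : V) : M) + c ^ j • x = 0 := k2
  rw [e5, e6] at k3
  exact k3

end On

end Fermat.Agent.P7
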