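import Fermat.Agent.P7.H80Char

/-!
# Wave 7 (S40), block (G2) CHAR: the two corollaries used by TOP and END
(helper80, prefix `h80c_`)

`V = h80cV W N S p` the eigenspace of `J₀(N)[p]` (`T_ℓ = a_ℓ(W)`, `ℓ ∉ S`).

* `h80c_unip_on_V` : if `h ∈ G_ℚ` acts trivially on `W[p]`, then `(h - 1)² = 0` on `V`.
* `h80c_unip_on_W` : if `c ∈ G_ℚ` has determinant `1` on `W[p]` and fixes one nonzero point of
  `V`, then `(c - 1)² = 0` on `W[p]` and `tr (c | W[p]) = 2`.
-/

set_option autoImplicit false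
set_option linter.style.haveILetI false
set_option linter.unusedSectionVars false
set_option linter.unusedVariables false
set_option linter.style.longLine false

open ModularCurve WeierstrassCurve WeierstrassCurve.Affine

noncomputable section

namespace Fermat.Agent.P7

/-- integers congruent modulo `p` act in the same way on a point killed by `p`. -/
theorem h80c_zsmul_congr {M : Type*} [AddCommGroup M] {p : ℕ} {y : M} (hy : (p : ℤ) • y = 0)
    {a b : ℤ} (hab : ((a : ℤ) : ZMod p) = ((b : ℤ) : ZMod p)) : a • y = b • y := by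
  have h1 : (p : ℤ) ∣ a - b := by
    rw [← ZMod.intCast_zmod_eq_zero_iff_dvd]
    push_cast
    rw [hab, sub_self]
  obtain ⟨m, hm⟩ := h1
  have h2 : (a - b) • y = 0 := by
    rw [hm, mul_comm, mul_smul, hy, smul_zero]
  rw [sub_smul, sub_eq_zero] at h2
  exact h2

/-- an integer killing a nonzero point of order `p` is divisible by `p`. -/
theorem h80c_cast_eq_zero_of_smul {M : Type*} [AddCommGroup M] {p : ℕ} [Fact p.Prime] {y : M}
    (hy : (p : ℤ) • y = 0) (hy0 : y ≠ 0) {m : ℤ} (hm : m • y = 0) : ((m : ℤ) : ZMod p) = 0 := by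
  by_contra hne
  apply hy0
  -- an inverse of `m` modulo `p`
  obtain ⟨u, hu⟩ : ∃ u : ℤ, ((u : ℤ) : ZMod p) = ((m : ℤ) : ZMod p)⁻¹ :=
    ZMod.intCast_surjective _
  have h1 : (((u * m : ℤ)) : ZMod p) = (((1 : ℤ)) : ZMod p) := by
    push_cast
    rw [hu, inv_mul_cancel₀ hne]
  have h2 := h80c_zsmul_congr hy h1
  rw [one_smul, mul_smul, hm, smul_zero] at h2
  exact h2.symm

section Cor

variable (W : WeierstrassCurve ℤ) (hΔ : W.Δ ≠ 0) {p : ℕ} (hp : p.Prime)
  (N : ℕ) [NeZero N] (S : Finset ℕ) (hpS : p ∈ S)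
  (hNS : ∀ q : ℕ, q.Prime → q ∣ N → q ∈ S)
  (hWS : ∀ q : ℕ, q.Prime → ¬ W.IsGoodPrimeFor q → q ∈ S)

include hΔ hp hpS hNS hWS in
/-- **TOP**: an element acting trivially on `W[p]` is unipotent of level two on `V`. -/
theorem h80c_unip_on_V (h : AlgebraicClosure ℚ ≃ₐ[ℚ] AlgebraicClosure ℚ)
    (hh : Point.galoisRepModuleEnd (K := AlgebraicClosure ℚ) ℚ
      (W.map (Int.castRingHom ℚ)).toAffine p h = 1) :
    ∀ x ∈ h80cV W N S p, h • h • x - (2 : ℤ) • h • x + x = 0 := by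
  intro x hx
  haveI : Fact p.Prime := ⟨hp⟩
  obtain ⟨t, d, ht, hd, -, hV⟩ := h80c_char W hΔ hp N S hpS hNS hWS 1 h
  have hV2 : Module.finrank (ZMod p) (H47wX W p) = 2 :=
    Fermat.Agent.Tors.finrank_torsionBy_qbar (W.map (Int.castRingHom ℚ)) (h47w_Δ_ne W hΔ) p
  haveI : Module.Finite (ZMod p) (H47wX W p) :=
    Module.finite_of_finrank_pos (by rw [hV2]; norm_num)
  have ht2 : ((t : ℤ) : ZMod p) = (((2 : ℤ)) : ZMod p) := by
    rw [ht, Point.galoisTrace_def, hh, LinearMap.trace_one, hV2]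
    push_cast
    rfl
  have hd1 : ((d : ℤ) : ZMod p) = (((1 : ℤ)) : ZMod p) := by
    rw [hd, hh, map_one]
    push_cast
    rfl
  have hx' : x ∈ h80cV W N S (p ^ 1) := by rw [pow_one]; exact hx
  have key := hV x hx'
  have hpx : (p : ℤ) • x = 0 := by
    rw [natCast_zsmul]
    exact hx.1
  have hphx : (p : ℤ) • (h • x) = 0 := by
    rw [natCast_zsmul]
    exact (h80c_V_gal W N S p h x hx).1
  rw [h80c_zsmul_congr hphx ht2, h80c_zsmul_congr hpx hd1, one_smul] at key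
  exact key

include hΔ hp hpS hNS hWS in
/-- **END**: an element of determinant one on `W[p]` fixing a nonzero point of `V` is unipotent
on `W[p]`. -/
theorem h80c_unip_on_W (c : AlgebraicClosure ℚ ≃ₐ[ℚ] AlgebraicClosure ℚ)
    (hdet : LinearMap.det (Point.galoisRepModuleEnd (K := AlgebraicClosure ℚ) ℚ
      (W.map (Int.castRingHom ℚ)).toAffine p c) = 1)
    (x : JZero N) (hx : x ∈ h80cV W N S p) (hx0 : x ≠ 0) (hcx : c • x = x) :
    (∀ Q : ((W.map (Int.castRingHom ℚ))⁄(AlgebraicClosure ℚ)).Point, (p : ℤ) • Q = 0 →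
      c • c • Q - (2 : ℤ) • c • Q + Q = 0) ∧
    Point.galoisTrace (K := AlgebraicClosure ℚ) ℚ (W.map (Int.castRingHom ℚ)).toAffine p c = 2 := by
  haveI : Fact p.Prime := ⟨hp⟩
  obtain ⟨t, d, ht, hd, hW, hV⟩ := h80c_char W hΔ hp N S hpS hNS hWS 1 c
  have hd1 : ((d : ℤ) : ZMod p) = (((1 : ℤ)) : ZMod p) := by
    rw [hd, hdet]
    push_cast
    rfl
  have hx' : x ∈ h80cV W N S (p ^ 1) := by rw [pow_one]; exact hx
  have key := hV x hx'
  have hpx : (p : ℤ) • x = 0 := by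
    rw [natCast_zsmul]
    exact hx.1
  rw [hcx, hcx] at key
  -- `(1 - t + d) x = 0`
  have h1 : (1 - t + d) • x = 0 := by
    rw [add_zsmul, sub_zsmul, one_zsmul, ← sub_eq_add_neg]
    exact key
  have h2 := h80c_cast_eq_zero_of_smul hpx hx0 h1
  have ht2 : ((t : ℤ) : ZMod p) = (((2 : ℤ)) : ZMod p) := by
    have h3 : ((t : ℤ) : ZMod p) = 1 + ((d : ℤ) : ZMod p) := by
      have h4 : ((1 - t + d : ℤ) : ZMod p) = 1 - ((t : ℤ) : ZMod p) + ((d : ℤ) : ZMod p) := by
        push_cast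
        rfl
      rw [h4] at h2
      linear_combination -h2
    rw [h3, hd1]
    push_cast
    norm_num
  refine ⟨fun Q hQ => ?_, ?_⟩
  · have k2 := hW Q hQ
    have hpcQ : (p : ℤ) • (c • Q) = 0 := by
      have e : (p : ℤ) • (c • Q) = c • ((p : ℤ) • Q) :=
        (map_zsmul (DistribMulAction.toAddMonoidEnd
          (AlgebraicClosure ℚ ≃ₐ[ℚ] AlgebraicClosure ℚ)
          ((W.map (Int.castRingHom ℚ))⁄(AlgebraicClosure ℚ)).Point c) (p : ℤ) Q).symm
      rw [e, hQ]
      exact smul_zero (A := ((W.map (Int.castRingHom ℚ))⁄(AlgebraicClosure ℚ)).Point) c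
    rw [h80c_zsmul_congr hpcQ ht2, h80c_zsmul_congr hQ hd1, one_smul] at k2
    exact k2
  · rw [← ht, ht2]
    push_cast
    rfl

end Cor

end Fermat.Agent.P7
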