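import Fermat.Agent.P7.H8LocWInst

/-!
# Wave 7, block L-FREY (S44 route): the torsion-only inertia package (helper80, prefix `h80f_`)

For a curve with multiplicative reduction at `A` the fields `inert` and `lift` of helper8's
`H8wInertW` fail for non-torsion points (points reducing to the node at a fractional depth), but
hold for the points killed by `n` when `n` divides the valuation of the discriminant.  The order
step only uses them on torsion points.

* `H80fInertW W A n` : `σ P - P ∈ E¹` for `σ` in the inertia group and `n P = 0`; every `P` with
  `n P = 0` is congruent modulo `E¹` to an inertia-fixed point.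
-/

set_option autoImplicit false
set_option linter.style.haveILetI false
set_option linter.unusedSectionVars false

noncomputable section

namespace Fermat.Agent.P7

open WeierstrassCurve WeierstrassCurve.Affine Fermat.Agent.S05 Fermat.Agent.S37
  Fermat.Agent.P5
open scoped WeierstrassCurve.Affine

/-- **the torsion-only inertia package** (leaves INERT + LIFT on the points killed by `n`). -/
structure H80fInertW (W : WeierstrassCurve ℤ) (A : ValuationSubring Kbar) (n : ℕ) : Prop where
  inert : ∀ σ ∈ A.inertiaSubgroupIn ℚ, ∀ P : h8wPt W, n • P = 0 → InE1 A (σ • P - P)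
  lift : ∀ P : h8wPt W, n • P = 0 → ∃ c₀ : h8wPt W,
    (∀ σ ∈ A.inertiaSubgroupIn ℚ, σ • c₀ = c₀) ∧ InE1 A (P - c₀)

/-- the full package of helper8 gives the torsion-only package. -/
theorem h80f_inertW_of_full (W : WeierstrassCurve ℤ) (A : ValuationSubring Kbar) (n : ℕ)
    (h : H8wInertW W A) : H80fInertW W A n :=
  ⟨fun σ hσ P _ => h.inert σ hσ P, fun P _ => h.lift P⟩

end Fermat.Agent.P7
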