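import Mathlib
import Fermat.Agent.P7.H40FixedPt

/-!
# Wave 7 (S40), TOP leaf NON-EIS, abstract part (helper80, prefix `h80e_`)

Mathlib only (plus the fixed point lemma `h40f7_exists_fixed` of helper40, Mathlib only).

`V` a plane over `ZMod p`, `ρ : G →* End V` with `tr ρ(g) = 1 + det ρ(g)` for every `g`
(the Eisenstein relation).  Then `V` has a `G`-stable line (`h80e_reducible`).

Proof.  By Cayley–Hamilton `(ρ(g) - 1)(ρ(g) - det ρ(g)) = 0`.  The kernel `H` of `det ∘ ρ` is
unipotent, hence has a nonzero fixed vector; the space `F` of `H`-fixed vectors is `G`-stable.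
If `F ≠ V` we are done.  If `F = V` then `H` acts trivially, the image of `G` is commutative;
either every `g` acts trivially, or `ker (ρ(g₀) - 1)` is a stable line for any `g₀` with
`det ρ(g₀) ≠ 1`.
-/

set_option autoImplicit false
set_option linter.style.haveILetI false
set_option linter.unusedSectionVars false
set_option linter.unusedVariables false
set_option linter.style.longLine false

open Polynomial

noncomputable section

namespace Fermat.Agent.P7

section Plane

variable {k : Type*} [Field k] {V : Type*} [AddCommGroup V] [Module k V]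

/-- the characteristic polynomial in a plane. -/
theorem h80e_charpoly_two [Module.Finite k V] (hV : Module.finrank k V = 2)
    (A : Module.End k V) :
    LinearMap.charpoly A = X ^ 2 - C (LinearMap.trace k V A) * X + C (LinearMap.det A) := by
  classical
  let B := Module.Free.chooseBasis k V
  have hcard : Fintype.card (Module.Free.ChooseBasisIndex k V) = 2 := by
    rw [← Module.finrank_eq_card_chooseBasisIndex, hV]
  let e : Module.Free.ChooseBasisIndex k V ≃ Fin 2 := Fintype.equivFinOfCardEq hcard
  let B' : Module.Basis (Fin 2) k V := B.reindex e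
  rw [← LinearMap.charpoly_toMatrix A B', Matrix.charpoly_fin_two,
    LinearMap.trace_eq_matrix_trace k B' A, ← LinearMap.det_toMatrix B' A]

/-- Cayley–Hamilton in a plane. -/
theorem h80e_cayley (hV : Module.finrank k V = 2) (A : Module.End k V) :
    A * A - LinearMap.trace k V A • A + LinearMap.det A • (1 : Module.End k V) = 0 := by
  haveI : Module.Finite k V := Module.finite_of_finrank_pos (by omega)
  have h := LinearMap.aeval_self_charpoly A
  rw [h80e_charpoly_two hV A] at h
  simp only [map_add, map_sub, map_mul, map_pow, aeval_X, aeval_C,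
    Algebra.algebraMap_eq_smul_one, smul_mul_assoc, one_mul] at h
  rw [← h, sq]

/-- the Eisenstein relation, pointwise: `(A - 1)(A - det A) = 0`. -/
theorem h80e_eis_rel (hV : Module.finrank k V = 2) (A : Module.End k V)
    (hA : LinearMap.trace k V A = 1 + LinearMap.det A) (v : V) :
    A (A v) - A v - (LinearMap.det A) • (A v - v) = 0 := by
  have h := congrArg (fun f : Module.End k V => f v) (h80e_cayley hV A)
  simp only [LinearMap.sub_apply, LinearMap.add_apply, LinearMap.smul_apply,
    Module.End.mul_apply, Module.End.one_apply, LinearMap.zero_apply] at h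
  rw [hA, add_smul, one_smul] at h
  rw [smul_sub, ← h]
  abel

/-- the determinant of an invertible endomorphism is nonzero. -/
theorem h80e_det_ne_zero {G : Type*} [Group G] (ρ : G →* Module.End k V) (g : G) :
    LinearMap.det (ρ g) ≠ 0 := by
  intro h0
  have h1 : LinearMap.det (ρ g) * LinearMap.det (ρ g⁻¹) = 1 := by
    rw [← map_mul, ← map_mul, mul_inv_cancel, map_one, map_one]
  rw [h0, zero_mul] at h1
  exact zero_ne_one h1

end Plane

section Red

variable {p : ℕ} [Fact p.Prime] {V : Type*} [AddCommGroup V] [Module (ZMod p) V]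
  {G : Type*} [Group G]

/-- **a plane over `𝔽_p` with the Eisenstein relation `tr = 1 + det` has a stable line.** -/
theorem h80e_reducible (hV : Module.finrank (ZMod p) V = 2) (ρ : G →* Module.End (ZMod p) V)
    (hE : ∀ g, LinearMap.trace (ZMod p) V (ρ g) = 1 + LinearMap.det (ρ g)) :
    ∃ N : Submodule (ZMod p) V, N ≠ ⊥ ∧ N ≠ ⊤ ∧ ∀ g, ∀ x ∈ N, ρ g x ∈ N := by
  classical
  haveI : Module.Finite (ZMod p) V := Module.finite_of_finrank_pos (by omega)
  haveI : Finite V := Module.finite_of_finite (ZMod p)
  haveI : Nontrivial V := Module.nontrivial_of_finrank_pos (R := ZMod p) (by omega)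
  -- the kernel of the determinant
  let δ : G →* ZMod p := (LinearMap.det : Module.End (ZMod p) V →* ZMod p).comp ρ
  have hδ : ∀ g, δ g = LinearMap.det (ρ g) := fun g => rfl
  let H : Subgroup G := δ.ker
  have hHn : H.Normal := MonoidHom.normal_ker δ
  have hHmem : ∀ h, h ∈ H ↔ LinearMap.det (ρ h) = 1 := fun h => MonoidHom.mem_ker
  have hpV : ∀ v : V, p • v = 0 := fun v => by
    rw [← Nat.cast_smul_eq_nsmul (ZMod p) p v, ZMod.natCast_self, zero_smul]
  -- unipotency on `H`
  have hu : ∀ h ∈ H, ∀ v : V, ρ h (ρ h v) - (2 : ℤ) • ρ h v + v = 0 := by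
    intro h hh v
    have h1 := h80e_eis_rel hV (ρ h) (hE h) v
    rw [(hHmem h).mp hh, one_smul] at h1
    rw [two_smul, ← h1]
    abel
  -- the action of `H`
  letI act : DistribMulAction H V :=
    { smul := fun h v => ρ (h : G) v
      one_smul := fun v => by
        show ρ ((1 : H) : G) v = v
        rw [Subgroup.coe_one, map_one]
        rfl
      mul_smul := fun a b v => by
        show ρ ((a * b : H) : G) v = ρ (a : G) (ρ (b : G) v)
        rw [Subgroup.coe_mul, map_mul]
        rfl
      smul_zero := fun h => map_zero (ρ (h : G))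
      smul_add := fun h v w => map_add (ρ (h : G)) v w }
  obtain ⟨v₀, hv₀, hfix⟩ := h40f7_exists_fixed (V := V) (H := H) p hpV
    (fun h v => hu h h.2 v)
  -- the fixed space
  let F : Submodule (ZMod p) V :=
    { carrier := {v | ∀ h ∈ H, ρ h v = v}
      zero_mem' := fun h _ => map_zero (ρ h)
      add_mem' := fun {a b} ha hb h hh => by rw [map_add, ha h hh, hb h hh]
      smul_mem' := fun c {a} ha h hh => by rw [map_smul, ha h hh] }
  have hFmem : ∀ v, v ∈ F ↔ ∀ h ∈ H, ρ h v = v := fun v => Iff.rfl
  have hv₀F : v₀ ∈ F := fun h hh => hfix ⟨h, hh⟩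
  have hFbot : F ≠ ⊥ := fun h => hv₀ ((Submodule.mem_bot (ZMod p)).mp (h ▸ hv₀F))
  by_cases hFtop : F = ⊤
  · -- `H` acts trivially
    have htriv : ∀ h ∈ H, ∀ v : V, ρ h v = v := fun h hh v =>
      (hFmem v).mp (hFtop ▸ Submodule.mem_top) h hh
    by_cases hall : ∀ g, LinearMap.det (ρ g) = 1
    · -- everything acts trivially: any line is stable
      obtain ⟨v, hv⟩ := exists_ne (0 : V)
      refine ⟨Submodule.span (ZMod p) {v}, ?_, ?_, ?_⟩
      · intro h
        exact hv ((Submodule.mem_bot (ZMod p)).mp (h ▸ Submodule.mem_span_singleton_self v))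
      · intro h
        have h1 : Module.finrank (ZMod p) (Submodule.span (ZMod p) {v}) = 1 :=
          finrank_span_singleton hv
        rw [h, finrank_top, hV] at h1
        omega
      · intro g x hx
        rw [htriv g ((hHmem g).mpr (hall g)) x]
        exact hx
    · -- the fixed line of an element of determinant `≠ 1`
      obtain ⟨g₀, hg₀⟩ := not_forall.mp hall
      refine ⟨LinearMap.ker (ρ g₀ - 1), ?_, ?_, ?_⟩
      · intro hbot
        -- `ρ g₀ - 1` is injective, so `ρ g₀` is the scalar `det`
        have hinj : ∀ v : V, ρ g₀ v - v = 0 → v = 0 := fun v hv => by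
          have : v ∈ LinearMap.ker (ρ g₀ - 1) := by
            rw [LinearMap.mem_ker, LinearMap.sub_apply, Module.End.one_apply]
            exact hv
          rw [hbot] at this
          exact (Submodule.mem_bot (ZMod p)).mp this
        have hscal : ρ g₀ = (LinearMap.det (ρ g₀)) • (1 : Module.End (ZMod p) V) := by
          apply LinearMap.ext
          intro v
          have h1 := h80e_eis_rel hV (ρ g₀) (hE g₀) v
          -- `(A - 1)(A v - d v) = 0`
          have h2 : ρ g₀ (ρ g₀ v - (LinearMap.det (ρ g₀)) • v) -
              (ρ g₀ v - (LinearMap.det (ρ g₀)) • v) = 0 := by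
            rw [map_sub, map_smul, ← h1, smul_sub]
            abel
          have h3 := hinj _ h2
          rw [LinearMap.smul_apply, Module.End.one_apply]
          exact sub_eq_zero.mp h3
        have hdet : LinearMap.det (ρ g₀) = LinearMap.det (ρ g₀) ^ 2 := by
          conv_lhs => rw [hscal]
          rw [LinearMap.det_smul, hV, map_one, mul_one]
        have hd0 := h80e_det_ne_zero ρ g₀
        have h4 : LinearMap.det (ρ g₀) * (LinearMap.det (ρ g₀) - 1) = 0 := by
          rw [mul_sub, mul_one, ← sq, ← hdet, sub_self]
        rcases mul_eq_zero.mp h4 with h5 | h5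
        · exact hd0 h5
        · exact hg₀ (sub_eq_zero.mp h5)
      · intro htop
        apply hg₀
        have h1 : ρ g₀ = 1 := by
          apply LinearMap.ext
          intro v
          have : v ∈ LinearMap.ker (ρ g₀ - 1) := htop ▸ Submodule.mem_top
          rw [LinearMap.mem_ker, LinearMap.sub_apply, Module.End.one_apply] at this
          rw [Module.End.one_apply]
          exact sub_eq_zero.mp this
        rw [h1, map_one]
      · intro g x hx
        rw [LinearMap.mem_ker, LinearMap.sub_apply, Module.End.one_apply, sub_eq_zero] at hx ⊢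
        -- the commutator acts trivially
        have hc : g⁻¹ * g₀ * g * g₀⁻¹ ∈ H := by
          rw [hHmem, ← hδ, map_mul, map_mul, map_mul, map_inv, map_inv]
          have hd0 : δ g ≠ 0 := h80e_det_ne_zero ρ g
          have hd1 : δ g₀ ≠ 0 := h80e_det_ne_zero ρ g₀
          field_simp
        have e1 : g₀ * g = g * (g⁻¹ * g₀ * g * g₀⁻¹) * g₀ := by group
        have e2 : ρ g₀ (ρ g x) = ρ (g₀ * g) x := by
          rw [map_mul]
          rfl
        rw [e2, e1, map_mul, map_mul]
        show ρ g (ρ (g⁻¹ * g₀ * g * g₀⁻¹) (ρ g₀ x)) = ρ g x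
        rw [hx, htriv _ hc x]
  · refine ⟨F, hFbot, hFtop, ?_⟩
    intro g x hx h hh
    have hc : g⁻¹ * h * g ∈ H := by
      have := hHn.conj_mem h hh g⁻¹
      rwa [inv_inv] at this
    have e1 : h * g = g * (g⁻¹ * h * g) := by group
    have e2 : ρ h (ρ g x) = ρ (h * g) x := by
      rw [map_mul]
      rfl
    rw [e2, e1, map_mul]
    show ρ g (ρ (g⁻¹ * h * g) x) = ρ g x
    rw [(hFmem x).mp hx _ hc]

end Red

end Fermat.Agent.P7
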