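import Fermat.Agent.P7.H81PsCore
import Fermat.Agent.P7.H26IntIface

/-!
# Wave 7, block (A), DLOG at the level `M`: the frozen leaf `H26iCore` (helper81)

`h81u_core : H26iCore` (frozen Prop of `P7/H26IntIface.lean`, helper26), from the Mathlib-only
core `h81u_core_gen` of `P7/H81PsCore.lean`.
-/

set_option autoImplicit false

namespace Fermat.Agent.P7

/-- **CORE** (frozen leaf of `P7/H26IntIface.lean`): one zero in the disc, power series form. -/
theorem h81u_core : H26iCore := by
  intro A T x z δ _ hδ hT0 hT1 h hint
  exact h81u_core_gen A T x z δ hδ hT0 hT1 h hint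

end Fermat.Agent.P7
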