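import Fermat.Agent.P7.H10IntQIface

/-!
# Wave 7, block (A), DLOG, INT-Q leaf (Q2): the integral lattice of `M_k(Γ₀(N))`
(helper81, prefix `h81t_`)

* `h81t_bdd_of_rat` : a modular form (any weight, level `Γ₀(N)`) with rational `q`-expansion
  has bounded denominators (the proof of `S23.bdd_of_rat` with `S23.exists_monic_relation` in
  place of its cusp form version).
* `h81t_span` : the forms with integral `q`-expansion span `M_k(Γ₀(N))` over `ℂ`.
* `h81t_fg` : they form a finitely generated `ℤ`-module (Sturm bound: the first coefficients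
  give an injective `ℤ`-linear map into `ℤ ^ (B + 1)`).
* `h81t_lat : H10xLat` : the frozen leaf of `P7/H10IntQIface.lean`.
-/

set_option autoImplicit false
set_option linter.style.haveILetI false
set_option linter.unusedSectionVars false

open UpperHalfPlane
open scoped MatrixGroups

noncomputable section

namespace Fermat.Agent.P7

open Fermat.Agent.S23

/-- A modular form with rational `q`-expansion has bounded denominators. -/
theorem h81t_bdd_of_rat (N : ℕ) [NeZero N] (k : ℤ) (f : ModularForm (G0 N) k)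
    (hf : IsRatSeries (qExpansion 1 f)) :
    ∃ M : ℤ, M ≠ 0 ∧ IsIntSeries ((M : ℂ) • qExpansion 1 f) := by
  choose a ha using hf
  set x : PowerSeries ℚ := PowerSeries.mk a with hx
  have hxf : x.map (algebraMap ℚ ℂ) = qExpansion 1 f := by
    ext n; simp [hx, ha]
  obtain ⟨w, D, hD0, hDs, hmul⟩ := exists_denominator N
  obtain ⟨m, r, hr, hrel⟩ := exists_monic_relation N k f
  obtain ⟨l₁, hl₁⟩ := exists_retraction
  obtain ⟨l₂, hl₂⟩ := exists_coeffMap_ne_zero hD0
  have hG := hmul k f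
  have key : HasBddDenom x := by
    refine bddDenom_of_frac_of_integral x (coeffMap l₂ D) (coeffMap l₂ (qExpansion 1 f * D)) hl₂
      (coeffMap_mem_intSpanM l₂ _ _ hDs) (coeffMap_mem_intSpanM l₂ _ _ hG) ?_ m
      (fun i => coeffMap l₁ (r i)) ?_ ?_
    · rw [← hxf, coeffMap_rat_mul]
    · intro i hi
      obtain ⟨R, hR⟩ := hr i hi
      have h1 := levelOne_intSpan _ R
      rw [hR] at h1
      exact coeffMap_mem_intSpanM l₁ _ _ h1
    · have h0 := congrArg (coeffMap l₁) hrel
      rw [coeffMap_zero, coeffMap_add, coeffMap_sum, ← hxf] at h0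
      rw [← map_pow, coeffMap_rat l₁ hl₁] at h0
      rw [← h0]
      congr 1
      refine Finset.sum_congr rfl fun i _ => ?_
      rw [← map_pow, coeffMap_mul_rat]
  obtain ⟨M, hM, hMx⟩ := key
  refine ⟨M, hM, fun n => ?_⟩
  obtain ⟨b, hb⟩ := hMx n
  refine ⟨b, ?_⟩
  have h2 : PowerSeries.coeff n (qExpansion 1 f) = ((PowerSeries.coeff n x : ℚ) : ℂ) := by
    rw [← hxf]; simp
  rw [PowerSeries.coeff_smul, h2, smul_eq_mul]
  have := congrArg (fun t : ℚ => (t : ℂ)) hb
  simpa using this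

/-- membership in the integral lattice of `M_k(Γ₀(N))`. -/
theorem h81t_mem_int (N : ℕ) (k : ℤ) (f : ModularForm (G0 N) k) :
    f ∈ h10wInt (h10xQM N k) ↔ IsIntSeries (qExpansion 1 f) := Iff.rfl

/-- a nonzero integer multiple of a form with rational `q`-expansion is integral. -/
theorem h81t_exists_int_multiple (N : ℕ) [NeZero N] (k : ℤ) (f : ModularForm (G0 N) k)
    (hf : IsRatSeries (qExpansion 1 f)) :
    ∃ M : ℤ, M ≠ 0 ∧ ((M : ℂ) • f) ∈ h10wInt (h10xQM N k) := by
  obtain ⟨M, hM, hMi⟩ := h81t_bdd_of_rat N k f hf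
  refine ⟨M, hM, fun n => ?_⟩
  obtain ⟨c, hc⟩ := hMi n
  refine ⟨c, ?_⟩
  rw [h10xQM_apply, ← hc]
  have h1 : h10wQExpM N k ((M : ℂ) • f) = (M : ℂ) • h10wQExpM N k f :=
    (h10wQExpM N k).map_smul (M : ℂ) f
  exact congrArg (PowerSeries.coeff n) h1

/-- **(Q2), span.**  The forms with integral `q`-expansion span `M_k(Γ₀(N))` over `ℂ`. -/
theorem h81t_span (N : ℕ) [NeZero N] (k : ℤ) :
    Submodule.span ℂ (h10wInt (h10xQM N k) : Set (ModularForm (G0 N) k)) = ⊤ := by
  obtain ⟨r, b, -, -, hspan, hrat⟩ := h10w_ratBasis N k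
  rw [eq_top_iff, ← hspan, Submodule.span_le]
  rintro _ ⟨i, rfl⟩
  obtain ⟨M, hM, hmem⟩ := h81t_exists_int_multiple N k (b i) (hrat i)
  have hMC : (M : ℂ) ≠ 0 := by exact_mod_cast hM
  have h1 : b i = (M : ℂ)⁻¹ • ((M : ℂ) • b i) := by
    rw [smul_smul, inv_mul_cancel₀ hMC, one_smul]
  rw [h1]
  exact Submodule.smul_mem _ _ (Submodule.subset_span hmem)

/-- the first `B + 1` integer coefficients, as a `ℤ`-linear map on the integral lattice. -/
def h81tTrunc (N : ℕ) (k : ℤ) (B : ℕ) :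
    h10wInt (h10xQM N k) →ₗ[ℤ] (Fin (B + 1) → ℤ) :=
  (LinearMap.funLeft ℤ ℤ (fun i : Fin (B + 1) => (i : ℕ))) ∘ₗ
    (h10wRed (h10xQM N k) ℤ).toIntLinearMap

theorem h81tTrunc_apply (N : ℕ) (k : ℤ) (B : ℕ) (v : h10wInt (h10xQM N k))
    (i : Fin (B + 1)) :
    h81tTrunc N k B v i = h10wCoef (h10xQM N k) v (i : ℕ) := by
  simp [h81tTrunc, LinearMap.funLeft_apply, h10w_red_apply]

theorem h81tTrunc_injective (N : ℕ) [NeZero N] (k : ℤ) :
    Function.Injective (h81tTrunc N k (h10wSturm N k)) := by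
  rw [← LinearMap.ker_eq_bot, LinearMap.ker_eq_bot']
  intro v hv
  apply Subtype.ext
  rw [Submodule.coe_zero]
  refine h10w_qExpM_sturm N k (v : ModularForm (G0 N) k) fun n hn => ?_
  have h1 := congrFun hv ⟨n, Nat.lt_succ_of_le hn⟩
  rw [h81tTrunc_apply] at h1
  have h2 := h10w_coef_spec (h10xQM N k) v n
  rw [h10xQM_apply] at h2
  rw [h2]
  simpa using h1

/-- **(Q2), finite generation.**  The integral lattice of `M_k(Γ₀(N))` is a finitely generated
`ℤ`-module. -/
theorem h81t_fg (N : ℕ) [NeZero N] (k : ℤ) : (h10wInt (h10xQM N k)).FG := by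
  haveI : Module.Finite ℤ (h10wInt (h10xQM N k)) :=
    Module.Finite.of_injective (h81tTrunc N k (h10wSturm N k)) (h81tTrunc_injective N k)
  exact Module.Finite.iff_fg.mp inferInstance

/-- **(Q2), the frozen leaf `H10xLat`.** -/
theorem h81t_lat : H10xLat := fun M _ k => ⟨h81t_fg M k, h81t_span M k⟩

end Fermat.Agent.P7
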