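import Fermat.Agent.P7.H81MultLin

/-!
# W7 (S44), the plane lemma in the shapes of row `S44-KOLCHIN` (helper81)

Mathlib only (on top of `P7/H81MultLin.lean`).

`V` of dimension two over `ZMod p`, `p` odd, `ρ : G →* Module.End (ZMod p) V`, `H` a subgroup
of `G` with `(ρ g - 1) ^ 2 = 0` for `g ∈ H`, `s ∈ H` with `ρ s ≠ 1`.

* `h81r_kolchin_add` : for every `a ∈ H` there is `i : ZMod p` with
  `ρ a v = v + i • (ρ s v - v)` for all `v`.
* `h81r_kolchin_nat` : the same with `i : ℕ`.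
* `h81r_ker_eq_range` : `ker (ρ s - 1) = range (ρ s - 1)`.
* `h81r_finrank_ker` : this is a line.
* `h81r_kolchin_triv` : `a ∈ H` acts trivially as soon as it fixes one vector outside the line.
* `h81r_kolchin_index_add` : the index `i` is additive: if `ρ a = 1 + i N` and
  `ρ a' = 1 + i' N` (pointwise, `N = ρ s - 1`) then `ρ (a a') = 1 + (i + i') N`.
* `h81r_kolchin_index_unique` : the index is unique.

Every declaration is a proved theorem; nothing is assumed.
-/

set_option autoImplicit false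

namespace Fermat.Agent.P7

section Kolchin

variable {p : ℕ} [Fact p.Prime] {V : Type*} [AddCommGroup V] [Module (ZMod p) V]
  {G : Type*} [Group G]

/-- **Kolchin in the plane, additive form.** -/
theorem h81r_kolchin_add (hp2 : p ≠ 2) (hV : Module.finrank (ZMod p) V = 2)
    (ρ : G →* Module.End (ZMod p) V) (H : Subgroup G)
    (hρ : ∀ g ∈ H, (ρ g - 1) * (ρ g - 1) = 0) {s : G} (hsH : s ∈ H) (hs : ρ s ≠ 1) :
    ∀ a ∈ H, ∃ i : ZMod p, ∀ v : V, ρ a v = v + i • (ρ s v - v) := by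
  intro a ha
  obtain ⟨c, hc⟩ := (h81r_lin_sub hp2 hV ρ H hρ hsH hs).1 a ha
  have hN : (ρ s - 1) * (ρ s - 1) = 0 := hρ s hsH
  have hs1 : ρ s = 1 + (ρ s - 1) := by abel
  refine ⟨(c : ZMod p), fun v => ?_⟩
  have h1 : ρ a = 1 + (c : Module.End (ZMod p) V) * (ρ s - 1) := by
    rw [hc]
    conv_lhs => rw [hs1]
    exact h81r_one_add_pow hN c
  rw [h1]
  have h2 : ((c : Module.End (ZMod p) V) * (ρ s - 1)) v = (c : ZMod p) • (ρ s v - v) := by
    rw [← nsmul_eq_mul, LinearMap.smul_apply, LinearMap.sub_apply, Module.End.one_apply,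
      Nat.cast_smul_eq_nsmul]
  rw [LinearMap.add_apply, Module.End.one_apply, h2]

/-- **Kolchin in the plane, additive form with a natural index.** -/
theorem h81r_kolchin_nat (hp2 : p ≠ 2) (hV : Module.finrank (ZMod p) V = 2)
    (ρ : G →* Module.End (ZMod p) V) (H : Subgroup G)
    (hρ : ∀ g ∈ H, (ρ g - 1) * (ρ g - 1) = 0) {s : G} (hsH : s ∈ H) (hs : ρ s ≠ 1) :
    ∀ a ∈ H, ∃ i : ℕ, ∀ v : V, ρ a v = v + i • (ρ s v - v) := by
  intro a ha
  obtain ⟨i, hi⟩ := h81r_kolchin_add hp2 hV ρ H hρ hsH hs a ha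
  refine ⟨i.val, fun v => ?_⟩
  rw [hi v, ← Nat.cast_smul_eq_nsmul (ZMod p), ZMod.natCast_zmod_val]

/-- `ker N = range N` for `N ≠ 0` of square zero in dimension two (any field). -/
theorem h81r_ker_eq_range_core {k : Type*} [Field k] {W : Type*} [AddCommGroup W] [Module k W]
    (hW : Module.finrank k W = 2) {N : Module.End k W} (hN0 : N ≠ 0) (hN : N * N = 0) :
    LinearMap.ker N = LinearMap.range N ∧ Module.finrank k (LinearMap.ker N) = 1 := by
  have hfin : Module.Finite k W := Module.finite_of_finrank_eq_succ hW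
  have hle : LinearMap.range N ≤ LinearMap.ker N := by
    rintro _ ⟨v, rfl⟩
    rw [LinearMap.mem_ker]
    have : (N * N) v = 0 := by rw [hN]; rfl
    exact this
  have hrk := LinearMap.finrank_range_add_finrank_ker N
  rw [hW] at hrk
  have hr0 : 0 < Module.finrank k (LinearMap.range N) := by
    rw [Module.finrank_pos_iff_exists_ne_zero]
    obtain ⟨v, hv⟩ : ∃ v, N v ≠ 0 := by
      by_contra h
      apply hN0
      ext v
      by_contra hv
      exact h ⟨v, hv⟩
    exact ⟨⟨N v, v, rfl⟩, fun h => hv (congrArg Subtype.val h)⟩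
  have hrle : Module.finrank k (LinearMap.range N) ≤ Module.finrank k (LinearMap.ker N) :=
    Submodule.finrank_mono hle
  have hk1 : Module.finrank k (LinearMap.ker N) = 1 := by omega
  have hr1 : Module.finrank k (LinearMap.range N) = 1 := by omega
  refine ⟨?_, hk1⟩
  exact (Submodule.eq_of_le_of_finrank_eq hle (by rw [hk1, hr1])).symm

/-- `ker (ρ s - 1) = range (ρ s - 1)`. -/
theorem h81r_ker_eq_range (hV : Module.finrank (ZMod p) V = 2)
    (ρ : G →* Module.End (ZMod p) V) {s : G} (hs2 : (ρ s - 1) * (ρ s - 1) = 0)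
    (hs : ρ s ≠ 1) :
    LinearMap.ker (ρ s - 1) = LinearMap.range (ρ s - 1) :=
  (h81r_ker_eq_range_core hV (fun h => hs (sub_eq_zero.mp h)) hs2).1

/-- `ker (ρ s - 1)` is a line. -/
theorem h81r_finrank_ker (hV : Module.finrank (ZMod p) V = 2)
    (ρ : G →* Module.End (ZMod p) V) {s : G} (hs2 : (ρ s - 1) * (ρ s - 1) = 0)
    (hs : ρ s ≠ 1) :
    Module.finrank (ZMod p) (LinearMap.ker (ρ s - 1)) = 1 :=
  (h81r_ker_eq_range_core hV (fun h => hs (sub_eq_zero.mp h)) hs2).2

/-- an element of `H` which fixes a vector moved by `s` acts trivially. -/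
theorem h81r_kolchin_triv (hp2 : p ≠ 2) (hV : Module.finrank (ZMod p) V = 2)
    (ρ : G →* Module.End (ZMod p) V) (H : Subgroup G)
    (hρ : ∀ g ∈ H, (ρ g - 1) * (ρ g - 1) = 0) {s : G} (hsH : s ∈ H)
    {v₀ : V} (hs : ρ s v₀ ≠ v₀) {a : G} (ha : a ∈ H) (hav : ρ a v₀ = v₀) :
    ρ a = 1 := by
  have hs1 : ρ s ≠ 1 := fun h => hs (by rw [h]; rfl)
  obtain ⟨i, hi⟩ := h81r_kolchin_add hp2 hV ρ H hρ hsH hs1 a ha
  have h1 := hi v₀
  rw [hav] at h1
  have h2 : i • (ρ s v₀ - v₀) = 0 := by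
    have := h1.symm
    rwa [add_eq_left] at this
  have hi0 : i = 0 := by
    rcases smul_eq_zero.mp h2 with h | h
    · exact h
    · exact absurd (sub_eq_zero.mp h) hs
  ext v
  rw [hi v, hi0, zero_smul, add_zero]
  rfl

/-- the index is additive. -/
theorem h81r_kolchin_index_add (ρ : G →* Module.End (ZMod p) V) {s : G}
    (hs2 : (ρ s - 1) * (ρ s - 1) = 0) {a a' : G} {i i' : ZMod p}
    (ha : ∀ v : V, ρ a v = v + i • (ρ s v - v))
    (ha' : ∀ v : V, ρ a' v = v + i' • (ρ s v - v)) :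
    ∀ v : V, ρ (a * a') v = v + (i + i') • (ρ s v - v) := by
  intro v
  have hNN : ∀ w : V, ρ s (ρ s w - w) - (ρ s w - w) = 0 := by
    intro w
    have h1 : ((ρ s - 1) * (ρ s - 1)) w = 0 := by rw [hs2]; rfl
    simpa [Module.End.mul_apply, LinearMap.sub_apply, Module.End.one_apply] using h1
  rw [map_mul, Module.End.mul_apply, ha' v, ha (v + i' • (ρ s v - v))]
  have h2 : ρ s (v + i' • (ρ s v - v)) - (v + i' • (ρ s v - v)) = ρ s v - v := by
    have key : ∀ n : V, ρ s (v + i' • n) - (v + i' • n) =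
        (ρ s v - v) + i' • (ρ s n - n) := by
      intro n
      rw [map_add, map_smul, smul_sub]
      abel
    rw [key, hNN v, smul_zero, add_zero]
  rw [h2, add_smul]
  abel

/-- the index is unique. -/
theorem h81r_kolchin_index_unique (ρ : G →* Module.End (ZMod p) V) {s : G} {v₀ : V}
    (hs : ρ s v₀ ≠ v₀) {a : G} {i i' : ZMod p}
    (ha : ∀ v : V, ρ a v = v + i • (ρ s v - v))
    (ha' : ∀ v : V, ρ a v = v + i' • (ρ s v - v)) : i = i' := by
  have h1 := ha v₀
  rw [ha' v₀] at h1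
  have h2 : (i' - i) • (ρ s v₀ - v₀) = 0 := by
    rw [sub_smul, sub_eq_zero]
    exact add_left_cancel h1
  rcases smul_eq_zero.mp h2 with h | h
  · exact (sub_eq_zero.mp h).symm
  · exact absurd (sub_eq_zero.mp h) hs

end Kolchin

end Fermat.Agent.P7
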