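import Mathlib

/-!
# W7 (S44), LOCAL-MULT, leaf LIN (helper81): unipotent groups in dimension two

Mathlib only.  Row `L-MULT-2-LIN` of the board `w7_tasks`.

`V` a vector space of dimension two over `ZMod p`, `p` an odd prime, `G` a group,
`ρ : G →* Module.End (ZMod p) V` such that `(ρ g - 1) ^ 2 = 0` for every `g` (of a subgroup `H`).
If `b ∈ H` acts non trivially, then every `a ∈ H` acts as a power of `b`, and `ρ b ^ p = 1`.

Proof.  `M = ρ a - 1`, `N = ρ b - 1`.  The relations `(ρ (a b) - 1) ^ 2 = 0` and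
`(ρ (a b⁻¹) - 1) ^ 2 = 0` give `M N + N M = 0` (`h81r_anticomm`, valid in every ring in which
`2` is cancellable).  In dimension two, with `e = N v₀ ≠ 0`, the pair `(v₀, e)` is a basis,
`N e = 0`, `M e = - N M v₀` is a multiple of `e`, hence `0` (`M ^ 2 = 0`), and `M v₀` is a
multiple `c e` of `e`: `M = c N`.

* `h81r_anticomm` : the ring identity.
* `h81r_one_add_pow` : `(1 + N) ^ c = 1 + c N` if `N ^ 2 = 0`.
* `h81r_lin_core` : `M = c • N` in dimension two (any field).
* `h81r_lin_sub` : the subgroup form; `h81r_lin` : the form of the row (all of `G`).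

Every declaration is a proved theorem; nothing is assumed.
-/

set_option autoImplicit false

namespace Fermat.Agent.P7

section Ring

variable {R : Type*} [Ring R]

/-- `(1 + N) ^ c = 1 + c N` when `N * N = 0`. -/
theorem h81r_one_add_pow {N : R} (hN : N * N = 0) (c : ℕ) :
    (1 + N) ^ c = 1 + (c : R) * N := by
  induction c with
  | zero => simp
  | succ n ih =>
    rw [pow_succ, ih]
    have h1 : (1 + (n : R) * N) * (1 + N) = 1 + (n : R) * N + N + (n : R) * (N * N) := by
      noncomm_ring
    rw [h1, hN]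
    push_cast
    noncomm_ring

/-- the inverse of `1 + N` is `1 - N` when `N * N = 0`. -/
theorem h81r_inv_eq {N Y : R} (hN : N * N = 0) (hY : (1 + N) * Y = 1) : Y = 1 - N := by
  have h1 : (1 - N) * ((1 + N) * Y) = Y := by
    have h2 : (1 - N) * ((1 + N) * Y) = Y - (N * N) * Y := by noncomm_ring
    rw [h2, hN, zero_mul, sub_zero]
  rw [hY, mul_one] at h1
  exact h1.symm

/-- **the ring identity**: `M`, `N` of square zero, `(1 + M)(1 + N) - 1` and
`(1 + M)(1 - N) - 1` of square zero, `2` cancellable: then `M N + N M = 0`. -/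
theorem h81r_anticomm {M N : R} (h2 : ∀ x : R, x + x = 0 → x = 0)
    (hM : M * M = 0) (hN : N * N = 0)
    (h1 : ((1 + M) * (1 + N) - 1) * ((1 + M) * (1 + N) - 1) = 0)
    (h1' : ((1 + M) * (1 - N) - 1) * ((1 + M) * (1 - N) - 1) = 0) :
    M * N + N * M = 0 := by
  -- the two expansions
  have e1 : ((1 + M) * (1 + N) - 1) * ((1 + M) * (1 + N) - 1) =
      (M * M) + M * N + (M * M) * N + N * M + (N * N) + N * M * N + M * N * M
        + M * (N * N) + M * N * M * N := by
    noncomm_ring
  have e2 : ((1 + M) * (1 - N) - 1) * ((1 + M) * (1 - N) - 1) =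
      (M * M) - M * N - (M * M) * N - N * M + (N * N) + N * M * N - M * N * M
        + M * (N * N) + M * N * M * N := by
    noncomm_ring
  rw [h1, hM, hN] at e1
  rw [h1', hM, hN] at e2
  simp only [zero_mul, mul_zero, add_zero, zero_add, sub_zero, zero_sub] at e1 e2
  -- `S = M N + N M + M N M` has `S + S = 0`
  have hS : (M * N + N * M + M * N * M) + (M * N + N * M + M * N * M) = 0 := by
    have h3 : (M * N + N * M + M * N * M) + (M * N + N * M + M * N * M) =
        (M * N + N * M + N * M * N + M * N * M + M * N * M * N)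
          - (-(M * N) - N * M + N * M * N - M * N * M + M * N * M * N) := by
      abel
    rw [h3, ← e1, ← e2, sub_zero]
  have hS0 := h2 _ hS
  -- multiply by `M` on the left
  have hMNM : M * N * M = 0 := by
    have h4 : M * (M * N + N * M + M * N * M) = (M * M) * N + M * N * M + (M * M) * N * M := by
      noncomm_ring
    rw [hS0, hM, mul_zero] at h4
    simp only [zero_mul, zero_add, add_zero] at h4
    exact h4.symm
  rw [hMNM, add_zero] at hS0
  exact hS0

end Ring

section Lin

variable {k : Type*} [Field k] {V : Type*} [AddCommGroup V] [Module k V]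

/-- **dimension two**: `N ≠ 0`, `N ^ 2 = 0`, `M ^ 2 = 0`, `M N + N M = 0` imply `M = c N`. -/
theorem h81r_lin_core (hV : Module.finrank k V = 2) {M N : Module.End k V}
    (hN0 : N ≠ 0) (hN : N * N = 0) (hM : M * M = 0) (hMN : M * N + N * M = 0) :
    ∃ c : k, M = c • N := by
  classical
  have hfin : Module.Finite k V := Module.finite_of_finrank_eq_succ hV
  -- a vector `v₀` with `e = N v₀ ≠ 0`
  obtain ⟨v₀, hv₀⟩ : ∃ v₀, N v₀ ≠ 0 := by
    by_contra h
    apply hN0
    ext v
    by_contra hv
    exact h ⟨v, hv⟩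
  set e : V := N v₀ with he
  have hNe : N e = 0 := by
    have : (N * N) v₀ = 0 := by rw [hN]; rfl
    simpa [he] using this
  -- `(v₀, e)` is linearly independent
  have hli : LinearIndependent k ![v₀, e] := by
    rw [LinearIndependent.pair_iff]
    intro s t hst
    have h1 : N (s • v₀ + t • e) = 0 := by rw [hst, map_zero]
    rw [map_add, map_smul, map_smul, hNe, smul_zero, add_zero] at h1
    have hs : s = 0 := by
      rcases smul_eq_zero.mp h1 with h | h
      · exact h
      · exact absurd h hv₀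
    subst hs
    rw [zero_smul, zero_add] at hst
    rcases smul_eq_zero.mp hst with h | h
    · exact ⟨rfl, h⟩
    · exact absurd h hv₀
  have hspan : Submodule.span k (Set.range ![v₀, e]) = ⊤ := by
    apply hli.span_eq_top_of_card_eq_finrank'
    simp [hV]
  have hpair : ∀ v : V, ∃ s t : k, v = s • v₀ + t • e := by
    intro v
    have hv : v ∈ Submodule.span k (Set.range ![v₀, e]) := by rw [hspan]; trivial
    have hr : Set.range ![v₀, e] = {v₀, e} := by
      ext x
      simp only [Set.mem_range, Set.mem_insert_iff, Set.mem_singleton_iff]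
      constructor
      · rintro ⟨i, rfl⟩
        fin_cases i
        · left; rfl
        · right; rfl
      · rintro (rfl | rfl)
        · exact ⟨0, rfl⟩
        · exact ⟨1, rfl⟩
    rw [hr, Submodule.mem_span_pair] at hv
    obtain ⟨s, t, h⟩ := hv
    exact ⟨s, t, h.symm⟩
  -- `M v₀ = α v₀ + β e`
  obtain ⟨α, β, hMv⟩ := hpair (M v₀)
  -- `M e = - N (M v₀) = - α e`
  have hMe : M e = -(α • e) := by
    have h1 : (M * N + N * M) v₀ = 0 := by rw [hMN]; rfl
    have h2 : M e + N (M v₀) = 0 := by simpa [he] using h1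
    have h3 : N (M v₀) = α • e := by
      rw [hMv, map_add, map_smul, map_smul, hNe, smul_zero, add_zero]
    rw [h3] at h2
    exact eq_neg_of_add_eq_zero_left h2
  -- `M (M e) = 0` gives `α = 0`
  have hα : α = 0 := by
    have h1 : (M * M) e = 0 := by rw [hM]; rfl
    have h2 : M (M e) = 0 := by simpa using h1
    rw [hMe, map_neg, map_smul, hMe, smul_neg, neg_neg, smul_smul] at h2
    have he0 : e ≠ 0 := hv₀
    rcases smul_eq_zero.mp h2 with h | h
    · exact mul_self_eq_zero.mp h
    · exact absurd h he0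
  subst hα
  rw [zero_smul, zero_add] at hMv
  rw [zero_smul, neg_zero] at hMe
  refine ⟨β, LinearMap.ext fun v => ?_⟩
  obtain ⟨s, t, rfl⟩ := hpair v
  have h1 : M (s • v₀ + t • e) = (s * β) • e := by
    rw [map_add, map_smul, map_smul, hMe, hMv, smul_zero, add_zero, smul_smul]
  have h2 : N (s • v₀ + t • e) = s • e := by
    rw [map_add, map_smul, map_smul, hNe, smul_zero, add_zero]
  rw [LinearMap.smul_apply, h1, h2, smul_smul, mul_comm]

end Lin

section Group

variable {p : ℕ} [Fact p.Prime] {V : Type*} [AddCommGroup V] [Module (ZMod p) V]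
  {G : Type*} [Group G]

/-- **LIN, subgroup form.**  `V` of dimension two over `ZMod p`, `p` odd, `H` a subgroup of `G`
all of whose elements are unipotent on `V`, `b ∈ H` non trivial on `V`: every `a ∈ H` acts as a
power of `b`, and `ρ b ^ p = 1`. -/
theorem h81r_lin_sub (hp2 : p ≠ 2) (hV : Module.finrank (ZMod p) V = 2)
    (ρ : G →* Module.End (ZMod p) V) (H : Subgroup G)
    (hρ : ∀ g ∈ H, (ρ g - 1) * (ρ g - 1) = 0) {b : G} (hbH : b ∈ H) (hb : ρ b ≠ 1) :
    (∀ a ∈ H, ∃ c : ℕ, ρ a = ρ b ^ c) ∧ ρ b ^ p = 1 := by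
  have hp : p.Prime := Fact.out
  set N : Module.End (ZMod p) V := ρ b - 1 with hNdef
  have hN : N * N = 0 := hρ b hbH
  have hN0 : N ≠ 0 := fun h => hb (sub_eq_zero.mp h)
  have hbN : ρ b = 1 + N := by rw [hNdef]; abel
  -- `2` is cancellable
  have h2 : ∀ x : Module.End (ZMod p) V, x + x = 0 → x = 0 := by
    intro x hx
    have h2u : (2 : ZMod p) ≠ 0 := by
      intro h
      have h3 : ((2 : ℕ) : ZMod p) = 0 := by exact_mod_cast h
      have h4 : p ∣ 2 := (ZMod.natCast_eq_zero_iff 2 p).mp h3
      exact hp2 ((Nat.prime_dvd_prime_iff_eq hp Nat.prime_two).mp h4)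
    have h5 : (2 : ZMod p) • x = 0 := by rw [two_smul]; exact hx
    rcases smul_eq_zero.mp h5 with h | h
    · exact absurd h h2u
    · exact h
  constructor
  · intro a ha
    set M : Module.End (ZMod p) V := ρ a - 1 with hMdef
    have hM : M * M = 0 := hρ a ha
    have haM : ρ a = 1 + M := by rw [hMdef]; abel
    -- `ρ b⁻¹ = 1 - N`
    have hbinv : ρ b⁻¹ = 1 - N := by
      apply h81r_inv_eq hN
      rw [← hbN, ← map_mul, mul_inv_cancel, map_one]
    have h1 : ((1 + M) * (1 + N) - 1) * ((1 + M) * (1 + N) - 1) = 0 := by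
      have := hρ (a * b) (H.mul_mem ha hbH)
      rwa [map_mul, haM, hbN] at this
    have h1' : ((1 + M) * (1 - N) - 1) * ((1 + M) * (1 - N) - 1) = 0 := by
      have := hρ (a * b⁻¹) (H.mul_mem ha (H.inv_mem hbH))
      rwa [map_mul, haM, hbinv] at this
    have hMN := h81r_anticomm h2 hM hN h1 h1'
    obtain ⟨c, hc⟩ := h81r_lin_core hV hN0 hN hM hMN
    refine ⟨c.val, ?_⟩
    rw [hbN, h81r_one_add_pow hN, haM, hc]
    congr 1
    have h3 : ((c.val : ℕ) : Module.End (ZMod p) V) * N = (c.val : ℕ) • N := by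
      rw [nsmul_eq_mul]
    rw [h3, ← Nat.cast_smul_eq_nsmul (ZMod p), ZMod.natCast_zmod_val]
  · rw [hbN, h81r_one_add_pow hN]
    have h3 : ((p : ℕ) : Module.End (ZMod p) V) * N = (p : ℕ) • N := by
      rw [nsmul_eq_mul]
    rw [h3, ← Nat.cast_smul_eq_nsmul (ZMod p), ZMod.natCast_self, zero_smul, add_zero]

/-- **LIN** (row `L-MULT-2-LIN`): the form with all of `G`. -/
theorem h81r_lin (hp2 : p ≠ 2) (hV : Module.finrank (ZMod p) V = 2)
    (ρ : G →* Module.End (ZMod p) V) (hρ : ∀ g, (ρ g - 1) ^ 2 = 0) {b : G} (hb : ρ b ≠ 1) :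
    (∀ a : G, ∃ c : ℕ, ρ a = ρ b ^ c) ∧ ρ b ^ p = 1 := by
  obtain ⟨h1, h2⟩ := h81r_lin_sub hp2 hV ρ ⊤ (fun g _ => by rw [← pow_two]; exact hρ g)
    (Subgroup.mem_top b) hb
  exact ⟨fun a => h1 a (Subgroup.mem_top a), h2⟩

end Group

end Fermat.Agent.P7
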