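import Fermat.Agent.P7.H99W7Iface
import Fermat.Agent.P7.H81MultLin
import Fermat.Agent.Tors.Qbar

/-!
# W7 (S44), LOCAL-MULT, leaf LIN: the wrapper in the vocabulary of `H99wLocalAt` (helper81)

`W` an integral Weierstrass curve with `Δ ≠ 0`, `p` an odd prime, `H99wTors W p = W[p](ℚ̄)`.

* `h81r_linW` : `H` a subgroup of `G_ℚ` all of whose elements are unipotent on `W[p]`
  (`a a P - 2 a P + P = 0`), `b ∈ H` with `b P₀ ≠ P₀`.  Then every `a ∈ H` acts on `W[p]` as a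
  power `b ^ c`, and `b ^ p` acts trivially.
* `h81rI1 p A` : the subgroup of the inertia at `A` fixing the `p`-th roots of unity.
* `h81r_unip_of_star` : the STAR hypothesis of `H99wLocalAt` makes `h81rI1 p A` unipotent.
* `h81r_lin_star` : under the STAR hypothesis of `H99wLocalAt`, if `b ∈ I₁` moves a point of
  `W[p]`, every `a ∈ I₁` acts on `W[p]` as a power of `b`, and `b ^ p` acts trivially.

Every declaration is a definition or a proved theorem; nothing is assumed.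
-/

set_option autoImplicit false
set_option linter.unusedSectionVars false

open WeierstrassCurve WeierstrassCurve.Affine WeierstrassCurve.Affine.Point

noncomputable section

namespace Fermat.Agent.P7

open Fermat.Agent.S37

/-- **LIN on `W[p]`**: a subgroup of `G_ℚ` which is unipotent on `W[p]` acts through the powers
of any of its elements which acts non trivially. -/
theorem h81r_linW (W : WeierstrassCurve ℤ) (hΔ : W.Δ ≠ 0) {p : ℕ} (hp : p.Prime) (hp2 : p ≠ 2)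
    (H : Subgroup GQ)
    (hH : ∀ a ∈ H, ∀ P : H99wTors W p, a • a • P - (2 : ℤ) • a • P + P = 0)
    {b : GQ} (hbH : b ∈ H) {P₀ : H99wTors W p} (hb : b • P₀ ≠ P₀) :
    (∀ a ∈ H, ∃ c : ℕ, ∀ P : H99wTors W p, a • P = (b ^ c) • P) ∧
      ∀ P : H99wTors W p, (b ^ p) • P = P := by
  have hpF : Fact p.Prime := ⟨hp⟩
  have hΔ' : (W.map (Int.castRingHom ℚ)).Δ ≠ 0 := by
    rw [WeierstrassCurve.map_Δ]
    simpa using hΔ
  have hV : Module.finrank (ZMod p) (H99wTors W p) = 2 :=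
    Fermat.Agent.Tors.finrank_torsionBy_qbar (W.map (Int.castRingHom ℚ)) hΔ' p
  set ρ := galoisRepModuleEnd (K := Kbar) ℚ (W.map (Int.castRingHom ℚ)).toAffine p with hρdef
  have hρ : ∀ g ∈ H, (ρ g - 1) * (ρ g - 1) = 0 := by
    intro g hg
    ext P
    have h := hH g hg P
    have e1 : ((ρ g - 1) * (ρ g - 1)) P = g • g • P - (2 : ℤ) • g • P + P := by
      simp only [Module.End.mul_apply, LinearMap.sub_apply, Module.End.one_apply, map_sub, hρdef,
        galoisRepModuleEnd_apply]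
      rw [two_smul]
      abel
    rw [e1, h]
    rfl
  have hbρ : ρ b ≠ 1 := by
    intro h
    apply hb
    have h1 : ρ b P₀ = (1 : Module.End (ZMod p) (H99wTors W p)) P₀ := by rw [h]
    simpa [hρdef] using h1
  obtain ⟨h1, h2⟩ := h81r_lin_sub hp2 hV ρ H hρ hbH hbρ
  constructor
  · intro a ha
    obtain ⟨c, hc⟩ := h1 a ha
    refine ⟨c, fun P => ?_⟩
    have h3 : ρ a P = ρ (b ^ c) P := by rw [map_pow, hc]
    simp only [hρdef, galoisRepModuleEnd_apply] at h3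
    exact h3
  · intro P
    have h3 : ρ (b ^ p) P = P := by rw [map_pow, h2]; rfl
    simp only [hρdef, galoisRepModuleEnd_apply] at h3
    exact h3

/-- the subgroup `I₁` of the inertia at `A` fixing the `p`-th roots of unity. -/
def h81rI1 (p : ℕ) (A : ValuationSubring Kbar) : Subgroup GQ where
  carrier := {a | a ∈ A.inertiaSubgroupIn ℚ ∧ H99wFixMu p a}
  mul_mem' := by
    rintro a b ⟨ha, hμa⟩ ⟨hb, hμb⟩
    refine ⟨(A.inertiaSubgroupIn ℚ).mul_mem ha hb, fun μ hμ => ?_⟩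
    show a (b μ) = μ
    rw [hμb μ hμ, hμa μ hμ]
  one_mem' := ⟨(A.inertiaSubgroupIn ℚ).one_mem, fun μ _ => rfl⟩
  inv_mem' := by
    rintro a ⟨ha, hμa⟩
    refine ⟨(A.inertiaSubgroupIn ℚ).inv_mem ha, fun μ hμ => ?_⟩
    have h := hμa μ hμ
    calc a⁻¹ μ = a⁻¹ (a μ) := by rw [h]
      _ = μ := by
        show (a⁻¹ * a) μ = μ
        rw [inv_mul_cancel]
        rfl

theorem h81r_mem_I1 {p : ℕ} {A : ValuationSubring Kbar} {a : GQ} :
    a ∈ h81rI1 p A ↔ a ∈ A.inertiaSubgroupIn ℚ ∧ H99wFixMu p a :=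
  Iff.rfl

/-- the STAR hypothesis of `H99wLocalAt` makes `I₁` unipotent on `W[p]`. -/
theorem h81r_unip_of_star (W : WeierstrassCurve ℤ) {p : ℕ} (A : ValuationSubring Kbar)
    (hstar : ∀ a ∈ A.inertiaSubgroupIn ℚ, ∀ e : ℕ, (∀ μ : Kbar, μ ^ p = 1 → a μ = μ ^ e) →
      ∀ P : H99wTors W p, a • a • P - ((1 : ℤ) + e) • a • P + e • P = 0) :
    ∀ a ∈ h81rI1 p A, ∀ P : H99wTors W p, a • a • P - (2 : ℤ) • a • P + P = 0 := by
  rintro a ⟨ha, hμa⟩ P
  have h := hstar a ha 1 (fun μ hμ => by rw [pow_one]; exact hμa μ hμ) P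
  have e1 : ((1 : ℤ) + ((1 : ℕ) : ℤ)) = 2 := by norm_num
  rw [e1, one_smul] at h
  exact h

/-- **LIN under the STAR hypothesis of `H99wLocalAt`**: if `b ∈ I₁` moves a point of `W[p]`,
every `a ∈ I₁` acts on `W[p]` as a power of `b`, and `b ^ p` acts trivially. -/
theorem h81r_lin_star (W : WeierstrassCurve ℤ) (hΔ : W.Δ ≠ 0) {p : ℕ} (hp : p.Prime)
    (hp2 : p ≠ 2) (A : ValuationSubring Kbar)
    (hstar : ∀ a ∈ A.inertiaSubgroupIn ℚ, ∀ e : ℕ, (∀ μ : Kbar, μ ^ p = 1 → a μ = μ ^ e) →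
      ∀ P : H99wTors W p, a • a • P - ((1 : ℤ) + e) • a • P + e • P = 0)
    {b : GQ} (hbI : b ∈ A.inertiaSubgroupIn ℚ) (hbμ : H99wFixMu p b)
    {P₀ : H99wTors W p} (hb : b • P₀ ≠ P₀) :
    (∀ a ∈ A.inertiaSubgroupIn ℚ, H99wFixMu p a →
        ∃ c : ℕ, ∀ P : H99wTors W p, a • P = (b ^ c) • P) ∧
      ∀ P : H99wTors W p, (b ^ p) • P = P := by
  obtain ⟨h1, h2⟩ := h81r_linW W hΔ hp hp2 (h81rI1 p A) (h81r_unip_of_star W A hstar)
    (b := b) ⟨hbI, hbμ⟩ hb
  exact ⟨fun a ha hμ => h1 a ⟨ha, hμ⟩, h2⟩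

end Fermat.Agent.P7
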