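import Mathlib

/-!
# Wave 7, block (A), DLOG at the level `M`, leaf (S2)/INT: the power series CORE
(helper81, prefix `h81u_`; Mathlib only)

`A` a valuation subring of a field `K`, `δ ∈ A` nonzero, `T ∈ A[[q]]` with `T = q · unit`.
If `z ∈ K[[q]]` is integral over `A[[q]]` and `z · (T - δ) ∈ A[[q]]`, then `z ∈ A[[q]]`
(`h81u_core_gen`).

Proof.  The substitution inverse of `T` (Mathlib `PowerSeries.substInvOfIsUnit`) reduces to
`T = X` (`h81u_core_X`).  There, with `x = z (X - δ)`: integrality of `z` gives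
`(X - δ) ∣ x ^ e` in `A[[X]]` (scaled roots are weakly Eisenstein); the truncated evaluation
`f ↦ ∑_{i < N} f_i δ^i` is multiplicative modulo `δ ^ N` and kills `X - δ` modulo `δ ^ N`, so
`δ ^ N ∣ (∑_{i < N} x_i δ^i) ^ e`; with `N = e (n + 1)` and the valuation ring property
(`a ^ e ∣ b ^ e → a ∣ b`) this gives `δ ^ (n + 1) ∣ ∑_{i ≤ n} x_i δ^i = - δ ^ (n + 1) z_n`.
-/

set_option autoImplicit false

open PowerSeries

noncomputable section

namespace Fermat.Agent.P7

section Trunc

variable {R : Type*} [CommRing R]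

/-- truncated evaluation at `δ`: `∑_{i < N} f_i δ^i`. -/
def h81uEv (δ : R) (N : ℕ) (f : R⟦X⟧) : R :=
  ∑ i ∈ Finset.range N, coeff i f * δ ^ i

theorem h81u_ev_eq (δ : R) (N : ℕ) (f : R⟦X⟧) :
    h81uEv δ N f = (trunc N f).eval δ := by
  have h := eval₂_trunc_eq_sum_range δ (RingHom.id R) N f
  rw [Polynomial.eval₂_id] at h
  rw [h]
  rfl

theorem h81u_ev_succ (δ : R) (N : ℕ) (f : R⟦X⟧) :
    h81uEv δ (N + 1) f = h81uEv δ N f + coeff N f * δ ^ N := by
  unfold h81uEv
  rw [Finset.sum_range_succ]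

/-- telescoping: the truncated evaluation of `(X - δ) g`. -/
theorem h81u_ev_sub_mul (δ : R) (g : R⟦X⟧) (n : ℕ) :
    h81uEv δ (n + 1) ((X - C δ) * g) = - (δ ^ (n + 1) * coeff n g) := by
  induction n with
  | zero =>
    rw [h81u_ev_succ]
    simp [h81uEv, sub_mul]
  | succ n ih =>
    rw [h81u_ev_succ, ih]
    have h1 : coeff (n + 1) ((X - C δ) * g) = coeff n g - δ * coeff (n + 1) g := by
      rw [sub_mul, map_sub, coeff_succ_X_mul, coeff_C_mul]
    rw [h1]
    ring

/-- the truncated evaluation is multiplicative modulo `δ ^ N`. -/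
theorem h81u_ev_mul (δ : R) (N : ℕ) (f g : R⟦X⟧) :
    δ ^ N ∣ h81uEv δ N (f * g) - h81uEv δ N f * h81uEv δ N g := by
  rw [h81u_ev_eq, h81u_ev_eq, h81u_ev_eq, ← Polynomial.eval_mul, ← Polynomial.eval_sub]
  have h1 : (Polynomial.X : Polynomial R) ^ N ∣ trunc N (f * g) - trunc N f * trunc N g := by
    rw [Polynomial.X_pow_dvd_iff]
    intro d hd
    rw [Polynomial.coeff_sub, coeff_trunc, if_pos hd,
      coeff_mul_eq_coeff_trunc_mul_trunc f g hd, ← Polynomial.coe_mul, Polynomial.coeff_coe,
      sub_self]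
  obtain ⟨Q, hQ⟩ := h1
  rw [hQ, Polynomial.eval_mul, Polynomial.eval_pow, Polynomial.eval_X]
  exact dvd_mul_right _ _

theorem h81u_ev_one (δ : R) (N : ℕ) : h81uEv δ (N + 1) (1 : R⟦X⟧) = 1 := by
  rw [h81u_ev_eq, trunc_one]
  simp

/-- the truncated evaluation commutes with powers modulo `δ ^ N`. -/
theorem h81u_ev_pow (δ : R) (N : ℕ) (f : R⟦X⟧) (e : ℕ) :
    δ ^ (N + 1) ∣ h81uEv δ (N + 1) (f ^ e) - h81uEv δ (N + 1) f ^ e := by
  induction e with
  | zero =>
    rw [pow_zero, pow_zero, h81u_ev_one, sub_self]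
    exact dvd_zero _
  | succ e ih =>
    have h1 := h81u_ev_mul δ (N + 1) (f ^ e) f
    have h2 := Dvd.dvd.mul_right ih (h81uEv δ (N + 1) f)
    have h3 := dvd_add h1 h2
    have h4 : h81uEv δ (N + 1) (f ^ e * f) - h81uEv δ (N + 1) (f ^ e) * h81uEv δ (N + 1) f +
        (h81uEv δ (N + 1) (f ^ e) - h81uEv δ (N + 1) f ^ e) * h81uEv δ (N + 1) f =
        h81uEv δ (N + 1) (f ^ (e + 1)) - h81uEv δ (N + 1) f ^ (e + 1) := by
      rw [pow_succ, pow_succ]
      ring
    rwa [h4] at h3

/-- the tail of the truncated evaluation is divisible by `δ ^ n`. -/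
theorem h81u_ev_tail (δ : R) (f : R⟦X⟧) (n m : ℕ) :
    δ ^ n ∣ h81uEv δ (n + m) f - h81uEv δ n f := by
  induction m with
  | zero => simp
  | succ m ih =>
    rw [← add_assoc, h81u_ev_succ]
    have h1 : δ ^ n ∣ coeff (n + m) f * δ ^ (n + m) := by
      rw [pow_add]
      exact Dvd.dvd.mul_left (dvd_mul_right _ _) _
    have h2 := dvd_add ih h1
    have h3 : h81uEv δ (n + m) f - h81uEv δ n f + coeff (n + m) f * δ ^ (n + m) =
        h81uEv δ (n + m) f + coeff (n + m) f * δ ^ (n + m) - h81uEv δ n f := by ring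
    rwa [h3] at h2

end Trunc

section Val

variable {K : Type*} [Field K] (A : ValuationSubring K)

/-- in a valuation ring, `a ^ e ∣ b ^ e` implies `a ∣ b`. -/
theorem h81u_dvd_of_pow_dvd_pow (a b : A) (e : ℕ) (he : e ≠ 0) (h : a ^ e ∣ b ^ e) : a ∣ b := by
  by_cases ha : a = 0
  · subst ha
    rw [zero_pow he, zero_dvd_iff] at h
    rw [pow_eq_zero_iff he] at h
    rw [h]
  · obtain ⟨c, hc⟩ := h
    have haK : (a : K) ≠ 0 := fun h0 => ha (Subtype.ext h0)
    have hcK : (b : K) ^ e = (a : K) ^ e * (c : K) := by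
      have := congrArg (Subtype.val) hc
      simpa using this
    have ht : ((b : K) / (a : K)) ^ e = (c : K) := by
      rw [div_pow, hcK]
      field_simp
    have htA : (b : K) / (a : K) ∈ A := by
      rcases A.mem_or_inv_mem ((b : K) / (a : K)) with h1 | h1
      · exact h1
      · by_cases ht0 : (b : K) / (a : K) = 0
        · rw [ht0]
          exact A.zero_mem
        · obtain ⟨e', rfl⟩ : ∃ e', e = e' + 1 := Nat.exists_eq_succ_of_ne_zero he
          have h2 : (b : K) / (a : K) = ((b : K) / (a : K)) ^ (e' + 1) *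
              (((b : K) / (a : K))⁻¹) ^ e' := by
            rw [pow_succ, inv_pow]
            field_simp
          rw [h2, ht]
          exact A.mul_mem _ _ c.2 (pow_mem h1 _)
    refine ⟨⟨_, htA⟩, ?_⟩
    apply Subtype.ext
    show (b : K) = (a : K) * ((b : K) / (a : K))
    field_simp

theorem h81u_map_injective :
    Function.Injective (PowerSeries.map A.subtype) := by
  intro f g hfg
  ext n
  have := congrArg (coeff n) hfg
  rw [coeff_map, coeff_map] at this
  exact congrArg Subtype.val (A.subtype_injective this)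

theorem h81u_ev_coe (δ : A) (N : ℕ) (x : A⟦X⟧) :
    h81uEv (δ : K) N (PowerSeries.map A.subtype x) = ((h81uEv δ N x : A) : K) := by
  simp [h81uEv]

/-- **CORE for `T = X`.** -/
theorem h81u_core_X (x : A⟦X⟧) (z : K⟦X⟧) (δ : A) (hδ : δ ≠ 0)
    (h : z * PowerSeries.map A.subtype (X - C δ) = PowerSeries.map A.subtype x)
    (hint : (PowerSeries.map A.subtype).IsIntegralElem z) :
    ∃ y : A⟦X⟧, PowerSeries.map A.subtype y = z := by
  obtain ⟨p, hmonic, hp⟩ := hint
  have hroot : Polynomial.eval x (Polynomial.scaleRoots p (X - C δ)) = 0 := by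
    have h1 := Polynomial.scaleRoots_eval₂_eq_zero (PowerSeries.map A.subtype)
      (s := X - C δ) hp
    rw [mul_comm, h, Polynomial.eval₂_at_apply] at h1
    exact h81u_map_injective A (by rw [h1, map_zero])
  have hE := Polynomial.scaleRoots.isWeaklyEisensteinAt p (x := X - C δ)
    (P := Ideal.span {(X - C δ : A⟦X⟧)}) (Ideal.mem_span_singleton_self _)
  have hpow := hE.pow_natDegree_le_of_root_of_monic_mem hroot
    ((Polynomial.monic_scaleRoots_iff _).mpr hmonic) (p.natDegree + 1)
    (by rw [Polynomial.natDegree_scaleRoots]; omega)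
  obtain ⟨g, hg⟩ := Ideal.mem_span_singleton.mp hpow
  have key : ∀ n : ℕ, δ ^ (n + 1) ∣ h81uEv δ (n + 1) x := by
    intro n
    obtain ⟨N, hN⟩ : ∃ N, N + 1 = (n + 1) * (p.natDegree + 1) :=
      ⟨(n + 1) * (p.natDegree + 1) - 1, by
        have : 0 < (n + 1) * (p.natDegree + 1) := by positivity
        omega⟩
    have h1 : δ ^ (N + 1) ∣ h81uEv δ (N + 1) (x ^ (p.natDegree + 1)) := by
      rw [hg, h81u_ev_sub_mul]
      exact (dvd_mul_right _ _).neg_right
    have h2 := h81u_ev_pow δ N x (p.natDegree + 1)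
    have h3 : δ ^ (N + 1) ∣ h81uEv δ (N + 1) x ^ (p.natDegree + 1) := by
      have := dvd_sub h1 h2
      simpa using this
    have h3' : (δ ^ (n + 1)) ^ (p.natDegree + 1) ∣
        h81uEv δ (N + 1) x ^ (p.natDegree + 1) := by
      rw [← pow_mul, ← hN]
      exact h3
    have h4 : δ ^ (n + 1) ∣ h81uEv δ (N + 1) x :=
      h81u_dvd_of_pow_dvd_pow A _ _ (p.natDegree + 1) (by omega) h3'
    have h5 : n + 1 ≤ N + 1 := by
      rw [hN]
      exact Nat.le_mul_of_pos_right _ (by omega)
    obtain ⟨m, hm⟩ := Nat.exists_eq_add_of_le h5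
    have h6 := h81u_ev_tail δ x (n + 1) m
    rw [← hm] at h6
    have := dvd_sub h4 h6
    simpa using this
  choose c hc using key
  refine ⟨PowerSeries.mk fun n => - c n, ?_⟩
  ext n
  rw [coeff_map, coeff_mk]
  have hK : h81uEv (δ : K) (n + 1) (PowerSeries.map A.subtype x) =
      - ((δ : K) ^ (n + 1) * coeff n z) := by
    rw [← h, mul_comm]
    have h7 : PowerSeries.map A.subtype (X - C δ) = X - C (δ : K) := by
      rw [map_sub, map_X, map_C]
      rfl
    rw [h7, h81u_ev_sub_mul]
  rw [h81u_ev_coe, hc n] at hK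
  have hδK : ((δ : K)) ^ (n + 1) ≠ 0 :=
    pow_ne_zero _ (fun h0 => hδ (Subtype.ext h0))
  have h8 : (δ : K) ^ (n + 1) * ((c n : A) : K) = (δ : K) ^ (n + 1) * (- coeff n z) := by
    have h9 : (((δ ^ (n + 1) * c n : A)) : K) = (δ : K) ^ (n + 1) * ((c n : A) : K) := by
      push_cast
      rfl
    rw [← h9, hK]
    ring
  have h10 := mul_left_cancel₀ hδK h8
  show ((- c n : A) : K) = coeff n z
  push_cast
  rw [h10, neg_neg]

end Val


section Subst

variable {K : Type*} [Field K] (A : ValuationSubring K)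

/-- **CORE**, general `T = q · unit`: reduction to `T = X` by the substitution inverse. -/
theorem h81u_core_gen (T x : A⟦X⟧) (z : K⟦X⟧) (δ : A) (hδ : δ ≠ 0)
    (hT0 : coeff 0 T = 0) (hT1 : IsUnit (coeff 1 T))
    (h : z * PowerSeries.map A.subtype (T - C δ) = PowerSeries.map A.subtype x)
    (hint : (PowerSeries.map A.subtype).IsIntegralElem z) :
    ∃ y : A⟦X⟧, PowerSeries.map A.subtype y = z := by
  have hT0' : T.constantCoeff = 0 := by
    rw [← coeff_zero_eq_constantCoeff_apply]
    exact hT0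
  have hSs : HasSubst (T.substInvOfIsUnit hT1) := HasSubst.substInvOfIsUnit T hT1
  have hTs : HasSubst T := HasSubst.of_constantCoeff_zero' hT0'
  have hTS : T.subst (T.substInvOfIsUnit hT1) = X := subst_substInvOfIsUnit_right T hT0' hT1
  have hST : (T.substInvOfIsUnit hT1).subst T = X := subst_substInvOfIsUnit_left T hT0' hT1
  have hSKs : HasSubst (PowerSeries.map A.subtype (T.substInvOfIsUnit hT1)) :=
    HasSubst.of_constantCoeff_zero' (by
      rw [← coeff_zero_eq_constantCoeff_apply, coeff_map, coeff_zero_eq_constantCoeff_apply,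
        constantCoeff_substInvOfIsUnit, map_zero])
  have hTKs : HasSubst (PowerSeries.map A.subtype T) :=
    HasSubst.of_constantCoeff_zero' (by
      rw [← coeff_zero_eq_constantCoeff_apply, coeff_map, hT0, map_zero])
  -- (1) the relation after substitution
  have hC : (substAlgHom hSs) (C δ : A⟦X⟧) = (C δ : A⟦X⟧) :=
    (substAlgHom hSs).commutes δ
  have hsubC : (T - C δ).subst (T.substInvOfIsUnit hT1) = X - C δ := by
    have h0 : (T - C δ).subst (T.substInvOfIsUnit hT1) = substAlgHom hSs (T - C δ) := by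
      rw [coe_substAlgHom hSs]
    rw [h0, map_sub, hC, coe_substAlgHom hSs, hTS]
  have h1 : (z.subst (PowerSeries.map A.subtype (T.substInvOfIsUnit hT1))) *
      PowerSeries.map A.subtype (X - C δ) =
      PowerSeries.map A.subtype (x.subst (T.substInvOfIsUnit hT1)) := by
    have h2 := congrArg (substAlgHom hSKs) h
    rw [map_mul, coe_substAlgHom hSKs] at h2
    have h3 : (PowerSeries.map A.subtype (T - C δ)).subst
        (PowerSeries.map A.subtype (T.substInvOfIsUnit hT1)) =
        PowerSeries.map A.subtype (X - C δ) := by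
      rw [← hsubC]
      exact (map_subst hSs (h := A.subtype) (T - C δ)).symm
    have h4 : (PowerSeries.map A.subtype x).subst
        (PowerSeries.map A.subtype (T.substInvOfIsUnit hT1)) =
        PowerSeries.map A.subtype (x.subst (T.substInvOfIsUnit hT1)) :=
      (map_subst hSs (h := A.subtype) x).symm
    rw [h3, h4] at h2
    exact h2
  -- (2) integrality after substitution
  have h2int : (PowerSeries.map A.subtype).IsIntegralElem
      (z.subst (PowerSeries.map A.subtype (T.substInvOfIsUnit hT1))) := by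
    obtain ⟨p, hmonic, hp⟩ := hint
    refine ⟨p.map (substAlgHom hSs).toRingHom, hmonic.map _, ?_⟩
    rw [Polynomial.eval₂_map]
    have hcomp : (PowerSeries.map A.subtype).comp (substAlgHom hSs).toRingHom =
        (substAlgHom hSKs).toRingHom.comp (PowerSeries.map A.subtype) := by
      refine RingHom.ext fun f => ?_
      show PowerSeries.map A.subtype (substAlgHom hSs f) =
        substAlgHom hSKs (PowerSeries.map A.subtype f)
      rw [coe_substAlgHom hSs, coe_substAlgHom hSKs]
      exact map_subst hSs (h := A.subtype) f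
    rw [hcomp, ← coe_substAlgHom hSKs]
    have h5 := Polynomial.hom_eval₂ p (PowerSeries.map A.subtype)
      (substAlgHom hSKs).toRingHom z
    rw [hp, map_zero] at h5
    exact h5.symm
  obtain ⟨y', hy'⟩ := h81u_core_X A (x.subst (T.substInvOfIsUnit hT1))
    (z.subst (PowerSeries.map A.subtype (T.substInvOfIsUnit hT1))) δ hδ h1 h2int
  refine ⟨y'.subst T, ?_⟩
  have h6 : PowerSeries.map A.subtype (y'.subst T) =
      (PowerSeries.map A.subtype y').subst (PowerSeries.map A.subtype T) :=
    map_subst hTs (h := A.subtype) y'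
  rw [h6, hy', subst_comp_subst_apply hSKs hTKs]
  have h7 : (PowerSeries.map A.subtype (T.substInvOfIsUnit hT1)).subst
      (PowerSeries.map A.subtype T) = X := by
    have h8 := map_subst hTs (h := A.subtype) (T.substInvOfIsUnit hT1)
    rw [hST] at h8
    exact h8.symm.trans (PowerSeries.map_X _)
  rw [h7]
  exact X_subst z

end Subst

end Fermat.Agent.P7
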