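import Fermat.Agent.S23.Main

/-!
# W7 (S44), DLOG, GENUS-MATCH leaf GM2 (helper81): rational bases of `M_k(Γ₀(N))`

Row `GM2-RAT-BASIS` of the board `w7_tasks`.  On top of the landed S23 machinery
(`exists_denominator`, `exists_monic_relation`, `converse`, `rational_span_of_stable`) and the
Sturm bound of the Prelude.

* `h81sQExp N k` : the `q`-expansion as a linear map on `ModularForm (G0 N) k`; injective
  (`h81s_qExp_injective`).
* `h81s_galois_stable` : the space of `q`-expansions of modular forms of weight `k` and level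
  `Γ₀(N)` is stable under every ring homomorphism `σ : ℂ →+* ℂ` applied to the coefficients.
* `h81s_rat_span` : the modular forms with rational `q`-expansion span `ModularForm (G0 N) k`.
* `h81s_finite` : `ModularForm (G0 N) k` is finite-dimensional.
* `h81s_rat_basis` : there is a basis `h : Fin r → ModularForm (G0 N) k`,
  `r = finrank ℂ (ModularForm (G0 N) k)`, of forms with rational `q`-expansion.
* `h81s_rat_indep` : for every `d ≤ finrank`, a linearly independent family of `d` forms with
  rational `q`-expansion; `h81s_rat_indep_coeff` : the same with the coefficient sequences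
  `c : Fin d → ℕ → ℚ`, which are `ℚ`-linearly independent.

Every declaration is a definition or a proved theorem; nothing is assumed.
-/

set_option autoImplicit false
set_option linter.style.haveILetI false

namespace Fermat.Agent.P7

open UpperHalfPlane Fermat.Agent.S23
open scoped MatrixGroups

/-- `q`-expansion as a linear map on modular forms. -/
noncomputable def h81sQExp (N : ℕ) (k : ℤ) : ModularForm (G0 N) k →ₗ[ℂ] PowerSeries ℂ where
  toFun f := qExpansion 1 f
  map_add' f g := ModularForm.qExpansion_add one_pos (one_mem_strictPeriods_G0 N) f g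
  map_smul' c f := ModularForm.qExpansion_smul one_pos (one_mem_strictPeriods_G0 N) c f

@[simp] theorem h81s_qExp_apply (N : ℕ) (k : ℤ) (f : ModularForm (G0 N) k) :
    h81sQExp N k f = qExpansion 1 f := rfl

/-- the Sturm bound for modular forms. -/
theorem h81s_sturm (N : ℕ) [NeZero N] (k : ℤ) (f : ModularForm (G0 N) k)
    (h : ∀ n ≤ (k * ↑(CongruenceSubgroup.Gamma0 N).index).toNat / 12,
      PowerSeries.coeff n (qExpansion 1 f) = 0) : f = 0 :=
  ModularForm.sturm_bound_Gamma0 N f h

theorem h81s_qExp_injective (N : ℕ) [NeZero N] (k : ℤ) :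
    Function.Injective (h81sQExp N k) := by
  rw [← LinearMap.ker_eq_bot, LinearMap.ker_eq_bot']
  intro f hf
  apply h81s_sturm N k f
  intro n _
  have : qExpansion 1 f = 0 := hf
  rw [this]
  simp

theorem h81s_mem_range (N : ℕ) (k : ℤ) (h : PowerSeries ℂ) :
    h ∈ LinearMap.range (h81sQExp N k) ↔ IsQM (G0 N) k h := Iff.rfl

/-- **Galois stability** of the space of `q`-expansions of modular forms. -/
theorem h81s_galois_stable (N : ℕ) [NeZero N] (k : ℤ) (σ : ℂ →+* ℂ)
    (f : ModularForm (G0 N) k) :
    IsQM (G0 N) k (PowerSeries.map σ (qExpansion 1 f)) := by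
  obtain ⟨w, D, hD0, hDs, hmul⟩ := exists_denominator N
  obtain ⟨m, r, hr, hrel⟩ := exists_monic_relation N k f
  refine converse N k w (PowerSeries.map σ D) (PowerSeries.map σ (qExpansion 1 f * D))
    ?_ ?_ ?_ m (fun i => PowerSeries.map σ (r i)) ?_ _ ?_ ?_
  · exact isQM_of_mem_intSpanM N w (intSpanM_map _ _ σ hDs)
  · intro h0
    apply hD0
    ext n
    have := congrArg (PowerSeries.coeff n) h0
    simpa using this
  · exact isQM_of_mem_intSpanM N (k + w) (intSpanM_map _ _ σ (hmul k f))
  · intro i hi
    obtain ⟨R, hR⟩ := hr i hi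
    have h1 := levelOne_intSpan _ R
    rw [hR] at h1
    exact isQM_of_mem_intSpanM_levelOne _ (intSpanM_map _ _ σ h1)
  · simp [map_mul]
  · have := congrArg (PowerSeries.map σ) hrel
    simpa [map_add, map_sum, map_mul, map_pow] using this

/-- the `q`-expansions of modular forms are spanned by the rational ones. -/
theorem h81s_rat_span_range (N : ℕ) [NeZero N] (k : ℤ) :
    LinearMap.range (h81sQExp N k) ≤
      Submodule.span ℂ {v | v ∈ LinearMap.range (h81sQExp N k) ∧ IsRatSeries v} :=
  rational_span_of_stable (LinearMap.range (h81sQExp N k))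
    ((k * ↑(CongruenceSubgroup.Gamma0 N).index).toNat / 12)
    (by
      rintro v ⟨g, rfl⟩ hv
      rw [h81s_sturm N k g hv, map_zero])
    (by
      rintro σ v ⟨g, rfl⟩
      exact h81s_galois_stable N k σ g)

/-- `ModularForm (G0 N) k` is finite-dimensional. -/
theorem h81s_finite (N : ℕ) [NeZero N] (k : ℤ) :
    FiniteDimensional ℂ (ModularForm (G0 N) k) := by
  have hV : FiniteDimensional ℂ (LinearMap.range (h81sQExp N k)) :=
    finiteDimensional_of_bound (LinearMap.range (h81sQExp N k))
      ((k * ↑(CongruenceSubgroup.Gamma0 N).index).toNat / 12)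
      (by
        rintro v ⟨g, rfl⟩ hv
        rw [h81s_sturm N k g hv, map_zero])
  exact Module.Finite.of_injective (LinearMap.rangeRestrict (h81sQExp N k)) (by
    intro f g hfg
    apply h81s_qExp_injective N k
    exact congrArg Subtype.val hfg)

/-- **the modular forms with rational `q`-expansion span `M_k(Γ₀(N))`.** -/
theorem h81s_rat_span (N : ℕ) [NeZero N] (k : ℤ) :
    Submodule.span ℂ {f : ModularForm (G0 N) k | IsRatSeries (qExpansion 1 f)} = ⊤ := by
  rw [eq_top_iff]
  intro f _
  have hf : h81sQExp N k f ∈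
      Submodule.span ℂ {v | v ∈ LinearMap.range (h81sQExp N k) ∧ IsRatSeries v} :=
    h81s_rat_span_range N k ⟨f, rfl⟩
  have hle : Submodule.span ℂ {v | v ∈ LinearMap.range (h81sQExp N k) ∧ IsRatSeries v} ≤
      (Submodule.span ℂ {f : ModularForm (G0 N) k | IsRatSeries (qExpansion 1 f)}).map
        (h81sQExp N k) := by
    rw [Submodule.span_le]
    rintro v ⟨⟨g, rfl⟩, hv⟩
    exact ⟨g, Submodule.subset_span hv, rfl⟩
  obtain ⟨f', hf', hff'⟩ := hle hf
  rwa [h81s_qExp_injective N k hff'] at hf'

/-- a basis inside a set `S`, indexed by `Fin (finrank)`. -/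
theorem h81s_basis_fin {K V ι : Type*} [Field K] [AddCommGroup V] [Module K V]
    [FiniteDimensional K V] (b : Module.Basis ι K V) (S : Set V) (hb : Set.range b ⊆ S) :
    ∃ h : Fin (Module.finrank K V) → V, LinearIndependent K h ∧
      Submodule.span K (Set.range h) = ⊤ ∧ ∀ i, h i ∈ S := by
  classical
  have hfin : Finite ι := Module.Finite.finite_basis b
  letI : Fintype ι := Fintype.ofFinite ι
  have hcard : Module.finrank K V = Fintype.card ι := Module.finrank_eq_card_basis b
  let e : ι ≃ Fin (Module.finrank K V) := Fintype.equivFinOfCardEq hcard.symm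
  refine ⟨b.reindex e, (b.reindex e).linearIndependent, (b.reindex e).span_eq, fun i => ?_⟩
  apply hb
  rw [Module.Basis.reindex_apply]
  exact ⟨_, rfl⟩

/-- **a basis of `M_k(Γ₀(N))` of forms with rational `q`-expansion.** -/
theorem h81s_rat_basis (N : ℕ) [NeZero N] (k : ℤ) :
    ∃ h : Fin (Module.finrank ℂ (ModularForm (G0 N) k)) → ModularForm (G0 N) k,
      LinearIndependent ℂ h ∧ Submodule.span ℂ (Set.range h) = ⊤ ∧
        ∀ i, IsRatSeries (qExpansion 1 (h i)) := by
  classical
  have hfin := h81s_finite N k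
  have hspan : ⊤ ≤ Submodule.span ℂ {f : ModularForm (G0 N) k | IsRatSeries (qExpansion 1 f)} :=
    (h81s_rat_span N k).ge
  exact h81s_basis_fin (Module.Basis.ofSpan hspan) _ (Module.Basis.ofSpan_subset hspan)

/-- **`d ≤ dim M_k(Γ₀(N))` linearly independent forms with rational `q`-expansion.** -/
theorem h81s_rat_indep (N : ℕ) [NeZero N] (k : ℤ) {d : ℕ}
    (hd : d ≤ Module.finrank ℂ (ModularForm (G0 N) k)) :
    ∃ h : Fin d → ModularForm (G0 N) k, LinearIndependent ℂ h ∧
      ∀ i, IsRatSeries (qExpansion 1 (h i)) := by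
  obtain ⟨h, hli, -, hrat⟩ := h81s_rat_basis N k
  exact ⟨h ∘ Fin.castLE hd, hli.comp _ (Fin.castLE_injective hd), fun i => hrat _⟩

/-- the same, starting from any linearly independent family of `d` modular forms. -/
theorem h81s_rat_indep_of (N : ℕ) [NeZero N] (k : ℤ) {d : ℕ}
    (w : Fin d → ModularForm (G0 N) k) (hw : LinearIndependent ℂ w) :
    ∃ h : Fin d → ModularForm (G0 N) k, LinearIndependent ℂ h ∧
      ∀ i, IsRatSeries (qExpansion 1 (h i)) := by
  have hfin := h81s_finite N k
  refine h81s_rat_indep N k ?_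
  have := hw.fintype_card_le_finrank
  simpa using this

/-- **coefficient form**: `d ≤ dim M_k(Γ₀(N))` forms with `q`-expansions `∑ c i n qⁿ`,
`c i n ∈ ℚ`, linearly independent over `ℂ`; the sequences `c i` are `ℚ`-linearly independent. -/
theorem h81s_rat_indep_coeff (N : ℕ) [NeZero N] (k : ℤ) {d : ℕ}
    (hd : d ≤ Module.finrank ℂ (ModularForm (G0 N) k)) :
    ∃ (h : Fin d → ModularForm (G0 N) k) (c : Fin d → ℕ → ℚ), LinearIndependent ℂ h ∧
      (∀ i n, PowerSeries.coeff n (qExpansion 1 (h i)) = ((c i n : ℚ) : ℂ)) ∧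
      LinearIndependent ℚ c := by
  classical
  obtain ⟨h, hli, hrat⟩ := h81s_rat_indep N k hd
  choose c hc using hrat
  refine ⟨h, c, hli, hc, ?_⟩
  rw [Fintype.linearIndependent_iff]
  intro a ha i
  have h0 : ∑ j, ((a j : ℚ) : ℂ) • h j = 0 := by
    apply h81s_qExp_injective N k
    rw [map_sum, map_zero]
    ext n
    simp only [map_smul, h81s_qExp_apply, map_sum, hc, map_zero,
      smul_eq_mul]
    have h1 := congrFun ha n
    simp only [Finset.sum_apply, Pi.smul_apply, smul_eq_mul, Pi.zero_apply] at h1
    have h2 := congrArg (fun t : ℚ => (t : ℂ)) h1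
    simpa using h2
  have h3 := (Fintype.linearIndependent_iff.mp hli) (fun j => ((a j : ℚ) : ℂ)) h0 i
  exact_mod_cast h3

end Fermat.Agent.P7
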