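import Fermat.Agent.P7.H81RatBasis

/-!
# W7 (S44), DLOG, GENUS-MATCH leaf GM2, complement (helper81): extension of scalars

* `h81s_indep_extend` (Mathlib only): `K ⊆ L` fields, `c : ι → κ → K` linearly independent
  over `K`; then the family `fun i n => algebraMap K L (c i n)` is linearly independent
  over `L`.
* `h81s_rat_indep_field` : for every field `L` of characteristic zero and every
  `d ≤ dim M_k(Γ₀(N))` there are modular forms `h i` (`i : Fin d`) with rational
  `q`-expansions `∑ c i n qⁿ`, linearly independent over `ℂ`, such that the sequences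
  `fun n => (c i n : L)` are linearly independent over `L`.
* `h81s_rat_indep_ps` : the same for the power series `PowerSeries.mk fun n => (c i n : L)`.

Every declaration is a proved theorem; nothing is assumed.
-/

set_option autoImplicit false

namespace Fermat.Agent.P7

open UpperHalfPlane Fermat.Agent.S23
open scoped MatrixGroups

/-- linear independence of families of sequences is preserved by an extension of fields. -/
theorem h81s_indep_extend {K L : Type*} [Field K] [Field L] [Algebra K L] {ι κ : Type*}
    [Fintype ι] (c : ι → κ → K) (hc : LinearIndependent K c) :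
    LinearIndependent L (fun i n => algebraMap K L (c i n)) := by
  classical
  rw [Fintype.linearIndependent_iff]
  intro b hb i
  -- a `K`-basis of `L`
  let e := Module.Basis.ofVectorSpace K L
  -- for every index `j` of the basis: `∑ i, (repr (b i) j) • c i = 0`
  have key : ∀ j, ∑ i, (e.repr (b i) j) • c i = 0 := by
    intro j
    ext n
    have h1 : ∑ i, b i * algebraMap K L (c i n) = 0 := by
      have := congrFun hb n
      simpa [Finset.sum_apply, Pi.smul_apply, smul_eq_mul] using this
    have h2 : ∑ i, (c i n) • b i = 0 := by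
      rw [← h1]
      refine Finset.sum_congr rfl fun i _ => ?_
      rw [Algebra.smul_def, mul_comm]
    have h3 := congrArg (fun x => e.repr x j) h2
    simp only [map_sum, map_smul, Finsupp.coe_finsetSum, Finsupp.coe_smul, Finset.sum_apply,
      Pi.smul_apply, smul_eq_mul, map_zero, Finsupp.coe_zero, Pi.zero_apply] at h3
    simp only [Finset.sum_apply, Pi.smul_apply, smul_eq_mul, Pi.zero_apply]
    rw [← h3]
    exact Finset.sum_congr rfl fun i _ => mul_comm _ _
  have hzero : ∀ j, e.repr (b i) j = 0 := fun j =>
    (Fintype.linearIndependent_iff.mp hc) (fun i => e.repr (b i) j) (key j) i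
  have : e.repr (b i) = 0 := Finsupp.ext hzero
  exact (LinearEquiv.map_eq_zero_iff e.repr).mp this

/-- **rational forms, independent over any field of characteristic zero.** -/
theorem h81s_rat_indep_field (N : ℕ) [NeZero N] (k : ℤ) {d : ℕ}
    (hd : d ≤ Module.finrank ℂ (ModularForm (G0 N) k))
    (L : Type*) [Field L] [CharZero L] :
    ∃ (h : Fin d → ModularForm (G0 N) k) (c : Fin d → ℕ → ℚ), LinearIndependent ℂ h ∧
      (∀ i n, PowerSeries.coeff n (qExpansion 1 (h i)) = ((c i n : ℚ) : ℂ)) ∧
      LinearIndependent ℚ c ∧ LinearIndependent L (fun i n => ((c i n : ℚ) : L)) := by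
  obtain ⟨h, c, hli, hc, hcQ⟩ := h81s_rat_indep_coeff N k hd
  refine ⟨h, c, hli, hc, hcQ, ?_⟩
  have := h81s_indep_extend (L := L) c hcQ
  simpa [eq_ratCast] using this

/-- the same for power series. -/
theorem h81s_rat_indep_ps (N : ℕ) [NeZero N] (k : ℤ) {d : ℕ}
    (hd : d ≤ Module.finrank ℂ (ModularForm (G0 N) k))
    (L : Type*) [Field L] [CharZero L] :
    ∃ (h : Fin d → ModularForm (G0 N) k) (c : Fin d → ℕ → ℚ), LinearIndependent ℂ h ∧
      (∀ i n, PowerSeries.coeff n (qExpansion 1 (h i)) = ((c i n : ℚ) : ℂ)) ∧
      LinearIndependent L (fun i => PowerSeries.mk fun n => ((c i n : ℚ) : L)) := by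
  classical
  obtain ⟨h, c, hli, hc, -, hcL⟩ := h81s_rat_indep_field N k hd L
  refine ⟨h, c, hli, hc, ?_⟩
  rw [Fintype.linearIndependent_iff] at hcL ⊢
  intro b hb i
  apply hcL b ?_ i
  ext n
  have h1 := congrArg (PowerSeries.coeff n) hb
  simpa [Finset.sum_apply, Pi.smul_apply, smul_eq_mul, map_sum] using h1

end Fermat.Agent.P7
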