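import Fermat.Agent.P7.H26DlogGap
import Fermat.Agent.P7.H70GmEchelon

/-!
# Wave 7, block (A), DLOG at the level `M`: the EXACT FUNCTION by COUNTING (helper82, `h82x_`)

Abstract core, Mathlib + the two Mathlib-only files `P7/H26DlogGap`, `P7/H70GmEchelon`.

Setting (instance: `V n` = reductions of the Gauss-integral elements of `L(n ∞_M)`,
`V` = their union, `Ω(V) = h26gOmega V ⊇ S̄(M)`):

* `hlow`   : the elements of `V n` have no term below `q^(-n)`;
* `hconst` : CONST(M): an element of `V n` without polar part is a constant;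
* `hdim`   : for arbitrarily large `n` there are `r` independent elements of `V n` with
  `n + 1 ≤ r + g` (Riemann's inequality in characteristic `0` + lattice reduction);
* `hΩ`     : `g` independent elements of `Ω(V)` (reductions of cusp forms: CUSP-ORTH +
  GENUS-MATCH + LATTICE).

Conclusion (`h82x_exact`): there are `n ≥ 1` and `f ∈ V n` with `f_(-n) ≠ 0`, i.e. a function
`h ∈ L(n ∞_M)`, Gauss-integral, whose reduction has a pole of order EXACTLY `n` (so `h` has a
pole of order exactly `n` and its `q`-expansion has a unit leading coefficient).  No norms, no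
exact lifts, no generic choice.

Proof: otherwise the nonzero elements of `V n` have their orders in `[-(n-1), 0]`, so at least
`r - 1 ≥ n - g` of the integers `1, …, n - 1` are pole orders of `V`; hence `V` has at most
`g - 1` gaps and `dim Ω(V) ≤ g - 1` (`h26g_gap_le_of_count`), a contradiction.
-/

set_option autoImplicit false

open Module

noncomputable section

namespace Fermat.Agent.P7

variable {k : Type*} [Field k]

/-- orders of the nonzero elements of `V n` when no element has a pole of exact order `n`. -/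
theorem h82x_order_mem {U : Submodule k (LaurentSeries k)} {n : ℕ} (hn : 1 ≤ n)
    (hlow : ∀ f ∈ U, ∀ i : ℤ, i < -(n : ℤ) → f.coeff i = 0)
    (hconst : ∀ f ∈ U, (∀ i : ℤ, i < 0 → f.coeff i = 0) → ∀ i : ℤ, 0 < i → f.coeff i = 0)
    (hno : ∀ f ∈ U, f.coeff (-(n : ℤ)) = 0) :
    ∀ u ∈ U, u ≠ 0 → u.order ∈ Finset.Icc (-((n : ℤ) - 1)) 0 := by
  intro u hu hne
  have h1 : u.coeff u.order ≠ 0 := fun h => hne (HahnSeries.coeff_order_eq_zero.1 h)
  rw [Finset.mem_Icc]
  constructor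
  · by_contra hlt
    have hlt' : u.order ≤ -(n : ℤ) := by omega
    rcases hlt'.lt_or_eq with h | h
    · exact h1 (hlow u hu _ h)
    · rw [h] at h1
      exact h1 (hno u hu)
  · by_contra hgt
    have hgt' : 0 < u.order := by omega
    have hpol : ∀ i : ℤ, i < 0 → u.coeff i = 0 := fun i hi =>
      HahnSeries.coeff_eq_zero_of_lt_order (by omega)
    exact h1 (hconst u hu hpol _ hgt')

/-- an attained negative order is a pole order. -/
theorem h82x_isPole_of_order {V U : Submodule k (LaurentSeries k)} (hle : U ≤ V)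
    {u : LaurentSeries k} (hu : u ∈ U) (hne : u ≠ 0) {m : ℕ} (hm : u.order = -(m : ℤ)) :
    h26gIsPole V m := by
  refine ⟨u, hle hu, fun i hi => ?_, ?_⟩
  · exact HahnSeries.coeff_eq_zero_of_lt_order (by rw [hm]; exact hi)
  · rw [← hm]
    exact fun h => hne (HahnSeries.coeff_order_eq_zero.1 h)

/-- the pole orders in `[1, n - 1]` of a space with `r` independent elements, all of whose
nonzero elements have order in `[-(n-1), 0]`. -/
theorem h82x_poles {V U : Submodule k (LaurentSeries k)} (hle : U ≤ V) {n : ℕ}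
    (hO : ∀ u ∈ U, u ≠ 0 → u.order ∈ Finset.Icc (-((n : ℤ) - 1)) 0)
    {r : ℕ} (b : Fin r → LaurentSeries k) (hb : ∀ i, b i ∈ U) (hind : LinearIndependent k b) :
    ∃ S : Finset ℕ, (∀ m ∈ S, 1 ≤ m ∧ m + 1 ≤ n ∧ h26gIsPole V m) ∧ r ≤ S.card + 1 := by
  classical
  set O : Finset ℤ := Finset.Icc (-((n : ℤ) - 1)) 0 with hOdef
  have hA := h70e_order_mem_ord hO
  have hr : r ≤ (h70eOrd U O).card := h70e_card_le hA b hb hind
  refine ⟨((h70eOrd U O).erase 0).image fun o => (-o).toNat, ?_, ?_⟩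
  · intro m hm
    rw [Finset.mem_image] at hm
    obtain ⟨o, ho, rfl⟩ := hm
    rw [Finset.mem_erase] at ho
    obtain ⟨ho0, hoA⟩ := ho
    obtain ⟨hoO, u, hu, hne, hord⟩ := h70e_mem_ord.1 hoA
    rw [hOdef, Finset.mem_Icc] at hoO
    have hneg : o < 0 := lt_of_le_of_ne hoO.2 ho0
    have hcast : (((-o).toNat : ℕ) : ℤ) = -o := Int.toNat_of_nonneg (by omega)
    refine ⟨?_, ?_, ?_⟩
    · have : (1 : ℤ) ≤ (((-o).toNat : ℕ) : ℤ) := by rw [hcast]; omega
      exact_mod_cast this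
    · have : (((-o).toNat : ℕ) : ℤ) + 1 ≤ (n : ℤ) := by rw [hcast]; omega
      exact_mod_cast this
    · apply h82x_isPole_of_order hle hu hne
      rw [hcast, neg_neg]
      exact hord
  · have hinj : Set.InjOn (fun o : ℤ => (-o).toNat) (((h70eOrd U O).erase 0 : Finset ℤ) : Set ℤ) := by
      intro a ha c hc hac
      have ha' := Finset.mem_coe.1 ha
      have hc' := Finset.mem_coe.1 hc
      rw [Finset.mem_erase] at ha' hc'
      have haO := (h70e_mem_ord.1 ha'.2).1
      have hcO := (h70e_mem_ord.1 hc'.2).1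
      rw [hOdef, Finset.mem_Icc] at haO hcO
      have h1 : (((-a).toNat : ℕ) : ℤ) = -a := Int.toNat_of_nonneg (by omega)
      have h2 : (((-c).toNat : ℕ) : ℤ) = -c := Int.toNat_of_nonneg (by omega)
      have h3 : (((-a).toNat : ℕ) : ℤ) = (((-c).toNat : ℕ) : ℤ) := by
        exact_mod_cast hac
      rw [h1, h2] at h3
      omega
    rw [Finset.card_image_of_injOn hinj]
    have := Finset.pred_card_le_card_erase (s := h70eOrd U O) (a := (0 : ℤ))
    omega

/-- **EXACT by counting** (abstract core). -/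
theorem h82x_exact (V : Submodule k (LaurentSeries k))
    (Vn : ℕ → Submodule k (LaurentSeries k)) (hle : ∀ n, Vn n ≤ V)
    (hlow : ∀ n, ∀ f ∈ Vn n, ∀ i : ℤ, i < -(n : ℤ) → f.coeff i = 0)
    (hconst : ∀ n, ∀ f ∈ Vn n, (∀ i : ℤ, i < 0 → f.coeff i = 0) →
      ∀ i : ℤ, 0 < i → f.coeff i = 0)
    (g : ℕ)
    (hdim : ∀ n₀ : ℕ, ∃ n, n₀ ≤ n ∧ ∃ (r : ℕ) (b : Fin r → LaurentSeries k),
      (∀ i, b i ∈ Vn n) ∧ LinearIndependent k b ∧ n + 1 ≤ r + g)
    (hΩ : ∃ b : Fin g → LaurentSeries k, (∀ i, b i ∈ h26gOmega V) ∧ LinearIndependent k b) :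
    ∃ n : ℕ, 1 ≤ n ∧ ∃ f ∈ Vn n, f.coeff (-(n : ℤ)) ≠ 0 := by
  classical
  by_contra hcon
  have hno : ∀ n : ℕ, 1 ≤ n → ∀ f ∈ Vn n, f.coeff (-(n : ℤ)) = 0 := by
    intro n hn f hf
    by_contra h
    exact hcon ⟨n, hn, f, hf, h⟩
  -- the pole orders below `n`, for the good `n`
  have hS : ∀ n₀ : ℕ, ∃ n, n₀ ≤ n ∧ 1 ≤ n ∧ ∃ S : Finset ℕ,
      (∀ m ∈ S, 1 ≤ m ∧ m + 1 ≤ n ∧ h26gIsPole V m) ∧ n ≤ S.card + g := by
    intro n₀
    obtain ⟨n, hn, r, b, hb, hind, hr⟩ := hdim (n₀ + 1)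
    have hn1 : 1 ≤ n := by omega
    have hO := h82x_order_mem hn1 (hlow n) (hconst n) (hno n hn1)
    obtain ⟨S, hS1, hS2⟩ := h82x_poles (hle n) hO b hb hind
    exact ⟨n, by omega, hn1, S, hS1, by omega⟩
  -- `g ≥ 1`
  have hg : 1 ≤ g := by
    obtain ⟨n, -, hn1, S, hS1, hS2⟩ := hS 0
    have hsub : S ⊆ Finset.Icc 1 (n - 1) := by
      intro m hm
      rw [Finset.mem_Icc]
      have := hS1 m hm
      omega
    have hc := Finset.card_le_card hsub
    rw [Nat.card_Icc] at hc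
    omega
  -- the count with `g - 1`
  have hcount : ∀ n₁ : ℕ, ∃ S : Finset ℕ, (∀ m ∈ S, 1 ≤ m ∧ m ≤ n₁ ∧ h26gIsPole V m) ∧
      n₁ ≤ S.card + (g - 1) := by
    intro n₁
    obtain ⟨n, hn, hn1, S, hS1, hS2⟩ := hS (n₁ + 1)
    refine ⟨S.filter (fun m => m ≤ n₁), ?_, ?_⟩
    · intro m hm
      rw [Finset.mem_filter] at hm
      exact ⟨(hS1 m hm.1).1, hm.2, (hS1 m hm.1).2.2⟩
    · have hsplit : S.card = (S.filter (fun m => m ≤ n₁)).card +
          (S.filter (fun m => ¬ m ≤ n₁)).card :=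
        (Finset.card_filter_add_card_filter_not (s := S) (fun m => m ≤ n₁)).symm
      have hsub : S.filter (fun m => ¬ m ≤ n₁) ⊆ Finset.Icc (n₁ + 1) (n - 1) := by
        intro m hm
        rw [Finset.mem_filter] at hm
        rw [Finset.mem_Icc]
        have := hS1 m hm.1
        omega
      have hc := Finset.card_le_card hsub
      rw [Nat.card_Icc] at hc
      omega
  obtain ⟨hfin, hle'⟩ := h26g_gap_le_of_count V (g - 1) hcount
  obtain ⟨b, hb, hind⟩ := hΩ
  have hind' : LinearIndependent k (fun i => (⟨b i, hb i⟩ : h26gOmega V)) := by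
    apply LinearIndependent.of_comp (h26gOmega V).subtype
    exact hind
  have := hind'.fintype_card_le_finrank
  rw [Fintype.card_fin] at this
  omega

/-- the exact element in the order form: `f ≠ 0` and `f.order = -n`. -/
theorem h82x_exact_order (V : Submodule k (LaurentSeries k))
    (Vn : ℕ → Submodule k (LaurentSeries k)) (hle : ∀ n, Vn n ≤ V)
    (hlow : ∀ n, ∀ f ∈ Vn n, ∀ i : ℤ, i < -(n : ℤ) → f.coeff i = 0)
    (hconst : ∀ n, ∀ f ∈ Vn n, (∀ i : ℤ, i < 0 → f.coeff i = 0) →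
      ∀ i : ℤ, 0 < i → f.coeff i = 0)
    (g : ℕ)
    (hdim : ∀ n₀ : ℕ, ∃ n, n₀ ≤ n ∧ ∃ (r : ℕ) (b : Fin r → LaurentSeries k),
      (∀ i, b i ∈ Vn n) ∧ LinearIndependent k b ∧ n + 1 ≤ r + g)
    (hΩ : ∃ b : Fin g → LaurentSeries k, (∀ i, b i ∈ h26gOmega V) ∧ LinearIndependent k b) :
    ∃ n : ℕ, 1 ≤ n ∧ ∃ f ∈ Vn n, f ≠ 0 ∧ f.order = -(n : ℤ) := by
  obtain ⟨n, hn, f, hf, hc⟩ := h82x_exact V Vn hle hlow hconst g hdim hΩ
  have hne : f ≠ 0 := by
    rintro rfl
    exact hc rfl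
  refine ⟨n, hn, f, hf, hne, le_antisymm (HahnSeries.order_le_of_coeff_ne_zero hc) ?_⟩
  by_contra hlt
  have hlt' : f.order < -(n : ℤ) := not_le.mp hlt
  exact hne (HahnSeries.coeff_order_eq_zero.1 (hlow n f hf _ hlt'))

end Fermat.Agent.P7
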