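import Fermat.Agent.P7.H82H0Abs

/-!
# W7 (S40), block (5b) T-CONST, leaf C4 H0, hypothesis GLOB0 (`const_i`): ABSTRACT half
(helper82)

"A function which is regular at every closed point of a component of the special fibre is
constant on this component."  Mathlib only (+ the vocabulary `h82wM` of `P7/H82H0Abs.lean`).

Setting.  `A` a valuation ring, `F` a field over `A`, `W ⊆ F` a subring containing `A` (the Gauss
valuation ring of the component), `ρ : W →+* κ` the reduction, with values in a field `κ` (the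
function field of the component), `ker ρ = 𝔪_A W`.  `U Q` (`Q : Pl`) the valuation rings of the
places of `κ`:

* `hconst` : an element of `κ` lying in all `U Q` is the reduction of a constant,
* `hdeg`   : the places have degree one (every element of `U Q` is congruent to the reduction of
  a constant modulo the maximal ideal of `U Q`).

Two charts `B₀ ∋ j`, `B∞ ∋ j⁻¹` inside `W`, integral over `R₀ ≤ ⟨A, j⟩`, `R∞ ≤ ⟨A, j⁻¹⟩`.

* `h82g_red_mem` : the reduction of an element integral over `⟨A, j⟩` lies in `U Q` as soon as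
  the reduction of `j` does.
* `h82gCentre` : the centre `𝔫_Q = {b | ρ b ∈ 𝔪_Q}` of `Q` on a chart; `h82g_centre_isMaximal`,
  `h82g_centre_comp` (`ker ρ ∩ B ⊆ 𝔫_Q`: the centre lies on the component).
* `h82g_local_mem` : the reduction of an element of the local ring `B_{𝔫_Q}` lies in `U Q`.
* **`h82g_glob0`** : if `f ∈ W` is congruent modulo `𝔪_A W` to an element of the local ring at
  every closed point of `B₀` on the component and at every cusp (`j⁻¹ ∈ 𝔫`) of `B∞` on the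
  component, then `f` is congruent to a constant modulo `𝔪_A W`.

Every declaration is a definition or a proved theorem; nothing is assumed.
-/

set_option autoImplicit false
set_option linter.unusedSectionVars false
set_option linter.unusedVariables false

open IsLocalRing Polynomial

namespace Fermat.Agent.P7

section Glob0

variable {A : Type*} [CommRing A] [IsDomain A] [ValuationRing A]
  {F : Type*} [Field F] [Algebra A F] {κ : Type*} [Field κ]

/-- the reduction of an element of `W` which is integral over a subring `R ≤ W` whose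
reductions lie in the valuation ring `U`, lies in `U`. -/
theorem h82g_red_mem_of_integral (W : Subring F) (ρ : W →+* κ) (U : ValuationSubring κ)
    (R : Subring F) (hRW : R ≤ W) (hRU : ∀ (r : F) (hr : r ∈ R), ρ ⟨r, hRW hr⟩ ∈ U)
    (b : F) (hbW : b ∈ W) (hb : IsIntegral R b) : ρ ⟨b, hbW⟩ ∈ U := by
  obtain ⟨p, hp, hroot⟩ := hb
  -- the inclusion `R → W`
  let ι : R →+* W := Subring.inclusion hRW
  -- the root in `W`
  have h1 : eval₂ ι (⟨b, hbW⟩ : W) p = 0 := by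
    apply Subtype.ext
    have h2 := Polynomial.hom_eval₂ p ι W.subtype (⟨b, hbW⟩ : W)
    have h3 : (W.subtype (eval₂ ι (⟨b, hbW⟩ : W) p) : F) = eval₂ (W.subtype.comp ι) b p := h2
    have h4 : W.subtype.comp ι = algebraMap R F := rfl
    rw [h4] at h3
    rw [show ((eval₂ ι (⟨b, hbW⟩ : W) p : W) : F) = W.subtype (eval₂ ι (⟨b, hbW⟩ : W) p) from rfl,
      h3, hroot]
    rfl
  -- the root in `κ`
  have h5 : eval₂ (ρ.comp ι) (ρ ⟨b, hbW⟩) p = 0 := by
    rw [← Polynomial.hom_eval₂, h1, map_zero]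
  -- the coefficients in `U`
  let g : R →+* U := (ρ.comp ι).codRestrict U.toSubring (fun r => hRU r.1 r.2)
  have h6 : (ρ.comp ι) = (U.subtype).comp g := rfl
  have hint : IsIntegral U (ρ ⟨b, hbW⟩) := by
    refine ⟨p.map g, hp.map g, ?_⟩
    rw [Polynomial.eval₂_map]
    have h7 : (algebraMap U κ).comp g = ρ.comp ι := rfl
    rw [h7]
    exact h5
  obtain ⟨z, hz⟩ := (IsIntegrallyClosed.isIntegral_iff (R := U) (K := κ)).mp hint
  rw [← hz]
  exact z.2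


/-- the reductions of the elements of `⟨A, j⟩` lie in `U` as soon as the reductions of the
constants and of `j` do. -/
theorem h82g_red_mem_closure (W : Subring F) (hAW : ∀ a : A, algebraMap A F a ∈ W)
    (ρ : W →+* κ) (U : ValuationSubring κ)
    (hAU : ∀ a : A, ρ ⟨algebraMap A F a, hAW a⟩ ∈ U)
    (j : F) (hjW : j ∈ W) (hjU : ρ ⟨j, hjW⟩ ∈ U)
    (r : F) (hr : r ∈ Subring.closure (Set.range (algebraMap A F) ∪ {j})) :
    ∃ hrW : r ∈ W, ρ ⟨r, hrW⟩ ∈ U := by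
  have hle : Subring.closure (Set.range (algebraMap A F) ∪ {j}) ≤
      (U.toSubring.comap ρ).map W.subtype := by
    rw [Subring.closure_le]
    rintro x (⟨a, rfl⟩ | hx)
    · exact ⟨⟨algebraMap A F a, hAW a⟩, hAU a, rfl⟩
    · rw [Set.mem_singleton_iff] at hx
      subst hx
      exact ⟨⟨x, hjW⟩, hjU, rfl⟩
  obtain ⟨⟨y, hy⟩, hyU, rfl⟩ := hle hr
  exact ⟨hy, hyU⟩

/-- the reduction of an element which is integral over a subring of `⟨A, j⟩` lies in `U` as soon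
as the reductions of the constants and of `j` do. -/
theorem h82g_red_mem (W : Subring F) (hAW : ∀ a : A, algebraMap A F a ∈ W)
    (ρ : W →+* κ) (U : ValuationSubring κ)
    (hAU : ∀ a : A, ρ ⟨algebraMap A F a, hAW a⟩ ∈ U)
    (j : F) (hjW : j ∈ W) (hjU : ρ ⟨j, hjW⟩ ∈ U)
    (R : Subring F) (hR : R ≤ Subring.closure (Set.range (algebraMap A F) ∪ {j}))
    (b : F) (hbW : b ∈ W) (hb : IsIntegral R b) : ρ ⟨b, hbW⟩ ∈ U := by
  have hRW : R ≤ W := fun r hr =>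
    (h82g_red_mem_closure W hAW ρ U hAU j hjW hjU r (hR hr)).1
  refine h82g_red_mem_of_integral W ρ U R hRW (fun r hr => ?_) b hbW hb
  exact (h82g_red_mem_closure W hAW ρ U hAU j hjW hjU r (hR hr)).2

/-- the centre on the chart `B` of a valuation ring `U` of `κ` containing the reductions of
`B`: the elements whose reduction is not a unit of `U`. -/
def h82gCentre (W : Subring F) (ρ : W →+* κ) (U : ValuationSubring κ) (B : Subalgebra A F)
    (hBW : ∀ b ∈ B, b ∈ W) (hBU : ∀ (b : F) (hb : b ∈ B), ρ ⟨b, hBW b hb⟩ ∈ U) : Ideal B :=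
  (maximalIdeal U).comap
    ((ρ.comp (Subring.inclusion (S := B.toSubring) (T := W) hBW)).codRestrict U.toSubring
      (fun b => hBU b.1 b.2))

theorem h82g_mem_centre (W : Subring F) (ρ : W →+* κ) (U : ValuationSubring κ)
    (B : Subalgebra A F) (hBW : ∀ b ∈ B, b ∈ W)
    (hBU : ∀ (b : F) (hb : b ∈ B), ρ ⟨b, hBW b hb⟩ ∈ U) (b : B) :
    b ∈ h82gCentre W ρ U B hBW hBU ↔ (ρ ⟨(b : F), hBW _ b.2⟩)⁻¹ ∉ U ∨
      ρ ⟨(b : F), hBW _ b.2⟩ = 0 := by
  unfold h82gCentre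
  rw [Ideal.mem_comap, IsLocalRing.mem_maximalIdeal, mem_nonunits_iff]
  set y : κ := ρ ⟨(b : F), hBW _ b.2⟩ with hy
  have hyU : y ∈ U := hBU _ b.2
  have hcoe : (((ρ.comp (Subring.inclusion (S := B.toSubring) (T := W) hBW)).codRestrict
      U.toSubring (fun b => hBU b.1 b.2)) b : κ) = y := rfl
  constructor
  · intro hnu
    by_cases h0 : y = 0
    · exact Or.inr h0
    · left
      intro hinv
      apply hnu
      refine ⟨⟨⟨y, hyU⟩, ⟨y⁻¹, hinv⟩, ?_, ?_⟩, ?_⟩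
      · exact Subtype.ext (mul_inv_cancel₀ h0)
      · exact Subtype.ext (inv_mul_cancel₀ h0)
      · exact Subtype.ext hcoe.symm
  · rintro (hinv | h0) hu
    · obtain ⟨u, hu⟩ := hu
      apply hinv
      have h1 : ((u : U) : κ) = y := by rw [hu]; exact hcoe
      have h2 : ((↑u⁻¹ : U) : κ) = y⁻¹ := by
        have h3 : ((u : U) : κ) * ((↑u⁻¹ : U) : κ) = 1 := by
          have h4 : ((u : U) * (↑u⁻¹ : U) : U) = 1 := Units.mul_inv u
          have h5 := congrArg (Subtype.val : U → κ) h4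
          exact h5
        rw [h1] at h3
        exact eq_inv_of_mul_eq_one_right h3
      rw [← h2]
      exact (↑u⁻¹ : U).2
    · have h1 : ((ρ.comp (Subring.inclusion (S := B.toSubring) (T := W) hBW)).codRestrict
          U.toSubring (fun b => hBU b.1 b.2)) b = 0 := Subtype.ext (by rw [hcoe, h0]; rfl)
      rw [h1] at hu
      exact not_isUnit_zero hu

/-- the centre lies on the component. -/
theorem h82g_centre_comp (W : Subring F) (ρ : W →+* κ) (U : ValuationSubring κ)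
    (B : Subalgebra A F) (hBW : ∀ b ∈ B, b ∈ W)
    (hBU : ∀ (b : F) (hb : b ∈ B), ρ ⟨b, hBW b hb⟩ ∈ U) (b : B)
    (hb : ρ ⟨(b : F), hBW _ b.2⟩ = 0) : b ∈ h82gCentre W ρ U B hBW hBU :=
  (h82g_mem_centre W ρ U B hBW hBU b).mpr (Or.inr hb)

/-- the reduction of an element outside the centre is a unit of `U`. -/
theorem h82g_inv_mem_of_not_mem (W : Subring F) (ρ : W →+* κ) (U : ValuationSubring κ)
    (B : Subalgebra A F) (hBW : ∀ b ∈ B, b ∈ W)
    (hBU : ∀ (b : F) (hb : b ∈ B), ρ ⟨b, hBW b hb⟩ ∈ U) (b : B)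
    (hb : b ∉ h82gCentre W ρ U B hBW hBU) :
    (ρ ⟨(b : F), hBW _ b.2⟩)⁻¹ ∈ U ∧ ρ ⟨(b : F), hBW _ b.2⟩ ≠ 0 := by
  rw [h82g_mem_centre, not_or, not_not] at hb
  exact hb

/-- **the centre is a maximal ideal**, if the place has degree one. -/
theorem h82g_centre_isMaximal (W : Subring F) (hAW : ∀ a : A, algebraMap A F a ∈ W)
    (ρ : W →+* κ) (hρm : ∀ m ∈ maximalIdeal A, ρ ⟨algebraMap A F m, hAW m⟩ = 0)
    (U : ValuationSubring κ)
    (hdeg : ∀ y ∈ U, ∃ a : A, (y - ρ ⟨algebraMap A F a, hAW a⟩)⁻¹ ∉ U ∨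
      y - ρ ⟨algebraMap A F a, hAW a⟩ = 0)
    (B : Subalgebra A F) (hBW : ∀ b ∈ B, b ∈ W)
    (hBU : ∀ (b : F) (hb : b ∈ B), ρ ⟨b, hBW b hb⟩ ∈ U) :
    (h82gCentre W ρ U B hBW hBU).IsMaximal := by
  have hprime : (h82gCentre W ρ U B hBW hBU).IsPrime := by
    unfold h82gCentre
    exact Ideal.comap_isPrime _ _
  rw [Ideal.isMaximal_iff]
  refine ⟨(Ideal.ne_top_iff_one _).mp hprime.ne_top, ?_⟩
  intro J x hJ hx hxJ
  obtain ⟨a, ha⟩ := hdeg _ (hBU _ x.2)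
  -- `x - a` lies in the centre
  have hxa : x - algebraMap A B a ∈ h82gCentre W ρ U B hBW hBU := by
    rw [h82g_mem_centre]
    have e : (⟨((x - algebraMap A B a : B) : F), hBW _ (x - algebraMap A B a).2⟩ : W) =
        ⟨(x : F), hBW _ x.2⟩ - ⟨algebraMap A F a, hAW a⟩ := Subtype.ext rfl
    rw [e, map_sub]
    exact ha
  -- `a` is a unit
  have hau : IsUnit a := by
    by_contra hna
    have ham : a ∈ maximalIdeal A := (IsLocalRing.mem_maximalIdeal a).mpr hna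
    apply hx
    rw [h82g_mem_centre]
    rw [hρm a ham, sub_zero] at ha
    exact ha
  obtain ⟨u, rfl⟩ := hau
  have haJ : algebraMap A B (u : A) ∈ J := by
    have := J.sub_mem hxJ (hJ hxa)
    simpa using this
  have h1 : (1 : B) = algebraMap A B (↑u⁻¹ : A) * algebraMap A B (u : A) := by
    rw [← map_mul, Units.inv_mul, map_one]
  rw [h1]
  exact J.mul_mem_left _ haJ

/-- the reduction of an element of the local ring at the centre lies in `U`. -/
theorem h82g_local_mem (W : Subring F) (ρ : W →+* κ) (U : ValuationSubring κ)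
    (B : Subalgebra A F) (hBW : ∀ b ∈ B, b ∈ W)
    (hBU : ∀ (b : F) (hb : b ∈ B), ρ ⟨b, hBW b hb⟩ ∈ U)
    (o : F) (hoW : o ∈ W) (s : B) (hs : s ∉ h82gCentre W ρ U B hBW hBU)
    (hso : (s : F) * o ∈ B) : ρ ⟨o, hoW⟩ ∈ U := by
  obtain ⟨hinv, hne⟩ := h82g_inv_mem_of_not_mem W ρ U B hBW hBU s hs
  have h1 : ρ ⟨(s : F) * o, hBW _ hso⟩ = ρ ⟨(s : F), hBW _ s.2⟩ * ρ ⟨o, hoW⟩ := by
    rw [← map_mul]; rfl
  have h2 : ρ ⟨o, hoW⟩ = (ρ ⟨(s : F), hBW _ s.2⟩)⁻¹ * ρ ⟨(s : F) * o, hBW _ hso⟩ := by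
    rw [h1, ← mul_assoc, inv_mul_cancel₀ hne, one_mul]
  rw [h2]
  exact U.mul_mem _ _ hinv (hBU _ hso)

/-- **GLOB0, abstract form**: a function which is regular (modulo `𝔪_A W`) at every closed
point of the component is constant modulo `𝔪_A W`. -/
theorem h82g_glob0 (W : Subring F) (hAW : ∀ a : A, algebraMap A F a ∈ W)
    (ρ : W →+* κ) (hρm : ∀ m ∈ maximalIdeal A, ρ ⟨algebraMap A F m, hAW m⟩ = 0)
    (hker : ∀ x : W, ρ x = 0 → (x : F) ∈ h82wM A W)
    {Pl : Type*} (U : Pl → ValuationSubring κ)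
    (hAU : ∀ Q (a : A), ρ ⟨algebraMap A F a, hAW a⟩ ∈ U Q)
    (hconst : ∀ y : κ, (∀ Q, y ∈ U Q) → ∃ a : A, y = ρ ⟨algebraMap A F a, hAW a⟩)
    (hdeg : ∀ Q, ∀ y ∈ U Q, ∃ a : A, (y - ρ ⟨algebraMap A F a, hAW a⟩)⁻¹ ∉ U Q ∨
      y - ρ ⟨algebraMap A F a, hAW a⟩ = 0)
    (j : F) (hj0 : j ≠ 0) (B₀ Binf : Subalgebra A F)
    (hB₀W : ∀ b ∈ B₀, b ∈ W) (hBinfW : ∀ b ∈ Binf, b ∈ W)
    (hj₀ : j ∈ B₀) (hjinf : j⁻¹ ∈ Binf)
    (R₀ Rinf : Subring F)
    (hR₀ : R₀ ≤ Subring.closure (Set.range (algebraMap A F) ∪ {j}))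
    (hRinf : Rinf ≤ Subring.closure (Set.range (algebraMap A F) ∪ {j⁻¹}))
    (hint₀ : ∀ b ∈ B₀, IsIntegral R₀ b) (hintinf : ∀ b ∈ Binf, IsIntegral Rinf b)
    (f : F) (hf : f ∈ W)
    (hreg₀ : ∀ 𝔫 : Ideal B₀, 𝔫.IsMaximal →
      (∀ b : B₀, ρ ⟨(b : F), hB₀W _ b.2⟩ = 0 → b ∈ 𝔫) →
      ∃ o : F, (∃ s : B₀, s ∉ 𝔫 ∧ (s : F) * o ∈ B₀) ∧ f - o ∈ h82wM A W)
    (hreginf : ∀ 𝔫 : Ideal Binf, 𝔫.IsMaximal →
      (∀ b : Binf, ρ ⟨(b : F), hBinfW _ b.2⟩ = 0 → b ∈ 𝔫) →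
      (⟨j⁻¹, hjinf⟩ : Binf) ∈ 𝔫 →
      ∃ o : F, (∃ s : Binf, s ∉ 𝔫 ∧ (s : F) * o ∈ Binf) ∧ f - o ∈ h82wM A W) :
    ∃ a : A, f - algebraMap A F a ∈ h82wM A W := by
  classical
  -- reduction kills `𝔪 W`
  have hρM : ∀ (x : F) (hx : x ∈ W), x ∈ h82wM A W → ρ ⟨x, hx⟩ = 0 := by
    rintro x hx ⟨m, hm, y, hy, rfl⟩
    have e : (⟨algebraMap A F m * y, hx⟩ : W) = ⟨algebraMap A F m, hAW m⟩ * ⟨y, hy⟩ := rfl
    rw [e, map_mul, hρm m hm, zero_mul]
  -- the reduction of `f` is regular at every place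
  have hregQ : ∀ Q, ρ ⟨f, hf⟩ ∈ U Q := by
    intro Q
    -- a general step: a chart whose reductions lie in `U Q`
    have step : ∀ (B : Subalgebra A F) (hBW : ∀ b ∈ B, b ∈ W)
        (hBU : ∀ (b : F) (hb : b ∈ B), ρ ⟨b, hBW b hb⟩ ∈ U Q),
        (∃ o : F, (∃ s : B, s ∉ h82gCentre W ρ (U Q) B hBW hBU ∧ (s : F) * o ∈ B) ∧
          f - o ∈ h82wM A W) → ρ ⟨f, hf⟩ ∈ U Q := by
      rintro B hBW hBU ⟨o, ⟨s, hs, hso⟩, hfo⟩
      have hoW : o ∈ W := by
        have := W.sub_mem hf (h82w_M_le hAW hfo)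
        simpa using this
      have h1 := h82g_local_mem W ρ (U Q) B hBW hBU o hoW s hs hso
      have h2 : ρ ⟨f, hf⟩ = ρ ⟨o, hoW⟩ := by
        have h3 := hρM (f - o) (W.sub_mem hf hoW) hfo
        have e : (⟨f - o, W.sub_mem hf hoW⟩ : W) = ⟨f, hf⟩ - ⟨o, hoW⟩ := rfl
        rw [e, map_sub, sub_eq_zero] at h3
        exact h3
      rw [h2]; exact h1
    have hjW : j ∈ W := hB₀W _ hj₀
    have hjiW : j⁻¹ ∈ W := hBinfW _ hjinf
    rcases (U Q).mem_or_inv_mem (ρ ⟨j, hjW⟩) with hjU | hjU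
    · -- `Q` is finite on `j`
      have hBU : ∀ (b : F) (hb : b ∈ B₀), ρ ⟨b, hB₀W b hb⟩ ∈ U Q := fun b hb =>
        h82g_red_mem W hAW ρ (U Q) (hAU Q) j hjW hjU R₀ hR₀ b (hB₀W b hb) (hint₀ b hb)
      exact step B₀ hB₀W hBU
        (hreg₀ _ (h82g_centre_isMaximal W hAW ρ hρm (U Q) (hdeg Q) B₀ hB₀W hBU)
          (fun b hb => h82g_centre_comp W ρ (U Q) B₀ hB₀W hBU b hb))
    · -- `Q` is a pole of `j`
      have hmul : ρ ⟨j, hjW⟩ * ρ ⟨j⁻¹, hjiW⟩ = 1 := by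
        rw [← map_mul]
        have e : (⟨j, hjW⟩ : W) * ⟨j⁻¹, hjiW⟩ = 1 := Subtype.ext (mul_inv_cancel₀ hj0)
        rw [e, map_one]
      have hinv : ρ ⟨j⁻¹, hjiW⟩ = (ρ ⟨j, hjW⟩)⁻¹ := eq_inv_of_mul_eq_one_right hmul
      have hjiU : ρ ⟨j⁻¹, hjiW⟩ ∈ U Q := by rw [hinv]; exact hjU
      have hBU : ∀ (b : F) (hb : b ∈ Binf), ρ ⟨b, hBinfW b hb⟩ ∈ U Q := fun b hb =>
        h82g_red_mem W hAW ρ (U Q) (hAU Q) j⁻¹ hjiW hjiU Rinf hRinf b (hBinfW b hb)
          (hintinf b hb)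
      by_cases hcusp : (⟨j⁻¹, hjinf⟩ : Binf) ∈ h82gCentre W ρ (U Q) Binf hBinfW hBU
      · exact step Binf hBinfW hBU
          (hreginf _ (h82g_centre_isMaximal W hAW ρ hρm (U Q) (hdeg Q) Binf hBinfW hBU)
            (fun b hb => h82g_centre_comp W ρ (U Q) Binf hBinfW hBU b hb) hcusp)
      · -- `j⁻¹` is a unit at `Q`: `Q` is finite on `j`
        obtain ⟨hu, -⟩ := h82g_inv_mem_of_not_mem W ρ (U Q) Binf hBinfW hBU _ hcusp
        have hjU' : ρ ⟨j, hjW⟩ ∈ U Q := by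
          have e : ρ ⟨j, hjW⟩ = (ρ ⟨j⁻¹, hjiW⟩)⁻¹ := by rw [hinv, inv_inv]
          rw [e]; exact hu
        have hBU₀ : ∀ (b : F) (hb : b ∈ B₀), ρ ⟨b, hB₀W b hb⟩ ∈ U Q := fun b hb =>
          h82g_red_mem W hAW ρ (U Q) (hAU Q) j hjW hjU' R₀ hR₀ b (hB₀W b hb) (hint₀ b hb)
        exact step B₀ hB₀W hBU₀
          (hreg₀ _ (h82g_centre_isMaximal W hAW ρ hρm (U Q) (hdeg Q) B₀ hB₀W hBU₀)
            (fun b hb => h82g_centre_comp W ρ (U Q) B₀ hB₀W hBU₀ b hb))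
  obtain ⟨a, ha⟩ := hconst _ hregQ
  refine ⟨a, ?_⟩
  have h1 : ρ (⟨f - algebraMap A F a, W.sub_mem hf (hAW a)⟩ : W) = 0 := by
    have e : (⟨f - algebraMap A F a, W.sub_mem hf (hAW a)⟩ : W) =
        ⟨f, hf⟩ - ⟨algebraMap A F a, hAW a⟩ := rfl
    rw [e, map_sub, ha, sub_self]
  exact hker _ h1

end Glob0

end Fermat.Agent.P7
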