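import Fermat.Agent.P7.H82Glob0
import Fermat.Agent.P7.H60ClassInf
import Fermat.Agent.P5.H40SFConst
import Fermat.Agent.P6.H62PuritySmInst
import Fermat.Agent.S24.LemmaE
import Fermat.Agent.Red.GGInst

/-!
# W7 (S40), block (5b) T-CONST, leaf C4 H0, hypothesis GLOB0 at the LEVEL, component `C_∞`
(helper82)

`p` a prime, `M` a good level (`p ∤ M`, `auxLevel p ∣ M`), `A` a valuation subring of `ℚ̄` over
`p`, `W_∞ = softV A (M p)`, `B₀ = chart (M p) A (jSS M p)` the finite chart,
`B∞ = chart (M p) A (jSS M p)⁻¹` the chart at infinity, `P∞ = h62i_Pinf` the component `C_∞` of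
the special fibre of the finite chart.

* `h82i_glob0_inf` : **GLOB0 on `C_∞`.**  If `f ∈ W_∞` is congruent modulo `𝔪_A W_∞` to an element
  of the local ring `B_𝔫` at every maximal ideal `𝔫 ⊇ P∞` of the finite chart, and at every
  maximal ideal `𝔫` of the chart at infinity which contains `1 / j` and the non-units of `W_∞`
  (the cusps of `C_∞`), then `f` is congruent to a constant modulo `𝔪_A W_∞`.

Proof: the abstract `h82g_glob0` (`P7/H82Glob0.lean`) with `ρ = h60bRedInf` (helper60/helper26: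
the residue field of `W_∞` is the function field `F~ = h13sFt A M` of the special fibre of level
`M`), the places of `F~` (degree one, and `regular everywhere ⟹ constant`: `P5/H40SFConst`).
-/

set_option autoImplicit false
set_option linter.unusedSectionVars false
set_option linter.unusedVariables false
set_option linter.style.longLine false
set_option linter.style.haveILetI false
set_option synthInstance.maxHeartbeats 400000

open AlgebraicCurve ModularCurve IsLocalRing

noncomputable section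

namespace Fermat.Agent.P7

open Fermat.Agent.S37 Fermat.Agent.Red Fermat.Agent.Red.GG Fermat.Agent.Red.GV
  Fermat.Agent.Red.GV.Soft Fermat.Agent.Red.ModelO Fermat.Agent.LGC Fermat.Agent.P5
  Fermat.Agent.P6

variable {M : ℕ} [NeZero M] {A : ValuationSubring Kbar} {p : ℕ} [NeZero p]

/-- the constants are Gauss-integral. -/
theorem h82i_alg_mem (N : ℕ) (a : A) : algebraMap A (FF N) a ∈ softV A N :=
  (cst_mem_softV_iff A N _).mpr a.2

/-- the reduction at `W_∞` of a constant. -/
theorem h82i_red_alg (hp : p.Prime) (hM : ¬ p ∣ M) (hA : A.LiesOverPrime p) (a : A) :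
    h60bRedInf hp hM hA ⟨algebraMap A (FF (M * p)) a, h82i_alg_mem (M * p) a⟩ =
      algebraMap (h13sK A) (h13sFt A M) (h13sPi A a) :=
  h60b_redInf_cst hp hM hA a _

/-- the ring `A[t]` is generated by the constants and `t`. -/
theorem h82i_ringAdj_le (N : ℕ) (t : FF N) :
    ringAdj N A t ≤ Subring.closure (Set.range (algebraMap A (FF N)) ∪ {t}) := by
  unfold ringAdj
  apply Subring.closure_mono
  rintro x (⟨a, ha, rfl⟩ | hx)
  · exact Or.inl ⟨⟨a, ha⟩, rfl⟩
  · exact Or.inr hx

/-- the elements of a chart are integral over `A[t]`. -/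
theorem h82i_isIntegral (N : ℕ) (t : FF N) (b : FF N) (hb : b ∈ chart N A t) :
    IsIntegral (ringAdj N A t) b := hb

/-- the kernel of the reduction at `W_∞` is `𝔪_A W_∞`. -/
theorem h82i_ker (hp : p.Prime) (hM : ¬ p ∣ M) (hA : A.LiesOverPrime p)
    (x : softV A (M * p)) (hx : h60bRedInf hp hM hA x = 0) :
    (x : FF (M * p)) ∈ h82wM A (softV A (M * p)) := by
  rw [h60b_redInf_eq_zero_iff, softR_eq_zero_iff] at hx
  rcases hx with h0 | hinv
  · rw [h0]; exact h82w_M_zero _
  · rcases h62y_Winf_val A hp hA (M * p) _ x.2 with h1 | ⟨m, hm, y, hy, he⟩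
    · exact absurd h1 hinv
    · exact ⟨m, hm, y, hy, he⟩

/-- **GLOB0 on the component `C_∞`**: a function of `W_∞` which is regular modulo `𝔪_A W_∞` at
every closed point of `C_∞` is constant modulo `𝔪_A W_∞`. -/
theorem h82i_glob0_inf (hp : p.Prime) (hM : ¬ p ∣ M) (haux : auxLevel p ∣ M)
    (hA : A.LiesOverPrime p) (f : FF (M * p)) (hf : f ∈ softV A (M * p))
    (hreg₀ : ∀ 𝔫 : Ideal (chart (M * p) A (jSS M p)), 𝔫.IsMaximal →
      h62i_Pinf A M hp hM hA ≤ 𝔫 →
      ∃ o : FF (M * p), (∃ s : chart (M * p) A (jSS M p), s ∉ 𝔫 ∧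
        (s : FF (M * p)) * o ∈ chart (M * p) A (jSS M p)) ∧
        f - o ∈ h82wM A (softV A (M * p)))
    (hreginf : ∀ 𝔫 : Ideal (chart (M * p) A (jSS M p)⁻¹), 𝔫.IsMaximal →
      (∀ b : chart (M * p) A (jSS M p)⁻¹, (b : FF (M * p))⁻¹ ∉ softV A (M * p) → b ∈ 𝔫) →
      (⟨(jSS M p)⁻¹, h85_self_mem_modelAt (M * p) A (jSS M p)⁻¹⟩ :
        chart (M * p) A (jSS M p)⁻¹) ∈ 𝔫 →
      ∃ o : FF (M * p), (∃ s : chart (M * p) A (jSS M p)⁻¹, s ∉ 𝔫 ∧
        (s : FF (M * p)) * o ∈ chart (M * p) A (jSS M p)⁻¹) ∧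
        f - o ∈ h82wM A (softV A (M * p))) :
    ∃ a : A, f - algebraMap A (FF (M * p)) a ∈ h82wM A (softV A (M * p)) := by
  classical
  have hB₀W : ∀ b ∈ chart (M * p) A (jSS M p), b ∈ softV A (M * p) := fun b hb =>
    h63r_ssV_le_soft hp hA (h44v_hBV_fin A M p hp hM hA b hb)
  have hBinfW : ∀ b ∈ chart (M * p) A (jSS M p)⁻¹, b ∈ softV A (M * p) := fun b hb =>
    h63r_ssV_le_soft hp hA (h44v_hBV_inf A M p hp hM hA b hb)
  refine h82g_glob0 (κ := h13sFt A M) (softV A (M * p)) (h82i_alg_mem (M * p))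
    (h60bRedInf hp hM hA) ?_ (h82i_ker hp hM hA)
    (fun Q : Place (h13sK A) (h13sFt A M) => Q.toValuationSubring) ?_ ?_ ?_
    (jSS M p) (h31o_jSS_ne_zero M p) (chart (M * p) A (jSS M p)) (chart (M * p) A (jSS M p)⁻¹)
    hB₀W hBinfW (h85_self_mem_modelAt (M * p) A (jSS M p))
    (h85_self_mem_modelAt (M * p) A (jSS M p)⁻¹)
    (ringAdj (M * p) A (jSS M p)) (ringAdj (M * p) A (jSS M p)⁻¹)
    (h82i_ringAdj_le (M * p) _) (h82i_ringAdj_le (M * p) _)
    (h82i_isIntegral (M * p) _) (h82i_isIntegral (M * p) _) f hf ?_ ?_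
  · -- the reduction kills `𝔪_A`
    intro m hm
    rw [h82i_red_alg]
    have h0 : h13sPi A m = 0 := (IsLocalRing.residue_eq_zero_iff m).mpr hm
    rw [h0, map_zero]
  · -- constants are regular
    intro Q a
    rw [h82i_red_alg]
    exact Q.algebraMap_mem' _
  · -- regular everywhere implies constant
    intro y hy
    obtain ⟨c, hc⟩ := h40c_const_sf A M hp hM haux hA y
      (fun v => Fermat.Agent.S24.DiffPlace.ord_nonneg_of_mem v (hy v))
    obtain ⟨a, ha⟩ := h40f_pi_surjective (A := A) c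
    refine ⟨a, ?_⟩
    rw [h82i_red_alg, ha, hc]
  · -- the places have degree one
    intro Q y hy
    obtain ⟨c, hc⟩ := Fermat.Agent.S24.h33_exists_const_sub_mem Q
      (h40c_deg_one_sf A M hp hM haux hA Q) ⟨y, hy⟩
    obtain ⟨a, ha⟩ := h40f_pi_surjective (A := A) c
    refine ⟨a, ?_⟩
    rw [h82i_red_alg, ha]
    by_cases h0 : y - algebraMap (h13sK A) (h13sFt A M) c = 0
    · exact Or.inr h0
    · left
      have hnu : y - algebraMap (h13sK A) (h13sFt A M) c ∈ Q.toValuationSubring.nonunits := by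
        have h1 : ((⟨y, hy⟩ - algebraMap (h13sK A) Q.toValuationSubring c :
            Q.toValuationSubring) : h13sFt A M) = y - algebraMap (h13sK A) (h13sFt A M) c := rfl
        rw [← h1, ValuationSubring.coe_mem_nonunits_iff]
        exact hc
      exact (GalI.mem_nonunits_iff_inv _ h0).mp hnu
  · -- the finite chart
    intro 𝔫 h𝔫 hcomp
    refine hreg₀ 𝔫 h𝔫 ?_
    intro b hb
    apply hcomp
    rw [h60b_redInf_eq_zero_iff]
    exact (h62i_mem_Pinf_iff_softR A M hp hM hA b).mp hb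
  · -- the chart at infinity
    intro 𝔫 h𝔫 hcomp hcusp
    refine hreginf 𝔫 h𝔫 ?_ hcusp
    intro b hb
    apply hcomp
    rw [h60b_redInf_eq_zero_iff, softR_eq_zero_iff]
    exact Or.inr hb

end Fermat.Agent.P7
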