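import Fermat.Agent.P7.H78ChartLevel
import Fermat.Agent.P7.H63Glob0Zero

/-!
# W7 (S40/S44), block (5b) T-CONST, leaf C4 H0: the two frozen GLOB0 Props of the level chart
(helper82)

`H78lGlobInf`, `H78lGlobZero` (`P7/H78ChartIface.lean`, helper78) are the only hypotheses of the
level instance `h78l_chart : H78hChart …` of the chart datum of the global `H⁰` argument.  They
follow from the landed level instances `h63g_glob0_inf`, `h63g_glob0_zero` (helper63) of the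
abstract `h82g_glob0` (`P7/H82Glob0.lean`).

* `h82j_globInf : H78lGlobInf A M hℓ hM hA`, `h82j_globZero : H78lGlobZero A M hℓ hM hA`
  (good level: `auxLevel ℓ ∣ M`);
* `h82j_chart` : **the level instance of `H78hChart`, UNCONDITIONAL.**
-/

set_option autoImplicit false
set_option linter.unusedSectionVars false
set_option linter.unusedVariables false
set_option linter.style.longLine false
set_option linter.style.haveILetI false
set_option synthInstance.maxHeartbeats 400000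

open AlgebraicCurve ModularCurve WithZero IsLocalRing

noncomputable section

namespace Fermat.Agent.P7

open Fermat.Agent.S37 Fermat.Agent.Red Fermat.Agent.Red.GG Fermat.Agent.Red.GV
  Fermat.Agent.Red.GV.Soft Fermat.Agent.Red.Kron Fermat.Agent.Red.KR Fermat.Agent.Red.ModelO
  Fermat.Agent.LGC Fermat.Agent.S35 Fermat.Agent.P6

variable (A : ValuationSubring Kbar) (M : ℕ) {ℓ : ℕ} [NeZero M] [NeZero ℓ]
  (hℓ : ℓ.Prime) (hM : ¬ ℓ ∣ M) (hA : A.LiesOverPrime ℓ)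

/-- a non-unit of `W∞` lying in `W∞` is in `𝔪_A W∞`. -/
theorem h82j_nonunit_inf (x : FF (M * ℓ)) (hx : x ∈ (softRing A (M * ℓ) hℓ hA).nonunits) :
    x ∈ h82wM A (softV A (M * ℓ)) := by
  by_cases hx0 : x = 0
  · rw [hx0]; exact h82w_M_zero _
  have hxV : x ∈ softV A (M * ℓ) := GalI.nonunits_le _ hx
  rcases h62y_Winf_val A hℓ hA (M * ℓ) x hxV with h1 | ⟨m, hm, y, hy, he⟩
  · exact absurd h1 ((GalI.mem_nonunits_iff_inv _ hx0).mp hx)
  · exact ⟨m, hm, y, hy, he⟩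

/-- a non-unit of `W₀` is in `𝔪_A W₀`. -/
theorem h82j_nonunit_zero (x : FF (M * ℓ))
    (hx : kFricke M ℓ hℓ hM x ∈ (softRing A (M * ℓ) hℓ hA).nonunits) :
    x ∈ h82wM A (h85cW0 A M ℓ hℓ hM hA).toSubring := by
  by_cases hx0 : x = 0
  · rw [hx0]; exact h82w_M_zero _
  have hnu : x ∈ (h85cW0 A M ℓ hℓ hM hA).nonunits :=
    (h85c_mem_W0_nonunits_iff A M ℓ hℓ hM hA x).mpr hx
  have hxV : x ∈ (h85cW0 A M ℓ hℓ hM hA).toSubring := GalI.nonunits_le _ hnu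
  rcases h62y_W0_val A M hℓ hM hA x hxV with h1 | ⟨m, hm, y, hy, he⟩
  · exact absurd h1 ((GalI.mem_nonunits_iff_inv _ hx0).mp hnu)
  · exact ⟨m, hm, y, hy, he⟩

/-- **GLOB0 on `C∞`**, frozen form. -/
theorem h82j_globInf (haux : auxLevel ℓ ∣ M) : H78lGlobInf A M hℓ hM hA := by
  intro f hf hfin hcusp
  have hC₁ : IfaceSSChart A M ℓ (jSS M ℓ)⁻¹ := h85s_ifaceSSChart_inf A M ℓ hℓ hM hA
  refine h63g_glob0_inf hℓ hM haux hA f hf ?_ ?_
  · intro 𝔫 h𝔫 hcomp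
    obtain ⟨o, ho, hfo⟩ := hfin 𝔫 h𝔫 (fun b hb => hcomp b
      (h82j_nonunit_inf A M hℓ hA _ ((h62i_mem_Pinf A M hℓ hM hA b).mp hb)))
    exact ⟨o, ho, hfo⟩
  · intro 𝔫 h𝔫 hcomp hV
    obtain ⟨o, ho, hfo⟩ := hcusp 𝔫 h𝔫 (fun b hb => hcomp b
      (h82j_nonunit_inf A M hℓ hA _ ((h85c_mem_Pinf_iff A M ℓ hℓ hA hC₁).mp hb))) hV
    exact ⟨o, ho, hfo⟩

/-- **GLOB0 on `C₀`**, frozen form. -/
theorem h82j_globZero (haux : auxLevel ℓ ∣ M) : H78lGlobZero A M hℓ hM hA := by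
  intro f hf hfin hcusp
  have hC₁ : IfaceSSChart A M ℓ (jSS M ℓ)⁻¹ := h85s_ifaceSSChart_inf A M ℓ hℓ hM hA
  refine h63g_glob0_zero hℓ hM haux hA f hf ?_ ?_
  · intro 𝔫 h𝔫 hcomp
    obtain ⟨o, ho, hfo⟩ := hfin 𝔫 h𝔫 (fun b hb => hcomp b
      (h82j_nonunit_zero A M hℓ hM hA _ ((h62i_mem_P0 A M hℓ hM hA b).mp hb)))
    exact ⟨o, ho, hfo⟩
  · intro 𝔫 h𝔫 hcomp hV
    obtain ⟨o, ho, hfo⟩ := hcusp 𝔫 h𝔫 (fun b hb => hcomp b
      (h82j_nonunit_zero A M hℓ hM hA _ ((h85c_mem_P0_iff A M ℓ hℓ hM hA hC₁).mp hb))) hV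
    exact ⟨o, ho, hfo⟩

/-- **the level instance of the chart datum `H78hChart` of the global `H⁰` argument,
UNCONDITIONAL** (good level). -/
theorem h82j_chart (haux : auxLevel ℓ ∣ M) :
    H78hChart A (softV A (M * ℓ)) (h85cW0 A M ℓ hℓ hM hA).toSubring
      (h78lOinf A M hℓ hM hA) (h78lOzero A M hℓ hM hA) (h78lOe A M hℓ hM hA) :=
  h78l_chart A M hℓ hM hA haux (h82j_globInf A M hℓ hM hA haux)
    (h82j_globZero A M hℓ hM hA haux)

end Fermat.Agent.P7
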