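import Fermat.Agent.P7.H82H0Abs
import Fermat.Agent.P7.H91Poly

/-!
# W7 (S40), block (5b) T-CONST, leaf C4 H0: the abstract `H⁰` argument, TWO-SIDED node form
with EXPORT (helper82)

Same setting as `P7/H82H0Abs.lean`.  The node datum (L2) is taken in the two-sided form (no
partition of unity):

  `w = o (1 + D₀ T)`, `o ∈ O_e`, `T ∈ 𝔪 W₁`, `T - ψ_e ∈ 𝔪 W₂`,

or, in the vocabulary of `P7/H91Poly.lean` (shape requested by C5, helper84):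

  `w = o X`, `o ∈ O_e`, `X ∈ 1 + D₀ 𝔪 W₁`, `X (1 + D₀ ψ_e)⁻¹ ∈ 1 + D₀ 𝔪 W₂`.

* `h82w_h0_two_core` : EXPORT form: if there is a node, `w = a₀ + D₀ G`, `G ≡ f₁` modulo `𝔪 W₁`,
  `G ≡ f₂` modulo `𝔪 W₂`, and `f₂ - f₁ ≡ ψ_e` modulo `𝔪` at EVERY node `e`.
* `h82w_h0_two` : `ψ_e ≡ ψ_e'` modulo `𝔪`.
* `h82w_h0_U_export`, `h82w_h0_U` : the same in the `h91yU` vocabulary.
* `h82w_h0_U_disc` : with the discreteness hypotheses of `h82w_depth` instead of the exact depth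
  dichotomy.

Every declaration is a proved theorem; nothing is assumed.
-/

set_option autoImplicit false
set_option linter.unusedSectionVars false
set_option linter.unusedVariables false

open IsLocalRing

namespace Fermat.Agent.P7

open Fermat.Agent.Red

section H0

variable {A : Type*} [CommRing A] [IsDomain A] [ValuationRing A]
  {F : Type*} [Field F] [Algebra A F]

/-- **C4 H0, two-sided node form, EXPORT.** -/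
theorem h82w_h0_two_core
    (W₁ W₂ : Subring F)
    (hA₁ : ∀ a : A, algebraMap A F a ∈ W₁) (hA₂ : ∀ a : A, algebraMap A F a ∈ W₂)
    {P₁ P₂ E : Type*} (O₁ : P₁ → Subring F) (O₂ : P₂ → Subring F) (On : E → Subring F)
    (hO₁ : ∀ n, O₁ n ≤ W₁) (hO₂ : ∀ n, O₂ n ≤ W₂) (hOn : ∀ e, On e ≤ W₁ ⊓ W₂)
    (hAO₁ : ∀ n (a : A), algebraMap A F a ∈ O₁ n)
    (hAO₂ : ∀ n (a : A), algebraMap A F a ∈ O₂ n)
    (hAOn : ∀ e (a : A), algebraMap A F a ∈ On e)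
    (sat₁ : ∀ n, ∀ a : A, a ≠ 0 → ∀ f ∈ W₁, algebraMap A F a * f ∈ O₁ n → f ∈ O₁ n)
    (sat₂ : ∀ n, ∀ a : A, a ≠ 0 → ∀ f ∈ W₂, algebraMap A F a * f ∈ O₂ n → f ∈ O₂ n)
    (satn : ∀ e, ∀ a : A, a ≠ 0 → ∀ f ∈ W₁ ⊓ W₂, algebraMap A F a * f ∈ On e → f ∈ On e)
    (const₁ : ∀ f ∈ W₁, (∀ n, ∃ o ∈ O₁ n, f - o ∈ h82wM A W₁) →
      (∀ e, ∃ o ∈ On e, f - o ∈ h82wM A W₁) → ∃ a : A, f - algebraMap A F a ∈ h82wM A W₁)
    (const₂ : ∀ f ∈ W₂, (∀ n, ∃ o ∈ O₂ n, f - o ∈ h82wM A W₂) →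
      (∀ e, ∃ o ∈ On e, f - o ∈ h82wM A W₂) → ∃ a : A, f - algebraMap A F a ∈ h82wM A W₂)
    (branch : ∀ e, ∀ o ∈ On e, ∀ a₁ a₂ : A, o - algebraMap A F a₁ ∈ h82wM A W₁ →
      o - algebraMap A F a₂ ∈ h82wM A W₂ → a₁ - a₂ ∈ maximalIdeal A)
    (D₀ : A) (hD₀ : D₀ ≠ 0) (hD₀m : D₀ ∈ maximalIdeal A)
    (w : F) (hw : w - 1 ∈ h82wM A (W₁ ⊓ W₂))
    (ψ : E → A)
    (hL1₁ : ∀ n : P₁, ∃ o ∈ O₁ n, ∃ z ∈ h82wM A W₁, w = o * (1 + algebraMap A F D₀ * z))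
    (hL1₂ : ∀ n : P₂, ∃ o ∈ O₂ n, ∃ z ∈ h82wM A W₂, w = o * (1 + algebraMap A F D₀ * z))
    (hL2 : ∀ e : E, ∃ o ∈ On e, ∃ T : F, T ∈ h82wM A W₁ ∧
      T - algebraMap A F (ψ e) ∈ h82wM A W₂ ∧ w = o * (1 + algebraMap A F D₀ * T))
    (hdepth : H82wDepth (W₁ ⊓ W₂) D₀ w) (e₀ : E) :
    ∃ a₀ f₁ f₂ : A, ∃ G ∈ W₁ ⊓ W₂, w = algebraMap A F a₀ + algebraMap A F D₀ * G ∧
      G - algebraMap A F f₁ ∈ h82wM A W₁ ∧ G - algebraMap A F f₂ ∈ h82wM A W₂ ∧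
      ∀ e : E, f₂ - f₁ - ψ e ∈ maximalIdeal A := by
  classical
  set V : Subring F := W₁ ⊓ W₂ with hV
  have hV₁ : V ≤ W₁ := inf_le_left
  have hV₂ : V ≤ W₂ := inf_le_right
  have hAV : ∀ a : A, algebraMap A F a ∈ V := fun a => ⟨hA₁ a, hA₂ a⟩
  -- the node datum: `T ∈ V`
  have hnode : ∀ e : E, ∃ o ∈ On e, ∃ T ∈ V, T ∈ h82wM A W₁ ∧
      T - algebraMap A F (ψ e) ∈ h82wM A W₂ ∧ w = o * (1 + algebraMap A F D₀ * T) := by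
    intro e
    obtain ⟨o, ho, T, hT₁, hT₂, h⟩ := hL2 e
    refine ⟨o, ho, T, ⟨h82w_M_le hA₁ hT₁, ?_⟩, hT₁, hT₂, h⟩
    have := W₂.add_mem (h82w_M_le hA₂ hT₂) (hA₂ (ψ e))
    simpa using this
  rcases hdepth with ⟨a₀, d₁, c, G, hG, hc, hD, hwG, hnot⟩ | ⟨a₀, G, hG, hwG⟩
  · -- case (i): contradiction
    exfalso
    have hd₁ : d₁ ≠ 0 := by
      rintro rfl
      exact hD₀ (by rw [hD, zero_mul])
    have hreg₁ : ∀ n, ∃ o ∈ O₁ n, G - o ∈ h82wM A W₁ := by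
      intro n
      obtain ⟨o, ho, z, hz, h⟩ := hL1₁ n
      have hzW : z ∈ W₁ := h82w_M_le hA₁ hz
      have hstep := h82w_local_step (hO₁ n) (hAO₁ n) (sat₁ n) hd₁ (hV₁ hG) ho hzW hwG
        (by rw [← hD]; exact h)
      refine ⟨_, hstep, ?_⟩
      have h1 : G - (G - algebraMap A F c * (o * z)) = algebraMap A F c * (o * z) := by ring
      rw [h1]
      exact h82w_M_of hc (W₁.mul_mem (hO₁ n ho) hzW)
    have hreg₂ : ∀ n, ∃ o ∈ O₂ n, G - o ∈ h82wM A W₂ := by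
      intro n
      obtain ⟨o, ho, z, hz, h⟩ := hL1₂ n
      have hzW : z ∈ W₂ := h82w_M_le hA₂ hz
      have hstep := h82w_local_step (hO₂ n) (hAO₂ n) (sat₂ n) hd₁ (hV₂ hG) ho hzW hwG
        (by rw [← hD]; exact h)
      refine ⟨_, hstep, ?_⟩
      have h1 : G - (G - algebraMap A F c * (o * z)) = algebraMap A F c * (o * z) := by ring
      rw [h1]
      exact h82w_M_of hc (W₂.mul_mem (hO₂ n ho) hzW)
    have hregn : ∀ e, ∃ o ∈ On e, G - o ∈ h82wM A V := by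
      intro e
      obtain ⟨o, ho, T, hT, -, -, h⟩ := hnode e
      have hstep := h82w_local_step (hOn e) (hAOn e) (satn e) hd₁ hG ho hT hwG
        (by rw [← hD]; exact h)
      refine ⟨_, hstep, ?_⟩
      have h1 : G - (G - algebraMap A F c * (o * T)) = algebraMap A F c * (o * T) := by ring
      rw [h1]
      exact h82w_M_of hc (V.mul_mem (hOn e ho) hT)
    obtain ⟨f₁, hf₁⟩ := const₁ G (hV₁ hG) hreg₁ (fun e => by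
      obtain ⟨o, ho, h⟩ := hregn e
      exact ⟨o, ho, h82w_M_mono hV₁ h⟩)
    obtain ⟨f₂, hf₂⟩ := const₂ G (hV₂ hG) hreg₂ (fun e => by
      obtain ⟨o, ho, h⟩ := hregn e
      exact ⟨o, ho, h82w_M_mono hV₂ h⟩)
    obtain ⟨o, ho, hGo⟩ := hregn e₀
    have hb := branch e₀ o ho f₁ f₂
      (by
        have h1 : o - algebraMap A F f₁ = (G - algebraMap A F f₁) - (G - o) := by ring
        rw [h1]
        exact h82w_M_sub hA₁ hf₁ (h82w_M_mono hV₁ hGo))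
      (by
        have h1 : o - algebraMap A F f₂ = (G - algebraMap A F f₂) - (G - o) := by ring
        rw [h1]
        exact h82w_M_sub hA₂ hf₂ (h82w_M_mono hV₂ hGo))
    apply hnot
    refine ⟨f₁, h82w_M_inf hA₁ hA₂ hf₁ ?_⟩
    have h1 : G - algebraMap A F f₁ = (G - algebraMap A F f₂) - algebraMap A F (f₁ - f₂) := by
      rw [map_sub]; ring
    rw [h1]
    exact h82w_M_sub hA₂ hf₂ (h82w_M_const hA₂ hb)
  · -- case (ii)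
    have hreg₁ : ∀ n, ∃ o ∈ O₁ n, G - o ∈ h82wM A W₁ := by
      intro n
      obtain ⟨o, ho, z, hz, h⟩ := hL1₁ n
      have hzW : z ∈ W₁ := h82w_M_le hA₁ hz
      have hstep := h82w_local_step (c := 1) (hO₁ n) (hAO₁ n) (sat₁ n) hD₀ (hV₁ hG) ho hzW hwG
        (by rw [mul_one]; exact h)
      refine ⟨_, hstep, ?_⟩
      have h1 : G - (G - algebraMap A F 1 * (o * z)) = o * z := by rw [map_one]; ring
      rw [h1]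
      exact h82w_M_mul (hO₁ n ho) hz
    have hreg₂ : ∀ n, ∃ o ∈ O₂ n, G - o ∈ h82wM A W₂ := by
      intro n
      obtain ⟨o, ho, z, hz, h⟩ := hL1₂ n
      have hzW : z ∈ W₂ := h82w_M_le hA₂ hz
      have hstep := h82w_local_step (c := 1) (hO₂ n) (hAO₂ n) (sat₂ n) hD₀ (hV₂ hG) ho hzW hwG
        (by rw [mul_one]; exact h)
      refine ⟨_, hstep, ?_⟩
      have h1 : G - (G - algebraMap A F 1 * (o * z)) = o * z := by rw [map_one]; ring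
      rw [h1]
      exact h82w_M_mul (hO₂ n ho) hz
    have hregn : ∀ e, ∃ o' ∈ On e, G - o' ∈ h82wM A W₁ ∧
        G - o' - algebraMap A F (ψ e) ∈ h82wM A W₂ := by
      intro e
      obtain ⟨o, ho, T, hT, hT₁, hT₂, h⟩ := hnode e
      have hoV : o ∈ V := hOn e ho
      have hstep := h82w_local_step (c := 1) (hOn e) (hAOn e) (satn e) hD₀ hG ho hT hwG
        (by rw [mul_one]; exact h)
      have ho1 : o - 1 ∈ h82wM A V := by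
        have h1 : o - 1 = (w - 1) - algebraMap A F D₀ * (o * T) := by rw [h]; ring
        rw [h1]
        exact h82w_M_sub hAV hw (h82w_M_of hD₀m (V.mul_mem hoV hT))
      refine ⟨_, hstep, ?_, ?_⟩
      · have h1 : G - (G - algebraMap A F 1 * (o * T)) = o * T := by rw [map_one]; ring
        rw [h1]
        exact h82w_M_mul (hV₁ hoV) hT₁
      · have h1 : G - (G - algebraMap A F 1 * (o * T)) - algebraMap A F (ψ e) =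
            o * (T - algebraMap A F (ψ e)) + (o - 1) * algebraMap A F (ψ e) := by
          rw [map_one]; ring
        rw [h1]
        exact h82w_M_add hA₂ (h82w_M_mul (hV₂ hoV) hT₂)
          (h82w_M_mul' (hA₂ _) (h82w_M_mono hV₂ ho1))
    obtain ⟨f₁, hf₁⟩ := const₁ G (hV₁ hG) hreg₁ (fun e => by
      obtain ⟨o, ho, h, -⟩ := hregn e
      exact ⟨o, ho, h⟩)
    obtain ⟨f₂, hf₂⟩ := const₂ G (hV₂ hG) hreg₂ (fun e => by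
      obtain ⟨o, ho, -, h⟩ := hregn e
      refine ⟨o + algebraMap A F (ψ e), (On e).add_mem ho (hAOn e _), ?_⟩
      have h1 : G - (o + algebraMap A F (ψ e)) = G - o - algebraMap A F (ψ e) := by ring
      rw [h1]; exact h)
    refine ⟨a₀, f₁, f₂, G, hG, hwG, hf₁, hf₂, ?_⟩
    intro e
    obtain ⟨o, ho, h₁, h₂⟩ := hregn e
    have hb := branch e o ho f₁ (f₂ - ψ e)
      (by
        have h1 : o - algebraMap A F f₁ = (G - algebraMap A F f₁) - (G - o) := by ring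
        rw [h1]
        exact h82w_M_sub hA₁ hf₁ h₁)
      (by
        have h1 : o - algebraMap A F (f₂ - ψ e) =
            (G - algebraMap A F f₂) - (G - o - algebraMap A F (ψ e)) := by
          rw [map_sub]; ring
        rw [h1]
        exact h82w_M_sub hA₂ hf₂ h₂)
    have h := (maximalIdeal A).neg_mem hb
    have h1 : -(f₁ - (f₂ - ψ e)) = f₂ - f₁ - ψ e := by ring
    rwa [h1] at h

/-- **C4 H0, two-sided node form.** -/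
theorem h82w_h0_two
    (W₁ W₂ : Subring F)
    (hA₁ : ∀ a : A, algebraMap A F a ∈ W₁) (hA₂ : ∀ a : A, algebraMap A F a ∈ W₂)
    {P₁ P₂ E : Type*} (O₁ : P₁ → Subring F) (O₂ : P₂ → Subring F) (On : E → Subring F)
    (hO₁ : ∀ n, O₁ n ≤ W₁) (hO₂ : ∀ n, O₂ n ≤ W₂) (hOn : ∀ e, On e ≤ W₁ ⊓ W₂)
    (hAO₁ : ∀ n (a : A), algebraMap A F a ∈ O₁ n)
    (hAO₂ : ∀ n (a : A), algebraMap A F a ∈ O₂ n)
    (hAOn : ∀ e (a : A), algebraMap A F a ∈ On e)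
    (sat₁ : ∀ n, ∀ a : A, a ≠ 0 → ∀ f ∈ W₁, algebraMap A F a * f ∈ O₁ n → f ∈ O₁ n)
    (sat₂ : ∀ n, ∀ a : A, a ≠ 0 → ∀ f ∈ W₂, algebraMap A F a * f ∈ O₂ n → f ∈ O₂ n)
    (satn : ∀ e, ∀ a : A, a ≠ 0 → ∀ f ∈ W₁ ⊓ W₂, algebraMap A F a * f ∈ On e → f ∈ On e)
    (const₁ : ∀ f ∈ W₁, (∀ n, ∃ o ∈ O₁ n, f - o ∈ h82wM A W₁) →
      (∀ e, ∃ o ∈ On e, f - o ∈ h82wM A W₁) → ∃ a : A, f - algebraMap A F a ∈ h82wM A W₁)
    (const₂ : ∀ f ∈ W₂, (∀ n, ∃ o ∈ O₂ n, f - o ∈ h82wM A W₂) →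
      (∀ e, ∃ o ∈ On e, f - o ∈ h82wM A W₂) → ∃ a : A, f - algebraMap A F a ∈ h82wM A W₂)
    (branch : ∀ e, ∀ o ∈ On e, ∀ a₁ a₂ : A, o - algebraMap A F a₁ ∈ h82wM A W₁ →
      o - algebraMap A F a₂ ∈ h82wM A W₂ → a₁ - a₂ ∈ maximalIdeal A)
    (D₀ : A) (hD₀ : D₀ ≠ 0) (hD₀m : D₀ ∈ maximalIdeal A)
    (w : F) (hw : w - 1 ∈ h82wM A (W₁ ⊓ W₂))
    (ψ : E → A)
    (hL1₁ : ∀ n : P₁, ∃ o ∈ O₁ n, ∃ z ∈ h82wM A W₁, w = o * (1 + algebraMap A F D₀ * z))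
    (hL1₂ : ∀ n : P₂, ∃ o ∈ O₂ n, ∃ z ∈ h82wM A W₂, w = o * (1 + algebraMap A F D₀ * z))
    (hL2 : ∀ e : E, ∃ o ∈ On e, ∃ T : F, T ∈ h82wM A W₁ ∧
      T - algebraMap A F (ψ e) ∈ h82wM A W₂ ∧ w = o * (1 + algebraMap A F D₀ * T))
    (hdepth : H82wDepth (W₁ ⊓ W₂) D₀ w) :
    ∀ e e' : E, ψ e - ψ e' ∈ maximalIdeal A := by
  intro e e'
  obtain ⟨a₀, f₁, f₂, G, -, -, -, -, h⟩ := h82w_h0_two_core W₁ W₂ hA₁ hA₂ O₁ O₂ On hO₁ hO₂ hOn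
    hAO₁ hAO₂ hAOn sat₁ sat₂ satn const₁ const₂ branch D₀ hD₀ hD₀m w hw ψ hL1₁ hL1₂ hL2
    hdepth e
  have h2 := (maximalIdeal A).sub_mem (h e') (h e)
  have h1 : f₂ - f₁ - ψ e' - (f₂ - f₁ - ψ e) = ψ e - ψ e' := by ring
  rwa [h1] at h2

/-! ### The `h91yU` vocabulary -/

/-- `X ∈ 1 + D₀ 𝔪 W` in the form `X = 1 + D₀ z`, `z ∈ 𝔪 W`. -/
theorem h82w_of_U {W : Subring F} {D₀ : A} {X : F} (hX : X ∈ h91yU D₀ W) :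
    ∃ z ∈ h82wM A W, X = 1 + algebraMap A F D₀ * z := by
  obtain ⟨m, hm, v, hv, rfl⟩ := hX
  exact ⟨algebraMap A F m * v, h82w_M_of hm hv, by rw [map_mul]; ring⟩

/-- the two-sided node datum in the `h91yU` vocabulary gives the two-sided node datum. -/
theorem h82w_node_of_U (hinj : Function.Injective (algebraMap A F)) {W₁ W₂ : Subring F}
    (hA₂ : ∀ a : A, algebraMap A F a ∈ W₂)
    {D₀ : A} (hD₀ : D₀ ≠ 0) (hD₀m : D₀ ∈ maximalIdeal A) {ψ : A} {X : F}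
    (hX₁ : X ∈ h91yU D₀ W₁) (hX₂ : X * (algebraMap A F (1 + D₀ * ψ))⁻¹ ∈ h91yU D₀ W₂) :
    ∃ T : F, T ∈ h82wM A W₁ ∧ T - algebraMap A F ψ ∈ h82wM A W₂ ∧
      X = 1 + algebraMap A F D₀ * T := by
  obtain ⟨T, hT, hXT⟩ := h82w_of_U hX₁
  obtain ⟨z, hz, hXz⟩ := h82w_of_U hX₂
  refine ⟨T, hT, ?_, hXT⟩
  have hD₀F : algebraMap A F D₀ ≠ 0 := (map_ne_zero_iff _ hinj).mpr hD₀
  have hu : IsUnit (1 + D₀ * ψ) := by
    by_contra h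
    have h1 : 1 + D₀ * ψ ∈ maximalIdeal A := (IsLocalRing.mem_maximalIdeal _).mpr h
    have h2 : (1 : A) ∈ maximalIdeal A := by
      have := (maximalIdeal A).sub_mem h1 (Ideal.mul_mem_right ψ _ hD₀m)
      simpa using this
    exact (Ideal.ne_top_iff_one (maximalIdeal A)).mp (Ideal.IsMaximal.ne_top inferInstance) h2
  have hne : algebraMap A F (1 + D₀ * ψ) ≠ 0 := (hu.map (algebraMap A F)).ne_zero
  have hX : X = algebraMap A F (1 + D₀ * ψ) * (1 + algebraMap A F D₀ * z) := by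
    rw [← hXz]; field_simp
  have hT' : T - algebraMap A F ψ = algebraMap A F (1 + D₀ * ψ) * z := by
    apply mul_left_cancel₀ hD₀F
    have h3 : 1 + algebraMap A F D₀ * T =
        algebraMap A F (1 + D₀ * ψ) * (1 + algebraMap A F D₀ * z) := by rw [← hXT, ← hX]
    rw [map_add, map_one, map_mul] at h3 ⊢
    linear_combination h3
  rw [hT']
  exact h82w_M_mul (hA₂ _) hz

/-- **C4 H0 in the `h91yU` vocabulary, EXPORT form** (shape of C5, helper84): (L1)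
`w = o X`, `o ∈ O_n`, `X ∈ 1 + D₀ 𝔪 W`; (L2) `w = o X`, `o ∈ O_e`, `X ∈ 1 + D₀ 𝔪 W₁`,
`X (1 + D₀ ψ_e)⁻¹ ∈ 1 + D₀ 𝔪 W₂`. -/
theorem h82w_h0_U_export (hinj : Function.Injective (algebraMap A F))
    (W₁ W₂ : Subring F)
    (hA₁ : ∀ a : A, algebraMap A F a ∈ W₁) (hA₂ : ∀ a : A, algebraMap A F a ∈ W₂)
    {P₁ P₂ E : Type*} (O₁ : P₁ → Subring F) (O₂ : P₂ → Subring F) (On : E → Subring F)
    (hO₁ : ∀ n, O₁ n ≤ W₁) (hO₂ : ∀ n, O₂ n ≤ W₂) (hOn : ∀ e, On e ≤ W₁ ⊓ W₂)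
    (hAO₁ : ∀ n (a : A), algebraMap A F a ∈ O₁ n)
    (hAO₂ : ∀ n (a : A), algebraMap A F a ∈ O₂ n)
    (hAOn : ∀ e (a : A), algebraMap A F a ∈ On e)
    (sat₁ : ∀ n, ∀ a : A, a ≠ 0 → ∀ f ∈ W₁, algebraMap A F a * f ∈ O₁ n → f ∈ O₁ n)
    (sat₂ : ∀ n, ∀ a : A, a ≠ 0 → ∀ f ∈ W₂, algebraMap A F a * f ∈ O₂ n → f ∈ O₂ n)
    (satn : ∀ e, ∀ a : A, a ≠ 0 → ∀ f ∈ W₁ ⊓ W₂, algebraMap A F a * f ∈ On e → f ∈ On e)
    (const₁ : ∀ f ∈ W₁, (∀ n, ∃ o ∈ O₁ n, f - o ∈ h82wM A W₁) →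
      (∀ e, ∃ o ∈ On e, f - o ∈ h82wM A W₁) → ∃ a : A, f - algebraMap A F a ∈ h82wM A W₁)
    (const₂ : ∀ f ∈ W₂, (∀ n, ∃ o ∈ O₂ n, f - o ∈ h82wM A W₂) →
      (∀ e, ∃ o ∈ On e, f - o ∈ h82wM A W₂) → ∃ a : A, f - algebraMap A F a ∈ h82wM A W₂)
    (branch : ∀ e, ∀ o ∈ On e, ∀ a₁ a₂ : A, o - algebraMap A F a₁ ∈ h82wM A W₁ →
      o - algebraMap A F a₂ ∈ h82wM A W₂ → a₁ - a₂ ∈ maximalIdeal A)
    (D₀ : A) (hD₀ : D₀ ≠ 0) (hD₀m : D₀ ∈ maximalIdeal A)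
    (w : F) (hw : w - 1 ∈ h82wM A (W₁ ⊓ W₂))
    (ψ : E → A)
    (hL1₁ : ∀ n : P₁, ∃ o X : F, o ∈ O₁ n ∧ X ∈ h91yU D₀ W₁ ∧ w = o * X)
    (hL1₂ : ∀ n : P₂, ∃ o X : F, o ∈ O₂ n ∧ X ∈ h91yU D₀ W₂ ∧ w = o * X)
    (hL2 : ∀ e : E, ∃ o X : F, o ∈ On e ∧ X ∈ h91yU D₀ W₁ ∧
      X * (algebraMap A F (1 + D₀ * ψ e))⁻¹ ∈ h91yU D₀ W₂ ∧ w = o * X)
    (hdepth : H82wDepth (W₁ ⊓ W₂) D₀ w) (e₀ : E) :
    ∃ a₀ f₁ f₂ : A, ∃ G ∈ W₁ ⊓ W₂, w = algebraMap A F a₀ + algebraMap A F D₀ * G ∧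
      G - algebraMap A F f₁ ∈ h82wM A W₁ ∧ G - algebraMap A F f₂ ∈ h82wM A W₂ ∧
      ∀ e : E, f₂ - f₁ - ψ e ∈ maximalIdeal A := by
  refine h82w_h0_two_core W₁ W₂ hA₁ hA₂ O₁ O₂ On hO₁ hO₂ hOn hAO₁ hAO₂ hAOn sat₁ sat₂ satn
    const₁ const₂ branch D₀ hD₀ hD₀m w hw ψ ?_ ?_ ?_ hdepth e₀
  · intro n
    obtain ⟨o, X, ho, hX, h⟩ := hL1₁ n
    obtain ⟨z, hz, hXz⟩ := h82w_of_U hX
    exact ⟨o, ho, z, hz, by rw [h, hXz]⟩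
  · intro n
    obtain ⟨o, X, ho, hX, h⟩ := hL1₂ n
    obtain ⟨z, hz, hXz⟩ := h82w_of_U hX
    exact ⟨o, ho, z, hz, by rw [h, hXz]⟩
  · intro e
    obtain ⟨o, X, ho, hX₁, hX₂, h⟩ := hL2 e
    obtain ⟨T, hT₁, hT₂, hXT⟩ := h82w_node_of_U hinj hA₂ hD₀ hD₀m hX₁ hX₂
    exact ⟨o, ho, T, hT₁, hT₂, by rw [h, hXT]⟩

/-- **C4 H0 in the `h91yU` vocabulary**: `ψ_e ≡ ψ_e'` modulo `𝔪` for all nodes. -/
theorem h82w_h0_U (hinj : Function.Injective (algebraMap A F))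
    (W₁ W₂ : Subring F)
    (hA₁ : ∀ a : A, algebraMap A F a ∈ W₁) (hA₂ : ∀ a : A, algebraMap A F a ∈ W₂)
    {P₁ P₂ E : Type*} (O₁ : P₁ → Subring F) (O₂ : P₂ → Subring F) (On : E → Subring F)
    (hO₁ : ∀ n, O₁ n ≤ W₁) (hO₂ : ∀ n, O₂ n ≤ W₂) (hOn : ∀ e, On e ≤ W₁ ⊓ W₂)
    (hAO₁ : ∀ n (a : A), algebraMap A F a ∈ O₁ n)
    (hAO₂ : ∀ n (a : A), algebraMap A F a ∈ O₂ n)
    (hAOn : ∀ e (a : A), algebraMap A F a ∈ On e)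
    (sat₁ : ∀ n, ∀ a : A, a ≠ 0 → ∀ f ∈ W₁, algebraMap A F a * f ∈ O₁ n → f ∈ O₁ n)
    (sat₂ : ∀ n, ∀ a : A, a ≠ 0 → ∀ f ∈ W₂, algebraMap A F a * f ∈ O₂ n → f ∈ O₂ n)
    (satn : ∀ e, ∀ a : A, a ≠ 0 → ∀ f ∈ W₁ ⊓ W₂, algebraMap A F a * f ∈ On e → f ∈ On e)
    (const₁ : ∀ f ∈ W₁, (∀ n, ∃ o ∈ O₁ n, f - o ∈ h82wM A W₁) →
      (∀ e, ∃ o ∈ On e, f - o ∈ h82wM A W₁) → ∃ a : A, f - algebraMap A F a ∈ h82wM A W₁)
    (const₂ : ∀ f ∈ W₂, (∀ n, ∃ o ∈ O₂ n, f - o ∈ h82wM A W₂) →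
      (∀ e, ∃ o ∈ On e, f - o ∈ h82wM A W₂) → ∃ a : A, f - algebraMap A F a ∈ h82wM A W₂)
    (branch : ∀ e, ∀ o ∈ On e, ∀ a₁ a₂ : A, o - algebraMap A F a₁ ∈ h82wM A W₁ →
      o - algebraMap A F a₂ ∈ h82wM A W₂ → a₁ - a₂ ∈ maximalIdeal A)
    (D₀ : A) (hD₀ : D₀ ≠ 0) (hD₀m : D₀ ∈ maximalIdeal A)
    (w : F) (hw : w - 1 ∈ h82wM A (W₁ ⊓ W₂))
    (ψ : E → A)
    (hL1₁ : ∀ n : P₁, ∃ o X : F, o ∈ O₁ n ∧ X ∈ h91yU D₀ W₁ ∧ w = o * X)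
    (hL1₂ : ∀ n : P₂, ∃ o X : F, o ∈ O₂ n ∧ X ∈ h91yU D₀ W₂ ∧ w = o * X)
    (hL2 : ∀ e : E, ∃ o X : F, o ∈ On e ∧ X ∈ h91yU D₀ W₁ ∧
      X * (algebraMap A F (1 + D₀ * ψ e))⁻¹ ∈ h91yU D₀ W₂ ∧ w = o * X)
    (hdepth : H82wDepth (W₁ ⊓ W₂) D₀ w) :
    ∀ e e' : E, ψ e - ψ e' ∈ maximalIdeal A := by
  intro e e'
  obtain ⟨a₀, f₁, f₂, G, -, -, -, -, h⟩ := h82w_h0_U_export hinj W₁ W₂ hA₁ hA₂ O₁ O₂ On hO₁ hO₂
    hOn hAO₁ hAO₂ hAOn sat₁ sat₂ satn const₁ const₂ branch D₀ hD₀ hD₀m w hw ψ hL1₁ hL1₂ hL2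
    hdepth e
  have h2 := (maximalIdeal A).sub_mem (h e') (h e)
  have h1 : f₂ - f₁ - ψ e' - (f₂ - f₁ - ψ e) = ψ e - ψ e' := by ring
  rwa [h1] at h2

end H0

end Fermat.Agent.P7
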