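import Mathlib

/-!
# Wave 7, DLOG at the level `M`, leaf INT / CORE (helper82, prefix `h82k_`): abstract part

Mathlib only.  `R` a valuation ring (a domain with total divisibility), `B = R⟦X⟧`,
`T ∈ B` with `T(0) = 0`, `T'(0)` a unit (a "uniformiser" of `B`), `δ ∈ R`, `τ = T - δ`.

* `h82k_decomp` : `h = h(0) + T h'`;
* `h82k_pow`    : `T ^ N = τ P + δ ^ N`;
* `h82k_div`    : division with remainder: `f = τ g + r + T ^ N h`, `r ∈ R`;
* `h82k_cdiv`   : a constant divisible by `τ` is divisible by every power of `δ`;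
* `h82k_cspan`  : a constant in the ideal `(τ, δ ^ N)` is divisible by `δ ^ N`;
* `h82k_root`   : `δ ^ (m (n+1)) ∣ r ^ m ⇒ δ ^ (n+1) ∣ r`;
* `h82k_star`   : **(★)** if `τ ∣ x ^ m` (`m ≥ 1`) then for every `n`
  `x = τ G + T ^ (n+1) H` with `G, H ∈ B`;
* `h82k_core`   : **CORE**: `K` a field, `A` a valuation subring, `z ∈ K⟦X⟧` integral over
  `A⟦X⟧` with `z (T - δ) ∈ A⟦X⟧`, `δ ≠ 0`  ⟹  `z ∈ A⟦X⟧`.

No completeness, no evaluation of power series, no Newton polygon: only division by `τ` in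
`B` and the total divisibility of `R`.
-/

set_option autoImplicit false

open PowerSeries

noncomputable section

namespace Fermat.Agent.P7

section Abs

variable {R : Type*} [CommRing R] [IsDomain R] [ValuationRing R]

/-- `h = h(0) + T h'`. -/
theorem h82k_decomp {T : R⟦X⟧} (hT0 : constantCoeff T = 0) (hT1 : IsUnit (coeff 1 T))
    (h : R⟦X⟧) : ∃ h' : R⟦X⟧, h = C (constantCoeff h) + T * h' := by
  set U : R⟦X⟧ := PowerSeries.mk fun n => coeff (n + 1) T with hU
  have hTX : T = X * U := by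
    have := eq_X_mul_shift_add_const T
    rw [hT0, map_zero, add_zero] at this
    exact this
  have hUu : IsUnit U := by
    rw [isUnit_iff_constantCoeff, ← coeff_zero_eq_constantCoeff_apply, hU, coeff_mk]
    simpa using hT1
  obtain ⟨W, hW⟩ := hUu.exists_right_inv
  have hX : (X : R⟦X⟧) = T * W := by
    rw [hTX, mul_assoc, hW, mul_one]
  refine ⟨W * PowerSeries.mk fun n => coeff (n + 1) h, ?_⟩
  have h1 := eq_X_mul_shift_add_const h
  rw [← mul_assoc, ← hX, add_comm]
  exact h1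

/-- `T ^ N = τ P + δ ^ N`. -/
theorem h82k_pow (T : R⟦X⟧) (δ : R) (N : ℕ) :
    ∃ P : R⟦X⟧, T ^ N = (T - C δ) * P + C (δ ^ N) := by
  obtain ⟨P, hP⟩ := sub_dvd_pow_sub_pow T (C δ) N
  refine ⟨P, ?_⟩
  rw [map_pow]
  linear_combination hP

/-- division by `τ` with a constant remainder, modulo `T ^ N`. -/
theorem h82k_div {T : R⟦X⟧} (hT0 : constantCoeff T = 0) (hT1 : IsUnit (coeff 1 T)) (δ : R)
    (N : ℕ) (f : R⟦X⟧) :
    ∃ (g : R⟦X⟧) (r : R) (h : R⟦X⟧), f = (T - C δ) * g + C r + T ^ N * h := by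
  induction N with
  | zero => exact ⟨0, 0, f, by simp⟩
  | succ N ih =>
    obtain ⟨g, r, h, hf⟩ := ih
    obtain ⟨h', hh⟩ := h82k_decomp hT0 hT1 h
    obtain ⟨P, hP⟩ := h82k_pow T δ N
    refine ⟨g + C (constantCoeff h) * P, r + constantCoeff h * δ ^ N, h', ?_⟩
    rw [map_add, map_mul, pow_succ]
    linear_combination hf + T ^ N * hh + C (constantCoeff h) * hP

/-- a constant divisible by `τ` is divisible by every power of `δ`. -/
theorem h82k_cdiv {T : R⟦X⟧} (hT0 : constantCoeff T = 0) (hT1 : IsUnit (coeff 1 T)) (δ : R) :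
    ∀ (N : ℕ) (c : R), (∃ a : R⟦X⟧, C c = (T - C δ) * a) → δ ^ N ∣ c := by
  have hTne : T ≠ 0 := by
    intro h
    rw [h, map_zero] at hT1
    exact not_isUnit_zero hT1
  intro N
  induction N with
  | zero => intro c _; simp
  | succ N ih =>
    rintro c ⟨a, ha⟩
    obtain ⟨a', ha'⟩ := h82k_decomp hT0 hT1 a
    have hc : c = -(δ * constantCoeff a) := by
      have := congrArg constantCoeff ha
      rw [constantCoeff_C, map_mul, map_sub, hT0, constantCoeff_C] at this
      rw [this]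
      ring
    have hkey : T * (C (constantCoeff a) + (T - C δ) * a') = 0 := by
      have h1 : C c = -(C δ * C (constantCoeff a)) := by
        rw [hc, map_neg, map_mul]
      linear_combination (-(T - C δ)) * ha' - ha + h1
    have h2 : C (constantCoeff a) + (T - C δ) * a' = 0 :=
      (mul_eq_zero.mp hkey).resolve_left hTne
    have h3 : δ ^ N ∣ constantCoeff a :=
      ih (constantCoeff a) ⟨-a', by linear_combination h2⟩
    obtain ⟨k, hk⟩ := h3
    refine ⟨-k, ?_⟩
    rw [hc, hk]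
    ring

/-- a constant in the ideal `(τ, δ ^ N)` is divisible by `δ ^ N`. -/
theorem h82k_cspan {T : R⟦X⟧} (hT0 : constantCoeff T = 0) (hT1 : IsUnit (coeff 1 T)) (δ : R)
    (N : ℕ) (c : R) (a b : R⟦X⟧) (h : C c = (T - C δ) * a + C (δ ^ N) * b) : δ ^ N ∣ c := by
  rcases ValuationRing.dvd_total (δ ^ N) c with h1 | ⟨ε, hε⟩
  · exact h1
  by_cases hu : IsUnit ε
  · obtain ⟨e, rfl⟩ := hu
    refine ⟨((e⁻¹ : Rˣ) : R), ?_⟩
    rw [hε, mul_assoc, Units.mul_inv, mul_one]
  · -- `1 - ε b` is a unit of `B`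
    have hunit : IsUnit (1 - C ε * b) := by
      rw [isUnit_iff_constantCoeff, map_sub, map_one, map_mul, constantCoeff_C]
      have hmem : ε * constantCoeff b ∈ nonunits R := by
        rw [mem_nonunits_iff]
        intro hcon
        exact hu (isUnit_of_mul_isUnit_left hcon)
      exact IsLocalRing.isUnit_one_sub_self_of_mem_nonunits _ hmem
    obtain ⟨V, hV⟩ := hunit.exists_right_inv
    have h1 : C c * (1 - C ε * b) = (T - C δ) * a := by
      have h2 : C (δ ^ N) = C c * C ε := by rw [hε, map_mul]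
      rw [h2] at h
      linear_combination h
    apply h82k_cdiv hT0 hT1 δ N c
    refine ⟨a * V, ?_⟩
    calc C c = C c * ((1 - C ε * b) * V) := by rw [hV, mul_one]
      _ = (C c * (1 - C ε * b)) * V := by ring
      _ = (T - C δ) * (a * V) := by rw [h1]; ring

/-- extraction of roots of divisibility. -/
theorem h82k_root {δ : R} (hδ0 : δ ≠ 0) {m : ℕ} (hm : 1 ≤ m) (n : ℕ) {r : R}
    (h : δ ^ (m * (n + 1)) ∣ r ^ m) : δ ^ (n + 1) ∣ r := by
  rcases ValuationRing.dvd_total (δ ^ (n + 1)) r with h1 | ⟨ε, hε⟩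
  · exact h1
  by_cases hu : IsUnit ε
  · obtain ⟨e, rfl⟩ := hu
    refine ⟨((e⁻¹ : Rˣ) : R), ?_⟩
    rw [hε, mul_assoc, Units.mul_inv, mul_one]
  · exfalso
    obtain ⟨s, hs⟩ := h
    have h1 : δ ^ (m * (n + 1)) = δ ^ (m * (n + 1)) * (s * ε ^ m) := by
      have h2 : δ ^ (m * (n + 1)) = r ^ m * ε ^ m := by
        rw [mul_comm m, pow_mul, hε, mul_pow]
      calc δ ^ (m * (n + 1)) = r ^ m * ε ^ m := h2
        _ = δ ^ (m * (n + 1)) * (s * ε ^ m) := by rw [hs]; ring
    have h3 : s * ε ^ m = 1 := by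
      have hne : δ ^ (m * (n + 1)) ≠ 0 := pow_ne_zero _ hδ0
      have h4 : δ ^ (m * (n + 1)) * (s * ε ^ m) = δ ^ (m * (n + 1)) * 1 := by
        rw [mul_one]; exact h1.symm
      exact mul_left_cancel₀ hne h4
    have h5 : IsUnit (ε ^ m) := IsUnit.of_mul_eq_one_right s h3
    exact hu ((isUnit_pow_iff (by omega)).mp h5)

/-- **(★)**: if `τ ∣ x ^ m` then `x ∈ (τ) + (T ^ (n+1))` for every `n`. -/
theorem h82k_star {T : R⟦X⟧} (hT0 : constantCoeff T = 0) (hT1 : IsUnit (coeff 1 T)) {δ : R}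
    (hδ0 : δ ≠ 0) (x : R⟦X⟧) {m : ℕ} (hm : 1 ≤ m) (hxm : (T - C δ) ∣ x ^ m) (n : ℕ) :
    ∃ G H : R⟦X⟧, x = (T - C δ) * G + T ^ (n + 1) * H := by
  obtain ⟨m', rfl⟩ : ∃ m', m = m' + 1 := ⟨m - 1, by omega⟩
  obtain ⟨g, r, h, hx⟩ := h82k_div hT0 hT1 δ ((m' + 1) * (n + 1)) x
  obtain ⟨s, hs⟩ := hxm
  obtain ⟨k, hk⟩ := sub_dvd_pow_sub_pow (C r) x (m' + 1)
  obtain ⟨P, hP⟩ := h82k_pow T δ ((m' + 1) * (n + 1))
  have hspan : C (r ^ (m' + 1)) = (T - C δ) * (s - g * k - P * h * k) +
      C (δ ^ ((m' + 1) * (n + 1))) * (-(h * k)) := by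
    rw [map_pow]
    have e1 : C r - x = -((T - C δ) * g + T ^ ((m' + 1) * (n + 1)) * h) := by
      rw [hx]; ring
    rw [e1] at hk
    linear_combination hk + hs - h * k * hP
  have hdvd : δ ^ ((m' + 1) * (n + 1)) ∣ r ^ (m' + 1) :=
    h82k_cspan hT0 hT1 δ _ _ _ _ hspan
  obtain ⟨r', hr'⟩ := h82k_root hδ0 hm n hdvd
  obtain ⟨P', hP'⟩ := h82k_pow T δ (n + 1)
  refine ⟨g - C r' * P', C r' + T ^ (m' * (n + 1)) * h, ?_⟩
  have e2 : T ^ ((m' + 1) * (n + 1)) = T ^ (n + 1) * T ^ (m' * (n + 1)) := by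
    rw [← pow_add]
    congr 1
    ring
  have e3 : C r = C (δ ^ (n + 1)) * C r' := by rw [hr', map_mul]
  rw [e2] at hx
  linear_combination hx + e3 - C r' * hP'

end Abs

section Core

variable {K : Type*} [Field K]

/-- **CORE**: `z ∈ K⟦X⟧` integral over `A⟦X⟧` with `z (T - δ) ∈ A⟦X⟧`, `T` a uniformiser of
`A⟦X⟧`, `δ ≠ 0`  ⟹  `z ∈ A⟦X⟧`. -/
theorem h82k_core (A : ValuationSubring K) (T x : PowerSeries A) (z : PowerSeries K) (δ : A)
    (hδ0 : δ ≠ 0) (hT0 : PowerSeries.coeff 0 T = 0) (hT1 : IsUnit (PowerSeries.coeff 1 T))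
    (hz : z * PowerSeries.map A.subtype (T - PowerSeries.C δ) = PowerSeries.map A.subtype x)
    (hint : (PowerSeries.map A.subtype).IsIntegralElem z) :
    ∃ y : PowerSeries A, PowerSeries.map A.subtype y = z := by
  classical
  have hT0' : constantCoeff T = 0 := by
    rw [← coeff_zero_eq_constantCoeff_apply]; exact hT0
  have hinj : Function.Injective (PowerSeries.map A.subtype) :=
    PowerSeries.map_injective A.subtype Subtype.val_injective
  obtain ⟨p, hpm, hpe⟩ := hint
  -- the degree is positive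
  have hm : 1 ≤ p.natDegree := by
    by_contra hcon
    have h0 : p.natDegree = 0 := by omega
    have h1 : p = 1 := hpm.natDegree_eq_zero.mp h0
    rw [h1, Polynomial.eval₂_one] at hpe
    exact one_ne_zero hpe
  -- `τ ∣ x ^ m`
  have hxm : (T - C δ) ∣ x ^ p.natDegree := by
    have h1 := Polynomial.scaleRoots_eval₂_eq_zero (PowerSeries.map A.subtype)
      (s := T - C δ) hpe
    have h2 : PowerSeries.map A.subtype (T - C δ) * z = PowerSeries.map A.subtype x := by
      rw [mul_comm]; exact hz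
    rw [h2, Polynomial.eval₂_hom] at h1
    have h3 : Polynomial.eval x (Polynomial.scaleRoots p (T - C δ)) = 0 :=
      hinj (by rw [h1, map_zero])
    rw [Polynomial.eval_eq_sum_range, Polynomial.natDegree_scaleRoots,
      Finset.sum_range_succ] at h3
    have h4 : (Polynomial.scaleRoots p (T - C δ)).coeff p.natDegree = 1 := by
      have := (Polynomial.monic_scaleRoots_iff (T - C δ)).mpr hpm
      rw [← Polynomial.natDegree_scaleRoots p (T - C δ)]
      exact this.coeff_natDegree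
    rw [h4, one_mul] at h3
    have h5 : x ^ p.natDegree = -∑ i ∈ Finset.range p.natDegree,
        (Polynomial.scaleRoots p (T - C δ)).coeff i * x ^ i := by
      linear_combination h3
    rw [h5, dvd_neg]
    apply Finset.dvd_sum
    intro i hi
    rw [Finset.mem_range] at hi
    rw [Polynomial.coeff_scaleRoots]
    apply Dvd.dvd.mul_right
    apply Dvd.dvd.mul_left
    exact dvd_pow_self _ (by omega)
  choose G H hGH using fun n => h82k_star hT0' hT1 hδ0 x hm hxm n
  refine ⟨PowerSeries.mk fun n => coeff n (G n), ?_⟩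
  ext n
  rw [coeff_map, coeff_mk]
  -- `ι τ` is a unit
  have hτu : IsUnit (PowerSeries.map A.subtype (T - C δ)) := by
    rw [isUnit_iff_constantCoeff, ← coeff_zero_eq_constantCoeff_apply, coeff_map,
      coeff_zero_eq_constantCoeff_apply, map_sub, hT0', constantCoeff_C, zero_sub,
      isUnit_iff_ne_zero]
    intro h0
    apply hδ0
    have : (A.subtype δ : K) = 0 := by
      rw [map_neg] at h0
      exact neg_eq_zero.mp h0
    exact Subtype.ext this
  obtain ⟨V, hV⟩ := hτu.exists_right_inv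
  have hXT : (X : PowerSeries A) ^ (n + 1) ∣ T ^ (n + 1) :=
    pow_dvd_pow_of_dvd (X_dvd_iff.mpr hT0') _
  have hw : z - PowerSeries.map A.subtype (G n) =
      PowerSeries.map A.subtype (T ^ (n + 1) * H n) * V := by
    have e1 : (z - PowerSeries.map A.subtype (G n)) * PowerSeries.map A.subtype (T - C δ) =
        PowerSeries.map A.subtype (T ^ (n + 1) * H n) := by
      have e2 : PowerSeries.map A.subtype x = PowerSeries.map A.subtype (T - C δ) *
          PowerSeries.map A.subtype (G n) + PowerSeries.map A.subtype (T ^ (n + 1) * H n) := by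
        rw [← map_mul, ← map_add, ← hGH n]
      linear_combination hz + e2
    calc z - PowerSeries.map A.subtype (G n)
        = (z - PowerSeries.map A.subtype (G n)) *
            (PowerSeries.map A.subtype (T - C δ) * V) := by rw [hV, mul_one]
      _ = ((z - PowerSeries.map A.subtype (G n)) * PowerSeries.map A.subtype (T - C δ)) * V := by
          ring
      _ = PowerSeries.map A.subtype (T ^ (n + 1) * H n) * V := by rw [e1]
  have hdvd : (X : PowerSeries K) ^ (n + 1) ∣ z - PowerSeries.map A.subtype (G n) := by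
    rw [hw]
    apply Dvd.dvd.mul_right
    have h1 : (X : PowerSeries A) ^ (n + 1) ∣ T ^ (n + 1) * H n := Dvd.dvd.mul_right hXT _
    have h2 := map_dvd (PowerSeries.map A.subtype) h1
    rwa [map_pow, PowerSeries.map_X] at h2
  have h0 := (X_pow_dvd_iff.mp hdvd) n (Nat.lt_succ_self n)
  rw [map_sub, coeff_map, sub_eq_zero] at h0
  exact h0.symm

end Core

end Fermat.Agent.P7
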