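import Fermat.Agent.P7.H26IntIface
import Fermat.Agent.P7.H82IntCoreAbs

/-!
# Wave 7, DLOG at the level `M`, leaf INT / CORE (helper82): the frozen Prop `H26iCore`

`h82k_H26iCore : H26iCore` (exact frozen Prop of `P7/H26IntIface.lean`, helper26), from the
Mathlib-only `h82k_core` of `P7/H82IntCoreAbs.lean`.
-/

set_option autoImplicit false

noncomputable section

namespace Fermat.Agent.P7

/-- **CORE** (frozen Prop of helper26's INT interface), unconditional. -/
theorem h82k_H26iCore : H26iCore :=
  fun A T x z δ _ hδ0 hT0 hT1 hz hint => h82k_core A T x z δ hδ0 hT0 hT1 hz hint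

end Fermat.Agent.P7
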