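import Fermat.Agent.P5.H68RRLarge
import Fermat.Agent.P5.H68RRFin
import Fermat.Agent.P5.H3RRRiemann

/-!
# Wave 7, block (A), LATTICE leaf L3 (RIEMANN over any constant field): helper82, prefix `h82l_`

Abstract, P5 vocabulary, any function field `F / K` (`H13rBase K F`), `g` a weak genus
(`H13rIsGenus K F g`), `x : F` with the fundamental identity `H13rZeros K F x` and
`0 < [F : K(x)]`.  Then for all large `m` the multiples `D_m = m (x)_∞` of the polar divisor of
`x` are non-special: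

  `ℓ(D_m) + g = m [F : K(x)] + 1`.

* `h82l_large_mul`   : the same for the multiples of ANY divisor of positive degree;
* `h82l_exists_pole` : the polar divisor `B` of `x` (`B v = max 0 (- ord_v x)`, degree
  `[F : K(x)]`);
* `h82l_riem`        : the statement for EVERY divisor `D` with `D v = m * max 0 (- ord_v x)`;
* `h82l_riem_smul`   : existence form (`B` and `m₀`);
* `h82l_riem_trans`  : the same with `Transcendental K x` + `FiniteDimensional K(x) F` in place
  of `0 < [F : K(x)]`;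
* `h82l_le_of_indep` : the consumer inequality: `r` independent elements of `L(D_m)` for every
  large `m`, with `m μ + 1 ≤ r + G` and `[F : K(x)] ≤ μ`, give `g ≤ G`.

Mathlib + P5 (`h68r_large`, `h3r_exists_poleDiv`, `h68r_fin`) only.
-/

set_option autoImplicit false

open AlgebraicCurve IntermediateField

noncomputable section

namespace Fermat.Agent.P7

open Fermat.Agent.P5

variable {K F : Type*} [Field K] [Field F] [Algebra K F]

/-- multiples of a divisor of positive degree are eventually non-special. -/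
theorem h82l_large_mul (hB : H13rBase K F) (g : ℕ) (hg : H13rIsGenus K F g)
    (B : Divisor K F) (hdeg : 0 < Divisor.degree B) :
    ∃ m₀ : ℕ, ∀ m : ℕ, m₀ ≤ m →
      (h13rL K F (m • B) : ℤ) + g = (m : ℤ) * Divisor.degree B + 1 := by
  obtain ⟨⟨c, hc⟩, -⟩ := h68r_large K F hB g hg
  refine ⟨c.toNat, fun m hm => ?_⟩
  have hdm : Divisor.degree (m • B) = (m : ℤ) * Divisor.degree B := by
    rw [map_nsmul, nsmul_eq_mul]
  have h1 : c ≤ Divisor.degree (m • B) := by
    rw [hdm]
    have h2 : c ≤ (m : ℤ) := by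
      have : (c.toNat : ℤ) ≤ (m : ℤ) := by exact_mod_cast hm
      exact le_trans (Int.self_le_toNat c) this
    have h3 : (m : ℤ) ≤ (m : ℤ) * Divisor.degree B := by
      have hm0 : (0 : ℤ) ≤ (m : ℤ) := by positivity
      nlinarith
    exact le_trans h2 h3
  rw [hc _ h1, hdm]

/-- the polar divisor of `x`, with its exact values. -/
theorem h82l_exists_pole (hB : H13rBase K F) (x : F) (hZ : H13rZeros K F x) :
    ∃ B : Divisor K F, (∀ v : Place K F, B v = max 0 (- v.ord x)) ∧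
      Divisor.degree B = (Module.finrank K⟮x⟯ F : ℤ) := by
  classical
  obtain ⟨s, hs, hsum⟩ := hZ x⁻¹ (Or.inr rfl)
  refine ⟨∑ v ∈ s, Finsupp.single v (v.ord x⁻¹), ?_, ?_⟩
  · intro w
    rw [Finsupp.finsetSum_apply]
    simp only [Finsupp.single_apply]
    rw [Finset.sum_ite_eq' s w]
    split_ifs with hw
    · have := (hs w).mp hw
      rw [w.ord_inv] at this ⊢
      omega
    · have : ¬ 0 < w.ord x⁻¹ := fun h => hw ((hs w).mpr h)
      rw [w.ord_inv] at this
      omega
  · rw [map_sum, ← hsum]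
    apply Finset.sum_congr rfl
    intro v _
    rw [Divisor.degree_single, hB.deg_one v]
    simp

/-- **LAT-3 (RIEMANN).**  For `m` large, EVERY divisor `D` with `D v = m * max 0 (- ord_v x)`
(i.e. `D = m (x)_∞`) satisfies `ℓ(D) + g = m [F : K(x)] + 1`. -/
theorem h82l_riem (hB : H13rBase K F) (g : ℕ) (hg : H13rIsGenus K F g) (x : F)
    (hZ : H13rZeros K F x) (hpos : 0 < Module.finrank K⟮x⟯ F) :
    ∃ m₀ : ℕ, ∀ m : ℕ, m₀ ≤ m → ∀ D : Divisor K F,
      (∀ v : Place K F, D v = (m : ℤ) * max 0 (- v.ord x)) →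
        (h13rL K F D : ℤ) + g = (m : ℤ) * (Module.finrank K⟮x⟯ F : ℤ) + 1 := by
  obtain ⟨B, hBv, hBdeg⟩ := h82l_exists_pole hB x hZ
  have hdeg : 0 < Divisor.degree B := by
    rw [hBdeg]
    exact_mod_cast hpos
  obtain ⟨m₀, hm₀⟩ := h82l_large_mul hB g hg B hdeg
  refine ⟨m₀, fun m hm D hD => ?_⟩
  have hDB : D = m • B := by
    ext v
    rw [hD v, Finsupp.smul_apply, hBv v, nsmul_eq_mul]
  rw [hDB, hm₀ m hm, hBdeg]

/-- existence form of `h82l_riem`: the polar divisor `B` of `x` and the bound `m₀`. -/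
theorem h82l_riem_smul (hB : H13rBase K F) (g : ℕ) (hg : H13rIsGenus K F g) (x : F)
    (hZ : H13rZeros K F x) (hpos : 0 < Module.finrank K⟮x⟯ F) :
    ∃ B : Divisor K F, 0 ≤ B ∧ (∀ v : Place K F, B v = max 0 (- v.ord x)) ∧
      Divisor.degree B = (Module.finrank K⟮x⟯ F : ℤ) ∧
      ∃ m₀ : ℕ, ∀ m : ℕ, m₀ ≤ m →
        (h13rL K F (m • B) : ℤ) + g = (m : ℤ) * (Module.finrank K⟮x⟯ F : ℤ) + 1 := by
  obtain ⟨B, hBv, hBdeg⟩ := h82l_exists_pole hB x hZ
  have hdeg : 0 < Divisor.degree B := by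
    rw [hBdeg]
    exact_mod_cast hpos
  obtain ⟨m₀, hm₀⟩ := h82l_large_mul hB g hg B hdeg
  refine ⟨B, ?_, hBv, hBdeg, m₀, fun m hm => ?_⟩
  · rw [Finsupp.le_def]
    intro v
    rw [hBv v]
    simp
  · rw [hm₀ m hm, hBdeg]

/-- `0 < [F : K(x)]` for a finite extension. -/
theorem h82l_finrank_pos (x : F) [FiniteDimensional K⟮x⟯ F] :
    0 < Module.finrank K⟮x⟯ F :=
  Module.finrank_pos

/-- `h82l_riem` for `x` with `F` finite over `K(x)`. -/
theorem h82l_riem_trans (hB : H13rBase K F) (g : ℕ) (hg : H13rIsGenus K F g) (x : F)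
    (_hx : Transcendental K x) (hfin : FiniteDimensional K⟮x⟯ F) (hZ : H13rZeros K F x) :
    ∃ m₀ : ℕ, ∀ m : ℕ, m₀ ≤ m → ∀ D : Divisor K F,
      (∀ v : Place K F, D v = (m : ℤ) * max 0 (- v.ord x)) →
        (h13rL K F D : ℤ) + g = (m : ℤ) * (Module.finrank K⟮x⟯ F : ℤ) + 1 :=
  haveI := hfin
  h82l_riem hB g hg x hZ Module.finrank_pos

/-- membership in `L(m (x)_∞)` in the pointwise form used by the analytic leaves:
`0 ≤ ord_v f + m * max 0 (- ord_v x)` at every place. -/
theorem h82l_mem_of_ord {D : Divisor K F} {x f : F} {m : ℕ}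
    (hD : ∀ v : Place K F, D v = (m : ℤ) * max 0 (- v.ord x))
    (hf : ∀ v : Place K F, f = 0 ∨ 0 ≤ v.ord f + (m : ℤ) * max 0 (- v.ord x)) :
    f ∈ riemannRochSpace D := by
  rw [mem_riemannRochSpace_iff]
  intro v
  rcases hf v with h | h
  · exact Or.inl h
  · refine Or.inr ?_
    rw [hD v]
    linarith

/-- the same in the `min` form `m * min 0 (ord_v x) ≤ ord_v f`. -/
theorem h82l_mem_of_ord_min {D : Divisor K F} {x f : F} {m : ℕ}
    (hD : ∀ v : Place K F, D v = (m : ℤ) * max 0 (- v.ord x))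
    (hf : ∀ v : Place K F, f = 0 ∨ (m : ℤ) * min 0 (v.ord x) ≤ v.ord f) :
    f ∈ riemannRochSpace D := by
  refine h82l_mem_of_ord hD fun v => ?_
  rcases hf v with h | h
  · exact Or.inl h
  · refine Or.inr ?_
    have h1 : max 0 (- v.ord x) = - min 0 (v.ord x) := by
      rcases le_total 0 (v.ord x) with h0 | h0
      · rw [min_eq_left h0, max_eq_left (by omega)]; simp
      · rw [min_eq_right h0, max_eq_right (by omega)]
    rw [h1]
    linarith

/-- **consumer inequality (LAT-4 arithmetic).**  If for every large `m` there are `r`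
`K`-independent elements of `L(m (x)_∞)` with `m μ + 1 ≤ r + G`, and `[F : K(x)] ≤ μ`, then
`g ≤ G`. -/
theorem h82l_le_of_indep (hB : H13rBase K F) (g : ℕ) (hg : H13rIsGenus K F g) (x : F)
    (hZ : H13rZeros K F x) (hpos : 0 < Module.finrank K⟮x⟯ F) (μ G : ℕ)
    (hμ : Module.finrank K⟮x⟯ F ≤ μ)
    (hcount : ∀ m₀ : ℕ, ∃ m : ℕ, m₀ ≤ m ∧ ∃ (r : ℕ) (y : Fin r → F),
      LinearIndependent K y ∧
      (∀ i (v : Place K F), y i = 0 ∨ 0 ≤ v.ord (y i) + (m : ℤ) * max 0 (- v.ord x)) ∧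
      m * μ + 1 ≤ r + G) :
    g ≤ G := by
  obtain ⟨B, -, hBv, hBdeg, m₀, hm₀⟩ := h82l_riem_smul hB g hg x hZ hpos
  obtain ⟨m, hm, r, y, hy, hmem, hcnt⟩ := hcount m₀
  have hD : ∀ v : Place K F, (m • B) v = (m : ℤ) * max 0 (- v.ord x) := by
    intro v
    rw [Finsupp.smul_apply, hBv v, nsmul_eq_mul]
  have : Module.Finite K (riemannRochSpace (m • B)) := (h68r_fin K F hB).1 (m • B)
  -- the family lives in `L(m B)`
  let y' : Fin r → riemannRochSpace (m • B) := fun i =>
    ⟨y i, h82l_mem_of_ord hD (hmem i)⟩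
  have hy' : LinearIndependent K y' := by
    apply LinearIndependent.of_comp (riemannRochSpace (m • B)).subtype
    exact hy
  have hr : r ≤ h13rL K F (m • B) := by
    have := hy'.fintype_card_le_finrank
    simpa [h13rL] using this
  have h1 := hm₀ m hm
  have h2 : (r : ℤ) ≤ (h13rL K F (m • B) : ℤ) := by exact_mod_cast hr
  have h3 : ((m * μ + 1 : ℕ) : ℤ) ≤ ((r + G : ℕ) : ℤ) := by exact_mod_cast hcnt
  have h4 : (m : ℤ) * (Module.finrank K⟮x⟯ F : ℤ) ≤ (m : ℤ) * (μ : ℤ) := by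
    have : (Module.finrank K⟮x⟯ F : ℤ) ≤ (μ : ℤ) := by exact_mod_cast hμ
    have hm0 : (0 : ℤ) ≤ (m : ℤ) := by positivity
    nlinarith
  push_cast at h3
  have : (g : ℤ) ≤ (G : ℤ) := by linarith
  exact_mod_cast this

end Fermat.Agent.P7
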