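import Mathlib

/-!
# Wave 7 (S40), block (2)/(6): the theorem of Boston–Lenstra–Ribet, exact form (helper83)

`k` a field with `2 ≠ 0`, `G` a group, `ρ : G →* M₂(k)` with `span (range ρ) = ⊤` (absolute
irreducibility), `U` a `k`-vector space with an action `φ : G →* End_k U` satisfying the
Cayley–Hamilton identities of `ρ`:  `φ(g)² - tr ρ(g) φ(g) + det ρ(g) = 0` for all `g`.

* `h83b_pol_gen`, `h83b_pol` : the polarised identity
  `Φ x Φ y + Φ y Φ x = T(y) Φ x + T(x) Φ y + T(x y) - T(x) T(y)` on `k[G]`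
  (`Φ`, `P` the extensions of `φ`, `ρ` to `k[G]`, `T = tr ∘ P`).
* `h83b_blr` : **`P x = 0 → Φ x = 0`**: the action of `k[G]` on `U` factors through `M₂(k)`.
* `h83b_blr_conv` : if `U` is nontrivial, `Φ x = 0 → P x = 0`.
* `h83b_blr_sum`, `h83b_blr_conv_sum` : the same for finite sums `∑ c i • ρ (g i)`.
* `h83b_span_of_odd` : a homomorphism `ρ : G →* M₂(k)` without stable line, with an element `c`
  such that `ρ(c)² = 1`, `tr ρ(c) = 0`, has `span (range ρ) = ⊤`.

Mathlib only.
-/

set_option autoImplicit false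
set_option linter.unusedSimpArgs false
set_option linter.style.haveILetI false

open MonoidAlgebra Matrix

noncomputable section

namespace Fermat.Agent.P7

section BLR

variable {k : Type*} [Field k] {G : Type*} [Group G]
  {U : Type*} [AddCommGroup U] [Module k U]
  (ρ : G →* Matrix (Fin 2) (Fin 2) k) (φ : G →* Module.End k U)

/-- the extension of `ρ` to the group algebra. -/
def h83bP : MonoidAlgebra k G →ₐ[k] Matrix (Fin 2) (Fin 2) k :=
  MonoidAlgebra.lift k (Matrix (Fin 2) (Fin 2) k) G ρ

/-- the extension of `φ` to the group algebra. -/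
def h83bPhi : MonoidAlgebra k G →ₐ[k] Module.End k U :=
  MonoidAlgebra.lift k (Module.End k U) G φ

theorem h83bP_of (g : G) : h83bP ρ (of k G g) = ρ g := MonoidAlgebra.lift_of ρ g

theorem h83bPhi_of (g : G) : h83bPhi φ (of k G g) = φ g := MonoidAlgebra.lift_of φ g

/-- the determinant of `ρ g` is nonzero. -/
theorem h83b_det_ne_zero (g : G) : (ρ g).det ≠ 0 := by
  have h : (ρ g).det * (ρ g⁻¹).det = 1 := by
    rw [← Matrix.det_mul, ← map_mul, mul_inv_cancel, map_one, Matrix.det_one]
  exact left_ne_zero_of_mul_eq_one h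

variable {ρ φ}

/-- the adjugate `tr ρ(g) - φ(g)` is `det ρ(g) • φ(g⁻¹)`. -/
theorem h83b_adj (hCH : ∀ g, φ g * φ g - (ρ g).trace • φ g + (ρ g).det • (1 : Module.End k U) = 0)
    (g : G) : (ρ g).trace • (1 : Module.End k U) - φ g = (ρ g).det • φ g⁻¹ := by
  have h1 : φ g⁻¹ * φ g = 1 := by rw [← map_mul, inv_mul_cancel, map_one]
  have h2 := congrArg (fun X => φ g⁻¹ * X) (hCH g)
  simp only [mul_sub, mul_add, mul_zero, mul_smul_comm, mul_one, ← mul_assoc, h1, one_mul] at h2
  -- `φ g - tr • 1 + det • φ g⁻¹ = 0`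
  rw [← sub_eq_zero]
  rw [← neg_eq_zero, ← h2]
  abel

/-- **the polarised identity on group elements.** -/
theorem h83b_pol_gen
    (hCH : ∀ g, φ g * φ g - (ρ g).trace • φ g + (ρ g).det • (1 : Module.End k U) = 0)
    (g h : G) :
    φ g * φ h + φ h * φ g = (ρ h).trace • φ g + (ρ g).trace • φ h +
      ((ρ g * ρ h).trace - (ρ g).trace * (ρ h).trace) • (1 : Module.End k U) := by
  have hg := h83b_adj hCH g
  have hh := h83b_adj hCH h
  have hgh := h83b_adj hCH (g * h)
  have e1 : (ρ (g * h)).det • φ (g * h)⁻¹ =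
      ((ρ h).det • φ h⁻¹) * ((ρ g).det • φ g⁻¹) := by
    rw [_root_.mul_inv_rev, map_mul φ, map_mul ρ, Matrix.det_mul, smul_mul_smul_comm, mul_comm]
  rw [← hgh, ← hg, ← hh, map_mul φ, map_mul ρ] at e1
  -- expand
  have e2 : ((ρ h).trace • (1 : Module.End k U) - φ h) * ((ρ g).trace • 1 - φ g) =
      ((ρ h).trace * (ρ g).trace) • (1 : Module.End k U) - (ρ h).trace • φ g -
        (ρ g).trace • φ h + φ h * φ g := by
    rw [sub_mul, mul_sub, mul_sub, smul_mul_smul_comm, one_mul, smul_mul_assoc, one_mul,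
      mul_smul_comm, mul_one]
    abel
  rw [e2] at e1
  have e3 : φ g * φ h + φ h * φ g = (ρ h).trace • φ g + (ρ g).trace • φ h +
      ((ρ g * ρ h).trace • (1 : Module.End k U) -
        ((ρ h).trace * (ρ g).trace) • (1 : Module.End k U)) := by
    have := e1
    rw [sub_eq_iff_eq_add] at this
    rw [this]
    abel
  rw [e3, sub_smul, mul_comm (ρ h).trace]

/-- **the polarised identity on the group algebra.** -/
theorem h83b_pol
    (hCH : ∀ g, φ g * φ g - (ρ g).trace • φ g + (ρ g).det • (1 : Module.End k U) = 0)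
    (x y : MonoidAlgebra k G) :
    h83bPhi φ x * h83bPhi φ y + h83bPhi φ y * h83bPhi φ x =
      (h83bP ρ y).trace • h83bPhi φ x + (h83bP ρ x).trace • h83bPhi φ y +
      ((h83bP ρ x * h83bP ρ y).trace - (h83bP ρ x).trace * (h83bP ρ y).trace) •
        (1 : Module.End k U) := by
  induction x using MonoidAlgebra.induction_on with
  | of g =>
    induction y using MonoidAlgebra.induction_on with
    | of h =>
      rw [h83bPhi_of, h83bPhi_of, h83bP_of, h83bP_of]
      exact h83b_pol_gen hCH g h
    | add y₁ y₂ h₁ h₂ =>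
      simp only [map_add, mul_add, add_mul, Matrix.trace_add] at h₁ h₂ ⊢
      linear_combination (norm := module) h₁ + h₂
    | smul r y h₁ =>
      simp only [map_smul, mul_smul_comm, smul_mul_assoc, Matrix.trace_smul, smul_eq_mul]
        at h₁ ⊢
      linear_combination (norm := module) r • h₁
  | add x₁ x₂ h₁ h₂ =>
    simp only [map_add, mul_add, add_mul, Matrix.trace_add] at h₁ h₂ ⊢
    linear_combination (norm := module) h₁ + h₂
  | smul r x h₁ =>
    simp only [map_smul, mul_smul_comm, smul_mul_assoc, Matrix.trace_smul, smul_eq_mul]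
      at h₁ ⊢
    linear_combination (norm := module) r • h₁

/-- **Boston–Lenstra–Ribet, exact form**: the action of `k[G]` on `U` factors through
`M₂(k)`. -/
theorem h83b_blr (h2 : (2 : k) ≠ 0)
    (hCH : ∀ g, φ g * φ g - (ρ g).trace • φ g + (ρ g).det • (1 : Module.End k U) = 0)
    (hsurj : Function.Surjective (h83bP ρ)) (x : MonoidAlgebra k G) (hx : h83bP ρ x = 0) :
    h83bPhi φ x = 0 := by
  obtain ⟨z, hz⟩ := hsurj !![0, 1; 0, 0]
  obtain ⟨w, hw⟩ := hsurj !![0, 0; 1, 0]
  set X := h83bPhi φ x with hX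
  set Z := h83bPhi φ z with hZ
  set Wm := h83bPhi φ w with hWm
  -- `x` anticommutes with `z` and `w`
  have h1 : X * Z + Z * X = 0 := by
    have := h83b_pol hCH x z
    rw [hx, hz] at this
    simpa [Matrix.trace_fin_two] using this
  have h1' : X * Wm + Wm * X = 0 := by
    have := h83b_pol hCH x w
    rw [hx, hw] at this
    simpa [Matrix.trace_fin_two] using this
  -- the idempotent `y₀ = z w`
  have hy0 : h83bP ρ (z * w) = !![1, 0; 0, 0] := by
    rw [map_mul, hz, hw]
    ext i j
    fin_cases i <;> fin_cases j <;> simp [Matrix.mul_apply, Fin.sum_univ_two]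
  have hΦy0 : h83bPhi φ (z * w) = Z * Wm := by rw [map_mul]
  have h3 : X * (Z * Wm) + (Z * Wm) * X = X := by
    have := h83b_pol hCH x (z * w)
    rw [hx, hy0, hΦy0] at this
    simpa [Matrix.trace_fin_two] using this
  have h4 : (Z * Wm) * (Z * Wm) + (Z * Wm) * (Z * Wm) = (Z * Wm) + (Z * Wm) := by
    have := h83b_pol hCH (z * w) (z * w)
    rw [hy0, hΦy0] at this
    have e : (!![(1 : k), 0; 0, 0] * !![(1 : k), 0; 0, 0]).trace = 1 := by
      simp [Matrix.trace_fin_two]
    rw [e] at this
    simpa [Matrix.trace_fin_two] using this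
  -- `x` commutes with `y₀`
  have h5 : X * (Z * Wm) = (Z * Wm) * X := by
    have a1 : X * Z = -(Z * X) := eq_neg_of_add_eq_zero_left h1
    have a2 : X * Wm = -(Wm * X) := eq_neg_of_add_eq_zero_left h1'
    calc X * (Z * Wm) = (X * Z) * Wm := (mul_assoc _ _ _).symm
      _ = -(Z * X) * Wm := by rw [a1]
      _ = -(Z * (X * Wm)) := by rw [neg_mul, mul_assoc]
      _ = -(Z * -(Wm * X)) := by rw [a2]
      _ = (Z * Wm) * X := by rw [mul_neg, neg_neg, mul_assoc]
  have h6 : (2 : k) • ((Z * Wm) * X) = X := by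
    rw [h5] at h3
    rw [two_smul]
    exact h3
  have h7 : (2 : k) • ((Z * Wm) * (Z * Wm)) = (2 : k) • (Z * Wm) := by
    rw [two_smul, two_smul]
    exact h4
  have h8 : (Z * Wm) * (Z * Wm) = Z * Wm := by
    have := congrArg (fun Y => (2 : k)⁻¹ • Y) h7
    simpa [smul_smul, inv_mul_cancel₀ h2] using this
  have h9 : (Z * Wm) * X = 0 := by
    have e : (Z * Wm) * X = (2 : k) • ((Z * Wm) * X) := by
      calc (Z * Wm) * X = (Z * Wm) * ((2 : k) • ((Z * Wm) * X)) := by rw [h6]
        _ = (2 : k) • (((Z * Wm) * (Z * Wm)) * X) := by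
          rw [mul_smul_comm, ← mul_assoc (Z * Wm) (Z * Wm) X]
        _ = (2 : k) • ((Z * Wm) * X) := by rw [h8]
    have e' : (Z * Wm) * X + (Z * Wm) * X = (Z * Wm) * X := by
      rw [← two_smul k]
      exact e.symm
    exact add_eq_right.mp e'
  rw [← h6, h9, smul_zero]

/-- the converse: if `U` is nontrivial, an element of `k[G]` which kills `U` is killed
by `ρ`. -/
theorem h83b_blr_conv [Nontrivial U] (h2 : (2 : k) ≠ 0)
    (hCH : ∀ g, φ g * φ g - (ρ g).trace • φ g + (ρ g).det • (1 : Module.End k U) = 0)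
    (hsurj : Function.Surjective (h83bP ρ)) (x : MonoidAlgebra k G)
    (hx : h83bPhi φ x = 0) : h83bP ρ x = 0 := by
  by_contra hne
  -- the two-sided ideal generated by `P x` is everything
  have hI : Ideal.span {h83bP ρ x} ≠ (⊥ : Ideal (Matrix (Fin 2) (Fin 2) k)) := by
    intro h
    exact hne (Ideal.span_singleton_eq_bot.mp h)
  -- use the simplicity of the matrix ring through the two-sided ideal
  let J : TwoSidedIdeal (Matrix (Fin 2) (Fin 2) k) := TwoSidedIdeal.span {h83bP ρ x}
  have hJ : J = ⊤ := by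
    rcases eq_bot_or_eq_top J with h | h
    · exfalso
      have hmem : h83bP ρ x ∈ J := TwoSidedIdeal.subset_span (Set.mem_singleton _)
      rw [h] at hmem
      exact hne ((TwoSidedIdeal.mem_bot _).mp hmem)
    · exact h
  -- the set of matrices `A = P a` with `Φ a = 0` for some `a` is a two-sided ideal
  let K : TwoSidedIdeal (Matrix (Fin 2) (Fin 2) k) :=
    TwoSidedIdeal.mk' {A | ∃ a : MonoidAlgebra k G, h83bP ρ a = A ∧ h83bPhi φ a = 0}
      ⟨0, map_zero _, map_zero _⟩
      (by
        rintro A B ⟨a, rfl, ha⟩ ⟨b, rfl, hb⟩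
        exact ⟨a + b, map_add _ _ _, by rw [map_add, ha, hb, add_zero]⟩)
      (by
        rintro A ⟨a, rfl, ha⟩
        exact ⟨-a, map_neg _ _, by rw [map_neg, ha, neg_zero]⟩)
      (by
        rintro A B ⟨b, rfl, hb⟩
        obtain ⟨a, rfl⟩ := hsurj A
        exact ⟨a * b, map_mul _ _ _, by rw [map_mul, hb, mul_zero]⟩)
      (by
        rintro A B ⟨a, rfl, ha⟩
        obtain ⟨b, rfl⟩ := hsurj B
        exact ⟨a * b, map_mul _ _ _, by rw [map_mul, ha, zero_mul]⟩)
  have hxK : h83bP ρ x ∈ K := by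
    rw [TwoSidedIdeal.mem_mk']
    exact ⟨x, rfl, hx⟩
  have hJK : J ≤ K := TwoSidedIdeal.span_le.mpr (by
    intro A hA
    rw [Set.mem_singleton_iff] at hA
    rw [hA]
    exact hxK)
  have h1K : (1 : Matrix (Fin 2) (Fin 2) k) ∈ K := hJK (by rw [hJ]; trivial)
  rw [TwoSidedIdeal.mem_mk'] at h1K
  obtain ⟨a, ha1, ha0⟩ := h1K
  have h1 : h83bP ρ (a - 1) = 0 := by rw [map_sub, ha1, map_one, sub_self]
  have h2' := h83b_blr h2 hCH hsurj (a - 1) h1
  rw [map_sub, ha0, map_one, zero_sub, neg_eq_zero] at h2'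
  exact one_ne_zero h2'

/-- surjectivity of `P` from `span (range ρ) = ⊤`. -/
theorem h83b_surj_of_span (hspan : Submodule.span k (Set.range ρ) = ⊤) :
    Function.Surjective (h83bP ρ) := by
  intro A
  have hA : A ∈ Submodule.span k (Set.range ρ) := by rw [hspan]; trivial
  have hle : Submodule.span k (Set.range ρ) ≤ LinearMap.range (h83bP ρ).toLinearMap := by
    rw [Submodule.span_le]
    rintro _ ⟨g, rfl⟩
    exact ⟨of k G g, h83bP_of ρ g⟩
  obtain ⟨x, hx⟩ := hle hA
  exact ⟨x, hx⟩

/-- the element of the group algebra attached to a finite family. -/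
def h83bSum {n : ℕ} (c : Fin n → k) (g : Fin n → G) : MonoidAlgebra k G :=
  ∑ i, c i • of k G (g i)

theorem h83bP_sum {n : ℕ} (c : Fin n → k) (g : Fin n → G) :
    h83bP ρ (h83bSum c g) = ∑ i, c i • ρ (g i) := by
  simp only [h83bSum, map_sum, map_smul, h83bP_of]

theorem h83bPhi_sum {n : ℕ} (c : Fin n → k) (g : Fin n → G) :
    h83bPhi φ (h83bSum c g) = ∑ i, c i • φ (g i) := by
  simp only [h83bSum, map_sum, map_smul, h83bPhi_of]

/-- **BLR for finite sums**: a linear relation between the `ρ (g i)` holds between the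
`φ (g i)`. -/
theorem h83b_blr_sum (h2 : (2 : k) ≠ 0)
    (hCH : ∀ g, φ g * φ g - (ρ g).trace • φ g + (ρ g).det • (1 : Module.End k U) = 0)
    (hspan : Submodule.span k (Set.range ρ) = ⊤) {n : ℕ} (c : Fin n → k) (g : Fin n → G)
    (h : ∑ i, c i • ρ (g i) = 0) : ∑ i, c i • φ (g i) = 0 := by
  rw [← h83bPhi_sum]
  exact h83b_blr h2 hCH (h83b_surj_of_span hspan) _ (by rw [h83bP_sum, h])

/-- **converse of BLR for finite sums** (`U` nontrivial). -/
theorem h83b_blr_conv_sum [Nontrivial U] (h2 : (2 : k) ≠ 0)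
    (hCH : ∀ g, φ g * φ g - (ρ g).trace • φ g + (ρ g).det • (1 : Module.End k U) = 0)
    (hspan : Submodule.span k (Set.range ρ) = ⊤) {n : ℕ} (c : Fin n → k) (g : Fin n → G)
    (h : ∑ i, c i • φ (g i) = 0) : ∑ i, c i • ρ (g i) = 0 := by
  rw [← h83bP_sum]
  exact h83b_blr_conv h2 hCH (h83b_surj_of_span hspan) _ (by rw [h83bPhi_sum, h])

end BLR

section Odd

variable {k : Type*} [Field k] {G : Type*} [Group G]
  {V : Type*} [AddCommGroup V] [Module k V]

/-- **absolute irreducibility from a non-scalar involution**: an irreducible action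
`ρ : G →* End_k V` on a plane (`2 ≠ 0` in `k`), with an element `c` such that `ρ(c)² = 1`,
`ρ(c) ≠ ± 1`, spans `End_k V`. -/
theorem h83b_span_end (h2 : (2 : k) ≠ 0) (hV : Module.finrank k V = 2)
    (ρ : G →* Module.End k V)
    (hirr : ∀ N : Submodule k V, (∀ g : G, ∀ v ∈ N, ρ g v ∈ N) → N = ⊥ ∨ N = ⊤)
    (c : G) (hc2 : ρ c * ρ c = 1) (hc1 : ρ c ≠ 1) (hc1' : ρ c ≠ -1) :
    Submodule.span k (Set.range ρ) = ⊤ := by
  classical
  haveI : Module.Finite k V := Module.finite_of_finrank_eq_succ hV
  set B : Submodule k (Module.End k V) := Submodule.span k (Set.range ρ) with hB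
  have hmulB : ∀ X ∈ B, ∀ Y ∈ B, X * Y ∈ B := by
    intro X hX Y hY
    induction hX using Submodule.span_induction with
    | mem X hX =>
      obtain ⟨g, rfl⟩ := hX
      induction hY using Submodule.span_induction with
      | mem Y hY =>
        obtain ⟨h, rfl⟩ := hY
        rw [← map_mul]
        exact Submodule.subset_span ⟨_, rfl⟩
      | zero => rw [mul_zero]; exact B.zero_mem
      | add Y₁ Y₂ _ _ h₁ h₂ => rw [mul_add]; exact B.add_mem h₁ h₂
      | smul r Y _ h₁ => rw [mul_smul_comm]; exact B.smul_mem r h₁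
    | zero => rw [zero_mul]; exact B.zero_mem
    | add X₁ X₂ _ _ h₁ h₂ => rw [add_mul]; exact B.add_mem h₁ h₂
    | smul r X _ h₁ => rw [smul_mul_assoc]; exact B.smul_mem r h₁
  have h1B : (1 : Module.End k V) ∈ B := by
    have : ρ 1 ∈ B := Submodule.subset_span ⟨1, rfl⟩
    rwa [map_one] at this
  have hcB : ρ c ∈ B := Submodule.subset_span ⟨c, rfl⟩
  set C : Module.End k V := ρ c with hC
  -- the idempotents `e± = (1 ± ρ c) / 2`
  set ep : Module.End k V := (2 : k)⁻¹ • (1 + C) with hep
  set em : Module.End k V := (2 : k)⁻¹ • (1 - C) with hem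
  have hepB : ep ∈ B := B.smul_mem _ (B.add_mem h1B hcB)
  have hemB : em ∈ B := B.smul_mem _ (B.sub_mem h1B hcB)
  have hsum : ep + em = 1 := by
    rw [hep, hem, ← smul_add]
    have : (1 + C) + (1 - C) = (2 : k) • (1 : Module.End k V) := by
      rw [two_smul]; abel
    rw [this, smul_smul, inv_mul_cancel₀ h2, one_smul]
  have h4 : ((2 : k)⁻¹ * (2 : k)⁻¹) * 2 = (2 : k)⁻¹ := by
    rw [mul_assoc, inv_mul_cancel₀ h2, mul_one]
  have hpp : ep * ep = ep := by
    have e : (1 + C) * (1 + C) = (2 : k) • (1 + C) := by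
      rw [mul_add, add_mul, add_mul, one_mul, mul_one, one_mul, hc2, two_smul]
      abel
    rw [hep, smul_mul_smul_comm, e, smul_smul, h4]
  have hmm : em * em = em := by
    have e : (1 - C) * (1 - C) = (2 : k) • (1 - C) := by
      rw [mul_sub, sub_mul, sub_mul, one_mul, mul_one, one_mul, hc2, two_smul]
      abel
    rw [hem, smul_mul_smul_comm, e, smul_smul, h4]
  have hpm : ep * em = 0 := by
    have e : (1 + C) * (1 - C) = 0 := by
      rw [mul_sub, add_mul, add_mul, one_mul, mul_one, one_mul, hc2]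
      abel
    rw [hep, hem, smul_mul_smul_comm, e, smul_zero]
  have hmp : em * ep = 0 := by
    have e : (1 - C) * (1 + C) = 0 := by
      rw [mul_add, sub_mul, sub_mul, one_mul, mul_one, one_mul, hc2]
      abel
    rw [hep, hem, smul_mul_smul_comm, e, smul_zero]
  have hep0 : ep ≠ 0 := by
    intro h
    have h' : (1 : Module.End k V) + C = 0 := by
      have := congrArg (fun Y => (2 : k) • Y) h
      simpa [hep, smul_smul, mul_inv_cancel₀ h2] using this
    exact hc1' (eq_neg_of_add_eq_zero_right h')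
  have hem0 : em ≠ 0 := by
    intro h
    have h' : (1 : Module.End k V) - C = 0 := by
      have := congrArg (fun Y => (2 : k) • Y) h
      simpa [hem, smul_smul, mul_inv_cancel₀ h2] using this
    exact hc1 (sub_eq_zero.mp h').symm
  -- off-diagonal elements from irreducibility
  have hoff : ∀ e f : Module.End k V, e + f = 1 → f * e = 0 → e ≠ 0 → f ≠ 0 →
      ∃ g : G, f * ρ g * e ≠ 0 := by
    intro e f hef hfe he0 hf0
    by_contra hcon
    push Not at hcon
    have hst : ∀ g : G, ∀ v ∈ LinearMap.range e, ρ g v ∈ LinearMap.range e := by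
      rintro g _ ⟨u, rfl⟩
      refine ⟨ρ g (e u), ?_⟩
      have h1 : (e + f) (ρ g (e u)) = ρ g (e u) := by rw [hef]; rfl
      have h2' : f (ρ g (e u)) = 0 := by
        have := congrArg (fun X : Module.End k V => X u) (hcon g)
        simpa using this
      rw [LinearMap.add_apply, h2', add_zero] at h1
      exact h1
    rcases hirr _ hst with h | h
    · exact he0 (LinearMap.range_eq_bot.mp h)
    · apply hf0
      apply LinearMap.ext
      intro v
      obtain ⟨u, hu⟩ : v ∈ LinearMap.range e := by rw [h]; trivial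
      rw [← hu]
      have := congrArg (fun X : Module.End k V => X u) hfe
      simpa using this
  obtain ⟨g₁, hg₁⟩ := hoff ep em hsum hmp hep0 hem0
  obtain ⟨g₂, hg₂⟩ := hoff em ep (by rw [add_comm]; exact hsum) hpm hem0 hep0
  set N₁ : Module.End k V := em * ρ g₁ * ep with hN₁
  set N₂ : Module.End k V := ep * ρ g₂ * em with hN₂
  have hN₁B : N₁ ∈ B := hmulB _ (hmulB _ hemB _ (Submodule.subset_span ⟨g₁, rfl⟩)) _ hepB
  have hN₂B : N₂ ∈ B := hmulB _ (hmulB _ hepB _ (Submodule.subset_span ⟨g₂, rfl⟩)) _ hemB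
  -- linear independence
  have hli : LinearIndependent k ![ep, em, N₁, N₂] := by
    rw [Fintype.linearIndependent_iff]
    intro a ha
    rw [Fin.sum_univ_four] at ha
    simp only [Matrix.cons_val_zero, Matrix.cons_val_one, Matrix.cons_val_two,
      Matrix.cons_val_three, Matrix.head_cons, Matrix.tail_cons, Matrix.cons_val] at ha
    have k0 : a 0 • ep = 0 := by
      have := congrArg (fun X : Module.End k V => ep * X * ep) ha
      simp only [mul_add, add_mul, mul_smul_comm, smul_mul_assoc, mul_zero, zero_mul] at this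
      rw [hN₁, hN₂] at this
      simp only [← mul_assoc, hpp, hpm, hmp, hmm, zero_mul, mul_zero, smul_zero, add_zero,
        zero_add] at this
      simpa [mul_assoc, hpp, hpm, hmp, hmm] using this
    have k1 : a 1 • em = 0 := by
      have := congrArg (fun X : Module.End k V => em * X * em) ha
      simp only [mul_add, add_mul, mul_smul_comm, smul_mul_assoc, mul_zero, zero_mul] at this
      rw [hN₁, hN₂] at this
      simp only [← mul_assoc, hpp, hpm, hmp, hmm, zero_mul, mul_zero, smul_zero, add_zero,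
        zero_add] at this
      simpa [mul_assoc, hpp, hpm, hmp, hmm] using this
    have k2 : a 2 • (em * (ρ g₁ * ep)) = 0 := by
      have := congrArg (fun X : Module.End k V => em * X * ep) ha
      simp only [mul_add, add_mul, mul_smul_comm, smul_mul_assoc, mul_zero, zero_mul] at this
      rw [hN₁, hN₂] at this
      simp only [← mul_assoc, hpp, hpm, hmp, hmm, zero_mul, mul_zero, smul_zero, add_zero,
        zero_add] at this
      simpa [mul_assoc, hpp, hpm, hmp, hmm] using this
    have k3 : a 3 • (ep * (ρ g₂ * em)) = 0 := by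
      have := congrArg (fun X : Module.End k V => ep * X * em) ha
      simp only [mul_add, add_mul, mul_smul_comm, smul_mul_assoc, mul_zero, zero_mul] at this
      rw [hN₁, hN₂] at this
      simp only [← mul_assoc, hpp, hpm, hmp, hmm, zero_mul, mul_zero, smul_zero, add_zero,
        zero_add] at this
      simpa [mul_assoc, hpp, hpm, hmp, hmm] using this
    intro i
    fin_cases i
    · exact (smul_eq_zero.mp k0).resolve_right hep0
    · exact (smul_eq_zero.mp k1).resolve_right hem0
    · exact (smul_eq_zero.mp k2).resolve_right (by rw [← mul_assoc]; exact hg₁)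
    · exact (smul_eq_zero.mp k3).resolve_right (by rw [← mul_assoc]; exact hg₂)
  have hcard : Fintype.card (Fin 4) = Module.finrank k (Module.End k V) := by
    rw [Module.finrank_linearMap, hV]
    simp
  have htop := hli.span_eq_top_of_card_eq_finrank' hcard
  rw [eq_top_iff, ← htop, Submodule.span_le]
  rintro _ ⟨i, rfl⟩
  fin_cases i
  · exact hepB
  · exact hemB
  · exact hN₁B
  · exact hN₂B

end Odd

section EndForm

variable {k : Type*} [Field k] {G : Type*} [Group G]
  {V : Type*} [AddCommGroup V] [Module k V] [Module.Finite k V]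
  {U : Type*} [AddCommGroup U] [Module k U]

/-- the matrix form of an action on a plane. -/
def h83bMat (hV : Module.finrank k V = 2) (ρ : G →* Module.End k V) :
    G →* Matrix (Fin 2) (Fin 2) k :=
  ((LinearMap.toMatrixAlgEquiv (Module.finBasisOfFinrankEq k V hV) :
    Module.End k V ≃ₐ[k] Matrix (Fin 2) (Fin 2) k) : Module.End k V →* _).comp ρ

theorem h83bMat_apply (hV : Module.finrank k V = 2) (ρ : G →* Module.End k V) (g : G) :
    h83bMat hV ρ g =
      LinearMap.toMatrixAlgEquiv (Module.finBasisOfFinrankEq k V hV) (ρ g) := rfl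

theorem h83bMat_trace (hV : Module.finrank k V = 2) (ρ : G →* Module.End k V) (g : G) :
    (h83bMat hV ρ g).trace = LinearMap.trace k V (ρ g) := by
  rw [h83bMat_apply]
  exact (LinearMap.trace_eq_matrix_trace k (Module.finBasisOfFinrankEq k V hV) (ρ g)).symm

theorem h83bMat_det (hV : Module.finrank k V = 2) (ρ : G →* Module.End k V) (g : G) :
    (h83bMat hV ρ g).det = LinearMap.det (ρ g) := by
  rw [h83bMat_apply]
  exact LinearMap.det_toMatrix (Module.finBasisOfFinrankEq k V hV) (ρ g)

theorem h83bMat_span (hV : Module.finrank k V = 2) (ρ : G →* Module.End k V)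
    (hspan : Submodule.span k (Set.range ρ) = ⊤) :
    Submodule.span k (Set.range (h83bMat hV ρ)) = ⊤ := by
  set A : Module.End k V ≃ₐ[k] Matrix (Fin 2) (Fin 2) k :=
    LinearMap.toMatrixAlgEquiv (Module.finBasisOfFinrankEq k V hV) with hA
  rw [eq_top_iff]
  intro M _
  have hM : A.symm M ∈ Submodule.span k (Set.range ρ) := by rw [hspan]; trivial
  have key : ∀ X ∈ Submodule.span k (Set.range ρ),
      A X ∈ Submodule.span k (Set.range (h83bMat hV ρ)) := by
    intro X hX
    induction hX using Submodule.span_induction with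
    | mem X hX =>
      obtain ⟨g, rfl⟩ := hX
      exact Submodule.subset_span ⟨g, rfl⟩
    | zero => rw [map_zero]; exact Submodule.zero_mem _
    | add X Y _ _ hX hY => rw [map_add]; exact Submodule.add_mem _ hX hY
    | smul r X _ hX => rw [map_smul]; exact Submodule.smul_mem _ r hX
  have h1 := key _ hM
  rwa [AlgEquiv.apply_symm_apply] at h1

theorem h83bMat_sum (hV : Module.finrank k V = 2) (ρ : G →* Module.End k V) {n : ℕ}
    (c : Fin n → k) (g : Fin n → G) :
    ∑ i, c i • h83bMat hV ρ (g i) =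
      LinearMap.toMatrixAlgEquiv (Module.finBasisOfFinrankEq k V hV) (∑ i, c i • ρ (g i)) := by
  simp only [map_sum, map_smul, h83bMat_apply]

/-- **BLR, `End` form**: `V` a plane with an action `ρ` spanning `End_k V`, `U` with the
Cayley–Hamilton identities of `ρ`; then every linear relation between the `ρ (g i)` holds
between the `φ (g i)`. -/
theorem h83b_blr_end (h2 : (2 : k) ≠ 0) (hV : Module.finrank k V = 2)
    (ρ : G →* Module.End k V) (hspan : Submodule.span k (Set.range ρ) = ⊤)
    (φ : G →* Module.End k U)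
    (hCH : ∀ g, φ g * φ g - LinearMap.trace k V (ρ g) • φ g +
      LinearMap.det (ρ g) • (1 : Module.End k U) = 0)
    {n : ℕ} (c : Fin n → k) (g : Fin n → G) (h : ∑ i, c i • ρ (g i) = 0) :
    ∑ i, c i • φ (g i) = 0 := by
  refine h83b_blr_sum (ρ := h83bMat hV ρ) h2 (fun g => ?_) (h83bMat_span hV ρ hspan) c g ?_
  · rw [h83bMat_trace, h83bMat_det]
    exact hCH g
  · rw [h83bMat_sum, h, map_zero]

/-- **converse of BLR, `End` form** (`U` nontrivial). -/
theorem h83b_blr_conv_end [Nontrivial U] (h2 : (2 : k) ≠ 0) (hV : Module.finrank k V = 2)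
    (ρ : G →* Module.End k V) (hspan : Submodule.span k (Set.range ρ) = ⊤)
    (φ : G →* Module.End k U)
    (hCH : ∀ g, φ g * φ g - LinearMap.trace k V (ρ g) • φ g +
      LinearMap.det (ρ g) • (1 : Module.End k U) = 0)
    {n : ℕ} (c : Fin n → k) (g : Fin n → G) (h : ∑ i, c i • φ (g i) = 0) :
    ∑ i, c i • ρ (g i) = 0 := by
  have h1 := h83b_blr_conv_sum (ρ := h83bMat hV ρ) h2 (fun g => by
    rw [h83bMat_trace, h83bMat_det]
    exact hCH g) (h83bMat_span hV ρ hspan) c g h
  rw [h83bMat_sum] at h1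
  exact (LinearMap.toMatrixAlgEquiv (Module.finBasisOfFinrankEq k V hV)).injective
    (by rw [h1, map_zero])

/-- **BLR for an irreducible plane with a non-scalar involution** (e.g. an odd irreducible
Galois representation, `c` a complex conjugation), both directions. -/
theorem h83b_blr_odd [Nontrivial U] (h2 : (2 : k) ≠ 0) (hV : Module.finrank k V = 2)
    (ρ : G →* Module.End k V)
    (hirr : ∀ N : Submodule k V, (∀ g : G, ∀ v ∈ N, ρ g v ∈ N) → N = ⊥ ∨ N = ⊤)
    (c₀ : G) (hc2 : ρ c₀ * ρ c₀ = 1) (hc1 : ρ c₀ ≠ 1) (hc1' : ρ c₀ ≠ -1)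
    (φ : G →* Module.End k U)
    (hCH : ∀ g, φ g * φ g - LinearMap.trace k V (ρ g) • φ g +
      LinearMap.det (ρ g) • (1 : Module.End k U) = 0)
    {n : ℕ} (c : Fin n → k) (g : Fin n → G) :
    ∑ i, c i • ρ (g i) = 0 ↔ ∑ i, c i • φ (g i) = 0 :=
  ⟨h83b_blr_end h2 hV ρ (h83b_span_end h2 hV ρ hirr c₀ hc2 hc1 hc1') φ hCH c g,
    h83b_blr_conv_end h2 hV ρ (h83b_span_end h2 hV ρ hirr c₀ hc2 hc1 hc1') φ hCH c g⟩

end EndForm

end Fermat.Agent.P7
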