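import Fermat.Agent.P7.H84Asm

/-!
# Wave 7 (S40), block (5b), row T-C5-ASM (helper84): the EXPORT form of the assembly (for T-EIS)

Same hypotheses as `h84a_phase` (`P7/H84Asm.lean`).  Conclusion: `w = b u / u = a₀ + δ ^ p F₃`
with `a₀` a unit of `A`, `F₃ ≡ f₁` modulo `𝔪_A W∞`, `F₃ ≡ f₂` modulo `𝔪_A W₀`, and at EVERY node
`e` the node constant `γ_e = γP e / γQ e` satisfies `θ γ_e / γ_e = 1 + δ ψ_e` with
`a₀ ψ_e ^ p ≡ f₂ - f₁` modulo `𝔪_A` (the invariant `Ψ(u)` of finding 1368).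

Nothing is assumed.
-/

set_option autoImplicit false
set_option linter.unusedSectionVars false
set_option linter.unusedVariables false

open IsLocalRing Polynomial

namespace Fermat.Agent.P7

open Fermat.Agent.Red
open Fermat.Agent.P6 (h88nM)

section Abs

variable {A : Type*} [CommRing A] [IsDomain A] [ValuationRing A]
  {F : Type*} [Field F] [Algebra A F]

/-- **T-C5-ASM, abstract EXPORT form.** -/
theorem h84a_export {Winf W0 : Subring F} {Sinf Szero E : Type*} [Nonempty E]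
    {Oinf : Sinf → Subring F} {Ozero : Szero → Subring F} {Oe : E → Subring F}
    (hC : H78hChart A Winf W0 Oinf Ozero Oe)
    (hinvinf : ∀ m ∈ maximalIdeal A, ∀ x ∈ Winf, (1 + algebraMap A F m * x)⁻¹ ∈ Winf)
    (hntinf : ∀ m ∈ maximalIdeal A, ∀ x ∈ Winf, algebraMap A F m * x ≠ 1)
    (hinv0 : ∀ m ∈ maximalIdeal A, ∀ x ∈ W0, (1 + algebraMap A F m * x)⁻¹ ∈ W0)
    (hnt0 : ∀ m ∈ maximalIdeal A, ∀ x ∈ W0, algebraMap A F m * x ≠ 1)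
    (b : F →+* F) (θ : A →+* A)
    (hbθ : ∀ a : A, b (algebraMap A F a) = algebraMap A F (θ a))
    {p : ℕ} (hp : p.Prime)
    {δ : A} (hδ0 : δ ≠ 0) (hδ : δ ∈ maximalIdeal A)
    (hpδ : ∃ m₀ ∈ maximalIdeal A, (p : A) * δ = δ ^ p * m₀)
    {ϖ : A} (hϖ0 : ϖ ≠ 0) (hθϖ : θ ϖ = ϖ) {u : F}
    (hNFinf : ∀ n, H84aNFSmooth b θ δ p Winf (Oinf n) u)
    (hNFzero : ∀ n, H84aNFSmooth b θ δ p W0 (Ozero n) u)
    (m : E → ℤ) (γP γQ : E → A)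
    (hNFe : ∀ e, H84aNFNode b θ δ p Winf W0 (Oe e) ϖ u (m e) (γP e) (γQ e))
    (hdisc : H78hDisc A Winf W0 (δ ^ p) (b u * u⁻¹)) :
    ∃ (a₀ f₁ f₂ : A) (F₃ : F), a₀ ∉ maximalIdeal A ∧ F₃ ∈ Winf ∧ F₃ ∈ W0 ∧
      b u * u⁻¹ = algebraMap A F a₀ + algebraMap A F (δ ^ p) * F₃ ∧
      F₃ - algebraMap A F f₁ ∈ h88nM A Winf ∧ F₃ - algebraMap A F f₂ ∈ h88nM A W0 ∧
      ∀ e, ∃ ψ : A, θ (γP e) * γQ e = γP e * θ (γQ e) * (1 + δ * ψ) ∧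
        a₀ * ψ ^ p - (f₂ - f₁) ∈ maximalIdeal A := by
  classical
  obtain ⟨e⟩ := (inferInstance : Nonempty E)
  have hL1inf : ∀ n, H78hL1 A Winf (Oinf n) (δ ^ p) (b u * u⁻¹) := fun n =>
    h84a_L1 hC.hAinf hinvinf hntinf b θ hbθ hp hpδ (hNFinf n)
  have hL1zero : ∀ n, H78hL1 A W0 (Ozero n) (δ ^ p) (b u * u⁻¹) := fun n =>
    h84a_L1 hC.hA0 hinv0 hnt0 b θ hbθ hp hpδ (hNFzero n)
  have hL2 := fun e => h84a_L2 hC.hAF hC.hAinf hinvinf hntinf hC.hA0 hinv0 hnt0 b θ hbθ hp hδ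
    hpδ hϖ0 hθϖ (hNFe e)
  choose ψ hψL hψ using hL2
  have hD0 : δ ^ p ≠ 0 := pow_ne_zero _ hδ0
  have hDm : δ ^ p ∈ maximalIdeal A := Ideal.pow_mem_of_mem _ hδ _ hp.pos
  obtain ⟨a₀, f₁, f₂, F₃, hF₁, hF₂, hw, hf₁, hf₂, hexp⟩ :=
    h78h_export hC hD0 hDm (fun e => ψ e ^ p) hL1inf hL1zero hψL hdisc
  -- `w` is a unit of `W∞`
  have hwinv : (b u * u⁻¹)⁻¹ ∈ Winf := by
    obtain ⟨x, P, Q, E', hx0, hxinf, hxinf', hbx, hxW0, hP, hPm, hP0, hPin, hvarP, hQ, hQm, hQ0,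
      hQin, hvarQ, hE0, hE, hE', -, -, hu⟩ := hNFe e
    obtain ⟨o, X, -, ho, ho', hX1, -, hw', -⟩ := h84a_node hC.hAF hC.hAinf hinvinf hntinf
      hC.hA0 hinv0 hnt0 b θ hbθ hp hδ hpδ (Oe e) x hx0 hxinf hxinf' hbx ϖ hϖ0 hθϖ hxW0 P Q hP
      hPm hP0 hPin hvarP hQ hQm hQ0 hQin hvarQ (m e) E' u hE0 hE hE' hu
    rw [hw', mul_inv]
    exact Winf.mul_mem (hC.hOe₁ e _ ho') (h91yU_mem hC.hAinf (h91yU_inv hinvinf hntinf hX1))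
  have hw0 : b u * u⁻¹ ≠ 0 := by
    intro h0
    obtain ⟨x, P, Q, E', hx0, hxinf, hxinf', hbx, hxW0, hP, hPm, hP0, hPin, hvarP, hQ, hQm, hQ0,
      hQin, hvarQ, hE0, hE, hE', -, -, hu⟩ := hNFe e
    obtain ⟨hPx0, -, -⟩ := h91y_unit hC.hAinf hinvinf hntinf x hxinf hxinf' hx0 P hP hPm
    obtain ⟨hQx0, -, -⟩ := h91y_unit hC.hAinf hinvinf hntinf x hxinf hxinf' hx0 Q hQ hQm
    have hu0 : u ≠ 0 := by
      rw [hu]
      exact mul_ne_zero (mul_ne_zero hE0 (zpow_ne_zero _ hx0))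
        (pow_ne_zero _ (mul_ne_zero hPx0 (inv_ne_zero hQx0)))
    exact mul_ne_zero ((map_ne_zero b).mpr hu0) (inv_ne_zero hu0) h0
  have ha₀ : a₀ ∉ maximalIdeal A := by
    intro ha
    rcases ValuationRing.dvd_total a₀ (δ ^ p) with ⟨c, hc⟩ | ⟨c, hc⟩
    · have h2 : b u * u⁻¹ = algebraMap A F a₀ * (1 + algebraMap A F c * F₃) := by
        rw [hw, hc, map_mul]; ring
      apply hntinf a₀ ha ((1 + algebraMap A F c * F₃) * (b u * u⁻¹)⁻¹)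
        (Winf.mul_mem (Winf.add_mem Winf.one_mem (Winf.mul_mem (hC.hAinf _) hF₁)) hwinv)
      rw [← mul_assoc, ← h2]
      exact mul_inv_cancel₀ hw0
    · have h2 : b u * u⁻¹ = algebraMap A F (δ ^ p) * (algebraMap A F c + F₃) := by
        rw [hw, hc, map_mul]; ring
      apply hntinf (δ ^ p) hDm ((algebraMap A F c + F₃) * (b u * u⁻¹)⁻¹)
        (Winf.mul_mem (Winf.add_mem (hC.hAinf _) hF₁) hwinv)
      rw [← mul_assoc, ← h2]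
      exact mul_inv_cancel₀ hw0
  exact ⟨a₀, f₁, f₂, F₃, ha₀, hF₁, hF₂, hw, hf₁, hf₂, fun e' => ⟨ψ e', hψ e', hexp e'⟩⟩

end Abs

end Fermat.Agent.P7
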