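import Fermat.Agent.P7.H84AsmExp
import Fermat.Agent.P7.H90NodeRat
import Fermat.Agent.P7.H62InertLoc
import Fermat.Agent.P7.H50Tame
import Fermat.Agent.S35.H13TorAdapt

/-!
# Wave 7 (S40), block (5b), row T-C5-ASM (helper84): the node normal form at the level, in the
shape of the assembly

`p ∤ M` prime, good level, `A` over `p`, `𝔫` a crossing point of the finite chart of level `M p`,
`b` an element of the inertia group, `δ ∈ A`.

* `h84w_node_nf` : for `u ≠ 0` with `p ∣ div u`, if every constant of `A` fixed by the inertia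
  elements fixing `u` varies by `1 + δ A` under `b` (BREAK), then `u` has at `𝔫` a normal form
  `H84aNFNode` (for the automorphism `b`, `ϖ = p`, local ring `h62yO B 𝔫`) with slope `m` and
  node constant `γP / γQ`, and the SAME `(m, γP / γQ)` is a node form `H50tNodeForm` of helper50;
  moreover `γP`, `γQ` are fixed by every inertia element fixing `u`.

Nothing is assumed.
-/

set_option autoImplicit false
set_option linter.unusedSectionVars false
set_option linter.unusedVariables false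
set_option linter.style.longLine false
set_option linter.style.haveILetI false
set_option synthInstance.maxHeartbeats 400000
set_option maxHeartbeats 1600000

open AlgebraicCurve ModularCurve WithZero IsLocalRing Polynomial

noncomputable section

namespace Fermat.Agent.P7

open Fermat.Agent.S37 Fermat.Agent.S37.GalI Fermat.Agent.Red Fermat.Agent.Red.GG
  Fermat.Agent.Red.GV Fermat.Agent.Red.GV.Soft Fermat.Agent.Red.ModelO Fermat.Agent.Red.Kron
  Fermat.Agent.LGC Fermat.Agent.S35 Fermat.Agent.P6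

variable (A : ValuationSubring Kbar) (M : ℕ) {p : ℕ} [NeZero M] [NeZero p]

/-- the Galois action of an inertia element, as a ring endomorphism of the function field. -/
def h84wB (N : ℕ) (b : GQ) : FF N →+* FF N := (h56pTau N b : FF N →+* FF N)

theorem h84wB_apply (N : ℕ) (b : GQ) (f : FF N) : h84wB N b f = gal N b • f := rfl

/-- **the node normal form at the level, in the shape of the assembly.** -/
theorem h84w_node_nf (hp : p.Prime) (hM : ¬ p ∣ M) (haux : auxLevel p ∣ M)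
    (hA : A.LiesOverPrime p)
    (𝔫 : Ideal (chart (M * p) A (jSS M p))) (h𝔫 : 𝔫.IsMaximal)
    (hboth : TorOnBoth A M p hp hM hA (jSS M p) 𝔫)
    {b : GQ} (hb : b ∈ A.inertiaSubgroupIn ℚ) (δ : A)
    (u : FF (M * p)) (hu0 : u ≠ 0)
    (hord : ∀ v : Place Kbar (FF (M * p)), (p : ℤ) ∣ v.ord u)
    (hvar : ∀ z : A, (∀ σ (hσ : σ ∈ A.inertiaSubgroupIn ℚ), gal (M * p) σ • u = u →
      h56pTheta A hσ z = z) → ∃ c : A, h56pTheta A hb z = z * (1 + δ * c)) :
    ∃ (m : ℤ) (γP γQ : A),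
      H84aNFNode (h84wB (M * p) b) (h56pTheta A hb) δ p
        (h85cWinf A M p hp hA).toSubring (h85cW0 A M p hp hM hA).toSubring
        (h62yO (chart (M * p) A (jSS M p)) 𝔫 h𝔫.isPrime).toSubring ((p : ℕ) : A) u m γP γQ ∧
      H50tNodeForm A M hp hM hA 𝔫 u p m ((γP : Kbar) * (γQ : Kbar)⁻¹) ∧
      (∀ σ (hσ : σ ∈ A.inertiaSubgroupIn ℚ), gal (M * p) σ • u = u →
        h56pTheta A hσ γP = γP ∧ h56pTheta A hσ γQ = γQ) := by
  classical
  haveI := h𝔫.isPrime
  have hPinf := h13x_Pinf_le_of_onBoth A M hp hM hA 𝔫 hboth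
  have hP0 := h13x_P0_le_of_onBoth A M hp hM hA 𝔫 hboth
  have hle : mExt A M p (jSS M p) ≤ 𝔫 := le_trans (h62i_m_le_Pinf A M hp hM hA) hPinf
  have hAF := algebraMap_injective_FF (M * p) A
  obtain ⟨x, y, c, hxf, hyf, hcf, hx, hy, hc, hxy, hprin, hxinf, hy0, hall⟩ :=
    h90g_node_rat A M hp hM haux hA 𝔫 h𝔫 hPinf hP0
  obtain ⟨m, s, θ, e, Tp, Tm, a, d, n, π, εinf, ε0, hθc, hθ0, he, he', ⟨t, ht, hte, hte'⟩,
    hdisj, hroots, hu, hrat, hπ, hπ0, hεinf, hε0, hginf, hg0⟩ :=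
    hall u hu0 p hp.ne_zero (fun i _ => exists_val_eq (M * p) (jSS M p) u hu0 p hord i)
  set P := h91yPoly Tp a n with hPdef
  set Q := h91yPoly Tm a n with hQdef
  have hp0A : (((p : ℕ) : A)) ≠ 0 := h20n_natCast_ne_zero A p
  -- the roots
  have hrP : ∀ i ∈ Tp, a i ∈ maximalIdeal A ∧ d i ∈ maximalIdeal A ∧
      a i * d i = ((p : ℕ) : A) := fun i hi =>
    ⟨(hroots i (Or.inl hi)).1, (hroots i (Or.inl hi)).2.1, (hroots i (Or.inl hi)).2.2.1⟩
  have hrQ : ∀ i ∈ Tm, a i ∈ maximalIdeal A ∧ d i ∈ maximalIdeal A ∧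
      a i * d i = ((p : ℕ) : A) := fun i hi =>
    ⟨(hroots i (Or.inr hi)).1, (hroots i (Or.inr hi)).2.1, (hroots i (Or.inr hi)).2.2.1⟩
  have ha0 : ∀ i, i ∈ Tp ∨ i ∈ Tm → a i ≠ 0 := by
    intro i hi h0
    have := (hroots i hi).2.2.1
    rw [h0, zero_mul] at this
    exact hp0A this.symm
  have hP0' : P.coeff 0 ≠ 0 := by
    rw [hPdef, h91yPoly_coeff_zero]
    exact Finset.prod_ne_zero_iff.mpr fun i hi =>
      pow_ne_zero _ (neg_ne_zero.mpr (ha0 i (Or.inl hi)))
  have hQ0' : Q.coeff 0 ≠ 0 := by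
    rw [hQdef, h91yPoly_coeff_zero]
    exact Finset.prod_ne_zero_iff.mpr fun i hi =>
      pow_ne_zero _ (neg_ne_zero.mpr (ha0 i (Or.inr hi)))
  -- the variation of the coefficients
  have hfixP : ∀ k, ∀ σ (hσ : σ ∈ A.inertiaSubgroupIn ℚ), gal (M * p) σ • u = u →
      h56pTheta A hσ (P.coeff k) = P.coeff k := by
    intro k σ hσ hσu
    have h1 := (hrat σ hσ hσu).1
    have h2 := congrArg (fun R : A[X] => R.coeff k) h1
    simpa only [coeff_map] using h2
  have hfixQ : ∀ k, ∀ σ (hσ : σ ∈ A.inertiaSubgroupIn ℚ), gal (M * p) σ • u = u →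
      h56pTheta A hσ (Q.coeff k) = Q.coeff k := by
    intro k σ hσ hσu
    have h1 := (hrat σ hσ hσu).2
    have h2 := congrArg (fun R : A[X] => R.coeff k) h1
    simpa only [coeff_map] using h2
  have hvarP : ∀ k, ∃ c : A, h56pTheta A hb (P.coeff k) = P.coeff k * (1 + δ * c) :=
    fun k => hvar _ (hfixP k)
  have hvarQ : ∀ k, ∃ c : A, h56pTheta A hb (Q.coeff k) = Q.coeff k * (1 + δ * c) :=
    fun k => hvar _ (hfixQ k)
  -- the coordinate `x`
  have hx0 : (x : FF (M * p)) ≠ 0 := by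
    intro h0
    have h1 : ((x * y : chart (M * p) A (jSS M p)) : FF (M * p)) = 0 := by
      push_cast
      rw [h0, zero_mul]
    rw [hxy] at h1
    have h2 : algebraMap A (FF (M * p)) ((p : ℕ) : A) * (c : FF (M * p)) = 0 := h1
    rcases mul_eq_zero.mp h2 with h3 | h3
    · exact hp0A (hAF (by rw [h3, map_zero]))
    · apply hc
      have : c = 0 := Subtype.ext h3
      rw [this]
      exact 𝔫.zero_mem
  have hy0' : (y : FF (M * p)) ≠ 0 := by
    intro h0
    have h1 : ((x * y : chart (M * p) A (jSS M p)) : FF (M * p)) = 0 := by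
      push_cast
      rw [h0, mul_zero]
    rw [hxy] at h1
    have h2 : algebraMap A (FF (M * p)) ((p : ℕ) : A) * (c : FF (M * p)) = 0 := h1
    rcases mul_eq_zero.mp h2 with h3 | h3
    · exact hp0A (hAF (by rw [h3, map_zero]))
    · apply hc
      have : c = 0 := Subtype.ext h3
      rw [this]
      exact 𝔫.zero_mem
  have hxWinf : (x : FF (M * p)) ∈ (h85cWinf A M p hp hA).toSubring :=
    h50t_chart_mem_inf hp hM hA x
  have hpF : algebraMap A (FF (M * p)) ((p : ℕ) : A) ≠ 0 :=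
    fun h => hp0A (hAF (by rw [h, map_zero]))
  have hxW0 : (x : FF (M * p)) * (algebraMap A (FF (M * p)) ((p : ℕ) : A))⁻¹ ∈
      (h85cW0 A M p hp hM hA).toSubring := by
    have h1 : (x : FF (M * p)) * (y : FF (M * p)) =
        algebraMap A (FF (M * p)) ((p : ℕ) : A) * (c : FF (M * p)) := by
      have := congrArg (fun z : chart (M * p) A (jSS M p) => (z : FF (M * p))) hxy
      simpa using this
    have h2 : (x : FF (M * p)) * (algebraMap A (FF (M * p)) ((p : ℕ) : A))⁻¹ =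
        (c : FF (M * p)) * ((y : FF (M * p)))⁻¹ := by
      field_simp
      linear_combination h1
    rw [h2]
    exact Subring.mul_mem _ (h50t_chart_mem_zero hp hM hA c) hy0
  have hθϖ : h56pTheta A hb ((p : ℕ) : A) = ((p : ℕ) : A) := map_natCast _ p
  -- the unit part
  obtain ⟨κ₀, hκ₀⟩ := h50t_isConst_eq_cst A (M * p) hθc
  have hκ₀0 : κ₀ ≠ 0 := by
    intro h0
    apply hθ0
    rw [hκ₀, h0]
    exact map_zero _
  have heO : e ∈ h62yO (chart (M * p) A (jSS M p)) 𝔫 h𝔫.isPrime := ⟨t, ht, hte⟩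
  have heO' : e⁻¹ ∈ h62yO (chart (M * p) A (jSS M p)) 𝔫 h𝔫.isPrime := ⟨t, ht, hte'⟩
  obtain ⟨hc1, hc2⟩ := h62w_gal_cst_unit A M (jSS M p) hb 𝔫 h𝔫.isPrime κ₀ hκ₀0
  obtain ⟨hu1, hu2⟩ := h62w_gal_unit_fin A M hp hM hA hb 𝔫 h𝔫.isPrime hle heO heO'
  have he0 : e ≠ 0 := by
    intro h0
    apply hu0
    rw [hu, h0, mul_zero, zero_mul]
  have hE0 : θ * e ≠ 0 := mul_ne_zero hθ0 he0
  have hbE : h84wB (M * p) b (θ * e) * (θ * e)⁻¹ =
      (gal (M * p) b • (cst (M * p) κ₀ : FF (M * p)) * (cst (M * p) κ₀)⁻¹) *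
        (gal (M * p) b • e * e⁻¹) := by
    rw [h84wB_apply, smul_mul', hκ₀]
    field_simp
  have hE : h84wB (M * p) b (θ * e) * (θ * e)⁻¹ ∈
      (h62yO (chart (M * p) A (jSS M p)) 𝔫 h𝔫.isPrime).toSubring := by
    rw [hbE]
    exact Subring.mul_mem _ hc1 hu1
  have hE' : (θ * e) * (h84wB (M * p) b (θ * e))⁻¹ ∈
      (h62yO (chart (M * p) A (jSS M p)) 𝔫 h𝔫.isPrime).toSubring := by
    have e1 : (θ * e) * (h84wB (M * p) b (θ * e))⁻¹ =
        (gal (M * p) b • (cst (M * p) κ₀ : FF (M * p)) * (cst (M * p) κ₀)⁻¹)⁻¹ *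
        (gal (M * p) b • e * e⁻¹)⁻¹ := by
      rw [← mul_inv, ← hbE, mul_inv, inv_inv]
      exact mul_comm _ _
    rw [e1]
    exact Subring.mul_mem _ hc2 hu2
  refine ⟨m, P.coeff 0, Q.coeff 0, ?_, ?_, ?_⟩
  · refine ⟨(x : FF (M * p)), P, Q, θ * e, hx0, hxWinf, hxinf, ?_, hxW0,
      h91yPoly_monic _ _ _, h91yPoly_coeff_mem _ _ _ (fun i hi => (hrP i hi).1), hP0',
      h91yPoly_inside Tp a d n _ (fun i hi => (hrP i hi).2.1) (fun i hi => (hrP i hi).2.2),
      hvarP,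
      h91yPoly_monic _ _ _, h91yPoly_coeff_mem _ _ _ (fun i hi => (hrQ i hi).1), hQ0',
      h91yPoly_inside Tm a d n _ (fun i hi => (hrQ i hi).2.1) (fun i hi => (hrQ i hi).2.2),
      hvarQ, hE0, hE, hE', rfl, rfl, ?_⟩
    · rw [h84wB_apply]
      exact hxf b
    · rw [hu]
      ring
  · refine ⟨hboth, x, y, c, hc, hxy, hxinf, hy0, s, κ₀,
      aeval (x : FF (M * p)) P * (aeval (x : FF (M * p)) Q)⁻¹, e, εinf, ε0, π, hπ, hκ₀0, ?_, ?_,
      he, he', hginf, hεinf, ?_, hε0⟩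
    · have h1 : ((P.coeff 0 : A) : Kbar) ≠ 0 := fun h => hP0' (Subtype.ext h)
      have h2 : ((Q.coeff 0 : A) : Kbar) ≠ 0 := fun h => hQ0' (Subtype.ext h)
      exact mul_ne_zero h1 (inv_ne_zero h2)
    · rw [hu, hκ₀]
    · rw [hg0]
      congr 1
      have e1 : algebraMap A (FF (M * p)) (P.coeff 0) = cst (M * p) ((P.coeff 0 : A) : Kbar) := rfl
      have e2 : algebraMap A (FF (M * p)) (Q.coeff 0) = cst (M * p) ((Q.coeff 0 : A) : Kbar) := rfl
      rw [e1, e2]
      simp only [cst, map_mul, map_inv₀]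
  · intro σ hσ hσu
    exact ⟨hfixP 0 σ hσ hσu, hfixQ 0 σ hσ hσu⟩

end Fermat.Agent.P7
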