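import Fermat.Agent.P7.H5EisAll
import Fermat.Agent.P7.H23ValI1

/-!
# P7 (wave 7, row 38), block T-TORIC, row T-EIS-TAME (helper84): block (E) in the TAME case

`p ∤ M` an odd prime, `M` a good level, `A` over `p`, `I₁ = h23vI1 p A` the inertia elements
acting trivially on `μ_p`.  In the tame case of the dichotomy `h23w_dichotomy` the unit `β` is
fixed by all of `I₁`, hence so is the Kummer function `u`; there is no break datum
(`H23wBreak`) and the tops `h27g_eis_top*`, `h5e_all` do not apply.  The argument is shorter: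
the node constants of `u` and of `T_ℓ u` lie in `Fix(I₁)`, whose value group is
`(1 / (p - 1)) ℤ v(p)`, so the jump relation `v(p ^ m' α₀' ^ p) = v(p ^ m α₀ ^ p) ^ (ℓ + 1)`
(VAL-HECKE) gives `p ∣ m' - (ℓ + 1) m`, and the eigen-relation `p ∣ m' - c m` gives `p ∣ m`.

* `h84t_node` : at every crossing point `𝔫` there are node coordinates `x y = p c` such that
  every `u ≠ 0` with `p ∣ div u` has node data `H5eNodeData` (helper5) with constant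
  `α₀ = P(0) / R(0)`, `P`, `R` fixed by every inertia element fixing `u` (helper90's
  `h90g_node_rat`, in the shape of T-EIS).
* `h84t_ss` : **T-EIS at a supersingular place, tame case**: node data of `u` and of `T_ℓ u`
  with constants fixed by `I₁`, `T_ℓ x₀ = c x₀`, `p ∤ ℓ + 1 - c` `⟹ p ∣ ord_Q(ū)`.
* `h84t_all` : **T-EIS + PURITY, tame case**: `u` a Kummer representative of `x₀` fixed by all
  of `I₁`, `T_ℓ x₀ = c x₀`, `p ∤ ℓ + 1 - c` `⟹ p ∣ ord_Q(ū)` at every place `Q` of the special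
  fibre (the hypothesis `hs` of `h60g_toric`).

Nothing is assumed: every statement is proved.
-/

set_option autoImplicit false
set_option linter.style.haveILetI false
set_option linter.style.longLine false
set_option linter.unusedSectionVars false
set_option linter.unusedVariables false
set_option synthInstance.maxHeartbeats 400000
set_option maxHeartbeats 1600000

open AlgebraicCurve ModularCurve IsLocalRing Polynomial

noncomputable section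

namespace Fermat.Agent.P7

open Fermat.Agent.S37 Fermat.Agent.Red Fermat.Agent.Red.GG Fermat.Agent.Red.GV
  Fermat.Agent.Red.GV.Soft Fermat.Agent.LGC Fermat.Agent.P5 Fermat.Agent.S35 Fermat.Agent.P6
  Fermat.Agent.Red.Kron Fermat.Agent.Red.ModelO
open Fermat.Agent.Jac.K1 (IsKummerPair)

variable {A : ValuationSubring Kbar} {M p : ℕ} [NeZero M] [NeZero p]

section Node

variable (hp : p.Prime) (hM : ¬ p ∣ M) (hA : A.LiesOverPrime p)
  (𝔫 : Ideal (chart (M * p) A (jSS M p))) (h𝔫 : 𝔫.IsMaximal)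
  (hboth : TorOnBoth A M p hp hM hA (jSS M p) 𝔫)
  (x y c : chart (M * p) A (jSS M p)) (hx : x ∈ 𝔫) (hy : y ∈ 𝔫) (hc : c ∉ 𝔫)
  (hxy : x * y = algebraMap A (chart (M * p) A (jSS M p)) ((p : ℕ) : A) * c)
  (hprin : ∀ z ∈ 𝔫, ∃ s, s ∉ 𝔫 ∧ s * z ∈ Ideal.span {x, y} ⊔ mExt A M p (jSS M p))
  (hxinf : ((x : FF (M * p)))⁻¹ ∈ h85cWinf A M p hp hA)
  (hy0 : ((y : FF (M * p)))⁻¹ ∈ h85cW0 A M p hp hM hA)
  (Q : Place (h13sK A) (h13sFt A M))
  (hQ : H85wAt hp hM hA (h62i_mem_soft A M hp hM hA) Q 𝔫)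

include h𝔫 hboth hx hc hxy hprin hxinf hy0 hQ in
/-- **T-EIS at a supersingular place, tame case**: node data of `u` and of `T_ℓ u` whose
constants are fixed by `I₁`, `T_ℓ x₀ = c x₀` with `p ∤ ℓ + 1 - c` `⟹ p ∣ ord_Q(ū)`. -/
theorem h84t_ss (hp2 : p ≠ 2) {ℓ : ℕ} (hℓ : ℓ.Prime) (hℓN : ¬ ℓ ∣ M * p)
    {x₀ : JZero (M * p)} {u : FF (M * p)}
    (hu : IsKummerPair p x₀ u) (c₀ : ℤ)
    (hc₀ : heckeOperatorBar (M * p) ⟨ℓ, hℓ⟩ x₀ = c₀ • x₀)
    (hne : ¬ (p : ℤ) ∣ (ℓ : ℤ) + 1 - c₀)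
    {m m' : ℤ} {α₀ α₀' : Kbar}
    (h : H5eNodeData A M hp hM hA 𝔫 (x : FF (M * p)) u m α₀)
    (h' : haveI : NeZero ℓ := ⟨hℓ.ne_zero⟩
      H5eNodeData A M hp hM hA 𝔫 (x : FF (M * p)) (h57rT (M * p) ℓ u) m' α₀')
    (hfix : ∀ a ∈ h23vI1 p A, a α₀ = α₀)
    (hfix' : ∀ a ∈ h23vI1 p A, a α₀' = α₀') :
    (p : ℤ) ∣ h44slOrd A M p u Q := by
  haveI : NeZero ℓ := ⟨hℓ.ne_zero⟩
  haveI : Fact p.Prime := ⟨hp⟩
  have hm := h5e_hm hp hM hA 𝔫 h𝔫 hboth x y c hx hc hxy hprin hxinf Q hQ hℓ hu c₀ hc₀ h h'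
  have hN := h5e_nodeForm hp hM hA 𝔫 hboth x y c hc hxy hxinf hy0 h
  have hN' := h5e_nodeForm hp hM hA 𝔫 hboth x y c hc hxy hxinf hy0 h'
  have hα : α₀ ≠ 0 := h50t_nodeForm_ne_zero hp hM hA hN
  have hα' : α₀' ≠ 0 := h50t_nodeForm_ne_zero hp hM hA hN'
  have hz0 : α₀' / α₀ ^ (ℓ + 1) ≠ 0 := div_ne_zero hα' (pow_ne_zero _ hα)
  have hzfix : ∀ a ∈ h23vI1 p A, a (α₀' / α₀ ^ (ℓ + 1)) = α₀' / α₀ ^ (ℓ + 1) := by
    intro a ha
    rw [map_div₀, map_pow, hfix a ha, hfix' a ha]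
  have hval : ∃ n : ℤ,
      A.valuation (α₀' / α₀ ^ (ℓ + 1)) ^ (p - 1) = A.valuation (p : Kbar) ^ n :=
    h23v_val hp2 A hA hz0 hzfix
  have h1 : (p : ℤ) ∣ ((ℓ : ℤ) + 1 - c₀) * m :=
    h27g_eis_node A M ℓ hp hM hA hℓ hℓN hu.1 hN hN' hval hm
  have hpm : (p : ℤ) ∣ m := by
    rcases (Nat.prime_iff_prime_int.mp hp).dvd_or_dvd h1 with h2 | h2
    · exact absurd h2 hne
    · exact h2
  obtain ⟨s, hs⟩ := (h5e_slope hp hM hA 𝔫 h𝔫 hboth x y c hx hc hxy hprin hxinf Q hQ hu.1 h).1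
  rw [hs]
  exact dvd_add hpm (dvd_mul_right _ _)

end Node

section All

variable (hp : p.Prime) (hM : ¬ p ∣ M) (hA : A.LiesOverPrime p)

/-- **node data at a crossing point, in the shape of T-EIS**: node coordinates `x y = p c`
(independent of `u`) such that every `u ≠ 0` with `p ∣ div u` has node data with constant
`P(0) / R(0)`, where `P`, `R` are fixed by every inertia element fixing `u`. -/
theorem h84t_node (haux : auxLevel p ∣ M)
    (𝔫 : Ideal (chart (M * p) A (jSS M p))) (h𝔫 : 𝔫.IsMaximal)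
    (hPinf : h62i_Pinf A M hp hM hA ≤ 𝔫) (hP0 : h62i_P0 A M hp hM hA ≤ 𝔫) :
    ∃ x y c : chart (M * p) A (jSS M p), x ∈ 𝔫 ∧ y ∈ 𝔫 ∧ c ∉ 𝔫 ∧
      x * y = algebraMap A (chart (M * p) A (jSS M p)) ((p : ℕ) : A) * c ∧
      (∀ z ∈ 𝔫, ∃ s, s ∉ 𝔫 ∧ s * z ∈ Ideal.span {x, y} ⊔ mExt A M p (jSS M p)) ∧
      ((x : FF (M * p)))⁻¹ ∈ h85cWinf A M p hp hA ∧
      ((y : FF (M * p)))⁻¹ ∈ h85cW0 A M p hp hM hA ∧
      ∀ u : FF (M * p), u ≠ 0 → (∀ v : Place Kbar (FF (M * p)), (p : ℤ) ∣ v.ord u) →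
        ∃ (m : ℤ) (P R : A[X]),
          H5eNodeData A M hp hM hA 𝔫 (x : FF (M * p)) u m
            (((P.coeff 0 : A) : Kbar) * ((R.coeff 0 : A) : Kbar)⁻¹) ∧
          ∀ σ (hσ : σ ∈ A.inertiaSubgroupIn ℚ), gal (M * p) σ • u = u →
            P.map (h56pTheta A hσ) = P ∧ R.map (h56pTheta A hσ) = R := by
  classical
  have hAF := algebraMap_injective_FF (M * p) A
  obtain ⟨x, y, c, hxf, hyf, hcf, hx, hy, hc, hxy, hprin, hxinf, hy0, hall⟩ :=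
    h90g_node_rat A M hp hM haux hA 𝔫 h𝔫 hPinf hP0
  have hp0A : (((p : ℕ) : A)) ≠ 0 := h20n_natCast_ne_zero A p
  have hx0 : (x : FF (M * p)) ≠ 0 := by
    intro h0
    have h1 : ((x * y : chart (M * p) A (jSS M p)) : FF (M * p)) = 0 := by
      push_cast
      rw [h0, zero_mul]
    rw [hxy] at h1
    have h2 : algebraMap A (FF (M * p)) ((p : ℕ) : A) * (c : FF (M * p)) = 0 := h1
    rcases mul_eq_zero.mp h2 with h3 | h3
    · exact hp0A (hAF (by rw [h3, map_zero]))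
    · apply hc
      have : c = 0 := Subtype.ext h3
      rw [this]
      exact 𝔫.zero_mem
  refine ⟨x, y, c, hx, hy, hc, hxy, hprin, hxinf, hy0, fun u hu0 hord => ?_⟩
  obtain ⟨m, s, θ, e, Tp, Tm, a, d, n, π, εinf, ε0, hθc, hθ0, he, he', ht,
    hdisj, hroots, hu, hrat, hπ, hπ0, hεinf, hε0, hginf, hg0⟩ :=
    hall u hu0 p hp.ne_zero (fun i _ => exists_val_eq (M * p) (jSS M p) u hu0 p hord i)
  exact ⟨m, h91yPoly Tp a n, h91yPoly Tm a n,
    h5e_data_of_form hp hM hA 𝔫 (x : FF (M * p)) hx0 hu0 hθc he he' ht hu hπ hεinf hε0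
      hginf hg0, hrat⟩

end All

/-- **T-EIS + PURITY, tame case**: at a good level, if the Kummer function `u` of `x₀` is fixed
by all of `I₁` (`β ∈ Fix(I₁)`), `T_ℓ x₀ = c x₀` and `p ∤ ℓ + 1 - c`, then `p ∣ ord_Q(ū)` at
every place `Q` of the special fibre. -/
theorem h84t_all (hp : p.Prime) (hp2 : p ≠ 2) (hM : ¬ p ∣ M) (hA : A.LiesOverPrime p)
    (haux : auxLevel p ∣ M) {ℓ : ℕ} (hℓ : ℓ.Prime)
    (hℓN : ¬ ℓ ∣ M * p)
    {x₀ : JZero (M * p)} {u : FF (M * p)}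
    (hu : IsKummerPair p x₀ u) (c₀ : ℤ)
    (hc₀ : heckeOperatorBar (M * p) ⟨ℓ, hℓ⟩ x₀ = c₀ • x₀)
    (hne : ¬ (p : ℤ) ∣ (ℓ : ℤ) + 1 - c₀)
    (hfix : ∀ a ∈ h23vI1 p A, gal (M * p) a • u = u)
    (Q : Place (h13sK A) (h13sFt A M)) :
    (p : ℤ) ∣ h44slOrd A M p u Q := by
  haveI : NeZero ℓ := ⟨hℓ.ne_zero⟩
  obtain ⟨k, D, hk, hpres⟩ := h60g_pres_of_kummer (A := A) hp hA hu
  have hdiv : ∀ v : Place Kbar (FF (M * p)), (p : ℤ) ∣ v.ord (cst (M * p) k * u) :=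
    fun v => ⟨_, hpres.div v⟩
  rcases h85w_purity_all A M hp hM haux hA p (cst (M * p) k * u) hpres.mem hpres.ne_zero
    hpres.inv_mem hdiv Q with h1 | ⟨𝔫, h𝔫, hPinf, hP0, hQ⟩
  · rw [← h44sl_ord_cst_mul hp hM hA hk u Q, h60g_ord_eq hp hM hA hpres Q,
      h60b_redU_of_mem hp hM hA hpres.mem]
    exact h1
  · obtain ⟨x, y, c, hx, hy, hc, hxy, hprin, hxinf, hy0, hall⟩ :=
      h84t_node hp hM hA haux 𝔫 h𝔫 hPinf hP0
    have hT : IsKummerPair p (heckeOperatorBar (M * p) ⟨ℓ, hℓ⟩ x₀) (h57rT (M * p) ℓ u) :=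
      h57l_kummer_T (M * p) ⟨ℓ, hℓ⟩ hu
    obtain ⟨m, P, R, hd, hrat⟩ := hall u hu.1 (fun v => hu.dvd_ord v)
    obtain ⟨m', P', R', hd', hrat'⟩ := hall (h57rT (M * p) ℓ u) hT.1 (fun v => hT.dvd_ord v)
    have hboth := h62x_torOnBoth A M hp hM hA 𝔫 hPinf hP0
    have hfixT : ∀ a ∈ h23vI1 p A,
        gal (M * p) a • h57rT (M * p) ℓ u = h57rT (M * p) ℓ u := by
      intro a ha
      rw [h27e_T_gal, hfix a ha]
    refine h84t_ss hp hM hA 𝔫 h𝔫 hboth x y c hx hc hxy hprin hxinf hy0 Q hQ hp2 hℓ hℓN hu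
      c₀ hc₀ hne hd hd' (fun a ha => ?_) (fun a ha => ?_)
    · exact h5e_fix_of_poly ha.1 (hrat a ha.1 (hfix a ha)).1 (hrat a ha.1 (hfix a ha)).2
    · exact h5e_fix_of_poly ha.1 (hrat' a ha.1 (hfixT a ha)).1 (hrat' a ha.1 (hfixT a ha)).2

end Fermat.Agent.P7
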