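import Fermat.Agent.P7.H85SlopeCusp
import Fermat.Agent.P6.H88NodeRigid
import Fermat.Agent.LGC.H4Cusp

/-!
# P7 (wave 7), block (5b) C4, GLOB0 on the component `C∞` by the places route (helper85; twin of
row T-C4-GLOB0)

`f ∈ W∞ = softV A (M ℓ)` which is, modulo `𝔪_A W∞`, in the local ring `h62yO B 𝔫` of EVERY closed
point of `C∞` (all maximal `𝔫 ⊇ P∞` of the finite chart, all cusps `𝔫 ⊇ P∞`, `1/j ∈ 𝔫` of the
chart at infinity) is constant modulo `𝔪_A W∞`.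

Proof: `ρ f` lies in the valuation ring of every place `Q` of the special fibre field
(`h85w_exists_centre`, `h85w_local_mem_at`), hence is constant (`h26s_base`, SF-BASE).

* `h85w_mem_M_iff` : `x ∈ 𝔪_A W∞ ↔ softR x = 0`;
* `h85w_glob_inf` : **GLOB0 on `C∞`**.
-/

set_option autoImplicit false
set_option linter.unusedSectionVars false
set_option linter.unusedVariables false
set_option linter.style.haveILetI false
set_option linter.style.longLine false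
set_option synthInstance.maxHeartbeats 400000

open AlgebraicCurve ModularCurve WithZero IsLocalRing

noncomputable section

namespace Fermat.Agent.P7

open Fermat.Agent.S37 Fermat.Agent.Red Fermat.Agent.Red.GG Fermat.Agent.Red.GV
  Fermat.Agent.Red.GV.Soft Fermat.Agent.LGC Fermat.Agent.S35 Fermat.Agent.P5 Fermat.Agent.P6
  Fermat.Agent.Red.Nz Fermat.Agent.Red.ModelO Fermat.Agent.Red.Kron Fermat.Agent.Red.KR

section Glob

variable (A : ValuationSubring Kbar) (M : ℕ) {ℓ : ℕ} [NeZero M] [NeZero ℓ]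
  (hℓ : ℓ.Prime) (hM : ¬ ℓ ∣ M) (haux : auxLevel ℓ ∣ M) (hA : A.LiesOverPrime ℓ)

include hℓ hA in
/-- `𝔪_A W∞` is the kernel of the reduction. -/
theorem h85w_mem_M_iff (N : ℕ) [NeZero N] (x : FF N) :
    x ∈ h88nM A (softV A N) ↔ ∃ h : x ∈ softV A N, softR A N ⟨x, h⟩ = 0 := by
  constructor
  · rintro ⟨d, hd, z, hz, rfl⟩
    have hdn : (d : Kbar) ∈ A.nonunits := (GG.mem_maximalIdeal_iff A d).mp hd
    have hc : cst N (d : Kbar) ∈ softV A N := (cst_mem_softV_iff A N _).mpr d.2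
    have h0 : softR A N ⟨_, hc⟩ = 0 := softR_cst_of_nonunit A N _ hdn hc
    refine ⟨(softV A N).mul_mem hc hz, ?_⟩
    have e : (⟨algebraMap A (FF N) d * z, (softV A N).mul_mem hc hz⟩ : softV A N) =
        ⟨_, hc⟩ * ⟨z, hz⟩ := rfl
    rw [e, map_mul, h0, zero_mul]
  · rintro ⟨h, h0⟩
    by_cases hx0 : x = 0
    · exact ⟨0, (maximalIdeal A).zero_mem, 0, zero_mem _, by rw [hx0, mul_zero]⟩
    · have hnu : x ∈ (softRing A N hℓ hA).nonunits :=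
        (softR_eq_zero_iff_mem_nonunits A N hℓ hA ⟨x, h⟩).mp h0
      obtain ⟨p, hp0, hp, u, hu, hxu⟩ := h63r_nonunit_scale hℓ hA N hx0 hnu
      exact ⟨⟨p, A.nonunits_le hp⟩, ValuationSubring.coe_mem_nonunits_iff.mp hp, u, hu, hxu⟩

include haux in
/-- **GLOB0 on `C∞`** (regular at every closed point of the component `⟹` constant). -/
theorem h85w_glob_inf (f : FF (M * ℓ)) (hf : f ∈ softV A (M * ℓ))
    (hfin : ∀ (𝔫 : Ideal (chart (M * ℓ) A (jSS M ℓ))) (h𝔫 : 𝔫.IsMaximal),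
      h62i_Pinf A M hℓ hM hA ≤ 𝔫 →
      ∃ o ∈ h62yO (chart (M * ℓ) A (jSS M ℓ)) 𝔫 h𝔫.isPrime,
        f - o ∈ h88nM A (softV A (M * ℓ)))
    (hinf : ∀ (𝔫 : Ideal (chart (M * ℓ) A (jSS M ℓ)⁻¹)) (h𝔫 : 𝔫.IsMaximal),
      h85cPinf A M ℓ hℓ hA (jSS M ℓ)⁻¹ ≤ 𝔫 → h4c_V A M ℓ ∈ 𝔫 →
      ∃ o ∈ h62yO (chart (M * ℓ) A (jSS M ℓ)⁻¹) 𝔫 h𝔫.isPrime,
        f - o ∈ h88nM A (softV A (M * ℓ))) :
    ∃ c : A, f - algebraMap A (FF (M * ℓ)) c ∈ h88nM A (softV A (M * ℓ)) := by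
  set ρ := h60bRedInf hℓ hM hA with hρ
  have Lf := h85w_link_fin A M hℓ hM haux hA
  have Li := h85w_link_inf A M hℓ hM haux hA
  -- the local statement
  have hloc : ∀ {o : FF (M * ℓ)}, f - o ∈ h88nM A (softV A (M * ℓ)) →
      ∃ ho : o ∈ softV A (M * ℓ), ρ ⟨f, hf⟩ = ρ ⟨o, ho⟩ := by
    intro o h
    obtain ⟨h1, h0⟩ := (h85w_mem_M_iff A hℓ hA (M * ℓ) _).mp h
    have ho : o ∈ softV A (M * ℓ) := by
      have := (softV A (M * ℓ)).sub_mem hf h1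
      rwa [sub_sub_cancel] at this
    refine ⟨ho, ?_⟩
    have e : (⟨f - o, h1⟩ : softV A (M * ℓ)) = ⟨f, hf⟩ - ⟨o, ho⟩ := rfl
    have h2 : ρ ⟨f - o, h1⟩ = 0 := (h60b_redInf_eq_zero_iff hℓ hM hA _).mpr h0
    rw [e, map_sub, sub_eq_zero] at h2
    exact h2
  -- `ρ f` is regular at every place
  have hreg : ∀ Q : Place (h13sK A) (h13sFt A M), ρ ⟨f, hf⟩ ∈ Q.toValuationSubring := by
    intro Q
    rcases h85w_exists_centre A M hℓ hM haux hA Q with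
      ⟨𝔫, h𝔫, hPinf, hQ, -⟩ | ⟨𝔫, h𝔫, hker, ht, hQ⟩
    · obtain ⟨o, ho, hfo⟩ := hfin 𝔫 h𝔫 hPinf
      obtain ⟨hoV, e⟩ := hloc hfo
      rw [e]
      have hker : ∀ b : chart (M * ℓ) A (jSS M ℓ),
          h85wRho hℓ hM hA Lf.hBW b = 0 → b ∈ 𝔫 :=
        fun b hb => hPinf ((h85w_ker_fin A M hℓ hM hA b).mp hb)
      exact h85w_local_mem_at hℓ hM hA Lf.hBW 𝔫 h𝔫.isPrime hker Q hQ ho hoV
    · have hP : h85cPinf A M ℓ hℓ hA (jSS M ℓ)⁻¹ ≤ 𝔫 := by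
        intro b hb
        apply hker
        rw [h85w_rho_apply, h60b_redInf_eq_zero_iff]
        have hb' : (b : FF (M * ℓ)) ∈ (h85cWinf A M ℓ hℓ hA).nonunits :=
          (h85c_mem_centre_iff (W := h85cWinf A M ℓ hℓ hA) (fun b => Li.hBW b)).mp hb
        exact (softR_eq_zero_iff_mem_nonunits A (M * ℓ) hℓ hA ⟨_, Li.hBW b⟩).mpr hb'
      obtain ⟨o, ho, hfo⟩ := hinf 𝔫 h𝔫 hP ht
      obtain ⟨hoV, e⟩ := hloc hfo
      rw [e]
      exact h85w_local_mem_at hℓ hM hA Li.hBW 𝔫 h𝔫.isPrime hker Q hQ ho hoV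
  -- hence constant
  have hB := h26s_base ℓ hℓ M hM haux A hA
  obtain ⟨a, ha⟩ := hB.const (ρ ⟨f, hf⟩)
    (fun Q => (Fermat.Agent.S24.DiffPlace.ord_nonneg_iff_mem Q).mpr (hreg Q))
  obtain ⟨c, rfl⟩ := Ideal.Quotient.mk_surjective a
  have hc : cst (M * ℓ) (c : Kbar) ∈ softV A (M * ℓ) := (cst_mem_softV_iff A (M * ℓ) _).mpr c.2
  refine ⟨c, (h85w_mem_M_iff A hℓ hA (M * ℓ) _).mpr ⟨(softV A (M * ℓ)).sub_mem hf hc, ?_⟩⟩
  have e : (⟨f - algebraMap A (FF (M * ℓ)) c, (softV A (M * ℓ)).sub_mem hf hc⟩ :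
      softV A (M * ℓ)) = ⟨f, hf⟩ - ⟨cst (M * ℓ) (c : Kbar), hc⟩ := rfl
  rw [← h60b_redInf_eq_zero_iff hℓ hM hA, e, map_sub, sub_eq_zero, h60b_redInf_cst hℓ hM hA c hc]
  exact ha.symm

end Glob

end Fermat.Agent.P7
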