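import Fermat.Agent.P7.H85GlobInf

/-!
# P7 (wave 7), block (5b) C4, GLOB0 on the component `C₀` (helper85; twin of row T-C4-GLOB0)

`W₀ = w⁻¹ W∞` (`w` = Fricke), `σ₀ = ρ ∘ w : W₀ → F~` the reduction at `W₀`.
`f ∈ W₀` which is, modulo `𝔪_A W₀`, in the local ring `h62yO B 𝔫` of EVERY closed point of `C₀`
(all maximal `𝔫 ⊇ P₀` of the finite chart, all cusps `𝔫 ⊇ P₀`, `1/j ∈ 𝔫` of the chart at
infinity) is constant modulo `𝔪_A W₀`.

Proof: for a place `Q` of `F~` the composite `V_Q = {x ∈ W₀ | σ₀ x ∈ O_Q}` is a valuation ring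
of `F`; it contains `j` or `1/j`, hence the corresponding chart `B` (valuative criterion
`h85_mem_modelAt_iff_forall`); `𝔫₀ = {b ∈ B | σ₀ b ∈ 𝔪_Q}` is a proper ideal containing `P₀`;
at a maximal ideal `𝔫 ⊇ 𝔫₀` the hypothesis gives `σ₀ f ∈ O_Q`.  So `σ₀ f` is regular at all
places, hence constant (SF-BASE).

* `h85wRhoZero` : `σ₀`;
* `h85wComp` : the composite valuation ring `V_Q`;
* `h85w_glob_zero` : **GLOB0 on `C₀`**.
-/

set_option autoImplicit false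
set_option linter.unusedSectionVars false
set_option linter.unusedVariables false
set_option linter.style.haveILetI false
set_option linter.style.longLine false
set_option synthInstance.maxHeartbeats 400000

open AlgebraicCurve ModularCurve WithZero IsLocalRing

noncomputable section

namespace Fermat.Agent.P7

open Fermat.Agent.S37 Fermat.Agent.Red Fermat.Agent.Red.GG Fermat.Agent.Red.GV
  Fermat.Agent.Red.GV.Soft Fermat.Agent.LGC Fermat.Agent.S35 Fermat.Agent.P5 Fermat.Agent.P6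
  Fermat.Agent.Red.Nz Fermat.Agent.Red.ModelO Fermat.Agent.Red.Kron Fermat.Agent.Red.KR

section Zero

variable (A : ValuationSubring Kbar) (M : ℕ) {ℓ : ℕ} [NeZero M] [NeZero ℓ]
  (hℓ : ℓ.Prime) (hM : ¬ ℓ ∣ M) (haux : auxLevel ℓ ∣ M) (hA : A.LiesOverPrime ℓ)

/-- the Fricke involution `W₀ → W∞`. -/
def h85wFr : (h85cW0 A M ℓ hℓ hM hA).toSubring →+* softV A (M * ℓ) where
  toFun x := ⟨kFricke M ℓ hℓ hM (x : FF (M * ℓ)), x.2⟩
  map_one' := Subtype.ext (map_one _)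
  map_mul' _ _ := Subtype.ext (map_mul _ _ _)
  map_zero' := Subtype.ext (map_zero _)
  map_add' _ _ := Subtype.ext (map_add _ _ _)

/-- the reduction at `W₀`, with values in `F~`. -/
def h85wRhoZero : (h85cW0 A M ℓ hℓ hM hA).toSubring →+* h13sFt A M :=
  (h60bRedInf hℓ hM hA).comp (h85wFr A M hℓ hM hA)

theorem h85w_rhoZero_apply (x : (h85cW0 A M ℓ hℓ hM hA).toSubring) :
    h85wRhoZero A M hℓ hM hA x =
      h60bRedInf hℓ hM hA ⟨kFricke M ℓ hℓ hM (x : FF (M * ℓ)), x.2⟩ := rfl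

/-- the kernel of `σ₀` is the set of non-units of `W₀`. -/
theorem h85w_rhoZero_eq_zero_iff (x : (h85cW0 A M ℓ hℓ hM hA).toSubring) :
    h85wRhoZero A M hℓ hM hA x = 0 ↔ (x : FF (M * ℓ)) ∈ (h85cW0 A M ℓ hℓ hM hA).nonunits := by
  rw [h85w_rhoZero_apply, h60b_redInf_eq_zero_iff, h85c_mem_W0_nonunits_iff]
  exact softR_eq_zero_iff_mem_nonunits A (M * ℓ) hℓ hA _

/-- `𝔪_A W₀` is the kernel of `σ₀`. -/
theorem h85w_mem_M_zero_iff (x : FF (M * ℓ)) :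
    x ∈ h88nM A (h85cW0 A M ℓ hℓ hM hA).toSubring ↔
      ∃ h : x ∈ (h85cW0 A M ℓ hℓ hM hA).toSubring, h85wRhoZero A M hℓ hM hA ⟨x, h⟩ = 0 := by
  constructor
  · rintro ⟨d, hd, z, hz, rfl⟩
    have hz' : kFricke M ℓ hℓ hM z ∈ softV A (M * ℓ) := hz
    have h1 : kFricke M ℓ hℓ hM (algebraMap A (FF (M * ℓ)) d * z) ∈
        h88nM A (softV A (M * ℓ)) := by
      rw [map_mul, h62y_kFricke_algebraMap]
      exact ⟨d, hd, _, hz', rfl⟩
    obtain ⟨h2, h3⟩ := (h85w_mem_M_iff A hℓ hA (M * ℓ) _).mp h1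
    refine ⟨h2, ?_⟩
    rw [h85w_rhoZero_apply, h60b_redInf_eq_zero_iff]
    exact h3
  · rintro ⟨h, h0⟩
    rw [h85w_rhoZero_apply, h60b_redInf_eq_zero_iff] at h0
    obtain ⟨d, hd, z, hz, e⟩ := (h85w_mem_M_iff A hℓ hA (M * ℓ) _).mpr ⟨h, h0⟩
    refine ⟨d, hd, kFricke M ℓ hℓ hM z, ?_, ?_⟩
    · show kFricke M ℓ hℓ hM (kFricke M ℓ hℓ hM z) ∈ softV A (M * ℓ)
      rw [kFricke_kFricke]
      exact hz
    · have e' : kFricke M ℓ hℓ hM x = algebraMap A (FF (M * ℓ)) d * z := e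
      calc x = kFricke M ℓ hℓ hM (kFricke M ℓ hℓ hM x) := (kFricke_kFricke M ℓ hℓ hM x).symm
        _ = algebraMap A (FF (M * ℓ)) d * kFricke M ℓ hℓ hM z := by
          rw [e', map_mul, h62y_kFricke_algebraMap]

/-- the reduction at `W₀` of a constant. -/
theorem h85w_rhoZero_cst (a : A) (h : cst (M * ℓ) (a : Kbar) ∈ (h85cW0 A M ℓ hℓ hM hA).toSubring) :
    h85wRhoZero A M hℓ hM hA ⟨cst (M * ℓ) (a : Kbar), h⟩ =
      algebraMap (h13sK A) (h13sFt A M) (h13sPi A a) := by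
  have hc : cst (M * ℓ) (a : Kbar) ∈ softV A (M * ℓ) := (cst_mem_softV_iff A (M * ℓ) _).mpr a.2
  rw [h85w_rhoZero_apply, ← h60b_redInf_cst hℓ hM hA a hc]
  congr 1
  exact Subtype.ext ((kFricke M ℓ hℓ hM).commutes (a : Kbar))

/-- **the composite valuation ring** `V_Q = {x ∈ W₀ | σ₀ x ∈ O_Q}`. -/
def h85wComp (Q : Place (h13sK A) (h13sFt A M)) : ValuationSubring (FF (M * ℓ)) where
  carrier := {x | ∃ h : x ∈ (h85cW0 A M ℓ hℓ hM hA).toSubring,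
    h85wRhoZero A M hℓ hM hA ⟨x, h⟩ ∈ Q.toValuationSubring}
  mul_mem' := by
    rintro x y ⟨hx, hx'⟩ ⟨hy, hy'⟩
    refine ⟨Subring.mul_mem _ hx hy, ?_⟩
    have e : (⟨x * y, Subring.mul_mem _ hx hy⟩ : (h85cW0 A M ℓ hℓ hM hA).toSubring) =
        ⟨x, hx⟩ * ⟨y, hy⟩ := rfl
    rw [e, map_mul]
    exact Q.toValuationSubring.mul_mem _ _ hx' hy'
  one_mem' := by
    refine ⟨Subring.one_mem _, ?_⟩
    have e : (⟨1, Subring.one_mem _⟩ : (h85cW0 A M ℓ hℓ hM hA).toSubring) = 1 := rfl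
    rw [e, map_one]
    exact Q.toValuationSubring.one_mem
  add_mem' := by
    rintro x y ⟨hx, hx'⟩ ⟨hy, hy'⟩
    refine ⟨Subring.add_mem _ hx hy, ?_⟩
    have e : (⟨x + y, Subring.add_mem _ hx hy⟩ : (h85cW0 A M ℓ hℓ hM hA).toSubring) =
        ⟨x, hx⟩ + ⟨y, hy⟩ := rfl
    rw [e, map_add]
    exact Q.toValuationSubring.add_mem _ _ hx' hy'
  zero_mem' := by
    refine ⟨Subring.zero_mem _, ?_⟩
    have e : (⟨0, Subring.zero_mem _⟩ : (h85cW0 A M ℓ hℓ hM hA).toSubring) = 0 := rfl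
    rw [e, map_zero]
    exact Q.toValuationSubring.zero_mem
  neg_mem' := by
    rintro x ⟨hx, hx'⟩
    refine ⟨Subring.neg_mem _ hx, ?_⟩
    have e : (⟨-x, Subring.neg_mem _ hx⟩ : (h85cW0 A M ℓ hℓ hM hA).toSubring) = -⟨x, hx⟩ := rfl
    rw [e, map_neg]
    exact Q.toValuationSubring.neg_mem _ hx'
  mem_or_inv_mem' := by
    intro x
    by_cases hx0 : x = 0
    · left
      refine ⟨hx0 ▸ Subring.zero_mem _, ?_⟩
      subst hx0
      have e : (⟨0, Subring.zero_mem _⟩ : (h85cW0 A M ℓ hℓ hM hA).toSubring) = 0 := rfl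
      rw [e, map_zero]
      exact Q.toValuationSubring.zero_mem
    by_cases hx : x ∈ (h85cW0 A M ℓ hℓ hM hA)
    · by_cases hxi : x⁻¹ ∈ (h85cW0 A M ℓ hℓ hM hA)
      · -- both in `W₀`
        have e : h85wRhoZero A M hℓ hM hA ⟨x, hx⟩ * h85wRhoZero A M hℓ hM hA ⟨x⁻¹, hxi⟩ = 1 := by
          rw [← map_mul, ← map_one (h85wRhoZero A M hℓ hM hA)]
          congr 1
          exact Subtype.ext (mul_inv_cancel₀ hx0)
        rcases Q.toValuationSubring.mem_or_inv_mem (h85wRhoZero A M hℓ hM hA ⟨x, hx⟩) with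
          h1 | h1
        · exact Or.inl ⟨hx, h1⟩
        · right
          refine ⟨hxi, ?_⟩
          rw [eq_inv_of_mul_eq_one_right e]
          exact h1
      · -- `x` is a non-unit of `W₀`
        left
        refine ⟨hx, ?_⟩
        have hnu : x ∈ (h85cW0 A M ℓ hℓ hM hA).nonunits :=
          (h85c_mem_nonunits_iff_inv (W := h85cW0 A M ℓ hℓ hM hA) hx0).mpr hxi
        rw [(h85w_rhoZero_eq_zero_iff A M hℓ hM hA ⟨x, hx⟩).mpr hnu]
        exact Q.toValuationSubring.zero_mem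
    · right
      have hxi : x⁻¹ ∈ (h85cW0 A M ℓ hℓ hM hA) :=
        ((h85cW0 A M ℓ hℓ hM hA).mem_or_inv_mem x).resolve_left hx
      refine ⟨hxi, ?_⟩
      have hnu : x⁻¹ ∈ (h85cW0 A M ℓ hℓ hM hA).nonunits := by
        rw [h85c_mem_nonunits_iff_inv (W := h85cW0 A M ℓ hℓ hM hA) (inv_ne_zero hx0), inv_inv]
        exact hx
      rw [(h85w_rhoZero_eq_zero_iff A M hℓ hM hA ⟨x⁻¹, hxi⟩).mpr hnu]
      exact Q.toValuationSubring.zero_mem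

theorem h85w_mem_comp (Q : Place (h13sK A) (h13sFt A M)) (x : FF (M * ℓ)) :
    x ∈ h85wComp A M hℓ hM hA Q ↔ ∃ h : x ∈ (h85cW0 A M ℓ hℓ hM hA).toSubring,
      h85wRhoZero A M hℓ hM hA ⟨x, h⟩ ∈ Q.toValuationSubring := Iff.rfl

/-- constants lie in `V_Q`. -/
theorem h85w_cst_mem_comp (Q : Place (h13sK A) (h13sFt A M)) (a : Kbar) (ha : a ∈ A) :
    cst (M * ℓ) a ∈ h85wComp A M hℓ hM hA Q := by
  have hc : cst (M * ℓ) a ∈ (h85cW0 A M ℓ hℓ hM hA).toSubring := by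
    show kFricke M ℓ hℓ hM (cst (M * ℓ) a) ∈ softV A (M * ℓ)
    have e : kFricke M ℓ hℓ hM (cst (M * ℓ) a) = cst (M * ℓ) a := (kFricke M ℓ hℓ hM).commutes a
    rw [e]
    exact (cst_mem_softV_iff A (M * ℓ) _).mpr ha
  refine ⟨hc, ?_⟩
  rw [h85w_rhoZero_cst A M hℓ hM hA ⟨a, ha⟩ hc]
  exact Q.algebraMap_mem' _

/-- elements of a chart `t ∈ V_Q` lie in `V_Q`. -/
theorem h85w_chart_mem_comp (Q : Place (h13sK A) (h13sFt A M)) (t : FF (M * ℓ))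
    (ht : t ∈ h85wComp A M hℓ hM hA Q) (b : chart (M * ℓ) A t) :
    (b : FF (M * ℓ)) ∈ h85wComp A M hℓ hM hA Q :=
  (h85_mem_modelAt_iff_forall (M * ℓ) A t _).mp b.2 (h85wComp A M hℓ hM hA Q)
    (fun a ha => h85w_cst_mem_comp A M hℓ hM hA Q a ha) ht

/-- the inclusion of a chart `t ∈ V_Q` into `W₀`. -/
def h85wIota (Q : Place (h13sK A) (h13sFt A M)) (t : FF (M * ℓ))
    (ht : t ∈ h85wComp A M hℓ hM hA Q) :
    chart (M * ℓ) A t →+* (h85cW0 A M ℓ hℓ hM hA).toSubring where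
  toFun b := ⟨(b : FF (M * ℓ)), (h85w_chart_mem_comp A M hℓ hM hA Q t ht b).1⟩
  map_one' := rfl
  map_mul' _ _ := rfl
  map_zero' := rfl
  map_add' _ _ := rfl

/-- the reduction `B → O_Q` of a chart `t ∈ V_Q`. -/
def h85wTau (Q : Place (h13sK A) (h13sFt A M)) (t : FF (M * ℓ))
    (ht : t ∈ h85wComp A M hℓ hM hA Q) :
    chart (M * ℓ) A t →+* Q.toValuationSubring :=
  ((h85wRhoZero A M hℓ hM hA).comp (h85wIota A M hℓ hM hA Q t ht)).codRestrict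
    Q.toValuationSubring (fun b => (h85w_chart_mem_comp A M hℓ hM hA Q t ht b).2)

theorem h85w_tau_coe (Q : Place (h13sK A) (h13sFt A M)) (t : FF (M * ℓ))
    (ht : t ∈ h85wComp A M hℓ hM hA Q) (b : chart (M * ℓ) A t) :
    ((h85wTau A M hℓ hM hA Q t ht b : Q.toValuationSubring) : h13sFt A M) =
      h85wRhoZero A M hℓ hM hA (h85wIota A M hℓ hM hA Q t ht b) := rfl

/-- a unit of `O_Q` has its inverse in `O_Q`. -/
theorem h85w_inv_mem_of_isUnit {F' : Type*} [Field F'] (O : ValuationSubring F') {z : O}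
    (hz : IsUnit z) : ((z : O) : F')⁻¹ ∈ O := by
  obtain ⟨u, rfl⟩ := hz
  have h1 : ((u⁻¹ : Oˣ) : O) * (u : O) = 1 := Units.inv_mul u
  have h2 : (((u⁻¹ : Oˣ) : O) : F') * ((u : O) : F') = 1 :=
    congrArg (fun z : O => (z : F')) h1
  rw [← eq_inv_of_mul_eq_one_left h2]
  exact Subtype.mem _

/-- the inverse of the image of a chart element that reduces to a unit of `O_Q`. -/
theorem h85w_tau_inv_mem (Q : Place (h13sK A) (h13sFt A M)) (t : FF (M * ℓ))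
    (ht : t ∈ h85wComp A M hℓ hM hA Q) (b : chart (M * ℓ) A t)
    (hu : IsUnit (h85wTau A M hℓ hM hA Q t ht b)) :
    (h85wRhoZero A M hℓ hM hA (h85wIota A M hℓ hM hA Q t ht b))⁻¹ ∈ Q.toValuationSubring := by
  have hsinv := h85w_inv_mem_of_isUnit Q.toValuationSubring hu
  rw [h85w_tau_coe] at hsinv
  exact hsinv

/-- the image of the coordinate `V` of the chart at infinity. -/
theorem h85w_iota_V (Q : Place (h13sK A) (h13sFt A M))
    (ht : (jSS M ℓ)⁻¹ ∈ h85wComp A M hℓ hM hA Q)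
    (hji : (jSS M ℓ)⁻¹ ∈ (h85cW0 A M ℓ hℓ hM hA).toSubring) :
    h85wIota A M hℓ hM hA Q (jSS M ℓ)⁻¹ ht (h4c_V A M ℓ) = ⟨(jSS M ℓ)⁻¹, hji⟩ := rfl

/-- **the chart-generic local step**: if `t ∈ V_Q`, the hypothesis at a maximal ideal above
`𝔫₀ = {b | σ₀ b ∈ 𝔪_Q}` gives `σ₀ f ∈ O_Q`. -/
theorem h85w_glob_zero_step (Q : Place (h13sK A) (h13sFt A M)) (t : FF (M * ℓ))
    (ht : t ∈ h85wComp A M hℓ hM hA Q)
    (f : FF (M * ℓ)) (hf : f ∈ (h85cW0 A M ℓ hℓ hM hA).toSubring)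
    (T : Set (chart (M * ℓ) A t))
    (hT : ∀ b ∈ T, ¬ IsUnit (h85wTau A M hℓ hM hA Q t ht b))
    (hloc : ∀ (𝔫 : Ideal (chart (M * ℓ) A t)) (h𝔫 : 𝔫.IsMaximal),
      (∀ b : chart (M * ℓ) A t, (b : FF (M * ℓ)) ∈ (h85cW0 A M ℓ hℓ hM hA).nonunits → b ∈ 𝔫) →
      (∀ b ∈ T, b ∈ 𝔫) →
      ∃ o ∈ h62yO (chart (M * ℓ) A t) 𝔫 h𝔫.isPrime,
        f - o ∈ h88nM A (h85cW0 A M ℓ hℓ hM hA).toSubring) :
    h85wRhoZero A M hℓ hM hA ⟨f, hf⟩ ∈ Q.toValuationSubring := by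
  have hne : Ideal.comap (h85wTau A M hℓ hM hA Q t ht) (maximalIdeal Q.toValuationSubring) ≠ ⊤ :=
    (Ideal.comap_isPrime _ _).ne_top
  obtain ⟨𝔫, h𝔫, hle⟩ := Ideal.exists_le_maximal _ hne
  have hmem : ∀ b : chart (M * ℓ) A t, ¬ IsUnit (h85wTau A M hℓ hM hA Q t ht b) → b ∈ 𝔫 := by
    intro b hb
    apply hle
    rw [Ideal.mem_comap, IsLocalRing.mem_maximalIdeal, mem_nonunits_iff]
    exact hb
  have hker : ∀ b : chart (M * ℓ) A t,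
      (b : FF (M * ℓ)) ∈ (h85cW0 A M ℓ hℓ hM hA).nonunits → b ∈ 𝔫 := by
    intro b hb
    apply hmem
    have h0 : h85wTau A M hℓ hM hA Q t ht b = 0 := Subtype.ext
      ((h85w_tau_coe A M hℓ hM hA Q t ht b).trans
        ((h85w_rhoZero_eq_zero_iff A M hℓ hM hA _).mpr hb))
    rw [h0]
    exact not_isUnit_zero
  obtain ⟨o, ⟨s, hs, hso⟩, hfo⟩ := hloc 𝔫 h𝔫 hker (fun b hb => hmem b (hT b hb))
  obtain ⟨hfoW, hfo0⟩ := (h85w_mem_M_zero_iff A M hℓ hM hA _).mp hfo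
  have hoW : o ∈ (h85cW0 A M ℓ hℓ hM hA).toSubring := by
    have := Subring.sub_mem _ hf hfoW
    rwa [sub_sub_cancel] at this
  have e1 : h85wRhoZero A M hℓ hM hA ⟨f, hf⟩ = h85wRhoZero A M hℓ hM hA ⟨o, hoW⟩ := by
    have e : (⟨f - o, hfoW⟩ : (h85cW0 A M ℓ hℓ hM hA).toSubring) = ⟨f, hf⟩ - ⟨o, hoW⟩ := rfl
    rw [e, map_sub, sub_eq_zero] at hfo0
    exact hfo0
  rw [e1]
  -- `σ s` is a unit of `O_Q`
  have hsu : IsUnit (h85wTau A M hℓ hM hA Q t ht s) := by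
    by_contra hnu
    exact hs (hmem s hnu)
  have hsinv := h85w_inv_mem_of_isUnit Q.toValuationSubring hsu
  rw [h85w_tau_coe] at hsinv
  have hs0 : h85wRhoZero A M hℓ hM hA (h85wIota A M hℓ hM hA Q t ht s) ≠ 0 := by
    intro h0
    apply hsu.ne_zero
    exact Subtype.ext ((h85w_tau_coe A M hℓ hM hA Q t ht s).trans h0)
  have e2 : h85wRhoZero A M hℓ hM hA (h85wIota A M hℓ hM hA Q t ht s) *
      h85wRhoZero A M hℓ hM hA ⟨o, hoW⟩ =
      h85wRhoZero A M hℓ hM hA (h85wIota A M hℓ hM hA Q t ht ⟨_, hso⟩) := by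
    rw [← map_mul]
    rfl
  have e4 : h85wRhoZero A M hℓ hM hA ⟨o, hoW⟩ =
      (h85wRhoZero A M hℓ hM hA (h85wIota A M hℓ hM hA Q t ht s))⁻¹ *
      h85wRhoZero A M hℓ hM hA (h85wIota A M hℓ hM hA Q t ht ⟨_, hso⟩) := by
    rw [← e2, ← mul_assoc, inv_mul_cancel₀ hs0, one_mul]
  rw [e4]
  exact Q.toValuationSubring.mul_mem _ _ hsinv
    (h85w_chart_mem_comp A M hℓ hM hA Q t ht ⟨_, hso⟩).2

set_option maxHeartbeats 1600000 in
include haux in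
/-- **GLOB0 on `C₀`** (regular at every closed point of the component `⟹` constant). -/
theorem h85w_glob_zero (f : FF (M * ℓ)) (hf : f ∈ (h85cW0 A M ℓ hℓ hM hA).toSubring)
    (hfin : ∀ (𝔫 : Ideal (chart (M * ℓ) A (jSS M ℓ))) (h𝔫 : 𝔫.IsMaximal),
      h62i_P0 A M hℓ hM hA ≤ 𝔫 →
      ∃ o ∈ h62yO (chart (M * ℓ) A (jSS M ℓ)) 𝔫 h𝔫.isPrime,
        f - o ∈ h88nM A (h85cW0 A M ℓ hℓ hM hA).toSubring)
    (hinf : ∀ (𝔫 : Ideal (chart (M * ℓ) A (jSS M ℓ)⁻¹)) (h𝔫 : 𝔫.IsMaximal),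
      h85cP0 A M ℓ hℓ hM hA (jSS M ℓ)⁻¹ ≤ 𝔫 → h4c_V A M ℓ ∈ 𝔫 →
      ∃ o ∈ h62yO (chart (M * ℓ) A (jSS M ℓ)⁻¹) 𝔫 h𝔫.isPrime,
        f - o ∈ h88nM A (h85cW0 A M ℓ hℓ hM hA).toSubring) :
    ∃ c : A, f - algebraMap A (FF (M * ℓ)) c ∈ h88nM A (h85cW0 A M ℓ hℓ hM hA).toSubring := by
  set σ := h85wRhoZero A M hℓ hM hA with hσ
  have hCf : IfaceSSChart A M ℓ (jSS M ℓ) := h85s_ifaceSSChart_fin A M ℓ hℓ hM hA
  have hCi : IfaceSSChart A M ℓ (jSS M ℓ)⁻¹ := h85s_ifaceSSChart_inf A M ℓ hℓ hM hA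
  have hssW0 : ∀ x ∈ ssV A M ℓ, x ∈ (h85cW0 A M ℓ hℓ hM hA).toSubring := fun x hx =>
    ((h63r_mem_ssV_iff hℓ hM hA x).mp hx).2
  have hj : jSS M ℓ ∈ (h85cW0 A M ℓ hℓ hM hA).toSubring :=
    hssW0 _ (hCf.hBV _ (h85_self_mem_modelAt (M * ℓ) A (jSS M ℓ)))
  have hji : (jSS M ℓ)⁻¹ ∈ (h85cW0 A M ℓ hℓ hM hA).toSubring :=
    hssW0 _ (hCi.hBV _ (h85_self_mem_modelAt (M * ℓ) A (jSS M ℓ)⁻¹))
  have hj0 : jSS M ℓ ≠ 0 := by
    rw [h21c_jSS_eq]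
    exact h21c_jB_ne_zero (M * ℓ)
  have hjj : σ ⟨_, hj⟩ * σ ⟨_, hji⟩ = 1 := by
    rw [← map_mul, ← map_one σ]
    congr 1
    exact Subtype.ext (mul_inv_cancel₀ hj0)
  -- `σ₀ f` is regular at every place
  have hreg : ∀ Q : Place (h13sK A) (h13sFt A M), σ ⟨f, hf⟩ ∈ Q.toValuationSubring := by
    intro Q
    by_cases hQ : σ ⟨_, hj⟩ ∈ Q.toValuationSubring
    · -- the finite chart
      refine h85w_glob_zero_step A M hℓ hM hA Q (jSS M ℓ) ⟨hj, hQ⟩ f hf ∅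
        (fun b hb => absurd hb (Set.notMem_empty b)) ?_
      intro 𝔫 h𝔫 hker _
      refine hfin 𝔫 h𝔫 ?_
      intro b hb
      apply hker
      rw [h85c_mem_W0_nonunits_iff]
      exact (h62i_mem_P0 A M hℓ hM hA b).mp hb
    · -- the chart at infinity
      have hQi : σ ⟨_, hji⟩ ∈ Q.toValuationSubring := by
        have := (Q.toValuationSubring.mem_or_inv_mem (σ ⟨_, hj⟩)).resolve_left hQ
        rwa [← eq_inv_of_mul_eq_one_right hjj] at this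
      refine h85w_glob_zero_step A M hℓ hM hA Q (jSS M ℓ)⁻¹ ⟨hji, hQi⟩ f hf {h4c_V A M ℓ}
        ?_ ?_
      · rintro b hb hu
        rw [Set.mem_singleton_iff] at hb
        subst hb
        apply hQ
        have hinv := h85w_tau_inv_mem A M hℓ hM hA Q _ ⟨hji, hQi⟩ _ hu
        rw [h85w_iota_V A M hℓ hM hA Q ⟨hji, hQi⟩ hji] at hinv
        have e5 : σ ⟨_, hj⟩ = (σ ⟨(jSS M ℓ)⁻¹, hji⟩)⁻¹ := eq_inv_of_mul_eq_one_left hjj
        rw [e5]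
        exact hinv
      · intro 𝔫 h𝔫 hker hT
        refine hinf 𝔫 h𝔫 ?_ (hT _ rfl)
        intro b hb
        apply hker
        exact (h85c_mem_centre_iff (W := h85cW0 A M ℓ hℓ hM hA)
          (fun b => hssW0 _ (hCi.hBV _ b.2))).mp hb
  -- hence constant
  have hB := h26s_base ℓ hℓ M hM haux A hA
  obtain ⟨a, ha⟩ := hB.const (σ ⟨f, hf⟩)
    (fun Q => (Fermat.Agent.S24.DiffPlace.ord_nonneg_iff_mem Q).mpr (hreg Q))
  obtain ⟨c, rfl⟩ := Ideal.Quotient.mk_surjective a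
  have hc : cst (M * ℓ) (c : Kbar) ∈ (h85cW0 A M ℓ hℓ hM hA).toSubring := by
    show kFricke M ℓ hℓ hM (cst (M * ℓ) (c : Kbar)) ∈ softV A (M * ℓ)
    have e : kFricke M ℓ hℓ hM (cst (M * ℓ) (c : Kbar)) = cst (M * ℓ) (c : Kbar) :=
      (kFricke M ℓ hℓ hM).commutes (c : Kbar)
    rw [e]
    exact (cst_mem_softV_iff A (M * ℓ) _).mpr c.2
  refine ⟨c, (h85w_mem_M_zero_iff A M hℓ hM hA _).mpr ⟨Subring.sub_mem _ hf hc, ?_⟩⟩
  have e : (⟨f - algebraMap A (FF (M * ℓ)) c, Subring.sub_mem _ hf hc⟩ :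
      (h85cW0 A M ℓ hℓ hM hA).toSubring) = ⟨f, hf⟩ - ⟨cst (M * ℓ) (c : Kbar), hc⟩ := rfl
  rw [e, map_sub, sub_eq_zero, h85w_rhoZero_cst A M hℓ hM hA c hc]
  exact ha.symm

end Zero

end Fermat.Agent.P7
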