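import Fermat.Agent.P6.H62PuritySm
import Fermat.Agent.S35.H86TorU

/-!
# P7 (wave 7, S40), block (T) TORIC, row T-RHO-PURITY (helper85): the local factorisation at a
closed point lying on ONE component, abstract form

Vocabulary of `P6/H62PuritySm.lean` (helper62): `A` a valuation ring, `F` a field over `A`,
`B ⊆ F` a chart, `W` the Gauss valuation ring of the component through the closed point `𝔫`
(`H62ySmooth B V₀ val W W' 𝔫 t`: `𝔫 = (t) + 𝔪_A B` locally, `t` a unit of `W`, `𝔫` does not lie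
on the component of `W'`), `O = h62yO B 𝔫` the local ring of the chart at `𝔫`.

* `h85w_factor` : **local factorisation without congruence**: a unit `u` of `W` whose orders at
  the places of the generic fibre are divisible by `r` is `u = (t ^ d · w) ^ r · ε` with `d ∈ ℤ`,
  `w ∈ 1 + 𝔪_A W` and `ε` a unit of the local ring `O`.  (No hypothesis `u ≡ 1`; `r` is ANY
  natural number, e.g. the residue characteristic.)
-/

set_option autoImplicit false
set_option linter.unusedSectionVars false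
set_option linter.unusedVariables false
set_option linter.style.haveILetI false

open WithZero IsLocalRing

namespace Fermat.Agent.P7

open Fermat.Agent.Red Fermat.Agent.LGC Fermat.Agent.S35 Fermat.Agent.P6

section Abstract

variable {A : Type*} [CommRing A] [IsDomain A] [ValuationRing A]
  {F : Type*} [Field F] [Algebra A F]
  {B : Subalgebra A F} {V₀ : Subring F} {ι : Type*} {val : ι → Valuation F ℤᵐ⁰}
  {W W' : Subring F} {𝔫 : Ideal B} {t : B}

/-- a linear factor is `t` times an element of `1 + 𝔪_A W`. -/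
theorem h85w_lin_eq (h : H62ySmooth B V₀ val W W' 𝔫 t) {u : F}
    (hu : h62yLin B val 𝔫 t u) : ∃ w ∈ h86t_U1 A W, u = (t : F) * w := by
  obtain ⟨-, ⟨c, hc, huc⟩, -, -⟩ := h62y_lin_facts h hu
  refine ⟨1 + algebraMap A F c * (-(t : F)⁻¹), ⟨c, hc, _, W.neg_mem h.htW, rfl⟩, ?_⟩
  rw [huc]
  have := h.ht0
  field_simp
  ring

/-- **local factorisation without congruence** at a closed point on one component. -/
theorem h85w_factor (h : H62ySmooth B V₀ val W W' 𝔫 t) (u : F) (hu0 : u ≠ 0)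
    (hu : u ∈ W) (hui : u⁻¹ ∈ W) (r : ℕ)
    (hr : ∀ i, ∃ n : ℤ, val i u = exp (-((r : ℤ) * n))) :
    ∃ (d : ℤ) (w ε : F), w ∈ h86t_U1 A W ∧ u = ((t : F) ^ d * w) ^ r * ε ∧
      ε ∈ h62yO B 𝔫 h.hprime ∧ ε⁻¹ ∈ h62yO B 𝔫 h.hprime := by
  classical
  have hprime := h.hprime
  have hAW : ∀ a : A, algebraMap A F a ∈ W := h62y_AW h
  have hWu : ∀ m ∈ maximalIdeal A, ∀ x ∈ W, (1 + algebraMap A F m * x)⁻¹ ∈ W :=
    fun m hm x hx => (h62y_one_add_inv h hm hx).2
  -- the finite set of the centered places in the support of `div u`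
  have hfin1 : {i | 1 < val i u}.Finite := h.hC.hfin u hu0
  have hfin2 : {i | 1 < val i u⁻¹}.Finite := h.hC.hfin u⁻¹ (inv_ne_zero hu0)
  have hfin : {i | val i u ≠ 1}.Finite := by
    refine (hfin1.union hfin2).subset ?_
    intro i hi
    rcases lt_or_gt_of_ne hi with hlt | hgt
    · right
      show 1 < val i u⁻¹
      rw [map_inv₀]
      have hv0 : val i u ≠ 0 := (Valuation.ne_zero_iff _).mpr hu0
      exact (one_lt_inv₀ (zero_lt_iff.mpr hv0)).mpr hlt
    · left
      exact hgt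
  set T : Finset ι := hfin.toFinset.filter (fun i => h26Centered B val 𝔫 i) with hT
  have hTc : ∀ i ∈ T, h26Centered B val 𝔫 i := fun i hi => (Finset.mem_filter.mp hi).2
  have hTout : ∀ k, h26Centered B val 𝔫 k → k ∉ T → val k u = 1 := by
    intro k hk hkT
    by_contra hne
    exact hkT (Finset.mem_filter.mpr ⟨hfin.mem_toFinset.mpr hne, hk⟩)
  choose n hn using hr
  -- the linear factors
  have hex : ∀ i, ∃ l : F, (h26Centered B val 𝔫 i → ∃ φ : B →ₐ[A] A,
      (∀ b : B, φ b = 0 ↔ val i (b : F) < 1) ∧ (RingHom.ker (φ : B →+* A)).FG ∧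
        l = (t : F) - algebraMap A F (φ t)) ∧ (¬ h26Centered B val 𝔫 i → l = 1) := by
    intro i
    by_cases hi : h26Centered B val 𝔫 i
    · obtain ⟨φ, hφ, hfg⟩ := h.hsec i hi
      exact ⟨_, fun _ => ⟨φ, hφ, hfg, rfl⟩, fun hn => (hn hi).elim⟩
    · exact ⟨1, fun hc => (hi hc).elim, fun _ => rfl⟩
  choose l hl hl' using hex
  have hlin : ∀ i ∈ T, h62yLin B val 𝔫 t (l i) := by
    intro i hi
    obtain ⟨φ, hφ, hfg, he⟩ := hl i (hTc i hi)
    exact ⟨i, hTc i hi, φ, hφ, hfg, he⟩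
  have hlval_i : ∀ i ∈ T, val i (l i) = exp (-1 : ℤ) := by
    intro i hi
    obtain ⟨φ, hφ, hfg, he⟩ := hl i (hTc i hi)
    rw [he]
    exact (h62y_lin_val h (hTc i hi) hφ hfg).1
  have hlval_k : ∀ i ∈ T, ∀ k, h26Centered B val 𝔫 k → k ≠ i → val k (l i) = 1 := by
    intro i hi k hk hki
    obtain ⟨φ, hφ, hfg, he⟩ := hl i (hTc i hi)
    rw [he]
    exact (h62y_lin_val h (hTc i hi) hφ hfg).2 k hk hki
  have hl0 : ∀ i ∈ T, l i ≠ 0 := fun i hi => (h62y_lin_facts h (hlin i hi)).2.2.1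
  have hlW : ∀ i ∈ T, l i ∈ W := by
    intro i hi
    obtain ⟨⟨X, -, hX⟩, -⟩ := h62y_lin_facts h (hlin i hi)
    rw [← hX]
    exact h.hBW _ X.2
  have hlW' : ∀ i ∈ T, (l i)⁻¹ ∈ W := fun i hi => (h62y_lin_facts h (hlin i hi)).2.2.2
  -- `l i = t * w i`
  have hexw : ∀ i, ∃ w : F, w ∈ h86t_U1 A W ∧ (i ∈ T → l i = (t : F) * w) := by
    intro i
    by_cases hi : i ∈ T
    · obtain ⟨w, hw, he⟩ := h85w_lin_eq h (hlin i hi)
      exact ⟨w, hw, fun _ => he⟩
    · exact ⟨1, h86t_U1_one, fun hc => (hi hc).elim⟩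
  choose w hwU hlw using hexw
  -- the generator
  set g : F := ∏ i ∈ T, (l i) ^ (n i) with hg
  have hg0 : g ≠ 0 := Finset.prod_ne_zero_iff.mpr fun i hi => zpow_ne_zero _ (hl0 i hi)
  have hgW : ∀ z : ℤ, (∏ i ∈ T, (l i) ^ (z * n i)) ∈ W := by
    intro z
    refine Subring.prod_mem _ fun i hi => ?_
    exact h26_zpow_mem W (hlW i hi) (hlW' i hi) _
  have hgeq : g = (t : F) ^ (∑ i ∈ T, n i) * ∏ i ∈ T, (w i) ^ (n i) := by
    rw [hg, ← h26_prod_zpow_const T _ h.ht0, ← Finset.prod_mul_distrib]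
    refine Finset.prod_congr rfl fun i hi => ?_
    rw [hlw i hi, mul_zpow]
  have hwprod : (∏ i ∈ T, (w i) ^ (n i)) ∈ h86t_U1 A W :=
    h86t_U1_prod hAW T _ fun i _ => h86t_U1_zpow hAW hWu h.hWnt (hwU i) _
  -- the unit
  set ε : F := u * (g ^ r)⁻¹ with hε
  have hgr : g ^ r = ∏ i ∈ T, (l i) ^ ((r : ℤ) * n i) := by
    rw [hg, ← Finset.prod_pow]
    refine Finset.prod_congr rfl fun i _ => ?_
    rw [← zpow_natCast, ← zpow_mul, mul_comm]
  have hgri : (g ^ r)⁻¹ = ∏ i ∈ T, (l i) ^ (-(r : ℤ) * n i) := by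
    rw [hgr, ← Finset.prod_inv_distrib]
    refine Finset.prod_congr rfl fun i _ => ?_
    rw [← zpow_neg, neg_mul]
  have hεval : ∀ k, h26Centered B val 𝔫 k → val k ε = 1 := by
    intro k hk
    rw [hε, hgri, map_mul, map_prod]
    simp only [map_zpow₀]
    by_cases hkT : k ∈ T
    · rw [← Finset.mul_prod_erase T _ hkT]
      have h1 : ∏ i ∈ T.erase k, val k (l i) ^ (-(r : ℤ) * n i) = 1 := by
        refine Finset.prod_eq_one fun i hi => ?_
        rw [hlval_k i (Finset.mem_of_mem_erase hi) k hk (Finset.ne_of_mem_erase hi).symm,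
          one_zpow]
      rw [h1, mul_one, hlval_i k hkT, hn k, ← exp_zsmul, ← exp_add]
      rw [← exp_zero, exp_inj]
      simp
    · have h1 : ∏ i ∈ T, val k (l i) ^ (-(r : ℤ) * n i) = 1 := by
        refine Finset.prod_eq_one fun i hi => ?_
        have hki : k ≠ i := fun h => hkT (h ▸ hi)
        rw [hlval_k i hi k hk hki, one_zpow]
      rw [h1, mul_one, hTout k hk hkT]
  have hεW : ε ∈ W := by
    rw [hε, hgri]
    exact W.mul_mem hu (by simpa using hgW (-(r : ℤ)))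
  have hεW' : ε⁻¹ ∈ W := by
    have h1 : ε⁻¹ = u⁻¹ * ∏ i ∈ T, (l i) ^ ((r : ℤ) * n i) := by
      rw [hε, mul_inv, inv_inv, hgr]
    rw [h1]
    exact W.mul_mem hui (hgW (r : ℤ))
  have hεO : ε ∈ h62yO B 𝔫 h.hprime :=
    h62y_regular_mem h hεW (fun k hk => (hεval k hk).le)
  have hεO' : ε⁻¹ ∈ h62yO B 𝔫 h.hprime :=
    h62y_regular_mem h hεW' (fun k hk => by rw [map_inv₀, hεval k hk, inv_one])
  refine ⟨∑ i ∈ T, n i, ∏ i ∈ T, (w i) ^ (n i), ε, hwprod, ?_, hεO, hεO'⟩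
  rw [← hgeq, hε]
  have hgr0 : g ^ r ≠ 0 := pow_ne_zero _ hg0
  field_simp

end Abstract

end Fermat.Agent.P7
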