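import Fermat.Agent.P7.H15GenusIface
import Fermat.Agent.Jac.ConvFinal
import Fermat.Agent.Jac.DictCFinal
import Fermat.Agent.Jac.CuspFamC
import Fermat.Agent.Jac.AnC
import Fermat.Agent.Jac.SelC
import Fermat.Agent.Jac.EisAnalyticCore
import Fermat.Agent.Jac.CuspRoot
import Fermat.Agent.S28.Bridge
import Fermat.Agent.S28.Cusp
import Fermat.Agent.S28.CuspJ
import Fermat.Agent.S28.Invariance
import Fermat.Agent.S24.EmbCusp
import Fermat.Agent.S21.J1.DeltaJ

/-!
# Wave 7, block (A), DLOG leaf DL6B GENUS-MATCH, leaf GM-1a (helper86, prefix `h86w_`)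

`h86w_wh : H15gWH` : a weakly holomorphic `Γ₀(M)`-invariant function `f` of degree `≤ d`
(S21/E `IsWH`: holomorphic on `ℍ`, `Δ ^ d * (f ∘ g)` bounded at `i∞` for every `g ∈ SL₂(ℤ)`) is
an element `F` of the function field `F_ℂ` of level `M`, and `F ∈ L_ℂ(d (j)_∞)`:
`d * min 0 (ord_v j) ≤ ord_v F` at every place `v` of `F_ℂ`.

* `h86w_exp` : the expansion of `f ∘ g` in `exp (2πiτ/M)`, of order `≥ - d M`;
* `h86w_cuspMero`; `h86w_isAnC`;
* `h86w_wh`.
-/

set_option autoImplicit false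
set_option linter.style.haveILetI false
set_option linter.unusedSectionVars false

open ModularCurve AlgebraicCurve UpperHalfPlane CongruenceSubgroup
open scoped MatrixGroups Manifold

noncomputable section

namespace Fermat.Agent.P7

open Fermat.Agent.S24 (Kbar FF jBar tayAt)
open Fermat.Agent.Jac (FC jC IsAnC IsGermEmbC IsCuspEmbC CuspMero)
open Fermat.Agent.S28 (HasTExp tParam deltaAn jAn cEmb)

/-! ### periodicity -/

/-- `f ∘ g` has period `M`. -/
theorem h86w_comp_periodic {M d : ℕ} {f : ℍ → ℂ}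
    (hf : Fermat.Agent.S21.E.IsWH (Gamma0 M) d f) (g : SL(2, ℤ)) (τ : ℍ) :
    f (g • ((M : ℝ) +ᵥ τ)) = f (g • τ) := by
  have h1 : ((M : ℝ) +ᵥ τ) = ModularGroup.T ^ (M : ℤ) • τ := by
    rw [UpperHalfPlane.modular_T_zpow_smul]
    simp
  have h2 : g • (ModularGroup.T ^ (M : ℤ) • τ) =
      (g * ModularGroup.T ^ (M : ℤ) * g⁻¹) • (g • τ) := by
    rw [mul_smul, mul_smul, inv_smul_smul]
  rw [h1, h2]
  exact hf.inv _ (Fermat.Agent.Jac.h72_conj_T_pow_mem M g) (g • τ)

/-- `Δ` has period `M`. -/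
theorem h86w_delta_periodic (M : ℕ) (τ : ℍ) :
    ModularForm.discriminant ((M : ℝ) +ᵥ τ) = ModularForm.discriminant τ := by
  have h1 : ((M : ℝ) +ᵥ τ) = ModularGroup.T ^ (M : ℤ) • τ := by
    rw [UpperHalfPlane.modular_T_zpow_smul]
    simp
  rw [h1, Fermat.Agent.S28.discriminant_smul, ModularGroup.coe_T_zpow]
  simp

/-! ### orders of Laurent series -/

theorem h86w_order_inv {x : LaurentSeries ℂ} (hx : x ≠ 0) : (x⁻¹).order = -x.order := by
  have hinv : x⁻¹ ≠ 0 := inv_ne_zero hx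
  have h1 : (x⁻¹ * x).order = (x⁻¹).order + x.order := HahnSeries.order_mul hinv hx
  rw [inv_mul_cancel₀ hx, HahnSeries.order_one] at h1
  omega

theorem h86w_order_ofPowerSeries_nonneg (p : PowerSeries ℂ) :
    0 ≤ (HahnSeries.ofPowerSeries ℤ ℂ p).order := by
  by_cases hp : p = 0
  · subst hp
    simp
  · rw [Fermat.Agent.Jac.h29_order_ofPowerSeries hp]
    exact Int.natCast_nonneg _

/-! ### the expansion at the cusps -/

/-- **the expansion of `f ∘ g`** in `exp (2πiτ/M)`, of order `≥ - d M`. -/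
theorem h86w_exp {M : ℕ} [NeZero M] {d : ℕ} {f : ℍ → ℂ}
    (hf : Fermat.Agent.S21.E.IsWH (Gamma0 M) d f) (g : SL(2, ℤ)) :
    ∃ s : LaurentSeries ℂ, HasTExp M (fun τ => f (g • τ)) s ∧
      (s = 0 ∨ -((d : ℤ) * (M : ℤ)) ≤ s.order) := by
  have hM : 0 < M := Nat.pos_of_ne_zero (NeZero.ne M)
  set G : ℍ → ℂ := fun z => ModularForm.discriminant z ^ d * f (g • z) with hGdef
  have hG : MDiff G :=
    (Fermat.Agent.S21.J1.mdiff_discriminant.pow d).mul
      (Fermat.Agent.S24.h58_mdiff_comp_smul hf.holo g)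
  have hper : ∀ τ : ℍ, G ((M : ℝ) +ᵥ τ) = G τ := by
    intro τ
    show ModularForm.discriminant ((M : ℝ) +ᵥ τ) ^ d * f (g • ((M : ℝ) +ᵥ τ)) =
      ModularForm.discriminant τ ^ d * f (g • τ)
    rw [h86w_delta_periodic, h86w_comp_periodic hf]
  have hGexp := Fermat.Agent.Jac.EisAn.h20_hasTExp_of_periodic_bounded hM hG hper (hf.bdd g)
  have hΔ : HasTExp M (fun τ => (deltaAn τ)⁻¹) (qExpand ℂ M (cEmb deltaSeries)⁻¹) :=
    (Fermat.Agent.S28.h19_hasTExp_deltaAn_inv).of_one (N := M)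
  have hprod := hGexp.mul hM (hΔ.pow hM d)
  refine ⟨_, hprod.congr ?_, ?_⟩
  · intro τ
    have hne : ModularForm.discriminant τ ≠ 0 := ModularForm.discriminant_ne_zero τ
    show (G * (fun τ => (deltaAn τ)⁻¹) ^ d) τ = f (g • τ)
    simp only [Pi.mul_apply, Pi.pow_apply, hGdef, deltaAn]
    rw [inv_pow]
    field_simp
  · set P := HahnSeries.ofPowerSeries ℤ ℂ (UpperHalfPlane.qExpansion (M : ℝ) G) with hP
    set D := qExpand ℂ M (cEmb deltaSeries)⁻¹ with hD
    have hc0 : cEmb deltaSeries ≠ 0 := by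
      intro h0
      have := Fermat.Agent.S28.Cusp.order_cEmb_deltaSeries
      rw [h0, HahnSeries.order_zero] at this
      omega
    have hDord : D.order = -(M : ℤ) := by
      rw [hD, Fermat.Agent.S28.order_qExpand, h86w_order_inv hc0,
        Fermat.Agent.S28.Cusp.order_cEmb_deltaSeries]
      ring
    have hD0 : D ≠ 0 := by
      intro h0
      rw [h0, HahnSeries.order_zero] at hDord
      have : (0 : ℤ) < M := by exact_mod_cast hM
      omega
    by_cases hP0 : P = 0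
    · left
      rw [hP0, zero_mul]
    · right
      rw [HahnSeries.order_mul hP0 (pow_ne_zero d hD0), Fermat.Agent.Jac.h29_order_pow, hDord]
      have := h86w_order_ofPowerSeries_nonneg (UpperHalfPlane.qExpansion (M : ℝ) G)
      rw [← hP] at this
      have e : (d : ℤ) * -(M : ℤ) = -((d : ℤ) * (M : ℤ)) := by ring
      rw [e]
      omega

theorem h86w_cuspMero {M : ℕ} [NeZero M] {d : ℕ} {f : ℍ → ℂ}
    (hf : Fermat.Agent.S21.E.IsWH (Gamma0 M) d f) : CuspMero M f := fun g => by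
  obtain ⟨s, hs, -⟩ := h86w_exp hf g
  exact ⟨s, hs⟩

/-! ### the element of the function field -/

theorem h86w_isAnC {M : ℕ} [NeZero M] {d : ℕ} {f : ℍ → ℂ}
    (hf : Fermat.Agent.S21.E.IsWH (Gamma0 M) d f) (F : FC M)
    (hF : HasTExp 1 f (F : LaurentSeries ℂ)) : IsAnC M F f (fun _ => 1) := by
  refine ⟨hf.holo, mdifferentiable_const, ?_, ?_, ?_, ?_, ?_, ?_⟩
  · intro h
    have := congrFun h UpperHalfPlane.I
    simp at this
  · intro γ hγ τ
    exact hf.inv γ hγ τ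
  · intro γ _ τ
    rfl
  · intro g
    exact h86w_cuspMero hf g
  · intro g
    exact ⟨1, Fermat.Agent.S28.HasTExp.one M⟩
  · exact ⟨(F : LaurentSeries ℂ), 1, hF, Fermat.Agent.S28.HasTExp.one 1, mul_one _⟩

/-- **GM-1a.** -/
theorem h86w_wh : H15gWH := by
  intro M _ d f hf
  have hM : 0 < M := Nat.pos_of_ne_zero (NeZero.ne M)
  obtain ⟨s, hs, hsmem⟩ := Fermat.Agent.Jac.conv M f hf.holo
    (fun γ τ => hf.inv (γ : SL(2, ℤ)) γ.2 τ) (h86w_cuspMero hf)
  refine ⟨⟨s, hsmem⟩, hs, ?_⟩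
  intro v
  by_cases hF0 : (⟨s, hsmem⟩ : FC M) = 0
  · exact Or.inl hF0
  right
  obtain ⟨E, m, hm, hord, hcase⟩ := Fermat.Agent.Jac.dictC M v
  have hAn : IsAnC M (⟨s, hsmem⟩ : FC M) f (fun _ => 1) := h86w_isAnC hf ⟨s, hsmem⟩ hs
  have hordF := hord _ hF0
  have hEF0 : E (⟨s, hsmem⟩ : FC M) ≠ 0 := (map_ne_zero E).mpr hF0
  have hm' : (0 : ℤ) < (m : ℤ) := by exact_mod_cast hm
  rcases hcase with ⟨τ₀, g, hE, -⟩ | ⟨g, hE, -⟩
  · -- a point of the upper half plane: `F` is regular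
    have h3 := hE.2 _ _ _ hAn
    have hone : tayAt τ₀ (fun _ : ℍ => (1 : ℂ)) = 1 :=
      (Fermat.Agent.S24.tayAt_const 1 τ₀).trans (map_one _)
    rw [hone, map_one, mul_one] at h3
    have h4 : 0 ≤ (E (⟨s, hsmem⟩ : FC M)).order := by
      rw [h3]
      exact h86w_order_ofPowerSeries_nonneg _
    rw [hordF] at h4
    have h5 : 0 ≤ v.ord (⟨s, hsmem⟩ : FC M) := by
      by_contra hneg
      have : (m : ℤ) * v.ord (⟨s, hsmem⟩ : FC M) < 0 :=
        mul_neg_of_pos_of_neg hm' (not_le.mp hneg)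
      omega
    have h6 : (d : ℤ) * min 0 (v.ord (jC M)) ≤ 0 :=
      mul_nonpos_of_nonneg_of_nonpos (Int.natCast_nonneg d) (min_le_left _ _)
    omega
  · -- a cusp
    obtain ⟨sA, hsA, hsAord⟩ := h86w_exp hf g⁻¹
    have h3 := hE.2 _ _ _ sA 1 hAn hsA (Fermat.Agent.S28.HasTExp.one M)
    rw [mul_one] at h3
    have hj := hE.2 _ _ _ (Fermat.Agent.S24.h84_p0 M) 1
      (Fermat.Agent.Jac.h27_isAnC_jC Fermat.Agent.Jac.anC M)
      ((Fermat.Agent.S28.Cusp.hasTExp_jAn'.of_one (N := M)).congr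
        (fun τ => (Fermat.Agent.S28.jAn_smul g⁻¹ τ).symm))
      (Fermat.Agent.S24.h84_hasTExp_one_translate M g)
    rw [mul_one] at hj
    have hj0 : jC M ≠ 0 := by
      intro h0
      rw [h0, map_zero] at hj
      exact Fermat.Agent.S24.h84_p0_ne_zero M hj.symm
    have hordj := hord _ hj0
    rw [hj, Fermat.Agent.S24.h84_order_p0] at hordj
    have hsA0 : sA ≠ 0 := by
      intro h0
      rw [h0] at h3
      exact hEF0 h3
    have hsAord' : -((d : ℤ) * (M : ℤ)) ≤ sA.order := by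
      rcases hsAord with h | h
      · exact absurd h hsA0
      · exact h
    rw [h3] at hordF
    -- `m * ord_v j = - M`, `m * ord_v F = ord sA ≥ - d M`
    have hMpos : (0 : ℤ) < (M : ℤ) := by exact_mod_cast hM
    have hb : v.ord (jC M) < 0 := by
      by_contra hnn
      have : 0 ≤ (m : ℤ) * v.ord (jC M) := mul_nonneg hm'.le (not_lt.mp hnn)
      omega
    have hmin : min 0 (v.ord (jC M)) = v.ord (jC M) := min_eq_right hb.le
    rw [hmin]
    have key : (m : ℤ) * ((d : ℤ) * v.ord (jC M)) ≤ (m : ℤ) * v.ord (⟨s, hsmem⟩ : FC M) := by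
      have e : (m : ℤ) * ((d : ℤ) * v.ord (jC M)) = (d : ℤ) * ((m : ℤ) * v.ord (jC M)) := by
        ring
      rw [e, ← hordj, ← hordF]
      have e2 : (d : ℤ) * -(M : ℤ) = -((d : ℤ) * (M : ℤ)) := by ring
      rw [e2]
      exact hsAord'
    exact le_of_mul_le_mul_left key hm'

end Fermat.Agent.P7
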