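import Fermat.Agent.P7.H69PullHecke
import Fermat.Agent.P7.H86PhiHecke

/-!
# Wave 7, block (A), leaf A3 PHI: glue (helper86, prefix `h86r_`)

`h : N ∣ M`, `π_* = h69wPush h`, `π^* = P5.h69vPull h`, `d = [F_M : F_N] = h86rDeg h`.

* `h86r_push_pull` : `π_* π^* = d` on `J₀(N)`;
* `h86r_tr_pull` : `(π^* π_*) (π^* x) = d • π^* x`;  `h86r_tr_tr` : `(π^* π_*)² = d • π^* π_*`;
* `h86r_phi_pull` : `Φ_P (π^* x) = d • π^* (P x)` (every Hecke polynomial `P`);
* `h86r_phi_pull_eigen` : if `P x = x` then `Φ_P (π^* x) = d • π^* x`;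
* `h86r_act_pull_eigen` : if `P x = x` and `P` is a polynomial in the `T_r`, `r ∤ M`, then
  `P (π^* x) = π^* x` at the level `M`;
* `h86r_act_tr_pull_eigen`, `h86r_tr_act_pull_eigen` : then `P (π^* π_* (π^* x)) = d • π^* x` and
  `π^* π_* (P (π^* x)) = d • π^* x`;
* `h86r_phi_phi` : `Φ_P ∘ Φ_Q = d • Φ_{P Q}`;
* `h86rDeg_mul`, `h86rDeg_ne_zero`, `h86rDeg_dvd` : `d ψ(N) = ψ(M)`.
-/

set_option autoImplicit false
set_option linter.style.haveILetI false
set_option linter.unusedSectionVars false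

open AlgebraicCurve ModularCurve

noncomputable section

namespace Fermat.Agent.P7

open Fermat.Agent.S37 Fermat.Agent.P5

section Glue

variable {N M : ℕ} [NeZero N] [NeZero M] (h : N ∣ M)

/-- the degree `d = [F_M : F_N]` of the degeneracy inclusion. -/
def h86rDeg : ℕ := finrankAlong Kbar (degen h)

theorem h86rDeg_def : h86rDeg h = finrankAlong Kbar (degen h) := rfl

/-- `d ψ(N) = ψ(M)`. -/
theorem h86rDeg_mul : h86rDeg h * dedekindPsi N = dedekindPsi M :=
  h86p_finrank h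

theorem h86rDeg_ne_zero : h86rDeg h ≠ 0 := by
  intro h0
  have e := h86rDeg_mul h
  rw [h0, zero_mul] at e
  exact Fermat.Agent.Red.HKComm.hksq_dedekindPsi_ne_zero M (NeZero.ne M) e.symm

theorem h86rDeg_dvd : h86rDeg h ∣ dedekindPsi M :=
  Dvd.intro _ (h86rDeg_mul h)

/-- **`π_* π^* = d`.** -/
theorem h86r_push_pull (x : JZero N) :
    h69wPush h (h69vPull h x) = h86rDeg h • x :=
  h86p_push_pull h x

/-- `(π^* π_*) (π^* x) = d • π^* x`. -/
theorem h86r_tr_pull (x : JZero N) :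
    h69wTr h (h69vPull h x) = h86rDeg h • h69vPull h x := by
  rw [h69wTr_apply, h86r_push_pull, map_nsmul]

/-- `(π^* π_*)² = d • π^* π_*`. -/
theorem h86r_tr_tr (y : JZero M) :
    h69wTr h (h69wTr h y) = h86rDeg h • h69wTr h y := by
  rw [h69wTr_apply h y, h86r_tr_pull]

/-- **`Φ_P (π^* x) = d • π^* (P x)`** (every Hecke polynomial `P`). -/
theorem h86r_phi_pull (P : MvPolynomial Nat.Primes ℤ) (x : JZero N) :
    h69wPhi h P (h69vPull h x) = h86rDeg h • h69vPull h (h69wAct N P x) := by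
  rw [h69wPhi_apply, h86r_push_pull, map_nsmul, map_nsmul]

/-- if `P x = x` then `Φ_P (π^* x) = d • π^* x`. -/
theorem h86r_phi_pull_eigen (P : MvPolynomial Nat.Primes ℤ) (x : JZero N)
    (hx : h69wAct N P x = x) :
    h69wPhi h P (h69vPull h x) = h86rDeg h • h69vPull h x := by
  rw [h86r_phi_pull, hx]

/-- if `P x = x` (level `N`) and `P` is a polynomial in the `T_r`, `r ∤ M`, then
`P (π^* x) = π^* x` (level `M`). -/
theorem h86r_act_pull_eigen (P : MvPolynomial Nat.Primes ℤ)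
    (hP : P ∈ MvPolynomial.supported ℤ {ℓ : Nat.Primes | ¬ (ℓ : ℕ) ∣ M}) (x : JZero N)
    (hx : h69wAct N P x = x) :
    h69wAct M P (h69vPull h x) = h69vPull h x := by
  rw [← h69vPull_act h P hP, hx]

/-- the same in the module notation. -/
theorem h86r_smul_pull_eigen (P : MvPolynomial Nat.Primes ℤ)
    (hP : P ∈ MvPolynomial.supported ℤ {ℓ : Nat.Primes | ¬ (ℓ : ℕ) ∣ M}) (x : JZero N)
    (hx : (letI := heckeModuleBar N; P • x) = x) :
    (letI := heckeModuleBar M; P • h69vPull h x) = h69vPull h x := by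
  have e := h86r_act_pull_eigen h P hP x (by rw [h69wAct_apply]; exact hx)
  rw [h69wAct_apply] at e
  exact e

/-- `P (π^* π_* (π^* x)) = d • π^* x` for an eigenvector `P x = x`. -/
theorem h86r_act_tr_pull_eigen (P : MvPolynomial Nat.Primes ℤ)
    (hP : P ∈ MvPolynomial.supported ℤ {ℓ : Nat.Primes | ¬ (ℓ : ℕ) ∣ M}) (x : JZero N)
    (hx : h69wAct N P x = x) :
    h69wAct M P (h69wTr h (h69vPull h x)) = h86rDeg h • h69vPull h x := by
  rw [← h69wPhi_eq h P hP, h86r_phi_pull_eigen h P x hx]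

/-- `π^* π_* (P (π^* x)) = d • π^* x` for an eigenvector `P x = x`. -/
theorem h86r_tr_act_pull_eigen (P : MvPolynomial Nat.Primes ℤ)
    (hP : P ∈ MvPolynomial.supported ℤ {ℓ : Nat.Primes | ¬ (ℓ : ℕ) ∣ M}) (x : JZero N)
    (hx : h69wAct N P x = x) :
    h69wTr h (h69wAct M P (h69vPull h x)) = h86rDeg h • h69vPull h x := by
  rw [← h69wPhi_eq' h P hP, h86r_phi_pull_eigen h P x hx]

/-- **`Φ_P ∘ Φ_Q = d • Φ_{P Q}`.** -/
theorem h86r_phi_phi (P Q : MvPolynomial Nat.Primes ℤ) (y : JZero M) :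
    h69wPhi h P (h69wPhi h Q y) = h86rDeg h • h69wPhi h (P * Q) y := by
  rw [h69wPhi_apply h Q y, h86r_phi_pull, ← h69wAct_mul, h69wPhi_apply]

/-- `Φ_P ∘ π^* π_* = d • Φ_P`. -/
theorem h86r_phi_tr (P : MvPolynomial Nat.Primes ℤ) (y : JZero M) :
    h69wPhi h P (h69wTr h y) = h86rDeg h • h69wPhi h P y := by
  rw [h69wTr_apply, h86r_phi_pull, h69wPhi_apply]

/-- `π^* π_* ∘ Φ_P = d • Φ_P`. -/
theorem h86r_tr_phi (P : MvPolynomial Nat.Primes ℤ) (y : JZero M) :
    h69wTr h (h69wPhi h P y) = h86rDeg h • h69wPhi h P y := by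
  rw [h69wPhi_apply, h86r_tr_pull]

/-- a class killed by `π^*` is killed by `d`. -/
theorem h86r_pull_eq_zero (x : JZero N) (hx : h69vPull h x = 0) : h86rDeg h • x = 0 := by
  rw [← h86r_push_pull, hx, map_zero]

/-- `π^*` is injective on the `n`-torsion for `n` prime to `d`. -/
theorem h86r_pull_inj_torsion (n : ℕ) (hn : Nat.Coprime (h86rDeg h) n) (x : JZero N)
    (hnx : n • x = 0) (hx : h69vPull h x = 0) : x = 0 := by
  have h1 := h86r_pull_eq_zero h x hx
  have h2 : (Nat.gcd (h86rDeg h) n) • x = 0 := by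
    have e := Nat.gcd_eq_gcd_ab (h86rDeg h) n
    have h3 : ((Nat.gcd (h86rDeg h) n : ℕ) : ℤ) • x = 0 := by
      have e1 : ((h86rDeg h : ℤ) * (h86rDeg h).gcdA n) • x = 0 := by
        rw [mul_comm, mul_zsmul, natCast_zsmul, h1, zsmul_zero]
      have e2 : ((n : ℤ) * (h86rDeg h).gcdB n) • x = 0 := by
        rw [mul_comm, mul_zsmul, natCast_zsmul, hnx, zsmul_zero]
      rw [e, add_zsmul, e1, e2, add_zero]
    rwa [natCast_zsmul] at h3
  rw [hn, one_smul] at h2
  exact h2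

end Glue

end Fermat.Agent.P7
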