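import Fermat.Agent.P7.H86PhiHecke

/-!
# Wave 7, block (A), leaf A3 PHI (twin helper86, prefix `h86q_`): the pull-back along a general
degeneracy inclusion `F_N ⊆ F_M`, `N ∣ M`, commutes with the Hecke operators `T_r`, `r ∤ M`

* `h86q_fricke_degenE` : the Atkin–Lehner involution `w_r` of `F_{M r}` restricts along the
  inclusion `F_{N r} ⊆ F_{M r}` to the Atkin–Lehner involution of `F_{N r}`;
* `h86q_gen` : `F_M · F_{N r} = F_{M r}` (transport of the landed generation
  `F_{N r} · δ(r) F_M = F_{M r}` by `w_r`);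
* `h86q_pull_corr`, `h86q_pull_heckeDivBar` : `π^* ∘ T_r = T_r ∘ π^*` on divisors (base change in
  the square `F_N ⊆ F_{N r}`, `F_N ⊆ F_M`, `F_M ⊆ F_{M r}`, `F_{N r} ⊆ F_{M r}`);
* `h86q_pull_hecke` : `π^* (T_r x) = T_r (π^* x)` on `J₀`, `π^*` = the landed `P5.h69vPull h`;
* `h86q_pull_smul` : the polynomial form.
-/

set_option autoImplicit false
set_option linter.style.haveILetI false
set_option linter.unusedSectionVars false

open AlgebraicCurve ModularCurve IntermediateField

noncomputable section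

namespace Fermat.Agent.P7

open Fermat.Agent.S24 (Kbar FF jBar jdBar cst)
open Fermat.Agent.S37 (degen coe_degen)
open Fermat.Agent.S35
open Fermat.Agent.Red.HKMod
open Fermat.Agent.Red.HKComm
open Fermat.Agent.Red.Kron

/-- principal divisors of `F_M` (local instance). -/
local instance h86q_instPD (M : ℕ) [NeZero M] : HasPrincipalDivisors Kbar (FF M) :=
  hasPrincipalDivisors_FF M

/-- `F_M` is finite over `K(j)` (local instance). -/
local instance h86q_instFD (M : ℕ) [NeZero M] : FiniteDimensional Kbar⟮jBar M⟯ (FF M) :=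
  finiteDimensional_jBar M

/-! ## the Atkin–Lehner involution and the standard inclusion -/

/-- the involution `w_r` of `F_{M r}` restricts along `F_{N r} ⊆ F_{M r}` to the involution
`w_r` of `F_{N r}`. -/
theorem h86q_fricke_degenE {N M r : ℕ} [NeZero N] [NeZero M] [NeZero r] (hr : r.Prime)
    (hrN : ¬ r ∣ N) (hrM : ¬ r ∣ M) (hα : N * 1 ∣ M) (hb : N * r * 1 ∣ M * r)
    (y : FF (N * r)) :
    kFricke M r hr hrM (degenE 1 hb y) = degenE 1 hb (kFricke N r hr hrN y) := by
  induction y using kFF_induction_ab N r hr with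
  | hc a =>
    rw [kFricke_cst]
    have h1 : degenE 1 hb (cst (N * r) a) = cst (M * r) a := (degenE 1 hb).commutes a
    rw [h1, kFricke_cst]
  | ha x =>
    have h1 : degenE 1 hb (heckeAlphaBar Kbar N r x)
        = heckeAlphaBar Kbar M r (degenE 1 hα x) :=
      Subtype.ext (by rw [coe_degenE, coe_heckeAlphaBar, coe_heckeAlphaBar, coe_degenE])
    have h2 : heckeBetaBar Kbar M r (degenE 1 hα x)
        = degenE 1 hb (heckeBetaBar Kbar N r x) :=
      Subtype.ext (by
        rw [coe_heckeBetaBar, coe_degenE, coe_degenE, coe_heckeBetaBar, qExpand_qExpand,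
          qExpand_qExpand]
        exact qExpand_congr (mul_comm r 1) _)
    rw [h1, kFricke_alpha, kFricke_alpha, h2]
  | hb x =>
    have h1 : degenE 1 hb (heckeBetaBar Kbar N r x)
        = heckeBetaBar Kbar M r (degenE 1 hα x) :=
      Subtype.ext (by
        rw [coe_heckeBetaBar, coe_degenE, coe_degenE, coe_heckeBetaBar, qExpand_qExpand,
          qExpand_qExpand]
        exact qExpand_congr (mul_comm 1 r) _)
    have h2 : heckeAlphaBar Kbar M r (degenE 1 hα x)
        = degenE 1 hb (heckeAlphaBar Kbar N r x) :=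
      Subtype.ext (by rw [coe_degenE, coe_heckeAlphaBar, coe_heckeAlphaBar, coe_degenE])
    rw [h1, kFricke_beta, kFricke_beta, h2]
  | hadd x y hx hy => rw [map_add, map_add, map_add, map_add, hx, hy]
  | hinv x hx => rw [map_inv₀, map_inv₀, map_inv₀, map_inv₀, hx]
  | hmul x y hx hy => rw [map_mul, map_mul, map_mul, map_mul, hx, hy]

/-- **generation in the standard square**: `F_M · F_{N r} = F_{M r}`, `N ∣ M`, `r ∤ M` prime. -/
theorem h86q_gen {N M r : ℕ} [NeZero N] [NeZero M] [NeZero r] (hr : r.Prime)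
    (hrM : ¬ r ∣ M) (hα : N * 1 ∣ M) (ha : M * 1 ∣ M * r) (hb : N * r * 1 ∣ M * r) :
    (degenE 1 ha).fieldRange ⊔ (degenE 1 hb).fieldRange = ⊤ := by
  have hNM : N ∣ M := by rwa [mul_one] at hα
  have hrN : ¬ r ∣ N := fun h => hrM (h.trans hNM)
  have hrr : M * r ∣ M * r := dvd_refl _
  have hG := hksq_generation gen M (N * r) (M * r) r rfl hb hrr
  have hW1 : (kFricke M r hr hrM : FF (M * r) →ₐ[Kbar] FF (M * r)).comp
      (degenE r hrr) = degenE 1 ha := by
    refine AlgHom.ext fun x => ?_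
    have h2 : degenE 1 ha x = heckeAlphaBar Kbar M r x := by
      rw [heckeAlphaBar_eq_degenE]
    have h3 : degenE r hrr x = heckeBetaBar Kbar M r x := by
      rw [heckeBetaBar_eq_degenE]
    rw [AlgHom.comp_apply, h2, h3]
    exact kFricke_beta M r hr hrM x
  have hW2 : (kFricke M r hr hrM : FF (M * r) →ₐ[Kbar] FF (M * r)).comp
      (degenE 1 hb) = (degenE 1 hb).comp
        (kFricke N r hr hrN : FF (N * r) →ₐ[Kbar] FF (N * r)) :=
    AlgHom.ext fun y => h86q_fricke_degenE hr hrN hrM hα hb y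
  have h4 := congrArg (IntermediateField.map
    (kFricke M r hr hrM : FF (M * r) →ₐ[Kbar] FF (M * r))) hG
  rw [IntermediateField.map_sup, AlgHom.map_fieldRange, AlgHom.map_fieldRange, hW1, hW2,
    ← AlgHom.fieldRange_eq_map, AlgEquiv.fieldRange_eq_top, ← AlgHom.map_fieldRange,
    AlgEquiv.fieldRange_eq_top, ← AlgHom.fieldRange_eq_map] at h4
  rw [sup_comm]
  exact h4

/-- `[F_{M r} : F_M] = [F_{N r} : F_N]` for a prime `r ∤ M`, `N ∣ M`. -/
theorem h86q_deg {N M r : ℕ} [NeZero N] [NeZero M] [NeZero r] (hr : r.Prime) (hrM : ¬ r ∣ M)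
    (hNM : N ∣ M) (ha : M * 1 ∣ M * r) (hα : N * 1 ∣ N * r) :
    finrankAlong Kbar (degenE 1 ha) = finrankAlong Kbar (degenE 1 hα) := by
  have hrN : ¬ r ∣ N := fun h => hrM (h.trans hNM)
  have h1 := h52deg_deg M (M * r) ha
  have h2 := h52deg_deg N (N * r) hα
  have hcN : N.Coprime r := (Nat.Coprime.symm ((Nat.Prime.coprime_iff_not_dvd hr).mpr hrN))
  have hcM : M.Coprime r := (Nat.Coprime.symm ((Nat.Prime.coprime_iff_not_dvd hr).mpr hrM))
  have h3 : dedekindPsi (N * r) = dedekindPsi N * dedekindPsi r :=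
    Fermat.Agent.S21.C1.dedekindPsi_mul hcN
  have h4 : dedekindPsi (M * r) = dedekindPsi M * dedekindPsi r :=
    Fermat.Agent.S21.C1.dedekindPsi_mul hcM
  have hN : dedekindPsi N ≠ 0 := hksq_dedekindPsi_ne_zero N (NeZero.ne N)
  have hM : dedekindPsi M ≠ 0 := hksq_dedekindPsi_ne_zero M (NeZero.ne M)
  have e1 : finrankAlong Kbar (degenE 1 ha) = dedekindPsi r := by
    have : finrankAlong Kbar (degenE 1 ha) * dedekindPsi M = dedekindPsi r * dedekindPsi M := by
      rw [h1, h4, mul_comm]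
    exact Nat.eq_of_mul_eq_mul_right (Nat.pos_of_ne_zero hM) this
  have e2 : finrankAlong Kbar (degenE 1 hα) = dedekindPsi r := by
    have : finrankAlong Kbar (degenE 1 hα) * dedekindPsi N = dedekindPsi r * dedekindPsi N := by
      rw [h2, h3, mul_comm]
    exact Nat.eq_of_mul_eq_mul_right (Nat.pos_of_ne_zero hN) this
  rw [e1, e2]

/-! ## pull-back and the Hecke correspondence on divisors -/

/-- `δ(1)^* ∘ T_r = T_r ∘ δ(1)^*` on divisors, for `N ∣ M` and a prime `r ∤ M`. -/
theorem h86q_pull_corr {N M r : ℕ} [NeZero N] [NeZero M] [NeZero r] (hr : r.Prime)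
    (hrM : ¬ r ∣ M) (hβ : N * 1 ∣ M)
    (h1 : M * 1 ∣ M * r) (hrr : M * r ∣ M * r)
    (h1' : N * 1 ∣ N * r) (hrr' : N * r ∣ N * r)
    (D : Divisor Kbar (FF N)) :
    Divisor.pullbackAlong (degenE 1 hβ) (isIntegral_degenE 1 hβ)
        (corrE N (N * r) 1 r h1' hrr' D)
      = corrE M (M * r) 1 r h1 hrr
          (Divisor.pullbackAlong (degenE 1 hβ) (isIntegral_degenE 1 hβ) D) := by
  have hNM : N ∣ M := by rwa [mul_one] at hβ
  have hb : N * r * 1 ∣ M * r := by
    rw [mul_one]
    exact mul_dvd_mul_right hNM r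
  have hdeg := h86q_deg hr hrM hNM h1 h1'
  have hgen := h86q_gen hr hrM hβ h1 hb
  have hBC := h41h_baseChange 1 1 h1' hβ h1 hb hdeg hgen
    (Divisor.pullbackAlong (degenE r hrr') (isIntegral_degenE r hrr') D)
  rw [corrE_apply, corrE_apply, hBC]
  congr 1
  have hE : N * (r * 1) ∣ M * r := by
    rw [mul_one]
    exact mul_dvd_mul_right hNM r
  have hE' : N * (1 * r) ∣ M * r := by
    rw [one_mul]
    exact mul_dvd_mul_right hNM r
  have e1 : (degenE 1 hb).comp (degenE r hrr') = degenE (r * 1) hE :=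
    degenE_comp r 1 hrr' hb hE
  have e2 : (degenE r hrr).comp (degenE 1 hβ) = degenE (1 * r) hE' :=
    degenE_comp 1 r hβ hrr hE'
  have e12 : (degenE 1 hb).comp (degenE r hrr') = (degenE r hrr).comp (degenE 1 hβ) := by
    rw [e1, e2]
    exact degenE_congr (mul_comm r 1) _ _
  have hi1 : ((degenE 1 hb).comp (degenE r hrr')).toRingHom.IsIntegral := by
    rw [e1]
    exact isIntegral_degenE _ _
  have hi2 : ((degenE r hrr).comp (degenE 1 hβ)).toRingHom.IsIntegral := by
    rw [e2]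
    exact isIntegral_degenE _ _
  rw [← Fermat.Agent.Red.GFF.pullbackAlong_comp (degenE r hrr') (degenE 1 hb)
      (isIntegral_degenE r hrr') (isIntegral_degenE 1 hb) hi1,
    ← Fermat.Agent.Red.GFF.pullbackAlong_comp (degenE 1 hβ) (degenE r hrr)
      (isIntegral_degenE 1 hβ) (isIntegral_degenE r hrr) hi2,
    hkc_pullbackAlong_congr e12 hi1 hi2]

/-! ## the pull-back on `J₀` -/

section Class

variable {N M : ℕ} [NeZero N] [NeZero M] (h : N ∣ M)

/-- `π^* ∘ T_r = T_r ∘ π^*` on divisors, for a prime `r ∤ M`. -/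
theorem h86q_pull_heckeDivBar (r : ℕ) [NeZero r] (hr : r.Prime) (hrM : ¬ r ∣ M)
    (D : Divisor Kbar (FF N)) :
    Divisor.pullbackAlong (degen h) (Fermat.Agent.Red.CH0.isIntegral_degen h)
        (heckeDivBar (heckeAlphaBarIntegral N r) (heckeBetaBarIntegral N r) D)
      = heckeDivBar (heckeAlphaBarIntegral M r) (heckeBetaBarIntegral M r)
          (Divisor.pullbackAlong (degen h) (Fermat.Agent.Red.CH0.isIntegral_degen h) D) := by
  have hα : N * 1 ∣ M := by
    rw [mul_one]
    exact h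
  have h1 : M * 1 ∣ M * r := by
    rw [mul_one]
    exact dvd_mul_right _ _
  have h1' : N * 1 ∣ N * r := by
    rw [mul_one]
    exact dvd_mul_right _ _
  rw [heckeDivBar_eq_corrE M r, heckeDivBar_eq_corrE N r,
    hkc_pullbackAlong_congr (h86p_degen_eq h hα) (Fermat.Agent.Red.CH0.isIntegral_degen h)
      (isIntegral_degenE 1 hα)]
  exact h86q_pull_corr hr hrM hα h1 (dvd_refl _) h1' (dvd_refl _) D

/-- **pull–Hecke.**  `π^* : J₀(N) → J₀(M)` commutes with the Hecke operators `T_r`, `r ∤ M`. -/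
theorem h86q_pull_hecke (r : Nat.Primes) (hr : ¬ (r : ℕ) ∣ M) (x : JZero N) :
    Fermat.Agent.P5.h69vPull h (heckeOperatorBar N r x)
      = heckeOperatorBar M r (Fermat.Agent.P5.h69vPull h x) := by
  haveI : NeZero (r : ℕ) := ⟨r.2.ne_zero⟩
  obtain ⟨D, rfl⟩ := Pic0.mk_surjective x
  rw [heckeOperatorBar_mk N r D, Fermat.Agent.P5.h69vPull_mk, Fermat.Agent.P5.h69vPull_mk,
    heckeOperatorBar_mk M r]
  congr 1
  apply Subtype.ext
  exact h86q_pull_heckeDivBar h r r.2 hr D

/-- **pull–Hecke, polynomial form.**  `π^*` commutes with every polynomial in the `T_r`,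
`r ∤ M`. -/
theorem h86q_pull_smul (P : MvPolynomial Nat.Primes ℤ)
    (hP : P ∈ MvPolynomial.supported ℤ {ℓ : Nat.Primes | ¬ (ℓ : ℕ) ∣ M}) (x : JZero N) :
    Fermat.Agent.P5.h69vPull h (letI := heckeModuleBar N; P • x)
      = (letI := heckeModuleBar M; P • Fermat.Agent.P5.h69vPull h x) := by
  letI iM := heckeModuleBar M
  letI iN := heckeModuleBar N
  have hcM : HeckeOperatorsCommuteBar M := Fermat.Agent.Red.HKComm.heckeOperatorsCommuteBar M
  have hcN : HeckeOperatorsCommuteBar N := Fermat.Agent.Red.HKComm.heckeOperatorsCommuteBar N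
  show Fermat.Agent.P5.h69vPull h (P • x) = P • Fermat.Agent.P5.h69vPull h x
  rw [MvPolynomial.supported_eq_adjoin_X] at hP
  induction hP using Algebra.adjoin_induction generalizing x with
  | mem Q hQ =>
    obtain ⟨ℓ, hℓ, rfl⟩ := hQ
    have e1 : (MvPolynomial.X ℓ : MvPolynomial Nat.Primes ℤ) • x = heckeOperatorBar N ℓ x :=
      heckeModuleBar_heckeGen_smul hcN ℓ x
    have e2 : (MvPolynomial.X ℓ : MvPolynomial Nat.Primes ℤ) • Fermat.Agent.P5.h69vPull h x
        = heckeOperatorBar M ℓ (Fermat.Agent.P5.h69vPull h x) :=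
      heckeModuleBar_heckeGen_smul hcM ℓ (Fermat.Agent.P5.h69vPull h x)
    rw [e1, e2]
    exact h86q_pull_hecke h ℓ hℓ x
  | algebraMap r =>
    have e1 : (algebraMap ℤ (MvPolynomial Nat.Primes ℤ) r) • x = r • x :=
      heckeModuleBar_C_smul r x
    have e2 : (algebraMap ℤ (MvPolynomial Nat.Primes ℤ) r) • Fermat.Agent.P5.h69vPull h x
        = r • Fermat.Agent.P5.h69vPull h x :=
      heckeModuleBar_C_smul r (Fermat.Agent.P5.h69vPull h x)
    rw [e1, e2, map_zsmul]
  | add Q R _ _ hQ hR =>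
    rw [add_smul, add_smul, map_add, hQ, hR]
  | mul Q R _ _ hQ hR =>
    rw [mul_smul, mul_smul, hQ, hR]

end Class

end Fermat.Agent.P7
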