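import Fermat.Agent.P7.H87ResDegAbs
import Fermat.Agent.P5.H26GenusFinal
import Fermat.Agent.P5.H40RRInst
import Fermat.Agent.P5.H40SFField
import Fermat.Agent.P5.H81LinkDer
import Fermat.Agent.Red.CH0
import Fermat.Agent.Red.GV.SoftGal

/-!
# Wave 7 (S44), level descent of DLOG: FULL RESIDUE DEGREE at the level (helper87, `h87r_`)

`ℓ ∤ M`, `N` a good level above `M` (`M ∣ N`, `ℓ ∤ N`, `auxLevel ℓ ∣ N`; e.g. `goodLevel ℓ M`),
`A` a valuation subring of `ℚ̄` over `ℓ`.  The Gauss valuation ring `softRing A N` of `FF N` has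
FULL RESIDUE DEGREE over the Gauss valuation ring `softRing A M` of `FF M`
(`h87r_resdeg`), in the vocabulary of `P7/H87ValNorm` (`H87vInd`).  Consequences at the
level: norms and traces of Gauss-integral functions are Gauss-integral, and the reduction of a
norm (`h87r_norm_red`).
-/

set_option autoImplicit false
set_option linter.unusedSectionVars false
set_option linter.style.haveILetI false
set_option linter.unusedVariables false
set_option synthInstance.maxHeartbeats 400000

open AlgebraicCurve ModularCurve IntermediateField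

noncomputable section

namespace Fermat.Agent.P7

open Fermat.Agent.S37 Fermat.Agent.Red.GV Fermat.Agent.Red.GV.Soft Fermat.Agent.Red
  Fermat.Agent.P5

variable {ℓ : ℕ}

/-- **the degree of `j` does not drop on the special fibre of a good level** (RED-DIV for the
Gauss unit `1/j`; `SameRed` preserves non-finiteness, so there is no cancellation in the fibres
of the reduction map). -/
theorem h87r_deg_le (hℓ : ℓ.Prime) (N : ℕ) [NeZero N] (hN : ¬ ℓ ∣ N) (haux : auxLevel ℓ ∣ N)
    (A : ValuationSubring Kbar) (hA : A.LiesOverPrime ℓ) :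
    Module.finrank (IntermediateField.adjoin Kbar {jB N}) (FF N) ≤
      Module.finrank (IntermediateField.adjoin (h13sK A) {h26sJ A N}) (h13sFt A N) := by
  classical
  obtain ⟨r, hsurj, hsame, hdiv⟩ := h88r_redDiv ℓ hℓ N hN haux A hA
  obtain ⟨htr, hfin, hZ⟩ := h26s_zerosSF ℓ hℓ N hN haux A hA
  have hj0 : jB N ≠ 0 := fun h =>
    GG.GGC97_transcendental_jB N (by rw [h]; exact isAlgebraic_zero)
  obtain ⟨s, hs, hsum⟩ := h40r_zeros_FF N (jB N)⁻¹ (Or.inr rfl)
  obtain ⟨sb, hsb, hsumb⟩ := hZ (h26sJ A N)⁻¹ (Or.inr rfl)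
  obtain ⟨D, hD, -⟩ := (h40r_base_FF N).pd (jB N)⁻¹ (inv_ne_zero hj0)
  have hf : (jB N)⁻¹ ∈ gaussV A N :=
    h40f_hVinf A N hℓ hN hA (ModelO.h85_self_mem_modelAt N A (jB N)⁻¹)
  have hfi : ((jB N)⁻¹)⁻¹ ∈ gaussV A N := by
    rw [inv_inv]
    exact jB_mem_gaussV A N
  have hred : h13sRed A N ⟨(jB N)⁻¹, hf⟩ = (h26sJ A N)⁻¹ := h40fX_inf A N hℓ hN hA
  have key := hdiv (jB N)⁻¹ hf hfi D hD
  -- no cancellation
  have hnoneg : ∀ v ∈ s, ∀ w : Place Kbar (FF N), r w = r v → 0 ≤ w.ord (jB N)⁻¹ := by
    intro v hv w hwv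
    have hvpos : 0 < v.ord (jB N)⁻¹ := (hs v).1 hv
    have hnv : ¬ IsFinAt A v := by
      rintro ⟨a, -, ha⟩
      have := h81n_ord_nonneg_of_valueAt ha
      rw [Place.ord_inv] at hvpos
      omega
    have hnw : ¬ IsFinAt A w := by
      rcases (hsame w v).1 hwv with h | h
      · exact absurd h.2.1 hnv
      · exact h.1
    by_contra hlt
    rw [not_le, Place.ord_inv] at hlt
    have hpos : 0 < w.ord (jB N) := by omega
    exact hnw ⟨0, A.zero_mem, h81n_valueAt_zero_of_ord_pos hj0 hpos⟩
  have hpush : ∀ Q, Q.ord (h26sJ A N)⁻¹ = ∑ w ∈ D.support, if r w = Q then D w else 0 := by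
    intro Q
    rw [← hred, ← key Q]
    simp only [h13sPush, Finsupp.mapDomain, Finsupp.sum, Finsupp.coe_finsetSum,
      Finset.sum_apply, Finsupp.single_apply]
  have hsD : s ⊆ D.support := by
    intro v hv
    rw [Finsupp.mem_support_iff, hD]
    exact ((hs v).1 hv).ne'
  have hQle : ∀ Q ∈ s.image r,
      (∑ w ∈ s, if r w = Q then D w else 0) ≤ Q.ord (h26sJ A N)⁻¹ := by
    intro Q hQ
    obtain ⟨v, hv, rfl⟩ := Finset.mem_image.1 hQ
    rw [hpush]
    refine Finset.sum_le_sum_of_subset_of_nonneg hsD (fun w _ _ => ?_)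
    split_ifs with hw
    · rw [hD]
      exact hnoneg v hv w hw
    · exact le_refl _
  have hsub : s.image r ⊆ sb := by
    intro Q hQ
    obtain ⟨v, hv, rfl⟩ := Finset.mem_image.1 hQ
    rw [hsb]
    refine lt_of_lt_of_le ?_ (hQle _ (Finset.mem_image_of_mem r hv))
    have h1 : (0 : ℤ) < D v := by
      rw [hD]
      exact (hs v).1 hv
    refine lt_of_lt_of_le h1 ?_
    have h2 : D v = if r v = r v then D v else 0 := by simp
    rw [h2]
    refine Finset.single_le_sum (f := fun w => if r w = r v then D w else 0)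
      (fun w hw => ?_) hv
    show (0 : ℤ) ≤ if r w = r v then D w else 0
    split_ifs with hw'
    · rw [hD]
      exact hnoneg v hv w hw'
    · exact le_refl _
  have h3 : (∑ v ∈ s, v.ord (jB N)⁻¹) ≤ ∑ Q ∈ sb, Q.ord (h26sJ A N)⁻¹ := by
    calc (∑ v ∈ s, v.ord (jB N)⁻¹) = ∑ v ∈ s, D v :=
          Finset.sum_congr rfl (fun v _ => (hD v).symm)
      _ = ∑ Q ∈ s.image r, ∑ w ∈ s, if r w = Q then D w else 0 := by
          rw [Finset.sum_comm]
          refine Finset.sum_congr rfl (fun w hw => ?_)
          rw [Finset.sum_ite_eq]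
          simp [Finset.mem_image_of_mem r hw]
      _ ≤ ∑ Q ∈ s.image r, Q.ord (h26sJ A N)⁻¹ := Finset.sum_le_sum hQle
      _ ≤ ∑ Q ∈ sb, Q.ord (h26sJ A N)⁻¹ :=
          Finset.sum_le_sum_of_subset_of_nonneg hsub
            (fun Q hQ _ => le_of_lt ((hsb Q).1 hQ))
  rw [hsum, hsumb] at h3
  exact_mod_cast h3

/-! ### Reduction of polynomials in `j` -/

section RedPoly

variable (A : ValuationSubring Kbar) (N : ℕ) [NeZero N]

/-- the reduction of a polynomial with coefficients in `A`. -/
def h87rBar (P : Polynomial Kbar) (hP : ∀ m, P.coeff m ∈ A) : Polynomial (h13sK A) :=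
  ∑ m ∈ Finset.range (P.natDegree + 1), Polynomial.monomial m (h13sPi A ⟨P.coeff m, hP m⟩)

theorem h87rBar_coeff (P : Polynomial Kbar) (hP : ∀ m, P.coeff m ∈ A) (m : ℕ) :
    (h87rBar A P hP).coeff m = h13sPi A ⟨P.coeff m, hP m⟩ := by
  classical
  unfold h87rBar
  rw [Polynomial.finsetSum_coeff]
  simp only [Polynomial.coeff_monomial]
  rw [Finset.sum_ite_eq' (Finset.range (P.natDegree + 1)) m]
  split_ifs with h
  · rfl
  · have h1 : P.coeff m = 0 := by
      apply Polynomial.coeff_eq_zero_of_natDegree_lt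
      rw [Finset.mem_range] at h
      omega
    have h2 : (⟨P.coeff m, hP m⟩ : A) = 0 := Subtype.ext h1
    rw [h2, map_zero]

/-- the reduction commutes with the evaluation at `j`. -/
theorem h87r_red_aeval (P : Polynomial Kbar) (hP : ∀ m, P.coeff m ∈ A) :
    ∃ h : Polynomial.aeval (jB N) P ∈ gaussV A N,
      h40fRed A N ⟨_, h⟩ = Polynomial.aeval (h26sJ A N) (h87rBar A P hP) := by
  set g : gaussV A N := ∑ m ∈ Finset.range (P.natDegree + 1),
    h40fCst A N ⟨P.coeff m, hP m⟩ * (⟨jB N, jB_mem_gaussV A N⟩ : gaussV A N) ^ m with hg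
  have hval : (g : FF N) = Polynomial.aeval (jB N) P := by
    rw [Polynomial.aeval_eq_sum_range, hg]
    push_cast
    refine Finset.sum_congr rfl (fun m _ => ?_)
    rw [Algebra.smul_def]
    rfl
  have hmem : Polynomial.aeval (jB N) P ∈ gaussV A N := by
    rw [← hval]
    exact g.2
  refine ⟨hmem, ?_⟩
  have e : (⟨_, hmem⟩ : gaussV A N) = g := Subtype.ext hval.symm
  rw [e, hg, map_sum]
  unfold h87rBar
  rw [map_sum]
  refine Finset.sum_congr rfl (fun m _ => ?_)
  rw [map_mul, map_pow, h40fRed_cst, Polynomial.aeval_monomial]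
  rfl

end RedPoly

/-- **the polynomial independence at a good level**: there are `n ≥ [FF N : ℚ̄(j)]`
Gauss-integral functions whose reductions are independent over `k[j̄]`. -/
theorem h87r_polyInd (hℓ : ℓ.Prime) (N : ℕ) [NeZero N] (hN : ¬ ℓ ∣ N) (haux : auxLevel ℓ ∣ N)
    (A : ValuationSubring Kbar) (hA : A.LiesOverPrime ℓ) :
    ∃ (n : ℕ) (c : Fin n → FF N),
      Module.finrank (IntermediateField.adjoin Kbar {jB N}) (FF N) ≤ n ∧
      H87rPolyInd A (softRing A N hℓ hA) (jB N) c := by
  classical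
  obtain ⟨htr, hfin, hZ⟩ := h26s_zerosSF ℓ hℓ N hN haux A hA
  haveI := hfin
  set β := Module.finBasis (IntermediateField.adjoin (h13sK A) {h26sJ A N}) (h13sFt A N)
    with hβ
  choose x hx using fun i => h40f_red_surjective A N hℓ hN hA (β i)
  have hsg : softV A N = gaussV A N := softV_eq_gaussV A N hℓ hN hA
  refine ⟨_, fun i => (x i : FF N), h87r_deg_le hℓ N hN haux A hA, ?_, ?_⟩
  · intro i
    rw [mem_softRing_iff, hsg]
    exact (x i).2
  · intro P hP hsum i m
    -- the reductions
    choose hmem hred using fun i => h87r_red_aeval A N (P i) (hP i)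
    set g : gaussV A N := ∑ i, (⟨_, hmem i⟩ : gaussV A N) * x i with hg
    have hgval : (g : FF N) = ∑ i, Polynomial.aeval (jB N) (P i) * (x i : FF N) := by
      rw [hg]
      push_cast
      rfl
    have hg0 : h40fRed A N g = 0 := by
      rw [h40fRed_eq_zero_iff A N hℓ hN hA]
      rw [← hgval] at hsum
      by_cases h0 : (g : FF N) = 0
      · exact Or.inl h0
      · right
        intro hinv
        have h1 : (g : FF N)⁻¹ ∈ softRing A N hℓ hA := by
          rw [mem_softRing_iff, hsg]
          exact hinv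
        have h2 := h87r_nu_mul _ hsum h1
        rw [mul_inv_cancel₀ h0, ValuationSubring.mem_nonunits_iff, map_one] at h2
        exact lt_irrefl _ h2
    rw [hg, map_sum] at hg0
    have hlin : ∑ i, (⟨Polynomial.aeval (h26sJ A N) (h87rBar A (P i) (hP i)),
        IntermediateField.algebra_adjoin_le_adjoin _ _
          (Polynomial.aeval_mem_adjoin_singleton _ _)⟩ :
          IntermediateField.adjoin (h13sK A) {h26sJ A N}) • β i = 0 := by
      rw [← hg0]
      refine Finset.sum_congr rfl (fun i _ => ?_)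
      rw [map_mul, hred i, h40fRed_apply, hx i]
      rfl
    have hcoef := Fintype.linearIndependent_iff.1 β.linearIndependent _ hlin i
    have hzero : Polynomial.aeval (h26sJ A N) (h87rBar A (P i) (hP i)) = 0 :=
      congrArg Subtype.val hcoef
    have hPbar : h87rBar A (P i) (hP i) = 0 := (transcendental_iff.1 htr) _ hzero
    have hc := h87rBar_coeff A (P i) (hP i) m
    rw [hPbar, Polynomial.coeff_zero] at hc
    have hc' : IsLocalRing.residue A ⟨(P i).coeff m, hP i m⟩ = 0 := hc.symm
    rw [IsLocalRing.residue_eq_zero_iff, ValuationSubring.valuation_lt_one_iff,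
      ← ValuationSubring.mem_nonunits_iff] at hc'
    exact hc'

/-! ### The tower `ℚ̄(j) ⊆ FF M ⊆ FF N` -/

section TowerLevel

variable {M N : ℕ} [NeZero M] [NeZero N] (h : M ∣ N)

/-- every element of `ℚ̄(j) ⊆ FF N` comes from `ℚ̄(j) ⊆ FF M`. -/
theorem h87r_exists_preimage (y : FF N) (hy : y ∈ IntermediateField.adjoin Kbar {jB N}) :
    ∃ a : IntermediateField.adjoin Kbar {jB M}, degen h (a : FF M) = y := by
  obtain ⟨r, s, hrs⟩ := (IntermediateField.mem_adjoin_simple_iff Kbar y).1 hy
  refine ⟨⟨Polynomial.aeval (jB M) r / Polynomial.aeval (jB M) s,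
    (IntermediateField.mem_adjoin_simple_iff Kbar _).2 ⟨r, s, rfl⟩⟩, ?_⟩
  show degen h (Polynomial.aeval (jB M) r / Polynomial.aeval (jB M) s) = y
  rw [map_div₀, ← Polynomial.aeval_algHom_apply, ← Polynomial.aeval_algHom_apply,
    CH0.degen_jBar h, hrs]

/-- the elements of `ℚ̄(j) ⊆ FF M` are quotients of polynomials in `j`, in `FF N`. -/
theorem h87r_frac (a : IntermediateField.adjoin Kbar {jB M}) :
    ∃ r s : Polynomial Kbar, Polynomial.aeval (jB N) s ≠ 0 ∧
      degen h (a : FF M) * Polynomial.aeval (jB N) s = Polynomial.aeval (jB N) r := by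
  obtain ⟨r, s, hrs⟩ := (IntermediateField.mem_adjoin_simple_iff Kbar (a : FF M)).1 a.2
  by_cases hs : Polynomial.aeval (jB M) s = 0
  · refine ⟨0, 1, by simp, ?_⟩
    rw [hrs, hs, div_zero]
    simp
  · have hj : degen h (jB M) = jB N := CH0.degen_jBar h
    have hs' : Polynomial.aeval (jB N) s ≠ 0 := by
      rw [← hj, Polynomial.aeval_algHom_apply]
      exact fun h0 => hs ((map_eq_zero_iff _ (degen h).toRingHom.injective).1 h0)
    refine ⟨r, s, hs', ?_⟩
    rw [hrs, map_div₀, ← Polynomial.aeval_algHom_apply, ← Polynomial.aeval_algHom_apply,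
      hj, div_mul_cancel₀ _ hs']

end TowerLevel

set_option maxHeartbeats 1600000 in
/-- **FULL RESIDUE DEGREE at the level.**  `M ∣ N`, `N` a good level prime to `ℓ`: the Gauss
valuation ring of `FF N` has full residue degree over the Gauss valuation ring of `FF M`:
there are `[FF N : FF M]` Gauss-integral functions of level `N` whose reductions are linearly
independent over the residue field of level `M`. -/
theorem h87r_resdeg_of_good (hℓ : ℓ.Prime) {M N : ℕ} [NeZero M] [NeZero N] (h : M ∣ N)
    (hN : ¬ ℓ ∣ N) (haux : auxLevel ℓ ∣ N) (A : ValuationSubring Kbar)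
    (hA : A.LiesOverPrime ℓ) :
    letI := algebraAlong (degen h)
    ∃ b : Fin (Module.finrank (FF M) (FF N)) → FF N,
      H87vInd (softRing A M hℓ hA) (softRing A N hℓ hA) b := by
  classical
  letI := algebraAlong (degen h)
  haveI := isScalarTower_along (degen h)
  haveI : FiniteDimensional (IntermediateField.adjoin Kbar {jB M}) (FF M) := h40r_finite_FF M
  haveI : Module.Finite (FF M) (FF N) := CH0.finiteAlong_degen h
  haveI : FiniteDimensional (IntermediateField.adjoin Kbar {jB M}) (FF N) :=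
    Module.Finite.trans (FF M) (FF N)
  haveI : FiniteDimensional (IntermediateField.adjoin Kbar {jB N}) (FF N) := h40r_finite_FF N
  obtain ⟨n, c, hn, hc⟩ := h87r_polyInd hℓ N hN haux A hA
  have hmap : ∀ x : IntermediateField.adjoin Kbar {jB M},
      algebraMap (IntermediateField.adjoin Kbar {jB M}) (FF N) x = degen h (x : FF M) :=
    fun x => rfl
  set V := softRing A N hℓ hA with hV
  set U := softRing A M hℓ hA with hUdef
  set U0 : ValuationSubring (IntermediateField.adjoin Kbar {jB M}) :=
    V.comap (algebraMap (IntermediateField.adjoin Kbar {jB M}) (FF N)) with hU0def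
  have hU : ∀ x : FF M, x ∈ U ↔ algebraMap (FF M) (FF N) x ∈ V := fun x =>
    (degen_mem_softV_iff A h x).symm
  have hU0p : ∀ x : IntermediateField.adjoin Kbar {jB M},
      x ∈ U0 ↔ algebraMap (IntermediateField.adjoin Kbar {jB M}) (FF N) x ∈ V := fun x =>
    Iff.rfl
  have hU0 : ∀ x : IntermediateField.adjoin Kbar {jB M},
      x ∈ U0 ↔ algebraMap (IntermediateField.adjoin Kbar {jB M}) (FF M) x ∈ U := fun x => by
    rw [hU0p, hU, ← IsScalarTower.algebraMap_apply]
  have hAV : ∀ a : Kbar, a ∈ A ↔ algebraMap Kbar (FF N) a ∈ V := fun a =>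
    (cst_mem_softV_iff A N a).symm
  have hx : jB N ∈ V := by
    rw [hV, mem_softRing_iff, softV_eq_gaussV A N hℓ hN hA]
    exact jB_mem_gaussV A N
  have hfr : ∀ a : IntermediateField.adjoin Kbar {jB M}, ∃ r s : Polynomial Kbar,
      Polynomial.aeval (jB N) s ≠ 0 ∧
        algebraMap (IntermediateField.adjoin Kbar {jB M}) (FF N) a * Polynomial.aeval (jB N) s
          = Polynomial.aeval (jB N) r := by
    intro a
    obtain ⟨r, s, h1, h2⟩ := h87r_frac h a
    exact ⟨r, s, h1, by rw [hmap]; exact h2⟩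
  have hind : H87vInd U0 V c := h87r_ind_of_polyInd A U0 V hAV hU0p hx hfr hc
  -- comparison of the degrees over the two copies of `ℚ̄(j)`
  have hdeg : Module.finrank (IntermediateField.adjoin Kbar {jB M}) (FF N) ≤
      Module.finrank (IntermediateField.adjoin Kbar {jB N}) (FF N) := by
    set B := Module.finBasis (IntermediateField.adjoin Kbar {jB M}) (FF N) with hB
    have hli : LinearIndependent (IntermediateField.adjoin Kbar {jB N}) (fun i => B i) := by
      rw [Fintype.linearIndependent_iff]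
      intro g hg i
      choose g' hg' using fun i => h87r_exists_preimage h (g i : FF N) (g i).2
      have h0 : ∑ i, g' i • B i = 0 := by
        rw [← hg]
        refine Finset.sum_congr rfl (fun i _ => ?_)
        rw [Algebra.smul_def, Algebra.smul_def, hmap, hg' i]
        rfl
      have h1 := Fintype.linearIndependent_iff.1 B.linearIndependent g' h0 i
      apply Subtype.ext
      rw [← hg' i, h1]
      simp
    have := hli.fintype_card_le_finrank
    rwa [Fintype.card_fin] at this
  exact (h87r_full_tower U0 U V hU hU0 c hind (le_trans hdeg hn)).1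

/-- **FULL RESIDUE DEGREE**, for the good level `goodLevel ℓ M` above any `M` prime to `ℓ`. -/
theorem h87r_resdeg (hℓ : ℓ.Prime) (M : ℕ) [NeZero M] (hM : ¬ ℓ ∣ M)
    (A : ValuationSubring Kbar) (hA : A.LiesOverPrime ℓ) :
    letI := algebraAlong (degen (dvd_goodLevel ℓ M))
    ∃ b : Fin (Module.finrank (FF M) (FF (goodLevel ℓ M))) → FF (goodLevel ℓ M),
      H87vInd (softRing A M hℓ hA) (softRing A (goodLevel ℓ M) hℓ hA) b :=
  h87r_resdeg_of_good hℓ (dvd_goodLevel ℓ M) (not_dvd_goodLevel hℓ hM)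
    (auxLevel_dvd_goodLevel ℓ M) A hA

/-! ### Consequences at the level: norms and traces of Gauss-integral functions -/

section Consequences

variable (hℓ : ℓ.Prime) {M N : ℕ} [NeZero M] [NeZero N] (h : M ∣ N)
  (hN : ¬ ℓ ∣ N) (haux : auxLevel ℓ ∣ N) (A : ValuationSubring Kbar) (hA : A.LiesOverPrime ℓ)

include hℓ hN haux hA in
/-- the norm of a Gauss-integral function of a good level `N` is Gauss-integral at level
`M ∣ N`. -/
theorem h87r_norm_mem {y : FF N} (hy : y ∈ softV A N) :
    letI := algebraAlong (degen h)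
    Algebra.norm (FF M) y ∈ softV A M := by
  letI := algebraAlong (degen h)
  haveI : Module.Finite (FF M) (FF N) := CH0.finiteAlong_degen h
  obtain ⟨b, hb⟩ := h87r_resdeg_of_good hℓ h hN haux A hA
  exact h87v_norm_mem (softRing A M hℓ hA) (softRing A N hℓ hA)
    (fun x => (degen_mem_softV_iff A h x).symm) hb (Fintype.card_fin _) hy

include hℓ hN haux hA in
/-- the trace of a Gauss-integral function of a good level `N` is Gauss-integral at level
`M ∣ N`. -/
theorem h87r_trace_mem {y : FF N} (hy : y ∈ softV A N) :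
    letI := algebraAlong (degen h)
    Algebra.trace (FF M) (FF N) y ∈ softV A M := by
  letI := algebraAlong (degen h)
  haveI : Module.Finite (FF M) (FF N) := CH0.finiteAlong_degen h
  obtain ⟨b, hb⟩ := h87r_resdeg_of_good hℓ h hN haux A hA
  exact h87v_trace_mem (softRing A M hℓ hA) (softRing A N hℓ hA)
    (fun x => (degen_mem_softV_iff A h x).symm) hb (Fintype.card_fin _) hy

include hℓ hN haux hA in
/-- the norm of a Gauss unit of a good level `N` is a Gauss unit of level `M ∣ N`. -/
theorem h87r_norm_unit {y : FF N} (hy : y ∈ softV A N) (hy' : y⁻¹ ∈ softV A N) :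
    letI := algebraAlong (degen h)
    Algebra.norm (FF M) y ∈ softV A M ∧ (Algebra.norm (FF M) y)⁻¹ ∈ softV A M := by
  letI := algebraAlong (degen h)
  haveI : Module.Finite (FF M) (FF N) := CH0.finiteAlong_degen h
  obtain ⟨b, hb⟩ := h87r_resdeg_of_good hℓ h hN haux A hA
  exact h87v_norm_unit (softRing A M hℓ hA) (softRing A N hℓ hA)
    (fun x => (degen_mem_softV_iff A h x).symm) hb (Fintype.card_fin _) hy hy'

include hℓ hN haux hA in
/-- **the reduction of a norm**: if the Gauss-integral function `y` of the good level `N` has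
the same reduction as the Gauss-integral function `c` of level `M ∣ N`, then the norm of `y`
is Gauss-integral of level `M` and its reduction is `(red c) ^ [FF N : FF M]`. -/
theorem h87r_norm_red {y : FF N} (hy : y ∈ softV A N) {c : FF M} (hc : c ∈ softV A M)
    (hyc : softR A N ⟨y, hy⟩ = softR A M ⟨c, hc⟩) :
    letI := algebraAlong (degen h)
    ∃ hn : Algebra.norm (FF M) y ∈ softV A M,
      softR A M ⟨_, hn⟩ = softR A M ⟨c, hc⟩ ^ Module.finrank (FF M) (FF N) := by
  letI := algebraAlong (degen h)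
  haveI : Module.Finite (FF M) (FF N) := CH0.finiteAlong_degen h
  obtain ⟨b, hb⟩ := h87r_resdeg_of_good hℓ h hN haux A hA
  have hU : ∀ x : FF M, x ∈ softRing A M hℓ hA ↔
      algebraMap (FF M) (FF N) x ∈ softRing A N hℓ hA := fun x =>
    (degen_mem_softV_iff A h x).symm
  have hn : Algebra.norm (FF M) y ∈ softV A M :=
    h87v_norm_mem (softRing A M hℓ hA) (softRing A N hℓ hA) hU hb (Fintype.card_fin _) hy
  refine ⟨hn, ?_⟩
  have hdc : degen h c ∈ softV A N := (degen_mem_softV_iff A h c).2 hc
  have hsub : y - algebraMap (FF M) (FF N) c ∈ (softRing A N hℓ hA).nonunits := by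
    have h0 : softR A N (⟨y, hy⟩ - ⟨degen h c, hdc⟩) = 0 := by
      rw [map_sub, softR_degen A h ⟨c, hc⟩ hdc, hyc, sub_self]
    exact (softR_eq_zero_iff_mem_nonunits A N hℓ hA _).1 h0
  have hcong := h87v_norm_congr (softRing A M hℓ hA) (softRing A N hℓ hA) hU hb
    (Fintype.card_fin _) hy (c := c) hc hsub
  have hpow : c ^ Module.finrank (FF M) (FF N) ∈ softV A M := pow_mem hc _
  have h1 : softR A M (⟨_, hn⟩ - ⟨_, hpow⟩) = 0 :=
    (softR_eq_zero_iff_mem_nonunits A M hℓ hA _).2 hcong
  rw [map_sub, sub_eq_zero] at h1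
  rw [h1]
  have e : (⟨_, hpow⟩ : softV A M) = ⟨c, hc⟩ ^ Module.finrank (FF M) (FF N) := rfl
  rw [e, map_pow]

end Consequences

end Fermat.Agent.P7
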