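import Fermat.Agent.Red.GFF
import Fermat.Agent.S24.DiffPlace

/-!
# Wave 7, block (A), DLOG at a non-good level: the EXACT FUNCTION, abstract core (helper88)

Step (S2) of the level design (finding 1461).  `F' / F` a finite extension of function fields
over an algebraically closed field `K` of characteristic zero (`F = FF M`,
`F' = FF (goodLevel p M)`), `κ / k` the function field of the special fibre of `F'`,
`r : Place K F' → Place k κ` the reduction map of places, `Red f f̄` the relation "`f` is a Gauss
unit with reduction `f̄`", `Fin` the predicate "`j` is integral at the place".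

`H88eRed` packages what is used: RED-DIV (exact shape of the third clause of `P5.H13sIsRed`) and
the fact that `Fin` is constant on the fibres of `r` and on the fibres over `F`.

* `h88e_noZero` (Lemma Z): if `G` is regular off `v∞`, has a pole of order `m` at `v∞`, its
  reduction has a pole of order exactly `m` at `r v∞` and no zero at the other cuspidal points,
  then `G` has no zero at a non-finite place.
* `h88e_exact_abs` : for `c h = N_{F'/F} G` a Gauss unit with reduction `h̄`: `h` is regular off
  `∞ = v∞|_F`, `ord_∞ h = -m`, `ord_{r v∞} h̄ ≤ -m`, and `h̄` has a pole at `r c'` for every place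
  `c'` of `F'` over `∞`.
-/

set_option autoImplicit false
set_option linter.unusedSectionVars false
set_option linter.style.haveILetI false

open AlgebraicCurve IntermediateField

noncomputable section

namespace Fermat.Agent.P7

section Abstract

variable {K F F' : Type*} [Field K] [Field F] [Field F'] [Algebra K F] [Algebra K F']
  [Algebra F F'] [IsScalarTower K F F'] [Algebra.IsIntegral F F']
variable {k κ : Type*} [Field k] [Field κ] [Algebra k κ]

/-- the reduction datum used by the exact-function argument. -/
structure H88eRed (r : Place K F' → Place k κ) (Red : F' → κ → Prop)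
    (Fin : Place K F' → Prop) : Prop where
  /-- RED-DIV for Gauss units. -/
  redDiv : ∀ (f : F') (fb : κ), Red f fb → ∀ D : Divisor K F', (∀ v : Place K F', D v = v.ord f) →
    ∀ Q : Place k κ, Finsupp.mapDomain r D Q = Q.ord fb
  /-- finiteness is constant on the fibres of the reduction map. -/
  finR : ∀ v v' : Place K F', r v = r v' → (Fin v ↔ Fin v')
  /-- finiteness only depends on the restriction to `F`. -/
  finF : ∀ v v' : Place K F', v.restrict F = v'.restrict F → (Fin v ↔ Fin v')

open scoped Classical in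
/-- the value of a push-forward at a point, as a sum over the support. -/
theorem h88e_push_apply (r : Place K F' → Place k κ) (D : Divisor K F') (Q : Place k κ) :
    Finsupp.mapDomain r D Q = ∑ v ∈ D.support.filter (fun v => r v = Q), D v := by
  classical
  rw [Finsupp.mapDomain, Finsupp.sum, Finsupp.finsetSum_apply, Finset.sum_filter]
  refine Finset.sum_congr rfl fun v _ => ?_
  rw [Finsupp.single_apply]

open scoped Classical in
/-- a sum of nonnegative integers over a finset dominates each term. -/
theorem h88e_le_sum {ι : Type*} (S : Finset ι) (f : ι → ℤ) (hf : ∀ i ∈ S, 0 ≤ f i)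
    {i : ι} (hi : i ∈ S) : f i ≤ ∑ j ∈ S, f j :=
  Finset.single_le_sum hf hi

open scoped Classical in
/-- a sum of nonpositive integers over a finset is dominated by each term. -/
theorem h88e_sum_le {ι : Type*} (S : Finset ι) (f : ι → ℤ) (hf : ∀ i ∈ S, f i ≤ 0)
    {i : ι} (hi : i ∈ S) : ∑ j ∈ S, f j ≤ f i := by
  have h := h88e_le_sum S (fun j => -f j) (fun j hj => by have := hf j hj; omega) hi
  rw [Finset.sum_neg_distrib] at h
  omega

open scoped Classical in
/-- **Lemma Z.**  `G` has no zero at a non-finite place. -/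
theorem h88e_noZero {r : Place K F' → Place k κ} {Red : F' → κ → Prop}
    {Fin : Place K F' → Prop} (hR : H88eRed (F := F) r Red Fin)
    (voo : Place K F') (G : F') (Gb : κ) (hG : Red G Gb)
    (D : Divisor K F') (hD : ∀ v : Place K F', D v = v.ord G) (m : ℤ)
    (hGreg : ∀ v : Place K F', v ≠ voo → 0 ≤ v.ord G) (hGoo : voo.ord G = -m)
    (hGboo : (r voo).ord Gb = -m)
    (hGbT : ∀ v : Place K F', ¬ Fin v → r v ≠ r voo → (r v).ord Gb = 0)
    (v : Place K F') (hv : ¬ Fin v) (hvoo : v ≠ voo) : v.ord G = 0 := by
  by_contra hne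
  have hpos : 0 < D v := by
    have := hGreg v hvoo
    rw [hD]
    omega
  have hsupp : v ∈ D.support := Finsupp.mem_support_iff.mpr (by omega)
  have hsum := hR.redDiv G Gb hG D hD (r v)
  rw [h88e_push_apply] at hsum
  set S := D.support.filter (fun v' => r v' = r v) with hS
  have hvS : v ∈ S := Finset.mem_filter.mpr ⟨hsupp, rfl⟩
  by_cases hQ : r v = r voo
  · -- the cuspidal point of `v∞`
    have hT : ∀ v' ∈ S.erase voo, 0 ≤ D v' := fun v' hv' => by
      rw [hD]
      exact hGreg v' (Finset.ne_of_mem_erase hv')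
    have hvT : v ∈ S.erase voo := Finset.mem_erase.mpr ⟨hvoo, hvS⟩
    have h1 : D v ≤ ∑ v' ∈ S.erase voo, D v' := h88e_le_sum _ _ hT hvT
    have h2 : ∑ v' ∈ S, D v' = ∑ v' ∈ S.erase voo, D v' + D voo := by
      by_cases hmem : voo ∈ S
      · rw [← Finset.add_sum_erase S D hmem]
        ring
      · rw [Finset.erase_eq_of_notMem hmem]
        have h0 : D voo = 0 := by
          by_contra h0
          exact hmem (Finset.mem_filter.mpr ⟨Finsupp.mem_support_iff.mpr h0, hQ.symm⟩)
        rw [h0, add_zero]
    rw [h2, hQ, hGboo, hD voo, hGoo] at hsum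
    omega
  · have hT : ∀ v' ∈ S, 0 ≤ D v' := fun v' hv' => by
      rw [hD]
      refine hGreg v' fun h0 => hQ ?_
      rw [← (Finset.mem_filter.mp hv').2, h0]
    have h1 : D v ≤ ∑ v' ∈ S, D v' := h88e_le_sum _ _ hT hvS
    rw [hsum, hGbT v hv hQ] at h1
    omega

variable [IsAlgClosed K] [CharZero K] [FiniteDimensional F F'] [HasPrincipalDivisors K F']

open scoped Classical in
/-- **(S2) EXACT FUNCTION, abstract core.** -/
theorem h88e_exact_abs (x : F') [FiniteDimensional K⟮x⟯ F']
    {r : Place K F' → Place k κ} {Red : F' → κ → Prop}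
    {Fin : Place K F' → Prop} (hR : H88eRed (F := F) r Red Fin)
    (voo : Place K F') (hoo : ¬ Fin voo)
    (G : F') (Gb : κ) (hG : Red G Gb) (m : ℕ) (hm : 0 < m)
    (hGreg : ∀ v : Place K F', v ≠ voo → 0 ≤ v.ord G) (hGoo : voo.ord G = -(m : ℤ))
    (hGboo : (r voo).ord Gb = -(m : ℤ))
    (hGbT : ∀ v : Place K F', ¬ Fin v → r v ≠ r voo → (r v).ord Gb = 0)
    (h : F) (c : K) (hc : c ≠ 0) (hh : algebraMap K F c * h = Algebra.norm F G)
    (hb : κ) (hhb : Red (algebraMap F F' h) hb) :
    (∀ w : Place K F, w ≠ voo.restrict F → 0 ≤ w.ord h) ∧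
      (voo.restrict F).ord h = -(m : ℤ) ∧
      (∀ v : Place K F', 0 < v.ord (algebraMap F F' h) → Fin v) ∧
      ∀ c' : Place K F', c'.restrict F = voo.restrict F → (r c').ord hb ≤ -(m : ℤ) := by
  have hG0 : G ≠ 0 := by
    rintro rfl
    rw [Place.ord_zero] at hGoo
    omega
  have hN0 : Algebra.norm F G ≠ 0 := Algebra.norm_ne_zero_iff.mpr hG0
  have hh0 : h ≠ 0 := by
    rintro rfl
    rw [mul_zero] at hh
    exact hN0 hh.symm
  have hc0 : algebraMap K F c ≠ 0 := fun h0 => hc ((map_eq_zero _).mp h0)
  have hh'0 : algebraMap F F' h ≠ 0 := fun h0 => hh0 ((map_eq_zero _).mp h0)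
  obtain ⟨D, hD, -⟩ := HasPrincipalDivisors.exists_divisor (K := K) G hG0
  obtain ⟨D', hD', -⟩ := HasPrincipalDivisors.exists_divisor (K := K) (algebraMap F F' h) hh'0
  have hZ := h88e_noZero hR voo G Gb hG D hD (m : ℤ) hGreg hGoo hGboo hGbT
  -- orders of `h` through the norm formula
  have hord : ∀ w : Place K F, w.ord h = ∑ v ∈ w.fiber F', v.ord G := by
    intro w
    rw [Fermat.Agent.Red.GFF.sum_fiber_ord_eq_ord_norm (F := F) x w G hG0, ← hh,
      w.ord_mul hc0 hh0, Fermat.Agent.S24.DiffPlace.ord_algebraMap, zero_add]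
  have hC1 : ∀ w : Place K F, w ≠ voo.restrict F → 0 ≤ w.ord h := by
    intro w hw
    rw [hord]
    refine Finset.sum_nonneg fun v hv => hGreg v fun h0 => hw ?_
    rw [← Place.mem_fiber.mp hv, h0]
  have hC2 : (voo.restrict F).ord h = -(m : ℤ) := by
    rw [hord, Finset.sum_eq_single voo, hGoo]
    · intro v hv hne
      exact hZ v ((hR.finF v voo (Place.mem_fiber.mp hv)).not.mpr hoo) hne
    · intro h0
      exact absurd (Place.restrict_mem_fiber voo) h0
  have hC3 : ∀ v : Place K F', 0 < v.ord (algebraMap F F' h) → Fin v := by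
    intro v hv
    by_contra hnf
    rw [v.ord_restrict h] at hv
    have hw : 0 < (v.restrict F).ord h := by
      have he : 0 < (Place.ramificationIndex (F := F) v : ℤ) := by
        exact_mod_cast v.ramificationIndex_pos (F := F)
      by_contra hle
      rw [not_lt] at hle
      have := mul_nonpos_of_nonneg_of_nonpos he.le hle
      omega
    have hne : v.restrict F ≠ voo.restrict F := by
      intro h0
      rw [h0, hC2] at hw
      omega
    rw [hord] at hw
    obtain ⟨v', hv', hpos⟩ : ∃ v' ∈ (v.restrict F).fiber F', 0 < v'.ord G := by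
      by_contra hno
      have hno' : ∀ v' ∈ (v.restrict F).fiber F', v'.ord G ≤ 0 := fun v' hv' => by
        by_contra hlt
        exact hno ⟨v', hv', not_le.mp hlt⟩
      have := Finset.sum_nonpos hno'
      omega
    have hv'r : v'.restrict F = v.restrict F := Place.mem_fiber.mp hv'
    have h1 := hZ v' ((hR.finF v' v hv'r).not.mpr hnf) (fun h0 => hne (by rw [← hv'r, h0]))
    omega
  refine ⟨hC1, hC2, hC3, fun c' hc' => ?_⟩
  have hcf : ¬ Fin c' := (hR.finF c' voo hc').not.mpr hoo
  have hsum := hR.redDiv (algebraMap F F' h) hb hhb D' hD' (r c')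
  rw [h88e_push_apply] at hsum
  set S := D'.support.filter (fun v' => r v' = r c') with hS
  have hval : D' c' ≤ -(m : ℤ) := by
    rw [hD', c'.ord_restrict h, hc', hC2]
    have he : 1 ≤ (Place.ramificationIndex (F := F) c' : ℤ) := by
      exact_mod_cast c'.ramificationIndex_pos (F := F)
    have hm' : (0 : ℤ) < m := by exact_mod_cast hm
    nlinarith
  have hcS : c' ∈ S := by
    refine Finset.mem_filter.mpr ⟨Finsupp.mem_support_iff.mpr ?_, rfl⟩
    have hm' : (0 : ℤ) < m := by exact_mod_cast hm
    omega
  have hT : ∀ v' ∈ S, D' v' ≤ 0 := by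
    intro v' hv'
    by_contra hpos
    rw [not_le, hD'] at hpos
    exact ((hR.finR v' c' (Finset.mem_filter.mp hv').2).not.mpr hcf) (hC3 v' hpos)
  have h1 := h88e_sum_le S D' hT hcS
  rw [← hsum]
  omega

end Abstract

end Fermat.Agent.P7
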