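import Fermat.Agent.P7.H88Exact
import Fermat.Agent.P5.H13SFIface
import Fermat.Agent.Red.CH0
import Fermat.Agent.Red.GV.SoftGal

/-!
# Wave 7, block (A), DLOG at a non-good level: the EXACT FUNCTION at the level (helper88)

Level instance of `P7/H88Exact.lean` (step (S2) of finding 1461): `F = FF M`, `F' = FF N` with
`M ∣ N` (in the application `N = goodLevel ℓ M`), `r` a reduction map of places of level `N`
(`P5.H13sIsRed A N r`), `v∞` a non-finite place of `FF N`.

* `H88eLift A N r v∞` : the exact lift datum: a Gauss unit `G` of level `N`, regular off `v∞`,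
  with a pole of order `m ≥ 1` there, whose reduction has a pole of order exactly `m` at `r v∞`
  and no zero at the other cuspidal points.
* `h88e_exact_level` : from `H88eLift`: `h = c · N_{FF N / FF M} G` is a Gauss unit of level `M`
  (`degen h` is a Gauss unit of level `N`) such that
  - every pole of `degen h` lies over the same place of `FF M` as `v∞`, and conversely;
  - the reduction of `degen h` has a pole of order `≥ m` at `r c'` for EVERY place `c'` over it;
  - every zero of `degen h` is a finite place.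
-/

set_option autoImplicit false
set_option linter.unusedSectionVars false
set_option linter.style.haveILetI false

open AlgebraicCurve ModularCurve IntermediateField

noncomputable section

namespace Fermat.Agent.P7

open Fermat.Agent.S37 Fermat.Agent.Red.GV Fermat.Agent.Red.GV.Soft Fermat.Agent.P5
  Fermat.Agent.Red.HKMod

variable {M N : ℕ} [NeZero M] [NeZero N]

/-- two places of `FF N` lie over the same place of `FF M`. -/
def H88eOver (hd : M ∣ N) (v v' : Place Kbar (FF N)) : Prop :=
  v.toValuationSubring.comap (degen hd).toRingHom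
    = v'.toValuationSubring.comap (degen hd).toRingHom

theorem h88e_over_iff (hd : M ∣ N) (v v' : Place Kbar (FF N)) :
    letI := algebraAlong (degen hd)
    haveI := isScalarTower_along (degen hd)
    haveI := isIntegral_along (degen hd) (Fermat.Agent.Red.CH0.isIntegral_degen hd)
    v.restrict (FF M) = v'.restrict (FF M) ↔ H88eOver hd v v' := by
  letI := algebraAlong (degen hd)
  haveI := isScalarTower_along (degen hd)
  haveI := isIntegral_along (degen hd) (Fermat.Agent.Red.CH0.isIntegral_degen hd)
  constructor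
  · intro h
    exact congrArg Place.toValuationSubring h
  · intro h
    exact Place.ext h

/-- membership in the maximal ideal of a place only depends on the restriction. -/
theorem h88e_mem_nonunits_degen (hd : M ∣ N) (v : Place Kbar (FF N)) (y : FF M) :
    degen hd y ∈ v.toValuationSubring.nonunits ↔
      y ∈ (v.toValuationSubring.comap (degen hd).toRingHom).nonunits := by
  rw [ValuationSubring.mem_nonunits_iff_or, ValuationSubring.mem_nonunits_iff_or,
    ValuationSubring.mem_comap]
  have h1 : degen hd y = 0 ↔ y = 0 := map_eq_zero (degen hd)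
  have h2 : (degen hd).toRingHom y⁻¹ = (degen hd y)⁻¹ := map_inv₀ (degen hd) y
  rw [h1, h2]

/-- finiteness of a place only depends on its restriction to a lower level. -/
theorem h88e_isFinAt_of_over (A : ValuationSubring Kbar) (hd : M ∣ N)
    (v v' : Place Kbar (FF N)) (h : H88eOver hd v v') : IsFinAt A v ↔ IsFinAt A v' := by
  have key : ∀ w : Place Kbar (FF N), IsFinAt A w ↔
      ∃ a : Kbar, a ∈ A ∧
        jB M - cst M a ∈ (w.toValuationSubring.comap (degen hd).toRingHom).nonunits := by
    intro w
    refine exists_congr fun a => and_congr_right fun _ => ?_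
    rw [← h88e_mem_nonunits_degen, map_sub]
    have e1 : degen hd (jB M) = jB N := Fermat.Agent.Red.CH0.degen_jBar hd
    have e2 : degen hd (cst M a) = cst N a := (degen hd).commutes a
    rw [e1, e2]
    rfl
  rw [key v, key v', h]

/-- "`f` is a Gauss unit of level `N` with reduction `fb`". -/
def H88eRedAt (A : ValuationSubring Kbar) (N : ℕ) [NeZero N] (f : FF N) (fb : h13sFt A N) :
    Prop :=
  ∃ hf : f ∈ gaussV A N, f⁻¹ ∈ gaussV A N ∧ h13sRed A N ⟨f, hf⟩ = fb

/-- the reduction datum of `P7/H88Exact.lean` at the level. -/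
theorem h88e_red_datum (A : ValuationSubring Kbar) (hd : M ∣ N)
    (r : Place Kbar (FF N) → Place (h13sK A) (h13sFt A N)) (hr : H13sIsRed A N r) :
    letI := algebraAlong (degen hd)
    haveI := isScalarTower_along (degen hd)
    haveI := isIntegral_along (degen hd) (Fermat.Agent.Red.CH0.isIntegral_degen hd)
    H88eRed (F := FF M) r (H88eRedAt A N) (IsFinAt A) := by
  letI := algebraAlong (degen hd)
  haveI := isScalarTower_along (degen hd)
  haveI := isIntegral_along (degen hd) (Fermat.Agent.Red.CH0.isIntegral_degen hd)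
  refine ⟨?_, ?_, ?_⟩
  · rintro f fb ⟨hf, hinv, rfl⟩ D hD Q
    exact hr.2.2 f hf hinv D hD Q
  · intro v v' h
    rcases (hr.2.1 v v').mp h with ⟨h1, h2, -⟩ | ⟨h1, h2, -⟩
    · exact ⟨fun _ => h2, fun _ => h1⟩
    · exact ⟨fun h3 => absurd h3 h1, fun h3 => absurd h3 h2⟩
  · intro v v' h
    exact h88e_isFinAt_of_over A hd v v' ((h88e_over_iff hd v v').mp h)

/-- **the exact lift datum** (steps (S2a) + (S2b)): a Gauss unit `G` of level `N`, regular off
`v∞`, with a pole of order `m ≥ 1` at `v∞`, whose reduction has a pole of order exactly `m` at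
`r v∞` and neither zero nor pole at the other cuspidal points of the special fibre. -/
def H88eLift (A : ValuationSubring Kbar) (N : ℕ) [NeZero N]
    (r : Place Kbar (FF N) → Place (h13sK A) (h13sFt A N)) (voo : Place Kbar (FF N)) : Prop :=
  ∃ (m : ℕ) (G : FF N) (hG : G ∈ gaussV A N), 0 < m ∧ G⁻¹ ∈ gaussV A N ∧
    (∀ v : Place Kbar (FF N), v ≠ voo → 0 ≤ v.ord G) ∧ voo.ord G = -(m : ℤ) ∧
    (r voo).ord (h13sRed A N ⟨G, hG⟩) = -(m : ℤ) ∧
    ∀ v : Place Kbar (FF N), ¬ IsFinAt A v → r v ≠ r voo →
      (r v).ord (h13sRed A N ⟨G, hG⟩) = 0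

set_option synthInstance.maxHeartbeats 400000 in
set_option maxHeartbeats 1600000 in
/-- **(S2) EXACT FUNCTION at the level.** -/
theorem h88e_exact_level {ℓ : ℕ} (hℓ : ℓ.Prime) (hN : ¬ ℓ ∣ N) (A : ValuationSubring Kbar)
    (hA : A.LiesOverPrime ℓ) (hd : M ∣ N)
    (r : Place Kbar (FF N) → Place (h13sK A) (h13sFt A N)) (hr : H13sIsRed A N r)
    (voo : Place Kbar (FF N)) (hvoo : ¬ IsFinAt A voo) (hL : H88eLift A N r voo) :
    ∃ (m : ℕ) (h : FF M) (hs : degen hd h ∈ gaussV A N), 0 < m ∧
      (degen hd h)⁻¹ ∈ gaussV A N ∧ h ∈ softV A M ∧ h⁻¹ ∈ softV A M ∧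
      (∀ v : Place Kbar (FF N), v.ord (degen hd h) < 0 ↔ H88eOver hd v voo) ∧
      (∀ v : Place Kbar (FF N), 0 < v.ord (degen hd h) → IsFinAt A v) ∧
      (∀ v : Place Kbar (FF N), H88eOver hd v voo →
        (r v).ord (h13sRed A N ⟨degen hd h, hs⟩) ≤ -(m : ℤ)) ∧
      (∀ w : Place Kbar (FF M),
        w.toValuationSubring ≠ voo.toValuationSubring.comap (degen hd).toRingHom →
          0 ≤ w.ord h) ∧
      (∀ w : Place Kbar (FF M),
        w.toValuationSubring = voo.toValuationSubring.comap (degen hd).toRingHom →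
          w.ord h = -(m : ℤ)) := by
  obtain ⟨m, G, hG, hm, hGinv, hGreg, hGoo, hGboo, hGbT⟩ := hL
  letI := algebraAlong (degen hd)
  haveI := isScalarTower_along (degen hd)
  haveI := isIntegral_along (degen hd) (Fermat.Agent.Red.CH0.isIntegral_degen hd)
  haveI : Module.Finite (FF M) (FF N) := Fermat.Agent.Red.CH0.finiteAlong_degen hd
  haveI := hasPrincipalDivisors_FF N
  haveI := finiteDimensional_jBar N
  have hG0 : G ≠ 0 := by
    rintro rfl
    rw [Place.ord_zero] at hGoo
    omega
  have hN0 : Algebra.norm (FF M) G ≠ 0 := Algebra.norm_ne_zero_iff.mpr hG0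
  obtain ⟨c, hc, hu, hinv⟩ := exists_cst_mul_unit_soft A M hℓ hA (Algebra.norm (FF M) G) hN0
  set h : FF M := cst M c * Algebra.norm (FF M) G with hh
  have hcc : cst M c ≠ 0 := fun h0 =>
    hc ((algebraMap Kbar (FF M)).injective (h0.trans (map_zero _).symm))
  have hrel : algebraMap Kbar (FF M) c⁻¹ * h = Algebra.norm (FF M) G := by
    rw [hh, map_inv₀, ← mul_assoc]
    exact (congrArg (· * Algebra.norm (FF M) G) (inv_mul_cancel₀ hcc)).trans (one_mul _)
  have hsN : degen hd h ∈ gaussV A N := by
    rw [← softV_eq_gaussV A N hℓ hN hA]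
    exact (degen_mem_softV_iff A hd h).mpr hu
  have hsNinv : (degen hd h)⁻¹ ∈ gaussV A N := by
    rw [← softV_eq_gaussV A N hℓ hN hA, ← map_inv₀]
    exact (degen_mem_softV_iff A hd h⁻¹).mpr hinv
  obtain ⟨hC1, hC2, hC3, hC4⟩ := h88e_exact_abs (F := FF M) (Fermat.Agent.S24.jBar N)
    (h88e_red_datum A hd r hr) voo hvoo G (h13sRed A N ⟨G, hG⟩) ⟨hG, hGinv, rfl⟩ m hm hGreg hGoo
    hGboo hGbT h c⁻¹ (inv_ne_zero hc) hrel (h13sRed A N ⟨degen hd h, hsN⟩) ⟨hsN, hsNinv, rfl⟩
  have hm' : (0 : ℤ) < m := by exact_mod_cast hm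
  refine ⟨m, h, hsN, hm, hsNinv, hu, hinv, ?_, hC3, ?_, ?_, ?_⟩
  · intro v
    have hord : v.ord (degen hd h)
        = (Place.ramificationIndex (F := FF M) v : ℤ) * (v.restrict (FF M)).ord h :=
      v.ord_restrict h
    have he : 0 < (Place.ramificationIndex (F := FF M) v : ℤ) := by
      exact_mod_cast v.ramificationIndex_pos (F := FF M)
    constructor
    · intro hv
      rw [← h88e_over_iff]
      by_contra hne
      have := hC1 (v.restrict (FF M)) hne
      rw [hord] at hv
      have := mul_nonneg he.le this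
      omega
    · intro hv
      rw [hord, (h88e_over_iff hd v voo).mpr hv, hC2]
      nlinarith
  · intro v hv
    exact hC4 v ((h88e_over_iff hd v voo).mpr hv)
  · intro w hw
    exact hC1 w fun h0 => hw (by rw [h0]; rfl)
  · intro w hw
    have h0 : w = voo.restrict (FF M) := Place.ext hw
    rw [h0]
    exact hC2

end Fermat.Agent.P7
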