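import Mathlib
import Fermat.Agent.P6.H88NodeRigid

/-!
# P7 (wave 7, S40), row T-CONST-LIOUVILLE (helper88): Liouville modulo `π` on a component

Abstract chart form of steps (4) and (5) of the paper proof of NODE-PHASE (finding 1371).

`A` a valuation ring, `F` a field over `A`, `B₀, B₁ ⊆ F` the two charts of a model, `W, W' ⊆ F`
the valuation rings of the generic points of two components of the special fibre (the component
`W` is the one on which we work; `W'` is the other one).  `H ∈ W` a function which is, modulo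
`π W`, regular at every closed point of the component `W` (`h88lReg`).  Every closed point of
the component `W` is either not on the component `W'`, or a node `x y = a c` with `π ∣ a`
(`h88lNode`).

* `h88l_liouville` : `H ≡ η` modulo `π W` for a constant `η ∈ A` (**Liouville modulo `π`**),
  from the Liouville property of the special fibre (`hLiou`: a function on the component which
  is regular on both charts is constant) and a best constant approximation of `H` (`hbest`).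
* `h88l_phase` (**node rigidity**): if `H ≡ η` modulo `π W` and `H ≡ η'` modulo `π W'`, and at a
  node `𝔫` the function `H` is `G` modulo `π W` and `ρ G` modulo `π W'` with `G` regular at `𝔫`
  and `ρ ∈ A`, then `π ∣ η' - ρ η`.
-/

set_option autoImplicit false
set_option linter.unusedSectionVars false
set_option linter.unusedVariables false

open IsLocalRing

namespace Fermat.Agent.P7

open Fermat.Agent.P6

section Liouville

variable {A : Type*} [CommRing A] [IsDomain A] [ValuationRing A]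
  {F : Type*} [Field F] [Algebra A F]

/-- the closed point `𝔫` of the chart `B` lies on the component `W`. -/
def h88lOn (B : Subalgebra A F) (W : Subring F) (𝔫 : Ideal B) : Prop :=
  ∀ b : B, ((b : F))⁻¹ ∉ W → b ∈ 𝔫

/-- `H` is regular at `𝔫` modulo `π W`. -/
def h88lReg (B : Subalgebra A F) (W : Subring F) (π : A) (H : F) (𝔫 : Ideal B) : Prop :=
  ∃ s : B, s ∉ 𝔫 ∧ ∃ g : B, (s : F) * H - (g : F) ∈ h88nMul π W

/-- `𝔫` is a node of thickness divisible by `π`: it lies on `W'`, `x y = a c`, `π ∣ a`,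
`𝔫 = (x, y) + 𝔪_A B` locally, `x` is a unit of `W` and `y` is a unit of `W'`. -/
def h88lNode (B : Subalgebra A F) (W W' : Subring F) (π : A) (𝔫 : Ideal B) : Prop :=
  h88lOn B W' 𝔫 ∧ ∃ x ∈ 𝔫, ∃ y ∈ 𝔫, ∃ c : B, ∃ a : A, a ≠ 0 ∧ c ≠ 0 ∧ π ∣ a ∧
    x * y = algebraMap A B a * c ∧
    (∀ z ∈ 𝔫, ∃ s, s ∉ 𝔫 ∧
      s * z ∈ Ideal.span {x, y} ⊔ (maximalIdeal A).map (algebraMap A B)) ∧
    ((x : F))⁻¹ ∈ W ∧ ((y : F))⁻¹ ∈ W'

variable {W : Subring F}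

theorem h88l_M_mul (hAW : ∀ c : A, algebraMap A F c ∈ W) {f w : F} (hf : f ∈ h88nM A W)
    (hw : w ∈ W) : f * w ∈ h88nM A W := by
  obtain ⟨d, hd, z, hz, rfl⟩ := hf
  exact ⟨d, hd, z * w, W.mul_mem hz hw, by ring⟩

theorem h88l_M_mul_left (hAW : ∀ c : A, algebraMap A F c ∈ W) {f w : F} (hf : f ∈ h88nM A W)
    (hw : w ∈ W) : w * f ∈ h88nM A W := by
  rw [mul_comm]; exact h88l_M_mul hAW hf hw

/-- elements of `𝔪_A B` lie in `𝔪_A W`. -/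
theorem h88l_map_mem (B : Subalgebra A F) (hAW : ∀ c : A, algebraMap A F c ∈ W)
    (hBW : ∀ b ∈ B, b ∈ W) {t : B} (ht : t ∈ (maximalIdeal A).map (algebraMap A B)) :
    (t : F) ∈ h88nM A W := by
  unfold Ideal.map at ht
  induction ht using Submodule.span_induction with
  | mem x hx =>
    obtain ⟨m, hm, rfl⟩ := hx
    exact ⟨m, hm, 1, W.one_mem, by simp⟩
  | zero => simpa using h88nM_zero
  | add x y _ _ hx hy =>
    rw [Subalgebra.coe_add]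
    exact h88nM_add hAW hx hy
  | smul b x _ hx =>
    rw [smul_eq_mul, Subalgebra.coe_mul]
    exact h88l_M_mul_left hAW hx (hBW _ b.2)

/-- a nonzero element of `𝔪_A W` is not a unit of `W`. -/
theorem h88l_inv_not_mem (hAW : ∀ c : A, algebraMap A F c ∈ W)
    (hnt : ∀ m ∈ maximalIdeal A, ∀ x ∈ W, algebraMap A F m * x ≠ 1) {f : F}
    (hf : f ∈ h88nM A W) (hf0 : f ≠ 0) : f⁻¹ ∉ W := by
  intro h
  obtain ⟨d, hd, z, hz, rfl⟩ := hf
  apply hnt d hd (z * (algebraMap A F d * z)⁻¹) (W.mul_mem hz h)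
  rw [← mul_assoc]
  exact mul_inv_cancel₀ hf0

/-- **regularity of the leading term** at a closed point of the component `W`: if
`H = η₀ + d z` with `π = d μ`, `μ ∈ 𝔪_A`, and `H` is regular at `𝔫` modulo `π W`, then `z` is
regular at `𝔫` modulo `𝔪_A W`. -/
theorem h88l_reg_point (B : Subalgebra A F) (W W' : Subring F)
    (hAF : Function.Injective (algebraMap A F))
    (hAW : ∀ c : A, algebraMap A F c ∈ W) (hAW' : ∀ c : A, algebraMap A F c ∈ W')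
    (hBW : ∀ b ∈ B, b ∈ W) (hBW' : ∀ b ∈ B, b ∈ W')
    (hnt' : ∀ m ∈ maximalIdeal A, ∀ x ∈ W', algebraMap A F m * x ≠ 1)
    (hmax' : ∀ f ∈ W', f⁻¹ ∉ W' → f ∈ h88nM A W')
    (harch : ∀ m ∈ maximalIdeal A, ∀ d : A, d ≠ 0 → ∃ k : ℕ, d ∣ m ^ k)
    (hQEP : ∀ a : A, a ≠ 0 → ∀ x : F, x ∈ W → x ∈ W' → algebraMap A F a * x ∈ B → x ∈ B)
    (π d μ : A) (hπ : π ∈ maximalIdeal A) (hd0 : d ≠ 0) (hμ : μ ∈ maximalIdeal A)
    (hπd : π = d * μ)
    (H z : F) (η₀ : A) (hz : z ∈ W) (hHz : H - algebraMap A F η₀ = algebraMap A F d * z)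
    (𝔫 : Ideal B) (h𝔫 : 𝔫.IsMaximal)
    (hreg : h88lReg B W π H 𝔫)
    (hcl : ¬ h88lOn B W' 𝔫 ∨ h88lNode B W W' π 𝔫) :
    ∃ σ : B, σ ∉ 𝔫 ∧ ∃ β : B, (σ : F) * z - (β : F) ∈ h88nM A W := by
  classical
  have h𝔫p : 𝔫.IsPrime := h𝔫.isPrime
  have hdF : algebraMap A F d ≠ 0 := fun h => hd0 (hAF (by rw [h, map_zero]))
  obtain ⟨s, hs, g, w₁, hw₁, hsg⟩ := hreg
  set f : B := g - algebraMap A B η₀ * s with hf
  set q : F := (s : F) * z - algebraMap A F μ * w₁ with hq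
  have hqW : q ∈ W :=
    W.sub_mem (W.mul_mem (hBW _ s.2) hz) (W.mul_mem (hAW μ) hw₁)
  have hfq : (f : F) = algebraMap A F d * q := by
    have h1 : (g : F) = (s : F) * H - algebraMap A F π * w₁ := by rw [← hsg]; ring
    have h2 : H = algebraMap A F η₀ + algebraMap A F d * z := by rw [← hHz]; ring
    rw [hf, Subalgebra.coe_sub, Subalgebra.coe_mul, Subalgebra.coe_algebraMap, h1, h2, hq, hπd,
      map_mul]
    ring
  rcases hcl with hcl | hcl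
  · -- a point which is not on the other component
    obtain ⟨b, hb⟩ := not_forall.mp hcl
    obtain ⟨hbinv, hb𝔫⟩ := Classical.not_imp.mp hb
    obtain ⟨m, hm, w', hw', hb⟩ := hmax' _ (hBW' _ b.2) hbinv
    obtain ⟨k, e, hk⟩ := harch m hm d hd0
    have hbk : (b : F) ^ k = algebraMap A F d * (algebraMap A F e * w' ^ k) := by
      rw [hb, mul_pow, ← map_pow, hk, map_mul]
      ring
    set o : F := (b : F) ^ k * q with ho
    have hoW : o ∈ W := W.mul_mem (W.pow_mem (hBW _ b.2) k) hqW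
    have hdo : algebraMap A F d * o = (((b ^ k * f : B)) : F) := by
      rw [Subalgebra.coe_mul, Subalgebra.coe_pow, hfq, ho]
      ring
    have hoW' : o ∈ W' := by
      have h1 : o = algebraMap A F e * w' ^ k * (f : F) := by
        apply mul_left_cancel₀ hdF
        rw [hdo, Subalgebra.coe_mul, Subalgebra.coe_pow, hbk]
        ring
      rw [h1]
      exact W'.mul_mem (W'.mul_mem (hAW' e) (W'.pow_mem hw' k)) (hBW' _ f.2)
    have hoB : o ∈ B := hQEP d hd0 o hoW hoW' (by rw [hdo]; exact (b ^ k * f).2)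
    refine ⟨b ^ k * s, ?_, ⟨o, hoB⟩, ?_⟩
    · intro h
      rcases (Ideal.IsPrime.mem_or_mem h𝔫p h) with h | h
      · exact hb𝔫 (Ideal.IsPrime.mem_of_pow_mem h𝔫p k h)
      · exact hs h
    · have h1 : (((b ^ k * s : B)) : F) * z - o =
          algebraMap A F μ * ((b : F) ^ k * w₁) := by
        rw [Subalgebra.coe_mul, Subalgebra.coe_pow, ho, hq]
        ring
      rw [h1]
      exact ⟨μ, hμ, _, W.mul_mem (W.pow_mem (hBW _ b.2) k) hw₁, rfl⟩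
  · -- a node
    obtain ⟨hon', x, hx, y, hy, c, a, ha0, hc0, ⟨a', ha'⟩, hxy, hprin, hxW, hyW'⟩ := hcl
    have haF : algebraMap A F a ≠ 0 := fun h => ha0 (hAF (by rw [h, map_zero]))
    have hcF : (c : F) ≠ 0 := fun h => hc0 (Subtype.ext h)
    have hxyF : (x : F) * (y : F) = algebraMap A F a * (c : F) := by
      have := congrArg (fun t : B => (t : F)) hxy
      simpa using this
    have hxF : (x : F) ≠ 0 := by
      intro h
      rw [h, zero_mul] at hxyF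
      exact mul_ne_zero haF hcF hxyF.symm
    have hyF : (y : F) ≠ 0 := by
      intro h
      rw [h, mul_zero] at hxyF
      exact mul_ne_zero haF hcF hxyF.symm
    have hxeq : (x : F) = algebraMap A F a * (c : F) * (y : F)⁻¹ := by
      rw [← hxyF]; field_simp
    have hyeq : (y : F) = algebraMap A F a * (c : F) * (x : F)⁻¹ := by
      rw [← hxyF]; field_simp
    set o : F := (x : F) * q with ho
    have hoW : o ∈ W := W.mul_mem (hBW _ x.2) hqW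
    have hdo : algebraMap A F d * o = (((x * f : B)) : F) := by
      rw [Subalgebra.coe_mul, hfq, ho]
      ring
    have ho1 : o = algebraMap A F μ *
        (algebraMap A F a' * (c : F) * (y : F)⁻¹ * (f : F)) := by
      apply mul_left_cancel₀ hdF
      rw [hdo, Subalgebra.coe_mul]
      nth_rewrite 1 [hxeq]
      rw [ha', hπd, map_mul, map_mul]
      ring
    have ho𝔪 : o ∈ h88nM A W' := by
      rw [ho1]
      exact ⟨μ, hμ, _, W'.mul_mem (W'.mul_mem (W'.mul_mem (hAW' a') (hBW' _ c.2)) hyW')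
        (hBW' _ f.2), rfl⟩
    have hoW' : o ∈ W' := h88nM_mem hAW' ho𝔪
    have hoB : o ∈ B := hQEP d hd0 o hoW hoW' (by rw [hdo]; exact (x * f).2)
    have ho𝔫 : (⟨o, hoB⟩ : B) ∈ 𝔫 := by
      by_cases ho0 : o = 0
      · have : (⟨o, hoB⟩ : B) = 0 := Subtype.ext ho0
        rw [this]
        exact 𝔫.zero_mem
      · exact hon' ⟨o, hoB⟩ (h88l_inv_not_mem hAW' hnt' ho𝔪 ho0)
    obtain ⟨s', hs', hmem⟩ := hprin _ ho𝔫
    obtain ⟨u, hu, t, ht, hut⟩ := Submodule.mem_sup.mp hmem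
    obtain ⟨b₁, b₂, hb⟩ := Ideal.mem_span_pair.mp hu
    have hy𝔪 : (y : F) ∈ h88nM A W := by
      rw [hyeq, ha', map_mul]
      exact ⟨π, hπ, algebraMap A F a' * (c : F) * (x : F)⁻¹,
        W.mul_mem (W.mul_mem (hAW a') (hBW _ c.2)) hxW, by ring⟩
    have ht𝔪 : (t : F) ∈ h88nM A W := h88l_map_mem B hAW hBW ht
    have hF : (s' : F) * o = (b₁ : F) * (x : F) + (b₂ : F) * (y : F) + (t : F) := by
      have := congrArg (fun t : B => (t : F)) hut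
      simp only [Subalgebra.coe_add, Subalgebra.coe_mul] at this
      rw [← this, ← hb]
      simp
    have h3 : (s' : F) * q - (b₁ : F) ∈ h88nM A W := by
      have h4 : (s' : F) * q - (b₁ : F) =
          ((b₂ : F) * (y : F) + (t : F)) * (x : F)⁻¹ := by
        have h5 : (s' : F) * ((x : F) * q) = (b₁ : F) * (x : F) + (b₂ : F) * (y : F) + (t : F) :=
          hF
        field_simp
        linear_combination h5
      rw [h4]
      exact h88l_M_mul hAW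
        (h88nM_add hAW (h88l_M_mul_left hAW hy𝔪 (hBW _ b₂.2)) ht𝔪) hxW
    refine ⟨s' * s, ?_, b₁, ?_⟩
    · intro h
      rcases (Ideal.IsPrime.mem_or_mem h𝔫p h) with h | h
      · exact hs' h
      · exact hs h
    · have h6 : (((s' * s : B)) : F) * z - (b₁ : F) =
          ((s' : F) * q - (b₁ : F)) + algebraMap A F μ * ((s' : F) * w₁) := by
        rw [Subalgebra.coe_mul, hq]
        ring
      rw [h6]
      exact h88nM_add hAW h3 ⟨μ, hμ, _, W.mul_mem (hBW _ s'.2) hw₁, rfl⟩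

/-- the ideal of the elements `r` of the chart such that `r z` is, modulo `𝔪_A W`, in the
chart. -/
def h88lIdeal (B : Subalgebra A F) (W : Subring F) (hAW : ∀ c : A, algebraMap A F c ∈ W)
    (hBW : ∀ b ∈ B, b ∈ W) (z : F) : Ideal B where
  carrier := {r | ∃ β : B, (r : F) * z - (β : F) ∈ h88nM A W}
  add_mem' := by
    rintro r₁ r₂ ⟨β₁, h₁⟩ ⟨β₂, h₂⟩
    refine ⟨β₁ + β₂, ?_⟩
    have h : (((r₁ + r₂ : B)) : F) * z - (((β₁ + β₂ : B)) : F) =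
        ((r₁ : F) * z - (β₁ : F)) + ((r₂ : F) * z - (β₂ : F)) := by
      rw [Subalgebra.coe_add, Subalgebra.coe_add]; ring
    rw [h]
    exact h88nM_add hAW h₁ h₂
  zero_mem' := ⟨0, by simpa using h88nM_zero⟩
  smul_mem' := by
    rintro b r ⟨β, h⟩
    refine ⟨b * β, ?_⟩
    have h' : (((b • r : B)) : F) * z - (((b * β : B)) : F) =
        (b : F) * ((r : F) * z - (β : F)) := by
      rw [smul_eq_mul, Subalgebra.coe_mul, Subalgebra.coe_mul]; ring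
    rw [h']
    exact h88l_M_mul_left hAW h (hBW _ b.2)

/-- if `z` is regular modulo `𝔪_A W` at every closed point of the component `W` of the chart
`B`, then `z` is in `B + 𝔪_A W`. -/
theorem h88l_global (B : Subalgebra A F) (W : Subring F)
    (hAW : ∀ c : A, algebraMap A F c ∈ W) (hBW : ∀ b ∈ B, b ∈ W)
    (hmax : ∀ f ∈ W, f⁻¹ ∉ W → f ∈ h88nM A W)
    (z : F) (hz : z ∈ W)
    (h : ∀ 𝔫 : Ideal B, 𝔫.IsMaximal → h88lOn B W 𝔫 →
      ∃ σ : B, σ ∉ 𝔫 ∧ ∃ β : B, (σ : F) * z - (β : F) ∈ h88nM A W) :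
    ∃ β : B, z - (β : F) ∈ h88nM A W := by
  classical
  by_cases htop : h88lIdeal B W hAW hBW z = ⊤
  · have h1 : (1 : B) ∈ h88lIdeal B W hAW hBW z := by rw [htop]; trivial
    obtain ⟨β, hβ⟩ := h1
    exact ⟨β, by simpa using hβ⟩
  · exfalso
    obtain ⟨𝔫, h𝔫, hle⟩ := Ideal.exists_le_maximal _ htop
    have hon : h88lOn B W 𝔫 := by
      intro b hb
      apply hle
      exact ⟨0, by simpa using h88l_M_mul hAW (hmax _ (hBW _ b.2) hb) hz⟩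
    obtain ⟨σ, hσ, β, hβ⟩ := h 𝔫 h𝔫 hon
    exact hσ (hle ⟨β, hβ⟩)

/-- **Liouville modulo `π` on the component `W`.**  A function `H ∈ W` which is regular modulo
`π W` at every closed point of the component `W` (in both charts) is constant modulo `π W`. -/
theorem h88l_liouville (B₀ B₁ : Subalgebra A F) (W W' : Subring F)
    (hAF : Function.Injective (algebraMap A F))
    (hAW : ∀ c : A, algebraMap A F c ∈ W) (hAW' : ∀ c : A, algebraMap A F c ∈ W')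
    (hB₀W : ∀ b ∈ B₀, b ∈ W) (hB₀W' : ∀ b ∈ B₀, b ∈ W')
    (hB₁W : ∀ b ∈ B₁, b ∈ W) (hB₁W' : ∀ b ∈ B₁, b ∈ W')
    (hnt : ∀ m ∈ maximalIdeal A, ∀ x ∈ W, algebraMap A F m * x ≠ 1)
    (hnt' : ∀ m ∈ maximalIdeal A, ∀ x ∈ W', algebraMap A F m * x ≠ 1)
    (hmax : ∀ f ∈ W, f⁻¹ ∉ W → f ∈ h88nM A W)
    (hmax' : ∀ f ∈ W', f⁻¹ ∉ W' → f ∈ h88nM A W')
    (harch : ∀ m ∈ maximalIdeal A, ∀ d : A, d ≠ 0 → ∃ k : ℕ, d ∣ m ^ k)
    (hQEP₀ : ∀ a : A, a ≠ 0 → ∀ x : F, x ∈ W → x ∈ W' → algebraMap A F a * x ∈ B₀ → x ∈ B₀)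
    (hQEP₁ : ∀ a : A, a ≠ 0 → ∀ x : F, x ∈ W → x ∈ W' → algebraMap A F a * x ∈ B₁ → x ∈ B₁)
    (hscale : ∀ f : F, f ∈ W → f ≠ 0 →
      ∃ d : A, d ≠ 0 ∧ ∃ z ∈ W, z⁻¹ ∈ W ∧ f = algebraMap A F d * z)
    (hLiou : ∀ β₀ ∈ B₀, ∀ β₁ ∈ B₁, β₀ - β₁ ∈ h88nM A W →
      ∃ c : A, β₀ - algebraMap A F c ∈ h88nM A W)
    (π : A) (hπ : π ∈ maximalIdeal A) (H : F) (hH : H ∈ W)
    (hbest : ∃ η₀ : A, ∀ η d : A, H - algebraMap A F η ∈ h88nMul d W →
      H - algebraMap A F η₀ ∈ h88nMul d W)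
    (hloc₀ : ∀ 𝔫 : Ideal B₀, 𝔫.IsMaximal → h88lOn B₀ W 𝔫 →
      h88lReg B₀ W π H 𝔫 ∧ (¬ h88lOn B₀ W' 𝔫 ∨ h88lNode B₀ W W' π 𝔫))
    (hloc₁ : ∀ 𝔫 : Ideal B₁, 𝔫.IsMaximal → h88lOn B₁ W 𝔫 →
      h88lReg B₁ W π H 𝔫 ∧ (¬ h88lOn B₁ W' 𝔫 ∨ h88lNode B₁ W W' π 𝔫)) :
    ∃ η : A, H - algebraMap A F η ∈ h88nMul π W := by
  classical
  obtain ⟨η₀, hη₀⟩ := hbest
  by_cases h0 : H - algebraMap A F η₀ = 0
  · exact ⟨η₀, by rw [h0]; exact h88nMul_zero⟩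
  obtain ⟨d, hd0, z, hz, hzinv, hHz⟩ :=
    hscale _ (W.sub_mem hH (hAW η₀)) h0
  have hdF : algebraMap A F d ≠ 0 := fun h => hd0 (hAF (by rw [h, map_zero]))
  by_cases hπd : π ∣ d
  · exact ⟨η₀, by rw [hHz]; exact h88nMul_of_dvd hAW hπd hz⟩
  exfalso
  obtain ⟨μ, hμ, hπμ⟩ := h88n_exists_of_not_dvd hπd
  obtain ⟨β₀, hβ₀⟩ := h88l_global B₀ W hAW hB₀W hmax z hz (fun 𝔫 h𝔫 hon =>
    h88l_reg_point B₀ W W' hAF hAW hAW' hB₀W hB₀W' hnt' hmax' harch hQEP₀ π d μ hπ hd0 hμ hπμ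
      H z η₀ hz hHz 𝔫 h𝔫 (hloc₀ 𝔫 h𝔫 hon).1 (hloc₀ 𝔫 h𝔫 hon).2)
  obtain ⟨β₁, hβ₁⟩ := h88l_global B₁ W hAW hB₁W hmax z hz (fun 𝔫 h𝔫 hon =>
    h88l_reg_point B₁ W W' hAF hAW hAW' hB₁W hB₁W' hnt' hmax' harch hQEP₁ π d μ hπ hd0 hμ hπμ
      H z η₀ hz hHz 𝔫 h𝔫 (hloc₁ 𝔫 h𝔫 hon).1 (hloc₁ 𝔫 h𝔫 hon).2)
  have h1 : (β₀ : F) - (β₁ : F) ∈ h88nM A W := by
    have : (β₀ : F) - (β₁ : F) = (z - (β₁ : F)) - (z - (β₀ : F)) := by ring
    rw [this]
    exact h88nM_sub hAW hβ₁ hβ₀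
  obtain ⟨c, hc⟩ := hLiou _ β₀.2 _ β₁.2 h1
  have h2 : z - algebraMap A F c ∈ h88nM A W := by
    have : z - algebraMap A F c = (z - (β₀ : F)) + ((β₀ : F) - algebraMap A F c) := by ring
    rw [this]
    exact h88nM_add hAW hβ₀ hc
  obtain ⟨m, hm, w, hw, hzc⟩ := h2
  have h3 : H - algebraMap A F (η₀ + d * c) ∈ h88nMul (d * m) W := by
    refine ⟨w, hw, ?_⟩
    have : H - algebraMap A F (η₀ + d * c) =
        (H - algebraMap A F η₀) - algebraMap A F d * algebraMap A F c := by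
      rw [map_add, map_mul]; ring
    rw [this, hHz, map_mul]
    linear_combination (algebraMap A F d) * hzc
  obtain ⟨w', hw', hw'eq⟩ := hη₀ _ _ h3
  have h4 : z = algebraMap A F m * w' := by
    apply mul_left_cancel₀ hdF
    rw [← hHz, hw'eq, map_mul]
    ring
  apply hnt m hm (w' * z⁻¹) (W.mul_mem hw' hzinv)
  have hz0 : z ≠ 0 := by
    intro h
    rw [h, mul_zero] at hHz
    exact h0 hHz
  rw [← mul_assoc, ← h4]
  exact mul_inv_cancel₀ hz0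

/-- **Node rigidity (the phase at a node).**  If `H ≡ η` modulo `π W` and `H ≡ η'` modulo
`π W'`, and at a closed point `𝔫` lying on both components `s H ≡ g` modulo `π W` and
`s H ≡ ρ g` modulo `π W'` with `s ∉ 𝔫`, `g` in the chart, `ρ ∈ A`, then `π ∣ η' - ρ η`. -/
theorem h88l_phase (B : Subalgebra A F) (W W' : Subring F)
    (hAF : Function.Injective (algebraMap A F))
    (hAW : ∀ c : A, algebraMap A F c ∈ W) (hAW' : ∀ c : A, algebraMap A F c ∈ W')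
    (hBW : ∀ b ∈ B, b ∈ W) (hBW' : ∀ b ∈ B, b ∈ W')
    (hnt : ∀ m ∈ maximalIdeal A, ∀ x ∈ W, algebraMap A F m * x ≠ 1)
    (hnt' : ∀ m ∈ maximalIdeal A, ∀ x ∈ W', algebraMap A F m * x ≠ 1)
    (hQEP : ∀ a : A, a ≠ 0 → ∀ x : F, x ∈ W → x ∈ W' → algebraMap A F a * x ∈ B → x ∈ B)
    (π : A) (H : F) (η η' ρ : A)
    (hη : H - algebraMap A F η ∈ h88nMul π W) (hη' : H - algebraMap A F η' ∈ h88nMul π W')
    (𝔫 : Ideal B) (hon : h88lOn B W 𝔫) (hon' : h88lOn B W' 𝔫)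
    (s : B) (hs : s ∉ 𝔫) (g : B)
    (hg : (s : F) * H - (g : F) ∈ h88nMul π W)
    (hg' : (s : F) * H - algebraMap A F ρ * (g : F) ∈ h88nMul π W') :
    π ∣ η' - ρ * η := by
  classical
  by_contra hnd
  obtain ⟨μ, hμ, hπμ⟩ := h88n_exists_of_not_dvd hnd
  set t : A := η' - ρ * η with ht
  have ht0 : t ≠ 0 := by
    intro h
    apply hnd
    rw [h]
    exact dvd_zero π
  have htF : algebraMap A F t ≠ 0 := fun h => ht0 (hAF (by rw [h, map_zero]))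
  obtain ⟨u₁, hu₁, hu₁eq⟩ := hη
  obtain ⟨u₂, hu₂, hu₂eq⟩ := hη'
  obtain ⟨v₁, hv₁, hv₁eq⟩ := hg
  obtain ⟨v₂, hv₂, hv₂eq⟩ := hg'
  -- `e₁ = ρ (g - η s) ∈ π W`, `e₂ = ρ g - η' s ∈ π W'`, `e₁ - e₂ = t s`
  set w₁ : F := algebraMap A F ρ * ((s : F) * u₁ - v₁) with hw₁
  set w₂ : F := (s : F) * u₂ - v₂ with hw₂
  have hw₁W : w₁ ∈ W :=
    W.mul_mem (hAW ρ) (W.sub_mem (W.mul_mem (hBW _ s.2) hu₁) hv₁)
  have hw₂W' : w₂ ∈ W' := W'.sub_mem (W'.mul_mem (hBW' _ s.2) hu₂) hv₂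
  have he₁ : algebraMap A F ρ * ((g : F) - algebraMap A F η * (s : F)) =
      algebraMap A F π * w₁ := by
    rw [hw₁]
    linear_combination (algebraMap A F ρ) * (s : F) * hu₁eq - (algebraMap A F ρ) * hv₁eq
  have he₂ : algebraMap A F ρ * (g : F) - algebraMap A F η' * (s : F) =
      algebraMap A F π * w₂ := by
    rw [hw₂]
    linear_combination (s : F) * hu₂eq - hv₂eq
  have hts : algebraMap A F t * (s : F) = algebraMap A F π * (w₁ - w₂) := by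
    rw [ht, map_sub, map_mul]
    linear_combination he₁ - he₂
  have hs' : (s : F) = algebraMap A F μ * w₁ - algebraMap A F μ * w₂ := by
    apply mul_left_cancel₀ htF
    rw [hts, hπμ, map_mul]
    ring
  set ε₁ : F := algebraMap A F μ * w₁ with hε₁
  set ε₂ : F := algebraMap A F μ * w₂ with hε₂
  have hε₁W : ε₁ ∈ W := W.mul_mem (hAW μ) hw₁W
  have hε₂W' : ε₂ ∈ W' := W'.mul_mem (hAW' μ) hw₂W'
  have hε₁W' : ε₁ ∈ W' := by
    have : ε₁ = (s : F) + ε₂ := by rw [hs']; ring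
    rw [this]
    exact W'.add_mem (hBW' _ s.2) hε₂W'
  have hε₂W : ε₂ ∈ W := by
    have : ε₂ = ε₁ - (s : F) := by rw [hs']; ring
    rw [this]
    exact W.sub_mem hε₁W (hBW _ s.2)
  have hε₁B : ε₁ ∈ B := by
    apply hQEP t ht0 ε₁ hε₁W hε₁W'
    have h1 : algebraMap A F t * ε₁ =
        algebraMap A F ρ * ((g : F) - algebraMap A F η * (s : F)) := by
      rw [he₁, hε₁, hπμ, map_mul]; ring
    rw [h1]
    exact B.mul_mem (B.algebraMap_mem ρ)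
      (B.sub_mem g.2 (B.mul_mem (B.algebraMap_mem η) s.2))
  have hε₂B : ε₂ ∈ B := by
    have : ε₂ = ε₁ - (s : F) := by rw [hs']; ring
    rw [this]
    exact B.sub_mem hε₁B s.2
  have h𝔫₁ : (⟨ε₁, hε₁B⟩ : B) ∈ 𝔫 := by
    by_cases h0 : ε₁ = 0
    · have : (⟨ε₁, hε₁B⟩ : B) = 0 := Subtype.ext h0
      rw [this]; exact 𝔫.zero_mem
    · exact hon _ (h88l_inv_not_mem hAW hnt ⟨μ, hμ, w₁, hw₁W, rfl⟩ h0)
  have h𝔫₂ : (⟨ε₂, hε₂B⟩ : B) ∈ 𝔫 := by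
    by_cases h0 : ε₂ = 0
    · have : (⟨ε₂, hε₂B⟩ : B) = 0 := Subtype.ext h0
      rw [this]; exact 𝔫.zero_mem
    · exact hon' _ (h88l_inv_not_mem hAW' hnt' ⟨μ, hμ, w₂, hw₂W', rfl⟩ h0)
  apply hs
  have : s = (⟨ε₁, hε₁B⟩ : B) - ⟨ε₂, hε₂B⟩ := Subtype.ext (by simpa using hs')
  rw [this]
  exact 𝔫.sub_mem h𝔫₁ h𝔫₂

/-- **best constant approximation from a section at a good point**: if `H` is regular at a
closed point `𝔫₀` (`s₀ H = g₀`, `s₀ ∉ 𝔫₀`) which is not on the component `W'`, and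
`φ : B → A` is a section with `φ b ∈ 𝔪_A ↔ b ∈ 𝔫₀`, then `η₀ = φ g₀ / φ s₀` is a best constant
approximation of `H` on the component `W`. -/
theorem h88l_best (B : Subalgebra A F) (W W' : Subring F)
    (hAF : Function.Injective (algebraMap A F))
    (hAW : ∀ c : A, algebraMap A F c ∈ W) (hAW' : ∀ c : A, algebraMap A F c ∈ W')
    (hBW : ∀ b ∈ B, b ∈ W) (hBW' : ∀ b ∈ B, b ∈ W')
    (hmax' : ∀ f ∈ W', f⁻¹ ∉ W' → f ∈ h88nM A W')
    (harch : ∀ m ∈ maximalIdeal A, ∀ d : A, d ≠ 0 → ∃ k : ℕ, d ∣ m ^ k)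
    (hQEP : ∀ a : A, a ≠ 0 → ∀ x : F, x ∈ W → x ∈ W' → algebraMap A F a * x ∈ B → x ∈ B)
    (H : F) (𝔫₀ : Ideal B) (hoff : ¬ h88lOn B W' 𝔫₀)
    (φ : B →ₐ[A] A) (hφ : ∀ b : B, φ b ∈ maximalIdeal A ↔ b ∈ 𝔫₀)
    (s₀ g₀ : B) (hs₀ : s₀ ∉ 𝔫₀) (hsg : (s₀ : F) * H = (g₀ : F)) :
    ∃ η₀ : A, ∀ η d : A, H - algebraMap A F η ∈ h88nMul d W →
      H - algebraMap A F η₀ ∈ h88nMul d W := by
  classical
  have hunit : ∀ b : B, b ∉ 𝔫₀ → IsUnit (φ b) := by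
    intro b hb
    by_contra h
    exact hb ((hφ b).mp ((IsLocalRing.mem_maximalIdeal _).mpr h))
  obtain ⟨v₀, hv₀⟩ := (hunit s₀ hs₀).exists_right_inv
  obtain ⟨b, hb⟩ := not_forall.mp hoff
  obtain ⟨hbinv, hb𝔫⟩ := Classical.not_imp.mp hb
  obtain ⟨m, hm, w', hw', hbeq⟩ := hmax' _ (hBW' _ b.2) hbinv
  refine ⟨φ g₀ * v₀, ?_⟩
  intro η d hηd
  obtain ⟨w, hw, hweq⟩ := hηd
  have hs₀F : (s₀ : F) ≠ 0 := by
    intro h
    apply hs₀
    have : s₀ = 0 := Subtype.ext h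
    rw [this]; exact 𝔫₀.zero_mem
  by_cases hd0 : d = 0
  · -- `H = η`
    have hHη : H = algebraMap A F η := by
      rw [hd0, map_zero, zero_mul] at hweq
      exact sub_eq_zero.mp hweq
    have h1 : g₀ = algebraMap A B η * s₀ := by
      apply Subtype.ext
      rw [Subalgebra.coe_mul, Subalgebra.coe_algebraMap, ← hsg, hHη]; ring
    have h2 : φ g₀ = η * φ s₀ := by
      rw [h1, map_mul, AlgHom.commutes]; rfl
    refine ⟨0, W.zero_mem, ?_⟩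
    rw [hHη, h2, mul_assoc, hv₀, mul_one]; simp
  have hdF : algebraMap A F d ≠ 0 := fun h => hd0 (hAF (by rw [h, map_zero]))
  obtain ⟨k, e, hk⟩ := harch m hm d hd0
  have hbk : (b : F) ^ k = algebraMap A F d * (algebraMap A F e * w' ^ k) := by
    rw [hbeq, mul_pow, ← map_pow, hk, map_mul]
    ring
  set f : B := g₀ - algebraMap A B η * s₀ with hf
  have hfF : (f : F) = algebraMap A F d * ((s₀ : F) * w) := by
    rw [hf, Subalgebra.coe_sub, Subalgebra.coe_mul, Subalgebra.coe_algebraMap, ← hsg]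
    linear_combination (s₀ : F) * hweq
  set o : F := (b : F) ^ k * ((s₀ : F) * w) with ho
  have hoW : o ∈ W := W.mul_mem (W.pow_mem (hBW _ b.2) k) (W.mul_mem (hBW _ s₀.2) hw)
  have hdo : algebraMap A F d * o = (((b ^ k * f : B)) : F) := by
    rw [Subalgebra.coe_mul, Subalgebra.coe_pow, hfF, ho]
    ring
  have hoW' : o ∈ W' := by
    have h1 : o = algebraMap A F e * w' ^ k * (f : F) := by
      apply mul_left_cancel₀ hdF
      rw [hdo, Subalgebra.coe_mul, Subalgebra.coe_pow, hbk]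
      ring
    rw [h1]
    exact W'.mul_mem (W'.mul_mem (hAW' e) (W'.pow_mem hw' k)) (hBW' _ f.2)
  have hoB : o ∈ B := hQEP d hd0 o hoW hoW' (by rw [hdo]; exact (b ^ k * f).2)
  -- apply the section
  have hB : algebraMap A B d * (⟨o, hoB⟩ : B) = b ^ k * f := Subtype.ext (by
    rw [Subalgebra.coe_mul, Subalgebra.coe_algebraMap]
    exact hdo)
  have hφ1 : d * φ ⟨o, hoB⟩ = φ b ^ k * (φ g₀ - η * φ s₀) := by
    have := congrArg φ hB
    rw [map_mul, AlgHom.commutes, map_mul, map_pow, hf, map_sub, map_mul, AlgHom.commutes]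
      at this
    simpa using this
  obtain ⟨vb, hvb⟩ := (hunit b hb𝔫).exists_right_inv
  have hφ2 : φ g₀ * v₀ - η = d * (φ ⟨o, hoB⟩ * vb ^ k * v₀) := by
    have h1 : φ b ^ k * vb ^ k = 1 := by rw [← mul_pow, hvb, one_pow]
    calc φ g₀ * v₀ - η = (φ b ^ k * vb ^ k) * ((φ g₀ - η * φ s₀) * v₀) := by
          rw [h1, one_mul, sub_mul, mul_assoc η, hv₀, mul_one]
      _ = (φ b ^ k * (φ g₀ - η * φ s₀)) * (vb ^ k * v₀) := by ring
      _ = d * (φ ⟨o, hoB⟩ * vb ^ k * v₀) := by rw [← hφ1]; ring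
  refine ⟨w - algebraMap A F (φ ⟨o, hoB⟩ * vb ^ k * v₀),
    W.sub_mem hw (hAW _), ?_⟩
  have h3 : algebraMap A F (φ g₀ * v₀) =
      algebraMap A F η + algebraMap A F d * algebraMap A F (φ ⟨o, hoB⟩ * vb ^ k * v₀) := by
    rw [← map_mul, ← map_add, ← hφ2]
    congr 1; ring
  rw [h3]
  linear_combination hweq

/-- the node datum is symmetric in the two components. -/
theorem h88lNode.symm {B : Subalgebra A F} {W W' : Subring F} {π : A} {𝔫 : Ideal B}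
    (h : h88lNode B W W' π 𝔫) (hon : h88lOn B W 𝔫) : h88lNode B W' W π 𝔫 := by
  obtain ⟨-, x, hx, y, hy, c, a, ha0, hc0, hπa, hxy, hprin, hxW, hyW'⟩ := h
  refine ⟨hon, y, hy, x, hx, c, a, ha0, hc0, hπa, by rw [mul_comm, hxy], ?_, hyW', hxW⟩
  intro z hz
  obtain ⟨s, hs, hmem⟩ := hprin z hz
  exact ⟨s, hs, by rw [Set.pair_comm]; exact hmem⟩

/-- the local datum of `H` at a closed point `𝔫`: `H ≡ G` modulo `π W` and `H ≡ ρ G` modulo
`π W'` with `G = g / s` regular at `𝔫`. -/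
def h88lDatum (B : Subalgebra A F) (W W' : Subring F) (π : A) (H : F) (𝔫 : Ideal B)
    (ρ : A) : Prop :=
  ∃ s : B, s ∉ 𝔫 ∧ ∃ g : B, (s : F) * H - (g : F) ∈ h88nMul π W ∧
    (s : F) * H - algebraMap A F ρ * (g : F) ∈ h88nMul π W'

theorem h88lDatum.reg {B : Subalgebra A F} {W W' : Subring F} {π : A} {H : F} {𝔫 : Ideal B}
    {ρ : A} (h : h88lDatum B W W' π H 𝔫 ρ) : h88lReg B W π H 𝔫 := by
  obtain ⟨s, hs, g, hg, -⟩ := h
  exact ⟨s, hs, g, hg⟩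

theorem h88lDatum.reg' {B : Subalgebra A F} {W W' : Subring F} {π : A} {H : F} {𝔫 : Ideal B}
    {ρ : A} (h : h88lDatum B W W' π H 𝔫 ρ) : h88lReg B W' π H 𝔫 := by
  obtain ⟨s, hs, g, -, hg⟩ := h
  exact ⟨s, hs, algebraMap A B ρ * g, by
    rw [Subalgebra.coe_mul, Subalgebra.coe_algebraMap]; exact hg⟩

/-- **NODE-PHASE, abstract chart form.**  Let `H` be a unit of `W` and of `W'` with a local
datum `ρ_𝔫` at every closed point of the special fibre of both charts, every closed point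
lying on both components being a node of thickness divisible by `π`.  Then the phases `ρ_𝔫` at
the points lying on both components are all congruent modulo `π`. -/
theorem h88l_nodePhase (B₀ B₁ : Subalgebra A F) (W W' : Subring F)
    (hAF : Function.Injective (algebraMap A F))
    (hAW : ∀ c : A, algebraMap A F c ∈ W) (hAW' : ∀ c : A, algebraMap A F c ∈ W')
    (hB₀W : ∀ b ∈ B₀, b ∈ W) (hB₀W' : ∀ b ∈ B₀, b ∈ W')
    (hB₁W : ∀ b ∈ B₁, b ∈ W) (hB₁W' : ∀ b ∈ B₁, b ∈ W')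
    (hnt : ∀ m ∈ maximalIdeal A, ∀ x ∈ W, algebraMap A F m * x ≠ 1)
    (hnt' : ∀ m ∈ maximalIdeal A, ∀ x ∈ W', algebraMap A F m * x ≠ 1)
    (hmax : ∀ f ∈ W, f⁻¹ ∉ W → f ∈ h88nM A W)
    (hmax' : ∀ f ∈ W', f⁻¹ ∉ W' → f ∈ h88nM A W')
    (harch : ∀ m ∈ maximalIdeal A, ∀ d : A, d ≠ 0 → ∃ k : ℕ, d ∣ m ^ k)
    (hQEP₀ : ∀ a : A, a ≠ 0 → ∀ x : F, x ∈ W → x ∈ W' → algebraMap A F a * x ∈ B₀ → x ∈ B₀)
    (hQEP₁ : ∀ a : A, a ≠ 0 → ∀ x : F, x ∈ W → x ∈ W' → algebraMap A F a * x ∈ B₁ → x ∈ B₁)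
    (hscale : ∀ f : F, f ∈ W → f ≠ 0 →
      ∃ d : A, d ≠ 0 ∧ ∃ z ∈ W, z⁻¹ ∈ W ∧ f = algebraMap A F d * z)
    (hscale' : ∀ f : F, f ∈ W' → f ≠ 0 →
      ∃ d : A, d ≠ 0 ∧ ∃ z ∈ W', z⁻¹ ∈ W' ∧ f = algebraMap A F d * z)
    (hLiou : ∀ β₀ ∈ B₀, ∀ β₁ ∈ B₁, β₀ - β₁ ∈ h88nM A W →
      ∃ c : A, β₀ - algebraMap A F c ∈ h88nM A W)
    (hLiou' : ∀ β₀ ∈ B₀, ∀ β₁ ∈ B₁, β₀ - β₁ ∈ h88nM A W' →
      ∃ c : A, β₀ - algebraMap A F c ∈ h88nM A W')
    (π : A) (hπ : π ∈ maximalIdeal A) (H : F) (hH0 : H ≠ 0) (hH : H ∈ W) (hHinv : H⁻¹ ∈ W)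
    (hH' : H ∈ W')
    (hbest : ∃ η₀ : A, ∀ η d : A, H - algebraMap A F η ∈ h88nMul d W →
      H - algebraMap A F η₀ ∈ h88nMul d W)
    (hbest' : ∃ η₀ : A, ∀ η d : A, H - algebraMap A F η ∈ h88nMul d W' →
      H - algebraMap A F η₀ ∈ h88nMul d W')
    (ρ₀ : Ideal B₀ → A) (ρ₁ : Ideal B₁ → A)
    (hloc₀ : ∀ 𝔫 : Ideal B₀, 𝔫.IsMaximal → h88lDatum B₀ W W' π H 𝔫 (ρ₀ 𝔫) ∧
      (h88lOn B₀ W 𝔫 → h88lOn B₀ W' 𝔫 → h88lNode B₀ W W' π 𝔫))
    (hloc₁ : ∀ 𝔫 : Ideal B₁, 𝔫.IsMaximal → h88lDatum B₁ W W' π H 𝔫 (ρ₁ 𝔫) ∧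
      (h88lOn B₁ W 𝔫 → h88lOn B₁ W' 𝔫 → h88lNode B₁ W W' π 𝔫)) :
    ∃ ω : A, (∀ 𝔫 : Ideal B₀, 𝔫.IsMaximal → h88lOn B₀ W 𝔫 → h88lOn B₀ W' 𝔫 →
        π ∣ ρ₀ 𝔫 - ω) ∧
      (∀ 𝔫 : Ideal B₁, 𝔫.IsMaximal → h88lOn B₁ W 𝔫 → h88lOn B₁ W' 𝔫 → π ∣ ρ₁ 𝔫 - ω) := by
  classical
  obtain ⟨η, hη⟩ := h88l_liouville B₀ B₁ W W' hAF hAW hAW' hB₀W hB₀W' hB₁W hB₁W' hnt hnt'
    hmax hmax' harch hQEP₀ hQEP₁ hscale hLiou π hπ H hH hbest
    (fun 𝔫 h𝔫 hon => ⟨(hloc₀ 𝔫 h𝔫).1.reg, by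
      by_cases h' : h88lOn B₀ W' 𝔫
      · exact Or.inr ((hloc₀ 𝔫 h𝔫).2 hon h')
      · exact Or.inl h'⟩)
    (fun 𝔫 h𝔫 hon => ⟨(hloc₁ 𝔫 h𝔫).1.reg, by
      by_cases h' : h88lOn B₁ W' 𝔫
      · exact Or.inr ((hloc₁ 𝔫 h𝔫).2 hon h')
      · exact Or.inl h'⟩)
  obtain ⟨η', hη'⟩ := h88l_liouville B₀ B₁ W' W hAF hAW' hAW hB₀W' hB₀W hB₁W' hB₁W hnt' hnt
    hmax' hmax harch (fun a ha x hx hx' => hQEP₀ a ha x hx' hx)
    (fun a ha x hx hx' => hQEP₁ a ha x hx' hx) hscale' hLiou' π hπ H hH' hbest'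
    (fun 𝔫 h𝔫 hon' => ⟨(hloc₀ 𝔫 h𝔫).1.reg', by
      by_cases h : h88lOn B₀ W 𝔫
      · exact Or.inr (((hloc₀ 𝔫 h𝔫).2 h hon').symm h)
      · exact Or.inl h⟩)
    (fun 𝔫 h𝔫 hon' => ⟨(hloc₁ 𝔫 h𝔫).1.reg', by
      by_cases h : h88lOn B₁ W 𝔫
      · exact Or.inr (((hloc₁ 𝔫 h𝔫).2 h hon').symm h)
      · exact Or.inl h⟩)
  -- `η` is a unit
  have hηu : IsUnit η := by
    by_contra h
    have hηm : η ∈ maximalIdeal A := (IsLocalRing.mem_maximalIdeal _).mpr h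
    obtain ⟨w, hw, hweq⟩ := hη
    have h1 : H ∈ h88nM A W := by
      have : H = algebraMap A F η * 1 + algebraMap A F π * w := by
        rw [← hweq]; ring
      rw [this]
      exact h88nM_add hAW ⟨η, hηm, 1, W.one_mem, rfl⟩ ⟨π, hπ, w, hw, rfl⟩
    exact h88l_inv_not_mem hAW hnt h1 hH0 hHinv
  obtain ⟨ηinv, hηinv⟩ := hηu.exists_right_inv
  refine ⟨η' * ηinv, ?_, ?_⟩
  · intro 𝔫 h𝔫 hon hon'
    obtain ⟨s, hs, g, hg, hg'⟩ := (hloc₀ 𝔫 h𝔫).1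
    have h1 := h88l_phase B₀ W W' hAF hAW hAW' hB₀W hB₀W' hnt hnt' hQEP₀ π H η η' (ρ₀ 𝔫)
      hη hη' 𝔫 hon hon' s hs g hg hg'
    have h2 : ρ₀ 𝔫 - η' * ηinv = -(η' - ρ₀ 𝔫 * η) * ηinv := by
      have : ρ₀ 𝔫 * η * ηinv = ρ₀ 𝔫 := by rw [mul_assoc, hηinv, mul_one]
      calc ρ₀ 𝔫 - η' * ηinv = ρ₀ 𝔫 * η * ηinv - η' * ηinv := by rw [this]
        _ = -(η' - ρ₀ 𝔫 * η) * ηinv := by ring
    rw [h2]
    exact Dvd.dvd.mul_right ((dvd_neg).mpr h1) _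
  · intro 𝔫 h𝔫 hon hon'
    obtain ⟨s, hs, g, hg, hg'⟩ := (hloc₁ 𝔫 h𝔫).1
    have h1 := h88l_phase B₁ W W' hAF hAW hAW' hB₁W hB₁W' hnt hnt' hQEP₁ π H η η' (ρ₁ 𝔫)
      hη hη' 𝔫 hon hon' s hs g hg hg'
    have h2 : ρ₁ 𝔫 - η' * ηinv = -(η' - ρ₁ 𝔫 * η) * ηinv := by
      have : ρ₁ 𝔫 * η * ηinv = ρ₁ 𝔫 := by rw [mul_assoc, hηinv, mul_one]
      calc ρ₁ 𝔫 - η' * ηinv = ρ₁ 𝔫 * η * ηinv - η' * ηinv := by rw [this]
        _ = -(η' - ρ₁ 𝔫 * η) * ηinv := by ring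
    rw [h2]
    exact Dvd.dvd.mul_right ((dvd_neg).mpr h1) _

end Liouville

end Fermat.Agent.P7
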