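import Fermat.Agent.P7.H19OrthAsm
import Fermat.Agent.P7.H44OrthLift
import Fermat.Agent.P7.H31GoingUp
import Fermat.Agent.P7.H71PsInt
import Fermat.Agent.P7.H66S0Norm
import Fermat.Agent.P7.H96FullDeg
import Fermat.Agent.P7.H48Eval
import Fermat.Agent.P7.H83ResNormAll
import Fermat.Agent.P7.H88ExactFinal
import Fermat.Agent.P7.H98mDeg

/-!
# Wave 7, block (A), DLOG at a non-good level: the FRONT HALF of ORTH(M) (helper88)

`h88o_resM p : H19oResM p` (helper19's frozen Prop of `P7/H19OrthAsm.lean`), unconditional: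
for a normalised Gauss unit `y` of level `M` (reduction of `q`-order `0`, all orders of the
reduction at the good level `M⁺ = goodLevel p M` divisible by `p`) there is `g ∈ FF M` with
`q`-expansion `b` invertible in `A((q))`, `redA b = (softR y) ^ d`, `d = [FF M⁺ : FF M]` prime
to `p`, such that the characteristic-zero residue `a₀(f · dlog g)` lies in `𝔪_A` for every
Gauss-integral `f` of level `M` regular off `∞`.

Construction: `g = Nm_{FF M⁺ / FF M} g⁺`, `g⁺` an exact lift (helper44) of the reduction of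
`degen y` without zero or pole in the residue classes of the places over `∞_M` (possible by
SYM-LITE, `h88e_symLiteUnit`); DISC (helper31), PS-INT (helper71), NORM-RED (helper66, helper96),
the residue formula for a norm (helper83, helper38) and EVAL (helper48).

Consequences: `h88o_orthNorm p : H19oOrthNormM p`, `h88o_orthM p : H3gOrthM p`.
-/

set_option autoImplicit false
set_option linter.unusedSectionVars false
set_option linter.unusedVariables false
set_option linter.style.haveILetI false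
set_option synthInstance.maxHeartbeats 400000

open ModularCurve AlgebraicCurve IsLocalRing

noncomputable section

namespace Fermat.Agent.P7

open Fermat.Agent.S37 Fermat.Agent.Red Fermat.Agent.Red.GV Fermat.Agent.Red.GV.Soft
  Fermat.Agent.P5 Fermat.Agent.Red.Match

set_option maxHeartbeats 3200000 in
/-- **LIFT(M), residue form**, unconditional. -/
theorem h88o_resM (p : ℕ) : H19oResM p := by
  intro hp h5 M _ hM A hA Q hQ y hy hg hy0 hyi hgi ho hQ'
  classical
  have hN : ¬ p ∣ goodLevel p M := not_dvd_goodLevel hp hM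
  have haux : auxLevel p ∣ goodLevel p M := auxLevel_dvd_goodLevel p M
  obtain ⟨r, hr⟩ := h88r_redDiv p hp (goodLevel p M) hN haux A hA
  have hvM : H52xIsQPlace M Q := fun f hf => (hQ f hf).symm
  obtain ⟨voo, hvoo⟩ := h88e_qplace_exists (goodLevel p M)
  obtain ⟨Qs, hQs⟩ := h26g_place_inf A (goodLevel p M)
  have hrQ : r voo = Qs :=
    h88e_S2 p hp (goodLevel p M) hN haux A hA r hr voo Qs hvoo hQs
  have hcomap := h88e_qplace_comap (dvd_goodLevel p M) voo hvoo Q hvM
  have hvooQ : voo.restrictAlong (degen (dvd_goodLevel p M))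
      (Fermat.Agent.Red.CH0.isIntegral_degen (dvd_goodLevel p M)) = Q := Place.ext hcomap
  -- the finite set `T` of the places over `Q` and its image `S`
  obtain ⟨Dj, hDj, -⟩ := (h40r_base_FF (goodLevel p M)).pd (jB (goodLevel p M))
    (h88e_jB_ne (goodLevel p M))
  set T : Finset (Place Kbar (FF (goodLevel p M))) :=
    Dj.support.filter (fun c => c.restrictAlong (degen (dvd_goodLevel p M))
      (Fermat.Agent.Red.CH0.isIntegral_degen (dvd_goodLevel p M)) = Q) with hT
  set S : Finset (Place (h13sK A) (h13sFt A (goodLevel p M))) := T.image r with hSdef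
  have hTmem : ∀ c : Place Kbar (FF (goodLevel p M)),
      c.restrictAlong (degen (dvd_goodLevel p M))
        (Fermat.Agent.Red.CH0.isIntegral_degen (dvd_goodLevel p M)) = Q → r c ∈ S := by
    intro c hc
    refine Finset.mem_image.mpr ⟨c, Finset.mem_filter.mpr ⟨?_, hc⟩, rfl⟩
    rw [Finsupp.mem_support_iff, hDj]
    have hover : H88eOver (dvd_goodLevel p M) c voo := by
      show c.toValuationSubring.comap (degen (dvd_goodLevel p M)).toRingHom
        = voo.toValuationSubring.comap (degen (dvd_goodLevel p M)).toRingHom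
      rw [hcomap, ← hc]
      rfl
    have := h88e_pole_of_over (dvd_goodLevel p M) voo hvoo c hover
    omega
  -- the reduction of `degen y`
  have hdy0 : degen (dvd_goodLevel p M) y ≠ 0 := (map_ne_zero _).mpr hy0
  have hsp0 : h13sRed A (goodLevel p M) ⟨degen (dvd_goodLevel p M) y, hg⟩ ≠ 0 := by
    have hmul : h13sRed A (goodLevel p M) ⟨degen (dvd_goodLevel p M) y, hg⟩ *
        h13sRed A (goodLevel p M) ⟨(degen (dvd_goodLevel p M) y)⁻¹, hgi⟩ = 1 := by
      rw [← h88r_red_mul]
      have h2 : (⟨degen (dvd_goodLevel p M) y, hg⟩ : gaussV A (goodLevel p M)) *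
          ⟨(degen (dvd_goodLevel p M) y)⁻¹, hgi⟩ = 1 :=
        Subtype.ext (mul_inv_cancel₀ hdy0)
      rw [h2, h88r_red_one]
    exact left_ne_zero_of_mul_eq_one hmul
  have hyip : degen (dvd_goodLevel p M) y⁻¹ ∈ gaussV A (goodLevel p M) := by
    rw [map_inv₀]
    exact hgi
  have hS : ∀ Q' ∈ S,
      Q'.ord (h13sRed A (goodLevel p M) ⟨degen (dvd_goodLevel p M) y, hg⟩) = 0 := by
    intro Q' hQ'S
    obtain ⟨c, hc, rfl⟩ := Finset.mem_image.mp hQ'S
    have hc' := (Finset.mem_filter.mp hc).2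
    exact h88e_symLiteUnit p hp M hM A hA r hr Q hvM c hc' y hy hyi hg hyip ho
  -- the exact lift
  obtain ⟨gp, hgp, hgpinv, hgpr, hgpoff⟩ := h44o_exact_lift hp hN haux hA r hr
    (h13sRed A (goodLevel p M) ⟨degen (dvd_goodLevel p M) y, hg⟩) hsp0 S hS
  have hgp0 : gp ≠ 0 := by
    intro h0
    apply hsp0
    rw [← hgpr]
    have h1 : (⟨gp, hgp⟩ : gaussV A (goodLevel p M)) = 0 := Subtype.ext h0
    rw [h1, h88r_red_zero]
  have hoffT : ∀ c w : Place Kbar (FF (goodLevel p M)),
      c.restrictAlong (degen (dvd_goodLevel p M))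
        (Fermat.Agent.Red.CH0.isIntegral_degen (dvd_goodLevel p M)) = Q →
      r w = r c → w.ord gp = 0 := by
    intro c w hc hw
    by_contra hne
    exact hgpoff w hne (hw ▸ hTmem c hc)
  -- the norm
  have hgpS : gp ∈ softV A (goodLevel p M) := gaussV_le_softV A _ hgp
  have hgpSinv : gp⁻¹ ∈ softV A (goodLevel p M) := gaussV_le_softV A _ hgpinv
  obtain ⟨hgS, hgSinv⟩ := h66s_fd_norm_unit h96h_fullDeg hp M hM A hA gp hgpS hgpSinv
  have hxy : softR A (goodLevel p M) ⟨gp, hgpS⟩ = softR A M ⟨y, hy⟩ := by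
    rw [softR_eq_gaussR A _ gp hgpS hgp, ← h13sIncl_red, hgpr]
    exact h88e_incl_red_degen (dvd_goodLevel p M) y hy hg
  obtain ⟨hn, hnred⟩ := h66s_fd_norm_red h96h_fullDeg hp M hM A hA gp hgpS ⟨y, hy⟩ hxy
  have hs0 : softR A M ⟨y, hy⟩ ≠ 0 := (softR_ne_zero_iff A M ⟨y, hy⟩).mpr ⟨hy0, hyi⟩
  have hg0 : Fermat.Agent.Red.KR.normAlong (degen (dvd_goodLevel p M)) gp ≠ 0 := by
    refine ((softR_ne_zero_iff A M ⟨_, hn⟩).mp ?_).1
    rw [hnred]
    exact pow_ne_zero _ hs0
  -- `degen g` is a Gauss unit of the good level without zero or pole in the class of `voo`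
  have hF : degen (dvd_goodLevel p M)
      (Fermat.Agent.Red.KR.normAlong (degen (dvd_goodLevel p M)) gp) ∈
        gaussV A (goodLevel p M) := by
    rw [← softV_eq_gaussV A (goodLevel p M) hp hN hA]
    exact (degen_mem_softV_iff A (dvd_goodLevel p M) _).mpr hgS
  have hFi : (degen (dvd_goodLevel p M)
      (Fermat.Agent.Red.KR.normAlong (degen (dvd_goodLevel p M)) gp))⁻¹ ∈
        gaussV A (goodLevel p M) := by
    rw [← softV_eq_gaussV A (goodLevel p M) hp hN hA, ← map_inv₀]
    exact (degen_mem_softV_iff A (dvd_goodLevel p M) _).mpr hgSinv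
  have hF0 : degen (dvd_goodLevel p M)
      (Fermat.Agent.Red.KR.normAlong (degen (dvd_goodLevel p M)) gp) ≠ 0 :=
    (map_ne_zero _).mpr hg0
  have hzp : ∀ v : Place Kbar (FF (goodLevel p M)), r v = r voo →
      v.ord (degen (dvd_goodLevel p M)
        (Fermat.Agent.Red.KR.normAlong (degen (dvd_goodLevel p M)) gp)) = 0 := by
    intro v hv
    exact h31d_degen_norm_ord_eq_zero (dvd_goodLevel p M) hr gp hgp0 voo
      (fun c w hc hw => hoffT c w (hc.trans hvooQ) hw) v hv
  have hQr := h71p_hQ_of_place (r := r) voo Qs hQs hrQ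
  obtain ⟨b, hb, hbneg, hbunit⟩ := h71p_psInt_unit hp hN hA hr voo hvoo hQr _ hF0 hF hFi hzp
  obtain ⟨c, hc, -, -⟩ := h71p_psInt_unit hp hN hA hr voo hvoo hQr _ (inv_ne_zero hF0) hFi
    (by rw [inv_inv]; exact hF)
    (fun v hv => by rw [Place.ord_inv, hzp v hv, neg_zero])
  have hbc : b * c = 1 := by
    apply Fermat.Agent.Red.GV.embA_injective A
    rw [map_mul, map_one, hb, hc]
    have h1 : (((degen (dvd_goodLevel p M)
        (Fermat.Agent.Red.KR.normAlong (degen (dvd_goodLevel p M)) gp))⁻¹ :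
          FF (goodLevel p M)) : LaurentSeries Kbar) =
        ((degen (dvd_goodLevel p M)
          (Fermat.Agent.Red.KR.normAlong (degen (dvd_goodLevel p M)) gp) :
            FF (goodLevel p M)) : LaurentSeries Kbar)⁻¹ := rfl
    rw [h1]
    exact mul_inv_cancel₀ (fun h => hF0 (Subtype.ext h))
  have hbg : embA A b = ((Fermat.Agent.Red.KR.normAlong (degen (dvd_goodLevel p M)) gp :
      FF M) : LaurentSeries Kbar) := by
    rw [hb]
    exact coe_degen (dvd_goodLevel p M) _
  -- the reduction of `b`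
  have hredb : redA (IsLocalRing.residue A) b =
      HahnSeries.C (1 : ResidueField A) *
        softR A M ⟨y, hy⟩ ^ finrankAlong Kbar (degen (dvd_goodLevel p M)) := by
    rw [map_one, one_mul, ← hnred, ← h71p_gaussR_eq _ hF b hb,
      ← softR_eq_gaussR A (goodLevel p M) _ (gaussV_le_softV A _ hF) hF]
    exact softR_degen A (dvd_goodLevel p M) ⟨_, hn⟩ (gaussV_le_softV A _ hF)
  -- the degree is prime to `p`
  have hd0 : ((finrankAlong Kbar (degen (dvd_goodLevel p M)) : ℕ) : ResidueField A) ≠ 0 := by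
    haveI : CharP (ResidueField A) p := h3g_charP A hp hA
    rw [Ne, CharP.cast_eq_zero_iff (ResidueField A) p]
    intro hdvd
    have hco := h98m_deg_coprime hp h5 M
    have h1 : p ∣ Nat.gcd (finrankAlong Kbar (degen (dvd_goodLevel p M))) p :=
      Nat.dvd_gcd hdvd dvd_rfl
    rw [hco.gcd_eq_one] at h1
    exact hp.one_lt.ne' (Nat.dvd_one.mp h1)
  refine ⟨Fermat.Agent.Red.KR.normAlong (degen (dvd_goodLevel p M)) gp, b, c, 1,
    finrankAlong Kbar (degen (dvd_goodLevel p M)), hg0, one_ne_zero, hd0, hbg, hbc, hredb,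
    fun f hfV hf => ?_⟩
  -- the residue
  have hex : ∀ v : Place Kbar (FF M), ∃ a : Kbar, v ≠ Q → ValueAt v f a := by
    intro v
    by_cases hv : v = Q
    · exact ⟨0, fun h => absurd hv h⟩
    · obtain ⟨a, ha⟩ := exists_valueAt v
        (Fermat.Agent.S24.DiffPlace.mem_of_ord_nonneg v (hf v hv))
      exact ⟨a, fun _ => ha⟩
  choose fv hfv using hex
  obtain ⟨D, hD, -⟩ := (h40r_base_FF (goodLevel p M)).pd gp hgp0
  have hS1 : ∀ w ∈ D.support, w.restrictAlong (degen (dvd_goodLevel p M))
      (Fermat.Agent.Red.CH0.isIntegral_degen (dvd_goodLevel p M)) ≠ Q := by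
    intro w hw hwQ
    rw [Finsupp.mem_support_iff, hD] at hw
    exact hgpoff w hw (hTmem w hwQ)
  have hS2 : ∀ w : Place Kbar (FF (goodLevel p M)),
      w.restrictAlong (degen (dvd_goodLevel p M))
        (Fermat.Agent.Red.CH0.isIntegral_degen (dvd_goodLevel p M)) ≠ Q →
      w.ord gp ≠ 0 → w ∈ D.support := by
    intro w _ hw
    rw [Finsupp.mem_support_iff, hD]
    exact hw
  have hoo : ∀ z : FF M, z ≠ 0 → Q.ord z = ((z : FF M) : LaurentSeries Kbar).order :=
    fun z hz => (hQ z hz).symm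
  rw [h83o_resid_norm_FF_all (dvd_goodLevel p M) Q hoo f hf fv hfv gp hgp0 D.support hS1 hS2]
  have hFf : degen (dvd_goodLevel p M) f ∈ gaussV A (goodLevel p M) := by
    rw [← softV_eq_gaussV A (goodLevel p M) hp hN hA]
    exact (degen_mem_softV_iff A (dvd_goodLevel p M) f).mpr (gaussV_le_softV A M hfV)
  have hdiv : ∀ Q'' : Place (h13sK A) (h13sFt A (goodLevel p M)),
      (p : ℤ) ∣ Q''.ord (h13sRed A (goodLevel p M) ⟨gp, hgp⟩) := by
    intro Q''
    rw [hgpr]
    exact hQ' Q''
  have hoff : ∀ w c : Place Kbar (FF (goodLevel p M)), w.ord gp ≠ 0 →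
      c.restrictAlong (degen (dvd_goodLevel p M))
        (Fermat.Agent.Red.CH0.isIntegral_degen (dvd_goodLevel p M)) = Q → r c ≠ r w := by
    intro w c hw hc hrc
    exact hgpoff w hw (hrc ▸ hTmem c hc)
  have hsum := h48e_eval_along A hp hN hA r hr (degen (dvd_goodLevel p M))
    (Fermat.Agent.Red.CH0.isIntegral_degen (dvd_goodLevel p M)) Q f hf fv hfv hFf gp hgp0 hgp
    hgpinv hdiv hoff D.support hS2
  rw [ValuationSubring.mem_nonunits_iff] at hsum ⊢
  rwa [Valuation.map_neg]

/-- **normalised ORTH(M)**, unconditional. -/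
theorem h88o_orthNorm (p : ℕ) : H19oOrthNormM p :=
  h19o_orthNorm_of_res h1i_int (h88o_resM p)

/-- **ORTH(M)** (helper3's frozen leaf), unconditional. -/
theorem h88o_orthM (p : ℕ) : H3gOrthM p :=
  h19o_orthM_of_res h1i_int (h88o_resM p)

end Fermat.Agent.P7
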