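import Fermat.Agent.P7.H89FinOrbCls
import Fermat.Agent.P7.H69FinCls
import Fermat.Agent.P5.H71Rep
import Fermat.Agent.P5.H13GBase

/-!
# Wave 7 (S40), row T-A2-FINRED, leaves F6 (unconditional) and F7 (helper89, prefix `h89s_`)

`M` a level prime to `p`, `A` a valuation subring of `ℚ̄` over `p`, `U ≤ G_ℚ` of finite index,
`Q₀` a place of `F_M` (the cusp `∞`).

* `h89s_finite_classes_all` : **F6, unconditional** (F2 + F3 + helper69's F4): finitely many
  reductions of places whose `U`-orbit has at most `g` elements.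
* `H89sRep U g Q₀ w` : the class `w` is `[∑ (P i - Q₀)]` for `g` places `P i` permuted by `U`
  (the output of F1: the unique effective divisor of least degree, padded with `Q₀`).
* `h89s_fin_image` : **F7**: the image in `J₀(M) ⧸ redKerPic M A` of the classes with
  `H89sRep U g Q₀` is FINITE.
* `h89s_fin_of_rep` : the hypothesis `hfin` of the KILL lemma (`h93k_kill`) at `y`, from a
  subgroup `U` of finite index fixing `y` and the representation `H89sRep` of all the
  `U`-fixed classes.
-/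

set_option autoImplicit false
set_option linter.unusedSectionVars false
set_option linter.style.haveILetI false

open AlgebraicCurve ModularCurve

noncomputable section

namespace Fermat.Agent.P7

open Fermat.Agent.S37 Fermat.Agent.P5

variable {M : ℕ} [NeZero M] {A : ValuationSubring Kbar} {p : ℕ}

/-- **F6, unconditional.**  Finitely many reductions of places with `U`-orbits of size `≤ g`,
at every level prime to `p`. -/
theorem h89s_finite_classes_all (hp : p.Prime) (hM : ¬ p ∣ M) (hA : A.LiesOverPrime p)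
    (U : Subgroup GQ) [U.FiniteIndex] (g : ℕ) :
    ∃ S : Finset (Place Kbar (FF M)), ∀ v : Place Kbar (FF M),
      (∃ T : Finset (Place Kbar (FF M)), T.card ≤ g ∧ ∀ σ ∈ U, gal M σ • v ∈ T) →
        ∃ w ∈ S, SameRed A v w :=
  h89s_finite_classes hp hA (fun _ ha => h69w_finCls M A hp hM hA ha)
    (h69w_infCls M A hp hM hA) U g

/-- the class `w` is `[∑ (P i - Q₀)]` for `g` places `P i` permuted by `U`. -/
def H89sRep (U : Subgroup GQ) (g : ℕ) (Q₀ : Place Kbar (FF M)) (w : JZero M) : Prop :=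
  ∃ P : Fin g → Place Kbar (FF M),
    (∀ σ ∈ U, ∀ i, ∃ j, gal M σ • P i = P j) ∧ h96m_IsCls w P (fun _ => Q₀)

/-- the class of `∑ (s i - Q₀)`. -/
def h89sCls (g : ℕ) (Q₀ : Place Kbar (FF M)) (s : Fin g → Place Kbar (FF M)) : JZero M :=
  Pic0.mk ⟨∑ i, (Finsupp.single (s i) (1 : ℤ) - Finsupp.single Q₀ (1 : ℤ)),
    h71r_sum_sub_mem_degZero (h13g_gBase M) s (fun _ => Q₀)⟩

/-- if `P i` and `s i` have the same reduction for all `i`, the classes of `∑ (P i - Q₀)` and
`∑ (s i - Q₀)` agree modulo the kernel of reduction. -/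
theorem h89s_cls_congr (g : ℕ) (Q₀ : Place Kbar (FF M)) {w : JZero M}
    {P s : Fin g → Place Kbar (FF M)} (hw : h96m_IsCls w P (fun _ => Q₀))
    (hs : ∀ i, SameRed A (P i) (s i)) :
    (QuotientAddGroup.mk w : JZero M ⧸ redKerPic M A) =
      QuotientAddGroup.mk (h89sCls g Q₀ s) := by
  obtain ⟨D, hD, rfl⟩ := hw
  rw [eq_comm, QuotientAddGroup.eq]
  set D' : Divisor.degZero (K := Kbar) (F := FF M) :=
    ⟨∑ i, (Finsupp.single (s i) (1 : ℤ) - Finsupp.single Q₀ (1 : ℤ)),
      h71r_sum_sub_mem_degZero (h13g_gBase M) s (fun _ => Q₀)⟩ with hD'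
  refine ⟨D - D', ?_, ?_⟩
  · have e : ((D - D' : Divisor.degZero (K := Kbar) (F := FF M)) : Divisor Kbar (FF M)) =
        ∑ i, (Finsupp.single (P i) (1 : ℤ) - Finsupp.single (s i) (1 : ℤ)) := by
      rw [AddSubgroup.coe_sub, hD, ← Finset.sum_sub_distrib]
      refine Finset.sum_congr rfl fun i _ => ?_
      abel
    rw [e]
    exact (redKer M A).sum_mem fun i _ => single_sub_single_mem_redKer (hs i)
  · show -(Pic0.mk D' : JZero M) + Pic0.mk D = Pic0.mk (D - D')
    unfold Pic0.mk
    rw [← QuotientAddGroup.mk_neg, ← QuotientAddGroup.mk_add]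
    congr 1
    abel

/-- **F7.**  The image in `J₀(M) ⧸ redKerPic M A` of the classes `[∑ (P i - Q₀)]`, `P` a family
of `g` places permuted by `U`, is finite. -/
theorem h89s_fin_image (hp : p.Prime) (hM : ¬ p ∣ M) (hA : A.LiesOverPrime p)
    (U : Subgroup GQ) [U.FiniteIndex] (g : ℕ) (Q₀ : Place Kbar (FF M)) :
    ((fun w : JZero M => (QuotientAddGroup.mk w : JZero M ⧸ redKerPic M A)) ''
      {w : JZero M | H89sRep U g Q₀ w}).Finite := by
  classical
  obtain ⟨S, hS⟩ := h89s_finite_classes_all (M := M) (A := A) hp hM hA U g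
  have hfin : (Set.range (fun s : Fin g → {v // v ∈ S} =>
      (QuotientAddGroup.mk (h89sCls g Q₀ (fun i => (s i).1)) : JZero M ⧸ redKerPic M A))).Finite :=
    Set.finite_range _
  refine hfin.subset ?_
  rintro _ ⟨w, ⟨P, horb, hw⟩, rfl⟩
  have hex : ∀ i, ∃ s ∈ S, SameRed A (P i) s := by
    intro i
    refine hS (P i) ⟨Finset.univ.image P, ?_, fun σ hσ => ?_⟩
    · exact le_trans Finset.card_image_le (by simp)
    · obtain ⟨j, hj⟩ := horb σ hσ i
      rw [hj]
      exact Finset.mem_image_of_mem _ (Finset.mem_univ j)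
  choose s hsS hsR using hex
  exact ⟨fun i => ⟨s i, hsS i⟩, (h89s_cls_congr g Q₀ hw hsR).symm⟩

/-- **FIN for the KILL lemma.**  If `U` (of finite index) fixes `y` and every `U`-fixed class
has a representation `H89sRep U g Q₀`, then the hypothesis `hfin` of `h93k_kill` holds at `y`
(for any action of `G_ℚ` on `J₀(M)` given as a function `act`). -/
theorem h89s_fin_of_rep (hp : p.Prime) (hM : ¬ p ∣ M) (hA : A.LiesOverPrime p)
    (act : GQ → JZero M → JZero M)
    (U : Subgroup GQ) [U.FiniteIndex] (g : ℕ) (Q₀ : Place Kbar (FF M)) (y : JZero M)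
    (hUy : ∀ σ ∈ U, act σ y = y)
    (hrep : ∀ w : JZero M, (∀ σ ∈ U, act σ w = w) → H89sRep U g Q₀ w) :
    ((fun w : JZero M => (QuotientAddGroup.mk w : JZero M ⧸ redKerPic M A)) ''
      {w : JZero M | ∀ σ : GQ, act σ y = y → act σ w = w}).Finite := by
  refine (h89s_fin_image (A := A) hp hM hA U g Q₀).subset ?_
  rintro _ ⟨w, hw, rfl⟩
  exact ⟨w, hrep w (fun σ hσ => hw σ (hUy σ hσ)), rfl⟩

end Fermat.Agent.P7
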