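import Mathlib

/-!
# Wave 7 (S40), row T-ABEL-OCC, leaf FIN-RED / F2 (helper89, prefix `h89r_`): small orbits have
small degree

`L / F` a normal separable algebraic extension, `G = Gal(L / F)`, `U ≤ G` a subgroup of finite
index.  Mathlib only.

* `h89r_natDegree_le_of_orbit` : if the `U`-orbit of `a ∈ L` is contained in a finite set `T`,
  then `natDegree (minpoly F a) ≤ [G : U] * #T`.
* `h89r_natDegree_le_of_fixed` : if `U` fixes `a`, then `natDegree (minpoly F a) ≤ [G : U]`.
-/

set_option autoImplicit false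
set_option linter.style.haveILetI false

open Polynomial

noncomputable section

namespace Fermat.Agent.P7

variable {F L : Type*} [Field F] [Field L] [Algebra F L] [Normal F L] [Algebra.IsSeparable F L]

/-- **F2.**  If the orbit of `a` under a subgroup `U` of finite index of `Gal(L / F)` is
contained in the finite set `T`, the degree of `a` over `F` is at most `[G : U] * #T`. -/
theorem h89r_natDegree_le_of_orbit (U : Subgroup (L ≃ₐ[F] L)) [U.FiniteIndex] (a : L)
    (T : Finset L) (hT : ∀ σ ∈ U, σ a ∈ T) :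
    (minpoly F a).natDegree ≤ U.index * T.card := by
  classical
  have hint : IsIntegral F a := Normal.isIntegral inferInstance a
  have hsep : (minpoly F a).Separable := Algebra.IsSeparable.isSeparable F a
  have hspl : Splits ((minpoly F a).map (algebraMap F L)) := Normal.splits inferInstance a
  have hcard : Fintype.card ((minpoly F a).rootSet L) = (minpoly F a).natDegree :=
    card_rootSet_eq_natDegree hsep hspl
  haveI : Finite ((L ≃ₐ[F] L) ⧸ U) := Subgroup.finite_quotient_of_finiteIndex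
  -- the map `(q, t) ↦ (out q) t`
  set Ψ : (((L ≃ₐ[F] L) ⧸ U) × (T : Set L)) → L := fun x => (Quotient.out x.1) (x.2 : L)
    with hΨ
  have hsub : ((minpoly F a).rootSet L : Set L) ⊆ Set.range Ψ := by
    intro b hb
    have hb' : aeval b (minpoly F a) = 0 := (mem_rootSet.mp hb).2
    obtain ⟨σ, hσ⟩ := minpoly.exists_algEquiv_of_root' hint.isAlgebraic hb'
    set q : (L ≃ₐ[F] L) ⧸ U := QuotientGroup.mk σ with hq
    set τ : L ≃ₐ[F] L := Quotient.out q with hτ
    have hτq : (QuotientGroup.mk τ : (L ≃ₐ[F] L) ⧸ U) = QuotientGroup.mk σ :=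
      QuotientGroup.out_eq' q
    have hu : τ⁻¹ * σ ∈ U := QuotientGroup.eq.mp hτq
    refine ⟨(q, ⟨(τ⁻¹ * σ) a, hT _ hu⟩), ?_⟩
    show τ ((τ⁻¹ * σ) a) = b
    rw [← AlgEquiv.mul_apply, mul_inv_cancel_left, hσ]
  have hfin : (Set.range Ψ).Finite := Set.finite_range Ψ
  have h1 : ((minpoly F a).rootSet L : Set L).ncard ≤ (Set.range Ψ).ncard :=
    Set.ncard_le_ncard hsub hfin
  have h2 : (Set.range Ψ).ncard ≤ Nat.card (((L ≃ₐ[F] L) ⧸ U) × (T : Set L)) := by
    rw [← Set.image_univ, ← Set.ncard_univ]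
    exact Set.ncard_image_le (Set.finite_univ)
  have h3 : Nat.card (((L ≃ₐ[F] L) ⧸ U) × (T : Set L)) = U.index * T.card := by
    rw [Nat.card_prod, ← Subgroup.index_eq_card, Nat.card_eq_fintype_card]
    simp
  have h4 : ((minpoly F a).rootSet L : Set L).ncard = (minpoly F a).natDegree := by
    rw [← hcard, ← Nat.card_coe_set_eq, Nat.card_eq_fintype_card]
  rw [← h4]
  exact le_trans h1 (le_trans h2 (le_of_eq h3))

/-- if `U` fixes `a`, the degree of `a` over `F` is at most `[G : U]`. -/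
theorem h89r_natDegree_le_of_fixed (U : Subgroup (L ≃ₐ[F] L)) [U.FiniteIndex] (a : L)
    (hU : ∀ σ ∈ U, σ a = a) : (minpoly F a).natDegree ≤ U.index := by
  have h := h89r_natDegree_le_of_orbit U a {a} (fun σ hσ => by
    rw [hU σ hσ]; exact Finset.mem_singleton_self a)
  simpa using h

/-- **F2 over `ℚ̄`.**  If the orbit of `a ∈ ℚ̄` under a subgroup `U` of finite index of `G_ℚ`
is contained in the finite set `T`, then `a` has degree at most `[G_ℚ : U] * #T` over `ℚ`. -/
theorem h89r_natDegree_le_of_orbit_Qbar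
    (U : Subgroup (AlgebraicClosure ℚ ≃ₐ[ℚ] AlgebraicClosure ℚ)) [U.FiniteIndex]
    (a : AlgebraicClosure ℚ) (T : Finset (AlgebraicClosure ℚ)) (hT : ∀ σ ∈ U, σ a ∈ T) :
    (minpoly ℚ a).natDegree ≤ U.index * T.card := by
  haveI : Algebra.IsAlgebraic ℚ (AlgebraicClosure ℚ) := AlgebraicClosure.isAlgebraic ℚ
  haveI : IsAlgClosure ℚ (AlgebraicClosure ℚ) := ⟨inferInstance, inferInstance⟩
  haveI : Normal ℚ (AlgebraicClosure ℚ) := IsAlgClosure.normal ℚ (AlgebraicClosure ℚ)
  haveI : IsGalois ℚ (AlgebraicClosure ℚ) := IsAlgClosure.isGalois ℚ (AlgebraicClosure ℚ)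
  exact h89r_natDegree_le_of_orbit U a T hT

/-- if `U` (of finite index in `G_ℚ`) fixes `a ∈ ℚ̄`, then `a` has degree at most `[G_ℚ : U]`. -/
theorem h89r_natDegree_le_of_fixed_Qbar
    (U : Subgroup (AlgebraicClosure ℚ ≃ₐ[ℚ] AlgebraicClosure ℚ)) [U.FiniteIndex]
    (a : AlgebraicClosure ℚ) (hU : ∀ σ ∈ U, σ a = a) :
    (minpoly ℚ a).natDegree ≤ U.index := by
  haveI : Algebra.IsAlgebraic ℚ (AlgebraicClosure ℚ) := AlgebraicClosure.isAlgebraic ℚ
  haveI : IsAlgClosure ℚ (AlgebraicClosure ℚ) := ⟨inferInstance, inferInstance⟩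
  haveI : Normal ℚ (AlgebraicClosure ℚ) := IsAlgClosure.normal ℚ (AlgebraicClosure ℚ)
  haveI : IsGalois ℚ (AlgebraicClosure ℚ) := IsAlgClosure.isGalois ℚ (AlgebraicClosure ℚ)
  exact h89r_natDegree_le_of_fixed U a hU

end Fermat.Agent.P7
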