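import Mathlib

/-!
# Wave 7 (S40), row T-ABEL-OCC, leaf FIN-RED / F3 (helper89, prefix `h89r_`): residues of
algebraic numbers of bounded degree

`K` a field of characteristic `0`, `A` a valuation subring of `K` with `p ∈ 𝔪_A` (`p` prime),
`k = A / 𝔪_A`.  Mathlib only.

* `h89r_charP` : `k` has characteristic `p`.
* `h89r_residue_root` : if `a ∈ A` is a root of a nonzero integer polynomial of degree `≤ d`,
  its residue is a root of a NONZERO polynomial of degree `≤ d` with coefficients in the prime
  field (the image of `ℤ`).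
* `h89r_finite_residues` : **the set of residues of the elements of `A` which are roots of a
  nonzero integer polynomial of degree `≤ d` is FINITE.**
* `h89r_finite_residues_minpoly` : the same for the elements `a ∈ A`, algebraic over `ℚ`, with
  `natDegree (minpoly ℚ a) ≤ d`.
-/

set_option autoImplicit false
set_option linter.style.haveILetI false

open Polynomial

noncomputable section

namespace Fermat.Agent.P7

variable {K : Type*} [Field K] (A : ValuationSubring K) {p : ℕ}

/-- the residue field of `A` has characteristic `p`. -/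
theorem h89r_charP (hp : p.Prime) (hpA : (p : K) ∈ A.nonunits) :
    CharP (IsLocalRing.ResidueField A) p := by
  rw [CharP.charP_iff_prime_eq_zero hp]
  have hmem : (p : K) ∈ A := (A.nonunits_le) hpA
  have h1 : ((p : ℕ) : A) ∈ IsLocalRing.maximalIdeal A := by
    rw [IsLocalRing.mem_maximalIdeal, mem_nonunits_iff]
    intro hu
    have h2 : ((⟨(p : K), hmem⟩ : A)) = ((p : ℕ) : A) := by
      apply Subtype.ext
      simp
    rw [← h2] at hu
    exact (A.mem_nonunits_iff_exists_mem_maximalIdeal.mp hpA).elim fun h3 h4 => by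
      rw [IsLocalRing.mem_maximalIdeal, mem_nonunits_iff] at h4
      exact h4 hu
  have h3 : IsLocalRing.residue A ((p : ℕ) : A) = 0 :=
    (IsLocalRing.residue_eq_zero_iff _).mpr h1
  rwa [map_natCast] at h3

/-- the polynomial over the residue field with given coefficients in `ZMod p`. -/
def h89rPoly (hp : p.Prime) (hpA : (p : K) ∈ A.nonunits) (d : ℕ)
    (c : Fin (d + 1) → ZMod p) : (IsLocalRing.ResidueField A)[X] :=
  haveI := h89r_charP A hp hpA
  ∑ i : Fin (d + 1), C (ZMod.castHom (dvd_refl p) (IsLocalRing.ResidueField A) (c i)) * X ^ (i : ℕ)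

theorem h89r_map_eq_poly (hp : p.Prime) (hpA : (p : K) ∈ A.nonunits) (d : ℕ) (g : ℤ[X])
    (hg : g.natDegree ≤ d) :
    g.map (Int.castRingHom (IsLocalRing.ResidueField A)) =
      h89rPoly A hp hpA d (fun i => ((g.coeff (i : ℕ) : ℤ) : ZMod p)) := by
  haveI := h89r_charP A hp hpA
  have hdeg : (g.map (Int.castRingHom (IsLocalRing.ResidueField A))).natDegree < d + 1 :=
    lt_of_le_of_lt (natDegree_map_le) (Nat.lt_succ_of_le hg)
  rw [h89rPoly]
  conv_lhs => rw [as_sum_range' _ (d + 1) hdeg]
  rw [← Fin.sum_univ_eq_sum_range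
    (fun i => monomial i ((g.map (Int.castRingHom (IsLocalRing.ResidueField A))).coeff i)) (d + 1)]
  refine Finset.sum_congr rfl fun i _ => ?_
  rw [coeff_map, ← C_mul_X_pow_eq_monomial, map_intCast]
  rfl

/-- the residue of a root in `A` of a nonzero integer polynomial of degree `≤ d` is a root of
one of the finitely many nonzero polynomials `h89rPoly c`. -/
theorem h89r_residue_root [CharZero K] (hp : p.Prime) (hpA : (p : K) ∈ A.nonunits) (d : ℕ)
    (a : A) (g : ℤ[X]) (hg0 : g ≠ 0) (hgd : g.natDegree ≤ d) (hga : aeval (a : K) g = 0) :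
    ∃ c : Fin (d + 1) → ZMod p, h89rPoly A hp hpA d c ≠ 0 ∧
      (h89rPoly A hp hpA d c).IsRoot (IsLocalRing.residue A a) := by
  haveI := h89r_charP A hp hpA
  -- pass to the primitive part
  have hprim : g.primPart.IsPrimitive := isPrimitive_primPart g
  have hroot : aeval (a : K) g.primPart = 0 := aeval_primPart_eq_zero hg0 hga
  have hdeg : g.primPart.natDegree ≤ d := by rw [natDegree_primPart]; exact hgd
  refine ⟨fun i => ((g.primPart.coeff (i : ℕ) : ℤ) : ZMod p), ?_, ?_⟩
  · rw [← h89r_map_eq_poly A hp hpA d g.primPart hdeg]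
    intro h0
    have hdvd : C (p : ℤ) ∣ g.primPart := by
      rw [C_dvd_iff_dvd_coeff]
      intro i
      have h1 : (g.primPart.map (Int.castRingHom (IsLocalRing.ResidueField A))).coeff i = 0 := by
        rw [h0, coeff_zero]
      rw [coeff_map, eq_intCast] at h1
      exact (CharP.intCast_eq_zero_iff (IsLocalRing.ResidueField A) p _).mp h1
    have hu : IsUnit (p : ℤ) := hprim (p : ℤ) hdvd
    have := Int.isUnit_iff.mp hu
    have hp1 := hp.one_lt
    omega
  · rw [← h89r_map_eq_poly A hp hpA d g.primPart hdeg, IsRoot.def, eval_map]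
    have h1 : eval₂ (Int.castRingHom A) a g.primPart = 0 := by
      apply Subtype.ext
      have h2 := hom_eval₂ g.primPart (Int.castRingHom A) A.subtype a
      have h3 : A.subtype.comp (Int.castRingHom A) = Int.castRingHom K := RingHom.ext_int _ _
      rw [h3] at h2
      rw [show ((eval₂ (Int.castRingHom A) a g.primPart : A) : K) =
        A.subtype (eval₂ (Int.castRingHom A) a g.primPart) from rfl, h2]
      rw [aeval_def, algebraMap_int_eq] at hroot
      exact hroot
    have h4 := hom_eval₂ g.primPart (Int.castRingHom A) (IsLocalRing.residue A) a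
    have h5 : (IsLocalRing.residue A).comp (Int.castRingHom A) =
        Int.castRingHom (IsLocalRing.ResidueField A) := RingHom.ext_int _ _
    rw [h5, h1, map_zero] at h4
    exact h4.symm

/-- **F3.**  The residues of the elements of `A` which are roots of a nonzero integer polynomial
of degree `≤ d` form a finite set. -/
theorem h89r_finite_residues [CharZero K] (hp : p.Prime) (hpA : (p : K) ∈ A.nonunits) (d : ℕ) :
    {x : IsLocalRing.ResidueField A | ∃ a : A, IsLocalRing.residue A a = x ∧
      ∃ g : ℤ[X], g ≠ 0 ∧ g.natDegree ≤ d ∧ aeval (a : K) g = 0}.Finite := by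
  classical
  haveI : NeZero p := ⟨hp.ne_zero⟩
  have hfin : (⋃ h ∈ Set.range (h89rPoly A hp hpA d),
      {x : IsLocalRing.ResidueField A | x ∈ h.roots}).Finite := by
    refine Set.Finite.biUnion (Set.finite_range _) fun h _ => ?_
    exact Multiset.finite_toSet h.roots
  refine hfin.subset ?_
  rintro x ⟨a, rfl, g, hg0, hgd, hga⟩
  obtain ⟨c, hc0, hc⟩ := h89r_residue_root A hp hpA d a g hg0 hgd hga
  refine Set.mem_biUnion ⟨c, rfl⟩ ?_
  exact (mem_roots hc0).mpr hc

/-- **F3, minimal polynomial form.**  The residues of the elements `a ∈ A`, algebraic over `ℚ`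
with `natDegree (minpoly ℚ a) ≤ d`, form a finite set. -/
theorem h89r_finite_residues_minpoly [CharZero K] [Algebra ℚ K] (hp : p.Prime)
    (hpA : (p : K) ∈ A.nonunits) (d : ℕ) :
    {x : IsLocalRing.ResidueField A | ∃ a : A, IsLocalRing.residue A a = x ∧
      IsAlgebraic ℚ (a : K) ∧ (minpoly ℚ (a : K)).natDegree ≤ d}.Finite := by
  refine (h89r_finite_residues A hp hpA d).subset ?_
  rintro x ⟨a, rfl, halg, hd⟩
  refine ⟨a, rfl, IsLocalization.integerNormalization (nonZeroDivisors ℤ) (minpoly ℚ (a : K)),
    ?_, ?_, ?_⟩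
  · rw [Ne, IsFractionRing.integerNormalization_eq_zero_iff]
    exact minpoly.ne_zero halg.isIntegral
  · obtain ⟨b, -, hb⟩ := IsLocalization.integerNormalization_spec (nonZeroDivisors ℤ)
      (minpoly ℚ (a : K))
    have h1 : (IsLocalization.integerNormalization (nonZeroDivisors ℤ)
        (minpoly ℚ (a : K))).natDegree =
        ((IsLocalization.integerNormalization (nonZeroDivisors ℤ)
          (minpoly ℚ (a : K))).map (algebraMap ℤ ℚ)).natDegree :=
      (natDegree_map_eq_of_injective (algebraMap ℤ ℚ).injective_int _).symm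
    rw [h1, hb]
    exact le_trans (natDegree_smul_le _ _) hd
  · exact IsLocalization.integerNormalization_aeval_eq_zero (nonZeroDivisors ℤ) _
      (minpoly.aeval ℚ (a : K))

end Fermat.Agent.P7
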