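import Fermat.Agent.S37.Inertia
import Fermat.Agent.P7.H89FinOrb
import Fermat.Agent.P7.H89FinRes

/-!
# Wave 7 (S40), row T-A2-FINRED, leaf F6 (helper89, prefix `h89s_`): finitely many reductions of
places with small Galois orbits

`M` a level, `A` a valuation subring of `ℚ̄` over `p`, `U ≤ G_ℚ` a subgroup of finite index.

Inputs (leaf F4, helper69, row T-ABEL-FIN-F4; stated here as hypotheses):

* `H89sFinAbove M A` : above every residue of `j` there are finitely many classes of `SameRed`;
* `H89sInfFin M A` : finitely many classes of `SameRed` of places not reducing to a finite point.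

Output:

* `h89s_degree_jval` : a finite place `v` whose `U`-orbit lies in a finite set `T` has
  `j(v)` of degree `≤ [G_ℚ : U] * #T` over `ℚ`;
* `h89s_finite_classes` : **F6**: there is a finite set `S` of places such that every place `v`
  whose `U`-orbit is contained in a set of at most `g` places has the same reduction as a
  place of `S`.
-/

set_option autoImplicit false
set_option linter.unusedSectionVars false
set_option linter.style.haveILetI false

open AlgebraicCurve ModularCurve

noncomputable section

namespace Fermat.Agent.P7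

open Fermat.Agent.S37 Fermat.Agent.S37.GalI

variable (M : ℕ) [NeZero M] (A : ValuationSubring Kbar)

/-- **F4 (fin)**: above every residue of `j` there are finitely many classes of `SameRed`. -/
def H89sFinAbove : Prop :=
  ∀ a ∈ A, ∃ S : Finset (Place Kbar (FF M)), ∀ v : Place Kbar (FF M),
    (∃ b ∈ A, ValueAt v (jB M) b ∧ b - a ∈ A.nonunits) → ∃ w ∈ S, SameRed A v w

/-- **F4 (inf)**: finitely many classes of `SameRed` of places which do not reduce to a finite
point of the `j`-line. -/
def H89sInfFin : Prop :=
  ∃ S : Finset (Place Kbar (FF M)), ∀ v : Place Kbar (FF M),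
    ¬ IsFinAt A v → ∃ w ∈ S, SameRed A v w

variable {M A}

/-- the `j`-value of a place (junk value `0` if `j` has a pole). -/
def h89sJval (v : Place Kbar (FF M)) : Kbar :=
  open Classical in if h : ∃ c : Kbar, ValueAt v (jB M) c then h.choose else 0

theorem h89s_jval_eq {v : Place Kbar (FF M)} {b : Kbar} (h : ValueAt v (jB M) b) :
    h89sJval v = b := by
  classical
  have hex : ∃ c : Kbar, ValueAt v (jB M) c := ⟨b, h⟩
  rw [h89sJval, dif_pos hex]
  exact valueAt_unique hex.choose_spec h

/-- a place whose `U`-orbit lies in the finite set `T` has a `j`-value of degree at most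
`[G_ℚ : U] * #T`. -/
theorem h89s_degree_jval (U : Subgroup GQ) [U.FiniteIndex] {v : Place Kbar (FF M)}
    (T : Finset (Place Kbar (FF M))) (hT : ∀ σ ∈ U, gal M σ • v ∈ T)
    {b : Kbar} (hb : ValueAt v (jB M) b) :
    (minpoly ℚ b).natDegree ≤ U.index * T.card := by
  classical
  have h1 := h89r_natDegree_le_of_orbit_Qbar U b (T.image h89sJval) (fun σ hσ => by
    have h2 := valueAt_gal σ hb
    rw [gal_smul_jB] at h2
    rw [← h89s_jval_eq h2]
    exact Finset.mem_image_of_mem _ (hT σ hσ))
  exact le_trans h1 (Nat.mul_le_mul_left _ Finset.card_image_le)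

/-- **F6.**  Finitely many reductions of places with `U`-orbits of size `≤ g`. -/
theorem h89s_finite_classes {p : ℕ} (hp : p.Prime) (hA : A.LiesOverPrime p)
    (hfin : H89sFinAbove M A) (hinf : H89sInfFin M A)
    (U : Subgroup GQ) [U.FiniteIndex] (g : ℕ) :
    ∃ S : Finset (Place Kbar (FF M)), ∀ v : Place Kbar (FF M),
      (∃ T : Finset (Place Kbar (FF M)), T.card ≤ g ∧ ∀ σ ∈ U, gal M σ • v ∈ T) →
        ∃ w ∈ S, SameRed A v w := by
  classical
  obtain ⟨Sinf, hSinf⟩ := hinf
  -- the finite set of residues
  have hR := h89r_finite_residues_minpoly (K := Kbar) A hp hA (U.index * g)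
  -- a lift of every residue, and the finite set above it
  have hlift : ∀ x : IsLocalRing.ResidueField A, ∃ a : A, IsLocalRing.residue A a = x :=
    fun x => IsLocalRing.residue_surjective x
  choose lift hlift' using hlift
  have hSx : ∀ x : IsLocalRing.ResidueField A, ∃ S : Finset (Place Kbar (FF M)),
      ∀ v : Place Kbar (FF M),
        (∃ b ∈ A, ValueAt v (jB M) b ∧ b - ((lift x : A) : Kbar) ∈ A.nonunits) →
          ∃ w ∈ S, SameRed A v w := fun x => hfin _ (lift x).2
  choose Sx hSx' using hSx
  refine ⟨Sinf ∪ hR.toFinset.biUnion Sx, ?_⟩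
  rintro v ⟨T, hTg, hT⟩
  by_cases hv : IsFinAt A v
  · obtain ⟨b, hbA, hb⟩ := hv
    have hdeg : (minpoly ℚ b).natDegree ≤ U.index * g :=
      le_trans (h89s_degree_jval U T hT hb) (Nat.mul_le_mul_left _ hTg)
    have halg : IsAlgebraic ℚ b := by
      haveI : Algebra.IsAlgebraic ℚ (AlgebraicClosure ℚ) := AlgebraicClosure.isAlgebraic ℚ
      exact Algebra.IsAlgebraic.isAlgebraic b
    set x : IsLocalRing.ResidueField A := IsLocalRing.residue A ⟨b, hbA⟩ with hx
    have hxR : x ∈ hR.toFinset := by
      rw [Set.Finite.mem_toFinset]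
      exact ⟨⟨b, hbA⟩, rfl, halg, hdeg⟩
    have hdiff : b - ((lift x : A) : Kbar) ∈ A.nonunits := by
      rw [ValuationSubring.mem_nonunits_iff_exists_mem_maximalIdeal]
      refine ⟨A.sub_mem hbA (lift x).2, ?_⟩
      have h3 : IsLocalRing.residue A (⟨b, hbA⟩ - lift x) = 0 := by
        rw [map_sub, hlift' x, sub_self]
      exact (IsLocalRing.residue_eq_zero_iff _).mp h3
    obtain ⟨w, hw, hvw⟩ := hSx' x v ⟨b, hbA, hb, hdiff⟩
    exact ⟨w, Finset.mem_union_right _ (Finset.mem_biUnion.mpr ⟨x, hxR, hw⟩), hvw⟩
  · obtain ⟨w, hw, hvw⟩ := hSinf v hv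
    exact ⟨w, Finset.mem_union_left _ hw, hvw⟩

end Fermat.Agent.P7
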