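import Fermat.Agent.P5.H68RRFin
import Fermat.Agent.S24.DiffPlace
import Fermat.Prelude.Def_AlgebraicCurve_BaseChangeGalois

/-!
# Wave 7 (S40), row T-A2-FINRED, leaf F1 (helper89, prefix `h89t_`): the canonical effective
representative of a divisor class, abstract form

`F / K` a function field with the basic facts `H13rBase K F` and a weak genus `g`
(`H13rIsGenus K F g`), `Q₀` a place, `U` a set of semilinear automorphisms fixing `Q₀`.

* `h89t_family` : an effective divisor of degree `n` is a sum of `n` places.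
* `h89t_rep` : **F1**: every class `w ∈ Pic⁰` fixed by `U` is `[∑_{i < g} (P i - Q₀)]` for a
  family of `g` places `P i` PERMUTED by `U`.

Proof: `m` = the least integer with `L(D + m Q₀) ≠ 0` (`m ≤ g` by Riemann); then
`ℓ(D + m Q₀) = 1`, so the effective divisor `E ∼ D + m Q₀` is unique, hence `U`-stable; pad with
`g - m` copies of `Q₀`.
-/

set_option autoImplicit false
set_option linter.unusedSectionVars false
set_option linter.style.haveILetI false

open AlgebraicCurve

noncomputable section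

namespace Fermat.Agent.P7

open Fermat.Agent.P5

variable {K F : Type*} [Field K] [Field F] [Algebra K F]

/-- an effective divisor of degree `0` is zero. -/
theorem h89t_eq_zero_of_degree (hB : H13rBase K F) {E : Divisor K F} (hE : 0 ≤ E)
    (hdeg : Divisor.degree E = 0) : E = 0 := by
  by_contra hne
  have := h68r_degree_pos hB.deg_one hE hne
  omega

/-- an effective divisor of degree `n` is the sum of `n` places. -/
theorem h89t_family (hB : H13rBase K F) : ∀ (n : ℕ) (E : Divisor K F), 0 ≤ E →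
    Divisor.degree E = n → ∃ P : Fin n → Place K F, ∑ i, Finsupp.single (P i) (1 : ℤ) = E := by
  classical
  intro n
  induction n with
  | zero =>
    intro E hE hdeg
    refine ⟨Fin.elim0, ?_⟩
    rw [h89t_eq_zero_of_degree hB hE (by simpa using hdeg)]
    simp
  | succ n ih =>
    intro E hE hdeg
    have hne : E ≠ 0 := by
      rintro rfl
      rw [map_zero] at hdeg
      have : (0 : ℤ) < ((n + 1 : ℕ) : ℤ) := by positivity
      omega
    obtain ⟨v, hv⟩ : ∃ v, E v ≠ 0 := by
      by_contra hcon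
      push Not at hcon
      exact hne (Finsupp.ext hcon)
    have h0 : (0 : ℤ) ≤ E v := Finsupp.le_def.mp hE v
    have hE' : 0 ≤ E - Finsupp.single v (1 : ℤ) := by
      rw [Finsupp.le_def]
      intro w
      rw [Finsupp.coe_zero, Pi.zero_apply, Finsupp.sub_apply, Finsupp.single_apply]
      have hw : (0 : ℤ) ≤ E w := Finsupp.le_def.mp hE w
      split_ifs with h
      · subst h
        omega
      · omega
    have hdeg' : Divisor.degree (E - Finsupp.single v (1 : ℤ)) = n := by
      rw [map_sub, hdeg, Divisor.degree_single, hB.deg_one]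
      push_cast
      ring
    obtain ⟨P', hP'⟩ := ih _ hE' hdeg'
    refine ⟨Fin.cons v P', ?_⟩
    rw [Fin.sum_univ_succ]
    simp only [Fin.cons_zero, Fin.cons_succ]
    rw [hP']
    abel

/-- the value of `∑ single (P i) 1` at a place where it does not vanish. -/
theorem h89t_exists_of_ne_zero {n : ℕ} (P : Fin n → Place K F) {v : Place K F}
    (h : (∑ i, Finsupp.single (P i) (1 : ℤ)) v ≠ 0) : ∃ j, P j = v := by
  classical
  by_contra hcon
  push Not at hcon
  apply h
  rw [Finsupp.finsetSum_apply]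
  refine Finset.sum_eq_zero fun i _ => ?_
  rw [Finsupp.single_apply, if_neg (hcon i)]

theorem h89t_pos_of_mem {n : ℕ} (P : Fin n → Place K F) (i : Fin n) :
    (∑ j, Finsupp.single (P j) (1 : ℤ)) (P i) ≠ 0 := by
  classical
  rw [Finsupp.finsetSum_apply]
  have h1 : ∀ j ∈ (Finset.univ : Finset (Fin n)),
      (0 : ℤ) ≤ (Finsupp.single (P j) (1 : ℤ)) (P i) := by
    intro j _
    rw [Finsupp.single_apply]
    split_ifs <;> simp
  have h2 : (Finsupp.single (P i) (1 : ℤ)) (P i) ≤
      ∑ j, (Finsupp.single (P j) (1 : ℤ)) (P i) :=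
    Finset.single_le_sum h1 (Finset.mem_univ i)
  rw [Finsupp.single_eq_same] at h2
  omega

/-- **F1, abstract form.**  Every class fixed by `U` is the class of `∑ (P i - Q₀)` for a family
of `g` places permuted by `U`. -/
theorem h89t_rep (hB : H13rBase K F) {g : ℕ} (hg : H13rIsGenus K F g)
    (U : Set (SemilinearAut K F)) (Q₀ : Place K F) (hQ₀ : ∀ σ ∈ U, σ • Q₀ = Q₀)
    (w : Pic0 K F) (hw : ∀ σ ∈ U, σ • w = w) :
    ∃ P : Fin g → Place K F, (∀ σ ∈ U, ∀ i, ∃ j, σ • P i = P j) ∧
      ∃ D : Divisor.degZero (K := K) (F := F),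
        (D : Divisor K F) = ∑ i, (Finsupp.single (P i) (1 : ℤ) - Finsupp.single Q₀ (1 : ℤ)) ∧
        w = Pic0.mk D := by
  classical
  obtain ⟨hfinite, hstep, -, hzero⟩ := h68r_fin K F hB
  have hinv := h68r_inv K F
  obtain ⟨-, hlarge⟩ := h68r_large K F hB g hg
  obtain ⟨D₀, rfl⟩ := Pic0.mk_surjective w
  have hD₀ : Divisor.degree (D₀ : Divisor K F) = 0 := D₀.2
  have hdegQ : Divisor.degree (Finsupp.single Q₀ (1 : ℤ)) = 1 := by
    rw [Divisor.degree_single, hB.deg_one]
    norm_num
  -- the divisors `D₀ + m Q₀`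
  obtain ⟨Dm, hDm⟩ : ∃ Dm : ℕ → Divisor K F,
      ∀ m, Dm m = (D₀ : Divisor K F) + m • Finsupp.single Q₀ (1 : ℤ) := ⟨_, fun _ => rfl⟩
  have hdegm : ∀ m : ℕ, Divisor.degree (Dm m) = m := by
    intro m
    rw [hDm, map_add, hD₀, zero_add, map_nsmul, hdegQ]
    simp
  have hex : ∃ m, riemannRochSpace (Dm m) ≠ ⊥ := ⟨g, hlarge _ (by rw [hdegm])⟩
  obtain ⟨m, hmne, hmin⟩ : ∃ m, riemannRochSpace (Dm m) ≠ ⊥ ∧
      ∀ k < m, riemannRochSpace (Dm k) = ⊥ :=
    ⟨Nat.find hex, Nat.find_spec hex, fun k hk => not_not.mp (Nat.find_min hex hk)⟩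
  have hmg : m ≤ g := by
    by_contra hcon
    push Not at hcon
    exact hlarge _ (by rw [hdegm]) (hmin g hcon)
  obtain ⟨f, hfL, hf0⟩ := Submodule.exists_mem_ne_zero_of_ne_bot hmne
  obtain ⟨Df, hDf, hDfdeg⟩ := hB.pd f hf0
  obtain ⟨E, hE⟩ : ∃ E : Divisor K F, E = Dm m + Df := ⟨_, rfl⟩
  have hEv : ∀ v, E v = Dm m v + v.ord f := fun v => by rw [hE, Finsupp.add_apply, hDf]
  have hE0 : 0 ≤ E := by
    rw [Finsupp.le_def]
    intro v
    have h1 := (mem_riemannRochSpace_iff.mp hfL v).resolve_left hf0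
    rw [hEv, Finsupp.coe_zero, Pi.zero_apply]
    omega
  have hEdeg : Divisor.degree E = m := by rw [hE, map_add, hdegm, hDfdeg, add_zero]
  -- `ℓ(E) ≤ 1`
  have hlE : h13rL K F E ≤ 1 := by
    rcases Nat.eq_zero_or_pos m with h0 | hpos
    · have hE00 : E = 0 := h89t_eq_zero_of_degree hB hE0 (by rw [hEdeg, h0]; rfl)
      rw [hE00, hzero]
    · rw [hinv (Dm m) E f hf0 hEv]
      obtain ⟨k, hk⟩ : ∃ k, m = k + 1 := ⟨m - 1, by omega⟩
      have e1 : Dm m = Dm k + Finsupp.single Q₀ (1 : ℤ) := by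
        rw [hDm, hDm, hk, add_smul, one_smul, add_assoc]
      have h2 := hstep (Dm k) Q₀
      rw [← e1] at h2
      have h3 : h13rL K F (Dm k) = 0 := by
        unfold h13rL
        rw [hmin k (by omega), finrank_bot]
      omega
  -- uniqueness of the effective divisor
  have huniq : ∀ E' : Divisor K F, 0 ≤ E' → E' - E ∈ Divisor.principal (K := K) (F := F) →
      E' = E := by
    rintro E' hE' ⟨h, hh0, hh⟩
    have h1L : (1 : F) ∈ riemannRochSpace E := by
      rw [mem_riemannRochSpace_iff]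
      intro v
      right
      have := Finsupp.le_def.mp hE0 v
      rw [Finsupp.coe_zero, Pi.zero_apply] at this
      rw [Place.ord_one]
      omega
    have hhL : h ∈ riemannRochSpace E := by
      rw [mem_riemannRochSpace_iff]
      intro v
      right
      have h1 := hh v
      rw [Finsupp.sub_apply] at h1
      have h2 := Finsupp.le_def.mp hE' v
      rw [Finsupp.coe_zero, Pi.zero_apply] at h2
      omega
    haveI := hfinite E
    have hle : Module.finrank K (riemannRochSpace E) ≤ 1 := hlE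
    obtain ⟨v₀, hv₀⟩ := finrank_le_one_iff.mp hle
    obtain ⟨a, ha⟩ := hv₀ ⟨1, h1L⟩
    obtain ⟨b, hb⟩ := hv₀ ⟨h, hhL⟩
    have ha0 : a ≠ 0 := by
      rintro rfl
      rw [zero_smul] at ha
      have := congrArg Subtype.val ha
      exact one_ne_zero this.symm
    have hconst : h = algebraMap K F (b * a⁻¹) := by
      have h3 : (⟨h, hhL⟩ : riemannRochSpace E) = (b * a⁻¹) • ⟨1, h1L⟩ := by
        rw [← ha, ← hb, smul_smul, mul_assoc, inv_mul_cancel₀ ha0, mul_one]
      have h4 := congrArg Subtype.val h3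
      rw [Submodule.coe_smul, Algebra.smul_def, mul_one] at h4
      exact h4
    ext v
    have h1 := hh v
    rw [Finsupp.sub_apply, hconst, Fermat.Agent.S24.DiffPlace.ord_algebraMap] at h1
    omega
  -- the class of `E - m Q₀`
  have hDEmem : E - m • Finsupp.single Q₀ (1 : ℤ) ∈ Divisor.degZero (K := K) (F := F) := by
    rw [Divisor.mem_degZero, map_sub, hEdeg, map_nsmul, hdegQ]
    simp
  obtain ⟨DE, hDE⟩ : ∃ DE : Divisor.degZero (K := K) (F := F),
      (DE : Divisor K F) = E - m • Finsupp.single Q₀ (1 : ℤ) := ⟨⟨_, hDEmem⟩, rfl⟩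
  have hmk : Pic0.mk D₀ = Pic0.mk DE := by
    unfold Pic0.mk
    rw [QuotientAddGroup.eq, AddSubgroup.mem_addSubgroupOf, AddSubgroup.coe_add,
      AddSubgroup.coe_neg, hDE, hE, hDm]
    refine ⟨f, hf0, fun v => ?_⟩
    rw [← hDf v]
    congr 1
    abel
  -- stability under `U`
  have hstab : ∀ σ ∈ U, σ • E = E := by
    intro σ hσ
    refine huniq _ ?_ ?_
    · rw [Finsupp.le_def]
      intro v
      rw [SemilinearAut.divisor_smul_apply]
      exact Finsupp.le_def.mp hE0 _
    · have h1 := hw σ hσ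
      rw [hmk, SemilinearAut.pic0_smul_mk] at h1
      unfold Pic0.mk at h1
      rw [QuotientAddGroup.eq, AddSubgroup.mem_addSubgroupOf, AddSubgroup.coe_add,
        AddSubgroup.coe_neg, SemilinearAut.coe_degZeroSMulHom, hDE, smul_sub, smul_comm σ m,
        SemilinearAut.smul_single, hQ₀ σ hσ] at h1
      have h2 := (Divisor.principal (K := K) (F := F)).neg_mem h1
      have e : -(-(σ • E - m • Finsupp.single Q₀ (1 : ℤ)) + (E - m • Finsupp.single Q₀ (1 : ℤ)))
          = σ • E - E := by abel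
      rwa [e] at h2
  -- the padded divisor
  obtain ⟨Dp, hDp⟩ : ∃ Dp : Divisor K F, Dp = E + (g - m) • Finsupp.single Q₀ (1 : ℤ) :=
    ⟨_, rfl⟩
  have hDp0 : 0 ≤ Dp := by
    rw [hDp, Finsupp.le_def]
    intro v
    have h1 := Finsupp.le_def.mp hE0 v
    rw [Finsupp.coe_zero, Pi.zero_apply] at h1 ⊢
    rw [Finsupp.add_apply, Finsupp.smul_apply, Finsupp.single_apply]
    split_ifs <;> simp <;> omega
  have hDpdeg : Divisor.degree Dp = g := by
    rw [hDp, map_add, hEdeg, map_nsmul, hdegQ, nsmul_eq_mul, mul_one, Nat.cast_sub hmg]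
    ring
  obtain ⟨P, hP⟩ := h89t_family hB g Dp hDp0 hDpdeg
  have hDpstab : ∀ σ ∈ U, σ • Dp = Dp := by
    intro σ hσ
    rw [hDp, smul_add, hstab σ hσ, smul_comm σ (g - m), SemilinearAut.smul_single, hQ₀ σ hσ]
  refine ⟨P, fun σ hσ i => ?_, DE, ?_, hmk⟩
  · have h1 : Dp (σ • P i) ≠ 0 := by
      have h2 := SemilinearAut.divisor_smul_apply_smul σ Dp (P i)
      rw [hDpstab σ hσ] at h2
      rw [h2, ← hP]
      exact h89t_pos_of_mem P i
    rw [← hP] at h1
    obtain ⟨j, hj⟩ := h89t_exists_of_ne_zero P h1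
    exact ⟨j, hj.symm⟩
  · rw [hDE, Finset.sum_sub_distrib, hP, hDp, Finset.sum_const, Finset.card_univ,
      Fintype.card_fin]
    have e : g • Finsupp.single Q₀ (1 : ℤ) =
        (g - m) • Finsupp.single Q₀ (1 : ℤ) + m • Finsupp.single Q₀ (1 : ℤ) := by
      rw [← add_smul, Nat.sub_add_cancel hmg]
    rw [e]
    abel

end Fermat.Agent.P7
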