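import Fermat.Agent.P7.H26IntIface
import Fermat.Agent.Red.GV.Asm1

/-!
# P7 (wave 7), block (A) DLOG at the level `M`, leaf DL4-M-CONST, piece (c) (helper89,
prefix `h89i_`)

`h89i_int : H26iIntAbs → H26iInt` : the elements of the chart at infinity `modelInf M A`
(functions integral over `A[1/j]`) have `A`-integral `q`-expansions, given the elementary
statement INT-ABS on Laurent series (frozen Props of `P7/H26IntIface.lean`).

Proof: `f ∈ modelInf M A` is Gauss-integral (`modelInf_le_gaussV`), and its monic equation over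
`A[1/j]` is pushed to a monic equation over `A((q))` along `Y ↦ (1/j)_A`
(`exists_jinvA`, `embA_comp_evalC`).

Every declaration is a proved theorem; nothing is assumed.
-/

set_option autoImplicit false
set_option linter.unusedSectionVars false
set_option linter.unusedVariables false

open AlgebraicCurve ModularCurve

noncomputable section

namespace Fermat.Agent.P7

open Fermat.Agent.S37 Fermat.Agent.Red.GV Fermat.Agent.Red.GV.Asm Fermat.Agent.P5 Fermat.Agent.S28

/-- integrality over `A[1/j]` gives integrality over `A((q))`. -/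
theorem h89i_integral_of_inf (A : ValuationSubring Kbar) (x : LaurentSeries Kbar)
    (hx : (evalA A (jK Kbar)⁻¹).IsIntegralElem x) : (embA A).IsIntegralElem x := by
  obtain ⟨p, hp, hpx⟩ := hx
  obtain ⟨y, -, hy, -⟩ := exists_jinvA A (IsLocalRing.residue A)
  refine ⟨p.map (evalC y), hp.map _, ?_⟩
  rw [Polynomial.eval₂_map, embA_comp_evalC, hy]
  exact hpx

/-- integrality over `A[j]` gives integrality over `A((q))`. -/
theorem h89i_integral_of_fin (A : ValuationSubring Kbar) (x : LaurentSeries Kbar)
    (hx : (evalA A (jK Kbar)).IsIntegralElem x) : (embA A).IsIntegralElem x := by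
  obtain ⟨p, hp, hpx⟩ := hx
  refine ⟨p.map (evalC (jqModC A)), hp.map _, ?_⟩
  rw [Polynomial.eval₂_map, embA_comp_evalC, embA_jqModC]
  exact hpx

/-- **piece (c)**: INT-ABS gives INT (chart at infinity). -/
theorem h89i_int (h : H26iIntAbs) : H26iInt := by
  intro ℓ hℓ M _ hM A hA f hf
  exact h A (f : LaurentSeries Kbar)
    ((mem_gaussV_iff A M f).1 (modelInf_le_gaussV A M hℓ hM hA hf))
    (h89i_integral_of_inf A _ ((mem_modelInf_iff M A f).1 hf))

/-- INT-ABS gives INT on the finite chart as well. -/
theorem h89i_int_fin (h : H26iIntAbs) (ℓ : ℕ) (hℓ : ℓ.Prime) (M : ℕ) [NeZero M]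
    (hM : ¬ ℓ ∣ M) (A : ValuationSubring Kbar) (hA : A.LiesOverPrime ℓ) (f : FF M)
    (hf : f ∈ modelFin M A) :
    ∃ y : LaurentSeries A, embA A y = ((f : FF M) : LaurentSeries Kbar) :=
  h A (f : LaurentSeries Kbar)
    ((mem_gaussV_iff A M f).1 (modelFin_le_gaussV A M hℓ hM hA hf))
    (h89i_integral_of_fin A _ ((mem_modelFin_iff M A f).1 hf))

end Fermat.Agent.P7
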