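import Fermat.Agent.P7.H89IntC
import Fermat.Agent.P7.H1Int
import Fermat.Agent.P7.H37GapM

/-!
# P7 (wave 7), block (A) DLOG at the level `M`: INT, unconditional (helper89, prefix `h89i_`)

`ℓ` a prime, `M` ANY level prime to `ℓ`, `A` a valuation subring of `ℚ̄` over `ℓ`, `Q` the
`q`-order place of `FF M`.

* `h89i_int_all : H26iInt` : the elements of the chart at infinity have `A`-integral
  `q`-expansions (landed INT-ABS `h1i_intAbs` of helper1 + piece (c) `h89i_int`).
* `h89i_int_modelFin` : the same on the finite chart.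
* `h89i_intM` : **INT(M)**: a Gauss-integral function of level `M` which is regular off the
  `q`-order place has its `q`-expansion in `embA (A((q)))`, and its reduction is the
  coefficientwise reduction.
* `h89i_intM_coeff` : coefficient form: `(gaussR f).coeff i = residue (a i)` with `a i ∈ A` the
  `i`-th coefficient of the `q`-expansion of `f`.

Every declaration is a proved theorem; nothing is assumed.
-/

set_option autoImplicit false
set_option linter.unusedSectionVars false
set_option linter.unusedVariables false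
set_option linter.style.haveILetI false

open AlgebraicCurve ModularCurve IsLocalRing

noncomputable section

namespace Fermat.Agent.P7

open Fermat.Agent.S37 Fermat.Agent.Red.GV Fermat.Agent.Red.GV.Asm Fermat.Agent.P5
  Fermat.Agent.S28

/-- **INT**, unconditional. -/
theorem h89i_int_all : H26iInt := h89i_int h1i_intAbs

/-- INT on the finite chart, unconditional. -/
theorem h89i_int_modelFin {ℓ : ℕ} (hℓ : ℓ.Prime) (M : ℕ) [NeZero M]
    (hM : ¬ ℓ ∣ M) (A : ValuationSubring Kbar) (hA : A.LiesOverPrime ℓ) (f : FF M)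
    (hf : f ∈ modelFin M A) :
    ∃ y : LaurentSeries A, embA A y = ((f : FF M) : LaurentSeries Kbar) :=
  h89i_int_fin h1i_intAbs ℓ hℓ M hM A hA f hf

variable {ℓ : ℕ} (M : ℕ) [NeZero M] (A : ValuationSubring Kbar)

/-- **INT(M)**: a Gauss-integral function regular off the `q`-order place has an `A`-integral
`q`-expansion, and its reduction is coefficientwise. -/
theorem h89i_intM (hℓ : ℓ.Prime) (hM : ¬ ℓ ∣ M) (hA : A.LiesOverPrime ℓ)
    (Q : Place Kbar (FF M))
    (hQ : ∀ f : FF M, f ≠ 0 → ((f : FF M) : LaurentSeries Kbar).order = Q.ord f)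
    (f : FF M) (hfV : f ∈ gaussV A M)
    (hf : ∀ v : Place Kbar (FF M), v ≠ Q → 0 ≤ v.ord f) :
    ∃ y : LaurentSeries A, embA A y = ((f : FF M) : LaurentSeries Kbar) ∧
      gaussR A M ⟨f, hfV⟩ = redA (IsLocalRing.residue A) y := by
  have key : ∃ y : LaurentSeries A, embA A y = ((f : FF M) : LaurentSeries Kbar) := by
    have hj0 : jB M ≠ 0 := Fermat.Agent.Red.ModelO.h85_jB_ne_zero M
    have htV : (jB M)⁻¹ ∈ gaussV A M := jB_inv_mem_gaussV A M hℓ hM hA
    rcases eq_or_ne f 0 with rfl | hf0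
    · refine ⟨0, ?_⟩
      rw [map_zero]
      exact (map_zero (modularFunctionFieldBar M).val.toRingHom).symm
    obtain ⟨n, hfQ⟩ : ∃ n : ℕ, -(n : ℤ) ≤ Q.ord f := by
      refine ⟨(-(Q.ord f)).toNat, ?_⟩
      have := Int.self_le_toNat (-(Q.ord f))
      omega
    have hgV : (jB M)⁻¹ ^ n * f ∈ gaussV A M :=
      Subring.mul_mem _ (Subring.pow_mem _ htV n) hfV
    have hQt : Q.ord (jB M)⁻¹ = 1 := by
      rw [← hQ _ (inv_ne_zero hj0)]
      have e : ((((jB M)⁻¹ : FF M)) : LaurentSeries Kbar) = (jqModC Kbar)⁻¹ := by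
        show _ = (jK Kbar)⁻¹
        rw [← coe_jB M]
        rfl
      rw [e]
      have h2 := h37g_pe_order_map_inv (RingHom.id (LaurentSeries Kbar)) (jqModC Kbar)
      simp only [RingHom.id_apply] at h2
      rw [h2, h37g_order_jqModC]
      norm_num
    have hgInf : (jB M)⁻¹ ^ n * f ∈ modelInf M A := by
      refine h58h_mem_modelInf_of_top M A hℓ hM hA hgV (h58h_regular_inf M _ (fun v hv => ?_))
      apply Fermat.Agent.S24.DiffPlace.mem_of_ord_nonneg v
      rw [h58h_ord_pow_mul M v n (inv_ne_zero hj0) hf0]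
      have h1 : 0 ≤ v.ord (jB M)⁻¹ := Fermat.Agent.S24.DiffPlace.ord_nonneg_of_mem v hv
      by_cases hvQ : v = Q
      · subst hvQ
        rw [hQt]
        omega
      · have h2 := hf v hvQ
        have h3 : 0 ≤ (n : ℤ) * v.ord (jB M)⁻¹ := mul_nonneg (Int.natCast_nonneg n) h1
        omega
    obtain ⟨yg, hyg⟩ := h89i_int_all ℓ hℓ M hM A hA _ hgInf
    refine ⟨jqModC A ^ n * yg, ?_⟩
    rw [map_mul, map_pow, embA_jqModC, hyg, ← coe_jB M]
    have h1 : f = jB M ^ n * ((jB M)⁻¹ ^ n * f) := by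
      rw [← mul_assoc, ← mul_pow, mul_inv_cancel₀ hj0, one_pow, one_mul]
    conv_rhs => rw [h1]
    show _ = (modularFunctionFieldBar M).val.toRingHom (jB M ^ n * ((jB M)⁻¹ ^ n * f))
    rw [map_mul, map_pow]
    rfl
  obtain ⟨y, hy⟩ := key
  exact ⟨y, hy, gaussRed_of_embA A (IsLocalRing.residue A) M ⟨f, hfV⟩ y hy⟩

/-- **INT(M)**, coefficient form. -/
theorem h89i_intM_coeff (hℓ : ℓ.Prime) (hM : ¬ ℓ ∣ M) (hA : A.LiesOverPrime ℓ)
    (Q : Place Kbar (FF M))
    (hQ : ∀ f : FF M, f ≠ 0 → ((f : FF M) : LaurentSeries Kbar).order = Q.ord f)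
    (f : FF M) (hfV : f ∈ gaussV A M)
    (hf : ∀ v : Place Kbar (FF M), v ≠ Q → 0 ≤ v.ord f) (i : ℤ) :
    ∃ a : A, (a : Kbar) = ((f : FF M) : LaurentSeries Kbar).coeff i ∧
      (gaussR A M ⟨f, hfV⟩).coeff i = IsLocalRing.residue A a := by
  obtain ⟨y, hy, hr⟩ := h89i_intM M A hℓ hM hA Q hQ f hfV hf
  refine ⟨y.coeff i, ?_, ?_⟩
  · rw [← hy]
    rfl
  · rw [hr]
    rfl

end Fermat.Agent.P7
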