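import Mathlib

/-!
# Wave 7 (S40), row T-A5-OCC (helper89, prefix `h89q_`): the conclusion of block (A) at the good
level, abstract form

Abstract frame (Mathlib only): `X = J₀(M⁺ p)`, `J = J₀(M⁺)`, `J¹ = redKerPic M⁺ A`,
`X₀ ≤ X` the classes with all slopes `0`, `c : X₀ →+ J ⧸ J¹` the class map (row T-A4-CLASS),
`E : X →+ X` the operator `P⁺ ∘ π^* π_*` at level `M⁺ p`, `Ψ : J →+ J` the operator
`P⁺ ∘ π^* π_*` at level `M⁺` (row T-A3-PHI), which preserves `J¹` and kills the `p`-torsion of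
`J ⧸ J¹` (rows T-A1-KILL + T-A2-FINRED, `h93k_kill`).

* `h89q_coprime_smul` : `p c = 0`, `d c = 0`, `gcd(d, p) = 1` ⟹ `c = 0`.
* `h89q_occ_plus` : `x ∈ X₀`, `p x = 0`, `E x = d x` (`d = deg π`, prime to `p`),
  `c (E x) = Ψ (c x)`  ⟹  `c x = 0`.
* `h89q_occ_plus'` : the same with the equivariance of `c` split into two steps
  (`E = P ∘ Π`, `Ψ = P' ∘ Π'`).
-/

set_option autoImplicit false
set_option linter.style.haveILetI false

namespace Fermat.Agent.P7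

section

variable {X J : Type*} [AddCommGroup X] [AddCommGroup J]

/-- `p c = 0`, `d c = 0` and `gcd(d, p) = 1` give `c = 0`. -/
theorem h89q_coprime_smul {Q : Type*} [AddCommGroup Q] {p d : ℕ} (hcop : Nat.Coprime d p)
    {c : Q} (hp : p • c = 0) (hd : d • c = 0) : c = 0 := by
  have h := (Nat.isCoprime_iff_coprime.mpr hcop)
  obtain ⟨s, r, hsr⟩ := h
  have e : (1 : ℤ) • c = 0 := by
    rw [← hsr, add_smul, mul_smul, mul_smul, natCast_zsmul, natCast_zsmul, hp, hd, smul_zero,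
      smul_zero, add_zero]
  rwa [one_smul] at e

/-- **T-A5-OCC, abstract form.**  The class `c x` of a `p`-torsion class `x ∈ X₀` with
`E x = d x`, `d` prime to `p`, is zero as soon as `c ∘ E = Ψ ∘ c` and `Ψ` kills the `p`-torsion
of `J ⧸ J¹`. -/
theorem h89q_occ_plus {p d : ℕ} (hcop : Nat.Coprime d p)
    (X₀ : AddSubgroup X) (J1 : AddSubgroup J) (c : X₀ →+ J ⧸ J1)
    (E : X →+ X) (Ψ : J →+ J)
    (hkill : ∀ y : J, p • y ∈ J1 → Ψ y ∈ J1)
    (x : X) (hx : x ∈ X₀) (hEx : E x ∈ X₀)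
    (heq : ∀ y : J, c ⟨x, hx⟩ = QuotientAddGroup.mk y →
      c ⟨E x, hEx⟩ = QuotientAddGroup.mk (Ψ y))
    (hpx : p • x = 0) (hE : E x = d • x) :
    c ⟨x, hx⟩ = 0 := by
  obtain ⟨y, hy⟩ := QuotientAddGroup.mk_surjective (s := J1) (c ⟨x, hx⟩)
  have hpc : p • c ⟨x, hx⟩ = 0 := by
    have h1 : p • (⟨x, hx⟩ : X₀) = 0 := by
      apply Subtype.ext
      rw [AddSubgroup.coe_nsmul]
      exact hpx
    rw [← map_nsmul, h1, map_zero]
  have hny : p • y ∈ J1 := by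
    have h2 := hpc
    rw [← hy] at h2
    exact (QuotientAddGroup.eq_zero_iff (p • y)).mp h2
  have hdc : d • c ⟨x, hx⟩ = 0 := by
    have h3 : (⟨E x, hEx⟩ : X₀) = d • ⟨x, hx⟩ := by
      apply Subtype.ext
      rw [AddSubgroup.coe_nsmul]
      exact hE
    have h4 := heq y hy.symm
    rw [h3, map_nsmul] at h4
    rw [h4]
    exact (QuotientAddGroup.eq_zero_iff (Ψ y)).mpr (hkill y hny)
  exact h89q_coprime_smul hcop hpc hdc

/-- **T-A5-OCC, abstract form, two steps.**  `E = P ∘ Π` on `X` (`Π = π^* π_*`, `P` the Hecke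
polynomial), `Ψ = P' ∘ Π'` on `J`; `Π x = d x`, `P x = x`; `c` is equivariant for `Π` and for
`P` on the classes at hand. -/
theorem h89q_occ_plus' {p d : ℕ} (hcop : Nat.Coprime d p)
    (X₀ : AddSubgroup X) (J1 : AddSubgroup J) (c : X₀ →+ J ⧸ J1)
    (P Pi : X →+ X) (P' Pi' : J →+ J)
    (hkill : ∀ y : J, p • y ∈ J1 → P' (Pi' y) ∈ J1)
    (x : X) (hx : x ∈ X₀) (hPix : Pi x ∈ X₀) (hPx : P (Pi x) ∈ X₀)
    (heqPi : ∀ y : J, c ⟨x, hx⟩ = QuotientAddGroup.mk y →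
      c ⟨Pi x, hPix⟩ = QuotientAddGroup.mk (Pi' y))
    (heqP : ∀ y : J, c ⟨Pi x, hPix⟩ = QuotientAddGroup.mk y →
      c ⟨P (Pi x), hPx⟩ = QuotientAddGroup.mk (P' y))
    (hpx : p • x = 0) (hPi : Pi x = d • x) (hP : P x = x) :
    c ⟨x, hx⟩ = 0 := by
  refine h89q_occ_plus hcop X₀ J1 c (P.comp Pi) (P'.comp Pi') hkill x hx hPx ?_ hpx ?_
  · intro y hy
    exact heqP (Pi' y) (heqPi y hy)
  · show P (Pi x) = d • x
    rw [hPi, map_nsmul, hP]

end

end Fermat.Agent.P7
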