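import Fermat.Agent.P7.H19OrthTop
import Fermat.Agent.P7.H38OrthBack
import Fermat.Agent.P7.H48Eval
import Fermat.Agent.P7.H47DiscSeries
import Fermat.Agent.P7.H31GoingUp
import Fermat.Agent.P7.H44OrthLift
import Fermat.Agent.P7.H88ExactFinal
import Fermat.Agent.P7.H89IntM
import Fermat.Agent.P7.H98mDeg

/-!
# P7 (wave 7), block (A) DLOG at the level `M`: the assembly of ORTH(M) (helper89, prefix
`h89o_` / `H89o`)

`p ≥ 5`, `M` ANY level prime to `p`, `N = goodLevel p M`, `A` a valuation subring of `ℚ̄` over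
`p`, `k` its residue field, `d = [FF N : FF M]`.

* `H89oNormRed p` : frozen Prop **S0 (NORM-RED)**: if a Gauss unit `g'` of level `N` has the
  reduction of `degen y`, `y` a Gauss unit of level `M`, then `Nm g'` is a Gauss unit of level `M`
  with reduction `(softR y) ^ d`.
* `h89o_orthNorm : H89oNormRed p → H19oOrthNormM p` : the normalised ORTH(M) of helper19, from
  the landed leaves (S2) `h88e_S2`, SYM-LITE `h88e_symLiteUnit`, exact lift `h44o_exact_lift`,
  DISC `h31d_degen_norm_ord_eq_zero`, DISC-SERIES `h47k_disc_unit`, EVAL `h48e_eval_along`,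
  INT(M) `h89i_intM` and the back half `h38o_orth_back_pow` (DL2 for a norm + RED).
* `h89o_orthM : H89oNormRed p → H3gOrthM p`.

Every declaration is a proved theorem or a `Prop`-valued definition; nothing is assumed.
-/

set_option autoImplicit false
set_option linter.unusedSectionVars false
set_option linter.unusedVariables false
set_option linter.style.haveILetI false
set_option synthInstance.maxHeartbeats 400000
set_option maxHeartbeats 1600000

open ModularCurve AlgebraicCurve IsLocalRing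

noncomputable section

namespace Fermat.Agent.P7

open Fermat.Agent.S37 Fermat.Agent.Red Fermat.Agent.Red.GV Fermat.Agent.Red.GV.Soft
  Fermat.Agent.Red.CH0 Fermat.Agent.Red.KR Fermat.Agent.P5

/-- **S0 (NORM-RED)**, frozen shape: the norm along `degen` of a Gauss unit of the good level
with the reduction of a Gauss unit `y` of level `M` is a Gauss unit of level `M` with
reduction `(softR y) ^ d`, `d = [FF (goodLevel p M) : FF M]`. -/
def H89oNormRed (p : ℕ) : Prop :=
  ∀ (hp : p.Prime), 5 ≤ p → ∀ (M : ℕ) [NeZero M], ¬ p ∣ M →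
    ∀ A : ValuationSubring Kbar, A.LiesOverPrime p →
    ∀ (y : FF M) (hy : y ∈ softV A M)
      (hg : degen (dvd_goodLevel p M) y ∈ gaussV A (goodLevel p M))
      (g' : FF (goodLevel p M)) (hg' : g' ∈ gaussV A (goodLevel p M)),
      y ≠ 0 → y⁻¹ ∈ softV A M → g'⁻¹ ∈ gaussV A (goodLevel p M) →
      h13sRed A (goodLevel p M) ⟨g', hg'⟩ =
        h13sRed A (goodLevel p M) ⟨degen (dvd_goodLevel p M) y, hg⟩ →
      ∃ hn : normAlong (degen (dvd_goodLevel p M)) g' ∈ softV A M,
        (normAlong (degen (dvd_goodLevel p M)) g')⁻¹ ∈ softV A M ∧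
        softR A M ⟨normAlong (degen (dvd_goodLevel p M)) g', hn⟩ =
          softR A M ⟨y, hy⟩ ^ finrankAlong Kbar (degen (dvd_goodLevel p M))

/-- **ORTH(M), normalised form**, from S0 (NORM-RED). -/
theorem h89o_orthNorm {p : ℕ} (hS0 : H89oNormRed p) : H19oOrthNormM p := by
  intro hp h5 M _ hM A hA Q hQ y hy hg hy0 hyi hgi ho hdiv f hf hreg
  classical
  haveI : NeZero p := ⟨hp.ne_zero⟩
  have hN : ¬ p ∣ goodLevel p M := not_dvd_goodLevel hp hM
  have haux : auxLevel p ∣ goodLevel p M := auxLevel_dvd_goodLevel p M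
  haveI := Fermat.Agent.Red.HKMod.hasPrincipalDivisors_FF (goodLevel p M)
  obtain ⟨r, hr⟩ := h88r_redDiv p hp (goodLevel p M) hN haux A hA
  obtain ⟨oo, hoo⟩ := h88e_qplace_exists (goodLevel p M)
  obtain ⟨Qq, hQq⟩ := h26g_place_inf (A := A) (M := goodLevel p M)
  have hS2 : r oo = Qq := h88e_S2 p hp (goodLevel p M) hN haux A hA r hr oo Qq hoo hQq
  have hQ' : H52xIsQPlace M Q := fun f hf => (hQ f hf).symm
  -- the `q`-order place of level `N` lies over `Q`
  have hooQ : oo.restrictAlong (degen (dvd_goodLevel p M))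
      (isIntegral_degen (dvd_goodLevel p M)) = Q :=
    Place.ext (h88e_qplace_comap (dvd_goodLevel p M) oo hoo Q hQ')
  -- the reduction of `degen y`
  have hs'0 : h13sRed A (goodLevel p M) ⟨degen (dvd_goodLevel p M) y, hg⟩ ≠ 0 :=
    h57s_red_ne_zero (dvd_goodLevel p M) hp hN hA hy0 hy hyi hg
  -- the reductions of the places over `Q`
  set B : Finset (Place (h13sK A) (h13sFt A (goodLevel p M))) :=
    (Place.fiberAlong (degen (dvd_goodLevel p M))
      (isIntegral_degen (dvd_goodLevel p M)) Q).image r with hBdef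
  have hrB : ∀ c : Place Kbar (FF (goodLevel p M)),
      c.restrictAlong (degen (dvd_goodLevel p M)) (isIntegral_degen (dvd_goodLevel p M)) = Q →
        r c ∈ B := fun c hc =>
    Finset.mem_image.2 ⟨c, Place.mem_fiberAlong.2 hc, rfl⟩
  have hB : ∀ Q' ∈ B,
      Q'.ord (h13sRed A (goodLevel p M) ⟨degen (dvd_goodLevel p M) y, hg⟩) = 0 := by
    intro Q' hQB
    obtain ⟨c, hc, rfl⟩ := Finset.mem_image.1 hQB
    rw [Place.mem_fiberAlong] at hc
    exact h88e_symLiteUnit p hp M hM A hA r hr Q hQ' c hc y hy hyi hg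
      (by rw [map_inv₀]; exact hgi) ho
  -- the exact lift
  obtain ⟨g', hg'V, hg'i, hg'red, hg'off⟩ := h44o_exact_lift hp hN haux hA r hr _ hs'0 B hB
  have hg'0 : g' ≠ 0 := by
    rintro rfl
    apply hs'0
    rw [← hg'red]
    exact Subtype.ext (map_zero (gaussR A (goodLevel p M)))
  -- S0
  obtain ⟨hn, hni, hnred⟩ := hS0 hp h5 M hM A hA y hy hg g' hg'V hy0 hyi hg'i hg'red
  have hs0 : softR A M ⟨y, hy⟩ ≠ 0 := (softR_ne_zero_iff A M ⟨y, hy⟩).mpr ⟨hy0, hyi⟩
  have hg0 : normAlong (degen (dvd_goodLevel p M)) g' ≠ 0 := by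
    intro h0
    have h1 : softR A M ⟨normAlong (degen (dvd_goodLevel p M)) g', hn⟩ = 0 := by
      have : (⟨normAlong (degen (dvd_goodLevel p M)) g', hn⟩ : softV A M) = 0 :=
        Subtype.ext h0
      rw [this, map_zero]
    rw [hnred] at h1
    exact pow_ne_zero _ hs0 h1
  -- DISC: `degen (Nm g')` has no zero and no pole in the class of `oo`
  have hdisc : ∀ w : Place Kbar (FF (goodLevel p M)), r w = r oo →
      w.ord (degen (dvd_goodLevel p M) (normAlong (degen (dvd_goodLevel p M)) g')) = 0 :=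
    fun w hw => h31d_degen_norm_ord_eq_zero (dvd_goodLevel p M) hr g' hg'0 oo
      (fun c v hc hvc => by
        by_contra hne
        apply hg'off v hne
        rw [hvc]
        exact hrB c (hc.trans hooQ)) w hw
  -- DISC-SERIES
  have hGs : degen (dvd_goodLevel p M) (normAlong (degen (dvd_goodLevel p M)) g') ∈
      softV A (goodLevel p M) := (degen_mem_softV_iff A (dvd_goodLevel p M) _).mpr hn
  have hG : degen (dvd_goodLevel p M) (normAlong (degen (dvd_goodLevel p M)) g') ∈
      gaussV A (goodLevel p M) := softV_le_gaussV A (goodLevel p M) hp hN hA hGs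
  have hGi : (degen (dvd_goodLevel p M) (normAlong (degen (dvd_goodLevel p M)) g'))⁻¹ ∈
      gaussV A (goodLevel p M) := by
    rw [← map_inv₀]
    exact softV_le_gaussV A (goodLevel p M) hp hN hA
      ((degen_mem_softV_iff A (dvd_goodLevel p M) _).mpr hni)
  have hG0 : degen (dvd_goodLevel p M) (normAlong (degen (dvd_goodLevel p M)) g') ≠ 0 :=
    (map_ne_zero _).mpr hg0
  have hcusp : ∀ w : Place Kbar (FF (goodLevel p M)), r w = r oo → w ≠ oo →
      jB (goodLevel p M) ∈ w.toValuationSubring := by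
    intro w hw hne
    by_contra hmem
    apply hne
    refine h88e_unique_pole hp hN hA r hr oo hoo Qq hQq hS2 w hw ?_
    by_contra hnn
    exact hmem (Fermat.Agent.S24.DiffPlace.mem_of_ord_nonneg w (not_lt.1 hnn))
  obtain ⟨b, hb, hbneg, hbunit, hbred⟩ :=
    h47k_disc_unit A (goodLevel p M) hp hN hA r hr oo hoo hcusp _ hG0 hG hGi
      (fun w hw => Fermat.Agent.S24.DiffPlace.mem_of_ord_nonneg w (le_of_eq (hdisc w hw).symm))
      (fun w hw => Fermat.Agent.S24.DiffPlace.mem_of_ord_nonneg w (by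
        rw [Place.ord_inv, hdisc w hw, neg_zero]))
  have hb' : embA A b =
      (((normAlong (degen (dvd_goodLevel p M)) g' : FF M)) : LaurentSeries Kbar) := by
    rw [hb, coe_degen]
  have hsb : redA (residue A) b =
      HahnSeries.C (1 : ResidueField A) *
        softR A M ⟨y, hy⟩ ^ finrankAlong Kbar (degen (dvd_goodLevel p M)) := by
    rw [map_one, one_mul, ← hnred, ← hbred, ← softR_eq_gaussR A (goodLevel p M) _ hGs hG]
    exact softR_degen A (dvd_goodLevel p M) ⟨_, hn⟩ hGs
  -- INT(M)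
  obtain ⟨a, ha, -⟩ := h89i_intM M A hp hM hA Q hQ f hf hreg
  -- the values of `f`
  have hval : ∀ v : Place Kbar (FF M), ∃ c : Kbar, v ≠ Q → ValueAt v f c := by
    intro v
    by_cases hv : v = Q
    · exact ⟨0, fun h => absurd hv h⟩
    · obtain ⟨c, hc⟩ := Fermat.Agent.S37.GalI.exists_valueAt v
        (Fermat.Agent.S24.DiffPlace.mem_of_ord_nonneg v (hreg v hv))
      exact ⟨c, fun _ => hc⟩
  choose fv hfv using hval
  -- the zeros and poles of `g'`
  obtain ⟨D, hD, -⟩ := (h40r_base_FF (goodLevel p M)).pd g' hg'0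
  have hS1 : ∀ w ∈ D.support,
      w.restrictAlong (degen (dvd_goodLevel p M)) (isIntegral_degen (dvd_goodLevel p M)) ≠ Q := by
    intro w hw hwQ
    rw [Finsupp.mem_support_iff, hD w] at hw
    exact hg'off w hw (hrB w hwQ)
  have hS2' : ∀ w : Place Kbar (FF (goodLevel p M)),
      w.restrictAlong (degen (dvd_goodLevel p M)) (isIntegral_degen (dvd_goodLevel p M)) ≠ Q →
        w.ord g' ≠ 0 → w ∈ D.support := by
    intro w _ hw
    rw [Finsupp.mem_support_iff, hD w]
    exact hw
  -- EVAL
  have hF : degen (dvd_goodLevel p M) f ∈ gaussV A (goodLevel p M) :=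
    softV_le_gaussV A (goodLevel p M) hp hN hA
      ((degen_mem_softV_iff A (dvd_goodLevel p M) f).mpr (gaussV_le_softV A M hf))
  have hsum := h48e_eval_along A hp hN hA r hr (degen (dvd_goodLevel p M))
    (isIntegral_degen (dvd_goodLevel p M)) Q f hreg fv hfv hF g' hg'0 hg'V hg'i
    (fun Q' => by rw [hg'red]; exact hdiv Q')
    (fun w c hw hc e => hg'off w hw (e ▸ hrB c hc)) D.support hS2'
  -- `d` is invertible in `k`
  haveI : CharP (ResidueField A) p := h3g_charP A hp hA
  have hd : ((finrankAlong Kbar (degen (dvd_goodLevel p M)) : ℕ) : ResidueField A) ≠ 0 := by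
    intro h0
    rw [CharP.cast_eq_zero_iff (ResidueField A) p] at h0
    have hco := h98m_deg_coprime hp h5 M
    rw [Nat.coprime_comm, Nat.Prime.coprime_iff_not_dvd hp] at hco
    exact hco h0
  exact h38o_orth_back_pow A (dvd_goodLevel p M) Q hQ f hf hreg a ha fv hfv g' hg'0 b hb'
    hbneg hbunit (softR A M ⟨y, hy⟩) hs0 _ hd 1 one_ne_zero hsb D.support hS1 hS2' hsum

/-- **ORTH(M)** (helper3's frozen leaf) from S0 (NORM-RED). -/
theorem h89o_orthM {p : ℕ} (hS0 : H89oNormRed p) : H3gOrthM p :=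
  h19o_orthM_of_norm (h89o_orthNorm hS0)

end Fermat.Agent.P7
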