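import Fermat.Agent.P7.H89OrthAsm
import Fermat.Agent.P7.H59NormRed
import Fermat.Agent.P7.H96FullDeg
import Fermat.Agent.P7.H3DlogFinal3

/-!
# P7 (wave 7), block (A) DLOG at the level `M`: ORTH(M), UNCONDITIONAL, and the frozen statement
S44 (helper89, prefix `h89o_`)

* `h89o_normRed p : H89oNormRed p` : S0 (NORM-RED) from the landed FULL-DEG `h96h_fullDeg`
  (helper96) and `h59n_normRed` / `h59n_norm_unit` (helper59, helper87).
* `h89o_orthNorm_final p : H19oOrthNormM p`, `h89o_orthM_final p : H3gOrthM p` : ORTH(M).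
* `h89o_s44` : the frozen statement S44 (`h3g_s44_of_orth` of helper3).

Every declaration is a proved theorem; nothing is assumed.
-/

set_option autoImplicit false
set_option linter.unusedSectionVars false
set_option linter.unusedVariables false
set_option linter.style.haveILetI false
set_option synthInstance.maxHeartbeats 400000

open ModularCurve AlgebraicCurve IsLocalRing

noncomputable section

namespace Fermat.Agent.P7

open Fermat.Agent.S37 Fermat.Agent.Red Fermat.Agent.Red.GV Fermat.Agent.Red.GV.Soft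
  Fermat.Agent.Red.CH0 Fermat.Agent.Red.KR Fermat.Agent.P5

/-- **S0 (NORM-RED)**, unconditional. -/
theorem h89o_normRed (p : ℕ) : H89oNormRed p := by
  intro hp h5 M _ hM A hA y hy hg g' hg' hy0 hyi hg'i hred
  have hN : ¬ p ∣ goodLevel p M := not_dvd_goodLevel hp hM
  have hx : g' ∈ softV A (goodLevel p M) := gaussV_le_softV A _ hg'
  have hxi : g'⁻¹ ∈ softV A (goodLevel p M) := gaussV_le_softV A _ hg'i
  have hxy : softR A (goodLevel p M) ⟨g', hx⟩ = softR A M ⟨y, hy⟩ := by
    rw [softR_eq_gaussR A _ g' hx hg']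
    have h1 := congrArg (h13sIncl A (goodLevel p M)) hred
    rw [h13sIncl_red] at h1
    rw [h1]
    exact h57s_incl_red (dvd_goodLevel p M) hp hN hA hy hg
  obtain ⟨hn, hnred⟩ := h59n_normRed h96h_fullDeg hp M hM A hA g' hx y hy hxy
  exact ⟨hn, (h59n_norm_unit h96h_fullDeg hp M hM A hA g' hx hxi).2, hnred⟩

/-- **ORTH(M), normalised form**, unconditional. -/
theorem h89o_orthNorm_final (p : ℕ) : H19oOrthNormM p := h89o_orthNorm (h89o_normRed p)

/-- **ORTH(M)** (helper3's frozen leaf), unconditional. -/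
theorem h89o_orthM_final (p : ℕ) : H3gOrthM p := h89o_orthM (h89o_normRed p)

/-- **the frozen statement S44.** -/
theorem h89o_s44 (P : FreyPackage) {N : ℕ} (hcond : P.IsConductorLevel N) (hpN : P.p ∣ N)
    (hirr : WeierstrassCurve.Affine.Point.GaloisRepIsIrreducible (K := AlgebraicClosure ℚ) ℚ
      P.freyCurve P.p)
    (hmod : P.ModularRepOfLevel N) :
    ∃ M : ℕ, M ∣ N ∧ ¬ P.p ∣ M ∧ P.ModularRepOfLevel M :=
  h3g_s44_of_orth (fun p _ => h89o_orthM_final p) P hcond hpN hirr hmod

end Fermat.Agent.P7
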