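import Fermat.Agent.P7.H17Up
import Fermat.Agent.P7.H17Glue0
import Fermat.Agent.P7.H38EmbedQuad
import Fermat.Agent.P7.H47LocalFinal
import Fermat.Agent.P7.H64BorelW
import Fermat.Agent.P7.H80NonEis
import Fermat.Agent.P6.H66TwGateOdd
import Fermat.Agent.P6.H23DetUnit
import Fermat.Agent.S54.Frobenius

/-!
# Wave 7 (S40), TOP, twin (helper8): `H99wToric` implies the conclusion of S40

`h8t_top : H99wToric → ` (statement of S40), directly from the landed unconditional atoms: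

* `h17u_new_core` (helper17) : a nonzero Galois-stable `p`-new subgroup `V₀ ≤ J₀(M' p)[p]` of
  eigenvectors for the eigensystem of `W`;
* `h38e_embed` (helper38) : `W[p]` embeds Galois-equivariantly into `V₀`;
* `h66z_newStar` (helper66) : STAR on new `p`-torsion classes, transported to `W[p]`;
* `h47l_local` (helper47) : `W[p]` is peu ramifié;
* `h17g_glue_poly` (helper17) : a Hecke polynomial `P ∈ 1 + 𝔫` killing `S₂(Γ₀(M'))`;
* `h80e_nonEis_eigen` (helper80) : the non-Eisenstein prime;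
* `H99wToric` (hypothesis) : the inertia acts on the image of `W[p]` through the cyclotomic
  character, hence on `W[p]`;
* `h23u_exists_inertia_sq` (helper23) + `h64w_borelFrozen` (helper64) : contradiction.

Every declaration is a proved theorem; nothing is assumed.
-/

set_option autoImplicit false
set_option linter.style.haveILetI false
set_option linter.unusedSectionVars false
set_option linter.unusedVariables false

open AlgebraicCurve ModularCurve WeierstrassCurve WeierstrassCurve.Affine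

noncomputable section

namespace Fermat.Agent.P7

open Fermat.Agent.S37 Fermat.Agent.S35

/-- an exponent on one primitive `p`-th root of unity is an exponent on `μ_p`. -/
theorem h8t_exp_of_primitive {p : ℕ} (hp : p.Prime) {ζ : Kbar} (hζ : IsPrimitiveRoot ζ p)
    (a : GQ) (e : ℕ) (ha : a ζ = ζ ^ e) : ∀ μ : Kbar, μ ^ p = 1 → a μ = μ ^ e := by
  intro μ hμ
  haveI : NeZero p := ⟨hp.ne_zero⟩
  obtain ⟨i, -, rfl⟩ := hζ.eq_pow_of_pow_eq_one hμ
  rw [map_pow, ha, ← pow_mul, ← pow_mul, mul_comm]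

/-- **TOP of wave 7 (twin).**  `H99wToric` implies the statement of S40. -/
theorem h8t_top (hToric : H99wToric) (W : WeierstrassCurve ℤ) (hΔ : W.Δ ≠ 0) {p : ℕ}
    (hp : p.Prime) (hp2 : p ≠ 2) (hgood : W.IsGoodPrimeFor p) (hirr : W.ModRepIsIrreducible p)
    {M : ℕ} (hM : 0 < M) (hpM : p ∣ M) (hp2M : ¬ p ^ 2 ∣ M)
    (hmod : W.IsResiduallyModularOfLevel p M) : W.IsResiduallyModularOfLevel p (M / p) := by
  classical
  obtain ⟨M', rfl⟩ := hpM
  have hM' : 0 < M' := Nat.pos_of_ne_zero (fun h => by rw [h, mul_zero] at hM; exact hM.ne' rfl)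
  have hpM' : ¬ p ∣ M' := fun h => hp2M (by rw [sq]; exact mul_dvd_mul_left p h)
  haveI : NeZero M' := ⟨hM'.ne'⟩
  haveI : NeZero p := ⟨hp.ne_zero⟩
  rw [Nat.mul_div_cancel_left _ hp.pos]
  by_contra hnot
  rw [mul_comm] at hmod
  have hN0 : M' * p ≠ 0 := NeZero.ne (M' * p)
  -- blocks (1) + (2a)
  obtain ⟨V₀, ⟨v₀, hv₀, hv₀ne⟩, hgal, htors, heig, hnew⟩ :=
    h17u_new_core W hp M' hΔ hmod hnot
  -- EMBED
  have hE : H38eEig W p (M' * p) V₀ (h17gS W p (M' * p)) :=
    ⟨fun σ x hx => hgal σ x hx, htors, fun ℓ hℓ x hx => heig x hx ℓ hℓ⟩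
  have hne : V₀ ≠ ⊥ := by
    intro h
    rw [h, AddSubgroup.mem_bot] at hv₀
    exact hv₀ne hv₀
  obtain ⟨φ, hinj, hequiv, hmem⟩ := h38e_embed W hΔ hp hp2 hirr (M' * p) _ V₀ hne hE
  obtain ⟨A, hA⟩ := Fermat.Agent.S54.exists_liesOverPrime hp
  -- STAR on `W[p]`
  have hstar : ∀ a ∈ A.inertiaSubgroupIn ℚ, ∀ e : ℕ, (∀ μ : Kbar, μ ^ p = 1 → a μ = μ ^ e) →
      ∀ P : H99wTors W p, a • a • P - ((1 : ℤ) + e) • a • P + e • P = 0 := by
    intro a ha e hexp P
    have h := Fermat.Agent.P6.h66z_newStar hp hp2 M' hpM' A hA a ha a ha 1 e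
      (by intro μ hμ; rw [pow_one] at hμ; exact hexp μ hμ) (φ P)
      (by rw [pow_one]; exact htors _ (hmem P)) (hnew _ (hmem P)).1 (hnew _ (hmem P)).2
    apply hinj
    rw [map_zero, map_add, map_sub, map_zsmul, map_nsmul, hequiv, hequiv, add_zsmul, one_zsmul,
      natCast_zsmul]
    have e1 : a • a • φ P - (a • φ P + e • a • φ P) + e • φ P =
        (a • a • φ P + e • φ P) - (a • φ P + e • a • φ P) := by abel
    rw [e1, h, sub_self]
  -- LOCAL
  obtain ⟨β, hβ, hβi, hβp, hβfix⟩ := h47l_local W p hp hp2 hgood A hA hstar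
  -- GLUE polynomial
  obtain ⟨P₀, hP₀supp, hP₀mem, hP₀kill⟩ := h17g_glue_poly W hΔ p M' hnot
  -- TORIC on `W[p]`
  have htoric : ∀ P : H99wTors W p, ∀ a ∈ A.inertiaSubgroupIn ℚ, ∀ e : ℕ,
      (∀ μ : Kbar, μ ^ p = 1 → a μ = μ ^ e) → a • P = e • P := by
    intro P a ha e hexp
    have hxe : h17uEigen W p (M' * p) (φ P) := fun ℓ hℓ => heig _ (hmem P) ℓ hℓ
    have hx := hToric p hp hp2 M' hpM' A hA β hβ hβi hβp (φ P) (htors _ (hmem P))
      (hnew _ (hmem P)).1 (hnew _ (hmem P)).2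
      (fun b hb hbμ hbβ => by rw [← hequiv, hβfix b hb hbμ hbβ P])
      (h80e_nonEis_eigen W hΔ hp hirr (M' * p) (φ P) (fun ℓ hℓ => by
        refine heig _ (hmem P) ℓ ?_
        rw [h17g_not_mem_S_iff W hΔ hN0 ℓ.2]
        refine ⟨?_, hℓ.2, hℓ.1⟩
        intro h
        exact hℓ.2 (h ▸ Dvd.intro_left M' rfl)))
      ⟨P₀, fun ℓ hℓ hdvd => by
          have h1 : ℓ ∈ Fermat.Agent.S31.TI_Sc (h17gS W p M') :=
            MvPolynomial.mem_supported.mp hP₀supp hℓ
          have h2 : (ℓ : ℕ) ∈ h17gS W p (M' * p) := h17g_mem_S_of_dvd W p hN0 ℓ ℓ.2 hdvd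
          rw [h17n_S_mul W hp (NeZero.ne M')] at h2
          exact h1 h2,
        hP₀kill, by
          have h3 : P₀ - 1 ∈ h17gIdeal W p (M' * p) := by
            rw [h17n_ideal_mul W hp (NeZero.ne M')]
            exact hP₀mem
          have h4 := h17u_ideal_smul (htors _ (hmem P)) hxe h3
          letI := heckeModuleBar (M' * p)
          rw [sub_smul, one_smul, sub_eq_zero] at h4
          exact h4⟩
      a ha e hexp
    apply hinj
    rw [hequiv, map_nsmul]
    exact hx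
  -- END: BOREL
  obtain ⟨ζ, hζ, s₀, hs₀, hs₀ζ⟩ := Fermat.Agent.P6.h23u_exists_inertia_sq hp hp2 A hA
  have hexp : ∀ μ : Kbar, μ ^ p = 1 → s₀ μ = μ ^ 2 := h8t_exp_of_primitive hp hζ s₀ 2 hs₀ζ
  have hsc : ∀ P : H99wTors W p, s₀ • P = 2 • P := fun P => htoric P s₀ hs₀ 2 hexp
  refine h64w_borelFrozen W hΔ p hp hp2 hirr s₀ 2 hexp ?_ (hstar s₀ hs₀ 2 hexp) ?_
  · intro h
    have h1 : ((p : ℤ)) ∣ 1 := by simpa using h
    have h2 : p ∣ 1 := by exact_mod_cast h1
    exact hp.one_lt.ne' (Nat.dvd_one.mp h2)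
  · intro g P
    have hc : ∀ Q : H99wTors W p, (s₀ * g * s₀⁻¹ * g⁻¹) • Q = Q := by
      intro Q
      apply hinj
      set R : H99wTors W p := s₀⁻¹ • g⁻¹ • Q with hR
      have h1 : s₀ • R = g⁻¹ • Q := by rw [hR, smul_inv_smul]
      have h2 : (2 : ℕ) • φ R = g⁻¹ • φ Q := by
        rw [← map_nsmul, ← hsc R, h1, hequiv]
      have h3 : (s₀ * g * s₀⁻¹ * g⁻¹) • Q = s₀ • g • R := by
        rw [hR, mul_smul, mul_smul, mul_smul]
      rw [h3, hsc (g • R), map_nsmul, hequiv, ← h17u_gal_nsmul, h2, smul_inv_smul]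
    rw [hc, hc]
    abel
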