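import Fermat.Agent.P7.H90NFAdapt

/-!
# P7 (wave 7, S44), block (5b), leaf T-C3-NF (helper90): the normal form at a closed point on ONE
component, CHART-GENERIC form (for the cusps)

`p ∤ M` prime, `A` over `p`, `tc` a chart coordinate of level `M p` fixed by the inertia group
of `A` (`jSS` or `jSS⁻¹`), `B = chart (M p) A tc`, `𝔫` a closed point of the special fibre of
`B` with a smooth datum `H62ySmooth … W W' 𝔫 t` whose local parameter `t` is FIXED BY THE INERTIA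
GROUP.

* `h90k_smooth_core` : every `u ≠ 0` whose divisor is divisible by `r ≠ 0` at the places centered
  at `𝔫` is `u = θ · ε · (P₊(t) / P₋(t)) ^ r` with `θ` a constant, `ε` a unit of `B_𝔫`,
  `P± = ∏ (X - a_i) ^ n_i`, `a_i ∈ 𝔪_A`, and for every `σ` in the inertia group with `σ u = u` the
  polynomials `P₊`, `P₋` have coefficients fixed by `σ`;
* `h90k_nfSmooth_core` : the same in the interface shape `H84aNFSmooth` of `P7/H84Asm.lean`.
-/

set_option autoImplicit false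
set_option linter.unusedSectionVars false
set_option linter.unusedVariables false
set_option linter.style.longLine false
set_option linter.style.haveILetI false
set_option synthInstance.maxHeartbeats 400000
set_option maxHeartbeats 1000000

open AlgebraicCurve ModularCurve WithZero IsLocalRing Polynomial

noncomputable section

namespace Fermat.Agent.P7

open Fermat.Agent.S37 Fermat.Agent.S37.GalI Fermat.Agent.Red Fermat.Agent.Red.GG
  Fermat.Agent.Red.GV Fermat.Agent.Red.GV.Soft Fermat.Agent.Red.ModelO Fermat.Agent.Red.Kron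
  Fermat.Agent.LGC Fermat.Agent.S35 Fermat.Agent.P6

variable (A : ValuationSubring Kbar) (M : ℕ) {p : ℕ} [NeZero M] [NeZero p]

/-- **T-C3-NF, smooth points, chart-generic core.** -/
theorem h90k_smooth_core (hp : p.Prime) (hM : ¬ p ∣ M) (hA : A.LiesOverPrime p)
    (tc : FF (M * p))
    (htc : ∀ σ : GQ, σ ∈ A.inertiaSubgroupIn ℚ → gal (M * p) σ • tc = tc)
    (hC₀ : IfaceSSChart A M p tc) (hS₀ : IfaceSSSection A M p tc)
    (𝔫 : Ideal (chart (M * p) A tc)) (h𝔫 : 𝔫.IsMaximal)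
    (hle : mExt A M p tc ≤ 𝔫)
    (W W' : Subring (FF (M * p))) (t : chart (M * p) A tc)
    (htf : ∀ σ : GQ, σ ∈ A.inertiaSubgroupIn ℚ → gal (M * p) σ • (t : FF (M * p)) = t)
    (h : H62ySmooth (chart (M * p) A tc) (ssV A M p) (chartVal (M * p) tc) W W' 𝔫 t)
    (hsc : ∀ f : FF (M * p), f ≠ 0 → ∃ θ : FF (M * p), h13x_IsConst A θ ∧ θ ≠ 0 ∧
      f * θ⁻¹ ∈ W ∧ (f * θ⁻¹)⁻¹ ∈ W)
    (u : FF (M * p)) (hu : u ≠ 0) (r : ℕ) (hr : r ≠ 0)
    (hru : ∀ i, h26Centered (chart (M * p) A tc) (chartVal (M * p) tc) 𝔫 i →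
      ∃ n : ℤ, chartVal (M * p) tc i u = exp (-((r : ℤ) * n))) :
    ∃ (θ ε : FF (M * p)) (Tp Tm : Finset (ChartPlace (M * p) tc))
      (a : ChartPlace (M * p) tc → A) (n : ChartPlace (M * p) tc → ℕ),
      h13x_IsConst A θ ∧ θ ≠ 0 ∧
      (∃ s : chart (M * p) A tc, s ∉ 𝔫 ∧
        (s : FF (M * p)) * ε ∈ chart (M * p) A tc ∧
        (s : FF (M * p)) * ε⁻¹ ∈ chart (M * p) A tc) ∧
      Disjoint Tp Tm ∧
      (∀ i, i ∈ Tp ∨ i ∈ Tm → a i ∈ maximalIdeal A ∧ 0 < n i ∧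
        h26Centered (chart (M * p) A tc) (chartVal (M * p) tc) 𝔫 i) ∧
      u = θ * ε * (aeval (t : FF (M * p)) (h91yPoly Tp a n) *
        (aeval (t : FF (M * p)) (h91yPoly Tm a n))⁻¹) ^ r ∧
      (∀ σ (hσ : σ ∈ A.inertiaSubgroupIn ℚ), gal (M * p) σ • u = u →
        (h91yPoly Tp a n).map (h56pTheta A hσ) = h91yPoly Tp a n ∧
        (h91yPoly Tm a n).map (h56pTheta A hσ) = h91yPoly Tm a n) := by
  classical
  haveI := h𝔫.isPrime
  obtain ⟨θ, ε, T, ai, n, hθ, hθ0, hεO, hεO', hT, hT', hue⟩ :=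
    h90g_smooth_factor h hsc u hu r hru
  set Tp : Finset (ChartPlace (M * p) tc) := T.filter (fun i => 0 < n i) with hTp
  set Tm : Finset (ChartPlace (M * p) tc) := T.filter (fun i => n i < 0) with hTm
  set n' : ChartPlace (M * p) tc → ℕ := fun i => (n i).natAbs with hn'
  have hsplit : ∏ i ∈ T, ((t : FF (M * p)) - algebraMap A (FF (M * p)) (ai i)) ^ n i =
      aeval (t : FF (M * p)) (h91yPoly Tp ai n') *
        (aeval (t : FF (M * p)) (h91yPoly Tm ai n'))⁻¹ := by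
    rw [h91yPoly_aeval, h91yPoly_aeval]
    exact h90g_prod_split T _ n
  refine ⟨θ, ε, Tp, Tm, ai, n', hθ, hθ0, ?_, ?_, ?_, ?_, ?_⟩
  · obtain ⟨s₁, hs₁, h1⟩ := hεO
    obtain ⟨s₂, hs₂, h2⟩ := hεO'
    refine ⟨s₁ * s₂, fun hmem => (h𝔫.isPrime.mem_or_mem hmem).elim hs₁ hs₂, ?_, ?_⟩
    · have e : ((s₁ * s₂ : chart (M * p) A tc) : FF (M * p)) * ε =
          (s₂ : FF (M * p)) * ((s₁ : FF (M * p)) * ε) := by
        push_cast
        ring
      rw [e]
      exact (chart (M * p) A tc).mul_mem s₂.2 h1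
    · have e : ((s₁ * s₂ : chart (M * p) A tc) : FF (M * p)) * ε⁻¹ =
          (s₁ : FF (M * p)) * ((s₂ : FF (M * p)) * ε⁻¹) := by
        push_cast
        ring
      rw [e]
      exact (chart (M * p) A tc).mul_mem s₁.2 h2
  · rw [Finset.disjoint_left]
    intro i hi hi'
    rw [hTp, Finset.mem_filter] at hi
    rw [hTm, Finset.mem_filter] at hi'
    omega
  · intro i hi
    have hiT : i ∈ T ∧ n i ≠ 0 := by
      rcases hi with h | h
      · rw [hTp, Finset.mem_filter] at h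
        exact ⟨h.1, by omega⟩
      · rw [hTm, Finset.mem_filter] at h
        exact ⟨h.1, by omega⟩
    obtain ⟨hci, ham, -, -⟩ := hT i hiT.1
    exact ⟨ham, Int.natAbs_pos.mpr hiT.2, hci⟩
  · rw [← hsplit]
    exact hue
  · intro σ hσ hσu
    have htriv : InertiaTrivAt (M * p) A tc σ :=
      h63r_triv_of_chart hp hM hA _ hσ (htc σ hσ) hC₀.hBV hC₀.hQEP
    have hconst : ∀ k, h26Centered (chart (M * p) A tc) (chartVal (M * p) tc) 𝔫 k →
        ∀ c : A, c ≠ 0 → chartVal (M * p) tc k (algebraMap A (FF (M * p)) c) = 1 := by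
      intro k hk c hc
      obtain ⟨φ, hφker, -⟩ := hS₀ k 𝔫 h𝔫 hle hk
      exact h75p_const_of_section hC₀.hB k φ hφker c hc
    have hstab : ∀ (P : ℤ → Prop) [DecidablePred P], ¬ P 0 →
        (h91yPoly (T.filter (fun i => P (n i))) ai n').map (h56pTheta A hσ) =
          h91yPoly (T.filter (fun i => P (n i))) ai n' := by
      intro P _ hP0
      have key := h90g_stable (v := chartVal (M * p) tc)
        (h26Centered (chart (M * p) A tc) (chartVal (M * p) tc) 𝔫)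
        ((h56pTau (M * p) σ : FF (M * p) ≃+* FF (M * p)) : FF (M * p) →+* FF (M * p))
        (h56pTheta A hσ)
        (fun a => h56p_tau_algebraMap A (M * p) hσ a)
        (h90gAct tc σ (htc σ hσ))
        (fun k y => h90g_act_val tc σ (htc σ hσ) k y)
        (fun k hk => h90g_act_centered A tc σ (htc σ hσ) htriv 𝔫 hle k hk)
        hconst (t : FF (M * p)) u (htf σ hσ) hσu r hr T ai n
        (fun i hi => by
          obtain ⟨hci, -, hvi, hui⟩ := hT i hi
          refine ⟨hci, ?_, hui⟩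
          rw [hvi, ← WithZero.exp_zero, WithZero.exp_lt_exp]
          norm_num)
        hT' P hP0
      exact h90g_poly_map _ ai n' (h56pTheta A hσ) (h90gAct tc σ (htc σ hσ))
        (fun i hi => (key i hi).1)
        (fun i _ j _ h => h90g_act_injective tc σ (htc σ hσ) h)
        (fun i hi => (key i hi).2.1)
        (fun i hi => by
          show (n _).natAbs = (n i).natAbs
          rw [(key i hi).2.2])
    exact ⟨hstab (fun z => 0 < z) (lt_irrefl 0), hstab (fun z => z < 0) (lt_irrefl 0)⟩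

/-- **C3 → C5, smooth points, chart-generic core**: the normal form in the interface shape
`H84aNFSmooth`. -/
theorem h90k_nfSmooth_core (hp : p.Prime) (hM : ¬ p ∣ M) (hA : A.LiesOverPrime p)
    (tc : FF (M * p))
    (htc : ∀ σ : GQ, σ ∈ A.inertiaSubgroupIn ℚ → gal (M * p) σ • tc = tc)
    (hC₀ : IfaceSSChart A M p tc) (hS₀ : IfaceSSSection A M p tc)
    (𝔫 : Ideal (chart (M * p) A tc)) (h𝔫 : 𝔫.IsMaximal)
    (hle : mExt A M p tc ≤ 𝔫)
    (W W' : Subring (FF (M * p))) (t : chart (M * p) A tc)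
    (htf : ∀ σ : GQ, σ ∈ A.inertiaSubgroupIn ℚ → gal (M * p) σ • (t : FF (M * p)) = t)
    (h : H62ySmooth (chart (M * p) A tc) (ssV A M p) (chartVal (M * p) tc) W W' 𝔫 t)
    (hsc : ∀ f : FF (M * p), f ≠ 0 → ∃ θ : FF (M * p), h13x_IsConst A θ ∧ θ ≠ 0 ∧
      f * θ⁻¹ ∈ W ∧ (f * θ⁻¹)⁻¹ ∈ W)
    {b : GQ} (hb : b ∈ A.inertiaSubgroupIn ℚ) (δ : A)
    (u : FF (M * p)) (hu : u ≠ 0)
    (hru : ∀ i, h26Centered (chart (M * p) A tc) (chartVal (M * p) tc) 𝔫 i →
      ∃ n : ℤ, chartVal (M * p) tc i u = exp (-((p : ℤ) * n)))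
    (hvar : ∀ z : A, (∀ σ (hσ : σ ∈ A.inertiaSubgroupIn ℚ), gal (M * p) σ • u = u →
      h56pTheta A hσ z = z) → ∃ c : A, h56pTheta A hb z = z * (1 + δ * c)) :
    H84aNFSmooth ((h56pTau (M * p) b : FF (M * p) ≃+* FF (M * p)) : FF (M * p) →+* FF (M * p))
      (h56pTheta A hb) δ p W
      (h62yO (chart (M * p) A tc) 𝔫 h𝔫.isPrime).toSubring u := by
  classical
  have hprime := h𝔫.isPrime
  obtain ⟨θ, e, Tp, Tm, a, n, hθ, hθ0, hes, hdisj, hT, hue, hrat⟩ :=
    h90k_smooth_core A M hp hM hA tc htc hC₀ hS₀ 𝔫 h𝔫 hle W W' t htf h hsc u hu p hp.ne_zero hru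
  set P : A[X] := h91yPoly Tp a n with hP
  set Q : A[X] := h91yPoly Tm a n with hQ
  set b' : FF (M * p) →+* FF (M * p) :=
    ((h56pTau (M * p) b : FF (M * p) ≃+* FF (M * p)) : FF (M * p) →+* FF (M * p)) with hb'
  obtain ⟨heO, heO'⟩ := h91i_unitAt_mem_O A M 𝔫 hprime hes
  obtain ⟨h1, h1'⟩ := h91i_const_quot_O A M hp hA hb 𝔫 hprime hθ hθ0
  obtain ⟨h2, h2'⟩ := h91i_quot_unit A M hp hM hA hb (htc b hb) hC₀ 𝔫 hprime hle
    heO heO'
  have he0 : e ≠ 0 := by
    intro h0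
    rw [h0, mul_zero, zero_mul] at hue
    exact hu hue
  have hE0 : θ * e ≠ 0 := mul_ne_zero hθ0 he0
  have hbθ0 : h56pTau (M * p) b θ ≠ 0 := (_root_.map_ne_zero _).mpr hθ0
  have hbe0 : h56pTau (M * p) b e ≠ 0 := (_root_.map_ne_zero _).mpr he0
  have hE1 : b' (θ * e) * (θ * e)⁻¹ ∈
      (h62yO (chart (M * p) A tc) 𝔫 hprime).toSubring := by
    have e1 : b' (θ * e) * (θ * e)⁻¹ =
        (h56pTau (M * p) b θ * θ⁻¹) * (h56pTau (M * p) b e * e⁻¹) := by
      show h56pTau (M * p) b (θ * e) * (θ * e)⁻¹ = _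
      rw [map_mul]
      field_simp
    rw [e1]
    exact (h62yO (chart (M * p) A tc) 𝔫 hprime).mul_mem h1 h2
  have hE2 : (θ * e) * (b' (θ * e))⁻¹ ∈
      (h62yO (chart (M * p) A tc) 𝔫 hprime).toSubring := by
    have e1 : (θ * e) * (b' (θ * e))⁻¹ =
        (h56pTau (M * p) b θ * θ⁻¹)⁻¹ * (h56pTau (M * p) b e * e⁻¹)⁻¹ := by
      show (θ * e) * (h56pTau (M * p) b (θ * e))⁻¹ = _
      rw [map_mul]
      field_simp
    rw [e1]
    exact (h62yO (chart (M * p) A tc) 𝔫 hprime).mul_mem h1' h2'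
  exact ⟨(t : FF (M * p)), P, Q, θ * e, h.hBW _ t.2, h.htW, h.ht0, htf b hb,
    h91yPoly_monic Tp a n,
    h91yPoly_coeff_mem Tp a n (fun i hi => (hT i (Or.inl hi)).1),
    h90g_hvar A M hb δ u hvar P (fun σ hσ hσu => (hrat σ hσ hσu).1),
    h91yPoly_monic Tm a n,
    h91yPoly_coeff_mem Tm a n (fun i hi => (hT i (Or.inr hi)).1),
    h90g_hvar A M hb δ u hvar Q (fun σ hσ hσu => (hrat σ hσ hσu).2),
    hE0, hE1, hE2, hue⟩

end Fermat.Agent.P7
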