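import Mathlib
import Fermat.Agent.Red.LocalFact

/-!
# P7 (wave 7, S40), block (5b), leaf T-C3-NF (helper90): rationality of the polynomial of the
points of a divisor in a tube, abstract form

`F` a field over a ring `A`, `v` a family of places of `F`, `C` a class of places (the places
centered at a closed point of the special fibre), `τ` an automorphism of `F` acting on the
constants through `θ`, and `s` the action of `τ` on the places: `v (s k) y = v k (τ y)`.

* `h90g_poly_map` : if `s` maps the finite set `T` into itself injectively, `θ (a (s i)) = a i`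
  and `e (s i) = e i`, the polynomial `∏ i ∈ T, (X - a_i) ^ e_i` has coefficients fixed by `θ`.
* `h90g_stable` : the zeros (or the poles) of a function `u` fixed by `τ`, among the places of
  the class `C`, with the values `a_i` of a parameter `x` fixed by `τ`, are permuted by `s`
  with `θ (a (s i)) = a i` and equal multiplicities.
* `h90g_prod_split` : `∏ z_i ^ n_i = ∏_{n_i > 0} z_i ^ |n_i| / ∏_{n_i < 0} z_i ^ |n_i|`.
-/

set_option autoImplicit false
set_option linter.unusedSectionVars false
set_option linter.unusedVariables false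
set_option linter.style.longLine false

open WithZero Polynomial

namespace Fermat.Agent.P7

section Poly

variable {A : Type*} [CommRing A] {ι : Type*}

/-- a polynomial `∏ (X - a_i) ^ e_i` whose roots are permuted by `θ` has coefficients fixed by
`θ`. -/
theorem h90g_poly_map [DecidableEq ι] (T : Finset ι) (a : ι → A) (e : ι → ℕ) (θ : A →+* A)
    (s : ι → ι) (hsT : ∀ i ∈ T, s i ∈ T) (hsinj : Set.InjOn s (T : Set ι))
    (ha : ∀ i ∈ T, θ (a (s i)) = a i) (he : ∀ i ∈ T, e (s i) = e i) :
    (∏ i ∈ T, (X - C (a i)) ^ e i).map θ = ∏ i ∈ T, (X - C (a i)) ^ e i := by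
  have himg : T.image s = T :=
    Finset.eq_of_subset_of_card_le (Finset.image_subset_iff.mpr hsT)
      (by rw [Finset.card_image_of_injOn hsinj])
  rw [Polynomial.map_prod]
  conv_lhs => rw [← himg]
  rw [Finset.prod_image (fun x hx y hy h => hsinj hx hy h)]
  refine Finset.prod_congr rfl fun i hi => ?_
  rw [Polynomial.map_pow, Polynomial.map_sub, Polynomial.map_X, Polynomial.map_C, ha i hi,
    he i hi]

end Poly

section Split

variable {F : Type*} [Field F] {ι : Type*}

/-- `∏ z_i ^ n_i = ∏_{n_i > 0} z_i ^ |n_i| / ∏_{n_i < 0} z_i ^ |n_i|`. -/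
theorem h90g_prod_split (T : Finset ι) (z : ι → F) (n : ι → ℤ) :
    ∏ i ∈ T, z i ^ n i =
      (∏ i ∈ T.filter (fun i => 0 < n i), z i ^ (n i).natAbs) *
        (∏ i ∈ T.filter (fun i => n i < 0), z i ^ (n i).natAbs)⁻¹ := by
  classical
  induction T using Finset.induction_on with
  | empty => simp
  | insert j T hj ih =>
    rw [Finset.prod_insert hj, ih, Finset.filter_insert, Finset.filter_insert]
    rcases lt_trichotomy (n j) 0 with h | h | h
    · have h1 : ¬ 0 < n j := not_lt.mpr h.le
      rw [if_neg h1, if_pos h, Finset.prod_insert (by simp [hj])]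
      have e : z j ^ n j = (z j ^ (n j).natAbs)⁻¹ := by
        rw [← zpow_natCast, ← zpow_neg]
        congr 1
        omega
      rw [e, mul_inv]
      ring
    · have h1 : ¬ 0 < n j := by omega
      have h2 : ¬ n j < 0 := by omega
      rw [if_neg h1, if_neg h2, h, zpow_zero, one_mul]
    · have h2 : ¬ n j < 0 := not_lt.mpr h.le
      rw [if_pos h, if_neg h2, Finset.prod_insert (by simp [hj])]
      have e : z j ^ n j = z j ^ (n j).natAbs := by
        rw [← zpow_natCast]
        congr 1
        omega
      rw [e]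
      ring

end Split

section Stable

variable {A : Type*} [CommRing A] {F : Type*} [Field F] [Algebra A F]
  {ι : Type*} {v : ι → Valuation F ℤᵐ⁰}

/-- **stability of the zeros (or of the poles) in a tube.**  `P : ℤ → Prop` is a condition on
the multiplicity which excludes `0` (`0 < n` or `n < 0`). -/
theorem h90g_stable [DecidableEq ι] (Cc : ι → Prop) (τ : F →+* F) (θ : A →+* A)
    (hτθ : ∀ a : A, τ (algebraMap A F a) = algebraMap A F (θ a))
    (s : ι → ι) (hval : ∀ k y, v (s k) y = v k (τ y)) (hCs : ∀ k, Cc k → Cc (s k))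
    (hconst : ∀ k, Cc k → ∀ c : A, c ≠ 0 → v k (algebraMap A F c) = 1)
    (x u : F) (hx : τ x = x) (hu : τ u = u) (r : ℕ) (hr : r ≠ 0)
    (T : Finset ι) (a : ι → A) (n : ι → ℤ)
    (hT : ∀ i ∈ T, Cc i ∧ v i (x - algebraMap A F (a i)) < 1 ∧
      v i u = exp (-((r : ℤ) * n i)))
    (hT' : ∀ k, Cc k → k ∉ T → v k u = 1)
    (P : ℤ → Prop) [DecidablePred P] (hP0 : ¬ P 0) :
    ∀ i ∈ T.filter (fun i => P (n i)),
      s i ∈ T.filter (fun i => P (n i)) ∧ θ (a (s i)) = a i ∧ n (s i) = n i := by
  intro i hi
  rw [Finset.mem_filter] at hi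
  obtain ⟨hiT, hPi⟩ := hi
  obtain ⟨hCi, hxi, hui⟩ := hT i hiT
  have hni : n i ≠ 0 := fun h => hP0 (h ▸ hPi)
  have hr' : (r : ℤ) ≠ 0 := Int.natCast_ne_zero.mpr hr
  have hCk : Cc (s i) := hCs i hCi
  have huk : v (s i) u = exp (-((r : ℤ) * n i)) := by rw [hval, hu, hui]
  have hkT : s i ∈ T := by
    by_contra hk
    have h1 := hT' (s i) hCk hk
    rw [huk, ← WithZero.exp_zero, WithZero.exp_inj] at h1
    have : (r : ℤ) * n i = 0 := by omega
    rcases mul_eq_zero.mp this with h | h
    · exact hr' h
    · exact hni h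
  obtain ⟨-, hxk, huk'⟩ := hT (s i) hkT
  have hnk : n (s i) = n i := by
    rw [huk, WithZero.exp_inj] at huk'
    have : (r : ℤ) * n i = (r : ℤ) * n (s i) := by omega
    exact (mul_left_cancel₀ hr' this).symm
  refine ⟨?_, ?_, hnk⟩
  · rw [Finset.mem_filter]
    exact ⟨hkT, by rw [hnk]; exact hPi⟩
  · by_contra hne
    have h1 : v i (x - algebraMap A F (θ (a (s i)))) < 1 := by
      have h2 : τ (x - algebraMap A F (a (s i))) = x - algebraMap A F (θ (a (s i))) := by
        rw [map_sub, hx, hτθ]
      rw [← h2, ← hval]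
      exact hxk
    have h3 : algebraMap A F (θ (a (s i)) - a i) =
        (x - algebraMap A F (a i)) - (x - algebraMap A F (θ (a (s i)))) := by
      rw [map_sub]
      ring
    have h4 : v i (algebraMap A F (θ (a (s i)) - a i)) < 1 := by
      rw [h3]
      exact lt_of_le_of_lt (Valuation.map_sub _ _ _) (max_lt hxi h1)
    rw [hconst i hCi _ (sub_ne_zero.mpr hne)] at h4
    exact lt_irrefl _ h4

end Stable

end Fermat.Agent.P7
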