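import Fermat.Agent.S35.H13TorNode
import Fermat.Agent.P6.H91LocDeep

/-!
# P7 (wave 7, S40), block (5b) (helper90): the slope at a node

Vocabulary of `S35/H13TorNode.lean`: `A` a valuation ring, `F` a field over `A`, `B ⊆ F` a chart,
`V = W∞ ∩ W₀` the semistable Gauss ring, `𝔫` a node of the special fibre with local equation
`x y = a c` (`x` a unit of `W∞`, `y` a unit of `W₀`, `c` a unit at `𝔫`).

* `h90s_no_frac` : **the slope is integral.**  A function `f` without zeros and poles at the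
  places centered at `𝔫` which is a unit of `W∞` cannot satisfy `|a| < |f|₀ < 1`
  (`f = ρ w`, `w` a unit of `W₀`, `a = ρ q`, `ρ, q ∈ 𝔪_A`).
  [`f ∈ 𝔫 B_𝔫` and `x / f ∈ 𝔫 B_𝔫`, hence `x ∈ 𝔫² B_𝔫`, hence `x ∈ y B_𝔫 + 𝔪_A B_𝔫`, which is
  impossible for a unit of `W∞`.]
* `h90s_slope_nat`, `h90s_slope` : a function `f ≠ 0` without zeros and poles at the places
  centered at `𝔫` is `κ · x ^ m · ε` with `κ` a constant, `m ∈ ℤ` and `ε` a unit of `V`
  without zeros and poles centered at `𝔫` (a unit of `B_𝔫`).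

No hypothesis of the form `u ≡ 1`: this is the part of the normal form at a node which sees the
vertical components.
-/

set_option autoImplicit false
set_option linter.unusedSectionVars false
set_option linter.unusedVariables false
set_option linter.style.haveILetI false

open WithZero IsLocalRing

namespace Fermat.Agent.P7

open Fermat.Agent.Red Fermat.Agent.LGC Fermat.Agent.S35 Fermat.Agent.P6

section Node

variable {A : Type*} [CommRing A] [IsDomain A] [ValuationRing A]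
  {F : Type*} [Field F] [Algebra A F]
  {B : Subalgebra A F} {V : Subring F} {ι : Type*} {v : ι → Valuation F ℤᵐ⁰}

/-- **the slope is integral**: no function without zeros and poles centered at the node has
`|f|_∞ = 1` and `|a| < |f|₀ < 1`. -/
theorem h90s_no_frac (hC : H26Chart B V v) (hAF : Function.Injective (algebraMap A F))
    (Winf W0 : Subring F)
    (hVWinf : ∀ x ∈ V, x ∈ Winf) (hVW0 : ∀ x ∈ V, x ∈ W0)
    (hWV : ∀ x : F, x ∈ Winf → x ∈ W0 → x ∈ V)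
    (hntinf : ∀ π ∈ maximalIdeal A, ∀ x ∈ Winf, algebraMap A F π * x ≠ 1)
    (hnt0 : ∀ π ∈ maximalIdeal A, ∀ x ∈ W0, algebraMap A F π * x ≠ 1)
    (𝔫 : Ideal B) [h𝔫 : 𝔫.IsPrime]
    (hninf : ∀ b : B, b ∉ 𝔫 → ((b : F))⁻¹ ∈ Winf)
    (hn0 : ∀ b : B, b ∉ 𝔫 → ((b : F))⁻¹ ∈ W0)
    (x y c : B) (hx : x ∈ 𝔫) (hy : y ∈ 𝔫) (hc : c ∉ 𝔫) (a : A) (ha : a ≠ 0)
    (hxy : x * y = algebraMap A B a * c)
    (hxinf : ((x : F))⁻¹ ∈ Winf) (hy0 : ((y : F))⁻¹ ∈ W0)
    (hprin : ∀ z ∈ 𝔫, ∃ s, s ∉ 𝔫 ∧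
      s * z ∈ Ideal.span {x, y} ⊔ (maximalIdeal A).map (algebraMap A B))
    (hvalx : ∀ k, h26Centered B v 𝔫 k → v k (x : F) = 1)
    (f : F) (hf0 : f ≠ 0) (hfval : ∀ k, h26Centered B v 𝔫 k → v k f = 1)
    (hfinf : f ∈ Winf) (hfinf' : f⁻¹ ∈ Winf)
    (ρ q : A) (hρ : ρ ∈ maximalIdeal A) (hq : q ∈ maximalIdeal A) (haρ : a = ρ * q)
    (w : F) (hw : w ∈ W0) (hw' : w⁻¹ ∈ W0) (hfw : f = algebraMap A F ρ * w) : False := by
  classical
  have hAV : ∀ a : A, algebraMap A F a ∈ V := fun a => hC.hBV _ (B.algebraMap_mem a)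
  have hAinf : ∀ a : A, algebraMap A F a ∈ Winf := fun a => hVWinf _ (hAV a)
  have hA0 : ∀ a : A, algebraMap A F a ∈ W0 := fun a => hVW0 _ (hAV a)
  have hBinf : ∀ b : B, (b : F) ∈ Winf := fun b => hVWinf _ (hC.hBV _ b.2)
  have hB0 : ∀ b : B, (b : F) ∈ W0 := fun b => hVW0 _ (hC.hBV _ b.2)
  have haF : algebraMap A F a ≠ 0 := fun h => ha (hAF (by rw [h, map_zero]))
  have ham : a ∈ maximalIdeal A := by rw [haρ]; exact Ideal.mul_mem_right _ _ hρ
  have hc0 : (c : F) ≠ 0 := by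
    intro h0
    apply hc
    have : c = 0 := Subtype.ext h0
    rw [this]; exact 𝔫.zero_mem
  have hxyF : (x : F) * (y : F) = algebraMap A F a * (c : F) := by
    have := congrArg (Subtype.val) hxy
    simpa using this
  have hx0 : (x : F) ≠ 0 := by
    intro h0
    rw [h0, zero_mul] at hxyF
    exact mul_ne_zero haF hc0 hxyF.symm
  have hy0' : (y : F) ≠ 0 := by
    intro h0
    rw [h0, mul_zero] at hxyF
    exact mul_ne_zero haF hc0 hxyF.symm
  have hρF : algebraMap A F ρ ≠ 0 := by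
    intro h0
    rw [h0, zero_mul] at hfw
    exact hf0 hfw
  have hw0 : w ≠ 0 := by
    intro h0
    rw [h0, mul_zero] at hfw
    exact hf0 hfw
  -- `f` is regular at the node and vanishes there
  have hfW0 : f ∈ W0 := by rw [hfw]; exact W0.mul_mem (hA0 ρ) hw
  have hfV : f ∈ V := hWV f hfinf hfW0
  obtain ⟨s₁, hs₁, hs₁f⟩ := h13x_regular hC 𝔫 f hfV (fun k hk => (hfval k hk).le)
  set b₁ : B := ⟨(s₁ : F) * f, hs₁f⟩ with hb₁
  have hb₁𝔫 : b₁ ∈ 𝔫 := by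
    refine h13x_mem_of_mod W0 hnt0 𝔫 hn0 ρ hρ b₁ ((s₁ : F) * w) (W0.mul_mem (hB0 s₁) hw) ?_
    show (s₁ : F) * f = _
    rw [hfw]; ring
  -- `t = x / f` is regular at the node and vanishes there
  set t : F := (x : F) * f⁻¹ with ht
  have htinf : t ∈ Winf := Winf.mul_mem (hBinf x) hfinf'
  have hxval : (x : F) = algebraMap A F a * (c : F) * ((y : F))⁻¹ := by
    field_simp
    exact hxyF
  have htq : t = algebraMap A F q * ((c : F) * ((y : F))⁻¹ * w⁻¹) := by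
    rw [ht, hfw, hxval, haρ, map_mul]
    field_simp
  have htW0 : t ∈ W0 := by
    rw [htq]
    exact W0.mul_mem (hA0 q) (W0.mul_mem (W0.mul_mem (hB0 c) hy0) hw')
  have htV : t ∈ V := hWV t htinf htW0
  have htval : ∀ k, h26Centered B v 𝔫 k → v k t = 1 := by
    intro k hk
    rw [ht, map_mul, map_inv₀, hvalx k hk, hfval k hk, inv_one, mul_one]
  obtain ⟨s₂, hs₂, hs₂t⟩ := h13x_regular hC 𝔫 t htV (fun k hk => (htval k hk).le)
  set b₂ : B := ⟨(s₂ : F) * t, hs₂t⟩ with hb₂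
  have hb₂𝔫 : b₂ ∈ 𝔫 := by
    refine h13x_mem_of_mod W0 hnt0 𝔫 hn0 q hq b₂ ((s₂ : F) * ((c : F) * ((y : F))⁻¹ * w⁻¹))
      (W0.mul_mem (hB0 s₂) (W0.mul_mem (W0.mul_mem (hB0 c) hy0) hw')) ?_
    show (s₂ : F) * t = _
    rw [htq]; ring
  -- the two local expressions
  obtain ⟨s₃, hs₃, h3⟩ := hprin b₁ hb₁𝔫
  obtain ⟨s₄, hs₄, h4⟩ := hprin b₂ hb₂𝔫
  obtain ⟨p₁, hp₁, μ₁, hμ₁, h31⟩ := Submodule.mem_sup.mp h3
  obtain ⟨p₂, hp₂, μ₂, hμ₂, h41⟩ := Submodule.mem_sup.mp h4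
  obtain ⟨α, β, hαβ⟩ := Ideal.mem_span_pair.mp hp₁
  obtain ⟨α', β', hαβ'⟩ := Ideal.mem_span_pair.mp hp₂
  obtain ⟨π₁, hπ₁, c₁, hc₁⟩ := h91q_mem_map μ₁ hμ₁
  obtain ⟨π₂, hπ₂, c₂, hc₂⟩ := h91q_mem_map μ₂ hμ₂
  -- a common divisor of `a`, `π₁`, `π₂`
  obtain ⟨d, hd, hd0, hda, hdπ⟩ := h26_common_divisor (Finset.univ : Finset (Fin 2))
    (fun i => if i = 0 then π₁ else π₂)
    (fun i _ => by
      by_cases hi : i = 0
      · simp only [hi, if_true]; exact hπ₁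
      · simp only [hi, if_false]; exact hπ₂) a ham ha
  obtain ⟨e₁, he₁⟩ : d ∣ π₁ := by
    have := hdπ 0 (Finset.mem_univ _)
    simpa using this
  obtain ⟨e₂, he₂⟩ : d ∣ π₂ := by
    have := hdπ 1 (Finset.mem_univ _)
    simpa using this
  obtain ⟨a₁, ha₁⟩ := hda
  -- the element `S - α α' x` is not in `𝔫`
  set S : B := s₃ * s₁ * (s₄ * s₂) with hS
  have hS𝔫 : S ∉ 𝔫 := fun h =>
    (h𝔫.mem_or_mem h).elim (fun h' => (h𝔫.mem_or_mem h').elim hs₃ hs₁)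
      (fun h' => (h𝔫.mem_or_mem h').elim hs₄ hs₂)
  set b₅ : B := S - α * α' * x with hb₅
  have hb₅𝔫 : b₅ ∉ 𝔫 := by
    intro h
    apply hS𝔫
    have h1 : S = b₅ + α * α' * x := by rw [hb₅]; ring
    rw [h1]
    exact 𝔫.add_mem h (𝔫.mul_mem_left _ hx)
  -- but it is divisible by `d` in `W∞`
  apply hb₅𝔫
  set y₁ : F := algebraMap A F a₁ * (c : F) * ((x : F))⁻¹ with hy₁
  have hy₁inf : y₁ ∈ Winf := Winf.mul_mem (Winf.mul_mem (hAinf a₁) (hBinf c)) hxinf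
  have hyd : (y : F) = algebraMap A F d * y₁ := by
    rw [hy₁]
    have h1 : algebraMap A F a = algebraMap A F d * algebraMap A F a₁ := by
      rw [← map_mul, ha₁]
    have h2 : (y : F) = algebraMap A F a * (c : F) * ((x : F))⁻¹ := by
      field_simp
      rw [mul_comm]; exact hxyF
    rw [h2, h1]; ring
  set w₁ : F := (β : F) * (β' : F) * y₁ * (y : F) +
      ((α : F) * (β' : F) + (α' : F) * (β : F)) * (algebraMap A F a₁ * (c : F)) +
      algebraMap A F e₁ * (c₁ : F) * ((α' : F) * (x : F) + (β' : F) * (y : F) + (μ₂ : F)) +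
      algebraMap A F e₂ * (c₂ : F) * ((α : F) * (x : F) + (β : F) * (y : F)) with hw₁
  have hw₁inf : w₁ ∈ Winf := by
    rw [hw₁]
    refine Winf.add_mem (Winf.add_mem (Winf.add_mem ?_ ?_) ?_) ?_
    · exact Winf.mul_mem (Winf.mul_mem (Winf.mul_mem (hBinf β) (hBinf β')) hy₁inf) (hBinf y)
    · exact Winf.mul_mem (Winf.add_mem (Winf.mul_mem (hBinf α) (hBinf β'))
        (Winf.mul_mem (hBinf α') (hBinf β))) (Winf.mul_mem (hAinf a₁) (hBinf c))
    · exact Winf.mul_mem (Winf.mul_mem (hAinf e₁) (hBinf c₁))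
        (Winf.add_mem (Winf.add_mem (Winf.mul_mem (hBinf α') (hBinf x))
          (Winf.mul_mem (hBinf β') (hBinf y))) (hBinf μ₂))
    · exact Winf.mul_mem (Winf.mul_mem (hAinf e₂) (hBinf c₂))
        (Winf.add_mem (Winf.mul_mem (hBinf α) (hBinf x)) (Winf.mul_mem (hBinf β) (hBinf y)))
  -- the identities in `F`
  have e1 : (s₃ : F) * ((s₁ : F) * f) = (α : F) * (x : F) + (β : F) * (y : F) + (μ₁ : F) := by
    have h5 : s₃ * b₁ = α * x + β * y + μ₁ := by rw [← h31, ← hαβ]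
    have := congrArg (Subtype.val) h5
    simpa [hb₁] using this
  have e2 : (s₄ : F) * ((s₂ : F) * t) = (α' : F) * (x : F) + (β' : F) * (y : F) + (μ₂ : F) := by
    have h5 : s₄ * b₂ = α' * x + β' * y + μ₂ := by rw [← h41, ← hαβ']
    have := congrArg (Subtype.val) h5
    simpa [hb₂] using this
  have e3 : (μ₁ : F) = algebraMap A F d * (algebraMap A F e₁ * (c₁ : F)) := by
    have := congrArg (Subtype.val) hc₁
    rw [this, he₁]
    simp only [MulMemClass.coe_mul, Subalgebra.coe_algebraMap, map_mul]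
    ring
  have e4 : (μ₂ : F) = algebraMap A F d * (algebraMap A F e₂ * (c₂ : F)) := by
    have := congrArg (Subtype.val) hc₂
    rw [this, he₂]
    simp only [MulMemClass.coe_mul, Subalgebra.coe_algebraMap, map_mul]
    ring
  have e5 : f * t = (x : F) := by
    rw [ht, mul_comm (x : F), ← mul_assoc, mul_inv_cancel₀ hf0, one_mul]
  have e6 : (x : F) * (y : F) = algebraMap A F d * (algebraMap A F a₁ * (c : F)) := by
    rw [hxyF, ha₁, map_mul]; ring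
  have hSF : (S : F) = (s₃ : F) * (s₁ : F) * ((s₄ : F) * (s₂ : F)) := by
    rw [hS]; push_cast; ring
  have key : (b₅ : F) * (x : F) = algebraMap A F d * w₁ := by
    have hb₅F : (b₅ : F) = (S : F) - (α : F) * (α' : F) * (x : F) := by
      rw [hb₅]; push_cast; ring
    have hprod : (S : F) * (x : F) =
        ((α : F) * (x : F) + (β : F) * (y : F) + (μ₁ : F)) *
          ((α' : F) * (x : F) + (β' : F) * (y : F) + (μ₂ : F)) := by
      rw [← e1, ← e2, hSF, ← e5]; ring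
    rw [hb₅F, sub_mul, hprod, hw₁]
    have hyy : (y : F) * (y : F) = algebraMap A F d * y₁ * (y : F) := by
      rw [← hyd]
    linear_combination (β : F) * (β' : F) * hyy +
      ((α : F) * (β' : F) + (α' : F) * (β : F)) * e6 +
      ((α' : F) * (x : F) + (β' : F) * (y : F) + (μ₂ : F)) * e3 +
      ((α : F) * (x : F) + (β : F) * (y : F)) * e4
  refine h13x_mem_of_mod Winf hntinf 𝔫 hninf d hd b₅ (w₁ * ((x : F))⁻¹)
    (Winf.mul_mem hw₁inf hxinf) ?_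
  have h7 : (b₅ : F) = (b₅ : F) * (x : F) * ((x : F))⁻¹ := by
    rw [mul_assoc, mul_inv_cancel₀ hx0, mul_one]
  rw [h7, key]; ring

/-- the constant of a node equation lies in `𝔪_A`. -/
theorem h90s_const_mem (𝔫 : Ideal B) [h𝔫 : 𝔫.IsPrime]
    (x y c : B) (hx : x ∈ 𝔫) (hc : c ∉ 𝔫) (a : A)
    (hxy : x * y = algebraMap A B a * c) : a ∈ maximalIdeal A := by
  by_contra hne
  have hu : IsUnit a := IsLocalRing.notMem_maximalIdeal.mp hne
  have h1 : algebraMap A B a * c ∈ 𝔫 := by rw [← hxy]; exact 𝔫.mul_mem_right _ hx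
  rcases h𝔫.mem_or_mem h1 with h | h
  · exact h𝔫.ne_top (Ideal.eq_top_of_isUnit_mem _ h (hu.map _))
  · exact hc h

/-- **the slope of a function with `|f|_∞ = 1 ≥ |f|₀`**: if `f` has no zeros and poles at the
places centered at the node, is a unit of `W∞` and is `d · (unit of W₀)` with `d ∈ A`, then
`f = x ^ m · ε` with `ε` a unit of `V` without zeros and poles centered at the node. -/
theorem h90s_slope_nat (hC : H26Chart B V v) (hAF : Function.Injective (algebraMap A F))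
    (Winf W0 : Subring F)
    (hVWinf : ∀ x ∈ V, x ∈ Winf) (hVW0 : ∀ x ∈ V, x ∈ W0)
    (hWV : ∀ x : F, x ∈ Winf → x ∈ W0 → x ∈ V)
    (hntinf : ∀ π ∈ maximalIdeal A, ∀ x ∈ Winf, algebraMap A F π * x ≠ 1)
    (hnt0 : ∀ π ∈ maximalIdeal A, ∀ x ∈ W0, algebraMap A F π * x ≠ 1)
    (𝔫 : Ideal B) [h𝔫 : 𝔫.IsPrime]
    (hninf : ∀ b : B, b ∉ 𝔫 → ((b : F))⁻¹ ∈ Winf)
    (hn0 : ∀ b : B, b ∉ 𝔫 → ((b : F))⁻¹ ∈ W0)
    (x y c : B) (hx : x ∈ 𝔫) (hy : y ∈ 𝔫) (hc : c ∉ 𝔫) (a : A) (ha : a ≠ 0)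
    (hxy : x * y = algebraMap A B a * c)
    (hxinf : ((x : F))⁻¹ ∈ Winf) (hy0 : ((y : F))⁻¹ ∈ W0)
    (hprin : ∀ z ∈ 𝔫, ∃ s, s ∉ 𝔫 ∧
      s * z ∈ Ideal.span {x, y} ⊔ (maximalIdeal A).map (algebraMap A B))
    (hvalx : ∀ k, h26Centered B v 𝔫 k → v k (x : F) = 1) :
    ∀ (K : ℕ) (d : A) (g w : F), d ∣ a ^ K → g ≠ 0 →
      (∀ k, h26Centered B v 𝔫 k → v k g = 1) → g ∈ Winf → g⁻¹ ∈ Winf →
      w ∈ W0 → w⁻¹ ∈ W0 → g = algebraMap A F d * w →
      ∃ (m : ℕ) (ε : F), g = (x : F) ^ m * ε ∧ ε ∈ V ∧ ε⁻¹ ∈ V ∧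
        ∀ k, h26Centered B v 𝔫 k → v k ε = 1 := by
  classical
  have hAV : ∀ a : A, algebraMap A F a ∈ V := fun a => hC.hBV _ (B.algebraMap_mem a)
  have hAinf : ∀ a : A, algebraMap A F a ∈ Winf := fun a => hVWinf _ (hAV a)
  have hA0 : ∀ a : A, algebraMap A F a ∈ W0 := fun a => hVW0 _ (hAV a)
  have hBinf : ∀ b : B, (b : F) ∈ Winf := fun b => hVWinf _ (hC.hBV _ b.2)
  have hB0 : ∀ b : B, (b : F) ∈ W0 := fun b => hVW0 _ (hC.hBV _ b.2)
  have haF : algebraMap A F a ≠ 0 := fun h => ha (hAF (by rw [h, map_zero]))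
  have ham : a ∈ maximalIdeal A := h90s_const_mem 𝔫 x y c hx hc a hxy
  have hc0 : (c : F) ≠ 0 := by
    intro h0
    apply hc
    have : c = 0 := Subtype.ext h0
    rw [this]; exact 𝔫.zero_mem
  have hxyF : (x : F) * (y : F) = algebraMap A F a * (c : F) := by
    have := congrArg (Subtype.val) hxy
    simpa using this
  have hx0 : (x : F) ≠ 0 := by
    intro h0
    rw [h0, zero_mul] at hxyF
    exact mul_ne_zero haF hc0 hxyF.symm
  have hy0' : (y : F) ≠ 0 := by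
    intro h0
    rw [h0, mul_zero] at hxyF
    exact mul_ne_zero haF hc0 hxyF.symm
  intro K
  induction K with
  | zero =>
    intro d g w hdK hg0 hgval hginf hginf' hw hw' hgw
    -- `d` is a unit
    rw [pow_zero] at hdK
    have hdu : IsUnit d := isUnit_of_dvd_one hdK
    obtain ⟨d', hdd'⟩ := hdu.exists_right_inv
    have hdF : algebraMap A F d * algebraMap A F d' = 1 := by rw [← map_mul, hdd', map_one]
    have hdF0 : algebraMap A F d ≠ 0 := left_ne_zero_of_mul_eq_one hdF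
    refine ⟨0, g, by rw [pow_zero, one_mul], hWV g hginf ?_, hWV _ hginf' ?_, hgval⟩
    · rw [hgw]; exact W0.mul_mem (hA0 d) hw
    · rw [hgw, mul_inv, inv_eq_of_mul_eq_one_right hdF]
      exact W0.mul_mem (hA0 d') hw'
  | succ K ih =>
    intro d g w hdK hg0 hgval hginf hginf' hw hw' hgw
    have hdF0 : algebraMap A F d ≠ 0 := by
      intro h0
      rw [h0, zero_mul] at hgw
      exact hg0 hgw
    by_cases had : a ∣ d
    · -- divide by `x`
      obtain ⟨d', hd'⟩ := had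
      have hd'K : d' ∣ a ^ K := by
        rw [hd', pow_succ, mul_comm (a ^ K) a] at hdK
        exact (mul_dvd_mul_iff_left ha).mp hdK
      have hcinv : ((c : F))⁻¹ ∈ W0 := hn0 c hc
      obtain ⟨m, ε, hgε, hεV, hεV', hεval⟩ := ih d' (g * ((x : F))⁻¹)
        (w * (y : F) * ((c : F))⁻¹) hd'K (mul_ne_zero hg0 (inv_ne_zero hx0))
        (fun k hk => by rw [map_mul, map_inv₀, hgval k hk, hvalx k hk, inv_one, mul_one])
        (Winf.mul_mem hginf hxinf)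
        (by rw [mul_inv, inv_inv]; exact Winf.mul_mem hginf' (hBinf x))
        (W0.mul_mem (W0.mul_mem hw (hB0 y)) hcinv)
        (by
          rw [mul_inv, mul_inv, inv_inv]
          exact W0.mul_mem (W0.mul_mem hw' hy0) (hB0 c))
        (by
          rw [hgw, hd', map_mul]
          have h2 : ((x : F))⁻¹ = (y : F) * (algebraMap A F a * (c : F))⁻¹ := by
            rw [← hxyF]
            field_simp
          rw [h2]
          field_simp)
      refine ⟨m + 1, ε, ?_, hεV, hεV', hεval⟩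
      have h3 : g = (x : F) * (g * ((x : F))⁻¹) := by
        field_simp
      rw [h3, hgε, pow_succ]; ring
    · -- `d` divides `a` strictly or is a unit
      rcases ValuationRing.dvd_total a d with h | h
      · exact absurd h had
      obtain ⟨q, hq⟩ := h
      have hqm : q ∈ maximalIdeal A := by
        by_contra hne
        have hu : IsUnit q := IsLocalRing.notMem_maximalIdeal.mp hne
        obtain ⟨q', hqq'⟩ := hu.exists_right_inv
        apply had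
        exact ⟨q', by rw [hq, mul_assoc, hqq', mul_one]⟩
      by_cases hdm : d ∈ maximalIdeal A
      · exact (h90s_no_frac hC hAF Winf W0 hVWinf hVW0 hWV hntinf hnt0 𝔫 hninf hn0 x y c hx hy
          hc a ha hxy hxinf hy0 hprin hvalx g hg0 hgval hginf hginf' d q hdm hqm hq w hw hw'
          hgw).elim
      · have hdu : IsUnit d := IsLocalRing.notMem_maximalIdeal.mp hdm
        obtain ⟨d', hdd'⟩ := hdu.exists_right_inv
        have hdF : algebraMap A F d * algebraMap A F d' = 1 := by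
          rw [← map_mul, hdd', map_one]
        refine ⟨0, g, by rw [pow_zero, one_mul], hWV g hginf ?_, hWV _ hginf' ?_, hgval⟩
        · rw [hgw]; exact W0.mul_mem (hA0 d) hw
        · rw [hgw, mul_inv, inv_eq_of_mul_eq_one_right hdF]
          exact W0.mul_mem (hA0 d') hw'

/-- **the slope at a node**: a function `f ≠ 0` without zeros and poles at the places centered
at the node is `κ · x ^ m · ε`, `κ` a nonzero constant, `m ∈ ℤ`, `ε` a unit of `V` without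
zeros and poles centered at the node (so `ε` is a unit of `B_𝔫`). -/
theorem h90s_slope (hC : H26Chart B V v) (hAF : Function.Injective (algebraMap A F))
    (harch : ∀ c ∈ maximalIdeal A, c ≠ 0 → ∀ a : A, a ≠ 0 → ∃ k : ℕ, a ∣ c ^ k)
    (Winf W0 : Subring F)
    (hVWinf : ∀ x ∈ V, x ∈ Winf) (hVW0 : ∀ x ∈ V, x ∈ W0)
    (hWV : ∀ x : F, x ∈ Winf → x ∈ W0 → x ∈ V)
    (hntinf : ∀ π ∈ maximalIdeal A, ∀ x ∈ Winf, algebraMap A F π * x ≠ 1)
    (hnt0 : ∀ π ∈ maximalIdeal A, ∀ x ∈ W0, algebraMap A F π * x ≠ 1)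
    (hscinf : ∀ f : F, f ≠ 0 → ∃ κ : F, h13x_IsConst A κ ∧ κ ≠ 0 ∧
      f * κ⁻¹ ∈ Winf ∧ (f * κ⁻¹)⁻¹ ∈ Winf)
    (hsc0 : ∀ f : F, f ≠ 0 → ∃ κ : F, h13x_IsConst A κ ∧ κ ≠ 0 ∧
      f * κ⁻¹ ∈ W0 ∧ (f * κ⁻¹)⁻¹ ∈ W0)
    (𝔫 : Ideal B) [h𝔫 : 𝔫.IsPrime]
    (hninf : ∀ b : B, b ∉ 𝔫 → ((b : F))⁻¹ ∈ Winf)
    (hn0 : ∀ b : B, b ∉ 𝔫 → ((b : F))⁻¹ ∈ W0)
    (x y c : B) (hx : x ∈ 𝔫) (hy : y ∈ 𝔫) (hc : c ∉ 𝔫) (a : A) (ha : a ≠ 0)
    (hxy : x * y = algebraMap A B a * c)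
    (hxinf : ((x : F))⁻¹ ∈ Winf) (hy0 : ((y : F))⁻¹ ∈ W0)
    (hprin : ∀ z ∈ 𝔫, ∃ s, s ∉ 𝔫 ∧
      s * z ∈ Ideal.span {x, y} ⊔ (maximalIdeal A).map (algebraMap A B))
    (hvalx : ∀ k, h26Centered B v 𝔫 k → v k (x : F) = 1)
    (hvc : ∀ k, h26Centered B v 𝔫 k → ∀ a' : A, a' ≠ 0 → v k (algebraMap A F a') = 1)
    (f : F) (hf0 : f ≠ 0) (hfval : ∀ k, h26Centered B v 𝔫 k → v k f = 1) :
    ∃ (m : ℤ) (κ : F), h13x_IsConst A κ ∧ κ ≠ 0 ∧ ∃ ε : F,
      f = κ * (x : F) ^ m * ε ∧ ε ∈ V ∧ ε⁻¹ ∈ V ∧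
      ∀ k, h26Centered B v 𝔫 k → v k ε = 1 := by
  classical
  have ham : a ∈ maximalIdeal A := h90s_const_mem 𝔫 x y c hx hc a hxy
  -- constants have trivial valuation at the centered places
  have hvκ : ∀ κ : F, h13x_IsConst A κ → κ ≠ 0 →
      ∀ k, h26Centered B v 𝔫 k → v k κ = 1 := by
    intro κ hκ hκ0 k hk
    obtain ⟨p, q, hq, hpq⟩ := hκ
    have hqF : algebraMap A F q ≠ 0 := fun h => hq (hAF (by rw [h, map_zero]))
    have hp : p ≠ 0 := by
      rintro rfl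
      rw [map_zero] at hpq
      exact (mul_ne_zero hκ0 hqF) hpq
    have h1 := congrArg (v k) hpq
    rw [map_mul, hvc k hk q hq, hvc k hk p hp, mul_one] at h1
    exact h1
  obtain ⟨κ₁, hκ₁c, hκ₁0, hf₁inf, hf₁inf'⟩ := hscinf f hf0
  set f₁ : F := f * κ₁⁻¹ with hf₁
  have hf₁0 : f₁ ≠ 0 := mul_ne_zero hf0 (inv_ne_zero hκ₁0)
  have hf₁val : ∀ k, h26Centered B v 𝔫 k → v k f₁ = 1 := by
    intro k hk
    rw [hf₁, map_mul, map_inv₀, hfval k hk, hvκ κ₁ hκ₁c hκ₁0 k hk, inv_one, mul_one]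
  obtain ⟨δ, hδc, hδ0, hw, hw'⟩ := hsc0 f₁ hf₁0
  set w : F := f₁ * δ⁻¹ with hwdef
  have hf₁w : f₁ = δ * w := by
    rw [hwdef, mul_comm f₁, ← mul_assoc, mul_inv_cancel₀ hδ0, one_mul]
  have hff₁ : f = κ₁ * f₁ := by
    rw [hf₁, mul_comm f, ← mul_assoc, mul_inv_cancel₀ hκ₁0, one_mul]
  obtain ⟨d, hd0, hd | hd⟩ := h13x_const_dichotomy hAF hδc hδ0
  · -- `|f₁|₀ ≤ 1`
    obtain ⟨K, hK⟩ := harch a ham ha d hd0
    obtain ⟨m, ε, hgε, hεV, hεV', hεval⟩ := h90s_slope_nat hC hAF Winf W0 hVWinf hVW0 hWV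
      hntinf hnt0 𝔫 hninf hn0 x y c hx hy hc a ha hxy hxinf hy0 hprin hvalx K d f₁ w hK hf₁0
      hf₁val hf₁inf hf₁inf' hw hw' (by rw [hf₁w, hd])
    refine ⟨(m : ℤ), κ₁, hκ₁c, hκ₁0, ε, ?_, hεV, hεV', hεval⟩
    rw [hff₁, hgε, zpow_natCast]; ring
  · -- `|f₁|₀ ≥ 1`
    obtain ⟨K, hK⟩ := harch a ham ha d hd0
    have hw0 : w ≠ 0 := by
      intro h0
      rw [h0, mul_zero] at hf₁w
      exact hf₁0 hf₁w
    obtain ⟨m, ε, hgε, hεV, hεV', hεval⟩ := h90s_slope_nat hC hAF Winf W0 hVWinf hVW0 hWV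
      hntinf hnt0 𝔫 hninf hn0 x y c hx hy hc a ha hxy hxinf hy0 hprin hvalx K d f₁⁻¹ w⁻¹ hK
      (inv_ne_zero hf₁0)
      (fun k hk => by rw [map_inv₀, hf₁val k hk, inv_one]) hf₁inf'
      (by rw [inv_inv]; exact hf₁inf) hw' (by rw [inv_inv]; exact hw)
      (by rw [hf₁w, mul_inv, hd])
    refine ⟨-(m : ℤ), κ₁, hκ₁c, hκ₁0, ε⁻¹, ?_, hεV', by rw [inv_inv]; exact hεV,
      fun k hk => by rw [map_inv₀, hεval k hk, inv_one]⟩
    have h1 : f₁ = (f₁⁻¹)⁻¹ := (inv_inv f₁).symm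
    rw [hff₁, h1, hgε, mul_inv, zpow_neg, zpow_natCast]; ring

end Node

end Fermat.Agent.P7
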