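import Fermat.Agent.P6.H62PuritySm
import Fermat.Agent.P7.H62NodeJump

/-!
# P7 (wave 7, S40), block (5b), leaf T-C3-NF (helper90): the explicit local factorisation at a
closed point lying on ONE component, abstract form

Vocabulary of `P6/H62PuritySm.lean` (helper62): `H62ySmooth B V₀ val W W' 𝔫 t`.

* `h90g_smooth_of` : the smooth datum for another local parameter.
* `h90g_smooth_factor` : every `u ≠ 0` whose orders at the places centered at `𝔫` are divisible
  by `r` is `u = θ · ε · (∏ i ∈ T, (t - a_i) ^ n_i) ^ r` with `θ` a constant, `ε` a unit of the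
  local ring of the chart at `𝔫`, `T` the set of the zeros and poles of `u` centered at `𝔫`,
  `a_i ∈ 𝔪_A` the value of `t` at the place `i`.  (Input: every function is a constant times a
  unit of `W`.)
-/

set_option autoImplicit false
set_option linter.unusedSectionVars false
set_option linter.unusedVariables false
set_option linter.style.longLine false
set_option linter.style.haveILetI false

open WithZero IsLocalRing

namespace Fermat.Agent.P7

open Fermat.Agent.Red Fermat.Agent.LGC Fermat.Agent.S35 Fermat.Agent.P6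

section Abstract

variable {A : Type*} [CommRing A] [IsDomain A] [ValuationRing A]
  {F : Type*} [Field F] [Algebra A F]
  {B : Subalgebra A F} {V₀ : Subring F} {ι : Type*} {val : ι → Valuation F ℤᵐ⁰}
  {W W' : Subring F} {𝔫 : Ideal B} {t₀ : B}

/-- the smooth datum for another local parameter. -/
theorem h90g_smooth_of (h₀ : H62ySmooth B V₀ val W W' 𝔫 t₀) (t : B) (ht : t ∈ 𝔫)
    (ht0 : (t : F) ≠ 0) (htW : (t : F)⁻¹ ∈ W)
    (hprin : ∀ z ∈ 𝔫, ∃ s, s ∉ 𝔫 ∧
      s * z ∈ Ideal.span {t} ⊔ (maximalIdeal A).map (algebraMap A B)) :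
    H62ySmooth B V₀ val W W' 𝔫 t :=
  { hC := h₀.hC
    hinj := h₀.hinj
    harch := h₀.harch
    hWW := h₀.hWW
    hBW := h₀.hBW
    hBW' := h₀.hBW'
    hWval := h₀.hWval
    hWnt := h₀.hWnt
    hprime := h₀.hprime
    hm𝔫 := h₀.hm𝔫
    hP𝔫 := h₀.hP𝔫
    he := h₀.he
    ht := ht
    ht0 := ht0
    htW := htW
    hprin := hprin
    hsec := h₀.hsec }

variable {t : B}

/-- **explicit local factorisation** at a closed point on one component. -/
theorem h90g_smooth_factor (h : H62ySmooth B V₀ val W W' 𝔫 t)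
    (hsc : ∀ f : F, f ≠ 0 → ∃ θ : F, h13x_IsConst A θ ∧ θ ≠ 0 ∧
      f * θ⁻¹ ∈ W ∧ (f * θ⁻¹)⁻¹ ∈ W)
    (u : F) (hu0 : u ≠ 0) (r : ℕ)
    (hr : ∀ i, h26Centered B val 𝔫 i → ∃ n : ℤ, val i u = exp (-((r : ℤ) * n))) :
    ∃ (θ ε : F) (T : Finset ι) (a : ι → A) (n : ι → ℤ),
      h13x_IsConst A θ ∧ θ ≠ 0 ∧
      ε ∈ h62yO B 𝔫 h.hprime ∧ ε⁻¹ ∈ h62yO B 𝔫 h.hprime ∧
      (∀ i ∈ T, h26Centered B val 𝔫 i ∧ a i ∈ maximalIdeal A ∧
        val i ((t : F) - algebraMap A F (a i)) = exp (-1 : ℤ) ∧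
        val i u = exp (-((r : ℤ) * n i))) ∧
      (∀ k, h26Centered B val 𝔫 k → k ∉ T → val k u = 1) ∧
      u = θ * ε * (∏ i ∈ T, ((t : F) - algebraMap A F (a i)) ^ n i) ^ r := by
  classical
  have hprime := h.hprime
  obtain ⟨θ, hθ, hθ0, hu'W, hu'Wi⟩ := hsc u hu0
  set u' : F := u * θ⁻¹ with hu'
  have hu'0 : u' ≠ 0 := mul_ne_zero hu0 (inv_ne_zero hθ0)
  have hvalθ : ∀ k, h26Centered B val 𝔫 k → val k θ = 1 := by
    intro k hk
    obtain ⟨φ, hφ, -⟩ := h.hsec k hk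
    exact h62j_const_val h.hC k φ hφ hθ hθ0
  have hvalu' : ∀ k, h26Centered B val 𝔫 k → val k u' = val k u := by
    intro k hk
    rw [hu', map_mul, map_inv₀, hvalθ k hk, inv_one, mul_one]
  -- the finite set of the centered places in the support of `div u`
  have hfin1 : {i | 1 < val i u}.Finite := h.hC.hfin u hu0
  have hfin2 : {i | 1 < val i u⁻¹}.Finite := h.hC.hfin u⁻¹ (inv_ne_zero hu0)
  have hfin : {i | val i u ≠ 1}.Finite := by
    refine (hfin1.union hfin2).subset ?_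
    intro i hi
    rcases lt_or_gt_of_ne hi with hlt | hgt
    · right
      show 1 < val i u⁻¹
      rw [map_inv₀]
      have hv0 : val i u ≠ 0 := (Valuation.ne_zero_iff _).mpr hu0
      exact (one_lt_inv₀ (zero_lt_iff.mpr hv0)).mpr hlt
    · left
      exact hgt
  set T : Finset ι := hfin.toFinset.filter (fun i => h26Centered B val 𝔫 i) with hT
  have hTc : ∀ i ∈ T, h26Centered B val 𝔫 i := fun i hi => (Finset.mem_filter.mp hi).2
  have hTout : ∀ k, h26Centered B val 𝔫 k → k ∉ T → val k u = 1 := by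
    intro k hk hkT
    by_contra hne
    exact hkT (Finset.mem_filter.mpr ⟨hfin.mem_toFinset.mpr hne, hk⟩)
  have hr' : ∀ i, ∃ n : ℤ, h26Centered B val 𝔫 i → val i u = exp (-((r : ℤ) * n)) := by
    intro i
    by_cases hi : h26Centered B val 𝔫 i
    · obtain ⟨n, hn⟩ := hr i hi
      exact ⟨n, fun _ => hn⟩
    · exact ⟨0, fun hc => (hi hc).elim⟩
  choose n hn using hr'
  -- the values of `t` at the centered places
  have hex : ∀ i, ∃ c : A, h26Centered B val 𝔫 i →
      c ∈ maximalIdeal A ∧ h62yLin B val 𝔫 t ((t : F) - algebraMap A F c) ∧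
      val i ((t : F) - algebraMap A F c) = exp (-1 : ℤ) ∧
      ∀ k, h26Centered B val 𝔫 k → k ≠ i → val k ((t : F) - algebraMap A F c) = 1 := by
    intro i
    by_cases hi : h26Centered B val 𝔫 i
    · obtain ⟨φ, hφ, hfg⟩ := h.hsec i hi
      have hkerle : RingHom.ker (φ : B →+* A) ≤ 𝔫 := fun b hb => hi b ((hφ b).mp hb)
      have hc : φ t ∈ maximalIdeal A := h26_section_local 𝔫 φ hkerle t h.ht
      obtain ⟨h1, h2⟩ := h62y_lin_val h hi hφ hfg
      exact ⟨φ t, fun _ => ⟨hc, ⟨i, hi, φ, hφ, hfg, rfl⟩, h1, h2⟩⟩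
    · exact ⟨0, fun hc => (hi hc).elim⟩
  choose a ha using hex
  set l : ι → F := fun i => (t : F) - algebraMap A F (a i) with hl
  have hlin : ∀ i ∈ T, h62yLin B val 𝔫 t (l i) := fun i hi => (ha i (hTc i hi)).2.1
  have hlval_i : ∀ i ∈ T, val i (l i) = exp (-1 : ℤ) := fun i hi => (ha i (hTc i hi)).2.2.1
  have hlval_k : ∀ i ∈ T, ∀ k, h26Centered B val 𝔫 k → k ≠ i → val k (l i) = 1 :=
    fun i hi => (ha i (hTc i hi)).2.2.2
  have hl0 : ∀ i ∈ T, l i ≠ 0 := fun i hi => (h62y_lin_facts h (hlin i hi)).2.2.1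
  have hlW : ∀ i ∈ T, l i ∈ W := by
    intro i hi
    obtain ⟨⟨X, -, hX⟩, -⟩ := h62y_lin_facts h (hlin i hi)
    rw [← hX]
    exact h.hBW _ X.2
  have hlW' : ∀ i ∈ T, (l i)⁻¹ ∈ W := fun i hi => (h62y_lin_facts h (hlin i hi)).2.2.2
  -- the generator
  set g : F := ∏ i ∈ T, (l i) ^ (n i) with hg
  have hg0 : g ≠ 0 := Finset.prod_ne_zero_iff.mpr fun i hi => zpow_ne_zero _ (hl0 i hi)
  have hgW : ∀ z : ℤ, (∏ i ∈ T, (l i) ^ (z * n i)) ∈ W := by
    intro z
    refine Subring.prod_mem _ fun i hi => ?_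
    exact h26_zpow_mem W (hlW i hi) (hlW' i hi) _
  -- the unit
  set ε : F := u' * (g ^ r)⁻¹ with hε
  have hgr : g ^ r = ∏ i ∈ T, (l i) ^ ((r : ℤ) * n i) := by
    rw [hg, ← Finset.prod_pow]
    refine Finset.prod_congr rfl fun i _ => ?_
    rw [← zpow_natCast, ← zpow_mul, mul_comm]
  have hgri : (g ^ r)⁻¹ = ∏ i ∈ T, (l i) ^ (-(r : ℤ) * n i) := by
    rw [hgr, ← Finset.prod_inv_distrib]
    refine Finset.prod_congr rfl fun i _ => ?_
    rw [← zpow_neg, neg_mul]
  have hεval : ∀ k, h26Centered B val 𝔫 k → val k ε = 1 := by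
    intro k hk
    rw [hε, hgri, map_mul, map_prod, hvalu' k hk]
    simp only [map_zpow₀]
    by_cases hkT : k ∈ T
    · rw [← Finset.mul_prod_erase T _ hkT]
      have h1 : ∏ i ∈ T.erase k, val k (l i) ^ (-(r : ℤ) * n i) = 1 := by
        refine Finset.prod_eq_one fun i hi => ?_
        rw [hlval_k i (Finset.mem_of_mem_erase hi) k hk (Finset.ne_of_mem_erase hi).symm,
          one_zpow]
      rw [h1, mul_one, hlval_i k hkT, hn k hk, ← exp_zsmul, ← exp_add]
      rw [← exp_zero, exp_inj]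
      simp
    · have h1 : ∏ i ∈ T, val k (l i) ^ (-(r : ℤ) * n i) = 1 := by
        refine Finset.prod_eq_one fun i hi => ?_
        have hki : k ≠ i := fun h => hkT (h ▸ hi)
        rw [hlval_k i hi k hk hki, one_zpow]
      rw [h1, mul_one, hTout k hk hkT]
  have hεW : ε ∈ W := by
    rw [hε, hgri]
    exact W.mul_mem hu'W (by simpa using hgW (-(r : ℤ)))
  have hεW' : ε⁻¹ ∈ W := by
    have h1 : ε⁻¹ = u'⁻¹ * ∏ i ∈ T, (l i) ^ ((r : ℤ) * n i) := by
      rw [hε, mul_inv, inv_inv, hgr]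
    rw [h1]
    exact W.mul_mem hu'Wi (hgW (r : ℤ))
  have hεO : ε ∈ h62yO B 𝔫 h.hprime :=
    h62y_regular_mem h hεW (fun k hk => (hεval k hk).le)
  have hεO' : ε⁻¹ ∈ h62yO B 𝔫 h.hprime :=
    h62y_regular_mem h hεW' (fun k hk => by rw [map_inv₀, hεval k hk, inv_one])
  refine ⟨θ, ε, T, a, n, hθ, hθ0, hεO, hεO', ?_, hTout, ?_⟩
  · intro i hi
    exact ⟨hTc i hi, (ha i (hTc i hi)).1, hlval_i i hi, hn i (hTc i hi)⟩
  · have hgr0 : g ^ r ≠ 0 := pow_ne_zero _ hg0
    show u = θ * ε * g ^ r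
    rw [hε, hu']
    field_simp

end Abstract

end Fermat.Agent.P7
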