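import Mathlib

/-!
# Wave 7 (S44), DLOG leaf DL2, step (S4) (helper91): trace and norm commute with derivations

Mathlib only.  `E → F` a finite free extension of commutative rings (e.g. a finite extension of
fields), `dE`, `dF` derivations (additive maps with the Leibniz rule) of `E`, `F` with
`dF ∘ algebraMap = algebraMap ∘ dE`.

* `h91d_map_prod` : the Leibniz rule for finite products.
* `h91d_map_det` : **Jacobi's formula** `D (det M) = ∑ j, det (M with column j differentiated)`;
  `h91d_map_det_eq_trace` : `D (det M) = trace (adjugate M * M.map D)`.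
* `h91d_leftMul` : `M_{dF x} = dE (M_x) + C M_x - M_x C` for the matrices of the multiplications
  in a basis `b`, `C` the matrix of `dF` on the basis.
* `h91d_trace_basis`, `h91d_trace` : **(h1)** `trace (dF x) = dE (trace x)`.
* `h91d_norm_basis` : `dE (norm x) = trace (adjugate M_x * M_{dF x})`;
  `h91d_norm_of_mul_eq_one`, `h91d_norm` : **(h2)** `dE (norm x) = norm x * trace (x⁻¹ * dF x)`.
* `h91d_logDeriv_norm` : `dE (norm x) * (norm x)⁻¹ = trace (dF x * x⁻¹)` for fields.

The proof is the matrix proof: differentiate `x b_j = ∑ M_ij b_i`, the trace of a commutator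
vanishes; no Galois closure, no conjugates.
-/

set_option autoImplicit false
set_option linter.unusedSectionVars false
set_option linter.unusedVariables false

open Matrix

namespace Fermat.Agent.P7

section Jacobi

variable {R : Type*} [CommRing R]

theorem h91d_map_one (D : R →+ R) (hD : ∀ a b, D (a * b) = a * D b + b * D a) : D 1 = 0 := by
  have h := hD 1 1
  rw [mul_one, one_mul] at h
  have h2 : D 1 + 0 = D 1 + D 1 := by rw [add_zero]; exact h
  exact (add_left_cancel h2).symm

/-- the Leibniz rule for finite products. -/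
theorem h91d_map_prod (D : R →+ R) (hD : ∀ a b, D (a * b) = a * D b + b * D a)
    {ι : Type*} [DecidableEq ι] (s : Finset ι) (a : ι → R) :
    D (∏ i ∈ s, a i) = ∑ j ∈ s, (∏ i ∈ s.erase j, a i) * D (a j) := by
  induction s using Finset.induction_on with
  | empty => simp [h91d_map_one D hD]
  | insert k s hk ih =>
    rw [Finset.prod_insert hk, hD, ih, Finset.sum_insert hk, Finset.erase_insert hk,
      Finset.mul_sum, add_comm]
    congr 1
    refine Finset.sum_congr rfl fun j hj => ?_
    have hjk : j ≠ k := fun h => hk (h ▸ hj)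
    have e : (insert k s).erase j = insert k (s.erase j) := by
      rw [Finset.erase_insert_of_ne (Ne.symm hjk)]
    rw [e, Finset.prod_insert (fun h => hk (Finset.mem_of_mem_erase h)), mul_assoc]

variable {n : Type*} [Fintype n] [DecidableEq n]

/-- **Jacobi's formula**, column form. -/
theorem h91d_map_det (D : R →+ R) (hD : ∀ a b, D (a * b) = a * D b + b * D a)
    (M : Matrix n n R) :
    D M.det = ∑ j, (M.updateCol j (fun i => D (M i j))).det := by
  simp only [Matrix.det_apply, map_sum]
  rw [Finset.sum_comm]
  refine Finset.sum_congr rfl fun σ _ => ?_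
  have h1 : D (Equiv.Perm.sign σ • ∏ i, M (σ i) i) =
      Equiv.Perm.sign σ • D (∏ i, M (σ i) i) := by
    rw [Units.smul_def, Units.smul_def, map_zsmul]
  rw [h1, h91d_map_prod D hD, ← Finset.smul_sum]
  congr 1
  refine Finset.sum_congr rfl fun j _ => ?_
  rw [← Finset.mul_prod_erase Finset.univ _ (Finset.mem_univ j), Matrix.updateCol_self, mul_comm]
  congr 1
  refine Finset.prod_congr rfl fun i hi => ?_
  rw [Matrix.updateCol_ne (Finset.ne_of_mem_erase hi)]

/-- **Jacobi's formula**, adjugate form. -/
theorem h91d_map_det_eq_trace (D : R →+ R) (hD : ∀ a b, D (a * b) = a * D b + b * D a)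
    (M : Matrix n n R) :
    D M.det = Matrix.trace (Matrix.adjugate M * M.map D) := by
  rw [h91d_map_det D hD, Matrix.trace]
  refine Finset.sum_congr rfl fun j _ => ?_
  rw [← Matrix.cramer_apply, Matrix.cramer_eq_adjugate_mulVec, Matrix.diag_apply,
    Matrix.mul_apply]
  rfl

end Jacobi

section Basis

variable {E F : Type*} [CommRing E] [CommRing F] [Algebra E F]
  {ι : Type*} [Fintype ι] [DecidableEq ι]

/-- the matrix of the derivation `dF` on the basis `b`. -/
noncomputable def h91dC (b : Module.Basis ι E F) (dF : F →+ F) : Matrix ι ι E :=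
  Matrix.of fun i j => b.repr (dF (b j)) i

theorem h91d_map_smul (dE : E →+ E) (dF : F →+ F)
    (hF : ∀ a b, dF (a * b) = a * dF b + b * dF a)
    (hd : ∀ e, dF (algebraMap E F e) = algebraMap E F (dE e)) (c : E) (y : F) :
    dF (c • y) = dE c • y + c • dF y := by
  rw [Algebra.smul_def, hF, hd, Algebra.smul_def, Algebra.smul_def, add_comm, mul_comm y]

/-- **the matrix of the multiplication by `dF x`.** -/
theorem h91d_leftMul (b : Module.Basis ι E F) (dE : E →+ E) (dF : F →+ F)
    (hF : ∀ a b, dF (a * b) = a * dF b + b * dF a)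
    (hd : ∀ e, dF (algebraMap E F e) = algebraMap E F (dE e)) (x : F) :
    Algebra.leftMulMatrix b (dF x) =
      (Algebra.leftMulMatrix b x).map dE + h91dC b dF * Algebra.leftMulMatrix b x -
        Algebra.leftMulMatrix b x * h91dC b dF := by
  ext i j
  simp only [Algebra.leftMulMatrix_eq_repr_mul, Matrix.add_apply, Matrix.sub_apply,
    Matrix.map_apply, Matrix.mul_apply, h91dC, Matrix.of_apply]
  have h1 : dF x * b j = dF (x * b j) - x * dF (b j) := by
    rw [hF, mul_comm (b j)]; ring
  -- `dF (x b_j)`
  have h2 : dF (x * b j) =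
      ∑ k, (dE (b.repr (x * b j) k) • b k + b.repr (x * b j) k • dF (b k)) := by
    conv_lhs => rw [← b.sum_repr (x * b j)]
    rw [map_sum]
    exact Finset.sum_congr rfl fun k _ => h91d_map_smul dE dF hF hd _ _
  have h3 : b.repr (dF (x * b j)) i =
      dE (b.repr (x * b j) i) + ∑ k, b.repr (dF (b k)) i * b.repr (x * b j) k := by
    rw [h2, map_sum, Finsupp.finsetSum_apply]
    simp only [map_add, map_smul, Finsupp.add_apply, Finsupp.smul_apply, b.repr_self,
      smul_eq_mul, Finset.sum_add_distrib]
    congr 1
    · rw [Finset.sum_eq_single i]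
      · rw [Finsupp.single_apply, if_pos rfl, mul_one]
      · intro k _ hk
        rw [Finsupp.single_apply, if_neg hk, mul_zero]
      · intro h
        exact absurd (Finset.mem_univ i) h
    · exact Finset.sum_congr rfl fun k _ => mul_comm _ _
  -- `x dF (b_j)`
  have h4 : x * dF (b j) = ∑ k, b.repr (dF (b j)) k • (x * b k) := by
    conv_lhs => rw [← b.sum_repr (dF (b j))]
    rw [Finset.mul_sum]
    exact Finset.sum_congr rfl fun k _ => by rw [mul_smul_comm]
  have h5 : b.repr (x * dF (b j)) i = ∑ k, b.repr (x * b k) i * b.repr (dF (b j)) k := by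
    rw [h4, map_sum, Finsupp.finsetSum_apply]
    refine Finset.sum_congr rfl fun k _ => ?_
    rw [map_smul, Finsupp.smul_apply, smul_eq_mul, mul_comm]
  rw [h1, map_sub, Finsupp.sub_apply, h3, h5]

/-- **(h1)** the trace commutes with the derivations (basis form). -/
theorem h91d_trace_basis (b : Module.Basis ι E F) (dE : E →+ E) (dF : F →+ F)
    (hF : ∀ a b, dF (a * b) = a * dF b + b * dF a)
    (hd : ∀ e, dF (algebraMap E F e) = algebraMap E F (dE e)) (x : F) :
    Algebra.trace E F (dF x) = dE (Algebra.trace E F x) := by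
  rw [Algebra.trace_eq_matrix_trace b, Algebra.trace_eq_matrix_trace b,
    h91d_leftMul b dE dF hF hd, Matrix.trace_sub, Matrix.trace_add, Matrix.trace_mul_comm,
    add_sub_cancel_right]
  simp only [Matrix.trace, Matrix.diag_apply, Matrix.map_apply, map_sum]

/-- `dE (norm x) = trace (adjugate M_x * M_{dF x})` (basis form). -/
theorem h91d_norm_basis (b : Module.Basis ι E F) (dE : E →+ E) (dF : F →+ F)
    (hE : ∀ a b, dE (a * b) = a * dE b + b * dE a)
    (hF : ∀ a b, dF (a * b) = a * dF b + b * dF a)
    (hd : ∀ e, dF (algebraMap E F e) = algebraMap E F (dE e)) (x : F) :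
    dE (Algebra.norm E x) =
      Matrix.trace (Matrix.adjugate (Algebra.leftMulMatrix b x) *
        Algebra.leftMulMatrix b (dF x)) := by
  rw [Algebra.norm_eq_matrix_det b, h91d_map_det_eq_trace dE hE]
  have h := h91d_leftMul b dE dF hF hd x
  have h' : (Algebra.leftMulMatrix b x).map dE =
      Algebra.leftMulMatrix b (dF x) - h91dC b dF * Algebra.leftMulMatrix b x +
        Algebra.leftMulMatrix b x * h91dC b dF := by
    rw [h]; abel
  have hm : ((Algebra.leftMulMatrix b x).map fun a => dE a) =
      (Algebra.leftMulMatrix b x).map dE := rfl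
  rw [h', Matrix.mul_add, Matrix.mul_sub, Matrix.trace_add, Matrix.trace_sub]
  have e1 : Matrix.trace (Matrix.adjugate (Algebra.leftMulMatrix b x) *
      (h91dC b dF * Algebra.leftMulMatrix b x)) =
      Matrix.trace (Matrix.adjugate (Algebra.leftMulMatrix b x) *
        (Algebra.leftMulMatrix b x * h91dC b dF)) := by
    rw [← Matrix.mul_assoc, Matrix.trace_mul_comm, ← Matrix.mul_assoc, Matrix.mul_adjugate,
      ← Matrix.mul_assoc, Matrix.adjugate_mul]
  rw [e1, sub_add_cancel]

/-- **(h2)**, ring form: `dE (norm x) = norm x * trace (y * dF x)` if `x y = 1`. -/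
theorem h91d_norm_of_mul_eq_one (b : Module.Basis ι E F) (dE : E →+ E) (dF : F →+ F)
    (hE : ∀ a b, dE (a * b) = a * dE b + b * dE a)
    (hF : ∀ a b, dF (a * b) = a * dF b + b * dF a)
    (hd : ∀ e, dF (algebraMap E F e) = algebraMap E F (dE e)) {x y : F} (hxy : x * y = 1) :
    dE (Algebra.norm E x) = Algebra.norm E x * Algebra.trace E F (y * dF x) := by
  rw [h91d_norm_basis b dE dF hE hF hd, Algebra.trace_eq_matrix_trace b,
    Algebra.norm_eq_matrix_det b, map_mul]
  have h1 : Algebra.leftMulMatrix b x * Algebra.leftMulMatrix b y = 1 := by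
    rw [← map_mul, hxy, map_one]
  have h2 : Matrix.adjugate (Algebra.leftMulMatrix b x) =
      (Algebra.leftMulMatrix b x).det • Algebra.leftMulMatrix b y := by
    have h3 := Matrix.adjugate_mul (Algebra.leftMulMatrix b x)
    calc Matrix.adjugate (Algebra.leftMulMatrix b x)
        = Matrix.adjugate (Algebra.leftMulMatrix b x) *
            (Algebra.leftMulMatrix b x * Algebra.leftMulMatrix b y) := by
          rw [h1, Matrix.mul_one]
      _ = (Algebra.leftMulMatrix b x).det • Algebra.leftMulMatrix b y := by
          rw [← Matrix.mul_assoc, h3, Matrix.smul_mul, Matrix.one_mul]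
  rw [h2, Matrix.smul_mul, Matrix.trace_smul, smul_eq_mul]

end Basis

section Field

variable {E F : Type*} [Field E] [Field F] [Algebra E F] [FiniteDimensional E F]
  (dE : E →+ E) (dF : F →+ F)

/-- **(h1)** the trace of a finite extension of fields commutes with the derivations. -/
theorem h91d_trace (hF : ∀ a b, dF (a * b) = a * dF b + b * dF a)
    (hd : ∀ e, dF (algebraMap E F e) = algebraMap E F (dE e)) (x : F) :
    Algebra.trace E F (dF x) = dE (Algebra.trace E F x) := by
  classical
  exact h91d_trace_basis (Module.finBasis E F) dE dF hF hd x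

/-- **(h2)** `dE (norm x) = norm x * trace (x⁻¹ * dF x)`. -/
theorem h91d_norm (hE : ∀ a b, dE (a * b) = a * dE b + b * dE a)
    (hF : ∀ a b, dF (a * b) = a * dF b + b * dF a)
    (hd : ∀ e, dF (algebraMap E F e) = algebraMap E F (dE e)) {x : F} (hx : x ≠ 0) :
    dE (Algebra.norm E x) = Algebra.norm E x * Algebra.trace E F (x⁻¹ * dF x) := by
  classical
  exact h91d_norm_of_mul_eq_one (Module.finBasis E F) dE dF hE hF hd (mul_inv_cancel₀ hx)

/-- **(h2)**, logarithmic form: `dE (norm x) / norm x = trace (dF x / x)`. -/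
theorem h91d_logDeriv_norm (hE : ∀ a b, dE (a * b) = a * dE b + b * dE a)
    (hF : ∀ a b, dF (a * b) = a * dF b + b * dF a)
    (hd : ∀ e, dF (algebraMap E F e) = algebraMap E F (dE e)) {x : F} (hx : x ≠ 0) :
    dE (Algebra.norm E x) * (Algebra.norm E x)⁻¹ = Algebra.trace E F (dF x * x⁻¹) := by
  have hN : Algebra.norm E x ≠ 0 := Algebra.norm_ne_zero_iff.mpr hx
  rw [h91d_norm dE dF hE hF hd hx, mul_comm (dF x), mul_comm (Algebra.norm E x), mul_assoc,
    mul_inv_cancel₀ hN, mul_one]

end Field

end Fermat.Agent.P7
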