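import Fermat.Agent.P7.H91ResNorm
import Fermat.Agent.P7.H26IntIface
import Fermat.Agent.P5.H72Arch
import Fermat.Agent.Red.GV.Asm1
import Fermat.Agent.Bridge.Dict

/-!
# Wave 7 (S44), DLOG leaf INT: `A((q))` is completely integrally closed in `K((q))` (helper91)

`A` an archimedean (rank one) valuation subring of a field `K` (`H96Arch A`).

* `h91qI A` : the subring of the Laurent series over `K` with all coefficients in `A`
  (`= (embA A).range`); `h91q_mem_I`.
* `h91q_cic` : **complete integral closedness**: if `d ≠ 0` and `d · x ^ m` has coefficients in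
  `A` for every `m`, then `x` has coefficients in `A`.  (Peel off the integral part of `x`
  below the first non-integral coefficient `ℓ`; the lowest coefficient of `d · x'^m` is
  `d₀ ℓ^m ∈ A` for all `m`, impossible for `ℓ ∉ A` in rank one.)
* `h91q_int_of_integral` : `x` integral over `A((q))` and `b x ∈ A((q))` for some `b ≠ 0` in
  `A((q))` imply `x ∈ A((q))`.
* `h91q_intAbs_of_arch`, `h91q_intAbs` : **`H26iIntAbs`** (the frozen Prop of
  `P7/H26IntIface.lean`): a Gauss-integral Laurent series which is integral over `A((q))`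
  has coefficients in `A`.  No Weierstrass preparation, no root peeling.
-/

set_option autoImplicit false
set_option linter.unusedSectionVars false
set_option linter.unusedVariables false

open ModularCurve

noncomputable section

namespace Fermat.Agent.P7

open Fermat.Agent.S37 Fermat.Agent.Red.GV Fermat.Agent.P5 Fermat.Agent.S28

section Cic

variable {K : Type} [Field K] (A : ValuationSubring K)

/-- the Laurent series with coefficients in `A`. -/
def h91qI : Subring (LaurentSeries K) := (embA A).range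

theorem h91q_mem_I (s : LaurentSeries K) : s ∈ h91qI A ↔ ∀ n, s.coeff n ∈ A := by
  rw [h91qI, RingHom.mem_range]
  exact exists_embA_eq_iff A s

/-- the part of `x` below the index `i`. -/
def h91qTrunc (x : LaurentSeries K) (i : ℤ) : LaurentSeries K where
  coeff n := if n < i then x.coeff n else 0
  isPWO_support' := x.isPWO_support.mono (fun n hn => by
    simp only [Function.mem_support, ne_eq] at hn ⊢
    intro h0
    apply hn
    rw [h0]
    simp)

theorem h91q_coeff_trunc (x : LaurentSeries K) (i n : ℤ) :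
    (h91qTrunc x i).coeff n = if n < i then x.coeff n else 0 := rfl

theorem h91q_ge_pow {x : LaurentSeries K} {i : ℤ} (hx : h91rGE x i) (m : ℕ) :
    h91rGE (x ^ m) ((m : ℤ) * i) ∧ (x ^ m).coeff ((m : ℤ) * i) = (x.coeff i) ^ m := by
  induction m with
  | zero =>
    refine ⟨fun j hj => ?_, ?_⟩
    · rw [pow_zero, HahnSeries.coeff_one, if_neg]
      simp only [Nat.cast_zero, zero_mul] at hj
      omega
    · simp
  | succ m ih =>
    have h1 : ((m + 1 : ℕ) : ℤ) * i = (m : ℤ) * i + i := by push_cast; ring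
    rw [h1, pow_succ]
    exact ⟨h91r_ge_mul ih.1 hx, by rw [h91r_coeff_mul ih.1 hx, ih.2, pow_succ]⟩

/-- **`A((q))` is completely integrally closed in `K((q))`** (`A` of rank one). -/
theorem h91q_cic (hArch : H96Arch A) (x d : LaurentSeries K) (hd0 : d ≠ 0)
    (h : ∀ m : ℕ, d * x ^ m ∈ h91qI A) : x ∈ h91qI A := by
  classical
  by_contra hx
  rw [h91q_mem_I] at hx
  push Not at hx
  have hbdd : ∃ b : ℤ, ∀ z : ℤ, x.coeff z ∉ A → b ≤ z := by
    refine ⟨x.order, fun z hz => ?_⟩
    by_contra hlt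
    rw [not_le] at hlt
    exact hz (by rw [h91r_ge_order x z hlt]; exact A.zero_mem)
  obtain ⟨i₁, hi₁, hmin⟩ := Int.exists_least_of_bdd (P := fun z => x.coeff z ∉ A) hbdd hx
  -- the integral part below `i₁`
  set T : LaurentSeries K := h91qTrunc x i₁ with hT
  have hTI : T ∈ h91qI A := by
    rw [h91q_mem_I]
    intro n
    rw [hT, h91q_coeff_trunc]
    split_ifs with hn
    · by_contra hc
      exact absurd (hmin n hc) (not_le.mpr hn)
    · exact A.zero_mem
  have hx'I : ∀ m : ℕ, d * (x - T) ^ m ∈ h91qI A := by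
    intro m
    rw [sub_eq_add_neg, add_pow, Finset.mul_sum]
    refine Subring.sum_mem _ (fun j _ => ?_)
    have e : d * (x ^ j * (-T) ^ (m - j) * (m.choose j : LaurentSeries K)) =
        (d * x ^ j) * ((-T) ^ (m - j) * (m.choose j : LaurentSeries K)) := by ring
    rw [e]
    exact Subring.mul_mem _ (h j)
      (Subring.mul_mem _ (Subring.pow_mem _ (Subring.neg_mem _ hTI) _) (natCast_mem _ _))
  have hge : h91rGE (x - T) i₁ := by
    intro n hn
    rw [HahnSeries.coeff_sub, hT, h91q_coeff_trunc, if_pos hn, sub_self]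
  have hlead : (x - T).coeff i₁ = x.coeff i₁ := by
    rw [HahnSeries.coeff_sub, hT, h91q_coeff_trunc, if_neg (lt_irrefl _), sub_zero]
  set ℓ : K := x.coeff i₁ with hℓ
  have hdl0 : d.coeff d.order ≠ 0 := fun h0 => hd0 (HahnSeries.coeff_order_eq_zero.mp h0)
  have hD : ∀ m : ℕ, d.coeff d.order * ℓ ^ m ∈ A := by
    intro m
    have h1 := (h91q_mem_I A _).mp (hx'I m) (d.order + (m : ℤ) * i₁)
    rw [h91r_coeff_mul (h91r_ge_order d) (h91q_ge_pow hge m).1, (h91q_ge_pow hge m).2,
      hlead] at h1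
    exact h1
  have hdlA : d.coeff d.order ∈ A := by
    have := hD 0
    rwa [pow_zero, mul_one] at this
  -- `ℓ⁻¹` is a non-unit of `A`
  have hv : ¬ A.valuation ℓ ≤ 1 := by
    rw [A.valuation_le_one_iff]
    exact hi₁
  have hℓ0 : ℓ ≠ 0 := fun h0 => hi₁ (by rw [h0]; exact A.zero_mem)
  have hy : ℓ⁻¹ ∈ A.nonunits := by
    rw [ValuationSubring.mem_nonunits_iff, map_inv₀]
    exact inv_lt_one_of_one_lt₀ (not_le.mp hv)
  have hyA : ℓ⁻¹ ∈ A := A.nonunits_le hy
  have hc0 : d.coeff d.order * ℓ⁻¹ ≠ 0 := mul_ne_zero hdl0 (inv_ne_zero hℓ0)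
  obtain ⟨n, a, ha, hna⟩ := hArch ℓ⁻¹ (d.coeff d.order * ℓ⁻¹) hy (mul_mem hdlA hyA) hc0
  apply hi₁
  have e : ℓ = (d.coeff d.order * ℓ ^ n) * a := by
    have h2 : ℓ ^ n * ℓ⁻¹ ^ n = 1 := by rw [← mul_pow, mul_inv_cancel₀ hℓ0, one_pow]
    have h3 : ℓ ^ n * (d.coeff d.order * ℓ⁻¹ * a) = 1 := by rw [← hna]; exact h2
    calc ℓ = ℓ * (ℓ ^ n * (d.coeff d.order * ℓ⁻¹ * a)) := by rw [h3, mul_one]
      _ = (ℓ * ℓ⁻¹) * ((d.coeff d.order * ℓ ^ n) * a) := by ring
      _ = (d.coeff d.order * ℓ ^ n) * a := by rw [mul_inv_cancel₀ hℓ0, one_mul]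
  show ℓ ∈ A
  rw [e]
  exact mul_mem (hD n) ha

/-- `x` integral over `A((q))` with `b x ∈ A((q))`, `b ≠ 0`: then `x ∈ A((q))`. -/
theorem h91q_int_of_integral (hArch : H96Arch A) (x b : LaurentSeries K) (hb0 : b ≠ 0)
    (hb : b ∈ h91qI A) (hbx : b * x ∈ h91qI A) (hint : (embA A).IsIntegralElem x) :
    x ∈ h91qI A := by
  obtain ⟨P, hP, hPx⟩ := hint
  refine h91q_cic A hArch x (b ^ P.natDegree) (pow_ne_zero _ hb0) (fun m => ?_)
  have h1 : x ^ m = Polynomial.eval₂ (embA A) x (Polynomial.X ^ m %ₘ P) := by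
    rw [Polynomial.eval₂_modByMonic_eq_self_of_root hPx, Polynomial.eval₂_pow,
      Polynomial.eval₂_X]
  rw [h1, Polynomial.eval₂_eq_sum_range, Finset.mul_sum]
  refine Subring.sum_mem _ (fun j hj => ?_)
  have hjn : j ≤ P.natDegree :=
    (Finset.mem_range_succ_iff.mp hj).trans (Polynomial.natDegree_modByMonic_le _ hP)
  have e : b ^ P.natDegree * (embA A ((Polynomial.X ^ m %ₘ P).coeff j) * x ^ j) =
      embA A ((Polynomial.X ^ m %ₘ P).coeff j) * b ^ (P.natDegree - j) * (b * x) ^ j := by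
    have h2 : b ^ P.natDegree = b ^ (P.natDegree - j) * b ^ j := by
      rw [← pow_add, Nat.sub_add_cancel hjn]
    rw [h2, mul_pow]
    ring
  rw [e]
  exact Subring.mul_mem _ (Subring.mul_mem _ ⟨_, rfl⟩ (Subring.pow_mem _ hb _))
    (Subring.pow_mem _ hbx _)

/-- **INT-ABS** for an archimedean valuation ring. -/
theorem h91q_intAbs_of_arch (hArch : H96Arch A) {k : Type} [Field k] (π : A →+* k)
    (x : LaurentSeries K) (hx : InOTA A π x) (hint : (embA A).IsIntegralElem x) :
    ∃ y : LaurentSeries A, embA A y = x := by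
  obtain ⟨Q, hQ, y, hy⟩ := hx
  have hb0 : evalA A (jK K) Q ≠ 0 := by
    rw [← OTA_embA_jA]
    intro h0
    have h1 : OTA_jA A Q = 0 := OTA_embA_injective A (by rw [h0, map_zero])
    have h2 := OTA_redA_jA A π Q
    rw [h1, map_zero] at h2
    exact evalC_jqModC_ne_zero k _ hQ h2.symm
  have hb : evalA A (jK K) Q ∈ h91qI A := ⟨OTA_jA A Q, OTA_embA_jA A Q⟩
  have hbx : evalA A (jK K) Q * x ∈ h91qI A := ⟨y, hy⟩
  exact h91q_int_of_integral A hArch x _ hb0 hb hbx hint

end Cic

/-- **`H26iIntAbs`**: a Gauss-integral Laurent series over `ℚ̄` which is integral over `A((q))`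
has coefficients in `A`. -/
theorem h91q_intAbs : H26iIntAbs := by
  intro A x hx hint
  by_cases hp : ∃ ℓ : ℕ, ℓ.Prime ∧ ((ℓ : ℕ) : Kbar) ∈ A.nonunits
  · obtain ⟨ℓ, hℓ, hA⟩ := hp
    exact h91q_intAbs_of_arch A (h72a_archQbar A ℓ hℓ hA) _ x hx hint
  · push Not at hp
    have htop : A = ⊤ := Fermat.Agent.Bridge.eq_top_of_no_prime A hp
    rw [exists_embA_eq_iff]
    intro n
    rw [htop]
    exact ValuationSubring.mem_top _

end Fermat.Agent.P7
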