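import Fermat.Agent.P7.H91Poly

/-!
# Wave 7 (S40), block (5b), rows T-C2-POLY / T-C3-NF (helper91): rationality of the polynomial
of a divisor in a tube, signed form

* `h91yPoly_map_eq` : **rationality.**  If a ring endomorphism `θ` of `A` permutes the roots
  `c_i` (`θ (c i) = c (σ i)`, `σ` injective on `T`, `σ T ⊆ T`) and respects the multiplicities,
  then `θ` fixes the polynomial `∏ (X - c_i) ^ (e_i)`, hence all its coefficients
  (`h91yPoly_coeff_fixed`).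
* `h91yPos`, `h91yNeg` : the polynomials `g₊`, `g₋` of the zeros and of the poles of a divisor
  `∑ n_i P_i` (`n_i ∈ ℤ`); `h91y_prod_zpow` : `∏ (t - c_i) ^ (n_i) = g₊(t) / g₋(t)`;
  `h91yPos_map_eq`, `h91yNeg_map_eq` : rationality of `g₊`, `g₋`;
  `h91y_gamma` : `g₊(0) / g₋(0) = ∏ (- c_i) ^ (n_i)`.
* `h91y_hvar` : the hypothesis `hvar` of `h91y_smooth` / `h91y_node` for `g₊`, `g₋` from BREAK
  (`θ z = z (1 + δ c)` for the constants `z` fixed by a set `S` of endomorphisms) and the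
  stability of the divisor under `S`.
* `h91y_smooth_prod` : **(L1)/(L2, `∞`-side)** `b G / G ∈ 1 + δ 𝔪_A W` for
  `G = ∏ (t - c_i) ^ (n_i)`, `t` a unit of `W` fixed by `b`.
* `h91y_node_prod` : **(L2, `0`-side)** `b G / G ∈ (b γ / γ) (1 + δ 𝔪_A W)` for
  `G = ∏ (x - c_i) ^ (n_i)`, `γ = ∏ (- c_i) ^ (n_i)`, `x / ϖ ∈ W`, `c_i d_i = ϖ`, `d_i ∈ 𝔪_A`.
-/

set_option autoImplicit false
set_option linter.unusedSectionVars false
set_option linter.unusedVariables false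

open IsLocalRing Polynomial

namespace Fermat.Agent.P7

section Rat

variable {A : Type*} [CommRing A] [IsDomain A] [ValuationRing A] {ι : Type*}

/-- **rationality**: a ring endomorphism permuting the roots with their multiplicities fixes
the polynomial. -/
theorem h91yPoly_map_eq (T : Finset ι) (c : ι → A) (e : ι → ℕ) (θ : A →+* A) (σ : ι → ι)
    (hσT : ∀ i ∈ T, σ i ∈ T) (hσinj : Set.InjOn σ (T : Set ι))
    (hc : ∀ i ∈ T, θ (c i) = c (σ i)) (he : ∀ i ∈ T, e (σ i) = e i) :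
    (h91yPoly T c e).map θ = h91yPoly T c e := by
  classical
  have himg : T.image σ = T := by
    refine Finset.eq_of_subset_of_card_le ?_ ?_
    · intro j hj
      obtain ⟨i, hi, rfl⟩ := Finset.mem_image.mp hj
      exact hσT i hi
    · rw [Finset.card_image_of_injOn hσinj]
  have h1 : (h91yPoly T c e).map θ = ∏ i ∈ T, (X - C (c (σ i))) ^ e (σ i) := by
    rw [h91yPoly, Polynomial.map_prod]
    refine Finset.prod_congr rfl fun i hi => ?_
    rw [Polynomial.map_pow, Polynomial.map_sub, map_X, map_C, hc i hi, he i hi]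
  rw [h1]
  conv_rhs => rw [h91yPoly, ← himg]
  rw [Finset.prod_image hσinj]

theorem h91yPoly_coeff_fixed (T : Finset ι) (c : ι → A) (e : ι → ℕ) (θ : A →+* A) (σ : ι → ι)
    (hσT : ∀ i ∈ T, σ i ∈ T) (hσinj : Set.InjOn σ (T : Set ι))
    (hc : ∀ i ∈ T, θ (c i) = c (σ i)) (he : ∀ i ∈ T, e (σ i) = e i) (k : ℕ) :
    θ ((h91yPoly T c e).coeff k) = (h91yPoly T c e).coeff k := by
  have h := congrArg (fun p : A[X] => p.coeff k) (h91yPoly_map_eq T c e θ σ hσT hσinj hc he)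
  simpa only [coeff_map] using h

end Rat

section Signed

variable {A : Type*} [CommRing A] [IsDomain A] [ValuationRing A] {ι : Type*}

/-- the polynomial of the zeros of the divisor `∑ n_i P_i`. -/
noncomputable def h91yPos (T : Finset ι) (c : ι → A) (n : ι → ℤ) : A[X] :=
  h91yPoly T c (fun i => (n i).toNat)

/-- the polynomial of the poles of the divisor `∑ n_i P_i`. -/
noncomputable def h91yNeg (T : Finset ι) (c : ι → A) (n : ι → ℤ) : A[X] :=
  h91yPoly T c (fun i => (-n i).toNat)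

theorem h91yPos_monic (T : Finset ι) (c : ι → A) (n : ι → ℤ) : (h91yPos T c n).Monic :=
  h91yPoly_monic T c _

theorem h91yNeg_monic (T : Finset ι) (c : ι → A) (n : ι → ℤ) : (h91yNeg T c n).Monic :=
  h91yPoly_monic T c _

theorem h91yPos_map_eq (T : Finset ι) (c : ι → A) (n : ι → ℤ) (θ : A →+* A) (σ : ι → ι)
    (hσT : ∀ i ∈ T, σ i ∈ T) (hσinj : Set.InjOn σ (T : Set ι))
    (hc : ∀ i ∈ T, θ (c i) = c (σ i)) (hn : ∀ i ∈ T, n (σ i) = n i) (k : ℕ) :
    θ ((h91yPos T c n).coeff k) = (h91yPos T c n).coeff k :=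
  h91yPoly_coeff_fixed T c _ θ σ hσT hσinj hc (fun i hi => by rw [hn i hi]) k

theorem h91yNeg_map_eq (T : Finset ι) (c : ι → A) (n : ι → ℤ) (θ : A →+* A) (σ : ι → ι)
    (hσT : ∀ i ∈ T, σ i ∈ T) (hσinj : Set.InjOn σ (T : Set ι))
    (hc : ∀ i ∈ T, θ (c i) = c (σ i)) (hn : ∀ i ∈ T, n (σ i) = n i) (k : ℕ) :
    θ ((h91yNeg T c n).coeff k) = (h91yNeg T c n).coeff k :=
  h91yPoly_coeff_fixed T c _ θ σ hσT hσinj hc (fun i hi => by rw [hn i hi]) k

variable {F : Type*} [Field F] [Algebra A F]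

/-- `∏ (t - c_i) ^ (n_i) = g₊(t) / g₋(t)`. -/
theorem h91y_prod_zpow (T : Finset ι) (c : ι → A) (n : ι → ℤ) (t : F)
    (h0 : ∀ i ∈ T, t - algebraMap A F (c i) ≠ 0) :
    ∏ i ∈ T, (t - algebraMap A F (c i)) ^ n i =
      aeval t (h91yPos T c n) * (aeval t (h91yNeg T c n))⁻¹ := by
  classical
  rw [h91yPos, h91yNeg, h91yPoly_aeval, h91yPoly_aeval, ← Finset.prod_inv_distrib,
    ← Finset.prod_mul_distrib]
  refine Finset.prod_congr rfl fun i hi => ?_
  have hi0 := h0 i hi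
  rcases le_total 0 (n i) with h | h
  · have h1 : (-n i).toNat = 0 := Int.toNat_eq_zero.mpr (by omega)
    have h2 : ((n i).toNat : ℤ) = n i := Int.toNat_of_nonneg h
    rw [h1, pow_zero, inv_one, mul_one, ← zpow_natCast, h2]
  · have h1 : (n i).toNat = 0 := Int.toNat_eq_zero.mpr h
    have h2 : (((-n i).toNat : ℕ) : ℤ) = -n i := Int.toNat_of_nonneg (by omega)
    rw [h1, pow_zero, one_mul, ← zpow_natCast, h2, zpow_neg, inv_inv]

/-- `g₊(0) / g₋(0) = ∏ (- c_i) ^ (n_i)`: the constant `γ` of the tube. -/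
theorem h91y_gamma (T : Finset ι) (c : ι → A) (n : ι → ℤ)
    (h0 : ∀ i ∈ T, algebraMap A F (c i) ≠ 0) :
    algebraMap A F ((h91yPos T c n).coeff 0) * (algebraMap A F ((h91yNeg T c n).coeff 0))⁻¹ =
      ∏ i ∈ T, (-algebraMap A F (c i)) ^ n i := by
  classical
  rw [h91yPos, h91yNeg, h91yPoly_coeff_zero, h91yPoly_coeff_zero, map_prod, map_prod,
    ← Finset.prod_inv_distrib, ← Finset.prod_mul_distrib]
  refine Finset.prod_congr rfl fun i hi => ?_
  have hi0 : -algebraMap A F (c i) ≠ 0 := neg_ne_zero.mpr (h0 i hi)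
  rw [map_pow, map_pow, map_neg]
  rcases le_total 0 (n i) with h | h
  · have h1 : (-n i).toNat = 0 := Int.toNat_eq_zero.mpr (by omega)
    have h2 : ((n i).toNat : ℤ) = n i := Int.toNat_of_nonneg h
    rw [h1, pow_zero, inv_one, mul_one, ← zpow_natCast, h2]
  · have h1 : (n i).toNat = 0 := Int.toNat_eq_zero.mpr h
    have h2 : (((-n i).toNat : ℕ) : ℤ) = -n i := Int.toNat_of_nonneg (by omega)
    rw [h1, pow_zero, one_mul, ← zpow_natCast, h2, zpow_neg, inv_inv]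

end Signed

section Wiring

variable {A : Type*} [CommRing A] [IsDomain A] [ValuationRing A] {ι : Type*}
  {F : Type*} [Field F] [Algebra A F] {W : Subring F} {δ : A}

/-- the hypothesis `hvar` for the polynomials of a divisor stable under a set `S` of
endomorphisms of the constants, from BREAK. -/
theorem h91y_hvar (θ : A →+* A) (S : Set (A →+* A))
    (hBreak : ∀ z : A, (∀ τ ∈ S, τ z = z) → ∃ c : A, θ z = z * (1 + δ * c))
    (T : Finset ι) (c : ι → A) (n : ι → ℤ)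
    (hperm : ∀ τ ∈ S, ∃ σ : ι → ι, (∀ i ∈ T, σ i ∈ T) ∧ Set.InjOn σ (T : Set ι) ∧
      (∀ i ∈ T, τ (c i) = c (σ i)) ∧ (∀ i ∈ T, n (σ i) = n i)) :
    (∀ k, ∃ c' : A, θ ((h91yPos T c n).coeff k) = (h91yPos T c n).coeff k * (1 + δ * c')) ∧
    (∀ k, ∃ c' : A, θ ((h91yNeg T c n).coeff k) = (h91yNeg T c n).coeff k * (1 + δ * c')) := by
  constructor
  · intro k
    refine hBreak _ fun τ hτ => ?_
    obtain ⟨σ, h1, h2, h3, h4⟩ := hperm τ hτ
    exact h91yPos_map_eq T c n τ σ h1 h2 h3 h4 k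
  · intro k
    refine hBreak _ fun τ hτ => ?_
    obtain ⟨σ, h1, h2, h3, h4⟩ := hperm τ hτ
    exact h91yNeg_map_eq T c n τ σ h1 h2 h3 h4 k

/-- **(L1) and the `∞`-side of (L2)**: the variation of `G = ∏ (t - c_i) ^ (n_i)` at a unit
parameter `t` fixed by `b`. -/
theorem h91y_smooth_prod (hAW : ∀ a : A, algebraMap A F a ∈ W)
    (hinv : ∀ m ∈ maximalIdeal A, ∀ x ∈ W, (1 + algebraMap A F m * x)⁻¹ ∈ W)
    (hnt : ∀ m ∈ maximalIdeal A, ∀ x ∈ W, algebraMap A F m * x ≠ 1)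
    (b : F →+* F) (θ : A →+* A)
    (hbθ : ∀ a : A, b (algebraMap A F a) = algebraMap A F (θ a))
    (t : F) (htW : t ∈ W) (htW' : t⁻¹ ∈ W) (ht0 : t ≠ 0) (hbt : b t = t)
    (T : Finset ι) (c : ι → A) (n : ι → ℤ) (hc : ∀ i ∈ T, c i ∈ maximalIdeal A)
    (hvarP : ∀ k, ∃ c' : A,
      θ ((h91yPos T c n).coeff k) = (h91yPos T c n).coeff k * (1 + δ * c'))
    (hvarN : ∀ k, ∃ c' : A,
      θ ((h91yNeg T c n).coeff k) = (h91yNeg T c n).coeff k * (1 + δ * c')) :
    b (∏ i ∈ T, (t - algebraMap A F (c i)) ^ n i) *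
      (∏ i ∈ T, (t - algebraMap A F (c i)) ^ n i)⁻¹ ∈ h91yU δ W := by
  classical
  have h0 : ∀ i ∈ T, t - algebraMap A F (c i) ≠ 0 := by
    intro i hi h
    apply hnt (c i) (hc i hi) t⁻¹ htW'
    have h1 : t = algebraMap A F (c i) := sub_eq_zero.mp h
    rw [← h1]
    exact mul_inv_cancel₀ ht0
  rw [h91y_prod_zpow T c n t h0, map_mul, map_inv₀]
  have hp := h91y_smooth hAW hinv hnt b θ hbθ t htW htW' ht0 hbt (h91yPos T c n)
    (h91yPos_monic T c n) (fun k hk => h91yPoly_coeff_mem T c _ hc k hk) hvarP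
  have hm := h91y_smooth hAW hinv hnt b θ hbθ t htW htW' ht0 hbt (h91yNeg T c n)
    (h91yNeg_monic T c n) (fun k hk => h91yPoly_coeff_mem T c _ hc k hk) hvarN
  have h := h91yU_div hAW hinv hnt hp hm
  have huP := (h91y_unit hAW hinv hnt t htW htW' ht0 (h91yPos T c n)
    (h91yPos_monic T c n) (fun k hk => h91yPoly_coeff_mem T c _ hc k hk)).1
  have huN := (h91y_unit hAW hinv hnt t htW htW' ht0 (h91yNeg T c n)
    (h91yNeg_monic T c n) (fun k hk => h91yPoly_coeff_mem T c _ hc k hk)).1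
  have hbP : b (aeval t (h91yPos T c n)) ≠ 0 := (map_ne_zero b).mpr huP
  have hbN : b (aeval t (h91yNeg T c n)) ≠ 0 := (map_ne_zero b).mpr huN
  have heq : b (aeval t (h91yPos T c n)) * (b (aeval t (h91yNeg T c n)))⁻¹ *
      (aeval t (h91yPos T c n) * (aeval t (h91yNeg T c n))⁻¹)⁻¹ =
      b (aeval t (h91yPos T c n)) * (aeval t (h91yPos T c n))⁻¹ /
        (b (aeval t (h91yNeg T c n)) * (aeval t (h91yNeg T c n))⁻¹) := by
    field_simp
  rw [heq]
  exact h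

/-- **the `0`-side of (L2)**: the variation of `G = ∏ (x - c_i) ^ (n_i)` at the `0`-side of a
node `x y = ϖ c`: all roots strictly inside the annulus (`c_i d_i = ϖ`, `d_i ∈ 𝔪_A`).  Then
`b G / G ∈ (b γ / γ) (1 + δ 𝔪_A W)` with `γ = ∏ (- c_i) ^ (n_i)`. -/
theorem h91y_node_prod (hAF : Function.Injective (algebraMap A F))
    (hAW : ∀ a : A, algebraMap A F a ∈ W)
    (hinv : ∀ m ∈ maximalIdeal A, ∀ x ∈ W, (1 + algebraMap A F m * x)⁻¹ ∈ W)
    (hnt : ∀ m ∈ maximalIdeal A, ∀ x ∈ W, algebraMap A F m * x ≠ 1)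
    (b : F →+* F) (θ : A →+* A)
    (hbθ : ∀ a : A, b (algebraMap A F a) = algebraMap A F (θ a))
    (hδ : δ ∈ maximalIdeal A)
    (x : F) (hbx : b x = x) (ϖ : A) (hϖ0 : ϖ ≠ 0) (hθϖ : θ ϖ = ϖ)
    (hxW : x * (algebraMap A F ϖ)⁻¹ ∈ W)
    (T : Finset ι) (c d : ι → A) (n : ι → ℤ)
    (hd : ∀ i ∈ T, d i ∈ maximalIdeal A) (hcd : ∀ i ∈ T, c i * d i = ϖ)
    (hvarP : ∀ k, ∃ c' : A,
      θ ((h91yPos T c n).coeff k) = (h91yPos T c n).coeff k * (1 + δ * c'))
    (hvarN : ∀ k, ∃ c' : A,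
      θ ((h91yNeg T c n).coeff k) = (h91yNeg T c n).coeff k * (1 + δ * c')) :
    (∃ m ∈ maximalIdeal A, (∏ i ∈ T, (x - algebraMap A F (c i)) ^ n i) *
      (∏ i ∈ T, (-algebraMap A F (c i)) ^ n i)⁻¹ ∈ Fermat.Agent.Red.h26U m W) ∧
    b (∏ i ∈ T, (x - algebraMap A F (c i)) ^ n i) *
      (∏ i ∈ T, (x - algebraMap A F (c i)) ^ n i)⁻¹ *
      (b (∏ i ∈ T, (-algebraMap A F (c i)) ^ n i) *
        (∏ i ∈ T, (-algebraMap A F (c i)) ^ n i)⁻¹)⁻¹ ∈ h91yU δ W := by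
  classical
  have hc0 : ∀ i ∈ T, c i ≠ 0 := by
    intro i hi h
    have := hcd i hi
    rw [h, zero_mul] at this
    exact hϖ0 this.symm
  have hcF : ∀ i ∈ T, algebraMap A F (c i) ≠ 0 := fun i hi h =>
    hc0 i hi (hAF (by rw [h, map_zero]))
  have hϖF : algebraMap A F ϖ ≠ 0 := fun h => hϖ0 (hAF (by rw [h, map_zero]))
  have h0 : ∀ i ∈ T, x - algebraMap A F (c i) ≠ 0 := by
    intro i hi h
    apply hnt (d i) (hd i hi) _ hxW
    have h1 : x = algebraMap A F (c i) := sub_eq_zero.mp h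
    have h2 : algebraMap A F ϖ = algebraMap A F (c i) * algebraMap A F (d i) := by
      rw [← map_mul, hcd i hi]
    rw [h1, h2]
    have := hcF i hi
    have hdF : algebraMap A F (d i) ≠ 0 := by
      intro h3
      rw [h3, mul_zero] at h2
      exact hϖF h2
    field_simp
  have hPP0 : (h91yPos T c n).coeff 0 ≠ 0 := by
    rw [h91yPos, h91yPoly_coeff_zero]
    exact Finset.prod_ne_zero_iff.mpr fun i hi => pow_ne_zero _ (neg_ne_zero.mpr (hc0 i hi))
  have hPN0 : (h91yNeg T c n).coeff 0 ≠ 0 := by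
    rw [h91yNeg, h91yPoly_coeff_zero]
    exact Finset.prod_ne_zero_iff.mpr fun i hi => pow_ne_zero _ (neg_ne_zero.mpr (hc0 i hi))
  obtain ⟨hvP, ⟨mP, hmP, hUP⟩, hNP⟩ := h91y_node hAF hAW hinv hnt b θ hbθ hδ x hbx ϖ hϖ0 hθϖ hxW
    (h91yPos T c n) hPP0 (fun j hj => h91yPoly_inside T c d _ ϖ hd hcd j hj) hvarP
  obtain ⟨hvN, ⟨mN, hmN, hUN⟩, hNN⟩ := h91y_node hAF hAW hinv hnt b θ hbθ hδ x hbx ϖ hϖ0 hθϖ hxW
    (h91yNeg T c n) hPN0 (fun j hj => h91yPoly_inside T c d _ ϖ hd hcd j hj) hvarN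
  have hγ := h91y_gamma (F := F) T c n hcF
  have hG := h91y_prod_zpow T c n x h0
  have hsPF : algebraMap A F ((h91yPos T c n).coeff 0) ≠ 0 := fun h =>
    hPP0 (hAF (by rw [h, map_zero]))
  have hsNF : algebraMap A F ((h91yNeg T c n).coeff 0) ≠ 0 := fun h =>
    hPN0 (hAF (by rw [h, map_zero]))
  constructor
  · -- `G / γ ∈ 1 + 𝔪 W`
    have hUP' : aeval x (h91yPos T c n) * (algebraMap A F ((h91yPos T c n).coeff 0))⁻¹ ∈
        h91yU (1 : A) W := ⟨mP, hmP, by rw [one_mul]; exact hUP⟩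
    have hUN' : aeval x (h91yNeg T c n) * (algebraMap A F ((h91yNeg T c n).coeff 0))⁻¹ ∈
        h91yU (1 : A) W := ⟨mN, hmN, by rw [one_mul]; exact hUN⟩
    obtain ⟨m, hm, hq⟩ := h91yU_div hAW hinv hnt hUP' hUN'
    refine ⟨m, hm, ?_⟩
    rw [one_mul] at hq
    rw [hG, ← hγ]
    have heq : aeval x (h91yPos T c n) * (aeval x (h91yNeg T c n))⁻¹ *
        (algebraMap A F ((h91yPos T c n).coeff 0) *
          (algebraMap A F ((h91yNeg T c n).coeff 0))⁻¹)⁻¹ =
        aeval x (h91yPos T c n) * (algebraMap A F ((h91yPos T c n).coeff 0))⁻¹ /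
          (aeval x (h91yNeg T c n) * (algebraMap A F ((h91yNeg T c n).coeff 0))⁻¹) := by
      field_simp
    rw [heq]
    exact hq
  · have h := h91yU_div hAW hinv hnt hNP hNN
    rw [hG, ← hγ, map_mul, map_inv₀, map_mul, map_inv₀, hbθ, hbθ]
    have hθP : algebraMap A F (θ ((h91yPos T c n).coeff 0)) ≠ 0 := by
      rw [← hbθ]; exact (map_ne_zero b).mpr hsPF
    have hθN : algebraMap A F (θ ((h91yNeg T c n).coeff 0)) ≠ 0 := by
      rw [← hbθ]; exact (map_ne_zero b).mpr hsNF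
    have hbP : b (aeval x (h91yPos T c n)) ≠ 0 := (map_ne_zero b).mpr hvP
    have hbN : b (aeval x (h91yNeg T c n)) ≠ 0 := (map_ne_zero b).mpr hvN
    have heq : b (aeval x (h91yPos T c n)) * (b (aeval x (h91yNeg T c n)))⁻¹ *
        (aeval x (h91yPos T c n) * (aeval x (h91yNeg T c n))⁻¹)⁻¹ *
        (algebraMap A F (θ ((h91yPos T c n).coeff 0)) *
          (algebraMap A F (θ ((h91yNeg T c n).coeff 0)))⁻¹ *
          (algebraMap A F ((h91yPos T c n).coeff 0) *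
            (algebraMap A F ((h91yNeg T c n).coeff 0))⁻¹)⁻¹)⁻¹ =
        b (aeval x (h91yPos T c n)) * (aeval x (h91yPos T c n))⁻¹ *
          (algebraMap A F (θ ((h91yPos T c n).coeff 0)) *
            (algebraMap A F ((h91yPos T c n).coeff 0))⁻¹)⁻¹ /
        (b (aeval x (h91yNeg T c n)) * (aeval x (h91yNeg T c n))⁻¹ *
          (algebraMap A F (θ ((h91yNeg T c n).coeff 0)) *
            (algebraMap A F ((h91yNeg T c n).coeff 0))⁻¹)⁻¹) := by
      field_simp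
    rw [heq]
    exact h

end Wiring

end Fermat.Agent.P7
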