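import Fermat.Agent.P7.H96Dlog
import Fermat.Agent.P7.H91DiffTrace

/-!
# Wave 7 (S44), DLOG leaf DL2, step (S4) LOCAL TRACE (helper91): the residue of `f dlog g` at a
totally ramified place is the residue of `f dlog (Norm g)` divided by the degree

Mathlib + `P7/H96Dlog` (`θ = q d/dq` on Laurent series) + `P7/H91DiffTrace`.

`L = K((q))`, `char K = 0`, `ι : F →+* L`, `Y₀ = θ (ι f)`, `d` a derivation of `F` with the chain
rule `ι (d x) · Y₀ = θ (ι x)` (`d = d/df`), `T` the trace and `Nm` the norm of `F / K(f)`.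

* `h91rGE x m` : `x` has no term below `q ^ m`; `h91r_ge_mul`, `h91r_coeff_mul`, …
* `h91r_coeff_theta_zero` : `a₀ (θ x) = 0`;  `h91r_coeff_log` : `a₀ (θ x / x) = ord x`.
* `h91rPrim` : the primitive (`θ (Prim y) = y` if `a₀ y = 0`).
* `h91r_dense` : `ι F` is dense in `L` if `F` contains the constants and an element of order `1`.
* `h91r_trace_formula` : **(T)** `a₀ (ι (T H) · Y₀) = n · a₀ (ι H · Y₀)` for all `H ∈ F`.
  Proof: locally `H df = dG + c₀ dπ/π` up to a term of high order; `T` commutes with `d`,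
  `T (dπ/π) = d (Nm π) / Nm π`, and `ord (Nm π) = n`.  No expansion in `f ^ (-1/n)`.
* `h91r_resNorm_abs` : **(S4)**, abstract form.
-/

set_option autoImplicit false
set_option linter.unusedSectionVars false
set_option linter.unusedVariables false

namespace Fermat.Agent.P7

section Laurent

variable {K : Type*} [Field K]

/-- `x` has no term below `q ^ m`. -/
def h91rGE (x : LaurentSeries K) (m : ℤ) : Prop := ∀ k < m, x.coeff k = 0

theorem h91r_ge_zero (m : ℤ) : h91rGE (0 : LaurentSeries K) m := fun _ _ => rfl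

theorem h91r_ge_mono {x : LaurentSeries K} {m m' : ℤ} (h : h91rGE x m) (hm : m' ≤ m) :
    h91rGE x m' := fun k hk => h k (lt_of_lt_of_le hk hm)

theorem h91r_ge_add {x y : LaurentSeries K} {m : ℤ} (hx : h91rGE x m) (hy : h91rGE y m) :
    h91rGE (x + y) m := fun k hk => by
  rw [HahnSeries.coeff_add, hx k hk, hy k hk, add_zero]

theorem h91r_ge_neg {x : LaurentSeries K} {m : ℤ} (hx : h91rGE x m) : h91rGE (-x) m :=
  fun k hk => by rw [HahnSeries.coeff_neg, hx k hk, neg_zero]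

theorem h91r_ge_sub {x y : LaurentSeries K} {m : ℤ} (hx : h91rGE x m) (hy : h91rGE y m) :
    h91rGE (x - y) m := fun k hk => by
  rw [HahnSeries.coeff_sub, hx k hk, hy k hk, sub_zero]

theorem h91r_ge_order (x : LaurentSeries K) : h91rGE x x.order := fun k hk => by
  rcases eq_or_ne x 0 with rfl | hx
  · rfl
  · exact HahnSeries.coeff_eq_zero_of_lt_order hk

theorem h91r_exists_ge (x : LaurentSeries K) (N : ℤ) : ∃ m : ℤ, m ≤ N ∧ h91rGE x m :=
  ⟨min x.order N, min_le_right _ _, h91r_ge_mono (h91r_ge_order x) (min_le_left _ _)⟩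

theorem h91r_ge_mul {x y : LaurentSeries K} {a b : ℤ} (hx : h91rGE x a) (hy : h91rGE y b) :
    h91rGE (x * y) (a + b) := by
  intro k hk
  rw [HahnSeries.coeff_mul]
  refine Finset.sum_eq_zero fun ij hij => ?_
  have hs : ij.1 + ij.2 = k := (Finset.mem_antidiagonal.mp hij).2.2
  by_cases h1 : ij.1 < a
  · rw [hx _ h1, zero_mul]
  · have h2 : ij.2 < b := by omega
    rw [hy _ h2, mul_zero]

theorem h91r_coeff_mul {x y : LaurentSeries K} {a b : ℤ} (hx : h91rGE x a) (hy : h91rGE y b) :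
    (x * y).coeff (a + b) = x.coeff a * y.coeff b := by
  rw [HahnSeries.coeff_mul]
  by_cases hmem : ((a, b) : ℤ × ℤ) ∈
      Finset.antidiagonal x.isPWO_support y.isPWO_support (a + b)
  · rw [Finset.sum_eq_single_of_mem (a, b) hmem]
    intro ij hij hne
    have hs : ij.1 + ij.2 = a + b := (Finset.mem_antidiagonal.mp hij).2.2
    by_cases h1 : ij.1 < a
    · rw [hx _ h1, zero_mul]
    · by_cases h2 : ij.2 < b
      · rw [hy _ h2, mul_zero]
      · exfalso
        apply hne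
        have e1 : ij.1 = a := by omega
        have e2 : ij.2 = b := by omega
        exact Prod.ext e1 e2
  · have h0 : x.coeff a * y.coeff b = 0 := by
      by_contra h
      apply hmem
      rw [Finset.mem_antidiagonal]
      exact ⟨left_ne_zero_of_mul h, right_ne_zero_of_mul h, rfl⟩
    rw [h0]
    refine Finset.sum_eq_zero fun ij hij => ?_
    have hs : ij.1 + ij.2 = a + b := (Finset.mem_antidiagonal.mp hij).2.2
    by_cases h1 : ij.1 < a
    · rw [hx _ h1, zero_mul]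
    · by_cases h2 : ij.2 < b
      · rw [hy _ h2, mul_zero]
      · have e1 : ij.1 = a := by omega
        have e2 : ij.2 = b := by omega
        rw [e1, e2, h0]

theorem h91r_ge_theta {x : LaurentSeries K} {m : ℤ} (hx : h91rGE x m) :
    h91rGE (h96dTheta x) m := fun k hk => by
  rw [h96d_coeff_theta, hx k hk, mul_zero]

theorem h91r_ge_C_mul {x : LaurentSeries K} {m : ℤ} (c : K) (hx : h91rGE x m) :
    h91rGE (HahnSeries.C c * x) m := fun k hk => by
  rw [HahnSeries.C_mul_eq_smul, HahnSeries.coeff_smul, hx k hk, smul_zero]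

theorem h91r_coeff_C_mul (c : K) (x : LaurentSeries K) (k : ℤ) :
    (HahnSeries.C c * x).coeff k = c * x.coeff k := by
  rw [HahnSeries.C_mul_eq_smul, HahnSeries.coeff_smul, smul_eq_mul]

/-- the order of a series with a given first nonzero coefficient. -/
theorem h91r_order_eq {x : LaurentSeries K} {a : ℤ} (hx : h91rGE x a) (ha : x.coeff a ≠ 0) :
    x.order = a := by
  have hx0 : x ≠ 0 := fun h => ha (by rw [h]; rfl)
  apply le_antisymm
  · exact HahnSeries.order_le_of_coeff_ne_zero ha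
  · by_contra h
    have h1 : x.order < a := not_le.mp h
    exact (HahnSeries.coeff_order_eq_zero.not.mpr hx0) (hx _ h1)

/-- the inverse of a series with a given first nonzero coefficient. -/
theorem h91r_inv {x : LaurentSeries K} {a : ℤ} (hx : h91rGE x a) (ha : x.coeff a ≠ 0) :
    h91rGE x⁻¹ (-a) ∧ (x⁻¹).coeff (-a) = (x.coeff a)⁻¹ := by
  have hx0 : x ≠ 0 := fun h => ha (by rw [h]; rfl)
  have hi0 : x⁻¹ ≠ 0 := inv_ne_zero hx0
  have ho : x.order = a := h91r_order_eq hx ha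
  have h1 : (x * x⁻¹).order = x.order + (x⁻¹).order := HahnSeries.order_mul hx0 hi0
  rw [mul_inv_cancel₀ hx0, HahnSeries.order_one] at h1
  have hoi : (x⁻¹).order = -a := by omega
  have hge : h91rGE x⁻¹ (-a) := hoi ▸ h91r_ge_order x⁻¹
  refine ⟨hge, ?_⟩
  have h2 := h91r_coeff_mul hx hge
  rw [mul_inv_cancel₀ hx0, add_neg_cancel, HahnSeries.coeff_one, if_pos rfl] at h2
  exact eq_inv_of_mul_eq_one_right h2.symm

/-- integer powers of a series of order `1`. -/
theorem h91r_zpow {x : LaurentSeries K} (hx : h91rGE x 1) (hu : x.coeff 1 ≠ 0) (m : ℤ) :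
    h91rGE (x ^ m) m ∧ (x ^ m).coeff m = (x.coeff 1) ^ m := by
  have hnat : ∀ k : ℕ, h91rGE (x ^ k) (k : ℤ) ∧ (x ^ k).coeff (k : ℤ) = (x.coeff 1) ^ k := by
    intro k
    induction k with
    | zero =>
      refine ⟨fun j hj => ?_, ?_⟩
      · rw [pow_zero, HahnSeries.coeff_one, if_neg]
        have : j < 0 := by exact_mod_cast hj
        omega
      · rw [pow_zero, pow_zero, Nat.cast_zero, HahnSeries.coeff_one, if_pos rfl]
    | succ k ih =>
      have e : ((k + 1 : ℕ) : ℤ) = (k : ℤ) + 1 := by push_cast; ring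
      rw [pow_succ, pow_succ, e]
      exact ⟨h91r_ge_mul ih.1 hx, by rw [h91r_coeff_mul ih.1 hx, ih.2]⟩
  rcases Int.eq_nat_or_neg m with ⟨k, rfl | rfl⟩
  · rw [zpow_natCast, zpow_natCast]
    exact hnat k
  · rw [zpow_neg, zpow_natCast, zpow_neg, zpow_natCast]
    have hk := hnat k
    have hne : (x ^ k).coeff (k : ℤ) ≠ 0 := by
      rw [hk.2]
      exact pow_ne_zero _ hu
    have h := h91r_inv hk.1 hne
    rw [hk.2] at h
    exact h

theorem h91r_coeff_theta_zero (x : LaurentSeries K) : (h96dTheta x).coeff 0 = 0 := by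
  rw [h96d_coeff_theta, Int.cast_zero, zero_mul]

/-- `a₀ (θ x / x) = ord x`. -/
theorem h91r_coeff_log {x : LaurentSeries K} (hx : x ≠ 0) :
    (h96dTheta x * x⁻¹).coeff 0 = (x.order : K) := by
  have hc : x.coeff x.order ≠ 0 := HahnSeries.coeff_order_eq_zero.not.mpr hx
  have hge := h91r_ge_order x
  obtain ⟨hi, -⟩ := h91r_inv hge hc
  have hW : h91rGE (h96dTheta x * x⁻¹) 0 := by
    have := h91r_ge_mul (h91r_ge_theta hge) hi
    rwa [add_neg_cancel] at this
  have h1 := h91r_coeff_mul hW hge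
  rw [zero_add, mul_assoc, inv_mul_cancel₀ hx, mul_one, h96d_coeff_theta] at h1
  have h2 : ((x.order : ℤ) : K) * x.coeff x.order =
      (h96dTheta x * x⁻¹).coeff 0 * x.coeff x.order := h1
  exact (mul_right_cancel₀ hc h2).symm

/-- the primitive of a series (the term of `q ^ 0` is dropped). -/
def h91rPrim (y : LaurentSeries K) : LaurentSeries K where
  coeff k := y.coeff k / (k : K)
  isPWO_support' := y.isPWO_support.mono (fun k hk => by
    simp only [Function.mem_support, ne_eq] at hk ⊢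
    exact fun h0 => hk (by rw [h0, zero_div]))

@[simp] theorem h91r_coeff_prim (y : LaurentSeries K) (k : ℤ) :
    (h91rPrim y).coeff k = y.coeff k / (k : K) := rfl

theorem h91r_ge_prim {y : LaurentSeries K} {m : ℤ} (hy : h91rGE y m) : h91rGE (h91rPrim y) m :=
  fun k hk => by rw [h91r_coeff_prim, hy k hk, zero_div]

theorem h91r_theta_prim [CharZero K] {y : LaurentSeries K} (hy : y.coeff 0 = 0) :
    h96dTheta (h91rPrim y) = y := by
  ext k
  rw [h96d_coeff_theta, h91r_coeff_prim]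
  rcases eq_or_ne k 0 with rfl | hk
  · rw [hy, Int.cast_zero, zero_mul]
  · have hk' : (k : K) ≠ 0 := Int.cast_ne_zero.mpr hk
    field_simp

end Laurent

section Dense

variable {K : Type*} [Field K] {F : Type*} [Field F] [Algebra K F]

/-- **density**: `ι F` is dense in `K((q))` if `F` contains the constants and an element of
order `1`. -/
theorem h91r_dense (ι : F →+* LaurentSeries K)
    (hι : ∀ c : K, ι (algebraMap K F c) = HahnSeries.C c)
    (π : F) (hπ : h91rGE (ι π) 1) (hu : (ι π).coeff 1 ≠ 0)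
    (Z : LaurentSeries K) (N : ℤ) : ∃ G : F, h91rGE (ι G - Z) N := by
  obtain ⟨m0, hm0, hZ⟩ := h91r_exists_ge Z N
  have key : ∀ j : ℕ, ∃ G : F, h91rGE (ι G - Z) (m0 + j) := by
    intro j
    induction j with
    | zero =>
      refine ⟨0, ?_⟩
      rw [map_zero, zero_sub, Nat.cast_zero, add_zero]
      exact h91r_ge_neg hZ
    | succ j ih =>
      obtain ⟨G, hG⟩ := ih
      obtain ⟨hp, hpc⟩ := h91r_zpow hπ hu (m0 + j)
      have hum : (ι π).coeff 1 ^ (m0 + (j : ℤ)) ≠ 0 := zpow_ne_zero _ hu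
      refine ⟨G - algebraMap K F ((ι G - Z).coeff (m0 + j) *
        ((ι π).coeff 1 ^ (m0 + (j : ℤ)))⁻¹) * π ^ (m0 + (j : ℤ)), ?_⟩
      intro k hk
      have e : ι (G - algebraMap K F ((ι G - Z).coeff (m0 + j) *
          ((ι π).coeff 1 ^ (m0 + (j : ℤ)))⁻¹) * π ^ (m0 + (j : ℤ))) - Z =
          (ι G - Z) - HahnSeries.C ((ι G - Z).coeff (m0 + j) *
            ((ι π).coeff 1 ^ (m0 + (j : ℤ)))⁻¹) * (ι π) ^ (m0 + (j : ℤ)) := by
        rw [map_sub, map_mul, hι, map_zpow₀]; ring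
      rw [e, HahnSeries.coeff_sub, h91r_coeff_C_mul]
      have hk' : k ≤ m0 + j := by push_cast at hk; omega
      rcases lt_or_eq_of_le hk' with h | h
      · rw [hG k h, hp k h, mul_zero, sub_zero]
      · rw [h, hpc, mul_assoc, inv_mul_cancel₀ hum, mul_one, sub_self]
  obtain ⟨G, hG⟩ := key (N - m0).toNat
  refine ⟨G, h91r_ge_mono hG ?_⟩
  have := Int.self_le_toNat (N - m0)
  omega

end Dense

section Trace

variable {K : Type*} [Field K] [CharZero K] {F : Type*} [Field F] [Algebra K F]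

/-- **(T) the local trace formula** `a₀ (ι (T H) · Y₀) = n · a₀ (ι H · Y₀)`. -/
theorem h91r_trace_formula (ι : F →+* LaurentSeries K)
    (hι : ∀ c : K, ι (algebraMap K F c) = HahnSeries.C c)
    (π : F) (hπ : h91rGE (ι π) 1) (hu : (ι π).coeff 1 ≠ 0)
    (Y0 : LaurentSeries K) (n : ℤ) (hY0 : h91rGE Y0 (-n)) (hY0c : Y0.coeff (-n) ≠ 0)
    (d T : F → F)
    (hTadd : ∀ x y, T (x + y) = T x + T y)
    (hTc : ∀ (c : K) (x : F), T (algebraMap K F c * x) = algebraMap K F c * T x)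
    (hchain : ∀ x : F, ι (d x) * Y0 = h96dTheta (ι x))
    (h1 : ∀ x : F, T (d x) = d (T x))
    (Nπ : F) (hNπ0 : Nπ ≠ 0)
    (h2 : T (d π * π⁻¹) = d Nπ * Nπ⁻¹)
    (h3 : (ι Nπ).order = n)
    (c : ℤ) (h4 : ∀ (x : F) (m : ℤ), h91rGE (ι x) m → h91rGE (ι (T x)) (m - c))
    (H : F) :
    (ι (T H) * Y0).coeff 0 = (n : K) * (ι H * Y0).coeff 0 := by
  have hπL : ι π ≠ 0 := fun h => hu (by rw [h]; rfl)
  have hπ0 : π ≠ 0 := fun h => hπL (by rw [h, map_zero])
  have hNL : ι Nπ ≠ 0 := (map_ne_zero ι).mpr hNπ0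
  have hY00 : Y0 ≠ 0 := fun h => hY0c (by rw [h]; rfl)
  -- the logarithmic differential of `π`
  have hW : ι (d π * π⁻¹) * Y0 = h96dTheta (ι π) * (ι π)⁻¹ := by
    rw [map_mul, map_inv₀, mul_right_comm, hchain]
  have hW0 : (h96dTheta (ι π) * (ι π)⁻¹).coeff 0 = 1 := by
    rw [h91r_coeff_log hπL, h91r_order_eq hπ hu, Int.cast_one]
  have hWN : ι (d Nπ * Nπ⁻¹) * Y0 = h96dTheta (ι Nπ) * (ι Nπ)⁻¹ := by
    rw [map_mul, map_inv₀, mul_right_comm, hchain]
  have hWN0 : (h96dTheta (ι Nπ) * (ι Nπ)⁻¹).coeff 0 = (n : K) := by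
    rw [h91r_coeff_log hNL, h3]
  -- the primitive
  set c0 : K := (ι H * Y0).coeff 0 with hc0
  have hY' : (ι H * Y0 - HahnSeries.C c0 * (h96dTheta (ι π) * (ι π)⁻¹)).coeff 0 = 0 := by
    rw [HahnSeries.coeff_sub, h91r_coeff_C_mul, hW0, mul_one, sub_self]
  have hZ := h91r_theta_prim hY'
  obtain ⟨G, hG⟩ := h91r_dense ι hι π hπ hu
    (h91rPrim (ι H * Y0 - HahnSeries.C c0 * (h96dTheta (ι π) * (ι π)⁻¹))) (c + 1)
  -- the error term
  set err : F := H - d G - algebraMap K F c0 * (d π * π⁻¹) with herr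
  have herrY : ι err * Y0 = -h96dTheta (ι G -
      h91rPrim (ι H * Y0 - HahnSeries.C c0 * (h96dTheta (ι π) * (ι π)⁻¹))) := by
    rw [h96d_theta_sub, hZ, herr, map_sub, map_sub, map_mul, hι, sub_mul, sub_mul, hchain,
      mul_assoc, hW]
    ring
  have hge1 : h91rGE (ι err * Y0) (c + 1) := by
    rw [herrY]
    exact h91r_ge_neg (h91r_ge_theta hG)
  obtain ⟨hYi, -⟩ := h91r_inv hY0 hY0c
  rw [neg_neg] at hYi
  have hge2 : h91rGE (ι err) (c + 1 + n) := by
    have h := h91r_ge_mul hge1 hYi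
    rwa [mul_assoc, mul_inv_cancel₀ hY00, mul_one] at h
  have hge3 : h91rGE (ι (T err) * Y0) 1 := by
    have h := h91r_ge_mul (h4 err _ hge2) hY0
    have e : c + 1 + n - c + -n = 1 := by ring
    rwa [e] at h
  have hT0 : (ι (T err) * Y0).coeff 0 = 0 := hge3 0 (by norm_num)
  -- the decomposition
  have hH : H = d G + (algebraMap K F c0 * (d π * π⁻¹) + err) := by
    rw [herr]; ring
  have hTH : T H = d (T G) + (algebraMap K F c0 * (d Nπ * Nπ⁻¹) + T err) := by
    conv_lhs => rw [hH]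
    rw [hTadd, hTadd, hTc, h1, h2]
  rw [hTH, map_add, map_add, map_mul, hι, add_mul, add_mul, hchain, mul_assoc, hWN,
    HahnSeries.coeff_add, HahnSeries.coeff_add, h91r_coeff_theta_zero, h91r_coeff_C_mul, hWN0,
    hT0, zero_add, add_zero, mul_comm]

/-- **(S4), abstract form**: `a₀ (f · dlog (Nm g)) = n · a₀ (f · dlog g)`. -/
theorem h91r_resNorm_abs (ι : F →+* LaurentSeries K)
    (hι : ∀ c : K, ι (algebraMap K F c) = HahnSeries.C c)
    (π : F) (hπ : h91rGE (ι π) 1) (hu : (ι π).coeff 1 ≠ 0)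
    (f : F) (n : ℤ) (hf : h91rGE (ι f) (-n)) (hfc : (ι f).coeff (-n) ≠ 0) (hn : n ≠ 0)
    (d T Nm : F → F)
    (hTadd : ∀ x y, T (x + y) = T x + T y)
    (hTc : ∀ (c : K) (x : F), T (algebraMap K F c * x) = algebraMap K F c * T x)
    (hTf : ∀ x : F, T (f * x) = f * T x)
    (hchain : ∀ x : F, ι (d x) * h96dTheta (ι f) = h96dTheta (ι x))
    (h1 : ∀ x : F, T (d x) = d (T x))
    (hN0 : ∀ x : F, x ≠ 0 → Nm x ≠ 0)
    (h2 : ∀ x : F, x ≠ 0 → T (d x * x⁻¹) = d (Nm x) * (Nm x)⁻¹)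
    (h3 : (ι (Nm π)).order = n)
    (c : ℤ) (h4 : ∀ (x : F) (m : ℤ), h91rGE (ι x) m → h91rGE (ι (T x)) (m - c))
    (g : F) (hg : g ≠ 0) :
    (ι f * h96dLog (ι (Nm g))).coeff 0 = (n : K) * (ι f * h96dLog (ι g)).coeff 0 := by
  have hπL : ι π ≠ 0 := fun h => hu (by rw [h]; rfl)
  have hπ0 : π ≠ 0 := fun h => hπL (by rw [h, map_zero])
  have hY0 : h91rGE (h96dTheta (ι f)) (-n) := h91r_ge_theta hf
  have hY0c : (h96dTheta (ι f)).coeff (-n) ≠ 0 := by
    rw [h96d_coeff_theta]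
    refine mul_ne_zero ?_ hfc
    rw [Int.cast_ne_zero]
    omega
  have hT := h91r_trace_formula ι hι π hπ hu (h96dTheta (ι f)) n hY0 hY0c d T hTadd hTc hchain
    h1 (Nm π) (hN0 π hπ0) (h2 π hπ0) h3 c h4 (f * (d g * g⁻¹))
  have e1 : ι f * h96dLog (ι (Nm g)) = ι (T (f * (d g * g⁻¹))) * h96dTheta (ι f) := by
    rw [hTf, h2 g hg, h96dLog, ← hchain (Nm g), map_mul, map_mul, map_inv₀]
    ring
  have e2 : ι f * h96dLog (ι g) = ι (f * (d g * g⁻¹)) * h96dTheta (ι f) := by
    rw [h96dLog, ← hchain g, map_mul, map_mul, map_inv₀]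
    ring
  rw [e1, e2]
  exact hT

end Trace

end Fermat.Agent.P7
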