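import Fermat.Agent.S21.E.Defs
import Fermat.Agent.Jac.DictCDefs
import Fermat.Agent.P5.H13RRIface

/-!
# Wave 7 (S44), DLOG kill gate DL6B-GENUS-MATCH: frozen interfaces (helper92)

Goal (`H92gGenusLe`): the weak genus `g` of `FF M / ℚ̄` (P5 vocabulary `H13rIsGenus`) is at most
`dim S₂(Γ₀(M))`.

Route (no duality): `t = (v_k, d_k)` a minimal analytic tuple of `S21/E`, `T = t.total`,
`μ = [SL₂(ℤ) : Γ₀(M)]`, `j` the modular invariant.

* `H92gK1` : `T + 1 ≤ dim S₂ + μ`, and for `n` large there are `(n + 1) μ - T` functions on `ℍ`,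
  linearly independent over `ℂ`, weakly holomorphic of degree `≤ n` (`j ^ a * v_k`, `a + d_k ≤ n`).
* `H92gK2` : a `ℂ`-independent family of weakly holomorphic functions of degree `≤ n` gives a
  `ℂ`-independent family in `L_ℂ(n (j)_∞) ⊆ FC M` (CONV + the place dictionary).
* `H92gK3` : descent `ℂ → ℚ̄`: `dim_ℚ̄ L(n (j)_∞) ≥ dim_ℂ L_ℂ(n (j)_∞)` (reduced echelon basis,
  fixed by `Aut(ℂ/ℚ)`).
* `H92gK4` : Riemann–Roch in large degree and `deg (j)_∞ ≤ μ`: an independent family of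
  `L(n (j)_∞)` has at most `n μ + 1 - g` members for `n` large.

Every declaration is a definition; nothing is assumed.
-/

set_option autoImplicit false

open AlgebraicCurve ModularCurve UpperHalfPlane CongruenceSubgroup
open scoped MatrixGroups

noncomputable section

namespace Fermat.Agent.P7

open Fermat.Agent.S24 (Kbar FF jBar)
open Fermat.Agent.Jac (FC jC)
open Fermat.Agent.P5 (H13rIsGenus)
open Fermat.Agent.S21.E (IsWH)

/-- `F ∈ L_ℂ(n (j)_∞)`: at every place of `FC M` the order of `F` is at least `n` times the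
negative part of the order of `j`. -/
def H92gPoleC (M n : ℕ) [NeZero M] (F : FC M) : Prop :=
  ∀ v : Place ℂ (FC M), F = 0 ∨ (n : ℤ) * min 0 (v.ord (jC M)) ≤ v.ord F

/-- `y ∈ L(n (j)_∞)` over `ℚ̄`. -/
def H92gPole (M n : ℕ) [NeZero M] (y : FF M) : Prop :=
  ∀ v : Place Kbar (FF M), y = 0 ∨ (n : ℤ) * min 0 (v.ord (jBar M)) ≤ v.ord y

/-- **(K1)** the analytic count. -/
def H92gK1 : Prop :=
  ∀ (M : ℕ) [NeZero M], ∃ T : ℕ,
    T + 1 ≤ Module.finrank ℂ (CuspForm (Gamma0 M) 2) + (Gamma0 M).index ∧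
    ∃ n₀ : ℕ, ∀ n : ℕ, n₀ ≤ n → ∃ (k : ℕ) (f : Fin k → ℍ → ℂ),
      (n + 1) * (Gamma0 M).index ≤ k + T ∧ LinearIndependent ℂ f ∧
      ∀ i, IsWH (Gamma0 M) n (f i)

/-- **(K2)** CONV + place dictionary. -/
def H92gK2 : Prop :=
  ∀ (M : ℕ) [NeZero M] (n k : ℕ) (f : Fin k → ℍ → ℂ), LinearIndependent ℂ f →
    (∀ i, IsWH (Gamma0 M) n (f i)) →
    ∃ F : Fin k → FC M, LinearIndependent ℂ F ∧ ∀ i, H92gPoleC M n (F i)

/-- **(K3)** descent from `ℂ` to `ℚ̄`. -/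
def H92gK3 : Prop :=
  ∀ (M : ℕ) [NeZero M] (n k : ℕ) (F : Fin k → FC M), LinearIndependent ℂ F →
    (∀ i, H92gPoleC M n (F i)) →
    ∃ y : Fin k → FF M, LinearIndependent Kbar y ∧ ∀ i, H92gPole M n (y i)

/-- **(K4)** Riemann–Roch in large degree + `deg (j)_∞ ≤ μ`. -/
def H92gK4 : Prop :=
  ∀ (M : ℕ) [NeZero M] (g : ℕ), H13rIsGenus Kbar (FF M) g →
    ∃ n₀ : ℕ, ∀ n : ℕ, n₀ ≤ n → ∀ (k : ℕ) (y : Fin k → FF M), LinearIndependent Kbar y →
      (∀ i, H92gPole M n (y i)) → k + g ≤ n * (Gamma0 M).index + 1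

/-- **the kill gate DL6B** (frozen Prop of helper28). -/
def H92gGenusLe : Prop :=
  ∀ (M : ℕ) [NeZero M] (g : ℕ), H13rIsGenus Kbar (FF M) g →
    g ≤ Module.finrank ℂ (CuspForm (Gamma0 M) 2)

/-- **assembly**: `(K1) + (K2) + (K3) + (K4) ⟹` the kill gate. -/
theorem h92g_genusLe_of (h1 : H92gK1) (h2 : H92gK2) (h3 : H92gK3) (h4 : H92gK4) :
    H92gGenusLe := by
  intro M _ g hg
  obtain ⟨T, hT, n₁, hn₁⟩ := h1 M
  obtain ⟨n₂, hn₂⟩ := h4 M g hg
  obtain ⟨k, f, hk, hf, hwh⟩ := hn₁ (max n₁ n₂) (le_max_left _ _)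
  obtain ⟨F, hF, hFp⟩ := h2 M (max n₁ n₂) k f hf hwh
  obtain ⟨y, hy, hyp⟩ := h3 M (max n₁ n₂) k F hF hFp
  have h5 := hn₂ (max n₁ n₂) (le_max_right _ _) k y hy hyp
  have h6 : (max n₁ n₂ + 1) * (Gamma0 M).index
      = max n₁ n₂ * (Gamma0 M).index + (Gamma0 M).index := by ring
  omega

end Fermat.Agent.P7
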