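import Fermat.Agent.P5.H13RRPackage
import Fermat.Agent.Jac.Kummer
import Fermat.Prelude.Def_AlgebraicCurve_BaseChangeGalois

/-!
# Wave 7 (S40), block (A), row T-ABEL-KILL, leaf FIN-RED / CANON (helper93)

Abstract function field `F / K` (Prelude `Place`, `Divisor`, `Pic0`, `riemannRochSpace`) with the
weak Riemann–Roch facts of `P5/H13RRIface.lean` and a base place `P₀`.

* `h93fc_unique` : `E, E' ≥ 0`, `ℓ(E) = 1`, `E' = E + div h` ⟹ `E' = E`.
* `h93fc_canon` : every class `x ∈ Pic0` is `[E - k P₀]` with `k ≤ g`, `E ≥ 0` of degree `k`,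
  and `E` is CANONICAL: every semilinear automorphism `s` with `s P₀ = P₀` and `s x = x`
  fixes the divisor `E`.
-/

set_option autoImplicit false
set_option linter.style.haveILetI false
set_option linter.unusedSectionVars false
set_option linter.unusedVariables false

open AlgebraicCurve

noncomputable section

namespace Fermat.Agent.P7

open Fermat.Agent.P5

variable {K F : Type*} [Field K] [Field F] [Algebra K F]

/-- `1 ∈ L(E)` for `E ≥ 0`. -/
theorem h93fc_one_mem {E : Divisor K F} (hE : 0 ≤ E) : (1 : F) ∈ riemannRochSpace E := by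
  rw [mem_riemannRochSpace_iff]
  intro v
  right
  rw [v.ord_one]
  have := hE v
  simp only [Finsupp.coe_zero, Pi.zero_apply] at this
  omega

/-- nonzero constants have order `0`. -/
theorem h93fc_ord_smul_one (v : Place K F) (c : K) : v.ord (c • (1 : F)) = 0 := by
  rcases eq_or_ne c 0 with rfl | hc
  · rw [zero_smul, v.ord_zero]
  · rw [Algebra.smul_def, mul_one]
    exact Fermat.Agent.Jac.K1.ord_algebraMap v hc

/-- **uniqueness of the effective divisor in a class with `ℓ = 1`.** -/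
theorem h93fc_unique {E E' : Divisor K F} (hE : 0 ≤ E) (hE' : 0 ≤ E')
    (hl : h13rL K F E = 1) (h : F) (hh : h ≠ 0) (hdiv : ∀ v, E' v = E v + v.ord h) :
    E' = E := by
  have h1 : (1 : F) ∈ riemannRochSpace E := h93fc_one_mem hE
  have h2 : h ∈ riemannRochSpace E := by
    rw [mem_riemannRochSpace_iff]
    intro v
    right
    have h3 := hE' v
    simp only [Finsupp.coe_zero, Pi.zero_apply] at h3
    rw [hdiv v] at h3
    omega
  have hne : (⟨1, h1⟩ : riemannRochSpace E) ≠ 0 := by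
    intro h0
    have := congrArg Subtype.val h0
    exact one_ne_zero this
  obtain ⟨c, hc⟩ := (finrank_eq_one_iff_of_nonzero' (⟨1, h1⟩ : riemannRochSpace E) hne).mp hl
    ⟨h, h2⟩
  have hc' : c • (1 : F) = h := congrArg Subtype.val hc
  ext v
  rw [hdiv v, ← hc', h93fc_ord_smul_one, add_zero]

/-- the degree of `D + k P₀` -/
theorem h93fc_degree_add (hB : H13rBase K F) (D : Divisor K F) (P₀ : Place K F) (k : ℤ) :
    Divisor.degree (D + Finsupp.single P₀ k) = Divisor.degree D + k := by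
  rw [map_add, Divisor.degree_single, hB.deg_one P₀]
  simp

/-- **CANON.** -/
theorem h93fc_canon (hB : H13rBase K F) (g : ℕ)
    (hfin : ∀ D : Divisor K F, Module.Finite K (riemannRochSpace D))
    (hstep : ∀ (D : Divisor K F) (P : Place K F),
      h13rL K F (D + Finsupp.single P 1) ≤ h13rL K F D + 1)
    (hneg : ∀ D : Divisor K F, Divisor.degree D < 0 → riemannRochSpace D = ⊥)
    (hlarge : ∀ D : Divisor K F, (g : ℤ) ≤ Divisor.degree D → riemannRochSpace D ≠ ⊥)
    (hinv : ∀ (D E : Divisor K F) (f : F), f ≠ 0 → (∀ v : Place K F, E v = D v + v.ord f) →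
      h13rL K F E = h13rL K F D)
    (P₀ : Place K F) (x : Pic0 K F) :
    ∃ (k : ℕ) (E : Divisor K F)
      (hE : E - Finsupp.single P₀ (k : ℤ) ∈ Divisor.degZero (K := K) (F := F)),
      k ≤ g ∧ 0 ≤ E ∧ Divisor.degree E = k ∧
      x = Pic0.mk ⟨E - Finsupp.single P₀ (k : ℤ), hE⟩ ∧
      ∀ s : SemilinearAut K F, s • P₀ = P₀ → s • x = x → s • E = E := by
  classical
  obtain ⟨D₀, rfl⟩ := Pic0.mk_surjective x
  have hD₀ : Divisor.degree (D₀ : Divisor K F) = 0 := D₀.2
  -- the least `k` with `L(D₀ + k P₀) ≠ 0`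
  have hex : ∃ k : ℕ, riemannRochSpace ((D₀ : Divisor K F) + Finsupp.single P₀ (k : ℤ)) ≠ ⊥ := by
    refine ⟨g, hlarge _ ?_⟩
    rw [h93fc_degree_add hB, hD₀, zero_add]
  set k := Nat.find hex with hk
  have hkne : riemannRochSpace ((D₀ : Divisor K F) + Finsupp.single P₀ (k : ℤ)) ≠ ⊥ :=
    Nat.find_spec hex
  have hkg : k ≤ g := Nat.find_min' hex (hlarge _ (by rw [h93fc_degree_add hB, hD₀, zero_add]))
  -- the previous space is zero
  have hprev : riemannRochSpace ((D₀ : Divisor K F) + Finsupp.single P₀ ((k : ℤ) - 1)) = ⊥ := by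
    rcases Nat.eq_zero_or_pos k with h0 | hpos
    · apply hneg
      rw [h93fc_degree_add hB, hD₀, h0]
      norm_num
    · have hlt : k - 1 < k := by omega
      have := Nat.find_min hex hlt
      rw [not_not] at this
      have hcast : ((k - 1 : ℕ) : ℤ) = (k : ℤ) - 1 := by
        rw [Nat.cast_sub hpos]; simp
      rwa [hcast] at this
  -- `ℓ(D₀ + k P₀) = 1`
  have hl1 : h13rL K F ((D₀ : Divisor K F) + Finsupp.single P₀ (k : ℤ)) = 1 := by
    have hle := hstep ((D₀ : Divisor K F) + Finsupp.single P₀ ((k : ℤ) - 1)) P₀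
    have he : (D₀ : Divisor K F) + Finsupp.single P₀ ((k : ℤ) - 1) + Finsupp.single P₀ 1 =
        (D₀ : Divisor K F) + Finsupp.single P₀ (k : ℤ) := by
      rw [add_assoc, ← Finsupp.single_add]
      congr 2
      ring
    rw [he] at hle
    have h0 : h13rL K F ((D₀ : Divisor K F) + Finsupp.single P₀ ((k : ℤ) - 1)) = 0 := by
      unfold h13rL
      rw [hprev]
      exact finrank_bot K F
    rw [h0, zero_add] at hle
    have hpos : 0 < h13rL K F ((D₀ : Divisor K F) + Finsupp.single P₀ (k : ℤ)) := by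
      unfold h13rL
      haveI := hfin ((D₀ : Divisor K F) + Finsupp.single P₀ (k : ℤ))
      rw [Module.finrank_pos_iff]
      exact (Submodule.nontrivial_iff_ne_bot).mpr hkne
    omega
  -- a nonzero function
  obtain ⟨f, hfmem, hf0⟩ := Submodule.exists_mem_ne_zero_of_ne_bot hkne
  obtain ⟨Df, hDf, hDfdeg⟩ := hB.pd f hf0
  set E : Divisor K F := (D₀ : Divisor K F) + Finsupp.single P₀ (k : ℤ) + Df with hEdef
  have hEv : ∀ v, E v = ((D₀ : Divisor K F) + Finsupp.single P₀ (k : ℤ)) v + v.ord f := by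
    intro v
    rw [hEdef, Finsupp.add_apply, hDf v]
  have hE0 : 0 ≤ E := by
    intro v
    rw [hEv v]
    rw [mem_riemannRochSpace_iff] at hfmem
    rcases hfmem v with h0 | h1
    · exact absurd h0 hf0
    · simp only [Finsupp.coe_zero, Pi.zero_apply]
      omega
  have hEdeg : Divisor.degree E = k := by
    rw [hEdef, map_add, h93fc_degree_add hB, hD₀, hDfdeg]
    ring
  have hEl : h13rL K F E = 1 := by
    rw [hinv _ E f hf0 hEv]
    exact hl1
  have hEmem : E - Finsupp.single P₀ (k : ℤ) ∈ Divisor.degZero (K := K) (F := F) := by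
    rw [Divisor.mem_degZero, map_sub, hEdeg, Divisor.degree_single, hB.deg_one P₀]
    simp
  have hxE : Pic0.mk D₀ = Pic0.mk ⟨E - Finsupp.single P₀ (k : ℤ), hEmem⟩ := by
    have hsub : Pic0.mk (⟨E - Finsupp.single P₀ (k : ℤ), hEmem⟩ - D₀) = 0 := by
      rw [Fermat.Agent.Jac.K1.pic0_mk_eq_zero_iff]
      refine ⟨f, hf0, fun v => ?_⟩
      rw [AddSubgroup.coe_sub, Finsupp.sub_apply]
      show (E - Finsupp.single P₀ (k : ℤ)) v - (D₀ : Divisor K F) v = v.ord f
      rw [Finsupp.sub_apply, hEv v, Finsupp.add_apply]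
      ring
    have h2 : Pic0.mk (⟨E - Finsupp.single P₀ (k : ℤ), hEmem⟩ - D₀) =
        Pic0.mk ⟨E - Finsupp.single P₀ (k : ℤ), hEmem⟩ - Pic0.mk D₀ := rfl
    rw [h2, sub_eq_zero] at hsub
    exact hsub.symm
  refine ⟨k, E, hEmem, hkg, hE0, hEdeg, hxE, fun s hsP hsx => ?_⟩
  -- `s • E` is effective and linearly equivalent to `E`
  have hsE0 : 0 ≤ s • E := by
    intro v
    rw [SemilinearAut.divisor_smul_apply]
    exact hE0 _
  rw [hxE, SemilinearAut.pic0_smul_mk] at hsx
  have hsub : Pic0.mk (SemilinearAut.degZeroSMulHom s ⟨E - Finsupp.single P₀ (k : ℤ), hEmem⟩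
      - ⟨E - Finsupp.single P₀ (k : ℤ), hEmem⟩) = 0 := by
    have h2 : Pic0.mk (SemilinearAut.degZeroSMulHom s ⟨E - Finsupp.single P₀ (k : ℤ), hEmem⟩
      - ⟨E - Finsupp.single P₀ (k : ℤ), hEmem⟩) =
        Pic0.mk (SemilinearAut.degZeroSMulHom s ⟨E - Finsupp.single P₀ (k : ℤ), hEmem⟩) -
          Pic0.mk ⟨E - Finsupp.single P₀ (k : ℤ), hEmem⟩ := rfl
    rw [h2, hsx, sub_self]
  rw [Fermat.Agent.Jac.K1.pic0_mk_eq_zero_iff] at hsub
  obtain ⟨h, hh0, hh⟩ := hsub
  refine h93fc_unique hE0 hsE0 hEl h hh0 fun v => ?_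
  have h3 := hh v
  rw [AddSubgroup.coe_sub, Finsupp.sub_apply, SemilinearAut.coe_degZeroSMulHom] at h3
  have h4 : (s • (E - Finsupp.single P₀ (k : ℤ))) v = (s • E) v - (Finsupp.single P₀ (k : ℤ)) v := by
    rw [smul_sub, SemilinearAut.smul_single, hsP, Finsupp.sub_apply]
  have h5 : ((⟨E - Finsupp.single P₀ (k : ℤ), hEmem⟩ : Divisor.degZero (K := K) (F := F)) :
      Divisor K F) v = E v - (Finsupp.single P₀ (k : ℤ)) v := by
    show (E - Finsupp.single P₀ (k : ℤ)) v = _
    rw [Finsupp.sub_apply]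
  rw [h5] at h3
  have h6 : (s • ((⟨E - Finsupp.single P₀ (k : ℤ), hEmem⟩ : Divisor.degZero (K := K) (F := F)) :
      Divisor K F)) v = (s • E) v - (Finsupp.single P₀ (k : ℤ)) v := h4
  rw [h6] at h3
  omega

end Fermat.Agent.P7
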