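import Mathlib

/-!
# Wave 7 (S40), block (A), row T-ABEL-KILL, leaf FIN-RED / DEG (helper93), Mathlib only

`K` an algebraic closure of `ℚ`, `A` a valuation subring of `K` with `p ∈ 𝔪_A`.

* `h93fd_natDegree_le` : if all the conjugates of `a` under `Gal(K / L)` lie in a finite set `s`,
  then `deg_ℚ a ≤ #s · [L : ℚ]`.
* `h93fd_res_finite` : the elements of `A` of degree `≤ d` over `ℚ` have finitely many residues
  modulo `𝔪_A`.
* `h93fd_fin` : the elements of `A` with at most `g` conjugates under `Gal(K / L)`, `L / ℚ` finite,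
  have finitely many residues modulo `𝔪_A`.
-/

set_option autoImplicit false
set_option linter.style.haveILetI false
set_option linter.unusedSectionVars false
set_option linter.unusedVariables false

open Polynomial

noncomputable section

namespace Fermat.Agent.P7

section Conj

variable {K : Type*} [Field K] [Algebra ℚ K] [IsAlgClosed K] [Algebra.IsAlgebraic ℚ K]

/-- the degree over `L` is bounded by the number of conjugates. -/
theorem h93fd_natDegree_minpoly_le (L : IntermediateField ℚ K) (a : K) (s : Finset K)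
    (hs : ∀ σ : K ≃ₐ[ℚ] K, (∀ y ∈ L, σ y = y) → σ a ∈ s) :
    (minpoly L a).natDegree ≤ s.card := by
  classical
  haveI : CharZero K := algebraRat.charZero K
  haveI halg : Algebra.IsAlgebraic L K := Algebra.IsAlgebraic.tower_top (K := ℚ) L
  haveI : IsAlgClosure L K := ⟨inferInstance, halg⟩
  haveI : Normal L K := IsAlgClosure.normal L K
  have hint : IsIntegral L a := (halg.isAlgebraic a).isIntegral
  have hirr : Irreducible (minpoly L a) := minpoly.irreducible hint
  haveI : CharZero L := charZero_of_injective_algebraMap (algebraMap ℚ L).injective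
  have hsep : (minpoly L a).Separable := hirr.separable
  have hcard : ((minpoly L a).aroots K).card = (minpoly L a).natDegree :=
    IsAlgClosed.card_aroots_eq_natDegree
  have hnodup : ((minpoly L a).aroots K).Nodup := by
    unfold Polynomial.aroots
    exact nodup_roots hsep.map
  have hsub : ((minpoly L a).aroots K).toFinset ⊆ s := by
    intro r hr
    rw [Multiset.mem_toFinset, Polynomial.mem_aroots] at hr
    obtain ⟨σ, hσ⟩ := minpoly.exists_algEquiv_of_root' (halg.isAlgebraic a) hr.2
    have h1 := hs (σ.restrictScalars ℚ) (fun y hy => by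
      have := σ.commutes (⟨y, hy⟩ : L)
      simpa using this)
    rw [← hσ]
    exact h1
  calc (minpoly L a).natDegree = ((minpoly L a).aroots K).card := hcard.symm
    _ = ((minpoly L a).aroots K).toFinset.card := by
        rw [Multiset.toFinset_card_of_nodup hnodup]
    _ ≤ s.card := Finset.card_le_card hsub

/-- two `ℚ`-module structures have the same `finrank`. -/
theorem h93fd_finrank_rat (V : Type*) [AddCommGroup V] (m1 m2 : Module ℚ V) :
    @Module.finrank ℚ V _ _ m1 = @Module.finrank ℚ V _ _ m2 := by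
  have : m1 = m2 := Subsingleton.elim _ _
  rw [this]

/-- the degree over `ℚ` is bounded by `[L : ℚ]` times the degree over `L`. -/
theorem h93fd_natDegree_tower (L : IntermediateField ℚ K) [FiniteDimensional ℚ L] (a : K) (n : ℕ)
    (h1 : (minpoly L a).natDegree ≤ n) :
    (minpoly ℚ a).natDegree ≤ n * Module.finrank ℚ L := by
  classical
  haveI halg : Algebra.IsAlgebraic L K := Algebra.IsAlgebraic.tower_top (K := ℚ) L
  have hint : IsIntegral L a := (halg.isAlgebraic a).isIntegral
  let E : IntermediateField L K := IntermediateField.adjoin L {a}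
  have hE : Module.finrank L E = (minpoly L a).natDegree := IntermediateField.adjoin.finrank hint
  haveI : FiniteDimensional L E := IntermediateField.adjoin.finiteDimensional hint
  have hfinE : Module.Finite ℚ E := Module.Finite.trans L E
  have hmul : Module.finrank ℚ L * Module.finrank L E = Module.finrank ℚ E :=
    Module.finrank_mul_finrank ℚ L E
  have haE : a ∈ E := IntermediateField.mem_adjoin_simple_self L a
  have hfinE' : @Module.Finite ℚ E _ _ Algebra.toModule := by
    have : (E.module' : Module ℚ E) = Algebra.toModule := Subsingleton.elim _ _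
    rw [← this]
    exact hfinE
  have h2 : (minpoly ℚ (⟨a, haE⟩ : E)).natDegree ≤ @Module.finrank ℚ E _ _ Algebra.toModule :=
    minpoly.natDegree_le (A := ℚ) (B := E) ⟨a, haE⟩
  rw [h93fd_finrank_rat E Algebra.toModule E.module'] at h2
  have h3 : minpoly ℚ (⟨a, haE⟩ : E) = minpoly ℚ a := by
    have := minpoly.algebraMap_eq (A := ℚ) (B := E) (B' := K) (algebraMap E K).injective ⟨a, haE⟩
    exact this.symm
  rw [h3, ← hmul, hE] at h2
  calc (minpoly ℚ a).natDegree ≤ Module.finrank ℚ L * (minpoly L a).natDegree := h2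
    _ ≤ Module.finrank ℚ L * n := Nat.mul_le_mul_left _ h1
    _ = n * Module.finrank ℚ L := Nat.mul_comm _ _

/-- the degree over `ℚ` is bounded by `#s · [L : ℚ]`. -/
theorem h93fd_natDegree_le (L : IntermediateField ℚ K) [FiniteDimensional ℚ L] (a : K)
    (s : Finset K) (hs : ∀ σ : K ≃ₐ[ℚ] K, (∀ y ∈ L, σ y = y) → σ a ∈ s) :
    (minpoly ℚ a).natDegree ≤ s.card * Module.finrank ℚ L :=
  h93fd_natDegree_tower L a s.card (h93fd_natDegree_minpoly_le L a s hs)

/-- a primitive integer polynomial of the degree of the minimal polynomial. -/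
theorem h93fd_exists_primitive (a : K) :
    ∃ Q : ℤ[X], Q.IsPrimitive ∧ Q.natDegree ≤ (minpoly ℚ a).natDegree ∧
      Polynomial.aeval a Q = 0 := by
  haveI : CharZero K := algebraRat.charZero K
  have hint : IsIntegral ℚ a := (Algebra.IsAlgebraic.isAlgebraic (R := ℚ) a).isIntegral
  have h0 : minpoly ℚ a ≠ 0 := minpoly.ne_zero hint
  set Q₀ : ℤ[X] := IsLocalization.integerNormalization (nonZeroDivisors ℤ) (minpoly ℚ a) with hQ₀
  have hQ₀0 : Q₀ ≠ 0 := fun h => h0 (IsFractionRing.integerNormalization_eq_zero_iff.mp h)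
  have hQ₀a : Polynomial.aeval a Q₀ = 0 :=
    IsLocalization.integerNormalization_aeval_eq_zero (nonZeroDivisors ℤ) (minpoly ℚ a)
      (minpoly.aeval ℚ a)
  have hdeg : Q₀.natDegree ≤ (minpoly ℚ a).natDegree := by
    rw [Polynomial.natDegree_le_iff_coeff_eq_zero]
    intro i hi
    by_contra hne
    have hmem : i ∈ Q₀.support := Polynomial.mem_support_iff.mpr hne
    have hmem2 := IsLocalization.integerNormalization_support (nonZeroDivisors ℤ) (minpoly ℚ a) hmem
    have := Polynomial.le_natDegree_of_mem_supp i hmem2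
    omega
  refine ⟨Q₀.primPart, Polynomial.isPrimitive_primPart Q₀, ?_, ?_⟩
  · rw [Polynomial.natDegree_primPart]
    exact hdeg
  · exact Polynomial.aeval_primPart_eq_zero hQ₀0 hQ₀a

end Conj

section Res


/-- polynomials of bounded degree over `ZMod p` form a finite set. -/
theorem h93fd_poly_finite (p : ℕ) [Fact p.Prime] (d : ℕ) :
    Set.Finite {P : (ZMod p)[X] | P.natDegree ≤ d} := by
  haveI : Finite ↥(Polynomial.degreeLT (ZMod p) (d + 1)) :=
    Finite.of_equiv _ (Polynomial.degreeLTEquiv (ZMod p) (d + 1)).symm.toEquiv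
  have h : ((Polynomial.degreeLT (ZMod p) (d + 1) : Submodule (ZMod p) (ZMod p)[X]) :
      Set (ZMod p)[X]).Finite := Set.toFinite _
  refine h.subset fun P hP => ?_
  rw [SetLike.mem_coe, Polynomial.mem_degreeLT]
  calc P.degree ≤ (P.natDegree : WithBot ℕ) := Polynomial.degree_le_natDegree
    _ ≤ (d : WithBot ℕ) := by exact_mod_cast hP
    _ < ((d + 1 : ℕ) : WithBot ℕ) := by exact_mod_cast Nat.lt_succ_self d

/-- roots of nonzero polynomials of bounded degree with coefficients in the prime field. -/
theorem h93fd_roots_finite (p : ℕ) [Fact p.Prime] (k : Type*) [Field k] [Algebra (ZMod p) k]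
    (d : ℕ) :
    Set.Finite {x : k | ∃ P : (ZMod p)[X], P ≠ 0 ∧ P.natDegree ≤ d ∧
      (P.map (algebraMap (ZMod p) k)).eval x = 0} := by
  classical
  have h1 := h93fd_poly_finite p d
  have h2 : Set.Finite (⋃ P ∈ {P : (ZMod p)[X] | P.natDegree ≤ d},
      {x : k | P ≠ 0 ∧ (P.map (algebraMap (ZMod p) k)).eval x = 0}) := by
    refine Set.Finite.biUnion h1 fun P _ => ?_
    by_cases hP : P = 0
    · have : {x : k | P ≠ 0 ∧ (P.map (algebraMap (ZMod p) k)).eval x = 0} = ∅ := by
        ext x
        simp [hP]
      rw [this]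
      exact Set.finite_empty
    · have hP' : P.map (algebraMap (ZMod p) k) ≠ 0 := Polynomial.map_ne_zero hP
      refine ((P.map (algebraMap (ZMod p) k)).roots.toFinset.finite_toSet).subset fun x hx => ?_
      rw [Finset.mem_coe, Multiset.mem_toFinset, Polynomial.mem_roots hP']
      exact hx.2
  refine h2.subset fun x hx => ?_
  obtain ⟨P, hP0, hPd, hPx⟩ := hx
  rw [Set.mem_iUnion₂]
  exact ⟨P, hPd, hP0, hPx⟩

variable {K : Type*} [Field K]

/-- elements of `A` killed by a primitive integer polynomial of degree `≤ d` have finitely many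
residues. -/
theorem h93fd_res_finite (A : ValuationSubring K) (p : ℕ) (hp : p.Prime)
    (hA : (p : K) ∈ A.nonunits) (d : ℕ) :
    ∃ T : Finset K, (∀ b ∈ T, b ∈ A) ∧ ∀ a ∈ A,
      (∃ Q : ℤ[X], Q.IsPrimitive ∧ Q.natDegree ≤ d ∧ Polynomial.aeval a Q = 0) →
        ∃ b ∈ T, a - b ∈ A.nonunits := by
  classical
  haveI : Fact p.Prime := ⟨hp⟩
  -- the residue field has characteristic `p`
  have hpk : ((p : ℕ) : IsLocalRing.ResidueField A) = 0 := by
    obtain ⟨hpA, hpm⟩ := ValuationSubring.mem_nonunits_iff_exists_mem_maximalIdeal.mp hA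
    have h1 : IsLocalRing.residue A ⟨(p : K), hpA⟩ = 0 :=
      (IsLocalRing.residue_eq_zero_iff _).mpr hpm
    have h2 : (⟨(p : K), hpA⟩ : A) = ((p : ℕ) : A) := by
      apply Subtype.ext
      simp
    rw [h2, map_natCast] at h1
    exact h1
  haveI : CharP (IsLocalRing.ResidueField A) p :=
    (CharP.charP_iff_prime_eq_zero hp).mpr hpk
  letI : Algebra (ZMod p) (IsLocalRing.ResidueField A) := ZMod.algebra _ p
  have hfin := h93fd_roots_finite p (IsLocalRing.ResidueField A) d
  -- lifts
  have hlift : ∀ x : IsLocalRing.ResidueField A, ∃ b : A, IsLocalRing.residue A b = x :=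
    fun x => IsLocalRing.residue_surjective x
  choose lift hlift' using hlift
  refine ⟨hfin.toFinset.image (fun x => ((lift x : A) : K)), ?_, ?_⟩
  · intro b hb
    rw [Finset.mem_image] at hb
    obtain ⟨x, _, rfl⟩ := hb
    exact (lift x).2
  · rintro a ha ⟨Q, hQprim, hQd, hQa⟩
    -- the residue of `a` is a root of `Q mod p`
    set x := IsLocalRing.residue A ⟨a, ha⟩ with hx
    have hxmem : x ∈ {x : IsLocalRing.ResidueField A | ∃ P : (ZMod p)[X], P ≠ 0 ∧
        P.natDegree ≤ d ∧ (P.map (algebraMap (ZMod p) (IsLocalRing.ResidueField A))).eval x = 0} := by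
      refine ⟨Q.map (Int.castRingHom (ZMod p)), ?_, ?_, ?_⟩
      · intro h0
        have hdvd : ∀ i, (p : ℤ) ∣ Q.coeff i := by
          intro i
          have := congrArg (fun P => Polynomial.coeff P i) h0
          simp only [Polynomial.coeff_map, Polynomial.coeff_zero, eq_intCast] at this
          exact (ZMod.intCast_zmod_eq_zero_iff_dvd _ p).mp this
        have hC : (Polynomial.C (p : ℤ)) ∣ Q := (Polynomial.C_dvd_iff_dvd_coeff _ _).mpr hdvd
        have hu := hQprim (p : ℤ) hC
        have := Int.isUnit_iff.mp hu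
        rcases this with h | h
        · have : (p : ℤ) = 1 := h
          have hp1 : p = 1 := by exact_mod_cast this
          exact hp.one_lt.ne' hp1
        · have hp0 : (0 : ℤ) ≤ p := Int.natCast_nonneg p
          omega
      · exact (Polynomial.natDegree_map_le).trans hQd
      · rw [Polynomial.map_map]
        have hhom : (algebraMap (ZMod p) (IsLocalRing.ResidueField A)).comp
            (Int.castRingHom (ZMod p)) = Int.castRingHom (IsLocalRing.ResidueField A) :=
          RingHom.ext_int _ _
        rw [hhom]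
        have hQA : Polynomial.aeval (⟨a, ha⟩ : A) Q = 0 := by
          apply Subtype.ext
          have := Polynomial.aeval_algebraMap_apply K (⟨a, ha⟩ : A) Q
          have h2 : algebraMap A K (⟨a, ha⟩ : A) = a := rfl
          rw [h2, hQa] at this
          have h3 : algebraMap A K (Polynomial.aeval (⟨a, ha⟩ : A) Q) =
              ((Polynomial.aeval (⟨a, ha⟩ : A) Q : A) : K) := rfl
          rw [← h3, ← this]
          rfl
        have := congrArg (IsLocalRing.residue A) hQA
        rw [map_zero, Polynomial.aeval_def, Polynomial.hom_eval₂] at this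
        rw [Polynomial.eval_map]
        have hhom2 : (IsLocalRing.residue A).comp (algebraMap ℤ A) =
            Int.castRingHom (IsLocalRing.ResidueField A) := RingHom.ext_int _ _
        rw [hhom2] at this
        exact this
    refine ⟨((lift x : A) : K), ?_, ?_⟩
    · rw [Finset.mem_image]
      exact ⟨x, hfin.mem_toFinset.mpr hxmem, rfl⟩
    · rw [ValuationSubring.mem_nonunits_iff_exists_mem_maximalIdeal]
      refine ⟨A.sub_mem ha (lift x).2, ?_⟩
      have h1 : (⟨a - (lift x : A), A.sub_mem ha (lift x).2⟩ : A) = ⟨a, ha⟩ - lift x := rfl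
      rw [h1, ← IsLocalRing.residue_eq_zero_iff, map_sub, hlift' x, sub_self]


end Res

/-- **FIN-RED, leaf DEG.**  The elements of `A` with at most `g` conjugates under `Gal(K / L)`
have finitely many residues modulo `𝔪_A`. -/
theorem h93fd_fin {K : Type*} [Field K] [Algebra ℚ K] [IsAlgClosed K] [Algebra.IsAlgebraic ℚ K]
    (A : ValuationSubring K) (p : ℕ) (hp : p.Prime) (hA : (p : K) ∈ A.nonunits)
    (L : IntermediateField ℚ K) [FiniteDimensional ℚ L] (g : ℕ) :
    ∃ T : Finset K, (∀ b ∈ T, b ∈ A) ∧ ∀ a ∈ A,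
      (∃ s : Finset K, s.card ≤ g ∧ ∀ σ : K ≃ₐ[ℚ] K, (∀ y ∈ L, σ y = y) → σ a ∈ s) →
        ∃ b ∈ T, a - b ∈ A.nonunits := by
  obtain ⟨T, hT, hT'⟩ := h93fd_res_finite A p hp hA (g * Module.finrank ℚ L)
  refine ⟨T, hT, fun a ha hs => hT' a ha ?_⟩
  obtain ⟨s, hsg, hs⟩ := hs
  obtain ⟨Q, hQ, hQd, hQa⟩ := h93fd_exists_primitive a
  refine ⟨Q, hQ, hQd.trans ((h93fd_natDegree_le L a s hs).trans ?_), hQa⟩
  exact Nat.mul_le_mul_right _ hsg

end Fermat.Agent.P7
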