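import Fermat.Agent.P7.H93FinCanon
import Fermat.Agent.P7.H93FinDeg
import Fermat.Agent.P7.H93Kill
import Fermat.Agent.S36.H17Desc
import Fermat.Agent.S37.Inertia
import Fermat.Agent.Red.MatchLoc
import Fermat.Agent.P5.H40RRInst
import Fermat.Agent.P5.H13RRPackage

/-!
# Wave 7 (S40), block (A), row T-ABEL-KILL, leaf FIN-RED (helper93): assembly

`M` a level, `A` a valuation subring of `ℚ̄` over `p`.  Input (F4, helper69, row T-ABEL-FIN-F4):

* `(fin)` for every `a ∈ A` there is a finite set of places meeting every `SameRed`-class of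
  places `v` with `j(v) ≡ a` modulo `𝔪_A`;
* `(inf)` there is a finite set of places meeting every `SameRed`-class of non-finite places.

Output:

* `h93f_finite` : for every `y ∈ J₀(M)` the image in `J₀(M) ⧸ redKerPic M A` of the classes fixed
  by the stabiliser of `y` in `G_ℚ` is FINITE;
* `h93f_hfin` : the hypothesis `hfin` of the KILL lemma `h93k_kill` (`P7/H93Kill.lean`).

Proof: `y` and a base place `P₀` are fixed by `Gal(ℚ̄ / L)`, `L / ℚ` finite.  A class `w` fixed by
`Gal(ℚ̄ / L)` is `[E - k P₀]` with `E ≥ 0` of degree `k ≤ g` CANONICAL (`h93fc_canon`), hence `E`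
is fixed by `Gal(ℚ̄ / L)`; so every point `v` of `E` has at most `g` conjugates, `j(v)` has at
most `g` conjugates over `L`, and the residue of `j(v)` lies in a finite set (`h93fd_fin`).  By
(F4) the points of `E` reduce into a finite set `S` of classes, and `w ≡ [E' - k P₀]` modulo
`redKerPic` with `E' ≥ 0` of degree `≤ g` supported in `S`: finitely many possibilities.
-/

set_option autoImplicit false
set_option linter.style.haveILetI false
set_option linter.unusedSectionVars false
set_option linter.unusedVariables false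

open AlgebraicCurve ModularCurve

noncomputable section

namespace Fermat.Agent.P7

open Fermat.Agent.S37 Fermat.Agent.P5

section Abstract

variable {K F : Type*} [Field K] [Field F] [Algebra K F]

/-- the degree is the sum of the coefficients when all places have degree one. -/
theorem h93f_degree_eq (hdeg : ∀ v : Place K F, v.deg = 1) (D : Divisor K F) :
    Divisor.degree D = ∑ v ∈ D.support, D v := by
  unfold Divisor.degree
  rw [Finsupp.liftAddHom_apply, Finsupp.sum]
  refine Finset.sum_congr rfl fun v _ => ?_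
  simp [hdeg v]

theorem h93f_apply_nonneg {D : Divisor K F} (hD : 0 ≤ D) (v : Place K F) : 0 ≤ D v := by
  have := hD v
  simpa using this

theorem h93f_le_degree (hdeg : ∀ v : Place K F, v.deg = 1) {D : Divisor K F} (hD : 0 ≤ D)
    (v : Place K F) : D v ≤ Divisor.degree D := by
  classical
  rw [h93f_degree_eq hdeg]
  by_cases hv : v ∈ D.support
  · exact Finset.single_le_sum (f := fun v => D v) (fun u _ => h93f_apply_nonneg hD u) hv
  · rw [Finsupp.notMem_support_iff.mp hv]
    exact Finset.sum_nonneg fun u _ => h93f_apply_nonneg hD u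

theorem h93f_card_support_le (hdeg : ∀ v : Place K F, v.deg = 1) {D : Divisor K F}
    (hD : 0 ≤ D) : (D.support.card : ℤ) ≤ Divisor.degree D := by
  classical
  rw [h93f_degree_eq hdeg]
  have h1 : (D.support.card : ℤ) = ∑ v ∈ D.support, (1 : ℤ) := by simp
  rw [h1]
  refine Finset.sum_le_sum fun v hv => ?_
  have h2 := h93f_apply_nonneg hD v
  have h3 : D v ≠ 0 := Finsupp.mem_support_iff.mp hv
  omega

theorem h93f_degree_mapDomain (hdeg : ∀ v : Place K F, v.deg = 1)
    (ρ : Place K F → Place K F) (D : Divisor K F) :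
    Divisor.degree (Finsupp.mapDomain ρ D) = Divisor.degree D := by
  classical
  induction D using Finsupp.induction_linear with
  | zero => simp
  | add D E hD hE => rw [Finsupp.mapDomain_add, map_add, map_add, hD, hE]
  | single v n =>
    rw [Finsupp.mapDomain_single, Divisor.degree_single, Divisor.degree_single, hdeg, hdeg]

theorem h93f_mapDomain_nonneg (ρ : Place K F → Place K F) {D : Divisor K F} (hD : 0 ≤ D) :
    0 ≤ Finsupp.mapDomain ρ D := by
  classical
  intro w
  rw [Finsupp.mapDomain, Finsupp.sum, Finsupp.finsetSum_apply]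
  refine Finset.sum_nonneg fun v _ => ?_
  rw [Finsupp.single_apply]
  split_ifs
  · exact h93f_apply_nonneg hD v
  · exact le_rfl

/-- finitely many effective divisors of bounded degree supported in a finite set. -/
theorem h93f_finite_divisors (hdeg : ∀ v : Place K F, v.deg = 1) (S : Finset (Place K F))
    (g : ℕ) :
    Set.Finite {D : Divisor K F | 0 ≤ D ∧ D.support ⊆ S ∧ Divisor.degree D ≤ g} := by
  classical
  let f : Divisor K F → (S → Fin (g + 1)) := fun D s =>
    ⟨min (D s.1).toNat g, by omega⟩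
  have himg : (f '' {D : Divisor K F | 0 ≤ D ∧ D.support ⊆ S ∧ Divisor.degree D ≤ g}).Finite :=
    Set.finite_univ.subset (Set.subset_univ _)
  refine Set.Finite.of_finite_image himg ?_
  rintro D ⟨hD0, hDS, hDg⟩ D' ⟨hD'0, hD'S, hD'g⟩ hff
  ext v
  by_cases hv : v ∈ S
  · have h1 := congrFun hff ⟨v, hv⟩
    have h2 : min (D v).toNat g = min (D' v).toNat g := by
      have := congrArg Fin.val h1
      exact this
    have h3 := h93f_apply_nonneg hD0 v
    have h4 := h93f_apply_nonneg hD'0 v
    have h5 := (h93f_le_degree hdeg hD0 v).trans hDg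
    have h6 := (h93f_le_degree hdeg hD'0 v).trans hD'g
    omega
  · have h1 : D v = 0 := by
      by_contra h
      exact hv (hDS (Finsupp.mem_support_iff.mpr h))
    have h2 : D' v = 0 := by
      by_contra h
      exact hv (hD'S (Finsupp.mem_support_iff.mpr h))
    rw [h1, h2]

end Abstract

section Level

variable {M : ℕ} [NeZero M]

/-- replacing every place by a place with the same reduction does not change the divisor
modulo `redKer`. -/
theorem h93f_sub_mapDomain_mem (A : ValuationSubring Kbar)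
    (ρ : Place Kbar (FF M) → Place Kbar (FF M)) (hρ : ∀ v, SameRed A v (ρ v))
    (D : Divisor Kbar (FF M)) : D - Finsupp.mapDomain ρ D ∈ redKer M A := by
  classical
  induction D using Finsupp.induction_linear with
  | zero =>
    rw [Finsupp.mapDomain_zero, sub_zero]
    exact (redKer M A).zero_mem
  | add D E hD hE =>
    rw [Finsupp.mapDomain_add]
    have h := (redKer M A).add_mem hD hE
    have e : D + E - (Finsupp.mapDomain ρ D + Finsupp.mapDomain ρ E) =
        D - Finsupp.mapDomain ρ D + (E - Finsupp.mapDomain ρ E) := by abel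
    rw [e]
    exact h
  | single v n =>
    rw [Finsupp.mapDomain_single]
    have h1 : (Finsupp.single v n : Divisor Kbar (FF M)) - Finsupp.single (ρ v) n =
        n • (Finsupp.single v (1 : ℤ) - Finsupp.single (ρ v) (1 : ℤ)) := by
      rw [smul_sub, Finsupp.smul_single, Finsupp.smul_single, smul_eq_mul, mul_one]
    rw [h1]
    exact (redKer M A).zsmul_mem (single_sub_single_mem_redKer (hρ v)) n

/-- **FIN-RED.**  The image in `J₀(M) ⧸ redKerPic M A` of the classes fixed by the stabiliser of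
`y` is finite. -/
theorem h93f_finite {p : ℕ} (hp : p.Prime) (A : ValuationSubring Kbar)
    (hA : A.LiesOverPrime p)
    (hfin : ∀ a ∈ A, ∃ S : Finset (Place Kbar (FF M)), ∀ v : Place Kbar (FF M),
      (∃ b ∈ A, ValueAt v (jB M) b ∧ b - a ∈ A.nonunits) → ∃ w ∈ S, SameRed A v w)
    (hinf : ∃ S : Finset (Place Kbar (FF M)), ∀ v : Place Kbar (FF M),
      ¬ IsFinAt A v → ∃ w ∈ S, SameRed A v w)
    (y : JZero M) :
    Set.Finite ((fun w : JZero M => (QuotientAddGroup.mk w : JZero M ⧸ redKerPic M A)) ''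
      {w : JZero M | ∀ σ : GQ, σ • y = y → σ • w = w}) := by
  classical
  have hB := h40r_base_FF M
  obtain ⟨g, -, ⟨hfinL, hstep, hneg, -⟩, ⟨-, hlarge⟩, -, -, hinv⟩ :=
    h13r_package hB (jB M) (h40r_transcendental_FF M) (h40r_finite_FF M) (h40r_zeros_FF M)
  haveI := hB.infinite
  obtain ⟨P₀⟩ : Nonempty (Place Kbar (FF M)) := inferInstance
  -- the field `L`
  obtain ⟨D₀, hD₀⟩ := Pic0.mk_surjective y
  obtain ⟨L₁, hL₁fin, hL₁⟩ :=
    Fermat.Agent.S36.h17d_exists_field_divisor (D₀ : Divisor Kbar (FF M))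
  obtain ⟨L₂, hL₂fin, hL₂⟩ := Fermat.Agent.Jac.openStab M P₀
  haveI : FiniteDimensional ℚ ↥(L₁ ⊔ L₂) := IntermediateField.finiteDimensional_sup L₁ L₂
  have hLy : ∀ σ : GQ, (∀ z ∈ L₁ ⊔ L₂, σ z = z) → σ • y = y := by
    intro σ hσ
    have h1 := hL₁ σ (fun z hz => hσ z ((le_sup_left : L₁ ≤ L₁ ⊔ L₂) hz))
    rw [galois_smul_pic0_def, ← hD₀, SemilinearAut.pic0_smul_mk]
    congr 1
    apply Subtype.ext
    rw [SemilinearAut.coe_degZeroSMulHom]
    exact h1
  have hLP : ∀ σ : GQ, (∀ z ∈ L₁ ⊔ L₂, σ z = z) → gal M σ • P₀ = P₀ :=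
    fun σ hσ => hL₂ σ (fun z hz => hσ z ((le_sup_right : L₂ ≤ L₁ ⊔ L₂) hz))
  -- the finite set of residues and the finite set of places
  haveI : Algebra.IsAlgebraic ℚ Kbar := AlgebraicClosure.isAlgebraic ℚ
  obtain ⟨T, hTA, hT⟩ := h93fd_fin A p hp hA (L₁ ⊔ L₂) g
  obtain ⟨Sinf, hSinf⟩ := hinf
  choose Sfin hSfin using hfin
  set S : Finset (Place Kbar (FF M)) :=
    Sinf ∪ T.attach.biUnion (fun b => Sfin b.1 (hTA b.1 b.2)) with hS
  -- the value of `j`
  let val : Place Kbar (FF M) → Kbar := fun v =>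
    if h : ∃ c, ValueAt v (jB M) c then h.choose else 0
  have hval : ∀ v c, ValueAt v (jB M) c → val v = c := by
    intro v c hc
    have h : ∃ c, ValueAt v (jB M) c := ⟨c, hc⟩
    show (if h : ∃ c, ValueAt v (jB M) c then h.choose else 0) = c
    rw [dif_pos h]
    exact Fermat.Agent.Red.Match.valueAt_unique h.choose_spec hc
  -- representatives
  let ρ : Place Kbar (FF M) → Place Kbar (FF M) := fun v =>
    if h : ∃ s ∈ S, SameRed A v s then h.choose else v
  have hρ : ∀ v, SameRed A v (ρ v) := by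
    intro v
    show SameRed A v (if h : ∃ s ∈ S, SameRed A v s then h.choose else v)
    split_ifs with h
    · exact h.choose_spec.2
    · exact Fermat.Agent.Red.Match.sameRed_refl A v
  have hρS : ∀ v, (∃ s ∈ S, SameRed A v s) → ρ v ∈ S := by
    intro v h
    show (if h : ∃ s ∈ S, SameRed A v s then h.choose else v) ∈ S
    rw [dif_pos h]
    exact h.choose_spec.1
  -- the finite set of divisors
  have h𝒟 := h93f_finite_divisors hB.deg_one S g
  let Ψ : Divisor Kbar (FF M) → JZero M := fun D =>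
    if h : D - Finsupp.single P₀ (Divisor.degree D) ∈ Divisor.degZero (K := Kbar) (F := FF M)
    then Pic0.mk ⟨_, h⟩ else 0
  refine (h𝒟.image (fun D => (QuotientAddGroup.mk (Ψ D) : JZero M ⧸ redKerPic M A))).subset ?_
  rintro _ ⟨w, hw, rfl⟩
  -- canonical form
  obtain ⟨k, E, hE, hkg, hE0, hEdeg, hwE, hEfix⟩ :=
    h93fc_canon hB g hfinL hstep hneg hlarge hinv P₀ w
  have hEfix' : ∀ σ : GQ, (∀ z ∈ L₁ ⊔ L₂, σ z = z) → gal M σ • E = E := by
    intro σ hσ
    exact hEfix (gal M σ) (hLP σ hσ) (hw σ (hLy σ hσ))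
  have hcard : E.support.card ≤ g := by
    have h1 := h93f_card_support_le hB.deg_one hE0
    rw [hEdeg] at h1
    have h2 : E.support.card ≤ k := by exact_mod_cast h1
    omega
  -- every point of `E` reduces into `S`
  have hkey : ∀ v ∈ E.support, ∃ s ∈ S, SameRed A v s := by
    intro v hv
    by_cases hvfin : IsFinAt A v
    · obtain ⟨a, ha, hva⟩ := hvfin
      have hconj : ∃ s : Finset Kbar, s.card ≤ g ∧
          ∀ σ : GQ, (∀ z ∈ L₁ ⊔ L₂, σ z = z) → σ a ∈ s := by
        refine ⟨E.support.image val, Finset.card_image_le.trans hcard, fun σ hσ => ?_⟩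
        rw [Finset.mem_image]
        refine ⟨gal M σ • v, ?_, ?_⟩
        · rw [Finsupp.mem_support_iff] at hv ⊢
          have h1 := SemilinearAut.divisor_smul_apply_smul (gal M σ) E v
          rw [hEfix' σ hσ] at h1
          rw [h1]
          exact hv
        · have h2 := Fermat.Agent.S37.GalI.valueAt_gal σ hva
          rw [Fermat.Agent.S37.GalI.gal_smul_jB] at h2
          exact hval _ _ h2
      obtain ⟨b, hbT, hab⟩ := hT a ha hconj
      obtain ⟨s, hs, hvs⟩ := hSfin b (hTA b hbT) v ⟨a, ha, hva, hab⟩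
      refine ⟨s, ?_, hvs⟩
      rw [hS, Finset.mem_union]
      right
      rw [Finset.mem_biUnion]
      exact ⟨⟨b, hbT⟩, Finset.mem_attach _ _, hs⟩
    · obtain ⟨s, hs, hvs⟩ := hSinf v hvfin
      exact ⟨s, by rw [hS]; exact Finset.mem_union_left _ hs, hvs⟩
  -- the reduced divisor
  have hE'deg : Divisor.degree (Finsupp.mapDomain ρ E) = k := by
    rw [h93f_degree_mapDomain hB.deg_one, hEdeg]
  have hE'mem : Finsupp.mapDomain ρ E ∈
      {D : Divisor Kbar (FF M) | 0 ≤ D ∧ D.support ⊆ S ∧ Divisor.degree D ≤ g} := by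
    refine ⟨h93f_mapDomain_nonneg ρ hE0, ?_, ?_⟩
    · intro s hs
      have h1 := Finsupp.mapDomain_support hs
      rw [Finset.mem_image] at h1
      obtain ⟨v, hv, rfl⟩ := h1
      exact hρS v (hkey v hv)
    · rw [hE'deg]
      exact_mod_cast hkg
  refine ⟨Finsupp.mapDomain ρ E, hE'mem, ?_⟩
  have hmemΨ : Finsupp.mapDomain ρ E -
      Finsupp.single P₀ (Divisor.degree (Finsupp.mapDomain ρ E)) ∈
        Divisor.degZero (K := Kbar) (F := FF M) := by
    rw [Divisor.mem_degZero, map_sub, Divisor.degree_single, hB.deg_one P₀]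
    simp
  have hΨ : Ψ (Finsupp.mapDomain ρ E) = Pic0.mk ⟨Finsupp.mapDomain ρ E -
      Finsupp.single P₀ (Divisor.degree (Finsupp.mapDomain ρ E)), hmemΨ⟩ := by
    show (if h : Finsupp.mapDomain ρ E -
      Finsupp.single P₀ (Divisor.degree (Finsupp.mapDomain ρ E)) ∈
        Divisor.degZero (K := Kbar) (F := FF M) then Pic0.mk ⟨_, h⟩ else 0) = _
    rw [dif_pos hmemΨ]
  show (QuotientAddGroup.mk (Ψ (Finsupp.mapDomain ρ E)) : JZero M ⧸ redKerPic M A) =
    QuotientAddGroup.mk w
  rw [QuotientAddGroup.eq_iff_sub_mem, hΨ, hwE]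
  refine ⟨⟨Finsupp.mapDomain ρ E -
      Finsupp.single P₀ (Divisor.degree (Finsupp.mapDomain ρ E)), hmemΨ⟩ -
        ⟨E - Finsupp.single P₀ (k : ℤ), hE⟩, ?_, rfl⟩
  show (Finsupp.mapDomain ρ E - Finsupp.single P₀ (Divisor.degree (Finsupp.mapDomain ρ E))) -
    (E - Finsupp.single P₀ (k : ℤ)) ∈ redKer M A
  rw [hE'deg]
  have h1 := h93f_sub_mapDomain_mem A ρ hρ E
  have h2 : Finsupp.mapDomain ρ E - Finsupp.single P₀ (k : ℤ) - (E - Finsupp.single P₀ (k : ℤ)) =
      -(E - Finsupp.mapDomain ρ E) := by abel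
  rw [h2]
  exact (redKer M A).neg_mem h1

/-- **the hypothesis `hfin` of the KILL lemma.** -/
theorem h93f_hfin {p : ℕ} (hp : p.Prime) (A : ValuationSubring Kbar)
    (hA : A.LiesOverPrime p)
    (hfin : ∀ a ∈ A, ∃ S : Finset (Place Kbar (FF M)), ∀ v : Place Kbar (FF M),
      (∃ b ∈ A, ValueAt v (jB M) b ∧ b - a ∈ A.nonunits) → ∃ w ∈ S, SameRed A v w)
    (hinf : ∃ S : Finset (Place Kbar (FF M)), ∀ v : Place Kbar (FF M),
      ¬ IsFinAt A v → ∃ w ∈ S, SameRed A v w)
    (y : JZero M) :
    ∃ e : ℕ, ∀ w : JZero M, (∀ σ : GQ, σ • y = y → σ • w = w) →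
      ∀ n : ℕ, p ^ n • (p ^ e • w) ∈ redKerPic M A → p ^ e • w ∈ redKerPic M A :=
  h93k_fin_of_finite (G := GQ) hp (redKerPic M A) y (h93f_finite hp A hA hfin hinf y)

end Level

end Fermat.Agent.P7
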