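import Fermat.Agent.P7.H93FinRed
import Fermat.Agent.P7.H69FinCls

/-!
# Wave 7 (S40), block (A), row T-ABEL-KILL, leaf FIN-RED (helper93): unconditional form

`h93f_finite` (`P7/H93FinRed.lean`) with the input (F4) of helper69 (`P7/H69FinCls.lean`):
at every level `M` prime to `p`, `A` over `p`:

* `h93f_finite_top` : for every `y ∈ J₀(M)` the image in `J₀(M) ⧸ redKerPic M A` of the classes
  fixed by the stabiliser of `y` in `G_ℚ` is finite;
* `h93f_hfin_top` : the hypothesis `hfin` of the KILL lemma `h93k_kill`.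
-/

set_option autoImplicit false

open AlgebraicCurve ModularCurve

noncomputable section

namespace Fermat.Agent.P7

open Fermat.Agent.S37

variable {M : ℕ} [NeZero M]

/-- **FIN-RED, unconditional.** -/
theorem h93f_finite_top {p : ℕ} (hp : p.Prime) (hM : ¬ p ∣ M) (A : ValuationSubring Kbar)
    (hA : A.LiesOverPrime p) (y : JZero M) :
    Set.Finite ((fun w : JZero M => (QuotientAddGroup.mk w : JZero M ⧸ redKerPic M A)) ''
      {w : JZero M | ∀ σ : GQ, σ • y = y → σ • w = w}) :=
  h93f_finite hp A hA (fun _ ha => h69w_finCls M A hp hM hA ha) (h69w_infCls M A hp hM hA) y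

/-- **the hypothesis `hfin` of the KILL lemma, unconditional.** -/
theorem h93f_hfin_top {p : ℕ} (hp : p.Prime) (hM : ¬ p ∣ M) (A : ValuationSubring Kbar)
    (hA : A.LiesOverPrime p) (y : JZero M) :
    ∃ e : ℕ, ∀ w : JZero M, (∀ σ : GQ, σ • y = y → σ • w = w) →
      ∀ n : ℕ, p ^ n • (p ^ e • w) ∈ redKerPic M A → p ^ e • w ∈ redKerPic M A :=
  h93f_hfin hp A hA (fun _ ha => h69w_finCls M A hp hM hA ha) (h69w_infCls M A hp hM hA) y

end Fermat.Agent.P7
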