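import Fermat.Agent.P7.H93FinRedTop

/-!
# Wave 7 (S40/S44), block (A): `J₀(M) ⧸ redKerPic M A` is a torsion group (helper93)

Corollary of FIN-RED (`h93f_finite_top`), at EVERY level `M` and every prime `ℓ ∤ M`
(`A` over `ℓ`; in particular at an auxiliary prime `ℓ ≠ p`):

* `h93f_torsion_top` : for every class `y` there is `n > 0` with `n • y ∈ redKerPic M A`
  (= the hypothesis `htors` of `h73v_divisible`, `P7/H73Div.lean`);
* `h93f_torsion_quot` : every element of `J₀(M) ⧸ redKerPic M A` has finite order.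
-/

set_option autoImplicit false

open AlgebraicCurve ModularCurve

noncomputable section

namespace Fermat.Agent.P7

open Fermat.Agent.S37

variable {M : ℕ} [NeZero M]

/-- **the reduction of a class has finite order.** -/
theorem h93f_torsion_top {ℓ : ℕ} (hℓ : ℓ.Prime) (hM : ¬ ℓ ∣ M) (A : ValuationSubring Kbar)
    (hA : A.LiesOverPrime ℓ) (y : JZero M) :
    ∃ n : ℕ, 0 < n ∧ n • y ∈ redKerPic M A := by
  have hfin := h93f_finite_top hℓ hM A hA y
  have hmem : ∀ k : ℕ, (QuotientAddGroup.mk (k • y) : JZero M ⧸ redKerPic M A) ∈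
      (fun w : JZero M => (QuotientAddGroup.mk w : JZero M ⧸ redKerPic M A)) ''
        {w : JZero M | ∀ σ : GQ, σ • y = y → σ • w = w} := by
    intro k
    refine ⟨k • y, fun σ hσ => ?_, rfl⟩
    have h1 := map_nsmul (DistribSMul.toAddMonoidHom (JZero M) σ) k y
    have h2 : σ • (k • y) = k • (σ • y) := h1
    rw [h2, hσ]
  obtain ⟨a, b, hab, heq⟩ := hfin.exists_lt_map_eq_of_forall_mem hmem
  refine ⟨b - a, Nat.sub_pos_of_lt hab, ?_⟩
  have h1 : (b - a) • y = b • y - a • y := by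
    rw [sub_nsmul _ hab.le]
    abel
  rw [h1, ← QuotientAddGroup.eq_iff_sub_mem]
  exact heq.symm

/-- **`J₀(M) ⧸ redKerPic M A` is a torsion group.** -/
theorem h93f_torsion_quot {ℓ : ℕ} (hℓ : ℓ.Prime) (hM : ¬ ℓ ∣ M) (A : ValuationSubring Kbar)
    (hA : A.LiesOverPrime ℓ) (c : JZero M ⧸ redKerPic M A) :
    ∃ n : ℕ, 0 < n ∧ n • c = 0 := by
  induction c using QuotientAddGroup.induction_on with
  | H y =>
    obtain ⟨n, hn, hy⟩ := h93f_torsion_top hℓ hM A hA y
    refine ⟨n, hn, ?_⟩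
    rw [← QuotientAddGroup.mk_nsmul]
    exact (QuotientAddGroup.eq_zero_iff (n • y)).mpr hy

end Fermat.Agent.P7
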