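import Mathlib
import Fermat.Agent.Red.GV.Series

/-!
# Wave 7, DLOG at the level `M`, leaf INT (helper93, prefix `h93q_`): abstract core

`A` a valuation subring of a field `K`, `τ ∈ K((q))` with coefficients in `A` and without
coefficients of index `≤ 0`.  Let `S` be a set of Laurent series such that every `y ∈ S`

* has no coefficient of negative index,
* has its constant coefficient in `A`,
* can be written `y = c + τ · y'` with `c` its constant coefficient and `y' ∈ S`.

Then every `y ∈ S` has all its coefficients in `A` (`h93q_core`), i.e. is `embA` of a series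
over `A` (`h93q_core_embA`).

Mathlib + the definitions `embA` of the Gauss valuation library only.
-/

set_option autoImplicit false
set_option linter.style.haveILetI false
set_option linter.unusedSectionVars false

open HahnSeries ModularCurve

noncomputable section

namespace Fermat.Agent.P7

open Fermat.Agent.Red.GV

/-- a finite sum of products of elements of a subring lies in the subring (coefficient of a
product of two Laurent series). -/
theorem h93q_coeff_mul_mem {K : Type} [Field K] (A : ValuationSubring K)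
    (x y : LaurentSeries K) (n : ℤ)
    (h : ∀ i j : ℤ, i + j = n → x.coeff i ≠ 0 → y.coeff j ≠ 0 →
      x.coeff i ∈ A ∧ y.coeff j ∈ A) :
    (x * y).coeff n ∈ A := by
  rw [HahnSeries.coeff_mul]
  refine Subring.sum_mem A.toSubring fun ij hij => ?_
  rw [Finset.mem_antidiagonal] at hij
  obtain ⟨h1, h2, h3⟩ := hij
  have h4 := h ij.1 ij.2 h3 h1 h2
  exact A.mul_mem _ _ h4.1 h4.2

/-- **INT, abstract core.** -/
theorem h93q_core {K : Type} [Field K] (A : ValuationSubring K) (S : Set (LaurentSeries K))
    (τ : LaurentSeries K) (hτA : ∀ n : ℤ, τ.coeff n ∈ A)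
    (hτ0 : ∀ n : ℤ, n ≤ 0 → τ.coeff n = 0)
    (hS : ∀ y ∈ S, (∀ n : ℤ, n < 0 → y.coeff n = 0) ∧ y.coeff 0 ∈ A ∧
      ∃ y' ∈ S, y = HahnSeries.C (y.coeff 0) + τ * y') :
    ∀ y ∈ S, ∀ n : ℤ, y.coeff n ∈ A := by
  have key : ∀ m : ℕ, ∀ y ∈ S, ∀ n : ℤ, n < m → y.coeff n ∈ A := by
    intro m
    induction m with
    | zero =>
      intro y hy n hn
      have hn' : n < 0 := by exact_mod_cast hn
      rw [(hS y hy).1 n hn']
      exact A.zero_mem
    | succ m ih =>
      intro y hy n hn
      by_cases hnm : n < m
      · exact ih y hy n hnm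
      · have hnm' : n = m := by push_cast at hn; omega
        obtain ⟨-, h0, y', hy', hyy'⟩ := hS y hy
        rw [hyy', HahnSeries.coeff_add']
        simp only [Pi.add_apply]
        refine A.add_mem _ _ ?_ ?_
        · rw [HahnSeries.C_apply, HahnSeries.coeff_single]
          split_ifs
          · exact h0
          · exact A.zero_mem
        · refine h93q_coeff_mul_mem A τ y' n fun i j hij hi _ => ⟨hτA i, ?_⟩
          have hi0 : 0 < i := by
            by_contra h
            exact hi (hτ0 i (not_lt.mp h))
          exact ih y' hy' j (by omega)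
  intro y hy n
  exact key (n.toNat + 1) y hy n (by push_cast; omega)

/-- **INT, abstract core, `embA` form.** -/
theorem h93q_core_embA {K : Type} [Field K] (A : ValuationSubring K)
    (S : Set (LaurentSeries K))
    (τ : LaurentSeries K) (hτA : ∀ n : ℤ, τ.coeff n ∈ A)
    (hτ0 : ∀ n : ℤ, n ≤ 0 → τ.coeff n = 0)
    (hS : ∀ y ∈ S, (∀ n : ℤ, n < 0 → y.coeff n = 0) ∧ y.coeff 0 ∈ A ∧
      ∃ y' ∈ S, y = HahnSeries.C (y.coeff 0) + τ * y') :
    ∀ y ∈ S, ∃ Y : LaurentSeries A, embA A Y = y ∧ ∀ n : ℤ, n < 0 → Y.coeff n = 0 := by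
  intro y hy
  obtain ⟨Y, hY⟩ := (exists_embA_eq_iff A y).2 (h93q_core A S τ hτA hτ0 hS y hy)
  refine ⟨Y, hY, fun n hn => ?_⟩
  have h1 := (hS y hy).1 n hn
  rw [← hY, h36_embA_coeff] at h1
  exact Subtype.ext h1

end Fermat.Agent.P7
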