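import Fermat.Agent.P7.H94IntM
import Fermat.Agent.P7.H1Int

/-!
# Wave 7, DLOG at the level `M`: INT and INT(M), UNCONDITIONAL (helper94, prefix `h94w_`)

Wiring of the landed INT-ABS (`h1i_intAbs`, helper1) into `h94y_int` and `h94z_intM`.

* `h94w_int : H26iInt` : the elements of the chart at infinity have `A`-integral `q`-expansions.
* `h94w_int_fin` : the same for the finite chart.
* `h94w_intM`, `h94w_intM_qplace`, `h94w_gaussR_intM` : at ANY level `M` prime to `ℓ`, a
  Gauss-integral function which is regular off ONE pole `Q` of `j` (e.g. the `q`-order place) has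
  an `A`-integral `q`-expansion, and its Gauss reduction is the coefficientwise reduction.
* `h94w_int_regular` : the same for a Gauss-integral function regular at the finite places.
-/

set_option autoImplicit false
set_option linter.unusedSectionVars false

open AlgebraicCurve ModularCurve

noncomputable section

namespace Fermat.Agent.P7

open Fermat.Agent.S37 Fermat.Agent.Red.GV Fermat.Agent.P5

variable {ℓ : ℕ} {M : ℕ} [NeZero M] {A : ValuationSubring Kbar}

/-- **INT**, unconditional. -/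
theorem h94w_int : H26iInt := h94y_int h1i_intAbs

/-- INT for the finite chart, unconditional. -/
theorem h94w_int_fin (hℓ : ℓ.Prime) (hM : ¬ ℓ ∣ M) (hA : A.LiesOverPrime ℓ) (f : FF M)
    (hf : f ∈ modelFin M A) :
    ∃ y : LaurentSeries A, embA A y = ((f : FF M) : LaurentSeries Kbar) :=
  h94y_int_fin h1i_intAbs ℓ hℓ M hM A hA f hf

/-- INT for the chart at infinity, unconditional, with the level explicit. -/
theorem h94w_int_inf (hℓ : ℓ.Prime) (hM : ¬ ℓ ∣ M) (hA : A.LiesOverPrime ℓ) (f : FF M)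
    (hf : f ∈ modelInf M A) :
    ∃ y : LaurentSeries A, embA A y = ((f : FF M) : LaurentSeries Kbar) :=
  h94w_int ℓ hℓ M hM A hA f hf

/-- a Gauss-integral function regular at the finite places has an `A`-integral
`q`-expansion. -/
theorem h94w_int_regular (hℓ : ℓ.Prime) (hM : ¬ ℓ ∣ M) (hA : A.LiesOverPrime ℓ)
    {f : FF M} (hf : f ∈ gaussV A M)
    (hreg : ∀ v : Place Kbar (FF M), 0 ≤ v.ord (jB M) → 0 ≤ v.ord f) :
    ∃ y : LaurentSeries A, embA A y = ((f : FF M) : LaurentSeries Kbar) :=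
  h94z_int_regular h1i_intAbs hℓ hM hA hf hreg

/-- **INT(M)**, `ord` form, unconditional. -/
theorem h94w_intM (hℓ : ℓ.Prime) (hM : ¬ ℓ ∣ M) (hA : A.LiesOverPrime ℓ)
    (Q : Place Kbar (FF M)) (hQ : Q.ord (jB M) < 0) {f : FF M} (hf : f ∈ gaussV A M)
    (hreg : ∀ v : Place Kbar (FF M), v ≠ Q → 0 ≤ v.ord f) :
    ∃ y : LaurentSeries A, embA A y = ((f : FF M) : LaurentSeries Kbar) :=
  h94z_intM h1i_intAbs hℓ hM hA Q hQ hf hreg

/-- **INT(M)**, `q`-order place form, unconditional. -/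
theorem h94w_intM_qplace (hℓ : ℓ.Prime) (hM : ¬ ℓ ∣ M) (hA : A.LiesOverPrime ℓ)
    (Q : Place Kbar (FF M))
    (hQ : ∀ f : FF M, f ≠ 0 → Q.ord f = ((f : FF M) : LaurentSeries Kbar).order)
    {f : FF M} (hf : f ∈ gaussV A M)
    (hreg : ∀ v : Place Kbar (FF M), v ≠ Q → 0 ≤ v.ord f) :
    ∃ y : LaurentSeries A, embA A y = ((f : FF M) : LaurentSeries Kbar) :=
  h94z_intM_qplace h1i_intAbs hℓ hM hA Q hQ hf hreg

/-- **INT(M)** with the reduction, unconditional. -/
theorem h94w_gaussR_intM (hℓ : ℓ.Prime) (hM : ¬ ℓ ∣ M) (hA : A.LiesOverPrime ℓ)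
    (Q : Place Kbar (FF M)) (hQ : Q.ord (jB M) < 0) {f : FF M}
    (hf : f ∈ gaussV A M) (hreg : ∀ v : Place Kbar (FF M), v ≠ Q → 0 ≤ v.ord f) :
    ∃ y : LaurentSeries A, embA A y = ((f : FF M) : LaurentSeries Kbar) ∧
      gaussR A M ⟨f, hf⟩ = redA (IsLocalRing.residue A) y :=
  h94z_gaussR_intM h1i_intAbs hℓ hM hA Q hQ hf hreg

end Fermat.Agent.P7
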