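import Fermat.Agent.P7.H94IntOfAbs
import Fermat.Agent.P5.H58DictG

/-!
# Wave 7, DLOG at the level `M`, leaf INT(M) from INT-ABS (helper94, prefix `h94z_`)

`M` ANY level prime to `ℓ`, `A` over `ℓ`.  A Gauss-integral function of `FF M` which is regular
at every place where `j` is regular (poles allowed at the cusps only) lies in the finite chart
`modelFin M A` (landed QEP `h58h_mem_modelFin_of_top`), hence, by INT-ABS, its `q`-expansion has
coefficients in `A`.

* `h94z_mem_modelFin` : Gauss-integral + regular at the finite places ⟹ `∈ modelFin M A`.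
* `h94z_int_regular` : `H26iIntAbs →` such a function has `q`-expansion in `embA A (A((q)))`.
* `h94z_intM` : the same for the functions regular off ONE place `Q` which is a pole of `j`
  (e.g. the `q`-order place), in the `ord` form.
* `h94z_intM_qplace` : the same with `Q` given as the `q`-order place.
* `h94z_gaussR_intM` : then `gaussR f` is the coefficientwise reduction.
-/

set_option autoImplicit false
set_option linter.unusedSectionVars false

open AlgebraicCurve ModularCurve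

noncomputable section

namespace Fermat.Agent.P7

open Fermat.Agent.S37 Fermat.Agent.Red.GV Fermat.Agent.Red.GV.Asm Fermat.Agent.P5
  Fermat.Agent.S28

variable {ℓ : ℕ} {M : ℕ} [NeZero M] {A : ValuationSubring Kbar}

/-- Gauss-integral and regular at the finite places ⟹ in the finite chart over `A`. -/
theorem h94z_mem_modelFin (hℓ : ℓ.Prime) (hM : ¬ ℓ ∣ M) (hA : A.LiesOverPrime ℓ)
    {f : FF M} (hf : f ∈ gaussV A M)
    (hreg : ∀ v : Place Kbar (FF M), 0 ≤ v.ord (jB M) → 0 ≤ v.ord f) :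
    f ∈ modelFin M A := by
  refine h58h_mem_modelFin_of_top M A hℓ hM hA hf (h58h_regular_fin M f (fun v hv => ?_))
  exact Fermat.Agent.S24.DiffPlace.mem_of_ord_nonneg v
    (hreg v (Fermat.Agent.S24.DiffPlace.ord_nonneg_of_mem v hv))

/-- **INT at the finite places**: a Gauss-integral function which is regular at the finite
places has an `A`-integral `q`-expansion. -/
theorem h94z_int_regular (h : H26iIntAbs) (hℓ : ℓ.Prime) (hM : ¬ ℓ ∣ M)
    (hA : A.LiesOverPrime ℓ) {f : FF M} (hf : f ∈ gaussV A M)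
    (hreg : ∀ v : Place Kbar (FF M), 0 ≤ v.ord (jB M) → 0 ≤ v.ord f) :
    ∃ y : LaurentSeries A, embA A y = ((f : FF M) : LaurentSeries Kbar) :=
  h94y_int_fin h ℓ hℓ M hM A hA f (h94z_mem_modelFin hℓ hM hA hf hreg)

/-- **INT(M)**, `ord` form: `Q` a pole of `j`, `f` Gauss-integral and regular off `Q`. -/
theorem h94z_intM (h : H26iIntAbs) (hℓ : ℓ.Prime) (hM : ¬ ℓ ∣ M) (hA : A.LiesOverPrime ℓ)
    (Q : Place Kbar (FF M)) (hQ : Q.ord (jB M) < 0) {f : FF M} (hf : f ∈ gaussV A M)
    (hreg : ∀ v : Place Kbar (FF M), v ≠ Q → 0 ≤ v.ord f) :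
    ∃ y : LaurentSeries A, embA A y = ((f : FF M) : LaurentSeries Kbar) := by
  refine h94z_int_regular h hℓ hM hA hf (fun v hv => hreg v ?_)
  rintro rfl
  omega

/-- the `q`-order place is a pole of `j`. -/
theorem h94z_ord_jB_of_qplace (Q : Place Kbar (FF M))
    (hQ : ∀ f : FF M, f ≠ 0 → Q.ord f = ((f : FF M) : LaurentSeries Kbar).order) :
    Q.ord (jB M) = -1 := by
  have hj0 : jB M ≠ 0 := by
    intro h0
    have h1 : ((jB M : FF M) : LaurentSeries Kbar) = 0 := by rw [h0]; rfl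
    rw [coe_jB] at h1
    have h2 := Fermat.Agent.S28.Asm.order_jqModC' Kbar
    have h3 : (jqModC Kbar) = 0 := h1
    rw [h3, HahnSeries.order_zero] at h2
    omega
  rw [hQ _ hj0, coe_jB]
  exact Fermat.Agent.S28.Asm.order_jqModC' Kbar

/-- **INT(M)**, `q`-order place form. -/
theorem h94z_intM_qplace (h : H26iIntAbs) (hℓ : ℓ.Prime) (hM : ¬ ℓ ∣ M)
    (hA : A.LiesOverPrime ℓ) (Q : Place Kbar (FF M))
    (hQ : ∀ f : FF M, f ≠ 0 → Q.ord f = ((f : FF M) : LaurentSeries Kbar).order)
    {f : FF M} (hf : f ∈ gaussV A M)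
    (hreg : ∀ v : Place Kbar (FF M), v ≠ Q → 0 ≤ v.ord f) :
    ∃ y : LaurentSeries A, embA A y = ((f : FF M) : LaurentSeries Kbar) :=
  h94z_intM h hℓ hM hA Q (by rw [h94z_ord_jB_of_qplace Q hQ]; norm_num) hf hreg

/-- with an `A`-integral `q`-expansion the Gauss reduction is the coefficientwise reduction. -/
theorem h94z_gaussR_intM (h : H26iIntAbs) (hℓ : ℓ.Prime) (hM : ¬ ℓ ∣ M)
    (hA : A.LiesOverPrime ℓ) (Q : Place Kbar (FF M)) (hQ : Q.ord (jB M) < 0) {f : FF M}
    (hf : f ∈ gaussV A M) (hreg : ∀ v : Place Kbar (FF M), v ≠ Q → 0 ≤ v.ord f) :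
    ∃ y : LaurentSeries A, embA A y = ((f : FF M) : LaurentSeries Kbar) ∧
      gaussR A M ⟨f, hf⟩ = redA (IsLocalRing.residue A) y := by
  obtain ⟨y, hy⟩ := h94z_intM h hℓ hM hA Q hQ hf hreg
  exact ⟨y, hy, gaussRed_of_embA A (IsLocalRing.residue A) M ⟨f, hf⟩ y hy⟩

end Fermat.Agent.P7
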