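import Fermat.Agent.P7.H57SymTr
import Fermat.Agent.P7.H83NormOrd

/-!
# Wave 7, DLOG ORTH(M), leaf NORM-DISC (helper94, prefix `h94k_`): the norm of a function
without zero or pole on the residue discs over `w'` has no zero or pole on the disc of `w'`

`N ∣ M`, `M` a level with a reduction map of places `r` (`H13sIsRed A M r`, e.g. a good level),
`π = degen h : F_N → F_M`, `Nm = normAlong π`.

* `h94k_fibre_transfer` : **FIBRE-TRANSFER**: if `w`, `w'` are places of `F_N` with the same
  reduction (`SameRed A w w'`), every place `v` of `F_M` over `w` has the same reduction as some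
  place `c` over `w'`.  [conservation of number `ifaceTransferRed` + push-forward by `r`]
* `h94k_norm_disc` : **NORM-DISC** at the level `N`: if `g'` has no zero or pole at the places
  `v` with `r v = r c`, `c` over `w'`, then `ord_w (Nm g') = 0` for every `w` with
  `SameRed A w w'`.
* `h94k_norm_disc_degen` : the same at the level `M`: `ord_v (π (Nm g')) = 0` for every `v`
  with `r v = r voo`.
-/

set_option autoImplicit false
set_option linter.unusedSectionVars false
set_option linter.unusedVariables false
set_option linter.style.haveILetI false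

open AlgebraicCurve ModularCurve IsLocalRing

noncomputable section

namespace Fermat.Agent.P7

open Fermat.Agent.S37 Fermat.Agent.Jac.K1 Fermat.Agent.Red.HKMod Fermat.Agent.Red.CH0
open Fermat.Agent.Red.GV Fermat.Agent.Red.GV.Soft Fermat.Agent.P5

variable {N M : ℕ} [NeZero N] [NeZero M] {A : ValuationSubring Kbar} (h : N ∣ M)

/-- **FIBRE-TRANSFER**. -/
theorem h94k_fibre_transfer {r : Place Kbar (FF M) → Place (h13sK A) (h13sFt A M)}
    (hr : H13sIsRed A M r) {w w' : Place Kbar (FF N)} (hww : SameRed A w w')
    (v : Place Kbar (FF M)) (hv : v.restrictAlong (degen h) (isIntegral_degen h) = w) :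
    ∃ c : Place Kbar (FF M),
      c.restrictAlong (degen h) (isIntegral_degen h) = w' ∧ r c = r v := by
  classical
  haveI := Fermat.Agent.Red.HKMod.hasPrincipalDivisors_FF M
  have hD : (Finsupp.single w (1 : ℤ) - Finsupp.single w' (1 : ℤ) : Divisor Kbar (FF N))
      ∈ redKer N A := single_sub_single_mem_redKer hww
  have h0 := h60r_push_eq_zero_of_mem hr (h57p_pull_mem_redKer h A hD)
  rw [map_sub, map_sub, sub_eq_zero] at h0
  -- the left side is positive at `r v`
  have h1 := h71r_push_ge r (h57pPull h (Finsupp.single w (1 : ℤ))) (r v)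
    (fun a _ => h57s_pull_single_nonneg h _ a) v rfl
  have h2 : (1 : ℤ) ≤ h57pPull h (Finsupp.single w (1 : ℤ)) v := by
    show (1 : ℤ) ≤ Divisor.pullbackAlong (degen h) (isIntegral_degen h) _ v
    rw [Divisor.pullbackAlong_apply, hv, Finsupp.single_apply, if_pos rfl, mul_one]
    have := Fermat.Agent.Red.NLA.h87_ramificationIndexAlong_pos (degen h) (isIntegral_degen h) v
    exact_mod_cast this
  have h3 : (0 : ℤ) < h60rPush r (h57pPull h (Finsupp.single w' (1 : ℤ))) (r v) := by
    rw [← h0]
    exact lt_of_lt_of_le one_pos (h2.trans h1)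
  -- hence some place over `w'` reduces to `r v`
  by_contra hne
  push Not at hne
  have h4 : h60rPush r (h57pPull h (Finsupp.single w' (1 : ℤ))) (r v) = 0 := by
    show Finsupp.mapDomain r _ (r v) = 0
    rw [h71r_push_apply]
    refine Finset.sum_eq_zero fun a _ => ?_
    split_ifs with hra
    · show Divisor.pullbackAlong (degen h) (isIntegral_degen h) _ a = 0
      rw [Divisor.pullbackAlong_apply, Finsupp.single_apply, if_neg, mul_zero]
      intro hw'
      exact hne a hw'.symm hra
    · rfl
  omega

/-- **NORM-DISC** at the level `N`. -/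
theorem h94k_norm_disc {r : Place Kbar (FF M) → Place (h13sK A) (h13sFt A M)}
    (hr : H13sIsRed A M r) (w' : Place Kbar (FF N)) (g' : FF M) (hg' : g' ≠ 0)
    (hoff : ∀ v : Place Kbar (FF M), v.ord g' ≠ 0 →
      ∀ c : Place Kbar (FF M), c.restrictAlong (degen h) (isIntegral_degen h) = w' →
        r c ≠ r v)
    (w : Place Kbar (FF N)) (hw : SameRed A w w') :
    w.ord (Fermat.Agent.Red.KR.normAlong (degen h) g') = 0 := by
  classical
  haveI := Fermat.Agent.Red.HKMod.hasPrincipalDivisors_FF M
  rw [h83o_ord_norm_FF_eq_sum_fiber h g' hg' w]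
  refine Finset.sum_eq_zero fun v hv => ?_
  have hv' : v.restrictAlong (degen h) (isIntegral_degen h) = w := Place.mem_fiberAlong.mp hv
  obtain ⟨c, hc, hrc⟩ := h94k_fibre_transfer h hr hw v hv'
  by_contra hne
  exact hoff v hne c hc hrc

/-- **NORM-DISC** at the level `M`: the pull-back of the norm has no zero or pole on the
fibre of `r voo`. -/
theorem h94k_norm_disc_degen {r : Place Kbar (FF M) → Place (h13sK A) (h13sFt A M)}
    (hr : H13sIsRed A M r) (voo : Place Kbar (FF M)) (g' : FF M) (hg' : g' ≠ 0)
    (hoff : ∀ v : Place Kbar (FF M), v.ord g' ≠ 0 →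
      ∀ c : Place Kbar (FF M), c.restrictAlong (degen h) (isIntegral_degen h) =
        voo.restrictAlong (degen h) (isIntegral_degen h) → r c ≠ r v)
    (v : Place Kbar (FF M)) (hv : r v = r voo) :
    v.ord (degen h (Fermat.Agent.Red.KR.normAlong (degen h) g')) = 0 := by
  have hs : SameRed A v voo := (hr.2.1 v voo).mp hv
  have hs' := h69w_restrict_sameRed A (degen h) (isIntegral_degen h) (degen_jBar h) hs
  rw [Place.ord_restrictAlong (degen h) (isIntegral_degen h) v,
    h94k_norm_disc h hr _ g' hg' hoff _ hs', mul_zero]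

end Fermat.Agent.P7
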