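import Fermat.Agent.S21.E.Main

/-!
# Wave 7 (S44), block (A) DLOG, sub-block LATTICE, leaf LAT-1 (helper94, prefix `h94g_`)

The analytic Riemann inequality with the classical genus, for the divisors `n (j)_∞` of `X₀(N)`.

`S21/E` is the analytic Dedekind-Weber argument: a minimal admissible family (`Tuple`) of
`μ = [SL(2,ℤ) : Γ₀(N)]` weakly holomorphic `Γ₀(N)`-invariant functions `v_k` of degrees `d_k` is
saturated and reduced, and its dual family gives `Σ d_k - μ + 1` linearly independent cusp forms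
of weight 2.  Hence `Σ d_k + 1 ≤ μ + dim S₂(Γ₀(N))`, and the functions `v_k j ^ m`
(`m ≤ n - d_k`) are `(n + 1) μ - Σ d_k ≥ n μ + 1 - dim S₂` linearly independent weakly
holomorphic functions of degree `≤ n`.

* `h94g_isWH_mono`, `h94g_isWH_mul_jpow` : closure properties of `IsWH`;
* `h94g_total_le` : `total + 1 ≤ μ + dim S₂` for a minimal family;
* `h94g_linearIndependent` : the family `v_k j ^ m` is linearly independent over `ℂ`;
* `h94g_whCount` : for `n ≥ n₀` there are `n μ + 1 - dim S₂(Γ₀(N))` linearly independent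
  `Γ₀(N)`-invariant weakly holomorphic functions of degree `≤ n`.
-/

set_option autoImplicit false
set_option linter.style.haveILetI false

open UpperHalfPlane hiding I
open Complex Filter Function Topology
open scoped Manifold MatrixGroups ModularForm Real

namespace Fermat.Agent.P7

noncomputable section

open Fermat.Agent.S21.E Fermat.Agent.S21.EPrim

local notation "Δ" => ModularForm.discriminant
local notation "E₄" => ModularForm.E₄

/-! ### The function `j` -/

theorem h94g_jfun_smul (g : SL(2, ℤ)) (z : ℍ) : jfun (g • z) = jfun z :=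
  jfun_smul g z

theorem h94g_disc_mul_jfun (z : ℍ) : Δ z * jfun z = E₄ z ^ 3 := by
  have hΔ : Δ z ≠ 0 := ModularForm.discriminant_ne_zero z
  unfold jfun
  field_simp

theorem h94g_bdd_E4_cube : IsBoundedAtImInfty (fun z : ℍ => E₄ z ^ 3) := by
  have h : Tendsto (fun z : ℍ => E₄ z ^ 3) atImInfty (𝓝 (1 ^ 3)) :=
    Fermat.Agent.S23.H20.tendsto_E4.pow 3
  exact h.isBigO_one ℝ

theorem h94g_bdd_pow {f : ℍ → ℂ} (hf : IsBoundedAtImInfty f) (m : ℕ) :
    IsBoundedAtImInfty (fun z : ℍ => f z ^ m) := by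
  induction m with
  | zero =>
    simp only [pow_zero]
    exact Filter.const_boundedAtFilter atImInfty (1 : ℂ)
  | succ m ih =>
    have h := ih.mul hf
    refine h.congr' (Eventually.of_forall fun z => ?_) (by rfl)
    simp only [Pi.mul_apply, pow_succ]

/-- `j` is unbounded: it does not take its values in a finite set. -/
theorem h94g_jfun_not_finite (s : Finset ℂ) : ∃ z : ℍ, jfun z ∉ s := by
  by_contra hcon
  push Not at hcon
  -- `j` is bounded, so `j q → 0`, but `j q → 1`
  obtain ⟨C, hC⟩ : ∃ C : ℝ, ∀ w ∈ s, ‖w‖ ≤ C := by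
    refine ⟨s.sup' ?_ (fun w => ‖w‖), fun w hw => Finset.le_sup' (fun w => ‖w‖) hw⟩
    exact ⟨jfun UpperHalfPlane.I, hcon _⟩
  have hq : Tendsto (fun z : ℍ => Function.Periodic.qParam 1 (z : ℂ)) atImInfty (𝓝 0) :=
    UpperHalfPlane.qParam_tendsto_atImInfty one_pos
  have h0 : Tendsto (fun z : ℍ => jfun z * Function.Periodic.qParam 1 (z : ℂ)) atImInfty
      (𝓝 0) := by
    rw [tendsto_zero_iff_norm_tendsto_zero] at hq ⊢
    refine squeeze_zero (fun z => norm_nonneg _) (fun z => ?_)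
      (by simpa using hq.const_mul C)
    rw [norm_mul]
    exact mul_le_mul_of_nonneg_right (hC _ (hcon z)) (norm_nonneg _)
  exact one_ne_zero (tendsto_nhds_unique tendsto_jfun_mul_q h0)

/-- a polynomial vanishing at all values of `j` is zero. -/
theorem h94g_poly_eq_zero {P : Polynomial ℂ} (h : ∀ z : ℍ, P.eval (jfun z) = 0) : P = 0 := by
  by_contra hP
  obtain ⟨z, hz⟩ := h94g_jfun_not_finite P.roots.toFinset
  apply hz
  rw [Multiset.mem_toFinset, Polynomial.mem_roots hP]
  exact h z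

/-! ### Closure properties of `IsWH` -/

variable {Γ : Subgroup SL(2, ℤ)}

theorem h94g_isWH_mono {d d' : ℕ} {f : ℍ → ℂ} (hf : IsWH Γ d f) (h : d ≤ d') :
    IsWH Γ d' f where
  holo := hf.holo
  inv := hf.inv
  bdd g := by
    have h1 := (h94g_bdd_pow Min.bdd_disc (d' - d)).mul (hf.bdd g)
    refine h1.congr' (Eventually.of_forall fun z => ?_) (by rfl)
    simp only [Pi.mul_apply]
    rw [← mul_assoc, ← pow_add, Nat.sub_add_cancel h]

theorem h94g_isWH_mul_jpow {d : ℕ} {f : ℍ → ℂ} (hf : IsWH Γ d f) (m : ℕ) :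
    IsWH Γ (d + m) (fun z => f z * jfun z ^ m) where
  holo := hf.holo.mul (mdifferentiable_jfun.pow m)
  inv γ hγ z := by
    show f (γ • z) * jfun (γ • z) ^ m = f z * jfun z ^ m
    rw [hf.inv γ hγ z, h94g_jfun_smul]
  bdd g := by
    have h1 := (hf.bdd g).mul (h94g_bdd_pow h94g_bdd_E4_cube m)
    refine h1.congr' (Eventually.of_forall fun z => ?_) (by rfl)
    simp only [Pi.mul_apply]
    rw [h94g_jfun_smul, ← h94g_disc_mul_jfun, mul_pow, pow_add]
    ring

/-- polynomials in `j` are holomorphic. -/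
theorem h94g_mdiff_eval (P : Polynomial ℂ) : MDiff (fun z : ℍ => P.eval (jfun z)) := by
  induction P using Polynomial.induction_on' with
  | add p q hp hq =>
    have h := hp.add hq
    have e : (fun z : ℍ => (p + q).eval (jfun z)) =
        (fun z : ℍ => p.eval (jfun z)) + fun z : ℍ => q.eval (jfun z) := by
      ext z
      simp
    rw [e]
    exact h
  | monomial n a =>
    have h := (Api.mdiff_const a).mul (mdifferentiable_jfun.pow n)
    have e : (fun z : ℍ => (Polynomial.monomial n a).eval (jfun z)) =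
        (fun _ : ℍ => a) * (jfun ^ n) := by
      ext z
      simp
    rw [e]
    exact h

/-! ### The family `v_k j ^ m` -/

section Count

variable [Fintype (SL(2, ℤ) ⧸ Γ)] [DecidableEq (SL(2, ℤ) ⧸ Γ)]

/-- the family `v_k j ^ m`, `m ≤ n - d_k`. -/
def h94gFam (t : Tuple Γ) (n : ℕ) (i : Σ k : SL(2, ℤ) ⧸ Γ, Fin (n + 1 - t.d k)) : ℍ → ℂ :=
  fun z => t.v i.1 z * jfun z ^ (i.2 : ℕ)

theorem h94g_isWH_fam (t : Tuple Γ) (n : ℕ) (i : Σ k : SL(2, ℤ) ⧸ Γ, Fin (n + 1 - t.d k)) :
    IsWH Γ n (h94gFam t n i) := by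
  have hm : (i.2 : ℕ) < n + 1 - t.d i.1 := i.2.2
  exact h94g_isWH_mono (h94g_isWH_mul_jpow (t.wh i.1) i.2) (by omega)

/-- a relation `Σ_k P_k(j) v_k = 0` with polynomial coefficients is trivial. -/
theorem h94g_poly_rel (t : Tuple Γ) (P : SL(2, ℤ) ⧸ Γ → Polynomial ℂ)
    (h : ∀ z : ℍ, ∑ k, (P k).eval (jfun z) * t.v k z = 0) : ∀ k, P k = 0 := by
  classical
  -- the relation for all conjugates
  have hx : ∀ (z : ℍ) (x : SL(2, ℤ) ⧸ Γ),
      ∑ k, (P k).eval (jfun z) * cmat Γ t.v z k x = 0 := by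
    intro z x
    have h1 := h ((Quotient.out x)⁻¹ • z)
    simp only [h94g_jfun_smul] at h1
    exact h1
  -- at the points where the determinant does not vanish
  have hz : ∀ z : ℍ, (cmat Γ t.v z).det ≠ 0 → ∀ k, (P k).eval (jfun z) = 0 := by
    intro z hdet k
    have h2 : Matrix.vecMul (fun k => (P k).eval (jfun z)) (cmat Γ t.v z) = 0 := by
      ext x
      simp only [Matrix.vecMul, dotProduct, Pi.zero_apply]
      exact hx z x
    exact congrFun (Matrix.eq_zero_of_vecMul_eq_zero hdet h2) k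
  intro k
  refine h94g_poly_eq_zero fun z => ?_
  refine Min.eq_zero_of_mul_eq_zero (mdiff_det t) (h94g_mdiff_eval (P k)) (fun w => ?_)
    t.nondeg z
  by_cases hw : (cmat Γ t.v w).det = 0
  · rw [hw, zero_mul]
  · rw [hz w hw k, mul_zero]

theorem h94g_linearIndependent (t : Tuple Γ) (n : ℕ) :
    LinearIndependent ℂ (h94gFam t n) := by
  classical
  rw [Fintype.linearIndependent_iff]
  intro c hc
  let P : SL(2, ℤ) ⧸ Γ → Polynomial ℂ := fun k =>
    ∑ m : Fin (n + 1 - t.d k), Polynomial.C (c ⟨k, m⟩) * Polynomial.X ^ (m : ℕ)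
  have hP : ∀ k, P k = 0 := by
    refine h94g_poly_rel t P fun z => ?_
    have h1 := congrFun hc z
    rw [Finset.sum_apply, Fintype.sum_sigma] at h1
    have h0 : (0 : ℍ → ℂ) z = 0 := rfl
    rw [h0] at h1
    rw [← h1]
    refine Finset.sum_congr rfl fun k _ => ?_
    simp only [P, Polynomial.eval_finsetSum, Polynomial.eval_mul, Polynomial.eval_C,
      Polynomial.eval_pow, Polynomial.eval_X, Finset.sum_mul]
    refine Finset.sum_congr rfl fun m _ => ?_
    simp only [Pi.smul_apply, smul_eq_mul, h94gFam]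
    ring
  rintro ⟨k, m⟩
  have h2 := congrArg (fun Q : Polynomial ℂ => Q.coeff (m : ℕ)) (hP k)
  simp only [P, Polynomial.finsetSum_coeff, Polynomial.coeff_C_mul, Polynomial.coeff_X_pow,
    Polynomial.coeff_zero] at h2
  rw [Finset.sum_eq_single m] at h2
  · simpa using h2
  · intro b _ hb
    have : (m : ℕ) ≠ (b : ℕ) := fun e => hb (Fin.ext e.symm)
    simp [this]
  · intro hm
    exact absurd (Finset.mem_univ m) hm

/-- the number of members of the family `v_k j ^ m`. -/
theorem h94g_card_fam (t : Tuple Γ) (n : ℕ) (hn : ∀ k, t.d k ≤ n) :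
    Fintype.card (Σ k : SL(2, ℤ) ⧸ Γ, Fin (n + 1 - t.d k)) + t.total =
      Fintype.card (SL(2, ℤ) ⧸ Γ) * (n + 1) := by
  rw [Fintype.card_sigma, Tuple.total, ← Finset.sum_add_distrib]
  have h : ∀ k ∈ (Finset.univ : Finset (SL(2, ℤ) ⧸ Γ)),
      Fintype.card (Fin (n + 1 - t.d k)) + t.d k = n + 1 := by
    intro k _
    rw [Fintype.card_fin]
    have := hn k
    omega
  rw [Finset.sum_congr rfl h, Finset.sum_const, Finset.card_univ, smul_eq_mul]

end Count

/-! ### The count for `Γ₀(N)` -/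

/-- **LAT-1, total degree.**  A minimal admissible family for `Γ₀(N)` has
`Σ d_k + 1 ≤ μ + dim S₂(Γ₀(N))`. -/
theorem h94g_total_le (N : ℕ) [NeZero N] [Fintype (SL(2, ℤ) ⧸ CongruenceSubgroup.Gamma0 N)]
    [DecidableEq (SL(2, ℤ) ⧸ CongruenceSubgroup.Gamma0 N)]
    {t : Tuple (CongruenceSubgroup.Gamma0 N)} (ht : t.IsMin) :
    t.total + 1 ≤ (CongruenceSubgroup.Gamma0 N).index +
      Module.finrank ℂ (CuspForm (CongruenceSubgroup.Gamma0 N) 2) := by
  have hneg : (-1 : SL(2, ℤ)) ∈ CongruenceSubgroup.Gamma0 N := by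
    rw [CongruenceSubgroup.Gamma0_mem]; simp
  obtain ⟨ω, hω⟩ := exists_linearIndependent_cuspForms hneg ht.saturated ht.reduced
  haveI : FiniteDimensional ℂ (CuspForm ((CongruenceSubgroup.Gamma0 N).map
      (Matrix.SpecialLinearGroup.mapGL ℝ)) 2) :=
    Fermat.Agent.S49.finiteDimensional_cuspForm N 2
  have h2 := hω.fintype_card_le_finrank
  rw [Fintype.card_fin] at h2
  have h3 : t.total + 1 - (CongruenceSubgroup.Gamma0 N).index ≤
      Module.finrank ℂ (CuspForm (CongruenceSubgroup.Gamma0 N) 2) := h2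
  omega

/-- **LAT-1 (analytic Riemann inequality with the classical genus).**  For `n ≥ n₀` there are
`n μ + 1 - dim S₂(Γ₀(N))` linearly independent `Γ₀(N)`-invariant holomorphic functions on `ℍ`
with poles of order at most `n` (measured by `Δ`) at all cusps. -/
theorem h94g_whCount (N : ℕ) [NeZero N] :
    ∃ n₀ : ℕ, ∀ n : ℕ, n₀ ≤ n →
      ∃ A : Fin (n * (CongruenceSubgroup.Gamma0 N).index + 1 -
          Module.finrank ℂ (CuspForm (CongruenceSubgroup.Gamma0 N) 2)) → ℍ → ℂ,
        (∀ i, IsWH (CongruenceSubgroup.Gamma0 N) n (A i)) ∧ LinearIndependent ℂ A := by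
  classical
  letI : Fintype (SL(2, ℤ) ⧸ CongruenceSubgroup.Gamma0 N) :=
    Subgroup.fintypeQuotientOfFiniteIndex
  obtain ⟨t, ht⟩ := exists_isMin (nonempty_tuple_Gamma0 N)
  have htot := h94g_total_le N ht
  refine ⟨Finset.univ.sup t.d, fun n hn => ?_⟩
  have hd : ∀ k, t.d k ≤ n := fun k => (Finset.le_sup (Finset.mem_univ k)).trans hn
  have hcard := h94g_card_fam t n hd
  have hidx : Fintype.card (SL(2, ℤ) ⧸ CongruenceSubgroup.Gamma0 N) =
      (CongruenceSubgroup.Gamma0 N).index := by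
    rw [Subgroup.index_eq_card, Nat.card_eq_fintype_card]
  rw [hidx, mul_add, mul_one, mul_comm] at hcard
  have hle : n * (CongruenceSubgroup.Gamma0 N).index + 1 -
      Module.finrank ℂ (CuspForm (CongruenceSubgroup.Gamma0 N) 2) ≤
      Fintype.card (Σ k : SL(2, ℤ) ⧸ CongruenceSubgroup.Gamma0 N, Fin (n + 1 - t.d k)) := by
    omega
  let e := Fintype.equivFin (Σ k : SL(2, ℤ) ⧸ CongruenceSubgroup.Gamma0 N, Fin (n + 1 - t.d k))
  refine ⟨fun i => h94gFam t n (e.symm (Fin.castLE hle i)), fun i => h94g_isWH_fam t n _, ?_⟩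
  exact (h94g_linearIndependent t n).comp (fun i => e.symm (Fin.castLE hle i))
    (e.symm.injective.comp (Fin.castLE_injective hle))

end

end Fermat.Agent.P7
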