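import Fermat.Agent.P5.H68RRLarge
import Fermat.Agent.P5.H68RRFin

/-!
# Wave 7, DLOG at the non-good level, leaf H2-EXACT, sub-leaf (S2a) (helper95)

ABSTRACT FORM (weak Riemann–Roch vocabulary of `P5/H13RRIface`): `K` an infinite field, `F / K`
a function field with `H13rBase K F` and a weak genus `g`, `Q` a place, `S` a finite set of
places not containing `Q`.  For every large `m` there is a function `G` with

* `ord_Q G = - m` (exact pole order `m` at `Q`),
* `G` regular off `Q`,
* `ord_v G = 0` at every `v ∈ S` (no zero on `S`).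

Proof: for `deg ≥ c` Riemann–Roch is an equality (`h68r_large`), so `L((m-1) Q)` and the
`L(m Q - v)`, `v ∈ S`, are proper subspaces of `L(m Q)`; a vector space over an infinite field
is not a finite union of proper subspaces (`Subspace.exists_eq_top_of_iUnion_eq_univ`).
-/

set_option autoImplicit false

noncomputable section

namespace Fermat.Agent.P7

open AlgebraicCurve Fermat.Agent.P5

section Abstract

variable {K F : Type*} [Field K] [Field F] [Algebra K F]

/-- a proper inclusion of Riemann–Roch spaces from the dimensions. -/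
theorem h95x_not_le (hB : H13rBase K F) {E E' : Divisor K F}
    (hlt : h13rL K F E' < h13rL K F E) :
    ¬ riemannRochSpace E ≤ riemannRochSpace E' := by
  intro hle
  have : Module.Finite K (riemannRochSpace E') := (h68r_fin K F hB).1 E'
  have := Submodule.finrank_mono hle
  unfold h13rL at hlt
  omega

/-- **(S2a), abstract form**: functions with an exact pole at `Q`, regular elsewhere, and
without zero on a given finite set. -/
theorem h95x_exact_abs [Infinite K] (hB : H13rBase K F) (g : ℕ) (hg : H13rIsGenus K F g)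
    (Q : Place K F) (S : Finset (Place K F)) (hS : Q ∉ S) :
    ∃ m0 : ℕ, ∀ m : ℕ, m0 ≤ m → ∃ G : F, G ≠ 0 ∧ Q.ord G = -(m : ℤ) ∧
      (∀ v : Place K F, v ≠ Q → 0 ≤ v.ord G) ∧ ∀ v ∈ S, v.ord G = 0 := by
  classical
  obtain ⟨⟨c, hc⟩, -⟩ := h68r_large K F hB g hg
  refine ⟨(c + 1).toNat + 1, fun m hm => ?_⟩
  have hmc : c + 1 ≤ (m : ℤ) := by
    have := Int.self_le_toNat (c + 1)
    have h2 : (((c + 1).toNat + 1 : ℕ) : ℤ) ≤ (m : ℤ) := by exact_mod_cast hm
    push_cast at h2
    linarith
  -- the three kinds of divisors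
  set E : Divisor K F := Finsupp.single Q (m : ℤ) with hE
  set E' : Divisor K F := Finsupp.single Q ((m : ℤ) - 1) with hE'
  have hdegE : Divisor.degree E = m := by
    rw [hE, Divisor.degree_single, hB.deg_one Q]; simp
  have hdegE' : Divisor.degree E' = (m : ℤ) - 1 := by
    rw [hE', Divisor.degree_single, hB.deg_one Q]; simp
  have hdegEv : ∀ v : Place K F,
      Divisor.degree (E - Finsupp.single v (1 : ℤ)) = (m : ℤ) - 1 := by
    intro v
    rw [map_sub, hdegE, Divisor.degree_single, hB.deg_one v]; simp
  have hLE := hc E (by rw [hdegE]; linarith)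
  have hLE' := hc E' (by rw [hdegE']; linarith)
  have hLEv : ∀ v : Place K F, (h13rL K F (E - Finsupp.single v (1 : ℤ)) : ℤ) + g =
      Divisor.degree (E - Finsupp.single v (1 : ℤ)) + 1 :=
    fun v => hc _ (by rw [hdegEv v]; linarith)
  have hlt' : h13rL K F E' < h13rL K F E := by
    have : (h13rL K F E' : ℤ) < (h13rL K F E : ℤ) := by rw [hdegE] at hLE; rw [hdegE'] at hLE'; linarith
    exact_mod_cast this
  have hltv : ∀ v : Place K F, h13rL K F (E - Finsupp.single v (1 : ℤ)) < h13rL K F E := by
    intro v
    have h1 := hLEv v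
    rw [hdegEv v] at h1
    have : (h13rL K F (E - Finsupp.single v (1 : ℤ)) : ℤ) < (h13rL K F E : ℤ) := by
      rw [hdegE] at hLE; linarith
    exact_mod_cast this
  -- the family of proper subspaces of `L(E)`
  let L : Submodule K F := riemannRochSpace E
  let p : Option {v : Place K F // v ∈ S} → Subspace K L := fun o =>
    match o with
    | none => (riemannRochSpace E').comap L.subtype
    | some v => (riemannRochSpace (E - Finsupp.single v.1 (1 : ℤ))).comap L.subtype
  have hp : ∀ o, p o ≠ ⊤ := by
    intro o ho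
    rcases o with _ | v
    · refine h95x_not_le hB hlt' fun x hx => ?_
      have : (⟨x, hx⟩ : L) ∈ p none := by rw [ho]; trivial
      exact this
    · refine h95x_not_le hB (hltv v.1) fun x hx => ?_
      have : (⟨x, hx⟩ : L) ∈ p (some v) := by rw [ho]; trivial
      exact this
  have hcov : (⋃ o, (p o : Set L)) ≠ Set.univ := by
    intro h
    obtain ⟨o, ho⟩ := Subspace.exists_eq_top_of_iUnion_eq_univ h
    exact hp o ho
  obtain ⟨G, hG⟩ : ∃ G : L, G ∉ ⋃ o, (p o : Set L) := by
    by_contra hno
    push Not at hno
    exact hcov (Set.eq_univ_of_forall hno)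
  rw [Set.mem_iUnion] at hG
  push Not at hG
  have hGL : (G : F) ∈ riemannRochSpace E := G.2
  have hG' : (G : F) ∉ riemannRochSpace E' := fun h => hG none h
  have hGv : ∀ v ∈ S, (G : F) ∉ riemannRochSpace (E - Finsupp.single v (1 : ℤ)) :=
    fun v hv h => hG (some ⟨v, hv⟩) h
  have hG0 : (G : F) ≠ 0 := fun h => hG' (by rw [h]; exact Submodule.zero_mem _)
  have hmem := fun v => ((mem_riemannRochSpace_iff.1 hGL) v).resolve_left hG0
  have hoff : ∀ v : Place K F, v ≠ Q → 0 ≤ v.ord (G : F) := by
    intro v hv
    have := hmem v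
    rw [hE, Finsupp.single_apply, if_neg (Ne.symm hv)] at this
    simpa using this
  have hQ : -(m : ℤ) ≤ Q.ord (G : F) := by
    have := hmem Q
    rw [hE, Finsupp.single_apply, if_pos rfl] at this
    exact this
  refine ⟨G, hG0, ?_, hoff, fun v hv => ?_⟩
  · by_contra hne
    apply hG'
    rw [mem_riemannRochSpace_iff]
    intro w
    right
    by_cases hw : w = Q
    · subst hw
      rw [hE', Finsupp.single_apply, if_pos rfl]
      have : -(m : ℤ) < w.ord (G : F) := lt_of_le_of_ne hQ (Ne.symm hne)
      omega
    · rw [hE', Finsupp.single_apply, if_neg (Ne.symm hw)]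
      simpa using hoff w hw
  · have hvQ : v ≠ Q := fun h => hS (h ▸ hv)
    by_contra hne
    apply hGv v hv
    rw [mem_riemannRochSpace_iff]
    intro w
    right
    by_cases hw : w = v
    · subst hw
      rw [Finsupp.sub_apply, hE, Finsupp.single_apply, if_neg (Ne.symm hvQ),
        Finsupp.single_apply, if_pos rfl]
      have : 0 < w.ord (G : F) := lt_of_le_of_ne (hoff w hvQ) (Ne.symm hne)
      omega
    · rw [Finsupp.sub_apply, Finsupp.single_apply (a := v), if_neg (Ne.symm hw), sub_zero]
      exact hmem w

end Abstract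

end Fermat.Agent.P7
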