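import Fermat.Agent.P7.H95ExactBar
import Fermat.Agent.P7.H26DlogGapLevel

/-!
# Wave 7, DLOG at the non-good level, leaf H2-EXACT, sub-leaf (S2a), LEVEL FORM (helper95)

`M` a good level (`ℓ ∤ M`, `auxLevel ℓ ∣ M`), `A` over `ℓ`, `kC = h13sFt A M` the function field
of the special fibre.  For every place `Q` of `kC` and every `f ≠ 0` of `kC` (instance:
`f = j̄ = h26sJ A M`), for all large `m` there is `G ∈ kC` with `ord_Q G = - m`, `G` regular off
`Q`, and `ord_v G = 0` at every place `v ≠ Q` in the support of `div f`.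

* `h95x_exact_supp` : abstract, the finite set is the support of `div f` off `Q`.
* `h95x_exact_level` : the level form, any `Q`, any `f ≠ 0`.
* `h95x_exact_j` : `f = j̄`: no zero at the poles of `j̄` other than `Q`.
* `h95x_exact_inf` : `Q = ∞̄` (the place whose order is the order of the `q`-expansion), in terms
  of the `q`-expansion `h13sIncl A M G`.
-/

set_option autoImplicit false
set_option linter.style.haveILetI false

open AlgebraicCurve ModularCurve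

noncomputable section

namespace Fermat.Agent.P7

open Fermat.Agent.P5 Fermat.Agent.S37 Fermat.Agent.Red.GV

/-- **(S2a), abstract form with the support of a principal divisor.** -/
theorem h95x_exact_supp {K F : Type*} [Field K] [Field F] [Algebra K F] [Infinite K]
    (hB : H13rBase K F) (g : ℕ) (hg : H13rIsGenus K F g) (Q : Place K F) (f : F) (hf : f ≠ 0) :
    ∃ m0 : ℕ, ∀ m : ℕ, m0 ≤ m → ∃ G : F, G ≠ 0 ∧ Q.ord G = -(m : ℤ) ∧
      (∀ v : Place K F, v ≠ Q → 0 ≤ v.ord G) ∧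
      ∀ v : Place K F, v ≠ Q → v.ord f ≠ 0 → v.ord G = 0 := by
  classical
  obtain ⟨D, hD, -⟩ := hB.pd f hf
  obtain ⟨m0, hm0⟩ := h95x_exact_abs hB g hg Q (D.support.erase Q) (Finset.notMem_erase _ _)
  refine ⟨m0, fun m hm => ?_⟩
  obtain ⟨G, hG0, hGQ, hoff, hS⟩ := hm0 m hm
  refine ⟨G, hG0, hGQ, hoff, fun v hvQ hv => hS v ?_⟩
  rw [Finset.mem_erase, Finsupp.mem_support_iff, hD v]
  exact ⟨hvQ, hv⟩

section Level

variable (A : ValuationSubring Kbar) (M : ℕ) [NeZero M]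

/-- **(S2a), level form**: any place `Q`, any `f ≠ 0`. -/
theorem h95x_exact_level {ℓ : ℕ} (hℓ : ℓ.Prime) (hM : ¬ ℓ ∣ M) (haux : auxLevel ℓ ∣ M)
    (hA : A.LiesOverPrime ℓ) (Q : Place (h13sK A) (h13sFt A M)) (f : h13sFt A M) (hf : f ≠ 0) :
    ∃ m0 : ℕ, ∀ m : ℕ, m0 ≤ m → ∃ G : h13sFt A M, G ≠ 0 ∧ Q.ord G = -(m : ℤ) ∧
      (∀ v : Place (h13sK A) (h13sFt A M), v ≠ Q → 0 ≤ v.ord G) ∧
      ∀ v : Place (h13sK A) (h13sFt A M), v ≠ Q → v.ord f ≠ 0 → v.ord G = 0 := by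
  haveI : IsAlgClosed (h13sK A) := Fermat.Agent.S18.h72_residueField_isAlgClosed A
  haveI : Infinite (h13sK A) := IsAlgClosed.instInfinite
  obtain ⟨g, -, hg⟩ := h26s_genus ℓ hℓ M hM haux A hA
  exact h95x_exact_supp (h26s_base ℓ hℓ M hM haux A hA) g hg Q f hf

/-- the reduction of `j` is not zero. -/
theorem h95x_jbar_ne_zero : h26sJ A M ≠ 0 := by
  intro h
  have h1 : h13sIncl A M (h26sJ A M) = jqModC (IsLocalRing.ResidueField A) := h26g_incl_j A M
  have h2 : (jqModC (IsLocalRing.ResidueField A)).order = -1 :=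
    Fermat.Agent.S28.Asm.order_jqModC' _
  have h3 : jqModC (IsLocalRing.ResidueField A) = 0 := by
    rw [← h1, h]
    exact map_zero _
  rw [h3, HahnSeries.order_zero] at h2
  omega

/-- **(S2a) for `j̄`**: exact pole order `m` at `Q`, regular off `Q`, and neither zero nor pole
at the zeros and poles of `j̄` other than `Q`. -/
theorem h95x_exact_j {ℓ : ℕ} (hℓ : ℓ.Prime) (hM : ¬ ℓ ∣ M) (haux : auxLevel ℓ ∣ M)
    (hA : A.LiesOverPrime ℓ) (Q : Place (h13sK A) (h13sFt A M)) :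
    ∃ m0 : ℕ, ∀ m : ℕ, m0 ≤ m → ∃ G : h13sFt A M, G ≠ 0 ∧ Q.ord G = -(m : ℤ) ∧
      (∀ v : Place (h13sK A) (h13sFt A M), v ≠ Q → 0 ≤ v.ord G) ∧
      ∀ v : Place (h13sK A) (h13sFt A M), v ≠ Q → v.ord (h26sJ A M) ≠ 0 → v.ord G = 0 :=
  h95x_exact_level A M hℓ hM haux hA Q (h26sJ A M) (h95x_jbar_ne_zero A M)

/-- **(S2a) at `∞̄`**, in terms of `q`-expansions: there is a place `Q` whose order is the order
of the `q`-expansion and, for all large `m`, a function `G` of the special fibre whose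
`q`-expansion has order exactly `- m`, regular off `Q`, without zero at the poles (and zeros) of
`j̄` other than `Q`. -/
theorem h95x_exact_inf {ℓ : ℕ} (hℓ : ℓ.Prime) (hM : ¬ ℓ ∣ M) (haux : auxLevel ℓ ∣ M)
    (hA : A.LiesOverPrime ℓ) :
    ∃ Q : Place (h13sK A) (h13sFt A M),
      (∀ f : h13sFt A M, f ≠ 0 → Q.ord f = (h13sIncl A M f).order) ∧
      ∃ m0 : ℕ, ∀ m : ℕ, m0 ≤ m → ∃ G : h13sFt A M, G ≠ 0 ∧
        (h13sIncl A M G).order = -(m : ℤ) ∧ Q.ord G = -(m : ℤ) ∧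
        (∀ v : Place (h13sK A) (h13sFt A M), v ≠ Q → 0 ≤ v.ord G) ∧
        ∀ v : Place (h13sK A) (h13sFt A M), v ≠ Q → v.ord (h26sJ A M) ≠ 0 → v.ord G = 0 := by
  obtain ⟨Q, hQ⟩ := h26g_place_inf A M
  obtain ⟨m0, hm0⟩ := h95x_exact_j A M hℓ hM haux hA Q
  refine ⟨Q, hQ, m0, fun m hm => ?_⟩
  obtain ⟨G, hG0, hGQ, hoff, hS⟩ := hm0 m hm
  exact ⟨G, hG0, by rw [← hQ G hG0]; exact hGQ, hGQ, hoff, hS⟩

end Level

end Fermat.Agent.P7
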