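import Fermat.Agent.P7.H96SepInst
import Mathlib.FieldTheory.PurelyInseparable.Basic
import Mathlib.RingTheory.PowerBasis

/-!
# Wave 7, block (A) of T-TORIC, DLOG route: the field fact (HP) `F = F^p(t)` (helper96)

`F` a field of characteristic `p`.

* `h96j_hp` : **abstract.** if ONE `t₀ ∈ F` has the property that every element of `F` is
  `∑_{j<p} t₀^j w_j^p`, then for EVERY `t ∈ F` which is not a `p`-th power every element of `F`
  is `∑_{i<p} c_i^p t^i` (the hypothesis `hHP` of helper25's `h25l_orth`).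
* `h96j_hp_of_order` : the same from an embedding `ι : F →ₐ[k] k((q))` and one `t₀` with
  `p ∤ ord (ι t₀)`, `F` finite over `k(t₀)`, `k` perfect (landed `h96e_decomp`).
* `h96j_hp_special` : **the level instance.** `F = h13sFt A M`, the function field of the special
  fibre at a good level (`p ∤ M`, `auxLevel p ∣ M`, `A` over `p`).
-/

set_option autoImplicit false
set_option linter.style.haveILetI false
set_option linter.unusedSectionVars false

open AlgebraicCurve ModularCurve Polynomial

noncomputable section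

namespace Fermat.Agent.P7

open Fermat.Agent.S37 Fermat.Agent.Red.GV Fermat.Agent.P5

section Abstract

variable {F : Type*} [Field F] (p : ℕ) [hp : Fact p.Prime] [CharP F p]

/-- **(HP), abstract.** `F = F^p(t₀)` for one `t₀` implies `F = F^p(t)` for every `t ∉ F^p`. -/
theorem h96j_hp (t₀ : F)
    (h₀ : ∀ u : F, ∃ w : ℕ → F, u = ∑ j ∈ Finset.range p, t₀ ^ j * w j ^ p)
    (t : F) (ht : ∀ s : F, s ^ p ≠ t) (w : F) :
    ∃ c : Fin p → F, w = ∑ i, c i ^ p * t ^ (i : ℕ) := by
  classical
  set E : Subfield F := (frobenius F p).fieldRange with hE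
  have hmem : ∀ x : F, x ^ p ∈ E := fun x => ⟨x, rfl⟩
  have hmem' : ∀ e : E, ∃ c : F, c ^ p = (e : F) := fun e => by
    obtain ⟨c, hc⟩ := e.2
    exact ⟨c, hc⟩
  -- `F` is spanned over `E` by the powers of `t₀`
  have hspan : Submodule.span E (Set.range fun j : Fin p => t₀ ^ (j : ℕ)) = ⊤ := by
    rw [eq_top_iff]
    rintro u -
    obtain ⟨w, hw⟩ := h₀ u
    rw [hw, Finset.sum_range]
    refine Submodule.sum_mem _ fun j _ => ?_
    have h1 : t₀ ^ (j : ℕ) * w j ^ p = (⟨w j ^ p, hmem _⟩ : E) • t₀ ^ (j : ℕ) := by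
      rw [Subfield.smul_def, smul_eq_mul, mul_comm]
    rw [h1]
    exact Submodule.smul_mem _ _ (Submodule.subset_span ⟨j, rfl⟩)
  haveI : Module.Finite E F := ⟨Submodule.fg_def.mpr ⟨_, Set.finite_range _, hspan⟩⟩
  have hle : Module.finrank E F ≤ p := by
    simpa using finrank_le_of_span_eq_top hspan
  -- purely inseparable
  haveI : CharP E p := (RingHom.charP_iff (algebraMap E F) (algebraMap E F).injective p).mpr
    inferInstance
  haveI : ExpChar E p := ExpChar.prime hp.out
  haveI : IsPurelyInseparable E F := (isPurelyInseparable_iff_pow_mem E p).mpr fun x =>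
    ⟨1, ⟨⟨x ^ p, hmem x⟩, by rw [pow_one]; rfl⟩⟩
  obtain ⟨n, y, hn⟩ := IsPurelyInseparable.minpoly_eq_X_pow_sub_C E p t
  have hn0 : n ≠ 0 := by
    rintro rfl
    have h1 : Polynomial.aeval t (minpoly E t) = 0 := minpoly.aeval E t
    rw [hn] at h1
    simp only [pow_zero, pow_one, map_sub, Polynomial.aeval_X, Polynomial.aeval_C] at h1
    obtain ⟨c, hc⟩ := hmem' y
    refine ht c ?_
    rw [hc]
    exact (sub_eq_zero.mp h1).symm
  have hdeg : p ≤ (minpoly E t).natDegree := by
    rw [hn, Polynomial.natDegree_X_pow_sub_C]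
    calc p = p ^ 1 := (pow_one p).symm
      _ ≤ p ^ n := Nat.pow_le_pow_right hp.out.pos (Nat.one_le_iff_ne_zero.mpr hn0)
  have hli : LinearIndependent E fun i : Fin p => t ^ (i : ℕ) :=
    (linearIndependent_pow (K := E) t).comp (Fin.castLE hdeg) (Fin.castLE_injective _)
  have hge : p ≤ Module.finrank E F := by
    simpa using hli.fintype_card_le_finrank
  have hcard : Fintype.card (Fin p) = Module.finrank E F := by
    rw [Fintype.card_fin]
    omega
  haveI : Nonempty (Fin p) := ⟨⟨0, hp.out.pos⟩⟩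
  let b : Module.Basis (Fin p) E F := basisOfLinearIndependentOfCardEqFinrank hli hcard
  have hb : ∀ i, b i = t ^ (i : ℕ) := fun i => by
    simp only [b, coe_basisOfLinearIndependentOfCardEqFinrank]
  choose c hc using fun i => hmem' (b.repr w i)
  refine ⟨c, ?_⟩
  conv_lhs => rw [← b.sum_repr w]
  refine Finset.sum_congr rfl fun i _ => ?_
  rw [hb, hc, Subfield.smul_def, smul_eq_mul]

end Abstract

section Order

variable {k : Type*} [Field k] (p : ℕ) [hp : Fact p.Prime] [CharP k p]
variable {F : Type*} [Field F] [Algebra k F]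

/-- **(HP)** from an embedding into `k((q))` and one `t₀` with `p ∤ ord t₀`. -/
theorem h96j_hp_of_order (hk : ∀ a : k, ∃ b : k, b ^ p = a) (ι : F →ₐ[k] LaurentSeries k)
    (t₀ : F) (ht₀ : ¬ (p : ℤ) ∣ (ι t₀).order)
    [FiniteDimensional (IntermediateField.adjoin k {t₀}) F]
    (t : F) (ht : ∀ s : F, s ^ p ≠ t) (w : F) :
    ∃ c : Fin p → F, w = ∑ i, c i ^ p * t ^ (i : ℕ) := by
  haveI : CharP F p := charP_of_injective_algebraMap (algebraMap k F).injective p
  exact h96j_hp p t₀ (fun u => h96e_decomp p hk ι t₀ ht₀ u) t ht w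

end Order

/-- **(HP) at the special fibre**: the hypothesis `hHP` of `h25l_orth` for `F = h13sFt A M`. -/
theorem h96j_hp_special {p : ℕ} (hp : p.Prime) (M : ℕ) [NeZero M] (hM : ¬ p ∣ M)
    (haux : auxLevel p ∣ M) (A : ValuationSubring Kbar) (hA : A.LiesOverPrime p) :
    ∀ t : h13sFt A M, (∀ s, s ^ p ≠ t) → ∀ w : h13sFt A M,
      ∃ c : Fin p → h13sFt A M, w = ∑ i, c i ^ p * t ^ (i : ℕ) := by
  intro t ht w
  haveI : Fact p.Prime := ⟨hp⟩
  haveI : CharP (h13sK A) p :=
    (Base.h80_charP A (IsLocalRing.residue A) p (isResidueMap_residue A p hA) :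
      CharP (IsLocalRing.ResidueField A) p)
  haveI : IsAlgClosed (h13sK A) := Fermat.Agent.S18.h72_residueField_isAlgClosed A
  have hk : ∀ a : h13sK A, ∃ b : h13sK A, b ^ p = a := fun a =>
    IsAlgClosed.exists_pow_nat_eq a hp.pos
  haveI : FiniteDimensional (IntermediateField.adjoin (h13sK A) {h26sJ A M}) (h13sFt A M) :=
    (h26s_rest hp M hM haux A hA).2.2
  have ht₀ : ¬ (p : ℤ) ∣ (h13sIncl A M (h26sJ A M)).order := by
    rw [h96e_order_j]
    intro h
    have h1 : (p : ℤ) ∣ 1 := (dvd_neg.mp h)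
    have h2 : p ∣ 1 := by exact_mod_cast h1
    exact hp.one_lt.ne' (Nat.dvd_one.mp h2)
  exact h96j_hp_of_order p hk (h13sIncl A M) (h26sJ A M) ht₀ t ht w

/-- the characteristic of the function field of the special fibre. -/
theorem h96j_charP {p : ℕ} (hp : p.Prime) (M : ℕ) [NeZero M] (A : ValuationSubring Kbar)
    (hA : A.LiesOverPrime p) : CharP (h13sFt A M) p := by
  haveI : Fact p.Prime := ⟨hp⟩
  haveI : CharP (h13sK A) p :=
    (Base.h80_charP A (IsLocalRing.residue A) p (isResidueMap_residue A p hA) :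
      CharP (IsLocalRing.ResidueField A) p)
  exact charP_of_injective_algebraMap (algebraMap (h13sK A) (h13sFt A M)).injective p

end Fermat.Agent.P7
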