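import Fermat.Agent.P7.H26IntIface
import Mathlib.RingTheory.PowerSeries.Inverse
import Mathlib.RingTheory.Polynomial.ScaleRoots
import Mathlib.RingTheory.Ideal.Quotient.Operations
import Mathlib.RingTheory.Valuation.ValuationSubring

/-!
# Wave 7, DLOG at the level, leaf INT, the CORE `H26iCore` (helper96, independent twin)

`A` a valuation ring with fraction field `K`, `B = A[[q]]`, `T = q · unit ∈ B`, `δ ∈ A`, `δ ≠ 0`,
`t = T - δ`.  If `z ∈ K[[q]]` is integral over `B` and `z t ∈ B`, then `z ∈ B`.

No Hensel lemma, no evaluation of truncations: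

* `h96i_decomp`  : `B = t B + A + δ^M B` for every `M` (`q = T v`, induction on `M`);
* `h96i_inter`   : `A ∩ (t B + δ^M B) = δ^M A` (reduce mod `δ`: `C ā = X ū ȳ` forces `ā = 0` and
  `ȳ = 0`; cancel `δ`; induction on `M`);
* `h96i_pow_mem` : `x = z t` with `z` integral gives `x ^ n ∈ t B` (`scaleRoots`);
* `h96i_val`     : `c ^ n ∈ δ^(n k) A ⟹ c ∈ δ^k A` in a valuation ring;
* `h96i_peel`    : `z' t = δ^(m+1) r`, `r ∈ B` `⟹` the coefficients of `z'` of index `≤ m` lie in
  `A` (peel the constant term, induction on `m`);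
* `h96i_core_gen`, `h96i_core : H26iCore`.
-/

set_option autoImplicit false
set_option linter.unusedSectionVars false
set_option linter.unusedVariables false

open PowerSeries

noncomputable section

namespace Fermat.Agent.P7

section Ring

variable {R : Type*} [CommRing R]

/-- **decomposition**: `B = t B + A + δ^M B`. -/
theorem h96i_decomp (T v : PowerSeries R) (δ : R) (hv : (X : PowerSeries R) = T * v) (M : ℕ) :
    ∀ x : PowerSeries R, ∃ (y r : PowerSeries R) (c : R),
      x = (T - C δ) * y + C c + C δ ^ M * r := by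
  induction M with
  | zero =>
    intro x
    exact ⟨0, x, 0, by simp⟩
  | succ M ih =>
    intro x
    obtain ⟨y', r', c', h'⟩ := ih (v * (mk fun p => coeff (p + 1) x))
    refine ⟨v * (mk fun p => coeff (p + 1) x) + C δ * y', r', constantCoeff x + δ * c', ?_⟩
    have hx := eq_X_mul_shift_add_const x
    generalize (mk fun p => coeff (p + 1) x) = x' at hx h' ⊢
    generalize constantCoeff x = c0 at hx ⊢
    have e1 : X * x' = (T - C δ) * (v * x') + C δ * (v * x') := by
      rw [hv]; ring
    have e2 : C δ * (v * x') = C δ * ((T - C δ) * y' + C c' + C δ ^ M * r') := by rw [h']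
    rw [hx, e1, e2, map_add, map_mul, pow_succ]
    ring

/-- **intersection**: `A ∩ (t B + δ^M B) = δ^M A`. -/
theorem h96i_inter [IsDomain R] (T u : PowerSeries R) (hu : IsUnit u)
    (hT : T = X * u) (δ : R) (hδ : δ ≠ 0) (M : ℕ) :
    ∀ (a : R) (y r : PowerSeries R), C a = (T - C δ) * y + C δ ^ M * r →
      ∃ a' : R, a = δ ^ M * a' := by
  induction M with
  | zero =>
    intro a y r _
    exact ⟨a, by simp⟩
  | succ M ih =>
    intro a y r h
    set π : R →+* R ⧸ Ideal.span {δ} := Ideal.Quotient.mk (Ideal.span {δ}) with hπ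
    have hπδ : π δ = 0 :=
      Ideal.Quotient.eq_zero_iff_mem.mpr (Ideal.mem_span_singleton_self δ)
    have h1 := congrArg (PowerSeries.map π) h
    simp only [map_add, map_mul, map_sub, map_pow, PowerSeries.map_C, hπδ, map_zero, sub_zero,
      pow_succ, mul_zero, zero_mul, add_zero, hT, PowerSeries.map_X] at h1
    -- `C (π a) = X * (ū * ȳ)`
    have h2 : π a = 0 := by
      have := congrArg constantCoeff h1
      simpa using this
    have h3 : PowerSeries.map π u * PowerSeries.map π y = 0 := by
      apply X_mul_cancel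
      rw [mul_zero, ← mul_assoc, ← h1, h2, map_zero]
    have h4 : PowerSeries.map π y = 0 := by
      have hu' : IsUnit (PowerSeries.map π u) := hu.map _
      exact (hu'.mul_right_eq_zero).mp h3
    have h5 : ∀ n, ∃ b : R, b * δ = coeff n y := by
      intro n
      have : π (coeff n y) = 0 := by
        rw [← PowerSeries.coeff_map, h4, map_zero]
      exact Ideal.mem_span_singleton'.mp (Ideal.Quotient.eq_zero_iff_mem.mp this)
    choose y₁ hy₁ using h5
    obtain ⟨a₁, ha₁⟩ := Ideal.mem_span_singleton'.mp (Ideal.Quotient.eq_zero_iff_mem.mp h2)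
    have hy : y = C δ * mk y₁ := by
      ext n
      rw [coeff_C_mul, coeff_mk, ← hy₁ n, mul_comm]
    have hCδ : (C δ : PowerSeries R) ≠ 0 := by
      intro h0
      apply hδ
      have := congrArg constantCoeff h0
      simpa using this
    have h6 : C a₁ = (T - C δ) * mk y₁ + C δ ^ M * r := by
      apply mul_left_cancel₀ hCδ
      have : C δ * C a₁ = C a := by rw [← map_mul, mul_comm, ha₁]
      rw [this, h, hy, pow_succ]
      ring
    obtain ⟨a', ha'⟩ := ih a₁ (mk y₁) r h6
    exact ⟨a', by rw [← ha₁, ha', pow_succ]; ring⟩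

/-- **from integrality**: `z t = x`, `z` integral `⟹` `x ^ n ∈ (t)` for some `n ≥ 1`. -/
theorem h96i_pow_mem {L : Type*} [CommRing L] [Nontrivial L] (f : R →+* L)
    (hf : Function.Injective f) (t x : R) (z : L) (hz : z * f t = f x)
    (hint : f.IsIntegralElem z) :
    ∃ n : ℕ, 1 ≤ n ∧ x ^ n ∈ Ideal.span {t} := by
  classical
  obtain ⟨P, hP, hPz⟩ := hint
  have hn : 1 ≤ P.natDegree := by
    rw [Nat.one_le_iff_ne_zero]
    intro h0
    have h1 : P = 1 := (hP.natDegree_eq_zero).mp h0
    rw [h1, Polynomial.eval₂_one] at hPz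
    exact one_ne_zero hPz
  refine ⟨P.natDegree, hn, ?_⟩
  have h1 : Polynomial.eval₂ f (f t * z) (Polynomial.scaleRoots P t) = 0 := by
    rw [Polynomial.scaleRoots_eval₂_mul, hPz, mul_zero]
  rw [mul_comm, hz, Polynomial.eval₂_at_apply] at h1
  have h2 : Polynomial.eval x (Polynomial.scaleRoots P t) = 0 := hf (h1.trans (map_zero f).symm)
  rw [Polynomial.eval_eq_sum_range, Polynomial.natDegree_scaleRoots, Finset.sum_range_succ,
    Polynomial.coeff_scaleRoots, Nat.sub_self, pow_zero, mul_one, hP.coeff_natDegree,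
    one_mul] at h2
  have h3 : x ^ P.natDegree = -∑ i ∈ Finset.range P.natDegree,
      (Polynomial.scaleRoots P t).coeff i * x ^ i := by
    rw [eq_neg_iff_add_eq_zero, add_comm]
    exact h2
  rw [h3]
  refine neg_mem (Ideal.sum_mem _ fun i hi => ?_)
  rw [Polynomial.coeff_scaleRoots]
  have hi' : i < P.natDegree := Finset.mem_range.mp hi
  obtain ⟨k, hk⟩ : ∃ k, P.natDegree - i = k + 1 := ⟨P.natDegree - i - 1, by omega⟩
  rw [hk, pow_succ]
  refine Ideal.mul_mem_right _ _ (Ideal.mul_mem_left _ _ (Ideal.mul_mem_left _ _ ?_))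
  exact Ideal.mem_span_singleton_self t

end Ring

section Val

variable {K : Type*} [Field K] (A : ValuationSubring K)

/-- **valuation rings are root closed**, in the form needed. -/
theorem h96i_val (n : ℕ) (hn : 1 ≤ n) (k : ℕ) (c δ a : A) (hδ : δ ≠ 0)
    (h : c ^ n = δ ^ (n * k) * a) : ∃ a' : A, c = δ ^ k * a' := by
  have hδK : (δ : K) ≠ 0 := fun h0 => hδ (Subtype.ext h0)
  set y : K := (c : K) / (δ : K) ^ k with hy
  have hyn : y ^ n = (a : K) := by
    have h' : ((c : K)) ^ n = (δ : K) ^ (n * k) * (a : K) := by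
      have := congrArg (Subtype.val) h
      simpa using this
    rw [hy, div_pow, h', ← pow_mul, mul_comm k n]
    field_simp
  have hyA : y ∈ A := by
    rcases A.mem_or_inv_mem y with h1 | h1
    · exact h1
    · rcases eq_or_ne y 0 with h0 | h0
      · rw [h0]; exact A.zero_mem
      · obtain ⟨m, rfl⟩ : ∃ m, n = m + 1 := ⟨n - 1, by omega⟩
        have e : y = y ^ (m + 1) * (y⁻¹) ^ m := by
          rw [pow_succ, inv_pow]
          field_simp
        rw [e, hyn]
        exact A.mul_mem _ _ a.2 (A.pow_mem h1 m)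
  refine ⟨⟨y, hyA⟩, Subtype.ext ?_⟩
  show (c : K) = (δ : K) ^ k * y
  rw [hy]
  field_simp

end Val

section Peel

variable {R : Type*} [CommRing R] {L : Type*} [Field L]

/-- **peeling**: `z' t = δ^(m+1) r` with `r ∈ B` forces the coefficients of `z'` of index `≤ m`
into `A`. -/
theorem h96i_peel (f : R →+* L) (T u : PowerSeries R) (hT : T = X * u) (δ : R)
    (hδ : f δ ≠ 0) (m : ℕ) :
    ∀ (z' : PowerSeries L) (r : PowerSeries R),
      z' * PowerSeries.map f (T - C δ) = C (f δ) ^ (m + 1) * PowerSeries.map f r →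
      ∃ (w : PowerSeries R) (s : PowerSeries L), z' = PowerSeries.map f w + X ^ (m + 1) * s := by
  induction m with
  | zero =>
    intro z' r h
    have h0 := congrArg constantCoeff h
    simp only [map_mul, map_sub, PowerSeries.map_C, constantCoeff_C, hT, PowerSeries.map_X,
      constantCoeff_X, zero_mul, zero_sub, zero_add, pow_one] at h0
    have h1 : constantCoeff z' = f (-(constantCoeff r)) := by
      have e : f δ * constantCoeff z' = f δ * f (-(constantCoeff r)) := by
        rw [map_neg]
        have : constantCoeff (PowerSeries.map f r) = f (constantCoeff r) := by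
          rw [← coeff_zero_eq_constantCoeff_apply, PowerSeries.coeff_map,
            coeff_zero_eq_constantCoeff_apply]
        rw [this] at h0
        linear_combination -h0
      exact mul_left_cancel₀ hδ e
    refine ⟨C (-(constantCoeff r)), mk fun p => coeff (p + 1) z', ?_⟩
    have hz := eq_X_mul_shift_add_const z'
    rw [PowerSeries.map_C, ← h1, pow_one, add_comm]
    exact hz
  | succ m ih =>
    intro z' r h
    have hcr : constantCoeff (PowerSeries.map f r) = f (constantCoeff r) := by
      rw [← coeff_zero_eq_constantCoeff_apply, PowerSeries.coeff_map,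
        coeff_zero_eq_constantCoeff_apply]
    have h0 := congrArg constantCoeff h
    simp only [map_mul, map_sub, PowerSeries.map_C, constantCoeff_C, hT, PowerSeries.map_X,
      constantCoeff_X, zero_mul, zero_sub, map_pow, hcr] at h0
    have h1 : constantCoeff z' = f (-(δ ^ (m + 1) * constantCoeff r)) := by
      have e : f δ * constantCoeff z' = f δ * f (-(δ ^ (m + 1) * constantCoeff r)) := by
        rw [map_neg, map_mul, map_pow]
        rw [pow_succ] at h0
        linear_combination -h0
      exact mul_left_cancel₀ hδ e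
    have hz := eq_X_mul_shift_add_const z'
    have hr := eq_X_mul_shift_add_const r
    generalize (mk fun p => coeff (p + 1) z') = z'' at hz
    generalize (mk fun p => coeff (p + 1) r) = r' at hr
    generalize constantCoeff r = r0 at hr h1
    rw [h1] at hz
    -- the equation for `z''`
    have h2 : z'' * PowerSeries.map f (T - C δ) =
        C (f δ) ^ (m + 1) * PowerSeries.map f (C δ * r' + C r0 * u) := by
      apply X_mul_cancel
      have e1 : X * (z'' * PowerSeries.map f (T - C δ)) =
          z' * PowerSeries.map f (T - C δ) -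
            C (f (-(δ ^ (m + 1) * r0))) * PowerSeries.map f (T - C δ) := by
        conv_rhs => rw [hz]
        ring
      rw [e1, h, hr, hT]
      simp only [map_add, map_mul, map_sub, map_neg, map_pow, PowerSeries.map_C,
        PowerSeries.map_X]
      ring
    obtain ⟨w', s', hw'⟩ := ih z'' (C δ * r' + C r0 * u) h2
    refine ⟨X * w' + C (-(δ ^ (m + 1) * r0)), s', ?_⟩
    rw [hz, hw']
    simp only [map_add, map_mul, PowerSeries.map_C, PowerSeries.map_X]
    ring

end Peel

section Core

variable {K : Type*} [Field K] (A : ValuationSubring K)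

/-- **CORE**, for any valuation subring of any field. -/
theorem h96i_core_gen (T x : PowerSeries A) (z : PowerSeries K) (δ : A) (hδ : δ ≠ 0)
    (hT0 : PowerSeries.coeff 0 T = 0) (hT1 : IsUnit (PowerSeries.coeff 1 T))
    (hz : z * PowerSeries.map A.subtype (T - PowerSeries.C δ) = PowerSeries.map A.subtype x)
    (hint : (PowerSeries.map A.subtype).IsIntegralElem z) :
    ∃ y : PowerSeries A, PowerSeries.map A.subtype y = z := by
  classical
  have hFinj : Function.Injective (PowerSeries.map A.subtype) :=
    PowerSeries.map_injective A.subtype A.subtype_injective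
  -- `T = X * u`
  obtain ⟨u, hu⟩ : ∃ u : PowerSeries A, u = mk fun p => coeff (p + 1) T := ⟨_, rfl⟩
  have hTu : T = X * u := by
    have h := eq_X_mul_shift_add_const T
    rw [← coeff_zero_eq_constantCoeff_apply, hT0, map_zero, add_zero, ← hu] at h
    exact h
  have huu : IsUnit u := by
    rw [isUnit_iff_constantCoeff, ← coeff_zero_eq_constantCoeff_apply, hu, coeff_mk]
    exact hT1
  obtain ⟨v, hv⟩ : ∃ v, u * v = 1 := huu.exists_right_inv
  have hXv : (X : PowerSeries A) = T * v := by rw [hTu, mul_assoc, hv, mul_one]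
  -- `x ^ n ∈ (t)`
  obtain ⟨n, hn, hxn⟩ := h96i_pow_mem (PowerSeries.map A.subtype) hFinj (T - C δ) x z hz hint
  have hfδ : A.subtype δ ≠ 0 := fun h0 => hδ (Subtype.ext h0)
  -- the coefficients
  have hcoef : ∀ m, ∃ a : A, (a : K) = coeff m z := by
    intro m
    obtain ⟨y, r, c, hx⟩ := h96i_decomp T v δ hXv (n * (m + 1)) x
    obtain ⟨J, hJ⟩ : ∃ J : Ideal (PowerSeries A),
        J = Ideal.span {T - C δ, C δ ^ (n * (m + 1))} := ⟨_, rfl⟩
    have ht : T - C δ ∈ J := by
      rw [hJ]; exact Ideal.subset_span (Set.mem_insert _ _)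
    have hd : C δ ^ (n * (m + 1)) ∈ J := by
      rw [hJ]; exact Ideal.subset_span (Set.mem_insert_of_mem _ rfl)
    have hxJ : Ideal.Quotient.mk J x = Ideal.Quotient.mk J (C c) := by
      rw [Ideal.Quotient.eq]
      have e : x - C c = (T - C δ) * y + C δ ^ (n * (m + 1)) * r := by rw [hx]; ring
      rw [e]
      exact J.add_mem (J.mul_mem_right _ ht) (J.mul_mem_right _ hd)
    have hcn : C (c ^ n) ∈ J := by
      rw [← Ideal.Quotient.eq_zero_iff_mem, map_pow, map_pow, ← hxJ, ← map_pow,
        Ideal.Quotient.eq_zero_iff_mem]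
      exact Ideal.span_le.mpr (Set.singleton_subset_iff.mpr ht) hxn
    rw [hJ] at hcn
    obtain ⟨y1, r1, h1⟩ := Ideal.mem_span_pair.mp hcn
    obtain ⟨a, ha⟩ := h96i_inter T u huu hTu δ hδ (n * (m + 1)) (c ^ n) y1 r1
      (by rw [← h1]; ring)
    obtain ⟨a', ha'⟩ := h96i_val A n hn (m + 1) c δ a hδ ha
    obtain ⟨e', he'⟩ : ∃ e', n * (m + 1) = (m + 1) + e' :=
      ⟨n * (m + 1) - (m + 1), by
        have : m + 1 ≤ n * (m + 1) := Nat.le_mul_of_pos_left _ hn
        omega⟩
    have hx' : x = (T - C δ) * y + C δ ^ (m + 1) * (C a' + C δ ^ e' * r) := by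
      rw [hx, ha', he', map_mul, map_pow, pow_add]
      ring
    have hz' : (z - PowerSeries.map A.subtype y) * PowerSeries.map A.subtype (T - C δ) =
        C (A.subtype δ) ^ (m + 1) * PowerSeries.map A.subtype (C a' + C δ ^ e' * r) := by
      rw [sub_mul, hz]
      conv_lhs => rw [hx']
      simp only [map_add, map_mul, map_sub, map_pow, PowerSeries.map_C]
      ring
    obtain ⟨w, s, hw⟩ := h96i_peel A.subtype T u hTu δ hfδ m _ _ hz'
    refine ⟨coeff m (y + w), ?_⟩
    have hzz : z = PowerSeries.map A.subtype (y + w) + X ^ (m + 1) * s := by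
      rw [map_add, add_assoc, ← hw]
      ring
    have e1 : coeff m (PowerSeries.map A.subtype (y + w) + X ^ (m + 1) * s) =
        coeff m (PowerSeries.map A.subtype (y + w)) + coeff m (X ^ (m + 1) * s) :=
      map_add _ _ _
    rw [hzz, e1, PowerSeries.coeff_map, coeff_X_pow_mul', if_neg (by omega), add_zero]
    rfl
  choose a ha using hcoef
  refine ⟨mk a, ?_⟩
  ext m
  rw [PowerSeries.coeff_map, coeff_mk]
  exact ha m

/-- **CORE** (exact frozen shape of P7/H26IntIface). -/
theorem h96i_core : H26iCore := by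
  intro A T x z δ _ hδ hT0 hT1 hz hint
  exact h96i_core_gen A T x z δ hδ hT0 hT1 hz hint

end Core

end Fermat.Agent.P7
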