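import Fermat.Agent.P7.H96Dlog
import Mathlib.FieldTheory.IntermediateField.Adjoin.Basic
import Mathlib.Algebra.CharP.Lemmas
import Mathlib.Algebra.CharP.Frobenius
import Mathlib.Algebra.Polynomial.AlgebraMap
import Mathlib.LinearAlgebra.Dimension.Finite
import Mathlib.LinearAlgebra.Basis.VectorSpace
import Mathlib.RingTheory.Int.Basic

/-!
# Wave 7, block (A) of T-TORIC, DLOG route, leaf DL1 SEP (helper96)

`k` a field of characteristic `p` in which every element is a `p`-th power, `F` a field with an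
embedding `ι : F →ₐ[k] k((q))`, `t ∈ F` with `p ∤ ord_q (ι t)`, `F` finite over `k(t)`.

* `h96e_poly_decomp` : every polynomial is `∑_{j<p} X^j r_j^p`.
* `h96e_adjoin_decomp` : every element of `k(t)` is `∑_{j<p} t^j d_j^p` with `d_j ∈ k(t)`.
* `h96e_indep` : `1, τ, …, τ^{p-1}` are linearly independent over `k((q))^p` when
  `p ∤ ord τ`.
* `h96e_decomp` : every element of `F` is `∑_{j<p} t^j w_j^p` with `w_j ∈ F`
  (`F = F^p(t)`: the extension `F / k(t)` is separable).
* `h96e_sep` : **SEP.** `u ∈ F`, `θ (ι u) = 0` ⟹ `u` is a `p`-th power in `F`.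
-/

set_option autoImplicit false
set_option linter.unusedSectionVars false

open HahnSeries Polynomial

noncomputable section

namespace Fermat.Agent.P7

variable {k : Type*} [Field k] (p : ℕ) [hp : Fact p.Prime] [CharP k p]

/-- every polynomial over a perfect field of characteristic `p` is `∑_{j<p} X^j r_j^p`. -/
theorem h96e_poly_decomp (hk : ∀ a : k, ∃ b : k, b ^ p = a) (R : k[X]) :
    ∃ r : ℕ → k[X], R = ∑ j ∈ Finset.range p, X ^ j * r j ^ p := by
  induction R using Polynomial.induction_on' with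
  | add P Q hP hQ =>
    obtain ⟨r, hr⟩ := hP
    obtain ⟨s, hs⟩ := hQ
    refine ⟨fun j => r j + s j, ?_⟩
    rw [hr, hs, ← Finset.sum_add_distrib]
    refine Finset.sum_congr rfl fun j _ => ?_
    rw [add_pow_char, mul_add]
  | monomial m a =>
    obtain ⟨b, hb⟩ := hk a
    refine ⟨fun j => if j = m % p then C b * X ^ (m / p) else 0, ?_⟩
    rw [Finset.sum_eq_single (m % p)]
    · dsimp only
      rw [if_pos rfl, mul_pow, ← C_pow, hb, ← pow_mul, mul_left_comm, ← pow_add,
        mul_comm (m / p) p, Nat.mod_add_div, C_mul_X_pow_eq_monomial]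
    · intro j _ hj
      dsimp only
      rw [if_neg hj, zero_pow hp.out.ne_zero, mul_zero]
    · intro h
      exact absurd (Finset.mem_range.mpr (Nat.mod_lt _ hp.out.pos)) h

variable {F : Type*} [Field F] [Algebra k F]

/-- every element of `k(t)` is `∑_{j<p} t^j d_j^p` with `d_j ∈ k(t)`. -/
theorem h96e_adjoin_decomp (hk : ∀ a : k, ∃ b : k, b ^ p = a) (t : F)
    (c : F) (hc : c ∈ IntermediateField.adjoin k {t}) :
    ∃ d : ℕ → F, (∀ j, d j ∈ IntermediateField.adjoin k {t}) ∧
      c = ∑ j ∈ Finset.range p, t ^ j * d j ^ p := by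
  obtain ⟨P, Q, rfl⟩ := (IntermediateField.mem_adjoin_simple_iff k c).mp hc
  have ht : t ∈ IntermediateField.adjoin k {t} := IntermediateField.mem_adjoin_simple_self k t
  have hmem : ∀ S : k[X], aeval t S ∈ IntermediateField.adjoin k {t} := fun S =>
    IntermediateField.algebra_adjoin_le_adjoin k _ (Polynomial.aeval_mem_adjoin_singleton k t)
  by_cases hQ : aeval t Q = 0
  · refine ⟨fun _ => 0, fun _ => zero_mem _, ?_⟩
    rw [hQ, div_zero]
    simp [zero_pow hp.out.ne_zero]
  · obtain ⟨r, hr⟩ := h96e_poly_decomp p hk (P * Q ^ (p - 1))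
    refine ⟨fun j => aeval t (r j) / aeval t Q, fun j => div_mem (hmem _) (hmem _), ?_⟩
    have h1 : aeval t P / aeval t Q = aeval t (P * Q ^ (p - 1)) / aeval t Q ^ p := by
      rw [map_mul, map_pow, ← pow_sub_one_mul hp.out.ne_zero (aeval t Q),
        mul_comm (aeval t P), mul_div_mul_left _ _ (pow_ne_zero _ hQ)]
    rw [h1, hr, map_sum, div_eq_mul_inv, Finset.sum_mul]
    refine Finset.sum_congr rfl fun j _ => ?_
    rw [map_mul, map_pow, map_pow, aeval_X, div_pow, div_eq_mul_inv, mul_assoc]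

/-- `1, τ, …, τ^{p-1}` are linearly independent over the `p`-th powers when `p ∤ ord τ`. -/
theorem h96e_indep {τ : LaurentSeries k} (hτ : ¬ (p : ℤ) ∣ τ.order) (W : ℕ → LaurentSeries k)
    (h : ∑ j ∈ Finset.range p, τ ^ j * W j ^ p = 0) :
    ∀ j ∈ Finset.range p, W j = 0 := by
  classical
  have hτ0 : τ ≠ 0 := by
    rintro rfl
    exact hτ (by rw [HahnSeries.order_zero]; exact dvd_zero _)
  by_contra hne
  push Not at hne
  obtain ⟨j₁, hj₁, hW₁⟩ := hne
  set J : Finset ℕ := (Finset.range p).filter (fun j => W j ≠ 0) with hJ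
  set o : ℕ → ℤ := fun j => (j : ℤ) * τ.order + (p : ℤ) * (W j).order with ho
  have hT0 : ∀ j, W j ≠ 0 → τ ^ j * W j ^ p ≠ 0 := fun j hj =>
    mul_ne_zero (pow_ne_zero _ hτ0) (pow_ne_zero _ hj)
  have hord : ∀ j, W j ≠ 0 → (τ ^ j * W j ^ p).order = o j := by
    intro j hj
    rw [HahnSeries.order_mul (pow_ne_zero _ hτ0) (pow_ne_zero _ hj), HahnSeries.order_pow,
      HahnSeries.order_pow]
    simp only [ho, nsmul_eq_mul]
  obtain ⟨j₀, hj₀J, hmin⟩ := Finset.exists_min_image J o
    ⟨j₁, Finset.mem_filter.mpr ⟨hj₁, hW₁⟩⟩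
  have hj₀ := Finset.mem_filter.mp hj₀J
  have hinj : ∀ j ∈ J, o j = o j₀ → j = j₀ := by
    intro j hj hoj
    have hj' := Finset.mem_filter.mp hj
    have h1 : ((j : ℤ) - j₀) * τ.order = (p : ℤ) * ((W j₀).order - (W j).order) := by
      simp only [ho] at hoj
      linear_combination hoj
    have h2 : (p : ℤ) ∣ ((j : ℤ) - j₀) * τ.order := ⟨_, h1⟩
    have hpZ : Prime (p : ℤ) := Nat.prime_iff_prime_int.mp hp.out
    have h3 : (p : ℤ) ∣ (j : ℤ) - j₀ := (hpZ.dvd_or_dvd h2).resolve_right hτ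
    have h4 : (j₀ : ℤ) ≡ j [ZMOD p] := (Int.modEq_iff_dvd).mpr h3
    have h5 : j₀ ≡ j [MOD p] := Int.natCast_modEq_iff.mp h4
    exact (h5.eq_of_lt_of_lt (Finset.mem_range.mp hj₀.1) (Finset.mem_range.mp hj'.1)).symm
  have hc := congrArg (fun x : LaurentSeries k => x.coeff (o j₀)) h
  simp only [HahnSeries.coeff_sum, HahnSeries.coeff_zero] at hc
  rw [Finset.sum_eq_single j₀] at hc
  · rw [← hord j₀ hj₀.2] at hc
    exact (hT0 j₀ hj₀.2) (HahnSeries.coeff_order_eq_zero.mp hc)
  · intro j hj hjne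
    by_cases hWj : W j = 0
    · rw [hWj, zero_pow hp.out.ne_zero, mul_zero, HahnSeries.coeff_zero]
    · have hjJ : j ∈ J := Finset.mem_filter.mpr ⟨hj, hWj⟩
      have h1 : o j₀ < o j := lt_of_le_of_ne (hmin j hjJ) fun h => hjne (hinj j hjJ h.symm)
      rw [← hord j hWj] at h1
      exact HahnSeries.coeff_eq_zero_of_lt_order h1
  · intro h0
    exact absurd hj₀.1 h0

/-- `θ τ ≠ 0` when `p ∤ ord τ`. -/
theorem h96e_theta_ne_zero {τ : LaurentSeries k} (hτ : ¬ (p : ℤ) ∣ τ.order) :
    h96dTheta τ ≠ 0 := by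
  have hτ0 : τ ≠ 0 := by
    rintro rfl
    exact hτ (by rw [HahnSeries.order_zero]; exact dvd_zero _)
  intro h
  exact hτ0 (HahnSeries.coeff_order_eq_zero.mp
    (((h96d_theta_eq_zero_iff p τ).mp h) τ.order hτ))

section Main

variable (hk : ∀ a : k, ∃ b : k, b ^ p = a) (ι : F →ₐ[k] LaurentSeries k) (t : F)

include hk in
/-- the key computation: an `E`-combination of the `p`-th powers of a family, `E = k(t)`, is
`∑_{j<p} t^j (∑ᵢ d i j • b i)^p`. -/
theorem h96e_key {n : ℕ} (b : Fin n → F) (g : Fin n → IntermediateField.adjoin k {t}) :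
    ∃ d : Fin n → ℕ → IntermediateField.adjoin k {t},
      (∀ i, ((g i : IntermediateField.adjoin k {t}) : F) =
        ∑ j ∈ Finset.range p, t ^ j * ((d i j : IntermediateField.adjoin k {t}) : F) ^ p) ∧
      ∑ i, g i • b i ^ p = ∑ j ∈ Finset.range p, t ^ j * (∑ i, d i j • b i) ^ p := by
  have : CharP F p := charP_of_injective_algebraMap (algebraMap k F).injective p
  have h1 : ∀ i, ∃ d : ℕ → F, (∀ j, d j ∈ IntermediateField.adjoin k {t}) ∧
      ((g i : IntermediateField.adjoin k {t}) : F) = ∑ j ∈ Finset.range p, t ^ j * d j ^ p :=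
    fun i => h96e_adjoin_decomp p hk t _ (g i).2
  choose d hd hg using h1
  refine ⟨fun i j => ⟨d i j, hd i j⟩, hg, ?_⟩
  have h2 : ∀ i, g i • b i ^ p = ∑ j ∈ Finset.range p, t ^ j * (d i j * b i) ^ p := by
    intro i
    rw [IntermediateField.smul_def, smul_eq_mul, hg i, Finset.sum_mul]
    refine Finset.sum_congr rfl fun j _ => ?_
    rw [mul_pow, mul_assoc]
  rw [Finset.sum_congr rfl fun i _ => h2 i, Finset.sum_comm]
  refine Finset.sum_congr rfl fun j _ => ?_
  rw [sum_pow_char, Finset.mul_sum]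
  refine Finset.sum_congr rfl fun i _ => ?_
  rw [IntermediateField.smul_def, smul_eq_mul]

include hk in
/-- `F = F^p(t)`: every element of `F` is `∑_{j<p} t^j w_j^p`. -/
theorem h96e_decomp (ht : ¬ (p : ℤ) ∣ (ι t).order)
    [FiniteDimensional (IntermediateField.adjoin k {t}) F] (u : F) :
    ∃ w : ℕ → F, u = ∑ j ∈ Finset.range p, t ^ j * w j ^ p := by
  classical
  set E := IntermediateField.adjoin k {t} with hE
  set n := Module.finrank E F with hn
  let b : Module.Basis (Fin n) E F := Module.finBasis E F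
  have hli : LinearIndependent E (fun i => b i ^ p) := by
    rw [Fintype.linearIndependent_iff]
    intro g hg
    obtain ⟨d, hd, hsum⟩ := h96e_key p hk t (fun i => b i) g
    rw [hg] at hsum
    have h1 := congrArg ι hsum.symm
    rw [map_sum, map_zero] at h1
    have h2 : ∑ j ∈ Finset.range p, ι t ^ j * ι (∑ i, d i j • b i) ^ p = 0 := by
      rw [← h1]
      refine Finset.sum_congr rfl fun j _ => ?_
      rw [map_mul, map_pow, map_pow]
    have h3 := h96e_indep p ht (fun j => ι (∑ i, d i j • b i)) h2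
    have h4 : ∀ j ∈ Finset.range p, ∀ i, d i j = 0 := by
      intro j hj
      have h5 : ∑ i, d i j • b i = 0 := ι.toRingHom.injective (by
        rw [map_zero]
        exact h3 j hj)
      exact fun i => (Fintype.linearIndependent_iff.mp b.linearIndependent) (fun i => d i j) h5 i
    intro i
    apply Subtype.ext
    rw [hd i]
    refine Finset.sum_eq_zero fun j hj => ?_
    rw [h4 j hj i]
    simp [zero_pow hp.out.ne_zero]
  have : Nonempty (Fin n) := ⟨⟨0, Module.finrank_pos⟩⟩
  let b' : Module.Basis (Fin n) E F :=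
    basisOfLinearIndependentOfCardEqFinrank hli (by rw [Fintype.card_fin])
  have hb' : ∀ i, b' i = b i ^ p := fun i => by
    simp only [b', coe_basisOfLinearIndependentOfCardEqFinrank]
  obtain ⟨d, -, hsum⟩ := h96e_key p hk t (fun i => b i) (fun i => b'.repr u i)
  refine ⟨fun j => ∑ i, d i j • b i, ?_⟩
  rw [← hsum]
  conv_lhs => rw [← b'.sum_repr u]
  exact Finset.sum_congr rfl fun i _ => by rw [hb']

include hk in
/-- **SEP.** an element of `F` whose `q`-expansion has derivative `0` is a `p`-th power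
in `F`. -/
theorem h96e_sep (ht : ¬ (p : ℤ) ∣ (ι t).order)
    [FiniteDimensional (IntermediateField.adjoin k {t}) F] (u : F)
    (hu : h96dTheta (ι u) = 0) :
    ∃ w : F, u = w ^ p := by
  obtain ⟨w, hw⟩ := h96e_decomp p hk ι t ht u
  have hτ0 : ι t ≠ 0 := by
    intro h
    exact ht (by rw [h, HahnSeries.order_zero]; exact dvd_zero _)
  -- apply `θ`
  have h1 : h96dTheta (ι u) =
      h96dTheta (ι t) * (ι t)⁻¹ * ∑ j ∈ Finset.range p, ι t ^ j * (HahnSeries.C (j : k) * ι (w j)) ^ p := by
    rw [hw, map_sum, Finset.mul_sum]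
    have hadd : ∀ (s : Finset ℕ) (f : ℕ → LaurentSeries k),
        h96dTheta (∑ j ∈ s, f j) = ∑ j ∈ s, h96dTheta (f j) := by
      intro s f
      induction s using Finset.induction_on with
      | empty => simp [h96d_theta_zero]
      | insert a s ha ih => rw [Finset.sum_insert ha, Finset.sum_insert ha, h96d_theta_add, ih]
    rw [hadd]
    refine Finset.sum_congr rfl fun j _ => ?_
    have e1 : ι (t ^ j * w j ^ p) = ι t ^ j * ι (w j) ^ p := by
      simp only [map_mul, map_pow]
    have e2 : h96dTheta (ι t ^ j * ι (w j) ^ p) = h96dTheta (ι t ^ j) * ι (w j) ^ p := by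
      rw [h96d_theta_mul, h96d_theta_pow_char p, mul_zero, add_zero]
    have e3 : h96dTheta (ι t ^ j) =
        HahnSeries.C (j : k) * ι t ^ j * (h96dTheta (ι t) * (ι t)⁻¹) := by
      rcases Nat.eq_zero_or_pos j with rfl | hjpos
      · simp [h96d_theta_one]
      · obtain ⟨m, rfl⟩ : ∃ m, j = m + 1 := ⟨j - 1, (Nat.succ_pred_eq_of_pos hjpos).symm⟩
        rw [h96d_theta_pow]
        have hC : ((m + 1 : ℕ) : LaurentSeries k) = HahnSeries.C ((m + 1 : ℕ) : k) := by
          rw [map_natCast]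
        rw [hC, pow_succ (ι t) m]
        field_simp
    have e4 : (HahnSeries.C (j : k) * ι (w j)) ^ p = HahnSeries.C (j : k) * ι (w j) ^ p := by
      rw [mul_pow, ← map_pow]
      congr 2
      exact map_natCast (frobenius k p) j
    rw [e1, e2, e3, e4]
    ring
  rw [hu] at h1
  have h2 : ∑ j ∈ Finset.range p, ι t ^ j * (HahnSeries.C (j : k) * ι (w j)) ^ p = 0 := by
    rcases mul_eq_zero.mp h1.symm with h | h
    · rcases mul_eq_zero.mp h with h' | h'
      · exact absurd h' (h96e_theta_ne_zero p ht)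
      · exact absurd h' (inv_ne_zero hτ0)
    · exact h
  have h3 := h96e_indep p ht (fun j => HahnSeries.C (j : k) * ι (w j)) h2
  have h4 : ∀ j ∈ Finset.range p, j ≠ 0 → w j = 0 := by
    intro j hj hj0
    have h5 := h3 j hj
    rcases mul_eq_zero.mp h5 with h6 | h6
    · exfalso
      have h7 : (j : k) = 0 := HahnSeries.C_injective (by rw [h6, map_zero])
      have h8 : p ∣ j := (CharP.cast_eq_zero_iff k p j).mp h7
      exact absurd (Nat.le_of_dvd (Nat.pos_of_ne_zero hj0) h8)
        (not_le.mpr (Finset.mem_range.mp hj))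
    · exact ι.toRingHom.injective (by rw [map_zero]; exact h6)
  refine ⟨w 0, ?_⟩
  rw [hw, Finset.sum_eq_single 0]
  · rw [pow_zero, one_mul]
  · intro j hj hj0
    rw [h4 j hj hj0, zero_pow hp.out.ne_zero, mul_zero]
  · intro h
    exact absurd (Finset.mem_range.mpr hp.out.pos) h

end Main

end Fermat.Agent.P7
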