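import Mathlib

/-!
# Wave 7 (S44), DLOG at the level `M`, leaf INT, abstract core (helper97, prefix `h97q_`)

Mathlib only.  `A` a valuation subring of a field `K` which is ARCHIMEDEAN (`harch`: powers of a
non-unit become divisible by any nonzero element), `R = A((q)) ⊆ K((q))` the Laurent series with
coefficients in `A` (`h97qR A`).

* `h97q_cic` : `A` is completely integrally closed: `c ≠ 0`, `c x ^ k ∈ A` for all `k` `⇒ x ∈ A`.
* `h97q_abs` : `R` is completely integrally closed in `K((q))`: `d ≠ 0`, `d x ^ k ∈ R` for all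
  `k` `⇒ x ∈ R`.  [Let `m` be the least index with `x_m ∉ A`; subtracting the truncation of `x`
  below `m` (an element of `R`) one may assume that `x` has order `m`; the leading coefficient of
  `d x ^ k` is `d_s x_m ^ k`.]
* `h97q_int_abs` : an element `x` of `K((q))` which is integral over a ring mapping to `R` and
  such that `d₀ x ∈ R` for some `d₀ ≠ 0` in `R` lies in `R`.
-/

set_option autoImplicit false
set_option linter.unusedSectionVars false
set_option linter.unusedVariables false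
set_option linter.style.haveILetI false

noncomputable section

namespace Fermat.Agent.P7

open HahnSeries

variable {K : Type*} [Field K] (A : ValuationSubring K)

/-- the Laurent series with coefficients in `A`. -/
def h97qR : Subring (LaurentSeries K) where
  carrier := {x | ∀ n : ℤ, x.coeff n ∈ A}
  mul_mem' := by
    intro x y hx hy n
    rw [HahnSeries.coeff_mul]
    exact sum_mem (fun ij _ => mul_mem (hx _) (hy _))
  one_mem' := by
    intro n
    rw [HahnSeries.coeff_one]
    split_ifs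
    · exact one_mem _
    · exact zero_mem _
  add_mem' := by
    intro x y hx hy n
    rw [HahnSeries.coeff_add]
    exact add_mem (hx n) (hy n)
  zero_mem' := by
    intro n
    rw [HahnSeries.coeff_zero]
    exact zero_mem _
  neg_mem' := by
    intro x hx n
    rw [HahnSeries.coeff_neg]
    exact neg_mem (hx n)

theorem h97q_mem_R {x : LaurentSeries K} : x ∈ h97qR A ↔ ∀ n : ℤ, x.coeff n ∈ A := Iff.rfl

/-- an archimedean valuation ring is completely integrally closed. -/
theorem h97q_cic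
    (harch : ∀ y c : K, y ∈ A.nonunits → c ∈ A → c ≠ 0 → ∃ n : ℕ, ∃ a ∈ A, y ^ n = c * a)
    (c x : K) (hc : c ≠ 0) (h : ∀ k : ℕ, c * x ^ k ∈ A) : x ∈ A := by
  by_contra hx
  have hx0 : x ≠ 0 := fun h0 => hx (h0 ▸ A.zero_mem)
  have hy : x⁻¹ ∈ A.nonunits := by
    rw [ValuationSubring.mem_nonunits_iff, map_inv₀]
    have h1 : 1 < A.valuation x := by
      rw [← not_le, ValuationSubring.valuation_le_one_iff]
      exact hx
    exact inv_lt_one_of_one_lt₀ h1
  have hcA : c ∈ A := by
    have := h 0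
    rwa [pow_zero, mul_one] at this
  have hyA : x⁻¹ ∈ A := A.nonunits_subset hy
  obtain ⟨n, a, ha, hn⟩ := harch x⁻¹ (c * x⁻¹) hy (mul_mem hcA hyA)
    (mul_ne_zero hc (inv_ne_zero hx0))
  -- `1 = c * x ^ n * x⁻¹ * a`
  have h1 : c * x ^ n * (x⁻¹ * a) = 1 := by
    have h2 : x ^ n * x⁻¹ ^ n = 1 := by
      rw [← mul_pow, mul_inv_cancel₀ hx0, one_pow]
    calc c * x ^ n * (x⁻¹ * a) = x ^ n * (c * x⁻¹ * a) := by ring
      _ = x ^ n * x⁻¹ ^ n := by rw [hn]
      _ = 1 := h2
  -- `x = c * x ^ (n + 1) * (x⁻¹ * a)`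
  have h3 : x = c * x ^ (n + 1) * (x⁻¹ * a) := by
    calc x = x * 1 := (mul_one x).symm
      _ = x * (c * x ^ n * (x⁻¹ * a)) := by rw [h1]
      _ = c * x ^ (n + 1) * (x⁻¹ * a) := by ring
  apply hx
  rw [h3]
  exact mul_mem (h (n + 1)) (mul_mem hyA ha)

/-- powers of a nonzero Laurent series: order and leading coefficient. -/
theorem h97q_pow (y : LaurentSeries K) (hy : y ≠ 0) (k : ℕ) :
    (y ^ k).order = k * y.order ∧ (y ^ k).leadingCoeff = y.leadingCoeff ^ k := by
  induction k with
  | zero =>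
    refine ⟨?_, ?_⟩
    · rw [pow_zero, HahnSeries.order_one]
      simp
    · rw [pow_zero, pow_zero, HahnSeries.leadingCoeff_one]
  | succ k ih =>
    have hk : y ^ k ≠ 0 := pow_ne_zero k hy
    refine ⟨?_, ?_⟩
    · rw [pow_succ, HahnSeries.order_mul hk hy, ih.1]
      push_cast
      ring
    · rw [pow_succ, pow_succ, HahnSeries.leadingCoeff_mul, ih.2]

/-- **`A((q))` is completely integrally closed in `K((q))`.** -/
theorem h97q_abs
    (harch : ∀ y c : K, y ∈ A.nonunits → c ∈ A → c ≠ 0 → ∃ n : ℕ, ∃ a ∈ A, y ^ n = c * a)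
    (x d : LaurentSeries K) (hd : d ≠ 0) (h : ∀ k : ℕ, d * x ^ k ∈ h97qR A) :
    x ∈ h97qR A := by
  classical
  by_contra hx
  rw [h97q_mem_R] at hx
  -- the least index with a coefficient outside `A`
  set S : Set ℤ := {n | x.coeff n ∉ A} with hS
  have hSne : S.Nonempty := by
    obtain ⟨n0, hn0⟩ := not_forall.mp hx
    exact ⟨n0, hn0⟩
  have hSsub : S ⊆ x.support := by
    intro n hn
    rw [HahnSeries.mem_support]
    intro h0
    apply hn
    rw [h0]
    exact A.zero_mem
  have hSwf : S.IsWF := x.isWF_support.mono hSsub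
  set m : ℤ := hSwf.min hSne with hm
  have hmS : x.coeff m ∉ A := hSwf.min_mem hSne
  have hmin : ∀ n : ℤ, n < m → x.coeff n ∈ A := by
    intro n hn
    by_contra hnA
    exact absurd hn (hSwf.not_lt_min hSne hnA)
  -- the truncation
  let u : LaurentSeries K :=
    ⟨fun n => if n < m then x.coeff n else 0, x.isPWO_support.mono (by
      intro n hn
      rw [Function.mem_support] at hn
      rw [HahnSeries.mem_support]
      intro h0
      apply hn
      simp only [h0, ite_self])⟩
  have hu_coeff : ∀ n, u.coeff n = if n < m then x.coeff n else 0 := fun n => rfl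
  have huR : u ∈ h97qR A := by
    intro n
    rw [hu_coeff]
    split_ifs with hn
    · exact hmin n hn
    · exact A.zero_mem
  set x' : LaurentSeries K := x - u with hx'
  have hx'_coeff : ∀ n, x'.coeff n = if n < m then 0 else x.coeff n := by
    intro n
    rw [hx', HahnSeries.coeff_sub, hu_coeff]
    split_ifs
    · exact sub_self _
    · exact sub_zero _
  have hcm : x'.coeff m = x.coeff m := by
    rw [hx'_coeff, if_neg (lt_irrefl m)]
  have hcm0 : x.coeff m ≠ 0 := fun h0 => hmS (h0 ▸ A.zero_mem)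
  have hx'0 : x' ≠ 0 := by
    intro h0
    rw [h0, HahnSeries.coeff_zero] at hcm
    exact hcm0 hcm.symm
  have hord : x'.order = m := by
    apply le_antisymm
    · exact HahnSeries.order_le_of_coeff_ne_zero (by rw [hcm]; exact hcm0)
    · by_contra hlt
      rw [not_le] at hlt
      have h9 : x'.coeff x'.order = 0 := by
        rw [hx'_coeff, if_pos hlt]
      exact hx'0 (HahnSeries.coeff_order_eq_zero.mp h9)
  have hlead : x'.leadingCoeff = x.coeff m := by
    rw [HahnSeries.leadingCoeff_eq, hord, hcm]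
  -- `d * x' ^ k ∈ R`
  have hk' : ∀ k : ℕ, d * x' ^ k ∈ h97qR A := by
    intro k
    have e : x' ^ k = ∑ j ∈ Finset.range (k + 1), x ^ j * (-u) ^ (k - j) * (k.choose j : ℕ) := by
      rw [hx', sub_eq_add_neg, add_pow]
    rw [e, Finset.mul_sum]
    refine sum_mem (fun j _ => ?_)
    have e2 : d * (x ^ j * (-u) ^ (k - j) * ((k.choose j : ℕ) : LaurentSeries K)) =
        d * x ^ j * ((-u) ^ (k - j) * ((k.choose j : ℕ) : LaurentSeries K)) := by ring
    rw [e2]
    exact mul_mem (h j) (mul_mem (pow_mem (neg_mem huR) _) (natCast_mem _ _))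
  -- leading coefficients
  have hkey : ∀ k : ℕ, d.leadingCoeff * x.coeff m ^ k ∈ A := by
    intro k
    have h1 := hk' k (d.order + (x' ^ k).order)
    rw [HahnSeries.coeff_mul_order_add_order, (h97q_pow x' hx'0 k).2, hlead] at h1
    exact h1
  have hdl : d.leadingCoeff ≠ 0 := HahnSeries.leadingCoeff_ne_zero.mpr hd
  exact hmS (h97q_cic A harch _ _ hdl hkey)

/-- **INT-ABS**: `x` integral over a ring `S` mapping to `R = A((q))`, with `d₀ x ∈ R` for some
`d₀ ≠ 0` in `R` `⇒ x ∈ R`. -/
theorem h97q_int_abs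
    (harch : ∀ y c : K, y ∈ A.nonunits → c ∈ A → c ≠ 0 → ∃ n : ℕ, ∃ a ∈ A, y ^ n = c * a)
    {S : Type*} [CommRing S] (ψ : S →+* LaurentSeries K) (hψ : ∀ s, ψ s ∈ h97qR A)
    (x d₀ : LaurentSeries K) (hd₀ : d₀ ≠ 0) (hd₀R : d₀ ∈ h97qR A) (hdx : d₀ * x ∈ h97qR A)
    (hint : ψ.IsIntegralElem x) : x ∈ h97qR A := by
  classical
  obtain ⟨P, hP, hPx⟩ := hint
  haveI : Nontrivial S := by
    by_contra hS
    rw [not_nontrivial_iff_subsingleton] at hS
    have h1 : (1 : LaurentSeries K) = 0 := by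
      rw [← map_one ψ, Subsingleton.elim (1 : S) 0, map_zero]
    exact one_ne_zero h1
  set n := P.natDegree with hn
  -- `d₀ ^ n * x ^ i ∈ R` for `i ≤ n`
  have hlow : ∀ i : ℕ, i ≤ n → d₀ ^ n * x ^ i ∈ h97qR A := by
    intro i hi
    have e : d₀ ^ n * x ^ i = d₀ ^ (n - i) * (d₀ * x) ^ i := by
      rw [mul_pow, ← mul_assoc, ← _root_.pow_add, Nat.sub_add_cancel hi]
    rw [e]
    exact mul_mem (pow_mem hd₀R _) (pow_mem hdx _)
  refine h97q_abs A harch x (d₀ ^ n) (pow_ne_zero n hd₀) (fun k => ?_)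
  -- `x ^ k` is a combination of `x ^ i`, `i < n + 1`
  have h1 : (Polynomial.X ^ k %ₘ P).eval₂ ψ x = x ^ k := by
    rw [Polynomial.eval₂_modByMonic_eq_self_of_root hPx, Polynomial.eval₂_pow,
      Polynomial.eval₂_X]
  have hdeg : (Polynomial.X ^ k %ₘ P).natDegree < n + 1 :=
    lt_of_le_of_lt (Polynomial.natDegree_modByMonic_le _ hP) (Nat.lt_succ_self _)
  rw [← h1, Polynomial.eval₂_eq_sum_range' ψ hdeg, Finset.mul_sum]
  refine sum_mem (fun i hi => ?_)
  have hi' : i ≤ n := Nat.lt_succ_iff.mp (Finset.mem_range.mp hi)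
  have e : d₀ ^ n * (ψ ((Polynomial.X ^ k %ₘ P).coeff i) * x ^ i) =
      ψ ((Polynomial.X ^ k %ₘ P).coeff i) * (d₀ ^ n * x ^ i) := by ring
  rw [e]
  exact mul_mem (hψ _) (hlow i hi')

end Fermat.Agent.P7
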