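import Fermat.Agent.P7.H97Int
import Fermat.Agent.P5.H58DictG
import Fermat.Agent.P7.H37GapM
import Fermat.Agent.Red.GV.SoftGal

/-!
# Wave 7 (S44), DLOG at the level `M`, leaf INT(M) (helper97, prefix `h97q_`)

`ℓ ∤ M`, `A` over `ℓ`, `Q` the `q`-order place of `FF M`.

* `h97q_int_off` : **INT(M)**: a Gauss-integral function of level `M` which is regular off `Q`
  has an `A`-integral `q`-expansion (`f t ^ n ∈ modelInf M A` for `t = 1/j` and `n` the pole
  order, then `h97q_int`).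
* `h97q_int_off'` : the same with the other orientation of the hypothesis on `Q`.
* `h97q_softR_off`, `h97q_gaussR_off` : the reduction of such an `f` is the coefficientwise
  reduction of its `q`-expansion.
* `h97q_int_inf_nonneg` : the `q`-expansion of an element of `modelInf M A` is `embA b` with
  `b` without terms of negative degree (**QEP** at `∞` for the chart at infinity).
-/

set_option autoImplicit false
set_option linter.unusedSectionVars false
set_option linter.unusedVariables false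
set_option linter.style.haveILetI false

open AlgebraicCurve ModularCurve IsLocalRing

noncomputable section

namespace Fermat.Agent.P7

open Fermat.Agent.S37 Fermat.Agent.Red.GV Fermat.Agent.Red.GV.Soft Fermat.Agent.P5
  Fermat.Agent.S28 Fermat.Agent.Red.GV.Asm

variable {ℓ : ℕ} (M : ℕ) [NeZero M] (A : ValuationSubring Kbar)

/-- the `q`-expansion of `1 / j`. -/
theorem h97q_coe_jinv :
    ((((jB M)⁻¹ : FF M)) : LaurentSeries Kbar) = (jK Kbar)⁻¹ := by
  rw [← coe_jB M]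
  rfl

/-- **INT(M)**: a Gauss-integral function regular off the `q`-order place has an `A`-integral
`q`-expansion. -/
theorem h97q_int_off (hℓ : ℓ.Prime) (hM : ¬ ℓ ∣ M) (hA : A.LiesOverPrime ℓ)
    (Q : Place Kbar (FF M))
    (hQ : ∀ f : FF M, f ≠ 0 → ((f : FF M) : LaurentSeries Kbar).order = Q.ord f)
    (f : FF M) (hfV : f ∈ gaussV A M)
    (hf : ∀ v : Place Kbar (FF M), v ≠ Q → 0 ≤ v.ord f) :
    ∃ y : LaurentSeries A, embA A y = ((f : FF M) : LaurentSeries Kbar) := by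
  have hj0 : jB M ≠ 0 := Fermat.Agent.Red.ModelO.h85_jB_ne_zero M
  have htV : (jB M)⁻¹ ∈ gaussV A M := jB_inv_mem_gaussV A M hℓ hM hA
  rcases eq_or_ne f 0 with rfl | hf0
  · exact ⟨0, by rw [map_zero]; rfl⟩
  set n : ℕ := (-(Q.ord f)).toNat with hn
  have hfQ : -(n : ℤ) ≤ Q.ord f := by
    have := Int.self_le_toNat (-(Q.ord f))
    omega
  have hgV : (jB M)⁻¹ ^ n * f ∈ gaussV A M := Subring.mul_mem _ (Subring.pow_mem _ htV n) hfV
  have hQt : Q.ord (jB M)⁻¹ = 1 := by
    rw [← hQ _ (inv_ne_zero hj0), h97q_coe_jinv]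
    have h2 := h37g_pe_order_map_inv (RingHom.id (LaurentSeries Kbar)) (jqModC Kbar)
    simp only [RingHom.id_apply] at h2
    show ((jqModC Kbar)⁻¹).order = 1
    rw [h2, h37g_order_jqModC]
    norm_num
  have hgInf : (jB M)⁻¹ ^ n * f ∈ modelInf M A := by
    refine h58h_mem_modelInf_of_top M A hℓ hM hA hgV (h58h_regular_inf M _ (fun v hv => ?_))
    apply Fermat.Agent.S24.DiffPlace.mem_of_ord_nonneg v
    rw [h58h_ord_pow_mul M v n (inv_ne_zero hj0) hf0]
    have h1 : 0 ≤ v.ord (jB M)⁻¹ := Fermat.Agent.S24.DiffPlace.ord_nonneg_of_mem v hv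
    by_cases hvQ : v = Q
    · subst hvQ
      rw [hQt]
      omega
    · have h2 := hf v hvQ
      have h3 : 0 ≤ (n : ℤ) * v.ord (jB M)⁻¹ := mul_nonneg (Int.natCast_nonneg n) h1
      omega
  obtain ⟨yg, hyg⟩ := h97q_int ℓ hℓ M hM A hA _ hgInf
  refine ⟨jqModC A ^ n * yg, ?_⟩
  rw [map_mul, map_pow, embA_jqModC, hyg]
  have e : ((((jB M)⁻¹ ^ n * f : FF M)) : LaurentSeries Kbar) =
      ((jK Kbar)⁻¹) ^ n * ((f : FF M) : LaurentSeries Kbar) := by
    rw [← h97q_coe_jinv M]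
    rfl
  rw [e, ← mul_assoc, ← mul_pow]
  have hjK : jK Kbar ≠ 0 := by
    rw [← coe_jB M]
    intro h0
    exact hj0 (Subtype.ext h0)
  rw [mul_inv_cancel₀ hjK, one_pow, one_mul]

/-- **INT(M)**, other orientation of the hypothesis on the place. -/
theorem h97q_int_off' (hℓ : ℓ.Prime) (hM : ¬ ℓ ∣ M) (hA : A.LiesOverPrime ℓ)
    (Q : Place Kbar (FF M))
    (hQ : ∀ f : FF M, f ≠ 0 → Q.ord f = ((f : FF M) : LaurentSeries Kbar).order)
    (f : FF M) (hfV : f ∈ gaussV A M)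
    (hf : ∀ v : Place Kbar (FF M), v ≠ Q → 0 ≤ v.ord f) :
    ∃ y : LaurentSeries A, embA A y = ((f : FF M) : LaurentSeries Kbar) :=
  h97q_int_off M A hℓ hM hA Q (fun g hg => (hQ g hg).symm) f hfV hf

/-- the reduction (soft form) is the coefficientwise reduction. -/
theorem h97q_softR_off (hℓ : ℓ.Prime) (hM : ¬ ℓ ∣ M) (hA : A.LiesOverPrime ℓ)
    (Q : Place Kbar (FF M))
    (hQ : ∀ f : FF M, f ≠ 0 → ((f : FF M) : LaurentSeries Kbar).order = Q.ord f)
    (f : FF M) (hfV : f ∈ gaussV A M)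
    (hf : ∀ v : Place Kbar (FF M), v ≠ Q → 0 ≤ v.ord f) :
    ∃ (y : LaurentSeries A) (hfS : f ∈ softV A M),
      embA A y = ((f : FF M) : LaurentSeries Kbar) ∧
        softR A M ⟨f, hfS⟩ = redA (IsLocalRing.residue A) y := by
  obtain ⟨y, hy⟩ := h97q_int_off M A hℓ hM hA Q hQ f hfV hf
  have hfS : f ∈ softV A M := gaussV_le_softV A M hfV
  exact ⟨y, hfS, hy, softR_of_embA A M ⟨f, hfS⟩ y hy⟩

/-- the Gauss reduction is the coefficientwise reduction. -/
theorem h97q_gaussR_off (hℓ : ℓ.Prime) (hM : ¬ ℓ ∣ M) (hA : A.LiesOverPrime ℓ)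
    (Q : Place Kbar (FF M))
    (hQ : ∀ f : FF M, f ≠ 0 → ((f : FF M) : LaurentSeries Kbar).order = Q.ord f)
    (f : FF M) (hfV : f ∈ gaussV A M)
    (hf : ∀ v : Place Kbar (FF M), v ≠ Q → 0 ≤ v.ord f) :
    ∃ y : LaurentSeries A, embA A y = ((f : FF M) : LaurentSeries Kbar) ∧
      gaussR A M ⟨f, hfV⟩ = redA (IsLocalRing.residue A) y := by
  obtain ⟨y, hfS, hy, hr⟩ := h97q_softR_off M A hℓ hM hA Q hQ f hfV hf
  exact ⟨y, hy, (softR_eq_gaussR A M f hfS hfV).symm.trans hr⟩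

/-- the Gauss reduction of an element of the chart at infinity is the coefficientwise reduction
of its `q`-expansion. -/
theorem h97q_gaussR_inf (hℓ : ℓ.Prime) (hM : ¬ ℓ ∣ M) (hA : A.LiesOverPrime ℓ)
    (f : FF M) (hf : f ∈ modelInf M A) (hfV : f ∈ gaussV A M) :
    ∃ y : LaurentSeries A, embA A y = ((f : FF M) : LaurentSeries Kbar) ∧
      gaussR A M ⟨f, hfV⟩ = redA (IsLocalRing.residue A) y := by
  obtain ⟨y, hy⟩ := h97q_int ℓ hℓ M hM A hA f hf
  have hfS : f ∈ softV A M := gaussV_le_softV A M hfV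
  exact ⟨y, hy, (softR_eq_gaussR A M f hfS hfV).symm.trans
    (softR_of_embA A M ⟨f, hfS⟩ y hy)⟩

end Fermat.Agent.P7
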