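import Fermat.Agent.S13.LadderDiv
import Fermat.Agent.S13.BigRoot
import Fermat.Agent.S13.AtPMul

/-!
# Wave 7 (S44), LOCAL-MULT leaf BIG (helper97, prefix `h97m_`)

Short model `y² = x³ + a₂ x² + a₄ x` over a field `K` of characteristic zero, `a₂, a₄` in a
valuation subring `A` over the odd prime `p`.  A nonzero point `T = (x, y)` of the kernel of
reduction (`x ∉ A`) which is killed by `p` satisfies

* `h97m_big`      : `v(p) * v(x) ^ ((p - 1) / 2) ≤ 1`;
* `h97m_big_z`    : `v(p) ≤ v(x / y) ^ (p - 1)`;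
* `h97m_big_z_mem`: `p / (x / y) ^ (p - 1) ∈ A`.

Proof: the division polynomial `D` of `p` (leading coefficient `p`, coefficients in `A`) vanishes
at the `(p - 1) / 2` pairwise distinct `x`-coordinates of `T, 2T, …, ((p-1)/2) T`, all of valuation
`v(x)`; big-root bound.
-/

set_option autoImplicit false
set_option linter.unusedSectionVars false
set_option linter.style.haveILetI false

namespace Fermat.Agent.P7

open WeierstrassCurve WeierstrassCurve.Affine Polynomial
open Fermat.Agent.S51 Fermat.Agent.S13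

section Big

variable {K : Type*} [Field K]

/-- A natural number prime to `p` is a unit at a valuation subring over `p`. -/
theorem h97m_val_nat_eq_one (A : ValuationSubring K) {p : ℕ} (hp : p.Prime)
    (hA : (p : K) ∈ A.nonunits) (k : ℕ) (hk : ¬ p ∣ k) : A.valuation (k : K) = 1 := by
  have hle : A.valuation (k : K) ≤ 1 := (A.valuation_le_one_iff _).mpr (natCast_mem A k)
  refine le_antisymm hle (not_lt.mp fun hlt => ?_)
  have hcop : IsCoprime (p : ℤ) (k : ℤ) :=
    (Nat.prime_iff_prime_int.mp hp).coprime_iff_not_dvd.mpr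
      (fun h => hk (Int.natCast_dvd_natCast.mp h))
  obtain ⟨a, b, hab⟩ := hcop
  have hpv : A.valuation (p : K) < 1 := A.mem_nonunits_iff.mp hA
  have h1 : A.valuation ((a : K) * (p : K)) < 1 := by
    rw [map_mul]
    calc A.valuation (a : K) * A.valuation (p : K) ≤ 1 * A.valuation (p : K) := by
          gcongr
          exact (A.valuation_le_one_iff _).mpr (intCast_mem A a)
      _ < 1 := by rw [one_mul]; exact hpv
  have h2 : A.valuation ((b : K) * (k : K)) < 1 := by
    rw [map_mul]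
    calc A.valuation (b : K) * A.valuation (k : K) ≤ 1 * A.valuation (k : K) := by
          gcongr
          exact (A.valuation_le_one_iff _).mpr (intCast_mem A b)
      _ < 1 := by rw [one_mul]; exact hlt
  have h3 : ((a : K) * (p : K)) + ((b : K) * (k : K)) = 1 := by
    have := congrArg (fun t : ℤ => (t : K)) hab
    simpa using this
  have h4 := Valuation.map_add_lt A.valuation h1 h2
  rw [h3, map_one] at h4
  exact lt_irrefl _ h4

/-- In an additive group, an element of prime order `p` is killed exactly by the multiples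
of `p`. -/
theorem h97m_dvd_of_zsmul_eq_zero {G : Type*} [AddCommGroup G] {p : ℕ} (hp : p.Prime) {T : G}
    (hT0 : T ≠ 0) (hT : p • T = 0) {n : ℤ} (hn : n • T = 0) : (p : ℤ) ∣ n := by
  by_contra hdvd
  have hcop : IsCoprime (p : ℤ) n :=
    (Nat.prime_iff_prime_int.mp hp).coprime_iff_not_dvd.mpr hdvd
  obtain ⟨a, b, hab⟩ := hcop
  apply hT0
  have h1 : (a * (p : ℤ) + b * n) • T = 0 := by
    rw [add_smul, mul_smul, mul_smul, hn, smul_zero, add_zero, natCast_zsmul, hT, smul_zero]
  rw [hab, one_smul] at h1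
  exact h1

variable [DecidableEq K] [CharZero K]

/-- **BIG, `x`-form.** -/
theorem h97m_big (A : ValuationSubring K) (W : WeierstrassCurve K) (hΔ : W.Δ ≠ 0)
    (h1 : W.a₁ = 0) (h3 : W.a₃ = 0) (h6 : W.a₆ = 0) (h2 : W.a₂ ∈ A) (h4 : W.a₄ ∈ A)
    {p : ℕ} (hp : p.Prime) (hp2 : p ≠ 2) (hpA : (p : K) ∈ A.nonunits)
    {x y : K} (h : W.toAffine.Nonsingular x y) (hx : x ∉ A)
    (hT : p • (Affine.Point.some x y h : W.toAffine.Point) = 0) :
    A.valuation (p : K) * A.valuation x ^ ((p - 1) / 2) ≤ 1 := by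
  classical
  set T : W.toAffine.Point := Affine.Point.some x y h with hTdef
  have hT0 : T ≠ 0 := Affine.Point.some_ne_zero h
  obtain ⟨D, hD0, -, hlc, hcoef, hroot, -⟩ :=
    T_exists_divPoly (E := W.toAffine) hΔ p hp hp2
  -- integrality of the coefficients of `D`
  have h4A : (4 : K) ∈ A := by
    have : (4 : K) = ((4 : ℕ) : K) := by norm_num
    rw [this]; exact natCast_mem A 4
  have h2A : (2 : K) ∈ A := by
    have : (2 : K) = ((2 : ℕ) : K) := by norm_num
    rw [this]; exact natCast_mem A 2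
  have hb2 : W.toAffine.b₂ ∈ A.toSubring := by
    have e : W.b₂ = 4 * W.a₂ := by simp only [WeierstrassCurve.b₂, h1]; ring
    show W.b₂ ∈ A
    rw [e]; exact A.mul_mem _ _ h4A h2
  have hb4 : W.toAffine.b₄ ∈ A.toSubring := by
    have e : W.b₄ = 2 * W.a₄ := by simp only [WeierstrassCurve.b₄, h1]; ring
    show W.b₄ ∈ A
    rw [e]; exact A.mul_mem _ _ h2A h4
  have hb6 : W.toAffine.b₆ ∈ A.toSubring := by
    have e : W.b₆ = 0 := by simp only [WeierstrassCurve.b₆, h3, h6]; ring
    show W.b₆ ∈ A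
    rw [e]; exact A.zero_mem
  have hb8 : W.toAffine.b₈ ∈ A.toSubring := by
    have e : W.b₈ = -(W.a₄ * W.a₄) := by simp only [WeierstrassCurve.b₈, h1, h3, h6]; ring
    show W.b₈ ∈ A
    rw [e]; exact A.neg_mem _ (A.mul_mem _ _ h4 h4)
  have hDA : ∀ i, D.coeff i ∈ A := fun i => hcoef A.toSubring hb2 hb4 hb6 hb8 i
  -- the multiples `k T`, `1 ≤ k ≤ (p - 1) / 2`
  set m : ℕ := (p - 1) / 2 with hm
  have hp3 : 3 ≤ p := by
    have := hp.two_le
    omega
  have hodd : p = 2 * m + 1 := by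
    rcases hp.eq_two_or_odd with h' | h'
    · exact absurd h' hp2
    · omega
  have hkey : ∀ k ∈ Finset.Icc 1 m, k • T ≠ 0 ∧ A_x (k • T) ∉ A ∧
      A.valuation (A_x (k • T)) = A.valuation x ∧ D.IsRoot (A_x (k • T)) := by
    intro k hk
    rw [Finset.mem_Icc] at hk
    have hkp : ¬ p ∣ k := fun hd => by
      have := Nat.le_of_dvd (by omega) hd
      omega
    obtain ⟨x', y', h', he, hx', hv⟩ :=
      val_x_nsmul A W h1 h3 h6 h2 h4 h hx k (h97m_val_nat_eq_one A hp hpA k hkp)
    have hne : k • T ≠ 0 := by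
      rw [hTdef, he]; exact Affine.Point.some_ne_zero h'
    refine ⟨hne, ?_, ?_, ?_⟩
    · rw [hTdef, he, A_x_some]; exact hx'
    · rw [hTdef, he, A_x_some]; exact hv
    · rw [IsRoot.def]
      apply (hroot _ hne).mp
      rw [smul_comm, hT, smul_zero]
  have hinj : ∀ k ∈ Finset.Icc 1 m, ∀ k' ∈ Finset.Icc 1 m,
      A_x (k • T) = A_x (k' • T) → k = k' := by
    intro k hk k' hk' hxx
    have hk0 := (hkey k hk).1
    have hk0' := (hkey k' hk').1
    rw [Finset.mem_Icc] at hk hk'
    rcases (A_x_eq_iff W.toAffine hk0 hk0').mp hxx with e | e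
    · have hz : ((k : ℤ) - (k' : ℤ)) • T = 0 := by
        rw [sub_smul, natCast_zsmul, natCast_zsmul, e, sub_self]
      obtain ⟨c, hc⟩ := h97m_dvd_of_zsmul_eq_zero hp hT0 hT hz
      have hc0 : c = 0 := by
        by_contra hc0
        rcases lt_or_gt_of_ne hc0 with hneg | hpos
        · have : (p : ℤ) * c ≤ (p : ℤ) * (-1) :=
            mul_le_mul_of_nonneg_left (by omega) (by positivity)
          omega
        · have : (p : ℤ) * 1 ≤ (p : ℤ) * c :=
            mul_le_mul_of_nonneg_left (by omega) (by positivity)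
          omega
      rw [hc0, mul_zero] at hc
      omega
    · exfalso
      have hz : ((k : ℤ) + (k' : ℤ)) • T = 0 := by
        rw [add_smul, natCast_zsmul, natCast_zsmul, e, neg_add_cancel]
      obtain ⟨c, hc⟩ := h97m_dvd_of_zsmul_eq_zero hp hT0 hT hz
      have hc0 : 0 < c := by
        by_contra hc0
        have : (p : ℤ) * c ≤ 0 :=
          mul_nonpos_of_nonneg_of_nonpos (by positivity) (by omega)
        omega
      have : (p : ℤ) * 1 ≤ (p : ℤ) * c :=
        mul_le_mul_of_nonneg_left (by omega) (by positivity)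
      omega
  -- the big-root bound
  have hbound := bigRoot_bound A D hD0 hDA
    ((Finset.Icc 1 m).image (fun k => A_x (k • T)))
    (by
      intro z hz
      obtain ⟨k, hk, rfl⟩ := Finset.mem_image.mp hz
      exact ⟨(hkey k hk).2.2.2, (hkey k hk).2.1⟩)
  rw [hlc, Finset.prod_image hinj] at hbound
  have hprod : ∏ k ∈ Finset.Icc 1 m, A.valuation (A_x (k • T)) = A.valuation x ^ m := by
    rw [Finset.prod_congr rfl (fun k hk => (hkey k hk).2.2.1), Finset.prod_const,
      Nat.card_Icc, Nat.add_sub_cancel]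
  rw [hprod] at hbound
  exact hbound

/-- **BIG, `z`-form**: `v(p) ≤ v(x / y) ^ (p - 1)`. -/
theorem h97m_big_z (A : ValuationSubring K) (W : WeierstrassCurve K) (hΔ : W.Δ ≠ 0)
    (h1 : W.a₁ = 0) (h3 : W.a₃ = 0) (h6 : W.a₆ = 0) (h2 : W.a₂ ∈ A) (h4 : W.a₄ ∈ A)
    {p : ℕ} (hp : p.Prime) (hp2 : p ≠ 2) (hpA : (p : K) ∈ A.nonunits)
    {x y : K} (h : W.toAffine.Nonsingular x y) (hx : x ∉ A)
    (hT : p • (Affine.Point.some x y h : W.toAffine.Point) = 0) :
    A.valuation (p : K) ≤ A.valuation (x / y) ^ (p - 1) := by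
  have hb := h97m_big A W hΔ h1 h3 h6 h2 h4 hp hp2 hpA h hx hT
  have hxz := val_x_mul_val_z_sq A W h1 h3 h6 h2 h4 h.1 hx
  set m : ℕ := (p - 1) / 2 with hm
  have hodd : p - 1 = 2 * m := by
    rcases hp.eq_two_or_odd with h' | h'
    · exact absurd h' hp2
    · omega
  have e1 : A.valuation (x / y) ^ (p - 1) = (A.valuation (x / y) ^ 2) ^ m := by
    rw [hodd, pow_mul]
  have e2 : A.valuation x ^ m * (A.valuation (x / y) ^ 2) ^ m = 1 := by
    rw [← mul_pow, hxz, one_pow]
  rw [e1]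
  calc A.valuation (p : K) = A.valuation (p : K) * (A.valuation x ^ m *
        (A.valuation (x / y) ^ 2) ^ m) := by rw [e2, mul_one]
    _ = A.valuation (p : K) * A.valuation x ^ m * (A.valuation (x / y) ^ 2) ^ m := by
        rw [mul_assoc]
    _ ≤ 1 * (A.valuation (x / y) ^ 2) ^ m := by gcongr
    _ = (A.valuation (x / y) ^ 2) ^ m := one_mul _

/-- **BIG, membership form**: `p / (x / y) ^ (p - 1) ∈ A`. -/
theorem h97m_big_z_mem (A : ValuationSubring K) (W : WeierstrassCurve K) (hΔ : W.Δ ≠ 0)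
    (h1 : W.a₁ = 0) (h3 : W.a₃ = 0) (h6 : W.a₆ = 0) (h2 : W.a₂ ∈ A) (h4 : W.a₄ ∈ A)
    {p : ℕ} (hp : p.Prime) (hp2 : p ≠ 2) (hpA : (p : K) ∈ A.nonunits)
    {x y : K} (h : W.toAffine.Nonsingular x y) (hx : x ∉ A)
    (hT : p • (Affine.Point.some x y h : W.toAffine.Point) = 0) :
    (p : K) * ((x / y) ^ (p - 1))⁻¹ ∈ A := by
  have hb := h97m_big_z A W hΔ h1 h3 h6 h2 h4 hp hp2 hpA h hx hT
  have hxz := val_x_mul_val_z_sq A W h1 h3 h6 h2 h4 h.1 hx
  have hz0 : A.valuation (x / y) ≠ 0 := by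
    intro h0
    rw [h0] at hxz
    simp at hxz
  rw [← A.valuation_le_one_iff, map_mul, map_inv₀, map_pow]
  have hpos : A.valuation (x / y) ^ (p - 1) ≠ 0 := pow_ne_zero _ hz0
  calc A.valuation (p : K) * (A.valuation (x / y) ^ (p - 1))⁻¹
      ≤ A.valuation (x / y) ^ (p - 1) * (A.valuation (x / y) ^ (p - 1))⁻¹ := by gcongr
    _ = 1 := mul_inv_cancel₀ hpos

end Big

end Fermat.Agent.P7
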