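import Fermat.Agent.P7.H64MultIface
import Fermat.Agent.P7.H64MultAlg
import Fermat.Agent.P7.H70MultGeo
import Fermat.Agent.P7.H97MultBig
import Fermat.Agent.S13.H4AtP
import Fermat.Agent.S51.AGalois

/-!
# Wave 7 (S44), LOCAL-MULT, Kummer route: the CORE on short nodal models (helper97, twin)

`h97w_core : H64mCore` (frozen interface `P7/H64MultIface.lean`, helper64).

* `h97w_finish` : the algebra side.  A Galois-equivariant coordinate `F` and a rational constant
  `c` with `v(p) v(c)^(p-1) ≤ v(b z - z)^(p-1)`, `v(z) ≤ v(c)` for `z = F (n • Q)` give the unit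
  `β` (landed ALG `h64m_unit_of_witness`).
* `h97w_witness` : the curve side.  On a short nodal model at `A` over the odd prime `p`, a
  `p`-torsion point `Q` moved by the inertia element `b` has such a coordinate: `x(Q)` (node:
  `c = π ^ j`; nonsingular reduction with `y` a unit: `c = 1`) or `z(Q)`, `z(2 Q)` (kernel of
  reduction, `c = 1`).  Inputs: landed S13 (inertia moves torsion into `E₁`), S05
  (`torsion_node_valuation`), GEO (helper70), BIG (`h97m_big_z`), `S05.H97.add_E1`.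
-/

set_option autoImplicit false
set_option linter.unusedSectionVars false
set_option linter.unusedVariables false
set_option linter.style.haveILetI false

open WeierstrassCurve WeierstrassCurve.Affine

noncomputable section

namespace Fermat.Agent.P7

open Fermat.Agent.S37 Fermat.Agent.S05 Fermat.Agent.S51

/-- powers of `b` act on an eigenvector. -/
theorem h97w_pow_eigen (b : GQ) {ζ β : Kbar} {j : ℕ} (hbζ : b ζ = ζ) (hbβ : b β = ζ ^ j * β)
    (k : ℕ) : (b ^ k) β = (ζ ^ j) ^ k * β := by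
  induction k with
  | zero => simp
  | succ k ih =>
    rw [pow_succ', AlgEquiv.mul_apply, ih, map_mul, map_pow, map_pow, hbζ, hbβ]
    ring

/-- powers of `b` fix what `b` fixes. -/
theorem h97w_pow_fix (b : GQ) {x : Kbar} (hb : b x = x) (k : ℕ) : (b ^ k) x = x := by
  induction k with
  | zero => simp
  | succ k ih => rw [pow_succ', AlgEquiv.mul_apply, ih, hb]

/-- the Galois action commutes with natural multiples. -/
theorem h97w_smul_nsmul {W' : WeierstrassCurve ℚ} (σ : GQ) (n : ℕ) (P : (W'⁄Kbar).Point) :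
    σ • (n • P) = n • (σ • P) :=
  map_nsmul (DistribSMul.toAddMonoidHom (W'⁄Kbar).Point σ) n P

/-- **the algebra side of CORE.** -/
theorem h97w_finish (A : ValuationSubring Kbar) {p : ℕ} (hp : p.Prime)
    (W' : WeierstrassCurve ℚ) (I₁ : Subgroup GQ) (ζ : Kbar) (hζ : IsPrimitiveRoot ζ p)
    (hζfix : ∀ a ∈ I₁, a ζ = ζ) (b : GQ) (hb : b ∈ I₁) (Q : (W'⁄Kbar).Point)
    (hbp : (b ^ p) • Q = Q) (Triv : GQ → Prop)
    (hact : ∀ a ∈ I₁, ∃ k : ℕ, (∀ i : ℕ, a • (b ^ i) • Q = (b ^ (i + k)) • Q) ∧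
      (p ∣ k → Triv a))
    (F : (W'⁄Kbar).Point → Kbar) (hF : ∀ (σ : GQ) (P : (W'⁄Kbar).Point), F (σ • P) = σ (F P))
    (n : ℕ) (c : Kbar) (hc : ∀ σ : GQ, σ c = c) (hc0 : c ≠ 0)
    (H1 : A.valuation (p : Kbar) * A.valuation c ^ (p - 1) ≤
      A.valuation (b (F (n • Q)) - F (n • Q)) ^ (p - 1))
    (H2 : A.valuation (F (n • Q)) ≤ A.valuation c) :
    ∃ β : Kbar, β ∈ A ∧ β⁻¹ ∈ A ∧ (∀ a ∈ I₁, a (β ^ p) = β ^ p) ∧
      ∀ a ∈ I₁, a β = β → Triv a := by
  have hbζ : b ζ = ζ := hζfix b hb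
  have horb : ∀ (σ : GQ) (P : (W'⁄Kbar).Point), σ (F (n • P)) = F (n • (σ • P)) := by
    intro σ P
    rw [← hF, h97w_smul_nsmul]
  have hbz : (b ^ p) (F (n • Q)) = F (n • Q) := by
    rw [horb, hbp]
  have hpK : (p : Kbar) ≠ 0 := Nat.cast_ne_zero.mpr hp.ne_zero
  have hpv : A.valuation (p : Kbar) ≠ 0 := (Valuation.ne_zero_iff _).mpr hpK
  obtain ⟨β, hβ1, j, hj0, hjp, hbβ, hfix⟩ :=
    h64m_unit_of_witness A hp hζ b hbζ hbz hc0 (hc b) hpv H1 H2
  have hβ0 : β ≠ 0 := by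
    rintro rfl
    rw [map_zero] at hβ1
    exact zero_ne_one hβ1
  -- the action of `I₁` on `β`
  have key : ∀ a ∈ I₁, ∃ k : ℕ, a β = (ζ ^ j) ^ k * β ∧ (p ∣ k → Triv a) := by
    intro a ha
    obtain ⟨k, hk, htriv⟩ := hact a ha
    refine ⟨k, ?_, htriv⟩
    have ha' : ((b ^ k)⁻¹ * a) β = β := by
      apply hfix
      · rw [AlgEquiv.mul_apply, hζfix a ha]
        have h1 : (b ^ k) ζ = ζ := h97w_pow_fix b hbζ k
        calc (b ^ k)⁻¹ ζ = (b ^ k)⁻¹ ((b ^ k) ζ) := by rw [h1]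
          _ = ((b ^ k)⁻¹ * b ^ k) ζ := (AlgEquiv.mul_apply _ _ _).symm
          _ = ζ := by rw [inv_mul_cancel]; rfl
      · exact hc _
      · intro i
        rw [horb, horb, mul_smul, hk i]
        congr 2
        rw [← mul_smul]
        congr 1
        rw [add_comm, pow_add, inv_mul_cancel_left]
    have h2 : a = b ^ k * ((b ^ k)⁻¹ * a) := by rw [mul_inv_cancel_left]
    calc a β = (b ^ k * ((b ^ k)⁻¹ * a)) β := by rw [← h2]
      _ = (b ^ k) (((b ^ k)⁻¹ * a) β) := AlgEquiv.mul_apply _ _ _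
      _ = (b ^ k) β := by rw [ha']
      _ = (ζ ^ j) ^ k * β := h97w_pow_eigen b hbζ hbβ k
  refine ⟨β, (A.valuation_le_one_iff β).mp hβ1.le, ?_, ?_, ?_⟩
  · rw [← A.valuation_le_one_iff, map_inv₀, hβ1, inv_one]
  · intro a ha
    obtain ⟨k, hk, -⟩ := key a ha
    have h1 : ((ζ ^ j) ^ k) ^ p = 1 := by
      have e : j * (k * p) = p * (j * k) := by ring
      rw [← pow_mul, ← pow_mul, e, pow_mul, hζ.pow_eq_one, one_pow]
    rw [map_pow, hk, mul_pow, h1, one_mul]
  · intro a ha haβ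
    obtain ⟨k, hk, htriv⟩ := key a ha
    apply htriv
    rw [haβ] at hk
    have h1 : (ζ ^ j) ^ k = 1 := by
      have h2 : (ζ ^ j) ^ k * β = 1 * β := by rw [one_mul]; exact hk.symm
      exact mul_right_cancel₀ hβ0 h2
    rw [← pow_mul] at h1
    have h3 : p ∣ j * k := (hζ.pow_eq_one_iff_dvd _).mp h1
    rcases (Nat.Prime.dvd_mul hp).mp h3 with h4 | h4
    · exact absurd (Nat.le_of_dvd hj0 h4) (not_le.mpr hjp)
    · exact h4

/-- the coordinate `z = x / y` is Galois-equivariant. -/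
theorem h97w_zOf_smul (W' : WeierstrassCurve ℚ) (σ : GQ) (P : (W'⁄Kbar).Point) :
    H97.zOf (W'.baseChange Kbar) (σ • P) = σ (H97.zOf (W'.baseChange Kbar) P) := by
  match P with
  | .zero => exact (_root_.map_zero σ).symm
  | .some x y h =>
    show σ x / σ y = σ (x / y)
    rw [map_div₀]

/-- a point of odd prime order which is killed by `2` is zero. -/
theorem h97w_two_nsmul_ne {G : Type*} [AddCommGroup G] {p : ℕ} (hp : p.Prime) (hp2 : p ≠ 2)
    {T : G} (hT0 : T ≠ 0) (hT : p • T = 0) : (2 : ℕ) • T ≠ 0 := by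
  intro h2
  have h0 : (((2 : ℕ) : ℤ)) • T = 0 := by rw [natCast_zsmul]; exact h2
  have h1 := h97m_dvd_of_zsmul_eq_zero hp hT0 hT h0
  have h3 : p ∣ 2 := Int.natCast_dvd_natCast.mp h1
  exact hp2 ((Nat.prime_dvd_prime_iff_eq hp Nat.prime_two).mp h3)

/-- **the curve side of CORE**: a Galois-equivariant coordinate of `Q` (or `2 Q`) which `b`
moves exactly at the depth of a nonzero `p`-torsion point of the kernel of reduction. -/
theorem h97w_witness (A : ValuationSubring Kbar) {p : ℕ} (hp : p.Prime) (hp2 : p ≠ 2)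
    (hA : A.LiesOverPrime p) (W' : WeierstrassCurve ℚ) (hW' : IsShortNodal A p W')
    (hΔ : W'.Δ ≠ 0) (b : GQ) (hb : b ∈ A.inertiaSubgroupIn ℚ) (Q : (W'⁄Kbar).Point)
    (hpQ : p • Q = 0) (hbQ : b • Q ≠ Q) :
    ∃ (F : (W'⁄Kbar).Point → Kbar) (n : ℕ) (c : Kbar),
      (∀ (σ : GQ) (P : (W'⁄Kbar).Point), F (σ • P) = σ (F P)) ∧ (∀ σ : GQ, σ c = c) ∧ c ≠ 0 ∧
      A.valuation (p : Kbar) * A.valuation c ^ (p - 1) ≤
        A.valuation (b (F (n • Q)) - F (n • Q)) ^ (p - 1) ∧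
      A.valuation (F (n • Q)) ≤ A.valuation c := by
  have hpA : (p : Kbar) ∈ A.nonunits := hA
  have hodd : Odd p := hp.odd_of_ne_two hp2
  have h2 : IsUnitOf A (2 : Kbar) := two_isUnitOf hp hpA hp2
  have h2v : A.valuation (2 : Kbar) = 1 := h2
  obtain ⟨π₀, u₀, h4, hπ, hπ0, hu⟩ := hW'.a₄
  have hp0 : p ≠ 0 := hp.ne_zero
  -- coefficients of the base change
  have e₁ : (W'.baseChange Kbar).a₁ = 0 := by
    simp [WeierstrassCurve.baseChange, hW'.a₁]
  have e₂ : (W'.baseChange Kbar).a₂ = algebraMap ℚ Kbar W'.a₂ := by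
    simp [WeierstrassCurve.baseChange]
  have e₃ : (W'.baseChange Kbar).a₃ = 0 := by
    simp [WeierstrassCurve.baseChange, hW'.a₃]
  have e₄ : (W'.baseChange Kbar).a₄ = algebraMap ℚ Kbar W'.a₄ := by
    simp [WeierstrassCurve.baseChange]
  have e₆ : (W'.baseChange Kbar).a₆ = 0 := by
    simp [WeierstrassCurve.baseChange, hW'.a₆]
  have ha₂ : A.valuation (W'.baseChange Kbar).a₂ = 1 := by
    rw [e₂]; exact hW'.a₂_unit
  have ha₄ : (W'.baseChange Kbar).a₄ ∈ A.nonunits := by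
    rw [e₄, h4, map_mul, map_pow]
    exact mem_mul_nonunit A (hu.mem A) (nonunit_pow A hπ hp0)
  have ha₁A : (W'.baseChange Kbar).a₁ ∈ A := by rw [e₁]; exact A.zero_mem
  have ha₂A : (W'.baseChange Kbar).a₂ ∈ A := (A.valuation_le_one_iff _).mp ha₂.le
  have ha₃A : (W'.baseChange Kbar).a₃ ∈ A := by rw [e₃]; exact A.zero_mem
  have ha₄A : (W'.baseChange Kbar).a₄ ∈ A :=
    (A.valuation_le_one_iff _).mp (A.mem_nonunits_iff.mp ha₄).le
  have ha₆A : (W'.baseChange Kbar).a₆ ∈ A := by rw [e₆]; exact A.zero_mem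
  have hΔ' : (W'.baseChange Kbar).Δ ≠ 0 := A_baseChange_Δ_ne_zero W' hΔ
  -- landed inputs
  have HIV : h4_IVcorStatement A := by
    intro W h3 h6 r₁ r₂ hr₁ hr₂ ha₁ ha₂ hr π u hπ hπ0 hu n hn h4 x y h hP hx
    exact H76.torsion_node_valuation A W h3 h6 r₁ r₂ hr₁ hr₂ ha₁ ha₂ hr π u hπ hπ0 hu n hn h4
      h hP hx
  have hNTV := h4_nodeTorsionValuation_of_IVcor hodd h2 hW' HIV π₀ u₀ h4 hπ hπ0 hu
  have hsub : ∀ P : (W'⁄Kbar).Point, p • P = 0 → InE1 A (b • P - P) := fun P hP =>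
    Fermat.Agent.S13.h4_inertia_sub_inE1_of_isShortNodal hodd h2 hW' hb P hP
  -- the depth of a nonzero `p`-torsion point of the kernel of reduction
  have hdepth : ∀ T : (W'⁄Kbar).Point, InE1 A T → T ≠ 0 → p • T = 0 →
      A.valuation (p : Kbar) ≤ A.valuation (H97.zOf (W'.baseChange Kbar) T) ^ (p - 1) ∧
        0 < A.valuation (H97.zOf (W'.baseChange Kbar) T) ∧
        A.valuation (H97.zOf (W'.baseChange Kbar) T) < 1 ∧
        A.valuation (K56.zcoord T) = A.valuation (H97.zOf (W'.baseChange Kbar) T) := by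
    intro T hT hT0 hpT
    obtain ⟨x₂, y₂, h₂, rfl, hx₂⟩ := h70g_E1_coords A hT hT0
    have hbig := h97m_big_z A (W'.baseChange Kbar) hΔ' e₁ e₃ e₆ ha₂A ha₄A hp hp2 hpA h₂ hx₂ hpT
    have hvz := H97.val_z A (W'.baseChange Kbar) e₁ e₃ e₆ ha₂A ha₄A h₂.1
      (H97.one_lt_val_of_not_mem A hx₂)
    refine ⟨hbig, hvz.1, hvz.2, ?_⟩
    rw [K56.zcoord_some]
    exact h70g_val_z A x₂ y₂
  -- the case of a multiple of `Q` in the kernel of reduction
  have hE1 : ∀ n : ℕ, InE1 A (n • Q) → b • (n • Q) ≠ n • Q →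
      ∃ (F : (W'⁄Kbar).Point → Kbar) (n : ℕ) (c : Kbar),
        (∀ (σ : GQ) (P : (W'⁄Kbar).Point), F (σ • P) = σ (F P)) ∧ (∀ σ : GQ, σ c = c) ∧
        c ≠ 0 ∧
        A.valuation (p : Kbar) * A.valuation c ^ (p - 1) ≤
          A.valuation (b (F (n • Q)) - F (n • Q)) ^ (p - 1) ∧
        A.valuation (F (n • Q)) ≤ A.valuation c := by
    intro n hQ' hbQ'
    have hpQ' : p • (n • Q) = 0 := by rw [smul_comm, hpQ, nsmul_zero]
    have hT' : InE1 A (b • (n • Q) - n • Q) := hsub _ hpQ'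
    have hT'0 : b • (n • Q) - n • Q ≠ 0 := sub_ne_zero.mpr hbQ'
    have hpT' : p • (b • (n • Q) - n • Q) = 0 := by
      rw [nsmul_sub, ← h97w_smul_nsmul, hpQ', smul_zero (A := (W'⁄Kbar).Point) b, sub_zero]
    obtain ⟨hbig, hz0, hz1, -⟩ := hdepth _ hT' hT'0 hpT'
    have hadd := H97.add_E1 A (W'.baseChange Kbar) e₁ e₃ e₆ ha₂A ha₄A
      (P₁ := n • Q) (P₂ := b • (n • Q) - n • Q) hQ' hT'
    rw [add_sub_cancel] at hadd
    have hzQ : A.valuation (H97.zOf (W'.baseChange Kbar) (n • Q)) < 1 := by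
      rcases hQ' with h0 | ⟨x, y, h, he, hx⟩
      · rw [h0, H97.zOf_zero, map_zero]; exact zero_lt_one
      · rw [he, H97.zOf_some]
        exact (H97.val_z A (W'.baseChange Kbar) e₁ e₃ e₆ ha₂A ha₄A h.1
          (H97.one_lt_val_of_not_mem A hx)).2
    set zQ := H97.zOf (W'.baseChange Kbar) (n • Q) with hzQdef
    set zT := H97.zOf (W'.baseChange Kbar) (b • (n • Q) - n • Q) with hzTdef
    set zS := H97.zOf (W'.baseChange Kbar) (b • (n • Q)) with hzSdef
    have herr : A.valuation (zS - zQ - zT) < A.valuation zT := by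
      have hsum : A.valuation (zQ + zT) ≤ 1 :=
        le_trans (Valuation.map_add _ _ _) (max_le hzQ.le hz1.le)
      calc A.valuation (zS - zQ - zT)
          ≤ A.valuation (zQ + zT) * (A.valuation zQ * A.valuation zT) := hadd.2
        _ ≤ 1 * (A.valuation zQ * A.valuation zT) := by gcongr
        _ = A.valuation zQ * A.valuation zT := one_mul _
        _ < 1 * A.valuation zT := by
            exact mul_lt_mul_of_pos_right hzQ hz0
        _ = A.valuation zT := one_mul _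
    have hval : A.valuation (zS - zQ) = A.valuation zT := by
      have e : zS - zQ = zT + (zS - zQ - zT) := by ring
      rw [e]
      exact Valuation.map_add_eq_of_lt_left _ herr
    refine ⟨H97.zOf (W'.baseChange Kbar), n, 1, fun σ P => h97w_zOf_smul W' σ P,
      fun σ => map_one σ, one_ne_zero, ?_, ?_⟩
    · rw [map_one, one_pow, mul_one, ← h97w_zOf_smul, ← hzSdef, ← hzQdef, hval]
      exact hbig
    · rw [map_one]
      exact hzQ.le
  -- the point `Q` in coordinates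
  have hQ0 : Q ≠ 0 := by
    rintro rfl
    exact hbQ (smul_zero (A := (W'⁄Kbar).Point) b)
  have hT : InE1 A (b • Q - Q) := hsub Q hpQ
  have hT0 : b • Q - Q ≠ 0 := sub_ne_zero.mpr hbQ
  have hpT : p • (b • Q - Q) = 0 := by
    rw [nsmul_sub, ← h97w_smul_nsmul, hpQ, smul_zero (A := (W'⁄Kbar).Point) b, sub_zero]
  obtain ⟨hbig, hz0, hz1, hzc⟩ := hdepth _ hT hT0 hpT
  match Q, hpQ, hbQ, hE1, hQ0, hT, hT0, hpT, hbig, hz0, hz1, hzc with
  | .zero, _, _, _, hQ0, _, _, _, _, _, _, _ => exact absurd rfl hQ0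
  | .some x₁ y₁ h₁, hpQ, hbQ, hE1, _, hT, hT0, hpT, hbig, hz0, hz1, hzc =>
    by_cases hx₁ : x₁ ∈ A
    · have hy₁ : y₁ ∈ A := H86.y_mem_of_x_mem ha₁A ha₂A ha₃A ha₄A ha₆A h₁.1 hx₁
      obtain ⟨h₃, hsm⟩ := Fermat.Agent.S13.h4_smul_some W' b h₁
      have hadd : Point.some x₁ y₁ h₁ + (b • Point.some x₁ y₁ h₁ - Point.some x₁ y₁ h₁) =
          Point.some (b x₁) (b y₁) h₃ := by
        rw [add_sub_cancel, hsm]
      by_cases hy₁u : A.valuation y₁ = 1
      · -- nonsingular reduction, `y` a unit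
        have hval := h70g_shift_unit_pt A e₁ e₃ e₆ ha₂A ha₄A h2v h₁ h₃ hT hT0 hadd hx₁ hy₁u
        refine ⟨A_x, 1, 1, fun σ P => A_x_smul W' σ P, fun σ => map_one σ, one_ne_zero, ?_, ?_⟩
        · rw [map_one, one_pow, mul_one, one_nsmul, A_x_some, hval, hzc]
          exact hbig
        · rw [map_one, one_nsmul, A_x_some]
          exact (A.valuation_le_one_iff _).mpr hx₁
      · have hy₁m : y₁ ∈ A.nonunits := by
          rw [A.mem_nonunits_iff]
          exact lt_of_le_of_ne ((A.valuation_le_one_iff _).mpr hy₁) hy₁u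
        by_cases hx₁u : A.valuation x₁ = 1
        · -- doubling
          have hdbl := h70g_double_nsmul A e₁ e₃ e₆ ha₂ ha₄ h2v h₁ hx₁u hy₁m
          refine hE1 2 hdbl ?_
          intro h
          have h1 : (2 : ℕ) • (b • Point.some x₁ y₁ h₁ - Point.some x₁ y₁ h₁) = 0 := by
            rw [nsmul_sub, ← h97w_smul_nsmul, h, sub_self]
          exact h97w_two_nsmul_ne hp hp2 hT0 hpT h1
        · -- the node
          have hx₁m : x₁ ∈ A.nonunits := by
            rw [A.mem_nonunits_iff]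
            exact lt_of_le_of_ne ((A.valuation_le_one_iff _).mpr hx₁) hx₁u
          obtain ⟨hx0, hann, j, hj⟩ := hNTV x₁ y₁ h₁ hpQ hx₁m
          have hval := h70g_shift_node_pt A e₁ e₃ e₆ ha₂ h2v h₁ h₃ hT hT0 hadd hx₁m hx0 hann
          have hπK : algebraMap ℚ Kbar π₀ ≠ 0 := (_root_.map_ne_zero _).mpr hπ0
          refine ⟨A_x, 1, algebraMap ℚ Kbar π₀ ^ j, fun σ P => A_x_smul W' σ P, ?_,
            zpow_ne_zero _ hπK, ?_, ?_⟩
          · intro σ
            rw [map_zpow₀, AlgEquiv.commutes]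
          · rw [one_nsmul, A_x_some, hval, hzc, map_zpow₀, ← hj, mul_pow,
              mul_comm (A.valuation (p : Kbar))]
            exact mul_le_mul_right hbig _
          · rw [one_nsmul, A_x_some, map_zpow₀, hj]
    · -- `Q` in the kernel of reduction
      refine hE1 1 ?_ ?_
      · rw [one_nsmul]; exact (inE1_some A h₁).2 hx₁
      · rw [one_nsmul]; exact hbQ

/-- **CORE of LOCAL-MULT** (twin of helper64's `h64m_core`). -/
theorem h97w_core : H64mCore := by
  intro A p hp hp2 hA W' hW' hΔ I₁ hI₁ ζ hζ hζfix b hb Q hpQ hbQ _ hbp Triv hact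
  obtain ⟨F, n, c, hF, hc, hc0, H1, H2⟩ :=
    h97w_witness A hp hp2 hA W' hW' hΔ b (hI₁ hb) Q hpQ hbQ
  exact h97w_finish A hp W' I₁ ζ hζ hζfix b hb Q hbp Triv hact F hF n c hc hc0 H1 H2

end Fermat.Agent.P7
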