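import Fermat.Agent.P7.H99W7Top
import Fermat.Agent.P7.H77MultIface

/-!
# Wave 7: the statement S44 from the two open atoms (helper99)

`h99w_s44_of : (∀ p ≥ 5, H99wToricAt p) → H77mLocalFrey → (the frozen statement S44)`.

`H77mLocalFrey` (helper77, `P7/H77MultIface.lean`) is the frozen Prop of the leaf LOCAL-MULT;
`H77mLocalAt W p` and `H99wLocalAt W p` have the same body (`h99w_localAt_iff`).
-/

set_option autoImplicit false

noncomputable section

namespace Fermat.Agent.P7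

theorem h99w_localAt_iff (W : WeierstrassCurve ℤ) (p : ℕ) : H99wLocalAt W p ↔ H77mLocalAt W p :=
  Iff.rfl

/-- **S44 from TORIC (`p ≥ 5`) and LOCAL-MULT.** -/
theorem h99w_s44_of (hT : ∀ p : ℕ, 5 ≤ p → H99wToricAt p) (hL : H77mLocalFrey)
    (P : FreyPackage) {N : ℕ} (hcond : P.IsConductorLevel N) (hpN : P.p ∣ N)
    (hirr : WeierstrassCurve.Affine.Point.GaloisRepIsIrreducible (K := AlgebraicClosure ℚ) ℚ
      P.freyCurve P.p)
    (hmod : P.ModularRepOfLevel N) :
    ∃ M : ℕ, M ∣ N ∧ ¬ P.p ∣ M ∧ P.ModularRepOfLevel M :=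
  h99w_s44 hT (fun P W hW hp => (h99w_localAt_iff W P.p).mpr (hL P W hW hp)) P hcond hpN hirr hmod

end Fermat.Agent.P7
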