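import Fermat.Agent.P7.H99W7Top
import Fermat.Agent.P7.H77MultIface

/-!
# Wave 7 (S44): the top with Hecke primes prime to the good level (architect helper99)

The blocks (E) and (A) of TORIC run at the good level `goodLevel p M = lcm (M, 4)`, so the Hecke
primes they can use must be prime to `goodLevel p M * p` (i.e. `ℓ ≠ 2` when `M` is odd).

* `H99wToricGoodAt p` : the body of `H99wToricAt p` with `¬ ℓ ∣ goodLevel p M * p` instead of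
  `¬ ℓ ∣ M * p`, both for the non-Eisenstein prime and for the variables of the Hecke polynomial
  `e` (a WEAKER statement: `h99w_toricGoodAt_of`).
* `h99w_topCore` : the top for an arbitrary predicate `Ok` on the Hecke primes (true outside a
  finite set and on the good primes of `W` not dividing the level).
* `h99w_topGood` : `H99wToricGoodAt p` + `H99wLocalAt W p` + (`W` bad at `2` or `2 ∣ M`) ⟹ level
  lowering at `p ∥ M`.
* `h99w_s44_good` : `(∀ p ≥ 5, H99wToricGoodAt p)` + `H77mLocalFrey` + (integral models of Frey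
  curves are bad at `2`) ⟹ the frozen statement S44.
-/

set_option autoImplicit false
set_option linter.unusedSectionVars false
set_option linter.style.haveILetI false

open AlgebraicCurve ModularCurve WeierstrassCurve WeierstrassCurve.Affine

noncomputable section

namespace Fermat.Agent.P7

open Fermat.Agent.S37 Fermat.Agent.S35
open Fermat.Agent.S30 (heckeTAll)

/-- **(T) TORIC at the prime `p`, Hecke primes prime to the good level.** -/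
def H99wToricGoodAt (p : ℕ) : Prop :=
  ∀ (hp : p.Prime), p ≠ 2 → ∀ (M : ℕ) [NeZero M], ¬ p ∣ M →
    haveI : NeZero p := ⟨hp.ne_zero⟩
    ∀ A : ValuationSubring Kbar, A.LiesOverPrime p →
    ∀ β : Kbar, β ∈ A → β⁻¹ ∈ A →
      (∀ a ∈ A.inertiaSubgroupIn ℚ, H99wFixMu p a → a (β ^ p) = β ^ p) →
    ∀ x : JZero (M * p), p • x = 0 → pushAlpha M p x = 0 → pushBeta M p x = 0 →
      (∀ a ∈ A.inertiaSubgroupIn ℚ, H99wFixMu p a → a β = β → a • x = x) →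
      (∃ ℓ : Nat.Primes, ¬ (ℓ : ℕ) ∣ goodLevel p M * p ∧ ∃ c : ℤ,
        heckeOperatorBar (M * p) ℓ x = c • x ∧ ¬ (p : ℤ) ∣ ((ℓ : ℕ) : ℤ) + 1 - c) →
      (∃ e : MvPolynomial Nat.Primes ℤ, (∀ ℓ ∈ e.vars, ¬ (ℓ : ℕ) ∣ goodLevel p M * p) ∧
        H99wKillsCusp M e ∧ (letI := heckeModuleBar (M * p); e • x = x)) →
      ∀ a ∈ A.inertiaSubgroupIn ℚ, ∀ e : ℕ, (∀ μ : Kbar, μ ^ p = 1 → a μ = μ ^ e) →
        a • x = e • x

theorem h99w_not_dvd_of_good {p M ℓ : ℕ} (h : ¬ ℓ ∣ goodLevel p M * p) : ¬ ℓ ∣ M * p :=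
  fun h' => h (h'.trans (Nat.mul_dvd_mul_right (dvd_goodLevel p M) p))

/-- the statement with good Hecke primes is weaker. -/
theorem h99w_toricGoodAt_of {p : ℕ} (h : H99wToricAt p) : H99wToricGoodAt p := by
  intro hp hp2 M _ hpM A hA β hβ hβ' hβp x hx hα hβx hfix hEis hOld
  refine h hp hp2 M hpM A hA β hβ hβ' hβp x hx hα hβx hfix ?_ ?_
  · obtain ⟨ℓ, hℓ, c, h1, h2⟩ := hEis
    exact ⟨ℓ, h99w_not_dvd_of_good hℓ, c, h1, h2⟩
  · obtain ⟨e, he, h1, h2⟩ := hOld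
    exact ⟨e, fun ℓ hℓ => h99w_not_dvd_of_good (he ℓ hℓ), h1, h2⟩

/-- an odd prime not dividing `M * p` does not divide `goodLevel p M * p` (`p` odd). -/
theorem h99w_not_dvd_good {p M ℓ : ℕ} (hp2 : p ≠ 2) (hℓ : ℓ.Prime) (hℓ2 : ℓ ≠ 2)
    (h : ¬ ℓ ∣ M * p) : ¬ ℓ ∣ goodLevel p M * p := by
  intro hd
  have h1 : goodLevel p M ∣ M * 4 := by
    unfold goodLevel auxLevel
    rw [if_neg hp2]
    exact Nat.lcm_dvd_mul M 4
  have h2 : ℓ ∣ M * 4 * p := hd.trans (Nat.mul_dvd_mul_right h1 p)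
  have h3 : M * 4 * p = 4 * (M * p) := by ring
  rw [h3] at h2
  rcases (Nat.Prime.dvd_mul hℓ).1 h2 with h4 | h4
  · have h5 : ℓ ∣ 2 ^ 2 := by norm_num; exact h4
    exact hℓ2 ((Nat.prime_dvd_prime_iff_eq hℓ Nat.prime_two).1 (hℓ.dvd_of_dvd_pow h5))
  · exact h h4

/-- **the core of the top**, for an arbitrary predicate `Ok` on the Hecke primes. -/
theorem h99w_topCore (W : WeierstrassCurve ℤ) (hΔ : W.Δ ≠ 0) {p : ℕ}
    (hp : p.Prime) (hp2 : p ≠ 2) (hL : H99wLocalAt W p)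
    (hirr : W.ModRepIsIrreducible p) (M' : ℕ) [NeZero M'] (hpM' : ¬ p ∣ M')
    (hmod : W.IsResiduallyModularOfLevel p (M' * p))
    (hnot : ¬ W.IsResiduallyModularOfLevel p M')
    (Ok : Nat.Primes → Prop) (S₁ : Finset ℕ) (hOk1 : ∀ ℓ : Nat.Primes, (ℓ : ℕ) ∉ S₁ → Ok ℓ)
    (hOk2 : ∀ ℓ ∈ H99wGood W (M' * p), Ok ℓ)
    (hT : haveI : NeZero p := ⟨hp.ne_zero⟩
      ∀ A : ValuationSubring Kbar, A.LiesOverPrime p →
      ∀ β : Kbar, β ∈ A → β⁻¹ ∈ A →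
        (∀ a ∈ A.inertiaSubgroupIn ℚ, H99wFixMu p a → a (β ^ p) = β ^ p) →
      ∀ x : JZero (M' * p), p • x = 0 → pushAlpha M' p x = 0 → pushBeta M' p x = 0 →
        (∀ a ∈ A.inertiaSubgroupIn ℚ, H99wFixMu p a → a β = β → a • x = x) →
        (∃ ℓ : Nat.Primes, Ok ℓ ∧ ∃ c : ℤ,
          heckeOperatorBar (M' * p) ℓ x = c • x ∧ ¬ (p : ℤ) ∣ ((ℓ : ℕ) : ℤ) + 1 - c) →
        (∃ e : MvPolynomial Nat.Primes ℤ, (∀ ℓ ∈ e.vars, Ok ℓ) ∧
          H99wKillsCusp M' e ∧ (letI := heckeModuleBar (M' * p); e • x = x)) →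
        ∀ a ∈ A.inertiaSubgroupIn ℚ, ∀ e : ℕ, (∀ μ : Kbar, μ ^ p = 1 → a μ = μ ^ e) →
          a • x = e • x) :
    False := by
  classical
  haveI : NeZero p := ⟨hp.ne_zero⟩
  haveI : NeZero (M' * p) := ⟨Nat.mul_ne_zero (NeZero.ne M') hp.ne_zero⟩
  haveI : Fact p.Prime := ⟨hp⟩
  -- the new eigenspace and the embedding of `W[p]`
  obtain ⟨V₀, ⟨v, hv, hv0⟩, hgal, htors, heig, hnew⟩ := h17u_new_core W hp M' hΔ hmod hnot
  have hV₀ : V₀ ≠ ⊥ := by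
    intro h
    rw [h, AddSubgroup.mem_bot] at hv
    exact hv0 hv
  have hE : H38eEig W p (M' * p) V₀ (h17gS W p (M' * p)) :=
    ⟨fun σ x hx => hgal σ x hx, htors, fun ℓ hℓ x hx => heig x hx ℓ hℓ⟩
  obtain ⟨φ, hinj, hequiv, hmem⟩ :=
    h38e_embed W hΔ hp hp2 hirr (M' * p) (h17gS W p (M' * p)) V₀ hV₀ hE
  -- a place over `p`
  obtain ⟨A, hA⟩ := Fermat.Agent.S54.exists_liesOverPrime hp
  -- STAR on `W[p]`
  have hstar : ∀ a ∈ A.inertiaSubgroupIn ℚ, ∀ e : ℕ, (∀ μ : Kbar, μ ^ p = 1 → a μ = μ ^ e) →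
      ∀ P : H99wTors W p, a • a • P - ((1 : ℤ) + e) • a • P + e • P = 0 := by
    intro a ha e he P
    apply hinj
    have h := Fermat.Agent.P6.h66z_newStar hp hp2 M' hpM' A hA a ha a ha 1 e
      (fun μ hμ => he μ (by rwa [pow_one] at hμ)) (φ P)
      (by rw [pow_one]; exact htors _ (hmem P)) (hnew _ (hmem P)).1 (hnew _ (hmem P)).2
    rw [map_zero, map_add, map_sub, map_zsmul, map_nsmul, hequiv, hequiv, add_zsmul, one_zsmul,
      natCast_zsmul, ← h]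
    abel
  -- LOCAL: peu ramifié
  obtain ⟨β, hβ, hβ', hβp, hβfix⟩ := hL A hA hstar
  -- a non-Eisenstein prime
  obtain ⟨ℓ, hℓ, hℓgood, hℓS, hℓp, hℓne⟩ :=
    Fermat.Agent.EFrob.exists_good_prime_not_eisenstein' W hΔ hp hirr
      (h17gS W p (M' * p) ∪ S₁)
  rw [Finset.mem_union, not_or] at hℓS
  have hℓOk : Ok ⟨ℓ, hℓ⟩ := hOk1 ⟨ℓ, hℓ⟩ hℓS.2
  have hℓS := hℓS.1
  -- the GLUE polynomial
  obtain ⟨e₀, he₀s, he₀k, he₀p⟩ := h17g_glue0 W hΔ p hp M' hpM' hnot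
  have hcop : IsCoprime (p : ℤ)
      (MvPolynomial.eval (fun ℓ : Nat.Primes => W.apOfModel (ℓ : ℕ)) e₀) :=
    (Nat.prime_iff_prime_int.mp hp).irreducible.coprime_iff_not_dvd.mpr he₀p
  obtain ⟨u, c, huc⟩ := hcop
  have hgoodS : ∀ ℓ' : Nat.Primes, ℓ' ∈ H99wGood W (M' * p) → (ℓ' : ℕ) ∉ h17gS W p (M' * p) := by
    intro ℓ' hℓ'
    refine (h17g_not_mem_S_iff W hΔ (NeZero.ne (M' * p)) ℓ'.2).mpr ⟨?_, hℓ'.2, hℓ'.1⟩
    intro h
    exact hℓ'.2 (h ▸ Dvd.intro_left M' rfl)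
  -- TORIC on the image of `W[p]`
  have htoric : ∀ a ∈ A.inertiaSubgroupIn ℚ, ∀ e : ℕ, (∀ μ : Kbar, μ ^ p = 1 → a μ = μ ^ e) →
      ∀ P : H99wTors W p, a • P = e • P := by
    intro a ha e he P
    apply hinj
    rw [hequiv, map_nsmul]
    refine hT A hA β hβ hβ' hβp (φ P) (htors _ (hmem P)) (hnew _ (hmem P)).1
      (hnew _ (hmem P)).2 ?_ ?_ ?_ a ha e he
    · intro b hb hbμ hbβ
      rw [← hequiv, hβfix b hb hbμ hbβ P]
    · refine ⟨⟨ℓ, hℓ⟩, hℓOk, W.apOfModel ℓ, heig _ (hmem P) ⟨ℓ, hℓ⟩ hℓS, ?_⟩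
      intro h
      apply hℓne
      have h2 := (dvd_neg (a := (p : ℤ))).mpr h
      have e1 : -(((((⟨ℓ, hℓ⟩ : Nat.Primes) : ℕ) : ℤ)) + 1 - W.apOfModel ℓ) =
          W.apOfModel ℓ - ((ℓ : ℤ) + 1) := by
        ring
      rw [e1] at h2
      exact h2
    · refine ⟨MvPolynomial.C c * e₀, ?_, ?_, ?_⟩
      · intro ℓ' hℓ'
        have h1 : ℓ' ∈ e₀.vars := by
          have h2 := MvPolynomial.vars_mul (MvPolynomial.C c) e₀ hℓ'
          rw [MvPolynomial.vars_C, Finset.empty_union] at h2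
          exact h2
        have h3 : ℓ' ∈ H99wGood W (M' * p) := (MvPolynomial.mem_supported.mp he₀s) h1
        exact hOk2 ℓ' h3
      · unfold H99wKillsCusp at he₀k ⊢
        rw [map_mul, MulMemClass.coe_mul, he₀k, mul_zero]
      · letI := heckeModuleBar (M' * p)
        have h1 := h99w_smul_eigen (M' * p) (fun ℓ : Nat.Primes => W.apOfModel (ℓ : ℕ)) (φ P)
          (H99wGood W (M' * p)) (fun ℓ' hℓ' => heig _ (hmem P) ℓ' (hgoodS ℓ' hℓ')) e₀ he₀s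
        rw [mul_smul, h1, heckeModuleBar_C_smul, ← mul_zsmul]
        have h2 : c * MvPolynomial.eval (fun ℓ : Nat.Primes => W.apOfModel (ℓ : ℕ)) e₀ =
            1 - u * (p : ℤ) := by
          rw [← huc]
          ring
        have h3 : (u * (p : ℤ)) • φ P = 0 := by
          rw [mul_zsmul, natCast_zsmul, htors _ (hmem P), zsmul_zero]
        rw [h2, sub_zsmul, one_zsmul, h3]
        simp
  -- an element of the inertia squaring the `p`-th roots of unity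
  obtain ⟨ζ, hζ, s₀, hs₀, hs₀ζ⟩ := Fermat.Agent.P6.h23u_exists_inertia_sq hp hp2 A hA
  have hs₀μ : ∀ μ : Kbar, μ ^ p = 1 → s₀ μ = μ ^ 2 :=
    h99w_exp_of_prim hp.pos s₀ 2 hζ hs₀ζ
  have hsc : ∀ P : H99wTors W p, s₀ • P = 2 • P := htoric s₀ hs₀ 2 hs₀μ
  -- BOREL
  refine h64w_borelFrozen W hΔ p hp hp2 hirr s₀ 2 hs₀μ ?_ (hstar s₀ hs₀ 2 hs₀μ) ?_
  · intro h
    have h1 : ((2 : ℕ) : ℤ) - 1 = 1 := by norm_num
    rw [h1] at h
    have h2 := Int.eq_one_of_dvd_one (Int.natCast_nonneg p) h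
    have h3 : p = 1 := by exact_mod_cast h2
    exact hp.one_lt.ne' h3
  · intro g P
    have hcP : ∀ Q : H99wTors W p, (s₀ * g * s₀⁻¹ * g⁻¹) • Q = Q := by
      intro Q
      rw [mul_smul, mul_smul, mul_smul, hsc (g • s₀⁻¹ • g⁻¹ • Q)]
      have h1 : (2 : ℕ) • g • s₀⁻¹ • g⁻¹ • Q = g • ((2 : ℕ) • s₀⁻¹ • g⁻¹ • Q) :=
        (map_nsmul (DistribSMul.toAddMonoidHom (H99wTors W p) g) 2 (s₀⁻¹ • g⁻¹ • Q)).symm
      rw [h1, ← hsc (s₀⁻¹ • g⁻¹ • Q), smul_inv_smul, smul_inv_smul]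
    rw [hcP, hcP, two_zsmul]
    abel

/-- **the top with good Hecke primes**: `H99wToricGoodAt p`, the local input and `W` bad at `2`
(or `2 ∣ M`) imply level lowering at `p ∥ M`. -/
theorem h99w_topGood (W : WeierstrassCurve ℤ) (hΔ : W.Δ ≠ 0) {p : ℕ}
    (hp : p.Prime) (hp2 : p ≠ 2) (hT : H99wToricGoodAt p) (hL : H99wLocalAt W p)
    (hirr : W.ModRepIsIrreducible p) {M : ℕ} (hM : 0 < M) (hpM : p ∣ M)
    (hp2M : ¬ p ^ 2 ∣ M) (h2 : ¬ W.IsGoodPrimeFor 2 ∨ 2 ∣ M)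
    (hmod : W.IsResiduallyModularOfLevel p M) :
    W.IsResiduallyModularOfLevel p (M / p) := by
  by_contra hnot
  obtain ⟨M', rfl⟩ := hpM
  have hM'0 : 0 < M' := by
    rcases Nat.eq_zero_or_pos M' with h | h
    · rw [h, mul_zero] at hM
      exact absurd hM (lt_irrefl 0)
    · exact h
  rw [Nat.mul_div_cancel_left M' hp.pos] at hnot
  have hpM' : ¬ p ∣ M' := fun h => hp2M (by
    rw [pow_two]
    exact Nat.mul_dvd_mul_left p h)
  rw [mul_comm] at hmod h2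
  haveI : NeZero M' := ⟨hM'0.ne'⟩
  haveI : NeZero p := ⟨hp.ne_zero⟩
  refine h99w_topCore W hΔ hp hp2 hL hirr M' hpM' hmod hnot
    (fun ℓ => ¬ (ℓ : ℕ) ∣ goodLevel p M' * p) (insert 2 (M' * p).primeFactors) ?_ ?_
    (hT hp hp2 M' hpM')
  · intro ℓ hℓ
    rw [Finset.mem_insert, not_or] at hℓ
    refine h99w_not_dvd_good hp2 ℓ.2 hℓ.1 fun h => hℓ.2 ?_
    exact Nat.mem_primeFactors.2 ⟨ℓ.2, h, Nat.mul_ne_zero hM'0.ne' hp.ne_zero⟩
  · intro ℓ hℓ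
    refine h99w_not_dvd_good hp2 ℓ.2 ?_ hℓ.2
    intro h
    rcases h2 with h2 | h2
    · exact h2 (h ▸ hℓ.1)
    · exact hℓ.2 (h ▸ h2)

/-- **S44 from TORIC with good Hecke primes (`p ≥ 5`), LOCAL-MULT and the bad reduction at `2`
of the integral models of Frey curves.** -/
theorem h99w_s44_good (hT : ∀ p : ℕ, 5 ≤ p → H99wToricGoodAt p) (hL : H77mLocalFrey)
    (h2 : ∀ (P : FreyPackage) (W : WeierstrassCurve ℤ), W.IsIntegralModelOf P.freyCurve →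
      ¬ W.IsGoodPrimeFor 2)
    (P : FreyPackage) {N : ℕ} (hcond : P.IsConductorLevel N) (hpN : P.p ∣ N)
    (hirr : WeierstrassCurve.Affine.Point.GaloisRepIsIrreducible (K := AlgebraicClosure ℚ) ℚ
      P.freyCurve P.p)
    (hmod : P.ModularRepOfLevel N) :
    ∃ M : ℕ, M ∣ N ∧ ¬ P.p ∣ M ∧ P.ModularRepOfLevel M := by
  obtain ⟨f, W, 𝔪, hf, hW, hmax, hp𝔪, hcong⟩ := hmod
  have hΔE : P.freyCurve.Δ ≠ 0 := Fermat.Agent.S13.freyCurve_Δ_ne_zero P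
  have hΔ : W.Δ ≠ 0 := h99i_delta_ne_zero _ hΔE hW
  have hirrW : W.ModRepIsIrreducible P.p := h99i_irr_of_model _ hΔE hW P.pp hirr
  have hp2 : P.p ≠ 2 := by
    have := P.hp5
    omega
  have hp2N : ¬ P.p ^ 2 ∣ N := hcond.sq_not_dvd P.pp
  have hres : W.IsResiduallyModularOfLevel P.p N := ⟨f, 𝔪, hf, hmax, hp𝔪, hcong⟩
  obtain ⟨g, 𝔫, hg, hmax', hp𝔫, hcong'⟩ := h99w_topGood W hΔ P.pp hp2 (hT P.p P.hp5)
    (hL P W hW (hcond.p_dvd_abc hpN)) hirrW hcond.pos hpN hp2N (Or.inl (h2 P W hW)) hres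
  refine ⟨N / P.p, Nat.div_dvd_of_dvd hpN, fun h => hp2N ?_, g, W, 𝔫, hg, hW, hmax', hp𝔫, hcong'⟩
  obtain ⟨k, hk⟩ := h
  refine ⟨k, ?_⟩
  have h1 : N = P.p * (N / P.p) := (Nat.mul_div_cancel' hpN).symm
  rw [h1, hk, pow_two, mul_assoc]

end Fermat.Agent.P7
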