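import Fermat.Agent.P7.H9GenusWire
import Fermat.Agent.P7.H39GenusWH
import Fermat.Agent.P7.H37Count
import Fermat.Agent.P7.H15GenusDescent

/-!
# Wave 7, block (A), DLOG leaf DL6B GENUS-MATCH: the unconditional theorem (helper9)

`h9g_genusMatch_final : H15gGenusMatch`, i.e. for every level `M` and every weak genus `g` of
`FF M` over `ℚ̄` (P5 `H13rIsGenus`): `g ≤ dim_ℂ S₂(Γ₀(M))`.

Assembly of the landed leaves of `P7/H15GenusIface.lean`:
`h39o_gWH : H15gWH` (helper39), `h37c_count : H15gWH → H15gCount` (helper37),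
`h15g_descent : H15gDescent` (helper15), `h9g_genusMatch` (wire).
-/

set_option autoImplicit false

open ModularCurve AlgebraicCurve CongruenceSubgroup

noncomputable section

namespace Fermat.Agent.P7

/-- **GENUS-MATCH** (exact frozen Prop of `P7/H15GenusIface.lean`), unconditional. -/
theorem h9g_genusMatch_final : H15gGenusMatch :=
  h9g_genusMatch (h37c_count h39o_gWH) h15g_descent

/-- explicit form. -/
theorem h9g_genus_le_cusp (M : ℕ) [NeZero M] (g : ℕ)
    (hg : Fermat.Agent.P5.H13rIsGenus Fermat.Agent.S24.Kbar (Fermat.Agent.S24.FF M) g) :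
    g ≤ Module.finrank ℂ (CuspForm (Gamma0 M) 2) :=
  h9g_genusMatch_final M g hg

end Fermat.Agent.P7
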