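import Fermat.Agent.P7.H17Glue0
import Fermat.Agent.P7.H9FreyBad2

/-!
# Wave 7 (S44): GLUE-2 for integral models of the Frey curve (helper9)

Block (A) of TORIC acts at the good level `goodLevel p M * p = lcm(M, 4) * p`, so every Hecke
prime must be prime to it.  For an integral model `W` of the Frey curve this is automatic:
`2 ∣ W.Δ` (`h9w_frey_two_dvd_disc`), hence no good prime of `W` is `2`.

* `h9w_good_not_dvd_goodLevel` : a good prime of `W`, prime to `M * p`, is prime to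
  `goodLevel p M * p` (`p` odd).
* `h9w_glue2_frey` : the output shape of row GLUE-2 for the Frey models, from the landed
  `h17g_glue0 : H99wGlue`.
-/

set_option autoImplicit false
set_option linter.style.haveILetI false
set_option linter.unusedSectionVars false

open AlgebraicCurve ModularCurve

noncomputable section

namespace Fermat.Agent.P7

open Fermat.Agent.S37

/-- a good prime `ℓ` of an integral model of the Frey curve which is prime to `M * p` (`p ≠ 2`)
is prime to `goodLevel p M * p`. -/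
theorem h9w_good_not_dvd_goodLevel (P : FreyPackage) (W : WeierstrassCurve ℤ)
    (hW : W.IsIntegralModelOf P.freyCurve) {ℓ : ℕ} (hprime : ℓ.Prime)
    (hℓ : W.IsGoodPrimeFor ℓ) {M p : ℕ} (hp2 : p ≠ 2) (h : ¬ ℓ ∣ M * p) :
    ¬ ℓ ∣ goodLevel p M * p := by
  have e : goodLevel p M = Nat.lcm M 4 := by
    unfold goodLevel auxLevel
    rw [if_neg hp2]
  rw [e]
  exact h9w_frey_good_not_dvd_lcm P W hW hprime hℓ h

/-- **GLUE-2 for the Frey models.**  If an integral model `W` of the Frey curve is not residually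
modular of level `M'` at `p` (odd, `p ∤ M'`), some Hecke polynomial `e` whose variables are good
primes of `W` prime to `goodLevel p M' * p` kills `S₂(Γ₀(M'))` and `p ∤ e(a_ℓ(W))`. -/
theorem h9w_glue2_frey (P : FreyPackage) (W : WeierstrassCurve ℤ)
    (hW : W.IsIntegralModelOf P.freyCurve) (hΔ : W.Δ ≠ 0) {p : ℕ} (hp : p.Prime) (hp2 : p ≠ 2)
    (M' : ℕ) [NeZero M'] (hpM : ¬ p ∣ M') (hnot : ¬ W.IsResiduallyModularOfLevel p M') :
    ∃ e : MvPolynomial Nat.Primes ℤ,
      e ∈ MvPolynomial.supported ℤ (H99wGood W (M' * p)) ∧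
      (∀ ℓ ∈ e.vars, ¬ (ℓ : ℕ) ∣ goodLevel p M' * p) ∧
      (∀ ℓ ∈ e.vars, ¬ (ℓ : ℕ) ∣ M' * p) ∧
      (∀ ℓ ∈ e.vars, W.IsGoodPrimeFor (ℓ : ℕ)) ∧
      H99wKillsCusp M' e ∧
      ¬ (p : ℤ) ∣ MvPolynomial.eval (fun ℓ : Nat.Primes => W.apOfModel (ℓ : ℕ)) e := by
  obtain ⟨e, hsupp, hkill, hval⟩ := h17g_glue0 W hΔ p hp M' hpM hnot
  have hvars : ∀ ℓ ∈ e.vars, ℓ ∈ H99wGood W (M' * p) := by
    intro ℓ hℓ
    have h1 := (MvPolynomial.mem_supported (R := ℤ)).1 hsupp
    exact h1 (by exact_mod_cast hℓ)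
  refine ⟨e, hsupp, fun ℓ hℓ => ?_, fun ℓ hℓ => (hvars ℓ hℓ).2, fun ℓ hℓ => (hvars ℓ hℓ).1,
    hkill, hval⟩
  exact h9w_good_not_dvd_goodLevel P W hW ℓ.2 (hvars ℓ hℓ).1 hp2 (hvars ℓ hℓ).2

end Fermat.Agent.P7
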