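import Fermat.Agent.P7.H8LocWAbs

/-!
# P7 (wave 7, row 38 via S44), block LOCAL-MULT, leaf LM1 ASM-TORS (helper9)

Torsion-restricted form of the abstract order step `h9m_locOrder` of `P7/H8LocWAbs.lean`
(helper8).  In multiplicative reduction the inertia group is NOT trivial modulo the kernel of
reduction `E` on all points, and inertia-fixed lifts exist only for special points; both facts
hold on the `m`-torsion (`m = p`, `p ∣ v(Δ)`).  The proof of helper8 uses the two fields only at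
points of the torsion module, so the same generators give a local order:

* `H9mKer A E z m` : the inputs, with `inert` and `lift` required only for `x` with `m • x = 0`;
* `h9m_locOrder : H9mKer A E z m → H96LocOrder A (h8wAct m) (h8wG A E z m)`;
* `h9m_ker_of_ker : H8wKer A E z → H9mKer A E z m` (the unrestricted inputs are a special case).
-/

set_option autoImplicit false
set_option linter.style.haveILetI false
set_option linter.unusedSectionVars false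

noncomputable section

namespace Fermat.Agent.P7

open Fermat.Agent.S37 Fermat.Agent.P5

variable {𝔾 : Type} [AddCommGroup 𝔾] [DistribMulAction GQ 𝔾]

/-- **The inputs of the torsion-restricted abstract order step.** -/
structure H9mKer (A : ValuationSubring Kbar) (E : AddSubgroup 𝔾) (z : 𝔾 → Kbar) (m : ℤ) :
    Prop where
  z_out : ∀ x, x ∉ E → z x = 0
  z_int : ∀ x, z x ∈ A
  z_inj : ∀ x ∈ E, ∀ y ∈ E, z x = z y → x = y
  z_decomp : ∀ τ ∈ A.decompositionSubgroup ℚ, ∀ x : 𝔾, z (τ • x) = τ (z x)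
  E_decomp : ∀ τ ∈ A.decompositionSubgroup ℚ, ∀ x ∈ E, τ • x ∈ E
  inert : ∀ σ ∈ A.inertiaSubgroupIn ℚ, ∀ x : 𝔾, m • x = 0 → σ • x - x ∈ E
  lift : ∀ y : 𝔾, m • y = 0 →
    ∃ c₀ : 𝔾, (∀ σ ∈ A.inertiaSubgroupIn ℚ, σ • c₀ = c₀) ∧ y - c₀ ∈ E
  add : ∀ S S' : Set 𝔾, S.Finite → S'.Finite → S ⊆ (E : Set 𝔾) → S' ⊆ (E : Set 𝔾) →
    (fun p : ↥S × ↥S' => z ((p.1 : 𝔾) + (p.2 : 𝔾))) ∈ h96c_prod A (h8wR A z S) (h8wR A z S')

variable {A : ValuationSubring Kbar} {E : AddSubgroup 𝔾} {z : 𝔾 → Kbar}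

/-- the unrestricted inputs are a special case. -/
theorem h9m_ker_of_ker (hK : H8wKer A E z) (m : ℤ) : H9mKer A E z m where
  z_out := hK.z_out
  z_int := hK.z_int
  z_inj := hK.z_inj
  z_decomp := hK.z_decomp
  E_decomp := hK.E_decomp
  inert := fun σ hσ x _ => hK.inert σ hσ x
  lift := fun y _ => hK.lift y
  add := hK.add

theorem h9m_tors {m : ℤ} (y : h8wT 𝔾 m) : m • (y : 𝔾) = 0 :=
  (Submodule.mem_torsionBy_iff _ _).1 y.2

theorem h9m_inert_mem_iff {m : ℤ} (hK : H9mKer A E z m) {σ : GQ}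
    (hσ : σ ∈ A.inertiaSubgroupIn ℚ) (y : h8wT 𝔾 m) {c₀ : 𝔾}
    (hc₀ : ∀ σ ∈ A.inertiaSubgroupIn ℚ, σ • c₀ = c₀) :
    σ • ((y : 𝔾) - c₀) ∈ E ↔ (y : 𝔾) - c₀ ∈ E := by
  have h := hK.inert σ hσ (y : 𝔾) (h9m_tors y)
  have e : σ • ((y : 𝔾) - c₀) = (σ • (y : 𝔾) - (y : 𝔾)) + ((y : 𝔾) - c₀) := by
    rw [h8w_smul_sub, hc₀ σ hσ]
    abel
  constructor
  · intro h1
    have : (y : 𝔾) - c₀ = σ • ((y : 𝔾) - c₀) - (σ • (y : 𝔾) - (y : 𝔾)) := by
      rw [e]; abel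
    rw [this]
    exact sub_mem h1 h
  · intro h1
    rw [e]
    exact add_mem h h1

section Main

variable {m : ℤ}

theorem h9m_decomp_mem_iff (hK : H9mKer A E z m) {τ : GQ} (hτ : τ ∈ A.decompositionSubgroup ℚ)
    (x : 𝔾) : τ • x ∈ E ↔ x ∈ E := by
  constructor
  · intro h1
    have := hK.E_decomp τ⁻¹ (inv_mem hτ) _ h1
    rwa [inv_smul_smul] at this
  · exact hK.E_decomp τ hτ x

theorem h9m_G_int (hK : H9mKer A E z m) : ∀ f ∈ h8wG A E z m, ∀ y, f y ∈ A := by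
  rintro f ⟨c₀, -, rfl | rfl⟩ y
  · unfold h8wIdem
    split_ifs
    · exact A.one_mem
    · exact A.zero_mem
  · exact hK.z_int _

theorem h9m_G_inert (hK : H9mKer A E z m) :
    ∀ f ∈ h8wG A E z m, ∀ σ ∈ A.inertiaSubgroupIn ℚ, ∀ y, f (h8wAct m σ y) = σ (f y) := by
  rintro f ⟨c₀, hc₀, rfl | rfl⟩ σ hσ y
  · unfold h8wIdem
    have h1 : ((h8wAct m σ y : h8wT 𝔾 m) : 𝔾) - c₀ = σ • ((y : 𝔾) - c₀) := by
      rw [h8wAct_coe, h8w_smul_sub, hc₀ σ hσ]
    rw [h1]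
    by_cases h2 : (y : 𝔾) - c₀ ∈ E
    · rw [if_pos ((h9m_inert_mem_iff hK hσ y hc₀).2 h2), if_pos h2, map_one]
    · rw [if_neg (fun h => h2 ((h9m_inert_mem_iff hK hσ y hc₀).1 h)), if_neg h2, map_zero]
  · unfold h8wCoord
    have h1 : ((h8wAct m σ y : h8wT 𝔾 m) : 𝔾) - c₀ = σ • ((y : 𝔾) - c₀) := by
      rw [h8wAct_coe, h8w_smul_sub, hc₀ σ hσ]
    rw [h1]
    exact hK.z_decomp σ (h8w_inert_le hσ) _

theorem h9m_G_decomp (hK : H9mKer A E z m) :
    ∀ f ∈ h8wG A E z m, ∀ τ ∈ A.decompositionSubgroup ℚ,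
      (fun y => τ (f (h8wAct m τ⁻¹ y))) ∈ h8wG A E z m := by
  rintro f ⟨c₀, hc₀, rfl | rfl⟩ τ hτ
  · refine ⟨τ • c₀, h8w_smul_fixed hτ hc₀, Or.inl ?_⟩
    funext y
    unfold h8wIdem
    have h1 : ((h8wAct m τ⁻¹ y : h8wT 𝔾 m) : 𝔾) - c₀ = τ⁻¹ • ((y : 𝔾) - τ • c₀) := by
      rw [h8wAct_coe, h8w_smul_sub, inv_smul_smul]
    rw [h1]
    by_cases h2 : (y : 𝔾) - τ • c₀ ∈ E
    · rw [if_pos ((h9m_decomp_mem_iff hK (inv_mem hτ) _).2 h2), if_pos h2, map_one]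
    · rw [if_neg (fun h => h2 ((h9m_decomp_mem_iff hK (inv_mem hτ) _).1 h)), if_neg h2,
        map_zero]
  · refine ⟨τ • c₀, h8w_smul_fixed hτ hc₀, Or.inr ?_⟩
    funext y
    unfold h8wCoord
    have h1 : (y : 𝔾) - τ • c₀ = τ • (((h8wAct m τ⁻¹ y : h8wT 𝔾 m) : 𝔾) - c₀) := by
      rw [h8wAct_coe, h8w_smul_sub, smul_inv_smul]
    rw [h1]
    exact (hK.z_decomp τ hτ _).symm

theorem h9m_G_sep (hK : H9mKer A E z m) :
    ∀ y y' : h8wT 𝔾 m, (∀ f ∈ h8wG A E z m, f y = f y') → y = y' := by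
  intro y y' h
  obtain ⟨c₀, hc₀, hy⟩ := hK.lift (y : 𝔾) (h9m_tors y)
  have h1 := h (h8wIdem E m c₀) ⟨c₀, hc₀, Or.inl rfl⟩
  unfold h8wIdem at h1
  rw [if_pos hy] at h1
  have hy' : (y' : 𝔾) - c₀ ∈ E := by
    by_contra hn
    rw [if_neg hn] at h1
    exact one_ne_zero h1
  have h2 : (y : 𝔾) - c₀ = (y' : 𝔾) - c₀ :=
    hK.z_inj _ hy _ hy' (h (h8wCoord z m c₀) ⟨c₀, hc₀, Or.inr rfl⟩)
  exact Subtype.ext (sub_left_injective h2)

/-- pull-backs of elements of `h8wR` lie in the algebra generated by `h8wG`. -/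
theorem h9mPull_mem (hK : H9mKer A E z m) {c₁ : 𝔾}
    (hc₁ : ∀ σ ∈ A.inertiaSubgroupIn ℚ, σ • c₁ = c₁) (S : Set 𝔾)
    (hS : ∀ y : h8wT 𝔾 m, (y : 𝔾) - c₁ ∈ S ↔ (y : 𝔾) - c₁ ∈ E)
    {α : ↥S → Kbar} (hα : α ∈ h8wR A z S) :
    h8wPull m c₁ S α ∈ Algebra.adjoin A (h8wG A E z m) := by
  unfold h8wR at hα
  induction hα using Algebra.adjoin_induction with
  | mem f hf =>
    rw [Set.mem_singleton_iff] at hf
    subst hf
    have h1 : h8wPull m c₁ S (fun x : ↥S => z (x : 𝔾)) = h8wCoord z m c₁ := by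
      funext y
      by_cases h : (y : 𝔾) - c₁ ∈ S
      · rw [h8wPull_pos _ h]
        rfl
      · rw [h8wPull_neg _ h]
        exact (hK.z_out _ (fun h3 => h ((hS y).2 h3))).symm
    rw [h1]
    exact h8wCoord_mem_adjoin hc₁
  | algebraMap r =>
    have h1 : h8wPull m c₁ S (algebraMap A (↥S → Kbar) r) = r • h8wIdem E m c₁ := by
      funext y
      by_cases h : (y : 𝔾) - c₁ ∈ S
      · rw [h8wPull_pos _ h]
        show (r : Kbar) = r • h8wIdem E m c₁ y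
        unfold h8wIdem
        rw [if_pos ((hS y).1 h)]
        show (r : Kbar) = (r : Kbar) * 1
        rw [mul_one]
      · rw [h8wPull_neg _ h]
        show (0 : Kbar) = r • h8wIdem E m c₁ y
        unfold h8wIdem
        rw [if_neg (fun h3 => h ((hS y).2 h3))]
        show (0 : Kbar) = (r : Kbar) * 0
        rw [mul_zero]
    rw [h1]
    exact Subalgebra.smul_mem _ (h8wIdem_mem_adjoin hc₁) r
  | add f f' _ _ hf hf' =>
    have h1 : h8wPull m c₁ S (f + f') = h8wPull m c₁ S f + h8wPull m c₁ S f' := by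
      funext y
      by_cases h : (y : 𝔾) - c₁ ∈ S
      · rw [Pi.add_apply, h8wPull_pos _ h, h8wPull_pos _ h, h8wPull_pos _ h]
        rfl
      · rw [Pi.add_apply, h8wPull_neg _ h, h8wPull_neg _ h, h8wPull_neg _ h, add_zero]
    rw [h1]
    exact add_mem hf hf'
  | mul f f' _ _ hf hf' =>
    have h1 : h8wPull m c₁ S (f * f') = h8wPull m c₁ S f * h8wPull m c₁ S f' := by
      funext y
      by_cases h : (y : 𝔾) - c₁ ∈ S
      · rw [Pi.mul_apply, h8wPull_pos _ h, h8wPull_pos _ h, h8wPull_pos _ h]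
        rfl
      · rw [Pi.mul_apply, h8wPull_neg _ h, h8wPull_neg _ h, h8wPull_neg _ h, mul_zero]
    rw [h1]
    exact mul_mem hf hf'

open Classical in
/-- **one residue class, coordinates**: the only place where the group law is used. -/
theorem h9m_sw_coord [Finite (h8wT 𝔾 m)] (hK : H9mKer A E z m)
    {c₀ c₁ : 𝔾} (hc₀ : ∀ σ ∈ A.inertiaSubgroupIn ℚ, σ • c₀ = c₀)
    (hc₁ : ∀ σ ∈ A.inertiaSubgroupIn ℚ, σ • c₁ = c₁) :
    h96o_Sw A (Algebra.adjoin A (h8wG A E z m)) (Algebra.adjoin A (h8wG A E z m))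
      (fun y y' : h8wT 𝔾 m => if (y : 𝔾) - c₁ ∈ E then h8wCoord z m c₀ (y + y') else 0) := by
  set c₁' : 𝔾 := c₀ - c₁ with hc₁'
  have hfix' : ∀ σ ∈ A.inertiaSubgroupIn ℚ, σ • c₁' = c₁' := h8w_fixed_sub hc₀ hc₁
  set S : Set 𝔾 := {x | x ∈ E ∧ ∃ y : h8wT 𝔾 m, x = (y : 𝔾) - c₁} with hSdef
  set S' : Set 𝔾 := {x | x ∈ E ∧ ∃ y : h8wT 𝔾 m, x = (y : 𝔾) - c₁'} with hS'def
  have hSfin : S.Finite :=
    (Set.finite_range fun y : h8wT 𝔾 m => (y : 𝔾) - c₁).subset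
      (by rintro x ⟨-, y, rfl⟩; exact ⟨y, rfl⟩)
  have hS'fin : S'.Finite :=
    (Set.finite_range fun y : h8wT 𝔾 m => (y : 𝔾) - c₁').subset
      (by rintro x ⟨-, y, rfl⟩; exact ⟨y, rfl⟩)
  have hSsub : S ⊆ (E : Set 𝔾) := fun x hx => hx.1
  have hS'sub : S' ⊆ (E : Set 𝔾) := fun x hx => hx.1
  have hS : ∀ y : h8wT 𝔾 m, (y : 𝔾) - c₁ ∈ S ↔ (y : 𝔾) - c₁ ∈ E := fun y =>
    ⟨fun h => h.1, fun h => ⟨h, y, rfl⟩⟩
  have hS' : ∀ y : h8wT 𝔾 m, (y : 𝔾) - c₁' ∈ S' ↔ (y : 𝔾) - c₁' ∈ E := fun y =>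
    ⟨fun h => h.1, fun h => ⟨h, y, rfl⟩⟩
  have hF := hK.add S S' hSfin hS'fin hSsub hS'sub
  obtain ⟨ι, inst, a, b, ha, hb, hab⟩ := h96o_sw_of_mem_prod hF
  refine ⟨ι, inst, fun k => h8wPull m c₁ S (a k), fun k => h8wPull m c₁' S' (b k),
    fun k => h9mPull_mem hK hc₁ S hS (ha k), fun k => h9mPull_mem hK hfix' S' hS' (hb k),
    fun y y' => ?_⟩
  beta_reduce
  have hsum : ((y + y' : h8wT 𝔾 m) : 𝔾) - c₀ = ((y : 𝔾) - c₁) + ((y' : 𝔾) - c₁') := by
    rw [hc₁']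
    push_cast
    abel
  by_cases h1 : (y : 𝔾) - c₁ ∈ E
  · rw [if_pos h1]
    by_cases h3 : (y' : 𝔾) - c₁' ∈ E
    · have e1 := (hS y).2 h1
      have e2 := (hS' y').2 h3
      have h4 := hab ⟨_, e1⟩ ⟨_, e2⟩
      have h5 : ∀ k, h8wPull m c₁ S (a k) y * h8wPull m c₁' S' (b k) y' =
          a k ⟨_, e1⟩ * b k ⟨_, e2⟩ := fun k => by
        rw [h8wPull_pos _ e1, h8wPull_pos _ e2]
      rw [Finset.sum_congr rfl fun k _ => h5 k, ← h4]
      unfold h8wCoord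
      rw [hsum]
    · have h5 : ∀ k, h8wPull m c₁ S (a k) y * h8wPull m c₁' S' (b k) y' = 0 :=
        fun k => by
          rw [h8wPull_neg (b k) (fun h => h3 ((hS' y').1 h)), mul_zero]
      rw [Finset.sum_congr rfl fun k _ => h5 k, Finset.sum_const_zero]
      unfold h8wCoord
      refine hK.z_out _ ?_
      intro h6
      apply h3
      have : (y' : 𝔾) - c₁' = (((y + y' : h8wT 𝔾 m) : 𝔾) - c₀) - ((y : 𝔾) - c₁) := by
        rw [hsum]; abel
      rw [this]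
      exact sub_mem h6 h1
  · rw [if_neg h1]
    have h5 : ∀ k, h8wPull m c₁ S (a k) y * h8wPull m c₁' S' (b k) y' = 0 :=
      fun k => by
        rw [h8wPull_neg (a k) (fun h => h1 ((hS y).1 h)), zero_mul]
    rw [Finset.sum_congr rfl fun k _ => h5 k, Finset.sum_const_zero]

open Classical in
/-- partition into residue classes. -/
theorem h9m_sw_partition [Finite (h8wT 𝔾 m)] (hK : H9mKer A E z m) (f : h8wT 𝔾 m → Kbar)
    (h : ∀ c₁ : 𝔾, (∀ σ ∈ A.inertiaSubgroupIn ℚ, σ • c₁ = c₁) →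
      h96o_Sw A (Algebra.adjoin A (h8wG A E z m)) (Algebra.adjoin A (h8wG A E z m))
        (fun y y' : h8wT 𝔾 m => if (y : 𝔾) - c₁ ∈ E then f (y + y') else 0)) :
    h96o_Sw A (Algebra.adjoin A (h8wG A E z m)) (Algebra.adjoin A (h8wG A E z m))
      (fun y y' : h8wT 𝔾 m => f (y + y')) := by
  have hL : ∀ y : h8wT 𝔾 m, ∃ c₀ : 𝔾, (∀ σ ∈ A.inertiaSubgroupIn ℚ, σ • c₀ = c₀) ∧
      (y : 𝔾) - c₀ ∈ E := fun y => hK.lift (y : 𝔾) (h9m_tors y)
  let s : Setoid (h8wT 𝔾 m) :=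
    { r := fun y y' => (y : 𝔾) - (y' : 𝔾) ∈ E
      iseqv :=
        { refl := fun y => by
            show (y : 𝔾) - (y : 𝔾) ∈ E
            rw [sub_self]; exact zero_mem _
          symm := fun {y y'} hyy => by
            show (y' : 𝔾) - (y : 𝔾) ∈ E
            have h1 : (y' : 𝔾) - (y : 𝔾) = -((y : 𝔾) - (y' : 𝔾)) := by
              abel
            rw [h1]; exact neg_mem hyy
          trans := fun {y y' y''} h1 h2 => by
            show (y : 𝔾) - (y'' : 𝔾) ∈ E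
            have h3 : (y : 𝔾) - (y'' : 𝔾) =
                ((y : 𝔾) - (y' : 𝔾)) + ((y' : 𝔾) - (y'' : 𝔾)) := by
              abel
            rw [h3]; exact add_mem h1 h2 } }
  have : Finite (Quotient s) := Quotient.finite s
  let _ : Fintype (Quotient s) := Fintype.ofFinite _
  let lam : Quotient s → 𝔾 := fun q => (hL (Quotient.out q : h8wT 𝔾 m)).choose
  have hlam_fix : ∀ q, ∀ σ ∈ A.inertiaSubgroupIn ℚ, σ • lam q = lam q := fun q =>
    (hL (Quotient.out q : h8wT 𝔾 m)).choose_spec.1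
  have hlam_mem : ∀ q, ((Quotient.out q : h8wT 𝔾 m) : 𝔾) - lam q ∈ E :=
    fun q => (hL (Quotient.out q : h8wT 𝔾 m)).choose_spec.2
  have hiff : ∀ (y : h8wT 𝔾 m) (q : Quotient s),
      (y : 𝔾) - lam q ∈ E ↔ q = Quotient.mk s y := by
    intro y q
    constructor
    · intro h1
      have h2 : (y : 𝔾) - ((Quotient.out q : h8wT 𝔾 m) : 𝔾) ∈ E := by
        have : (y : 𝔾) - ((Quotient.out q : h8wT 𝔾 m) : 𝔾) =
            ((y : 𝔾) - lam q) - (((Quotient.out q : h8wT 𝔾 m) : 𝔾) - lam q) := by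
          abel
        rw [this]
        exact sub_mem h1 (hlam_mem q)
      have h3 : Quotient.mk s y = Quotient.mk s (Quotient.out q) := Quotient.sound h2
      rw [h3, Quotient.out_eq]
    · rintro rfl
      have h2 : (y : 𝔾) - ((Quotient.out (Quotient.mk s y) : h8wT 𝔾 m) : 𝔾) ∈ E := by
        have h3 : s.r (Quotient.out (Quotient.mk s y)) y := Quotient.exact (Quotient.out_eq _)
        exact s.iseqv.symm h3
      have : (y : 𝔾) - lam (Quotient.mk s y) =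
          ((y : 𝔾) - ((Quotient.out (Quotient.mk s y) : h8wT 𝔾 m) : 𝔾)) +
            (((Quotient.out (Quotient.mk s y) : h8wT 𝔾 m) : 𝔾) - lam (Quotient.mk s y)) := by
        abel
      rw [this]
      exact add_mem h2 (hlam_mem _)
  have hsum := h96o_sw_sum (A := A) (R := Algebra.adjoin A (h8wG A E z m))
    (R' := Algebra.adjoin A (h8wG A E z m)) (Finset.univ : Finset (Quotient s))
    (F := fun q => fun y y' : h8wT 𝔾 m => if (y : 𝔾) - lam q ∈ E then f (y + y') else 0)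
    (fun q _ => h (lam q) (hlam_fix q))
  refine h96o_sw_congr hsum fun y y' => ?_
  rw [Finset.sum_eq_single (Quotient.mk s y)]
  · rw [if_pos ((hiff y _).2 rfl)]
  · intro q _ hq
    rw [if_neg (fun h1 => hq ((hiff y q).1 h1))]
  · intro h1
    exact absurd (Finset.mem_univ _) h1

theorem h9m_G_comul [Finite (h8wT 𝔾 m)] (hK : H9mKer A E z m) :
    ∀ f ∈ h8wG A E z m, ∃ (n : ℕ) (a b : Fin n → h8wT 𝔾 m → Kbar),
      (∀ i, a i ∈ Algebra.adjoin A (h8wG A E z m)) ∧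
      (∀ i, b i ∈ Algebra.adjoin A (h8wG A E z m)) ∧
      ∀ x y, f (x + y) = ∑ i, a i x * b i y := by
  rintro f ⟨c₀, hc₀, rfl | rfl⟩
  · exact h96o_sw_fin (h9m_sw_partition hK _ fun c₁ hc₁ => h8w_sw_idem hc₀ hc₁)
  · exact h96o_sw_fin (h9m_sw_partition hK _ fun c₁ hc₁ => h9m_sw_coord hK hc₀ hc₁)

/-- **ASM, abstract form**: the local order of a one-parameter kernel of reduction. -/
theorem h9m_locOrder (hK : H9mKer A E z m) [Finite (h8wT 𝔾 m)] :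
    H96LocOrder A (h8wAct (𝔾 := 𝔾) m) (h8wG A E z m) :=
  { int := h9m_G_int hK
    inert := h9m_G_inert hK
    decomp := h9m_G_decomp hK
    sep := h9m_G_sep hK
    comul := h9m_G_comul hK }

end Main

end Fermat.Agent.P7
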